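/-
PROGRAMME R2 = S59, node [FLR], `T`-side, **level maps at `Γ_H`-level: the concrete instances**
(helper4, prefix `s59f_`).  `G = Γ_H(L)`, `G' = Γ_{H'}(L q)` (`H'` = the preimage of `H`).
* `s59f_isG'_GammaH` : `Γ_{H'}(N')`, `N' = L q`, `H' = {u | u mod L ∈ H}`, satisfies `s59f_IsG'`;
* `s59f_Tp_cls` : the representatives of `T_ℓ` have class `1`;
* the transfer commutes with `T_ℓ` (`ℓ ∤ L q`), the diamonds and `U_{q'}` (`q' ∣ L`):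
  `s59f_corH_Tp`, `s59f_corH_diamond`, `s59f_corH_Uq`;
* `w` commutes with them: `s59f_wH_Tp`, `s59f_wH_diamond`, `s59f_wH_Uq`;
* `s59f_res_cor_w_Uq : res (cor (w ψ)) = U_q ψ + w ψ`, `s59f_cor_w_res_Tq : cor (w (res φ)) = T_q φ`,
  `s59f_wH_wH_diamond : w (w ψ) = ⟨γ_W⟩ ψ`.
-/
import Mathlib
import Fermat.Agent.Lib.S59.FOldH5
import Fermat.Agent.Lib.S59.WUq

set_option autoImplicit false
set_option linter.unusedSectionVars false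
set_option linter.unusedVariables false
set_option linter.style.haveILetI false

noncomputable section

namespace Fermat.Agent.Lib.S59

open CongruenceSubgroup ModularCurve.Period
open Fermat.Agent.Lib.ES Fermat.Agent.Lib.S29 Fermat.Agent.Lib.S41 Fermat.Agent.Lib.S48
open P2MW.S_ModularForm_heckeT_slash_eq_self_of_mem_Gamma0.ModularForm.HeckeSlashInvariance
open scoped MatrixGroups OnePoint

local notation "Mat2" => Matrix (Fin 2) (Fin 2) ℤ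

section Inst

variable {L q : ℕ} [NeZero L] [hq : Fact q.Prime] (hqL : ¬ q ∣ L) {H : Subgroup (ZMod L)ˣ}

include hqL in
/-- **`Γ_{H'}(L q)` with `H'` the preimage of `H` is a group `G'`.** -/
theorem s59f_isG'_GammaH {N' : ℕ} [NeZero N'] (hN' : N' = L * q) (hLN : L ∣ N')
    {H' : Subgroup (ZMod N')ˣ} (hH' : ∀ u : (ZMod N')ˣ, u ∈ H' ↔ ZMod.unitsMap hLN u ∈ H) :
    s59f_IsG' L q H (s48h_GammaH N' H') := by
  intro γ
  rw [s59f_mem_GammaH_iff]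
  have hcast : ∀ z : ℤ, ZMod.castHom hLN (ZMod L) ((z : ℤ) : ZMod N') = ((z : ℤ) : ZMod L) :=
    fun z => map_intCast _ z
  constructor
  · rintro ⟨h10, u, hu, ha⟩
    have h10' : ((L * q : ℕ) : ℤ) ∣ (γ : Mat2) 1 0 := by rw [← hN']; exact h10
    obtain ⟨hL, hq'⟩ := s41l_dvd_of_Ml_dvd L q h10'
    refine ⟨hq', hL, ZMod.unitsMap hLN u, (hH' u).mp hu, ?_⟩
    rw [Units.val_one, one_mul] at ha ⊢
    rw [← hcast, ha]
    rfl
  · rintro ⟨hq', hL, u, hu, ha⟩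
    have h10 : (N' : ℤ) ∣ (γ : Mat2) 1 0 := by rw [hN']; exact s41l_Ml_dvd L q hqL hL hq'
    have hunit := s59f_diag_mul (L := N') γ h10
    refine ⟨h10, Units.mkOfMulEqOne _ _ hunit, ?_, ?_⟩
    · rw [hH']
      have : ZMod.unitsMap hLN (Units.mkOfMulEqOne _ _ hunit) = u := by
        apply Units.ext
        rw [Units.val_one, one_mul] at ha
        rw [← ha, ← hcast]
        rfl
      rw [this]
      exact hu
    · rw [Units.val_one, one_mul]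
      rfl

/-- the representatives of `T_ℓ` have class `1`. -/
theorem s59f_Tp_cls {ℓ : ℕ} [Fact ℓ.Prime] {σ : SL(2, ℤ)} (hσ : σ ∈ Gamma0 L)
    (hσ11 : ((σ 1 1 : ℤ) : ZMod L) = (ℓ : ZMod L)) (x : OnePoint (ZMod ℓ)) :
    s59f_cls L H 1 ((s48h_tw ℓ σ x : Mat2) * heckeRepZ ℓ x) := by
  have h10 : (L : ℤ) ∣ (σ : Mat2) 1 0 :=
    (ZMod.intCast_zmod_eq_zero_iff_dvd _ _).mp (Gamma0_mem.mp hσ)
  induction x using OnePoint.rec with
  | infty =>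
    rw [s48h_tw_infty, s41l_heckeRepZ_infty]
    obtain ⟨h00, -, h10', -⟩ := s41l_mul_apply (σ : Mat2) !![(ℓ : ℤ), 0; 0, 1]
    refine ⟨?_, 1, one_mem _, ?_⟩
    · rw [h10']
      simp only [Matrix.of_apply, Matrix.cons_val_zero, Matrix.cons_val_one,
        Matrix.cons_val', Matrix.empty_val', Matrix.cons_val_fin_one, mul_zero, add_zero]
      exact Dvd.dvd.mul_right h10 _
    · rw [h00]
      simp only [Matrix.of_apply, Matrix.cons_val_zero, Matrix.cons_val_one,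
        Matrix.cons_val', Matrix.empty_val', Matrix.cons_val_fin_one, mul_zero, add_zero]
      have h1 := s59f_diag_mul (L := L) σ h10
      have hσ11' : (((σ : Mat2) 1 1 : ℤ) : ZMod L) = (ℓ : ZMod L) := hσ11
      rw [hσ11'] at h1
      rw [Int.cast_mul, Int.cast_natCast, h1, Units.val_one, one_mul]
  | coe j =>
    rw [s48h_tw_coe, Matrix.SpecialLinearGroup.coe_one, Matrix.one_mul, s41l_heckeRepZ_coe]
    refine ⟨?_, 1, one_mem _, ?_⟩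
    · simp
    · simp

/-! ### Consequences of `σ ∈ Γ₀(L q)` -/

theorem s59f_Gamma0_of_mul {σ : SL(2, ℤ)} (hσ' : σ ∈ Gamma0 (L * q)) :
    σ ∈ Gamma0 L ∧ (q : ℤ) ∣ (σ : Mat2) 1 0 := by
  haveI : NeZero (L * q) := ⟨Nat.mul_ne_zero (NeZero.ne L) hq.out.ne_zero⟩
  have h1 : ((L * q : ℕ) : ℤ) ∣ (σ : Mat2) 1 0 :=
    (ZMod.intCast_zmod_eq_zero_iff_dvd _ _).mp (Gamma0_mem.mp hσ')
  obtain ⟨hL, hq'⟩ := s41l_dvd_of_Ml_dvd L q h1
  exact ⟨Gamma0_mem.mpr ((ZMod.intCast_zmod_eq_zero_iff_dvd _ _).mpr hL), hq'⟩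

theorem s59f_lr_of_mul {σ : SL(2, ℤ)} {ℓ : ℕ}
    (h : ((σ 1 1 : ℤ) : ZMod (L * q)) = (ℓ : ZMod (L * q))) :
    ((σ 1 1 : ℤ) : ZMod L) = (ℓ : ZMod L) := by
  have := congrArg (ZMod.castHom (dvd_mul_right L q) (ZMod L)) h
  rwa [map_intCast, map_natCast] at this

theorem s59f_prime_ne_of_not_dvd {ℓ : ℕ} [hℓ : Fact ℓ.Prime] (hℓ' : ¬ ℓ ∣ L * q) :
    ¬ (q : ℤ) ∣ (ℓ : ℤ) := by
  intro h
  have h1 : q ∣ ℓ := Int.natCast_dvd_natCast.mp h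
  have h2 : q = ℓ := (Nat.prime_dvd_prime_iff_eq hq.out hℓ.out).mp h1
  exact hℓ' (h2 ▸ dvd_mul_left q L)

theorem s59f_tw_dvd {ℓ : ℕ} [Fact ℓ.Prime] {σ : SL(2, ℤ)} (hσ' : σ ∈ Gamma0 (L * q))
    (x : OnePoint (ZMod ℓ)) : (q : ℤ) ∣ ((s48h_tw ℓ σ x : SL(2, ℤ)) : Mat2) 1 0 := by
  induction x using OnePoint.rec with
  | infty => exact (s59f_Gamma0_of_mul hσ').2
  | coe j => simp

theorem s59f_heckeRepZ_borel {ℓ : ℕ} [Fact ℓ.Prime] (hℓ' : ¬ ℓ ∣ L * q) (x : OnePoint (ZMod ℓ)) :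
    (q : ℤ) ∣ (heckeRepZ ℓ x) 1 0 ∧ ¬ (q : ℤ) ∣ (heckeRepZ ℓ x) 1 1 := by
  induction x using OnePoint.rec with
  | infty =>
    rw [s41l_heckeRepZ_infty]
    refine ⟨by simp, ?_⟩
    simp only [Matrix.of_apply, Matrix.cons_val_one, Matrix.cons_val', Matrix.empty_val',
      Matrix.cons_val_fin_one]
    exact s41l_not_dvd_one q
  | coe j =>
    rw [s41l_heckeRepZ_coe]
    refine ⟨by simp, ?_⟩
    simp only [Matrix.of_apply, Matrix.cons_val_one, Matrix.cons_val', Matrix.empty_val',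
      Matrix.cons_val_fin_one]
    exact s59f_prime_ne_of_not_dvd hℓ'

theorem s59f_Tp_borel {ℓ : ℕ} [Fact ℓ.Prime] (hℓ' : ¬ ℓ ∣ L * q) {σ : SL(2, ℤ)}
    (hσ' : σ ∈ Gamma0 (L * q)) (x : OnePoint (ZMod ℓ)) :
    (q : ℤ) ∣ ((s48h_tw ℓ σ x : Mat2) * heckeRepZ ℓ x) 1 0 ∧
      ¬ (q : ℤ) ∣ ((s48h_tw ℓ σ x : Mat2) * heckeRepZ ℓ x) 1 1 :=
  s59f_borel_mul (s48h_tw ℓ σ x) (heckeRepZ ℓ x) (s59f_tw_dvd hσ' x)
    (s59f_heckeRepZ_borel hℓ' x).1 (s59f_heckeRepZ_borel hℓ' x).2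

/-! ### The transfer and the Hecke operators -/

section Cor

variable {N' : ℕ} [NeZero N'] (hN' : N' = L * q) {H' : Subgroup (ZMod N')ˣ}
  (hG' : s59f_IsG' L q H (s48h_GammaH N' H')) {A : Type*} [AddCommGroup A]

include hN' in
/-- **the transfer commutes with `T_ℓ`**, `ℓ ∤ L q`. -/
theorem s59f_corH_Tp {ℓ : ℕ} [Fact ℓ.Prime] (hℓ' : ¬ ℓ ∣ N') (hℓ : ¬ ℓ ∣ L) {σ : SL(2, ℤ)}
    (hσ' : σ ∈ Gamma0 N') (hσ11' : ((σ 1 1 : ℤ) : ZMod N') = (ℓ : ZMod N'))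
    (hσ : σ ∈ Gamma0 L) (hσ11 : ((σ 1 1 : ℤ) : ZMod L) = (ℓ : ZMod L))
    (ψ : Additive (s48h_GammaH N' H') →+ A) :
    s59f_corH hqL (s59f_isG_GammaH L H) hG' A (s48h_TpH H' hℓ' σ hσ' hσ11' A ψ) =
      s48h_TpH H hℓ σ hσ hσ11 A (s59f_corH hqL (s59f_isG_GammaH L H) hG' A ψ) := by
  subst hN'
  exact s59f_corH_datum hqL (s59f_isG_GammaH L H) hG' (s48h_TpDatum H hℓ σ hσ hσ11)
    (s48h_TpDatum H' hℓ' σ hσ' hσ11') (fun _ => rfl) (s59w_Tp_irr hℓ σ hσ hσ11).irred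
    (s59w_Tp_irr hℓ' σ hσ' hσ11').irred (fun x => s59f_Tp_borel hℓ' hσ' x) ψ

include hN' in
/-- **the transfer commutes with the diamond operators.** -/
theorem s59f_corH_diamond {σ : SL(2, ℤ)} (hσ' : σ ∈ Gamma0 N') (hσ : σ ∈ Gamma0 L)
    (ψ : Additive (s48h_GammaH N' H') →+ A) :
    s59f_corH hqL (s59f_isG_GammaH L H) hG' A (s48h_diamondH H' σ hσ' A ψ) =
      s48h_diamondH H σ hσ A (s59f_corH hqL (s59f_isG_GammaH L H) hG' A ψ) := by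
  subst hN'
  have hirr : ∀ {Γ : Subgroup SL(2, ℤ)} (D : s48h_MatDatum Γ Unit), s59w_Irred D :=
    fun D x y k _ => Subsingleton.elim x y
  refine s59f_corH_datum hqL (s59f_isG_GammaH L H) hG' (s48h_diamondDatum H σ hσ)
    (s48h_diamondDatum H' σ hσ') (fun _ => rfl) (hirr _) (hirr _) (fun x => ?_) ψ
  exact ⟨(s59f_Gamma0_of_mul hσ').2, s59f_not_dvd_lr σ (s59f_Gamma0_of_mul hσ').2⟩

include hN' in
/-- **the transfer commutes with `U_{q'}`**, `q' ∣ L`. -/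
theorem s59f_corH_Uq {q' : ℕ} [hq' : Fact q'.Prime] (hq'N : q' ∣ N') (hq'L : q' ∣ L)
    (ψ : Additive (s48h_GammaH N' H') →+ A) :
    s59f_corH hqL (s59f_isG_GammaH L H) hG' A ((s59w_UqDatum H' hq'N).heckeHom A ψ) =
      (s59w_UqDatum H hq'L).heckeHom A (s59f_corH hqL (s59f_isG_GammaH L H) hG' A ψ) := by
  subst hN'
  refine s59f_corH_datum hqL (s59f_isG_GammaH L H) hG' (s59w_UqDatum H hq'L)
    (s59w_UqDatum H' hq'N) (fun _ => rfl) (s59w_Uq_irr hq'L).irred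
    (s59w_Uq_irr hq'N).irred (fun j => ?_) ψ
  rw [s59w_UqDatum_α, s59w_heckeMatZ_eq, s41l_heckeRepZ_coe]
  refine ⟨by simp, ?_⟩
  simp only [Matrix.of_apply, Matrix.cons_val_one, Matrix.cons_val', Matrix.empty_val',
    Matrix.cons_val_fin_one]
  intro h
  have h1 : q ∣ q' := Int.natCast_dvd_natCast.mp h
  have h2 : q = q' := (Nat.prime_dvd_prime_iff_eq hq.out hq'.out).mp h1
  exact hqL (h2 ▸ hq'L)

end Cor

/-! ### `w` and the Hecke operators -/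

section WComm

variable {H' : Subgroup (ZMod (L * q))ˣ} (hG' : s59f_IsG' L q H (s48h_GammaH (L * q) H'))

include hG' in
/-- the `W`-conjugate of a representative of `T_ℓ` is in the coset of a representative. -/
theorem s59f_conj_Tp {ℓ : ℕ} [Fact ℓ.Prime] (hℓ' : ¬ ℓ ∣ L * q) {σ : SL(2, ℤ)}
    (hσ' : σ ∈ Gamma0 (L * q)) (hσ11' : ((σ 1 1 : ℤ) : ZMod (L * q)) = (ℓ : ZMod (L * q)))
    (x : OnePoint (ZMod ℓ)) :
    ∃ (x' : OnePoint (ZMod ℓ)) (k : s48h_GammaH (L * q) H'),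
      (s48h_TpDatum H' hℓ' σ hσ' hσ11').α x * s41l_W L q hqL =
        s59f_i (s48h_GammaH (L * q) H') k *
          (s41l_W L q hqL * (s48h_TpDatum H' hℓ' σ hσ' hσ11').α x') := by
  obtain ⟨m, hm⟩ : ∃ m : Mat2, m = (s48h_tw ℓ σ x : Mat2) * heckeRepZ ℓ x := ⟨_, rfl⟩
  have hσL := s59f_Gamma0_of_mul hσ'
  have hcls : s59f_cls L H 1 m := hm ▸ s59f_Tp_cls hσL.1 (s59f_lr_of_mul hσ11') x
  obtain ⟨c', hc'⟩ : (q : ℤ) ∣ m 1 0 := hm ▸ (s59f_Tp_borel hℓ' hσ' x).1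
  obtain ⟨m', hm'⟩ : ∃ m' : Mat2, m' = s59f_conjW hqL m c' := ⟨_, rfl⟩
  have hW : s41l_W L q hqL * m' = m * s41l_W L q hqL := hm' ▸ s59f_W_mul_conjW hqL m c' hc'
  have hdet : m'.det = ℓ := by
    rw [hm', s59f_conjW_det hqL m c' hc', hm, Matrix.det_mul,
      Matrix.SpecialLinearGroup.det_coe, one_mul, det_heckeRepZ]
  have hcls' : s59f_cls L H 1 m' := hm' ▸ s59f_conjW_cls hqL m c' hcls
  have hdvd : ((L * q : ℕ) : ℤ) ∣ m' 1 0 :=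
    s41l_Ml_dvd L q hqL hcls'.1 (hm' ▸ s59f_conjW_dvd hqL m c')
  obtain ⟨y, h, hy⟩ := s41l_dec_T (L * q) ℓ hℓ' m' hdet hdvd
  have hk0 : (h : SL(2, ℤ)) * (s48h_tw ℓ σ y)⁻¹ ∈ Gamma0 (L * q) :=
    mul_mem h.2 (inv_mem (s48h_tw_mem hσ' y))
  have hdec : m' = (((h : SL(2, ℤ)) * (s48h_tw ℓ σ y)⁻¹ : SL(2, ℤ)) : Mat2) *
      ((s48h_tw ℓ σ y : Mat2) * heckeRepZ ℓ y) := by
    rw [hy, s41l_i_apply, ← Matrix.mul_assoc, ← Matrix.SpecialLinearGroup.coe_mul,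
      inv_mul_cancel_right]
  have hk : (h : SL(2, ℤ)) * (s48h_tw ℓ σ y)⁻¹ ∈ s48h_GammaH (L * q) H' := by
    refine hG'.of_Gamma0 hk0 ?_
    have h1 := s59f_cls_cancel (s59f_Tp_cls (H := H) hσL.1 (s59f_lr_of_mul hσ11') y)
      (hdec ▸ hcls')
    rwa [inv_one, mul_one] at h1
  refine ⟨y, s59f_cW hqL hG' ⟨_, hk⟩, ?_⟩
  have := s59f_conj_of_dec hqL hG' m m' _ hW ⟨_, hk⟩ hdec
  rw [hm] at this
  exact this

/-- **`w` commutes with `T_ℓ`**, `ℓ ∤ L q`. -/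
theorem s59f_wH_Tp {ℓ : ℕ} [Fact ℓ.Prime] (hℓ' : ¬ ℓ ∣ L * q) {σ : SL(2, ℤ)}
    (hσ' : σ ∈ Gamma0 (L * q)) (hσ11' : ((σ 1 1 : ℤ) : ZMod (L * q)) = (ℓ : ZMod (L * q)))
    {A : Type*} [AddCommGroup A] (ψ : Additive (s48h_GammaH (L * q) H') →+ A) :
    s59f_wH hqL hG' A (s48h_TpH H' hℓ' σ hσ' hσ11' A ψ) =
      s48h_TpH H' hℓ' σ hσ' hσ11' A (s59f_wH hqL hG' A ψ) := by
  refine s59f_wH_datum hqL hG' (s48h_TpDatum H' hℓ' σ hσ' hσ11') (s59w_Tp_irr hℓ' σ hσ' hσ11')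
    ?_ (fun x => s59f_conj_Tp hqL hG' hℓ' hσ' hσ11' x) ψ
  rw [Int.isCoprime_iff_gcd_eq_one, Int.gcd_natCast_natCast]
  refine (Nat.coprime_primes hq.out Fact.out).mpr ?_
  rintro rfl
  exact hℓ' (dvd_mul_left _ _)

/-- **`w` commutes with the diamond operators.** -/
theorem s59f_wH_diamond {σ : SL(2, ℤ)} (hσ' : σ ∈ Gamma0 (L * q))
    {A : Type*} [AddCommGroup A] (ψ : Additive (s48h_GammaH (L * q) H') →+ A) :
    s59f_wH hqL hG' A (s48h_diamondH H' σ hσ' A ψ) =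
      s48h_diamondH H' σ hσ' A (s59f_wH hqL hG' A ψ) := by
  refine s59f_wH_datum hqL hG' (s48h_diamondDatum H' σ hσ') (m := 1)
    (fun _ _ y y' _ _ => Subsingleton.elim y y') isCoprime_one_right (fun x => ?_) ψ
  have hσL := s59f_Gamma0_of_mul hσ'
  have h10 : (L : ℤ) ∣ (σ : Mat2) 1 0 :=
    (ZMod.intCast_zmod_eq_zero_iff_dvd _ _).mp (Gamma0_mem.mp hσL.1)
  have hunit := s59f_diag_mul (L := L) σ h10
  obtain ⟨c, hc⟩ : ∃ c : (ZMod L)ˣ, c = Units.mkOfMulEqOne _ _ hunit := ⟨_, rfl⟩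
  have hcls : s59f_cls L H c (σ : Mat2) := by
    refine ⟨h10, 1, one_mem _, ?_⟩
    rw [hc, Units.val_one, mul_one]
    rfl
  obtain ⟨c', hc'⟩ := hσL.2
  obtain ⟨m', hm'⟩ : ∃ m' : Mat2, m' = s59f_conjW hqL (σ : Mat2) c' := ⟨_, rfl⟩
  have hW : s41l_W L q hqL * m' = (σ : Mat2) * s41l_W L q hqL :=
    hm' ▸ s59f_W_mul_conjW hqL (σ : Mat2) c' hc'
  have hdet : m'.det = 1 := by
    rw [hm', s59f_conjW_det hqL (σ : Mat2) c' hc', Matrix.SpecialLinearGroup.det_coe]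
  have hcls' : s59f_cls L H c m' := hm' ▸ s59f_conjW_cls hqL (σ : Mat2) c' hcls
  have hdvd : ((L * q : ℕ) : ℤ) ∣ m' 1 0 :=
    s41l_Ml_dvd L q hqL hcls'.1 (hm' ▸ s59f_conjW_dvd hqL (σ : Mat2) c')
  obtain ⟨μ, hμ⟩ : ∃ μ : SL(2, ℤ), μ = ⟨m', hdet⟩ := ⟨_, rfl⟩
  have hμm : (μ : Mat2) = m' := by rw [hμ]
  have hμ0 : μ ∈ Gamma0 (L * q) := by
    haveI : NeZero (L * q) := ⟨Nat.mul_ne_zero (NeZero.ne L) hq.out.ne_zero⟩
    refine Gamma0_mem.mpr ((ZMod.intCast_zmod_eq_zero_iff_dvd _ _).mpr ?_)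
    have : (μ 1 0 : ℤ) = m' 1 0 := by rw [← hμm]
    rw [this]
    exact hdvd
  have hk0 : μ * σ⁻¹ ∈ Gamma0 (L * q) := mul_mem hμ0 (inv_mem hσ')
  have hdec : m' = ((μ * σ⁻¹ : SL(2, ℤ)) : Mat2) * (σ : Mat2) := by
    rw [← Matrix.SpecialLinearGroup.coe_mul, inv_mul_cancel_right, hμm]
  have hk : μ * σ⁻¹ ∈ s48h_GammaH (L * q) H' := by
    refine hG'.of_Gamma0 hk0 ?_
    have h1 := s59f_cls_cancel hcls (hdec ▸ hcls')
    rwa [mul_inv_cancel] at h1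
  refine ⟨(), s59f_cW hqL hG' ⟨_, hk⟩, ?_⟩
  exact s59f_conj_of_dec hqL hG' (σ : Mat2) m' _ hW ⟨_, hk⟩ hdec

theorem s59f_heckeMatZ_cls {q' : ℕ} [Fact q'.Prime] (j : ZMod q') :
    s59f_cls L H 1 (heckeMatZ q' j.val) := by
  rw [s59w_heckeMatZ_eq, s41l_heckeRepZ_coe]
  exact ⟨by simp, 1, one_mem _, by simp⟩

include hG' in
/-- the `W`-conjugate of a representative of `U_{q'}` is in the coset of a representative. -/
theorem s59f_conj_Uq {q' : ℕ} [hq' : Fact q'.Prime] (hq'N : q' ∣ L * q) (hq'L : q' ∣ L)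
    (j : ZMod q') :
    ∃ (j' : ZMod q') (k : s48h_GammaH (L * q) H'),
      (s59w_UqDatum H' hq'N).α j * s41l_W L q hqL =
        s59f_i (s48h_GammaH (L * q) H') k *
          (s41l_W L q hqL * (s59w_UqDatum H' hq'N).α j') := by
  obtain ⟨m, hm⟩ : ∃ m : Mat2, m = heckeMatZ q' j.val := ⟨_, rfl⟩
  have hm00 : m 0 0 = 1 := by rw [hm, s59w_heckeMatZ_eq, s41l_heckeRepZ_coe]; rfl
  have hm01 : m 0 1 = (j.val : ℤ) := by rw [hm, s59w_heckeMatZ_eq, s41l_heckeRepZ_coe]; rfl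
  have hm10 : m 1 0 = 0 := by rw [hm, s59w_heckeMatZ_eq, s41l_heckeRepZ_coe]; rfl
  have hm11 : m 1 1 = (q' : ℤ) := by rw [hm, s59w_heckeMatZ_eq, s41l_heckeRepZ_coe]; rfl
  have hcls : s59f_cls L H 1 m := hm ▸ s59f_heckeMatZ_cls j
  have hc' : m 1 0 = (q : ℤ) * 0 := by rw [hm10, mul_zero]
  obtain ⟨m', hm'⟩ : ∃ m' : Mat2, m' = s59f_conjW hqL m 0 := ⟨_, rfl⟩
  have hW : s41l_W L q hqL * m' = m * s41l_W L q hqL := hm' ▸ s59f_W_mul_conjW hqL m 0 hc'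
  have hdet : m'.det = q' := by
    rw [hm', s59f_conjW_det hqL m 0 hc', hm, det_heckeMatZ]
  have hcls' : s59f_cls L H 1 m' := hm' ▸ s59f_conjW_cls hqL m 0 hcls
  have hdvd : ((L * q : ℕ) : ℤ) ∣ m' 1 0 :=
    s41l_Ml_dvd L q hqL hcls'.1 (hm' ▸ s59f_conjW_dvd hqL m 0)
  obtain ⟨L₀, hL₀⟩ := hq'L
  have hMq : L₀ * q * q' = L * q := by rw [hL₀]; ring
  have hst := s41l_st L q hqL
  have hLz : (L : ℤ) = (q' : ℤ) * (L₀ : ℤ) := by rw [hL₀]; push_cast; ring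
  have h00 : m' 0 0 = ((q : ℤ) * m 0 0 + s41l_s L q hqL * m 1 0) * s41l_t L q hqL +
      ((q : ℤ) * m 0 1 + s41l_s L q hqL * m 1 1) * (L : ℤ) := by
    rw [hm', s59f_conjW]; rfl
  have h11 : m' 1 1 = (L : ℤ) * s41l_s L q hqL * m 0 0 - s41l_t L q hqL * s41l_s L q hqL * m 1 0 -
      (L : ℤ) * (q : ℤ) * m 0 1 + s41l_t L q hqL * (q : ℤ) * m 1 1 := by
    rw [hm', s59f_conjW]; rfl
  have hD : (q' : ℤ) ∣ m' 1 1 := by
    rw [h11, hm00, hm01, hm10, hm11, hLz]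
    exact ⟨(L₀ : ℤ) * s41l_s L q hqL - (L₀ : ℤ) * (q : ℤ) * (j.val : ℤ) +
      s41l_t L q hqL * (q : ℤ), by ring⟩
  have hA : ¬ (q' : ℤ) ∣ m' 0 0 := by
    intro hd
    rw [h00, hm00, hm01, hm10, hm11, hLz] at hd
    refine s41l_not_dvd_one q' ?_
    rw [← hst, hLz]
    obtain ⟨e, he⟩ := hd
    exact ⟨e - ((q : ℤ) * (j.val : ℤ) + s41l_s L q hqL * (q' : ℤ)) * (L₀ : ℤ) +
      s41l_s L q hqL * (L₀ : ℤ), by linear_combination he⟩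
  have hC : ((L₀ * q * q' : ℕ) : ℤ) ∣ m' 1 0 := by rw [hMq]; exact hdvd
  obtain ⟨j', h, hj'⟩ := s41l_dec_U (L₀ * q) q' m' hdet hC hD hA
  have hk0 : (h : SL(2, ℤ)) ∈ Gamma0 (L * q) := hMq ▸ h.2
  have hdec : m' = ((h : SL(2, ℤ)) : Mat2) * heckeMatZ q' j'.val := hj'
  have hk : (h : SL(2, ℤ)) ∈ s48h_GammaH (L * q) H' := by
    refine hG'.of_Gamma0 hk0 ?_
    have h1 := s59f_cls_cancel (s59f_heckeMatZ_cls (H := H) j') (hdec ▸ hcls')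
    rwa [inv_one, mul_one] at h1
  refine ⟨j', s59f_cW hqL hG' ⟨_, hk⟩, ?_⟩
  have := s59f_conj_of_dec hqL hG' m m' _ hW ⟨_, hk⟩ hdec
  rw [hm] at this
  exact this

/-- **`w` commutes with `U_{q'}`**, `q' ∣ L`. -/
theorem s59f_wH_Uq {q' : ℕ} [hq' : Fact q'.Prime] (hq'N : q' ∣ L * q) (hq'L : q' ∣ L)
    {A : Type*} [AddCommGroup A] (ψ : Additive (s48h_GammaH (L * q) H') →+ A) :
    s59f_wH hqL hG' A ((s59w_UqDatum H' hq'N).heckeHom A ψ) =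
      (s59w_UqDatum H' hq'N).heckeHom A (s59f_wH hqL hG' A ψ) := by
  refine s59f_wH_datum hqL hG' (s59w_UqDatum H' hq'N) (s59w_Uq_irr hq'N)
    ?_ (fun j => s59f_conj_Uq hqL hG' hq'N hq'L j) ψ
  rw [Int.isCoprime_iff_gcd_eq_one, Int.gcd_natCast_natCast]
  refine (Nat.coprime_primes hq.out hq'.out).mpr ?_
  rintro rfl
  exact hqL hq'L

/-! ### The identifications -/

/-- **`res ∘ cor ∘ w = U_q + w`.** -/
theorem s59f_res_cor_w_Uq (hqN' : q ∣ L * q) {A : Type*} [AddCommGroup A]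
    (ψ : Additive (s48h_GammaH (L * q) H') →+ A) :
    s59t_resG (hG'.le (s59f_isG_GammaH L H)) A
        (s59f_corH hqL (s59f_isG_GammaH L H) hG' A (s59f_wH hqL hG' A ψ)) =
      (s59w_UqDatum H' hqN').heckeHom A ψ + s59f_wH hqL hG' A ψ := by
  have h := s59f_res_cor_w hqL (s59f_isG_GammaH L H) hG'
    (s59f_famOfDatum (s59w_UqDatum H' hqN') (s59w_Uq_irr hqN').irred) (fun j => rfl) ψ
  rwa [s59f_famOfDatum_op] at h

/-- **`cor ∘ w ∘ res = T_q`.** -/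
theorem s59f_cor_w_res_Tq {σ : SL(2, ℤ)} (hσ : σ ∈ Gamma0 L)
    (hσ11 : ((σ 1 1 : ℤ) : ZMod L) = (q : ZMod L)) {A : Type*} [AddCommGroup A]
    (φ : Additive (s48h_GammaH L H) →+ A) :
    s59f_corH hqL (s59f_isG_GammaH L H) hG' A
        (s59f_wH hqL hG' A (s59t_resG (hG'.le (s59f_isG_GammaH L H)) A φ)) =
      s48h_TpH H hqL σ hσ hσ11 A φ := by
  have h := s59f_cor_w_res hqL (s59f_isG_GammaH L H) hG'
    (s59f_famOfDatum (s48h_TpDatum H hqL σ hσ hσ11) (s59w_Tp_irr hqL σ hσ hσ11).irred)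
    (fun y => ⟨s48h_tw q σ y, rfl⟩) (fun y => s59f_Tp_cls hσ hσ11 y) φ
  rwa [s59f_famOfDatum_op] at h

/-- **`w ∘ w = ⟨γ_W⟩`.** -/
theorem s59f_wH_wH_diamond {A : Type*} [AddCommGroup A]
    (ψ : Additive (s48h_GammaH (L * q) H') →+ A) :
    s59f_wH hqL hG' A (s59f_wH hqL hG' A ψ) =
      s48h_diamondH H' (s59f_gW hqL) (s59f_gW_mem hqL) A ψ := by
  refine AddMonoidHom.ext fun a => ?_
  obtain ⟨γ, rfl⟩ := Additive.ofMul.surjective a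
  rw [s59f_wH_wH, s48h_diamondH_apply]

/-- the lower right entry of `γ_W` is `q` mod `L`. -/
theorem s59f_gW_lr : (((s59f_gW hqL) 1 1 : ℤ) : ZMod L) = (q : ZMod L) := by
  have h : (s59f_gW hqL) 1 1 = (q : ℤ) - (L : ℤ) * s41l_s L q hqL := rfl
  rw [h, Int.cast_sub, Int.cast_mul, Int.cast_natCast, Int.cast_natCast, ZMod.natCast_self,
    zero_mul, sub_zero]

theorem s59f_gW_mem_L : s59f_gW hqL ∈ Gamma0 L := (s59f_Gamma0_of_mul (s59f_gW_mem hqL)).1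

end WComm

end Inst

end Fermat.Agent.Lib.S59
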