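/-
S59 project, case (P), route (T5w), [W4c] (helper9, prefix `s59m_`): **THE FLAT DATA OF THE `p`-FREE TAYLOR–WILES LEVEL OVER A GIVEN BUNDLE** — input
(D) of helper7's `Internal.s59x_concZ_T5w` (NXConcT5: `a₃ ha1₃ aM₃ haM₃ [IsLocalRing] ρC hρC habsC hfrobC` on the idempotent
`s59t_actH (N ∏qv) aq _ (Hmul …) (G * jG e₀)` of the `p`-free level `N`).  First half of helper5's `s59efl_lvl_pkg` (EFlrLvlP) with the bundle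
`(e₀, G, hid', hne', hnil')` of `s59ex_W_level` as INPUT (parity-free) and a flat-type ring `Dfl : flat(Sg) ∧ unip(Su)` with free finsets:
`s59efl_H3_free` + `s59e_B2Concl_of_H3Out` + `s59efl_trace_facts`; `ρC := Dfl.ρ.baseChangeAlong θ hθl`.

* `s59m_LvlFlatConcl` (def) : the conclusion (a flat `∃`-list);
* `Internal.s59m_lvl_flat` (+ export).
-/
import Mathlib
import Fermat.Agent.Lib.S59.EFlrTr
import Fermat.Agent.Lib.S59.EFlrH3F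
import Fermat.Agent.Lib.S59.EFlrConcA
import Fermat.Agent.Lib.S59.ETB2Conv
import Fermat.Agent.Lib.S59.EAbsIrr
import Fermat.Agent.Lib.S59.BDQRes
import Fermat.Agent.Lib.S59.EWRho

set_option autoImplicit false
set_option linter.unusedSectionVars false
set_option linter.unusedVariables false
set_option linter.style.haveILetI false
set_option maxHeartbeats 6400000
set_option synthInstance.maxHeartbeats 400000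
set_option maxSynthPendingDepth 3

noncomputable section

namespace Fermat.Agent.Lib.S59

open Matrix MatrixGroups CongruenceSubgroup IsLocalRing Polynomial CuspForm
open WeierstrassCurve WeierstrassCurve.Affine WeierstrassCurve.Affine.Point
open Fermat.Agent.Lib.S48 Fermat.Agent.Lib.S44 Fermat.Agent.Lib.S56

local notation "Γℚ" => (AlgebraicClosure ℚ ≃ₐ[ℚ] AlgebraicClosure ℚ)

/-- **the flat data of the `p`-free Taylor–Wiles level** (conclusion of `s59m_lvl_flat`). -/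
def s59m_LvlFlatConcl (p : ℕ) [Fact p.Prime] {𝒪 : Type} [CommRing 𝒪] [IsDomain 𝒪] [IsDiscreteValuationRing 𝒪]
    [IsAdicComplete (maximalIdeal 𝒪) 𝒪] [Finite (ResidueField 𝒪)] [CharZero 𝒪]
    {N : ℕ} [NeZero N] (B : Finset ℕ) (c : ℕ → ℤ) (n : ℕ) {r : ℕ} (qv : Fin r → ℕ) [NeZero (∏ j, qv j)]
    [NeZero (N * ∏ j, qv j)] [NeZero (N * ∏ q ∈ Finset.univ.image qv, q ^ 2)]
    {ρbar : ResidualGaloisRep (ResidueField 𝒪)} (Sg Su : Finset ℕ)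
    (Dfl : GaloisRep.DeformationRingData 𝒪 ρbar (fun _A _ _ _ ρ =>
      GaloisRep.flatCondition 𝒪 p Sg ρ ∧
        ∀ q ∈ Su, q.Prime → q ≠ p → ρ.IsUnipotentOnInertiaAt q))
    (ε' : Module.End 𝒪 (s48h_Hpar 𝒪 (s48h_GammaH (N * ∏ j, qv j) (s59t_Hmul N (∏ j, qv j) (⊤ : Subgroup (ZMod N)ˣ) (s59t_KQ (p ^ n) qv))) 𝒪)) : Prop :=
    ∃ (a : (heckeAlgebra (N * ∏ q ∈ Finset.univ.image qv, q ^ 2) 2 (↑(B ∪ Finset.univ.image qv) : Set ℕ)) →+* Module.End 𝒪 (s48h_Hpar 𝒪 (s48h_GammaH (N * ∏ j, qv j) (s59t_Hmul N (∏ j, qv j) (⊤ : Subgroup (ZMod N)ˣ) (s59t_KQ (p ^ n) qv))) 𝒪))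
      (aM : (heckeAlgebra (N * ∏ q ∈ Finset.univ.image qv, q ^ 2) 2 (↑(B ∪ Finset.univ.image qv) : Set ℕ)) →+* Module.End 𝒪 (s59t_part ε')),
    ∃ (ha1 : ∀ (ℓ : ℕ) (hℓ : ℓ.Prime) (hℓN : ¬ ℓ ∣ (N * ∏ q ∈ Finset.univ.image qv, q ^ 2))
      (hℓS : ℓ ∉ (↑(B ∪ Finset.univ.image qv) : Set ℕ)) (i : s59w_TIdx (N * ∏ j, qv j)),
      i.ell = ℓ → a (heckeAlgebra.T hℓ hℓN hℓS) = s59e_Tp' (s59t_Hmul N (∏ j, qv j) (⊤ : Subgroup (ZMod N)ˣ) (s59t_KQ (p ^ n) qv)) 𝒪 ((p ^ (0 + n) - 1) * ((p ^ (0 + n) + 1) / 2)) i),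
    ∃ (ha2 : ∀ t, a t ∈ Subring.closure (Set.range (s59e_Tp' (s59t_Hmul N (∏ j, qv j) (⊤ : Subgroup (ZMod N)ˣ) (s59t_KQ (p ^ n) qv)) 𝒪 ((p ^ (0 + n) - 1) * ((p ^ (0 + n) + 1) / 2))))),
    ∃ (haM : ∀ t (z : s59t_part ε'), ((aM t z : s59t_part ε') : (s48h_Hpar 𝒪 (s48h_GammaH (N * ∏ j, qv j) (s59t_Hmul N (∏ j, qv j) (⊤ : Subgroup (ZMod N)ˣ) (s59t_KQ (p ^ n) qv))) 𝒪)) = a t (z : (s48h_Hpar 𝒪 (s48h_GammaH (N * ∏ j, qv j) (s59t_Hmul N (∏ j, qv j) (⊤ : Subgroup (ZMod N)ˣ) (s59t_KQ (p ^ n) qv))) 𝒪))),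
    ∃ (hlocA : ∀ x ∈ s59e_adj 𝒪 aM, ∃ dd : 𝒪, s59e_IsLocScalar x dd),
    ∃ (_ : IsLocalRing (s59e_adj 𝒪 aM)) (θ : Dfl.R →ₐ[𝒪] s59e_adj 𝒪 aM)
      (hθ : Function.Surjective θ)
      (hfrobT : ∀ ℓ : ℕ, ℓ.Prime → ℓ ∉ (B ∪ Finset.univ.image qv) →
      ∀ A' : ValuationSubring (AlgebraicClosure ℚ), A'.LiesOverPrime ℓ →
      ∀ τ : Γℚ, A'.IsFrobeniusAt τ ℓ →
        (LinearMap.charpoly (Dfl.ρ.ρ τ)).map (θ : Dfl.R →+* s59e_adj 𝒪 aM) =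
          Polynomial.X ^ 2 - Polynomial.C (s59e_tOf (↑(B ∪ Finset.univ.image qv) : Set ℕ) aM ℓ) * Polynomial.X +
            Polynomial.C ((ℓ : s59e_adj 𝒪 aM)))
      (hcong : ∀ ℓ : ℕ, ℓ.Prime → ℓ ∉ (B ∪ Finset.univ.image qv) →
      s59e_tOf (↑(B ∪ Finset.univ.image qv) : Set ℕ) aM ℓ -
        algebraMap 𝒪 (s59e_adj 𝒪 aM) (((c ℓ : ℤ) : 𝒪)) ∈ maximalIdeal (s59e_adj 𝒪 aM)),
    ∃ (_ : IsNoetherianRing (s59e_adj 𝒪 aM))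
      (_ : IsAdicComplete (maximalIdeal (s59e_adj 𝒪 aM)) (s59e_adj 𝒪 aM))
      (_ : IsLocalHom (algebraMap 𝒪 (s59e_adj 𝒪 aM)))
      (hres𝒪 : Function.Surjective (residue (s59e_adj 𝒪 aM) ∘ algebraMap 𝒪 (s59e_adj 𝒪 aM)))
      (hθl : IsLocalHom (θ : Dfl.R →+* s59e_adj 𝒪 aM))
      (h𝒟 : GaloisRep.flatCondition 𝒪 p Sg (Dfl.ρ.baseChangeAlong (θ : Dfl.R →+* s59e_adj 𝒪 aM) hθl) ∧
        ∀ q ∈ Su, q.Prime → q ≠ p →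
          (Dfl.ρ.baseChangeAlong (θ : Dfl.R →+* s59e_adj 𝒪 aM) hθl).IsUnipotentOnInertiaAt q)
      (hres : (Dfl.ρ.baseChangeAlong (θ : Dfl.R →+* s59e_adj 𝒪 aM) hθl).residual.IsEquiv
        (ρbar.baseChangeAlong (ResidueField.map (algebraMap 𝒪 (s59e_adj 𝒪 aM))))),
      (Dfl.ρ.baseChangeAlong (θ : Dfl.R →+* s59e_adj 𝒪 aM) hθl).IsFlatAt p ∧
      (Dfl.ρ.baseChangeAlong (θ : Dfl.R →+* s59e_adj 𝒪 aM) hθl).residual.IsAbsolutelyIrreducible ∧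
      ∀ ℓ : ℕ, ℓ.Prime → ℓ ∉ (B ∪ Finset.univ.image qv) →
      ∀ A' : ValuationSubring (AlgebraicClosure ℚ), A'.LiesOverPrime ℓ →
      ∀ τ : Γℚ, A'.IsFrobeniusAt τ ℓ →
        LinearMap.charpoly ((Dfl.ρ.baseChangeAlong (θ : Dfl.R →+* s59e_adj 𝒪 aM) hθl).ρ τ) =
          Polynomial.X ^ 2 - Polynomial.C (s59e_tOf (↑(B ∪ Finset.univ.image qv) : Set ℕ) aM ℓ) * Polynomial.X +
            Polynomial.C ((ℓ : s59e_adj 𝒪 aM))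

/-- **the flat data of the `p`-free Taylor–Wiles level over a given bundle.** -/
theorem Internal.s59m_lvl_flat (p : ℕ) [Fact p.Prime] (hp2 : p ≠ 2) (W : WeierstrassCurve ℤ) (hΔ : W.Δ ≠ 0)
    (hirr : W.ModRepIsIrreducible p) (N : ℕ) [NeZero N] (hsq : Squarefree N) (hpN : ¬ p ∣ N)
    (B : Finset ℕ) (hpB : p ∈ B) (hNB : ∀ q : ℕ, q.Prime → q ∣ N → q ∈ B)
    (hB2 : ∀ r : ℕ, r.Prime → ¬ W.IsGoodPrimeFor r → r ∈ B)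
    (𝒪 : Type) [CommRing 𝒪] [IsDomain 𝒪] [IsDiscreteValuationRing 𝒪]
    [IsAdicComplete (maximalIdeal 𝒪) 𝒪] [Finite (ResidueField 𝒪)] [CharZero 𝒪]
    [Algebra ℤ_[p] 𝒪] [Module.Finite ℤ_[p] 𝒪]
    (hp𝒪 : ((p : ℕ) : 𝒪) ∈ maximalIdeal 𝒪)
    {r : ℕ} (n : ℕ) (qv : Fin r → ℕ) [NeZero (∏ j, qv j)] [NeZero (N * ∏ j, qv j)]
    [NeZero (N * ∏ q ∈ Finset.univ.image qv, q ^ 2)] (hqinj : Function.Injective qv)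
    (hqv : ∀ i, (qv i).Prime ∧ qv i ∉ B ∧ p ^ (n + 1) ∣ qv i - 1)
    (aq : ℕ → 𝒪)
    -- the Taylor–Wiles bundle of the level (INPUT: output of `s59ex_W_level` at `N`)
    (e₀ : MvPolynomial ↥(s59t_goodB (N * ∏ j, qv j) B) 𝒪)
    (G : MvPolynomial (s59w_AIdx (N * ∏ j, qv j) ⊕ ℕ) 𝒪)
    (hid' : (s59t_actH (N * ∏ j, qv j) aq (dvd_refl (N * ∏ j, qv j)) (s59t_Hmul N (∏ j, qv j) (⊤ : Subgroup (ZMod N)ˣ) (s59t_KQ (p ^ n) qv)) (G * s59t_jG 𝒪 (s59t_goodB (N * ∏ j, qv j) B) e₀)) * (s59t_actH (N * ∏ j, qv j) aq (dvd_refl (N * ∏ j, qv j)) (s59t_Hmul N (∏ j, qv j) (⊤ : Subgroup (ZMod N)ˣ) (s59t_KQ (p ^ n) qv)) (G * s59t_jG 𝒪 (s59t_goodB (N * ∏ j, qv j) B) e₀)) = (s59t_actH (N * ∏ j, qv j) aq (dvd_refl (N * ∏ j, qv j)) (s59t_Hmul N (∏ j, qv j) (⊤ : Subgroup (ZMod N)ˣ) (s59t_KQ (p ^ n) qv)) (G * s59t_jG 𝒪 (s59t_goodB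 (N * ∏ j, qv j) B) e₀)))
    (hne' : (s59t_actH (N * ∏ j, qv j) aq (dvd_refl (N * ∏ j, qv j)) (s59t_Hmul N (∏ j, qv j) (⊤ : Subgroup (ZMod N)ˣ) (s59t_KQ (p ^ n) qv)) (G * s59t_jG 𝒪 (s59t_goodB (N * ∏ j, qv j) B) e₀)) ≠ 0)
    (hnil' : ∀ x ∈ s59t_goodB (N * ∏ j, qv j) B, ∃ k : ℕ,
      ∀ y : (s48h_Hpar 𝒪 (s48h_GammaH (N * ∏ j, qv j) (s59t_Hmul N (∏ j, qv j) (⊤ : Subgroup (ZMod N)ˣ) (s59t_KQ (p ^ n) qv))) 𝒪),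
        ((s59w_op (s59t_Hmul N (∏ j, qv j) (⊤ : Subgroup (ZMod N)ˣ) (s59t_KQ (p ^ n) qv)) 𝒪 x - s59t_cB (𝒪 := 𝒪) (N * ∏ j, qv j) (fun ℓ => W.apOfModel ℓ) x •
          (1 : Module.End 𝒪 (s48h_Hpar 𝒪 (s48h_GammaH (N * ∏ j, qv j) (s59t_Hmul N (∏ j, qv j) (⊤ : Subgroup (ZMod N)ˣ) (s59t_KQ (p ^ n) qv))) 𝒪))) ^ k) ((s59t_actH (N * ∏ j, qv j) aq (dvd_refl (N * ∏ j, qv j)) (s59t_Hmul N (∏ j, qv j) (⊤ : Subgroup (ZMod N)ˣ) (s59t_KQ (p ^ n) qv)) (G * s59t_jG 𝒪 (s59t_goodB (N * ∏ j, qv j) B) e₀)) y) ∈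
          (maximalIdeal 𝒪 • ⊤ : Submodule 𝒪 (s48h_Hpar 𝒪 (s48h_GammaH (N * ∏ j, qv j) (s59t_Hmul N (∏ j, qv j) (⊤ : Subgroup (ZMod N)ˣ) (s59t_KQ (p ^ n) qv))) 𝒪)))
    -- the deformation type: flat with free finsets
    (Sg Su Smin : Finset ℕ) (hpSg : p ∈ Sg)
    (hSg : ∀ q : ℕ, q.Prime → q ∣ (N * ∏ q ∈ Finset.univ.image qv, q ^ 2) →
      q ∈ Sg ∨ s59e3q_E2Alt p (s59i_rhobarW W p hΔ 𝒪 hp𝒪) q)
    (hmin : ∀ q : ℕ, q.Prime → q ≠ p →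
      (q ∈ Smin ↔ ¬ (s59i_rhobarW W p hΔ 𝒪 hp𝒪).IsUnramifiedAt q))
    (hSu : ∀ q ∈ Su, q ∈ Smin ∨ q ∉ Finset.univ.image qv)
    (Dfl : GaloisRep.DeformationRingData 𝒪 (s59i_rhobarW W p hΔ 𝒪 hp𝒪) (fun _A _ _ _ ρ =>
      GaloisRep.flatCondition 𝒪 p Sg ρ ∧
        ∀ q ∈ Su, q.Prime → q ≠ p → ρ.IsUnipotentOnInertiaAt q)) :
    s59m_LvlFlatConcl p B (fun ℓ => W.apOfModel ℓ) n qv Sg Su Dfl (s59t_actH (N * ∏ j, qv j) aq (dvd_refl (N * ∏ j, qv j)) (s59t_Hmul N (∏ j, qv j) (⊤ : Subgroup (ZMod N)ˣ) (s59t_KQ (p ^ n) qv)) (G * s59t_jG 𝒪 (s59t_goodB (N * ∏ j, qv j) B) e₀)) := by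
  classical
  have hpP : p.Prime := Fact.out
  have hgoodB : ∀ q : ℕ, q.Prime → q ∉ B → W.IsGoodPrimeFor q := by
    intro q hq hqB
    by_contra hbad
    exact hqB (hB2 q hq hbad)
  have hEigB : ∀ ℓ : ℕ, ℓ.Prime → ℓ ∉ B →
      ∀ A : ValuationSubring (AlgebraicClosure ℚ), A.LiesOverPrime ℓ →
      ∀ σ : Γℚ, A.IsFrobeniusAt σ ℓ →
        LinearMap.charpoly ((s59i_rhobarW W p hΔ 𝒪 hp𝒪).ρ σ) =
          X ^ 2 - C (residue 𝒪 ((W.apOfModel ℓ : ℤ) : 𝒪)) * X +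
            C ((ℓ : ResidueField 𝒪)) := fun ℓ hℓ hℓS A hA σ hσ =>
    s59e_rhobarW_charpoly_frob hΔ hp2 hirr hp𝒪 B hpB hB2 ℓ hℓ hℓS A hA σ hσ
  have hqvpr : ∀ i, (qv i).Prime := fun i => (hqv i).1
  -- the numerology of the level
  have hqvN : ∀ i, ¬ qv i ∣ N := fun i h => (hqv i).2.1 (hNB _ (hqvpr i) h)
  have hMeq₂ := s59k_level_eq_top qv N hqinj
  have hD₂ : ∏ q ∈ Finset.univ.image qv, q ∣ N * ∏ i, qv i := Dvd.intro_left N hMeq₂.symm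
  have hQ := s59k_hQ_top qv N hqvpr hqvN
  haveI : Fact (HasIntegralStructure (N * ∏ q ∈ Finset.univ.image qv, q ^ 2) 2) := ⟨Fermat.Agent.S23.result _⟩
  have hS₂ : ∀ q : ℕ, q.Prime → q ∣ (N * ∏ q ∈ Finset.univ.image qv, q ^ 2) → q ∈ (B ∪ Finset.univ.image qv) := by
    intro q hq hqM
    rcases (Nat.Prime.dvd_mul hq).mp hqM with h | h
    · exact Finset.mem_union_left _ (hNB q hq h)
    · obtain ⟨q', hq', hqq'⟩ := (Prime.dvd_finsetProd_iff (Nat.prime_iff.mp hq) _).mp h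
      obtain ⟨i, -, rfl⟩ := Finset.mem_image.mp hq'
      have hqe : q = qv i := (Nat.prime_dvd_prime_iff_eq hq (hqvpr i)).mp (hq.dvd_of_dvd_pow hqq')
      subst hqe
      exact Finset.mem_union_right _ (Finset.mem_image_of_mem qv (Finset.mem_univ i))
  have hpM' : ¬ p ∣ (N * ∏ q ∈ Finset.univ.image qv, q ^ 2) := by
    intro h
    rcases (Nat.Prime.dvd_mul hpP).mp h with h | h
    · exact hpN h
    · obtain ⟨q', hq', hqq'⟩ := (Prime.dvd_finsetProd_iff (Nat.prime_iff.mp hpP) _).mp h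
      obtain ⟨i, -, rfl⟩ := Finset.mem_image.mp hq'
      have hqe : p = qv i :=
        (Nat.prime_dvd_prime_iff_eq hpP (hqvpr i)).mp (hpP.dvd_of_dvd_pow hqq')
      exact (hqv i).2.1 (hqe ▸ hpB)
  have hn := s59k_ppow_mem_Hmul_top N qv p 0 n
  have hHker := s59k_hH_top qv N (p ^ n) hqinj rfl hD₂
  have hQu : ∀ q ∈ Finset.univ.image qv, (s59i_rhobarW W p hΔ 𝒪 hp𝒪).IsUnramifiedAt q := by
    intro q hq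
    obtain ⟨i, -, rfl⟩ := Finset.mem_image.mp hq
    exact s59e_rhobarW_unram_good hΔ hp2 hp𝒪 (qv i) (hqvpr i) (fun h => (hqv i).2.1 (h ▸ hpB))
      (hgoodB _ (hqvpr i) (hqv i).2.1)
  -- `ε'` commutes with the anemic generators
  have hεc' : ∀ jdx : s59w_AIdx (N * ∏ j, qv j),
      (s59t_actH (N * ∏ j, qv j) aq (dvd_refl (N * ∏ j, qv j)) (s59t_Hmul N (∏ j, qv j) (⊤ : Subgroup (ZMod N)ˣ) (s59t_KQ (p ^ n) qv)) (G * s59t_jG 𝒪 (s59t_goodB (N * ∏ j, qv j) B) e₀)) * s59w_op (s59t_Hmul N (∏ j, qv j) (⊤ : Subgroup (ZMod N)ˣ) (s59t_KQ (p ^ n) qv)) 𝒪 jdx = s59w_op (s59t_Hmul N (∏ j, qv j) (⊤ : Subgroup (ZMod N)ˣ) (s59t_KQ (p ^ n) qv)) 𝒪 jdx * (s59t_actH (N * ∏ j, qv j) aq (dvd_refl (N * ∏ j, qv j)) (s59t_Hmul N (∏ j, qv j) (⊤ : Subgroup (ZMod N)ˣ) (s59t_KQ (p ^ n) qv)) (G * s59t_jG 𝒪 (s59t_goodB (N * ∏ j,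 qv j) B) e₀)) :=
    fun jdx => s59t_actH_comm_op _ aq _ jdx
  -- (B2) the Hecke ring at level `n`
  have hH3 := s59efl_H3_free (fun ℓ => W.apOfModel ℓ) hp2 hp𝒪 N (Finset.univ.image qv)
    (s59t_Hmul N (∏ j, qv j) (⊤ : Subgroup (ZMod N)ˣ) (s59t_KQ (p ^ n) qv)) (N * ∏ q ∈ Finset.univ.image qv, q ^ 2) (B ∪ Finset.univ.image qv) (Finset.mem_union_left _ hpB) Finset.subset_union_left hpM' hQ hMeq₂ rfl hD₂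
    hHker (0 + n) hn rfl hS₂ hsq hQu Sg Su Smin hpSg hSg hmin hSu
    (s59t_actH (N * ∏ j, qv j) aq (dvd_refl (N * ∏ j, qv j)) (s59t_Hmul N (∏ j, qv j) (⊤ : Subgroup (ZMod N)ˣ) (s59t_KQ (p ^ n) qv)) (G * s59t_jG 𝒪 (s59t_goodB (N * ∏ j, qv j) B) e₀)) hid' hne' hεc' hnil'
    (fun ℓ hℓ hℓS => hEigB ℓ hℓ (fun h => hℓS (Finset.mem_union_left _ h))) Dfl
  let bZ := Module.Free.chooseBasis ℤ (s48h_M (s48h_GammaH (N * ∏ j, qv j) (s59t_Hmul N (∏ j, qv j) (⊤ : Subgroup (ZMod N)ˣ) (s59t_KQ (p ^ n) qv))))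
  haveI : Module.Free 𝒪 (s48h_Hpar 𝒪 (s48h_GammaH (N * ∏ j, qv j) (s59t_Hmul N (∏ j, qv j) (⊤ : Subgroup (ZMod N)ˣ) (s59t_KQ (p ^ n) qv))) 𝒪) := Module.Free.of_basis (s59u_cB bZ 𝒪)
  haveI : Module.Finite 𝒪 (s48h_Hpar 𝒪 (s48h_GammaH (N * ∏ j, qv j) (s59t_Hmul N (∏ j, qv j) (⊤ : Subgroup (ZMod N)ˣ) (s59t_KQ (p ^ n) qv))) 𝒪) := Module.Finite.of_basis (s59u_cB bZ 𝒪)
  haveI : Module.Finite 𝒪 (LinearMap.range (s59t_actH (N * ∏ j, qv j) aq (dvd_refl (N * ∏ j, qv j)) (s59t_Hmul N (∏ j, qv j) (⊤ : Subgroup (ZMod N)ˣ) (s59t_KQ (p ^ n) qv)) (G * s59t_jG 𝒪 (s59t_goodB (N * ∏ j, qv j) B) e₀))) := s59t_part_finite _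
  haveI : Module.Free 𝒪 (LinearMap.range (s59t_actH (N * ∏ j, qv j) aq (dvd_refl (N * ∏ j, qv j)) (s59t_Hmul N (∏ j, qv j) (⊤ : Subgroup (ZMod N)ˣ) (s59t_KQ (p ^ n) qv)) (G * s59t_jG 𝒪 (s59t_goodB (N * ∏ j, qv j) B) e₀))) := s59t_part_free hid'
  haveI : Nontrivial (LinearMap.range (s59t_actH (N * ∏ j, qv j) aq (dvd_refl (N * ∏ j, qv j)) (s59t_Hmul N (∏ j, qv j) (⊤ : Subgroup (ZMod N)ˣ) (s59t_KQ (p ^ n) qv)) (G * s59t_jG 𝒪 (s59t_goodB (N * ∏ j, qv j) B) e₀))) := s59e_L_range_nontrivial _ hne'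
  have hB2c : s59e_B2Concl (s59t_Hmul N (∏ j, qv j) (⊤ : Subgroup (ZMod N)ˣ) (s59t_KQ (p ^ n) qv)) (s59t_actH (N * ∏ j, qv j) aq (dvd_refl (N * ∏ j, qv j)) (s59t_Hmul N (∏ j, qv j) (⊤ : Subgroup (ZMod N)ˣ) (s59t_KQ (p ^ n) qv)) (G * s59t_jG 𝒪 (s59t_goodB (N * ∏ j, qv j) B) e₀)) (N * ∏ q ∈ Finset.univ.image qv, q ^ 2) (B ∪ Finset.univ.image qv) ((p ^ (0 + n) - 1) * ((p ^ (0 + n) + 1) / 2)) (fun ℓ => ((W.apOfModel ℓ : ℤ) : 𝒪)) Dfl :=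
    Exists.elim hH3 fun a' h' =>
      s59e_B2Concl_of_H3Out _ _ _ _ _ (fun ℓ => W.apOfModel ℓ) hS₂ Dfl a' h'.1 h'.2.1 h'.2.2
  unfold s59e_B2Concl at hB2c
  obtain ⟨a, aM, ha1, ha2, haM, hlocA, hlr, θ, hθ, hfrobT, hcong⟩ := hB2c
  haveI : IsLocalRing (s59e_adj 𝒪 aM) := hlr
  -- the trace ring
  have htr := s59efl_trace_facts p hp2 W hΔ B hirr hpB hB2 𝒪 hp𝒪 Sg Su Dfl
    (s59t_Hmul N (∏ j, qv j) (⊤ : Subgroup (ZMod N)ˣ) (s59t_KQ (p ^ n) qv))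
    (s59t_actH (N * ∏ j, qv j) aq (dvd_refl (N * ∏ j, qv j)) (s59t_Hmul N (∏ j, qv j) (⊤ : Subgroup (ZMod N)ˣ) (s59t_KQ (p ^ n) qv)) (G * s59t_jG 𝒪 (s59t_goodB (N * ∏ j, qv j) B) e₀))
    hid' hne' aM hlocA θ hθ (B ∪ Finset.univ.image qv) Finset.subset_union_left (s59e_tOf _ aM) hfrobT hcong
  obtain ⟨hlh, hθl, hnoeth, hcompl, hres𝒪, hres, h𝒟⟩ := htr
  unfold s59m_LvlFlatConcl
  exact ⟨a, aM, ha1, ha2, haM, hlocA, hlr, θ, hθ, hfrobT, hcong, hnoeth, hcompl, hlh, hres𝒪, hθl, h𝒟, hres,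
    h𝒟.1.2.1, s59e_bc_absIrr _ hθl Dfl.ρ (s59b_DQ_residual_absIrr Dfl),
    fun ℓ hℓ hℓS A' hA' τ hτ => (s56a_charpoly_baseChangeAlong _ hθl Dfl.ρ τ).trans (hfrobT ℓ hℓ hℓS A' hA' τ hτ)⟩

export Internal (s59m_lvl_flat)

end Fermat.Agent.Lib.S59
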