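/-
Programme R2 (S59), the wall, request (R1)(b) of helper7 (helper9, prefix `s59m_`): **the Hecke half of (H3) on the FULL part
`s59t_part ε`** of a level `(M, H)`, `M = N ∏Q` (ANY base level `N`, in the application `N = N_s p`), in the dialect of
helper8's `s59c_H3_pnew` (`hnil` on `s59t_goodB`, eigenvalues `a ℓ`): helper5's `s59e_REL` + `s59e_H3_hecke` give
`a₀ : 𝕋(Γ₀(M'))^S → End H_par(Γ_H(M))` (`M' = N ∏q²`) and `s59e_H3HeckeConcl M' S a₀ ε (a ·) ρ̄`; consequences in the form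
needed by `s59x_wall_K4_adj`: `aF`, `haF`, `𝒪[aF]` local, `𝒪 → 𝒪[aF]` local with residue field `k`.
-/
import Mathlib
import Fermat.Agent.Lib.S59.EHTop2
import Fermat.Agent.Lib.S59.TIndH
import Fermat.Agent.Lib.S59.UW6Lat
import Fermat.Agent.Lib.S59.WPet

set_option autoImplicit false
set_option linter.unusedSectionVars false
set_option linter.unusedVariables false
set_option linter.style.haveILetI false
set_option synthInstance.maxHeartbeats 400000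
set_option maxHeartbeats 1600000

noncomputable section

namespace Fermat.Agent.Lib.S59

open Matrix.SpecialLinearGroup CongruenceSubgroup ModularCurve.Period Polynomial CuspForm
open Fermat.Agent.Lib.S48 Fermat.Agent.Lib.ES IsLocalRing
open scoped MatrixGroups

local notation "Qbar" => AlgebraicClosure ℚ
local notation "GQ" => (AlgebraicClosure ℚ ≃ₐ[ℚ] AlgebraicClosure ℚ)

section Res

variable {𝒪 : Type} [CommRing 𝒪] [IsLocalRing 𝒪] {A : Type*} [CommRing A]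
  {M : Type*} [AddCommGroup M] [Module 𝒪 M] (a : A →+* Module.End 𝒪 M)

/-- the residue field of `𝒪[a(A)]` is `k_𝒪` as soon as the generators are residually in `k_𝒪`. -/
theorem s59m_adj_res_surjective [IsLocalRing (s59e_adj 𝒪 a)]
    [IsLocalHom (algebraMap 𝒪 (s59e_adj 𝒪 a))] (θ : A →+* ResidueField 𝒪)
    (hres : ∀ t, residue (s59e_adj 𝒪 a) (s59e_adjHom 𝒪 a t) =
      ResidueField.map (algebraMap 𝒪 (s59e_adj 𝒪 a)) (θ t)) :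
    Function.Surjective (residue (s59e_adj 𝒪 a) ∘ algebraMap 𝒪 (s59e_adj 𝒪 a)) := by
  intro y
  obtain ⟨⟨x, hx⟩, rfl⟩ := IsLocalRing.residue_surjective y
  have key : ∀ x (hx : x ∈ s59e_adj 𝒪 a), ∃ o : 𝒪,
      residue (s59e_adj 𝒪 a) ⟨x, hx⟩ = residue (s59e_adj 𝒪 a) (algebraMap 𝒪 (s59e_adj 𝒪 a) o) := by
    intro x hx
    induction hx using Algebra.adjoin_induction with
    | mem x hx =>
      obtain ⟨t, rfl⟩ := hx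
      obtain ⟨o, ho⟩ := IsLocalRing.residue_surjective (θ t)
      refine ⟨o, ?_⟩
      have h1 := hres t
      rw [← ho, IsLocalRing.ResidueField.map_residue] at h1
      exact h1
    | algebraMap r => exact ⟨r, rfl⟩
    | add x y hx hy ihx ihy =>
      obtain ⟨o₁, h₁⟩ := ihx
      obtain ⟨o₂, h₂⟩ := ihy
      refine ⟨o₁ + o₂, ?_⟩
      have : (⟨x + y, Subalgebra.add_mem _ hx hy⟩ : s59e_adj 𝒪 a) = ⟨x, hx⟩ + ⟨y, hy⟩ := rfl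
      rw [this, map_add, map_add, map_add, h₁, h₂]
    | mul x y hx hy ihx ihy =>
      obtain ⟨o₁, h₁⟩ := ihx
      obtain ⟨o₂, h₂⟩ := ihy
      refine ⟨o₁ * o₂, ?_⟩
      have : (⟨x * y, Subalgebra.mul_mem _ hx hy⟩ : s59e_adj 𝒪 a) = ⟨x, hx⟩ * ⟨y, hy⟩ := rfl
      rw [this, map_mul, map_mul, map_mul, h₁, h₂]
  obtain ⟨o, ho⟩ := key x hx
  exact ⟨o, ho.symm⟩

end Res

section HF

variable {p : ℕ} [hp : Fact p.Prime]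
  {𝒪 : Type} [CommRing 𝒪] [IsDomain 𝒪] [IsDiscreteValuationRing 𝒪]
  [IsAdicComplete (maximalIdeal 𝒪) 𝒪] [Finite (ResidueField 𝒪)] [CharZero 𝒪] [Algebra ℤ_[p] 𝒪]
  {B : Finset ℕ} (a : ℕ → ℤ)

/-- **the Hecke half of (H3) on the full part `s59t_part ε`**, free levels. -/
theorem s59m_H3_hecke_full (hp2 : p ≠ 2) (hp𝒪 : (p : 𝒪) ∈ maximalIdeal 𝒪)
    (N : ℕ) [NeZero N] (Q : Finset ℕ) (hQ : ∀ q ∈ Q, q.Prime ∧ ¬ q ∣ N)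
    {M : ℕ} [NeZero M] (hM : M = N * ∏ q ∈ Q, q) (H : Subgroup (ZMod M)ˣ)
    (hD : (∏ q ∈ Q, q) ∣ M) (hH : s59u_ker M (∏ q ∈ Q, q) hD ≤ H)
    (e : ℕ) (hn : ∀ u : (ZMod M)ˣ, u ^ (p ^ e) ∈ H)
    (M' : ℕ) [NeZero M'] [Fact (HasIntegralStructure M' 2)] (hM' : M' = N * ∏ q ∈ Q, q ^ 2)
    (S : Finset ℕ) (hpS : p ∈ S) (hBS : B ⊆ S) (hS : ∀ q : ℕ, q.Prime → q ∣ M' → q ∈ S)
    (ε : Module.End 𝒪 (s48h_Hpar 𝒪 (s48h_GammaH M H) 𝒪)) (hε : ε * ε = ε) (hε0 : ε ≠ 0)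
    (hεc : ∀ x, ε * s59w_op H 𝒪 x = s59w_op H 𝒪 x * ε)
    (hnil : ∀ x ∈ s59t_goodB M B, ∃ k : ℕ,
      ∀ y : s48h_Hpar 𝒪 (s48h_GammaH M H) 𝒪,
      ((s59w_op H 𝒪 x - s59t_cB (𝒪 := 𝒪) M a x •
        (1 : Module.End 𝒪 (s48h_Hpar 𝒪 (s48h_GammaH M H) 𝒪))) ^ k) (ε y) ∈
        (maximalIdeal 𝒪 • ⊤ : Submodule 𝒪 (s48h_Hpar 𝒪 (s48h_GammaH M H) 𝒪)))
    (ρbar : ResidualGaloisRep (ResidueField 𝒪)) (habs : ρbar.IsAbsolutelyIrreducible)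
    (hEig : ∀ ℓ : ℕ, ℓ.Prime → ℓ ∉ S → ∀ A : ValuationSubring Qbar, A.LiesOverPrime ℓ →
      ∀ σ : GQ, A.IsFrobeniusAt σ ℓ →
        LinearMap.charpoly (ρbar.ρ σ) = X ^ 2 - C (residue 𝒪 ((a ℓ : ℤ) : 𝒪)) * X +
          C ((ℓ : ResidueField 𝒪))) :
    ∃ a₀ : heckeAlgebra M' 2 (↑S : Set ℕ) →+*
        Module.End 𝒪 (s48h_Hpar 𝒪 (s48h_GammaH M H) 𝒪),
      (∀ (ℓ : ℕ) (hℓ : ℓ.Prime) (hℓN : ¬ ℓ ∣ M') (hℓS : ℓ ∉ (↑S : Set ℕ))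
        (i : s59w_TIdx M), i.ell = ℓ → a₀ (heckeAlgebra.T hℓ hℓN hℓS) =
          s59e_Tp' H 𝒪 ((p ^ e - 1) * ((p ^ e + 1) / 2)) i) ∧
      (∀ t, a₀ t ∈
        Subring.closure (Set.range (s59e_Tp' H 𝒪 ((p ^ e - 1) * ((p ^ e + 1) / 2))))) ∧
      s59e_H3HeckeConcl M' S a₀ ε (fun ℓ => ((a ℓ : ℤ) : 𝒪)) ρbar := by
  classical
  have hpP : p.Prime := hp.out
  have hpodd : Odd (p ^ e) := (hpP.odd_of_ne_two hp2).pow
  have hnm : 2 * ((p ^ e + 1) / 2) = p ^ e + 1 := by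
    obtain ⟨k, hk⟩ := hpodd
    omega
  have hHp : ∀ u : (ZMod M)ˣ, ∃ k : ℕ, u ^ (p ^ k) ∈ H := fun u => ⟨e, hn u⟩
  have hMM' : M ∣ M' := by
    rw [hM, hM']
    refine Nat.mul_dvd_mul_left N (Finset.prod_dvd_prod_of_dvd _ _ fun q _ => ?_)
    exact Dvd.intro _ (pow_two q).symm
  have hidx : ∀ ℓ : ℕ, ℓ.Prime → ¬ ℓ ∣ M' → ∃ i : s59w_TIdx M, i.ell = ℓ :=
    fun ℓ hℓ hℓN => s59e_exists_TIdx (M := M) hℓ (fun h => hℓN (dvd_trans h hMM'))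
  let b := Module.Free.chooseBasis ℤ (s48h_M (s48h_GammaH M H))
  obtain ⟨a₀, ha1, ha2⟩ := s59e_REL N Q H b M' (↑S : Set ℕ) s59w_petSS hQ hM rfl hD hH
    hnm hn hM' hS (s59u_cB b 𝒪) (s59u_cB_coe b 𝒪)
  refine ⟨a₀, ha1, ha2, ?_⟩
  haveI : Module.Free 𝒪 (s48h_Hpar 𝒪 (s48h_GammaH M H) 𝒪) :=
    Module.Free.of_basis (s59u_cB b 𝒪)
  haveI : Module.Finite 𝒪 (s48h_Hpar 𝒪 (s48h_GammaH M H) 𝒪) :=
    Module.Finite.of_basis (s59u_cB b 𝒪)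
  have hεc' : ∀ j, s59e_Anemic S j → ε * s59w_op H 𝒪 j = s59w_op H 𝒪 j * ε := fun j _ => hεc j
  have hnil' : ∀ j, s59e_Anemic S j → ∃ k : ℕ, ∀ z,
      ((s59w_op H 𝒪 j - s59t_cB (𝒪 := 𝒪) M a j • 1) ^ k) (ε z) ∈
        maximalIdeal 𝒪 • (⊤ : Submodule 𝒪 (s48h_Hpar 𝒪 (s48h_GammaH M H) 𝒪)) := by
    intro j hj
    rcases j with i | τ
    · have hiS : i.ell ∉ S := (s59e_anemic_inl_iff S i).mp hj
      exact hnil _ (s59t_inl_mem_goodB B i (fun h => hiS (hBS h)))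
    · exact s59t_topNil_dia p H hp𝒪 hHp ε τ
  exact s59e_H3_hecke M' S hp2 hp𝒪 hpS hS a₀ ε hε hε0
    (J := {j : s59w_AIdx M // s59e_Anemic S j})
    (fun j => s59w_op H 𝒪 j.1) (fun i j => s59w_op_comm H 𝒪 i.1 j.1) (fun j => hεc' j.1 j.2)
    (fun j => s59t_cB (𝒪 := 𝒪) M a j.1) (fun j => hnil' j.1 j.2)
    (fun ℓ => ((a ℓ : ℤ) : 𝒪))
    (fun ℓ hℓ hℓN hℓS => by
      obtain ⟨i, hi⟩ := hidx ℓ hℓ hℓN
      have hiS : i.ell ∉ S := by rw [hi]; exact hℓS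
      refine ⟨⟨Sum.inr (s59e_tau i ((p ^ e - 1) * ((p ^ e + 1) / 2))), s59e_anemic_inr S _⟩,
        ⟨Sum.inl i, s59e_anemic_inl S i hiS⟩, ha1 ℓ hℓ hℓN hℓS i hi, ?_⟩
      show ((a ℓ : ℤ) : 𝒪) = (1 : 𝒪) * ((a i.ell : ℤ) : 𝒪)
      rw [one_mul, hi])
    ρbar habs
    (fun ℓ hℓ hℓN hℓS A hA σ hσ => hEig ℓ hℓ hℓS A hA σ hσ)

/-- the consequences of `s59e_H3HeckeConcl` used by the glue ring of the wall. -/
theorem s59m_H3HeckeConcl_out {M' : ℕ} [NeZero M'] [Fact (HasIntegralStructure M' 2)] {S : Finset ℕ}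
    {Y : Type} [AddCommGroup Y] [Module 𝒪 Y] [Module.Free 𝒪 Y] [Module.Finite 𝒪 Y]
    {a₀ : heckeAlgebra M' 2 (↑S : Set ℕ) →+* Module.End 𝒪 Y} {ε : Module.End 𝒪 Y} {cT : ℕ → 𝒪}
    {ρbar : ResidualGaloisRep (ResidueField 𝒪)} (h : s59e_H3HeckeConcl M' S a₀ ε cT ρbar) :
    ∃ aF : heckeAlgebra M' 2 (↑S : Set ℕ) →+* Module.End 𝒪 (s59t_part ε),
      (∀ t (z : s59t_part ε), ((aF t z : s59t_part ε) : Y) = a₀ t (z : Y)) ∧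
      ∃ (_ : IsLocalRing (s59e_adj 𝒪 aF)),
        IsLocalHom (algebraMap 𝒪 (s59e_adj 𝒪 aF)) ∧
        Function.Surjective (residue (s59e_adj 𝒪 aF) ∘ algebraMap 𝒪 (s59e_adj 𝒪 aF)) ∧
        ∀ (ℓ : ℕ) (hℓ : ℓ.Prime) (hℓN : ¬ ℓ ∣ M') (hℓS : ℓ ∉ (↑S : Set ℕ)),
          s59e_adjHom 𝒪 aF (heckeAlgebra.T hℓ hℓN hℓS) - algebraMap 𝒪 (s59e_adj 𝒪 aF) (cT ℓ) ∈
            maximalIdeal (s59e_adj 𝒪 aF) := by
  obtain ⟨aM, haM, hlr, hlh, θ, Hd, Ψ, hΨ, -, hres, hθ, -, -, -, -⟩ := h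
  haveI := hlr
  haveI := hlh
  refine ⟨aM, haM, hlr, hlh, s59m_adj_res_surjective aM θ hres, ?_⟩
  intro ℓ hℓ hℓN hℓS
  rw [← IsLocalRing.residue_eq_zero_iff, map_sub, hres, hθ, IsLocalRing.ResidueField.map_residue,
    sub_self]

end HF

end Fermat.Agent.Lib.S59
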