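/-
Programme R2 (S59), the wall, request (R1)(b) of helper7 (helper9, prefix `s59m_`): **the Hecke ring of the FULL Taylor–Wiles part
at a level `(N₂ ∏ qv, ⊤ × K_Q)`** (any base level `N₂`, in the application `N₂ = N_s p`), in the numerology of
`s59m_TPkgP_levelData` (`M' = N₂ ∏ q²`, `S = B ∪ Q`, exponent `0 + n`): `s59m_H3_hecke_full` + `s59m_H3HeckeConcl_out` (MKerHF)
with the level lemmas of `KLvlFin`/`KLvlGrp`.  Input: ANY idempotent `ε'` of the level commuting with the anemic generators, nonzero,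
with the `goodB`-nilpotency (e.g. `ε' = actH (G₂ · jG e₀₂)` of `s59m_TPkgP_LvlConcl`).  Output: `a₀` (values `s59e_Tp'` on the
`T_ℓ`), `aF` on the part, `𝒪[aF]` local, `𝒪 → 𝒪[aF]` local with residue field `k`, `T_ℓ ≡ a_ℓ` — the inputs
`aD`, `hT`, `GD` of helper7's `s59x_wall_K4_adj`.
-/
import Mathlib
import Fermat.Agent.Lib.S59.MKerHF
import Fermat.Agent.Lib.S59.KLvlFin

set_option autoImplicit false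
set_option linter.unusedSectionVars false
set_option linter.unusedVariables false
set_option linter.style.haveILetI false
set_option synthInstance.maxHeartbeats 400000
set_option maxHeartbeats 1600000

noncomputable section

namespace Fermat.Agent.Lib.S59

open Matrix.SpecialLinearGroup CongruenceSubgroup ModularCurve.Period Polynomial CuspForm
open Fermat.Agent.Lib.S48 Fermat.Agent.Lib.ES IsLocalRing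
open scoped MatrixGroups

local notation "Qbar" => AlgebraicClosure ℚ
local notation "GQ" => (AlgebraicClosure ℚ ≃ₐ[ℚ] AlgebraicClosure ℚ)

/-- **the conclusion**: the anemic Hecke ring of the full part `s59t_part ε` at a level `(M, H)`. -/
def s59m_HeckeFConcl {𝒪 : Type} [CommRing 𝒪] [IsLocalRing 𝒪] (p : ℕ) (c : ℕ → ℤ) {M : ℕ} [NeZero M]
    (H : Subgroup (ZMod M)ˣ) (e : ℕ) (M' : ℕ) [NeZero M'] [Fact (HasIntegralStructure M' 2)]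
    (S : Finset ℕ) (ε : Module.End 𝒪 (s48h_Hpar 𝒪 (s48h_GammaH M H) 𝒪)) : Prop :=
  ∃ a₀ : heckeAlgebra M' 2 (↑S : Set ℕ) →+* Module.End 𝒪 (s48h_Hpar 𝒪 (s48h_GammaH M H) 𝒪),
    (∀ (ℓ : ℕ) (hℓ : ℓ.Prime) (hℓN : ¬ ℓ ∣ M') (hℓS : ℓ ∉ (↑S : Set ℕ))
      (i : s59w_TIdx M), i.ell = ℓ → a₀ (heckeAlgebra.T hℓ hℓN hℓS) =
        s59e_Tp' H 𝒪 ((p ^ e - 1) * ((p ^ e + 1) / 2)) i) ∧
    (∀ t, a₀ t ∈ Subring.closure (Set.range (s59e_Tp' H 𝒪 ((p ^ e - 1) * ((p ^ e + 1) / 2))))) ∧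
    ∃ aF : heckeAlgebra M' 2 (↑S : Set ℕ) →+* Module.End 𝒪 (s59t_part ε),
      (∀ t (z : s59t_part ε), ((aF t z : s59t_part ε) : s48h_Hpar 𝒪 (s48h_GammaH M H) 𝒪) =
        a₀ t (z : s48h_Hpar 𝒪 (s48h_GammaH M H) 𝒪)) ∧
      ∃ (_ : IsLocalRing (s59e_adj 𝒪 aF)),
        IsLocalHom (algebraMap 𝒪 (s59e_adj 𝒪 aF)) ∧
        Function.Surjective (residue (s59e_adj 𝒪 aF) ∘ algebraMap 𝒪 (s59e_adj 𝒪 aF)) ∧
        ∀ (ℓ : ℕ) (hℓ : ℓ.Prime) (hℓN : ¬ ℓ ∣ M') (hℓS : ℓ ∉ (↑S : Set ℕ)),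
          s59e_adjHom 𝒪 aF (heckeAlgebra.T hℓ hℓN hℓS) -
            algebraMap 𝒪 (s59e_adj 𝒪 aF) (((c ℓ : ℤ) : 𝒪)) ∈ maximalIdeal (s59e_adj 𝒪 aF)

section HFW

variable {p : ℕ} [hp : Fact p.Prime]
  {𝒪 : Type} [CommRing 𝒪] [IsDomain 𝒪] [IsDiscreteValuationRing 𝒪]
  [IsAdicComplete (maximalIdeal 𝒪) 𝒪] [Finite (ResidueField 𝒪)] [CharZero 𝒪] [Algebra ℤ_[p] 𝒪]
  {B : Finset ℕ} (a : ℕ → ℤ)

/-- **the Hecke ring of the full part**, free levels (`s59m_H3_hecke_full` + `s59m_H3HeckeConcl_out`). -/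
theorem s59m_heckeF_free (hp2 : p ≠ 2) (hp𝒪 : (p : 𝒪) ∈ maximalIdeal 𝒪)
    (N : ℕ) [NeZero N] (Q : Finset ℕ) (hQ : ∀ q ∈ Q, q.Prime ∧ ¬ q ∣ N)
    {M : ℕ} [NeZero M] (hM : M = N * ∏ q ∈ Q, q) (H : Subgroup (ZMod M)ˣ)
    (hD : (∏ q ∈ Q, q) ∣ M) (hH : s59u_ker M (∏ q ∈ Q, q) hD ≤ H)
    (e : ℕ) (hn : ∀ u : (ZMod M)ˣ, u ^ (p ^ e) ∈ H)
    (M' : ℕ) [NeZero M'] [Fact (HasIntegralStructure M' 2)] (hM' : M' = N * ∏ q ∈ Q, q ^ 2)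
    (S : Finset ℕ) (hpS : p ∈ S) (hBS : B ⊆ S) (hS : ∀ q : ℕ, q.Prime → q ∣ M' → q ∈ S)
    (ε : Module.End 𝒪 (s48h_Hpar 𝒪 (s48h_GammaH M H) 𝒪)) (hε : ε * ε = ε) (hε0 : ε ≠ 0)
    (hεc : ∀ x, ε * s59w_op H 𝒪 x = s59w_op H 𝒪 x * ε)
    (hnil : ∀ x ∈ s59t_goodB M B, ∃ k : ℕ,
      ∀ y : s48h_Hpar 𝒪 (s48h_GammaH M H) 𝒪,
      ((s59w_op H 𝒪 x - s59t_cB (𝒪 := 𝒪) M a x •
        (1 : Module.End 𝒪 (s48h_Hpar 𝒪 (s48h_GammaH M H) 𝒪))) ^ k) (ε y) ∈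
        (maximalIdeal 𝒪 • ⊤ : Submodule 𝒪 (s48h_Hpar 𝒪 (s48h_GammaH M H) 𝒪)))
    (ρbar : ResidualGaloisRep (ResidueField 𝒪)) (habs : ρbar.IsAbsolutelyIrreducible)
    (hEig : ∀ ℓ : ℕ, ℓ.Prime → ℓ ∉ S → ∀ A : ValuationSubring Qbar, A.LiesOverPrime ℓ →
      ∀ σ : GQ, A.IsFrobeniusAt σ ℓ →
        LinearMap.charpoly (ρbar.ρ σ) = X ^ 2 - C (residue 𝒪 ((a ℓ : ℤ) : 𝒪)) * X +
          C ((ℓ : ResidueField 𝒪))) :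
    s59m_HeckeFConcl p a H e M' S ε := by
  classical
  obtain ⟨a₀, ha1, ha2, hC⟩ := s59m_H3_hecke_full a hp2 hp𝒪 N Q hQ hM H hD hH e hn M' hM' S hpS hBS hS
    ε hε hε0 hεc hnil ρbar habs hEig
  let b := Module.Free.chooseBasis ℤ (s48h_M (s48h_GammaH M H))
  haveI : Module.Free 𝒪 (s48h_Hpar 𝒪 (s48h_GammaH M H) 𝒪) :=
    Module.Free.of_basis (s59u_cB b 𝒪)
  haveI : Module.Finite 𝒪 (s48h_Hpar 𝒪 (s48h_GammaH M H) 𝒪) :=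
    Module.Finite.of_basis (s59u_cB b 𝒪)
  obtain ⟨aF, haF, hlr, hlh, hsurj, hcong⟩ := s59m_H3HeckeConcl_out hC
  exact ⟨a₀, ha1, ha2, aF, haF, hlr, hlh, hsurj, hcong⟩

/-- **the Hecke ring of the full Taylor–Wiles part at the level `(N₂ ∏ qv, ⊤ × K_Q)`**, numerology of
`s59m_TPkgP_levelData`. -/
theorem s59m_TW_heckeF (hp2 : p ≠ 2) (hp𝒪 : (p : 𝒪) ∈ maximalIdeal 𝒪) (hpB : p ∈ B)
    (N₂ : ℕ) [NeZero N₂] (hNB₂ : ∀ q : ℕ, q.Prime → q ∣ N₂ → q ∈ B)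
    (n : ℕ) {r : ℕ} (qv : Fin r → ℕ) [NeZero (∏ j, qv j)] [NeZero (N₂ * ∏ j, qv j)]
    [NeZero (N₂ * ∏ q ∈ Finset.univ.image qv, q ^ 2)]
    [Fact (HasIntegralStructure (N₂ * ∏ q ∈ Finset.univ.image qv, q ^ 2) 2)]
    (hqinj : Function.Injective qv) (hqvpr : ∀ i, (qv i).Prime) (hqvB : ∀ i, qv i ∉ B)
    (ε : Module.End 𝒪 (s48h_Hpar 𝒪 (s48h_GammaH (N₂ * ∏ j, qv j)
      (s59t_Hmul N₂ (∏ j, qv j) (⊤ : Subgroup (ZMod N₂)ˣ) (s59t_KQ (p ^ n) qv))) 𝒪))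
    (hε : ε * ε = ε) (hε0 : ε ≠ 0)
    (hεc : ∀ x, ε * s59w_op (s59t_Hmul N₂ (∏ j, qv j) (⊤ : Subgroup (ZMod N₂)ˣ) (s59t_KQ (p ^ n) qv)) 𝒪 x =
      s59w_op (s59t_Hmul N₂ (∏ j, qv j) (⊤ : Subgroup (ZMod N₂)ˣ) (s59t_KQ (p ^ n) qv)) 𝒪 x * ε)
    (hnil : ∀ x ∈ s59t_goodB (N₂ * ∏ j, qv j) B, ∃ k : ℕ,
      ∀ y : s48h_Hpar 𝒪 (s48h_GammaH (N₂ * ∏ j, qv j)
        (s59t_Hmul N₂ (∏ j, qv j) (⊤ : Subgroup (ZMod N₂)ˣ) (s59t_KQ (p ^ n) qv))) 𝒪,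
      ((s59w_op (s59t_Hmul N₂ (∏ j, qv j) (⊤ : Subgroup (ZMod N₂)ˣ) (s59t_KQ (p ^ n) qv)) 𝒪 x -
        s59t_cB (𝒪 := 𝒪) (N₂ * ∏ j, qv j) a x •
        (1 : Module.End 𝒪 (s48h_Hpar 𝒪 (s48h_GammaH (N₂ * ∏ j, qv j)
          (s59t_Hmul N₂ (∏ j, qv j) (⊤ : Subgroup (ZMod N₂)ˣ) (s59t_KQ (p ^ n) qv))) 𝒪))) ^ k) (ε y) ∈
        (maximalIdeal 𝒪 • ⊤ : Submodule 𝒪 (s48h_Hpar 𝒪 (s48h_GammaH (N₂ * ∏ j, qv j)
          (s59t_Hmul N₂ (∏ j, qv j) (⊤ : Subgroup (ZMod N₂)ˣ) (s59t_KQ (p ^ n) qv))) 𝒪)))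
    (ρbar : ResidualGaloisRep (ResidueField 𝒪)) (habs : ρbar.IsAbsolutelyIrreducible)
    (hEig : ∀ ℓ : ℕ, ℓ.Prime → ℓ ∉ (B ∪ Finset.univ.image qv) →
      ∀ A : ValuationSubring Qbar, A.LiesOverPrime ℓ →
      ∀ σ : GQ, A.IsFrobeniusAt σ ℓ →
        LinearMap.charpoly (ρbar.ρ σ) = X ^ 2 - C (residue 𝒪 ((a ℓ : ℤ) : 𝒪)) * X +
          C ((ℓ : ResidueField 𝒪))) :
    s59m_HeckeFConcl p a (s59t_Hmul N₂ (∏ j, qv j) (⊤ : Subgroup (ZMod N₂)ˣ) (s59t_KQ (p ^ n) qv)) (0 + n)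
      (N₂ * ∏ q ∈ Finset.univ.image qv, q ^ 2) (B ∪ Finset.univ.image qv) ε := by
  classical
  have hqvN₂ : ∀ i, ¬ qv i ∣ N₂ := fun i h => hqvB i (hNB₂ _ (hqvpr i) h)
  have hMeq := s59k_level_eq_top qv N₂ hqinj
  have hD₁ : ∏ q ∈ Finset.univ.image qv, q ∣ N₂ * ∏ i, qv i := Dvd.intro_left N₂ hMeq.symm
  have hQ₂ := s59k_hQ_top qv N₂ hqvpr hqvN₂
  have hHker := s59k_hH_top qv N₂ (p ^ n) hqinj rfl hD₁
  have hnH' := s59k_ppow_mem_Hmul_top N₂ qv p 0 n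
  have hS₂ : ∀ q : ℕ, q.Prime → q ∣ (N₂ * ∏ q ∈ Finset.univ.image qv, q ^ 2) →
      q ∈ (B ∪ Finset.univ.image qv) := by
    intro q hq hqM
    rcases (Nat.Prime.dvd_mul hq).mp hqM with h | h
    · exact Finset.mem_union_left _ (hNB₂ q hq h)
    · obtain ⟨q', hq', hqq'⟩ := (Prime.dvd_finsetProd_iff (Nat.prime_iff.mp hq) _).mp h
      obtain ⟨i, -, rfl⟩ := Finset.mem_image.mp hq'
      have hqe : q = qv i := (Nat.prime_dvd_prime_iff_eq hq (hqvpr i)).mp (hq.dvd_of_dvd_pow hqq')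
      rw [hqe]
      exact Finset.mem_union_right _ (Finset.mem_image_of_mem qv (Finset.mem_univ i))
  exact s59m_heckeF_free a hp2 hp𝒪 N₂ (Finset.univ.image qv) hQ₂ hMeq _ hD₁ hHker (0 + n) hnH'
    (N₂ * ∏ q ∈ Finset.univ.image qv, q ^ 2) rfl (B ∪ Finset.univ.image qv)
    (Finset.mem_union_left _ hpB) Finset.subset_union_left hS₂ ε hε hε0 hεc hnil ρbar habs hEig

end HFW

end Fermat.Agent.Lib.S59
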