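/-
PROGRAMME (R2) = S59, case (P), item [P8-H] (helper7, prefix `s59x_`), file 2: **THE DESCENT `ψ^Z : T_n^Z → R^Z` ON THE KERNEL PAIR.**

Base level `(N, H)` (idempotent `ε`), Taylor–Wiles level `(N', H')`, `N ∣ N'` (idempotent `ε'`), control map
`π : ε' H_par(Γ_{H'}(N')) → ε H_par(Γ_H(N))` with the two equivariance clauses `hπdia`, `hπop` of helper8's `s59t_TWFull`;
`Z' = s59t_part P' ⊆ ε' H_par`, `Z = s59t_part P ⊆ ε H_par` (in case (P): the kernels of `(cor_A, cor_B)`), `π_K : Z' → Z` the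
restriction of `π` (`hπK`; helper9's `s59m_kerPi`), onto.  Hecke actions `aZ'` on `Z'`, `aZ` on `Z` induced by `a'`, `a`
(twisted operators `T'_ℓ`, exponents `k'`, `k`).

* `s59x_descentZ_T` : `aZ' (T_ℓ)` descends along `π_K` to `aZ (T_ℓ)` (twin of `s59n_descent_T`);
* `s59x_descentZ`   : **(B3) on the kernel pair**: `ψ^Z : 𝒪[aZ'(𝕋), ρ^{Z'}(B_Q)] →ₐ[𝒪] 𝒪[aZ(𝕋₀)]` with `hπψ`, `hψd`, `hψt`
  (twin of `s59n_descent_lvl`).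
-/
import Mathlib
import Fermat.Agent.Lib.S59.NXKerH1
import Fermat.Agent.Lib.S59.NDescLvl

set_option autoImplicit false
set_option linter.unusedSectionVars false
set_option linter.unusedVariables false
set_option linter.style.haveILetI false
set_option maxHeartbeats 1600000
set_option synthInstance.maxHeartbeats 400000
set_option maxSynthPendingDepth 3

noncomputable section

namespace Fermat.Agent.Lib.S59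

open Matrix MatrixGroups CongruenceSubgroup IsLocalRing CuspForm
open Fermat.Agent.Lib.S29 Fermat.Agent.Lib.S48 Fermat.Agent.Lib.S41

section Main

variable {𝒪 : Type} [CommRing 𝒪] {N N' : ℕ} [NeZero N] [NeZero N']
  {H : Subgroup (ZMod N)ˣ} {H' : Subgroup (ZMod N')ˣ}
  (hN : N ∣ N') (h0 : Gamma0 N' ≤ Gamma0 N) (hle : s48h_GammaH N' H' ≤ s48h_GammaH N H)
  (ε : Module.End 𝒪 (s48h_Hpar 𝒪 (s48h_GammaH N H) 𝒪))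
  (ε' : Module.End 𝒪 (s48h_Hpar 𝒪 (s48h_GammaH N' H') 𝒪))
  (hεc : ∀ j : s59w_AIdx N, ε * s59w_op H 𝒪 j = s59w_op H 𝒪 j * ε)
  (hεc' : ∀ j : s59w_AIdx N', ε' * s59w_op H' 𝒪 j = s59w_op H' 𝒪 j * ε')
  (hρ : ∀ δ y, ε (s59t_rho N H 𝒪 𝒪 δ y) = s59t_rho N H 𝒪 𝒪 δ (ε y))
  (hρ' : ∀ δ y, ε' (s59t_rho N' H' 𝒪 𝒪 δ y) = s59t_rho N' H' 𝒪 𝒪 δ (ε' y))
  (π : s59t_part ε' →ₗ[𝒪] s59t_part ε)
  (hπdia : ∀ δ' y, π (s59t_partRep (s59t_rho N' H' 𝒪 𝒪) hρ' δ' y) =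
      s59t_partRep (s59t_rho N H 𝒪 𝒪) hρ (s59t_DeltaMap2 h0 hle δ') (π y))
  (hπop : ∀ (T : Module.End 𝒪 (s48h_Hpar 𝒪 (s48h_GammaH N H) 𝒪))
      (T' : Module.End 𝒪 (s48h_Hpar 𝒪 (s48h_GammaH N' H') 𝒪))
      (hT : ∀ y, ε (T y) = T (ε y)) (hT' : ∀ y, ε' (T' y) = T' (ε' y)),
      (∀ x, s59t_resGHpar hle 𝒪 𝒪 (T x) = T' (s59t_resGHpar hle 𝒪 𝒪 x)) →
      (∀ δ' y, T' (s59t_rho N' H' 𝒪 𝒪 δ' y) = s59t_rho N' H' 𝒪 𝒪 δ' (T' y)) →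
      ∀ y, π (s59t_partMap T' hT' y) = s59t_partMap T hT (π y))
  -- the kernel pair
  (P : Module.End 𝒪 (s59t_part ε)) (P' : Module.End 𝒪 (s59t_part ε'))
  (hP' : ∀ δ x, P' (s59t_partRep (s59t_rho N' H' 𝒪 𝒪) hρ' δ x) =
    s59t_partRep (s59t_rho N' H' 𝒪 𝒪) hρ' δ (P' x))
  (πK : s59t_part P' →ₗ[𝒪] s59t_part P)
  (hπK : ∀ y : s59t_part P', ((πK y : s59t_part P) : s59t_part ε) = π (y : s59t_part ε'))
  (hπKs : Function.Surjective πK)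
  -- the Hecke data at the Taylor–Wiles level
  (M' : ℕ) [NeZero M'] (S : Finset ℕ) (hN'M' : N' ∣ M')
  (a' : heckeAlgebra M' 2 (↑S : Set ℕ) →+* Module.End 𝒪 (s48h_Hpar 𝒪 (s48h_GammaH N' H') 𝒪))
  (k' : ℕ)
  (ha' : ∀ (ℓ : ℕ) (hℓ : ℓ.Prime) (hℓN : ¬ ℓ ∣ M') (hℓS : ℓ ∉ (↑S : Set ℕ)) (i : s59w_TIdx N'),
    i.ell = ℓ → a' (heckeAlgebra.T hℓ hℓN hℓS) = s59e_Tp' H' 𝒪 k' i)
  (aZ' : heckeAlgebra M' 2 (↑S : Set ℕ) →+* Module.End 𝒪 (s59t_part P'))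
  (haZ' : ∀ t (z : s59t_part P'), s59x_jZ H' ε' P' (aZ' t z) = a' t (s59x_jZ H' ε' P' z))
  -- the Hecke data at the base level
  (M₀ : ℕ) [NeZero M₀] (S₀ : Finset ℕ)
  (a : heckeAlgebra M₀ 2 (↑S₀ : Set ℕ) →+* Module.End 𝒪 (s48h_Hpar 𝒪 (s48h_GammaH N H) 𝒪))
  (k : ℕ)
  (ha : ∀ (ℓ : ℕ) (hℓ : ℓ.Prime) (hℓN : ¬ ℓ ∣ M₀) (hℓS : ℓ ∉ (↑S₀ : Set ℕ)) (i : s59w_TIdx N),
    i.ell = ℓ → a (heckeAlgebra.T hℓ hℓN hℓS) = s59e_Tp' H 𝒪 k i)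
  (aZ : heckeAlgebra M₀ 2 (↑S₀ : Set ℕ) →+* Module.End 𝒪 (s59t_part P))
  (haZ : ∀ t (z : s59t_part P), s59x_jZ H ε P (aZ t z) = a t (s59x_jZ H ε P z))
  -- the exponents
  (P₀ : ℕ) (hP₀ : ∀ u : (ZMod N)ˣ, u ^ P₀ ∈ H) (hk : k' ≡ k [MOD P₀])

include hN hεc hεc' hπop hπK hN'M' ha' haZ' ha haZ hP₀ hk in
/-- **`aZ' (T_ℓ)` descends along `π_K` to `aZ (T_ℓ)`.** -/
theorem s59x_descentZ_T (ℓ : ℕ) (hℓ : ℓ.Prime) (h1 : ¬ ℓ ∣ M') (h2 : ℓ ∉ (↑S : Set ℕ))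
    (h3 : ¬ ℓ ∣ M₀) (h4 : ℓ ∉ (↑S₀ : Set ℕ)) :
    ∀ y, πK (aZ' (heckeAlgebra.T hℓ h1 h2) y) = aZ (heckeAlgebra.T hℓ h3 h4) (πK y) := by
  obtain ⟨i', hi'⟩ := s59e_exists_TIdx (M := N') hℓ (fun h => h1 (dvd_trans h hN'M'))
  have hcomm : ∀ (i : s59w_TIdx N) (y : s48h_Hpar 𝒪 (s48h_GammaH N H) 𝒪),
      ε (s59e_Tp' H 𝒪 k' i y) = s59e_Tp' H 𝒪 k' i (ε y) := by
    intro i y
    have h : ε * s59e_Tp' H 𝒪 k' i = s59e_Tp' H 𝒪 k' i * ε := by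
      unfold s59e_Tp'
      rw [← mul_assoc, hεc, mul_assoc, hεc, mul_assoc]
    exact LinearMap.congr_fun h y
  have hcomm' : ∀ (y : s48h_Hpar 𝒪 (s48h_GammaH N' H') 𝒪),
      ε' (s59e_Tp' H' 𝒪 k' i' y) = s59e_Tp' H' 𝒪 k' i' (ε' y) := by
    intro y
    have h : ε' * s59e_Tp' H' 𝒪 k' i' = s59e_Tp' H' 𝒪 k' i' * ε' := by
      unfold s59e_Tp'
      rw [← mul_assoc, hεc', mul_assoc, hεc', mul_assoc]
    exact LinearMap.congr_fun h y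
  have hTρ : ∀ δ' y, s59e_Tp' H' 𝒪 k' i' (s59t_rho N' H' 𝒪 𝒪 δ' y) =
      s59t_rho N' H' 𝒪 𝒪 δ' (s59e_Tp' H' 𝒪 k' i' y) := by
    intro δ' y
    obtain ⟨τ, rfl⟩ := QuotientGroup.mk_surjective δ'
    rw [s59t_rho_eq_op]
    have h : s59e_Tp' H' 𝒪 k' i' * s59w_op H' 𝒪 (Sum.inr ⟨(τ : SL(2, ℤ))⁻¹, inv_mem τ.2⟩) =
        s59w_op H' 𝒪 (Sum.inr ⟨(τ : SL(2, ℤ))⁻¹, inv_mem τ.2⟩) * s59e_Tp' H' 𝒪 k' i' := by
      unfold s59e_Tp'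
      rw [mul_assoc, s59w_op_comm H' 𝒪 (Sum.inl i'), ← mul_assoc,
        s59w_op_comm H' 𝒪 (Sum.inr (s59e_tau i' k')), mul_assoc]
    exact LinearMap.congr_fun h y
  have key := hπop (s59e_Tp' H 𝒪 k' (s59t_TIdx_down hN i')) (s59e_Tp' H' 𝒪 k' i')
    (hcomm _) hcomm' (fun x => s59n_res_Tp' hN hle k' i' x) hTρ
  intro y
  -- the two sides on the ambient parts
  have hop' : a' (heckeAlgebra.T hℓ h1 h2) = s59e_Tp' H' 𝒪 k' i' := ha' ℓ hℓ h1 h2 i' hi'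
  have hop : a (heckeAlgebra.T hℓ h3 h4) = s59e_Tp' H 𝒪 k' (s59t_TIdx_down hN i') :=
    (ha ℓ hℓ h3 h4 (s59t_TIdx_down hN i') hi').trans
      (s59n_Tp'_exp P₀ hP₀ hk (s59t_TIdx_down hN i')).symm
  have e1 : ((aZ' (heckeAlgebra.T hℓ h1 h2) y : s59t_part P') : s59t_part ε') =
      s59t_partMap (s59e_Tp' H' 𝒪 k' i') hcomm' (y : s59t_part ε') :=
    Subtype.ext ((haZ' (heckeAlgebra.T hℓ h1 h2) y).trans
      (LinearMap.congr_fun hop' (s59x_jZ H' ε' P' y)))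
  have e2 : ((aZ (heckeAlgebra.T hℓ h3 h4) (πK y) : s59t_part P) : s59t_part ε) =
      s59t_partMap (s59e_Tp' H 𝒪 k' (s59t_TIdx_down hN i')) (hcomm _)
        ((πK y : s59t_part P) : s59t_part ε) :=
    Subtype.ext ((haZ (heckeAlgebra.T hℓ h3 h4) (πK y)).trans
      (LinearMap.congr_fun hop (s59x_jZ H ε P (πK y))))
  refine Subtype.ext ?_
  exact (hπK _).trans ((congrArg π e1).trans ((key _).trans
    ((congrArg (s59t_partMap (s59e_Tp' H 𝒪 k' (s59t_TIdx_down hN i')) (hcomm _))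
      (hπK y).symm).trans e2.symm)))

variable (hS : ∀ q : ℕ, q.Prime → q ∣ M' → q ∈ S) (hM₀ : M₀ ∣ M') (hS₀ : S₀ ⊆ S)
  (Bq : Subgroup (s59t_Delta N' H')) (hBq : ∀ β ∈ Bq, s59t_DeltaMap2 h0 hle β = 1)
  (hcomm : ∀ (t : heckeAlgebra M' 2 (↑S : Set ℕ)) (β : Bq),
    Commute (aZ' t) (((s59t_partRep (s59t_partRep (s59t_rho N' H' 𝒪 𝒪) hρ') hP').comp
      Bq.subtype) β))

include hN hεc hεc' hπdia hπop hπK hπKs hN'M' ha' haZ' ha haZ hP₀ hk hS hM₀ hS₀ hBq in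
/-- **(B3) on the kernel pair: the descent `ψ^Z : T_n^Z → R^Z`**: `hπψ`, `hψd`, `hψt`. -/
theorem s59x_descentZ :
    ∃ ψ : s59e_adj 𝒪 (s59e_aB aZ'
          ((s59t_partRep (s59t_partRep (s59t_rho N' H' 𝒪 𝒪) hρ') hP').comp Bq.subtype) hcomm)
        →ₐ[𝒪] s59e_adj 𝒪 aZ,
      (∀ (t : s59e_adj 𝒪 (s59e_aB aZ'
          ((s59t_partRep (s59t_partRep (s59t_rho N' H' 𝒪 𝒪) hρ') hP').comp Bq.subtype) hcomm))
          (y : s59t_part P'), πK (t • y) = ψ t • πK y) ∧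
      (∀ β : Bq, ψ (s59e_dia aZ'
        ((s59t_partRep (s59t_partRep (s59t_rho N' H' 𝒪 𝒪) hρ') hP').comp Bq.subtype)
        hcomm β) = 1) ∧
      (∀ (ℓ : ℕ) (hℓ : ℓ.Prime) (h1 : ¬ ℓ ∣ M') (h2 : ℓ ∉ (↑S : Set ℕ)) (h3 : ¬ ℓ ∣ M₀)
        (h4 : ℓ ∉ (↑S₀ : Set ℕ)),
        ψ (s59e_incl aZ'
          ((s59t_partRep (s59t_partRep (s59t_rho N' H' 𝒪 𝒪) hρ') hP').comp Bq.subtype) hcomm
          (s59e_adjHom 𝒪 aZ' (heckeAlgebra.T hℓ h1 h2))) =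
          s59e_adjHom 𝒪 aZ (heckeAlgebra.T hℓ h3 h4)) := by
  classical
  have hT := s59x_descentZ_T hN hle ε ε' hεc hεc' π hπop P P' πK hπK M' S hN'M' a' k' ha' aZ' haZ'
    M₀ S₀ a k ha aZ haZ P₀ hP₀ hk
  have hB : ∀ (β : Bq) (y : s59t_part P'),
      πK (((s59t_partRep (s59t_partRep (s59t_rho N' H' 𝒪 𝒪) hρ') hP').comp Bq.subtype) β y) =
        πK y := by
    intro β y
    apply Subtype.ext
    rw [hπK, hπK]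
    show π (s59t_partRep (s59t_rho N' H' 𝒪 𝒪) hρ' (β : s59t_Delta N' H') (y : s59t_part ε')) =
      π (y : s59t_part ε')
    rw [hπdia, hBq β β.2, map_one]
    rfl
  exact s59n_descent_hecke πK hπKs
    (S := (↑S : Set ℕ)) hS (S₀ := (↑S₀ : Set ℕ)) hM₀ (Finset.coe_subset.mpr hS₀) aZ'
    ((s59t_partRep (s59t_partRep (s59t_rho N' H' 𝒪 𝒪) hρ') hP').comp Bq.subtype) hcomm aZ hT hB

end Main

end Fermat.Agent.Lib.S59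

end
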