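/-
PROGRAMME (R2) = S59, case (P), NON-MINIMAL half (helper7, prefix `s59x_`): the small general lemma `s59x_range_nontrivial` used by the level files
NXKerH3/H3b/H3c/H3r/H5 — split off NXKerH3.lean so that NXKerH3r (the level record used by the final chain) does NOT import the 30-minute file
NXKerH3.lean (helper2's measurement, board 4096).
-/
import Mathlib

set_option autoImplicit false

namespace Fermat.Agent.Lib.S59

/-- the range of a nonzero endomorphism is nontrivial. -/
theorem s59x_range_nontrivial {R M : Type*} [Semiring R] [AddCommMonoid M] [Module R M]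
    (f : M →ₗ[R] M) (hf : f ≠ 0) : Nontrivial (LinearMap.range f) := by
  by_contra hnt
  rw [not_nontrivial_iff_subsingleton] at hnt
  apply hf
  refine LinearMap.ext fun y => ?_
  have h0 : (⟨f y, ⟨y, rfl⟩⟩ : LinearMap.range f) = 0 := Subsingleton.elim _ _
  exact congrArg Subtype.val h0

end Fermat.Agent.Lib.S59
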