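/-
S59 project, case (P), route (T5w), [W4c] (helper9, prefix `s59m_`): **THE TAYLOR–WILES DATA OF ONE LEVEL OF THE KERNEL-PAIR CHAIN, STATEMENT** (the theorem `Internal.s59m_lvl_pkgZ` is in MKerPkgZ.lean, the record providers in MKerRecProv.lean) — the
(P)-twin of helper5's `s59efl_lvl_pkg` (EFlrLvlP), with the bundles of the two levels `N` (`p`-free) and `N₂ = N p` as INPUTS (interface (A)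
of helper7's post 4001: `s59ex_W_level` is called ONCE per level by the final and shared with the flat (H3) of the `p`-free level) and the
[C8]-record as a PROVIDER hypothesis (helper3's post 4037: no parity in the package).

* `s59m_RecProv` (def) + `s59m_recProv_even` : the record provider = helper7's `Internal.s59x_levelZ_rec` universally quantified from the
  idempotent of the level on;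
* `s59m_LvlPkgZConcl` (def) : the conclusion, a flat `∃`-list (`choose`-friendly);
* `Internal.s59m_lvl_pkgZ` : `s59m_TPkgP_levelE_free` (over the SMALL ring `DQ'`) + `θ := θ' ∘ κ` + the record + helper7's
  `s59x_trace_factsZ` + `s59efl_adj_reduced`/`_torsionfree` (with `j := s59x_jZ`).
-/
import Mathlib
import Fermat.Agent.Lib.S59.MKerRecProv
import Fermat.Agent.Lib.S59.MKerTopF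
import Fermat.Agent.Lib.S59.NXKerH3r
import Fermat.Agent.Lib.S59.NXTrZ
import Fermat.Agent.Lib.S59.XDefOrd
import Fermat.Agent.Lib.S59.EFlrTr
import Fermat.Agent.Lib.S59.EFlrConcA

set_option autoImplicit false
set_option linter.unusedSectionVars false
set_option linter.unusedVariables false
set_option linter.style.haveILetI false
set_option maxHeartbeats 0
set_option synthInstance.maxHeartbeats 400000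
set_option maxSynthPendingDepth 3

noncomputable section

namespace Fermat.Agent.Lib.S59

open Matrix MatrixGroups CongruenceSubgroup IsLocalRing Polynomial CuspForm
open WeierstrassCurve WeierstrassCurve.Affine WeierstrassCurve.Affine.Point
open Fermat.Agent.Lib.S29 Fermat.Agent.Lib.S48 Fermat.Agent.Lib.S41 Fermat.Agent.Lib.S44
open Fermat.Agent.Lib.S58 Fermat.Agent.Lib.S18

local notation "Γℚ" => (AlgebraicClosure ℚ ≃ₐ[ℚ] AlgebraicClosure ℚ)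

/-- **the Taylor–Wiles data of one level of the kernel-pair chain** (conclusion of `s59m_lvl_pkgZ`; the (P)-twin of the conclusion of helper5's
`s59efl_lvl_pkg`): over given idempotents `ε₁'`, `ε'` (= the bundles of the two levels), the kernel pair with its Hecke ring
(`s59m_LvlConclE`, every clause `∃`-bound so that `choose` names it), `θ : DQ.R ↠ 𝒪[aZ]` for the BIG ring `DQ`,
helper5's level record `rec`, the trace-ring facts, reducedness, torsion-freeness and the vanishing of `θ` on the inertia coefficients at the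
primes of `Qr` (= the raising primes at the chain index `0`, `∅` elsewhere). -/
def s59m_LvlPkgZConcl (p : ℕ) [Fact p.Prime] {𝒪 : Type} [CommRing 𝒪] [IsDomain 𝒪] [IsDiscreteValuationRing 𝒪]
    [IsAdicComplete (maximalIdeal 𝒪) 𝒪] [Finite (ResidueField 𝒪)] [CharZero 𝒪]
    {N N₂ : ℕ} [NeZero N] [NeZero N₂] (B : Finset ℕ) (c : ℕ → ℤ)
    (e₂ : MvPolynomial ↥(s59t_goodB N₂ B) 𝒪)
    (hρ₂ : ∀ δ y, s59t_E0 (⊤ : Subgroup (ZMod N₂)ˣ) B e₂ (s59t_rho N₂ (⊤ : Subgroup (ZMod N₂)ˣ) 𝒪 𝒪 δ y) =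
        s59t_rho N₂ (⊤ : Subgroup (ZMod N₂)ˣ) 𝒪 𝒪 δ (s59t_E0 (⊤ : Subgroup (ZMod N₂)ˣ) B e₂ y))
    (P : Module.End 𝒪 (s59t_part (s59t_E0 (⊤ : Subgroup (ZMod N₂)ˣ) B e₂)))
    (hP : ∀ δ x, P (s59t_partRep (s59t_rho N₂ (⊤ : Subgroup (ZMod N₂)ˣ) 𝒪 𝒪) hρ₂ δ x) =
        s59t_partRep (s59t_rho N₂ (⊤ : Subgroup (ZMod N₂)ˣ) 𝒪 𝒪) hρ₂ δ (P x))
    (d : ℕ)
    (aZ₀ : heckeAlgebra N₂ 2 (↑B : Set ℕ) →+* Module.End 𝒪 (s59t_part P))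
    [IsLocalRing (s59e_adj 𝒪 aZ₀)]
    (hRρ : ∀ (t : s59e_adj 𝒪 aZ₀) (δ : (s59t_Delta N₂ (⊤ : Subgroup (ZMod N₂)ˣ))) (y : s59t_part P),
      t • (s59t_partRep (s59t_partRep (s59t_rho N₂ (⊤ : Subgroup (ZMod N₂)ˣ) 𝒪 𝒪) hρ₂) hP) δ y = (s59t_partRep (s59t_partRep (s59t_rho N₂ (⊤ : Subgroup (ZMod N₂)ˣ) 𝒪 𝒪) hρ₂) hP) δ (t • y))
    (ρR : GaloisRepAdic (s59e_adj 𝒪 aZ₀))
    (n : ℕ) {r : ℕ} (σ : Type) [DecidableEq σ] [Fintype σ] (qv : Fin r → ℕ) [NeZero (∏ j, qv j)] [NeZero (N * ∏ j, qv j)]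
    [NeZero (N₂ * ∏ j, qv j)] [NeZero (N₂ * ∏ q ∈ Finset.univ.image qv, q ^ 2)]
    (hpL : ¬ p ∣ N * ∏ j, qv j) (hN' : N₂ * ∏ j, qv j = N * (∏ j, qv j) * p)
    (hG' : s59f_IsG' (N * ∏ j, qv j) p
      (s59t_Hmul N (∏ j, qv j) (⊤ : Subgroup (ZMod N)ˣ) (s59t_KQ (p ^ n) qv))
      (s48h_GammaH (N₂ * ∏ j, qv j)
        (s59t_Hmul N₂ (∏ j, qv j) (⊤ : Subgroup (ZMod N₂)ˣ) (s59t_KQ (p ^ n) qv))))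
    (e₀ : SL(2, ℤ)) (he' : e₀ ∈ Gamma0 (N₂ * ∏ j, qv j))
    (hee : s59f_gW hpL * e₀ * e₀ ∈ s48h_GammaH (N₂ * ∏ j, qv j)
      (s59t_Hmul N₂ (∏ j, qv j) (⊤ : Subgroup (ZMod N₂)ˣ) (s59t_KQ (p ^ n) qv)))
    (g : Fin r → (s59t_BQ N₂ (∏ j, qv j) (⊤ : Subgroup (ZMod N₂)ˣ) (s59t_KQ (p ^ n) qv)))
    {ρbar : ResidualGaloisRep (ResidueField 𝒪)} (Sg Su : Finset ℕ)
    (DQ : GaloisRep.DeformationRingData 𝒪 ρbar (fun _A _ _ _ ρ =>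
      GaloisRep.strictOrdinaryCondition 𝒪 p Sg ρ ∧
        ∀ q ∈ Su, q.Prime → q ≠ p → ρ.IsUnipotentOnInertiaAt q))
    (Qr : Set ℕ)
    (ε₁' : Module.End 𝒪 (s48h_Hpar 𝒪 (s48h_GammaH (N * ∏ j, qv j) (s59t_Hmul N (∏ j, qv j) (⊤ : Subgroup (ZMod N)ˣ) (s59t_KQ (p ^ n) qv))) 𝒪))
    (ε' : Module.End 𝒪 (s48h_Hpar 𝒪 (s48h_GammaH (N₂ * ∏ j, qv j) (s59t_Hmul N₂ (∏ j, qv j) (⊤ : Subgroup (ZMod N₂)ˣ) (s59t_KQ (p ^ n) qv))) 𝒪)) : Prop :=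
    ∃ (hc' : (s59f_oldN hpL hN' hG' 𝒪 𝒪 e₀ he' hee).Compat ε₁' ε')
      (hρ' : ∀ δ y, ε' ((s59t_rho (N₂ * ∏ j, qv j) (s59t_Hmul N₂ (∏ j, qv j) (⊤ : Subgroup (ZMod N₂)ˣ) (s59t_KQ (p ^ n) qv)) 𝒪 𝒪) δ y) = (s59t_rho (N₂ * ∏ j, qv j) (s59t_Hmul N₂ (∏ j, qv j) (⊤ : Subgroup (ZMod N₂)ˣ) (s59t_KQ (p ^ n) qv)) 𝒪 𝒪) δ (ε' y))
      (π₂ : s59t_part ε' →ₗ[𝒪] s59t_part (s59t_E0 (⊤ : Subgroup (ZMod N₂)ˣ) B e₂))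
      (P' : Module.End 𝒪 (s59t_part ε'))
      (hP' : ∀ δ x, P' (s59t_partRep (s59t_rho (N₂ * ∏ j, qv j) (s59t_Hmul N₂ (∏ j, qv j) (⊤ : Subgroup (ZMod N₂)ˣ) (s59t_KQ (p ^ n) qv)) 𝒪 𝒪) hρ' δ x) = s59t_partRep (s59t_rho (N₂ * ∏ j, qv j) (s59t_Hmul N₂ (∏ j, qv j) (⊤ : Subgroup (ZMod N₂)ˣ) (s59t_KQ (p ^ n) qv)) 𝒪 𝒪) hρ' δ (P' x))
      (b' : Fin d → s59t_part P')
      (πK : s59t_part P' →ₗ[𝒪] s59t_part P)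
      (a : heckeAlgebra (N₂ * ∏ q ∈ Finset.univ.image qv, q ^ 2) 2 (↑(B ∪ Finset.univ.image qv) : Set ℕ) →+* Module.End 𝒪 (s48h_Hpar 𝒪 (s48h_GammaH (N₂ * ∏ j, qv j) (s59t_Hmul N₂ (∏ j, qv j) (⊤ : Subgroup (ZMod N₂)ˣ) (s59t_KQ (p ^ n) qv))) 𝒪))
      (aZ : heckeAlgebra (N₂ * ∏ q ∈ Finset.univ.image qv, q ^ 2) 2 (↑(B ∪ Finset.univ.image qv) : Set ℕ) →+* Module.End 𝒪 (s59t_part P')),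
    ∃ (hid' : ε' * ε' = ε'),
    ∃ (hεc' : ∀ jdx : s59w_AIdx (N₂ * ∏ j, qv j), ε' * s59w_op (s59t_Hmul N₂ (∏ j, qv j) (⊤ : Subgroup (ZMod N₂)ˣ) (s59t_KQ (p ^ n) qv)) 𝒪 jdx = s59w_op (s59t_Hmul N₂ (∏ j, qv j) (⊤ : Subgroup (ZMod N₂)ˣ) (s59t_KQ (p ^ n) qv)) 𝒪 jdx * ε'),
    ∃ (hP1 : s59t_TWFull (s59t_Gamma0_anti (s59t_dvd_mul_left' N₂ (∏ j, qv j))) (s59t_GammaHmul_le (N := N₂) (D := (∏ j, qv j)) (H := (⊤ : Subgroup (ZMod N₂)ˣ)) (K := s59t_KQ (p ^ n) qv)) (s59t_BQ N₂ (∏ j, qv j) (⊤ : Subgroup (ZMod N₂)ˣ) (s59t_KQ (p ^ n) qv)) (s59t_CQ N₂ (∏ j, qv j) (⊤ : Subgroup (ZMod N₂)ˣ) (s59t_KQ (p ^ n) qv)) (s59t_E0 (⊤ : Subgroup (ZMod N₂)ˣ) B e₂) ε'),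
    ∃ (hιπ₂ : ∀ y, s59t_iotaH (s59t_E0 (⊤ : Subgroup (ZMod N₂)ˣ) B e₂) ε' (s59t_resGHpar (s59t_GammaHmul_le (N := N₂) (D := (∏ j, qv j)) (H := (⊤ : Subgroup (ZMod N₂)ˣ)) (K := s59t_KQ (p ^ n) qv)) 𝒪 𝒪) (π₂ y) =
      s59t_normPsi (s59t_partRep (s59t_rho (N₂ * ∏ j, qv j) (s59t_Hmul N₂ (∏ j, qv j) (⊤ : Subgroup (ZMod N₂)ˣ) (s59t_KQ (p ^ n) qv)) 𝒪 𝒪) hρ') (s59t_BQ N₂ (∏ j, qv j) (⊤ : Subgroup (ZMod N₂)ˣ) (s59t_KQ (p ^ n) qv)) 1 y),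
    ∃ (hιinj₂ : Function.Injective (s59t_iotaH (s59t_E0 (⊤ : Subgroup (ZMod N₂)ˣ) B e₂) ε' (s59t_resGHpar (s59t_GammaHmul_le (N := N₂) (D := (∏ j, qv j)) (H := (⊤ : Subgroup (ZMod N₂)ˣ)) (K := s59t_KQ (p ^ n) qv)) 𝒪 𝒪))),
    ∃ (hPP' : P' * P' = P'),
    ∃ (hmem' : ∀ x : s59t_part ε', x ∈ s59t_part P' ↔
        ((s59f_oldN hpL hN' hG' 𝒪 𝒪 e₀ he' hee).restrict hc').corA x = 0 ∧
        ((s59f_oldN hpL hN' hG' 𝒪 𝒪 e₀ he' hee).restrict hc').corB x = 0),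
    ∃ (hZop : ∀ (x : s59w_AIdx (N₂ * ∏ j, qv j)) (z : s59t_part P'), ∃ z' : s59t_part P',
      s59x_jZ (s59t_Hmul N₂ (∏ j, qv j) (⊤ : Subgroup (ZMod N₂)ˣ) (s59t_KQ (p ^ n) qv)) ε' P' z' = s59w_op (s59t_Hmul N₂ (∏ j, qv j) (⊤ : Subgroup (ZMod N₂)ˣ) (s59t_KQ (p ^ n) qv)) 𝒪 x (s59x_jZ (s59t_Hmul N₂ (∏ j, qv j) (⊤ : Subgroup (ZMod N₂)ˣ) (s59t_KQ (p ^ n) qv)) ε' P' z)),
    ∃ (hb' : Function.Bijective (s59t_evalMap (s59t_partRep (s59t_partRep (s59t_rho (N₂ * ∏ j, qv j) (s59t_Hmul N₂ (∏ j, qv j) (⊤ : Subgroup (ZMod N₂)ˣ) (s59t_KQ (p ^ n) qv)) 𝒪 𝒪) hρ') hP') b')),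
    ∃ (hπK : ∀ y : s59t_part P', ((πK y : s59t_part P) : s59t_part (s59t_E0 (⊤ : Subgroup (ZMod N₂)ˣ) B e₂)) = π₂ (y : s59t_part ε')),
    ∃ (h2 : ∀ y ∈ s59t_eig (s59t_partRep (s59t_partRep (s59t_rho (N₂ * ∏ j, qv j) (s59t_Hmul N₂ (∏ j, qv j) (⊤ : Subgroup (ZMod N₂)ˣ) (s59t_KQ (p ^ n) qv)) 𝒪 𝒪) hρ') hP') (s59t_CQ N₂ (∏ j, qv j) (⊤ : Subgroup (ZMod N₂)ˣ) (s59t_KQ (p ^ n) qv)) (1 : (s59t_Delta (N₂ * ∏ j, qv j) (s59t_Hmul N₂ (∏ j, qv j) (⊤ : Subgroup (ZMod N₂)ˣ) (s59t_KQ (p ^ n) qv))) →* 𝒪ˣ),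
      πK y ∈ s59t_eig (s59t_partRep (s59t_partRep (s59t_rho N₂ (⊤ : Subgroup (ZMod N₂)ˣ) 𝒪 𝒪) hρ₂) hP) ⊤ (1 : (s59t_Delta N₂ (⊤ : Subgroup (ZMod N₂)ˣ)) →* 𝒪ˣ)),
    ∃ (h3 : ∀ x ∈ s59t_eig (s59t_partRep (s59t_partRep (s59t_rho N₂ (⊤ : Subgroup (ZMod N₂)ˣ) 𝒪 𝒪) hρ₂) hP) ⊤ (1 : (s59t_Delta N₂ (⊤ : Subgroup (ZMod N₂)ˣ)) →* 𝒪ˣ),
      ∃ y ∈ s59t_eig (s59t_partRep (s59t_partRep (s59t_rho (N₂ * ∏ j, qv j) (s59t_Hmul N₂ (∏ j, qv j) (⊤ : Subgroup (ZMod N₂)ˣ) (s59t_KQ (p ^ n) qv)) 𝒪 𝒪) hρ') hP') (s59t_CQ N₂ (∏ j, qv j) (⊤ : Subgroup (ZMod N₂)ˣ) (s59t_KQ (p ^ n) qv)) (1 : (s59t_Delta (N₂ * ∏ j, qv j) (s59t_Hmul N₂ (∏ j, qv j) (⊤ : Subgroup (ZMod N₂)ˣ) (s59t_KQ (p ^ n) qv))) →* 𝒪ˣ), πK y = x),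
    ∃ (h4 : ∀ y ∈ s59t_eig (s59t_partRep (s59t_partRep (s59t_rho (N₂ * ∏ j, qv j) (s59t_Hmul N₂ (∏ j, qv j) (⊤ : Subgroup (ZMod N₂)ˣ) (s59t_KQ (p ^ n) qv)) 𝒪 𝒪) hρ') hP') (s59t_CQ N₂ (∏ j, qv j) (⊤ : Subgroup (ZMod N₂)ˣ) (s59t_KQ (p ^ n) qv)) (1 : (s59t_Delta (N₂ * ∏ j, qv j) (s59t_Hmul N₂ (∏ j, qv j) (⊤ : Subgroup (ZMod N₂)ˣ) (s59t_KQ (p ^ n) qv))) →* 𝒪ˣ), πK y = 0 →
      y ∈ Submodule.span 𝒪 {z : s59t_part P' | ∃ β ∈ (s59t_BQ N₂ (∏ j, qv j) (⊤ : Subgroup (ZMod N₂)ˣ) (s59t_KQ (p ^ n) qv)),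
        ∃ y' ∈ s59t_eig (s59t_partRep (s59t_partRep (s59t_rho (N₂ * ∏ j, qv j) (s59t_Hmul N₂ (∏ j, qv j) (⊤ : Subgroup (ZMod N₂)ˣ) (s59t_KQ (p ^ n) qv)) 𝒪 𝒪) hρ') hP') (s59t_CQ N₂ (∏ j, qv j) (⊤ : Subgroup (ZMod N₂)ˣ) (s59t_KQ (p ^ n) qv)) (1 : (s59t_Delta (N₂ * ∏ j, qv j) (s59t_Hmul N₂ (∏ j, qv j) (⊤ : Subgroup (ZMod N₂)ˣ) (s59t_KQ (p ^ n) qv))) →* 𝒪ˣ), z = (s59t_partRep (s59t_partRep (s59t_rho (N₂ * ∏ j, qv j) (s59t_Hmul N₂ (∏ j, qv j) (⊤ : Subgroup (ZMod N₂)ˣ) (s59t_KQ (p ^ n) qv)) 𝒪 𝒪) hρ') hP') β y' - y'}),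
    ∃ (ha1 : ∀ (ℓ : ℕ) (hℓ : ℓ.Prime) (hℓN : ¬ ℓ ∣ (N₂ * ∏ q ∈ Finset.univ.image qv, q ^ 2))
      (hℓS : ℓ ∉ (↑(B ∪ Finset.univ.image qv) : Set ℕ)) (i : s59w_TIdx (N₂ * ∏ j, qv j)),
      i.ell = ℓ → a (heckeAlgebra.T hℓ hℓN hℓS) = s59e_Tp' (s59t_Hmul N₂ (∏ j, qv j) (⊤ : Subgroup (ZMod N₂)ˣ) (s59t_KQ (p ^ n) qv)) 𝒪 ((p ^ (0 + n) - 1) * ((p ^ (0 + n) + 1) / 2)) i),
    ∃ (ha2 : ∀ t, a t ∈ Subring.closure (Set.range (s59e_Tp' (s59t_Hmul N₂ (∏ j, qv j) (⊤ : Subgroup (ZMod N₂)ˣ) (s59t_KQ (p ^ n) qv)) 𝒪 ((p ^ (0 + n) - 1) * ((p ^ (0 + n) + 1) / 2))))),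
    ∃ (haZ : ∀ t (z : s59t_part P'), s59x_jZ (s59t_Hmul N₂ (∏ j, qv j) (⊤ : Subgroup (ZMod N₂)ˣ) (s59t_KQ (p ^ n) qv)) ε' P' (aZ t z) = a t (s59x_jZ (s59t_Hmul N₂ (∏ j, qv j) (⊤ : Subgroup (ZMod N₂)ˣ) (s59t_KQ (p ^ n) qv)) ε' P' z)),
    ∃ (hlocA : ∀ x ∈ s59e_adj 𝒪 aZ, ∃ dd : 𝒪, s59e_IsLocScalar x dd),
    ∃ (_ : IsLocalRing (s59e_adj 𝒪 aZ)) (θ : DQ.R →ₐ[𝒪] s59e_adj 𝒪 aZ)
      (hθ : Function.Surjective θ)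
      (hfrobT : ∀ ℓ : ℕ, ℓ.Prime → ℓ ∉ (B ∪ Finset.univ.image qv) →
      ∀ A' : ValuationSubring (AlgebraicClosure ℚ), A'.LiesOverPrime ℓ →
      ∀ τ : Γℚ, A'.IsFrobeniusAt τ ℓ →
        (LinearMap.charpoly (DQ.ρ.ρ τ)).map (θ : DQ.R →+* s59e_adj 𝒪 aZ) =
          Polynomial.X ^ 2 - Polynomial.C (s59e_tOf (↑(B ∪ Finset.univ.image qv) : Set ℕ) aZ ℓ) * Polynomial.X +
            Polynomial.C ((ℓ : s59e_adj 𝒪 aZ)))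
      (hcong : ∀ ℓ : ℕ, ℓ.Prime → ℓ ∉ (B ∪ Finset.univ.image qv) →
      s59e_tOf (↑(B ∪ Finset.univ.image qv) : Set ℕ) aZ ℓ -
        algebraMap 𝒪 (s59e_adj 𝒪 aZ) (((c ℓ : ℤ) : 𝒪)) ∈ maximalIdeal (s59e_adj 𝒪 aZ)),
    ∃ (hcomm : ∀ (t : heckeAlgebra (N₂ * ∏ q ∈ Finset.univ.image qv, q ^ 2) 2 (↑(B ∪ Finset.univ.image qv) : Set ℕ)) (β : (s59t_BQ N₂ (∏ j, qv j) (⊤ : Subgroup (ZMod N₂)ˣ) (s59t_KQ (p ^ n) qv))),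
        Commute (aZ t) (((s59t_partRep (s59t_partRep (s59t_rho (N₂ * ∏ j, qv j) (s59t_Hmul N₂ (∏ j, qv j) (⊤ : Subgroup (ZMod N₂)ˣ) (s59t_KQ (p ^ n) qv)) 𝒪 𝒪) hρ') hP').comp (s59t_BQ N₂ (∏ j, qv j) (⊤ : Subgroup (ZMod N₂)ˣ) (s59t_KQ (p ^ n) qv)).subtype) β))
      (hTρ : ∀ (t : s59e_adj 𝒪 (s59e_aB aZ ((s59t_partRep (s59t_partRep (s59t_rho (N₂ * ∏ j, qv j) (s59t_Hmul N₂ (∏ j, qv j) (⊤ : Subgroup (ZMod N₂)ˣ) (s59t_KQ (p ^ n) qv)) 𝒪 𝒪) hρ') hP').comp (s59t_BQ N₂ (∏ j, qv j) (⊤ : Subgroup (ZMod N₂)ˣ) (s59t_KQ (p ^ n) qv)).subtype) hcomm)) δ y,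
        t • (s59t_partRep (s59t_partRep (s59t_rho (N₂ * ∏ j, qv j) (s59t_Hmul N₂ (∏ j, qv j) (⊤ : Subgroup (ZMod N₂)ˣ) (s59t_KQ (p ^ n) qv)) 𝒪 𝒪) hρ') hP') δ y = (s59t_partRep (s59t_partRep (s59t_rho (N₂ * ∏ j, qv j) (s59t_Hmul N₂ (∏ j, qv j) (⊤ : Subgroup (ZMod N₂)ˣ) (s59t_KQ (p ^ n) qv)) 𝒪 𝒪) hρ') hP') δ (t • y))
      (rec : s59efl_RingRec (p := p) r σ DQ n (s59t_partRep (s59t_partRep (s59t_rho N₂ (⊤ : Subgroup (ZMod N₂)ˣ) 𝒪 𝒪) hρ₂) hP) (s59e_adj 𝒪 aZ₀) hRρ ρR d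
        (s59t_partRep (s59t_partRep (s59t_rho (N₂ * ∏ j, qv j) (s59t_Hmul N₂ (∏ j, qv j) (⊤ : Subgroup (ZMod N₂)ˣ) (s59t_KQ (p ^ n) qv)) 𝒪 𝒪) hρ') hP') (s59t_BQ N₂ (∏ j, qv j) (⊤ : Subgroup (ZMod N₂)ˣ) (s59t_KQ (p ^ n) qv)) (s59t_CQ N₂ (∏ j, qv j) (⊤ : Subgroup (ZMod N₂)ˣ) (s59t_KQ (p ^ n) qv)) πK aZ hcomm hTρ h2 g θ qv),
    ∃ (_ : IsNoetherianRing (s59e_adj 𝒪 aZ))
      (_ : IsAdicComplete (maximalIdeal (s59e_adj 𝒪 aZ)) (s59e_adj 𝒪 aZ))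
      (_ : IsLocalHom (algebraMap 𝒪 (s59e_adj 𝒪 aZ)))
      (hres𝒪 : Function.Surjective (residue (s59e_adj 𝒪 aZ) ∘ algebraMap 𝒪 (s59e_adj 𝒪 aZ)))
      (hθl : IsLocalHom (θ : DQ.R →+* s59e_adj 𝒪 aZ))
      (h𝒟 : GaloisRep.strictOrdinaryCondition 𝒪 p Sg (DQ.ρ.baseChangeAlong (θ : DQ.R →+* s59e_adj 𝒪 aZ) hθl) ∧
        ∀ q ∈ Su, q.Prime → q ≠ p →
          (DQ.ρ.baseChangeAlong (θ : DQ.R →+* s59e_adj 𝒪 aZ) hθl).IsUnipotentOnInertiaAt q)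
      (hres : (DQ.ρ.baseChangeAlong (θ : DQ.R →+* s59e_adj 𝒪 aZ) hθl).residual.IsEquiv
        (ρbar.baseChangeAlong (ResidueField.map (algebraMap 𝒪 (s59e_adj 𝒪 aZ))))),
      IsReduced (s59e_adj 𝒪 aZ) ∧
      (∀ o : 𝒪, o ≠ 0 → ∀ x : s59e_adj 𝒪 aZ, algebraMap 𝒪 (s59e_adj 𝒪 aZ) o * x = 0 → x = 0) ∧
      ∀ q ∈ Qr, ∀ A' : ValuationSubring (AlgebraicClosure ℚ), A'.LiesOverPrime q →
        ∀ τ ∈ A'.inertiaSubgroupIn ℚ, ∀ (f : Module.Dual DQ.R DQ.ρ.V) (v : DQ.ρ.V),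
          θ (f (DQ.ρ.ρ τ v - v)) = 0

end Fermat.Agent.Lib.S59
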