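/-
S59 project, case (P), route (T5w), [W4c] (helper9, prefix `s59m_`): **ALL THE TAYLOR–WILES DATA OF ONE CHAIN INDEX, STATEMENT** (the theorem `Internal.s59m_lvl_allZ` is in MKerLvlAll.lean) — what the final assembly
(`twin of EFlrFin` on the kernel pairs) needs at the index `s` (p-free level `N = N s`, level `N₂ = N s * p`), in ONE `∃`-list:
the two bundles of `s59ex_W_level` (called ONCE per level, same `aq bq`; helper7's posts 4001, 4038), the kernel pair with its Hecke ring,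
Galois datum and level record (`Internal.s59m_lvl_pkgZ`, MKerPkgZ), the flat data of the `p`-free level on the SAME idempotent
(`Internal.s59m_lvl_flat`, MKerFlat; input (D) of `Internal.s59x_concZ_T5w`) and the Hecke ring of the FULL part of the level `N₂`
(`s59m_TW_heckeF`, MKerHFW).  PARITY-FREE: `s59e_auxTors`, `s59b_S37H` at the two levels and the record provider `s59m_RecProv` are HYPOTHESES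
(helper3's post 4037), so ONE proof serves `h2N` (p = 3) and `hp5`.

* `s59m_LvlIdxConcl` (def, MKerLvlAllS.lean), `Internal.s59m_lvl_allZ` (+ export).
-/
import Mathlib
import Fermat.Agent.Lib.S59.MKerPkgZS
import Fermat.Agent.Lib.S59.MKerFlat
import Fermat.Agent.Lib.S59.MKerHFW
import Fermat.Agent.Lib.S59.EXLvl

set_option autoImplicit false
set_option linter.unusedSectionVars false
set_option linter.unusedVariables false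
set_option linter.style.haveILetI false
set_option maxHeartbeats 0
set_option synthInstance.maxHeartbeats 400000
set_option maxSynthPendingDepth 3

noncomputable section

namespace Fermat.Agent.Lib.S59

open Matrix MatrixGroups CongruenceSubgroup IsLocalRing Polynomial CuspForm
open WeierstrassCurve WeierstrassCurve.Affine WeierstrassCurve.Affine.Point
open Fermat.Agent.Lib.S29 Fermat.Agent.Lib.S48 Fermat.Agent.Lib.S41 Fermat.Agent.Lib.S44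
open Fermat.Agent.Lib.S58 Fermat.Agent.Lib.S18

local notation "Γℚ" => (AlgebraicClosure ℚ ≃ₐ[ℚ] AlgebraicClosure ℚ)

/-- **all the Taylor–Wiles data of one chain index** (conclusion of `s59m_lvl_allZ`; the per-index hypothesis of the abstract core
`Internal.s59m_finCore`): an ABSTRACT idempotent `ε₁'` of the `p`-free Taylor–Wiles level, the bundle of the level `N₂ = N p`, the kernel pair
with its record (`s59m_LvlPkgZConcl`), the Hecke ring of the full part of the level `N₂` (`s59m_HeckeFConcl`) and — only when `up` holds (the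
index is the UPPER index of a step) — the bundle of the `p`-free level (`ε₁'` is its idempotent) with its flat data (`s59m_LvlFlatConcl`). -/
def s59m_LvlIdxConcl (p : ℕ) [Fact p.Prime] {𝒪 : Type} [CommRing 𝒪] [IsDomain 𝒪] [IsDiscreteValuationRing 𝒪]
    [IsAdicComplete (maximalIdeal 𝒪) 𝒪] [Finite (ResidueField 𝒪)] [CharZero 𝒪]
    {N N₂ : ℕ} [NeZero N] [NeZero N₂] (B : Finset ℕ) (c : ℕ → ℤ)
    (e₁ : MvPolynomial ↥(s59t_goodB N B) 𝒪)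
    (e₂ : MvPolynomial ↥(s59t_goodB N₂ B) 𝒪)
    (hρ₂ : ∀ δ y, s59t_E0 (⊤ : Subgroup (ZMod N₂)ˣ) B e₂ (s59t_rho N₂ (⊤ : Subgroup (ZMod N₂)ˣ) 𝒪 𝒪 δ y) =
        s59t_rho N₂ (⊤ : Subgroup (ZMod N₂)ˣ) 𝒪 𝒪 δ (s59t_E0 (⊤ : Subgroup (ZMod N₂)ˣ) B e₂ y))
    (P : Module.End 𝒪 (s59t_part (s59t_E0 (⊤ : Subgroup (ZMod N₂)ˣ) B e₂)))
    (hP : ∀ δ x, P (s59t_partRep (s59t_rho N₂ (⊤ : Subgroup (ZMod N₂)ˣ) 𝒪 𝒪) hρ₂ δ x) =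
        s59t_partRep (s59t_rho N₂ (⊤ : Subgroup (ZMod N₂)ˣ) 𝒪 𝒪) hρ₂ δ (P x))
    (d : ℕ)
    (aZ₀ : heckeAlgebra N₂ 2 (↑B : Set ℕ) →+* Module.End 𝒪 (s59t_part P))
    [IsLocalRing (s59e_adj 𝒪 aZ₀)]
    (hRρ : ∀ (t : s59e_adj 𝒪 aZ₀) (δ : (s59t_Delta N₂ (⊤ : Subgroup (ZMod N₂)ˣ))) (y : s59t_part P),
      t • (s59t_partRep (s59t_partRep (s59t_rho N₂ (⊤ : Subgroup (ZMod N₂)ˣ) 𝒪 𝒪) hρ₂) hP) δ y = (s59t_partRep (s59t_partRep (s59t_rho N₂ (⊤ : Subgroup (ZMod N₂)ˣ) 𝒪 𝒪) hρ₂) hP) δ (t • y))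
    (ρR : GaloisRepAdic (s59e_adj 𝒪 aZ₀))
    (n : ℕ) {r : ℕ} (σ : Type) [DecidableEq σ] [Fintype σ] (qv : Fin r → ℕ) [NeZero (∏ j, qv j)] [NeZero (N * ∏ j, qv j)]
    [NeZero (N₂ * ∏ j, qv j)] [NeZero (N₂ * ∏ q ∈ Finset.univ.image qv, q ^ 2)]
    [NeZero (N * ∏ q ∈ Finset.univ.image qv, q ^ 2)] [Fact (HasIntegralStructure (N₂ * ∏ q ∈ Finset.univ.image qv, q ^ 2) 2)]
    (aq : ℕ → 𝒪)
    (hpL : ¬ p ∣ N * ∏ j, qv j) (hN' : N₂ * ∏ j, qv j = N * (∏ j, qv j) * p)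
    (hG' : s59f_IsG' (N * ∏ j, qv j) p
      (s59t_Hmul N (∏ j, qv j) (⊤ : Subgroup (ZMod N)ˣ) (s59t_KQ (p ^ n) qv))
      (s48h_GammaH (N₂ * ∏ j, qv j)
        (s59t_Hmul N₂ (∏ j, qv j) (⊤ : Subgroup (ZMod N₂)ˣ) (s59t_KQ (p ^ n) qv))))
    (e₀ : SL(2, ℤ)) (he' : e₀ ∈ Gamma0 (N₂ * ∏ j, qv j))
    (hee : s59f_gW hpL * e₀ * e₀ ∈ s48h_GammaH (N₂ * ∏ j, qv j)
      (s59t_Hmul N₂ (∏ j, qv j) (⊤ : Subgroup (ZMod N₂)ˣ) (s59t_KQ (p ^ n) qv)))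
    (g : Fin r → (s59t_BQ N₂ (∏ j, qv j) (⊤ : Subgroup (ZMod N₂)ˣ) (s59t_KQ (p ^ n) qv)))
    {ρbar : ResidualGaloisRep (ResidueField 𝒪)} (Sg Su : Finset ℕ)
    (DQ : GaloisRep.DeformationRingData 𝒪 ρbar (fun _A _ _ _ ρ =>
      GaloisRep.strictOrdinaryCondition 𝒪 p Sg ρ ∧
        ∀ q ∈ Su, q.Prime → q ≠ p → ρ.IsUnipotentOnInertiaAt q))
    (Qr : Set ℕ)
    (Sgf Suf : Finset ℕ)
    (Dfl : GaloisRep.DeformationRingData 𝒪 ρbar (fun _A _ _ _ ρ =>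
      GaloisRep.flatCondition 𝒪 p Sgf ρ ∧
        ∀ q ∈ Suf, q.Prime → q ≠ p → ρ.IsUnipotentOnInertiaAt q))
    (up : Prop) : Prop :=
    ∃ (ε₁' : Module.End 𝒪 (s48h_Hpar 𝒪 (s48h_GammaH (N * ∏ j, qv j) (s59t_Hmul N (∏ j, qv j) (⊤ : Subgroup (ZMod N)ˣ) (s59t_KQ (p ^ n) qv))) 𝒪))
      (e₀₂ : MvPolynomial ↥(s59t_goodB (N₂ * ∏ j, qv j) B) 𝒪)
      (G₂ : MvPolynomial (s59w_AIdx (N₂ * ∏ j, qv j) ⊕ ℕ) 𝒪),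
    ∃ (hX₂ : s59ex_LvlX (N₂ * ∏ j, qv j) (s59t_Hmul N₂ (∏ j, qv j) (⊤ : Subgroup (ZMod N₂)ˣ) (s59t_KQ (p ^ n) qv)) aq (s59t_goodB (N₂ * ∏ j, qv j) B) (s59t_cB (𝒪 := 𝒪) (N₂ * ∏ j, qv j) c) (List.ofFn qv) e₀₂ G₂),
    ∃ (hnil₂' : ∀ x ∈ s59t_goodB (N₂ * ∏ j, qv j) B, ∃ k : ℕ, ∀ y : (s48h_Hpar 𝒪 (s48h_GammaH (N₂ * ∏ j, qv j) (s59t_Hmul N₂ (∏ j, qv j) (⊤ : Subgroup (ZMod N₂)ˣ) (s59t_KQ (p ^ n) qv))) 𝒪),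
        ((s59w_op (s59t_Hmul N₂ (∏ j, qv j) (⊤ : Subgroup (ZMod N₂)ˣ) (s59t_KQ (p ^ n) qv)) 𝒪 x - s59t_cB (𝒪 := 𝒪) (N₂ * ∏ j, qv j) c x •
          (1 : Module.End 𝒪 (s48h_Hpar 𝒪 (s48h_GammaH (N₂ * ∏ j, qv j) (s59t_Hmul N₂ (∏ j, qv j) (⊤ : Subgroup (ZMod N₂)ˣ) (s59t_KQ (p ^ n) qv))) 𝒪))) ^ k) ((s59t_actH (N₂ * ∏ j, qv j) aq (dvd_refl _) (s59t_Hmul N₂ (∏ j, qv j) (⊤ : Subgroup (ZMod N₂)ˣ) (s59t_KQ (p ^ n) qv)) (G₂ * s59t_jG 𝒪 (s59t_goodB (N₂ * ∏ j, qv j) B) e₀₂)) y) ∈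
          (maximalIdeal 𝒪 • ⊤ : Submodule 𝒪 (s48h_Hpar 𝒪 (s48h_GammaH (N₂ * ∏ j, qv j) (s59t_Hmul N₂ (∏ j, qv j) (⊤ : Subgroup (ZMod N₂)ˣ) (s59t_KQ (p ^ n) qv))) 𝒪))),
    s59m_LvlPkgZConcl p B c e₂ hρ₂ P hP d aZ₀ hRρ ρR n σ qv hpL hN' hG' e₀ he' hee g Sg Su DQ Qr ε₁' (s59t_actH (N₂ * ∏ j, qv j) aq (dvd_refl _) (s59t_Hmul N₂ (∏ j, qv j) (⊤ : Subgroup (ZMod N₂)ˣ) (s59t_KQ (p ^ n) qv)) (G₂ * s59t_jG 𝒪 (s59t_goodB (N₂ * ∏ j, qv j) B) e₀₂)) ∧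
    s59m_HeckeFConcl p c (s59t_Hmul N₂ (∏ j, qv j) (⊤ : Subgroup (ZMod N₂)ˣ) (s59t_KQ (p ^ n) qv)) (0 + n) (N₂ * ∏ q ∈ Finset.univ.image qv, q ^ 2) (B ∪ Finset.univ.image qv) (s59t_actH (N₂ * ∏ j, qv j) aq (dvd_refl _) (s59t_Hmul N₂ (∏ j, qv j) (⊤ : Subgroup (ZMod N₂)ˣ) (s59t_KQ (p ^ n) qv)) (G₂ * s59t_jG 𝒪 (s59t_goodB (N₂ * ∏ j, qv j) B) e₀₂)) ∧
    (up → ∃ (e₀₁ : MvPolynomial ↥(s59t_goodB (N * ∏ j, qv j) B) 𝒪)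
      (G₁ : MvPolynomial (s59w_AIdx (N * ∏ j, qv j) ⊕ ℕ) 𝒪),
      ∃ (hε₁ : ε₁' = (s59t_actH (N * ∏ j, qv j) aq (dvd_refl _) (s59t_Hmul N (∏ j, qv j) (⊤ : Subgroup (ZMod N)ˣ) (s59t_KQ (p ^ n) qv)) (G₁ * s59t_jG 𝒪 (s59t_goodB (N * ∏ j, qv j) B) e₀₁))),
      ∃ (hX₁ : s59ex_LvlX (N * ∏ j, qv j) (s59t_Hmul N (∏ j, qv j) (⊤ : Subgroup (ZMod N)ˣ) (s59t_KQ (p ^ n) qv)) aq (s59t_goodB (N * ∏ j, qv j) B) (s59t_cB (𝒪 := 𝒪) (N * ∏ j, qv j) c) (List.ofFn qv) e₀₁ G₁),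
      ∃ (hid₁' : (s59t_actH (N * ∏ j, qv j) aq (dvd_refl _) (s59t_Hmul N (∏ j, qv j) (⊤ : Subgroup (ZMod N)ˣ) (s59t_KQ (p ^ n) qv)) (G₁ * s59t_jG 𝒪 (s59t_goodB (N * ∏ j, qv j) B) e₀₁)) * (s59t_actH (N * ∏ j, qv j) aq (dvd_refl _) (s59t_Hmul N (∏ j, qv j) (⊤ : Subgroup (ZMod N)ˣ) (s59t_KQ (p ^ n) qv)) (G₁ * s59t_jG 𝒪 (s59t_goodB (N * ∏ j, qv j) B) e₀₁)) = (s59t_actH (N * ∏ j, qv j) aq (dvd_refl _) (s59t_Hmul N (∏ j, qv j) (⊤ : Subgroup (ZMod N)ˣ) (s59t_KQ (p ^ n) qv)) (G₁ * s59t_jG 𝒪 (s59t_goodB (N * ∏ j, qv j) B) e₀₁))),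
      ∃ (hnil₁' : ∀ x ∈ s59t_goodB (N * ∏ j, qv j) B, ∃ k : ℕ, ∀ y : (s48h_Hpar 𝒪 (s48h_GammaH (N * ∏ j, qv j) (s59t_Hmul N (∏ j, qv j) (⊤ : Subgroup (ZMod N)ˣ) (s59t_KQ (p ^ n) qv))) 𝒪),
        ((s59w_op (s59t_Hmul N (∏ j, qv j) (⊤ : Subgroup (ZMod N)ˣ) (s59t_KQ (p ^ n) qv)) 𝒪 x - s59t_cB (𝒪 := 𝒪) (N * ∏ j, qv j) c x •
          (1 : Module.End 𝒪 (s48h_Hpar 𝒪 (s48h_GammaH (N * ∏ j, qv j) (s59t_Hmul N (∏ j, qv j) (⊤ : Subgroup (ZMod N)ˣ) (s59t_KQ (p ^ n) qv))) 𝒪))) ^ k) ((s59t_actH (N * ∏ j, qv j) aq (dvd_refl _) (s59t_Hmul N (∏ j, qv j) (⊤ : Subgroup (ZMod N)ˣ) (s59t_KQ (p ^ n) qv)) (G₁ * s59t_jG 𝒪 (s59t_goodB (N * ∏ j, qv j) B) e₀₁)) y) ∈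
          (maximalIdeal 𝒪 • ⊤ : Submodule 𝒪 (s48h_Hpar 𝒪 (s48h_GammaH (N * ∏ j, qv j) (s59t_Hmul N (∏ j, qv j) (⊤ : Subgroup (ZMod N)ˣ) (s59t_KQ (p ^ n) qv))) 𝒪))),
      ∃ (hP1₁ : s59t_TWFull (s59t_Gamma0_anti (s59t_dvd_mul_left' N (∏ j, qv j)))
      (s59t_GammaHmul_le (N := N) (D := ∏ j, qv j) (H := (⊤ : Subgroup (ZMod N)ˣ)) (K := s59t_KQ (p ^ n) qv))
      (s59t_BQ N (∏ j, qv j) (⊤ : Subgroup (ZMod N)ˣ) (s59t_KQ (p ^ n) qv))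
      (s59t_CQ N (∏ j, qv j) (⊤ : Subgroup (ZMod N)ˣ) (s59t_KQ (p ^ n) qv))
      (s59t_E0 (⊤ : Subgroup (ZMod N)ˣ) B e₁) (s59t_actH (N * ∏ j, qv j) aq (dvd_refl _) (s59t_Hmul N (∏ j, qv j) (⊤ : Subgroup (ZMod N)ˣ) (s59t_KQ (p ^ n) qv)) (G₁ * s59t_jG 𝒪 (s59t_goodB (N * ∏ j, qv j) B) e₀₁))),
      s59m_LvlFlatConcl p B c n qv Sgf Suf Dfl (s59t_actH (N * ∏ j, qv j) aq (dvd_refl _) (s59t_Hmul N (∏ j, qv j) (⊤ : Subgroup (ZMod N)ˣ) (s59t_KQ (p ^ n) qv)) (G₁ * s59t_jG 𝒪 (s59t_goodB (N * ∏ j, qv j) B) e₀₁)))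

end Fermat.Agent.Lib.S59
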