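/-
PROGRAMME (R), non-minimal case (P), route (T5w) (helper6, prefix `s59q_`): **the Taylor-Wiles deformation type "strict
AND flat at `p`"** (W2 (i)).

`s59q_SfType 𝒪 p Sg Su ρ` := `(det = ε ∧ (ρ strict at p ∧ ρ flat at p) ∧ ρ unramified outside Sg) ∧ ρ unipotent at Su ∖ {p}`
(= `s59x_TWType 𝒪 p (strict ∧ flat) Sg Su`, definitionally).
`s59q_locCond_and` (the conjunction of two closure packages is a closure package), `s59q_isDefCond_sf` (deformation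
condition), `s59q_tangentStable_sf`, `s59q_tangentFinite_sf`, **`s59q_exists_DQ_sf`** (the universal ring exists, given one
lift of the type), and the comparison with the strict and the flat types.
-/
import Fermat.Agent.Lib.S59.QExistDQ

set_option autoImplicit false
set_option linter.style.haveILetI false
set_option linter.unusedSectionVars false

noncomputable section

namespace Fermat.Agent.Lib.S59

open IsLocalRing GaloisRep Fermat.Agent.Lib.S56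
open Fermat.Agent.Lib.S53 (NormData exists_normData)

local notation "Γℚ" => (AlgebraicClosure ℚ ≃ₐ[ℚ] AlgebraicClosure ℚ)

/-- **the conjunction of two closure packages is a closure package.** -/
theorem s59q_locCond_and
    {Lp Lp' : ∀ ⦃A : Type⦄ [CommRing A] [IsLocalRing A], GaloisRepAdic A → Prop}
    (h : s59x_LocCond Lp) (h' : s59x_LocCond Lp') :
    s59x_LocCond (fun _A _ _ ρ => Lp ρ ∧ Lp' ρ) where
  of_isEquiv := fun _ _ _ _ _ e hρ => ⟨h.of_isEquiv e hρ.1, h'.of_isEquiv e hρ.2⟩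
  baseChange := fun _ _ _ _ _ _ φ hφ hB ρ hρ =>
    ⟨h.baseChange φ hφ hB ρ hρ.1, h'.baseChange φ hφ hB ρ hρ.2⟩
  of_injective := fun _ _ _ _ _ _ _ φ hφ hinj ρ hρ =>
    ⟨h.of_injective φ hφ hinj ρ hρ.1, h'.of_injective φ hφ hinj ρ hρ.2⟩
  of_fibre := fun _ _ _ _ _ _ _ _ _ _ _ pA hpA pB hpB hinj ρ hA hB =>
    ⟨h.of_fibre pA hpA pB hpB hinj ρ hA.1 hB.1, h'.of_fibre pA hpA pB hpB hinj ρ hA.2 hB.2⟩
  of_quotients := fun _ _ _ _ hk ρ H =>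
    ⟨h.of_quotients hk ρ fun I hI hf => (H I hI hf).1,
      h'.of_quotients hk ρ fun I hI hf => (H I hI hf).2⟩

/-- **the Taylor-Wiles type "strict AND flat at `p`".** -/
abbrev s59q_SfType (𝒪 : Type) [CommRing 𝒪] (p : ℕ) (Sg Su : Finset ℕ) :
    ∀ ⦃A : Type⦄ [CommRing A] [IsLocalRing A] [Algebra 𝒪 A], GaloisRepAdic A → Prop :=
  fun _A _ _ _ ρ => (ρ.DetIsCyclotomic p ∧ (ρ.IsStrictOrdinaryAt p ∧ ρ.IsFlatAt p) ∧
      ∀ q : ℕ, q.Prime → q ∉ Sg → ρ.IsUnramifiedAt q) ∧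
    ∀ q ∈ Su, q.Prime → q ≠ p → ρ.IsUnipotentOnInertiaAt q

section Compare

variable {𝒪 : Type} [CommRing 𝒪] (p : ℕ) (Sg Su : Finset ℕ)
  {A : Type} [CommRing A] [IsLocalRing A] [Algebra 𝒪 A] (ρ : GaloisRepAdic A)

theorem s59q_sfType_iff :
    s59q_SfType 𝒪 p Sg Su ρ ↔
      (strictOrdinaryCondition 𝒪 p Sg ρ ∧ ∀ q ∈ Su, q.Prime → q ≠ p → ρ.IsUnipotentOnInertiaAt q) ∧
        ρ.IsFlatAt p :=
  ⟨fun h => ⟨⟨⟨h.1.1, h.1.2.1.1, h.1.2.2⟩, h.2⟩, h.1.2.1.2⟩,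
    fun h => ⟨⟨h.1.1.1, ⟨h.1.1.2.1, h.2⟩, h.1.1.2.2⟩, h.1.2⟩⟩

theorem s59q_sfType_ord (h : s59q_SfType 𝒪 p Sg Su ρ) :
    strictOrdinaryCondition 𝒪 p Sg ρ ∧ ∀ q ∈ Su, q.Prime → q ≠ p → ρ.IsUnipotentOnInertiaAt q :=
  ((s59q_sfType_iff p Sg Su ρ).1 h).1

theorem s59q_sfType_flat (h : s59q_SfType 𝒪 p Sg Su ρ) :
    flatCondition 𝒪 p Sg ρ ∧ ∀ q ∈ Su, q.Prime → q ≠ p → ρ.IsUnipotentOnInertiaAt q :=
  ⟨⟨h.1.1, h.1.2.1.2, h.1.2.2⟩, h.2⟩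

theorem s59q_sfType_of_ord_flat
    (h : strictOrdinaryCondition 𝒪 p Sg ρ ∧ ∀ q ∈ Su, q.Prime → q ≠ p → ρ.IsUnipotentOnInertiaAt q)
    (hfl : ρ.IsFlatAt p) : s59q_SfType 𝒪 p Sg Su ρ :=
  (s59q_sfType_iff p Sg Su ρ).2 ⟨h, hfl⟩

/-- enlarging `Σ` weakens the type. -/
theorem s59q_sfType_mono {Sg₀ : Finset ℕ} (hS : Sg₀ ⊆ Sg) (h : s59q_SfType 𝒪 p Sg₀ Su ρ) :
    s59q_SfType 𝒪 p Sg Su ρ :=
  ⟨⟨h.1.1, h.1.2.1, fun q hq hqS => h.1.2.2 q hq fun h' => hqS (hS h')⟩, h.2⟩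

end Compare

section Final

variable {𝒪 : Type} [CommRing 𝒪] [IsDomain 𝒪] [IsDiscreteValuationRing 𝒪]
  [IsAdicComplete (maximalIdeal 𝒪) 𝒪] [Finite (ResidueField 𝒪)]

/-- **the type "strict AND flat" is a deformation condition.** -/
theorem s59q_isDefCond_sf (p : ℕ) [Fact p.Prime] (hp2 : p ≠ 2) (Sg Su : Finset ℕ) :
    IsDeformationCondition 𝒪 (s59q_SfType 𝒪 p Sg Su) :=
  s59x_isDefCond (𝒪 := 𝒪) (s59q_locCond_and (s59x_locCond_ord p hp2) (s59x_locCond_flat p)) Sg Su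

/-- **the type "strict AND flat" is tangent-stable.** -/
theorem s59q_tangentStable_sf (p : ℕ) [Fact p.Prime] (Sg Su : Finset ℕ) :
    s56a_TangentStable 𝒪 (s59q_SfType 𝒪 p Sg Su) p where
  baseChange := by
    intro A _ _ _ φ hφ hsurj ρ h
    exact ⟨⟨s56a_detIsCyclotomic_baseChange _ hφ ρ h.1.1,
      ⟨s56a_isStrictOrdinaryAt_baseChange _ hφ ρ h.1.2.1.1,
        s56a_isFlatAt_baseChange _ hφ hsurj ρ h.1.2.1.2⟩,
      fun q hq hqS => s56a_isUnramifiedAt_baseChange _ hφ ρ (h.1.2.2 q hq hqS)⟩,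
      fun q hq hqp hne => s56a_isUnipotentOnInertiaAt_baseChange _ hφ ρ (h.2 q hq hqp hne)⟩
  of_isEquiv := by
    rintro ρ ρ' ⟨e⟩ h
    exact ⟨⟨s56a_detIsCyclotomic_of_equiv e h.1.1,
      ⟨s56a_isStrictOrdinaryAt_of_equiv e h.1.2.1.1, s56a_isFlatAt_of_equiv e h.1.2.1.2⟩,
      fun q hq hqS => s56a_isUnramifiedAt_of_equiv e (h.1.2.2 q hq hqS)⟩,
      fun q hq hqp hne => s56a_isUnipotentOnInertiaAt_of_equiv e (h.2 q hq hqp hne)⟩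
  det := fun _ h => h.1.1

variable (p : ℕ) [Fact p.Prime] (hp2 : p ≠ 2) (hp𝒪 : (p : 𝒪) ∈ maximalIdeal 𝒪)
  (ρbar : ResidualGaloisRep (ResidueField 𝒪)) (habs : ρbar.IsAbsolutelyIrreducible)

include hp2 hp𝒪 in
/-- **[TAN-FIN], strict AND flat.** -/
theorem s59q_tangentFinite_sf (habs : ρbar.IsAbsolutelyIrreducible) (Sg Su : Finset ℕ)
    (hpSg : p ∈ Sg) (hunr : ∀ q : ℕ, q.Prime → q ∉ Sg → ρbar.IsUnramifiedAt q) :
    GaloisRep.TangentFinite 𝒪 ρbar (s59q_SfType 𝒪 p Sg Su) := by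
  obtain ⟨N⟩ := exists_normData ρbar habs
  refine s59q_tangentFinite N p (s59q_tangentStable_sf p Sg Su)
    (s59q_selmerSet_finite p hp2 hp𝒪 ρbar _ Sg hpSg hunr ?_)
  exact s56a_selmerSet_le_continuousH1S 𝒪 ρbar _ _ fun _ hρ q hq =>
    hρ.1.2.2 q q.2 fun h => hq ((s56a_mem_primesOf Sg q).2 h)

include hp2 hp𝒪 habs in
/-- **[EXIST-DQ], strict AND flat**, the lift of type `Σ₀ ⊆ Σ`. -/
theorem s59q_exists_DQ_sf (Sg₀ Sg Su : Finset ℕ) (hS : Sg₀ ⊆ Sg) (hpSg : p ∈ Sg)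
    (hunr : ∀ q : ℕ, q.Prime → q ∉ Sg → ρbar.IsUnramifiedAt q)
    {A : Type} [CommRing A] [IsLocalRing A] [IsNoetherianRing A]
    [IsAdicComplete (maximalIdeal A) A] [Algebra 𝒪 A]
    (hloc : IsLocalHom (algebraMap 𝒪 A))
    (hres : Function.Surjective (IsLocalRing.residue A ∘ algebraMap 𝒪 A))
    (ρA : GaloisRepAdic A) (hρ : s59q_SfType 𝒪 p Sg₀ Su ρA)
    (hresid : ρA.residual.IsEquiv
      (ρbar.baseChangeAlong (IsLocalRing.ResidueField.map (algebraMap 𝒪 A)))) :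
    Nonempty (DeformationRingData 𝒪 ρbar (s59q_SfType 𝒪 p Sg Su)) :=
  s59q_exists_DQ ρbar _ habs (s59q_isDefCond_sf p hp2 Sg Su)
    (s59q_tangentFinite_sf p hp2 hp𝒪 ρbar habs Sg Su hpSg hunr) hloc hres ρA
    (s59q_sfType_mono p Sg Su ρA hS hρ) hresid

end Final

end Fermat.Agent.Lib.S59
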