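/-
PROGRAMME R2 = S59, case (P), the spectator fields, node [PT-P] (helper3, prefix `s59u_c2_`), file 1:
**THE EXPORT (E-conc-P): THE CONCRETE MODEL OF A BASE RING ON THE `p`-KERNEL PART.**

(P)-twin of helper8's `s59c3_EConc` (C3FlrConcS.lean).  Level `N₀ = L₀ p` (`p ∤ L₀`), `H₀ = H¹_par(Γ_⊤(N₀), 𝒪)`, helper4's old/new
package `D_p = s59f_oldN (q := p) … : H_par(Γ_⊤(L₀)) ⇄ H_par(Γ_⊤(N₀))`; the module of the `T`-side in case (P) is the KERNEL PART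
`Z = {y ∈ range (E₀ e) | cor_A y = 0 ∧ cor_B y = 0}` (the `p`-new quotient).
* `s59u_c2_EConcP 𝒪 p N₀ B c R ρR` : there are `L₀`, the package data `(hG', e₀)`, an idempotent polynomial `e` in the good Hecke
  operators (with the three clauses `h1e hid hnil` of the base package), a module `Z` with an INJECTIVE map `emb : Z → H₀` whose
  image CONTAINS the kernel part, and an `𝒪`-algebra map `act : R → End_𝒪 Z`, every `act t` being (through `emb`) the restriction of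
  a polynomial `s59t_E0 ⊤ B P` in the good Hecke operators, and a trace function `tr : ℕ → R` with
  `charpoly ρR(Frob_ℓ) = X² − tr ℓ · X + ℓ` and `act (tr ℓ)` the restriction of `T_ℓ` (`ℓ ∉ B`, `ℓ ∤ N₀`).
* `s59u_c2_conc_poly_gen` : the abstract polynomial lemma for a module with an embedding;
* `Internal.s59u_c2_econcP_adj` : (E-conc-P) holds for the Hecke ring `R = 𝒪[aZ₀(𝕋)] ⊆ End_𝒪 Z`.
-/
import Mathlib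
import Fermat.Agent.Lib.S59.C3FlrExp
import Fermat.Agent.Lib.S59.FEps4

set_option autoImplicit false
set_option linter.unusedSectionVars false
set_option linter.unusedVariables false
set_option linter.style.haveILetI false
set_option synthInstance.maxHeartbeats 400000
set_option maxHeartbeats 1600000
set_option maxSynthPendingDepth 3

noncomputable section

namespace Fermat.Agent.Lib.S59

open IsLocalRing CongruenceSubgroup CuspForm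
open Fermat.Agent.Lib.S48
open scoped MatrixGroups

local notation "Γℚ" => (AlgebraicClosure ℚ ≃ₐ[ℚ] AlgebraicClosure ℚ)

/-- `Γ_⊤(N')` is a group `G'` for `(L, q, ⊤)`, `N' = L q` (general form of `s59f_isG'_top`). -/
theorem s59u_c2_isG'_top {L q N' : ℕ} [NeZero L] [NeZero N'] [hq : Fact q.Prime] (hqL : ¬ q ∣ L)
    (hN' : N' = L * q) :
    s59f_IsG' L q (⊤ : Subgroup (ZMod L)ˣ) (s48h_GammaH N' (⊤ : Subgroup (ZMod N')ˣ)) :=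
  s59f_isG'_GammaH hqL hN' (hN' ▸ Dvd.intro q rfl)
    (fun u => ⟨fun _ => Subgroup.mem_top _, fun _ => Subgroup.mem_top _⟩)

/-- **(E-conc-P): the concrete model of a base ring on the `p`-kernel part of the level `(N₀, ⊤)`.** -/
def s59u_c2_EConcP (𝒪 : Type) [CommRing 𝒪] [IsLocalRing 𝒪] (p : ℕ) [Fact p.Prime] (N₀ : ℕ) [NeZero N₀]
    (B : Finset ℕ) (c : ℕ → ℤ)
    (R : Type) [CommRing R] [IsLocalRing R] [Algebra 𝒪 R] (ρR : GaloisRepAdic R) : Prop :=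
  ∃ (L₀ : ℕ) (_ : NeZero L₀) (hpL₀ : ¬ p ∣ L₀) (hN₀ : N₀ = L₀ * p)
    (hG' : s59f_IsG' L₀ p (⊤ : Subgroup (ZMod L₀)ˣ) (s48h_GammaH N₀ (⊤ : Subgroup (ZMod N₀)ˣ)))
    (e₀ : SL(2, ℤ)) (he' : e₀ ∈ Gamma0 N₀)
    (hee : s59f_gW hpL₀ * e₀ * e₀ ∈ s48h_GammaH N₀ (⊤ : Subgroup (ZMod N₀)ˣ))
    (e : MvPolynomial ↥(s59t_goodB N₀ B) 𝒪)
    (Z : Type) (_ : AddCommGroup Z) (_ : Module 𝒪 Z)
    (emb : Z →ₗ[𝒪] s48h_Hpar 𝒪 (s48h_GammaH N₀ (⊤ : Subgroup (ZMod N₀)ˣ)) 𝒪)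
    (act : R →ₐ[𝒪] Module.End 𝒪 Z) (tr : ℕ → R),
    1 - e ∈ s59t_evalIdeal (fun x : ↥(s59t_goodB N₀ B) => s59t_cB (𝒪 := 𝒪) N₀ c (x : s59w_AIdx N₀)) ∧
    s59t_E0 (⊤ : Subgroup (ZMod N₀)ˣ) B e * s59t_E0 (⊤ : Subgroup (ZMod N₀)ˣ) B e =
      s59t_E0 (⊤ : Subgroup (ZMod N₀)ˣ) B e ∧
    (∀ x ∈ s59t_goodB N₀ B, ∃ n : ℕ,
      ∀ y : s48h_Hpar 𝒪 (s48h_GammaH N₀ (⊤ : Subgroup (ZMod N₀)ˣ)) 𝒪,
        ((s59w_op (⊤ : Subgroup (ZMod N₀)ˣ) 𝒪 x - s59t_cB (𝒪 := 𝒪) N₀ c x •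
          (1 : Module.End 𝒪 (s48h_Hpar 𝒪 (s48h_GammaH N₀ (⊤ : Subgroup (ZMod N₀)ˣ)) 𝒪))) ^ n)
          (s59t_E0 (⊤ : Subgroup (ZMod N₀)ˣ) B e y) ∈
          (maximalIdeal 𝒪 • ⊤ :
            Submodule 𝒪 (s48h_Hpar 𝒪 (s48h_GammaH N₀ (⊤ : Subgroup (ZMod N₀)ˣ)) 𝒪))) ∧
    Function.Injective emb ∧
    (∀ y : s48h_Hpar 𝒪 (s48h_GammaH N₀ (⊤ : Subgroup (ZMod N₀)ˣ)) 𝒪,
      s59t_E0 (⊤ : Subgroup (ZMod N₀)ˣ) B e y = y →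
      (s59f_oldN hpL₀ hN₀ hG' 𝒪 𝒪 e₀ he' hee).corA y = 0 →
      (s59f_oldN hpL₀ hN₀ hG' 𝒪 𝒪 e₀ he' hee).corB y = 0 → y ∈ LinearMap.range emb) ∧
    (∀ t : R, ∃ P : MvPolynomial ↥(s59t_goodB N₀ B) 𝒪,
      ∀ z : Z, emb (act t z) = s59t_E0 (⊤ : Subgroup (ZMod N₀)ˣ) B P (emb z)) ∧
    (∀ ℓ : ℕ, ℓ.Prime → ¬ ℓ ∣ N₀ → ℓ ∉ B →
      ∀ A : ValuationSubring (AlgebraicClosure ℚ), A.LiesOverPrime ℓ →
      ∀ φ : Γℚ, A.IsFrobeniusAt φ ℓ →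
        LinearMap.charpoly (ρR.ρ φ) =
          Polynomial.X ^ 2 - Polynomial.C (tr ℓ) * Polynomial.X + Polynomial.C ((ℓ : R))) ∧
    (∀ i : s59w_TIdx N₀, i.ell ∉ B →
      ∀ z : Z, emb (act (tr i.ell) z) = s59w_op (⊤ : Subgroup (ZMod N₀)ˣ) 𝒪 (Sum.inl i) (emb z))

section ConcGen

variable {𝒪 : Type} [CommRing 𝒪] {H₀ : Type} [AddCommGroup H₀] [Module 𝒪 H₀] {J : Type}
  (ops : J → Module.End 𝒪 H₀) (hops : ∀ i j, ops i * ops j = ops j * ops i)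
  {Z : Type} [AddCommGroup Z] [Module 𝒪 Z] (emb : Z →ₗ[𝒪] H₀)
  {N : ℕ} [NeZero N] (S : Set ℕ)
  (aZ₀ : heckeAlgebra N 2 S →+* Module.End 𝒪 Z)

/-- **(E-conc-P), part 1, abstract form** (twin of helper8's `s59c3_conc_poly_gen` for a module with an embedding): if the
generators `aZ₀(T_ℓ)` of the Hecke ring `𝒪[aZ₀(𝕋)] ⊆ End Z` are (through `emb`) restrictions of operators of a commuting family
`ops`, every element of the Hecke ring is the restriction of a polynomial in `ops`. -/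
theorem s59u_c2_conc_poly_gen
    (h1 : ∀ (ℓ : ℕ) (hℓ : ℓ.Prime) (hℓN : ¬ ℓ ∣ N) (hℓS : ℓ ∉ S), ∃ j : J, ∀ z : Z,
      emb (aZ₀ (heckeAlgebra.T hℓ hℓN hℓS) z) = ops j (emb z))
    (hgenR : Algebra.adjoin 𝒪 {x : s59e_adj 𝒪 aZ₀ | ∃ ℓ : ℕ, ℓ.Prime ∧ ¬ ℓ ∣ N ∧
      ℓ ∉ S ∧ x = s59e_tOf S aZ₀ ℓ} = ⊤)
    (t : s59e_adj 𝒪 aZ₀) :
    ∃ P : MvPolynomial J 𝒪, ∀ z : Z,
      emb (((s59e_adj 𝒪 aZ₀).val t) z) = s59t_polyAct ops hops P (emb z) := by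
  have ht : t ∈ Algebra.adjoin 𝒪 {x : s59e_adj 𝒪 aZ₀ | ∃ ℓ : ℕ, ℓ.Prime ∧ ¬ ℓ ∣ N ∧
      ℓ ∉ S ∧ x = s59e_tOf S aZ₀ ℓ} := by
    rw [hgenR]
    exact Algebra.mem_top
  induction ht using Algebra.adjoin_induction with
  | mem x hx =>
    obtain ⟨ℓ, hℓ, hℓN, hℓS, rfl⟩ := hx
    obtain ⟨j, hj⟩ := h1 ℓ hℓ hℓN hℓS
    refine ⟨MvPolynomial.X j, fun z => ?_⟩
    rw [s59t_polyAct_X, ← hj z]
    show emb (((s59e_tOf S aZ₀ ℓ : s59e_adj 𝒪 aZ₀) : Module.End 𝒪 Z) z) = _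
    rw [s59e_tOf_coe S aZ₀ hℓ hℓN hℓS]
  | algebraMap r =>
    refine ⟨MvPolynomial.C r, fun z => ?_⟩
    rw [s59t_polyAct_C, AlgHom.commutes, Module.algebraMap_end_apply, LinearMap.smul_apply,
      Module.End.one_apply, map_smul]
  | add x y _ _ hx hy =>
    obtain ⟨P, hP⟩ := hx
    obtain ⟨Q, hQ⟩ := hy
    refine ⟨P + Q, fun z => ?_⟩
    rw [map_add, map_add, LinearMap.add_apply, LinearMap.add_apply, map_add, hP z, hQ z]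
  | mul x y _ _ hx hy =>
    obtain ⟨P, hP⟩ := hx
    obtain ⟨Q, hQ⟩ := hy
    refine ⟨P * Q, fun z => ?_⟩
    rw [map_mul, map_mul, Module.End.mul_apply, Module.End.mul_apply, hP, hQ z]

end ConcGen

section Adj

variable {𝒪 : Type} [CommRing 𝒪] [IsLocalRing 𝒪] (p : ℕ) [Fact p.Prime] (N₀ : ℕ) [NeZero N₀]
  (B : Finset ℕ) (c : ℕ → ℤ)
  (L₀ : ℕ) [NeZero L₀] (hpL₀ : ¬ p ∣ L₀) (hN₀ : N₀ = L₀ * p)
  (hG' : s59f_IsG' L₀ p (⊤ : Subgroup (ZMod L₀)ˣ) (s48h_GammaH N₀ (⊤ : Subgroup (ZMod N₀)ˣ)))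
  (e₀ : SL(2, ℤ)) (he' : e₀ ∈ Gamma0 N₀)
  (hee : s59f_gW hpL₀ * e₀ * e₀ ∈ s48h_GammaH N₀ (⊤ : Subgroup (ZMod N₀)ˣ))
  (e : MvPolynomial ↥(s59t_goodB N₀ B) 𝒪)
  (h1e : 1 - e ∈ s59t_evalIdeal (fun x : ↥(s59t_goodB N₀ B) => s59t_cB (𝒪 := 𝒪) N₀ c (x : s59w_AIdx N₀)))
  (hid : s59t_E0 (⊤ : Subgroup (ZMod N₀)ˣ) B e * s59t_E0 (⊤ : Subgroup (ZMod N₀)ˣ) B e =
      s59t_E0 (⊤ : Subgroup (ZMod N₀)ˣ) B e)
  (hnil : ∀ x ∈ s59t_goodB N₀ B, ∃ n : ℕ,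
      ∀ y : s48h_Hpar 𝒪 (s48h_GammaH N₀ (⊤ : Subgroup (ZMod N₀)ˣ)) 𝒪,
        ((s59w_op (⊤ : Subgroup (ZMod N₀)ˣ) 𝒪 x - s59t_cB (𝒪 := 𝒪) N₀ c x •
          (1 : Module.End 𝒪 (s48h_Hpar 𝒪 (s48h_GammaH N₀ (⊤ : Subgroup (ZMod N₀)ˣ)) 𝒪))) ^ n)
          (s59t_E0 (⊤ : Subgroup (ZMod N₀)ˣ) B e y) ∈
          (maximalIdeal 𝒪 • ⊤ :
            Submodule 𝒪 (s48h_Hpar 𝒪 (s48h_GammaH N₀ (⊤ : Subgroup (ZMod N₀)ˣ)) 𝒪)))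
  {Z : Type} [AddCommGroup Z] [Module 𝒪 Z]
  (emb : Z →ₗ[𝒪] s48h_Hpar 𝒪 (s48h_GammaH N₀ (⊤ : Subgroup (ZMod N₀)ˣ)) 𝒪)
  (hemb : Function.Injective emb)
  (hrange : ∀ y : s48h_Hpar 𝒪 (s48h_GammaH N₀ (⊤ : Subgroup (ZMod N₀)ˣ)) 𝒪,
      s59t_E0 (⊤ : Subgroup (ZMod N₀)ˣ) B e y = y →
      (s59f_oldN hpL₀ hN₀ hG' 𝒪 𝒪 e₀ he' hee).corA y = 0 →
      (s59f_oldN hpL₀ hN₀ hG' 𝒪 𝒪 e₀ he' hee).corB y = 0 → y ∈ LinearMap.range emb)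
  (aZ₀ : heckeAlgebra N₀ 2 (↑B : Set ℕ) →+* Module.End 𝒪 Z)
  (hT : ∀ (ℓ : ℕ) (hℓ : ℓ.Prime) (hℓN : ¬ ℓ ∣ N₀) (hℓS : ℓ ∉ (↑B : Set ℕ)) (i : s59w_TIdx N₀),
    i.ell = ℓ → ∀ z : Z, emb (aZ₀ (heckeAlgebra.T hℓ hℓN hℓS) z) =
      s59w_op (⊤ : Subgroup (ZMod N₀)ˣ) 𝒪 (Sum.inl i) (emb z))

include h1e hid hnil hemb hrange hT in
/-- **(E-conc-P) for the Hecke ring `𝒪[aZ₀(𝕋)]` of a module `Z ↪ H₀` containing the kernel part.** -/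
theorem Internal.s59u_c2_econcP_adj [IsLocalRing (s59e_adj 𝒪 aZ₀)] (ρR : GaloisRepAdic (s59e_adj 𝒪 aZ₀))
    (hfrobR : ∀ (ℓ : ℕ), ℓ.Prime → ¬ ℓ ∣ N₀ → ℓ ∉ (↑B : Set ℕ) →
      ∀ A : ValuationSubring (AlgebraicClosure ℚ), A.LiesOverPrime ℓ →
      ∀ g : Γℚ, A.IsFrobeniusAt g ℓ →
        LinearMap.charpoly (ρR.ρ g) =
          Polynomial.X ^ 2 - Polynomial.C (s59e_tOf (↑B : Set ℕ) aZ₀ ℓ) * Polynomial.X +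
            Polynomial.C ((ℓ : s59e_adj 𝒪 aZ₀)))
    (hgenR : Algebra.adjoin 𝒪 {x : s59e_adj 𝒪 aZ₀ | ∃ ℓ : ℕ, ℓ.Prime ∧ ¬ ℓ ∣ N₀ ∧
      ℓ ∉ (↑B : Set ℕ) ∧ x = s59e_tOf (↑B : Set ℕ) aZ₀ ℓ} = ⊤) :
    s59u_c2_EConcP 𝒪 p N₀ B c (s59e_adj 𝒪 aZ₀) ρR := by
  refine ⟨L₀, inferInstance, hpL₀, hN₀, hG', e₀, he', hee, e, Z, inferInstance, inferInstance, emb,
    (s59e_adj 𝒪 aZ₀).val, s59e_tOf (↑B : Set ℕ) aZ₀, h1e, hid, hnil, hemb, hrange, ?_, ?_, ?_⟩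
  · intro t
    refine s59u_c2_conc_poly_gen
      (fun x : ↥(s59t_goodB N₀ B) => s59w_op (⊤ : Subgroup (ZMod N₀)ˣ) 𝒪 (x : s59w_AIdx N₀))
      (fun x y => s59w_op_comm (⊤ : Subgroup (ZMod N₀)ˣ) 𝒪 _ _) emb (↑B : Set ℕ) aZ₀ ?_ hgenR t
    intro ℓ hℓ hℓN hℓS
    obtain ⟨i, hi⟩ := s59e_exists_TIdx (M := N₀) hℓ hℓN
    refine ⟨⟨Sum.inl i, s59t_inl_mem_goodB B i
      (by rw [hi]; exact fun h => hℓS (Finset.mem_coe.mpr h))⟩, fun z => ?_⟩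
    exact hT ℓ hℓ hℓN hℓS i hi z
  · intro ℓ hℓ hℓN hℓB A hA φ hφ
    exact hfrobR ℓ hℓ hℓN (fun h => hℓB (Finset.mem_coe.mp h)) A hA φ hφ
  · intro i hi z
    have hℓS : i.ell ∉ (↑B : Set ℕ) := fun h => hi (Finset.mem_coe.mp h)
    show emb (((s59e_tOf (↑B : Set ℕ) aZ₀ i.ell : s59e_adj 𝒪 aZ₀) : Module.End 𝒪 Z) z) = _
    rw [s59e_tOf_coe (↑B : Set ℕ) aZ₀ i.prime i.ndvd hℓS]
    exact hT i.ell i.prime i.ndvd hℓS i rfl z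

export Internal (s59u_c2_econcP_adj)

end Adj

end Fermat.Agent.Lib.S59

end
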