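/-
PROGRAMME (R2) = S59, case (P), NON-MINIMAL half, item [W4c] (helper7, prefix `s59x_`): **THE STATEMENT OF THE FINAL `T`-SIDE THEOREM ON THE
KERNEL PAIRS** as a `Prop` (so that helper6's adapter `⟹ s59q_pw_TPkgFLR` can be written against it before the proof lands) — twin of
helper5's `s59efl_TFin` (EFlrFinS.lean) for the STRICT-ORDINARY type with the WEAK trace clause.

`W` semistable, multiplicative at `p ≠ 2`.  Levels: `p`-free parts `N 0 ∣ N 1 ∣ … ∣ N k`, `N (t+1) = N t · qr t` (`t < k`), frozen above `k`;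
THE LEVELS OF THE CHAIN ARE `N t * p` (squarefree); the modules of the contract are the KERNEL PAIRS (`p`-new parts) of the `ρ̄_W`-parts of the
levels `N t * p`, i.e. the kernels of the two degeneracy maps to the level `N t`.  `2 ∣ N t` (for `p = 3`: the geometric base `t₂` and the
torsion hypothesis `s59e_auxTors`).  `ρ̄_W` occurs at the levels `N t` and `N t * p`.  Deformation types with FREE finsets:
`D0 : strict(Sg0) ∧ unip(Su)`, `DQ : strict(Sg0 ∪ image qv) ∧ unip(Su)`, `Dm : strict(Sgm) ∧ unip(Su)` of MINIMAL type; at every Taylor–Wiles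
level a ring `Dsf` of type "strict AND flat" (`s59q_SfType`) with the comparison map `κsf : DQ.R ↠ Dsf.R` (trace compatible); the conclusion is
helper2's WEAK contract `s59b_TLevelFW` for `Jm = ker κsf`.  The conclusion is VERBATIM that of helper3's master statement `s59u_p_TFinX` (UP3A.lean)
at the levels `N t * p`: `Bs`, the Hecke map of the top level, (E2) (the base ring acts faithfully on the base module), (E-conc-P)
(`s59u_c2_EConcP`, UC2PA.lean: the concrete model of the base ring on the `p`-kernel part), the weak Taylor–Wiles records.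
-/
import Mathlib
import Fermat.Agent.Lib.S59.FAsmPkg
import Fermat.Agent.Lib.S59.ELPkgHb
import Fermat.Agent.Lib.S59.E3E2a
import Fermat.Agent.Lib.S59.LFinW1
import Fermat.Agent.Lib.S59.B9TLvlW
import Fermat.Agent.Lib.S59.QSfType
import Fermat.Agent.Lib.S59.UC2PA

set_option autoImplicit false
set_option linter.unusedSectionVars false
set_option linter.unusedVariables false
set_option linter.style.haveILetI false
set_option synthInstance.maxHeartbeats 400000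
set_option maxHeartbeats 1600000

noncomputable section

namespace Fermat.Agent.Lib.S59

open IsLocalRing Polynomial
open Fermat.Agent.Lib.S53 (NormData)

local notation "Γℚ" => (AlgebraicClosure ℚ ≃ₐ[ℚ] AlgebraicClosure ℚ)

/-- **the final `T`-side statement of [PATCH-FLR] on the kernel pairs** (`p ≠ 2`, `W` multiplicative at `p`, strict-ordinary type, weak trace
clause). -/
def s59x_TFinP (p : ℕ) [Fact p.Prime] (W : WeierstrassCurve ℤ) (hΔ : W.Δ ≠ 0) : Prop :=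
  ∀ (hp2 : p ≠ 2) (B : Finset ℕ) (hss : W.IsSemistableModel) (hirr : W.ModRepIsIrreducible p)
    (hmult : ¬ W.IsGoodPrimeFor p)
    (hB2 : ∀ r : ℕ, r.Prime → ¬ W.IsGoodPrimeFor r → r ∈ B)
    (𝒪 : Type) [CommRing 𝒪] [IsDomain 𝒪] [IsDiscreteValuationRing 𝒪]
    [IsAdicComplete (maximalIdeal 𝒪) 𝒪] [Finite (ResidueField 𝒪)] [CharZero 𝒪]
    [Algebra ℤ_[p] 𝒪] [Module.Finite ℤ_[p] 𝒪]
    (hp𝒪 : ((p : ℕ) : 𝒪) ∈ maximalIdeal 𝒪)
    (habs : (s59i_rhobarW W p hΔ 𝒪 hp𝒪).IsAbsolutelyIrreducible)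
    (Nd : NormData (s59i_rhobarW W p hΔ 𝒪 hp𝒪))
    (hordp : (GaloisRepAdic.ofResidualGaloisRep (s59i_rhobarW W p hΔ 𝒪 hp𝒪)).IsOrdinaryAt p)
    -- the chain of levels: the `p`-free parts `N t`, the levels are `N t * p`
    (k : ℕ) (N : ℕ → ℕ) (qr : ℕ → ℕ) (hNZ : ∀ t, NeZero (N t))
    (hqr : ∀ t, t < k → (qr t).Prime)
    (hN : ∀ t, t < k → N (t + 1) = N t * qr t)
    (hfreeze : ∀ t, k ≤ t → N t = N k)
    (hsq : ∀ t, Squarefree (N t * p)) (hpN : ∀ t, ¬ p ∣ N t) (h2N : ∀ t, 2 ∣ N t)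
    (hB1 : ∀ t, ∀ r : ℕ, r.Prime → r ∣ N t * p → r ∈ B)
    (hocc₁ : ∀ t, Fermat.Agent.Lib.S44.s44i_LevelOcc (N t) p (fun ℓ => W.apOfModel ℓ) B)
    (hocc₂ : ∀ t, Fermat.Agent.Lib.S44.s44i_LevelOcc (N t * p) p (fun ℓ => W.apOfModel ℓ) B)
    -- Frobenius and inertia elements at the raising primes
    (φr σr : ℕ → Γℚ)
    (hφr : ∀ t, t < k → ∃ A : ValuationSubring (AlgebraicClosure ℚ),
      A.LiesOverPrime (qr t) ∧ A.IsFrobeniusAt (φr t) (qr t))
    (hσr : ∀ t, t < k → ∃ A : ValuationSubring (AlgebraicClosure ℚ),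
      A.LiesOverPrime (qr t) ∧ σr t ∈ A.inertiaSubgroupIn ℚ)
    -- the deformation types
    (Sg0 Su Smin Sgm : Finset ℕ) (hpSgm : p ∈ Sgm) (hSgm0 : Sgm ⊆ Sg0) (hSminSgm : Smin ⊆ Sgm)
    (hmin : ∀ q : ℕ, q.Prime → q ≠ p →
      (q ∈ Smin ↔ ¬ (s59i_rhobarW W p hΔ 𝒪 hp𝒪).IsUnramifiedAt q))
    (hSuB : Su ⊆ B)
    (hSgN : ∀ t, ∀ q : ℕ, q.Prime → q ∣ N t →
      q ∈ Sg0 ∨ s59e3q_E2Alt p (s59i_rhobarW W p hΔ 𝒪 hp𝒪) q)
    (hSgmN : ∀ q : ℕ, q.Prime → q ∣ N 0 →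
      q ∈ Sgm ∨ s59e3q_E2Alt p (s59i_rhobarW W p hΔ 𝒪 hp𝒪) q)
    (hqrSgm : ∀ t, t < k → qr t ∉ Sgm)
    (D0 : GaloisRep.DeformationRingData 𝒪 (s59i_rhobarW W p hΔ 𝒪 hp𝒪) (fun _A _ _ _ ρ =>
      GaloisRep.strictOrdinaryCondition 𝒪 p Sg0 ρ ∧
        ∀ q ∈ Su, q.Prime → q ≠ p → ρ.IsUnipotentOnInertiaAt q))
    (Dm : GaloisRep.DeformationRingData 𝒪 (s59i_rhobarW W p hΔ 𝒪 hp𝒪) (fun _A _ _ _ ρ =>
      GaloisRep.strictOrdinaryCondition 𝒪 p Sgm ρ ∧
        ∀ q ∈ Su, q.Prime → q ≠ p → ρ.IsUnipotentOnInertiaAt q))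
    (σ : Type) [DecidableEq σ] [Fintype σ],
    ∃ Bs : s59f_TBaseF 𝒪 k D0,
      s59e_HkFrobP (N k * p) (↑B : Set ℕ) (Bs.R k) (Bs.ρR k) ∧
      -- (E2): the base ring acts faithfully on the base module
      (∀ a : Bs.R 0, (∀ mm : Bs.M 0, a • mm = 0) → a = 0) ∧
      -- (E-conc-P): the concrete model of the base ring on the `p`-kernel part of the level `N 0 * p`
      s59u_c2_EConcP 𝒪 p (N 0 * p) B (fun ℓ => W.apOfModel ℓ) (Bs.R 0) (Bs.ρR 0) ∧
      ∀ (r : ℕ) (n : ℕ) (qv : Fin r → ℕ), Function.Injective qv →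
        (∀ i, (qv i).Prime ∧ qv i ∉ B ∧ p ^ (n + 1) ∣ qv i - 1) →
        (∀ i, ∀ A : ValuationSubring (AlgebraicClosure ℚ), A.LiesOverPrime (qv i) →
          ∀ φ : Γℚ, A.IsFrobeniusAt φ (qv i) →
            ∃ α β : ResidueField 𝒪, α ≠ β ∧
              LinearMap.charpoly ((s59i_rhobarW W p hΔ 𝒪 hp𝒪).ρ φ) = (X - C α) * (X - C β)) →
        ∀ (DQ : GaloisRep.DeformationRingData 𝒪 (s59i_rhobarW W p hΔ 𝒪 hp𝒪) (fun _A _ _ _ ρ =>
            GaloisRep.strictOrdinaryCondition 𝒪 p (Sg0 ∪ Finset.univ.image qv) ρ ∧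
              ∀ q ∈ Su, q.Prime → q ≠ p → ρ.IsUnipotentOnInertiaAt q))
          (Dsf : GaloisRep.DeformationRingData 𝒪 (s59i_rhobarW W p hΔ 𝒪 hp𝒪)
            (s59q_SfType 𝒪 p (Sg0 ∪ Finset.univ.image qv) Su))
          (κsf : DQ.R →ₐ[𝒪] Dsf.R), Function.Surjective κsf →
          (∀ g, κsf (s59i_cpTr DQ.ρ g) = s59i_cpTr Dsf.ρ g) →
          Nonempty (s59b_TLevelFW 𝒪 p n r σ k Bs qv qr φr σr DQ
            ((RingHom.ker (κsf : DQ.R →+* Dsf.R) : Ideal DQ.R) : Set DQ.R))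

end Fermat.Agent.Lib.S59
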