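/-
S59 project, case (P), route (T5w), [W4c] (helper9, prefix `s59m_`): **THE STATEMENT OF THE ABSTRACT CORE OF THE FINAL `T`-SIDE THEOREM OF CASE (P)**.
`s59m_TFinCore p W hΔ` = helper7's `s59x_TFinP` (NXFinS.lean; textually helper3's `s59u_p_TFinXL`, UP3L.lean) where EVERYTHING about the levels
(parity `h2N`, semistability, residual modularity, ...) is replaced by ONE per-index hypothesis `hIdx : ∀ s, s59m_IdxConcl … (N s) …`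
(helper3's requests (R2), (R4), post 4058/4059):

* `s59m_BasePkgConcl` : the base package of the kernel pair at a `p`-free level (= the conclusion of helper2's `Internal.s59x_base_pkgZ`);
* `s59m_IdxConcl`     : the base package AND, for every Taylor–Wiles datum (with the shared data `aq bq`, the `p`-package at the level with a
  free normalising element, the generators `g`, the rings `DQ`, `Dfl`), the level data `s59m_LvlIdxConcl` (MKerLvlAllS.lean);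
  `Qr` = primes where `θ` kills the inertia coefficients, `up` = "the index is the upper index of a step" (flat data of the `p`-free level);
  `Nt` = the `p`-free TOP level of the chain: the normalising element `e₀` and the generators `g` of a Taylor–Wiles datum come from the
  level `Nt p` (binders `hpLt he't heet gt hgt hgent hordt hgloct`, request (R5) of helper3's post 4069; the standard provider ignores them);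
* `s59m_TFinCore`     : the statement of the core (`Internal.s59m_finCore`, MKerFin.lean).
The standard (parity-free) provider of `s59m_IdxConcl` is `s59m_idx_std` (MKerIdx.lean); the even instance is in MKerFinE.lean.
-/
import Mathlib
import Fermat.Agent.Lib.S59.NXFinS
import Fermat.Agent.Lib.S59.MKerLvlAllS
import Fermat.Agent.Lib.S59.EFlrBase
import Fermat.Agent.Lib.S59.EFlrGen
import Fermat.Agent.Lib.S59.LFinW1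
import Fermat.Agent.Lib.S59.E3E2a
import Fermat.Agent.Lib.S59.NXKerH2
import Fermat.Agent.Lib.S59.FEps7

set_option autoImplicit false
set_option linter.unusedSectionVars false
set_option linter.unusedVariables false
set_option linter.style.haveILetI false
set_option maxHeartbeats 0
set_option synthInstance.maxHeartbeats 400000
set_option maxSynthPendingDepth 3

noncomputable section

namespace Fermat.Agent.Lib.S59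

open IsLocalRing CuspForm Polynomial ExtCitation CongruenceSubgroup
open WeierstrassCurve WeierstrassCurve.Affine WeierstrassCurve.Affine.Point
open Fermat.Agent.Lib.S48 Fermat.Agent.Lib.S44
open Fermat.Agent.Lib.S53 (NormData)
open scoped MatrixGroups

local notation "Γℚ" => (AlgebraicClosure ℚ ≃ₐ[ℚ] AlgebraicClosure ℚ)

/-- **the base package of the kernel pair at the `p`-free level `N`** (conclusion of helper2's `Internal.s59x_base_pkgZ`): the two base idempotents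
(levels `N`, `N p`), the `p`-old package between them (normalising element `1`), the kernel part `P` with its Hecke ring, the map from `D0.R`. -/
def s59m_BasePkgConcl (p : ℕ) [Fact p.Prime] (W : WeierstrassCurve ℤ) (hΔ : W.Δ ≠ 0)
    (N : ℕ) [NeZero N] [NeZero (N * p)] (B : Finset ℕ) (hpN : ¬ p ∣ N)
    (𝒪 : Type) [CommRing 𝒪] [IsDomain 𝒪] [IsDiscreteValuationRing 𝒪]
    [IsAdicComplete (maximalIdeal 𝒪) 𝒪] [Finite (ResidueField 𝒪)] [CharZero 𝒪]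
    [Algebra ℤ_[p] 𝒪] [Module.Finite ℤ_[p] 𝒪]
    (hp𝒪 : ((p : ℕ) : 𝒪) ∈ maximalIdeal 𝒪)
    (Sg Su : Finset ℕ)
    (D0 : GaloisRep.DeformationRingData 𝒪 (s59i_rhobarW W p hΔ 𝒪 hp𝒪) (fun _A _ _ _ ρ =>
      GaloisRep.strictOrdinaryCondition 𝒪 p Sg ρ ∧
        ∀ q ∈ Su, q.Prime → q ≠ p → ρ.IsUnipotentOnInertiaAt q)) : Prop :=
    ∃ (e₁ : MvPolynomial ↥(s59t_goodB N B) 𝒪),
    ∃ (h1e₁ : 1 - e₁ ∈ s59t_evalIdeal (fun x : ↥(s59t_goodB N B) =>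
      s59t_cB (𝒪 := 𝒪) N (fun ℓ => W.apOfModel ℓ) (x : s59w_AIdx N))),
    ∃ (hid₁ : (s59t_E0 (⊤ : Subgroup (ZMod N)ˣ) B e₁) * (s59t_E0 (⊤ : Subgroup (ZMod N)ˣ) B e₁) = (s59t_E0 (⊤ : Subgroup (ZMod N)ˣ) B e₁)),
    ∃ (hnil₁ : ∀ x ∈ s59t_goodB N B, ∃ k : ℕ, ∀ y : (s48h_Hpar 𝒪 (s48h_GammaH N (⊤ : Subgroup (ZMod N)ˣ)) 𝒪),
      ((s59w_op (⊤ : Subgroup (ZMod N)ˣ) 𝒪 x - s59t_cB (𝒪 := 𝒪) N (fun ℓ => W.apOfModel ℓ) x •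
        (1 : Module.End 𝒪 (s48h_Hpar 𝒪 (s48h_GammaH N (⊤ : Subgroup (ZMod N)ˣ)) 𝒪))) ^ k) ((s59t_E0 (⊤ : Subgroup (ZMod N)ˣ) B e₁) y) ∈
        (maximalIdeal 𝒪 • ⊤ : Submodule 𝒪 (s48h_Hpar 𝒪 (s48h_GammaH N (⊤ : Subgroup (ZMod N)ˣ)) 𝒪))),
    ∃ (hρ₁ : ∀ δ y, (s59t_E0 (⊤ : Subgroup (ZMod N)ˣ) B e₁) ((s59t_rho N (⊤ : Subgroup (ZMod N)ˣ) 𝒪 𝒪) δ y) = (s59t_rho N (⊤ : Subgroup (ZMod N)ˣ) 𝒪 𝒪) δ ((s59t_E0 (⊤ : Subgroup (ZMod N)ˣ) B e₁) y)),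
    ∃ (e : MvPolynomial ↥(s59t_goodB (N * p) B) 𝒪),
    ∃ (h1e : 1 - e ∈ s59t_evalIdeal (fun x : ↥(s59t_goodB (N * p) B) =>
      s59t_cB (𝒪 := 𝒪) (N * p) (fun ℓ => W.apOfModel ℓ) (x : s59w_AIdx (N * p)))),
    ∃ (hid : (s59t_E0 (⊤ : Subgroup (ZMod (N * p))ˣ) B e) * (s59t_E0 (⊤ : Subgroup (ZMod (N * p))ˣ) B e) = (s59t_E0 (⊤ : Subgroup (ZMod (N * p))ˣ) B e)),
    ∃ (hnil : ∀ x ∈ s59t_goodB (N * p) B, ∃ k : ℕ, ∀ y : (s48h_Hpar 𝒪 (s48h_GammaH (N * p) (⊤ : Subgroup (ZMod (N * p))ˣ)) 𝒪),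
      ((s59w_op (⊤ : Subgroup (ZMod (N * p))ˣ) 𝒪 x - s59t_cB (𝒪 := 𝒪) (N * p) (fun ℓ => W.apOfModel ℓ) x •
        (1 : Module.End 𝒪 (s48h_Hpar 𝒪 (s48h_GammaH (N * p) (⊤ : Subgroup (ZMod (N * p))ˣ)) 𝒪))) ^ k) ((s59t_E0 (⊤ : Subgroup (ZMod (N * p))ˣ) B e) y) ∈
        (maximalIdeal 𝒪 • ⊤ : Submodule 𝒪 (s48h_Hpar 𝒪 (s48h_GammaH (N * p) (⊤ : Subgroup (ZMod (N * p))ˣ)) 𝒪))),
    ∃ (hρ : ∀ δ y, (s59t_E0 (⊤ : Subgroup (ZMod (N * p))ˣ) B e) ((s59t_rho (N * p) (⊤ : Subgroup (ZMod (N * p))ˣ) 𝒪 𝒪) δ y) = (s59t_rho (N * p) (⊤ : Subgroup (ZMod (N * p))ˣ) 𝒪 𝒪) δ ((s59t_E0 (⊤ : Subgroup (ZMod (N * p))ˣ) B e) y)),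
    ∃ (he1 : (1 : SL(2, ℤ)) ∈ Gamma0 (N * p)),
    ∃ (hee1 : s59f_gW hpN * 1 * 1 ∈ s48h_GammaH (N * p) (⊤ : Subgroup (ZMod (N * p))ˣ)),
    ∃ (hcbp : (s59f_oldN hpN rfl (s59f_isG'_top hpN) 𝒪 𝒪 1 he1 hee1).Compat (s59t_E0 (⊤ : Subgroup (ZMod N)ˣ) B e₁) (s59t_E0 (⊤ : Subgroup (ZMod (N * p))ˣ) B e)),
    ∃ (d₁ : ℕ) (d₂ : ℕ),
    ∃ (b₁ : Fin d₁ → s59t_part (s59t_E0 (⊤ : Subgroup (ZMod N)ˣ) B e₁)),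
    ∃ (hb₁ : Function.Bijective (s59t_evalMap (s59t_partRep (s59t_rho N (⊤ : Subgroup (ZMod N)ˣ) 𝒪 𝒪) hρ₁) b₁)),
    ∃ (b₂ : Fin d₂ → s59t_part (s59t_E0 (⊤ : Subgroup (ZMod (N * p))ˣ) B e)),
    ∃ (hb₂ : Function.Bijective (s59t_evalMap (s59t_partRep (s59t_rho (N * p) (⊤ : Subgroup (ZMod (N * p))ˣ) 𝒪 𝒪) hρ) b₂)),
    ∃ (P : Module.End 𝒪 (s59t_part (s59t_E0 (⊤ : Subgroup (ZMod (N * p))ˣ) B e))),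
    ∃ (hP : ∀ δ x, P ((s59t_partRep (s59t_rho (N * p) (⊤ : Subgroup (ZMod (N * p))ˣ) 𝒪 𝒪) hρ) δ x) = (s59t_partRep (s59t_rho (N * p) (⊤ : Subgroup (ZMod (N * p))ˣ) 𝒪 𝒪) hρ) δ (P x)),
    ∃ (hPP : P * P = P),
    ∃ (hmem : ∀ x, x ∈ s59t_part P ↔
        ((s59f_oldN hpN rfl (s59f_isG'_top hpN) 𝒪 𝒪 1 he1 hee1).restrict hcbp).corA x = 0 ∧ ((s59f_oldN hpN rfl (s59f_isG'_top hpN) 𝒪 𝒪 1 he1 hee1).restrict hcbp).corB x = 0),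
    ∃ (hbase : ∀ y₁ y₂ : s59t_part (s59t_E0 (⊤ : Subgroup (ZMod N)ˣ) B e₁), ∃ z : s59t_part (s59t_E0 (⊤ : Subgroup (ZMod (N * p))ˣ) B e),
        ((s59f_oldN hpN rfl (s59f_isG'_top hpN) 𝒪 𝒪 1 he1 hee1).restrict hcbp).corA z = y₁ ∧ ((s59f_oldN hpN rfl (s59f_isG'_top hpN) 𝒪 𝒪 1 he1 hee1).restrict hcbp).corB z = y₂),
    ∃ (hd1 : d₁ ≠ 0),
    ∃ (hd0 : d₂ - 2 * d₁ ≠ 0),
    ∃ (a₀ : (heckeAlgebra (N * p) 2 (↑B : Set ℕ)) →+* Module.End 𝒪 (s48h_Hpar 𝒪 (s48h_GammaH (N * p) (⊤ : Subgroup (ZMod (N * p))ˣ)) 𝒪)),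
    ∃ (ha1₀ : ∀ (ℓ : ℕ) (hℓ : ℓ.Prime) (hℓN : ¬ ℓ ∣ (N * p)) (hℓS : ℓ ∉ (↑B : Set ℕ)) (i : s59w_TIdx (N * p)),
      i.ell = ℓ → a₀ (heckeAlgebra.T hℓ hℓN hℓS) = s59e_Tp' (⊤ : Subgroup (ZMod (N * p))ˣ) 𝒪 ((p ^ 0 - 1) * ((p ^ 0 + 1) / 2)) i),
    ∃ (aZ₀ : (heckeAlgebra (N * p) 2 (↑B : Set ℕ)) →+* Module.End 𝒪 (s59t_part P)),
    ∃ (haZ₀ : ∀ t (z : s59t_part P), s59x_jZ (⊤ : Subgroup (ZMod (N * p))ˣ) (s59t_E0 (⊤ : Subgroup (ZMod (N * p))ˣ) B e) P (aZ₀ t z) = a₀ t (s59x_jZ (⊤ : Subgroup (ZMod (N * p))ˣ) (s59t_E0 (⊤ : Subgroup (ZMod (N * p))ˣ) B e) P z)),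
    ∃ (_ : IsLocalRing (s59e_adj 𝒪 aZ₀)),
    ∃ (_ : IsNoetherianRing (s59e_adj 𝒪 aZ₀)),
    ∃ (_ : Module.Finite 𝒪 (s59e_adj 𝒪 aZ₀)),
    ∃ (_ : IsAdicComplete (maximalIdeal (s59e_adj 𝒪 aZ₀)) (s59e_adj 𝒪 aZ₀)),
    ∃ (_ : IsLocalHom (algebraMap 𝒪 (s59e_adj 𝒪 aZ₀))),
    ∃ (hRρ : ∀ (t : (s59e_adj 𝒪 aZ₀)) (δ : (s59t_Delta (N * p) (⊤ : Subgroup (ZMod (N * p))ˣ))) (y : s59t_part P),
      t • (s59t_partRep (s59t_partRep (s59t_rho (N * p) (⊤ : Subgroup (ZMod (N * p))ˣ) 𝒪 𝒪) hρ) hP) δ y = (s59t_partRep (s59t_partRep (s59t_rho (N * p) (⊤ : Subgroup (ZMod (N * p))ˣ) 𝒪 𝒪) hρ) hP) δ (t • y)),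
    ∃ (θ₀ : D0.R →ₐ[𝒪] (s59e_adj 𝒪 aZ₀)),
    ∃ (hθ₀ : Function.Surjective θ₀),
    ∃ (hθ₀l : IsLocalHom (θ₀ : D0.R →+* (s59e_adj 𝒪 aZ₀))),
      Function.Surjective (residue (s59e_adj 𝒪 aZ₀) ∘ algebraMap 𝒪 (s59e_adj 𝒪 aZ₀)) ∧
      Module.Finite (s59e_adj 𝒪 aZ₀) (s59t_EigT (s59t_partRep (s59t_partRep (s59t_rho (N * p) (⊤ : Subgroup (ZMod (N * p))ˣ) 𝒪 𝒪) hρ) hP) ⊤ (1 : (s59t_Delta (N * p) (⊤ : Subgroup (ZMod (N * p))ˣ)) →* 𝒪ˣ) hRρ) ∧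
      Nontrivial (s59t_EigT (s59t_partRep (s59t_partRep (s59t_rho (N * p) (⊤ : Subgroup (ZMod (N * p))ˣ) 𝒪 𝒪) hρ) hP) ⊤ (1 : (s59t_Delta (N * p) (⊤ : Subgroup (ZMod (N * p))ˣ)) →* 𝒪ˣ) hRρ) ∧
      (∀ (ℓ : ℕ), ℓ.Prime → ¬ ℓ ∣ (N * p) → ℓ ∉ (↑B : Set ℕ) →
        ∀ A : ValuationSubring (AlgebraicClosure ℚ), A.LiesOverPrime ℓ →
        ∀ g : Γℚ, A.IsFrobeniusAt g ℓ →
          LinearMap.charpoly ((D0.ρ.baseChangeAlong (θ₀ : D0.R →+* (s59e_adj 𝒪 aZ₀)) hθ₀l).ρ g) =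
            Polynomial.X ^ 2 - Polynomial.C (s59e_tOf (↑B : Set ℕ) aZ₀ ℓ) * Polynomial.X +
              Polynomial.C ((ℓ : (s59e_adj 𝒪 aZ₀)))) ∧
      (Algebra.adjoin 𝒪 {x : (s59e_adj 𝒪 aZ₀) | ∃ ℓ : ℕ, ℓ.Prime ∧ ¬ ℓ ∣ (N * p) ∧
        ℓ ∉ (↑B : Set ℕ) ∧ x = s59e_tOf (↑B : Set ℕ) aZ₀ ℓ} = ⊤) ∧
      ((D0.ρ.baseChangeAlong (θ₀ : D0.R →+* (s59e_adj 𝒪 aZ₀)) hθ₀l).residual.IsEquiv
        ((s59i_rhobarW W p hΔ 𝒪 hp𝒪).baseChangeAlong (ResidueField.map (algebraMap 𝒪 (s59e_adj 𝒪 aZ₀))))) ∧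
      (GaloisRep.strictOrdinaryCondition 𝒪 p Sg (D0.ρ.baseChangeAlong (θ₀ : D0.R →+* (s59e_adj 𝒪 aZ₀)) hθ₀l) ∧
        ∀ q ∈ Su, q.Prime → q ≠ p → (D0.ρ.baseChangeAlong (θ₀ : D0.R →+* (s59e_adj 𝒪 aZ₀)) hθ₀l).IsUnipotentOnInertiaAt q) ∧
      (∀ g, θ₀ (s59i_cpTr D0.ρ g) = s59i_cpTr (D0.ρ.baseChangeAlong (θ₀ : D0.R →+* (s59e_adj 𝒪 aZ₀)) hθ₀l) g)

/-- **all the data of one chain index** (the per-index hypothesis of the abstract core): the base package of the kernel pair at the `p`-free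
level `N` and, for EVERY Taylor–Wiles datum, the level data `s59m_LvlIdxConcl` over it. -/
def s59m_IdxConcl (p : ℕ) [Fact p.Prime] (W : WeierstrassCurve ℤ) (hΔ : W.Δ ≠ 0)
    (N : ℕ) [NeZero N] [NeZero (N * p)] (B : Finset ℕ) (hpN : ¬ p ∣ N)
    (𝒪 : Type) [CommRing 𝒪] [IsDomain 𝒪] [IsDiscreteValuationRing 𝒪]
    [IsAdicComplete (maximalIdeal 𝒪) 𝒪] [Finite (ResidueField 𝒪)] [CharZero 𝒪]
    [Algebra ℤ_[p] 𝒪] [Module.Finite ℤ_[p] 𝒪]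
    (hp𝒪 : ((p : ℕ) : 𝒪) ∈ maximalIdeal 𝒪)
    (σ : Type) [DecidableEq σ] [Fintype σ]
    (Sg Su : Finset ℕ)
    (D0 : GaloisRep.DeformationRingData 𝒪 (s59i_rhobarW W p hΔ 𝒪 hp𝒪) (fun _A _ _ _ ρ =>
      GaloisRep.strictOrdinaryCondition 𝒪 p Sg ρ ∧
        ∀ q ∈ Su, q.Prime → q ≠ p → ρ.IsUnipotentOnInertiaAt q))
    (Qr : Set ℕ) (up : Prop)
    (Nt : ℕ) [NeZero Nt] [NeZero (Nt * p)] (hdt : N * p ∣ Nt * p) : Prop :=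
    ∃ (e₁ : MvPolynomial ↥(s59t_goodB N B) 𝒪),
    ∃ (h1e₁ : 1 - e₁ ∈ s59t_evalIdeal (fun x : ↥(s59t_goodB N B) =>
      s59t_cB (𝒪 := 𝒪) N (fun ℓ => W.apOfModel ℓ) (x : s59w_AIdx N))),
    ∃ (hid₁ : (s59t_E0 (⊤ : Subgroup (ZMod N)ˣ) B e₁) * (s59t_E0 (⊤ : Subgroup (ZMod N)ˣ) B e₁) = (s59t_E0 (⊤ : Subgroup (ZMod N)ˣ) B e₁)),
    ∃ (hnil₁ : ∀ x ∈ s59t_goodB N B, ∃ k : ℕ, ∀ y : (s48h_Hpar 𝒪 (s48h_GammaH N (⊤ : Subgroup (ZMod N)ˣ)) 𝒪),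
      ((s59w_op (⊤ : Subgroup (ZMod N)ˣ) 𝒪 x - s59t_cB (𝒪 := 𝒪) N (fun ℓ => W.apOfModel ℓ) x •
        (1 : Module.End 𝒪 (s48h_Hpar 𝒪 (s48h_GammaH N (⊤ : Subgroup (ZMod N)ˣ)) 𝒪))) ^ k) ((s59t_E0 (⊤ : Subgroup (ZMod N)ˣ) B e₁) y) ∈
        (maximalIdeal 𝒪 • ⊤ : Submodule 𝒪 (s48h_Hpar 𝒪 (s48h_GammaH N (⊤ : Subgroup (ZMod N)ˣ)) 𝒪))),
    ∃ (hρ₁ : ∀ δ y, (s59t_E0 (⊤ : Subgroup (ZMod N)ˣ) B e₁) ((s59t_rho N (⊤ : Subgroup (ZMod N)ˣ) 𝒪 𝒪) δ y) = (s59t_rho N (⊤ : Subgroup (ZMod N)ˣ) 𝒪 𝒪) δ ((s59t_E0 (⊤ : Subgroup (ZMod N)ˣ) B e₁) y)),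
    ∃ (e : MvPolynomial ↥(s59t_goodB (N * p) B) 𝒪),
    ∃ (h1e : 1 - e ∈ s59t_evalIdeal (fun x : ↥(s59t_goodB (N * p) B) =>
      s59t_cB (𝒪 := 𝒪) (N * p) (fun ℓ => W.apOfModel ℓ) (x : s59w_AIdx (N * p)))),
    ∃ (hid : (s59t_E0 (⊤ : Subgroup (ZMod (N * p))ˣ) B e) * (s59t_E0 (⊤ : Subgroup (ZMod (N * p))ˣ) B e) = (s59t_E0 (⊤ : Subgroup (ZMod (N * p))ˣ) B e)),
    ∃ (hnil : ∀ x ∈ s59t_goodB (N * p) B, ∃ k : ℕ, ∀ y : (s48h_Hpar 𝒪 (s48h_GammaH (N * p) (⊤ : Subgroup (ZMod (N * p))ˣ)) 𝒪),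
      ((s59w_op (⊤ : Subgroup (ZMod (N * p))ˣ) 𝒪 x - s59t_cB (𝒪 := 𝒪) (N * p) (fun ℓ => W.apOfModel ℓ) x •
        (1 : Module.End 𝒪 (s48h_Hpar 𝒪 (s48h_GammaH (N * p) (⊤ : Subgroup (ZMod (N * p))ˣ)) 𝒪))) ^ k) ((s59t_E0 (⊤ : Subgroup (ZMod (N * p))ˣ) B e) y) ∈
        (maximalIdeal 𝒪 • ⊤ : Submodule 𝒪 (s48h_Hpar 𝒪 (s48h_GammaH (N * p) (⊤ : Subgroup (ZMod (N * p))ˣ)) 𝒪))),
    ∃ (hρ : ∀ δ y, (s59t_E0 (⊤ : Subgroup (ZMod (N * p))ˣ) B e) ((s59t_rho (N * p) (⊤ : Subgroup (ZMod (N * p))ˣ) 𝒪 𝒪) δ y) = (s59t_rho (N * p) (⊤ : Subgroup (ZMod (N * p))ˣ) 𝒪 𝒪) δ ((s59t_E0 (⊤ : Subgroup (ZMod (N * p))ˣ) B e) y)),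
    ∃ (he1 : (1 : SL(2, ℤ)) ∈ Gamma0 (N * p)),
    ∃ (hee1 : s59f_gW hpN * 1 * 1 ∈ s48h_GammaH (N * p) (⊤ : Subgroup (ZMod (N * p))ˣ)),
    ∃ (hcbp : (s59f_oldN hpN rfl (s59f_isG'_top hpN) 𝒪 𝒪 1 he1 hee1).Compat (s59t_E0 (⊤ : Subgroup (ZMod N)ˣ) B e₁) (s59t_E0 (⊤ : Subgroup (ZMod (N * p))ˣ) B e)),
    ∃ (d₁ : ℕ) (d₂ : ℕ),
    ∃ (b₁ : Fin d₁ → s59t_part (s59t_E0 (⊤ : Subgroup (ZMod N)ˣ) B e₁)),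
    ∃ (hb₁ : Function.Bijective (s59t_evalMap (s59t_partRep (s59t_rho N (⊤ : Subgroup (ZMod N)ˣ) 𝒪 𝒪) hρ₁) b₁)),
    ∃ (b₂ : Fin d₂ → s59t_part (s59t_E0 (⊤ : Subgroup (ZMod (N * p))ˣ) B e)),
    ∃ (hb₂ : Function.Bijective (s59t_evalMap (s59t_partRep (s59t_rho (N * p) (⊤ : Subgroup (ZMod (N * p))ˣ) 𝒪 𝒪) hρ) b₂)),
    ∃ (P : Module.End 𝒪 (s59t_part (s59t_E0 (⊤ : Subgroup (ZMod (N * p))ˣ) B e))),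
    ∃ (hP : ∀ δ x, P ((s59t_partRep (s59t_rho (N * p) (⊤ : Subgroup (ZMod (N * p))ˣ) 𝒪 𝒪) hρ) δ x) = (s59t_partRep (s59t_rho (N * p) (⊤ : Subgroup (ZMod (N * p))ˣ) 𝒪 𝒪) hρ) δ (P x)),
    ∃ (hPP : P * P = P),
    ∃ (hmem : ∀ x, x ∈ s59t_part P ↔
        ((s59f_oldN hpN rfl (s59f_isG'_top hpN) 𝒪 𝒪 1 he1 hee1).restrict hcbp).corA x = 0 ∧ ((s59f_oldN hpN rfl (s59f_isG'_top hpN) 𝒪 𝒪 1 he1 hee1).restrict hcbp).corB x = 0),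
    ∃ (hbase : ∀ y₁ y₂ : s59t_part (s59t_E0 (⊤ : Subgroup (ZMod N)ˣ) B e₁), ∃ z : s59t_part (s59t_E0 (⊤ : Subgroup (ZMod (N * p))ˣ) B e),
        ((s59f_oldN hpN rfl (s59f_isG'_top hpN) 𝒪 𝒪 1 he1 hee1).restrict hcbp).corA z = y₁ ∧ ((s59f_oldN hpN rfl (s59f_isG'_top hpN) 𝒪 𝒪 1 he1 hee1).restrict hcbp).corB z = y₂),
    ∃ (hd1 : d₁ ≠ 0),
    ∃ (hd0 : d₂ - 2 * d₁ ≠ 0),
    ∃ (a₀ : (heckeAlgebra (N * p) 2 (↑B : Set ℕ)) →+* Module.End 𝒪 (s48h_Hpar 𝒪 (s48h_GammaH (N * p) (⊤ : Subgroup (ZMod (N * p))ˣ)) 𝒪)),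
    ∃ (ha1₀ : ∀ (ℓ : ℕ) (hℓ : ℓ.Prime) (hℓN : ¬ ℓ ∣ (N * p)) (hℓS : ℓ ∉ (↑B : Set ℕ)) (i : s59w_TIdx (N * p)),
      i.ell = ℓ → a₀ (heckeAlgebra.T hℓ hℓN hℓS) = s59e_Tp' (⊤ : Subgroup (ZMod (N * p))ˣ) 𝒪 ((p ^ 0 - 1) * ((p ^ 0 + 1) / 2)) i),
    ∃ (aZ₀ : (heckeAlgebra (N * p) 2 (↑B : Set ℕ)) →+* Module.End 𝒪 (s59t_part P)),
    ∃ (haZ₀ : ∀ t (z : s59t_part P), s59x_jZ (⊤ : Subgroup (ZMod (N * p))ˣ) (s59t_E0 (⊤ : Subgroup (ZMod (N * p))ˣ) B e) P (aZ₀ t z) = a₀ t (s59x_jZ (⊤ : Subgroup (ZMod (N * p))ˣ) (s59t_E0 (⊤ : Subgroup (ZMod (N * p))ˣ) B e) P z)),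
    ∃ (_ : IsLocalRing (s59e_adj 𝒪 aZ₀)),
    ∃ (_ : IsNoetherianRing (s59e_adj 𝒪 aZ₀)),
    ∃ (_ : Module.Finite 𝒪 (s59e_adj 𝒪 aZ₀)),
    ∃ (_ : IsAdicComplete (maximalIdeal (s59e_adj 𝒪 aZ₀)) (s59e_adj 𝒪 aZ₀)),
    ∃ (_ : IsLocalHom (algebraMap 𝒪 (s59e_adj 𝒪 aZ₀))),
    ∃ (hRρ : ∀ (t : (s59e_adj 𝒪 aZ₀)) (δ : (s59t_Delta (N * p) (⊤ : Subgroup (ZMod (N * p))ˣ))) (y : s59t_part P),
      t • (s59t_partRep (s59t_partRep (s59t_rho (N * p) (⊤ : Subgroup (ZMod (N * p))ˣ) 𝒪 𝒪) hρ) hP) δ y = (s59t_partRep (s59t_partRep (s59t_rho (N * p) (⊤ : Subgroup (ZMod (N * p))ˣ) 𝒪 𝒪) hρ) hP) δ (t • y)),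
    ∃ (θ₀ : D0.R →ₐ[𝒪] (s59e_adj 𝒪 aZ₀)),
    ∃ (hθ₀ : Function.Surjective θ₀),
    ∃ (hθ₀l : IsLocalHom (θ₀ : D0.R →+* (s59e_adj 𝒪 aZ₀))),
      Function.Surjective (residue (s59e_adj 𝒪 aZ₀) ∘ algebraMap 𝒪 (s59e_adj 𝒪 aZ₀)) ∧
      Module.Finite (s59e_adj 𝒪 aZ₀) (s59t_EigT (s59t_partRep (s59t_partRep (s59t_rho (N * p) (⊤ : Subgroup (ZMod (N * p))ˣ) 𝒪 𝒪) hρ) hP) ⊤ (1 : (s59t_Delta (N * p) (⊤ : Subgroup (ZMod (N * p))ˣ)) →* 𝒪ˣ) hRρ) ∧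
      Nontrivial (s59t_EigT (s59t_partRep (s59t_partRep (s59t_rho (N * p) (⊤ : Subgroup (ZMod (N * p))ˣ) 𝒪 𝒪) hρ) hP) ⊤ (1 : (s59t_Delta (N * p) (⊤ : Subgroup (ZMod (N * p))ˣ)) →* 𝒪ˣ) hRρ) ∧
      (∀ (ℓ : ℕ), ℓ.Prime → ¬ ℓ ∣ (N * p) → ℓ ∉ (↑B : Set ℕ) →
        ∀ A : ValuationSubring (AlgebraicClosure ℚ), A.LiesOverPrime ℓ →
        ∀ g : Γℚ, A.IsFrobeniusAt g ℓ →
          LinearMap.charpoly ((D0.ρ.baseChangeAlong (θ₀ : D0.R →+* (s59e_adj 𝒪 aZ₀)) hθ₀l).ρ g) =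
            Polynomial.X ^ 2 - Polynomial.C (s59e_tOf (↑B : Set ℕ) aZ₀ ℓ) * Polynomial.X +
              Polynomial.C ((ℓ : (s59e_adj 𝒪 aZ₀)))) ∧
      (Algebra.adjoin 𝒪 {x : (s59e_adj 𝒪 aZ₀) | ∃ ℓ : ℕ, ℓ.Prime ∧ ¬ ℓ ∣ (N * p) ∧
        ℓ ∉ (↑B : Set ℕ) ∧ x = s59e_tOf (↑B : Set ℕ) aZ₀ ℓ} = ⊤) ∧
      ((D0.ρ.baseChangeAlong (θ₀ : D0.R →+* (s59e_adj 𝒪 aZ₀)) hθ₀l).residual.IsEquiv
        ((s59i_rhobarW W p hΔ 𝒪 hp𝒪).baseChangeAlong (ResidueField.map (algebraMap 𝒪 (s59e_adj 𝒪 aZ₀))))) ∧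
      (GaloisRep.strictOrdinaryCondition 𝒪 p Sg (D0.ρ.baseChangeAlong (θ₀ : D0.R →+* (s59e_adj 𝒪 aZ₀)) hθ₀l) ∧
        ∀ q ∈ Su, q.Prime → q ≠ p → (D0.ρ.baseChangeAlong (θ₀ : D0.R →+* (s59e_adj 𝒪 aZ₀)) hθ₀l).IsUnipotentOnInertiaAt q) ∧
      (∀ g, θ₀ (s59i_cpTr D0.ρ g) = s59i_cpTr (D0.ρ.baseChangeAlong (θ₀ : D0.R →+* (s59e_adj 𝒪 aZ₀)) hθ₀l) g) ∧
      (∀ -- the level
    (r : ℕ) (n : ℕ) (qv : Fin r → ℕ) [NeZero (∏ j, qv j)] [NeZero (N * ∏ j, qv j)] [NeZero ((N * p) * ∏ j, qv j)]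
    [NeZero ((N * p) * ∏ q ∈ Finset.univ.image qv, q ^ 2)] [NeZero (N * ∏ q ∈ Finset.univ.image qv, q ^ 2)]
    [Fact (HasIntegralStructure ((N * p) * ∏ q ∈ Finset.univ.image qv, q ^ 2) 2)] (hqinj : Function.Injective qv)
    (hqv : ∀ i, (qv i).Prime ∧ qv i ∉ B ∧ p ^ (n + 1) ∣ qv i - 1)
    (hTW : ∀ i, ∀ A : ValuationSubring (AlgebraicClosure ℚ), A.LiesOverPrime (qv i) →
      ∀ φ : Γℚ, A.IsFrobeniusAt φ (qv i) →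
        ∃ α β : ResidueField 𝒪, α ≠ β ∧
          LinearMap.charpoly ((s59i_rhobarW W p hΔ 𝒪 hp𝒪).ρ φ) = (X - C α) * (X - C β))
    (aq bq : ℕ → 𝒪)
    (harith : ∀ j, IsUnit (bq (qv j) - aq (qv j)) ∧
      ((qv j : ℕ) : 𝒪) - aq (qv j) * bq (qv j) ∈ maximalIdeal 𝒪 ∧
      IsUnit (1 - aq (qv j) ^ 2) ∧ IsUnit (1 - bq (qv j) ^ 2))
    (hcongq : ∀ j, aq (qv j) + bq (qv j) - ((W.apOfModel (qv j) : ℤ) : 𝒪) ∈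
      maximalIdeal 𝒪)
    -- the old package at `p` at the level, with a FREE normalising element
    (hpL : ¬ p ∣ N * ∏ j, qv j) (hN' : (N * p) * ∏ j, qv j = N * (∏ j, qv j) * p)
    (hG' : s59f_IsG' (N * ∏ j, qv j) p
      (s59t_Hmul N (∏ j, qv j) (⊤ : Subgroup (ZMod N)ˣ) (s59t_KQ (p ^ n) qv))
      (s48h_GammaH ((N * p) * ∏ j, qv j)
        (s59t_Hmul (N * p) (∏ j, qv j) (⊤ : Subgroup (ZMod (N * p))ˣ) (s59t_KQ (p ^ n) qv))))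
    (e₀ : SL(2, ℤ)) (he' : e₀ ∈ Gamma0 ((N * p) * ∏ j, qv j))
    (hee : s59f_gW hpL * e₀ * e₀ ∈ s48h_GammaH ((N * p) * ∏ j, qv j)
      (s59t_Hmul (N * p) (∏ j, qv j) (⊤ : Subgroup (ZMod (N * p))ˣ) (s59t_KQ (p ^ n) qv)))
    -- the generators of `B_Q`
    (g : Fin r → (s59t_BQ (N * p) (∏ j, qv j) (⊤ : Subgroup (ZMod (N * p))ˣ) (s59t_KQ (p ^ n) qv)))
    (hcard : Nat.card (s59t_BQ (N * p) (∏ j, qv j) (⊤ : Subgroup (ZMod (N * p))ˣ) (s59t_KQ (p ^ n) qv)) = (p ^ n) ^ r)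
    (hgen : ∀ x : (s59t_BQ (N * p) (∏ j, qv j) (⊤ : Subgroup (ZMod (N * p))ˣ) (s59t_KQ (p ^ n) qv)), ∃ a : Fin r → ℕ, x = ∏ i, g i ^ a i)
    (hord : ∀ i, g i ^ (p ^ n) = 1)
    (hgloc : ∀ i, ∃ τ : Gamma0 ((N * p) * ∏ j, qv j),
      (QuotientGroup.mk τ : (s59t_Delta ((N * p) * ∏ j, qv j) (s59t_Hmul (N * p) (∏ j, qv j) (⊤ : Subgroup (ZMod (N * p))ˣ) (s59t_KQ (p ^ n) qv)))) = (g i : (s59t_Delta ((N * p) * ∏ j, qv j) (s59t_Hmul (N * p) (∏ j, qv j) (⊤ : Subgroup (ZMod (N * p))ˣ) (s59t_KQ (p ^ n) qv)))) ∧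
      ZMod.unitsMap (Nat.div_dvd_of_dvd (s59t_qv_dvd_level qv (N * p) i))
        (s59t_unitHom ((N * p) * ∏ j, qv j) τ) = 1)
    -- the SAME normalising element and generators at the TOP level `Nt` of the chain (helper3's request (R5), post 4069)
    [NeZero (Nt * ∏ j, qv j)] [NeZero ((Nt * p) * ∏ j, qv j)]
    (hpLt : ¬ p ∣ Nt * ∏ j, qv j)
    (he't : e₀ ∈ Gamma0 ((Nt * p) * ∏ j, qv j))
    (heet : s59f_gW hpLt * e₀ * e₀ ∈ s48h_GammaH ((Nt * p) * ∏ j, qv j) (s59t_Hmul (Nt * p) (∏ j, qv j) (⊤ : Subgroup (ZMod (Nt * p))ˣ) (s59t_KQ (p ^ n) qv)))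
    (gt : Fin r → (s59t_BQ (Nt * p) (∏ j, qv j) (⊤ : Subgroup (ZMod (Nt * p))ˣ) (s59t_KQ (p ^ n) qv)))
    (hgt : ∀ i, g i = s59efl_pushG hdt (p ^ n) qv gt i)
    (hgent : ∀ x : (s59t_BQ (Nt * p) (∏ j, qv j) (⊤ : Subgroup (ZMod (Nt * p))ˣ) (s59t_KQ (p ^ n) qv)), ∃ a : Fin r → ℕ, x = ∏ i, gt i ^ a i)
    (hordt : ∀ i, gt i ^ (p ^ n) = 1)
    (hgloct : ∀ i, ∃ τ : Gamma0 ((Nt * p) * ∏ j, qv j),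
      (QuotientGroup.mk τ : (s59t_Delta ((Nt * p) * ∏ j, qv j) (s59t_Hmul (Nt * p) (∏ j, qv j) (⊤ : Subgroup (ZMod (Nt * p))ˣ) (s59t_KQ (p ^ n) qv)))) = (gt i : (s59t_Delta ((Nt * p) * ∏ j, qv j) (s59t_Hmul (Nt * p) (∏ j, qv j) (⊤ : Subgroup (ZMod (Nt * p))ˣ) (s59t_KQ (p ^ n) qv)))) ∧
      ZMod.unitsMap (Nat.div_dvd_of_dvd (s59t_qv_dvd_level qv (Nt * p) i))
        (s59t_unitHom ((Nt * p) * ∏ j, qv j) τ) = 1)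
    (DQ : GaloisRep.DeformationRingData 𝒪 (s59i_rhobarW W p hΔ 𝒪 hp𝒪) (fun _A _ _ _ ρ =>
      GaloisRep.strictOrdinaryCondition 𝒪 p (Sg ∪ Finset.univ.image qv) ρ ∧
        ∀ q ∈ Su, q.Prime → q ≠ p → ρ.IsUnipotentOnInertiaAt q))
    (Dfl : GaloisRep.DeformationRingData 𝒪 (s59i_rhobarW W p hΔ 𝒪 hp𝒪) (fun _A _ _ _ ρ =>
      GaloisRep.flatCondition 𝒪 p (Sg ∪ Finset.univ.image qv) ρ ∧
        ∀ q ∈ Su, q.Prime → q ≠ p → ρ.IsUnipotentOnInertiaAt q)),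
    s59m_LvlIdxConcl p B (fun ℓ => W.apOfModel ℓ) e₁ e hρ P hP (d₂ - 2 * d₁) aZ₀ hRρ (D0.ρ.baseChangeAlong (θ₀ : D0.R →+* (s59e_adj 𝒪 aZ₀)) hθ₀l) n σ qv aq hpL hN' hG' e₀ he' hee g
      (Sg ∪ Finset.univ.image qv) Su DQ Qr (Sg ∪ Finset.univ.image qv) Su Dfl up)

/-- **the statement of the abstract core of the final `T`-side theorem of case (P)** (= `s59x_TFinP` with all the hypotheses about the levels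
replaced by `hIdx`). -/
def s59m_TFinCore (p : ℕ) [Fact p.Prime] (W : WeierstrassCurve ℤ) (hΔ : W.Δ ≠ 0) : Prop :=
  ∀ (hp2 : p ≠ 2) (B : Finset ℕ) (hirr : W.ModRepIsIrreducible p)
    (hB2 : ∀ r : ℕ, r.Prime → ¬ W.IsGoodPrimeFor r → r ∈ B)
    (𝒪 : Type) [CommRing 𝒪] [IsDomain 𝒪] [IsDiscreteValuationRing 𝒪]
    [IsAdicComplete (maximalIdeal 𝒪) 𝒪] [Finite (ResidueField 𝒪)] [CharZero 𝒪]
    [Algebra ℤ_[p] 𝒪] [Module.Finite ℤ_[p] 𝒪]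
    (hp𝒪 : ((p : ℕ) : 𝒪) ∈ maximalIdeal 𝒪)
    (habs : (s59i_rhobarW W p hΔ 𝒪 hp𝒪).IsAbsolutelyIrreducible)
    (Nd : NormData (s59i_rhobarW W p hΔ 𝒪 hp𝒪))
    (hordp : (GaloisRepAdic.ofResidualGaloisRep (s59i_rhobarW W p hΔ 𝒪 hp𝒪)).IsOrdinaryAt p)
    -- the chain of levels: the `p`-free parts `N t`, the levels are `N t * p`
    (k : ℕ) (N : ℕ → ℕ) (qr : ℕ → ℕ) (hNZ : ∀ t, NeZero (N t))
    (hqr : ∀ t, t < k → (qr t).Prime)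
    (hN : ∀ t, t < k → N (t + 1) = N t * qr t)
    (hfreeze : ∀ t, k ≤ t → N t = N k)
    (hsq : ∀ t, Squarefree (N t * p)) (hpN : ∀ t, ¬ p ∣ N t)
    (hB1 : ∀ t, ∀ r : ℕ, r.Prime → r ∣ N t * p → r ∈ B)
    (hocc₁ : ∀ t, Fermat.Agent.Lib.S44.s44i_LevelOcc (N t) p (fun ℓ => W.apOfModel ℓ) B)
    (hocc₂ : ∀ t, Fermat.Agent.Lib.S44.s44i_LevelOcc (N t * p) p (fun ℓ => W.apOfModel ℓ) B)
    -- Frobenius and inertia elements at the raising primes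
    (φr σr : ℕ → Γℚ)
    (hφr : ∀ t, t < k → ∃ A : ValuationSubring (AlgebraicClosure ℚ),
      A.LiesOverPrime (qr t) ∧ A.IsFrobeniusAt (φr t) (qr t))
    (hσr : ∀ t, t < k → ∃ A : ValuationSubring (AlgebraicClosure ℚ),
      A.LiesOverPrime (qr t) ∧ σr t ∈ A.inertiaSubgroupIn ℚ)
    -- the deformation types
    (Sg0 Su Smin Sgm : Finset ℕ) (hpSgm : p ∈ Sgm) (hSgm0 : Sgm ⊆ Sg0) (hSminSgm : Smin ⊆ Sgm)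
    (hmin : ∀ q : ℕ, q.Prime → q ≠ p →
      (q ∈ Smin ↔ ¬ (s59i_rhobarW W p hΔ 𝒪 hp𝒪).IsUnramifiedAt q))
    (hSuB : Su ⊆ B)
    (hSgN : ∀ t, ∀ q : ℕ, q.Prime → q ∣ N t →
      q ∈ Sg0 ∨ s59e3q_E2Alt p (s59i_rhobarW W p hΔ 𝒪 hp𝒪) q)
    (hSgmN : ∀ q : ℕ, q.Prime → q ∣ N 0 →
      q ∈ Sgm ∨ s59e3q_E2Alt p (s59i_rhobarW W p hΔ 𝒪 hp𝒪) q)
    (hqrSgm : ∀ t, t < k → qr t ∉ Sgm)
    (D0 : GaloisRep.DeformationRingData 𝒪 (s59i_rhobarW W p hΔ 𝒪 hp𝒪) (fun _A _ _ _ ρ =>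
      GaloisRep.strictOrdinaryCondition 𝒪 p Sg0 ρ ∧
        ∀ q ∈ Su, q.Prime → q ≠ p → ρ.IsUnipotentOnInertiaAt q))
    (Dm : GaloisRep.DeformationRingData 𝒪 (s59i_rhobarW W p hΔ 𝒪 hp𝒪) (fun _A _ _ _ ρ =>
      GaloisRep.strictOrdinaryCondition 𝒪 p Sgm ρ ∧
        ∀ q ∈ Su, q.Prime → q ≠ p → ρ.IsUnipotentOnInertiaAt q))
    (σ : Type) [DecidableEq σ] [Fintype σ]
    -- ALL the data of the chain indices (base package + Taylor–Wiles data): the ONLY hypothesis about the levels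
    (hIdx : ∀ s (hdt : N s * p ∣ N k * p), s59m_IdxConcl p W hΔ (N s) B (hpN s) 𝒪 hp𝒪 σ Sg0 Su D0
      {q : ℕ | s = 0 ∧ ∃ l, l < k ∧ q = qr l} (s ≠ 0) (N k) hdt),
    ∃ Bs : s59f_TBaseF 𝒪 k D0,
      s59e_HkFrobP (N k * p) (↑B : Set ℕ) (Bs.R k) (Bs.ρR k) ∧
      -- (E2): the base ring acts faithfully on the base module
      (∀ a : Bs.R 0, (∀ mm : Bs.M 0, a • mm = 0) → a = 0) ∧
      -- (E-conc-P): the concrete model of the base ring on the `p`-kernel part of the level `N 0 * p`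
      s59u_c2_EConcP 𝒪 p (N 0 * p) B (fun ℓ => W.apOfModel ℓ) (Bs.R 0) (Bs.ρR 0) ∧
      ∀ (r : ℕ) (n : ℕ) (qv : Fin r → ℕ), Function.Injective qv →
        (∀ i, (qv i).Prime ∧ qv i ∉ B ∧ p ^ (n + 1) ∣ qv i - 1) →
        (∀ i, ∀ A : ValuationSubring (AlgebraicClosure ℚ), A.LiesOverPrime (qv i) →
          ∀ φ : Γℚ, A.IsFrobeniusAt φ (qv i) →
            ∃ α β : ResidueField 𝒪, α ≠ β ∧
              LinearMap.charpoly ((s59i_rhobarW W p hΔ 𝒪 hp𝒪).ρ φ) = (X - C α) * (X - C β)) →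
        ∀ (DQ : GaloisRep.DeformationRingData 𝒪 (s59i_rhobarW W p hΔ 𝒪 hp𝒪) (fun _A _ _ _ ρ =>
            GaloisRep.strictOrdinaryCondition 𝒪 p (Sg0 ∪ Finset.univ.image qv) ρ ∧
              ∀ q ∈ Su, q.Prime → q ≠ p → ρ.IsUnipotentOnInertiaAt q))
          (Dsf : GaloisRep.DeformationRingData 𝒪 (s59i_rhobarW W p hΔ 𝒪 hp𝒪)
            (s59q_SfType 𝒪 p (Sg0 ∪ Finset.univ.image qv) Su))
          (κsf : DQ.R →ₐ[𝒪] Dsf.R), Function.Surjective κsf →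
          (∀ g, κsf (s59i_cpTr DQ.ρ g) = s59i_cpTr Dsf.ρ g) →
          Nonempty (s59b_TLevelFW 𝒪 p n r σ k Bs qv qr φr σr DQ
            ((RingHom.ker (κsf : DQ.R →+* Dsf.R) : Ideal DQ.R) : Set DQ.R))

end Fermat.Agent.Lib.S59
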