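/-
S59 project, case (P), route (T5w), [W4c] (helper9, prefix `s59m_`): **THE STANDARD PROVIDER OF THE BASE PACKAGE OF A CHAIN INDEX** —
`Internal.s59m_base_std : s59m_BasePkgConcl p W hΔ N B hpN 𝒪 hp𝒪 Sg Su D0` (def in MKerFinS.lean) from helper2's `Internal.s59x_base_pkgZ`
(B9BasePkgZ.lean) at `N₂ := N * p`, normalising element `1` (parity-free: inputs `s18_GoodLevel p N`, `s59e_auxTors p N`).
-/
import Mathlib
import Fermat.Agent.Lib.S59.B9BasePkgZ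
import Fermat.Agent.Lib.S59.MKerFinS

set_option autoImplicit false
set_option linter.unusedSectionVars false
set_option linter.unusedVariables false
set_option linter.style.haveILetI false
set_option maxHeartbeats 0
set_option synthInstance.maxHeartbeats 400000
set_option maxSynthPendingDepth 3

noncomputable section

namespace Fermat.Agent.Lib.S59

open IsLocalRing CuspForm Polynomial ExtCitation CongruenceSubgroup
open WeierstrassCurve WeierstrassCurve.Affine WeierstrassCurve.Affine.Point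
open Fermat.Agent.Lib.S48 Fermat.Agent.Lib.S44 Fermat.Agent.Lib.S18
open scoped MatrixGroups

local notation "Γℚ" => (AlgebraicClosure ℚ ≃ₐ[ℚ] AlgebraicClosure ℚ)

/-- **the base package of the kernel pair at the `p`-free level `N`** from helper2's `Internal.s59x_base_pkgZ`. -/
theorem Internal.s59m_base_std (p : ℕ) [Fact p.Prime] (hp2 : p ≠ 2) (W : WeierstrassCurve ℤ) (hΔ : W.Δ ≠ 0)
    (N : ℕ) [NeZero N] [NeZero (N * p)] (B : Finset ℕ)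
    (hirr : W.ModRepIsIrreducible p) (hss : W.IsSemistableModel) (hmult : ¬ W.IsGoodPrimeFor p)
    (hsq₂ : Squarefree (N * p)) (hpN : ¬ p ∣ N) (hgood : s18_GoodLevel p N) (hp12 : s59e_auxTors p N)
    (hB1 : ∀ r : ℕ, r.Prime → r ∣ N * p → r ∈ B)
    (hB2 : ∀ r : ℕ, r.Prime → ¬ W.IsGoodPrimeFor r → r ∈ B)
    (hocc₁ : s44i_LevelOcc N p (fun ℓ => W.apOfModel ℓ) B)
    (hocc₂ : s44i_LevelOcc (N * p) p (fun ℓ => W.apOfModel ℓ) B)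
    (𝒪 : Type) [CommRing 𝒪] [IsDomain 𝒪] [IsDiscreteValuationRing 𝒪]
    [IsAdicComplete (maximalIdeal 𝒪) 𝒪] [Finite (ResidueField 𝒪)] [CharZero 𝒪]
    [Algebra ℤ_[p] 𝒪] [Module.Finite ℤ_[p] 𝒪]
    (hp𝒪 : ((p : ℕ) : 𝒪) ∈ maximalIdeal 𝒪)
    (Sg Su Smin : Finset ℕ) (hpSg : p ∈ Sg)
    (hSg : ∀ q : ℕ, q.Prime → q ∣ N * p → q ∈ Sg ∨ s59e3q_E2Alt p (s59i_rhobarW W p hΔ 𝒪 hp𝒪) q)
    (hmin : ∀ q : ℕ, q.Prime → q ≠ p → (q ∈ Smin ↔ ¬ (s59i_rhobarW W p hΔ 𝒪 hp𝒪).IsUnramifiedAt q))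
    (D0 : GaloisRep.DeformationRingData 𝒪 (s59i_rhobarW W p hΔ 𝒪 hp𝒪) (fun _A _ _ _ ρ =>
      GaloisRep.strictOrdinaryCondition 𝒪 p Sg ρ ∧
        ∀ q ∈ Su, q.Prime → q ≠ p → ρ.IsUnipotentOnInertiaAt q)) :
    s59m_BasePkgConcl p W hΔ N B hpN 𝒪 hp𝒪 Sg Su D0 := by
  have he1 : (1 : SL(2, ℤ)) ∈ Gamma0 (N * p) := one_mem _
  have hee1 : s59f_gW hpN * 1 * 1 ∈ s48h_GammaH (N * p) (⊤ : Subgroup (ZMod (N * p))ˣ) :=
    (s59t_mem_GammaH_iff_unit (H := (⊤ : Subgroup (ZMod (N * p))ˣ))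
      ⟨_, mul_mem (mul_mem (s59f_gW_mem hpN) he1) he1⟩).mpr (Subgroup.mem_top _)
  have h := by exact (Internal.s59x_base_pkgZ p hp2 W hΔ N (N * p) rfl B hirr hss hmult hsq₂ hpN hgood hp12 hB1 hB2 hocc₁ hocc₂ 𝒪 hp𝒪
    (s59f_isG'_top hpN) 1 he1 hee1 Sg Su Smin hpSg hSg hmin D0 :)
  unfold s59m_BasePkgConcl
  refine Classical.byContradiction fun hcontra => ?_
  choose e₁ h1e₁ hid₁ hnil₁ hρ₁ e h1e hid hnil hρ hcbp d₁ d₂ b₁ hb₁ b₂ hb₂ P hP hPP hmem hbaseS hd1 hd0 b hb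
    a₀ ha1₀ aZ₀ haZ₀ hlr hnoeth hfinR hcompl hlh hRρ θ₀ hθ₀ hθ₀l hfacts using h
  exact hcontra ⟨e₁, h1e₁, hid₁, hnil₁, hρ₁, e, h1e, hid, hnil, hρ, he1, hee1, hcbp, d₁, d₂, b₁, hb₁, b₂, hb₂, P, hP, hPP, hmem, hbaseS,
    hd1, hd0, a₀, ha1₀, aZ₀, haZ₀, hlr, hnoeth, hfinR, hcompl, hlh, hRρ, θ₀, hθ₀, hθ₀l, hfacts⟩

export Internal (s59m_base_std)

end Fermat.Agent.Lib.S59
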