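/-
S59 project, case (P), route (T5w), [W4c] (helper9, prefix `s59m_`): **helper7's WEAK ASSEMBLY `s59x_efl_asm_w` OVER THE BASE CONTRACT
`s59c3_mkBase …` OF ABSTRACT FAMILIES** — the weak (`Jm`, `s59b_TStepWJ`, `s59b_TLevelFW`) twin of helper8's `s59c3_asm_mk` (C3FlrAsmMk.lean, post
4053): stated with atoms, so that all the reductions `(s59c3_mkBase …).R t ≡ R t`, … are done ONCE, in a small context (in the final theorem the
families are gigantic terms and the unifier does not come back from `s59x_efl_asm_w Bs …` in reasonable time).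
-/
import Mathlib
import Fermat.Agent.Lib.S59.C3FlrMk
import Fermat.Agent.Lib.S59.NXWallAsm

set_option autoImplicit false
set_option linter.unusedSectionVars false
set_option linter.unusedVariables false
set_option linter.style.haveILetI false
set_option maxHeartbeats 1600000

noncomputable section

namespace Fermat.Agent.Lib.S59

open IsLocalRing MvPowerSeries

local notation "Γℚ" => (AlgebraicClosure ℚ ≃ₐ[ℚ] AlgebraicClosure ℚ)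

/-- **the assembly of the WEAK `T`-side contract at one Taylor–Wiles level over the base contract `s59c3_mkBase …`.** -/
theorem s59m_asm_mk_w {𝒪 : Type} [CommRing 𝒪] [IsDomain 𝒪] [IsDiscreteValuationRing 𝒪]
    [IsAdicComplete (maximalIdeal 𝒪) 𝒪] {p n r : ℕ} {σ : Type} [DecidableEq σ] [Fintype σ] (k : ℕ)
    {ρbar : ResidualGaloisRep (ResidueField 𝒪)}
    {𝒟₀ : ∀ ⦃A : Type⦄ [CommRing A] [IsLocalRing A] [Algebra 𝒪 A], GaloisRepAdic A → Prop}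
    (D0 : GaloisRep.DeformationRingData 𝒪 ρbar 𝒟₀)
    (R : ℕ → Type) [iR1 : ∀ t, CommRing (R t)] (iR2 : ∀ t, IsLocalRing (R t))
    (iR3 : ∀ t, IsNoetherianRing (R t)) (iR4 : ∀ t, IsAdicComplete (maximalIdeal (R t)) (R t))
    [iR5 : ∀ t, Algebra 𝒪 (R t)] (iR6 : ∀ t, IsLocalHom (algebraMap 𝒪 (R t)))
    (hRres : ∀ t, Function.Surjective (residue (R t) ∘ algebraMap 𝒪 (R t)))
    (M : ℕ → Type) [iM1 : ∀ t, AddCommGroup (M t)] [iM2 : ∀ t, Module (R t) (M t)]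
    (iM3 : ∀ t, Module.Finite (R t) (M t)) (iM4 : Nontrivial (M 0))
    (Old : ∀ t, Submodule (R (t + 1)) (M (t + 1))) (hOld : ∀ t, k ≤ t → Old t = ⊥)
    (ρR : ∀ t, GaloisRepAdic (R t)) (hρR : ∀ t, 𝒟₀ (ρR t))
    (hresR : ∀ t, (ρR t).residual.IsEquiv
      (ρbar.baseChangeAlong (ResidueField.map (algebraMap 𝒪 (R t)))))
    (ν : ∀ t, D0.R →ₐ[𝒪] R t) (hν : ∀ t g, ν t (s59i_cpTr D0.ρ g) = s59i_cpTr (ρR t) g)
    (hνs : ∀ t, Function.Surjective (ν t)) (d : ℕ → ℕ)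
    {qv : Fin r → ℕ}
    {𝒟 : ∀ ⦃A : Type⦄ [CommRing A] [IsLocalRing A] [Algebra 𝒪 A], GaloisRepAdic A → Prop}
    {DQ : GaloisRep.DeformationRingData 𝒪 ρbar 𝒟}
    (Lv : ∀ t, @s59e_TLevelL 𝒪 _ _ _ _ p n r σ (R t) (iR1 t) (iR2 t) (iR5 t) (M t) (iM1 t) (iM2 t) (ρR t) (d t) qv _ _ DQ)
    (σl : ∀ t, t < k → ((Lv (t + 1)).T →ₐ[𝒪] (Lv t).T))
    (hσs : ∀ t ht, Function.Surjective (σl t ht))
    (hσu : ∀ t ht j, σl t ht (((Lv (t + 1)).uu j : (Lv (t + 1)).Tˣ) : (Lv (t + 1)).T) =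
      (((Lv t).uu j : (Lv t).Tˣ) : (Lv t).T))
    (hσθ : ∀ t ht x, σl t ht (algebraMap (Lv (t + 1)).T' (Lv (t + 1)).T ((Lv (t + 1)).θ x)) =
      algebraMap (Lv t).T' (Lv t).T ((Lv t).θ x))
    (su : ∀ t, k ≤ t → ((Lv k).T →ₐ[𝒪] (Lv t).T))
    (hsus : ∀ t ht, Function.Surjective (su t ht))
    (hsuu : ∀ t ht j, su t ht (((Lv k).uu j : (Lv k).Tˣ) : (Lv k).T) =
      (((Lv t).uu j : (Lv t).Tˣ) : (Lv t).T))
    (hsuθ : ∀ t ht x, su t ht (algebraMap (Lv k).T' (Lv k).T ((Lv k).θ x)) =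
      algebraMap (Lv t).T' (Lv t).T ((Lv t).θ x))
    (qr : ℕ → ℕ) (φr σr : ℕ → Γℚ) (Jm : Set DQ.R)
    (hredk : IsReduced (Lv k).T')
    (htf : ∀ o : 𝒪, o ≠ 0 → ∀ x : (Lv k).T', algebraMap 𝒪 (Lv k).T' o * x = 0 → x = 0)
    (hstep : ∀ (t : ℕ) (ht : t < k) (s₂ : (Lv k).T →ₐ[𝒪] (Lv (t + 1)).T)
      (hs₂ : Function.Surjective s₂)
      (hsu₂ : ∀ j, s₂ (((Lv k).uu j : (Lv k).Tˣ) : (Lv k).T) =
        (((Lv (t + 1)).uu j : (Lv (t + 1)).Tˣ) : (Lv (t + 1)).T))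
      (hsθ₂ : ∀ x, s₂ (algebraMap (Lv k).T' (Lv k).T ((Lv k).θ x)) =
        algebraMap (Lv (t + 1)).T' (Lv (t + 1)).T ((Lv (t + 1)).θ x))
      (hs₁ : Function.Surjective ((σl t ht).comp s₂))
      (hsu₁ : ∀ j, ((σl t ht).comp s₂) (((Lv k).uu j : (Lv k).Tˣ) : (Lv k).T) =
        (((Lv t).uu j : (Lv t).Tˣ) : (Lv t).T)),
      s59b_TStepWJ
        (s59ej_L0 (Lv t) (Lv k).uu (Lv k).huu ((σl t ht).comp s₂) hs₁ hsu₁)
        (s59ej_L0 (Lv (t + 1)) (Lv k).uu (Lv k).huu s₂ hs₂ hsu₂)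
        (C ((qr t : ℕ) : (Lv k).T) + 1 : MvPowerSeries σ (Lv k).T)
        (C (algebraMap (Lv k).T' (Lv k).T ((Lv k).θ (s59i_cpTr DQ.ρ (φr t)))))
        (C (algebraMap (Lv k).T' (Lv k).T ((Lv k).θ (s59i_cpTr DQ.ρ (φr t)))))
        (C ((qr t : ℕ) : (Lv k).T) + 1 : MvPowerSeries σ (Lv k).T)
        ((fun x : DQ.R => (C (algebraMap (Lv k).T' (Lv k).T ((Lv k).θ x)) :
          MvPowerSeries σ (Lv k).T)) '' Jm)
        ((Old t).mkQ)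
        (Ideal.span {(((C ((qr t : ℕ) : (Lv k).T) + 1 : MvPowerSeries σ (Lv k).T)) ^ 2 -
          (C (algebraMap (Lv k).T' (Lv k).T ((Lv k).θ (s59i_cpTr DQ.ρ (φr t)))) :
            MvPowerSeries σ (Lv k).T) ^ 2) ^ 2}))
    (hunr : ∀ l, l < k → ∀ (f : Module.Dual DQ.R DQ.ρ.V) (v : DQ.ρ.V),
      (Lv 0).θ (f (DQ.ρ.ρ (σr l) v - v)) = 0) :
    Nonempty (s59b_TLevelFW 𝒪 p n r σ k
      (s59c3_mkBase k D0 R iR2 iR3 iR4 iR6 hRres M iM3 iM4 Old hOld ρR hρR hresR ν hν hνs d)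
      qv qr φr σr DQ Jm) :=
  haveI := hredk
  s59x_efl_asm_w (s59c3_mkBase k D0 R iR2 iR3 iR4 iR6 hRres M iM3 iM4 Old hOld ρR hρR hresR ν hν hνs d)
    Lv σl hσs hσu hσθ su hsus hsuu hsuθ qr φr σr Jm htf hstep hunr

end Fermat.Agent.Lib.S59
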