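/-
PROGRAMME (R2) = S59, case (P), NON-MINIMAL half, item [WALL] / [W4c] (K2)(a) (helper7, prefix `s59x_`):
**THE OLD/NEW PACKAGE ON A PAIR OF STABLE SUBMODULES.**  `s59t_Old.restrict` (TNew.lean) restricts a package to the parts of two COMPATIBLE
idempotents; the kernel pairs of case (P) (`Z = ker (cor_p A) ⊓ ker (cor_p B)` at the levels `N_t p`) are `𝒪`-summands of the parts which are
stable under the package at the raising prime `q`, but they are NOT the parts of compatible idempotents.  This file gives the restriction to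
STABLE submodules:
* `s59x_OldStable D Y₀ Z₀` : `resA Y₀ ⊆ Z₀`, `corA Z₀ ⊆ Y₀`, `w Z₀ ⊆ Z₀` (then all seven operators preserve the pair);
* `s59x_oldSub D h : s59t_Old R Y₀ Z₀` with the coercion lemmas;
* `s59x_oldSub_compat` : compatibility with the restricted package from the underlying operators (twin of `s59efl_compat_of_val`);
* `s59x_oldStable_of_hom` : the joint kernel of TWO morphisms of packages (helper4's `s59f_OldHom`) is stable — with helper2's
  `s59b_oldN_cohomA/B` (B9TwoPrC.lean) this is the stability of the kernel pairs;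
* `s59x_oldStable_restrict` : the same on the parts of compatible idempotents, the kernel pair given by a membership criterion;
* `s59x_oldSub_resA_injective`, `s59x_oldSub_T4` : injectivity of `resA` and Ihara's lemma (T4) modulo an ideal pass to the pair when the
  submodules are ranges of projectors;
* `s59x_oldSub_pi` : intertwining maps restrict.
-/
import Mathlib
import Fermat.Agent.Lib.S59.TNew
import Fermat.Agent.Lib.S59.FOldH8

set_option autoImplicit false
set_option linter.unusedSectionVars false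
set_option linter.unusedVariables false
set_option linter.style.haveILetI false

noncomputable section

namespace Fermat.Agent.Lib.S59

section Sub

variable {R : Type*} [CommRing R] {Y Z : Type*} [AddCommGroup Y] [Module R Y]
  [AddCommGroup Z] [Module R Z]

/-- a pair of submodules stable under the package. -/
structure s59x_OldStable (D : s59t_Old R Y Z) (Y₀ : Submodule R Y) (Z₀ : Submodule R Z) : Prop where
  resA : ∀ y ∈ Y₀, D.resA y ∈ Z₀
  corA : ∀ z ∈ Z₀, D.corA z ∈ Y₀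
  w : ∀ z ∈ Z₀, D.w z ∈ Z₀

namespace s59x_OldStable

variable {D : s59t_Old R Y Z} {Y₀ : Submodule R Y} {Z₀ : Submodule R Z}
  (h : s59x_OldStable D Y₀ Z₀)

include h

theorem resB : ∀ y ∈ Y₀, D.resB y ∈ Z₀ := fun y hy => by
  rw [D.resB_eq]
  exact h.w _ (h.resA y hy)

theorem corB : ∀ z ∈ Z₀, D.corB z ∈ Y₀ := fun z hz => by
  rw [D.corB_eq]
  exact h.corA _ (h.w z hz)

theorem T : ∀ y ∈ Y₀, D.T y ∈ Y₀ := fun y hy => by
  rw [← D.corA_resB]
  exact h.corA _ (h.resB y hy)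

theorem U : ∀ z ∈ Z₀, D.U z ∈ Z₀ := fun z hz => by
  rw [D.U_eq]
  exact Z₀.sub_mem (h.resA _ (h.corB z hz)) (h.w z hz)

end s59x_OldStable

variable (D : s59t_Old R Y Z) {Y₀ : Submodule R Y} {Z₀ : Submodule R Z}

/-- **the package on a pair of stable submodules.** -/
def s59x_oldSub (h : s59x_OldStable D Y₀ Z₀) : s59t_Old R Y₀ Z₀ where
  qq := D.qq
  resA := D.resA.restrict h.resA
  resB := D.resB.restrict h.resB
  corA := D.corA.restrict h.corA
  corB := D.corB.restrict h.corB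
  T := D.T.restrict h.T
  U := D.U.restrict h.U
  w := D.w.restrict h.w
  corA_resA y := Subtype.ext (D.corA_resA y.1)
  corB_resB y := Subtype.ext (D.corB_resB y.1)
  corA_resB y := Subtype.ext (D.corA_resB y.1)
  corB_resA y := Subtype.ext (D.corB_resA y.1)
  w_w z := Subtype.ext (D.w_w z.1)
  resB_eq y := Subtype.ext (D.resB_eq y.1)
  corB_eq z := Subtype.ext (D.corB_eq z.1)
  resA_corB z := Subtype.ext (D.resA_corB z.1)

variable (h : s59x_OldStable D Y₀ Z₀)

@[simp] theorem s59x_oldSub_qq : (s59x_oldSub D h).qq = D.qq := rfl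

@[simp] theorem s59x_oldSub_resA_coe (y : Y₀) : (((s59x_oldSub D h).resA y : Z₀) : Z) = D.resA (y : Y) := rfl

@[simp] theorem s59x_oldSub_resB_coe (y : Y₀) : (((s59x_oldSub D h).resB y : Z₀) : Z) = D.resB (y : Y) := rfl

@[simp] theorem s59x_oldSub_corA_coe (z : Z₀) : (((s59x_oldSub D h).corA z : Y₀) : Y) = D.corA (z : Z) := rfl

@[simp] theorem s59x_oldSub_corB_coe (z : Z₀) : (((s59x_oldSub D h).corB z : Y₀) : Y) = D.corB (z : Z) := rfl

@[simp] theorem s59x_oldSub_T_coe (y : Y₀) : (((s59x_oldSub D h).T y : Y₀) : Y) = D.T (y : Y) := rfl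

@[simp] theorem s59x_oldSub_U_coe (z : Z₀) : (((s59x_oldSub D h).U z : Z₀) : Z) = D.U (z : Z) := rfl

@[simp] theorem s59x_oldSub_w_coe (z : Z₀) : (((s59x_oldSub D h).w z : Z₀) : Z) = D.w (z : Z) := rfl

/-- compatibility with the package on the pair from the underlying operators. -/
theorem s59x_oldSub_compat {X : Module.End R Y} {X' : Module.End R Z} (hX : D.Compat X X')
    (x : Module.End R Y₀) (x' : Module.End R Z₀)
    (h₁ : ∀ z, ((x z : Y₀) : Y) = X (z : Y)) (h₂ : ∀ z, ((x' z : Z₀) : Z) = X' (z : Z)) :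
    (s59x_oldSub D h).Compat x x' where
  resA y := Subtype.ext (by
    rw [h₂, s59x_oldSub_resA_coe, s59x_oldSub_resA_coe, h₁]
    exact hX.resA y.1)
  resB y := Subtype.ext (by
    rw [h₂, s59x_oldSub_resB_coe, s59x_oldSub_resB_coe, h₁]
    exact hX.resB y.1)
  corA z := Subtype.ext (by
    rw [h₁, s59x_oldSub_corA_coe, s59x_oldSub_corA_coe, h₂]
    exact hX.corA z.1)
  corB z := Subtype.ext (by
    rw [h₁, s59x_oldSub_corB_coe, s59x_oldSub_corB_coe, h₂]
    exact hX.corB z.1)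
  T y := Subtype.ext (by
    rw [h₁, s59x_oldSub_T_coe, s59x_oldSub_T_coe, h₁]
    exact hX.T y.1)
  U z := Subtype.ext (by
    rw [h₂, s59x_oldSub_U_coe, s59x_oldSub_U_coe, h₂]
    exact hX.U z.1)
  w z := Subtype.ext (by
    rw [h₂, s59x_oldSub_w_coe, s59x_oldSub_w_coe, h₂]
    exact hX.w z.1)

/-- `resA` stays injective. -/
theorem s59x_oldSub_resA_injective (hinj : Function.Injective D.resA) :
    Function.Injective (s59x_oldSub D h).resA := by
  intro y₁ y₂ h12
  exact Subtype.ext (hinj (congrArg Subtype.val h12))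

/-- intertwining maps restrict: if `π₂ ∘ f' = f ∘ π₁` on the big modules and `πK` are the restrictions of `π` to the pairs. -/
theorem s59x_oldSub_pi {Yb Zb : Type*} [AddCommGroup Yb] [Module R Yb] [AddCommGroup Zb] [Module R Zb]
    {A₀ : Submodule R Y} {B₀ : Submodule R Z} {Ab : Submodule R Yb} {Bb : Submodule R Zb}
    (f' : Y →ₗ[R] Z) (f : Yb →ₗ[R] Zb) (hf' : ∀ y ∈ A₀, f' y ∈ B₀) (hf : ∀ y ∈ Ab, f y ∈ Bb)
    (π₁ : Y →ₗ[R] Yb) (π₂ : Z →ₗ[R] Zb) (hπ : ∀ y, π₂ (f' y) = f (π₁ y))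
    (πK₁ : A₀ →ₗ[R] Ab) (πK₂ : B₀ →ₗ[R] Bb)
    (hK₁ : ∀ y : A₀, ((πK₁ y : Ab) : Yb) = π₁ (y : Y)) (hK₂ : ∀ z : B₀, ((πK₂ z : Bb) : Zb) = π₂ (z : Z))
    (y : A₀) : πK₂ (f'.restrict hf' y) = f.restrict hf (πK₁ y) := by
  refine Subtype.ext ?_
  rw [hK₂]
  show π₂ (f' (y : Y)) = f ((πK₁ y : Ab) : Yb)
  rw [hK₁, hπ]

end Sub

section Hom

variable {R : Type*} [CommRing R] {Y Z Yb Zb : Type*} [AddCommGroup Y] [Module R Y]
  [AddCommGroup Z] [Module R Z] [AddCommGroup Yb] [Module R Yb] [AddCommGroup Zb] [Module R Zb]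

/-- **the joint kernel of two morphisms of packages is stable.** -/
theorem s59x_oldStable_of_hom {D : s59t_Old R Y Z} {Db : s59t_Old R Yb Zb}
    {ρYA ρYB : Y →ₗ[R] Yb} {ρZA ρZB : Z →ₗ[R] Zb}
    (hA : s59f_OldHom D Db ρYA ρZA) (hB : s59f_OldHom D Db ρYB ρZB) :
    s59x_OldStable D (LinearMap.ker ρYA ⊓ LinearMap.ker ρYB) (LinearMap.ker ρZA ⊓ LinearMap.ker ρZB) where
  resA y hy := by
    rw [Submodule.mem_inf, LinearMap.mem_ker, LinearMap.mem_ker] at hy ⊢
    rw [hA.resA, hB.resA, hy.1, hy.2, map_zero]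
    exact ⟨rfl, rfl⟩
  corA z hz := by
    rw [Submodule.mem_inf, LinearMap.mem_ker, LinearMap.mem_ker] at hz ⊢
    rw [hA.corA, hB.corA, hz.1, hz.2, map_zero]
    exact ⟨rfl, rfl⟩
  w z hz := by
    rw [Submodule.mem_inf, LinearMap.mem_ker, LinearMap.mem_ker] at hz ⊢
    rw [hA.w, hB.w, hz.1, hz.2, map_zero]
    exact ⟨rfl, rfl⟩

/-- **the kernel pair inside the parts of compatible idempotents is stable**: `Y₀ ⊆ ε Y`, `Z₀ ⊆ ε' Z` cut out by the vanishing of two pairs of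
maps intertwining the package `D` with a package `Db`. -/
theorem s59x_oldStable_restrict {D : s59t_Old R Y Z} {Db : s59t_Old R Yb Zb}
    {ε : Module.End R Y} {ε' : Module.End R Z} (hc : D.Compat ε ε')
    {ρYA ρYB : Y →ₗ[R] Yb} {ρZA ρZB : Z →ₗ[R] Zb}
    (hA : s59f_OldHom D Db ρYA ρZA) (hB : s59f_OldHom D Db ρYB ρZB)
    (Y₀ : Submodule R (s59t_part ε)) (Z₀ : Submodule R (s59t_part ε'))
    (hY : ∀ y : s59t_part ε, y ∈ Y₀ ↔ ρYA (y : Y) = 0 ∧ ρYB (y : Y) = 0)
    (hZ : ∀ z : s59t_part ε', z ∈ Z₀ ↔ ρZA (z : Z) = 0 ∧ ρZB (z : Z) = 0) :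
    s59x_OldStable (D.restrict hc) Y₀ Z₀ where
  resA y hy := by
    rw [hY] at hy
    rw [hZ]
    show ρZA (D.resA (y : Y)) = 0 ∧ ρZB (D.resA (y : Y)) = 0
    rw [hA.resA, hB.resA, hy.1, hy.2, map_zero]
    exact ⟨rfl, rfl⟩
  corA z hz := by
    rw [hZ] at hz
    rw [hY]
    show ρYA (D.corA (z : Z)) = 0 ∧ ρYB (D.corA (z : Z)) = 0
    rw [hA.corA, hB.corA, hz.1, hz.2, map_zero]
    exact ⟨rfl, rfl⟩
  w z hz := by
    rw [hZ] at hz ⊢
    show ρZA (D.w (z : Z)) = 0 ∧ ρZB (D.w (z : Z)) = 0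
    rw [hA.w, hB.w, hz.1, hz.2, map_zero]
    exact ⟨rfl, rfl⟩

end Hom

section T4

variable {R : Type*} [CommRing R] {Y Z : Type*} [AddCommGroup Y] [Module R Y]
  [AddCommGroup Z] [Module R Z] (D : s59t_Old R Y Z)
  {P : Module.End R Y} {P' : Module.End R Z}

/-- **Ihara's lemma (T4) modulo an ideal passes to a stable pair of ranges of projectors.** -/
theorem s59x_oldSub_T4 (h : s59x_OldStable D (s59t_part P) (s59t_part P')) (hP : P * P = P) (I : Ideal R)
    (hT4 : ∀ y₁ y₂ : Y, D.resA y₁ + D.resB y₂ ∈ (I • ⊤ : Submodule R Z) →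
      y₁ ∈ (I • ⊤ : Submodule R Y) ∧ y₂ ∈ (I • ⊤ : Submodule R Y))
    (y₁ y₂ : s59t_part P)
    (h12 : (s59x_oldSub D h).resA y₁ + (s59x_oldSub D h).resB y₂ ∈ (I • ⊤ : Submodule R (s59t_part P'))) :
    y₁ ∈ (I • ⊤ : Submodule R (s59t_part P)) ∧ y₂ ∈ (I • ⊤ : Submodule R (s59t_part P)) := by
  have h1 : D.resA (y₁ : Y) + D.resB (y₂ : Y) ∈ (I • ⊤ : Submodule R Z) :=
    Submodule.smul_top_le_comap_smul_top I (s59t_part P').subtype h12
  obtain ⟨k1, k2⟩ := hT4 _ _ h1
  exact ⟨(s59t_part_smul_top_iff I hP y₁).mpr k1, (s59t_part_smul_top_iff I hP y₂).mpr k2⟩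

end T4

end Fermat.Agent.Lib.S59

end
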