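/-
PROGRAMME (R2) = S59, case (P), NON-MINIMAL half, item [WALL] / [W4c] (helper7, prefix `s59x_`): **THE KERNEL PAIRS OF TWO ADJACENT LEVELS ARE
STABLE UNDER THE `q`-PACKAGE** (= (K2), concrete form; the hypotheses `hst'`, `hstb` of `Internal.s59x_step_concZ`).

Levels `L`, `Np = L p`, `Nq = L q`, `Npq` (helper2's two-prime set-up, B9TwoPrC.lean), with the SAME normalising element `ep` for the two
`p`-packages and the SAME `eq` for the two `q`-packages.  The kernel pairs `Z₁ = part P₁ ⊆ part εp` (level `Np`), `Z₂ = part P₂ ⊆ part εpq`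
(level `Npq`) are cut out by the vanishing of `cor_A`, `cor_B` of the (restricted) `p`-packages (helper9's `s59m_KerConcl.hmem`).  Then
`(Z₁, Z₂)` is stable under the restricted `q`-package of the upper levels: helper2's `s59b_oldN_cohomA/B` + `s59x_oldStable_restrict`.

* `s59x_stable_of_mem` : the statement above;
* `s59x_hee_descend`   : the normalising condition `γ_W e e ∈ Γ_{H'}` descends from `(L q', …)` to `(L₀ q', …)` for `L₀ ∣ L` (helper4's
  `s59f_hee_cross`, restated for `s48h_GammaH`), so that ONE normalising element (that of the top level) serves all levels.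
-/
import Mathlib
import Fermat.Agent.Lib.S59.B9TwoPrC
import Fermat.Agent.Lib.S59.NXOldSub
import Fermat.Agent.Lib.S59.FOldH8

set_option autoImplicit false
set_option linter.unusedSectionVars false
set_option linter.unusedVariables false
set_option linter.style.haveILetI false
set_option synthInstance.maxHeartbeats 400000
set_option maxSynthPendingDepth 3
set_option maxHeartbeats 1600000

noncomputable section

namespace Fermat.Agent.Lib.S59

open CongruenceSubgroup ModularCurve.Period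
open Fermat.Agent.Lib.S29 Fermat.Agent.Lib.S41 Fermat.Agent.Lib.S48
open scoped MatrixGroups

section Stable

variable {L p q Np Nq Npq : ℕ} [NeZero L] [NeZero Np] [NeZero Nq] [NeZero Npq]
  [hp : Fact p.Prime] [hq : Fact q.Prime]
  (hpL : ¬ p ∣ L) (hqL : ¬ q ∣ L) (hpNq : ¬ p ∣ Nq) (hqNp : ¬ q ∣ Np)
  (hNp : Np = L * p) (hNq : Nq = L * q) (hNpq_p : Npq = Nq * p) (hNpq_q : Npq = Np * q)
  {H : Subgroup (ZMod L)ˣ} {Hp : Subgroup (ZMod Np)ˣ} {Hq : Subgroup (ZMod Nq)ˣ}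
  {Hpq : Subgroup (ZMod Npq)ˣ}
  (hGp : s59f_IsG' L p H (s48h_GammaH Np Hp)) (hGq : s59f_IsG' L q H (s48h_GammaH Nq Hq))
  (hGpq_p : s59f_IsG' Nq p Hq (s48h_GammaH Npq Hpq))
  (hGpq_q : s59f_IsG' Np q Hp (s48h_GammaH Npq Hpq))
  (R : Type*) [CommRing R]
  (ep : SL(2, ℤ)) (hep : ep ∈ Gamma0 Np) (hep' : ep ∈ Gamma0 Npq)
  (heep : s59f_gW hpL * ep * ep ∈ s48h_GammaH Np Hp)
  (heep' : s59f_gW hpNq * ep * ep ∈ s48h_GammaH Npq Hpq)
  (eq : SL(2, ℤ)) (heq : eq ∈ Gamma0 Nq) (heq' : eq ∈ Gamma0 Npq)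
  (heeq : s59f_gW hqL * eq * eq ∈ s48h_GammaH Nq Hq)
  (heeq' : s59f_gW hqNp * eq * eq ∈ s48h_GammaH Npq Hpq)

include hNq hGq heq heeq in
/-- **the kernel pairs of two adjacent levels are stable under the `q`-package.** -/
theorem s59x_stable_of_mem
    {εL : Module.End R (s48h_Hpar R (s48h_GammaH L H) R)}
    {εp : Module.End R (s48h_Hpar R (s48h_GammaH Np Hp) R)}
    {εq : Module.End R (s48h_Hpar R (s48h_GammaH Nq Hq) R)}
    {εpq : Module.End R (s48h_Hpar R (s48h_GammaH Npq Hpq) R)}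
    (hcp₁ : (s59f_oldN hpL hNp hGp R R ep hep heep).Compat εL εp)
    (hcp₂ : (s59f_oldN hpNq hNpq_p hGpq_p R R ep hep' heep').Compat εq εpq)
    (hcq : (s59f_oldN hqNp hNpq_q hGpq_q R R eq heq' heeq').Compat εp εpq)
    (P₁ : Module.End R (s59t_part εp)) (P₂ : Module.End R (s59t_part εpq))
    (hmem₁ : ∀ x : s59t_part εp, x ∈ s59t_part P₁ ↔
      ((s59f_oldN hpL hNp hGp R R ep hep heep).restrict hcp₁).corA x = 0 ∧
      ((s59f_oldN hpL hNp hGp R R ep hep heep).restrict hcp₁).corB x = 0)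
    (hmem₂ : ∀ x : s59t_part εpq, x ∈ s59t_part P₂ ↔
      ((s59f_oldN hpNq hNpq_p hGpq_p R R ep hep' heep').restrict hcp₂).corA x = 0 ∧
      ((s59f_oldN hpNq hNpq_p hGpq_p R R ep hep' heep').restrict hcp₂).corB x = 0) :
    s59x_OldStable ((s59f_oldN hqNp hNpq_q hGpq_q R R eq heq' heeq').restrict hcq)
      (s59t_part P₁) (s59t_part P₂) := by
  refine s59x_oldStable_restrict hcq
    (s59b_oldN_cohomA hpL hqL hpNq hqNp hNp hNq hNpq_p hNpq_q hGp hGq hGpq_p hGpq_q R R ep hep hep'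
      heep heep' eq heq heq' heeq heeq')
    (s59b_oldN_cohomB hpL hqL hpNq hqNp hNp hNq hNpq_p hNpq_q hGp hGq hGpq_p hGpq_q R R ep hep hep'
      heep heep' eq heq heq' heeq heeq')
    _ _ (fun y => ?_) (fun z => ?_)
  · rw [hmem₁ y]
    constructor
    · rintro ⟨h1, h2⟩
      exact ⟨congrArg Subtype.val h1, congrArg Subtype.val h2⟩
    · rintro ⟨h1, h2⟩
      exact ⟨Subtype.ext h1, Subtype.ext h2⟩
  · rw [hmem₂ z]
    constructor
    · rintro ⟨h1, h2⟩
      exact ⟨congrArg Subtype.val h1, congrArg Subtype.val h2⟩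
    · rintro ⟨h1, h2⟩
      exact ⟨Subtype.ext h1, Subtype.ext h2⟩

end Stable

section Descend

variable {L₀ L q : ℕ} [NeZero L₀] [NeZero L] [hq : Fact q.Prime] (hqL₀ : ¬ q ∣ L₀) (hqL : ¬ q ∣ L)
  {N₀' N' : ℕ} [NeZero N₀'] [NeZero N']
  {H₀ : Subgroup (ZMod L₀)ˣ} {H₀' : Subgroup (ZMod N₀')ˣ} {H' : Subgroup (ZMod N')ˣ}

/-- **the normalising condition descends**: `γ_{W_L} e e ∈ Γ_{H'}(N')` ⟹ `γ_{W_{L₀}} e e ∈ Γ_{H₀'}(N₀')` for `L₀ ∣ L`,
`Γ_{H'}(N') ≤ Γ_{H₀'}(N₀')`. -/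
theorem s59x_hee_descend (hL : L₀ ∣ L) (hG₀' : s59f_IsG' L₀ q H₀ (s48h_GammaH N₀' H₀'))
    (hle' : s48h_GammaH N' H' ≤ s48h_GammaH N₀' H₀')
    {e : SL(2, ℤ)} (hee : s59f_gW hqL * e * e ∈ s48h_GammaH N' H') :
    s59f_gW hqL₀ * e * e ∈ s48h_GammaH N₀' H₀' :=
  s59f_hee_cross hqL₀ hqL hL hG₀' hle' hee

end Descend

end Fermat.Agent.Lib.S59

end
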