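/-
PROGRAMME (R2) = S59, case (P), NON-MINIMAL half, item [WALL] / [W4c] (helper7, prefix `s59x_`): **THE FIVE HYPOTHESES OF ONE STEP OF THE CHAIN ON THE KERNEL PAIRS, file 1: the two stabilities `hstb`, `hst'`** (generated by
`scratch_py/gen_steph5.py`).  `hstb`, `hst'` of `s59x_step_concZ_gen` (NXConcZg.lean) in their exact binder form, by `s59x_stable_of_mem` (NXConcSt) over the descriptions `hmem`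
of the kernel pairs by the `p`-packages (ONE normalising element `ep` for the two Taylor–Wiles levels; `1` at the base levels).  The idempotents
of the `p`-FREE levels are ABSTRACT endomorphisms (nothing relates those of the two levels).  Levels: `p`-free `M₁`, `M₁ q`; `N₁ = M₁ p`,
`N₂ = M₁ q p = N₁ q`.
-/
import Mathlib
import Fermat.Agent.Lib.S59.NXConcSt
import Fermat.Agent.Lib.S59.FEps7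
import Fermat.Agent.Lib.S59.FZ1b
import Fermat.Agent.Lib.S59.TLvlQ3

set_option autoImplicit false
set_option linter.unusedSectionVars false
set_option linter.unusedVariables false
set_option linter.style.haveILetI false
set_option maxHeartbeats 0
set_option synthInstance.maxHeartbeats 400000
set_option maxSynthPendingDepth 3
set_option backward.isDefEq.respectTransparency.types true

noncomputable section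

namespace Fermat.Agent.Lib.S59

open IsLocalRing CuspForm Polynomial CongruenceSubgroup
open Fermat.Agent.Lib.S48 Fermat.Agent.Lib.S44
open scoped MatrixGroups

local notation "Γℚ" => (AlgebraicClosure ℚ ≃ₐ[ℚ] AlgebraicClosure ℚ)

/-- **`hstb`: the kernel parts of the base levels are stable under the `q`-package.** -/
theorem Internal.s59x_stepH_stb (p : ℕ) [Fact p.Prime] (B : Finset ℕ)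
    (𝒪 : Type) [CommRing 𝒪] [IsDomain 𝒪] [IsDiscreteValuationRing 𝒪]
    [IsAdicComplete (maximalIdeal 𝒪) 𝒪] [Finite (ResidueField 𝒪)] [CharZero 𝒪]
    -- the four levels
    (M₁ q N₁ N₂ : ℕ) [NeZero M₁] [NeZero (M₁ * q)] [NeZero N₁] [NeZero N₂] [hq : Fact q.Prime]
    (hN₁ : N₁ = M₁ * p) (hN₂ : N₂ = M₁ * q * p) (hN : N₂ = N₁ * q)
    (hpM₁ : ¬ p ∣ M₁) (hpM₂ : ¬ p ∣ M₁ * q) (hqM₁ : ¬ q ∣ M₁)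
    -- the `p`-package of the base level `N₁` (lower idempotent ABSTRACT) and the kernel part
    (e₁ : MvPolynomial ↥(s59t_goodB N₁ B) 𝒪)
    (P₁ : Module.End 𝒪 (s59t_part (s59t_E0 (⊤ : Subgroup (ZMod N₁)ˣ) B e₁)))
    (εM₁ : Module.End 𝒪 (s48h_Hpar 𝒪 (s48h_GammaH M₁ (⊤ : Subgroup (ZMod M₁)ˣ)) 𝒪))
    (hGp₁ : s59f_IsG' M₁ p (⊤ : Subgroup (ZMod M₁)ˣ) (s48h_GammaH N₁ (⊤ : Subgroup (ZMod N₁)ˣ)))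
    (he1p₁ : (1 : SL(2, ℤ)) ∈ Gamma0 N₁)
    (hee1p₁ : s59f_gW hpM₁ * 1 * 1 ∈ s48h_GammaH N₁ (⊤ : Subgroup (ZMod N₁)ˣ))
    (hcbp₁ : (s59f_oldN hpM₁ hN₁ hGp₁ 𝒪 𝒪 1 he1p₁ hee1p₁).Compat εM₁ (s59t_E0 (⊤ : Subgroup (ZMod N₁)ˣ) B e₁))
    (hmem₁ : ∀ x : s59t_part (s59t_E0 (⊤ : Subgroup (ZMod N₁)ˣ) B e₁), x ∈ s59t_part P₁ ↔
      ((s59f_oldN hpM₁ hN₁ hGp₁ 𝒪 𝒪 1 he1p₁ hee1p₁).restrict hcbp₁).corA x = 0 ∧ ((s59f_oldN hpM₁ hN₁ hGp₁ 𝒪 𝒪 1 he1p₁ hee1p₁).restrict hcbp₁).corB x = 0)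
    -- the `p`-package of the base level `N₂` (lower idempotent ABSTRACT) and the kernel part
    (e₂ : MvPolynomial ↥(s59t_goodB N₂ B) 𝒪)
    (P₂ : Module.End 𝒪 (s59t_part (s59t_E0 (⊤ : Subgroup (ZMod N₂)ˣ) B e₂)))
    (εM₂ : Module.End 𝒪 (s48h_Hpar 𝒪 (s48h_GammaH (M₁ * q) (⊤ : Subgroup (ZMod (M₁ * q))ˣ)) 𝒪))
    (hGp₂ : s59f_IsG' (M₁ * q) p (⊤ : Subgroup (ZMod (M₁ * q))ˣ) (s48h_GammaH N₂ (⊤ : Subgroup (ZMod N₂)ˣ)))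
    (he1p₂ : (1 : SL(2, ℤ)) ∈ Gamma0 N₂)
    (hee1p₂ : s59f_gW hpM₂ * 1 * 1 ∈ s48h_GammaH N₂ (⊤ : Subgroup (ZMod N₂)ˣ))
    (hcbp₂ : (s59f_oldN hpM₂ hN₂ hGp₂ 𝒪 𝒪 1 he1p₂ hee1p₂).Compat εM₂ (s59t_E0 (⊤ : Subgroup (ZMod N₂)ˣ) B e₂))
    (hmem₂ : ∀ x : s59t_part (s59t_E0 (⊤ : Subgroup (ZMod N₂)ˣ) B e₂), x ∈ s59t_part P₂ ↔
      ((s59f_oldN hpM₂ hN₂ hGp₂ 𝒪 𝒪 1 he1p₂ hee1p₂).restrict hcbp₂).corA x = 0 ∧ ((s59f_oldN hpM₂ hN₂ hGp₂ 𝒪 𝒪 1 he1p₂ hee1p₂).restrict hcbp₂).corB x = 0)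
    :
    (∀ (hqN : ¬ q ∣ N₁)
      (hG'b : s59f_IsG' N₁ q (⊤ : Subgroup (ZMod N₁)ˣ) (s48h_GammaH N₂ (⊤ : Subgroup (ZMod N₂)ˣ)))
      (he1 : (1 : SL(2, ℤ)) ∈ Gamma0 N₂)
      (hee1 : s59f_gW hqN * 1 * 1 ∈ s48h_GammaH N₂ (⊤ : Subgroup (ZMod N₂)ˣ))
      (hcb : (s59f_oldN hqN hN hG'b 𝒪 𝒪 1 he1 hee1).Compat (s59t_E0 (⊤ : Subgroup (ZMod N₁)ˣ) B e₁) (s59t_E0 (⊤ : Subgroup (ZMod N₂)ˣ) B e₂)),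
      s59x_OldStable ((s59f_oldN hqN hN hG'b 𝒪 𝒪 1 he1 hee1).restrict hcb) (s59t_part P₁) (s59t_part P₂)) := by
  intro hqN hG'b he1 hee1 hcb
  have hGqM := s59f_isG'_top (N₀ := M₁) (q := q) hqM₁
  have he1qM : (1 : SL(2, ℤ)) ∈ Gamma0 (M₁ * q) := one_mem _
  have hee1qM : s59f_gW hqM₁ * 1 * 1 ∈ s48h_GammaH (M₁ * q) (⊤ : Subgroup (ZMod (M₁ * q))ˣ) :=
    (s59t_mem_GammaH_iff_unit (H := (⊤ : Subgroup (ZMod (M₁ * q))ˣ))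
      ⟨_, mul_mem (mul_mem (s59f_gW_mem hqM₁) he1qM) he1qM⟩).mpr (Subgroup.mem_top _)
  exact s59x_stable_of_mem (L := M₁) (p := p) (q := q) (Np := N₁) (Nq := M₁ * q) (Npq := N₂)
    (hpL := hpM₁) (hqL := hqM₁) (hpNq := hpM₂) (hqNp := hqN) (hNp := hN₁) (hNq := rfl)
    (hNpq_p := hN₂) (hNpq_q := hN) (hGp := hGp₁) (hGq := hGqM) (hGpq_p := hGp₂) (hGpq_q := hG'b)
    (R := 𝒪) (ep := 1) (hep := he1p₁) (hep' := he1p₂) (heep := hee1p₁) (heep' := hee1p₂)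
    (eq := 1) (heq := he1qM) (heq' := he1) (heeq := hee1qM) (heeq' := hee1)
    hcbp₁ hcbp₂ hcb P₁ P₂ hmem₁ hmem₂

/-- **`hst'`: the kernel pairs of the Taylor–Wiles levels are stable under the `q`-package.** -/
theorem Internal.s59x_stepH_st (p : ℕ) [Fact p.Prime] (B : Finset ℕ)
    (𝒪 : Type) [CommRing 𝒪] [IsDomain 𝒪] [IsDiscreteValuationRing 𝒪]
    [IsAdicComplete (maximalIdeal 𝒪) 𝒪] [Finite (ResidueField 𝒪)] [CharZero 𝒪]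
    -- the four levels
    (M₁ q N₁ N₂ : ℕ) [NeZero M₁] [NeZero (M₁ * q)] [NeZero N₁] [NeZero N₂] [hq : Fact q.Prime]
    (hN₁ : N₁ = M₁ * p) (hN₂ : N₂ = M₁ * q * p) (hN : N₂ = N₁ * q)
    (hpM₁ : ¬ p ∣ M₁) (hpM₂ : ¬ p ∣ M₁ * q) (hqM₁ : ¬ q ∣ M₁)
    -- the Taylor–Wiles level
    {r : ℕ} (n : ℕ) (qv : Fin r → ℕ) [NeZero (∏ j, qv j)] (aq : ℕ → 𝒪)
        [NeZero (M₁ * ∏ j, qv j)]
        [NeZero ((M₁ * q) * ∏ j, qv j)]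
        [NeZero (N₁ * ∏ j, qv j)]
        [NeZero (N₂ * ∏ j, qv j)]
        (e₀₁ : MvPolynomial ↥(s59t_goodB (N₁ * ∏ j, qv j) B) 𝒪)
        (G₁ : MvPolynomial (s59w_AIdx (N₁ * ∏ j, qv j) ⊕ ℕ) 𝒪)
        (P'₁ : Module.End 𝒪 (s59t_part (s59t_actH (N₁ * ∏ j, qv j) aq (dvd_refl (N₁ * ∏ j, qv j)) (s59t_Hmul N₁ (∏ j, qv j) (⊤ : Subgroup (ZMod N₁)ˣ) (s59t_KQ (p ^ n) qv)) (G₁ * s59t_jG 𝒪 (s59t_goodB (N₁ * ∏ j, qv j) B) e₀₁))))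
        (e₀₂ : MvPolynomial ↥(s59t_goodB (N₂ * ∏ j, qv j) B) 𝒪)
        (G₂ : MvPolynomial (s59w_AIdx (N₂ * ∏ j, qv j) ⊕ ℕ) 𝒪)
        (P'₂ : Module.End 𝒪 (s59t_part (s59t_actH (N₂ * ∏ j, qv j) aq (dvd_refl (N₂ * ∏ j, qv j)) (s59t_Hmul N₂ (∏ j, qv j) (⊤ : Subgroup (ZMod N₂)ˣ) (s59t_KQ (p ^ n) qv)) (G₂ * s59t_jG 𝒪 (s59t_goodB (N₂ * ∏ j, qv j) B) e₀₂))))
        -- ONE normalising element for the `p`-packages of the two Taylor–Wiles levels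
        (ep : SL(2, ℤ))
        -- the `p`-package of the Taylor–Wiles level `N₁` (normalising element `ep`) and the kernel pair
        (εQM₁ : Module.End 𝒪 (s48h_Hpar 𝒪 (s48h_GammaH (M₁ * ∏ j, qv j) (s59t_Hmul M₁ (∏ j, qv j) (⊤ : Subgroup (ZMod M₁)ˣ) (s59t_KQ (p ^ n) qv))) 𝒪))
        (hpL₁ : ¬ p ∣ (M₁ * ∏ j, qv j)) (hN'p₁ : (N₁ * ∏ j, qv j) = (M₁ * ∏ j, qv j) * p)
        (hG'p₁ : s59f_IsG' (M₁ * ∏ j, qv j) p (s59t_Hmul M₁ (∏ j, qv j) (⊤ : Subgroup (ZMod M₁)ˣ) (s59t_KQ (p ^ n) qv)) (s48h_GammaH (N₁ * ∏ j, qv j) (s59t_Hmul N₁ (∏ j, qv j) (⊤ : Subgroup (ZMod N₁)ˣ) (s59t_KQ (p ^ n) qv))))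
        (hep'₁ : ep ∈ Gamma0 (N₁ * ∏ j, qv j))
        (heep'₁ : s59f_gW hpL₁ * ep * ep ∈ s48h_GammaH (N₁ * ∏ j, qv j) (s59t_Hmul N₁ (∏ j, qv j) (⊤ : Subgroup (ZMod N₁)ˣ) (s59t_KQ (p ^ n) qv)))
        (hc'p₁ : (s59f_oldN hpL₁ hN'p₁ hG'p₁ 𝒪 𝒪 ep hep'₁ heep'₁).Compat εQM₁ (s59t_actH (N₁ * ∏ j, qv j) aq (dvd_refl (N₁ * ∏ j, qv j)) (s59t_Hmul N₁ (∏ j, qv j) (⊤ : Subgroup (ZMod N₁)ˣ) (s59t_KQ (p ^ n) qv)) (G₁ * s59t_jG 𝒪 (s59t_goodB (N₁ * ∏ j, qv j) B) e₀₁)))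
        (hmem'₁ : ∀ x : s59t_part (s59t_actH (N₁ * ∏ j, qv j) aq (dvd_refl (N₁ * ∏ j, qv j)) (s59t_Hmul N₁ (∏ j, qv j) (⊤ : Subgroup (ZMod N₁)ˣ) (s59t_KQ (p ^ n) qv)) (G₁ * s59t_jG 𝒪 (s59t_goodB (N₁ * ∏ j, qv j) B) e₀₁)), x ∈ s59t_part P'₁ ↔
          ((s59f_oldN hpL₁ hN'p₁ hG'p₁ 𝒪 𝒪 ep hep'₁ heep'₁).restrict hc'p₁).corA x = 0 ∧ ((s59f_oldN hpL₁ hN'p₁ hG'p₁ 𝒪 𝒪 ep hep'₁ heep'₁).restrict hc'p₁).corB x = 0)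
        -- the `p`-package of the Taylor–Wiles level `N₂` (normalising element `ep`) and the kernel pair
        (εQM₂ : Module.End 𝒪 (s48h_Hpar 𝒪 (s48h_GammaH ((M₁ * q) * ∏ j, qv j) (s59t_Hmul (M₁ * q) (∏ j, qv j) (⊤ : Subgroup (ZMod (M₁ * q))ˣ) (s59t_KQ (p ^ n) qv))) 𝒪))
        (hpL₂ : ¬ p ∣ ((M₁ * q) * ∏ j, qv j)) (hN'p₂ : (N₂ * ∏ j, qv j) = ((M₁ * q) * ∏ j, qv j) * p)
        (hG'p₂ : s59f_IsG' ((M₁ * q) * ∏ j, qv j) p (s59t_Hmul (M₁ * q) (∏ j, qv j) (⊤ : Subgroup (ZMod (M₁ * q))ˣ) (s59t_KQ (p ^ n) qv)) (s48h_GammaH (N₂ * ∏ j, qv j) (s59t_Hmul N₂ (∏ j, qv j) (⊤ : Subgroup (ZMod N₂)ˣ) (s59t_KQ (p ^ n) qv))))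
        (hep'₂ : ep ∈ Gamma0 (N₂ * ∏ j, qv j))
        (heep'₂ : s59f_gW hpL₂ * ep * ep ∈ s48h_GammaH (N₂ * ∏ j, qv j) (s59t_Hmul N₂ (∏ j, qv j) (⊤ : Subgroup (ZMod N₂)ˣ) (s59t_KQ (p ^ n) qv)))
        (hc'p₂ : (s59f_oldN hpL₂ hN'p₂ hG'p₂ 𝒪 𝒪 ep hep'₂ heep'₂).Compat εQM₂ (s59t_actH (N₂ * ∏ j, qv j) aq (dvd_refl (N₂ * ∏ j, qv j)) (s59t_Hmul N₂ (∏ j, qv j) (⊤ : Subgroup (ZMod N₂)ˣ) (s59t_KQ (p ^ n) qv)) (G₂ * s59t_jG 𝒪 (s59t_goodB (N₂ * ∏ j, qv j) B) e₀₂)))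
        (hmem'₂ : ∀ x : s59t_part (s59t_actH (N₂ * ∏ j, qv j) aq (dvd_refl (N₂ * ∏ j, qv j)) (s59t_Hmul N₂ (∏ j, qv j) (⊤ : Subgroup (ZMod N₂)ˣ) (s59t_KQ (p ^ n) qv)) (G₂ * s59t_jG 𝒪 (s59t_goodB (N₂ * ∏ j, qv j) B) e₀₂)), x ∈ s59t_part P'₂ ↔
          ((s59f_oldN hpL₂ hN'p₂ hG'p₂ 𝒪 𝒪 ep hep'₂ heep'₂).restrict hc'p₂).corA x = 0 ∧ ((s59f_oldN hpL₂ hN'p₂ hG'p₂ 𝒪 𝒪 ep hep'₂ heep'₂).restrict hc'p₂).corB x = 0)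
    :
    (∀ (hqL : ¬ q ∣ (N₁ * ∏ j, qv j)) (hN' : (N₂ * ∏ j, qv j) = (N₁ * ∏ j, qv j) * q)
          (hG' : s59f_IsG' (N₁ * ∏ j, qv j) q (s59t_Hmul N₁ (∏ j, qv j) (⊤ : Subgroup (ZMod N₁)ˣ) (s59t_KQ (p ^ n) qv)) (s48h_GammaH (N₂ * ∏ j, qv j) (s59t_Hmul N₂ (∏ j, qv j) (⊤ : Subgroup (ZMod N₂)ˣ) (s59t_KQ (p ^ n) qv))))
          (he' : s59f_eW hqL ((p ^ (0 + n) - 1) * ((p ^ (0 + n) + 1) / 2)) ∈ Gamma0 (N₂ * ∏ j, qv j))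
          (hee : s59f_gW hqL * s59f_eW hqL ((p ^ (0 + n) - 1) * ((p ^ (0 + n) + 1) / 2)) * s59f_eW hqL ((p ^ (0 + n) - 1) * ((p ^ (0 + n) + 1) / 2)) ∈ s48h_GammaH (N₂ * ∏ j, qv j) (s59t_Hmul N₂ (∏ j, qv j) (⊤ : Subgroup (ZMod N₂)ˣ) (s59t_KQ (p ^ n) qv)))
          (hc' : (s59f_oldN hqL hN' hG' 𝒪 𝒪 (s59f_eW hqL ((p ^ (0 + n) - 1) * ((p ^ (0 + n) + 1) / 2))) he' hee).Compat (s59t_actH (N₁ * ∏ j, qv j) aq (dvd_refl (N₁ * ∏ j, qv j)) (s59t_Hmul N₁ (∏ j, qv j) (⊤ : Subgroup (ZMod N₁)ˣ) (s59t_KQ (p ^ n) qv)) (G₁ * s59t_jG 𝒪 (s59t_goodB (N₁ * ∏ j, qv j) B) e₀₁)) (s59t_actH (N₂ * ∏ j, qv j) aq (dvd_refl (N₂ * ∏ j, qv j)) (s59t_Hmul N₂ (∏ j, qv j) (⊤ : Subgroup (ZMod N₂)ˣ) (s59t_KQ (p ^ n) qv)) (G₂ * s59t_jG 𝒪 (s59t_goodB (N₂ * ∏ j, qv j) B) e₀₂))), s59x_OldStable ((s59f_oldN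 hqL hN' hG' 𝒪 𝒪 (s59f_eW hqL ((p ^ (0 + n) - 1) * ((p ^ (0 + n) + 1) / 2))) he' hee).restrict hc') (s59t_part P'₁) (s59t_part P'₂)) := by
  intro hqL hN' hG' he' hee hc'
  have hM₁N₁ : M₁ ∣ N₁ := Dvd.intro p hN₁.symm
  have hLdvd : M₁ * ∏ j, qv j ∣ N₁ * ∏ j, qv j := Nat.mul_dvd_mul_right hM₁N₁ _
  have hqLM : ¬ q ∣ M₁ * ∏ j, qv j := fun h => hqL (h.trans hLdvd)
  have hGqQ := s59f_isG'_Hmul hqLM (⊤ : Subgroup (ZMod M₁)ˣ) (⊤ : Subgroup (ZMod (M₁ * q))ˣ)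
    (fun u => ⟨fun _ => Subgroup.mem_top _, fun _ => Subgroup.mem_top _⟩) (s59t_KQ (p ^ n) qv)
  have hdvd₂ : M₁ * q * ∏ j, qv j ∣ N₂ * ∏ j, qv j := Dvd.intro p hN'p₂.symm
  have heqQ : s59f_eW hqL ((p ^ (0 + n) - 1) * ((p ^ (0 + n) + 1) / 2)) ∈ Gamma0 (M₁ * q * ∏ j, qv j) := s59t_Gamma0_anti hdvd₂ he'
  have heeqQ := s59x_hee_descend hqLM hqL hLdvd hGqQ (hG'p₂.le (s59f_isG_GammaH _ _)) hee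
  exact s59x_stable_of_mem (L := M₁ * ∏ j, qv j) (p := p) (q := q) (Np := N₁ * ∏ j, qv j)
    (Nq := M₁ * q * ∏ j, qv j) (Npq := N₂ * ∏ j, qv j)
    (hpL := hpL₁) (hqL := hqLM) (hpNq := hpL₂) (hqNp := hqL) (hNp := hN'p₁) (hNq := s59f_hN'_TW)
    (hNpq_p := hN'p₂) (hNpq_q := hN') (hGp := hG'p₁) (hGq := hGqQ) (hGpq_p := hG'p₂) (hGpq_q := hG')
    (R := 𝒪) (ep := ep) (hep := hep'₁) (hep' := hep'₂) (heep := heep'₁) (heep' := heep'₂)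
    (eq := s59f_eW hqL ((p ^ (0 + n) - 1) * ((p ^ (0 + n) + 1) / 2))) (heq := heqQ) (heq' := he') (heeq := heeqQ) (heeq' := hee)
    hc'p₁ hc'p₂ hc' P'₁ P'₂ hmem'₁ hmem'₂

end Fermat.Agent.Lib.S59

end
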