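/-
Programme R2 (S59), the wall, leaf (K3) (helper9, prefix `s59m_`): **the abstract Nakayama step for the dual of Ihara at
a Taylor–Wiles level.**  A finite family of commuting automorphisms of `p`-power order of a finite `𝒪`-module `M`
(`p ∈ 𝔪_𝒪`), a stable submodule `N` with `M = N + 𝔪 M + Σ (σ_i − 1) M`  ⟹  `N = M`.  Consequence (`s59m_nak_T5`):
(T5) "`(cor_A, cor_B)` is onto" passes from the base level (modulo `𝔪`) to a Taylor–Wiles level along control maps.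
-/
import Mathlib

set_option autoImplicit false
set_option linter.unusedSectionVars false
set_option linter.unusedVariables false

namespace Fermat.Agent.Lib.S59

open IsLocalRing

/-- one endomorphism, nilpotent modulo a stable submodule. -/
theorem s59m_nak_one {R M : Type*} [CommRing R] [AddCommGroup M] [Module R M]
    (N' : Submodule R M) (D : Module.End R M) (hstab : ∀ x ∈ N', D x ∈ N')
    (hnil : ∃ m : ℕ, ∀ x, (D ^ m) x ∈ N')
    (hgen : ∀ x : M, x ∈ N' ⊔ LinearMap.range D) : N' = ⊤ := by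
  have hpow : ∀ m : ℕ, ∀ x ∈ N', (D ^ m) x ∈ N' := by
    intro m
    induction m with
    | zero => intro x hx; simpa using hx
    | succ m ih =>
      intro x hx
      rw [pow_succ, Module.End.mul_apply]
      exact ih _ (hstab x hx)
  have key : ∀ m : ℕ, ∀ x : M, x ∈ N' ⊔ LinearMap.range (D ^ m) := by
    intro m
    induction m with
    | zero =>
      intro x
      exact Submodule.mem_sup_right ⟨x, by simp⟩
    | succ m ih =>
      intro x
      obtain ⟨n, hn, w, ⟨y, rfl⟩, rfl⟩ := Submodule.mem_sup.mp (ih x)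
      obtain ⟨n', hn', w', ⟨y', rfl⟩, rfl⟩ := Submodule.mem_sup.mp (hgen y)
      rw [map_add, ← add_assoc]
      refine Submodule.add_mem_sup (add_mem hn (hpow m n' hn')) ⟨y', ?_⟩
      rw [pow_succ, Module.End.mul_apply]
  obtain ⟨m, hm⟩ := hnil
  rw [eq_top_iff]
  intro x _
  obtain ⟨n, hn, w, ⟨y, rfl⟩, rfl⟩ := Submodule.mem_sup.mp (key m x)
  exact add_mem hn (hm y)

/-- finitely many commuting endomorphisms, nilpotent modulo a stable submodule. -/
theorem s59m_nak_formal {R M ι : Type*} [CommRing R] [AddCommGroup M] [Module R M]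
    (D : ι → Module.End R M) (hcomm : ∀ i j x, D i (D j x) = D j (D i x)) (T : Finset ι) :
    ∀ (N' : Submodule R M), (∀ i, ∀ x ∈ N', D i x ∈ N') → (∀ i, ∃ m : ℕ, ∀ x, (D i ^ m) x ∈ N') →
      (∀ x : M, x ∈ N' ⊔ ⨆ i ∈ T, LinearMap.range (D i)) → N' = ⊤ := by
  classical
  induction T using Finset.induction_on with
  | empty =>
    intro N' _ _ hgen
    rw [eq_top_iff]
    intro x _
    have := hgen x
    simpa using this
  | insert i₀ T' hi₀ ih =>
    intro N' hstab hnil hgen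
    have hstab'' : ∀ i, ∀ x ∈ N' ⊔ ⨆ i ∈ T', LinearMap.range (D i),
        D i x ∈ N' ⊔ ⨆ i ∈ T', LinearMap.range (D i) := by
      intro i x hx
      obtain ⟨n, hn, w, hw, rfl⟩ := Submodule.mem_sup.mp hx
      rw [map_add]
      refine Submodule.add_mem_sup (hstab i n hn) ?_
      refine Submodule.iSup_induction (p := fun (j : ι) => ⨆ (_ : j ∈ T'), LinearMap.range (D j))
        (motive := fun w => D i w ∈ ⨆ j ∈ T', LinearMap.range (D j)) hw ?_ ?_ ?_
      · intro j w hw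
        by_cases hj : j ∈ T'
        · rw [iSup_pos hj] at hw
          obtain ⟨y, rfl⟩ := hw
          rw [hcomm i j y]
          exact Submodule.mem_iSup_of_mem j (by rw [iSup_pos hj]; exact ⟨_, rfl⟩)
        · rw [iSup_neg hj] at hw
          rw [(Submodule.mem_bot R).mp hw, map_zero]
          exact zero_mem _
      · rw [map_zero]; exact zero_mem _
      · intro a b ha hb
        rw [map_add]
        exact add_mem ha hb
    have h1 : N' ⊔ ⨆ i ∈ T', LinearMap.range (D i) = ⊤ := by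
      refine s59m_nak_one _ (D i₀) (hstab'' i₀) ?_ ?_
      · obtain ⟨m, hm⟩ := hnil i₀
        exact ⟨m, fun x => Submodule.mem_sup_left (hm x)⟩
      · intro x
        have := hgen x
        rw [Finset.iSup_insert, ← sup_assoc, sup_comm N', sup_assoc] at this
        rw [sup_comm]
        exact this
    exact ih N' hstab hnil (fun x => by rw [h1]; trivial)

/-- **the abstract Nakayama step**: commuting automorphisms of `p`-power order. -/
theorem s59m_nak_onto {𝒪 : Type*} [CommRing 𝒪] [IsLocalRing 𝒪] (p : ℕ) [hp : Fact p.Prime]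
    (hp𝒪 : ((p : ℕ) : 𝒪) ∈ maximalIdeal 𝒪)
    {M : Type*} [AddCommGroup M] [Module 𝒪 M] [Module.Finite 𝒪 M] (N : Submodule 𝒪 M)
    {ι : Type*} [Finite ι] (σ : ι → Module.End 𝒪 M) (hcomm : ∀ i j x, σ i (σ j x) = σ j (σ i x))
    (hpow : ∀ i, ∃ k : ℕ, ∀ x, (σ i ^ (p ^ k)) x = x)
    (hN : ∀ i, ∀ x ∈ N, σ i x ∈ N)
    (hgen : ∀ x : M, x ∈ N ⊔ (maximalIdeal 𝒪 • ⊤ : Submodule 𝒪 M) ⊔
      Submodule.span 𝒪 {w : M | ∃ (i : ι) (y : M), w = σ i y - y}) :
    N = ⊤ := by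
  classical
  have : Fintype ι := Fintype.ofFinite ι
  have hmap : ∀ (f : Module.End 𝒪 M), ∀ x ∈ (maximalIdeal 𝒪 • ⊤ : Submodule 𝒪 M),
      f x ∈ (maximalIdeal 𝒪 • ⊤ : Submodule 𝒪 M) := by
    intro f x hx
    refine Submodule.smul_induction_on hx (fun r hr n _ => ?_) (fun a b ha hb => ?_)
    · rw [map_smul]
      exact Submodule.smul_mem_smul hr Submodule.mem_top
    · rw [map_add]
      exact add_mem ha hb
  have h1 : N ⊔ (maximalIdeal 𝒪 • ⊤ : Submodule 𝒪 M) = ⊤ := by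
    refine s59m_nak_formal (fun i => σ i - 1) ?_ Finset.univ _ ?_ ?_ ?_
    · intro i j x
      simp only [LinearMap.sub_apply, Module.End.one_apply, map_sub, hcomm i j x]
      abel
    · intro i x hx
      obtain ⟨n, hn, w, hw, rfl⟩ := Submodule.mem_sup.mp hx
      rw [map_add]
      refine Submodule.add_mem_sup ?_ (hmap _ w hw)
      rw [LinearMap.sub_apply, Module.End.one_apply]
      exact sub_mem (hN i n hn) hn
    · intro i
      obtain ⟨k, hk⟩ := hpow i
      refine ⟨p ^ k, fun x => Submodule.mem_sup_right ?_⟩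
      have hc : Commute (σ i - 1) (1 : Module.End 𝒪 M) := Commute.one_right _
      obtain ⟨r, hr⟩ := hc.exists_add_pow_prime_pow_eq hp.out k
      rw [sub_add_cancel, one_pow] at hr
      have h2 : ((σ i - 1) ^ p ^ k) x = - (((p : Module.End 𝒪 M) * (σ i - 1) * 1 * r) x) := by
        have h3 := LinearMap.congr_fun hr x
        rw [hk x, LinearMap.add_apply, LinearMap.add_apply, Module.End.one_apply] at h3
        have h4 : ((σ i - 1) ^ p ^ k) x + ((p : Module.End 𝒪 M) * (σ i - 1) * 1 * r) x = 0 := by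
          have := h3
          rw [add_assoc, add_comm x, ← add_assoc] at this
          exact (add_eq_right.mp this.symm)
        exact eq_neg_of_add_eq_zero_left h4
      rw [h2]
      refine neg_mem ?_
      rw [mul_assoc, mul_assoc, Module.End.mul_apply, Module.End.natCast_apply, ← Nat.cast_smul_eq_nsmul 𝒪]
      exact Submodule.smul_mem_smul hp𝒪 Submodule.mem_top
    · intro x
      have hle : Submodule.span 𝒪 {w : M | ∃ (i : ι) (y : M), w = σ i y - y} ≤
          ⨆ i ∈ (Finset.univ : Finset ι), LinearMap.range (σ i - 1) := by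
        rw [Submodule.span_le]
        rintro w ⟨i, y, rfl⟩
        refine Submodule.mem_iSup_of_mem i ?_
        rw [iSup_pos (Finset.mem_univ i)]
        exact ⟨y, by rw [LinearMap.sub_apply, Module.End.one_apply]⟩
      exact (sup_le_sup_left hle _) (hgen x)
  rw [eq_top_iff]
  refine Submodule.le_of_le_smul_of_le_jacobson_bot (I := maximalIdeal 𝒪) Module.Finite.fg_top
    (IsLocalRing.maximalIdeal_le_jacobson _) ?_
  rw [h1]

/-- linear maps preserve `I • ⊤`. -/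
theorem s59m_map_smul_top {R M M' : Type*} [CommRing R] [AddCommGroup M] [Module R M]
    [AddCommGroup M'] [Module R M'] (I : Ideal R) (f : M →ₗ[R] M') (x : M)
    (hx : x ∈ (I • ⊤ : Submodule R M)) : f x ∈ (I • ⊤ : Submodule R M') := by
  refine Submodule.smul_induction_on hx (fun r hr n _ => ?_) (fun a b ha hb => ?_)
  · rw [map_smul]
    exact Submodule.smul_mem_smul hr Submodule.mem_top
  · rw [map_add]
    exact add_mem ha hb

/-- **(T5) passes from the base level (modulo `𝔪`) to a Taylor–Wiles level**: `EY ≤ Y`, `EZ ≤ Z` the eigen-parts at the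
level, `π`, `π'` the control maps, `G` the `p`-group `B_Q` acting through `σY`, `σZ`. -/
theorem s59m_nak_T5 {𝒪 : Type*} [CommRing 𝒪] [IsLocalRing 𝒪] (p : ℕ) [hp : Fact p.Prime]
    (hp𝒪 : ((p : ℕ) : 𝒪) ∈ maximalIdeal 𝒪)
    {Y Z Y₀ Z₀ : Type*} [AddCommGroup Y] [Module 𝒪 Y] [AddCommGroup Z] [Module 𝒪 Z]
    [AddCommGroup Y₀] [Module 𝒪 Y₀] [AddCommGroup Z₀] [Module 𝒪 Z₀]
    (EY : Submodule 𝒪 Y) (hfg : EY.FG) (EZ : Submodule 𝒪 Z)
    (cA cB : Z →ₗ[𝒪] Y) (cA₀ cB₀ : Z₀ →ₗ[𝒪] Y₀) (π : Y →ₗ[𝒪] Y₀) (π' : Z →ₗ[𝒪] Z₀)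
    (hcA : ∀ z ∈ EZ, cA z ∈ EY) (hcB : ∀ z ∈ EZ, cB z ∈ EY)
    (hπA : ∀ z ∈ EZ, π (cA z) = cA₀ (π' z)) (hπB : ∀ z ∈ EZ, π (cB z) = cB₀ (π' z))
    (hπ' : ∀ z₀ : Z₀, ∃ z ∈ EZ, π' z = z₀) (hπ : ∀ y₀ : Y₀, ∃ y ∈ EY, π y = y₀)
    {G : Type*} [Finite G] (σY : G → Module.End 𝒪 Y) (σZ : G → Module.End 𝒪 Z)
    (hσY : ∀ g, ∀ y ∈ EY, σY g y ∈ EY) (hσZ : ∀ g, ∀ z ∈ EZ, σZ g z ∈ EZ)
    (hcomm : ∀ g h, ∀ y ∈ EY, σY g (σY h y) = σY h (σY g y))
    (hpow : ∀ g, ∃ k : ℕ, ∀ y ∈ EY, (σY g ^ (p ^ k)) y = y)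
    (hAσ : ∀ g, ∀ z ∈ EZ, cA (σZ g z) = σY g (cA z))
    (hBσ : ∀ g, ∀ z ∈ EZ, cB (σZ g z) = σY g (cB z))
    (hker : ∀ y ∈ EY, π y = 0 →
      y ∈ Submodule.span 𝒪 {w : Y | ∃ g : G, ∃ y' ∈ EY, w = σY g y' - y'})
    (hT5 : ∀ y₁ y₂ : Y₀, ∃ z : Z₀, cA₀ z - y₁ ∈ (maximalIdeal 𝒪 • ⊤ : Submodule 𝒪 Y₀) ∧
      cB₀ z - y₂ ∈ (maximalIdeal 𝒪 • ⊤ : Submodule 𝒪 Y₀)) :
    ∀ y₁ ∈ EY, ∀ y₂ ∈ EY, ∃ z ∈ EZ, cA z = y₁ ∧ cB z = y₂ := by
  classical
  have : Module.Finite 𝒪 EY := Module.Finite.iff_fg.mpr hfg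
  -- the data on `M = EY × EY`
  let f : EZ →ₗ[𝒪] EY × EY := (cA.restrict hcA).prod (cB.restrict hcB)
  let τ : G → Module.End 𝒪 EY := fun g => (σY g).restrict (hσY g)
  let σ : G → Module.End 𝒪 (EY × EY) := fun g => (τ g).prodMap (τ g)
  have hσ1 : ∀ g (x : EY × EY), ((σ g x).1 : Y) = σY g x.1 := fun g x => rfl
  have hσ2 : ∀ g (x : EY × EY), ((σ g x).2 : Y) = σY g x.2 := fun g x => rfl
  have hσpow : ∀ g (m : ℕ) (x : EY × EY), (((σ g ^ m) x).1 : Y) = (σY g ^ m) x.1 ∧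
      (((σ g ^ m) x).2 : Y) = (σY g ^ m) x.2 := by
    intro g m
    induction m with
    | zero => intro x; simp
    | succ m ih =>
      intro x
      rw [pow_succ, Module.End.mul_apply, pow_succ, Module.End.mul_apply, Module.End.mul_apply]
      obtain ⟨h1, h2⟩ := ih (σ g x)
      rw [h1, h2, hσ1, hσ2]
      exact ⟨rfl, rfl⟩
  have hN : LinearMap.range f = ⊤ := by
    refine s59m_nak_onto p hp𝒪 (LinearMap.range f) σ ?_ ?_ ?_ ?_
    · intro g h x
      refine Prod.ext (Subtype.ext ?_) (Subtype.ext ?_)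
      · rw [hσ1, hσ1, hσ1, hσ1]
        exact hcomm g h _ x.1.2
      · rw [hσ2, hσ2, hσ2, hσ2]
        exact hcomm g h _ x.2.2
    · intro g
      obtain ⟨k, hk⟩ := hpow g
      refine ⟨k, fun x => Prod.ext (Subtype.ext ?_) (Subtype.ext ?_)⟩
      · rw [(hσpow g _ x).1]
        exact hk _ x.1.2
      · rw [(hσpow g _ x).2]
        exact hk _ x.2.2
    · rintro g _ ⟨z, rfl⟩
      refine ⟨⟨σZ g z, hσZ g z z.2⟩, Prod.ext (Subtype.ext ?_) (Subtype.ext ?_)⟩
      · rw [hσ1]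
        exact hAσ g z z.2
      · rw [hσ2]
        exact hBσ g z z.2
    · -- generation
      -- (A) lifting `𝔪 • ⊤` along `π`
      have hA : ∀ w ∈ (maximalIdeal 𝒪 • ⊤ : Submodule 𝒪 Y₀),
          ∃ v : EY, v ∈ (maximalIdeal 𝒪 • ⊤ : Submodule 𝒪 EY) ∧ π v = w := by
        intro w hw
        refine Submodule.smul_induction_on hw (fun r hr n _ => ?_) (fun a b ha hb => ?_)
        · obtain ⟨y, hy, rfl⟩ := hπ n
          exact ⟨r • ⟨y, hy⟩, Submodule.smul_mem_smul hr Submodule.mem_top, by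
            rw [Submodule.coe_smul, map_smul]⟩
        · obtain ⟨va, hva, rfl⟩ := ha
          obtain ⟨vb, hvb, rfl⟩ := hb
          exact ⟨va + vb, add_mem hva hvb, by rw [Submodule.coe_add, map_add]⟩
      -- (B) the augmentation part
      have hB : ∀ w ∈ Submodule.span 𝒪 {w : Y | ∃ g : G, ∃ y' ∈ EY, w = σY g y' - y'},
          ∃ v : EY, (v : Y) = w ∧
            LinearMap.inl 𝒪 EY EY v ∈ Submodule.span 𝒪
              {w : EY × EY | ∃ (i : G) (y : EY × EY), w = σ i y - y} ∧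
            LinearMap.inr 𝒪 EY EY v ∈ Submodule.span 𝒪
              {w : EY × EY | ∃ (i : G) (y : EY × EY), w = σ i y - y} := by
        intro w hw
        refine Submodule.span_induction (p := fun w _ => ∃ v : EY, (v : Y) = w ∧
            LinearMap.inl 𝒪 EY EY v ∈ Submodule.span 𝒪
              {w : EY × EY | ∃ (i : G) (y : EY × EY), w = σ i y - y} ∧
            LinearMap.inr 𝒪 EY EY v ∈ Submodule.span 𝒪
              {w : EY × EY | ∃ (i : G) (y : EY × EY), w = σ i y - y}) ?_ ?_ ?_ ?_ hw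
        · rintro w ⟨g, y', hy', rfl⟩
          refine ⟨τ g ⟨y', hy'⟩ - ⟨y', hy'⟩, rfl, Submodule.subset_span ⟨g, (⟨y', hy'⟩, 0), ?_⟩,
            Submodule.subset_span ⟨g, (0, ⟨y', hy'⟩), ?_⟩⟩
          · refine Prod.ext rfl ?_
            show (0 : EY) = τ g 0 - 0
            rw [map_zero, sub_zero]
          · refine Prod.ext ?_ rfl
            show (0 : EY) = τ g 0 - 0
            rw [map_zero, sub_zero]
        · exact ⟨0, rfl, by rw [map_zero]; exact zero_mem _, by rw [map_zero]; exact zero_mem _⟩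
        · rintro a b _ _ ⟨va, rfl, ha1, ha2⟩ ⟨vb, rfl, hb1, hb2⟩
          exact ⟨va + vb, rfl, by rw [map_add]; exact add_mem ha1 hb1,
            by rw [map_add]; exact add_mem ha2 hb2⟩
        · rintro c a _ ⟨va, rfl, ha1, ha2⟩
          exact ⟨c • va, rfl, by rw [map_smul]; exact Submodule.smul_mem _ _ ha1,
            by rw [map_smul]; exact Submodule.smul_mem _ _ ha2⟩
      intro x
      obtain ⟨z₀, hz1, hz2⟩ := hT5 (π x.1) (π x.2)
      obtain ⟨z, hz, rfl⟩ := hπ' z₀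
      obtain ⟨v₁, hv₁, hπv₁⟩ := hA _ hz1
      obtain ⟨v₂, hv₂, hπv₂⟩ := hA _ hz2
      have hk1 : π ((cA z - x.1 - v₁ : Y)) = 0 := by
        rw [map_sub, map_sub, hπv₁, hπA z hz, sub_self]
      have hk2 : π ((cB z - x.2 - v₂ : Y)) = 0 := by
        rw [map_sub, map_sub, hπv₂, hπB z hz, sub_self]
      obtain ⟨w₁, hw₁, hw₁l, _⟩ := hB _ (hker _ (sub_mem (sub_mem (hcA z hz) x.1.2) v₁.2) hk1)
      obtain ⟨w₂, hw₂, _, hw₂r⟩ := hB _ (hker _ (sub_mem (sub_mem (hcB z hz) x.2.2) v₂.2) hk2)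
      have hx : x = f ⟨z, hz⟩ + (- (LinearMap.inl 𝒪 EY EY v₁ + LinearMap.inr 𝒪 EY EY v₂)) +
          (- (LinearMap.inl 𝒪 EY EY w₁ + LinearMap.inr 𝒪 EY EY w₂)) := by
        refine Prod.ext (Subtype.ext ?_) (Subtype.ext ?_)
        · show (x.1 : Y) = cA z + -((v₁ : Y) + 0) + -((w₁ : Y) + 0)
          rw [hw₁]
          abel
        · show (x.2 : Y) = cB z + -(0 + (v₂ : Y)) + -(0 + (w₂ : Y))
          rw [hw₂]
          abel
      rw [hx]
      refine Submodule.add_mem_sup (Submodule.add_mem_sup ⟨_, rfl⟩ (neg_mem (add_mem ?_ ?_)))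
        (neg_mem (add_mem hw₁l hw₂r))
      · exact s59m_map_smul_top _ _ _ hv₁
      · exact s59m_map_smul_top _ _ _ hv₂
  intro y₁ hy₁ y₂ hy₂
  have : ((⟨y₁, hy₁⟩, ⟨y₂, hy₂⟩) : EY × EY) ∈ LinearMap.range f := by rw [hN]; trivial
  obtain ⟨z, hz⟩ := this
  refine ⟨z, z.2, ?_, ?_⟩
  · exact congrArg (fun x : EY × EY => (x.1 : Y)) hz
  · exact congrArg (fun x : EY × EY => (x.2 : Y)) hz

end Fermat.Agent.Lib.S59
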