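/-
Programme R2 (S59), the wall, leaf (K3) (helper9, prefix `s59m_`): **the FULL-SPACE dual of Ihara (T5) at a
Taylor–Wiles level, abstract form** (dialect of helper5's `s59efl_step_joint`/`EFlrCompat`).  Two levels with their
Taylor–Wiles modules `Y'₁`, `Y'₂` (diamond groups `Δ'₁`, `Δ'₂`, `B_Q`-parts `Bq₁`, `Bq₂`, complements `C₁`, `C₂`), base
modules `Y₁`, `Y₂`, control maps `π₁`, `π₂`, the packages `D'` (Taylor–Wiles level) and `Db` (base level) at the prime `q`.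
(T5) modulo `𝔪_𝒪` for `Db`  ⟹  `(cor_A, cor_B) : eig Y'₂ → (eig Y'₁)²` is ONTO (Nakayama over the `p`-group `B_Q`).
This is the hypothesis `hq` of helper7's `s59x_wall_level`.
-/
import Mathlib
import Fermat.Agent.Lib.S59.MKerNak
import Fermat.Agent.Lib.S59.EFlrCompat

set_option autoImplicit false
set_option linter.unusedSectionVars false
set_option linter.unusedVariables false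

namespace Fermat.Agent.Lib.S59

open IsLocalRing

/-- **(T5) at a Taylor–Wiles level from (T5) modulo `𝔪` at the base level.** -/
theorem s59m_T5_level_abs {𝒪 : Type*} [CommRing 𝒪] [IsLocalRing 𝒪] (p : ℕ) [hp : Fact p.Prime]
    (hp𝒪 : ((p : ℕ) : 𝒪) ∈ maximalIdeal 𝒪)
    {Y₁ Y₂ Y'₁ Y'₂ : Type*} [AddCommGroup Y₁] [Module 𝒪 Y₁] [AddCommGroup Y₂] [Module 𝒪 Y₂]
    [AddCommGroup Y'₁] [Module 𝒪 Y'₁] [AddCommGroup Y'₂] [Module 𝒪 Y'₂]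
    (D' : s59t_Old 𝒪 Y'₁ Y'₂) (Db : s59t_Old 𝒪 Y₁ Y₂)
    {Δ'₁ Δ'₂ : Type*} [CommGroup Δ'₁] [Fintype Δ'₁] [CommGroup Δ'₂] [Fintype Δ'₂]
    (ρ'₁ : Δ'₁ →* Module.End 𝒪 Y'₁) (ρ'₂ : Δ'₂ →* Module.End 𝒪 Y'₂)
    (Bq₁ C₁ : Subgroup Δ'₁) (Bq₂ C₂ : Subgroup Δ'₂) (φ : Δ'₂ →* Δ'₁)
    (hc : ∀ δ : Δ'₂, D'.Compat (ρ'₁ (φ δ)) (ρ'₂ δ))
    (hφCs : ∀ c₁ ∈ C₁, ∃ c₂ ∈ C₂, φ c₂ = c₁)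
    (hφB : ∀ β ∈ Bq₂, φ β ∈ Bq₁) (hφBs : ∀ β₁ ∈ Bq₁, ∃ β₂ ∈ Bq₂, φ β₂ = β₁)
    (hBp : ∀ β ∈ Bq₁, ∃ k : ℕ, β ^ (p ^ k) = 1)
    (π₁ : Y'₁ →ₗ[𝒪] Y₁) (π₂ : Y'₂ →ₗ[𝒪] Y₂)
    (hπCA : ∀ z, π₁ (D'.corA z) = Db.corA (π₂ z)) (hπCB : ∀ z, π₁ (D'.corB z) = Db.corB (π₂ z))
    (h3₁ : ∀ x : Y₁, ∃ y ∈ s59t_eig ρ'₁ C₁ (1 : Δ'₁ →* 𝒪ˣ), π₁ y = x)
    (h3₂ : ∀ x : Y₂, ∃ y ∈ s59t_eig ρ'₂ C₂ (1 : Δ'₂ →* 𝒪ˣ), π₂ y = x)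
    (h4₁ : ∀ y ∈ s59t_eig ρ'₁ C₁ (1 : Δ'₁ →* 𝒪ˣ), π₁ y = 0 → y ∈ Submodule.span 𝒪
      {z : Y'₁ | ∃ β ∈ Bq₁, ∃ y' ∈ s59t_eig ρ'₁ C₁ (1 : Δ'₁ →* 𝒪ˣ), z = ρ'₁ β y' - y'})
    (hfg : (s59t_eig ρ'₁ C₁ (1 : Δ'₁ →* 𝒪ˣ)).FG)
    (hT5 : ∀ y₁ y₂ : Y₁, ∃ z : Y₂,
      Db.corA z - y₁ ∈ (maximalIdeal 𝒪 • ⊤ : Submodule 𝒪 Y₁) ∧
      Db.corB z - y₂ ∈ (maximalIdeal 𝒪 • ⊤ : Submodule 𝒪 Y₁)) :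
    ∀ y₁ ∈ s59t_eig ρ'₁ C₁ (1 : Δ'₁ →* 𝒪ˣ), ∀ y₂ ∈ s59t_eig ρ'₁ C₁ (1 : Δ'₁ →* 𝒪ˣ),
      ∃ z ∈ s59t_eig ρ'₂ C₂ (1 : Δ'₂ →* 𝒪ˣ), D'.corA z = y₁ ∧ D'.corB z = y₂ := by
  classical
  have hcomm₁ : ∀ δ β : Δ'₁, ∀ x : Y'₁, ρ'₁ δ (ρ'₁ β x) = ρ'₁ β (ρ'₁ δ x) := by
    intro δ β x
    rw [← Module.End.mul_apply, ← Module.End.mul_apply, ← map_mul, ← map_mul, mul_comm]
  have hcomm₂ : ∀ δ β : Δ'₂, ∀ x : Y'₂, ρ'₂ δ (ρ'₂ β x) = ρ'₂ β (ρ'₂ δ x) := by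
    intro δ β x
    rw [← Module.End.mul_apply, ← Module.End.mul_apply, ← map_mul, ← map_mul, mul_comm]
  refine s59m_nak_T5 p hp𝒪 (s59t_eig ρ'₁ C₁ (1 : Δ'₁ →* 𝒪ˣ)) hfg (s59t_eig ρ'₂ C₂ (1 : Δ'₂ →* 𝒪ˣ))
    D'.corA D'.corB Db.corA Db.corB π₁ π₂
    (fun z hz => s59efl_eig_corA D' ρ'₁ ρ'₂ C₁ C₂ φ hc hφCs z hz)
    (fun z hz => s59efl_eig_corB D' ρ'₁ ρ'₂ C₁ C₂ φ hc hφCs z hz)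
    (fun z _ => hπCA z) (fun z _ => hπCB z) h3₂ h3₁ (G := ↥Bq₂)
    (fun g => ρ'₁ (φ (g : Δ'₂))) (fun g => ρ'₂ (g : Δ'₂)) ?_ ?_ ?_ ?_ ?_ ?_ ?_ hT5
  · intro g y hy
    exact s59t_eig_map_mem ρ'₁ C₁ (1 : Δ'₁ →* 𝒪ˣ) (ρ'₁ (φ (g : Δ'₂))) (fun β _ x => hcomm₁ _ β x) hy
  · intro g z hz
    exact s59t_eig_map_mem ρ'₂ C₂ (1 : Δ'₂ →* 𝒪ˣ) (ρ'₂ (g : Δ'₂)) (fun β _ x => hcomm₂ _ β x) hz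
  · intro g h y _
    exact hcomm₁ _ _ y
  · intro g
    obtain ⟨k, hk⟩ := hBp (φ (g : Δ'₂)) (hφB _ g.2)
    refine ⟨k, fun y _ => ?_⟩
    rw [← map_pow, hk, map_one, Module.End.one_apply]
  · intro g z _
    exact ((hc (g : Δ'₂)).corA z).symm
  · intro g z _
    exact ((hc (g : Δ'₂)).corB z).symm
  · intro y hy hπy
    refine Submodule.span_mono ?_ (h4₁ y hy hπy)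
    rintro w ⟨β, hβ, y', hy', rfl⟩
    obtain ⟨β₂, hβ₂, rfl⟩ := hφBs β hβ
    exact ⟨⟨β₂, hβ₂⟩, y', hy', rfl⟩

end Fermat.Agent.Lib.S59
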