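/-
Programme R2 (S59), the wall, leaf (K3) (helper9, prefix `s59m_`): **the FULL-SPACE dual of Ihara (T5) at a
Taylor–Wiles level, concrete form.**  Levels `N₁` and `N₁ q` (ANY `N₁` prime to `q`; in the application `N₁ = N_t p`),
Taylor–Wiles primes `qv` (`q ∤ ∏ qv`), subgroups `Hmul · (∏ qv) ⊤ K_Q`; abstract idempotents `ε₁`, `ε₂` (base) and `ε'₁`,
`ε'₂` (Taylor–Wiles level) compatible with helper4's packages `s59f_oldN` at `q`, the two control packages `s59t_TWFull`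
with their control maps `π₁`, `π₂`.  (T5) modulo `𝔪_𝒪` at the base (helper4's `s59f_dual_part_top`)  ⟹
`(cor_A, cor_B) : eig Y'(N₁ q ∏qv) → (eig Y'(N₁ ∏qv))²` is ONTO  (= the hypothesis `hq` of helper7's `s59x_wall_level`).
-/
import Mathlib
import Fermat.Agent.Lib.S59.MKerT5
import Fermat.Agent.Lib.S59.FEps7
import Fermat.Agent.Lib.S59.EFlrConcB
import Fermat.Agent.Lib.S59.TLvlCtl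
import Fermat.Agent.Lib.S59.TWrap
import Fermat.Agent.Lib.S59.UW6Lat

set_option autoImplicit false
set_option linter.unusedSectionVars false
set_option linter.unusedVariables false
set_option linter.style.haveILetI false
set_option maxHeartbeats 1600000
set_option synthInstance.maxHeartbeats 400000

noncomputable section

namespace Fermat.Agent.Lib.S59

open IsLocalRing Matrix MatrixGroups CongruenceSubgroup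
open Fermat.Agent.Lib.S29 Fermat.Agent.Lib.S48 Fermat.Agent.Lib.S41

/-- **(T5) at a Taylor–Wiles level, concrete form.** -/
theorem s59m_T5_level (p : ℕ) [hp : Fact p.Prime]
    {𝒪 : Type} [CommRing 𝒪] [IsDomain 𝒪] [IsDiscreteValuationRing 𝒪]
    [IsAdicComplete (maximalIdeal 𝒪) 𝒪] [Finite (ResidueField 𝒪)] [CharZero 𝒪]
    (hp𝒪 : ((p : ℕ) : 𝒪) ∈ maximalIdeal 𝒪)
    {N₁ q : ℕ} [NeZero N₁] [NeZero (N₁ * q)] [hq : Fact q.Prime] (hqN : ¬ q ∣ N₁)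
    -- the base package at `q` and the base idempotents
    (hG'b : s59f_IsG' N₁ q (⊤ : Subgroup (ZMod N₁)ˣ) (s48h_GammaH (N₁ * q) (⊤ : Subgroup (ZMod (N₁ * q))ˣ)))
    (he1 : (1 : SL(2, ℤ)) ∈ Gamma0 (N₁ * q))
    (hee1 : s59f_gW hqN * 1 * 1 ∈ s48h_GammaH (N₁ * q) (⊤ : Subgroup (ZMod (N₁ * q))ˣ))
    (ε₁ : Module.End 𝒪 (s48h_Hpar 𝒪 (s48h_GammaH N₁ (⊤ : Subgroup (ZMod N₁)ˣ)) 𝒪))
    (ε₂ : Module.End 𝒪 (s48h_Hpar 𝒪 (s48h_GammaH (N₁ * q) (⊤ : Subgroup (ZMod (N₁ * q))ˣ)) 𝒪))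
    (hcb : (s59f_oldN hqN rfl hG'b 𝒪 𝒪 1 he1 hee1).Compat ε₁ ε₂)
    (hT5 : ∀ y₁ y₂ : s59t_part ε₁, ∃ z : s59t_part ε₂,
      ((s59f_oldN hqN rfl hG'b 𝒪 𝒪 1 he1 hee1).restrict hcb).corA z - y₁ ∈
        (maximalIdeal 𝒪 • ⊤ : Submodule 𝒪 (s59t_part ε₁)) ∧
      ((s59f_oldN hqN rfl hG'b 𝒪 𝒪 1 he1 hee1).restrict hcb).corB z - y₂ ∈
        (maximalIdeal 𝒪 • ⊤ : Submodule 𝒪 (s59t_part ε₁)))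
    -- the Taylor–Wiles level
    {r : ℕ} (n : ℕ) (qv : Fin r → ℕ) [NeZero (∏ j, qv j)] [NeZero (N₁ * ∏ j, qv j)]
    [NeZero (N₁ * q * ∏ j, qv j)]
    (hqL : ¬ q ∣ N₁ * ∏ j, qv j)
    (hG' : s59f_IsG' (N₁ * ∏ j, qv j) q
      (s59t_Hmul N₁ (∏ j, qv j) (⊤ : Subgroup (ZMod N₁)ˣ) (s59t_KQ (p ^ n) qv))
      (s48h_GammaH (N₁ * q * ∏ j, qv j)
        (s59t_Hmul (N₁ * q) (∏ j, qv j) (⊤ : Subgroup (ZMod (N₁ * q))ˣ) (s59t_KQ (p ^ n) qv))))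
    (e : SL(2, ℤ)) (he' : e ∈ Gamma0 (N₁ * q * ∏ j, qv j))
    (hee : s59f_gW hqL * e * e ∈ s48h_GammaH (N₁ * q * ∏ j, qv j)
      (s59t_Hmul (N₁ * q) (∏ j, qv j) (⊤ : Subgroup (ZMod (N₁ * q))ˣ) (s59t_KQ (p ^ n) qv)))
    (ε'₁ : Module.End 𝒪 (s48h_Hpar 𝒪 (s48h_GammaH (N₁ * ∏ j, qv j)
      (s59t_Hmul N₁ (∏ j, qv j) (⊤ : Subgroup (ZMod N₁)ˣ) (s59t_KQ (p ^ n) qv))) 𝒪))
    (ε'₂ : Module.End 𝒪 (s48h_Hpar 𝒪 (s48h_GammaH (N₁ * q * ∏ j, qv j)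
      (s59t_Hmul (N₁ * q) (∏ j, qv j) (⊤ : Subgroup (ZMod (N₁ * q))ˣ) (s59t_KQ (p ^ n) qv))) 𝒪))
    (hc' : (s59f_oldN hqL s59f_hN'_TW hG' 𝒪 𝒪 e he' hee).Compat ε'₁ ε'₂)
    -- the control packages
    (hP1₁ : s59t_TWFull (s59t_Gamma0_anti (s59t_dvd_mul_left' N₁ (∏ j, qv j)))
      (s59t_GammaHmul_le (N := N₁) (D := (∏ j, qv j)) (H := (⊤ : Subgroup (ZMod N₁)ˣ)) (K := s59t_KQ (p ^ n) qv))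
      (s59t_BQ N₁ (∏ j, qv j) (⊤ : Subgroup (ZMod N₁)ˣ) (s59t_KQ (p ^ n) qv))
      (s59t_CQ N₁ (∏ j, qv j) (⊤ : Subgroup (ZMod N₁)ˣ) (s59t_KQ (p ^ n) qv)) ε₁ ε'₁)
    (hρ'₁ : ∀ δ y, ε'₁ ((s59t_rho (N₁ * ∏ j, qv j) (s59t_Hmul N₁ (∏ j, qv j) (⊤ : Subgroup (ZMod N₁)ˣ) (s59t_KQ (p ^ n) qv)) 𝒪 𝒪) δ y) =
      (s59t_rho (N₁ * ∏ j, qv j) (s59t_Hmul N₁ (∏ j, qv j) (⊤ : Subgroup (ZMod N₁)ˣ) (s59t_KQ (p ^ n) qv)) 𝒪 𝒪) δ (ε'₁ y))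
    (π₁ : s59t_part ε'₁ →ₗ[𝒪] s59t_part ε₁)
    (hιπ₁ : ∀ y, s59t_iotaH ε₁ ε'₁ (s59t_resGHpar (s59t_GammaHmul_le (N := N₁) (D := (∏ j, qv j)) (H := (⊤ : Subgroup (ZMod N₁)ˣ)) (K := s59t_KQ (p ^ n) qv)) 𝒪 𝒪) (π₁ y) =
      s59t_normPsi (s59t_partRep (s59t_rho (N₁ * ∏ j, qv j) (s59t_Hmul N₁ (∏ j, qv j) (⊤ : Subgroup (ZMod N₁)ˣ) (s59t_KQ (p ^ n) qv)) 𝒪 𝒪) hρ'₁)
        (s59t_BQ N₁ (∏ j, qv j) (⊤ : Subgroup (ZMod N₁)ˣ) (s59t_KQ (p ^ n) qv)) 1 y)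
    (hP1₂ : s59t_TWFull (s59t_Gamma0_anti (s59t_dvd_mul_left' (N₁ * q) (∏ j, qv j)))
      (s59t_GammaHmul_le (N := N₁ * q) (D := (∏ j, qv j)) (H := (⊤ : Subgroup (ZMod (N₁ * q))ˣ)) (K := s59t_KQ (p ^ n) qv))
      (s59t_BQ (N₁ * q) (∏ j, qv j) (⊤ : Subgroup (ZMod (N₁ * q))ˣ) (s59t_KQ (p ^ n) qv))
      (s59t_CQ (N₁ * q) (∏ j, qv j) (⊤ : Subgroup (ZMod (N₁ * q))ˣ) (s59t_KQ (p ^ n) qv)) ε₂ ε'₂)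
    (hρ'₂ : ∀ δ y, ε'₂ ((s59t_rho (N₁ * q * ∏ j, qv j) (s59t_Hmul (N₁ * q) (∏ j, qv j) (⊤ : Subgroup (ZMod (N₁ * q))ˣ) (s59t_KQ (p ^ n) qv)) 𝒪 𝒪) δ y) =
      (s59t_rho (N₁ * q * ∏ j, qv j) (s59t_Hmul (N₁ * q) (∏ j, qv j) (⊤ : Subgroup (ZMod (N₁ * q))ˣ) (s59t_KQ (p ^ n) qv)) 𝒪 𝒪) δ (ε'₂ y))
    (π₂ : s59t_part ε'₂ →ₗ[𝒪] s59t_part ε₂)
    (hιπ₂ : ∀ y, s59t_iotaH ε₂ ε'₂ (s59t_resGHpar (s59t_GammaHmul_le (N := N₁ * q) (D := (∏ j, qv j)) (H := (⊤ : Subgroup (ZMod (N₁ * q))ˣ)) (K := s59t_KQ (p ^ n) qv)) 𝒪 𝒪) (π₂ y) =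
      s59t_normPsi (s59t_partRep (s59t_rho (N₁ * q * ∏ j, qv j) (s59t_Hmul (N₁ * q) (∏ j, qv j) (⊤ : Subgroup (ZMod (N₁ * q))ˣ) (s59t_KQ (p ^ n) qv)) 𝒪 𝒪) hρ'₂)
        (s59t_BQ (N₁ * q) (∏ j, qv j) (⊤ : Subgroup (ZMod (N₁ * q))ˣ) (s59t_KQ (p ^ n) qv)) 1 y)
    (hcard₁ : Nat.card (s59t_BQ N₁ (∏ j, qv j) (⊤ : Subgroup (ZMod N₁)ˣ) (s59t_KQ (p ^ n) qv)) = (p ^ n) ^ r) :
    ∀ y₁ ∈ s59t_eig (s59t_partRep (s59t_rho (N₁ * ∏ j, qv j) (s59t_Hmul N₁ (∏ j, qv j) (⊤ : Subgroup (ZMod N₁)ˣ) (s59t_KQ (p ^ n) qv)) 𝒪 𝒪) hρ'₁)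
        (s59t_CQ N₁ (∏ j, qv j) (⊤ : Subgroup (ZMod N₁)ˣ) (s59t_KQ (p ^ n) qv)) (1 : s59t_Delta (N₁ * ∏ j, qv j) _ →* 𝒪ˣ),
    ∀ y₂ ∈ s59t_eig (s59t_partRep (s59t_rho (N₁ * ∏ j, qv j) (s59t_Hmul N₁ (∏ j, qv j) (⊤ : Subgroup (ZMod N₁)ˣ) (s59t_KQ (p ^ n) qv)) 𝒪 𝒪) hρ'₁)
        (s59t_CQ N₁ (∏ j, qv j) (⊤ : Subgroup (ZMod N₁)ˣ) (s59t_KQ (p ^ n) qv)) (1 : s59t_Delta (N₁ * ∏ j, qv j) _ →* 𝒪ˣ),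
    ∃ z ∈ s59t_eig (s59t_partRep (s59t_rho (N₁ * q * ∏ j, qv j) (s59t_Hmul (N₁ * q) (∏ j, qv j) (⊤ : Subgroup (ZMod (N₁ * q))ˣ) (s59t_KQ (p ^ n) qv)) 𝒪 𝒪) hρ'₂)
        (s59t_CQ (N₁ * q) (∏ j, qv j) (⊤ : Subgroup (ZMod (N₁ * q))ˣ) (s59t_KQ (p ^ n) qv)) (1 : s59t_Delta (N₁ * q * ∏ j, qv j) _ →* 𝒪ˣ),
      ((s59f_oldN hqL s59f_hN'_TW hG' 𝒪 𝒪 e he' hee).restrict hc').corA z = y₁ ∧
      ((s59f_oldN hqL s59f_hN'_TW hG' 𝒪 𝒪 e he' hee).restrict hc').corB z = y₂ := by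
  classical
  -- the control packages: `π₁`, `π₂` are THE control maps
  obtain ⟨hρ1, hρ1', d₁, b₁, b₁', π, -, -, hιinj₁, -, hιπ, -, -, -, -, ⟨-, h3₁, h4₁⟩, -⟩ := hP1₁
  have hππ : π₁ = π := LinearMap.ext fun y => hιinj₁ ((hιπ₁ y).trans (hιπ y).symm)
  subst hππ
  obtain ⟨hρ2, hρ2', d₂, b₂, b₂', π', -, -, hιinj₂, -, hιπ', -, -, -, -, ⟨-, h3₂, -⟩, -⟩ := hP1₂
  have hππ' : π₂ = π' := LinearMap.ext fun y => hιinj₂ ((hιπ₂ y).trans (hιπ' y).symm)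
  subst hππ'
  -- finiteness
  let bZ := Module.Free.chooseBasis ℤ (s48h_M (s48h_GammaH (N₁ * ∏ j, qv j) (s59t_Hmul N₁ (∏ j, qv j) (⊤ : Subgroup (ZMod N₁)ˣ) (s59t_KQ (p ^ n) qv))))
  haveI : Module.Finite 𝒪 (s48h_Hpar 𝒪 (s48h_GammaH (N₁ * ∏ j, qv j) (s59t_Hmul N₁ (∏ j, qv j) (⊤ : Subgroup (ZMod N₁)ˣ) (s59t_KQ (p ^ n) qv))) 𝒪) := Module.Finite.of_basis (s59u_cB bZ 𝒪)
  haveI : Module.Finite 𝒪 (s59t_part ε'₁) := s59t_part_finite _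
  have hfg : (s59t_eig (M := s59t_part ε'₁) (s59t_partRep (s59t_rho (N₁ * ∏ j, qv j) (s59t_Hmul N₁ (∏ j, qv j) (⊤ : Subgroup (ZMod N₁)ˣ) (s59t_KQ (p ^ n) qv)) 𝒪 𝒪) hρ'₁)
        (s59t_CQ N₁ (∏ j, qv j) (⊤ : Subgroup (ZMod N₁)ˣ) (s59t_KQ (p ^ n) qv)) (1 : s59t_Delta (N₁ * ∏ j, qv j) _ →* 𝒪ˣ)).FG :=
    IsNoetherian.noetherian _
  -- the base package with the normalising element of the Taylor–Wiles level (only for `hhom`)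
  have he'b : e ∈ Gamma0 (N₁ * q) := s59t_Gamma0_anti (s59t_dvd_mul_left' (N₁ * q) (∏ j, qv j)) he'
  have heeb : s59f_gW hqN * e * e ∈ s48h_GammaH (N₁ * q) (⊤ : Subgroup (ZMod (N₁ * q))ˣ) :=
    (s59t_mem_GammaH_iff_unit (H := (⊤ : Subgroup (ZMod (N₁ * q))ˣ))
      ⟨_, mul_mem (mul_mem (s59f_gW_mem hqN) he'b) he'b⟩).mpr (Subgroup.mem_top _)
  have hDeq := s59efl_oldN_top_indep hqN rfl hG'b 𝒪 𝒪 e 1 he'b he1 heeb hee1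
  -- the diamond groups
  have h0 : Gamma0 (N₁ * q * ∏ j, qv j) ≤ Gamma0 (N₁ * ∏ j, qv j) :=
    s59t_Gamma0_anti s59f_dvd_TW
  have hle := hG'.le (s59f_isG_GammaH _ _)
  have hφbij := s59f_DeltaMap2_bijective hqL s59f_hN'_TW hG' h0 hle
  have hcompat := fun δ' => s59f_oldN_compat_rho hqL s59f_hN'_TW hG' e he' hee h0 hle
    (R := 𝒪) (A := 𝒪) δ'
  have hΔc := fun δ' => s59f_compat_restrict hc' (hcompat δ') (hρ'₁ _) (hρ'₂ δ')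
  have hφCs : ∀ c₁ ∈ s59t_CQ N₁ (∏ j, qv j) (⊤ : Subgroup (ZMod N₁)ˣ) (s59t_KQ (p ^ n) qv),
      ∃ c₂ ∈ s59t_CQ (N₁ * q) (∏ j, qv j) (⊤ : Subgroup (ZMod (N₁ * q))ˣ) (s59t_KQ (p ^ n) qv),
        s59t_DeltaMap2 h0 hle c₂ = c₁ := by
    intro c₁ hc₁
    rw [s59efl_CQ_eq_one _ _ _ c₁ hc₁]
    exact ⟨1, one_mem _, map_one _⟩
  -- the control maps
  have hhom := s59f_oldN_hom hqN hqL (s59t_dvd_mul_left' N₁ (∏ j, qv j)) rfl s59f_hN'_TW hG'b hG'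
    (s59t_GammaHmul_le (N := N₁) (D := ∏ j, qv j) (H := (⊤ : Subgroup (ZMod N₁)ˣ)) (K := s59t_KQ (p ^ n) qv))
    (s59t_GammaHmul_le (N := N₁ * q) (D := ∏ j, qv j) (H := (⊤ : Subgroup (ZMod (N₁ * q))ˣ)) (K := s59t_KQ (p ^ n) qv))
    𝒪 𝒪 e he'b he' heeb hee
  rw [hDeq] at hhom
  have hBiff : ∀ β' : s59t_Delta (N₁ * q * ∏ j, qv j) _,
      β' ∈ s59t_BQ (N₁ * q) (∏ j, qv j) (⊤ : Subgroup (ZMod (N₁ * q))ˣ) (s59t_KQ (p ^ n) qv) ↔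
        s59t_DeltaMap2 h0 hle β' ∈ s59t_BQ N₁ (∏ j, qv j) (⊤ : Subgroup (ZMod N₁)ˣ) (s59t_KQ (p ^ n) qv) :=
    fun β' => ⟨fun _ => s59f_BQ_top _ _ _ _, fun _ => s59f_BQ_top _ _ _ _⟩
  have hπCA := s59f_pi_corA hcb hc' hhom _ _ hρ'₁ hρ'₂ _ _ _ hφbij hBiff hcompat π₁ π₂ hιπ₁ hιπ₂ hιinj₁
  have hπCB := s59f_pi_corB hcb hc' hhom _ _ hρ'₁ hρ'₂ _ _ _ hφbij hBiff hcompat π₁ π₂ hιπ₁ hιπ₂ hιinj₁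
  -- the `p`-group
  have hBp : ∀ β ∈ s59t_BQ N₁ (∏ j, qv j) (⊤ : Subgroup (ZMod N₁)ˣ) (s59t_KQ (p ^ n) qv),
      ∃ k : ℕ, β ^ (p ^ k) = 1 := by
    intro β hβ
    refine ⟨n * r, ?_⟩
    have h1 : (⟨β, hβ⟩ : s59t_BQ N₁ (∏ j, qv j) (⊤ : Subgroup (ZMod N₁)ˣ) (s59t_KQ (p ^ n) qv)) ^
        Nat.card (s59t_BQ N₁ (∏ j, qv j) (⊤ : Subgroup (ZMod N₁)ˣ) (s59t_KQ (p ^ n) qv)) = 1 :=
      pow_card_eq_one'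
    rw [hcard₁, ← pow_mul] at h1
    exact congrArg Subtype.val h1
  exact s59m_T5_level_abs p hp𝒪 ((s59f_oldN hqL s59f_hN'_TW hG' 𝒪 𝒪 e he' hee).restrict hc')
    ((s59f_oldN hqN rfl hG'b 𝒪 𝒪 1 he1 hee1).restrict hcb) _ _
    (s59t_BQ N₁ (∏ j, qv j) (⊤ : Subgroup (ZMod N₁)ˣ) (s59t_KQ (p ^ n) qv)) _
    (s59t_BQ (N₁ * q) (∏ j, qv j) (⊤ : Subgroup (ZMod (N₁ * q))ˣ) (s59t_KQ (p ^ n) qv)) _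
    (s59t_DeltaMap2 h0 hle) hΔc hφCs (fun β _ => s59f_BQ_top _ _ _ _)
    (fun β₁ _ => by
      obtain ⟨δ₂, h⟩ := hφbij.2 β₁
      exact ⟨δ₂, s59f_BQ_top _ _ _ _, h⟩)
    hBp π₁ π₂ hπCA hπCB
    (fun x => h3₁ x (s59efl_eig_top_base N₁ hρ1 x))
    (fun x => h3₂ x (s59efl_eig_top_base (N₁ * q) hρ2 x))
    h4₁ hfg hT5

end Fermat.Agent.Lib.S59
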