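/-
PROGRAMME (R2) = S59, case (P), NON-MINIMAL half, item [WALL] / [W4c] (helper7, prefix `s59x_`): **(K3) IN THE SHAPE OF THE HYPOTHESIS `hK3` OF
`Internal.s59x_concZ_T5w`** (generated by `scratch_py/gen_k3.py`).
* `s59x_baseT5_W`  : (T5) modulo `𝔪` at the base levels `(N₁, ⊤) → (N₂, ⊤)`, `N₂ = N₁ q`, on the `E0`-parts of `W` (helper4's
  `s59f_dual_part_top` at a non-Eisenstein prime of `W`, `s59u_W_exists_nonEis_idx`);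
* `s59x_K3_level`  : helper9's `s59m_T5_level` (MKerT5L.lean; literal levels `N₁ * q`) transported to a general upper level `N₂` with
  `hN : N₂ = N₁ * q`, with the idempotents `ε'ᵢ := s59t_actH … (Gᵢ * s59t_jG … e₀ᵢ)` and the normalising element `s59f_eW hqL k`.
-/
import Mathlib
import Fermat.Agent.Lib.S59.MKerT5L
import Fermat.Agent.Lib.S59.FZ3
import Fermat.Agent.Lib.S59.FZ1b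
import Fermat.Agent.Lib.S59.UWPkg
import Fermat.Agent.Lib.S59.ETLvlOps
import Fermat.Agent.Lib.S59.ETWRes
import Fermat.Agent.Lib.S59.TIndH

set_option autoImplicit false
set_option linter.unusedSectionVars false
set_option linter.unusedVariables false
set_option linter.style.haveILetI false
set_option maxHeartbeats 1600000
set_option synthInstance.maxHeartbeats 400000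
set_option maxSynthPendingDepth 3

noncomputable section

namespace Fermat.Agent.Lib.S59

open IsLocalRing CuspForm Polynomial CongruenceSubgroup
open Fermat.Agent.Lib.S48 Fermat.Agent.Lib.S44
open scoped MatrixGroups

/-- **(T5) modulo `𝔪` at the base levels, for the `E0`-parts of `W`.** -/
theorem Internal.s59x_baseT5_W (p : ℕ) [Fact p.Prime] (hp2 : p ≠ 2) (W : WeierstrassCurve ℤ) (hΔ : W.Δ ≠ 0)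
    (B : Finset ℕ) (hirr : W.ModRepIsIrreducible p)
    (𝒪 : Type) [CommRing 𝒪] [IsDomain 𝒪] [IsDiscreteValuationRing 𝒪]
    [IsAdicComplete (maximalIdeal 𝒪) 𝒪] [Finite (ResidueField 𝒪)] [CharZero 𝒪]
    (hp𝒪 : ((p : ℕ) : 𝒪) ∈ maximalIdeal 𝒪)
    (N₁ q N₂ : ℕ) [NeZero N₁] [NeZero N₂] [hq : Fact q.Prime] (hN : N₂ = N₁ * q) (hqN : ¬ q ∣ N₁)
    (hqp : q ≠ p) (hpB : p ∈ B)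
    (hB1 : ∀ r : ℕ, r.Prime → r ∣ N₂ → r ∈ B)
    (hG'b : s59f_IsG' N₁ q (⊤ : Subgroup (ZMod N₁)ˣ) (s48h_GammaH N₂ (⊤ : Subgroup (ZMod N₂)ˣ)))
    (he1 : (1 : SL(2, ℤ)) ∈ Gamma0 N₂)
    (hee1 : s59f_gW hqN * 1 * 1 ∈ s48h_GammaH N₂ (⊤ : Subgroup (ZMod N₂)ˣ))
    (e₁ : MvPolynomial ↥(s59t_goodB N₁ B) 𝒪)
    (hid₁ : (s59t_E0 (⊤ : Subgroup (ZMod N₁)ˣ) B e₁) * (s59t_E0 (⊤ : Subgroup (ZMod N₁)ˣ) B e₁) = (s59t_E0 (⊤ : Subgroup (ZMod N₁)ˣ) B e₁))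
    (hnil₁ : ∀ x ∈ s59t_goodB N₁ B, ∃ k : ℕ, ∀ y : (s48h_Hpar 𝒪 (s48h_GammaH N₁ (⊤ : Subgroup (ZMod N₁)ˣ)) 𝒪),
      ((s59w_op (⊤ : Subgroup (ZMod N₁)ˣ) 𝒪 x - s59t_cB (𝒪 := 𝒪) N₁ (fun ℓ => W.apOfModel ℓ) x •
        (1 : Module.End 𝒪 (s48h_Hpar 𝒪 (s48h_GammaH N₁ (⊤ : Subgroup (ZMod N₁)ˣ)) 𝒪))) ^ k) ((s59t_E0 (⊤ : Subgroup (ZMod N₁)ˣ) B e₁) y) ∈
        (maximalIdeal 𝒪 • ⊤ : Submodule 𝒪 (s48h_Hpar 𝒪 (s48h_GammaH N₁ (⊤ : Subgroup (ZMod N₁)ˣ)) 𝒪)))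
    (e₂ : MvPolynomial ↥(s59t_goodB N₂ B) 𝒪)
    (hcb : (s59f_oldN hqN hN hG'b 𝒪 𝒪 1 he1 hee1).Compat (s59t_E0 (⊤ : Subgroup (ZMod N₁)ˣ) B e₁) (s59t_E0 (⊤ : Subgroup (ZMod N₂)ˣ) B e₂))
    (y₁ y₂ : s59t_part (s59t_E0 (⊤ : Subgroup (ZMod N₁)ˣ) B e₁)) :
    ∃ z : s59t_part (s59t_E0 (⊤ : Subgroup (ZMod N₂)ˣ) B e₂),
      ((s59f_oldN hqN hN hG'b 𝒪 𝒪 1 he1 hee1).restrict hcb).corA z - y₁ ∈ (maximalIdeal 𝒪 • ⊤ : Submodule 𝒪 (s59t_part (s59t_E0 (⊤ : Subgroup (ZMod N₁)ˣ) B e₁))) ∧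
      ((s59f_oldN hqN hN hG'b 𝒪 𝒪 1 he1 hee1).restrict hcb).corB z - y₂ ∈ (maximalIdeal 𝒪 • ⊤ : Submodule 𝒪 (s59t_part (s59t_E0 (⊤ : Subgroup (ZMod N₁)ˣ) B e₁))) := by
  classical
  have hpP : p.Prime := Fact.out
  have hqP : q.Prime := hq.out
  haveI : CharP (ResidueField 𝒪) p := s59e_charP_residue p hp𝒪
  have hi₀ex := s59u_W_exists_nonEis_idx W hΔ p hp2 hirr (𝒪 := 𝒪) hp𝒪 B N₁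
  obtain ⟨i₀, hi₀, hnE⟩ := hi₀ex
  have hi : ¬ i₀.ell ∣ N₁ * q * p := by
    intro h
    rcases (Nat.Prime.dvd_mul i₀.prime).mp h with h | h
    · exact hi₀ (hB1 _ i₀.prime (hN ▸ h))
    · exact hi₀ (((Nat.prime_dvd_prime_iff_eq i₀.prime hpP).mp h) ▸ hpB)
  have hεT : ∀ y, (s59t_E0 (⊤ : Subgroup (ZMod N₁)ˣ) B e₁) (s59w_op (⊤ : Subgroup (ZMod N₁)ˣ) 𝒪 (Sum.inl i₀) y) =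
      s59w_op (⊤ : Subgroup (ZMod N₁)ˣ) 𝒪 (Sum.inl i₀) ((s59t_E0 (⊤ : Subgroup (ZMod N₁)ˣ) B e₁) y) :=
    fun y => LinearMap.congr_fun (s59e_E0_comm_op _ B e₁ (Sum.inl i₀)) y
  have hnil₀ := hnil₁ (Sum.inl i₀) (s59t_inl_mem_goodB B i₀ hi₀)
  exact s59f_dual_part_top 𝒪 p hqN hN hG'b 1 he1 hee1 hcb hp2 hqp i₀ hi hid₁ hεT _ hnE hnil₀ y₁ y₂

/-- **helper9's (K3) at a general upper level `N₂ = N₁ q`, in the shape of `hK3`.** -/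
theorem Internal.s59x_K3_level (p : ℕ) [Fact p.Prime] (B : Finset ℕ)
    (𝒪 : Type) [CommRing 𝒪] [IsDomain 𝒪] [IsDiscreteValuationRing 𝒪]
    [IsAdicComplete (maximalIdeal 𝒪) 𝒪] [Finite (ResidueField 𝒪)] [CharZero 𝒪]
    (hp𝒪 : ((p : ℕ) : 𝒪) ∈ maximalIdeal 𝒪)
    (N₁ q N₂ : ℕ) [NeZero N₁] [NeZero N₂] [hq : Fact q.Prime] (hN : N₂ = N₁ * q) (hqN : ¬ q ∣ N₁)
    -- the base package at `q` and the base idempotents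
    (hG'b : s59f_IsG' N₁ q (⊤ : Subgroup (ZMod N₁)ˣ) (s48h_GammaH N₂ (⊤ : Subgroup (ZMod N₂)ˣ)))
    (he1 : (1 : SL(2, ℤ)) ∈ Gamma0 N₂)
    (hee1 : s59f_gW hqN * 1 * 1 ∈ s48h_GammaH N₂ (⊤ : Subgroup (ZMod N₂)ˣ))
    (ε₁ : Module.End 𝒪 (s48h_Hpar 𝒪 (s48h_GammaH N₁ (⊤ : Subgroup (ZMod N₁)ˣ)) 𝒪)) (ε₂ : Module.End 𝒪 (s48h_Hpar 𝒪 (s48h_GammaH N₂ (⊤ : Subgroup (ZMod N₂)ˣ)) 𝒪))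
    (hcb : (s59f_oldN hqN hN hG'b 𝒪 𝒪 1 he1 hee1).Compat ε₁ ε₂)
    (hT5 : ∀ y₁ y₂ : s59t_part ε₁, ∃ z : s59t_part ε₂,
      ((s59f_oldN hqN hN hG'b 𝒪 𝒪 1 he1 hee1).restrict hcb).corA z - y₁ ∈ (maximalIdeal 𝒪 • ⊤ : Submodule 𝒪 (s59t_part ε₁)) ∧
      ((s59f_oldN hqN hN hG'b 𝒪 𝒪 1 he1 hee1).restrict hcb).corB z - y₂ ∈ (maximalIdeal 𝒪 • ⊤ : Submodule 𝒪 (s59t_part ε₁)))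
    -- the Taylor–Wiles level
    {r : ℕ} (n : ℕ) (qv : Fin r → ℕ) [NeZero (∏ j, qv j)] [NeZero (N₁ * ∏ j, qv j)] [NeZero (N₂ * ∏ j, qv j)] (aq : ℕ → 𝒪)
    (e₀₁ : MvPolynomial ↥(s59t_goodB (N₁ * ∏ j, qv j) B) 𝒪) (G₁ : MvPolynomial (s59w_AIdx (N₁ * ∏ j, qv j) ⊕ ℕ) 𝒪)
    (e₀₂ : MvPolynomial ↥(s59t_goodB (N₂ * ∏ j, qv j) B) 𝒪) (G₂ : MvPolynomial (s59w_AIdx (N₂ * ∏ j, qv j) ⊕ ℕ) 𝒪)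
    -- the control packages
    (hP1₁ : s59t_TWFull (s59t_Gamma0_anti (s59t_dvd_mul_left' N₁ (∏ j, qv j))) (s59t_GammaHmul_le (N := N₁) (D := ∏ j, qv j) (H := (⊤ : Subgroup (ZMod N₁)ˣ)) (K := s59t_KQ (p ^ n) qv)) (s59t_BQ N₁ (∏ j, qv j) (⊤ : Subgroup (ZMod N₁)ˣ) (s59t_KQ (p ^ n) qv)) (s59t_CQ N₁ (∏ j, qv j) (⊤ : Subgroup (ZMod N₁)ˣ) (s59t_KQ (p ^ n) qv)) ε₁ (s59t_actH (N₁ * ∏ j, qv j) aq (dvd_refl (N₁ * ∏ j, qv j)) (s59t_Hmul N₁ (∏ j, qv j) (⊤ : Subgroup (ZMod N₁)ˣ) (s59t_KQ (p ^ n) qv)) (G₁ * s59t_jG 𝒪 (s59t_goodB (N₁ * ∏ j, qv j) B) e₀₁)))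
    (hρ'₁ : ∀ δ y, (s59t_actH (N₁ * ∏ j, qv j) aq (dvd_refl (N₁ * ∏ j, qv j)) (s59t_Hmul N₁ (∏ j, qv j) (⊤ : Subgroup (ZMod N₁)ˣ) (s59t_KQ (p ^ n) qv)) (G₁ * s59t_jG 𝒪 (s59t_goodB (N₁ * ∏ j, qv j) B) e₀₁)) ((s59t_rho (N₁ * ∏ j, qv j) (s59t_Hmul N₁ (∏ j, qv j) (⊤ : Subgroup (ZMod N₁)ˣ) (s59t_KQ (p ^ n) qv)) 𝒪 𝒪) δ y) = (s59t_rho (N₁ * ∏ j, qv j) (s59t_Hmul N₁ (∏ j, qv j) (⊤ : Subgroup (ZMod N₁)ˣ) (s59t_KQ (p ^ n) qv)) 𝒪 𝒪) δ ((s59t_actH (N₁ * ∏ j, qv j) aq (dvd_refl (N₁ * ∏ j, qv j)) (s59t_Hmul N₁ (∏ j, qv j) (⊤ : Subgroup (ZMod N₁)ˣ) (s59t_KQ (p ^ n) qv)) (G₁ * s59t_jG 𝒪 (s59t_goodB (N₁ * ∏ j, qv j) B) e₀₁)) y))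
    (π₁ : s59t_part (s59t_actH (N₁ * ∏ j, qv j) aq (dvd_refl (N₁ * ∏ j, qv j)) (s59t_Hmul N₁ (∏ j, qv j) (⊤ : Subgroup (ZMod N₁)ˣ) (s59t_KQ (p ^ n) qv)) (G₁ * s59t_jG 𝒪 (s59t_goodB (N₁ * ∏ j, qv j) B) e₀₁)) →ₗ[𝒪] s59t_part ε₁)
    (hιπ₁ : ∀ y, s59t_iotaH ε₁ (s59t_actH (N₁ * ∏ j, qv j) aq (dvd_refl (N₁ * ∏ j, qv j)) (s59t_Hmul N₁ (∏ j, qv j) (⊤ : Subgroup (ZMod N₁)ˣ) (s59t_KQ (p ^ n) qv)) (G₁ * s59t_jG 𝒪 (s59t_goodB (N₁ * ∏ j, qv j) B) e₀₁)) (s59t_resGHpar (s59t_GammaHmul_le (N := N₁) (D := ∏ j, qv j) (H := (⊤ : Subgroup (ZMod N₁)ˣ)) (K := s59t_KQ (p ^ n) qv)) 𝒪 𝒪) (π₁ y) =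
      s59t_normPsi (s59t_partRep (s59t_rho (N₁ * ∏ j, qv j) (s59t_Hmul N₁ (∏ j, qv j) (⊤ : Subgroup (ZMod N₁)ˣ) (s59t_KQ (p ^ n) qv)) 𝒪 𝒪) hρ'₁) (s59t_BQ N₁ (∏ j, qv j) (⊤ : Subgroup (ZMod N₁)ˣ) (s59t_KQ (p ^ n) qv)) 1 y)
    (hP1₂ : s59t_TWFull (s59t_Gamma0_anti (s59t_dvd_mul_left' N₂ (∏ j, qv j))) (s59t_GammaHmul_le (N := N₂) (D := ∏ j, qv j) (H := (⊤ : Subgroup (ZMod N₂)ˣ)) (K := s59t_KQ (p ^ n) qv)) (s59t_BQ N₂ (∏ j, qv j) (⊤ : Subgroup (ZMod N₂)ˣ) (s59t_KQ (p ^ n) qv)) (s59t_CQ N₂ (∏ j, qv j) (⊤ : Subgroup (ZMod N₂)ˣ) (s59t_KQ (p ^ n) qv)) ε₂ (s59t_actH (N₂ * ∏ j, qv j) aq (dvd_refl (N₂ * ∏ j, qv j)) (s59t_Hmul N₂ (∏ j, qv j) (⊤ : Subgroup (ZMod N₂)ˣ) (s59t_KQ (p ^ n) qv)) (G₂ * s59t_jG 𝒪 (s59t_goodB (N₂ * ∏ j, qv j)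 B) e₀₂)))
    (hρ'₂ : ∀ δ y, (s59t_actH (N₂ * ∏ j, qv j) aq (dvd_refl (N₂ * ∏ j, qv j)) (s59t_Hmul N₂ (∏ j, qv j) (⊤ : Subgroup (ZMod N₂)ˣ) (s59t_KQ (p ^ n) qv)) (G₂ * s59t_jG 𝒪 (s59t_goodB (N₂ * ∏ j, qv j) B) e₀₂)) ((s59t_rho (N₂ * ∏ j, qv j) (s59t_Hmul N₂ (∏ j, qv j) (⊤ : Subgroup (ZMod N₂)ˣ) (s59t_KQ (p ^ n) qv)) 𝒪 𝒪) δ y) = (s59t_rho (N₂ * ∏ j, qv j) (s59t_Hmul N₂ (∏ j, qv j) (⊤ : Subgroup (ZMod N₂)ˣ) (s59t_KQ (p ^ n) qv)) 𝒪 𝒪) δ ((s59t_actH (N₂ * ∏ j, qv j) aq (dvd_refl (N₂ * ∏ j, qv j)) (s59t_Hmul N₂ (∏ j, qv j) (⊤ : Subgroup (ZMod N₂)ˣ) (s59t_KQ (p ^ n) qv)) (G₂ * s59t_jG 𝒪 (s59t_goodB (N₂ * ∏ j, qv j) B) e₀₂)) y))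
    (π₂ : s59t_part (s59t_actH (N₂ * ∏ j, qv j) aq (dvd_refl (N₂ * ∏ j, qv j)) (s59t_Hmul N₂ (∏ j, qv j) (⊤ : Subgroup (ZMod N₂)ˣ) (s59t_KQ (p ^ n) qv)) (G₂ * s59t_jG 𝒪 (s59t_goodB (N₂ * ∏ j, qv j) B) e₀₂)) →ₗ[𝒪] s59t_part ε₂)
    (hιπ₂ : ∀ y, s59t_iotaH ε₂ (s59t_actH (N₂ * ∏ j, qv j) aq (dvd_refl (N₂ * ∏ j, qv j)) (s59t_Hmul N₂ (∏ j, qv j) (⊤ : Subgroup (ZMod N₂)ˣ) (s59t_KQ (p ^ n) qv)) (G₂ * s59t_jG 𝒪 (s59t_goodB (N₂ * ∏ j, qv j) B) e₀₂)) (s59t_resGHpar (s59t_GammaHmul_le (N := N₂) (D := ∏ j, qv j) (H := (⊤ : Subgroup (ZMod N₂)ˣ)) (K := s59t_KQ (p ^ n) qv)) 𝒪 𝒪) (π₂ y) =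
      s59t_normPsi (s59t_partRep (s59t_rho (N₂ * ∏ j, qv j) (s59t_Hmul N₂ (∏ j, qv j) (⊤ : Subgroup (ZMod N₂)ˣ) (s59t_KQ (p ^ n) qv)) 𝒪 𝒪) hρ'₂) (s59t_BQ N₂ (∏ j, qv j) (⊤ : Subgroup (ZMod N₂)ˣ) (s59t_KQ (p ^ n) qv)) 1 y)
    (hcard₁ : Nat.card (s59t_BQ N₁ (∏ j, qv j) (⊤ : Subgroup (ZMod N₁)ˣ) (s59t_KQ (p ^ n) qv)) = (p ^ n) ^ r) :
    ∀ (hqL : ¬ q ∣ (N₁ * ∏ j, qv j)) (hN' : (N₂ * ∏ j, qv j) = (N₁ * ∏ j, qv j) * q)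
          (hG' : s59f_IsG' (N₁ * ∏ j, qv j) q (s59t_Hmul N₁ (∏ j, qv j) (⊤ : Subgroup (ZMod N₁)ˣ) (s59t_KQ (p ^ n) qv)) (s48h_GammaH (N₂ * ∏ j, qv j) (s59t_Hmul N₂ (∏ j, qv j) (⊤ : Subgroup (ZMod N₂)ˣ) (s59t_KQ (p ^ n) qv))))
          (he' : s59f_eW hqL ((p ^ (0 + n) - 1) * ((p ^ (0 + n) + 1) / 2)) ∈ Gamma0 (N₂ * ∏ j, qv j))
          (hee : s59f_gW hqL * s59f_eW hqL ((p ^ (0 + n) - 1) * ((p ^ (0 + n) + 1) / 2)) * s59f_eW hqL ((p ^ (0 + n) - 1) * ((p ^ (0 + n) + 1) / 2)) ∈ s48h_GammaH (N₂ * ∏ j, qv j) (s59t_Hmul N₂ (∏ j, qv j) (⊤ : Subgroup (ZMod N₂)ˣ) (s59t_KQ (p ^ n) qv)))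
          (hc' : (s59f_oldN hqL hN' hG' 𝒪 𝒪 (s59f_eW hqL ((p ^ (0 + n) - 1) * ((p ^ (0 + n) + 1) / 2))) he' hee).Compat (s59t_actH (N₁ * ∏ j, qv j) aq (dvd_refl (N₁ * ∏ j, qv j)) (s59t_Hmul N₁ (∏ j, qv j) (⊤ : Subgroup (ZMod N₁)ˣ) (s59t_KQ (p ^ n) qv)) (G₁ * s59t_jG 𝒪 (s59t_goodB (N₁ * ∏ j, qv j) B) e₀₁)) (s59t_actH (N₂ * ∏ j, qv j) aq (dvd_refl (N₂ * ∏ j, qv j)) (s59t_Hmul N₂ (∏ j, qv j) (⊤ : Subgroup (ZMod N₂)ˣ) (s59t_KQ (p ^ n) qv)) (G₂ * s59t_jG 𝒪 (s59t_goodB (N₂ * ∏ j, qv j) B) e₀₂))),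
      ∀ y₁ ∈ s59t_eig (s59t_partRep (s59t_rho (N₁ * ∏ j, qv j) (s59t_Hmul N₁ (∏ j, qv j) (⊤ : Subgroup (ZMod N₁)ˣ) (s59t_KQ (p ^ n) qv)) 𝒪 𝒪) hρ'₁) (s59t_CQ N₁ (∏ j, qv j) (⊤ : Subgroup (ZMod N₁)ˣ) (s59t_KQ (p ^ n) qv)) (1 : (s59t_Delta (N₁ * ∏ j, qv j) (s59t_Hmul N₁ (∏ j, qv j) (⊤ : Subgroup (ZMod N₁)ˣ) (s59t_KQ (p ^ n) qv))) →* 𝒪ˣ),
      ∀ y₂ ∈ s59t_eig (s59t_partRep (s59t_rho (N₁ * ∏ j, qv j) (s59t_Hmul N₁ (∏ j, qv j) (⊤ : Subgroup (ZMod N₁)ˣ) (s59t_KQ (p ^ n) qv)) 𝒪 𝒪) hρ'₁) (s59t_CQ N₁ (∏ j, qv j) (⊤ : Subgroup (ZMod N₁)ˣ) (s59t_KQ (p ^ n) qv)) (1 : (s59t_Delta (N₁ * ∏ j, qv j) (s59t_Hmul N₁ (∏ j, qv j) (⊤ : Subgroup (ZMod N₁)ˣ) (s59t_KQ (p ^ n) qv))) →* 𝒪ˣ),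
      ∃ z ∈ s59t_eig (s59t_partRep (s59t_rho (N₂ * ∏ j, qv j) (s59t_Hmul N₂ (∏ j, qv j) (⊤ : Subgroup (ZMod N₂)ˣ) (s59t_KQ (p ^ n) qv)) 𝒪 𝒪) hρ'₂) (s59t_CQ N₂ (∏ j, qv j) (⊤ : Subgroup (ZMod N₂)ˣ) (s59t_KQ (p ^ n) qv)) (1 : (s59t_Delta (N₂ * ∏ j, qv j) (s59t_Hmul N₂ (∏ j, qv j) (⊤ : Subgroup (ZMod N₂)ˣ) (s59t_KQ (p ^ n) qv))) →* 𝒪ˣ),
        ((s59f_oldN hqL hN' hG' 𝒪 𝒪 (s59f_eW hqL ((p ^ (0 + n) - 1) * ((p ^ (0 + n) + 1) / 2))) he' hee).restrict hc').corA z = y₁ ∧ ((s59f_oldN hqL hN' hG' 𝒪 𝒪 (s59f_eW hqL ((p ^ (0 + n) - 1) * ((p ^ (0 + n) + 1) / 2))) he' hee).restrict hc').corB z = y₂ := by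
  subst hN
  intro hqL hN' hG' he' hee hc'
  exact s59m_T5_level p hp𝒪 hqN hG'b he1 hee1 ε₁ ε₂ hcb hT5 n qv hqL hG' _ he' hee _ _ hc'
    hP1₁ hρ'₁ π₁ hιπ₁ hP1₂ hρ'₂ π₂ hιπ₂ hcard₁

export Internal (s59x_baseT5_W s59x_K3_level)

end Fermat.Agent.Lib.S59

end
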