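/-
PROGRAMME (R2) = S59, case (P), NON-MINIMAL half, item [WALL] / [W4c] (helper7, prefix `s59x_`): **THE PACKAGE ON A STABLE PAIR INSIDE THE PARTS,
TOOLS FOR THE CONCRETE STEP.**  `D : s59t_Old R Y Z`, `hc : D.Compat ε ε'`, `Y₀ ≤ ε Y`, `Z₀ ≤ ε' Z` stable under `D.restrict hc`:
* `s59x_oldSub_restrict_compat` : compatibility with `s59x_oldSub (D.restrict hc) hst` from a compatibility at the level of `Y`, `Z` and the values
  of the operators on `Y₀`, `Z₀` (twin of `s59efl_compat_of_val` ∘ `s59f_compat_restrict`);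
* `s59x_oldSub_pi_resA/_resB/_corA/_corB` : maps intertwining two packages restrict to maps intertwining the packages on stable pairs;
* `s59x_mem_eig_partRep` : the eigen-part of the representation on a part is cut out by the eigen-part of the ambient representation.
-/
import Mathlib
import Fermat.Agent.Lib.S59.NXOldSub
import Fermat.Agent.Lib.S59.TType

set_option autoImplicit false
set_option linter.unusedSectionVars false
set_option linter.unusedVariables false
set_option linter.style.haveILetI false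

noncomputable section

namespace Fermat.Agent.Lib.S59

section RC

variable {R : Type*} [CommRing R] {Y Z : Type*} [AddCommGroup Y] [Module R Y]
  [AddCommGroup Z] [Module R Z] {D : s59t_Old R Y Z}
  {ε : Module.End R Y} {ε' : Module.End R Z} (hc : D.Compat ε ε')
  {Y₀ : Submodule R (s59t_part ε)} {Z₀ : Submodule R (s59t_part ε')}
  (hst : s59x_OldStable (D.restrict hc) Y₀ Z₀)

/-- compatibility with the package on a stable pair inside the parts, from the ambient modules. -/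
theorem s59x_oldSub_restrict_compat {X : Module.End R Y} {X' : Module.End R Z} (hX : D.Compat X X')
    (x : Module.End R Y₀) (x' : Module.End R Z₀)
    (h₁ : ∀ z : Y₀, (((x z : Y₀) : s59t_part ε) : Y) = X ((z : s59t_part ε) : Y))
    (h₂ : ∀ z : Z₀, (((x' z : Z₀) : s59t_part ε') : Z) = X' ((z : s59t_part ε') : Z)) :
    (s59x_oldSub (D.restrict hc) hst).Compat x x' where
  resA y := Subtype.ext (Subtype.ext (by
    rw [h₂]
    show X' (D.resA ((y : s59t_part ε) : Y)) = D.resA (((x y : Y₀) : s59t_part ε) : Y)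
    rw [h₁]
    exact hX.resA _))
  resB y := Subtype.ext (Subtype.ext (by
    rw [h₂]
    show X' (D.resB ((y : s59t_part ε) : Y)) = D.resB (((x y : Y₀) : s59t_part ε) : Y)
    rw [h₁]
    exact hX.resB _))
  corA z := Subtype.ext (Subtype.ext (by
    rw [h₁]
    show X (D.corA ((z : s59t_part ε') : Z)) = D.corA (((x' z : Z₀) : s59t_part ε') : Z)
    rw [h₂]
    exact hX.corA _))
  corB z := Subtype.ext (Subtype.ext (by
    rw [h₁]
    show X (D.corB ((z : s59t_part ε') : Z)) = D.corB (((x' z : Z₀) : s59t_part ε') : Z)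
    rw [h₂]
    exact hX.corB _))
  T y := Subtype.ext (Subtype.ext (by
    rw [h₁]
    show X (D.T ((y : s59t_part ε) : Y)) = D.T (((x y : Y₀) : s59t_part ε) : Y)
    rw [h₁]
    exact hX.T _))
  U z := Subtype.ext (Subtype.ext (by
    rw [h₂]
    show X' (D.U ((z : s59t_part ε') : Z)) = D.U (((x' z : Z₀) : s59t_part ε') : Z)
    rw [h₂]
    exact hX.U _))
  w z := Subtype.ext (Subtype.ext (by
    rw [h₂]
    show X' (D.w ((z : s59t_part ε') : Z)) = D.w (((x' z : Z₀) : s59t_part ε') : Z)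
    rw [h₂]
    exact hX.w _))

end RC

section Pi

variable {R : Type*} [CommRing R] {Y' Z' Y Z : Type*} [AddCommGroup Y'] [Module R Y']
  [AddCommGroup Z'] [Module R Z'] [AddCommGroup Y] [Module R Y] [AddCommGroup Z] [Module R Z]
  (D' : s59t_Old R Y' Z') (Db : s59t_Old R Y Z)
  {Y'₀ : Submodule R Y'} {Z'₀ : Submodule R Z'} {Y₀ : Submodule R Y} {Z₀ : Submodule R Z}
  (hst' : s59x_OldStable D' Y'₀ Z'₀) (hstb : s59x_OldStable Db Y₀ Z₀)
  (π₁ : Y' →ₗ[R] Y) (π₂ : Z' →ₗ[R] Z) (πK₁ : Y'₀ →ₗ[R] Y₀) (πK₂ : Z'₀ →ₗ[R] Z₀)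
  (hK₁ : ∀ y : Y'₀, ((πK₁ y : Y₀) : Y) = π₁ (y : Y'))
  (hK₂ : ∀ z : Z'₀, ((πK₂ z : Z₀) : Z) = π₂ (z : Z'))

include hK₁ hK₂

theorem s59x_oldSub_pi_resA (h : ∀ y, π₂ (D'.resA y) = Db.resA (π₁ y)) (y : Y'₀) :
    πK₂ ((s59x_oldSub D' hst').resA y) = (s59x_oldSub Db hstb).resA (πK₁ y) := by
  refine Subtype.ext ?_
  rw [hK₂, s59x_oldSub_resA_coe, s59x_oldSub_resA_coe, hK₁, h]

theorem s59x_oldSub_pi_resB (h : ∀ y, π₂ (D'.resB y) = Db.resB (π₁ y)) (y : Y'₀) :
    πK₂ ((s59x_oldSub D' hst').resB y) = (s59x_oldSub Db hstb).resB (πK₁ y) := by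
  refine Subtype.ext ?_
  rw [hK₂, s59x_oldSub_resB_coe, s59x_oldSub_resB_coe, hK₁, h]

theorem s59x_oldSub_pi_corA (h : ∀ z, π₁ (D'.corA z) = Db.corA (π₂ z)) (z : Z'₀) :
    πK₁ ((s59x_oldSub D' hst').corA z) = (s59x_oldSub Db hstb).corA (πK₂ z) := by
  refine Subtype.ext ?_
  rw [hK₁, s59x_oldSub_corA_coe, s59x_oldSub_corA_coe, hK₂, h]

theorem s59x_oldSub_pi_corB (h : ∀ z, π₁ (D'.corB z) = Db.corB (π₂ z)) (z : Z'₀) :
    πK₁ ((s59x_oldSub D' hst').corB z) = (s59x_oldSub Db hstb).corB (πK₂ z) := by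
  refine Subtype.ext ?_
  rw [hK₁, s59x_oldSub_corB_coe, s59x_oldSub_corB_coe, hK₂, h]

end Pi

section Eig

variable {𝒪 : Type*} [CommRing 𝒪] {Δ : Type*} [CommGroup Δ] [Fintype Δ]
  {F : Type*} [AddCommGroup F] [Module 𝒪 F]
  (ρ : Δ →* Module.End 𝒪 F) {P : Module.End 𝒪 F} (hP : ∀ δ y, P (ρ δ y) = ρ δ (P y))
  (C : Subgroup Δ) (ψ : Δ →* 𝒪ˣ)

/-- the eigen-part of the representation on a part. -/
theorem s59x_mem_eig_partRep (u : s59t_part P) :
    u ∈ s59t_eig (s59t_partRep ρ hP) C ψ ↔ (u : F) ∈ s59t_eig ρ C ψ := by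
  constructor
  · intro h β hβ
    have := congrArg Subtype.val (h β hβ)
    exact this
  · intro h β hβ
    exact Subtype.ext (h β hβ)

end Eig

end Fermat.Agent.Lib.S59

end
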