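/-
PROGRAMME (R2) = S59, case (P), NON-MINIMAL half, item [WALL] / [W4c] (helper7, prefix `s59x_`): **THE WEAK TRACE CLAUSE (T5w) ON THE KERNEL
PAIRS, CONCRETE FORM** (generated by `scratch_py/gen_zc1.py`) = the hypothesis `hT5w` of `Internal.s59x_step_concZ` (NXConcZ.lean) for the set
`Jm = ker κ`, by instantiation of `s59x_wall_K4_idx` (NXWallK4c.lean; all the bookkeeping is done there, over abstract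
modules: in this file every `rw`/`obtain` costs minutes, so the proof below is a list of `have := <term>`).
Levels: `N₁` (in case (P): `N_t p`), `N₂ = N₁ q` (`N_{t+1} p`) and the FLAT level `N₃` (`N_{t+1}`), `N₂ = N₃ p`; Taylor–Wiles data `n`, `qv`.
Modules: `YB = ε'₁`-part of level `N₁ ∏qv`, `YD = ε'₂`-part of level `N₂ ∏qv`, `YC = ε'₃`-part of level `N₃ ∏qv`; `ZB`, `ZD` the kernel pairs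
(projectors `P'₁`, `P'₂`).  Packages: `Dq = (s59f_oldN … at q).restrict hc'` from `YB` to `YD`, `Dp = (s59f_oldN … at p).restrict hc'p` from `YC`
to `YD`.  Hecke rings: `𝒪[aZ₁]` on `ZB` (with the Galois datum `θ₁`), `𝒪[aF₂]` on the FULL part `YD` (local, finite, residue field `k`),
`𝒪[aM₃]` on the flat part `YC` (with the flat representation `ρC`).
HYPOTHESES left to the callers: helper9's (K3) `hK3` (= `s59m_T5_level`), the description `hmem'₂` of the kernel pair `ZD` (helper9's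
`s59m_KerConcl.hmem`), the Hecke data.
-/
import Mathlib
import Fermat.Agent.Lib.S59.EFlrCompat
import Fermat.Agent.Lib.S59.EFlrConcA
import Fermat.Agent.Lib.S59.BBaseH
import Fermat.Agent.Lib.S59.ETLvlOps
import Fermat.Agent.Lib.S59.ETWRes
import Fermat.Agent.Lib.S59.ERing
import Fermat.Agent.Lib.S59.NXKerH1
import Fermat.Agent.Lib.S59.NXOldSub2
import Fermat.Agent.Lib.S59.NXWallK4c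
import Fermat.Agent.Lib.S59.FZ1b

set_option autoImplicit false
set_option linter.unusedSectionVars false
set_option linter.unusedVariables false
set_option linter.style.haveILetI false
set_option maxHeartbeats 0
set_option synthInstance.maxHeartbeats 400000
set_option maxSynthPendingDepth 3
set_option backward.isDefEq.respectTransparency.types true

noncomputable section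

namespace Fermat.Agent.Lib.S59

open IsLocalRing CuspForm Polynomial CongruenceSubgroup
open Fermat.Agent.Lib.S48 Fermat.Agent.Lib.S44
open scoped MatrixGroups

local notation "Γℚ" => (AlgebraicClosure ℚ ≃ₐ[ℚ] AlgebraicClosure ℚ)

/-- **the weak trace clause (T5w) on the kernel pairs, concrete form.** -/
theorem Internal.s59x_concZ_T5w (p : ℕ) [Fact p.Prime] (B : Finset ℕ)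
    (𝒪 : Type) [CommRing 𝒪] [IsDomain 𝒪] [IsDiscreteValuationRing 𝒪]
    [IsAdicComplete (maximalIdeal 𝒪) 𝒪] [Finite (ResidueField 𝒪)] [CharZero 𝒪]
    {ρbar : ResidualGaloisRep (ResidueField 𝒪)}
    -- the three levels
    (N₁ q N₂ N₃ : ℕ) [NeZero N₁] [NeZero N₂] [NeZero N₃] [hq : Fact q.Prime]
    (hNB₁ : ∀ ℓ : ℕ, ℓ.Prime → ℓ ∣ N₁ → ℓ ∈ B)
    (hNB₂ : ∀ ℓ : ℕ, ℓ.Prime → ℓ ∣ N₂ → ℓ ∈ B)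
    (hNB₃ : ∀ ℓ : ℕ, ℓ.Prime → ℓ ∣ N₃ → ℓ ∈ B)
    {r : ℕ} (n : ℕ) (qv : Fin r → ℕ) [NeZero (∏ j, qv j)] (hqvpr : ∀ i, (qv i).Prime) (aq : ℕ → 𝒪)
    -- the Galois side
    {Ls Lf : ∀ ⦃A : Type⦄ [CommRing A] [IsLocalRing A], GaloisRepAdic A → Prop}
    (hLs : s59x_LocCond Ls) (hLf : s59x_LocCond Lf) (Sg Smin : Finset ℕ)
    (DQ : GaloisRep.DeformationRingData 𝒪 ρbar (s59x_TWType 𝒪 p Ls Sg Smin))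
    (Dfs : GaloisRep.DeformationRingData 𝒪 ρbar
      (s59x_TWType 𝒪 p (fun _A _ _ ρ => Ls ρ ∧ Lf ρ) Sg Smin))
    (κ : DQ.R →ₐ[𝒪] Dfs.R) (hκtr : ∀ g, κ (s59i_cpTr DQ.ρ g) = s59i_cpTr Dfs.ρ g)
        [NeZero (N₁ * ∏ j, qv j)]
        [NeZero (N₂ * ∏ j, qv j)]
        [NeZero (N₃ * ∏ j, qv j)]
        [NeZero (N₁ * ∏ q ∈ Finset.univ.image qv, q ^ 2)]
        [NeZero (N₂ * ∏ q ∈ Finset.univ.image qv, q ^ 2)]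
        [NeZero (N₃ * ∏ q ∈ Finset.univ.image qv, q ^ 2)]
        -- the level `N₁`: the kernel pair and its Hecke ring
        (e₀₁ : MvPolynomial ↥(s59t_goodB (N₁ * ∏ j, qv j) B) 𝒪)
        (G₁ : MvPolynomial (s59w_AIdx (N₁ * ∏ j, qv j) ⊕ ℕ) 𝒪)
        (a₁ : (heckeAlgebra (N₁ * ∏ q ∈ Finset.univ.image qv, q ^ 2) 2 (↑(B ∪ Finset.univ.image qv) : Set ℕ)) →+* Module.End 𝒪 (s48h_Hpar 𝒪 (s48h_GammaH (N₁ * ∏ j, qv j) (s59t_Hmul N₁ (∏ j, qv j) (⊤ : Subgroup (ZMod N₁)ˣ) (s59t_KQ (p ^ n) qv))) 𝒪))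
        (ha1₁ : ∀ (ℓ : ℕ) (hℓ : ℓ.Prime) (hℓN : ¬ ℓ ∣ (N₁ * ∏ q ∈ Finset.univ.image qv, q ^ 2))
      (hℓS : ℓ ∉ (↑(B ∪ Finset.univ.image qv) : Set ℕ)) (i : s59w_TIdx (N₁ * ∏ j, qv j)),
      i.ell = ℓ → a₁ (heckeAlgebra.T hℓ hℓN hℓS) = s59e_Tp' (s59t_Hmul N₁ (∏ j, qv j) (⊤ : Subgroup (ZMod N₁)ˣ) (s59t_KQ (p ^ n) qv)) 𝒪 ((p ^ (0 + n) - 1) * ((p ^ (0 + n) + 1) / 2)) i)
        (hρ'₁ : ∀ δ y, (s59t_actH (N₁ * ∏ j, qv j) aq (dvd_refl (N₁ * ∏ j, qv j)) (s59t_Hmul N₁ (∏ j, qv j) (⊤ : Subgroup (ZMod N₁)ˣ) (s59t_KQ (p ^ n) qv)) (G₁ * s59t_jG 𝒪 (s59t_goodB (N₁ * ∏ j, qv j) B) e₀₁)) ((s59t_rho (N₁ * ∏ j, qv j) (s59t_Hmul N₁ (∏ j, qv j) (⊤ : Subgroup (ZMod N₁)ˣ) (s59t_KQ (p ^ n) qv)) 𝒪 𝒪) δ y) = (s59t_rho (N₁ * ∏ j, qv j) (s59t_Hmul N₁ (∏ j, qv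 j) (⊤ : Subgroup (ZMod N₁)ˣ) (s59t_KQ (p ^ n) qv)) 𝒪 𝒪) δ ((s59t_actH (N₁ * ∏ j, qv j) aq (dvd_refl (N₁ * ∏ j, qv j)) (s59t_Hmul N₁ (∏ j, qv j) (⊤ : Subgroup (ZMod N₁)ˣ) (s59t_KQ (p ^ n) qv)) (G₁ * s59t_jG 𝒪 (s59t_goodB (N₁ * ∏ j, qv j) B) e₀₁)) y))
        (P'₁ : Module.End 𝒪 (s59t_part (s59t_actH (N₁ * ∏ j, qv j) aq (dvd_refl (N₁ * ∏ j, qv j)) (s59t_Hmul N₁ (∏ j, qv j) (⊤ : Subgroup (ZMod N₁)ˣ) (s59t_KQ (p ^ n) qv)) (G₁ * s59t_jG 𝒪 (s59t_goodB (N₁ * ∏ j, qv j) B) e₀₁))))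
        (hP'₁ : ∀ δ x, P'₁ ((s59t_partRep (s59t_rho (N₁ * ∏ j, qv j) (s59t_Hmul N₁ (∏ j, qv j) (⊤ : Subgroup (ZMod N₁)ˣ) (s59t_KQ (p ^ n) qv)) 𝒪 𝒪) hρ'₁) δ x) = (s59t_partRep (s59t_rho (N₁ * ∏ j, qv j) (s59t_Hmul N₁ (∏ j, qv j) (⊤ : Subgroup (ZMod N₁)ˣ) (s59t_KQ (p ^ n) qv)) 𝒪 𝒪) hρ'₁) δ (P'₁ x))
        (aZ₁ : (heckeAlgebra (N₁ * ∏ q ∈ Finset.univ.image qv, q ^ 2) 2 (↑(B ∪ Finset.univ.image qv) : Set ℕ)) →+* Module.End 𝒪 (s59t_part P'₁))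
        (haZ₁ : ∀ t (z : s59t_part P'₁), s59x_jZ (s59t_Hmul N₁ (∏ j, qv j) (⊤ : Subgroup (ZMod N₁)ˣ) (s59t_KQ (p ^ n) qv)) (s59t_actH (N₁ * ∏ j, qv j) aq (dvd_refl (N₁ * ∏ j, qv j)) (s59t_Hmul N₁ (∏ j, qv j) (⊤ : Subgroup (ZMod N₁)ˣ) (s59t_KQ (p ^ n) qv)) (G₁ * s59t_jG 𝒪 (s59t_goodB (N₁ * ∏ j, qv j) B) e₀₁)) P'₁ (aZ₁ t z) = a₁ t (s59x_jZ (s59t_Hmul N₁ (∏ j, qv j) (⊤ : Subgroup (ZMod N₁)ˣ) (s59t_KQ (p ^ n) qv)) (s59t_actH (N₁ * ∏ j, qv j) aq (dvd_refl (N₁ * ∏ j, qv j)) (s59t_Hmul N₁ (∏ j, qv j) (⊤ : Subgroup (ZMod N₁)ˣ) (s59t_KQ (p ^ n) qv)) (G₁ * s59t_jG 𝒪 (s59t_goodB (N₁ * ∏ j, qv j) B) e₀₁)) P'₁ z))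
        [IsLocalRing (s59e_adj 𝒪 aZ₁)]
        (θ₁ : DQ.R →ₐ[𝒪] s59e_adj 𝒪 aZ₁)
        (hθl₁ : IsLocalHom (θ₁ : DQ.R →+* s59e_adj 𝒪 aZ₁))
        (hfrobT₁ : ∀ ℓ : ℕ, ℓ.Prime → ℓ ∉ (B ∪ Finset.univ.image qv) →
      ∀ A' : ValuationSubring (AlgebraicClosure ℚ), A'.LiesOverPrime ℓ →
      ∀ τ : Γℚ, A'.IsFrobeniusAt τ ℓ →
        (LinearMap.charpoly (DQ.ρ.ρ τ)).map (θ₁ : DQ.R →+* s59e_adj 𝒪 aZ₁) =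
          Polynomial.X ^ 2 - Polynomial.C (s59e_tOf (↑(B ∪ Finset.univ.image qv) : Set ℕ) aZ₁ ℓ) * Polynomial.X +
            Polynomial.C ((ℓ : s59e_adj 𝒪 aZ₁)))
        -- the level `N₂`: the kernel pair and the Hecke ring of the FULL part
        (e₀₂ : MvPolynomial ↥(s59t_goodB (N₂ * ∏ j, qv j) B) 𝒪)
        (G₂ : MvPolynomial (s59w_AIdx (N₂ * ∏ j, qv j) ⊕ ℕ) 𝒪)
        (a₂ : (heckeAlgebra (N₂ * ∏ q ∈ Finset.univ.image qv, q ^ 2) 2 (↑(B ∪ Finset.univ.image qv) : Set ℕ)) →+* Module.End 𝒪 (s48h_Hpar 𝒪 (s48h_GammaH (N₂ * ∏ j, qv j) (s59t_Hmul N₂ (∏ j, qv j) (⊤ : Subgroup (ZMod N₂)ˣ) (s59t_KQ (p ^ n) qv))) 𝒪))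
        (ha1₂ : ∀ (ℓ : ℕ) (hℓ : ℓ.Prime) (hℓN : ¬ ℓ ∣ (N₂ * ∏ q ∈ Finset.univ.image qv, q ^ 2))
      (hℓS : ℓ ∉ (↑(B ∪ Finset.univ.image qv) : Set ℕ)) (i : s59w_TIdx (N₂ * ∏ j, qv j)),
      i.ell = ℓ → a₂ (heckeAlgebra.T hℓ hℓN hℓS) = s59e_Tp' (s59t_Hmul N₂ (∏ j, qv j) (⊤ : Subgroup (ZMod N₂)ˣ) (s59t_KQ (p ^ n) qv)) 𝒪 ((p ^ (0 + n) - 1) * ((p ^ (0 + n) + 1) / 2)) i)
        (ha2₂ : ∀ t, a₂ t ∈ Subring.closure (Set.range (s59e_Tp' (s59t_Hmul N₂ (∏ j, qv j) (⊤ : Subgroup (ZMod N₂)ˣ) (s59t_KQ (p ^ n) qv)) 𝒪 ((p ^ (0 + n) - 1) * ((p ^ (0 + n) + 1) / 2)))))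
        (hρ'₂ : ∀ δ y, (s59t_actH (N₂ * ∏ j, qv j) aq (dvd_refl (N₂ * ∏ j, qv j)) (s59t_Hmul N₂ (∏ j, qv j) (⊤ : Subgroup (ZMod N₂)ˣ) (s59t_KQ (p ^ n) qv)) (G₂ * s59t_jG 𝒪 (s59t_goodB (N₂ * ∏ j, qv j) B) e₀₂)) ((s59t_rho (N₂ * ∏ j, qv j) (s59t_Hmul N₂ (∏ j, qv j) (⊤ : Subgroup (ZMod N₂)ˣ) (s59t_KQ (p ^ n) qv)) 𝒪 𝒪) δ y) = (s59t_rho (N₂ * ∏ j, qv j) (s59t_Hmul N₂ (∏ j, qv j) (⊤ : Subgroup (ZMod N₂)ˣ) (s59t_KQ (p ^ n) qv)) 𝒪 𝒪) δ ((s59t_actH (N₂ * ∏ j, qv j) aq (dvd_refl (N₂ * ∏ j, qv j)) (s59t_Hmul N₂ (∏ j, qv j) (⊤ : Subgroup (ZMod N₂)ˣ) (s59t_KQ (p ^ n) qv)) (G₂ * s59t_jG 𝒪 (s59t_goodB (N₂ * ∏ j, qv j) B) e₀₂)) y))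
        (P'₂ : Module.End 𝒪 (s59t_part (s59t_actH (N₂ * ∏ j, qv j) aq (dvd_refl (N₂ * ∏ j, qv j)) (s59t_Hmul N₂ (∏ j, qv j) (⊤ : Subgroup (ZMod N₂)ˣ) (s59t_KQ (p ^ n) qv)) (G₂ * s59t_jG 𝒪 (s59t_goodB (N₂ * ∏ j, qv j) B) e₀₂))))
        (hP'₂ : ∀ δ x, P'₂ ((s59t_partRep (s59t_rho (N₂ * ∏ j, qv j) (s59t_Hmul N₂ (∏ j, qv j) (⊤ : Subgroup (ZMod N₂)ˣ) (s59t_KQ (p ^ n) qv)) 𝒪 𝒪) hρ'₂) δ x) = (s59t_partRep (s59t_rho (N₂ * ∏ j, qv j) (s59t_Hmul N₂ (∏ j, qv j) (⊤ : Subgroup (ZMod N₂)ˣ) (s59t_KQ (p ^ n) qv)) 𝒪 𝒪) hρ'₂) δ (P'₂ x))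
        (aF₂ : (heckeAlgebra (N₂ * ∏ q ∈ Finset.univ.image qv, q ^ 2) 2 (↑(B ∪ Finset.univ.image qv) : Set ℕ)) →+* Module.End 𝒪 (s59t_part (s59t_actH (N₂ * ∏ j, qv j) aq (dvd_refl (N₂ * ∏ j, qv j)) (s59t_Hmul N₂ (∏ j, qv j) (⊤ : Subgroup (ZMod N₂)ˣ) (s59t_KQ (p ^ n) qv)) (G₂ * s59t_jG 𝒪 (s59t_goodB (N₂ * ∏ j, qv j) B) e₀₂))))
        (haF₂ : ∀ t (z : s59t_part (s59t_actH (N₂ * ∏ j, qv j) aq (dvd_refl (N₂ * ∏ j, qv j)) (s59t_Hmul N₂ (∏ j, qv j) (⊤ : Subgroup (ZMod N₂)ˣ) (s59t_KQ (p ^ n) qv)) (G₂ * s59t_jG 𝒪 (s59t_goodB (N₂ * ∏ j, qv j) B) e₀₂))), ((aF₂ t z : s59t_part (s59t_actH (N₂ * ∏ j, qv j) aq (dvd_refl (N₂ * ∏ j, qv j)) (s59t_Hmul N₂ (∏ j, qv j) (⊤ : Subgroup (ZMod N₂)ˣ) (s59t_KQ (p ^ n) qv)) (G₂ * s59t_jG 𝒪 (s59t_goodB (N₂ * ∏ j,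 qv j) B) e₀₂))) : (s48h_Hpar 𝒪 (s48h_GammaH (N₂ * ∏ j, qv j) (s59t_Hmul N₂ (∏ j, qv j) (⊤ : Subgroup (ZMod N₂)ˣ) (s59t_KQ (p ^ n) qv))) 𝒪)) = a₂ t (z : (s48h_Hpar 𝒪 (s48h_GammaH (N₂ * ∏ j, qv j) (s59t_Hmul N₂ (∏ j, qv j) (⊤ : Subgroup (ZMod N₂)ˣ) (s59t_KQ (p ^ n) qv))) 𝒪)))
        [IsLocalRing (s59e_adj 𝒪 aF₂)] [Module.Finite 𝒪 (s59e_adj 𝒪 aF₂)]
        [IsLocalHom (algebraMap 𝒪 (s59e_adj 𝒪 aF₂))]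
        (hresF₂ : Function.Surjective (residue (s59e_adj 𝒪 aF₂) ∘ algebraMap 𝒪 (s59e_adj 𝒪 aF₂)))
        -- the flat level `N₃`: the Hecke ring and the flat representation
        (e₀₃ : MvPolynomial ↥(s59t_goodB (N₃ * ∏ j, qv j) B) 𝒪)
        (G₃ : MvPolynomial (s59w_AIdx (N₃ * ∏ j, qv j) ⊕ ℕ) 𝒪)
        (a₃ : (heckeAlgebra (N₃ * ∏ q ∈ Finset.univ.image qv, q ^ 2) 2 (↑(B ∪ Finset.univ.image qv) : Set ℕ)) →+* Module.End 𝒪 (s48h_Hpar 𝒪 (s48h_GammaH (N₃ * ∏ j, qv j) (s59t_Hmul N₃ (∏ j, qv j) (⊤ : Subgroup (ZMod N₃)ˣ) (s59t_KQ (p ^ n) qv))) 𝒪))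
        (ha1₃ : ∀ (ℓ : ℕ) (hℓ : ℓ.Prime) (hℓN : ¬ ℓ ∣ (N₃ * ∏ q ∈ Finset.univ.image qv, q ^ 2))
      (hℓS : ℓ ∉ (↑(B ∪ Finset.univ.image qv) : Set ℕ)) (i : s59w_TIdx (N₃ * ∏ j, qv j)),
      i.ell = ℓ → a₃ (heckeAlgebra.T hℓ hℓN hℓS) = s59e_Tp' (s59t_Hmul N₃ (∏ j, qv j) (⊤ : Subgroup (ZMod N₃)ˣ) (s59t_KQ (p ^ n) qv)) 𝒪 ((p ^ (0 + n) - 1) * ((p ^ (0 + n) + 1) / 2)) i)
        (aM₃ : (heckeAlgebra (N₃ * ∏ q ∈ Finset.univ.image qv, q ^ 2) 2 (↑(B ∪ Finset.univ.image qv) : Set ℕ)) →+* Module.End 𝒪 (s59t_part (s59t_actH (N₃ * ∏ j, qv j) aq (dvd_refl (N₃ * ∏ j, qv j)) (s59t_Hmul N₃ (∏ j, qv j) (⊤ : Subgroup (ZMod N₃)ˣ) (s59t_KQ (p ^ n) qv)) (G₃ * s59t_jG 𝒪 (s59t_goodB (N₃ * ∏ j, qv j) B) e₀₃))))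
        (haM₃ : ∀ t (z : s59t_part (s59t_actH (N₃ * ∏ j, qv j) aq (dvd_refl (N₃ * ∏ j, qv j)) (s59t_Hmul N₃ (∏ j, qv j) (⊤ : Subgroup (ZMod N₃)ˣ) (s59t_KQ (p ^ n) qv)) (G₃ * s59t_jG 𝒪 (s59t_goodB (N₃ * ∏ j, qv j) B) e₀₃))), ((aM₃ t z : s59t_part (s59t_actH (N₃ * ∏ j, qv j) aq (dvd_refl (N₃ * ∏ j, qv j)) (s59t_Hmul N₃ (∏ j, qv j) (⊤ : Subgroup (ZMod N₃)ˣ) (s59t_KQ (p ^ n) qv)) (G₃ * s59t_jG 𝒪 (s59t_goodB (N₃ * ∏ j, qv j) B) e₀₃))) : (s48h_Hpar 𝒪 (s48h_GammaH (N₃ * ∏ j, qv j) (s59t_Hmul N₃ (∏ j, qv j) (⊤ : Subgroup (ZMod N₃)ˣ) (s59t_KQ (p ^ n) qv))) 𝒪)) = a₃ t (z : (s48h_Hpar 𝒪 (s48h_GammaH (N₃ * ∏ j, qv j) (s59t_Hmul N₃ (∏ j, qv j) (⊤ : Subgroup (ZMod N₃)ˣ) (s59t_KQ (p ^ n) qv))) 𝒪)))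
        [IsLocalRing (s59e_adj 𝒪 aM₃)]
        (ρC : GaloisRepAdic (s59e_adj 𝒪 aM₃)) (hρC : Lf ρC)
        (habsC : ρC.residual.IsAbsolutelyIrreducible)
        (hfrobC : ∀ ℓ : ℕ, ℓ.Prime → ℓ ∉ (B ∪ Finset.univ.image qv) →
      ∀ A' : ValuationSubring (AlgebraicClosure ℚ), A'.LiesOverPrime ℓ →
      ∀ τ : Γℚ, A'.IsFrobeniusAt τ ℓ →
        LinearMap.charpoly (ρC.ρ τ) =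
          Polynomial.X ^ 2 - Polynomial.C (s59e_tOf (↑(B ∪ Finset.univ.image qv) : Set ℕ) aM₃ ℓ) * Polynomial.X +
            Polynomial.C ((ℓ : s59e_adj 𝒪 aM₃)))
        -- the package at `p` and the kernel pair of the level `N₂`
        (hpL : ¬ p ∣ (N₃ * ∏ j, qv j)) (hN'p : (N₂ * ∏ j, qv j) = (N₃ * ∏ j, qv j) * p)
        (hG'p : s59f_IsG' (N₃ * ∏ j, qv j) p (s59t_Hmul N₃ (∏ j, qv j) (⊤ : Subgroup (ZMod N₃)ˣ) (s59t_KQ (p ^ n) qv)) (s48h_GammaH (N₂ * ∏ j, qv j) (s59t_Hmul N₂ (∏ j, qv j) (⊤ : Subgroup (ZMod N₂)ˣ) (s59t_KQ (p ^ n) qv))))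
        (ep : SL(2, ℤ)) (hep' : ep ∈ Gamma0 (N₂ * ∏ j, qv j))
        (heep' : s59f_gW hpL * ep * ep ∈ s48h_GammaH (N₂ * ∏ j, qv j) (s59t_Hmul N₂ (∏ j, qv j) (⊤ : Subgroup (ZMod N₂)ˣ) (s59t_KQ (p ^ n) qv)))
        (hc'p : (s59f_oldN hpL hN'p hG'p 𝒪 𝒪 ep hep' heep').Compat (s59t_actH (N₃ * ∏ j, qv j) aq (dvd_refl (N₃ * ∏ j, qv j)) (s59t_Hmul N₃ (∏ j, qv j) (⊤ : Subgroup (ZMod N₃)ˣ) (s59t_KQ (p ^ n) qv)) (G₃ * s59t_jG 𝒪 (s59t_goodB (N₃ * ∏ j, qv j) B) e₀₃)) (s59t_actH (N₂ * ∏ j, qv j) aq (dvd_refl (N₂ * ∏ j, qv j)) (s59t_Hmul N₂ (∏ j, qv j) (⊤ : Subgroup (ZMod N₂)ˣ) (s59t_KQ (p ^ n) qv)) (G₂ * s59t_jG 𝒪 (s59t_goodB (N₂ * ∏ j, qv j) B) e₀₂)))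
        (hmem'₂ : ∀ x : s59t_part (s59t_actH (N₂ * ∏ j, qv j) aq (dvd_refl (N₂ * ∏ j, qv j)) (s59t_Hmul N₂ (∏ j, qv j) (⊤ : Subgroup (ZMod N₂)ˣ) (s59t_KQ (p ^ n) qv)) (G₂ * s59t_jG 𝒪 (s59t_goodB (N₂ * ∏ j, qv j) B) e₀₂)), x ∈ s59t_part P'₂ ↔
          ((s59f_oldN hpL hN'p hG'p 𝒪 𝒪 ep hep' heep').restrict hc'p).corA x = 0 ∧ ((s59f_oldN hpL hN'p hG'p 𝒪 𝒪 ep hep' heep').restrict hc'p).corB x = 0)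
        -- (K3): the full-space dual of Ihara at the Taylor–Wiles level
        (hK3 : ∀ (hqL : ¬ q ∣ (N₁ * ∏ j, qv j)) (hN' : (N₂ * ∏ j, qv j) = (N₁ * ∏ j, qv j) * q)
          (hG' : s59f_IsG' (N₁ * ∏ j, qv j) q (s59t_Hmul N₁ (∏ j, qv j) (⊤ : Subgroup (ZMod N₁)ˣ) (s59t_KQ (p ^ n) qv)) (s48h_GammaH (N₂ * ∏ j, qv j) (s59t_Hmul N₂ (∏ j, qv j) (⊤ : Subgroup (ZMod N₂)ˣ) (s59t_KQ (p ^ n) qv))))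
          (he' : s59f_eW hqL ((p ^ (0 + n) - 1) * ((p ^ (0 + n) + 1) / 2)) ∈ Gamma0 (N₂ * ∏ j, qv j))
          (hee : s59f_gW hqL * s59f_eW hqL ((p ^ (0 + n) - 1) * ((p ^ (0 + n) + 1) / 2)) * s59f_eW hqL ((p ^ (0 + n) - 1) * ((p ^ (0 + n) + 1) / 2)) ∈ s48h_GammaH (N₂ * ∏ j, qv j) (s59t_Hmul N₂ (∏ j, qv j) (⊤ : Subgroup (ZMod N₂)ˣ) (s59t_KQ (p ^ n) qv)))
          (hc' : (s59f_oldN hqL hN' hG' 𝒪 𝒪 (s59f_eW hqL ((p ^ (0 + n) - 1) * ((p ^ (0 + n) + 1) / 2))) he' hee).Compat (s59t_actH (N₁ * ∏ j, qv j) aq (dvd_refl (N₁ * ∏ j, qv j)) (s59t_Hmul N₁ (∏ j, qv j) (⊤ : Subgroup (ZMod N₁)ˣ) (s59t_KQ (p ^ n) qv)) (G₁ * s59t_jG 𝒪 (s59t_goodB (N₁ * ∏ j, qv j) B) e₀₁)) (s59t_actH (N₂ * ∏ j, qv j) aq (dvd_refl (N₂ * ∏ j, qv j)) (s59t_Hmul N₂ (∏ j, qv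 j) (⊤ : Subgroup (ZMod N₂)ˣ) (s59t_KQ (p ^ n) qv)) (G₂ * s59t_jG 𝒪 (s59t_goodB (N₂ * ∏ j, qv j) B) e₀₂))),
          ∀ y₁ ∈ s59t_eig (s59t_partRep (s59t_rho (N₁ * ∏ j, qv j) (s59t_Hmul N₁ (∏ j, qv j) (⊤ : Subgroup (ZMod N₁)ˣ) (s59t_KQ (p ^ n) qv)) 𝒪 𝒪) hρ'₁) (s59t_CQ N₁ (∏ j, qv j) (⊤ : Subgroup (ZMod N₁)ˣ) (s59t_KQ (p ^ n) qv)) (1 : (s59t_Delta (N₁ * ∏ j, qv j) (s59t_Hmul N₁ (∏ j, qv j) (⊤ : Subgroup (ZMod N₁)ˣ) (s59t_KQ (p ^ n) qv))) →* 𝒪ˣ),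
          ∀ y₂ ∈ s59t_eig (s59t_partRep (s59t_rho (N₁ * ∏ j, qv j) (s59t_Hmul N₁ (∏ j, qv j) (⊤ : Subgroup (ZMod N₁)ˣ) (s59t_KQ (p ^ n) qv)) 𝒪 𝒪) hρ'₁) (s59t_CQ N₁ (∏ j, qv j) (⊤ : Subgroup (ZMod N₁)ˣ) (s59t_KQ (p ^ n) qv)) (1 : (s59t_Delta (N₁ * ∏ j, qv j) (s59t_Hmul N₁ (∏ j, qv j) (⊤ : Subgroup (ZMod N₁)ˣ) (s59t_KQ (p ^ n) qv))) →* 𝒪ˣ),
          ∃ z ∈ s59t_eig (s59t_partRep (s59t_rho (N₂ * ∏ j, qv j) (s59t_Hmul N₂ (∏ j, qv j) (⊤ : Subgroup (ZMod N₂)ˣ) (s59t_KQ (p ^ n) qv)) 𝒪 𝒪) hρ'₂) (s59t_CQ N₂ (∏ j, qv j) (⊤ : Subgroup (ZMod N₂)ˣ) (s59t_KQ (p ^ n) qv)) (1 : (s59t_Delta (N₂ * ∏ j, qv j) (s59t_Hmul N₂ (∏ j, qv j) (⊤ : Subgroup (ZMod N₂)ˣ) (s59t_KQ (p ^ n) qv))) →* 𝒪ˣ),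
            ((s59f_oldN hqL hN' hG' 𝒪 𝒪 (s59f_eW hqL ((p ^ (0 + n) - 1) * ((p ^ (0 + n) + 1) / 2))) he' hee).restrict hc').corA z = y₁ ∧ ((s59f_oldN hqL hN' hG' 𝒪 𝒪 (s59f_eW hqL ((p ^ (0 + n) - 1) * ((p ^ (0 + n) + 1) / 2))) he' hee).restrict hc').corB z = y₂) :
        ∀ (hqL : ¬ q ∣ (N₁ * ∏ j, qv j)) (hN' : (N₂ * ∏ j, qv j) = (N₁ * ∏ j, qv j) * q)
          (hG' : s59f_IsG' (N₁ * ∏ j, qv j) q (s59t_Hmul N₁ (∏ j, qv j) (⊤ : Subgroup (ZMod N₁)ˣ) (s59t_KQ (p ^ n) qv)) (s48h_GammaH (N₂ * ∏ j, qv j) (s59t_Hmul N₂ (∏ j, qv j) (⊤ : Subgroup (ZMod N₂)ˣ) (s59t_KQ (p ^ n) qv))))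
          (he' : s59f_eW hqL ((p ^ (0 + n) - 1) * ((p ^ (0 + n) + 1) / 2)) ∈ Gamma0 (N₂ * ∏ j, qv j))
          (hee : s59f_gW hqL * s59f_eW hqL ((p ^ (0 + n) - 1) * ((p ^ (0 + n) + 1) / 2)) * s59f_eW hqL ((p ^ (0 + n) - 1) * ((p ^ (0 + n) + 1) / 2)) ∈ s48h_GammaH (N₂ * ∏ j, qv j) (s59t_Hmul N₂ (∏ j, qv j) (⊤ : Subgroup (ZMod N₂)ˣ) (s59t_KQ (p ^ n) qv)))
          (hc' : (s59f_oldN hqL hN' hG' 𝒪 𝒪 (s59f_eW hqL ((p ^ (0 + n) - 1) * ((p ^ (0 + n) + 1) / 2))) he' hee).Compat (s59t_actH (N₁ * ∏ j, qv j) aq (dvd_refl (N₁ * ∏ j, qv j)) (s59t_Hmul N₁ (∏ j, qv j) (⊤ : Subgroup (ZMod N₁)ˣ) (s59t_KQ (p ^ n) qv)) (G₁ * s59t_jG 𝒪 (s59t_goodB (N₁ * ∏ j, qv j) B) e₀₁)) (s59t_actH (N₂ * ∏ j, qv j) aq (dvd_refl (N₂ * ∏ j, qv j)) (s59t_Hmul N₂ (∏ j, qv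 j) (⊤ : Subgroup (ZMod N₂)ˣ) (s59t_KQ (p ^ n) qv)) (G₂ * s59t_jG 𝒪 (s59t_goodB (N₂ * ∏ j, qv j) B) e₀₂))) (hst : s59x_OldStable ((s59f_oldN hqL hN' hG' 𝒪 𝒪 (s59f_eW hqL ((p ^ (0 + n) - 1) * ((p ^ (0 + n) + 1) / 2))) he' hee).restrict hc') (s59t_part P'₁) (s59t_part P'₂)),
          ∀ x ∈ ((RingHom.ker (κ : DQ.R →+* Dfs.R) : Ideal DQ.R) : Set DQ.R),
          ∀ u ∈ s59t_eig (s59t_partRep (s59t_partRep (s59t_rho (N₁ * ∏ j, qv j) (s59t_Hmul N₁ (∏ j, qv j) (⊤ : Subgroup (ZMod N₁)ˣ) (s59t_KQ (p ^ n) qv)) 𝒪 𝒪) hρ'₁) hP'₁) (s59t_CQ N₁ (∏ j, qv j) (⊤ : Subgroup (ZMod N₁)ˣ) (s59t_KQ (p ^ n) qv)) (1 : (s59t_Delta (N₁ * ∏ j, qv j) (s59t_Hmul N₁ (∏ j, qv j) (⊤ : Subgroup (ZMod N₁)ˣ) (s59t_KQ (p ^ n) qv))) →* 𝒪ˣ),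
          ∀ v ∈ s59t_eig (s59t_partRep (s59t_partRep (s59t_rho (N₁ * ∏ j, qv j) (s59t_Hmul N₁ (∏ j, qv j) (⊤ : Subgroup (ZMod N₁)ˣ) (s59t_KQ (p ^ n) qv)) 𝒪 𝒪) hρ'₁) hP'₁) (s59t_CQ N₁ (∏ j, qv j) (⊤ : Subgroup (ZMod N₁)ˣ) (s59t_KQ (p ^ n) qv)) (1 : (s59t_Delta (N₁ * ∏ j, qv j) (s59t_Hmul N₁ (∏ j, qv j) (⊤ : Subgroup (ZMod N₁)ˣ) (s59t_KQ (p ^ n) qv))) →* 𝒪ˣ),
          ∃ z ∈ s59t_eig (s59t_partRep (s59t_partRep (s59t_rho (N₂ * ∏ j, qv j) (s59t_Hmul N₂ (∏ j, qv j) (⊤ : Subgroup (ZMod N₂)ˣ) (s59t_KQ (p ^ n) qv)) 𝒪 𝒪) hρ'₂) hP'₂) (s59t_CQ N₂ (∏ j, qv j) (⊤ : Subgroup (ZMod N₂)ˣ) (s59t_KQ (p ^ n) qv)) (1 : (s59t_Delta (N₂ * ∏ j, qv j) (s59t_Hmul N₂ (∏ j, qv j) (⊤ : Subgroup (ZMod N₂)ˣ) (s59t_KQ (p ^ n) qv))) →* 𝒪ˣ),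
            (s59x_oldSub ((s59f_oldN hqL hN' hG' 𝒪 𝒪 (s59f_eW hqL ((p ^ (0 + n) - 1) * ((p ^ (0 + n) + 1) / 2))) he' hee).restrict hc') hst).corA z = ((θ₁ x : s59e_adj 𝒪 aZ₁) : Module.End 𝒪 (s59t_part P'₁)) u ∧
            (s59x_oldSub ((s59f_oldN hqL hN' hG' 𝒪 𝒪 (s59f_eW hqL ((p ^ (0 + n) - 1) * ((p ^ (0 + n) + 1) / 2))) he' hee).restrict hc') hst).corB z = ((θ₁ x : s59e_adj 𝒪 aZ₁) : Module.End 𝒪 (s59t_part P'₁)) v := by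
  classical
  intro hqL hN' hG' he' hee hc' hst x hx u hu v hv
  have hqP : q.Prime := hq.out
  have hpP : p.Prime := Fact.out
  -- numerology
  have hS₂ : ∀ N : ℕ, (∀ ℓ : ℕ, ℓ.Prime → ℓ ∣ N → ℓ ∈ B) → ∀ ℓ : ℕ, ℓ.Prime →
      ℓ ∣ (N * ∏ q' ∈ Finset.univ.image qv, q' ^ 2) → ℓ ∈ (B ∪ Finset.univ.image qv) := by
    intro N hNB ℓ hℓ hℓM
    rcases (Nat.Prime.dvd_mul hℓ).mp hℓM with h | h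
    · exact Finset.mem_union_left _ (hNB ℓ hℓ h)
    · obtain ⟨q', hq', hqq'⟩ := (Prime.dvd_finsetProd_iff (Nat.prime_iff.mp hℓ) _).mp h
      obtain ⟨i, -, rfl⟩ := Finset.mem_image.mp hq'
      have hqe : ℓ = qv i := (Nat.prime_dvd_prime_iff_eq hℓ (hqvpr i)).mp (hℓ.dvd_of_dvd_pow hqq')
      subst hqe
      exact Finset.mem_union_right _ (Finset.mem_image_of_mem qv (Finset.mem_univ i))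
  have hMS : ∀ N : ℕ, (∀ ℓ : ℕ, ℓ.Prime → ℓ ∣ N → ℓ ∈ B) → ∀ ℓ : ℕ, ℓ.Prime →
      ℓ ∣ N * ∏ j, qv j → ℓ ∈ (B ∪ Finset.univ.image qv) := by
    intro N hNB ℓ hℓ hℓM
    rcases (Nat.Prime.dvd_mul hℓ).mp hℓM with h | h
    · exact Finset.mem_union_left _ (hNB ℓ hℓ h)
    · obtain ⟨i, -, hi⟩ := (Prime.dvd_finsetProd_iff (Nat.prime_iff.mp hℓ) _).mp h
      have hqe : ℓ = qv i := (Nat.prime_dvd_prime_iff_eq hℓ (hqvpr i)).mp hi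
      subst hqe
      exact Finset.mem_union_right _ (Finset.mem_image_of_mem qv (Finset.mem_univ i))
  have hLNq : (N₁ * ∏ j, qv j) ∣ (N₂ * ∏ j, qv j) := Dvd.intro q hN'.symm
  have hLNp : (N₃ * ∏ j, qv j) ∣ (N₂ * ∏ j, qv j) := Dvd.intro p hN'p.symm
  -- injectivity of the two `resA`
  have hinjq : Function.Injective (s59t_Old.restrict hc').resA :=
    s59efl_resA_injective _ (s59efl_part_torsionfree _ _) (by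
      show ((q : ℕ) : 𝒪) + 1 ≠ 0
      exact_mod_cast Nat.succ_ne_zero q)
  have hinjp : Function.Injective (s59t_Old.restrict hc'p).resA :=
    s59efl_resA_injective _ (s59efl_part_torsionfree _ _) (by
      show ((p : ℕ) : 𝒪) + 1 ≠ 0
      exact_mod_cast Nat.succ_ne_zero p)
  -- the twisted Hecke operators on the part `YB`
  have hεc₁ : ∀ j : s59w_AIdx (N₁ * ∏ j, qv j), (s59t_actH (N₁ * ∏ j, qv j) aq (dvd_refl (N₁ * ∏ j, qv j)) (s59t_Hmul N₁ (∏ j, qv j) (⊤ : Subgroup (ZMod N₁)ˣ) (s59t_KQ (p ^ n) qv)) (G₁ * s59t_jG 𝒪 (s59t_goodB (N₁ * ∏ j, qv j) B) e₀₁)) * s59w_op (s59t_Hmul N₁ (∏ j, qv j) (⊤ : Subgroup (ZMod N₁)ˣ) (s59t_KQ (p ^ n) qv)) 𝒪 j = s59w_op (s59t_Hmul N₁ (∏ j, qv j) (⊤ : Subgroup (ZMod N₁)ˣ) (s59t_KQ (p ^ n) qv)) 𝒪 j * (s59t_actH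 (N₁ * ∏ j, qv j) aq (dvd_refl (N₁ * ∏ j, qv j)) (s59t_Hmul N₁ (∏ j, qv j) (⊤ : Subgroup (ZMod N₁)ˣ) (s59t_KQ (p ^ n) qv)) (G₁ * s59t_jG 𝒪 (s59t_goodB (N₁ * ∏ j, qv j) B) e₀₁)) :=
    fun j => s59t_actH_comm_op (s59t_Hmul N₁ (∏ j, qv j) (⊤ : Subgroup (ZMod N₁)ˣ) (s59t_KQ (p ^ n) qv)) aq _ j
  have hxBex : ∃ xB : s59w_TIdx (N₁ * ∏ j, qv j) → Module.End 𝒪 (s59t_part (s59t_actH (N₁ * ∏ j, qv j) aq (dvd_refl (N₁ * ∏ j, qv j)) (s59t_Hmul N₁ (∏ j, qv j) (⊤ : Subgroup (ZMod N₁)ˣ) (s59t_KQ (p ^ n) qv)) (G₁ * s59t_jG 𝒪 (s59t_goodB (N₁ * ∏ j, qv j) B) e₀₁))), ∀ (i : s59w_TIdx (N₁ * ∏ j, qv j)) (z : s59t_part (s59t_actH (N₁ * ∏ j, qv j) aq (dvd_refl (N₁ * ∏ j, qv j)) (s59t_Hmul N₁ (∏ j, qv j) (⊤ : Subgroup (ZMod N₁)ˣ) (s59t_KQ (p ^ n) qv)) (G₁ * s59t_jG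 𝒪 (s59t_goodB (N₁ * ∏ j, qv j) B) e₀₁))),
      ((xB i z : s59t_part (s59t_actH (N₁ * ∏ j, qv j) aq (dvd_refl (N₁ * ∏ j, qv j)) (s59t_Hmul N₁ (∏ j, qv j) (⊤ : Subgroup (ZMod N₁)ˣ) (s59t_KQ (p ^ n) qv)) (G₁ * s59t_jG 𝒪 (s59t_goodB (N₁ * ∏ j, qv j) B) e₀₁))) : (s48h_Hpar 𝒪 (s48h_GammaH (N₁ * ∏ j, qv j) (s59t_Hmul N₁ (∏ j, qv j) (⊤ : Subgroup (ZMod N₁)ˣ) (s59t_KQ (p ^ n) qv))) 𝒪)) = s59e_Tp' (s59t_Hmul N₁ (∏ j, qv j) (⊤ : Subgroup (ZMod N₁)ˣ) (s59t_KQ (p ^ n) qv)) 𝒪 ((p ^ (0 + n) - 1) * ((p ^ (0 + n) + 1) / 2)) i (z : (s48h_Hpar 𝒪 (s48h_GammaH (N₁ * ∏ j, qv j) (s59t_Hmul N₁ (∏ j, qv j) (⊤ : Subgroup (ZMod N₁)ˣ) (s59t_KQ (p ^ n) qv))) 𝒪)) :=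
    ⟨fun i => s59e_opPart (s59t_Hmul N₁ (∏ j, qv j) (⊤ : Subgroup (ZMod N₁)ˣ) (s59t_KQ (p ^ n) qv)) (s59t_actH (N₁ * ∏ j, qv j) aq (dvd_refl (N₁ * ∏ j, qv j)) (s59t_Hmul N₁ (∏ j, qv j) (⊤ : Subgroup (ZMod N₁)ˣ) (s59t_KQ (p ^ n) qv)) (G₁ * s59t_jG 𝒪 (s59t_goodB (N₁ * ∏ j, qv j) B) e₀₁)) hεc₁ (Sum.inr (s59e_tau i ((p ^ (0 + n) - 1) * ((p ^ (0 + n) + 1) / 2)))) * s59e_opPart (s59t_Hmul N₁ (∏ j, qv j) (⊤ : Subgroup (ZMod N₁)ˣ) (s59t_KQ (p ^ n) qv)) (s59t_actH (N₁ * ∏ j, qv j) aq (dvd_refl (N₁ * ∏ j, qv j)) (s59t_Hmul N₁ (∏ j, qv j) (⊤ : Subgroup (ZMod N₁)ˣ) (s59t_KQ (p ^ n) qv)) (G₁ * s59t_jG 𝒪 (s59t_goodB (N₁ * ∏ j, qv j) B) e₀₁)) hεc₁ (Sum.inl i),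
      fun i z => rfl⟩
  choose xB hxB using hxBex
  -- `htT'` at the three levels
  have htZ₁ := s59x_htT'_Z (s59t_Hmul N₁ (∏ j, qv j) (⊤ : Subgroup (ZMod N₁)ˣ) (s59t_KQ (p ^ n) qv)) (s59t_actH (N₁ * ∏ j, qv j) aq (dvd_refl (N₁ * ∏ j, qv j)) (s59t_Hmul N₁ (∏ j, qv j) (⊤ : Subgroup (ZMod N₁)ˣ) (s59t_KQ (p ^ n) qv)) (G₁ * s59t_jG 𝒪 (s59t_goodB (N₁ * ∏ j, qv j) B) e₀₁)) P'₁ (B ∪ Finset.univ.image qv) a₁ ((p ^ (0 + n) - 1) * ((p ^ (0 + n) + 1) / 2)) ha1₁ aZ₁ haZ₁ (hS₂ N₁ hNB₁)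
  have htF₂ := s59e_htT'_part (s59t_Hmul N₂ (∏ j, qv j) (⊤ : Subgroup (ZMod N₂)ˣ) (s59t_KQ (p ^ n) qv)) (s59t_actH (N₂ * ∏ j, qv j) aq (dvd_refl (N₂ * ∏ j, qv j)) (s59t_Hmul N₂ (∏ j, qv j) (⊤ : Subgroup (ZMod N₂)ˣ) (s59t_KQ (p ^ n) qv)) (G₂ * s59t_jG 𝒪 (s59t_goodB (N₂ * ∏ j, qv j) B) e₀₂)) (B ∪ Finset.univ.image qv) a₂ ((p ^ (0 + n) - 1) * ((p ^ (0 + n) + 1) / 2)) ha1₂ aF₂ haF₂ (hS₂ N₂ hNB₂)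
  have htM₃ := s59e_htT'_part (s59t_Hmul N₃ (∏ j, qv j) (⊤ : Subgroup (ZMod N₃)ˣ) (s59t_KQ (p ^ n) qv)) (s59t_actH (N₃ * ∏ j, qv j) aq (dvd_refl (N₃ * ∏ j, qv j)) (s59t_Hmul N₃ (∏ j, qv j) (⊤ : Subgroup (ZMod N₃)ˣ) (s59t_KQ (p ^ n) qv)) (G₃ * s59t_jG 𝒪 (s59t_goodB (N₃ * ∏ j, qv j) B) e₀₃)) (B ∪ Finset.univ.image qv) a₃ ((p ^ (0 + n) - 1) * ((p ^ (0 + n) + 1) / 2)) ha1₃ aM₃ haM₃ (hS₂ N₃ hNB₃)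
  -- the compatibilities of the trace generators
  have hcq : ∀ i₂ : s59w_TIdx (N₂ * ∏ j, qv j), i₂.ell ∉ (B ∪ Finset.univ.image qv) →
      (s59t_Old.restrict hc').Compat (xB (s59t_TIdx_down hLNq i₂))
        ((s59e_tOf (↑(B ∪ Finset.univ.image qv) : Set ℕ) aF₂ i₂.ell : s59e_adj 𝒪 aF₂) : Module.End 𝒪 _) :=
    fun i₂ hi₂ => s59efl_compat_of_val hc' (s59efl_compat_Tp' hqL hN' hG' _ he' hee hLNq ((p ^ (0 + n) - 1) * ((p ^ (0 + n) + 1) / 2)) i₂) _ _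
      (fun z => hxB _ z) (fun z => htF₂ i₂ hi₂ z)
  have hcp : ∀ i₂ : s59w_TIdx (N₂ * ∏ j, qv j), i₂.ell ∉ (B ∪ Finset.univ.image qv) →
      (s59t_Old.restrict hc'p).Compat
        ((s59e_tOf (↑(B ∪ Finset.univ.image qv) : Set ℕ) aM₃ i₂.ell : s59e_adj 𝒪 aM₃) : Module.End 𝒪 _)
        ((s59e_tOf (↑(B ∪ Finset.univ.image qv) : Set ℕ) aF₂ i₂.ell : s59e_adj 𝒪 aF₂) : Module.End 𝒪 _) :=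
    fun i₂ hi₂ => s59efl_compat_of_val hc'p (s59efl_compat_Tp' hpL hN'p hG'p _ hep' heep' hLNp ((p ^ (0 + n) - 1) * ((p ^ (0 + n) + 1) / 2)) i₂) _ _
      (fun z => htM₃ (s59t_TIdx_down hLNp i₂) hi₂ z) (fun z => htF₂ i₂ hi₂ z)
  have hZB : ∀ i₂ : s59w_TIdx (N₂ * ∏ j, qv j), i₂.ell ∉ (B ∪ Finset.univ.image qv) → ∀ w : s59t_part P'₁,
      (((((s59e_tOf (↑(B ∪ Finset.univ.image qv) : Set ℕ) aZ₁ i₂.ell : s59e_adj 𝒪 aZ₁) : Module.End 𝒪 _) w : s59t_part P'₁)) :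
        s59t_part (s59t_actH (N₁ * ∏ j, qv j) aq (dvd_refl (N₁ * ∏ j, qv j)) (s59t_Hmul N₁ (∏ j, qv j) (⊤ : Subgroup (ZMod N₁)ˣ) (s59t_KQ (p ^ n) qv)) (G₁ * s59t_jG 𝒪 (s59t_goodB (N₁ * ∏ j, qv j) B) e₀₁))) = xB (s59t_TIdx_down hLNq i₂) (w : s59t_part (s59t_actH (N₁ * ∏ j, qv j) aq (dvd_refl (N₁ * ∏ j, qv j)) (s59t_Hmul N₁ (∏ j, qv j) (⊤ : Subgroup (ZMod N₁)ˣ) (s59t_KQ (p ^ n) qv)) (G₁ * s59t_jG 𝒪 (s59t_goodB (N₁ * ∏ j, qv j) B) e₀₁))) :=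
    fun i₂ hi₂ w => Subtype.ext
      ((htZ₁ (s59t_TIdx_down hLNq i₂) hi₂ w).trans (hxB (s59t_TIdx_down hLNq i₂) (w : s59t_part (s59t_actH (N₁ * ∏ j, qv j) aq (dvd_refl (N₁ * ∏ j, qv j)) (s59t_Hmul N₁ (∏ j, qv j) (⊤ : Subgroup (ZMod N₁)ˣ) (s59t_KQ (p ^ n) qv)) (G₁ * s59t_jG 𝒪 (s59t_goodB (N₁ * ∏ j, qv j) B) e₀₁)))).symm)
  have hidx : ∀ ℓ : ℕ, ℓ.Prime → ℓ ∉ (B ∪ Finset.univ.image qv) → ∃ i₂ : s59w_TIdx (N₂ * ∏ j, qv j), i₂.ell = ℓ :=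
    fun ℓ hℓ hℓS => s59e_exists_TIdx (M := (N₂ * ∏ j, qv j)) hℓ (fun h => hℓS (hMS N₂ hNB₂ ℓ hℓ h))
  -- the generators
  have hgF₂ := s59b_adjoin_tOf (𝒪 := 𝒪) (B ∪ Finset.univ.image qv) (hS₂ N₂ hNB₂) aF₂ N₂ (Dvd.intro _ rfl)
  have hgZ₁ := s59b_adjoin_tOf (𝒪 := 𝒪) (B ∪ Finset.univ.image qv) (hS₂ N₁ hNB₁) aZ₁ N₁ (Dvd.intro _ rfl)
  have hgM₃ := s59b_adjoin_tOf (𝒪 := 𝒪) (B ∪ Finset.univ.image qv) (hS₂ N₃ hNB₃) aM₃ N₃ (Dvd.intro _ rfl)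
  -- the Hecke ring of the full part commutes with the diamond operators
  have hFa₂ := s59e_hFa_part (s59t_Hmul N₂ (∏ j, qv j) (⊤ : Subgroup (ZMod N₂)ˣ) (s59t_KQ (p ^ n) qv)) (s59t_actH (N₂ * ∏ j, qv j) aq (dvd_refl (N₂ * ∏ j, qv j)) (s59t_Hmul N₂ (∏ j, qv j) (⊤ : Subgroup (ZMod N₂)ˣ) (s59t_KQ (p ^ n) qv)) (G₂ * s59t_jG 𝒪 (s59t_goodB (N₂ * ∏ j, qv j) B) e₀₂)) hρ'₂ a₂ ((p ^ (0 + n) - 1) * ((p ^ (0 + n) + 1) / 2)) ha2₂ aF₂ haF₂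
  have hDe : ∀ τ ∈ s59e_adj 𝒪 aF₂, ∀ d ∈ s59t_eig (s59t_partRep (s59t_rho (N₂ * ∏ j, qv j) (s59t_Hmul N₂ (∏ j, qv j) (⊤ : Subgroup (ZMod N₂)ˣ) (s59t_KQ (p ^ n) qv)) 𝒪 𝒪) hρ'₂) (s59t_CQ N₂ (∏ j, qv j) (⊤ : Subgroup (ZMod N₂)ˣ) (s59t_KQ (p ^ n) qv)) (1 : (s59t_Delta (N₂ * ∏ j, qv j) (s59t_Hmul N₂ (∏ j, qv j) (⊤ : Subgroup (ZMod N₂)ˣ) (s59t_KQ (p ^ n) qv))) →* 𝒪ˣ),
      τ d ∈ s59t_eig (s59t_partRep (s59t_rho (N₂ * ∏ j, qv j) (s59t_Hmul N₂ (∏ j, qv j) (⊤ : Subgroup (ZMod N₂)ˣ) (s59t_KQ (p ^ n) qv)) 𝒪 𝒪) hρ'₂) (s59t_CQ N₂ (∏ j, qv j) (⊤ : Subgroup (ZMod N₂)ˣ) (s59t_KQ (p ^ n) qv)) (1 : (s59t_Delta (N₂ * ∏ j, qv j) (s59t_Hmul N₂ (∏ j, qv j) (⊤ : Subgroup (ZMod N₂)ˣ) (s59t_KQ (p ^ n) qv))) →* 𝒪ˣ) := by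
    intro τ hτ d hd β hβ
    have h1 := LinearMap.congr_fun (s59e_adj_commute_rho aF₂ (s59t_partRep (s59t_rho (N₂ * ∏ j, qv j) (s59t_Hmul N₂ (∏ j, qv j) (⊤ : Subgroup (ZMod N₂)ˣ) (s59t_KQ (p ^ n) qv)) 𝒪 𝒪) hρ'₂) hFa₂ hτ β).eq d
    rw [Module.End.mul_apply, Module.End.mul_apply] at h1
    rw [← h1, hd β hβ]
    simp only [MonoidHom.one_apply, Units.val_one, one_smul]
  -- the kernel pair `ZD`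
  have hZD : ∀ z : s59t_part (s59t_actH (N₂ * ∏ j, qv j) aq (dvd_refl (N₂ * ∏ j, qv j)) (s59t_Hmul N₂ (∏ j, qv j) (⊤ : Subgroup (ZMod N₂)ˣ) (s59t_KQ (p ^ n) qv)) (G₂ * s59t_jG 𝒪 (s59t_goodB (N₂ * ∏ j, qv j) B) e₀₂)), (s59t_Old.restrict hc'p).corA z = 0 →
      (s59t_Old.restrict hc'p).corB z = 0 → z ∈ s59t_part P'₂ :=
    fun z h1 h2 => (hmem'₂ z).mpr ⟨h1, h2⟩
  have hmain := s59x_wall_K4_idx p hLs hLf Sg Smin DQ Dfs κ hκtr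
    (s59t_Old.restrict hc') (s59t_Old.restrict hc'p) hinjq hinjp hst hZD
    (s59t_eig (s59t_partRep (s59t_rho (N₁ * ∏ j, qv j) (s59t_Hmul N₁ (∏ j, qv j) (⊤ : Subgroup (ZMod N₁)ˣ) (s59t_KQ (p ^ n) qv)) 𝒪 𝒪) hρ'₁) (s59t_CQ N₁ (∏ j, qv j) (⊤ : Subgroup (ZMod N₁)ˣ) (s59t_KQ (p ^ n) qv)) (1 : (s59t_Delta (N₁ * ∏ j, qv j) (s59t_Hmul N₁ (∏ j, qv j) (⊤ : Subgroup (ZMod N₁)ˣ) (s59t_KQ (p ^ n) qv))) →* 𝒪ˣ)) (s59t_eig (s59t_partRep (s59t_rho (N₂ * ∏ j, qv j) (s59t_Hmul N₂ (∏ j, qv j) (⊤ : Subgroup (ZMod N₂)ˣ) (s59t_KQ (p ^ n) qv)) 𝒪 𝒪) hρ'₂) (s59t_CQ N₂ (∏ j, qv j) (⊤ : Subgroup (ZMod N₂)ˣ) (s59t_KQ (p ^ n) qv)) (1 : (s59t_Delta (N₂ * ∏ j, qv j) (s59t_Hmul N₂ (∏ j, qv j) (⊤ : Subgroup (ZMod N₂)ˣ) (s59t_KQ (p ^ n) qv))) →* 𝒪ˣ))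
    (fun y₁ hy₁ y₂ hy₂ => hK3 hqL hN' hG' he' hee hc' y₁ hy₁ y₂ hy₂)
    aM₃ aF₂ aZ₁ hresF₂ hDe
    (B ∪ Finset.univ.image qv) N₂ N₁ N₃
    (s59e_tOf (↑(B ∪ Finset.univ.image qv) : Set ℕ) aF₂) (s59e_tOf (↑(B ∪ Finset.univ.image qv) : Set ℕ) aZ₁) (s59e_tOf (↑(B ∪ Finset.univ.image qv) : Set ℕ) aM₃)
    hgF₂ hgZ₁ hgM₃
    (fun i₂ : s59w_TIdx (N₂ * ∏ j, qv j) => i₂.ell) hidx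
    (fun i₂ : s59w_TIdx (N₂ * ∏ j, qv j) => xB (s59t_TIdx_down hLNq i₂)) hcq hcp hZB
    θ₁ hθl₁ ρC hρC habsC hfrobT₁ hfrobC x hx u v
    ((s59x_mem_eig_partRep (s59t_partRep (s59t_rho (N₁ * ∏ j, qv j) (s59t_Hmul N₁ (∏ j, qv j) (⊤ : Subgroup (ZMod N₁)ˣ) (s59t_KQ (p ^ n) qv)) 𝒪 𝒪) hρ'₁) hP'₁ (s59t_CQ N₁ (∏ j, qv j) (⊤ : Subgroup (ZMod N₁)ˣ) (s59t_KQ (p ^ n) qv)) 1 u).mp hu)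
    ((s59x_mem_eig_partRep (s59t_partRep (s59t_rho (N₁ * ∏ j, qv j) (s59t_Hmul N₁ (∏ j, qv j) (⊤ : Subgroup (ZMod N₁)ˣ) (s59t_KQ (p ^ n) qv)) 𝒪 𝒪) hρ'₁) hP'₁ (s59t_CQ N₁ (∏ j, qv j) (⊤ : Subgroup (ZMod N₁)ˣ) (s59t_KQ (p ^ n) qv)) 1 v).mp hv)
  choose z hz hzA hzB using hmain
  exact ⟨z, (s59x_mem_eig_partRep (s59t_partRep (s59t_rho (N₂ * ∏ j, qv j) (s59t_Hmul N₂ (∏ j, qv j) (⊤ : Subgroup (ZMod N₂)ˣ) (s59t_KQ (p ^ n) qv)) 𝒪 𝒪) hρ'₂) hP'₂ (s59t_CQ N₂ (∏ j, qv j) (⊤ : Subgroup (ZMod N₂)ˣ) (s59t_KQ (p ^ n) qv)) 1 z).mpr hz, hzA, hzB⟩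

end Fermat.Agent.Lib.S59

end
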