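/-
PROGRAMME (R2) = S59, case (P), NON-MINIMAL half, item [WALL] / [W4c] (helper7, prefix `s59x_`): **THE FIVE HYPOTHESES OF ONE STEP OF THE CHAIN ON THE KERNEL PAIRS, file 0: small abstract lemmas** (generated by
`scratch_py/gen_steph5.py`).  Everything that needs `rw`/`obtain`/`subst` is done here over small contexts (in the concrete files NXStepH1–4 every such tactic costs minutes).
-/
import Mathlib
import Fermat.Agent.Lib.S59.NXKerH1
import Fermat.Agent.Lib.S59.NXKerH3r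
import Fermat.Agent.Lib.S59.NXOldSub2
import Fermat.Agent.Lib.S59.TLvlQ3

set_option autoImplicit false
set_option linter.unusedSectionVars false
set_option linter.unusedVariables false
set_option linter.style.haveILetI false
set_option maxHeartbeats 0
set_option synthInstance.maxHeartbeats 400000
set_option maxSynthPendingDepth 3
set_option backward.isDefEq.respectTransparency.types true

noncomputable section

namespace Fermat.Agent.Lib.S59

open IsLocalRing CuspForm Polynomial CongruenceSubgroup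
open Fermat.Agent.Lib.S48 Fermat.Agent.Lib.S44
open scoped MatrixGroups

local notation "Γℚ" => (AlgebraicClosure ℚ ≃ₐ[ℚ] AlgebraicClosure ℚ)

/-- helper9's form of the Hecke stability of a kernel part ⟹ the `s59m_opPart` form. -/
theorem s59x_hZop_of_ex {𝒪 : Type} [CommRing 𝒪] {M : ℕ} [NeZero M] (H : Subgroup (ZMod M)ˣ)
    (ε' : Module.End 𝒪 (s48h_Hpar 𝒪 (s48h_GammaH M H) 𝒪))
    (hεop : ∀ x y, ε' (s59w_op H 𝒪 x y) = s59w_op H 𝒪 x (ε' y))
    (P' : Module.End 𝒪 (s59t_part ε'))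
    (hZop : ∀ (x : s59w_AIdx M) (z : s59t_part P'), ∃ z' : s59t_part P',
      s59x_jZ H ε' P' z' = s59w_op H 𝒪 x (s59x_jZ H ε' P' z)) :
    ∀ x, ∀ z ∈ s59t_part P', s59m_opPart H ε' hεop x z ∈ s59t_part P' := by
  intro x z hz
  have h := hZop x ⟨z, hz⟩
  obtain ⟨z', hz'⟩ := h
  have e : (z' : s59t_part ε') = s59m_opPart H ε' hεop x z := Subtype.ext hz'
  exact e ▸ z'.2

/-- `T (T z) = c • z` ⟹ `c • z - (T ^ 2) z = 0`. -/
theorem s59x_sq_sub_eq_zero {R M : Type*} [CommRing R] [AddCommGroup M] [Module R M]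
    (T : Module.End R M) (c : R) (z : M) (h : T (T z) = c • z) : c • z - (T ^ 2) z = 0 := by
  rw [sub_eq_zero, pow_two, Module.End.mul_apply]
  exact h.symm

/-- the primes dividing a Taylor–Wiles level lie in `B ∪ Q`. -/
theorem s59x_prime_dvd_lvl_mem {B : Finset ℕ} {r : ℕ} (qv : Fin r → ℕ) (hqvpr : ∀ i, (qv i).Prime)
    (N : ℕ) (hNB : ∀ ℓ : ℕ, ℓ.Prime → ℓ ∣ N → ℓ ∈ B) :
    ∀ ℓ : ℕ, ℓ.Prime → ℓ ∣ N * ∏ j, qv j → ℓ ∈ (B ∪ Finset.univ.image qv) := by
  intro ℓ hℓ hℓM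
  rcases (Nat.Prime.dvd_mul hℓ).mp hℓM with h | h
  · exact Finset.mem_union_left _ (hNB ℓ hℓ h)
  · obtain ⟨i, -, hi⟩ := (Prime.dvd_finsetProd_iff (Nat.prime_iff.mp hℓ) _).mp h
    have hqe : ℓ = qv i := (Nat.prime_dvd_prime_iff_eq hℓ (hqvpr i)).mp hi
    subst hqe
    exact Finset.mem_union_right _ (Finset.mem_image_of_mem qv (Finset.mem_univ i))

/-- the primes dividing the level of the Hecke algebra of a Taylor–Wiles level lie in `B ∪ Q`. -/
theorem s59x_prime_dvd_lvl2_mem {B : Finset ℕ} {r : ℕ} (qv : Fin r → ℕ) (hqvpr : ∀ i, (qv i).Prime)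
    (N : ℕ) (hNB : ∀ ℓ : ℕ, ℓ.Prime → ℓ ∣ N → ℓ ∈ B) :
    ∀ ℓ : ℕ, ℓ.Prime → ℓ ∣ (N * ∏ q' ∈ Finset.univ.image qv, q' ^ 2) →
      ℓ ∈ (B ∪ Finset.univ.image qv) := by
  intro ℓ hℓ hℓM
  rcases (Nat.Prime.dvd_mul hℓ).mp hℓM with h | h
  · exact Finset.mem_union_left _ (hNB ℓ hℓ h)
  · obtain ⟨q', hq', hqq'⟩ := (Prime.dvd_finsetProd_iff (Nat.prime_iff.mp hℓ) _).mp h
    obtain ⟨i, -, rfl⟩ := Finset.mem_image.mp hq'
    have hqe : ℓ = qv i := (Nat.prime_dvd_prime_iff_eq hℓ (hqvpr i)).mp (hℓ.dvd_of_dvd_pow hqq')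
    subst hqe
    exact Finset.mem_union_right _ (Finset.mem_image_of_mem qv (Finset.mem_univ i))

/-- the groups `H_Q` of two levels `N₁ ∣ N₂` with full base group correspond. -/
theorem s59x_Hmul_top_iff (N₁ N₂ : ℕ) [NeZero N₁] [NeZero N₂] (D : ℕ) [NeZero D] [NeZero (N₁ * D)] [NeZero (N₂ * D)]
    (K : Subgroup (ZMod D)ˣ) (hLN : N₁ * D ∣ N₂ * D) (u : (ZMod (N₂ * D))ˣ) :
    u ∈ s59t_Hmul N₂ D (⊤ : Subgroup (ZMod N₂)ˣ) K ↔
      ZMod.unitsMap hLN u ∈ s59t_Hmul N₁ D (⊤ : Subgroup (ZMod N₁)ˣ) K := by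
  rw [s59t_mem_Hmul, s59t_mem_Hmul]
  have e2 : ZMod.unitsMap (s59t_dvd_mul_right' N₂ D) u =
      ZMod.unitsMap (s59t_dvd_mul_right' N₁ D) (ZMod.unitsMap hLN u) := by
    rw [← MonoidHom.comp_apply, ZMod.unitsMap_comp]
  rw [e2]
  exact ⟨fun h => ⟨Subgroup.mem_top _, h.2⟩, fun h => ⟨Subgroup.mem_top _, h.2⟩⟩

/-- transport of the description of a kernel pair by a `p`-package along an equality of the lower idempotent
(for helper9's `ε₁' = actH …` clause). -/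
theorem s59x_ppkg_transport {R XA XD : Type} [CommRing R] [AddCommGroup XA] [Module R XA]
    [AddCommGroup XD] [Module R XD] (D : s59t_Old R XA XD) {εA εA' : Module.End R XA} (h : εA = εA')
    {εD : Module.End R XD} (hc : D.Compat εA εD) (P : Module.End R (s59t_part εD))
    (hmem : ∀ x : s59t_part εD, x ∈ s59t_part P ↔
      (D.restrict hc).corA x = 0 ∧ (D.restrict hc).corB x = 0) :
    ∃ hc' : D.Compat εA' εD, ∀ x : s59t_part εD, x ∈ s59t_part P ↔
      (D.restrict hc').corA x = 0 ∧ (D.restrict hc').corB x = 0 := by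
  subst h
  exact ⟨hc, hmem⟩

end Fermat.Agent.Lib.S59

end
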