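/-
PROGRAMME (R2) = S59, case (P), NON-MINIMAL half, item [WALL] / [W4c] (helper7, prefix `s59x_`): **THE FIVE HYPOTHESES OF ONE STEP OF THE CHAIN ON THE KERNEL PAIRS, file 4: the weak trace clause `hT5w`** (generated by
`scratch_py/gen_steph5.py`).  `hT5w` of `s59x_step_concZ_gen` (NXConcZg.lean) in its exact binder form for `Jm = ker (κsf : R^{str}_Q ↠ R^{str ∧ flat}_Q)`, by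
`Internal.s59x_concZ_T5w` (NXConcT5) ∘ `Internal.s59x_K3_level` ∘ `Internal.s59x_baseT5_W` (NXConcK3) ∘ `s59f_oldN_compat_E0`.  Levels: `p`-free
upper level `M₁ q` (the FLAT level), `N₁ = M₁ p`, `N₂ = M₁ q p = N₁ q`.
-/
import Mathlib
import Fermat.Agent.Lib.S59.NXStepH0
import Fermat.Agent.Lib.S59.NXConcK3
import Fermat.Agent.Lib.S59.NXConcT5
import Fermat.Agent.Lib.S59.XDefOrd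
import Fermat.Agent.Lib.S59.XDefFlat
import Fermat.Agent.Lib.S59.QSfType
import Fermat.Agent.Lib.S59.LFinW1
import Fermat.Agent.Lib.S59.FEps5
import Fermat.Agent.Lib.S59.FOldH6
import Fermat.Agent.Lib.S59.FZ1b

set_option autoImplicit false
set_option linter.unusedSectionVars false
set_option linter.unusedVariables false
set_option linter.style.haveILetI false
set_option maxHeartbeats 0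
set_option synthInstance.maxHeartbeats 400000
set_option maxSynthPendingDepth 3
set_option backward.isDefEq.respectTransparency.types true

noncomputable section

namespace Fermat.Agent.Lib.S59

open IsLocalRing CuspForm Polynomial CongruenceSubgroup
open Fermat.Agent.Lib.S48 Fermat.Agent.Lib.S44
open scoped MatrixGroups

local notation "Γℚ" => (AlgebraicClosure ℚ ≃ₐ[ℚ] AlgebraicClosure ℚ)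

/-- **`hT5w`: the weak trace clause on the kernel pairs, for `Jm = ker (R^{str}_Q ↠ R^{str ∧ flat}_Q)`.** -/
theorem Internal.s59x_stepH_T5w (p : ℕ) [Fact p.Prime] (hp2 : p ≠ 2) (W : WeierstrassCurve ℤ) (hΔ : W.Δ ≠ 0)
    (B : Finset ℕ) (hirr : W.ModRepIsIrreducible p)
    (𝒪 : Type) [CommRing 𝒪] [IsDomain 𝒪] [IsDiscreteValuationRing 𝒪]
    [IsAdicComplete (maximalIdeal 𝒪) 𝒪] [Finite (ResidueField 𝒪)] [CharZero 𝒪]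
    [Algebra ℤ_[p] 𝒪]
    (hp𝒪 : ((p : ℕ) : 𝒪) ∈ maximalIdeal 𝒪)
    -- the levels
    (M₁ q N₁ N₂ : ℕ) [NeZero M₁] [NeZero (M₁ * q)] [NeZero N₁] [NeZero N₂] [hq : Fact q.Prime]
    (hN₁ : N₁ = M₁ * p) (hN₂ : N₂ = M₁ * q * p) (hN : N₂ = N₁ * q)
    (hqM₁ : ¬ q ∣ M₁) (hqp : q ≠ p) (hpB : p ∈ B)
    (hB1 : ∀ r : ℕ, r.Prime → r ∣ N₂ → r ∈ B)
    -- the base data of the level `N₁`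
    (e₁ : MvPolynomial ↥(s59t_goodB N₁ B) 𝒪)
    (h1e₁ : 1 - e₁ ∈ s59t_evalIdeal (fun x : ↥(s59t_goodB N₁ B) =>
      s59t_cB (𝒪 := 𝒪) N₁ (fun ℓ => W.apOfModel ℓ) (x : s59w_AIdx N₁)))
    (hid₁ : (s59t_E0 (⊤ : Subgroup (ZMod N₁)ˣ) B e₁) * (s59t_E0 (⊤ : Subgroup (ZMod N₁)ˣ) B e₁) = (s59t_E0 (⊤ : Subgroup (ZMod N₁)ˣ) B e₁))
    (hnil₁ : ∀ x ∈ s59t_goodB N₁ B, ∃ k : ℕ, ∀ y : (s48h_Hpar 𝒪 (s48h_GammaH N₁ (⊤ : Subgroup (ZMod N₁)ˣ)) 𝒪),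
      ((s59w_op (⊤ : Subgroup (ZMod N₁)ˣ) 𝒪 x - s59t_cB (𝒪 := 𝒪) N₁ (fun ℓ => W.apOfModel ℓ) x •
        (1 : Module.End 𝒪 (s48h_Hpar 𝒪 (s48h_GammaH N₁ (⊤ : Subgroup (ZMod N₁)ˣ)) 𝒪))) ^ k) ((s59t_E0 (⊤ : Subgroup (ZMod N₁)ˣ) B e₁) y) ∈
        (maximalIdeal 𝒪 • ⊤ : Submodule 𝒪 (s48h_Hpar 𝒪 (s48h_GammaH N₁ (⊤ : Subgroup (ZMod N₁)ˣ)) 𝒪)))
    -- the base data of the level `N₂`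
    (e₂ : MvPolynomial ↥(s59t_goodB N₂ B) 𝒪)
    (h1e₂ : 1 - e₂ ∈ s59t_evalIdeal (fun x : ↥(s59t_goodB N₂ B) =>
      s59t_cB (𝒪 := 𝒪) N₂ (fun ℓ => W.apOfModel ℓ) (x : s59w_AIdx N₂)))
    (hid₂ : (s59t_E0 (⊤ : Subgroup (ZMod N₂)ˣ) B e₂) * (s59t_E0 (⊤ : Subgroup (ZMod N₂)ˣ) B e₂) = (s59t_E0 (⊤ : Subgroup (ZMod N₂)ˣ) B e₂))
    (hnil₂ : ∀ x ∈ s59t_goodB N₂ B, ∃ k : ℕ, ∀ y : (s48h_Hpar 𝒪 (s48h_GammaH N₂ (⊤ : Subgroup (ZMod N₂)ˣ)) 𝒪),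
      ((s59w_op (⊤ : Subgroup (ZMod N₂)ˣ) 𝒪 x - s59t_cB (𝒪 := 𝒪) N₂ (fun ℓ => W.apOfModel ℓ) x •
        (1 : Module.End 𝒪 (s48h_Hpar 𝒪 (s48h_GammaH N₂ (⊤ : Subgroup (ZMod N₂)ˣ)) 𝒪))) ^ k) ((s59t_E0 (⊤ : Subgroup (ZMod N₂)ˣ) B e₂) y) ∈
        (maximalIdeal 𝒪 • ⊤ : Submodule 𝒪 (s48h_Hpar 𝒪 (s48h_GammaH N₂ (⊤ : Subgroup (ZMod N₂)ˣ)) 𝒪)))
    -- the Taylor–Wiles level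
    {r : ℕ} (n : ℕ) (qv : Fin r → ℕ) [NeZero (∏ j, qv j)] (aq : ℕ → 𝒪)
    (hqv : ∀ i, (qv i).Prime ∧ qv i ∉ B ∧ p ^ (n + 1) ∣ qv i - 1)
    (hcard₁ : Nat.card (s59t_BQ N₁ (∏ j, qv j) (⊤ : Subgroup (ZMod N₁)ˣ) (s59t_KQ (p ^ n) qv)) = (p ^ n) ^ r)
    -- the Galois side
    (Sg Su : Finset ℕ)
    (DQ : GaloisRep.DeformationRingData 𝒪 (s59i_rhobarW W p hΔ 𝒪 hp𝒪) (fun _A _ _ _ ρ => GaloisRep.strictOrdinaryCondition 𝒪 p Sg ρ ∧ ∀ q ∈ Su, q.Prime → q ≠ p → ρ.IsUnipotentOnInertiaAt q))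
    (Dsf : GaloisRep.DeformationRingData 𝒪 (s59i_rhobarW W p hΔ 𝒪 hp𝒪) (s59q_SfType 𝒪 p Sg Su))
    (κsf : DQ.R →ₐ[𝒪] Dsf.R) (hκtr : ∀ g, κsf (s59i_cpTr DQ.ρ g) = s59i_cpTr Dsf.ρ g)
        [NeZero ((M₁ * q) * ∏ j, qv j)]
        [NeZero (N₁ * ∏ j, qv j)]
        [NeZero (N₂ * ∏ j, qv j)]
        [NeZero ((M₁ * q) * ∏ q ∈ Finset.univ.image qv, q ^ 2)]
        [NeZero (N₁ * ∏ q ∈ Finset.univ.image qv, q ^ 2)]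
        [NeZero (N₂ * ∏ q ∈ Finset.univ.image qv, q ^ 2)]
        -- the Taylor–Wiles data of the level `N₁`
        (e₀₁ : MvPolynomial ↥(s59t_goodB (N₁ * ∏ j, qv j) B) 𝒪)
        (G₁ : MvPolynomial (s59w_AIdx (N₁ * ∏ j, qv j) ⊕ ℕ) 𝒪)
        (hρ'₁ : ∀ δ y, (s59t_actH (N₁ * ∏ j, qv j) aq (dvd_refl (N₁ * ∏ j, qv j)) (s59t_Hmul N₁ (∏ j, qv j) (⊤ : Subgroup (ZMod N₁)ˣ) (s59t_KQ (p ^ n) qv)) (G₁ * s59t_jG 𝒪 (s59t_goodB (N₁ * ∏ j, qv j) B) e₀₁)) ((s59t_rho (N₁ * ∏ j, qv j) (s59t_Hmul N₁ (∏ j, qv j) (⊤ : Subgroup (ZMod N₁)ˣ) (s59t_KQ (p ^ n) qv)) 𝒪 𝒪) δ y) = (s59t_rho (N₁ * ∏ j, qv j) (s59t_Hmul N₁ (∏ j, qv j) (⊤ : Subgroup (ZMod N₁)ˣ) (s59t_KQ (p ^ n) qv)) 𝒪 𝒪) δ ((s59t_actH (N₁ * ∏ j, qv j) aq (dvd_refl (N₁ * ∏ j, qv j)) (s59t_Hmul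 N₁ (∏ j, qv j) (⊤ : Subgroup (ZMod N₁)ˣ) (s59t_KQ (p ^ n) qv)) (G₁ * s59t_jG 𝒪 (s59t_goodB (N₁ * ∏ j, qv j) B) e₀₁)) y))
        (π₁ : s59t_part (s59t_actH (N₁ * ∏ j, qv j) aq (dvd_refl (N₁ * ∏ j, qv j)) (s59t_Hmul N₁ (∏ j, qv j) (⊤ : Subgroup (ZMod N₁)ˣ) (s59t_KQ (p ^ n) qv)) (G₁ * s59t_jG 𝒪 (s59t_goodB (N₁ * ∏ j, qv j) B) e₀₁)) →ₗ[𝒪] s59t_part (s59t_E0 (⊤ : Subgroup (ZMod N₁)ˣ) B e₁))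
        (hιπ₁ : ∀ y, s59t_iotaH (s59t_E0 (⊤ : Subgroup (ZMod N₁)ˣ) B e₁) (s59t_actH (N₁ * ∏ j, qv j) aq (dvd_refl (N₁ * ∏ j, qv j)) (s59t_Hmul N₁ (∏ j, qv j) (⊤ : Subgroup (ZMod N₁)ˣ) (s59t_KQ (p ^ n) qv)) (G₁ * s59t_jG 𝒪 (s59t_goodB (N₁ * ∏ j, qv j) B) e₀₁)) (s59t_resGHpar
      (s59t_GammaHmul_le (N := N₁) (D := ∏ j, qv j) (H := (⊤ : Subgroup (ZMod N₁)ˣ)) (K := s59t_KQ (p ^ n) qv)) 𝒪 𝒪) (π₁ y) =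
      s59t_normPsi (s59t_partRep (s59t_rho (N₁ * ∏ j, qv j) (s59t_Hmul N₁ (∏ j, qv j) (⊤ : Subgroup (ZMod N₁)ˣ) (s59t_KQ (p ^ n) qv)) 𝒪 𝒪) hρ'₁) (s59t_BQ N₁ (∏ j, qv j) (⊤ : Subgroup (ZMod N₁)ˣ) (s59t_KQ (p ^ n) qv)) 1 y)
        (hP1₁ : s59t_TWFull (s59t_Gamma0_anti (s59t_dvd_mul_left' N₁ (∏ j, qv j))) (s59t_GammaHmul_le (N := N₁) (D := ∏ j, qv j) (H := (⊤ : Subgroup (ZMod N₁)ˣ)) (K := s59t_KQ (p ^ n) qv)) (s59t_BQ N₁ (∏ j, qv j) (⊤ : Subgroup (ZMod N₁)ˣ) (s59t_KQ (p ^ n) qv)) (s59t_CQ N₁ (∏ j, qv j) (⊤ : Subgroup (ZMod N₁)ˣ) (s59t_KQ (p ^ n) qv)) (s59t_E0 (⊤ : Subgroup (ZMod N₁)ˣ) B e₁) (s59t_actH (N₁ * ∏ j, qv j) aq (dvd_refl (N₁ * ∏ j, qv j)) (s59t_Hmul N₁ (∏ j, qv j) (⊤ : Subgroup (ZMod N₁)ˣ) (s59t_KQ (p ^ n) qv)) (G₁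 * s59t_jG 𝒪 (s59t_goodB (N₁ * ∏ j, qv j) B) e₀₁)))
        -- the kernel pair of the level `N₁`
        (P'₁ : Module.End 𝒪 (s59t_part (s59t_actH (N₁ * ∏ j, qv j) aq (dvd_refl (N₁ * ∏ j, qv j)) (s59t_Hmul N₁ (∏ j, qv j) (⊤ : Subgroup (ZMod N₁)ˣ) (s59t_KQ (p ^ n) qv)) (G₁ * s59t_jG 𝒪 (s59t_goodB (N₁ * ∏ j, qv j) B) e₀₁))))
        (hP'₁ : ∀ δ x, P'₁ ((s59t_partRep (s59t_rho (N₁ * ∏ j, qv j) (s59t_Hmul N₁ (∏ j, qv j) (⊤ : Subgroup (ZMod N₁)ˣ) (s59t_KQ (p ^ n) qv)) 𝒪 𝒪) hρ'₁) δ x) = (s59t_partRep (s59t_rho (N₁ * ∏ j, qv j) (s59t_Hmul N₁ (∏ j, qv j) (⊤ : Subgroup (ZMod N₁)ˣ) (s59t_KQ (p ^ n) qv)) 𝒪 𝒪) hρ'₁) δ (P'₁ x))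
        (a₁ : (heckeAlgebra (N₁ * ∏ q ∈ Finset.univ.image qv, q ^ 2) 2 (↑(B ∪ Finset.univ.image qv) : Set ℕ)) →+* Module.End 𝒪 (s48h_Hpar 𝒪 (s48h_GammaH (N₁ * ∏ j, qv j) (s59t_Hmul N₁ (∏ j, qv j) (⊤ : Subgroup (ZMod N₁)ˣ) (s59t_KQ (p ^ n) qv))) 𝒪))
        (ha1₁ : ∀ (ℓ : ℕ) (hℓ : ℓ.Prime) (hℓN : ¬ ℓ ∣ (N₁ * ∏ q ∈ Finset.univ.image qv, q ^ 2))
      (hℓS : ℓ ∉ (↑(B ∪ Finset.univ.image qv) : Set ℕ)) (i : s59w_TIdx (N₁ * ∏ j, qv j)),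
      i.ell = ℓ → a₁ (heckeAlgebra.T hℓ hℓN hℓS) = s59e_Tp' (s59t_Hmul N₁ (∏ j, qv j) (⊤ : Subgroup (ZMod N₁)ˣ) (s59t_KQ (p ^ n) qv)) 𝒪 ((p ^ (0 + n) - 1) * ((p ^ (0 + n) + 1) / 2)) i)
        (aZ₁ : (heckeAlgebra (N₁ * ∏ q ∈ Finset.univ.image qv, q ^ 2) 2 (↑(B ∪ Finset.univ.image qv) : Set ℕ)) →+* Module.End 𝒪 (s59t_part P'₁))
        (haZ₁ : ∀ t (z : s59t_part P'₁), s59x_jZ (s59t_Hmul N₁ (∏ j, qv j) (⊤ : Subgroup (ZMod N₁)ˣ) (s59t_KQ (p ^ n) qv)) (s59t_actH (N₁ * ∏ j, qv j) aq (dvd_refl (N₁ * ∏ j, qv j)) (s59t_Hmul N₁ (∏ j, qv j) (⊤ : Subgroup (ZMod N₁)ˣ) (s59t_KQ (p ^ n) qv)) (G₁ * s59t_jG 𝒪 (s59t_goodB (N₁ * ∏ j, qv j) B) e₀₁)) P'₁ (aZ₁ t z) = a₁ t (s59x_jZ (s59t_Hmul N₁ (∏ j, qv j) (⊤ : Subgroup (ZMod N₁)ˣ) (s59t_KQ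 (p ^ n) qv)) (s59t_actH (N₁ * ∏ j, qv j) aq (dvd_refl (N₁ * ∏ j, qv j)) (s59t_Hmul N₁ (∏ j, qv j) (⊤ : Subgroup (ZMod N₁)ˣ) (s59t_KQ (p ^ n) qv)) (G₁ * s59t_jG 𝒪 (s59t_goodB (N₁ * ∏ j, qv j) B) e₀₁)) P'₁ z))
        [IsLocalRing (s59e_adj 𝒪 aZ₁)]
        (θ₁ : DQ.R →ₐ[𝒪] s59e_adj 𝒪 aZ₁)
        (hθl₁ : IsLocalHom (θ₁ : DQ.R →+* s59e_adj 𝒪 aZ₁))
        (hfrobT₁ : ∀ ℓ : ℕ, ℓ.Prime → ℓ ∉ (B ∪ Finset.univ.image qv) →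
      ∀ A' : ValuationSubring (AlgebraicClosure ℚ), A'.LiesOverPrime ℓ →
      ∀ τ : Γℚ, A'.IsFrobeniusAt τ ℓ →
        (LinearMap.charpoly (DQ.ρ.ρ τ)).map (θ₁ : DQ.R →+* s59e_adj 𝒪 aZ₁) =
          Polynomial.X ^ 2 - Polynomial.C (s59e_tOf (↑(B ∪ Finset.univ.image qv) : Set ℕ) aZ₁ ℓ) * Polynomial.X +
            Polynomial.C ((ℓ : s59e_adj 𝒪 aZ₁)))
        -- the Taylor–Wiles data of the level `N₂`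
        (e₀₂ : MvPolynomial ↥(s59t_goodB (N₂ * ∏ j, qv j) B) 𝒪)
        (G₂ : MvPolynomial (s59w_AIdx (N₂ * ∏ j, qv j) ⊕ ℕ) 𝒪)
        (hρ'₂ : ∀ δ y, (s59t_actH (N₂ * ∏ j, qv j) aq (dvd_refl (N₂ * ∏ j, qv j)) (s59t_Hmul N₂ (∏ j, qv j) (⊤ : Subgroup (ZMod N₂)ˣ) (s59t_KQ (p ^ n) qv)) (G₂ * s59t_jG 𝒪 (s59t_goodB (N₂ * ∏ j, qv j) B) e₀₂)) ((s59t_rho (N₂ * ∏ j, qv j) (s59t_Hmul N₂ (∏ j, qv j) (⊤ : Subgroup (ZMod N₂)ˣ) (s59t_KQ (p ^ n) qv)) 𝒪 𝒪) δ y) = (s59t_rho (N₂ * ∏ j, qv j) (s59t_Hmul N₂ (∏ j, qv j) (⊤ : Subgroup (ZMod N₂)ˣ) (s59t_KQ (p ^ n) qv)) 𝒪 𝒪) δ ((s59t_actH (N₂ * ∏ j, qv j) aq (dvd_refl (N₂ * ∏ j, qv j)) (s59t_Hmul N₂ (∏ j, qv j) (⊤ : Subgroup (ZMod N₂)ˣ) (s59t_KQ (p ^ n) qv)) (G₂ * s59t_jG 𝒪 (s59t_goodB (N₂ * ∏ j,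 qv j) B) e₀₂)) y))
        (π₂ : s59t_part (s59t_actH (N₂ * ∏ j, qv j) aq (dvd_refl (N₂ * ∏ j, qv j)) (s59t_Hmul N₂ (∏ j, qv j) (⊤ : Subgroup (ZMod N₂)ˣ) (s59t_KQ (p ^ n) qv)) (G₂ * s59t_jG 𝒪 (s59t_goodB (N₂ * ∏ j, qv j) B) e₀₂)) →ₗ[𝒪] s59t_part (s59t_E0 (⊤ : Subgroup (ZMod N₂)ˣ) B e₂))
        (hιπ₂ : ∀ y, s59t_iotaH (s59t_E0 (⊤ : Subgroup (ZMod N₂)ˣ) B e₂) (s59t_actH (N₂ * ∏ j, qv j) aq (dvd_refl (N₂ * ∏ j, qv j)) (s59t_Hmul N₂ (∏ j, qv j) (⊤ : Subgroup (ZMod N₂)ˣ) (s59t_KQ (p ^ n) qv)) (G₂ * s59t_jG 𝒪 (s59t_goodB (N₂ * ∏ j, qv j) B) e₀₂)) (s59t_resGHpar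
      (s59t_GammaHmul_le (N := N₂) (D := ∏ j, qv j) (H := (⊤ : Subgroup (ZMod N₂)ˣ)) (K := s59t_KQ (p ^ n) qv)) 𝒪 𝒪) (π₂ y) =
      s59t_normPsi (s59t_partRep (s59t_rho (N₂ * ∏ j, qv j) (s59t_Hmul N₂ (∏ j, qv j) (⊤ : Subgroup (ZMod N₂)ˣ) (s59t_KQ (p ^ n) qv)) 𝒪 𝒪) hρ'₂) (s59t_BQ N₂ (∏ j, qv j) (⊤ : Subgroup (ZMod N₂)ˣ) (s59t_KQ (p ^ n) qv)) 1 y)
        (hP1₂ : s59t_TWFull (s59t_Gamma0_anti (s59t_dvd_mul_left' N₂ (∏ j, qv j))) (s59t_GammaHmul_le (N := N₂) (D := ∏ j, qv j) (H := (⊤ : Subgroup (ZMod N₂)ˣ)) (K := s59t_KQ (p ^ n) qv)) (s59t_BQ N₂ (∏ j, qv j) (⊤ : Subgroup (ZMod N₂)ˣ) (s59t_KQ (p ^ n) qv)) (s59t_CQ N₂ (∏ j, qv j) (⊤ : Subgroup (ZMod N₂)ˣ) (s59t_KQ (p ^ n) qv)) (s59t_E0 (⊤ : Subgroup (ZMod N₂)ˣ) B e₂) (s59t_actH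 (N₂ * ∏ j, qv j) aq (dvd_refl (N₂ * ∏ j, qv j)) (s59t_Hmul N₂ (∏ j, qv j) (⊤ : Subgroup (ZMod N₂)ˣ) (s59t_KQ (p ^ n) qv)) (G₂ * s59t_jG 𝒪 (s59t_goodB (N₂ * ∏ j, qv j) B) e₀₂)))
        -- the kernel pair of the level `N₂`
        (P'₂ : Module.End 𝒪 (s59t_part (s59t_actH (N₂ * ∏ j, qv j) aq (dvd_refl (N₂ * ∏ j, qv j)) (s59t_Hmul N₂ (∏ j, qv j) (⊤ : Subgroup (ZMod N₂)ˣ) (s59t_KQ (p ^ n) qv)) (G₂ * s59t_jG 𝒪 (s59t_goodB (N₂ * ∏ j, qv j) B) e₀₂))))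
        (hP'₂ : ∀ δ x, P'₂ ((s59t_partRep (s59t_rho (N₂ * ∏ j, qv j) (s59t_Hmul N₂ (∏ j, qv j) (⊤ : Subgroup (ZMod N₂)ˣ) (s59t_KQ (p ^ n) qv)) 𝒪 𝒪) hρ'₂) δ x) = (s59t_partRep (s59t_rho (N₂ * ∏ j, qv j) (s59t_Hmul N₂ (∏ j, qv j) (⊤ : Subgroup (ZMod N₂)ˣ) (s59t_KQ (p ^ n) qv)) 𝒪 𝒪) hρ'₂) δ (P'₂ x))
        -- the Hecke ring of the FULL part of the level `N₂`
        (aH₂ : (heckeAlgebra (N₂ * ∏ q ∈ Finset.univ.image qv, q ^ 2) 2 (↑(B ∪ Finset.univ.image qv) : Set ℕ)) →+* Module.End 𝒪 (s48h_Hpar 𝒪 (s48h_GammaH (N₂ * ∏ j, qv j) (s59t_Hmul N₂ (∏ j, qv j) (⊤ : Subgroup (ZMod N₂)ˣ) (s59t_KQ (p ^ n) qv))) 𝒪))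
        (ha1H₂ : ∀ (ℓ : ℕ) (hℓ : ℓ.Prime) (hℓN : ¬ ℓ ∣ (N₂ * ∏ q ∈ Finset.univ.image qv, q ^ 2))
      (hℓS : ℓ ∉ (↑(B ∪ Finset.univ.image qv) : Set ℕ)) (i : s59w_TIdx (N₂ * ∏ j, qv j)),
      i.ell = ℓ → aH₂ (heckeAlgebra.T hℓ hℓN hℓS) = s59e_Tp' (s59t_Hmul N₂ (∏ j, qv j) (⊤ : Subgroup (ZMod N₂)ˣ) (s59t_KQ (p ^ n) qv)) 𝒪 ((p ^ (0 + n) - 1) * ((p ^ (0 + n) + 1) / 2)) i)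
        (ha2H₂ : ∀ t, aH₂ t ∈ Subring.closure (Set.range (s59e_Tp' (s59t_Hmul N₂ (∏ j, qv j) (⊤ : Subgroup (ZMod N₂)ˣ) (s59t_KQ (p ^ n) qv)) 𝒪 ((p ^ (0 + n) - 1) * ((p ^ (0 + n) + 1) / 2)))))
        (aF₂ : (heckeAlgebra (N₂ * ∏ q ∈ Finset.univ.image qv, q ^ 2) 2 (↑(B ∪ Finset.univ.image qv) : Set ℕ)) →+* Module.End 𝒪 (s59t_part (s59t_actH (N₂ * ∏ j, qv j) aq (dvd_refl (N₂ * ∏ j, qv j)) (s59t_Hmul N₂ (∏ j, qv j) (⊤ : Subgroup (ZMod N₂)ˣ) (s59t_KQ (p ^ n) qv)) (G₂ * s59t_jG 𝒪 (s59t_goodB (N₂ * ∏ j, qv j) B) e₀₂))))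
        (haF₂ : ∀ t (z : s59t_part (s59t_actH (N₂ * ∏ j, qv j) aq (dvd_refl (N₂ * ∏ j, qv j)) (s59t_Hmul N₂ (∏ j, qv j) (⊤ : Subgroup (ZMod N₂)ˣ) (s59t_KQ (p ^ n) qv)) (G₂ * s59t_jG 𝒪 (s59t_goodB (N₂ * ∏ j, qv j) B) e₀₂))), ((aF₂ t z : s59t_part (s59t_actH (N₂ * ∏ j, qv j) aq (dvd_refl (N₂ * ∏ j, qv j)) (s59t_Hmul N₂ (∏ j, qv j) (⊤ : Subgroup (ZMod N₂)ˣ) (s59t_KQ (p ^ n) qv)) (G₂ * s59t_jG 𝒪 (s59t_goodB (N₂ * ∏ j, qv j) B) e₀₂))) : (s48h_Hpar 𝒪 (s48h_GammaH (N₂ * ∏ j, qv j) (s59t_Hmul N₂ (∏ j, qv j) (⊤ : Subgroup (ZMod N₂)ˣ) (s59t_KQ (p ^ n) qv))) 𝒪)) = aH₂ t (z : (s48h_Hpar 𝒪 (s48h_GammaH (N₂ * ∏ j, qv j) (s59t_Hmul N₂ (∏ j, qv j) (⊤ : Subgroup (ZMod N₂)ˣ) (s59t_KQ (p ^ n) qv))) 𝒪)))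
        [IsLocalRing (s59e_adj 𝒪 aF₂)] [Module.Finite 𝒪 (s59e_adj 𝒪 aF₂)]
        [IsLocalHom (algebraMap 𝒪 (s59e_adj 𝒪 aF₂))]
        (hresF₂ : Function.Surjective (residue (s59e_adj 𝒪 aF₂) ∘ algebraMap 𝒪 (s59e_adj 𝒪 aF₂)))
        -- ONE normalising element for the `p`-packages
        (ep : SL(2, ℤ))
        -- the `p`-package of the Taylor–Wiles level `N₂` (normalising element `ep`) and the kernel pair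
        (e₀M₂ : MvPolynomial ↥(s59t_goodB ((M₁ * q) * ∏ j, qv j) B) 𝒪)
        (GM₂ : MvPolynomial (s59w_AIdx ((M₁ * q) * ∏ j, qv j) ⊕ ℕ) 𝒪)
        (hpL₂ : ¬ p ∣ ((M₁ * q) * ∏ j, qv j)) (hN'p₂ : (N₂ * ∏ j, qv j) = ((M₁ * q) * ∏ j, qv j) * p)
        (hG'p₂ : s59f_IsG' ((M₁ * q) * ∏ j, qv j) p (s59t_Hmul (M₁ * q) (∏ j, qv j) (⊤ : Subgroup (ZMod (M₁ * q))ˣ) (s59t_KQ (p ^ n) qv)) (s48h_GammaH (N₂ * ∏ j, qv j) (s59t_Hmul N₂ (∏ j, qv j) (⊤ : Subgroup (ZMod N₂)ˣ) (s59t_KQ (p ^ n) qv))))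
        (hep'₂ : ep ∈ Gamma0 (N₂ * ∏ j, qv j))
        (heep'₂ : s59f_gW hpL₂ * ep * ep ∈ s48h_GammaH (N₂ * ∏ j, qv j) (s59t_Hmul N₂ (∏ j, qv j) (⊤ : Subgroup (ZMod N₂)ˣ) (s59t_KQ (p ^ n) qv)))
        (hc'p₂ : (s59f_oldN hpL₂ hN'p₂ hG'p₂ 𝒪 𝒪 ep hep'₂ heep'₂).Compat (s59t_actH ((M₁ * q) * ∏ j, qv j) aq (dvd_refl ((M₁ * q) * ∏ j, qv j)) (s59t_Hmul (M₁ * q) (∏ j, qv j) (⊤ : Subgroup (ZMod (M₁ * q))ˣ) (s59t_KQ (p ^ n) qv)) (GM₂ * s59t_jG 𝒪 (s59t_goodB ((M₁ * q) * ∏ j, qv j) B) e₀M₂)) (s59t_actH (N₂ * ∏ j, qv j) aq (dvd_refl (N₂ * ∏ j, qv j)) (s59t_Hmul N₂ (∏ j, qv j) (⊤ : Subgroup (ZMod N₂)ˣ) (s59t_KQ (p ^ n) qv)) (G₂ * s59t_jG 𝒪 (s59t_goodB (N₂ * ∏ j, qv j) B) e₀₂)))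
        (hmem'₂ : ∀ x : s59t_part (s59t_actH (N₂ * ∏ j, qv j) aq (dvd_refl (N₂ * ∏ j, qv j)) (s59t_Hmul N₂ (∏ j, qv j) (⊤ : Subgroup (ZMod N₂)ˣ) (s59t_KQ (p ^ n) qv)) (G₂ * s59t_jG 𝒪 (s59t_goodB (N₂ * ∏ j, qv j) B) e₀₂)), x ∈ s59t_part P'₂ ↔
          ((s59f_oldN hpL₂ hN'p₂ hG'p₂ 𝒪 𝒪 ep hep'₂ heep'₂).restrict hc'p₂).corA x = 0 ∧ ((s59f_oldN hpL₂ hN'p₂ hG'p₂ 𝒪 𝒪 ep hep'₂ heep'₂).restrict hc'p₂).corB x = 0)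
        -- the flat level `M₁ * q`: the Hecke ring and the flat representation
        (a₃ : (heckeAlgebra ((M₁ * q) * ∏ q ∈ Finset.univ.image qv, q ^ 2) 2 (↑(B ∪ Finset.univ.image qv) : Set ℕ)) →+* Module.End 𝒪 (s48h_Hpar 𝒪 (s48h_GammaH ((M₁ * q) * ∏ j, qv j) (s59t_Hmul (M₁ * q) (∏ j, qv j) (⊤ : Subgroup (ZMod (M₁ * q))ˣ) (s59t_KQ (p ^ n) qv))) 𝒪))
        (ha1₃ : ∀ (ℓ : ℕ) (hℓ : ℓ.Prime) (hℓN : ¬ ℓ ∣ ((M₁ * q) * ∏ q ∈ Finset.univ.image qv, q ^ 2))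
      (hℓS : ℓ ∉ (↑(B ∪ Finset.univ.image qv) : Set ℕ)) (i : s59w_TIdx ((M₁ * q) * ∏ j, qv j)),
      i.ell = ℓ → a₃ (heckeAlgebra.T hℓ hℓN hℓS) = s59e_Tp' (s59t_Hmul (M₁ * q) (∏ j, qv j) (⊤ : Subgroup (ZMod (M₁ * q))ˣ) (s59t_KQ (p ^ n) qv)) 𝒪 ((p ^ (0 + n) - 1) * ((p ^ (0 + n) + 1) / 2)) i)
        (aM₃ : (heckeAlgebra ((M₁ * q) * ∏ q ∈ Finset.univ.image qv, q ^ 2) 2 (↑(B ∪ Finset.univ.image qv) : Set ℕ)) →+* Module.End 𝒪 (s59t_part (s59t_actH ((M₁ * q) * ∏ j, qv j) aq (dvd_refl ((M₁ * q) * ∏ j, qv j)) (s59t_Hmul (M₁ * q) (∏ j, qv j) (⊤ : Subgroup (ZMod (M₁ * q))ˣ) (s59t_KQ (p ^ n) qv)) (GM₂ * s59t_jG 𝒪 (s59t_goodB ((M₁ * q) * ∏ j, qv j) B) e₀M₂))))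
        (haM₃ : ∀ t (z : s59t_part (s59t_actH ((M₁ * q) * ∏ j, qv j) aq (dvd_refl ((M₁ * q) * ∏ j, qv j)) (s59t_Hmul (M₁ * q) (∏ j, qv j) (⊤ : Subgroup (ZMod (M₁ * q))ˣ) (s59t_KQ (p ^ n) qv)) (GM₂ * s59t_jG 𝒪 (s59t_goodB ((M₁ * q) * ∏ j, qv j) B) e₀M₂))), ((aM₃ t z : s59t_part (s59t_actH ((M₁ * q) * ∏ j, qv j) aq (dvd_refl ((M₁ * q) * ∏ j, qv j)) (s59t_Hmul (M₁ * q) (∏ j, qv j) (⊤ : Subgroup (ZMod (M₁ * q))ˣ) (s59t_KQ (p ^ n) qv)) (GM₂ * s59t_jG 𝒪 (s59t_goodB ((M₁ * q) * ∏ j, qv j) B) e₀M₂))) : (s48h_Hpar 𝒪 (s48h_GammaH ((M₁ * q) * ∏ j, qv j) (s59t_Hmul (M₁ * q) (∏ j, qv j) (⊤ : Subgroup (ZMod (M₁ * q))ˣ) (s59t_KQ (p ^ n) qv))) 𝒪)) = a₃ t (z : (s48h_Hpar 𝒪 (s48h_GammaH ((M₁ * q) * ∏ j, qv j) (s59t_Hmul (M₁ * q) (∏ j, qv j)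 (⊤ : Subgroup (ZMod (M₁ * q))ˣ) (s59t_KQ (p ^ n) qv))) 𝒪)))
        [IsLocalRing (s59e_adj 𝒪 aM₃)]
        (ρC : GaloisRepAdic (s59e_adj 𝒪 aM₃)) (hρC : ρC.IsFlatAt p)
        (habsC : ρC.residual.IsAbsolutelyIrreducible)
        (hfrobC : ∀ ℓ : ℕ, ℓ.Prime → ℓ ∉ (B ∪ Finset.univ.image qv) →
      ∀ A' : ValuationSubring (AlgebraicClosure ℚ), A'.LiesOverPrime ℓ →
      ∀ τ : Γℚ, A'.IsFrobeniusAt τ ℓ →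
        LinearMap.charpoly (ρC.ρ τ) =
          Polynomial.X ^ 2 - Polynomial.C (s59e_tOf (↑(B ∪ Finset.univ.image qv) : Set ℕ) aM₃ ℓ) * Polynomial.X +
            Polynomial.C ((ℓ : s59e_adj 𝒪 aM₃))) :
    (∀ (hqL : ¬ q ∣ (N₁ * ∏ j, qv j)) (hN' : (N₂ * ∏ j, qv j) = (N₁ * ∏ j, qv j) * q)
          (hG' : s59f_IsG' (N₁ * ∏ j, qv j) q (s59t_Hmul N₁ (∏ j, qv j) (⊤ : Subgroup (ZMod N₁)ˣ) (s59t_KQ (p ^ n) qv)) (s48h_GammaH (N₂ * ∏ j, qv j) (s59t_Hmul N₂ (∏ j, qv j) (⊤ : Subgroup (ZMod N₂)ˣ) (s59t_KQ (p ^ n) qv))))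
          (he' : s59f_eW hqL ((p ^ (0 + n) - 1) * ((p ^ (0 + n) + 1) / 2)) ∈ Gamma0 (N₂ * ∏ j, qv j))
          (hee : s59f_gW hqL * s59f_eW hqL ((p ^ (0 + n) - 1) * ((p ^ (0 + n) + 1) / 2)) * s59f_eW hqL ((p ^ (0 + n) - 1) * ((p ^ (0 + n) + 1) / 2)) ∈ s48h_GammaH (N₂ * ∏ j, qv j) (s59t_Hmul N₂ (∏ j, qv j) (⊤ : Subgroup (ZMod N₂)ˣ) (s59t_KQ (p ^ n) qv)))
          (hc' : (s59f_oldN hqL hN' hG' 𝒪 𝒪 (s59f_eW hqL ((p ^ (0 + n) - 1) * ((p ^ (0 + n) + 1) / 2))) he' hee).Compat (s59t_actH (N₁ * ∏ j, qv j) aq (dvd_refl (N₁ * ∏ j, qv j)) (s59t_Hmul N₁ (∏ j, qv j) (⊤ : Subgroup (ZMod N₁)ˣ) (s59t_KQ (p ^ n) qv)) (G₁ * s59t_jG 𝒪 (s59t_goodB (N₁ * ∏ j, qv j) B) e₀₁)) (s59t_actH (N₂ * ∏ j, qv j) aq (dvd_refl (N₂ * ∏ j, qv j)) (s59t_Hmul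 N₂ (∏ j, qv j) (⊤ : Subgroup (ZMod N₂)ˣ) (s59t_KQ (p ^ n) qv)) (G₂ * s59t_jG 𝒪 (s59t_goodB (N₂ * ∏ j, qv j) B) e₀₂))) (hst : s59x_OldStable ((s59f_oldN hqL hN' hG' 𝒪 𝒪 (s59f_eW hqL ((p ^ (0 + n) - 1) * ((p ^ (0 + n) + 1) / 2))) he' hee).restrict hc') (s59t_part P'₁) (s59t_part P'₂)),
          ∀ x ∈ ((RingHom.ker (κsf : DQ.R →+* Dsf.R) : Ideal DQ.R) : Set DQ.R), ∀ u ∈ s59t_eig (s59t_partRep (s59t_partRep (s59t_rho (N₁ * ∏ j, qv j) (s59t_Hmul N₁ (∏ j, qv j) (⊤ : Subgroup (ZMod N₁)ˣ) (s59t_KQ (p ^ n) qv)) 𝒪 𝒪) hρ'₁) hP'₁) (s59t_CQ N₁ (∏ j, qv j) (⊤ : Subgroup (ZMod N₁)ˣ) (s59t_KQ (p ^ n) qv)) (1 : (s59t_Delta (N₁ * ∏ j, qv j) (s59t_Hmul N₁ (∏ j, qv j) (⊤ : Subgroup (ZMod N₁)ˣ) (s59t_KQ (p ^ n) qv))) →* 𝒪ˣ),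
          ∀ v ∈ s59t_eig (s59t_partRep (s59t_partRep (s59t_rho (N₁ * ∏ j, qv j) (s59t_Hmul N₁ (∏ j, qv j) (⊤ : Subgroup (ZMod N₁)ˣ) (s59t_KQ (p ^ n) qv)) 𝒪 𝒪) hρ'₁) hP'₁) (s59t_CQ N₁ (∏ j, qv j) (⊤ : Subgroup (ZMod N₁)ˣ) (s59t_KQ (p ^ n) qv)) (1 : (s59t_Delta (N₁ * ∏ j, qv j) (s59t_Hmul N₁ (∏ j, qv j) (⊤ : Subgroup (ZMod N₁)ˣ) (s59t_KQ (p ^ n) qv))) →* 𝒪ˣ),
          ∃ z ∈ s59t_eig (s59t_partRep (s59t_partRep (s59t_rho (N₂ * ∏ j, qv j) (s59t_Hmul N₂ (∏ j, qv j) (⊤ : Subgroup (ZMod N₂)ˣ) (s59t_KQ (p ^ n) qv)) 𝒪 𝒪) hρ'₂) hP'₂) (s59t_CQ N₂ (∏ j, qv j) (⊤ : Subgroup (ZMod N₂)ˣ) (s59t_KQ (p ^ n) qv)) (1 : (s59t_Delta (N₂ * ∏ j, qv j) (s59t_Hmul N₂ (∏ j, qv j) (⊤ : Subgroup (ZMod N₂)ˣ) (s59t_KQ (p ^ n) qv))) →* 𝒪ˣ),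
            (s59x_oldSub ((s59f_oldN hqL hN' hG' 𝒪 𝒪 (s59f_eW hqL ((p ^ (0 + n) - 1) * ((p ^ (0 + n) + 1) / 2))) he' hee).restrict hc') hst).corA z = ((θ₁ x : s59e_adj 𝒪 aZ₁) : Module.End 𝒪 (s59t_part P'₁)) u ∧
            (s59x_oldSub ((s59f_oldN hqL hN' hG' 𝒪 𝒪 (s59f_eW hqL ((p ^ (0 + n) - 1) * ((p ^ (0 + n) + 1) / 2))) he' hee).restrict hc') hst).corB z = ((θ₁ x : s59e_adj 𝒪 aZ₁) : Module.End 𝒪 (s59t_part P'₁)) v) := by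
  intro hqL hN' hG' he' hee hc' hst x hx u hu v hv
  have hpP : p.Prime := Fact.out
  have hqP : q.Prime := hq.out
  have hqvpr : ∀ i, (qv i).Prime := fun i => (hqv i).1
  have hNB₂ : ∀ ℓ : ℕ, ℓ.Prime → ℓ ∣ N₂ → ℓ ∈ B := hB1
  have hN₁N₂ : N₁ ∣ N₂ := Dvd.intro q hN.symm
  have hM₂N₂ : M₁ * q ∣ N₂ := Dvd.intro p hN₂.symm
  have hNB₁ : ∀ ℓ : ℕ, ℓ.Prime → ℓ ∣ N₁ → ℓ ∈ B := fun ℓ hℓ h => hNB₂ ℓ hℓ (h.trans hN₁N₂)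
  have hNBM₂ : ∀ ℓ : ℕ, ℓ.Prime → ℓ ∣ M₁ * q → ℓ ∈ B := fun ℓ hℓ h => hNB₂ ℓ hℓ (h.trans hM₂N₂)
  have hqB : q ∈ B := hNB₂ q hqP (Dvd.intro_left _ hN.symm)
  have hqN₁ : ¬ q ∣ N₁ := fun h =>
    ((Nat.Prime.dvd_mul hqP).mp (hN₁ ▸ h)).elim hqM₁
      (fun h' => hqp ((Nat.prime_dvd_prime_iff_eq hqP hpP).mp h'))
  have hG'b : s59f_IsG' N₁ q (⊤ : Subgroup (ZMod N₁)ˣ) (s48h_GammaH N₂ (⊤ : Subgroup (ZMod N₂)ˣ)) :=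
    s59f_isG'_GammaH hqN₁ hN hN₁N₂ (fun u => ⟨fun _ => Subgroup.mem_top _, fun _ => Subgroup.mem_top _⟩)
  have he1 : (1 : SL(2, ℤ)) ∈ Gamma0 N₂ := one_mem _
  have hgW : s59f_gW hqN₁ ∈ Gamma0 N₂ := hN ▸ s59f_gW_mem hqN₁
  have hee1 : s59f_gW hqN₁ * 1 * 1 ∈ s48h_GammaH N₂ (⊤ : Subgroup (ZMod N₂)ˣ) :=
    (s59t_mem_GammaH_iff_unit (H := (⊤ : Subgroup (ZMod N₂)ˣ))
      ⟨_, mul_mem (mul_mem hgW he1) he1⟩).mpr (Subgroup.mem_top _)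
  have hcb := s59f_oldN_compat_E0 hqN₁ hN hG'b 1 he1 hee1 B (fun ℓ => W.apOfModel ℓ) hqB
    e₂ h1e₂ hid₂ hnil₂ e₁ h1e₁ hid₁ hnil₁
  have hT5 := fun y₁ y₂ => Internal.s59x_baseT5_W p hp2 W hΔ B hirr 𝒪 hp𝒪 N₁ q N₂ hN hqN₁ hqp hpB hB1
    hG'b he1 hee1 e₁ hid₁ hnil₁ e₂ hcb y₁ y₂
  have hK3 := Internal.s59x_K3_level p B 𝒪 hp𝒪 N₁ q N₂ hN hqN₁ hG'b he1 hee1 (s59t_E0 (⊤ : Subgroup (ZMod N₁)ˣ) B e₁) (s59t_E0 (⊤ : Subgroup (ZMod N₂)ˣ) B e₂) hcb hT5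
    n qv aq e₀₁ G₁ e₀₂ G₂ hP1₁ hρ'₁ π₁ hιπ₁ hP1₂ hρ'₂ π₂ hιπ₂ hcard₁
  exact Internal.s59x_concZ_T5w p B 𝒪 N₁ q N₂ (M₁ * q) hNB₁ hNB₂ hNBM₂ n qv hqvpr aq
    (Ls := fun _A _ _ ρ => ρ.IsStrictOrdinaryAt p) (Lf := fun _A _ _ ρ => ρ.IsFlatAt p)
    (s59x_locCond_ord p hp2) (s59x_locCond_flat p) Sg Su DQ Dsf κsf hκtr
    e₀₁ G₁ a₁ ha1₁ hρ'₁ P'₁ hP'₁ aZ₁ haZ₁ θ₁ hθl₁ hfrobT₁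
    e₀₂ G₂ aH₂ ha1H₂ ha2H₂ hρ'₂ P'₂ hP'₂ aF₂ haF₂ hresF₂
    e₀M₂ GM₂ a₃ ha1₃ aM₃ haM₃ ρC hρC habsC hfrobC
    hpL₂ hN'p₂ hG'p₂ ep hep'₂ heep'₂ hc'p₂ hmem'₂ hK3
    hqL hN' hG' he' hee hc' hst x hx u hu v hv

end Fermat.Agent.Lib.S59

end
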