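/-
S59 project, case (P), route (T5w), [W4c] (helper9, prefix `s59m_`): **helper7's step hypotheses `hst'` and `hT5w` (NXStepH1, NXStepH4) WITH THE UPPER
`p`-FREE LEVEL A VARIABLE** `M₂` (`hM₂ : M₂ = M₁ * q`), and for `hT5w` the idempotent of that level ABSTRACT (`hεM₂ : εM₂ = actH …`) in the
`p`-package: the forms in which the core of the final (MKerFin.lean) has the data of the chain indices.  Proofs: `subst`, then helper7's lemma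
(generated by a script from helper7's statements).
-/
import Mathlib
import Fermat.Agent.Lib.S59.NXStepH1
import Fermat.Agent.Lib.S59.NXStepH4

set_option autoImplicit false
set_option linter.unusedSectionVars false
set_option linter.unusedVariables false
set_option linter.style.haveILetI false
set_option maxHeartbeats 0
set_option synthInstance.maxHeartbeats 400000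
set_option maxSynthPendingDepth 3
set_option backward.isDefEq.respectTransparency.types true

noncomputable section

namespace Fermat.Agent.Lib.S59

open IsLocalRing CuspForm Polynomial CongruenceSubgroup
open Fermat.Agent.Lib.S48 Fermat.Agent.Lib.S44
open scoped MatrixGroups

local notation "Γℚ" => (AlgebraicClosure ℚ ≃ₐ[ℚ] AlgebraicClosure ℚ)

/-- **`hst'` (helper7's `Internal.s59x_stepH_st`) with the upper `p`-free level a variable.** -/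
theorem Internal.s59m_stepH_st_g (p : ℕ) [Fact p.Prime] (B : Finset ℕ)
    (𝒪 : Type) [CommRing 𝒪] [IsDomain 𝒪] [IsDiscreteValuationRing 𝒪]
    [IsAdicComplete (maximalIdeal 𝒪) 𝒪] [Finite (ResidueField 𝒪)] [CharZero 𝒪]
    -- the four levels
    (M₁ q N₁ N₂ M₂ : ℕ) [NeZero M₁] [NeZero M₂] [NeZero N₁] [NeZero N₂] [hq : Fact q.Prime]
    (hN₁ : N₁ = M₁ * p) (hN₂ : N₂ = M₂ * p) (hN : N₂ = N₁ * q) (hM₂ : M₂ = M₁ * q)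
    (hpM₁ : ¬ p ∣ M₁) (hpM₂ : ¬ p ∣ M₂) (hqM₁ : ¬ q ∣ M₁)
    -- the Taylor–Wiles level
    {r : ℕ} (n : ℕ) (qv : Fin r → ℕ) [NeZero (∏ j, qv j)] (aq : ℕ → 𝒪)
        [NeZero (M₁ * ∏ j, qv j)]
        [NeZero (M₂ * ∏ j, qv j)]
        [NeZero (N₁ * ∏ j, qv j)]
        [NeZero (N₂ * ∏ j, qv j)]
        (e₀₁ : MvPolynomial ↥(s59t_goodB (N₁ * ∏ j, qv j) B) 𝒪)
        (G₁ : MvPolynomial (s59w_AIdx (N₁ * ∏ j, qv j) ⊕ ℕ) 𝒪)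
        (P'₁ : Module.End 𝒪 (s59t_part (s59t_actH (N₁ * ∏ j, qv j) aq (dvd_refl (N₁ * ∏ j, qv j)) (s59t_Hmul N₁ (∏ j, qv j) (⊤ : Subgroup (ZMod N₁)ˣ) (s59t_KQ (p ^ n) qv)) (G₁ * s59t_jG 𝒪 (s59t_goodB (N₁ * ∏ j, qv j) B) e₀₁))))
        (e₀₂ : MvPolynomial ↥(s59t_goodB (N₂ * ∏ j, qv j) B) 𝒪)
        (G₂ : MvPolynomial (s59w_AIdx (N₂ * ∏ j, qv j) ⊕ ℕ) 𝒪)
        (P'₂ : Module.End 𝒪 (s59t_part (s59t_actH (N₂ * ∏ j, qv j) aq (dvd_refl (N₂ * ∏ j, qv j)) (s59t_Hmul N₂ (∏ j, qv j) (⊤ : Subgroup (ZMod N₂)ˣ) (s59t_KQ (p ^ n) qv)) (G₂ * s59t_jG 𝒪 (s59t_goodB (N₂ * ∏ j, qv j) B) e₀₂))))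
        -- ONE normalising element for the `p`-packages of the two Taylor–Wiles levels
        (ep : SL(2, ℤ))
        -- the `p`-package of the Taylor–Wiles level `N₁` (normalising element `ep`) and the kernel pair
        (εQM₁ : Module.End 𝒪 (s48h_Hpar 𝒪 (s48h_GammaH (M₁ * ∏ j, qv j) (s59t_Hmul M₁ (∏ j, qv j) (⊤ : Subgroup (ZMod M₁)ˣ) (s59t_KQ (p ^ n) qv))) 𝒪))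
        (hpL₁ : ¬ p ∣ (M₁ * ∏ j, qv j)) (hN'p₁ : (N₁ * ∏ j, qv j) = (M₁ * ∏ j, qv j) * p)
        (hG'p₁ : s59f_IsG' (M₁ * ∏ j, qv j) p (s59t_Hmul M₁ (∏ j, qv j) (⊤ : Subgroup (ZMod M₁)ˣ) (s59t_KQ (p ^ n) qv)) (s48h_GammaH (N₁ * ∏ j, qv j) (s59t_Hmul N₁ (∏ j, qv j) (⊤ : Subgroup (ZMod N₁)ˣ) (s59t_KQ (p ^ n) qv))))
        (hep'₁ : ep ∈ Gamma0 (N₁ * ∏ j, qv j))
        (heep'₁ : s59f_gW hpL₁ * ep * ep ∈ s48h_GammaH (N₁ * ∏ j, qv j) (s59t_Hmul N₁ (∏ j, qv j) (⊤ : Subgroup (ZMod N₁)ˣ) (s59t_KQ (p ^ n) qv)))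
        (hc'p₁ : (s59f_oldN hpL₁ hN'p₁ hG'p₁ 𝒪 𝒪 ep hep'₁ heep'₁).Compat εQM₁ (s59t_actH (N₁ * ∏ j, qv j) aq (dvd_refl (N₁ * ∏ j, qv j)) (s59t_Hmul N₁ (∏ j, qv j) (⊤ : Subgroup (ZMod N₁)ˣ) (s59t_KQ (p ^ n) qv)) (G₁ * s59t_jG 𝒪 (s59t_goodB (N₁ * ∏ j, qv j) B) e₀₁)))
        (hmem'₁ : ∀ x : s59t_part (s59t_actH (N₁ * ∏ j, qv j) aq (dvd_refl (N₁ * ∏ j, qv j)) (s59t_Hmul N₁ (∏ j, qv j) (⊤ : Subgroup (ZMod N₁)ˣ) (s59t_KQ (p ^ n) qv)) (G₁ * s59t_jG 𝒪 (s59t_goodB (N₁ * ∏ j, qv j) B) e₀₁)), x ∈ s59t_part P'₁ ↔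
          ((s59f_oldN hpL₁ hN'p₁ hG'p₁ 𝒪 𝒪 ep hep'₁ heep'₁).restrict hc'p₁).corA x = 0 ∧ ((s59f_oldN hpL₁ hN'p₁ hG'p₁ 𝒪 𝒪 ep hep'₁ heep'₁).restrict hc'p₁).corB x = 0)
        -- the `p`-package of the Taylor–Wiles level `N₂` (normalising element `ep`) and the kernel pair
        (εQM₂ : Module.End 𝒪 (s48h_Hpar 𝒪 (s48h_GammaH (M₂ * ∏ j, qv j) (s59t_Hmul M₂ (∏ j, qv j) (⊤ : Subgroup (ZMod M₂)ˣ) (s59t_KQ (p ^ n) qv))) 𝒪))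
        (hpL₂ : ¬ p ∣ (M₂ * ∏ j, qv j)) (hN'p₂ : (N₂ * ∏ j, qv j) = (M₂ * ∏ j, qv j) * p)
        (hG'p₂ : s59f_IsG' (M₂ * ∏ j, qv j) p (s59t_Hmul M₂ (∏ j, qv j) (⊤ : Subgroup (ZMod M₂)ˣ) (s59t_KQ (p ^ n) qv)) (s48h_GammaH (N₂ * ∏ j, qv j) (s59t_Hmul N₂ (∏ j, qv j) (⊤ : Subgroup (ZMod N₂)ˣ) (s59t_KQ (p ^ n) qv))))
        (hep'₂ : ep ∈ Gamma0 (N₂ * ∏ j, qv j))
        (heep'₂ : s59f_gW hpL₂ * ep * ep ∈ s48h_GammaH (N₂ * ∏ j, qv j) (s59t_Hmul N₂ (∏ j, qv j) (⊤ : Subgroup (ZMod N₂)ˣ) (s59t_KQ (p ^ n) qv)))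
        (hc'p₂ : (s59f_oldN hpL₂ hN'p₂ hG'p₂ 𝒪 𝒪 ep hep'₂ heep'₂).Compat εQM₂ (s59t_actH (N₂ * ∏ j, qv j) aq (dvd_refl (N₂ * ∏ j, qv j)) (s59t_Hmul N₂ (∏ j, qv j) (⊤ : Subgroup (ZMod N₂)ˣ) (s59t_KQ (p ^ n) qv)) (G₂ * s59t_jG 𝒪 (s59t_goodB (N₂ * ∏ j, qv j) B) e₀₂)))
        (hmem'₂ : ∀ x : s59t_part (s59t_actH (N₂ * ∏ j, qv j) aq (dvd_refl (N₂ * ∏ j, qv j)) (s59t_Hmul N₂ (∏ j, qv j) (⊤ : Subgroup (ZMod N₂)ˣ) (s59t_KQ (p ^ n) qv)) (G₂ * s59t_jG 𝒪 (s59t_goodB (N₂ * ∏ j, qv j) B) e₀₂)), x ∈ s59t_part P'₂ ↔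
          ((s59f_oldN hpL₂ hN'p₂ hG'p₂ 𝒪 𝒪 ep hep'₂ heep'₂).restrict hc'p₂).corA x = 0 ∧ ((s59f_oldN hpL₂ hN'p₂ hG'p₂ 𝒪 𝒪 ep hep'₂ heep'₂).restrict hc'p₂).corB x = 0)
    :
    (∀ (hqL : ¬ q ∣ (N₁ * ∏ j, qv j)) (hN' : (N₂ * ∏ j, qv j) = (N₁ * ∏ j, qv j) * q)
          (hG' : s59f_IsG' (N₁ * ∏ j, qv j) q (s59t_Hmul N₁ (∏ j, qv j) (⊤ : Subgroup (ZMod N₁)ˣ) (s59t_KQ (p ^ n) qv)) (s48h_GammaH (N₂ * ∏ j, qv j) (s59t_Hmul N₂ (∏ j, qv j) (⊤ : Subgroup (ZMod N₂)ˣ) (s59t_KQ (p ^ n) qv))))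
          (he' : s59f_eW hqL ((p ^ (0 + n) - 1) * ((p ^ (0 + n) + 1) / 2)) ∈ Gamma0 (N₂ * ∏ j, qv j))
          (hee : s59f_gW hqL * s59f_eW hqL ((p ^ (0 + n) - 1) * ((p ^ (0 + n) + 1) / 2)) * s59f_eW hqL ((p ^ (0 + n) - 1) * ((p ^ (0 + n) + 1) / 2)) ∈ s48h_GammaH (N₂ * ∏ j, qv j) (s59t_Hmul N₂ (∏ j, qv j) (⊤ : Subgroup (ZMod N₂)ˣ) (s59t_KQ (p ^ n) qv)))
          (hc' : (s59f_oldN hqL hN' hG' 𝒪 𝒪 (s59f_eW hqL ((p ^ (0 + n) - 1) * ((p ^ (0 + n) + 1) / 2))) he' hee).Compat (s59t_actH (N₁ * ∏ j, qv j) aq (dvd_refl (N₁ * ∏ j, qv j)) (s59t_Hmul N₁ (∏ j, qv j) (⊤ : Subgroup (ZMod N₁)ˣ) (s59t_KQ (p ^ n) qv)) (G₁ * s59t_jG 𝒪 (s59t_goodB (N₁ * ∏ j, qv j) B) e₀₁)) (s59t_actH (N₂ * ∏ j, qv j) aq (dvd_refl (N₂ * ∏ j, qv j)) (s59t_Hmul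 N₂ (∏ j, qv j) (⊤ : Subgroup (ZMod N₂)ˣ) (s59t_KQ (p ^ n) qv)) (G₂ * s59t_jG 𝒪 (s59t_goodB (N₂ * ∏ j, qv j) B) e₀₂))), s59x_OldStable ((s59f_oldN hqL hN' hG' 𝒪 𝒪 (s59f_eW hqL ((p ^ (0 + n) - 1) * ((p ^ (0 + n) + 1) / 2))) he' hee).restrict hc') (s59t_part P'₁) (s59t_part P'₂)) := by
  subst hM₂
  exact Internal.s59x_stepH_st
    p B 𝒪 M₁ q N₁ N₂ hN₁ hN₂ hN hpM₁ hpM₂ hqM₁ n qv aq e₀₁ G₁ P'₁ e₀₂ G₂ P'₂ ep εQM₁ hpL₁ hN'p₁ hG'p₁ hep'₁ heep'₁ hc'p₁ hmem'₁ εQM₂ hpL₂ hN'p₂ hG'p₂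
    hep'₂ heep'₂ hc'p₂ hmem'₂

/-- **`hT5w` (helper7's `Internal.s59x_stepH_T5w`) with the upper `p`-free level a variable and its idempotent abstract in the `p`-package.** -/
theorem Internal.s59m_stepH_T5w_g (p : ℕ) [Fact p.Prime] (hp2 : p ≠ 2) (W : WeierstrassCurve ℤ) (hΔ : W.Δ ≠ 0)
    (B : Finset ℕ) (hirr : W.ModRepIsIrreducible p)
    (𝒪 : Type) [CommRing 𝒪] [IsDomain 𝒪] [IsDiscreteValuationRing 𝒪]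
    [IsAdicComplete (maximalIdeal 𝒪) 𝒪] [Finite (ResidueField 𝒪)] [CharZero 𝒪]
    [Algebra ℤ_[p] 𝒪]
    (hp𝒪 : ((p : ℕ) : 𝒪) ∈ maximalIdeal 𝒪)
    -- the levels
    (M₁ q N₁ N₂ M₂ : ℕ) [NeZero M₁] [NeZero M₂] [NeZero N₁] [NeZero N₂] [hq : Fact q.Prime]
    (hN₁ : N₁ = M₁ * p) (hN₂ : N₂ = M₂ * p) (hN : N₂ = N₁ * q) (hM₂ : M₂ = M₁ * q)
    (hqM₁ : ¬ q ∣ M₁) (hqp : q ≠ p) (hpB : p ∈ B)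
    (hB1 : ∀ r : ℕ, r.Prime → r ∣ N₂ → r ∈ B)
    -- the base data of the level `N₁`
    (e₁ : MvPolynomial ↥(s59t_goodB N₁ B) 𝒪)
    (h1e₁ : 1 - e₁ ∈ s59t_evalIdeal (fun x : ↥(s59t_goodB N₁ B) =>
      s59t_cB (𝒪 := 𝒪) N₁ (fun ℓ => W.apOfModel ℓ) (x : s59w_AIdx N₁)))
    (hid₁ : (s59t_E0 (⊤ : Subgroup (ZMod N₁)ˣ) B e₁) * (s59t_E0 (⊤ : Subgroup (ZMod N₁)ˣ) B e₁) = (s59t_E0 (⊤ : Subgroup (ZMod N₁)ˣ) B e₁))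
    (hnil₁ : ∀ x ∈ s59t_goodB N₁ B, ∃ k : ℕ, ∀ y : (s48h_Hpar 𝒪 (s48h_GammaH N₁ (⊤ : Subgroup (ZMod N₁)ˣ)) 𝒪),
      ((s59w_op (⊤ : Subgroup (ZMod N₁)ˣ) 𝒪 x - s59t_cB (𝒪 := 𝒪) N₁ (fun ℓ => W.apOfModel ℓ) x •
        (1 : Module.End 𝒪 (s48h_Hpar 𝒪 (s48h_GammaH N₁ (⊤ : Subgroup (ZMod N₁)ˣ)) 𝒪))) ^ k) ((s59t_E0 (⊤ : Subgroup (ZMod N₁)ˣ) B e₁) y) ∈
        (maximalIdeal 𝒪 • ⊤ : Submodule 𝒪 (s48h_Hpar 𝒪 (s48h_GammaH N₁ (⊤ : Subgroup (ZMod N₁)ˣ)) 𝒪)))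
    -- the base data of the level `N₂`
    (e₂ : MvPolynomial ↥(s59t_goodB N₂ B) 𝒪)
    (h1e₂ : 1 - e₂ ∈ s59t_evalIdeal (fun x : ↥(s59t_goodB N₂ B) =>
      s59t_cB (𝒪 := 𝒪) N₂ (fun ℓ => W.apOfModel ℓ) (x : s59w_AIdx N₂)))
    (hid₂ : (s59t_E0 (⊤ : Subgroup (ZMod N₂)ˣ) B e₂) * (s59t_E0 (⊤ : Subgroup (ZMod N₂)ˣ) B e₂) = (s59t_E0 (⊤ : Subgroup (ZMod N₂)ˣ) B e₂))
    (hnil₂ : ∀ x ∈ s59t_goodB N₂ B, ∃ k : ℕ, ∀ y : (s48h_Hpar 𝒪 (s48h_GammaH N₂ (⊤ : Subgroup (ZMod N₂)ˣ)) 𝒪),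
      ((s59w_op (⊤ : Subgroup (ZMod N₂)ˣ) 𝒪 x - s59t_cB (𝒪 := 𝒪) N₂ (fun ℓ => W.apOfModel ℓ) x •
        (1 : Module.End 𝒪 (s48h_Hpar 𝒪 (s48h_GammaH N₂ (⊤ : Subgroup (ZMod N₂)ˣ)) 𝒪))) ^ k) ((s59t_E0 (⊤ : Subgroup (ZMod N₂)ˣ) B e₂) y) ∈
        (maximalIdeal 𝒪 • ⊤ : Submodule 𝒪 (s48h_Hpar 𝒪 (s48h_GammaH N₂ (⊤ : Subgroup (ZMod N₂)ˣ)) 𝒪)))
    -- the Taylor–Wiles level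
    {r : ℕ} (n : ℕ) (qv : Fin r → ℕ) [NeZero (∏ j, qv j)] (aq : ℕ → 𝒪)
    (hqv : ∀ i, (qv i).Prime ∧ qv i ∉ B ∧ p ^ (n + 1) ∣ qv i - 1)
    (hcard₁ : Nat.card (s59t_BQ N₁ (∏ j, qv j) (⊤ : Subgroup (ZMod N₁)ˣ) (s59t_KQ (p ^ n) qv)) = (p ^ n) ^ r)
    -- the Galois side
    (Sg Su : Finset ℕ)
    (DQ : GaloisRep.DeformationRingData 𝒪 (s59i_rhobarW W p hΔ 𝒪 hp𝒪) (fun _A _ _ _ ρ => GaloisRep.strictOrdinaryCondition 𝒪 p Sg ρ ∧ ∀ q ∈ Su, q.Prime → q ≠ p → ρ.IsUnipotentOnInertiaAt q))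
    (Dsf : GaloisRep.DeformationRingData 𝒪 (s59i_rhobarW W p hΔ 𝒪 hp𝒪) (s59q_SfType 𝒪 p Sg Su))
    (κsf : DQ.R →ₐ[𝒪] Dsf.R) (hκtr : ∀ g, κsf (s59i_cpTr DQ.ρ g) = s59i_cpTr Dsf.ρ g)
        [NeZero (M₂ * ∏ j, qv j)]
        [NeZero (N₁ * ∏ j, qv j)]
        [NeZero (N₂ * ∏ j, qv j)]
        [NeZero (M₂ * ∏ q ∈ Finset.univ.image qv, q ^ 2)]
        [NeZero (N₁ * ∏ q ∈ Finset.univ.image qv, q ^ 2)]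
        [NeZero (N₂ * ∏ q ∈ Finset.univ.image qv, q ^ 2)]
        -- the Taylor–Wiles data of the level `N₁`
        (e₀₁ : MvPolynomial ↥(s59t_goodB (N₁ * ∏ j, qv j) B) 𝒪)
        (G₁ : MvPolynomial (s59w_AIdx (N₁ * ∏ j, qv j) ⊕ ℕ) 𝒪)
        (hρ'₁ : ∀ δ y, (s59t_actH (N₁ * ∏ j, qv j) aq (dvd_refl (N₁ * ∏ j, qv j)) (s59t_Hmul N₁ (∏ j, qv j) (⊤ : Subgroup (ZMod N₁)ˣ) (s59t_KQ (p ^ n) qv)) (G₁ * s59t_jG 𝒪 (s59t_goodB (N₁ * ∏ j, qv j) B) e₀₁)) ((s59t_rho (N₁ * ∏ j, qv j) (s59t_Hmul N₁ (∏ j, qv j) (⊤ : Subgroup (ZMod N₁)ˣ) (s59t_KQ (p ^ n) qv)) 𝒪 𝒪) δ y) = (s59t_rho (N₁ * ∏ j, qv j) (s59t_Hmul N₁ (∏ j, qv j) (⊤ : Subgroup (ZMod N₁)ˣ) (s59t_KQ (p ^ n) qv)) 𝒪 𝒪) δ ((s59t_actH (N₁ * ∏ j, qv j) aq (dvd_refl (N₁ * ∏ j, qv j)) (s59t_Hmul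 N₁ (∏ j, qv j) (⊤ : Subgroup (ZMod N₁)ˣ) (s59t_KQ (p ^ n) qv)) (G₁ * s59t_jG 𝒪 (s59t_goodB (N₁ * ∏ j, qv j) B) e₀₁)) y))
        (π₁ : s59t_part (s59t_actH (N₁ * ∏ j, qv j) aq (dvd_refl (N₁ * ∏ j, qv j)) (s59t_Hmul N₁ (∏ j, qv j) (⊤ : Subgroup (ZMod N₁)ˣ) (s59t_KQ (p ^ n) qv)) (G₁ * s59t_jG 𝒪 (s59t_goodB (N₁ * ∏ j, qv j) B) e₀₁)) →ₗ[𝒪] s59t_part (s59t_E0 (⊤ : Subgroup (ZMod N₁)ˣ) B e₁))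
        (hιπ₁ : ∀ y, s59t_iotaH (s59t_E0 (⊤ : Subgroup (ZMod N₁)ˣ) B e₁) (s59t_actH (N₁ * ∏ j, qv j) aq (dvd_refl (N₁ * ∏ j, qv j)) (s59t_Hmul N₁ (∏ j, qv j) (⊤ : Subgroup (ZMod N₁)ˣ) (s59t_KQ (p ^ n) qv)) (G₁ * s59t_jG 𝒪 (s59t_goodB (N₁ * ∏ j, qv j) B) e₀₁)) (s59t_resGHpar
      (s59t_GammaHmul_le (N := N₁) (D := ∏ j, qv j) (H := (⊤ : Subgroup (ZMod N₁)ˣ)) (K := s59t_KQ (p ^ n) qv)) 𝒪 𝒪) (π₁ y) =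
      s59t_normPsi (s59t_partRep (s59t_rho (N₁ * ∏ j, qv j) (s59t_Hmul N₁ (∏ j, qv j) (⊤ : Subgroup (ZMod N₁)ˣ) (s59t_KQ (p ^ n) qv)) 𝒪 𝒪) hρ'₁) (s59t_BQ N₁ (∏ j, qv j) (⊤ : Subgroup (ZMod N₁)ˣ) (s59t_KQ (p ^ n) qv)) 1 y)
        (hP1₁ : s59t_TWFull (s59t_Gamma0_anti (s59t_dvd_mul_left' N₁ (∏ j, qv j))) (s59t_GammaHmul_le (N := N₁) (D := ∏ j, qv j) (H := (⊤ : Subgroup (ZMod N₁)ˣ)) (K := s59t_KQ (p ^ n) qv)) (s59t_BQ N₁ (∏ j, qv j) (⊤ : Subgroup (ZMod N₁)ˣ) (s59t_KQ (p ^ n) qv)) (s59t_CQ N₁ (∏ j, qv j) (⊤ : Subgroup (ZMod N₁)ˣ) (s59t_KQ (p ^ n) qv)) (s59t_E0 (⊤ : Subgroup (ZMod N₁)ˣ) B e₁) (s59t_actH (N₁ * ∏ j, qv j) aq (dvd_refl (N₁ * ∏ j, qv j)) (s59t_Hmul N₁ (∏ j, qv j) (⊤ : Subgroup (ZMod N₁)ˣ) (s59t_KQ (p ^ n) qv)) (G₁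 * s59t_jG 𝒪 (s59t_goodB (N₁ * ∏ j, qv j) B) e₀₁)))
        -- the kernel pair of the level `N₁`
        (P'₁ : Module.End 𝒪 (s59t_part (s59t_actH (N₁ * ∏ j, qv j) aq (dvd_refl (N₁ * ∏ j, qv j)) (s59t_Hmul N₁ (∏ j, qv j) (⊤ : Subgroup (ZMod N₁)ˣ) (s59t_KQ (p ^ n) qv)) (G₁ * s59t_jG 𝒪 (s59t_goodB (N₁ * ∏ j, qv j) B) e₀₁))))
        (hP'₁ : ∀ δ x, P'₁ ((s59t_partRep (s59t_rho (N₁ * ∏ j, qv j) (s59t_Hmul N₁ (∏ j, qv j) (⊤ : Subgroup (ZMod N₁)ˣ) (s59t_KQ (p ^ n) qv)) 𝒪 𝒪) hρ'₁) δ x) = (s59t_partRep (s59t_rho (N₁ * ∏ j, qv j) (s59t_Hmul N₁ (∏ j, qv j) (⊤ : Subgroup (ZMod N₁)ˣ) (s59t_KQ (p ^ n) qv)) 𝒪 𝒪) hρ'₁) δ (P'₁ x))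
        (a₁ : (heckeAlgebra (N₁ * ∏ q ∈ Finset.univ.image qv, q ^ 2) 2 (↑(B ∪ Finset.univ.image qv) : Set ℕ)) →+* Module.End 𝒪 (s48h_Hpar 𝒪 (s48h_GammaH (N₁ * ∏ j, qv j) (s59t_Hmul N₁ (∏ j, qv j) (⊤ : Subgroup (ZMod N₁)ˣ) (s59t_KQ (p ^ n) qv))) 𝒪))
        (ha1₁ : ∀ (ℓ : ℕ) (hℓ : ℓ.Prime) (hℓN : ¬ ℓ ∣ (N₁ * ∏ q ∈ Finset.univ.image qv, q ^ 2))
      (hℓS : ℓ ∉ (↑(B ∪ Finset.univ.image qv) : Set ℕ)) (i : s59w_TIdx (N₁ * ∏ j, qv j)),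
      i.ell = ℓ → a₁ (heckeAlgebra.T hℓ hℓN hℓS) = s59e_Tp' (s59t_Hmul N₁ (∏ j, qv j) (⊤ : Subgroup (ZMod N₁)ˣ) (s59t_KQ (p ^ n) qv)) 𝒪 ((p ^ (0 + n) - 1) * ((p ^ (0 + n) + 1) / 2)) i)
        (aZ₁ : (heckeAlgebra (N₁ * ∏ q ∈ Finset.univ.image qv, q ^ 2) 2 (↑(B ∪ Finset.univ.image qv) : Set ℕ)) →+* Module.End 𝒪 (s59t_part P'₁))
        (haZ₁ : ∀ t (z : s59t_part P'₁), s59x_jZ (s59t_Hmul N₁ (∏ j, qv j) (⊤ : Subgroup (ZMod N₁)ˣ) (s59t_KQ (p ^ n) qv)) (s59t_actH (N₁ * ∏ j, qv j) aq (dvd_refl (N₁ * ∏ j, qv j)) (s59t_Hmul N₁ (∏ j, qv j) (⊤ : Subgroup (ZMod N₁)ˣ) (s59t_KQ (p ^ n) qv)) (G₁ * s59t_jG 𝒪 (s59t_goodB (N₁ * ∏ j, qv j) B) e₀₁)) P'₁ (aZ₁ t z) = a₁ t (s59x_jZ (s59t_Hmul N₁ (∏ j, qv j) (⊤ : Subgroup (ZMod N₁)ˣ) (s59t_KQ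 (p ^ n) qv)) (s59t_actH (N₁ * ∏ j, qv j) aq (dvd_refl (N₁ * ∏ j, qv j)) (s59t_Hmul N₁ (∏ j, qv j) (⊤ : Subgroup (ZMod N₁)ˣ) (s59t_KQ (p ^ n) qv)) (G₁ * s59t_jG 𝒪 (s59t_goodB (N₁ * ∏ j, qv j) B) e₀₁)) P'₁ z))
        [IsLocalRing (s59e_adj 𝒪 aZ₁)]
        (θ₁ : DQ.R →ₐ[𝒪] s59e_adj 𝒪 aZ₁)
        (hθl₁ : IsLocalHom (θ₁ : DQ.R →+* s59e_adj 𝒪 aZ₁))
        (hfrobT₁ : ∀ ℓ : ℕ, ℓ.Prime → ℓ ∉ (B ∪ Finset.univ.image qv) →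
      ∀ A' : ValuationSubring (AlgebraicClosure ℚ), A'.LiesOverPrime ℓ →
      ∀ τ : Γℚ, A'.IsFrobeniusAt τ ℓ →
        (LinearMap.charpoly (DQ.ρ.ρ τ)).map (θ₁ : DQ.R →+* s59e_adj 𝒪 aZ₁) =
          Polynomial.X ^ 2 - Polynomial.C (s59e_tOf (↑(B ∪ Finset.univ.image qv) : Set ℕ) aZ₁ ℓ) * Polynomial.X +
            Polynomial.C ((ℓ : s59e_adj 𝒪 aZ₁)))
        -- the Taylor–Wiles data of the level `N₂`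
        (e₀₂ : MvPolynomial ↥(s59t_goodB (N₂ * ∏ j, qv j) B) 𝒪)
        (G₂ : MvPolynomial (s59w_AIdx (N₂ * ∏ j, qv j) ⊕ ℕ) 𝒪)
        (hρ'₂ : ∀ δ y, (s59t_actH (N₂ * ∏ j, qv j) aq (dvd_refl (N₂ * ∏ j, qv j)) (s59t_Hmul N₂ (∏ j, qv j) (⊤ : Subgroup (ZMod N₂)ˣ) (s59t_KQ (p ^ n) qv)) (G₂ * s59t_jG 𝒪 (s59t_goodB (N₂ * ∏ j, qv j) B) e₀₂)) ((s59t_rho (N₂ * ∏ j, qv j) (s59t_Hmul N₂ (∏ j, qv j) (⊤ : Subgroup (ZMod N₂)ˣ) (s59t_KQ (p ^ n) qv)) 𝒪 𝒪) δ y) = (s59t_rho (N₂ * ∏ j, qv j) (s59t_Hmul N₂ (∏ j, qv j) (⊤ : Subgroup (ZMod N₂)ˣ) (s59t_KQ (p ^ n) qv)) 𝒪 𝒪) δ ((s59t_actH (N₂ * ∏ j, qv j) aq (dvd_refl (N₂ * ∏ j, qv j)) (s59t_Hmul N₂ (∏ j, qv j) (⊤ : Subgroup (ZMod N₂)ˣ) (s59t_KQ (p ^ n) qv)) (G₂ * s59t_jG 𝒪 (s59t_goodB (N₂ * ∏ j,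 qv j) B) e₀₂)) y))
        (π₂ : s59t_part (s59t_actH (N₂ * ∏ j, qv j) aq (dvd_refl (N₂ * ∏ j, qv j)) (s59t_Hmul N₂ (∏ j, qv j) (⊤ : Subgroup (ZMod N₂)ˣ) (s59t_KQ (p ^ n) qv)) (G₂ * s59t_jG 𝒪 (s59t_goodB (N₂ * ∏ j, qv j) B) e₀₂)) →ₗ[𝒪] s59t_part (s59t_E0 (⊤ : Subgroup (ZMod N₂)ˣ) B e₂))
        (hιπ₂ : ∀ y, s59t_iotaH (s59t_E0 (⊤ : Subgroup (ZMod N₂)ˣ) B e₂) (s59t_actH (N₂ * ∏ j, qv j) aq (dvd_refl (N₂ * ∏ j, qv j)) (s59t_Hmul N₂ (∏ j, qv j) (⊤ : Subgroup (ZMod N₂)ˣ) (s59t_KQ (p ^ n) qv)) (G₂ * s59t_jG 𝒪 (s59t_goodB (N₂ * ∏ j, qv j) B) e₀₂)) (s59t_resGHpar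
      (s59t_GammaHmul_le (N := N₂) (D := ∏ j, qv j) (H := (⊤ : Subgroup (ZMod N₂)ˣ)) (K := s59t_KQ (p ^ n) qv)) 𝒪 𝒪) (π₂ y) =
      s59t_normPsi (s59t_partRep (s59t_rho (N₂ * ∏ j, qv j) (s59t_Hmul N₂ (∏ j, qv j) (⊤ : Subgroup (ZMod N₂)ˣ) (s59t_KQ (p ^ n) qv)) 𝒪 𝒪) hρ'₂) (s59t_BQ N₂ (∏ j, qv j) (⊤ : Subgroup (ZMod N₂)ˣ) (s59t_KQ (p ^ n) qv)) 1 y)
        (hP1₂ : s59t_TWFull (s59t_Gamma0_anti (s59t_dvd_mul_left' N₂ (∏ j, qv j))) (s59t_GammaHmul_le (N := N₂) (D := ∏ j, qv j) (H := (⊤ : Subgroup (ZMod N₂)ˣ)) (K := s59t_KQ (p ^ n) qv)) (s59t_BQ N₂ (∏ j, qv j) (⊤ : Subgroup (ZMod N₂)ˣ) (s59t_KQ (p ^ n) qv)) (s59t_CQ N₂ (∏ j, qv j) (⊤ : Subgroup (ZMod N₂)ˣ) (s59t_KQ (p ^ n) qv)) (s59t_E0 (⊤ : Subgroup (ZMod N₂)ˣ) B e₂) (s59t_actH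 (N₂ * ∏ j, qv j) aq (dvd_refl (N₂ * ∏ j, qv j)) (s59t_Hmul N₂ (∏ j, qv j) (⊤ : Subgroup (ZMod N₂)ˣ) (s59t_KQ (p ^ n) qv)) (G₂ * s59t_jG 𝒪 (s59t_goodB (N₂ * ∏ j, qv j) B) e₀₂)))
        -- the kernel pair of the level `N₂`
        (P'₂ : Module.End 𝒪 (s59t_part (s59t_actH (N₂ * ∏ j, qv j) aq (dvd_refl (N₂ * ∏ j, qv j)) (s59t_Hmul N₂ (∏ j, qv j) (⊤ : Subgroup (ZMod N₂)ˣ) (s59t_KQ (p ^ n) qv)) (G₂ * s59t_jG 𝒪 (s59t_goodB (N₂ * ∏ j, qv j) B) e₀₂))))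
        (hP'₂ : ∀ δ x, P'₂ ((s59t_partRep (s59t_rho (N₂ * ∏ j, qv j) (s59t_Hmul N₂ (∏ j, qv j) (⊤ : Subgroup (ZMod N₂)ˣ) (s59t_KQ (p ^ n) qv)) 𝒪 𝒪) hρ'₂) δ x) = (s59t_partRep (s59t_rho (N₂ * ∏ j, qv j) (s59t_Hmul N₂ (∏ j, qv j) (⊤ : Subgroup (ZMod N₂)ˣ) (s59t_KQ (p ^ n) qv)) 𝒪 𝒪) hρ'₂) δ (P'₂ x))
        -- the Hecke ring of the FULL part of the level `N₂`
        (aH₂ : (heckeAlgebra (N₂ * ∏ q ∈ Finset.univ.image qv, q ^ 2) 2 (↑(B ∪ Finset.univ.image qv) : Set ℕ)) →+* Module.End 𝒪 (s48h_Hpar 𝒪 (s48h_GammaH (N₂ * ∏ j, qv j) (s59t_Hmul N₂ (∏ j, qv j) (⊤ : Subgroup (ZMod N₂)ˣ) (s59t_KQ (p ^ n) qv))) 𝒪))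
        (ha1H₂ : ∀ (ℓ : ℕ) (hℓ : ℓ.Prime) (hℓN : ¬ ℓ ∣ (N₂ * ∏ q ∈ Finset.univ.image qv, q ^ 2))
      (hℓS : ℓ ∉ (↑(B ∪ Finset.univ.image qv) : Set ℕ)) (i : s59w_TIdx (N₂ * ∏ j, qv j)),
      i.ell = ℓ → aH₂ (heckeAlgebra.T hℓ hℓN hℓS) = s59e_Tp' (s59t_Hmul N₂ (∏ j, qv j) (⊤ : Subgroup (ZMod N₂)ˣ) (s59t_KQ (p ^ n) qv)) 𝒪 ((p ^ (0 + n) - 1) * ((p ^ (0 + n) + 1) / 2)) i)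
        (ha2H₂ : ∀ t, aH₂ t ∈ Subring.closure (Set.range (s59e_Tp' (s59t_Hmul N₂ (∏ j, qv j) (⊤ : Subgroup (ZMod N₂)ˣ) (s59t_KQ (p ^ n) qv)) 𝒪 ((p ^ (0 + n) - 1) * ((p ^ (0 + n) + 1) / 2)))))
        (aF₂ : (heckeAlgebra (N₂ * ∏ q ∈ Finset.univ.image qv, q ^ 2) 2 (↑(B ∪ Finset.univ.image qv) : Set ℕ)) →+* Module.End 𝒪 (s59t_part (s59t_actH (N₂ * ∏ j, qv j) aq (dvd_refl (N₂ * ∏ j, qv j)) (s59t_Hmul N₂ (∏ j, qv j) (⊤ : Subgroup (ZMod N₂)ˣ) (s59t_KQ (p ^ n) qv)) (G₂ * s59t_jG 𝒪 (s59t_goodB (N₂ * ∏ j, qv j) B) e₀₂))))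
        (haF₂ : ∀ t (z : s59t_part (s59t_actH (N₂ * ∏ j, qv j) aq (dvd_refl (N₂ * ∏ j, qv j)) (s59t_Hmul N₂ (∏ j, qv j) (⊤ : Subgroup (ZMod N₂)ˣ) (s59t_KQ (p ^ n) qv)) (G₂ * s59t_jG 𝒪 (s59t_goodB (N₂ * ∏ j, qv j) B) e₀₂))), ((aF₂ t z : s59t_part (s59t_actH (N₂ * ∏ j, qv j) aq (dvd_refl (N₂ * ∏ j, qv j)) (s59t_Hmul N₂ (∏ j, qv j) (⊤ : Subgroup (ZMod N₂)ˣ) (s59t_KQ (p ^ n) qv)) (G₂ * s59t_jG 𝒪 (s59t_goodB (N₂ * ∏ j, qv j) B) e₀₂))) : (s48h_Hpar 𝒪 (s48h_GammaH (N₂ * ∏ j, qv j) (s59t_Hmul N₂ (∏ j, qv j) (⊤ : Subgroup (ZMod N₂)ˣ) (s59t_KQ (p ^ n) qv))) 𝒪)) = aH₂ t (z : (s48h_Hpar 𝒪 (s48h_GammaH (N₂ * ∏ j, qv j) (s59t_Hmul N₂ (∏ j, qv j) (⊤ : Subgroup (ZMod N₂)ˣ) (s59t_KQ (p ^ n) qv))) 𝒪)))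
        [IsLocalRing (s59e_adj 𝒪 aF₂)] [Module.Finite 𝒪 (s59e_adj 𝒪 aF₂)]
        [IsLocalHom (algebraMap 𝒪 (s59e_adj 𝒪 aF₂))]
        (hresF₂ : Function.Surjective (residue (s59e_adj 𝒪 aF₂) ∘ algebraMap 𝒪 (s59e_adj 𝒪 aF₂)))
        -- ONE normalising element for the `p`-packages
        (ep : SL(2, ℤ))
        -- the `p`-package of the Taylor–Wiles level `N₂` (normalising element `ep`) and the kernel pair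
        (e₀M₂ : MvPolynomial ↥(s59t_goodB (M₂ * ∏ j, qv j) B) 𝒪)
        (GM₂ : MvPolynomial (s59w_AIdx (M₂ * ∏ j, qv j) ⊕ ℕ) 𝒪)
        (εM₂ : Module.End 𝒪 (s48h_Hpar 𝒪 (s48h_GammaH (M₂ * ∏ j, qv j) (s59t_Hmul M₂ (∏ j, qv j) (⊤ : Subgroup (ZMod M₂)ˣ) (s59t_KQ (p ^ n) qv))) 𝒪))
        (hεM₂ : εM₂ = (s59t_actH (M₂ * ∏ j, qv j) aq (dvd_refl (M₂ * ∏ j, qv j)) (s59t_Hmul M₂ (∏ j, qv j) (⊤ : Subgroup (ZMod M₂)ˣ) (s59t_KQ (p ^ n) qv)) (GM₂ * s59t_jG 𝒪 (s59t_goodB (M₂ * ∏ j, qv j) B) e₀M₂)))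
        (hpL₂ : ¬ p ∣ (M₂ * ∏ j, qv j)) (hN'p₂ : (N₂ * ∏ j, qv j) = (M₂ * ∏ j, qv j) * p)
        (hG'p₂ : s59f_IsG' (M₂ * ∏ j, qv j) p (s59t_Hmul M₂ (∏ j, qv j) (⊤ : Subgroup (ZMod M₂)ˣ) (s59t_KQ (p ^ n) qv)) (s48h_GammaH (N₂ * ∏ j, qv j) (s59t_Hmul N₂ (∏ j, qv j) (⊤ : Subgroup (ZMod N₂)ˣ) (s59t_KQ (p ^ n) qv))))
        (hep'₂ : ep ∈ Gamma0 (N₂ * ∏ j, qv j))
        (heep'₂ : s59f_gW hpL₂ * ep * ep ∈ s48h_GammaH (N₂ * ∏ j, qv j) (s59t_Hmul N₂ (∏ j, qv j) (⊤ : Subgroup (ZMod N₂)ˣ) (s59t_KQ (p ^ n) qv)))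
        (hc'p₂ : (s59f_oldN hpL₂ hN'p₂ hG'p₂ 𝒪 𝒪 ep hep'₂ heep'₂).Compat εM₂ (s59t_actH (N₂ * ∏ j, qv j) aq (dvd_refl (N₂ * ∏ j, qv j)) (s59t_Hmul N₂ (∏ j, qv j) (⊤ : Subgroup (ZMod N₂)ˣ) (s59t_KQ (p ^ n) qv)) (G₂ * s59t_jG 𝒪 (s59t_goodB (N₂ * ∏ j, qv j) B) e₀₂)))
        (hmem'₂ : ∀ x : s59t_part (s59t_actH (N₂ * ∏ j, qv j) aq (dvd_refl (N₂ * ∏ j, qv j)) (s59t_Hmul N₂ (∏ j, qv j) (⊤ : Subgroup (ZMod N₂)ˣ) (s59t_KQ (p ^ n) qv)) (G₂ * s59t_jG 𝒪 (s59t_goodB (N₂ * ∏ j, qv j) B) e₀₂)), x ∈ s59t_part P'₂ ↔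
          ((s59f_oldN hpL₂ hN'p₂ hG'p₂ 𝒪 𝒪 ep hep'₂ heep'₂).restrict hc'p₂).corA x = 0 ∧ ((s59f_oldN hpL₂ hN'p₂ hG'p₂ 𝒪 𝒪 ep hep'₂ heep'₂).restrict hc'p₂).corB x = 0)
        -- the flat level `M₂`: the Hecke ring and the flat representation
        (a₃ : (heckeAlgebra (M₂ * ∏ q ∈ Finset.univ.image qv, q ^ 2) 2 (↑(B ∪ Finset.univ.image qv) : Set ℕ)) →+* Module.End 𝒪 (s48h_Hpar 𝒪 (s48h_GammaH (M₂ * ∏ j, qv j) (s59t_Hmul M₂ (∏ j, qv j) (⊤ : Subgroup (ZMod M₂)ˣ) (s59t_KQ (p ^ n) qv))) 𝒪))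
        (ha1₃ : ∀ (ℓ : ℕ) (hℓ : ℓ.Prime) (hℓN : ¬ ℓ ∣ (M₂ * ∏ q ∈ Finset.univ.image qv, q ^ 2))
      (hℓS : ℓ ∉ (↑(B ∪ Finset.univ.image qv) : Set ℕ)) (i : s59w_TIdx (M₂ * ∏ j, qv j)),
      i.ell = ℓ → a₃ (heckeAlgebra.T hℓ hℓN hℓS) = s59e_Tp' (s59t_Hmul M₂ (∏ j, qv j) (⊤ : Subgroup (ZMod M₂)ˣ) (s59t_KQ (p ^ n) qv)) 𝒪 ((p ^ (0 + n) - 1) * ((p ^ (0 + n) + 1) / 2)) i)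
        (aM₃ : (heckeAlgebra (M₂ * ∏ q ∈ Finset.univ.image qv, q ^ 2) 2 (↑(B ∪ Finset.univ.image qv) : Set ℕ)) →+* Module.End 𝒪 (s59t_part (s59t_actH (M₂ * ∏ j, qv j) aq (dvd_refl (M₂ * ∏ j, qv j)) (s59t_Hmul M₂ (∏ j, qv j) (⊤ : Subgroup (ZMod M₂)ˣ) (s59t_KQ (p ^ n) qv)) (GM₂ * s59t_jG 𝒪 (s59t_goodB (M₂ * ∏ j, qv j) B) e₀M₂))))
        (haM₃ : ∀ t (z : s59t_part (s59t_actH (M₂ * ∏ j, qv j) aq (dvd_refl (M₂ * ∏ j, qv j)) (s59t_Hmul M₂ (∏ j, qv j) (⊤ : Subgroup (ZMod M₂)ˣ) (s59t_KQ (p ^ n) qv)) (GM₂ * s59t_jG 𝒪 (s59t_goodB (M₂ * ∏ j, qv j) B) e₀M₂))), ((aM₃ t z : s59t_part (s59t_actH (M₂ * ∏ j, qv j) aq (dvd_refl (M₂ * ∏ j, qv j)) (s59t_Hmul M₂ (∏ j, qv j) (⊤ : Subgroup (ZMod M₂)ˣ) (s59t_KQ (p ^ n) qv)) (GM₂ * s59t_jG 𝒪 (s59t_goodB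 (M₂ * ∏ j, qv j) B) e₀M₂))) : (s48h_Hpar 𝒪 (s48h_GammaH (M₂ * ∏ j, qv j) (s59t_Hmul M₂ (∏ j, qv j) (⊤ : Subgroup (ZMod M₂)ˣ) (s59t_KQ (p ^ n) qv))) 𝒪)) = a₃ t (z : (s48h_Hpar 𝒪 (s48h_GammaH (M₂ * ∏ j, qv j) (s59t_Hmul M₂ (∏ j, qv j) (⊤ : Subgroup (ZMod M₂)ˣ) (s59t_KQ (p ^ n) qv))) 𝒪)))
        [IsLocalRing (s59e_adj 𝒪 aM₃)]
        (ρC : GaloisRepAdic (s59e_adj 𝒪 aM₃)) (hρC : ρC.IsFlatAt p)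
        (habsC : ρC.residual.IsAbsolutelyIrreducible)
        (hfrobC : ∀ ℓ : ℕ, ℓ.Prime → ℓ ∉ (B ∪ Finset.univ.image qv) →
      ∀ A' : ValuationSubring (AlgebraicClosure ℚ), A'.LiesOverPrime ℓ →
      ∀ τ : Γℚ, A'.IsFrobeniusAt τ ℓ →
        LinearMap.charpoly (ρC.ρ τ) =
          Polynomial.X ^ 2 - Polynomial.C (s59e_tOf (↑(B ∪ Finset.univ.image qv) : Set ℕ) aM₃ ℓ) * Polynomial.X +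
            Polynomial.C ((ℓ : s59e_adj 𝒪 aM₃))) :
    (∀ (hqL : ¬ q ∣ (N₁ * ∏ j, qv j)) (hN' : (N₂ * ∏ j, qv j) = (N₁ * ∏ j, qv j) * q)
          (hG' : s59f_IsG' (N₁ * ∏ j, qv j) q (s59t_Hmul N₁ (∏ j, qv j) (⊤ : Subgroup (ZMod N₁)ˣ) (s59t_KQ (p ^ n) qv)) (s48h_GammaH (N₂ * ∏ j, qv j) (s59t_Hmul N₂ (∏ j, qv j) (⊤ : Subgroup (ZMod N₂)ˣ) (s59t_KQ (p ^ n) qv))))
          (he' : s59f_eW hqL ((p ^ (0 + n) - 1) * ((p ^ (0 + n) + 1) / 2)) ∈ Gamma0 (N₂ * ∏ j, qv j))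
          (hee : s59f_gW hqL * s59f_eW hqL ((p ^ (0 + n) - 1) * ((p ^ (0 + n) + 1) / 2)) * s59f_eW hqL ((p ^ (0 + n) - 1) * ((p ^ (0 + n) + 1) / 2)) ∈ s48h_GammaH (N₂ * ∏ j, qv j) (s59t_Hmul N₂ (∏ j, qv j) (⊤ : Subgroup (ZMod N₂)ˣ) (s59t_KQ (p ^ n) qv)))
          (hc' : (s59f_oldN hqL hN' hG' 𝒪 𝒪 (s59f_eW hqL ((p ^ (0 + n) - 1) * ((p ^ (0 + n) + 1) / 2))) he' hee).Compat (s59t_actH (N₁ * ∏ j, qv j) aq (dvd_refl (N₁ * ∏ j, qv j)) (s59t_Hmul N₁ (∏ j, qv j) (⊤ : Subgroup (ZMod N₁)ˣ) (s59t_KQ (p ^ n) qv)) (G₁ * s59t_jG 𝒪 (s59t_goodB (N₁ * ∏ j, qv j) B) e₀₁)) (s59t_actH (N₂ * ∏ j, qv j) aq (dvd_refl (N₂ * ∏ j, qv j)) (s59t_Hmul N₂ (∏ j, qv j) (⊤ : Subgroup (ZMod N₂)ˣ) (s59t_KQ (p ^ n) qv)) (G₂ * s59t_jG 𝒪 (s59t_goodB (N₂ * ∏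 j, qv j) B) e₀₂))) (hst : s59x_OldStable ((s59f_oldN hqL hN' hG' 𝒪 𝒪 (s59f_eW hqL ((p ^ (0 + n) - 1) * ((p ^ (0 + n) + 1) / 2))) he' hee).restrict hc') (s59t_part P'₁) (s59t_part P'₂)),
          ∀ x ∈ ((RingHom.ker (κsf : DQ.R →+* Dsf.R) : Ideal DQ.R) : Set DQ.R), ∀ u ∈ s59t_eig (s59t_partRep (s59t_partRep (s59t_rho (N₁ * ∏ j, qv j) (s59t_Hmul N₁ (∏ j, qv j) (⊤ : Subgroup (ZMod N₁)ˣ) (s59t_KQ (p ^ n) qv)) 𝒪 𝒪) hρ'₁) hP'₁) (s59t_CQ N₁ (∏ j, qv j) (⊤ : Subgroup (ZMod N₁)ˣ) (s59t_KQ (p ^ n) qv)) (1 : (s59t_Delta (N₁ * ∏ j, qv j) (s59t_Hmul N₁ (∏ j, qv j) (⊤ : Subgroup (ZMod N₁)ˣ) (s59t_KQ (p ^ n) qv))) →* 𝒪ˣ),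
          ∀ v ∈ s59t_eig (s59t_partRep (s59t_partRep (s59t_rho (N₁ * ∏ j, qv j) (s59t_Hmul N₁ (∏ j, qv j) (⊤ : Subgroup (ZMod N₁)ˣ) (s59t_KQ (p ^ n) qv)) 𝒪 𝒪) hρ'₁) hP'₁) (s59t_CQ N₁ (∏ j, qv j) (⊤ : Subgroup (ZMod N₁)ˣ) (s59t_KQ (p ^ n) qv)) (1 : (s59t_Delta (N₁ * ∏ j, qv j) (s59t_Hmul N₁ (∏ j, qv j) (⊤ : Subgroup (ZMod N₁)ˣ) (s59t_KQ (p ^ n) qv))) →* 𝒪ˣ),
          ∃ z ∈ s59t_eig (s59t_partRep (s59t_partRep (s59t_rho (N₂ * ∏ j, qv j) (s59t_Hmul N₂ (∏ j, qv j) (⊤ : Subgroup (ZMod N₂)ˣ) (s59t_KQ (p ^ n) qv)) 𝒪 𝒪) hρ'₂) hP'₂) (s59t_CQ N₂ (∏ j, qv j) (⊤ : Subgroup (ZMod N₂)ˣ) (s59t_KQ (p ^ n) qv)) (1 : (s59t_Delta (N₂ * ∏ j, qv j) (s59t_Hmul N₂ (∏ j, qv j) (⊤ : Subgroup (ZMod N₂)ˣ) (s59t_KQ (p ^ n) qv))) →* 𝒪ˣ),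
            (s59x_oldSub ((s59f_oldN hqL hN' hG' 𝒪 𝒪 (s59f_eW hqL ((p ^ (0 + n) - 1) * ((p ^ (0 + n) + 1) / 2))) he' hee).restrict hc') hst).corA z = ((θ₁ x : s59e_adj 𝒪 aZ₁) : Module.End 𝒪 (s59t_part P'₁)) u ∧
            (s59x_oldSub ((s59f_oldN hqL hN' hG' 𝒪 𝒪 (s59f_eW hqL ((p ^ (0 + n) - 1) * ((p ^ (0 + n) + 1) / 2))) he' hee).restrict hc') hst).corB z = ((θ₁ x : s59e_adj 𝒪 aZ₁) : Module.End 𝒪 (s59t_part P'₁)) v) := by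
  subst hM₂
  subst hεM₂
  exact Internal.s59x_stepH_T5w
    p hp2 W hΔ B hirr 𝒪 hp𝒪 M₁ q N₁ N₂ hN₁ hN₂ hN hqM₁ hqp hpB hB1 e₁ h1e₁ hid₁ hnil₁ e₂ h1e₂ hid₂ hnil₂ n qv aq hqv hcard₁ Sg Su DQ Dsf κsf hκtr e₀₁
    G₁ hρ'₁ π₁ hιπ₁ hP1₁ P'₁ hP'₁ a₁ ha1₁ aZ₁ haZ₁ θ₁ hθl₁ hfrobT₁ e₀₂ G₂ hρ'₂ π₂ hιπ₂ hP1₂ P'₂ hP'₂ aH₂ ha1H₂ ha2H₂ aF₂ haF₂ hresF₂ ep e₀M₂ GM₂ hpL₂
    hN'p₂ hG'p₂ hep'₂ heep'₂ hc'p₂ hmem'₂ a₃ ha1₃ aM₃ haM₃ ρC hρC habsC hfrobC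

end Fermat.Agent.Lib.S59
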