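/-
PROGRAMME (R2) = S59, case (P), NON-MINIMAL half, item [WALL] / [W4c] (helper7, prefix `s59x_`): **THE WEAK ASSEMBLY OVER UN-FROZEN FAMILIES**
— the weak (`Jm`, `s59b_TStepWJ`, `s59b_TLevelFW`) twin of helper5's `s59efl_asm_lv` (EFlrAsmL.lean): the families `R₀ s`, `M₀ s`, `Lv₀ s`, … are
indexed by the chain indices `s` (NOT frozen), the steps are given in the wrapped form `s59x_StepConclLv (Lv₀ s) (Lv₀ s') (Old₀ s s' t ht hs hs') …`
(the conclusion of `s59x_step_concZ_gen`, NXConcZg.lean) for `s = t`, `s' = t + 1`, `t < k`; the conclusion is the weak `T`-side contract over the base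
`s59c3_mkBase k D0 (fun t => R₀ (min t k)) …` of the families re-indexed by `min t k` (= the base of helper9's `s59m_TFinCore`).  Inside: `choose` on
the steps, the frozen maps `su`, helper9's `s59m_asm_mk_w` — all over atoms, so that the giant final file has NO `min t k` and no unification of
`(rec _).Lv` terms (helper5's measurement: every such unification costs 85 s there).
-/
import Mathlib
import Fermat.Agent.Lib.S59.MKerAsmW
import Fermat.Agent.Lib.S59.NXStepAbs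

set_option autoImplicit false
set_option linter.unusedSectionVars false
set_option linter.unusedVariables false
set_option linter.style.haveILetI false
set_option maxHeartbeats 1600000

noncomputable section

namespace Fermat.Agent.Lib.S59

open IsLocalRing MvPowerSeries

local notation "Γℚ" => (AlgebraicClosure ℚ ≃ₐ[ℚ] AlgebraicClosure ℚ)

/-- **the weak assembly over un-frozen families, steps in the wrapped form `s59x_StepConclLv`.** -/
theorem s59x_asm_lv_w {𝒪 : Type} [CommRing 𝒪] [IsDomain 𝒪] [IsDiscreteValuationRing 𝒪]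
    [IsAdicComplete (maximalIdeal 𝒪) 𝒪] {p n r : ℕ} {σ : Type} [DecidableEq σ] [Fintype σ] (k : ℕ)
    {ρbar : ResidualGaloisRep (ResidueField 𝒪)}
    {𝒟₀ : ∀ ⦃A : Type⦄ [CommRing A] [IsLocalRing A] [Algebra 𝒪 A], GaloisRepAdic A → Prop}
    (D0 : GaloisRep.DeformationRingData 𝒪 ρbar 𝒟₀)
    (R₀ : ℕ → Type) [iR1 : ∀ s, CommRing (R₀ s)] (iR2 : ∀ s, IsLocalRing (R₀ s))
    (iR3 : ∀ s, IsNoetherianRing (R₀ s)) (iR4 : ∀ s, IsAdicComplete (maximalIdeal (R₀ s)) (R₀ s))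
    [iR5 : ∀ s, Algebra 𝒪 (R₀ s)] (iR6 : ∀ s, IsLocalHom (algebraMap 𝒪 (R₀ s)))
    (hRres : ∀ s, Function.Surjective (residue (R₀ s) ∘ algebraMap 𝒪 (R₀ s)))
    (M₀ : ℕ → Type) [iM1 : ∀ s, AddCommGroup (M₀ s)] [iM2 : ∀ s, Module (R₀ s) (M₀ s)]
    (iM3 : ∀ s, Module.Finite (R₀ s) (M₀ s)) (iM4 : Nontrivial (M₀ (min 0 k)))
    (Old₀ : ∀ s s' t : ℕ, t < k → s = t → s' = t + 1 → Submodule (R₀ s') (M₀ s'))
    (ρR₀ : ∀ s, GaloisRepAdic (R₀ s)) (hρR₀ : ∀ s, 𝒟₀ (ρR₀ s))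
    (hresR₀ : ∀ s, (ρR₀ s).residual.IsEquiv
      (ρbar.baseChangeAlong (ResidueField.map (algebraMap 𝒪 (R₀ s)))))
    (ν₀ : ∀ s, D0.R →ₐ[𝒪] R₀ s) (hν₀ : ∀ s g, ν₀ s (s59i_cpTr D0.ρ g) = s59i_cpTr (ρR₀ s) g)
    (hνs₀ : ∀ s, Function.Surjective (ν₀ s)) (d₀ : ℕ → ℕ)
    {qv : Fin r → ℕ}
    {𝒟 : ∀ ⦃A : Type⦄ [CommRing A] [IsLocalRing A] [Algebra 𝒪 A], GaloisRepAdic A → Prop}
    {DQ : GaloisRep.DeformationRingData 𝒪 ρbar 𝒟}
    (Lv₀ : ∀ s, @s59e_TLevelL 𝒪 _ _ _ _ p n r σ (R₀ s) (iR1 s) (iR2 s) (iR5 s) (M₀ s) (iM1 s) (iM2 s) (ρR₀ s) (d₀ s) qv _ _ DQ)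
    (qr : ℕ → ℕ) (φr σr : ℕ → Γℚ) (Jm : Set DQ.R)
    (hred : ∀ s, IsReduced (Lv₀ s).T')
    (htf : ∀ s, ∀ o : 𝒪, o ≠ 0 → ∀ x : (Lv₀ s).T', algebraMap 𝒪 (Lv₀ s).T' o * x = 0 → x = 0)
    (hst : ∀ (s s' t : ℕ) (ht : t < k) (hs : s = t) (hs' : s' = t + 1),
      @s59x_StepConclLv 𝒪 _ _ _ _ p n r σ _ _ ρbar 𝒟 DQ qv (R₀ s) (iR1 s) (iR2 s) (iR5 s) (M₀ s) (iM1 s) (iM2 s) (ρR₀ s) (d₀ s)
        (R₀ s') (iR1 s') (iR2 s') (iR5 s') (M₀ s') (iM1 s') (iM2 s') (ρR₀ s') (d₀ s')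
        (Lv₀ s) (Lv₀ s') (Old₀ s s' t ht hs hs') (qr t) (φr t) Jm)
    (hunr : ∀ s, s = 0 → ∀ l, l < k → ∀ (f : Module.Dual DQ.R DQ.ρ.V) (v : DQ.ρ.V),
      (Lv₀ s).θ (f (DQ.ρ.ρ (σr l) v - v)) = 0) :
    Nonempty (s59b_TLevelFW 𝒪 p n r σ k
      (s59c3_mkBase k D0 (fun t => R₀ (min t k)) (fun t => iR2 (min t k)) (fun t => iR3 (min t k))
        (fun t => iR4 (min t k)) (fun t => iR6 (min t k)) (fun t => hRres (min t k))
        (fun t => M₀ (min t k)) (fun t => iM3 (min t k)) iM4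
        (fun t => if h : t < k then
          Old₀ (min t k) (min (t + 1) k) t h (Nat.min_eq_left h.le) (Nat.min_eq_left h) else ⊥)
        (fun t ht => dif_neg (not_lt.mpr ht))
        (fun t => ρR₀ (min t k)) (fun t => hρR₀ (min t k)) (fun t => hresR₀ (min t k))
        (fun t => ν₀ (min t k)) (fun t g => hν₀ (min t k) g) (fun t => hνs₀ (min t k))
        (fun t => d₀ (min t k)))
      qv qr φr σr DQ Jm) := by
  classical
  have hmk : ∀ t, k ≤ t → min k k = min t k := fun t ht =>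
    (Nat.min_self k).trans (Nat.min_eq_right ht).symm
  delta s59x_StepConclLv at hst
  choose σl hσs hσu hσθ hstep using hst
  -- the frozen levels
  have hfro : ∀ a b : ℕ, a = b → ∃ s : (Lv₀ a).T →ₐ[𝒪] (Lv₀ b).T, Function.Surjective s ∧
      (∀ j, s (((Lv₀ a).uu j : (Lv₀ a).Tˣ) : (Lv₀ a).T) =
        (((Lv₀ b).uu j : (Lv₀ b).Tˣ) : (Lv₀ b).T)) ∧
      ∀ x, s (algebraMap (Lv₀ a).T' (Lv₀ a).T ((Lv₀ a).θ x)) =
        algebraMap (Lv₀ b).T' (Lv₀ b).T ((Lv₀ b).θ x) := by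
    rintro a _ rfl
    exact ⟨AlgHom.id 𝒪 _, Function.surjective_id, fun j => rfl, fun x => rfl⟩
  choose su0 hsu0s hsu0u hsu0θ using hfro
  refine s59m_asm_mk_w k D0 (fun t => R₀ (min t k)) (fun t => iR2 (min t k)) (fun t => iR3 (min t k))
      (fun t => iR4 (min t k)) (fun t => iR6 (min t k)) (fun t => hRres (min t k))
      (fun t => M₀ (min t k)) (fun t => iM3 (min t k)) iM4
      (fun t => if h : t < k then
        Old₀ (min t k) (min (t + 1) k) t h (Nat.min_eq_left h.le) (Nat.min_eq_left h) else ⊥)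
      (fun t ht => dif_neg (not_lt.mpr ht))
      (fun t => ρR₀ (min t k)) (fun t => hρR₀ (min t k)) (fun t => hresR₀ (min t k))
      (fun t => ν₀ (min t k)) (fun t g => hν₀ (min t k) g) (fun t => hνs₀ (min t k))
      (fun t => d₀ (min t k))
      (fun t => Lv₀ (min t k))
      (fun t ht => σl (min t k) (min (t + 1) k) t ht (Nat.min_eq_left ht.le) (Nat.min_eq_left ht))
      (fun t ht => hσs (min t k) (min (t + 1) k) t ht (Nat.min_eq_left ht.le) (Nat.min_eq_left ht))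
      (fun t ht => hσu (min t k) (min (t + 1) k) t ht (Nat.min_eq_left ht.le) (Nat.min_eq_left ht))
      (fun t ht => hσθ (min t k) (min (t + 1) k) t ht (Nat.min_eq_left ht.le) (Nat.min_eq_left ht))
      (fun t ht => su0 (min k k) (min t k) (hmk t ht)) (fun t ht => hsu0s (min k k) (min t k) (hmk t ht))
      (fun t ht j => hsu0u (min k k) (min t k) (hmk t ht) j)
      (fun t ht x => hsu0θ (min k k) (min t k) (hmk t ht) x) qr φr σr Jm
      (hred (min k k)) (htf (min k k)) ?_ (hunr (min 0 k) (Nat.zero_min k))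
  intro t ht s₂ hs₂ hsu₂ hsθ₂ hs₁ hsu₁
  refine hstep (min t k) (min (t + 1) k) t ht (Nat.min_eq_left ht.le) (Nat.min_eq_left ht)
    (MQ := M₀ (min (t + 1) k) ⧸ (if h : t < k then
        Old₀ (min t k) (min (t + 1) k) t h (Nat.min_eq_left h.le) (Nat.min_eq_left h) else ⊥))
    (Submodule.mkQ (if h : t < k then
        Old₀ (min t k) (min (t + 1) k) t h (Nat.min_eq_left h.le) (Nat.min_eq_left h) else ⊥))
    ?_ (Lv₀ (min k k)).θ (Lv₀ (min k k)).uu (Lv₀ (min k k)).huu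
    s₂ hs₂ hsu₂ hsθ₂ hs₁ hsu₁
  intro m'
  exact (Submodule.Quotient.mk_eq_zero _).trans (Eq.to_iff (congrArg (fun S => m' ∈ S) (dif_pos ht)))

end Fermat.Agent.Lib.S59
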