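/-
PROGRAMME (R2) = S59, case (P), NON-MINIMAL half, item [WALL] / [W4c] (helper7, prefix `s59x_`): small lemmas for the concrete step
`Internal.s59x_step_concZ` (NXConcZ.lean) — everything that needs `rcases`/`obtain`/`▸` is done here, in small contexts.
-/
import Mathlib
import Fermat.Agent.Lib.S59.FOldH8

set_option autoImplicit false
set_option linter.unusedSectionVars false
set_option linter.unusedVariables false

noncomputable section

namespace Fermat.Agent.Lib.S59

/-- a prime `q` not dividing `N` and different from the Taylor–Wiles primes does not divide the Taylor–Wiles level. -/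
theorem s59x_not_dvd_TWlvl {q N r : ℕ} (hqP : q.Prime) (qv : Fin r → ℕ) (hqvpr : ∀ i, (qv i).Prime)
    (hqN : ¬ q ∣ N) (hqqv : ∀ i, q ≠ qv i) : ¬ q ∣ N * ∏ j, qv j := by
  intro h
  rcases (Nat.Prime.dvd_mul hqP).mp h with h | h
  · exact hqN h
  · obtain ⟨i, -, hi⟩ := (Prime.dvd_finsetProd_iff (Nat.prime_iff.mp hqP) _).mp h
    exact hqqv i ((Nat.prime_dvd_prime_iff_eq hqP (hqvpr i)).mp hi)

/-- … and is not in the list of the Taylor–Wiles primes. -/
theorem s59x_not_mem_ofFn {q r : ℕ} (qv : Fin r → ℕ) (hqqv : ∀ i, q ≠ qv i) : q ∉ List.ofFn qv := by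
  intro h
  obtain ⟨i, hi⟩ := (List.mem_ofFn' qv q).mp h
  exact hqqv i hi.symm

/-- transport of a morphism of packages along an equality of the source package. -/
theorem s59x_oldHom_congr {R : Type*} [CommRing R] {Y₀ Z₀ Y Z : Type*} [AddCommGroup Y₀] [Module R Y₀]
    [AddCommGroup Z₀] [Module R Z₀] [AddCommGroup Y] [Module R Y] [AddCommGroup Z] [Module R Z]
    {D₀ D₀' : s59t_Old R Y₀ Z₀} (h : D₀ = D₀') {D : s59t_Old R Y Z} {ρY : Y₀ →ₗ[R] Y} {ρZ : Z₀ →ₗ[R] Z}
    (hh : s59f_OldHom D₀ D ρY ρZ) : s59f_OldHom D₀' D ρY ρZ := h ▸ hh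

end Fermat.Agent.Lib.S59

end
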