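/-
PROGRAMME (R2) = S59, case (P), NON-MINIMAL half, item [WALL] = helper2's (T5w) (helper7, prefix `s59x_`), file 4:
**THE ABSTRACT STEP WITH THE WEAK TRACE CLAUSE** — weak twins of helper4's `s59f_TStep_of_new` (FStepNew.lean) and of helper5's `s59efl_TStep`
(EFlrStep.lean): the dual Ihara clause (T5) at the base level modulo `𝔪` is REPLACED by the level-`n` clause (T5w)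
"`b • (N × N) ⊆ (cor_A, cor_B)(N')`"; output helper2's `s59b_TStepWJ` (B9TLvlW.lean; a SET of marked elements, the same `i`, `tr`, `i₀`).
* `s59x_TStepW_of_new` : from an old/new package on the level modules;
* `s59x_efl_TStep_w`   : from an old/new package `D'` on the Taylor–Wiles modules `(Y'₁, Y'₂)` with (T5w) on the eigen-parts
                         (`∀ u v ∈ Y'₁[C₁ = 1], ∃ z ∈ Y'₂[C₂ = 1], cor_A z = s₁ b • u ∧ cor_B z = s₁ b • v`), coefficientwise on the framed modules.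
-/
import Mathlib
import Fermat.Agent.Lib.S59.EFlrStep
import Fermat.Agent.Lib.S59.B9TLvlW

set_option autoImplicit false
set_option linter.unusedSectionVars false
set_option linter.unusedVariables false
set_option linter.style.haveILetI false
set_option maxHeartbeats 1600000

noncomputable section

namespace Fermat.Agent.Lib.S59

open IsLocalRing

section Assemble

/-- **assembly of the `T`-side leaves of one step at one Taylor–Wiles level, [NEW-q] form, WEAK trace clause.** -/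
theorem s59x_TStepW_of_new {S : Type} [CommRing S] [IsLocalRing S] {A : Type} [CommRing A]
    {R : Type} [CommRing R] {M : Type} [AddCommGroup M] [Module R M]
    {R' : Type} [CommRing R'] {M' : Type} [AddCommGroup M'] [Module R' M'] {𝔞 J : Ideal S}
    (LH : s59p_Level S A R M 𝔞 J) (LH' : s59p_Level S A R' M' 𝔞 J) (hφ : LH'.φ = LH.φ)
    (D : s59t_Old A LH.N LH'.N) (τ : A) (hT : ∀ y, D.T y = τ • y)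
    (rA₀ rB₀ : M →+ M')
    (hrA : ∀ x, LH'.π (D.resA x) = rA₀ (LH.π x)) (hrB : ∀ x, LH'.π (D.resB x) = rB₀ (LH.π x))
    (hT4 : ∀ m₁ m₂ : M,
      rA₀ m₁ + rB₀ m₂ ∈ (((maximalIdeal S).map LH'.φ).map LH'.ψ) • (⊤ : Submodule R' M') →
      m₁ ∈ (((maximalIdeal S).map LH.φ).map LH.ψ) • (⊤ : Submodule R M) ∧
      m₂ ∈ (((maximalIdeal S).map LH.φ).map LH.ψ) • (⊤ : Submodule R M))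
    (B : Set A)
    (hT5w : ∀ b ∈ B, ∀ u v : LH.N, ∃ z : LH'.N, D.corA z = b • u ∧ D.corB z = b • v)
    {MQ : Type} [AddCommGroup MQ] [Module R' MQ] (ρ : M' →ₗ[R'] MQ)
    (hρ : ∀ m' : M', ρ m' = 0 ↔ ∃ m₁ m₂, rA₀ m₁ + rB₀ m₂ = m')
    (hnew : ∀ z, D.corA z = 0 → D.corB z = 0 → ((D.qq + 1) ^ 2 - τ ^ 2) • z = 0) :
    s59b_TStepWJ LH LH' (D.qq + 1) τ τ (D.qq + 1) B ρ
      (Ideal.span {((D.qq + 1) ^ 2 - τ ^ 2) ^ 2}) := by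
  refine ⟨hφ, D.resA.coprod D.resB, D.corA.prod D.corB, fun m => rA₀ m.1 + rB₀ m.2,
    ?_, ?_, ?_, ?_, ?_, ?_⟩
  · intro u v
    rw [LinearMap.coprod_apply]
    show (D.corA (D.resA u + D.resB v), D.corB (D.resA u + D.resB v)) = _
    simp only [map_add, D.corA_resA, D.corA_resB, D.corB_resA, D.corB_resB, hT]
  · intro x y
    rw [LinearMap.coprod_apply, map_add, hrA, hrB]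
  · intro m₁ m₂ h
    exact hT4 m₁ m₂ h
  · intro b hb u v
    obtain ⟨z, hzA, hzB⟩ := hT5w b hb u v
    refine ⟨z, ?_⟩
    show (D.corA z, D.corB z) = _
    rw [hzA, hzB]
    rfl
  · intro m'
    rw [hρ m']
  · intro a ha z
    obtain ⟨c, rfl⟩ := Ideal.mem_span_singleton'.mp ha
    have h1 := s59f_T6sq_of_new D τ hT hnew (c • z)
    obtain ⟨y₁, y₂, h2⟩ := (s59f_mem_old_iff D _).mp h1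
    refine ⟨(y₁, y₂), ?_⟩
    rw [LinearMap.coprod_apply, h2, mul_smul, smul_comm]

end Assemble

section Step

variable {𝒪 : Type} [CommRing 𝒪]
  -- the base modules
  {Δ₁ : Type} [CommGroup Δ₁] [Fintype Δ₁] {Y₁ : Type} [AddCommGroup Y₁] [Module 𝒪 Y₁]
  (ρΔ₁ : Δ₁ →* Module.End 𝒪 Y₁)
  {R₁ : Type} [CommRing R₁] [Algebra 𝒪 R₁] [Module R₁ Y₁] [IsScalarTower 𝒪 R₁ Y₁]
  (hRρ₁ : ∀ (t : R₁) (δ : Δ₁) (y : Y₁), t • ρΔ₁ δ y = ρΔ₁ δ (t • y))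
  {Δ₂ : Type} [CommGroup Δ₂] [Fintype Δ₂] {Y₂ : Type} [AddCommGroup Y₂] [Module 𝒪 Y₂]
  (ρΔ₂ : Δ₂ →* Module.End 𝒪 Y₂)
  {R₂ : Type} [CommRing R₂] [Algebra 𝒪 R₂] [Module R₂ Y₂] [IsScalarTower 𝒪 R₂ Y₂]
  (hRρ₂ : ∀ (t : R₂) (δ : Δ₂) (y : Y₂), t • ρΔ₂ δ y = ρΔ₂ δ (t • y))
  -- the Taylor–Wiles modules
  {Δ'₁ : Type} [CommGroup Δ'₁] [Fintype Δ'₁] {Y'₁ : Type} [AddCommGroup Y'₁] [Module 𝒪 Y'₁]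
  (ρ'₁ : Δ'₁ →* Module.End 𝒪 Y'₁) (C₁ : Subgroup Δ'₁) [Fintype C₁]
  {T₁ : Type} [CommRing T₁] [Algebra 𝒪 T₁] [Module T₁ Y'₁] [IsScalarTower 𝒪 T₁ Y'₁]
  (hTρ₁ : ∀ (t : T₁) (δ : Δ'₁) (y : Y'₁), t • ρ'₁ δ y = ρ'₁ δ (t • y))
  {Δ'₂ : Type} [CommGroup Δ'₂] [Fintype Δ'₂] {Y'₂ : Type} [AddCommGroup Y'₂] [Module 𝒪 Y'₂]
  (ρ'₂ : Δ'₂ →* Module.End 𝒪 Y'₂) (C₂ : Subgroup Δ'₂) [Fintype C₂]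
  {T₂ : Type} [CommRing T₂] [Algebra 𝒪 T₂] [Module T₂ Y'₂] [IsScalarTower 𝒪 T₂ Y'₂]
  (hTρ₂ : ∀ (t : T₂) (δ : Δ'₂) (y : Y'₂), t • ρ'₂ δ y = ρ'₂ δ (t • y))

/-- **one step of the chain at one Taylor–Wiles level, WEAK trace clause.** -/
theorem s59x_efl_TStep_w
    -- the control maps
    (π₁ : Y'₁ →ₗ[𝒪] Y₁)
    (h2₁ : ∀ y ∈ s59t_eig ρ'₁ C₁ (1 : Δ'₁ →* 𝒪ˣ), π₁ y ∈ s59t_eig ρΔ₁ ⊤ (1 : Δ₁ →* 𝒪ˣ))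
    (π₂ : Y'₂ →ₗ[𝒪] Y₂)
    (h2₂ : ∀ y ∈ s59t_eig ρ'₂ C₂ (1 : Δ'₂ →* 𝒪ˣ), π₂ y ∈ s59t_eig ρΔ₂ ⊤ (1 : Δ₂ →* 𝒪ˣ))
    -- the packages
    (D' : s59t_Old 𝒪 Y'₁ Y'₂) (Db : s59t_Old 𝒪 Y₁ Y₂)
    -- the joint ring
    {σ : Type} [DecidableEq σ] {T : Type} [CommRing T] (s₁ : T →+* T₁) (s₂ : T →+* T₂)
    -- the levels
    {S : Type} [CommRing S] [IsLocalRing S] {𝔞 J : Ideal S}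
    (LH : s59p_Level S (MvPowerSeries σ T) R₁ (s59t_EigT ρΔ₁ ⊤ (1 : Δ₁ →* 𝒪ˣ) hRρ₁) 𝔞 J)
    (LH' : s59p_Level S (MvPowerSeries σ T) R₂ (s59t_EigT ρΔ₂ ⊤ (1 : Δ₂ →* 𝒪ˣ) hRρ₂) 𝔞 J)
    (hφ : LH'.φ = LH.φ)
    (e₁ : LH.N ≃+ s59t_PS σ (s59t_EigT ρ'₁ C₁ (1 : Δ'₁ →* 𝒪ˣ) hTρ₁))
    (e₂ : LH'.N ≃+ s59t_PS σ (s59t_EigT ρ'₂ C₂ (1 : Δ'₂ →* 𝒪ˣ) hTρ₂))
    (he₁ : ∀ (a : MvPowerSeries σ T) (y : LH.N), e₁ (a • y) = MvPowerSeries.map s₁ a • e₁ y)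
    (he₂ : ∀ (a : MvPowerSeries σ T) (y : LH'.N), e₂ (a • y) = MvPowerSeries.map s₂ a • e₂ y)
    (kπ₁ : ∀ y, LH.π y = s59t_piN ρΔ₁ ρ'₁ C₁ π₁ (1 : Δ₁ →* 𝒪ˣ) (1 : Δ'₁ →* 𝒪ˣ) h2₁ hTρ₁ hRρ₁
      (s59t_PScoeff 0 (e₁ y)))
    (kπ₂ : ∀ y, LH'.π y = s59t_piN ρΔ₂ ρ'₂ C₂ π₂ (1 : Δ₂ →* 𝒪ˣ) (1 : Δ'₂ →* 𝒪ˣ) h2₂ hTρ₂ hRρ₂
      (s59t_PScoeff 0 (e₂ y)))
    -- semilinearity of the seven operators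
    (hsA : ∀ (t : T) (y : Y'₁), D'.resA (s₁ t • y) = s₂ t • D'.resA y)
    (hsB : ∀ (t : T) (y : Y'₁), D'.resB (s₁ t • y) = s₂ t • D'.resB y)
    (hsCA : ∀ (t : T) (z : Y'₂), D'.corA (s₂ t • z) = s₁ t • D'.corA z)
    (hsCB : ∀ (t : T) (z : Y'₂), D'.corB (s₂ t • z) = s₁ t • D'.corB z)
    (hsT : ∀ (t : T) (y : Y'₁), D'.T (s₁ t • y) = s₁ t • D'.T y)
    (hsU : ∀ (t : T) (z : Y'₂), D'.U (s₂ t • z) = s₂ t • D'.U z)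
    (hsw : ∀ (t : T) (z : Y'₂), D'.w (s₂ t • z) = s₂ t • D'.w z)
    -- the eigen-parts are preserved
    (hfA : ∀ y ∈ s59t_eig ρ'₁ C₁ (1 : Δ'₁ →* 𝒪ˣ), D'.resA y ∈ s59t_eig ρ'₂ C₂ (1 : Δ'₂ →* 𝒪ˣ))
    (hfB : ∀ y ∈ s59t_eig ρ'₁ C₁ (1 : Δ'₁ →* 𝒪ˣ), D'.resB y ∈ s59t_eig ρ'₂ C₂ (1 : Δ'₂ →* 𝒪ˣ))
    (hfCA : ∀ z ∈ s59t_eig ρ'₂ C₂ (1 : Δ'₂ →* 𝒪ˣ), D'.corA z ∈ s59t_eig ρ'₁ C₁ (1 : Δ'₁ →* 𝒪ˣ))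
    (hfCB : ∀ z ∈ s59t_eig ρ'₂ C₂ (1 : Δ'₂ →* 𝒪ˣ), D'.corB z ∈ s59t_eig ρ'₁ C₁ (1 : Δ'₁ →* 𝒪ˣ))
    (hfT : ∀ y ∈ s59t_eig ρ'₁ C₁ (1 : Δ'₁ →* 𝒪ˣ), D'.T y ∈ s59t_eig ρ'₁ C₁ (1 : Δ'₁ →* 𝒪ˣ))
    (hfU : ∀ z ∈ s59t_eig ρ'₂ C₂ (1 : Δ'₂ →* 𝒪ˣ), D'.U z ∈ s59t_eig ρ'₂ C₂ (1 : Δ'₂ →* 𝒪ˣ))
    (hfw : ∀ z ∈ s59t_eig ρ'₂ C₂ (1 : Δ'₂ →* 𝒪ˣ), D'.w z ∈ s59t_eig ρ'₂ C₂ (1 : Δ'₂ →* 𝒪ˣ))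
    -- the scalar `q`
    (q : T) (hq : ∀ y : Y'₁, s₁ q • y = D'.qq • y)
    -- the base package preserves the eigen-parts
    (hbA : ∀ y ∈ s59t_eig ρΔ₁ ⊤ (1 : Δ₁ →* 𝒪ˣ), Db.resA y ∈ s59t_eig ρΔ₂ ⊤ (1 : Δ₂ →* 𝒪ˣ))
    (hbB : ∀ y ∈ s59t_eig ρΔ₁ ⊤ (1 : Δ₁ →* 𝒪ˣ), Db.resB y ∈ s59t_eig ρΔ₂ ⊤ (1 : Δ₂ →* 𝒪ˣ))
    -- the control maps intertwine the packages
    (hπA : ∀ y, π₂ (D'.resA y) = Db.resA (π₁ y)) (hπB : ∀ y, π₂ (D'.resB y) = Db.resB (π₁ y))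
    -- Eichler–Shimura and [NEW-q]
    (τ : T) (hτ : ∀ y : Y'₁, D'.T y = s₁ τ • y)
    (hnew : ∀ z ∈ s59t_eig ρ'₂ C₂ (1 : Δ'₂ →* 𝒪ˣ), D'.corA z = 0 → D'.corB z = 0 →
      s₂ ((q + 1) ^ 2 - τ ^ 2) • z = 0)
    (hT4 : ∀ m₁ m₂ : s59t_EigT ρΔ₁ ⊤ (1 : Δ₁ →* 𝒪ˣ) hRρ₁,
      s59ej_eigMap ρΔ₁ ⊤ (1 : Δ₁ →* 𝒪ˣ) hRρ₁ ρΔ₂ ⊤ (1 : Δ₂ →* 𝒪ˣ) hRρ₂ Db.resA hbA m₁ +
        s59ej_eigMap ρΔ₁ ⊤ (1 : Δ₁ →* 𝒪ˣ) hRρ₁ ρΔ₂ ⊤ (1 : Δ₂ →* 𝒪ˣ) hRρ₂ Db.resB hbB m₂ ∈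
        (((maximalIdeal S).map LH'.φ).map LH'.ψ) •
          (⊤ : Submodule R₂ (s59t_EigT ρΔ₂ ⊤ (1 : Δ₂ →* 𝒪ˣ) hRρ₂)) →
      m₁ ∈ (((maximalIdeal S).map LH.φ).map LH.ψ) •
          (⊤ : Submodule R₁ (s59t_EigT ρΔ₁ ⊤ (1 : Δ₁ →* 𝒪ˣ) hRρ₁)) ∧
        m₂ ∈ (((maximalIdeal S).map LH.φ).map LH.ψ) •
          (⊤ : Submodule R₁ (s59t_EigT ρΔ₁ ⊤ (1 : Δ₁ →* 𝒪ˣ) hRρ₁)))
    -- (T5w) on the eigen-parts of the Taylor–Wiles modules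
    (Jb : Set T)
    (hT5w : ∀ b ∈ Jb, ∀ u ∈ s59t_eig ρ'₁ C₁ (1 : Δ'₁ →* 𝒪ˣ),
      ∀ v ∈ s59t_eig ρ'₁ C₁ (1 : Δ'₁ →* 𝒪ˣ),
      ∃ z ∈ s59t_eig ρ'₂ C₂ (1 : Δ'₂ →* 𝒪ˣ), D'.corA z = s₁ b • u ∧ D'.corB z = s₁ b • v)
    {MQ : Type} [AddCommGroup MQ] [Module R₂ MQ]
    (ρ : s59t_EigT ρΔ₂ ⊤ (1 : Δ₂ →* 𝒪ˣ) hRρ₂ →ₗ[R₂] MQ)
    (hρ : ∀ m' : s59t_EigT ρΔ₂ ⊤ (1 : Δ₂ →* 𝒪ˣ) hRρ₂, ρ m' = 0 ↔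
      ∃ m₁ m₂ : s59t_EigT ρΔ₁ ⊤ (1 : Δ₁ →* 𝒪ˣ) hRρ₁,
        s59ej_eigMap ρΔ₁ ⊤ (1 : Δ₁ →* 𝒪ˣ) hRρ₁ ρΔ₂ ⊤ (1 : Δ₂ →* 𝒪ˣ) hRρ₂ Db.resA hbA m₁ +
          s59ej_eigMap ρΔ₁ ⊤ (1 : Δ₁ →* 𝒪ˣ) hRρ₁ ρΔ₂ ⊤ (1 : Δ₂ →* 𝒪ˣ) hRρ₂ Db.resB hbB m₂ = m') :
    s59b_TStepWJ LH LH' ((MvPowerSeries.C q : MvPowerSeries σ T) + 1) (MvPowerSeries.C τ)
      (MvPowerSeries.C τ) ((MvPowerSeries.C q : MvPowerSeries σ T) + 1)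
      ((fun b : T => (MvPowerSeries.C b : MvPowerSeries σ T)) '' Jb) ρ
      (Ideal.span {(((MvPowerSeries.C q : MvPowerSeries σ T) + 1) ^ 2 -
        (MvPowerSeries.C τ) ^ 2) ^ 2}) := by
  classical
  have hTD := s59ej_oldEig_T ρ'₁ C₁ (1 : Δ'₁ →* 𝒪ˣ) hTρ₁ ρ'₂ C₂ (1 : Δ'₂ →* 𝒪ˣ) hTρ₂ D' s₁ s₂
    e₁ e₂ he₁ he₂ hsA hsB hsCA hsCB hsT hsU hsw hfA hfB hfCA hfCB hfT hfU hfw q hq τ hτ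
  refine s59x_TStepW_of_new LH LH' hφ
    (s59ej_oldEig ρ'₁ C₁ (1 : Δ'₁ →* 𝒪ˣ) hTρ₁ ρ'₂ C₂ (1 : Δ'₂ →* 𝒪ˣ) hTρ₂ D' s₁ s₂ e₁ e₂ he₁ he₂
      hsA hsB hsCA hsCB hsT hsU hsw hfA hfB hfCA hfCB hfT hfU hfw q hq) (MvPowerSeries.C τ) hTD
    (s59ej_eigMap ρΔ₁ ⊤ (1 : Δ₁ →* 𝒪ˣ) hRρ₁ ρΔ₂ ⊤ (1 : Δ₂ →* 𝒪ˣ) hRρ₂ Db.resA hbA)
    (s59ej_eigMap ρΔ₁ ⊤ (1 : Δ₁ →* 𝒪ˣ) hRρ₁ ρΔ₂ ⊤ (1 : Δ₂ →* 𝒪ˣ) hRρ₂ Db.resB hbB)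
    ?_ ?_ hT4 ((fun b : T => (MvPowerSeries.C b : MvPowerSeries σ T)) '' Jb) ?_ ρ hρ ?_
  · intro x
    rw [kπ₂, kπ₁, s59ej_oldEig_resA, s59ej_PSmap_coeff]
    apply s59t_EigT_val_injective
    rw [s59t_piN_val, s59ej_eigMap_val, s59ej_eigMap_val, s59t_piN_val, hπA]
  · intro x
    rw [kπ₂, kπ₁, s59ej_oldEig_resB, s59ej_PSmap_coeff]
    apply s59t_EigT_val_injective
    rw [s59t_piN_val, s59ej_eigMap_val, s59ej_eigMap_val, s59t_piN_val, hπB]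
  · -- (T5w), coefficientwise
    rintro _ ⟨b, hb, rfl⟩ u v
    have hex : ∀ d : σ →₀ ℕ, ∃ z ∈ s59t_eig ρ'₂ C₂ (1 : Δ'₂ →* 𝒪ˣ),
        D'.corA z = s₁ b • s59t_EigT_val ρ'₁ C₁ (1 : Δ'₁ →* 𝒪ˣ) hTρ₁ (s59t_PScoeff d (e₁ u)) ∧
        D'.corB z = s₁ b • s59t_EigT_val ρ'₁ C₁ (1 : Δ'₁ →* 𝒪ˣ) hTρ₁ (s59t_PScoeff d (e₁ v)) :=
      fun d => hT5w b hb _ (s59t_EigT_val_mem ρ'₁ C₁ (1 : Δ'₁ →* 𝒪ˣ) hTρ₁ _) _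
        (s59t_EigT_val_mem ρ'₁ C₁ (1 : Δ'₁ →* 𝒪ˣ) hTρ₁ _)
    choose zc hzc hzA hzB using hex
    set Z : s59t_PS σ (s59t_EigT ρ'₂ C₂ (1 : Δ'₂ →* 𝒪ˣ) hTρ₂) :=
      fun d => s59t_EigT_mk ρ'₂ C₂ (1 : Δ'₂ →* 𝒪ˣ) hTρ₂ (zc d) (hzc d) with hZ
    have hZc : ∀ d, s59t_PScoeff d Z = s59t_EigT_mk ρ'₂ C₂ (1 : Δ'₂ →* 𝒪ˣ) hTρ₂ (zc d) (hzc d) :=
      fun d => rfl
    refine ⟨e₂.symm Z, ?_, ?_⟩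
    · apply e₁.injective
      rw [s59ej_oldEig_corA, AddEquiv.apply_symm_apply]
      refine s59t_PS_ext fun d => ?_
      rw [s59ej_PSmap_coeff, s59ej_C_smul s₁ e₁ he₁, hZc]
      apply s59t_EigT_val_injective
      rw [s59ej_eigMap_val, s59t_EigT_val_mk, s59t_EigT_val_smul]
      exact hzA d
    · apply e₁.injective
      rw [s59ej_oldEig_corB, AddEquiv.apply_symm_apply]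
      refine s59t_PS_ext fun d => ?_
      rw [s59ej_PSmap_coeff, s59ej_C_smul s₁ e₁ he₁, hZc]
      apply s59t_EigT_val_injective
      rw [s59ej_eigMap_val, s59t_EigT_val_mk, s59t_EigT_val_smul]
      exact hzB d
  · intro z hA hB
    refine s59efl_hnew ρ'₂ C₂ hTρ₂ D' s₂ e₂ he₂ q τ hnew z (fun d => ?_) (fun d => ?_)
    · have h1 := s59ej_oldEig_corA ρ'₁ C₁ (1 : Δ'₁ →* 𝒪ˣ) hTρ₁ ρ'₂ C₂ (1 : Δ'₂ →* 𝒪ˣ) hTρ₂ D' s₁ s₂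
        e₁ e₂ he₁ he₂ hsA hsB hsCA hsCB hsT hsU hsw hfA hfB hfCA hfCB hfT hfU hfw q hq z
      rw [hA, map_zero] at h1
      have h2 := congrArg (fun m => s59t_EigT_val ρ'₁ C₁ (1 : Δ'₁ →* 𝒪ˣ) hTρ₁ (s59t_PScoeff d m)) h1
      simp only [s59ej_PSmap_coeff, s59ej_eigMap_val, map_zero] at h2
      exact h2.symm
    · have h1 := s59ej_oldEig_corB ρ'₁ C₁ (1 : Δ'₁ →* 𝒪ˣ) hTρ₁ ρ'₂ C₂ (1 : Δ'₂ →* 𝒪ˣ) hTρ₂ D' s₁ s₂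
        e₁ e₂ he₁ he₂ hsA hsB hsCA hsCB hsT hsU hsw hfA hfB hfCA hfCB hfT hfU hfw q hq z
      rw [hB, map_zero] at h1
      have h2 := congrArg (fun m => s59t_EigT_val ρ'₁ C₁ (1 : Δ'₁ →* 𝒪ˣ) hTρ₁ (s59t_PScoeff d m)) h1
      simp only [s59ej_PSmap_coeff, s59ej_eigMap_val, map_zero] at h2
      exact h2.symm

end Step

end Fermat.Agent.Lib.S59
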