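/-
PROGRAMME (R2) = S59, case (P), NON-MINIMAL half, item [WALL] / [W4c] (helper7, prefix `s59x_`): **ONE STEP OF THE CHAIN, ABSTRACT FORM.**
The whole Taylor–Wiles-level part of the step (`s59efl_link` + `s59x_efl_step_joint_w` + all the bookkeeping between them: the compatibilities of
the Hecke rings from those of indexed trace generators, the map of the Taylor–Wiles groups, the eigen-parts) over ABSTRACT modules, so that the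
concrete file (NXConcZ.lean) only supplies atoms by `have := <term>` (there every `rw`/`obtain`/`rintro` costs minutes).

* `s59x_StepConclLv Lv₁ Lv₂ OldS qn φq Jm` (def) : the conclusion of one step for two levels `Lv₁`, `Lv₂` (`s59e_TLevelL`) — the transfer map
  `σl : T₂ →ₐ T₁` with its three properties and helper2's `s59b_TStepWJ` over every joint ring, in the shape of `s59b_TLevelFW.hT`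
  (consumed by `s59x_efl_asm_w` / helper9's `s59m_asm_mk_w`);
* `s59x_hRc_abs` : the Hecke ring of the upper base module preserves the old classes (from indexed compatibilities of trace generators);
* `s59x_step_abs` : the step.
-/
import Mathlib
import Fermat.Agent.Lib.S59.EFlrLinkB
import Fermat.Agent.Lib.S59.EFlrCompat
import Fermat.Agent.Lib.S59.NXWallStepB

set_option autoImplicit false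
set_option linter.unusedSectionVars false
set_option linter.unusedVariables false
set_option linter.style.haveILetI false
set_option maxHeartbeats 1600000
set_option synthInstance.maxHeartbeats 400000

noncomputable section

namespace Fermat.Agent.Lib.S59

open IsLocalRing MvPowerSeries

local notation "Γℚ" => (AlgebraicClosure ℚ ≃ₐ[ℚ] AlgebraicClosure ℚ)

/-- **the conclusion of one step of the chain** for two levels over the bases `(R₁, M₁)`, `(R₂, M₂)`, the submodule `OldS` of old classes of `M₂`,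
the prime `qn` with Frobenius `φq` and the set `Jm ⊆ DQ.R`. -/
def s59x_StepConclLv {𝒪 : Type} [CommRing 𝒪] [IsDomain 𝒪] [IsDiscreteValuationRing 𝒪]
    [IsAdicComplete (maximalIdeal 𝒪) 𝒪] {p n r : ℕ} {σ : Type} [DecidableEq σ] [Fintype σ]
    {ρbar : ResidualGaloisRep (ResidueField 𝒪)}
    {𝒟 : ∀ ⦃A : Type⦄ [CommRing A] [IsLocalRing A] [Algebra 𝒪 A], GaloisRepAdic A → Prop}
    {DQ : GaloisRep.DeformationRingData 𝒪 ρbar 𝒟} {qv : Fin r → ℕ}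
    {R₁ : Type} [CommRing R₁] [IsLocalRing R₁] [Algebra 𝒪 R₁] {M₁ : Type} [AddCommGroup M₁] [Module R₁ M₁]
    {ρR₁ : GaloisRepAdic R₁} {d₁ : ℕ}
    {R₂ : Type} [CommRing R₂] [IsLocalRing R₂] [Algebra 𝒪 R₂] {M₂ : Type} [AddCommGroup M₂] [Module R₂ M₂]
    {ρR₂ : GaloisRepAdic R₂} {d₂ : ℕ}
    (Lv₁ : s59e_TLevelL 𝒪 p n r σ R₁ M₁ ρR₁ d₁ qv DQ) (Lv₂ : s59e_TLevelL 𝒪 p n r σ R₂ M₂ ρR₂ d₂ qv DQ)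
    (OldS : Submodule R₂ M₂) (qn : ℕ) (φq : Γℚ) (Jm : Set DQ.R) : Prop :=
  ∃ σl : Lv₂.T →ₐ[𝒪] Lv₁.T, Function.Surjective σl ∧
    (∀ i, σl (((Lv₂.uu i : Lv₂.Tˣ) : Lv₂.T)) = ((Lv₁.uu i : Lv₁.Tˣ) : Lv₁.T)) ∧
    (∀ x, σl (algebraMap Lv₂.T' Lv₂.T (Lv₂.θ x)) = algebraMap Lv₁.T' Lv₁.T (Lv₁.θ x)) ∧
    ∀ {MQ : Type} [AddCommGroup MQ] [Module R₂ MQ]
      (ρ : M₂ →ₗ[R₂] MQ) (hρ : ∀ m', ρ m' = 0 ↔ m' ∈ OldS)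
      {T' : Type} [CommRing T'] [Algebra 𝒪 T']
      {T : Type} [CommRing T] [IsLocalRing T] [IsAdicComplete (maximalIdeal T) T] [Algebra 𝒪 T]
      [Algebra T' T]
      (θ : DQ.R →ₐ[𝒪] T') (uu : Fin r → Tˣ) (huu : ∀ i, ((uu i : Tˣ) : T) - 1 ∈ maximalIdeal T)
      (s₂ : T →ₐ[𝒪] Lv₂.T) (hs₂ : Function.Surjective s₂)
      (hsu₂ : ∀ i, s₂ ((uu i : Tˣ) : T) = ((Lv₂.uu i : Lv₂.Tˣ) : Lv₂.T))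
      (hsθ₂ : ∀ x, s₂ (algebraMap T' T (θ x)) = algebraMap Lv₂.T' Lv₂.T (Lv₂.θ x))
      (hs₁ : Function.Surjective (σl.comp s₂))
      (hsu₁ : ∀ i, (σl.comp s₂) ((uu i : Tˣ) : T) = ((Lv₁.uu i : Lv₁.Tˣ) : Lv₁.T)),
      s59b_TStepWJ (s59ej_L0 Lv₁ uu huu (σl.comp s₂) hs₁ hsu₁)
        (s59ej_L0 Lv₂ uu huu s₂ hs₂ hsu₂)
        (C ((qn : ℕ) : T) + 1 : MvPowerSeries σ T)
        (C (algebraMap T' T (θ (s59i_cpTr DQ.ρ φq))))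
        (C (algebraMap T' T (θ (s59i_cpTr DQ.ρ φq))))
        (C ((qn : ℕ) : T) + 1 : MvPowerSeries σ T)
        ((fun x : DQ.R => (C (algebraMap T' T (θ x)) : MvPowerSeries σ T)) '' Jm) ρ
        (Ideal.span {(((C ((qn : ℕ) : T) + 1 : MvPowerSeries σ T)) ^ 2 -
          (C (algebraMap T' T (θ (s59i_cpTr DQ.ρ φq))) : MvPowerSeries σ T) ^ 2) ^ 2})

section HRc

variable {𝒪 : Type} [CommRing 𝒪] {Y₁ Y₂ : Type} [AddCommGroup Y₁] [Module 𝒪 Y₁]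
  [AddCommGroup Y₂] [Module 𝒪 Y₂] (Db : s59t_Old 𝒪 Y₁ Y₂)
  {A₁ A₂ : Type} [CommRing A₁] [CommRing A₂]
  (a₁ : A₁ →+* Module.End 𝒪 Y₁) (a₂ : A₂ →+* Module.End 𝒪 Y₂)

/-- **the Hecke ring of the upper base module preserves the old classes**: from the compatibility of the indexed trace generators. -/
theorem s59x_hRc_abs (S : Finset ℕ) (NZ₂ : ℕ)
    (t₁ : ℕ → s59e_adj 𝒪 a₁) (t₂ : ℕ → s59e_adj 𝒪 a₂)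
    (hg₂ : Algebra.adjoin 𝒪 {x : s59e_adj 𝒪 a₂ | ∃ ℓ : ℕ, ℓ.Prime ∧ ¬ ℓ ∣ NZ₂ ∧
      ℓ ∉ (↑S : Set ℕ) ∧ x = t₂ ℓ} = ⊤)
    {I : Type} (ell : I → ℕ) (hidx : ∀ ℓ : ℕ, ℓ.Prime → ℓ ∉ S → ∃ i : I, ell i = ℓ)
    (hti : ∀ i : I, ell i ∉ S →
      Db.Compat ((t₁ (ell i) : s59e_adj 𝒪 a₁) : Module.End 𝒪 Y₁)
        ((t₂ (ell i) : s59e_adj 𝒪 a₂) : Module.End 𝒪 Y₂)) :
    ∀ t : s59e_adj 𝒪 a₂, ∃ t' : Module.End 𝒪 Y₁,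
      (∀ y, t • Db.resA y = Db.resA (t' y)) ∧ ∀ y, t • Db.resB y = Db.resB (t' y) := by
  have hcS : ∀ ℓ : ℕ, ℓ ∉ (↑S : Set ℕ) → ℓ ∉ S := fun ℓ h h' => h (Finset.mem_coe.mpr h')
  have hAb := s59ej_exists_compat_adj Db a₁ a₂ _ (s59efl_adj_le_of_adjoin_top a₂ _ hg₂) (by
    rintro _ ⟨x, ⟨ℓ, hℓ, -, hℓS, rfl⟩, rfl⟩
    obtain ⟨i, rfl⟩ := hidx ℓ hℓ (hcS _ hℓS)
    exact ⟨_, (t₁ (ell i)).2, hti i (hcS _ hℓS)⟩)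
  intro t
  obtain ⟨t', -, htc⟩ := hAb t.1 t.2
  exact ⟨t', fun y => htc.resA y, fun y => htc.resB y⟩

end HRc

section Step

variable {𝒪 : Type} [CommRing 𝒪] [IsDomain 𝒪] [IsDiscreteValuationRing 𝒪]
  [IsAdicComplete (maximalIdeal 𝒪) 𝒪] {p n r : ℕ} {σ : Type} [DecidableEq σ] [Fintype σ]
  {ρbar : ResidualGaloisRep (ResidueField 𝒪)}
  {𝒟 : ∀ ⦃A : Type⦄ [CommRing A] [IsLocalRing A] [Algebra 𝒪 A], GaloisRepAdic A → Prop}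
  {DQ : GaloisRep.DeformationRingData 𝒪 ρbar 𝒟} {qv : Fin r → ℕ}
  -- level 1
  {Δ₁ : Type} [CommGroup Δ₁] [Fintype Δ₁] {Y₁ : Type} [AddCommGroup Y₁] [Module 𝒪 Y₁]
  {ρΔ₁ : Δ₁ →* Module.End 𝒪 Y₁}
  {R₁ : Type} [CommRing R₁] [IsLocalRing R₁] [Algebra 𝒪 R₁] [Module R₁ Y₁] [IsScalarTower 𝒪 R₁ Y₁]
  {hRρ₁ : ∀ (t : R₁) (δ : Δ₁) (y : Y₁), t • ρΔ₁ δ y = ρΔ₁ δ (t • y)}
  {ρR₁ : GaloisRepAdic R₁} {d₁ : ℕ}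
  {Δ'₁ : Type} [CommGroup Δ'₁] [Fintype Δ'₁] {Y'₁ : Type} [AddCommGroup Y'₁] [Module 𝒪 Y'₁]
  {ρ'₁ : Δ'₁ →* Module.End 𝒪 Y'₁} {Bq₁ C₁ : Subgroup Δ'₁} [Fintype Bq₁] [Fintype C₁]
  {π₁ : Y'₁ →ₗ[𝒪] Y₁}
  {A₁ : Type} [CommRing A₁] {aM₁ : A₁ →+* Module.End 𝒪 Y'₁}
  {hcomm₁ : ∀ (t : A₁) (β : Bq₁), Commute (aM₁ t) ((ρ'₁.comp Bq₁.subtype) β)}
  {hTρ₁ : ∀ (t : s59e_adj 𝒪 (s59e_aB aM₁ (ρ'₁.comp Bq₁.subtype) hcomm₁)) (δ : Δ'₁) (y : Y'₁),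
    t • ρ'₁ δ y = ρ'₁ δ (t • y)}
  {h2₁ : ∀ y ∈ s59t_eig ρ'₁ C₁ (1 : Δ'₁ →* 𝒪ˣ), π₁ y ∈ s59t_eig ρΔ₁ ⊤ (1 : Δ₁ →* 𝒪ˣ)}
  {g₁ : Fin r → Bq₁} {θ₁ : DQ.R →ₐ[𝒪] s59e_adj 𝒪 aM₁}
  (rec₁ : s59efl_RingRec (p := p) r σ DQ n ρΔ₁ R₁ hRρ₁ ρR₁ d₁ ρ'₁ Bq₁ C₁ π₁ aM₁ hcomm₁ hTρ₁ h2₁ g₁ θ₁ qv)
  -- level 2
  {Δ₂ : Type} [CommGroup Δ₂] [Fintype Δ₂] {Y₂ : Type} [AddCommGroup Y₂] [Module 𝒪 Y₂]
  {ρΔ₂ : Δ₂ →* Module.End 𝒪 Y₂}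
  {R₂ : Type} [CommRing R₂] [IsLocalRing R₂] [Algebra 𝒪 R₂] [Module R₂ Y₂] [IsScalarTower 𝒪 R₂ Y₂]
  {hRρ₂ : ∀ (t : R₂) (δ : Δ₂) (y : Y₂), t • ρΔ₂ δ y = ρΔ₂ δ (t • y)}
  {ρR₂ : GaloisRepAdic R₂} {d₂ : ℕ}
  {Δ'₂ : Type} [CommGroup Δ'₂] [Fintype Δ'₂] {Y'₂ : Type} [AddCommGroup Y'₂] [Module 𝒪 Y'₂]
  {ρ'₂ : Δ'₂ →* Module.End 𝒪 Y'₂} {Bq₂ C₂ : Subgroup Δ'₂} [Fintype Bq₂] [Fintype C₂]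
  {π₂ : Y'₂ →ₗ[𝒪] Y₂}
  {A₂ : Type} [CommRing A₂] {aM₂ : A₂ →+* Module.End 𝒪 Y'₂}
  {hcomm₂ : ∀ (t : A₂) (β : Bq₂), Commute (aM₂ t) ((ρ'₂.comp Bq₂.subtype) β)}
  {hTρ₂ : ∀ (t : s59e_adj 𝒪 (s59e_aB aM₂ (ρ'₂.comp Bq₂.subtype) hcomm₂)) (δ : Δ'₂) (y : Y'₂),
    t • ρ'₂ δ y = ρ'₂ δ (t • y)}
  {h2₂ : ∀ y ∈ s59t_eig ρ'₂ C₂ (1 : Δ'₂ →* 𝒪ˣ), π₂ y ∈ s59t_eig ρΔ₂ ⊤ (1 : Δ₂ →* 𝒪ˣ)}
  {g₂ : Fin r → Bq₂} {θ₂ : DQ.R →ₐ[𝒪] s59e_adj 𝒪 aM₂}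
  (rec₂ : s59efl_RingRec (p := p) r σ DQ n ρΔ₂ R₂ hRρ₂ ρR₂ d₂ ρ'₂ Bq₂ C₂ π₂ aM₂ hcomm₂ hTρ₂ h2₂ g₂ θ₂ qv)
  -- the packages
  (D' : s59t_Old 𝒪 Y'₁ Y'₂) (Db : s59t_Old 𝒪 Y₁ Y₂)

/-- **one step of the chain, abstract form.** -/
theorem s59x_step_abs
    [IsLocalRing (s59e_adj 𝒪 aM₁)] [IsNoetherianRing (s59e_adj 𝒪 aM₁)]
    [IsAdicComplete (maximalIdeal (s59e_adj 𝒪 aM₁)) (s59e_adj 𝒪 aM₁)]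
    [IsLocalHom (algebraMap 𝒪 (s59e_adj 𝒪 aM₁))]
    (hres𝒪 : Function.Surjective (residue (s59e_adj 𝒪 aM₁) ∘ algebraMap 𝒪 (s59e_adj 𝒪 aM₁)))
    (hθ₁l : IsLocalHom (θ₁ : DQ.R →+* s59e_adj 𝒪 aM₁))
    (h𝒟 : 𝒟 (DQ.ρ.baseChangeAlong (θ₁ : DQ.R →+* s59e_adj 𝒪 aM₁) hθ₁l))
    (hres : (DQ.ρ.baseChangeAlong (θ₁ : DQ.R →+* s59e_adj 𝒪 aM₁) hθ₁l).residual.IsEquiv
      (ρbar.baseChangeAlong (ResidueField.map (algebraMap 𝒪 (s59e_adj 𝒪 aM₁)))))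
    (hinj : Function.Injective D'.resA)
    -- the trace generators, indexed
    (S : Finset ℕ) (NZ₁ NZ₂ : ℕ)
    (t₁ : ℕ → s59e_adj 𝒪 aM₁) (t₂ : ℕ → s59e_adj 𝒪 aM₂)
    (hg₁ : Algebra.adjoin 𝒪 {x : s59e_adj 𝒪 aM₁ | ∃ ℓ : ℕ, ℓ.Prime ∧ ¬ ℓ ∣ NZ₁ ∧
      ℓ ∉ (↑S : Set ℕ) ∧ x = t₁ ℓ} = ⊤)
    (hg₂ : Algebra.adjoin 𝒪 {x : s59e_adj 𝒪 aM₂ | ∃ ℓ : ℕ, ℓ.Prime ∧ ¬ ℓ ∣ NZ₂ ∧
      ℓ ∉ (↑S : Set ℕ) ∧ x = t₂ ℓ} = ⊤)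
    {I : Type} (ell : I → ℕ) (hidx : ∀ ℓ : ℕ, ℓ.Prime → ℓ ∉ S → ∃ i : I, ell i = ℓ)
    (hti : ∀ i : I, ell i ∉ S →
      D'.Compat ((t₁ (ell i) : s59e_adj 𝒪 aM₁) : Module.End 𝒪 Y'₁)
        ((t₂ (ell i) : s59e_adj 𝒪 aM₂) : Module.End 𝒪 Y'₂))
    (hfrob₁ : ∀ ℓ : ℕ, ℓ.Prime → ℓ ∉ S →
      ∀ A' : ValuationSubring (AlgebraicClosure ℚ), A'.LiesOverPrime ℓ →
      ∀ τ : Γℚ, A'.IsFrobeniusAt τ ℓ →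
        (LinearMap.charpoly (DQ.ρ.ρ τ)).map (θ₁ : DQ.R →+* s59e_adj 𝒪 aM₁) =
          Polynomial.X ^ 2 - Polynomial.C (t₁ ℓ) * Polynomial.X +
            Polynomial.C ((ℓ : s59e_adj 𝒪 aM₁)))
    (hfrob₂ : ∀ ℓ : ℕ, ℓ.Prime → ℓ ∉ S →
      ∀ A' : ValuationSubring (AlgebraicClosure ℚ), A'.LiesOverPrime ℓ →
      ∀ τ : Γℚ, A'.IsFrobeniusAt τ ℓ →
        (LinearMap.charpoly (DQ.ρ.ρ τ)).map (θ₂ : DQ.R →+* s59e_adj 𝒪 aM₂) =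
          Polynomial.X ^ 2 - Polynomial.C (t₂ ℓ) * Polynomial.X +
            Polynomial.C ((ℓ : s59e_adj 𝒪 aM₂)))
    -- the diamond groups
    (φ : Δ'₂ →* Δ'₁) (hφs : Function.Surjective φ)
    (hΔc : ∀ δ' : Δ'₂, D'.Compat (ρ'₁ (φ δ')) (ρ'₂ δ'))
    (hB₁ : ∀ δ : Δ'₁, δ ∈ Bq₁) (hB₂ : ∀ δ : Δ'₂, δ ∈ Bq₂)
    (hgφ : ∀ i, ((g₁ i : Bq₁) : Δ'₁) = φ ((g₂ i : Bq₂) : Δ'₂))
    (hC₁ : ∀ c ∈ C₁, c = 1) (hC₂ : ∀ c ∈ C₂, c = 1)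
    [Subsingleton Δ₁] [Subsingleton Δ₂]
    -- the control maps intertwine the packages
    (hπA : ∀ y, π₂ (D'.resA y) = Db.resA (π₁ y)) (hπB : ∀ y, π₂ (D'.resB y) = Db.resB (π₁ y))
    (hπCA : ∀ z, π₁ (D'.corA z) = Db.corA (π₂ z)) (hπCB : ∀ z, π₁ (D'.corB z) = Db.corB (π₂ z))
    -- the prime, Eichler–Shimura, [NEW-q]
    (qn : ℕ) (hqq : D'.qq = (qn : 𝒪)) (φq : Γℚ)
    (hES : ∀ y : Y'₁, D'.T y =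
      ((θ₁ (s59i_cpTr DQ.ρ φq) : s59e_adj 𝒪 aM₁) : Module.End 𝒪 Y'₁) y)
    (hNEW : ∀ z ∈ s59t_eig ρ'₂ C₂ (1 : Δ'₂ →* 𝒪ˣ), D'.corA z = 0 → D'.corB z = 0 →
      (((qn : 𝒪) + 1) ^ 2) • z -
        (((θ₂ (s59i_cpTr DQ.ρ φq) : s59e_adj 𝒪 aM₂) : Module.End 𝒪 Y'₂) ^ 2) z = 0)
    -- Ihara on the base modules, the weak trace clause
    (hT4 : ∀ y₁ y₂ : Y₁, Db.resA y₁ + Db.resB y₂ ∈ maximalIdeal 𝒪 • (⊤ : Submodule 𝒪 Y₂) →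
      y₁ ∈ maximalIdeal 𝒪 • (⊤ : Submodule 𝒪 Y₁) ∧ y₂ ∈ maximalIdeal 𝒪 • (⊤ : Submodule 𝒪 Y₁))
    (Jm : Set DQ.R)
    (hT5w : ∀ x ∈ Jm, ∀ u ∈ s59t_eig ρ'₁ C₁ (1 : Δ'₁ →* 𝒪ˣ),
      ∀ v ∈ s59t_eig ρ'₁ C₁ (1 : Δ'₁ →* 𝒪ˣ),
      ∃ z ∈ s59t_eig ρ'₂ C₂ (1 : Δ'₂ →* 𝒪ˣ),
        D'.corA z = ((θ₁ x : s59e_adj 𝒪 aM₁) : Module.End 𝒪 Y'₁) u ∧
        D'.corB z = ((θ₁ x : s59e_adj 𝒪 aM₁) : Module.End 𝒪 Y'₁) v)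
    -- the old classes
    (hRc : ∀ t : R₂, ∃ t' : Module.End 𝒪 Y₁,
      (∀ y, t • Db.resA y = Db.resA (t' y)) ∧ ∀ y, t • Db.resB y = Db.resB (t' y)) :
    s59x_StepConclLv rec₁.Lv rec₂.Lv
      (s59efl_oldSub Db ρΔ₂ ⊤ (1 : Δ₂ →* 𝒪ˣ) hRρ₂ hRc) qn φq Jm := by
  classical
  have hcS : ∀ ℓ : ℕ, ℓ ∉ (↑S : Set ℕ) → ℓ ∉ S := fun ℓ h h' => h (Finset.mem_coe.mpr h')
  -- the trace generators are compatible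
  have ht : ∀ ℓ : ℕ, ℓ.Prime → ℓ ∉ S →
      D'.Compat ((t₁ ℓ : s59e_adj 𝒪 aM₁) : Module.End 𝒪 Y'₁)
        ((t₂ ℓ : s59e_adj 𝒪 aM₂) : Module.End 𝒪 Y'₂) := by
    intro ℓ hℓ hℓS
    obtain ⟨i, rfl⟩ := hidx ℓ hℓ hℓS
    exact hti i hℓS
  have hA := s59ej_exists_compat_adj D' aM₁ aM₂ _ (s59efl_adj_le_of_adjoin_top aM₂ _ hg₂) (by
    rintro _ ⟨x, ⟨ℓ, hℓ, -, hℓS, rfl⟩, rfl⟩
    exact ⟨_, (t₁ ℓ).2, ht ℓ hℓ (hcS _ hℓS)⟩)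
  have hA' := s59ej_exists_compat_adj' D' aM₁ aM₂ _ (s59efl_adj_le_of_adjoin_top aM₁ _ hg₁) (by
    rintro _ ⟨x, ⟨ℓ, hℓ, -, hℓS, rfl⟩, rfl⟩
    exact ⟨_, (t₂ ℓ).2, ht ℓ hℓ (hcS _ hℓS)⟩)
  -- the Taylor–Wiles groups
  have hφBex : ∃ φB : Bq₂ →* Bq₁, ∀ β, ((φB β : Bq₁) : Δ'₁) = φ β :=
    ⟨(φ.comp Bq₂.subtype).codRestrict _ (fun β => hB₁ _), fun β => rfl⟩
  obtain ⟨φB, hφB⟩ := hφBex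
  have hB : ∀ β, D'.Compat ((ρ'₁.comp Bq₁.subtype) (φB β)) ((ρ'₂.comp Bq₂.subtype) β) := by
    intro β
    have := hΔc (β : Δ'₂)
    rw [← hφB β] at this
    exact this
  have hφ : Function.Surjective φB := by
    intro β₁
    obtain ⟨δ₂, h⟩ := hφs (β₁ : Δ'₁)
    exact ⟨⟨δ₂, hB₂ _⟩, Subtype.ext ((hφB _).trans h)⟩
  have hg' : ∀ i, g₁ i = φB (g₂ i) := fun i => Subtype.ext ((hgφ i).trans (hφB _).symm)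
  -- the link
  obtain ⟨σl, hσs, hσu, hσθ, hθc, hσc⟩ := s59efl_link rec₁ rec₂ D' hinj hA hA' φB hB hφ hg'
    hres𝒪 hθ₁l h𝒟 hres S t₁ t₂ hfrob₁ hfrob₂ ht
  -- the eigen-parts
  have hφC : ∀ c ∈ C₂, φ c ∈ C₁ := by
    intro c hc
    rw [hC₂ c hc, map_one]
    exact one_mem _
  have hφCs : ∀ c₁ ∈ C₁, ∃ c₂ ∈ C₂, φ c₂ = c₁ := by
    intro c₁ hc₁
    rw [hC₁ c₁ hc₁]
    exact ⟨1, one_mem _, map_one _⟩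
  have heig₁ : ∀ y : Y₁, y ∈ s59t_eig ρΔ₁ ⊤ (1 : Δ₁ →* 𝒪ˣ) := by
    intro y δ _
    have hδ : δ = 1 := Subsingleton.elim _ _
    rw [hδ, map_one]
    simp only [MonoidHom.one_apply, Units.val_one, one_smul, Module.End.one_apply]
  have heig₂ : ∀ y : Y₂, y ∈ s59t_eig ρΔ₂ ⊤ (1 : Δ₂ →* 𝒪ˣ) := by
    intro y δ _
    have hδ : δ = 1 := Subsingleton.elim _ _
    rw [hδ, map_one]
    simp only [MonoidHom.one_apply, Units.val_one, one_smul, Module.End.one_apply]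
  -- the step
  refine ⟨σl, hσs, hσu, hσθ, ?_⟩
  intro MQ _ _ ρ hρ T' _ _ T _ _ _ _ _ θ uu huu s₂ hs₂ hsu₂ hsθ₂ hs₁ hsu₁
  exact s59x_efl_step_joint_w rec₁ rec₂ D' Db σl hσθ hσc
    (s59efl_eig_resA D' ρ'₁ ρ'₂ C₁ C₂ φ hΔc hφC) (s59efl_eig_resB D' ρ'₁ ρ'₂ C₁ C₂ φ hΔc hφC)
    (s59efl_eig_corA D' ρ'₁ ρ'₂ C₁ C₂ φ hΔc hφCs) (s59efl_eig_corB D' ρ'₁ ρ'₂ C₁ C₂ φ hΔc hφCs)
    (s59efl_eig_T D' ρ'₁ ρ'₂ C₁ C₂ φ hΔc hφCs)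
    (s59efl_eig_U (D := D') (ρ₁ := ρ'₁) (ρ₂ := ρ'₂) (C₂ := C₂) (φ := φ) hΔc)
    (s59efl_eig_w (D := D') (ρ₁ := ρ'₁) (ρ₂ := ρ'₂) (C₂ := C₂) (φ := φ) hΔc)
    heig₁ heig₂ hπA hπB hπCA hπCB qn hqq φq hES hNEW hT4 Jm hT5w
    ρ (fun m' => (hρ m').trans (s59efl_mem_oldSub _ _ _ _ _ _ m'))
    θ uu huu s₂ hs₂ hsu₂ hsθ₂ hs₁ hsu₁

end Step

end Fermat.Agent.Lib.S59

end
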