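/-
PROGRAMME (R2) = S59, case (P), NON-MINIMAL half, item [WALL] / [W4c] (helper7, prefix `s59x_`): **ONE STEP OF THE CHAIN ON THE KERNEL PAIRS,
CONCRETE FORM, WEAK TRACE CLAUSE** (generated by `scratch_py/gen_concz3.py`) — kernel-pair twin of helper5's `s59efl_step_conc` (EFlrConc.lean).
Two adjacent levels `N₁`, `N₂ = N₁ q` (in case (P): `N_t p`, `N_{t+1} p`; `p ∣ N₁` is ALLOWED, only `q ≠ p` is used), their base data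
(`s59t_E0` idempotents) with the kernel projectors `P₁`, `P₂` and the Hecke rings `𝒪[aZ₀]` of the kernel parts; for all Taylor–Wiles data
(the `s59ex_LvlX` idempotents, the kernel projectors `P'₁`, `P'₂`, the records `rec₁`, `rec₂` of `s59x_levelZ_rec` on the kernel pairs) the
package `D' := s59x_oldSub ((s59f_oldN …).restrict hc') hst'` on the kernel pairs gives, by helper5's ABSTRACT `s59efl_link` and the weak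
`s59x_efl_step_joint_w` (NXWallStepB.lean) — both through the ABSTRACT `s59x_step_abs` (NXStepAbs.lean) — the conclusion
`s59x_StepConclLv rec₁.Lv rec₂.Lv OldS q φq Jm` (NXStepAbs.lean; `delta` it): the transfer map `σl` and `s59b_TStepWJ` in the shape of `s59b_TLevelFW.hT`.
The proof is a list of `have := <term>`: in this context every `rw`/`obtain`/`rintro` costs minutes.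
HYPOTHESES left to the callers (all quantified over the proofs entering `D'`): the stability `hstb`, `hst'` of the kernel pairs (helper2's
two-prime commutation + `s59x_oldStable_restrict`), Eichler–Shimura `hES` and [NEW-q] `hNEW` on the kernel pairs (twins of helper4's (Z1), (Z2)),
and the weak trace clause `hT5w` for the set `Jm` (`s59x_wall_K4_adj`).
-/
import Mathlib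
import Fermat.Agent.Lib.S59.EFlrLinkB
import Fermat.Agent.Lib.S59.EFlrCompat
import Fermat.Agent.Lib.S59.EFlrConcA
import Fermat.Agent.Lib.S59.EFlrConcB
import Fermat.Agent.Lib.S59.EFlrGen
import Fermat.Agent.Lib.S59.EXLvl
import Fermat.Agent.Lib.S59.FZ3
import Fermat.Agent.Lib.S59.BBaseH
import Fermat.Agent.Lib.S59.LFinW1
import Fermat.Agent.Lib.S59.FZ1b
import Fermat.Agent.Lib.S59.KLvlFin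
import Fermat.Agent.Lib.S59.KLvlGrp
import Fermat.Agent.Lib.S59.NXKerH2
import Fermat.Agent.Lib.S59.NXOldSub2
import Fermat.Agent.Lib.S59.NXWallStepB
import Fermat.Agent.Lib.S59.NXStepAbs
import Fermat.Agent.Lib.S59.NXStepH0
import Fermat.Agent.Lib.S59.NXConcZ0

set_option autoImplicit false
set_option linter.unusedSectionVars false
set_option linter.unusedVariables false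
set_option linter.style.haveILetI false
set_option maxHeartbeats 0
set_option synthInstance.maxHeartbeats 400000
set_option maxSynthPendingDepth 3
set_option backward.isDefEq.respectTransparency.types true

noncomputable section

namespace Fermat.Agent.Lib.S59

open IsLocalRing CuspForm Polynomial ExtCitation CongruenceSubgroup MvPowerSeries
open WeierstrassCurve WeierstrassCurve.Affine WeierstrassCurve.Affine.Point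
open Fermat.Agent.Lib.S48 Fermat.Agent.Lib.S44
open scoped MatrixGroups

local notation "Γℚ" => (AlgebraicClosure ℚ ≃ₐ[ℚ] AlgebraicClosure ℚ)

/-- **one step of the chain on the kernel pairs, concrete form, weak trace clause.** -/
theorem Internal.s59x_step_concZ (p : ℕ) [Fact p.Prime] (hp2 : p ≠ 2) (W : WeierstrassCurve ℤ) (hΔ : W.Δ ≠ 0)
    (B : Finset ℕ) (hirr : W.ModRepIsIrreducible p)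
    (hB2 : ∀ r : ℕ, r.Prime → ¬ W.IsGoodPrimeFor r → r ∈ B)
    (𝒪 : Type) [CommRing 𝒪] [IsDomain 𝒪] [IsDiscreteValuationRing 𝒪]
    [IsAdicComplete (maximalIdeal 𝒪) 𝒪] [Finite (ResidueField 𝒪)] [CharZero 𝒪]
    [Algebra ℤ_[p] 𝒪] [Module.Finite ℤ_[p] 𝒪]
    (hp𝒪 : ((p : ℕ) : 𝒪) ∈ maximalIdeal 𝒪)
    (σ : Type) [DecidableEq σ] [Fintype σ]
    -- the two levels
    (N₁ q : ℕ) [NeZero N₁] [NeZero (N₁ * q)] [hq : Fact q.Prime] (hd : N₁ ∣ N₁ * q)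
    (hsq : Squarefree (N₁ * q)) (hqp : q ≠ p) (hpB : p ∈ B)
    (hB1 : ∀ r : ℕ, r.Prime → r ∣ (N₁ * q) → r ∈ B)
    -- the base data of the level `N₁`
    (e₁ : MvPolynomial ↥(s59t_goodB N₁ B) 𝒪)
    (h1e₁ : 1 - e₁ ∈ s59t_evalIdeal (fun x : ↥(s59t_goodB N₁ B) =>
      s59t_cB (𝒪 := 𝒪) N₁ (fun ℓ => W.apOfModel ℓ) (x : s59w_AIdx N₁)))
    (hid₁ : (s59t_E0 (⊤ : Subgroup (ZMod N₁)ˣ) B e₁) * (s59t_E0 (⊤ : Subgroup (ZMod N₁)ˣ) B e₁) = (s59t_E0 (⊤ : Subgroup (ZMod N₁)ˣ) B e₁))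
    (hnil₁ : ∀ x ∈ s59t_goodB N₁ B, ∃ k : ℕ, ∀ y : (s48h_Hpar 𝒪 (s48h_GammaH N₁ (⊤ : Subgroup (ZMod N₁)ˣ)) 𝒪),
      ((s59w_op (⊤ : Subgroup (ZMod N₁)ˣ) 𝒪 x - s59t_cB (𝒪 := 𝒪) N₁ (fun ℓ => W.apOfModel ℓ) x •
        (1 : Module.End 𝒪 (s48h_Hpar 𝒪 (s48h_GammaH N₁ (⊤ : Subgroup (ZMod N₁)ˣ)) 𝒪))) ^ k) ((s59t_E0 (⊤ : Subgroup (ZMod N₁)ˣ) B e₁) y) ∈
        (maximalIdeal 𝒪 • ⊤ : Submodule 𝒪 (s48h_Hpar 𝒪 (s48h_GammaH N₁ (⊤ : Subgroup (ZMod N₁)ˣ)) 𝒪)))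
    (hρ₁ : ∀ δ y, (s59t_E0 (⊤ : Subgroup (ZMod N₁)ˣ) B e₁) ((s59t_rho N₁ (⊤ : Subgroup (ZMod N₁)ˣ) 𝒪 𝒪) δ y) = (s59t_rho N₁ (⊤ : Subgroup (ZMod N₁)ˣ) 𝒪 𝒪) δ ((s59t_E0 (⊤ : Subgroup (ZMod N₁)ˣ) B e₁) y))
    (P₁ : Module.End 𝒪 (s59t_part (s59t_E0 (⊤ : Subgroup (ZMod N₁)ˣ) B e₁)))
    (hP₁ : ∀ δ x, P₁ (s59t_partRep (s59t_rho N₁ (⊤ : Subgroup (ZMod N₁)ˣ) 𝒪 𝒪) hρ₁ δ x) = s59t_partRep (s59t_rho N₁ (⊤ : Subgroup (ZMod N₁)ˣ) 𝒪 𝒪) hρ₁ δ (P₁ x))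
    (hPP₁ : P₁ * P₁ = P₁)
    (a₀₁ : (heckeAlgebra N₁ 2 (↑B : Set ℕ)) →+* Module.End 𝒪 (s48h_Hpar 𝒪 (s48h_GammaH N₁ (⊤ : Subgroup (ZMod N₁)ˣ)) 𝒪))
    (ha1₀₁ : ∀ (ℓ : ℕ) (hℓ : ℓ.Prime) (hℓN : ¬ ℓ ∣ N₁) (hℓS : ℓ ∉ (↑B : Set ℕ)) (i : s59w_TIdx N₁),
      i.ell = ℓ → a₀₁ (heckeAlgebra.T hℓ hℓN hℓS) = s59e_Tp' (⊤ : Subgroup (ZMod N₁)ˣ) 𝒪 ((p ^ 0 - 1) * ((p ^ 0 + 1) / 2)) i)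
    (aZ₀₁ : (heckeAlgebra N₁ 2 (↑B : Set ℕ)) →+* Module.End 𝒪 (s59t_part P₁))
    (haZ₀₁ : ∀ t (z : s59t_part P₁), s59x_jZ (⊤ : Subgroup (ZMod N₁)ˣ) (s59t_E0 (⊤ : Subgroup (ZMod N₁)ˣ) B e₁) P₁ (aZ₀₁ t z) = a₀₁ t (s59x_jZ (⊤ : Subgroup (ZMod N₁)ˣ) (s59t_E0 (⊤ : Subgroup (ZMod N₁)ˣ) B e₁) P₁ z))
    [IsLocalRing (s59e_adj 𝒪 aZ₀₁)]
    (hRρ₁ : ∀ (t : s59e_adj 𝒪 aZ₀₁) (δ : (s59t_Delta N₁ (⊤ : Subgroup (ZMod N₁)ˣ))) (y : s59t_part P₁),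
      t • (s59t_partRep (s59t_partRep (s59t_rho N₁ (⊤ : Subgroup (ZMod N₁)ˣ) 𝒪 𝒪) hρ₁) hP₁) δ y = (s59t_partRep (s59t_partRep (s59t_rho N₁ (⊤ : Subgroup (ZMod N₁)ˣ) 𝒪 𝒪) hρ₁) hP₁) δ (t • y))
    (ρR₁ : GaloisRepAdic (s59e_adj 𝒪 aZ₀₁))
    (d₁ : ℕ)
    -- the base data of the level `(N₁ * q)`
    (e₂ : MvPolynomial ↥(s59t_goodB (N₁ * q) B) 𝒪)
    (h1e₂ : 1 - e₂ ∈ s59t_evalIdeal (fun x : ↥(s59t_goodB (N₁ * q) B) =>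
      s59t_cB (𝒪 := 𝒪) (N₁ * q) (fun ℓ => W.apOfModel ℓ) (x : s59w_AIdx (N₁ * q))))
    (hid₂ : (s59t_E0 (⊤ : Subgroup (ZMod (N₁ * q))ˣ) B e₂) * (s59t_E0 (⊤ : Subgroup (ZMod (N₁ * q))ˣ) B e₂) = (s59t_E0 (⊤ : Subgroup (ZMod (N₁ * q))ˣ) B e₂))
    (hnil₂ : ∀ x ∈ s59t_goodB (N₁ * q) B, ∃ k : ℕ, ∀ y : (s48h_Hpar 𝒪 (s48h_GammaH (N₁ * q) (⊤ : Subgroup (ZMod (N₁ * q))ˣ)) 𝒪),
      ((s59w_op (⊤ : Subgroup (ZMod (N₁ * q))ˣ) 𝒪 x - s59t_cB (𝒪 := 𝒪) (N₁ * q) (fun ℓ => W.apOfModel ℓ) x •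
        (1 : Module.End 𝒪 (s48h_Hpar 𝒪 (s48h_GammaH (N₁ * q) (⊤ : Subgroup (ZMod (N₁ * q))ˣ)) 𝒪))) ^ k) ((s59t_E0 (⊤ : Subgroup (ZMod (N₁ * q))ˣ) B e₂) y) ∈
        (maximalIdeal 𝒪 • ⊤ : Submodule 𝒪 (s48h_Hpar 𝒪 (s48h_GammaH (N₁ * q) (⊤ : Subgroup (ZMod (N₁ * q))ˣ)) 𝒪)))
    (hρ₂ : ∀ δ y, (s59t_E0 (⊤ : Subgroup (ZMod (N₁ * q))ˣ) B e₂) ((s59t_rho (N₁ * q) (⊤ : Subgroup (ZMod (N₁ * q))ˣ) 𝒪 𝒪) δ y) = (s59t_rho (N₁ * q) (⊤ : Subgroup (ZMod (N₁ * q))ˣ) 𝒪 𝒪) δ ((s59t_E0 (⊤ : Subgroup (ZMod (N₁ * q))ˣ) B e₂) y))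
    (P₂ : Module.End 𝒪 (s59t_part (s59t_E0 (⊤ : Subgroup (ZMod (N₁ * q))ˣ) B e₂)))
    (hP₂ : ∀ δ x, P₂ (s59t_partRep (s59t_rho (N₁ * q) (⊤ : Subgroup (ZMod (N₁ * q))ˣ) 𝒪 𝒪) hρ₂ δ x) = s59t_partRep (s59t_rho (N₁ * q) (⊤ : Subgroup (ZMod (N₁ * q))ˣ) 𝒪 𝒪) hρ₂ δ (P₂ x))
    (hPP₂ : P₂ * P₂ = P₂)
    (a₀₂ : (heckeAlgebra (N₁ * q) 2 (↑B : Set ℕ)) →+* Module.End 𝒪 (s48h_Hpar 𝒪 (s48h_GammaH (N₁ * q) (⊤ : Subgroup (ZMod (N₁ * q))ˣ)) 𝒪))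
    (ha1₀₂ : ∀ (ℓ : ℕ) (hℓ : ℓ.Prime) (hℓN : ¬ ℓ ∣ (N₁ * q)) (hℓS : ℓ ∉ (↑B : Set ℕ)) (i : s59w_TIdx (N₁ * q)),
      i.ell = ℓ → a₀₂ (heckeAlgebra.T hℓ hℓN hℓS) = s59e_Tp' (⊤ : Subgroup (ZMod (N₁ * q))ˣ) 𝒪 ((p ^ 0 - 1) * ((p ^ 0 + 1) / 2)) i)
    (aZ₀₂ : (heckeAlgebra (N₁ * q) 2 (↑B : Set ℕ)) →+* Module.End 𝒪 (s59t_part P₂))
    (haZ₀₂ : ∀ t (z : s59t_part P₂), s59x_jZ (⊤ : Subgroup (ZMod (N₁ * q))ˣ) (s59t_E0 (⊤ : Subgroup (ZMod (N₁ * q))ˣ) B e₂) P₂ (aZ₀₂ t z) = a₀₂ t (s59x_jZ (⊤ : Subgroup (ZMod (N₁ * q))ˣ) (s59t_E0 (⊤ : Subgroup (ZMod (N₁ * q))ˣ) B e₂) P₂ z))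
    [IsLocalRing (s59e_adj 𝒪 aZ₀₂)]
    (hRρ₂ : ∀ (t : s59e_adj 𝒪 aZ₀₂) (δ : (s59t_Delta (N₁ * q) (⊤ : Subgroup (ZMod (N₁ * q))ˣ))) (y : s59t_part P₂),
      t • (s59t_partRep (s59t_partRep (s59t_rho (N₁ * q) (⊤ : Subgroup (ZMod (N₁ * q))ˣ) 𝒪 𝒪) hρ₂) hP₂) δ y = (s59t_partRep (s59t_partRep (s59t_rho (N₁ * q) (⊤ : Subgroup (ZMod (N₁ * q))ˣ) 𝒪 𝒪) hρ₂) hP₂) δ (t • y))
    (ρR₂ : GaloisRepAdic (s59e_adj 𝒪 aZ₀₂))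
    (d₂ : ℕ)
    -- the Frobenius at `q`
    (A₀ : ValuationSubring (AlgebraicClosure ℚ)) (hA₀ : A₀.LiesOverPrime q) (φq : Γℚ)
    (hφq : A₀.IsFrobeniusAt φq q)
    -- the kernel pair of the base levels is stable
    (hstb : ∀ (hqN : ¬ q ∣ N₁)
      (hG'b : s59f_IsG' N₁ q (⊤ : Subgroup (ZMod N₁)ˣ) (s48h_GammaH (N₁ * q) (⊤ : Subgroup (ZMod (N₁ * q))ˣ)))
      (he1 : (1 : SL(2, ℤ)) ∈ Gamma0 (N₁ * q))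
      (hee1 : s59f_gW hqN * 1 * 1 ∈ s48h_GammaH (N₁ * q) (⊤ : Subgroup (ZMod (N₁ * q))ˣ))
      (hcb : (s59f_oldN hqN rfl hG'b 𝒪 𝒪 1 he1 hee1).Compat (s59t_E0 (⊤ : Subgroup (ZMod N₁)ˣ) B e₁) (s59t_E0 (⊤ : Subgroup (ZMod (N₁ * q))ˣ) B e₂)),
      s59x_OldStable ((s59f_oldN hqN rfl hG'b 𝒪 𝒪 1 he1 hee1).restrict hcb) (s59t_part P₁) (s59t_part P₂)) :
    ∃ OldS : Submodule (s59e_adj 𝒪 aZ₀₂) (s59t_EigT (s59t_partRep (s59t_partRep (s59t_rho (N₁ * q) (⊤ : Subgroup (ZMod (N₁ * q))ˣ) 𝒪 𝒪) hρ₂) hP₂) ⊤ (1 : (s59t_Delta (N₁ * q) (⊤ : Subgroup (ZMod (N₁ * q))ˣ)) →* 𝒪ˣ) hRρ₂),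
      ∀ (r : ℕ) (n : ℕ) (qv : Fin r → ℕ) [NeZero (∏ j, qv j)] (hqinj : Function.Injective qv) (hqv : ∀ i, (qv i).Prime ∧ qv i ∉ B ∧ p ^ (n + 1) ∣ qv i - 1) (aq : ℕ → 𝒪)
        {𝒟 : ∀ ⦃A : Type⦄ [CommRing A] [IsLocalRing A] [Algebra 𝒪 A], GaloisRepAdic A → Prop}
        (DQ : GaloisRep.DeformationRingData 𝒪 (s59i_rhobarW W p hΔ 𝒪 hp𝒪) 𝒟)
        [NeZero (N₁ * ∏ j, qv j)]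
        [NeZero ((N₁ * q) * ∏ j, qv j)]
        [NeZero (N₁ * ∏ q ∈ Finset.univ.image qv, q ^ (2 : ℕ))]
        [NeZero ((N₁ * q) * ∏ q ∈ Finset.univ.image qv, q ^ (2 : ℕ))]
        -- the Taylor–Wiles data of the level `N₁`
        (e₀₁ : MvPolynomial ↥(s59t_goodB (N₁ * ∏ j, qv j) B) 𝒪)
        (G₁ : MvPolynomial (s59w_AIdx (N₁ * ∏ j, qv j) ⊕ ℕ) 𝒪)
        (hXl₁ : s59ex_LvlX (N₁ * ∏ j, qv j) (s59t_Hmul N₁ (∏ j, qv j) (⊤ : Subgroup (ZMod N₁)ˣ) (s59t_KQ (p ^ n) qv)) aq (s59t_goodB (N₁ * ∏ j, qv j) B)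
      (s59t_cB (𝒪 := 𝒪) (N₁ * ∏ j, qv j) (fun ℓ => W.apOfModel ℓ)) (List.ofFn qv) e₀₁ G₁)
        (a₁ : (heckeAlgebra (N₁ * ∏ q ∈ Finset.univ.image qv, q ^ (2 : ℕ)) 2 (↑(B ∪ Finset.univ.image qv) : Set ℕ)) →+* Module.End 𝒪 (s48h_Hpar 𝒪 (s48h_GammaH (N₁ * ∏ j, qv j) (s59t_Hmul N₁ (∏ j, qv j) (⊤ : Subgroup (ZMod N₁)ˣ) (s59t_KQ (p ^ n) qv))) 𝒪))
        (ha1₁ : ∀ (ℓ : ℕ) (hℓ : ℓ.Prime) (hℓN : ¬ ℓ ∣ (N₁ * ∏ q ∈ Finset.univ.image qv, q ^ (2 : ℕ)))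
      (hℓS : ℓ ∉ (↑(B ∪ Finset.univ.image qv) : Set ℕ)) (i : s59w_TIdx (N₁ * ∏ j, qv j)),
      i.ell = ℓ → a₁ (heckeAlgebra.T hℓ hℓN hℓS) = s59e_Tp' (s59t_Hmul N₁ (∏ j, qv j) (⊤ : Subgroup (ZMod N₁)ˣ) (s59t_KQ (p ^ n) qv)) 𝒪 ((p ^ (0 + n) - 1) * ((p ^ (0 + n) + 1) / 2)) i)
        (ha2₁ : ∀ t, a₁ t ∈ Subring.closure (Set.range (s59e_Tp' (s59t_Hmul N₁ (∏ j, qv j) (⊤ : Subgroup (ZMod N₁)ˣ) (s59t_KQ (p ^ n) qv)) 𝒪 ((p ^ (0 + n) - 1) * ((p ^ (0 + n) + 1) / 2)))))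
        (hρ'₁ : ∀ δ y, (s59t_actH (N₁ * ∏ j, qv j) aq (dvd_refl (N₁ * ∏ j, qv j)) (s59t_Hmul N₁ (∏ j, qv j) (⊤ : Subgroup (ZMod N₁)ˣ) (s59t_KQ (p ^ n) qv)) (G₁ * s59t_jG 𝒪 (s59t_goodB (N₁ * ∏ j, qv j) B) e₀₁)) ((s59t_rho (N₁ * ∏ j, qv j) (s59t_Hmul N₁ (∏ j, qv j) (⊤ : Subgroup (ZMod N₁)ˣ) (s59t_KQ (p ^ n) qv)) 𝒪 𝒪) δ y) = (s59t_rho (N₁ * ∏ j, qv j) (s59t_Hmul N₁ (∏ j, qv j) (⊤ : Subgroup (ZMod N₁)ˣ) (s59t_KQ (p ^ n) qv)) 𝒪 𝒪) δ ((s59t_actH (N₁ * ∏ j, qv j) aq (dvd_refl (N₁ * ∏ j, qv j)) (s59t_Hmul N₁ (∏ j, qv j) (⊤ : Subgroup (ZMod N₁)ˣ) (s59t_KQ (p ^ n) qv)) (G₁ * s59t_jG 𝒪 (s59t_goodB (N₁ * ∏ j, qv j) B) e₀₁)) y))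
        (π₁ : s59t_part (s59t_actH (N₁ * ∏ j, qv j) aq (dvd_refl (N₁ * ∏ j, qv j)) (s59t_Hmul N₁ (∏ j, qv j) (⊤ : Subgroup (ZMod N₁)ˣ) (s59t_KQ (p ^ n) qv)) (G₁ * s59t_jG 𝒪 (s59t_goodB (N₁ * ∏ j, qv j) B) e₀₁)) →ₗ[𝒪] s59t_part (s59t_E0 (⊤ : Subgroup (ZMod N₁)ˣ) B e₁))
        (hιinj₁ : Function.Injective (s59t_iotaH (s59t_E0 (⊤ : Subgroup (ZMod N₁)ˣ) B e₁) (s59t_actH (N₁ * ∏ j, qv j) aq (dvd_refl (N₁ * ∏ j, qv j)) (s59t_Hmul N₁ (∏ j, qv j) (⊤ : Subgroup (ZMod N₁)ˣ) (s59t_KQ (p ^ n) qv)) (G₁ * s59t_jG 𝒪 (s59t_goodB (N₁ * ∏ j, qv j) B) e₀₁)) (s59t_resGHpar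
      (s59t_GammaHmul_le (N := N₁) (D := ∏ j, qv j) (H := (⊤ : Subgroup (ZMod N₁)ˣ)) (K := s59t_KQ (p ^ n) qv)) 𝒪 𝒪)))
        (hιπ₁ : ∀ y, s59t_iotaH (s59t_E0 (⊤ : Subgroup (ZMod N₁)ˣ) B e₁) (s59t_actH (N₁ * ∏ j, qv j) aq (dvd_refl (N₁ * ∏ j, qv j)) (s59t_Hmul N₁ (∏ j, qv j) (⊤ : Subgroup (ZMod N₁)ˣ) (s59t_KQ (p ^ n) qv)) (G₁ * s59t_jG 𝒪 (s59t_goodB (N₁ * ∏ j, qv j) B) e₀₁)) (s59t_resGHpar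
      (s59t_GammaHmul_le (N := N₁) (D := ∏ j, qv j) (H := (⊤ : Subgroup (ZMod N₁)ˣ)) (K := s59t_KQ (p ^ n) qv)) 𝒪 𝒪) (π₁ y) =
      s59t_normPsi (s59t_partRep (s59t_rho (N₁ * ∏ j, qv j) (s59t_Hmul N₁ (∏ j, qv j) (⊤ : Subgroup (ZMod N₁)ˣ) (s59t_KQ (p ^ n) qv)) 𝒪 𝒪) hρ'₁) (s59t_BQ N₁ (∏ j, qv j) (⊤ : Subgroup (ZMod N₁)ˣ) (s59t_KQ (p ^ n) qv)) 1 y)
        -- the kernel pair of the level `N₁`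
        (P'₁ : Module.End 𝒪 (s59t_part (s59t_actH (N₁ * ∏ j, qv j) aq (dvd_refl (N₁ * ∏ j, qv j)) (s59t_Hmul N₁ (∏ j, qv j) (⊤ : Subgroup (ZMod N₁)ˣ) (s59t_KQ (p ^ n) qv)) (G₁ * s59t_jG 𝒪 (s59t_goodB (N₁ * ∏ j, qv j) B) e₀₁))))
        (hP'₁ : ∀ δ x, P'₁ ((s59t_partRep (s59t_rho (N₁ * ∏ j, qv j) (s59t_Hmul N₁ (∏ j, qv j) (⊤ : Subgroup (ZMod N₁)ˣ) (s59t_KQ (p ^ n) qv)) 𝒪 𝒪) hρ'₁) δ x) = (s59t_partRep (s59t_rho (N₁ * ∏ j, qv j) (s59t_Hmul N₁ (∏ j, qv j) (⊤ : Subgroup (ZMod N₁)ˣ) (s59t_KQ (p ^ n) qv)) 𝒪 𝒪) hρ'₁) δ (P'₁ x))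
        (hPP'₁ : P'₁ * P'₁ = P'₁)
        (aZ₁ : (heckeAlgebra (N₁ * ∏ q ∈ Finset.univ.image qv, q ^ (2 : ℕ)) 2 (↑(B ∪ Finset.univ.image qv) : Set ℕ)) →+* Module.End 𝒪 (s59t_part P'₁))
        (haZ₁ : ∀ t (z : s59t_part P'₁), s59x_jZ (s59t_Hmul N₁ (∏ j, qv j) (⊤ : Subgroup (ZMod N₁)ˣ) (s59t_KQ (p ^ n) qv)) (s59t_actH (N₁ * ∏ j, qv j) aq (dvd_refl (N₁ * ∏ j, qv j)) (s59t_Hmul N₁ (∏ j, qv j) (⊤ : Subgroup (ZMod N₁)ˣ) (s59t_KQ (p ^ n) qv)) (G₁ * s59t_jG 𝒪 (s59t_goodB (N₁ * ∏ j, qv j) B) e₀₁)) P'₁ (aZ₁ t z) = a₁ t (s59x_jZ (s59t_Hmul N₁ (∏ j, qv j) (⊤ : Subgroup (ZMod N₁)ˣ) (s59t_KQ (p ^ n) qv)) (s59t_actH (N₁ * ∏ j, qv j) aq (dvd_refl (N₁ * ∏ j, qv j)) (s59t_Hmul N₁ (∏ j, qv j) (⊤ : Subgroup (ZMod N₁)ˣ) (s59t_KQ (p ^ n) qv)) (G₁ * s59t_jG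 𝒪 (s59t_goodB (N₁ * ∏ j, qv j) B) e₀₁)) P'₁ z))
        [IsLocalRing (s59e_adj 𝒪 aZ₁)]
        (θ₁ : DQ.R →ₐ[𝒪] s59e_adj 𝒪 aZ₁)
        (hθ₁ : Function.Surjective θ₁)
        (hfrobT₁ : ∀ ℓ : ℕ, ℓ.Prime → ℓ ∉ (B ∪ Finset.univ.image qv) →
      ∀ A' : ValuationSubring (AlgebraicClosure ℚ), A'.LiesOverPrime ℓ →
      ∀ τ : Γℚ, A'.IsFrobeniusAt τ ℓ →
        (LinearMap.charpoly (DQ.ρ.ρ τ)).map (θ₁ : DQ.R →+* s59e_adj 𝒪 aZ₁) =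
          (Polynomial.X : Polynomial (s59e_adj 𝒪 aZ₁)) ^ (2 : ℕ) - Polynomial.C (s59e_tOf (𝒪 := 𝒪) (↑(B ∪ Finset.univ.image qv) : Set ℕ) aZ₁ ℓ) * (Polynomial.X : Polynomial (s59e_adj 𝒪 aZ₁)) +
            Polynomial.C ((ℓ : s59e_adj 𝒪 aZ₁)))
        (πK₁ : s59t_part P'₁ →ₗ[𝒪] s59t_part P₁)
        (hπK₁ : ∀ y : s59t_part P'₁, ((πK₁ y : s59t_part P₁) : s59t_part (s59t_E0 (⊤ : Subgroup (ZMod N₁)ˣ) B e₁)) = π₁ (y : s59t_part (s59t_actH (N₁ * ∏ j, qv j) aq (dvd_refl (N₁ * ∏ j, qv j)) (s59t_Hmul N₁ (∏ j, qv j) (⊤ : Subgroup (ZMod N₁)ˣ) (s59t_KQ (p ^ n) qv)) (G₁ * s59t_jG 𝒪 (s59t_goodB (N₁ * ∏ j, qv j) B) e₀₁))))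
        (hcomm₁ : ∀ (t : (heckeAlgebra (N₁ * ∏ q ∈ Finset.univ.image qv, q ^ (2 : ℕ)) 2 (↑(B ∪ Finset.univ.image qv) : Set ℕ))) (β : (s59t_BQ N₁ (∏ j, qv j) (⊤ : Subgroup (ZMod N₁)ˣ) (s59t_KQ (p ^ n) qv))),
      Commute (aZ₁ t) (((s59t_partRep (s59t_partRep (s59t_rho (N₁ * ∏ j, qv j) (s59t_Hmul N₁ (∏ j, qv j) (⊤ : Subgroup (ZMod N₁)ˣ) (s59t_KQ (p ^ n) qv)) 𝒪 𝒪) hρ'₁) hP'₁).comp (s59t_BQ N₁ (∏ j, qv j) (⊤ : Subgroup (ZMod N₁)ˣ) (s59t_KQ (p ^ n) qv)).subtype) β))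
        (hTρ₁ : ∀ (t : s59e_adj 𝒪 (s59e_aB aZ₁ ((s59t_partRep (s59t_partRep (s59t_rho (N₁ * ∏ j, qv j) (s59t_Hmul N₁ (∏ j, qv j) (⊤ : Subgroup (ZMod N₁)ˣ) (s59t_KQ (p ^ n) qv)) 𝒪 𝒪) hρ'₁) hP'₁).comp (s59t_BQ N₁ (∏ j, qv j) (⊤ : Subgroup (ZMod N₁)ˣ) (s59t_KQ (p ^ n) qv)).subtype) hcomm₁)) δ y,
      t • (s59t_partRep (s59t_partRep (s59t_rho (N₁ * ∏ j, qv j) (s59t_Hmul N₁ (∏ j, qv j) (⊤ : Subgroup (ZMod N₁)ˣ) (s59t_KQ (p ^ n) qv)) 𝒪 𝒪) hρ'₁) hP'₁) δ y = (s59t_partRep (s59t_partRep (s59t_rho (N₁ * ∏ j, qv j) (s59t_Hmul N₁ (∏ j, qv j) (⊤ : Subgroup (ZMod N₁)ˣ) (s59t_KQ (p ^ n) qv)) 𝒪 𝒪) hρ'₁) hP'₁) δ (t • y))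
        (h2₁ : ∀ y ∈ s59t_eig (s59t_partRep (s59t_partRep (s59t_rho (N₁ * ∏ j, qv j) (s59t_Hmul N₁ (∏ j, qv j) (⊤ : Subgroup (ZMod N₁)ˣ) (s59t_KQ (p ^ n) qv)) 𝒪 𝒪) hρ'₁) hP'₁) (s59t_CQ N₁ (∏ j, qv j) (⊤ : Subgroup (ZMod N₁)ˣ) (s59t_KQ (p ^ n) qv)) (1 : (s59t_Delta (N₁ * ∏ j, qv j) (s59t_Hmul N₁ (∏ j, qv j) (⊤ : Subgroup (ZMod N₁)ˣ) (s59t_KQ (p ^ n) qv))) →* 𝒪ˣ),
      πK₁ y ∈ s59t_eig (s59t_partRep (s59t_partRep (s59t_rho N₁ (⊤ : Subgroup (ZMod N₁)ˣ) 𝒪 𝒪) hρ₁) hP₁) ⊤ (1 : (s59t_Delta N₁ (⊤ : Subgroup (ZMod N₁)ˣ)) →* 𝒪ˣ))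
        (g₁ : Fin r → (s59t_BQ N₁ (∏ j, qv j) (⊤ : Subgroup (ZMod N₁)ˣ) (s59t_KQ (p ^ n) qv)))
        (rec₁ : s59efl_RingRec (p := p) r σ DQ n (s59t_partRep (s59t_partRep (s59t_rho N₁ (⊤ : Subgroup (ZMod N₁)ˣ) 𝒪 𝒪) hρ₁) hP₁) (s59e_adj 𝒪 aZ₀₁) hRρ₁ ρR₁ d₁
      (s59t_partRep (s59t_partRep (s59t_rho (N₁ * ∏ j, qv j) (s59t_Hmul N₁ (∏ j, qv j) (⊤ : Subgroup (ZMod N₁)ˣ) (s59t_KQ (p ^ n) qv)) 𝒪 𝒪) hρ'₁) hP'₁) (s59t_BQ N₁ (∏ j, qv j) (⊤ : Subgroup (ZMod N₁)ˣ) (s59t_KQ (p ^ n) qv)) (s59t_CQ N₁ (∏ j, qv j) (⊤ : Subgroup (ZMod N₁)ˣ) (s59t_KQ (p ^ n) qv)) πK₁ aZ₁ hcomm₁ hTρ₁ h2₁ g₁ θ₁ qv)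
        [IsNoetherianRing (s59e_adj 𝒪 aZ₁)]
        [IsAdicComplete (maximalIdeal (s59e_adj 𝒪 aZ₁)) (s59e_adj 𝒪 aZ₁)]
        [IsLocalHom (algebraMap 𝒪 (s59e_adj 𝒪 aZ₁))]
        (hres𝒪₁ : Function.Surjective (residue (s59e_adj 𝒪 aZ₁) ∘ algebraMap 𝒪 (s59e_adj 𝒪 aZ₁)))
        (hθl₁ : IsLocalHom (θ₁ : DQ.R →+* s59e_adj 𝒪 aZ₁))
        (h𝒟₁ : 𝒟 (DQ.ρ.baseChangeAlong (θ₁ : DQ.R →+* s59e_adj 𝒪 aZ₁) hθl₁))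
        (hres₁ : (DQ.ρ.baseChangeAlong (θ₁ : DQ.R →+* s59e_adj 𝒪 aZ₁) hθl₁).residual.IsEquiv
      ((s59i_rhobarW W p hΔ 𝒪 hp𝒪).baseChangeAlong (ResidueField.map (algebraMap 𝒪 (s59e_adj 𝒪 aZ₁)))))
        -- the Taylor–Wiles data of the level `(N₁ * q)`
        (e₀₂ : MvPolynomial ↥(s59t_goodB ((N₁ * q) * ∏ j, qv j) B) 𝒪)
        (G₂ : MvPolynomial (s59w_AIdx ((N₁ * q) * ∏ j, qv j) ⊕ ℕ) 𝒪)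
        (hXl₂ : s59ex_LvlX ((N₁ * q) * ∏ j, qv j) (s59t_Hmul (N₁ * q) (∏ j, qv j) (⊤ : Subgroup (ZMod (N₁ * q))ˣ) (s59t_KQ (p ^ n) qv)) aq (s59t_goodB ((N₁ * q) * ∏ j, qv j) B)
      (s59t_cB (𝒪 := 𝒪) ((N₁ * q) * ∏ j, qv j) (fun ℓ => W.apOfModel ℓ)) (List.ofFn qv) e₀₂ G₂)
        (a₂ : (heckeAlgebra ((N₁ * q) * ∏ q ∈ Finset.univ.image qv, q ^ (2 : ℕ)) 2 (↑(B ∪ Finset.univ.image qv) : Set ℕ)) →+* Module.End 𝒪 (s48h_Hpar 𝒪 (s48h_GammaH ((N₁ * q) * ∏ j, qv j) (s59t_Hmul (N₁ * q) (∏ j, qv j) (⊤ : Subgroup (ZMod (N₁ * q))ˣ) (s59t_KQ (p ^ n) qv))) 𝒪))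
        (ha1₂ : ∀ (ℓ : ℕ) (hℓ : ℓ.Prime) (hℓN : ¬ ℓ ∣ ((N₁ * q) * ∏ q ∈ Finset.univ.image qv, q ^ (2 : ℕ)))
      (hℓS : ℓ ∉ (↑(B ∪ Finset.univ.image qv) : Set ℕ)) (i : s59w_TIdx ((N₁ * q) * ∏ j, qv j)),
      i.ell = ℓ → a₂ (heckeAlgebra.T hℓ hℓN hℓS) = s59e_Tp' (s59t_Hmul (N₁ * q) (∏ j, qv j) (⊤ : Subgroup (ZMod (N₁ * q))ˣ) (s59t_KQ (p ^ n) qv)) 𝒪 ((p ^ (0 + n) - 1) * ((p ^ (0 + n) + 1) / 2)) i)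
        (ha2₂ : ∀ t, a₂ t ∈ Subring.closure (Set.range (s59e_Tp' (s59t_Hmul (N₁ * q) (∏ j, qv j) (⊤ : Subgroup (ZMod (N₁ * q))ˣ) (s59t_KQ (p ^ n) qv)) 𝒪 ((p ^ (0 + n) - 1) * ((p ^ (0 + n) + 1) / 2)))))
        (hρ'₂ : ∀ δ y, (s59t_actH ((N₁ * q) * ∏ j, qv j) aq (dvd_refl ((N₁ * q) * ∏ j, qv j)) (s59t_Hmul (N₁ * q) (∏ j, qv j) (⊤ : Subgroup (ZMod (N₁ * q))ˣ) (s59t_KQ (p ^ n) qv)) (G₂ * s59t_jG 𝒪 (s59t_goodB ((N₁ * q) * ∏ j, qv j) B) e₀₂)) ((s59t_rho ((N₁ * q) * ∏ j, qv j) (s59t_Hmul (N₁ * q) (∏ j, qv j) (⊤ : Subgroup (ZMod (N₁ * q))ˣ) (s59t_KQ (p ^ n) qv)) 𝒪 𝒪) δ y) = (s59t_rho ((N₁ * q) * ∏ j, qv j) (s59t_Hmul (N₁ * q) (∏ j, qv j) (⊤ : Subgroup (ZMod (N₁ * q))ˣ) (s59t_KQ (p ^ n) qv)) 𝒪 𝒪) δ ((s59t_actH ((N₁ * q) * ∏ j, qv j) aq (dvd_refl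 ((N₁ * q) * ∏ j, qv j)) (s59t_Hmul (N₁ * q) (∏ j, qv j) (⊤ : Subgroup (ZMod (N₁ * q))ˣ) (s59t_KQ (p ^ n) qv)) (G₂ * s59t_jG 𝒪 (s59t_goodB ((N₁ * q) * ∏ j, qv j) B) e₀₂)) y))
        (π₂ : s59t_part (s59t_actH ((N₁ * q) * ∏ j, qv j) aq (dvd_refl ((N₁ * q) * ∏ j, qv j)) (s59t_Hmul (N₁ * q) (∏ j, qv j) (⊤ : Subgroup (ZMod (N₁ * q))ˣ) (s59t_KQ (p ^ n) qv)) (G₂ * s59t_jG 𝒪 (s59t_goodB ((N₁ * q) * ∏ j, qv j) B) e₀₂)) →ₗ[𝒪] s59t_part (s59t_E0 (⊤ : Subgroup (ZMod (N₁ * q))ˣ) B e₂))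
        (hιinj₂ : Function.Injective (s59t_iotaH (s59t_E0 (⊤ : Subgroup (ZMod (N₁ * q))ˣ) B e₂) (s59t_actH ((N₁ * q) * ∏ j, qv j) aq (dvd_refl ((N₁ * q) * ∏ j, qv j)) (s59t_Hmul (N₁ * q) (∏ j, qv j) (⊤ : Subgroup (ZMod (N₁ * q))ˣ) (s59t_KQ (p ^ n) qv)) (G₂ * s59t_jG 𝒪 (s59t_goodB ((N₁ * q) * ∏ j, qv j) B) e₀₂)) (s59t_resGHpar
      (s59t_GammaHmul_le (N := (N₁ * q)) (D := ∏ j, qv j) (H := (⊤ : Subgroup (ZMod (N₁ * q))ˣ)) (K := s59t_KQ (p ^ n) qv)) 𝒪 𝒪)))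
        (hιπ₂ : ∀ y, s59t_iotaH (s59t_E0 (⊤ : Subgroup (ZMod (N₁ * q))ˣ) B e₂) (s59t_actH ((N₁ * q) * ∏ j, qv j) aq (dvd_refl ((N₁ * q) * ∏ j, qv j)) (s59t_Hmul (N₁ * q) (∏ j, qv j) (⊤ : Subgroup (ZMod (N₁ * q))ˣ) (s59t_KQ (p ^ n) qv)) (G₂ * s59t_jG 𝒪 (s59t_goodB ((N₁ * q) * ∏ j, qv j) B) e₀₂)) (s59t_resGHpar
      (s59t_GammaHmul_le (N := (N₁ * q)) (D := ∏ j, qv j) (H := (⊤ : Subgroup (ZMod (N₁ * q))ˣ)) (K := s59t_KQ (p ^ n) qv)) 𝒪 𝒪) (π₂ y) =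
      s59t_normPsi (s59t_partRep (s59t_rho ((N₁ * q) * ∏ j, qv j) (s59t_Hmul (N₁ * q) (∏ j, qv j) (⊤ : Subgroup (ZMod (N₁ * q))ˣ) (s59t_KQ (p ^ n) qv)) 𝒪 𝒪) hρ'₂) (s59t_BQ (N₁ * q) (∏ j, qv j) (⊤ : Subgroup (ZMod (N₁ * q))ˣ) (s59t_KQ (p ^ n) qv)) 1 y)
        -- the kernel pair of the level `(N₁ * q)`
        (P'₂ : Module.End 𝒪 (s59t_part (s59t_actH ((N₁ * q) * ∏ j, qv j) aq (dvd_refl ((N₁ * q) * ∏ j, qv j)) (s59t_Hmul (N₁ * q) (∏ j, qv j) (⊤ : Subgroup (ZMod (N₁ * q))ˣ) (s59t_KQ (p ^ n) qv)) (G₂ * s59t_jG 𝒪 (s59t_goodB ((N₁ * q) * ∏ j, qv j) B) e₀₂))))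
        (hP'₂ : ∀ δ x, P'₂ ((s59t_partRep (s59t_rho ((N₁ * q) * ∏ j, qv j) (s59t_Hmul (N₁ * q) (∏ j, qv j) (⊤ : Subgroup (ZMod (N₁ * q))ˣ) (s59t_KQ (p ^ n) qv)) 𝒪 𝒪) hρ'₂) δ x) = (s59t_partRep (s59t_rho ((N₁ * q) * ∏ j, qv j) (s59t_Hmul (N₁ * q) (∏ j, qv j) (⊤ : Subgroup (ZMod (N₁ * q))ˣ) (s59t_KQ (p ^ n) qv)) 𝒪 𝒪) hρ'₂) δ (P'₂ x))
        (hPP'₂ : P'₂ * P'₂ = P'₂)
        (aZ₂ : (heckeAlgebra ((N₁ * q) * ∏ q ∈ Finset.univ.image qv, q ^ (2 : ℕ)) 2 (↑(B ∪ Finset.univ.image qv) : Set ℕ)) →+* Module.End 𝒪 (s59t_part P'₂))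
        (haZ₂ : ∀ t (z : s59t_part P'₂), s59x_jZ (s59t_Hmul (N₁ * q) (∏ j, qv j) (⊤ : Subgroup (ZMod (N₁ * q))ˣ) (s59t_KQ (p ^ n) qv)) (s59t_actH ((N₁ * q) * ∏ j, qv j) aq (dvd_refl ((N₁ * q) * ∏ j, qv j)) (s59t_Hmul (N₁ * q) (∏ j, qv j) (⊤ : Subgroup (ZMod (N₁ * q))ˣ) (s59t_KQ (p ^ n) qv)) (G₂ * s59t_jG 𝒪 (s59t_goodB ((N₁ * q) * ∏ j, qv j) B) e₀₂)) P'₂ (aZ₂ t z) = a₂ t (s59x_jZ (s59t_Hmul (N₁ * q) (∏ j, qv j) (⊤ : Subgroup (ZMod (N₁ * q))ˣ) (s59t_KQ (p ^ n) qv)) (s59t_actH ((N₁ * q) * ∏ j, qv j) aq (dvd_refl ((N₁ * q) * ∏ j, qv j)) (s59t_Hmul (N₁ * q) (∏ j, qv j) (⊤ : Subgroup (ZMod (N₁ * q))ˣ) (s59t_KQ (p ^ n) qv)) (G₂ * s59t_jG 𝒪 (s59t_goodB ((N₁ * q) * ∏ j, qv j) B) e₀₂)) P'₂ z))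
        [IsLocalRing (s59e_adj 𝒪 aZ₂)]
        (θ₂ : DQ.R →ₐ[𝒪] s59e_adj 𝒪 aZ₂)
        (hθ₂ : Function.Surjective θ₂)
        (hfrobT₂ : ∀ ℓ : ℕ, ℓ.Prime → ℓ ∉ (B ∪ Finset.univ.image qv) →
      ∀ A' : ValuationSubring (AlgebraicClosure ℚ), A'.LiesOverPrime ℓ →
      ∀ τ : Γℚ, A'.IsFrobeniusAt τ ℓ →
        (LinearMap.charpoly (DQ.ρ.ρ τ)).map (θ₂ : DQ.R →+* s59e_adj 𝒪 aZ₂) =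
          (Polynomial.X : Polynomial (s59e_adj 𝒪 aZ₂)) ^ (2 : ℕ) - Polynomial.C (s59e_tOf (𝒪 := 𝒪) (↑(B ∪ Finset.univ.image qv) : Set ℕ) aZ₂ ℓ) * (Polynomial.X : Polynomial (s59e_adj 𝒪 aZ₂)) +
            Polynomial.C ((ℓ : s59e_adj 𝒪 aZ₂)))
        (πK₂ : s59t_part P'₂ →ₗ[𝒪] s59t_part P₂)
        (hπK₂ : ∀ y : s59t_part P'₂, ((πK₂ y : s59t_part P₂) : s59t_part (s59t_E0 (⊤ : Subgroup (ZMod (N₁ * q))ˣ) B e₂)) = π₂ (y : s59t_part (s59t_actH ((N₁ * q) * ∏ j, qv j) aq (dvd_refl ((N₁ * q) * ∏ j, qv j)) (s59t_Hmul (N₁ * q) (∏ j, qv j) (⊤ : Subgroup (ZMod (N₁ * q))ˣ) (s59t_KQ (p ^ n) qv)) (G₂ * s59t_jG 𝒪 (s59t_goodB ((N₁ * q) * ∏ j, qv j) B) e₀₂))))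
        (hcomm₂ : ∀ (t : (heckeAlgebra ((N₁ * q) * ∏ q ∈ Finset.univ.image qv, q ^ (2 : ℕ)) 2 (↑(B ∪ Finset.univ.image qv) : Set ℕ))) (β : (s59t_BQ (N₁ * q) (∏ j, qv j) (⊤ : Subgroup (ZMod (N₁ * q))ˣ) (s59t_KQ (p ^ n) qv))),
      Commute (aZ₂ t) (((s59t_partRep (s59t_partRep (s59t_rho ((N₁ * q) * ∏ j, qv j) (s59t_Hmul (N₁ * q) (∏ j, qv j) (⊤ : Subgroup (ZMod (N₁ * q))ˣ) (s59t_KQ (p ^ n) qv)) 𝒪 𝒪) hρ'₂) hP'₂).comp (s59t_BQ (N₁ * q) (∏ j, qv j) (⊤ : Subgroup (ZMod (N₁ * q))ˣ) (s59t_KQ (p ^ n) qv)).subtype) β))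
        (hTρ₂ : ∀ (t : s59e_adj 𝒪 (s59e_aB aZ₂ ((s59t_partRep (s59t_partRep (s59t_rho ((N₁ * q) * ∏ j, qv j) (s59t_Hmul (N₁ * q) (∏ j, qv j) (⊤ : Subgroup (ZMod (N₁ * q))ˣ) (s59t_KQ (p ^ n) qv)) 𝒪 𝒪) hρ'₂) hP'₂).comp (s59t_BQ (N₁ * q) (∏ j, qv j) (⊤ : Subgroup (ZMod (N₁ * q))ˣ) (s59t_KQ (p ^ n) qv)).subtype) hcomm₂)) δ y,
      t • (s59t_partRep (s59t_partRep (s59t_rho ((N₁ * q) * ∏ j, qv j) (s59t_Hmul (N₁ * q) (∏ j, qv j) (⊤ : Subgroup (ZMod (N₁ * q))ˣ) (s59t_KQ (p ^ n) qv)) 𝒪 𝒪) hρ'₂) hP'₂) δ y = (s59t_partRep (s59t_partRep (s59t_rho ((N₁ * q) * ∏ j, qv j) (s59t_Hmul (N₁ * q) (∏ j, qv j) (⊤ : Subgroup (ZMod (N₁ * q))ˣ) (s59t_KQ (p ^ n) qv)) 𝒪 𝒪) hρ'₂) hP'₂) δ (t • y))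
        (h2₂ : ∀ y ∈ s59t_eig (s59t_partRep (s59t_partRep (s59t_rho ((N₁ * q) * ∏ j, qv j) (s59t_Hmul (N₁ * q) (∏ j, qv j) (⊤ : Subgroup (ZMod (N₁ * q))ˣ) (s59t_KQ (p ^ n) qv)) 𝒪 𝒪) hρ'₂) hP'₂) (s59t_CQ (N₁ * q) (∏ j, qv j) (⊤ : Subgroup (ZMod (N₁ * q))ˣ) (s59t_KQ (p ^ n) qv)) (1 : (s59t_Delta ((N₁ * q) * ∏ j, qv j) (s59t_Hmul (N₁ * q) (∏ j, qv j) (⊤ : Subgroup (ZMod (N₁ * q))ˣ) (s59t_KQ (p ^ n) qv))) →* 𝒪ˣ),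
      πK₂ y ∈ s59t_eig (s59t_partRep (s59t_partRep (s59t_rho (N₁ * q) (⊤ : Subgroup (ZMod (N₁ * q))ˣ) 𝒪 𝒪) hρ₂) hP₂) ⊤ (1 : (s59t_Delta (N₁ * q) (⊤ : Subgroup (ZMod (N₁ * q))ˣ)) →* 𝒪ˣ))
        (g₂ : Fin r → (s59t_BQ (N₁ * q) (∏ j, qv j) (⊤ : Subgroup (ZMod (N₁ * q))ˣ) (s59t_KQ (p ^ n) qv)))
        (rec₂ : s59efl_RingRec (p := p) r σ DQ n (s59t_partRep (s59t_partRep (s59t_rho (N₁ * q) (⊤ : Subgroup (ZMod (N₁ * q))ˣ) 𝒪 𝒪) hρ₂) hP₂) (s59e_adj 𝒪 aZ₀₂) hRρ₂ ρR₂ d₂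
      (s59t_partRep (s59t_partRep (s59t_rho ((N₁ * q) * ∏ j, qv j) (s59t_Hmul (N₁ * q) (∏ j, qv j) (⊤ : Subgroup (ZMod (N₁ * q))ˣ) (s59t_KQ (p ^ n) qv)) 𝒪 𝒪) hρ'₂) hP'₂) (s59t_BQ (N₁ * q) (∏ j, qv j) (⊤ : Subgroup (ZMod (N₁ * q))ˣ) (s59t_KQ (p ^ n) qv)) (s59t_CQ (N₁ * q) (∏ j, qv j) (⊤ : Subgroup (ZMod (N₁ * q))ˣ) (s59t_KQ (p ^ n) qv)) πK₂ aZ₂ hcomm₂ hTρ₂ h2₂ g₂ θ₂ qv)
        (hg : ∀ i, g₁ i = s59efl_pushG hd (p ^ n) qv g₂ i)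
        -- the kernel pair of the Taylor–Wiles levels is stable
        (hst' : ∀ (hqL : ¬ q ∣ (N₁ * ∏ j, qv j)) (hN' : ((N₁ * q) * ∏ j, qv j) = (N₁ * ∏ j, qv j) * q)
          (hG' : s59f_IsG' (N₁ * ∏ j, qv j) q (s59t_Hmul N₁ (∏ j, qv j) (⊤ : Subgroup (ZMod N₁)ˣ) (s59t_KQ (p ^ n) qv)) (s48h_GammaH ((N₁ * q) * ∏ j, qv j) (s59t_Hmul (N₁ * q) (∏ j, qv j) (⊤ : Subgroup (ZMod (N₁ * q))ˣ) (s59t_KQ (p ^ n) qv))))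
          (he' : s59f_eW hqL ((p ^ (0 + n) - 1) * ((p ^ (0 + n) + 1) / 2)) ∈ Gamma0 ((N₁ * q) * ∏ j, qv j))
          (hee : s59f_gW hqL * s59f_eW hqL ((p ^ (0 + n) - 1) * ((p ^ (0 + n) + 1) / 2)) * s59f_eW hqL ((p ^ (0 + n) - 1) * ((p ^ (0 + n) + 1) / 2)) ∈ s48h_GammaH ((N₁ * q) * ∏ j, qv j) (s59t_Hmul (N₁ * q) (∏ j, qv j) (⊤ : Subgroup (ZMod (N₁ * q))ˣ) (s59t_KQ (p ^ n) qv)))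
          (hc' : (s59f_oldN hqL hN' hG' 𝒪 𝒪 (s59f_eW hqL ((p ^ (0 + n) - 1) * ((p ^ (0 + n) + 1) / 2))) he' hee).Compat (s59t_actH (N₁ * ∏ j, qv j) aq (dvd_refl (N₁ * ∏ j, qv j)) (s59t_Hmul N₁ (∏ j, qv j) (⊤ : Subgroup (ZMod N₁)ˣ) (s59t_KQ (p ^ n) qv)) (G₁ * s59t_jG 𝒪 (s59t_goodB (N₁ * ∏ j, qv j) B) e₀₁)) (s59t_actH ((N₁ * q) * ∏ j, qv j) aq (dvd_refl ((N₁ * q) * ∏ j, qv j)) (s59t_Hmul (N₁ * q) (∏ j, qv j) (⊤ : Subgroup (ZMod (N₁ * q))ˣ) (s59t_KQ (p ^ n) qv)) (G₂ * s59t_jG 𝒪 (s59t_goodB ((N₁ * q) * ∏ j, qv j) B) e₀₂))), s59x_OldStable ((s59f_oldN hqL hN' hG' 𝒪 𝒪 (s59f_eW hqL ((p ^ (0 + n) - 1) * ((p ^ (0 + n) + 1) / 2))) he' hee).restrict hc') (s59t_part P'₁) (s59t_part P'₂))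
        -- Eichler–Shimura and [NEW-q] on the kernel pairs
        (hES : ∀ (hqL : ¬ q ∣ (N₁ * ∏ j, qv j)) (hN' : ((N₁ * q) * ∏ j, qv j) = (N₁ * ∏ j, qv j) * q)
          (hG' : s59f_IsG' (N₁ * ∏ j, qv j) q (s59t_Hmul N₁ (∏ j, qv j) (⊤ : Subgroup (ZMod N₁)ˣ) (s59t_KQ (p ^ n) qv)) (s48h_GammaH ((N₁ * q) * ∏ j, qv j) (s59t_Hmul (N₁ * q) (∏ j, qv j) (⊤ : Subgroup (ZMod (N₁ * q))ˣ) (s59t_KQ (p ^ n) qv))))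
          (he' : s59f_eW hqL ((p ^ (0 + n) - 1) * ((p ^ (0 + n) + 1) / 2)) ∈ Gamma0 ((N₁ * q) * ∏ j, qv j))
          (hee : s59f_gW hqL * s59f_eW hqL ((p ^ (0 + n) - 1) * ((p ^ (0 + n) + 1) / 2)) * s59f_eW hqL ((p ^ (0 + n) - 1) * ((p ^ (0 + n) + 1) / 2)) ∈ s48h_GammaH ((N₁ * q) * ∏ j, qv j) (s59t_Hmul (N₁ * q) (∏ j, qv j) (⊤ : Subgroup (ZMod (N₁ * q))ˣ) (s59t_KQ (p ^ n) qv)))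
          (hc' : (s59f_oldN hqL hN' hG' 𝒪 𝒪 (s59f_eW hqL ((p ^ (0 + n) - 1) * ((p ^ (0 + n) + 1) / 2))) he' hee).Compat (s59t_actH (N₁ * ∏ j, qv j) aq (dvd_refl (N₁ * ∏ j, qv j)) (s59t_Hmul N₁ (∏ j, qv j) (⊤ : Subgroup (ZMod N₁)ˣ) (s59t_KQ (p ^ n) qv)) (G₁ * s59t_jG 𝒪 (s59t_goodB (N₁ * ∏ j, qv j) B) e₀₁)) (s59t_actH ((N₁ * q) * ∏ j, qv j) aq (dvd_refl ((N₁ * q) * ∏ j, qv j)) (s59t_Hmul (N₁ * q) (∏ j, qv j) (⊤ : Subgroup (ZMod (N₁ * q))ˣ) (s59t_KQ (p ^ n) qv)) (G₂ * s59t_jG 𝒪 (s59t_goodB ((N₁ * q) * ∏ j, qv j) B) e₀₂))) (hst : s59x_OldStable ((s59f_oldN hqL hN' hG' 𝒪 𝒪 (s59f_eW hqL ((p ^ (0 + n) - 1) * ((p ^ (0 + n) + 1) / 2))) he' hee).restrict hc') (s59t_part P'₁) (s59t_part P'₂))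
          (y : s59t_part P'₁), (s59x_oldSub ((s59f_oldN hqL hN' hG' 𝒪 𝒪 (s59f_eW hqL ((p ^ (0 + n) - 1) * ((p ^ (0 + n) + 1) / 2))) he' hee).restrict hc') hst).T y =
            ((θ₁ (s59i_cpTr DQ.ρ φq) : s59e_adj 𝒪 aZ₁) : Module.End 𝒪 (s59t_part P'₁)) y)
        (hNEW : ∀ (hqL : ¬ q ∣ (N₁ * ∏ j, qv j)) (hN' : ((N₁ * q) * ∏ j, qv j) = (N₁ * ∏ j, qv j) * q)
          (hG' : s59f_IsG' (N₁ * ∏ j, qv j) q (s59t_Hmul N₁ (∏ j, qv j) (⊤ : Subgroup (ZMod N₁)ˣ) (s59t_KQ (p ^ n) qv)) (s48h_GammaH ((N₁ * q) * ∏ j, qv j) (s59t_Hmul (N₁ * q) (∏ j, qv j) (⊤ : Subgroup (ZMod (N₁ * q))ˣ) (s59t_KQ (p ^ n) qv))))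
          (he' : s59f_eW hqL ((p ^ (0 + n) - 1) * ((p ^ (0 + n) + 1) / 2)) ∈ Gamma0 ((N₁ * q) * ∏ j, qv j))
          (hee : s59f_gW hqL * s59f_eW hqL ((p ^ (0 + n) - 1) * ((p ^ (0 + n) + 1) / 2)) * s59f_eW hqL ((p ^ (0 + n) - 1) * ((p ^ (0 + n) + 1) / 2)) ∈ s48h_GammaH ((N₁ * q) * ∏ j, qv j) (s59t_Hmul (N₁ * q) (∏ j, qv j) (⊤ : Subgroup (ZMod (N₁ * q))ˣ) (s59t_KQ (p ^ n) qv)))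
          (hc' : (s59f_oldN hqL hN' hG' 𝒪 𝒪 (s59f_eW hqL ((p ^ (0 + n) - 1) * ((p ^ (0 + n) + 1) / 2))) he' hee).Compat (s59t_actH (N₁ * ∏ j, qv j) aq (dvd_refl (N₁ * ∏ j, qv j)) (s59t_Hmul N₁ (∏ j, qv j) (⊤ : Subgroup (ZMod N₁)ˣ) (s59t_KQ (p ^ n) qv)) (G₁ * s59t_jG 𝒪 (s59t_goodB (N₁ * ∏ j, qv j) B) e₀₁)) (s59t_actH ((N₁ * q) * ∏ j, qv j) aq (dvd_refl ((N₁ * q) * ∏ j, qv j)) (s59t_Hmul (N₁ * q) (∏ j, qv j) (⊤ : Subgroup (ZMod (N₁ * q))ˣ) (s59t_KQ (p ^ n) qv)) (G₂ * s59t_jG 𝒪 (s59t_goodB ((N₁ * q) * ∏ j, qv j) B) e₀₂))) (hst : s59x_OldStable ((s59f_oldN hqL hN' hG' 𝒪 𝒪 (s59f_eW hqL ((p ^ (0 + n) - 1) * ((p ^ (0 + n) + 1) / 2))) he' hee).restrict hc') (s59t_part P'₁) (s59t_part P'₂)),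
          ∀ z ∈ s59t_eig (s59t_partRep (s59t_partRep (s59t_rho ((N₁ * q) * ∏ j, qv j) (s59t_Hmul (N₁ * q) (∏ j, qv j) (⊤ : Subgroup (ZMod (N₁ * q))ˣ) (s59t_KQ (p ^ n) qv)) 𝒪 𝒪) hρ'₂) hP'₂) (s59t_CQ (N₁ * q) (∏ j, qv j) (⊤ : Subgroup (ZMod (N₁ * q))ˣ) (s59t_KQ (p ^ n) qv)) (1 : (s59t_Delta ((N₁ * q) * ∏ j, qv j) (s59t_Hmul (N₁ * q) (∏ j, qv j) (⊤ : Subgroup (ZMod (N₁ * q))ˣ) (s59t_KQ (p ^ n) qv))) →* 𝒪ˣ),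
            (s59x_oldSub ((s59f_oldN hqL hN' hG' 𝒪 𝒪 (s59f_eW hqL ((p ^ (0 + n) - 1) * ((p ^ (0 + n) + 1) / 2))) he' hee).restrict hc') hst).corA z = 0 → (s59x_oldSub ((s59f_oldN hqL hN' hG' 𝒪 𝒪 (s59f_eW hqL ((p ^ (0 + n) - 1) * ((p ^ (0 + n) + 1) / 2))) he' hee).restrict hc') hst).corB z = 0 →
            ((((q : ℕ) : 𝒪) + 1) ^ (2 : ℕ)) • z -
              (((θ₂ (s59i_cpTr DQ.ρ φq) : s59e_adj 𝒪 aZ₂) : Module.End 𝒪 (s59t_part P'₂)) ^ (2 : ℕ)) z = 0)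
        -- the weak trace clause
        (Jm : Set DQ.R)
        (hT5w : ∀ (hqL : ¬ q ∣ (N₁ * ∏ j, qv j)) (hN' : ((N₁ * q) * ∏ j, qv j) = (N₁ * ∏ j, qv j) * q)
          (hG' : s59f_IsG' (N₁ * ∏ j, qv j) q (s59t_Hmul N₁ (∏ j, qv j) (⊤ : Subgroup (ZMod N₁)ˣ) (s59t_KQ (p ^ n) qv)) (s48h_GammaH ((N₁ * q) * ∏ j, qv j) (s59t_Hmul (N₁ * q) (∏ j, qv j) (⊤ : Subgroup (ZMod (N₁ * q))ˣ) (s59t_KQ (p ^ n) qv))))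
          (he' : s59f_eW hqL ((p ^ (0 + n) - 1) * ((p ^ (0 + n) + 1) / 2)) ∈ Gamma0 ((N₁ * q) * ∏ j, qv j))
          (hee : s59f_gW hqL * s59f_eW hqL ((p ^ (0 + n) - 1) * ((p ^ (0 + n) + 1) / 2)) * s59f_eW hqL ((p ^ (0 + n) - 1) * ((p ^ (0 + n) + 1) / 2)) ∈ s48h_GammaH ((N₁ * q) * ∏ j, qv j) (s59t_Hmul (N₁ * q) (∏ j, qv j) (⊤ : Subgroup (ZMod (N₁ * q))ˣ) (s59t_KQ (p ^ n) qv)))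
          (hc' : (s59f_oldN hqL hN' hG' 𝒪 𝒪 (s59f_eW hqL ((p ^ (0 + n) - 1) * ((p ^ (0 + n) + 1) / 2))) he' hee).Compat (s59t_actH (N₁ * ∏ j, qv j) aq (dvd_refl (N₁ * ∏ j, qv j)) (s59t_Hmul N₁ (∏ j, qv j) (⊤ : Subgroup (ZMod N₁)ˣ) (s59t_KQ (p ^ n) qv)) (G₁ * s59t_jG 𝒪 (s59t_goodB (N₁ * ∏ j, qv j) B) e₀₁)) (s59t_actH ((N₁ * q) * ∏ j, qv j) aq (dvd_refl ((N₁ * q) * ∏ j, qv j)) (s59t_Hmul (N₁ * q) (∏ j, qv j) (⊤ : Subgroup (ZMod (N₁ * q))ˣ) (s59t_KQ (p ^ n) qv)) (G₂ * s59t_jG 𝒪 (s59t_goodB ((N₁ * q) * ∏ j, qv j) B) e₀₂))) (hst : s59x_OldStable ((s59f_oldN hqL hN' hG' 𝒪 𝒪 (s59f_eW hqL ((p ^ (0 + n) - 1) * ((p ^ (0 + n) + 1) / 2))) he' hee).restrict hc') (s59t_part P'₁) (s59t_part P'₂)),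
          ∀ x ∈ Jm, ∀ u ∈ s59t_eig (s59t_partRep (s59t_partRep (s59t_rho (N₁ * ∏ j, qv j) (s59t_Hmul N₁ (∏ j, qv j) (⊤ : Subgroup (ZMod N₁)ˣ) (s59t_KQ (p ^ n) qv)) 𝒪 𝒪) hρ'₁) hP'₁) (s59t_CQ N₁ (∏ j, qv j) (⊤ : Subgroup (ZMod N₁)ˣ) (s59t_KQ (p ^ n) qv)) (1 : (s59t_Delta (N₁ * ∏ j, qv j) (s59t_Hmul N₁ (∏ j, qv j) (⊤ : Subgroup (ZMod N₁)ˣ) (s59t_KQ (p ^ n) qv))) →* 𝒪ˣ),
          ∀ v ∈ s59t_eig (s59t_partRep (s59t_partRep (s59t_rho (N₁ * ∏ j, qv j) (s59t_Hmul N₁ (∏ j, qv j) (⊤ : Subgroup (ZMod N₁)ˣ) (s59t_KQ (p ^ n) qv)) 𝒪 𝒪) hρ'₁) hP'₁) (s59t_CQ N₁ (∏ j, qv j) (⊤ : Subgroup (ZMod N₁)ˣ) (s59t_KQ (p ^ n) qv)) (1 : (s59t_Delta (N₁ * ∏ j, qv j) (s59t_Hmul N₁ (∏ j, qv j) (⊤ : Subgroup (ZMod N₁)ˣ) (s59t_KQ (p ^ n) qv))) →* 𝒪ˣ),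
          ∃ z ∈ s59t_eig (s59t_partRep (s59t_partRep (s59t_rho ((N₁ * q) * ∏ j, qv j) (s59t_Hmul (N₁ * q) (∏ j, qv j) (⊤ : Subgroup (ZMod (N₁ * q))ˣ) (s59t_KQ (p ^ n) qv)) 𝒪 𝒪) hρ'₂) hP'₂) (s59t_CQ (N₁ * q) (∏ j, qv j) (⊤ : Subgroup (ZMod (N₁ * q))ˣ) (s59t_KQ (p ^ n) qv)) (1 : (s59t_Delta ((N₁ * q) * ∏ j, qv j) (s59t_Hmul (N₁ * q) (∏ j, qv j) (⊤ : Subgroup (ZMod (N₁ * q))ˣ) (s59t_KQ (p ^ n) qv))) →* 𝒪ˣ),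
            (s59x_oldSub ((s59f_oldN hqL hN' hG' 𝒪 𝒪 (s59f_eW hqL ((p ^ (0 + n) - 1) * ((p ^ (0 + n) + 1) / 2))) he' hee).restrict hc') hst).corA z = ((θ₁ x : s59e_adj 𝒪 aZ₁) : Module.End 𝒪 (s59t_part P'₁)) u ∧
            (s59x_oldSub ((s59f_oldN hqL hN' hG' 𝒪 𝒪 (s59f_eW hqL ((p ^ (0 + n) - 1) * ((p ^ (0 + n) + 1) / 2))) he' hee).restrict hc') hst).corB z = ((θ₁ x : s59e_adj 𝒪 aZ₁) : Module.End 𝒪 (s59t_part P'₁)) v),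
      s59x_StepConclLv rec₁.Lv rec₂.Lv OldS q φq Jm := by
  classical
  have hpP : p.Prime := Fact.out
  have hqP : q.Prime := hq.out
  haveI : CharP (ResidueField 𝒪) p := s59e_charP_residue p hp𝒪
  -- numerology
  have hcop : Nat.Coprime N₁ q := (Nat.squarefree_mul_iff.mp hsq).1
  have hqN : ¬ q ∣ N₁ := fun h => hqP.one_lt.ne' (Nat.Coprime.eq_one_of_dvd hcop.symm h)
  have hNB₂ : ∀ ℓ : ℕ, ℓ.Prime → ℓ ∣ N₁ * q → ℓ ∈ B := hB1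
  have hNB₁ : ∀ ℓ : ℕ, ℓ.Prime → ℓ ∣ N₁ → ℓ ∈ B := fun ℓ hℓ h => hNB₂ ℓ hℓ (Dvd.dvd.mul_right h q)
  have hqB : q ∈ B := hNB₂ q hqP (Dvd.intro_left _ rfl)
  -- the package at the base levels, with the normalising element `1`
  have hG'b := s59f_isG'_top (N₀ := N₁) (q := q) hqN
  have he1 : (1 : SL(2, ℤ)) ∈ Gamma0 (N₁ * q) := one_mem _
  have hee1 : s59f_gW hqN * 1 * 1 ∈ s48h_GammaH (N₁ * q) (⊤ : Subgroup (ZMod (N₁ * q))ˣ) :=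
    (s59t_mem_GammaH_iff_unit (H := (⊤ : Subgroup (ZMod (N₁ * q))ˣ))
      ⟨_, mul_mem (mul_mem (s59f_gW_mem hqN) he1) he1⟩).mpr (Subgroup.mem_top _)
  have hcb := s59f_oldN_compat_E0 hqN rfl hG'b 1 he1 hee1 B (fun ℓ => W.apOfModel ℓ) hqB
    e₂ h1e₂ hid₂ hnil₂ e₁ h1e₁ hid₁ hnil₁
  have hstb' := hstb hqN hG'b he1 hee1 hcb
  -- the base Hecke rings are compatible (indexed form)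
  have htT'b₁ := s59x_htT'_Z (⊤ : Subgroup (ZMod N₁)ˣ) (s59t_E0 (⊤ : Subgroup (ZMod N₁)ˣ) B e₁) P₁ B a₀₁ ((p ^ 0 - 1) * ((p ^ 0 + 1) / 2)) ha1₀₁ aZ₀₁ haZ₀₁ hNB₁
  have htT'b₂ := s59x_htT'_Z (⊤ : Subgroup (ZMod (N₁ * q))ˣ) (s59t_E0 (⊤ : Subgroup (ZMod (N₁ * q))ˣ) B e₂) P₂ B a₀₂ ((p ^ 0 - 1) * ((p ^ 0 + 1) / 2)) ha1₀₂ aZ₀₂ haZ₀₂ hNB₂
  have htbi : ∀ i₂ : s59w_TIdx (N₁ * q), i₂.ell ∉ B →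
      (s59x_oldSub (s59t_Old.restrict hcb) hstb').Compat
        ((s59e_tOf (↑B : Set ℕ) aZ₀₁ i₂.ell : s59e_adj 𝒪 aZ₀₁) : Module.End 𝒪 _)
        ((s59e_tOf (↑B : Set ℕ) aZ₀₂ i₂.ell : s59e_adj 𝒪 aZ₀₂) : Module.End 𝒪 _) :=
    fun i₂ hℓS => s59x_oldSub_restrict_compat hcb hstb'
      (s59efl_compat_Tp' hqN rfl hG'b 1 he1 hee1 (Dvd.intro q rfl) ((p ^ 0 - 1) * ((p ^ 0 + 1) / 2)) i₂) _ _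
      (fun z => htT'b₁ (s59t_TIdx_down (Dvd.intro q rfl) i₂) hℓS z) (fun z => htT'b₂ i₂ hℓS z)
  have hidxb : ∀ ℓ : ℕ, ℓ.Prime → ℓ ∉ B → ∃ i₂ : s59w_TIdx (N₁ * q), i₂.ell = ℓ :=
    fun ℓ hℓ hℓS => s59e_exists_TIdx (M := N₁ * q) hℓ (fun h => hℓS (hNB₂ ℓ hℓ h))
  have hRc := s59x_hRc_abs (s59x_oldSub (s59t_Old.restrict hcb) hstb') aZ₀₁ aZ₀₂ B (N₁ * q)
    (s59e_tOf (↑B : Set ℕ) aZ₀₁) (s59e_tOf (↑B : Set ℕ) aZ₀₂)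
    (s59b_adjoin_tOf (𝒪 := 𝒪) B hNB₂ aZ₀₂ (N₁ * q) (dvd_refl _))
    (fun i₂ : s59w_TIdx (N₁ * q) => i₂.ell) hidxb htbi
  refine ⟨s59efl_oldSub (s59x_oldSub (s59t_Old.restrict hcb) hstb') _ ⊤ (1 : s59t_Delta (N₁ * q) _ →* 𝒪ˣ) hRρ₂ hRc, ?_⟩
  intro r n qv _ hqinj hqv aq 𝒟 DQ _ _ _ _
  intro e₀₁ G₁ hXl₁ a₁ ha1₁ ha2₁ hρ'₁ π₁ hιinj₁ hιπ₁ P'₁ hP'₁ hPP'₁ aZ₁ haZ₁ _ θ₁ hθ₁ hfrobT₁ πK₁ hπK₁ hcomm₁ hTρ₁ h2₁ g₁ rec₁ _ _ _ hres𝒪₁ hθl₁ h𝒟₁ hres₁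
  intro e₀₂ G₂ hXl₂ a₂ ha1₂ ha2₂ hρ'₂ π₂ hιinj₂ hιπ₂ P'₂ hP'₂ hPP'₂ aZ₂ haZ₂ _ θ₂ hθ₂ hfrobT₂ πK₂ hπK₂ hcomm₂ hTρ₂ h2₂ g₂ rec₂ hg hst' hES hNEW Jm hT5w
  have hqvpr : ∀ i, (qv i).Prime := fun i => (hqv i).1
  have hqvB : ∀ i, qv i ∉ B := fun i => (hqv i).2.1
  have hqqv : ∀ i, q ≠ qv i := fun i h => hqvB i (h ▸ hqB)
  have hqL : ¬ q ∣ N₁ * ∏ j, qv j := s59x_not_dvd_TWlvl hqP qv hqvpr hqN hqqv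
  have hqLq : q ∉ List.ofFn qv := s59x_not_mem_ofFn qv hqqv
  have hMS₂ := s59x_prime_dvd_lvl_mem (B := B) qv hqvpr (N₁ * q) hNB₂
  have hS₂₁ := s59x_prime_dvd_lvl2_mem (B := B) qv hqvpr N₁ hNB₁
  have hS₂₂ := s59x_prime_dvd_lvl2_mem (B := B) qv hqvpr (N₁ * q) hNB₂
  have hnm := s59k_hnm_pow hpP hp2 (0 + n)
  have hn₂ := s59k_ppow_mem_Hmul_top (N₁ * q) qv p 0 n
  -- the package at the Taylor–Wiles levels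
  have hG' := s59f_isG'_Hmul hqL (⊤ : Subgroup (ZMod N₁)ˣ) (⊤ : Subgroup (ZMod (N₁ * q))ˣ)
    (fun u => ⟨fun _ => Subgroup.mem_top _, fun _ => Subgroup.mem_top _⟩) (s59t_KQ (p ^ n) qv)
  have he' := s59f_eW_mem_N' hqL (s59f_hN'_TW (N₀ := N₁) (q := q) (D := ∏ j, qv j))
    ((p ^ (0 + n) - 1) * ((p ^ (0 + n) + 1) / 2))
  have hee := s59f_eW_ee hqL (s59f_hN'_TW (N₀ := N₁) (q := q) (D := ∏ j, qv j))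
    (H' := (s59t_Hmul (N₁ * q) (∏ j, qv j) (⊤ : Subgroup (ZMod (N₁ * q))ˣ) (s59t_KQ (p ^ n) qv)))
    (k := ((p ^ (0 + n) - 1) * ((p ^ (0 + n) + 1) / 2))) hnm rfl hn₂
  have hc' := s59f_oldN_compat_eps hqL s59f_hN'_TW hG' _ he' hee B (fun ℓ => W.apOfModel ℓ) aq hqB
    (List.ofFn qv) hqLq hXl₁ hXl₂
  have hstZ := hst' hqL s59f_hN'_TW hG' he' hee hc'
  -- the base package with the normalising element of the Taylor–Wiles level (only for the comparison `hhom`)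
  have he'b : s59f_eW hqL ((p ^ (0 + n) - 1) * ((p ^ (0 + n) + 1) / 2)) ∈ Gamma0 (N₁ * q) :=
    s59t_Gamma0_anti (s59t_dvd_mul_left' (N₁ * q) (∏ j, qv j)) he'
  have heeb : s59f_gW hqN * s59f_eW hqL ((p ^ (0 + n) - 1) * ((p ^ (0 + n) + 1) / 2)) *
      s59f_eW hqL ((p ^ (0 + n) - 1) * ((p ^ (0 + n) + 1) / 2)) ∈
      s48h_GammaH (N₁ * q) (⊤ : Subgroup (ZMod (N₁ * q))ˣ) :=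
    (s59t_mem_GammaH_iff_unit (H := (⊤ : Subgroup (ZMod (N₁ * q))ˣ))
      ⟨_, mul_mem (mul_mem (s59f_gW_mem hqN) he'b) he'b⟩).mpr (Subgroup.mem_top _)
  have hDeq := s59efl_oldN_top_indep hqN rfl hG'b 𝒪 𝒪
    (s59f_eW hqL ((p ^ (0 + n) - 1) * ((p ^ (0 + n) + 1) / 2))) 1 he'b he1 heeb hee1
  -- the diamond groups
  have h0 : Gamma0 (N₁ * q * ∏ j, qv j) ≤ Gamma0 (N₁ * ∏ j, qv j) :=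
    s59t_Gamma0_anti s59f_dvd_TW
  have hle := hG'.le (s59f_isG_GammaH _ _)
  have hφbij := s59f_DeltaMap2_bijective hqL s59f_hN'_TW hG' h0 hle
  have hcompat := fun δ' => s59f_oldN_compat_rho hqL s59f_hN'_TW hG' _ he' hee h0 hle
    (R := 𝒪) (A := 𝒪) δ'
  have hΔc : ∀ δ', (s59x_oldSub (s59t_Old.restrict hc') hstZ).Compat
      ((s59t_partRep (s59t_partRep (s59t_rho (N₁ * ∏ j, qv j) (s59t_Hmul N₁ (∏ j, qv j) (⊤ : Subgroup (ZMod N₁)ˣ) (s59t_KQ (p ^ n) qv)) 𝒪 𝒪) hρ'₁) hP'₁) (s59t_DeltaMap2 h0 hle δ')) ((s59t_partRep (s59t_partRep (s59t_rho ((N₁ * q) * ∏ j, qv j) (s59t_Hmul (N₁ * q) (∏ j, qv j) (⊤ : Subgroup (ZMod (N₁ * q))ˣ) (s59t_KQ (p ^ n) qv)) 𝒪 𝒪) hρ'₂) hP'₂) δ') := fun δ' =>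
    s59x_oldSub_restrict_compat hc' hstZ (hcompat δ') _ _ (fun z => rfl) (fun z => rfl)
  -- the trace generators are compatible (indexed form)
  have htT'₁ := s59x_htT'_Z (s59t_Hmul N₁ (∏ j, qv j) (⊤ : Subgroup (ZMod N₁)ˣ) (s59t_KQ (p ^ n) qv)) (s59t_actH (N₁ * ∏ j, qv j) aq (dvd_refl (N₁ * ∏ j, qv j)) (s59t_Hmul N₁ (∏ j, qv j) (⊤ : Subgroup (ZMod N₁)ˣ) (s59t_KQ (p ^ n) qv)) (G₁ * s59t_jG 𝒪 (s59t_goodB (N₁ * ∏ j, qv j) B) e₀₁)) P'₁ (B ∪ Finset.univ.image qv) a₁ ((p ^ (0 + n) - 1) * ((p ^ (0 + n) + 1) / 2)) ha1₁ aZ₁ haZ₁ hS₂₁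
  have htT'₂ := s59x_htT'_Z (s59t_Hmul (N₁ * q) (∏ j, qv j) (⊤ : Subgroup (ZMod (N₁ * q))ˣ) (s59t_KQ (p ^ n) qv)) (s59t_actH ((N₁ * q) * ∏ j, qv j) aq (dvd_refl ((N₁ * q) * ∏ j, qv j)) (s59t_Hmul (N₁ * q) (∏ j, qv j) (⊤ : Subgroup (ZMod (N₁ * q))ˣ) (s59t_KQ (p ^ n) qv)) (G₂ * s59t_jG 𝒪 (s59t_goodB ((N₁ * q) * ∏ j, qv j) B) e₀₂)) P'₂ (B ∪ Finset.univ.image qv) a₂ ((p ^ (0 + n) - 1) * ((p ^ (0 + n) + 1) / 2)) ha1₂ aZ₂ haZ₂ hS₂₂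
  have hti : ∀ i₂ : s59w_TIdx (N₁ * q * ∏ j, qv j), i₂.ell ∉ (B ∪ Finset.univ.image qv) →
      (s59x_oldSub (s59t_Old.restrict hc') hstZ).Compat
        ((s59e_tOf (↑(B ∪ Finset.univ.image qv) : Set ℕ) aZ₁ i₂.ell : s59e_adj 𝒪 aZ₁) : Module.End 𝒪 _)
        ((s59e_tOf (↑(B ∪ Finset.univ.image qv) : Set ℕ) aZ₂ i₂.ell : s59e_adj 𝒪 aZ₂) : Module.End 𝒪 _) :=
    fun i₂ hℓS => s59x_oldSub_restrict_compat hc' hstZ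
      (s59efl_compat_Tp' hqL s59f_hN'_TW hG' _ he' hee s59f_dvd_TW
        ((p ^ (0 + n) - 1) * ((p ^ (0 + n) + 1) / 2)) i₂) _ _
      (fun z => htT'₁ (s59t_TIdx_down s59f_dvd_TW i₂) hℓS z) (fun z => htT'₂ i₂ hℓS z)
  have hidx : ∀ ℓ : ℕ, ℓ.Prime → ℓ ∉ (B ∪ Finset.univ.image qv) → ∃ i₂ : s59w_TIdx (N₁ * q * ∏ j, qv j), i₂.ell = ℓ :=
    fun ℓ hℓ hℓS => s59e_exists_TIdx (M := N₁ * q * ∏ j, qv j) hℓ (fun h => hℓS (hMS₂ ℓ hℓ h))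
  have hg₁ := s59b_adjoin_tOf (𝒪 := 𝒪) (B ∪ Finset.univ.image qv) hS₂₁ aZ₁ N₁ (Dvd.intro _ rfl)
  have hg₂ := s59b_adjoin_tOf (𝒪 := 𝒪) (B ∪ Finset.univ.image qv) hS₂₂ aZ₂ (N₁ * q) (Dvd.intro _ rfl)
  -- injectivity of `resA`
  have hinjF : Function.Injective (s59t_Old.restrict hc').resA :=
    s59efl_resA_injective _ (s59efl_part_torsionfree _ _) (by
      show ((q : ℕ) : 𝒪) + 1 ≠ 0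
      exact_mod_cast Nat.succ_ne_zero q)
  have hinj : Function.Injective (s59x_oldSub (s59t_Old.restrict hc') hstZ).resA :=
    s59x_oldSub_resA_injective _ hstZ hinjF
  -- the control maps
  have hhom₀ := s59f_oldN_hom hqN hqL (s59t_dvd_mul_left' N₁ (∏ j, qv j)) rfl s59f_hN'_TW hG'b hG'
    (s59t_GammaHmul_le (N := N₁) (D := ∏ j, qv j) (H := (⊤ : Subgroup (ZMod N₁)ˣ)) (K := s59t_KQ (p ^ n) qv))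
    (s59t_GammaHmul_le (N := N₁ * q) (D := ∏ j, qv j) (H := (⊤ : Subgroup (ZMod (N₁ * q))ˣ)) (K := s59t_KQ (p ^ n) qv))
    𝒪 𝒪 _ he'b he' heeb hee
  have hhom := s59x_oldHom_congr hDeq hhom₀
  have hBiff : ∀ β' : s59t_Delta (N₁ * q * ∏ j, qv j) _,
      β' ∈ s59t_BQ (N₁ * q) (∏ j, qv j) (⊤ : Subgroup (ZMod (N₁ * q))ˣ) (s59t_KQ (p ^ n) qv) ↔
        s59t_DeltaMap2 h0 hle β' ∈ s59t_BQ N₁ (∏ j, qv j) (⊤ : Subgroup (ZMod N₁)ˣ) (s59t_KQ (p ^ n) qv) :=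
    fun β' => ⟨fun _ => s59f_BQ_top _ _ _ _, fun _ => s59f_BQ_top _ _ _ _⟩
  have hπAf := s59f_pi_resA hcb hc' hhom _ _ hρ'₁ hρ'₂ _ _ _ hφbij hBiff hcompat π₁ π₂ hιπ₁ hιπ₂ hιinj₂
  have hπBf := s59f_pi_resB hcb hc' hhom _ _ hρ'₁ hρ'₂ _ _ _ hφbij hBiff hcompat π₁ π₂ hιπ₁ hιπ₂ hιinj₂
  have hπCAf := s59f_pi_corA hcb hc' hhom _ _ hρ'₁ hρ'₂ _ _ _ hφbij hBiff hcompat π₁ π₂ hιπ₁ hιπ₂ hιinj₁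
  have hπCBf := s59f_pi_corB hcb hc' hhom _ _ hρ'₁ hρ'₂ _ _ _ hφbij hBiff hcompat π₁ π₂ hιπ₁ hιπ₂ hιinj₁
  have hπA := s59x_oldSub_pi_resA (s59t_Old.restrict hc') (s59t_Old.restrict hcb) hstZ hstb' π₁ π₂ πK₁ πK₂ hπK₁ hπK₂ hπAf
  have hπB := s59x_oldSub_pi_resB (s59t_Old.restrict hc') (s59t_Old.restrict hcb) hstZ hstb' π₁ π₂ πK₁ πK₂ hπK₁ hπK₂ hπBf
  have hπCA := s59x_oldSub_pi_corA (s59t_Old.restrict hc') (s59t_Old.restrict hcb) hstZ hstb' π₁ π₂ πK₁ πK₂ hπK₁ hπK₂ hπCAf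
  have hπCB := s59x_oldSub_pi_corB (s59t_Old.restrict hc') (s59t_Old.restrict hcb) hstZ hstb' π₁ π₂ πK₁ πK₂ hπK₁ hπK₂ hπCBf
  -- (Z3) Ihara on the kernel pair of the base levels
  have hi₀ex := s59u_W_exists_nonEis_idx W hΔ p hp2 hirr (𝒪 := 𝒪) hp𝒪 B N₁
  choose i₀ hi₀ hnE using hi₀ex
  have hi₀q : i₀.ell ≠ q := fun h => hi₀ (h ▸ hqB)
  have hεT : ∀ y, (s59t_E0 (⊤ : Subgroup (ZMod N₁)ˣ) B e₁) (s59w_op (⊤ : Subgroup (ZMod N₁)ˣ) 𝒪 (Sum.inl i₀) y) =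
      s59w_op (⊤ : Subgroup (ZMod N₁)ˣ) 𝒪 (Sum.inl i₀) ((s59t_E0 (⊤ : Subgroup (ZMod N₁)ˣ) B e₁) y) :=
    fun y => LinearMap.congr_fun (s59e_E0_comm_op _ B e₁ (Sum.inl i₀)) y
  have hnil₀ := hnil₁ (Sum.inl i₀) (s59t_inl_mem_goodB B i₀ hi₀)
  have hT4f := fun y₁ y₂ h => s59f_ihara_part_top 𝒪 p hqN rfl hG'b _ he1 hee1 hcb (fun h => hqp h.symm) i₀ hi₀q
    hid₁ hεT _ hnE hnil₀ y₁ y₂ h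
  have hT4 := s59x_oldSub_T4 (s59t_Old.restrict hcb) hstb' hPP₁ (maximalIdeal 𝒪) hT4f
  -- the step
  exact s59x_step_abs rec₁ rec₂ (s59x_oldSub (s59t_Old.restrict hc') hstZ) (s59x_oldSub (s59t_Old.restrict hcb) hstb')
    hres𝒪₁ hθl₁ h𝒟₁ hres₁ hinj
    (B ∪ Finset.univ.image qv) N₁ (N₁ * q) (s59e_tOf (↑(B ∪ Finset.univ.image qv) : Set ℕ) aZ₁) (s59e_tOf (↑(B ∪ Finset.univ.image qv) : Set ℕ) aZ₂) hg₁ hg₂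
    (fun i₂ : s59w_TIdx (N₁ * q * ∏ j, qv j) => i₂.ell) hidx hti hfrobT₁ hfrobT₂
    (s59t_DeltaMap2 h0 hle) hφbij.2 hΔc
    (fun δ => s59f_BQ_top _ _ _ δ) (fun δ => s59f_BQ_top _ _ _ δ)
    (fun i => congrArg Subtype.val (hg i))
    (fun c hc => s59efl_CQ_eq_one _ _ _ c hc) (fun c hc => s59efl_CQ_eq_one _ _ _ c hc)
    hπA hπB hπCA hπCB q rfl φq
    (hES hqL s59f_hN'_TW hG' he' hee hc' hstZ)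
    (hNEW hqL s59f_hN'_TW hG' he' hee hc' hstZ)
    hT4 Jm (hT5w hqL s59f_hN'_TW hG' he' hee hc' hstZ) hRc

end Fermat.Agent.Lib.S59

end
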