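/-
PROGRAMME (R2) = S59, case (P), NON-MINIMAL half, item [WALL] / [W4c] (helper7, prefix `s59x_`): **ONE STEP OF THE CHAIN ON THE KERNEL PAIRS,
FORM WITH A GENERAL UPPER LEVEL `N₂ = N₁ * q`** (generated by `scratch_py/gen_concz3.py`).  `Internal.s59x_step_concZ` (NXConcZ.lean) is stated at
the literal level `N₁ * q`; the final assembly needs it at levels `N s * p`, `N s' * p` with a propositional equality.  The statement is wrapped in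
the `def s59x_StepConcZStmt` so that the transport along `hN` costs nothing.
-/
import Mathlib
import Fermat.Agent.Lib.S59.NXConcZ

set_option autoImplicit false
set_option linter.unusedSectionVars false
set_option linter.unusedVariables false
set_option linter.style.haveILetI false
set_option maxHeartbeats 0
set_option synthInstance.maxHeartbeats 400000
set_option maxSynthPendingDepth 3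
set_option backward.isDefEq.respectTransparency.types true

noncomputable section

namespace Fermat.Agent.Lib.S59

open IsLocalRing CuspForm Polynomial ExtCitation CongruenceSubgroup MvPowerSeries
open WeierstrassCurve WeierstrassCurve.Affine WeierstrassCurve.Affine.Point
open Fermat.Agent.Lib.S48 Fermat.Agent.Lib.S44
open scoped MatrixGroups

local notation "Γℚ" => (AlgebraicClosure ℚ ≃ₐ[ℚ] AlgebraicClosure ℚ)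

/-- the statement of `s59x_step_concZ_gen`. -/
def s59x_StepConcZStmt (p : ℕ) [Fact p.Prime] (hp2 : p ≠ 2) (W : WeierstrassCurve ℤ) (hΔ : W.Δ ≠ 0)
    (B : Finset ℕ) (hirr : W.ModRepIsIrreducible p)
    (hB2 : ∀ r : ℕ, r.Prime → ¬ W.IsGoodPrimeFor r → r ∈ B)
    (𝒪 : Type) [CommRing 𝒪] [IsDomain 𝒪] [IsDiscreteValuationRing 𝒪]
    [IsAdicComplete (maximalIdeal 𝒪) 𝒪] [Finite (ResidueField 𝒪)] [CharZero 𝒪]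
    [Algebra ℤ_[p] 𝒪] [Module.Finite ℤ_[p] 𝒪]
    (hp𝒪 : ((p : ℕ) : 𝒪) ∈ maximalIdeal 𝒪)
    (σ : Type) [DecidableEq σ] [Fintype σ]
    -- the two levels
    (N₁ q N₂ : ℕ) [NeZero N₁] [NeZero N₂] [hq : Fact q.Prime] (hN : N₂ = N₁ * q) : Prop :=
  ∀ (hd : N₁ ∣ N₂)
    (hsq : Squarefree N₂) (hqp : q ≠ p) (hpB : p ∈ B)
    (hB1 : ∀ r : ℕ, r.Prime → r ∣ N₂ → r ∈ B)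
    -- the base data of the level `N₁`
    (e₁ : MvPolynomial ↥(s59t_goodB N₁ B) 𝒪)
    (h1e₁ : 1 - e₁ ∈ s59t_evalIdeal (fun x : ↥(s59t_goodB N₁ B) =>
      s59t_cB (𝒪 := 𝒪) N₁ (fun ℓ => W.apOfModel ℓ) (x : s59w_AIdx N₁)))
    (hid₁ : (s59t_E0 (⊤ : Subgroup (ZMod N₁)ˣ) B e₁) * (s59t_E0 (⊤ : Subgroup (ZMod N₁)ˣ) B e₁) = (s59t_E0 (⊤ : Subgroup (ZMod N₁)ˣ) B e₁))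
    (hnil₁ : ∀ x ∈ s59t_goodB N₁ B, ∃ k : ℕ, ∀ y : (s48h_Hpar 𝒪 (s48h_GammaH N₁ (⊤ : Subgroup (ZMod N₁)ˣ)) 𝒪),
      ((s59w_op (⊤ : Subgroup (ZMod N₁)ˣ) 𝒪 x - s59t_cB (𝒪 := 𝒪) N₁ (fun ℓ => W.apOfModel ℓ) x •
        (1 : Module.End 𝒪 (s48h_Hpar 𝒪 (s48h_GammaH N₁ (⊤ : Subgroup (ZMod N₁)ˣ)) 𝒪))) ^ k) ((s59t_E0 (⊤ : Subgroup (ZMod N₁)ˣ) B e₁) y) ∈
        (maximalIdeal 𝒪 • ⊤ : Submodule 𝒪 (s48h_Hpar 𝒪 (s48h_GammaH N₁ (⊤ : Subgroup (ZMod N₁)ˣ)) 𝒪)))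
    (hρ₁ : ∀ δ y, (s59t_E0 (⊤ : Subgroup (ZMod N₁)ˣ) B e₁) ((s59t_rho N₁ (⊤ : Subgroup (ZMod N₁)ˣ) 𝒪 𝒪) δ y) = (s59t_rho N₁ (⊤ : Subgroup (ZMod N₁)ˣ) 𝒪 𝒪) δ ((s59t_E0 (⊤ : Subgroup (ZMod N₁)ˣ) B e₁) y))
    (P₁ : Module.End 𝒪 (s59t_part (s59t_E0 (⊤ : Subgroup (ZMod N₁)ˣ) B e₁)))
    (hP₁ : ∀ δ x, P₁ (s59t_partRep (s59t_rho N₁ (⊤ : Subgroup (ZMod N₁)ˣ) 𝒪 𝒪) hρ₁ δ x) = s59t_partRep (s59t_rho N₁ (⊤ : Subgroup (ZMod N₁)ˣ) 𝒪 𝒪) hρ₁ δ (P₁ x))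
    (hPP₁ : P₁ * P₁ = P₁)
    (a₀₁ : (heckeAlgebra N₁ 2 (↑B : Set ℕ)) →+* Module.End 𝒪 (s48h_Hpar 𝒪 (s48h_GammaH N₁ (⊤ : Subgroup (ZMod N₁)ˣ)) 𝒪))
    (ha1₀₁ : ∀ (ℓ : ℕ) (hℓ : ℓ.Prime) (hℓN : ¬ ℓ ∣ N₁) (hℓS : ℓ ∉ (↑B : Set ℕ)) (i : s59w_TIdx N₁),
      i.ell = ℓ → a₀₁ (heckeAlgebra.T hℓ hℓN hℓS) = s59e_Tp' (⊤ : Subgroup (ZMod N₁)ˣ) 𝒪 ((p ^ 0 - 1) * ((p ^ 0 + 1) / 2)) i)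
    (aZ₀₁ : (heckeAlgebra N₁ 2 (↑B : Set ℕ)) →+* Module.End 𝒪 (s59t_part P₁))
    (haZ₀₁ : ∀ t (z : s59t_part P₁), s59x_jZ (⊤ : Subgroup (ZMod N₁)ˣ) (s59t_E0 (⊤ : Subgroup (ZMod N₁)ˣ) B e₁) P₁ (aZ₀₁ t z) = a₀₁ t (s59x_jZ (⊤ : Subgroup (ZMod N₁)ˣ) (s59t_E0 (⊤ : Subgroup (ZMod N₁)ˣ) B e₁) P₁ z))
    [IsLocalRing (s59e_adj 𝒪 aZ₀₁)]
    (hRρ₁ : ∀ (t : s59e_adj 𝒪 aZ₀₁) (δ : (s59t_Delta N₁ (⊤ : Subgroup (ZMod N₁)ˣ))) (y : s59t_part P₁),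
      t • (s59t_partRep (s59t_partRep (s59t_rho N₁ (⊤ : Subgroup (ZMod N₁)ˣ) 𝒪 𝒪) hρ₁) hP₁) δ y = (s59t_partRep (s59t_partRep (s59t_rho N₁ (⊤ : Subgroup (ZMod N₁)ˣ) 𝒪 𝒪) hρ₁) hP₁) δ (t • y))
    (ρR₁ : GaloisRepAdic (s59e_adj 𝒪 aZ₀₁))
    (d₁ : ℕ)
    -- the base data of the level `N₂`
    (e₂ : MvPolynomial ↥(s59t_goodB N₂ B) 𝒪)
    (h1e₂ : 1 - e₂ ∈ s59t_evalIdeal (fun x : ↥(s59t_goodB N₂ B) =>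
      s59t_cB (𝒪 := 𝒪) N₂ (fun ℓ => W.apOfModel ℓ) (x : s59w_AIdx N₂)))
    (hid₂ : (s59t_E0 (⊤ : Subgroup (ZMod N₂)ˣ) B e₂) * (s59t_E0 (⊤ : Subgroup (ZMod N₂)ˣ) B e₂) = (s59t_E0 (⊤ : Subgroup (ZMod N₂)ˣ) B e₂))
    (hnil₂ : ∀ x ∈ s59t_goodB N₂ B, ∃ k : ℕ, ∀ y : (s48h_Hpar 𝒪 (s48h_GammaH N₂ (⊤ : Subgroup (ZMod N₂)ˣ)) 𝒪),
      ((s59w_op (⊤ : Subgroup (ZMod N₂)ˣ) 𝒪 x - s59t_cB (𝒪 := 𝒪) N₂ (fun ℓ => W.apOfModel ℓ) x •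
        (1 : Module.End 𝒪 (s48h_Hpar 𝒪 (s48h_GammaH N₂ (⊤ : Subgroup (ZMod N₂)ˣ)) 𝒪))) ^ k) ((s59t_E0 (⊤ : Subgroup (ZMod N₂)ˣ) B e₂) y) ∈
        (maximalIdeal 𝒪 • ⊤ : Submodule 𝒪 (s48h_Hpar 𝒪 (s48h_GammaH N₂ (⊤ : Subgroup (ZMod N₂)ˣ)) 𝒪)))
    (hρ₂ : ∀ δ y, (s59t_E0 (⊤ : Subgroup (ZMod N₂)ˣ) B e₂) ((s59t_rho N₂ (⊤ : Subgroup (ZMod N₂)ˣ) 𝒪 𝒪) δ y) = (s59t_rho N₂ (⊤ : Subgroup (ZMod N₂)ˣ) 𝒪 𝒪) δ ((s59t_E0 (⊤ : Subgroup (ZMod N₂)ˣ) B e₂) y))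
    (P₂ : Module.End 𝒪 (s59t_part (s59t_E0 (⊤ : Subgroup (ZMod N₂)ˣ) B e₂)))
    (hP₂ : ∀ δ x, P₂ (s59t_partRep (s59t_rho N₂ (⊤ : Subgroup (ZMod N₂)ˣ) 𝒪 𝒪) hρ₂ δ x) = s59t_partRep (s59t_rho N₂ (⊤ : Subgroup (ZMod N₂)ˣ) 𝒪 𝒪) hρ₂ δ (P₂ x))
    (hPP₂ : P₂ * P₂ = P₂)
    (a₀₂ : (heckeAlgebra N₂ 2 (↑B : Set ℕ)) →+* Module.End 𝒪 (s48h_Hpar 𝒪 (s48h_GammaH N₂ (⊤ : Subgroup (ZMod N₂)ˣ)) 𝒪))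
    (ha1₀₂ : ∀ (ℓ : ℕ) (hℓ : ℓ.Prime) (hℓN : ¬ ℓ ∣ N₂) (hℓS : ℓ ∉ (↑B : Set ℕ)) (i : s59w_TIdx N₂),
      i.ell = ℓ → a₀₂ (heckeAlgebra.T hℓ hℓN hℓS) = s59e_Tp' (⊤ : Subgroup (ZMod N₂)ˣ) 𝒪 ((p ^ 0 - 1) * ((p ^ 0 + 1) / 2)) i)
    (aZ₀₂ : (heckeAlgebra N₂ 2 (↑B : Set ℕ)) →+* Module.End 𝒪 (s59t_part P₂))
    (haZ₀₂ : ∀ t (z : s59t_part P₂), s59x_jZ (⊤ : Subgroup (ZMod N₂)ˣ) (s59t_E0 (⊤ : Subgroup (ZMod N₂)ˣ) B e₂) P₂ (aZ₀₂ t z) = a₀₂ t (s59x_jZ (⊤ : Subgroup (ZMod N₂)ˣ) (s59t_E0 (⊤ : Subgroup (ZMod N₂)ˣ) B e₂) P₂ z))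
    [IsLocalRing (s59e_adj 𝒪 aZ₀₂)]
    (hRρ₂ : ∀ (t : s59e_adj 𝒪 aZ₀₂) (δ : (s59t_Delta N₂ (⊤ : Subgroup (ZMod N₂)ˣ))) (y : s59t_part P₂),
      t • (s59t_partRep (s59t_partRep (s59t_rho N₂ (⊤ : Subgroup (ZMod N₂)ˣ) 𝒪 𝒪) hρ₂) hP₂) δ y = (s59t_partRep (s59t_partRep (s59t_rho N₂ (⊤ : Subgroup (ZMod N₂)ˣ) 𝒪 𝒪) hρ₂) hP₂) δ (t • y))
    (ρR₂ : GaloisRepAdic (s59e_adj 𝒪 aZ₀₂))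
    (d₂ : ℕ)
    -- the Frobenius at `q`
    (A₀ : ValuationSubring (AlgebraicClosure ℚ)) (hA₀ : A₀.LiesOverPrime q) (φq : Γℚ)
    (hφq : A₀.IsFrobeniusAt φq q)
    -- the kernel pair of the base levels is stable
    (hstb : ∀ (hqN : ¬ q ∣ N₁)
      (hG'b : s59f_IsG' N₁ q (⊤ : Subgroup (ZMod N₁)ˣ) (s48h_GammaH N₂ (⊤ : Subgroup (ZMod N₂)ˣ)))
      (he1 : (1 : SL(2, ℤ)) ∈ Gamma0 N₂)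
      (hee1 : s59f_gW hqN * 1 * 1 ∈ s48h_GammaH N₂ (⊤ : Subgroup (ZMod N₂)ˣ))
      (hcb : (s59f_oldN hqN hN hG'b 𝒪 𝒪 1 he1 hee1).Compat (s59t_E0 (⊤ : Subgroup (ZMod N₁)ˣ) B e₁) (s59t_E0 (⊤ : Subgroup (ZMod N₂)ˣ) B e₂)),
      s59x_OldStable ((s59f_oldN hqN hN hG'b 𝒪 𝒪 1 he1 hee1).restrict hcb) (s59t_part P₁) (s59t_part P₂)),
    ∃ OldS : Submodule (s59e_adj 𝒪 aZ₀₂) (s59t_EigT (s59t_partRep (s59t_partRep (s59t_rho N₂ (⊤ : Subgroup (ZMod N₂)ˣ) 𝒪 𝒪) hρ₂) hP₂) ⊤ (1 : (s59t_Delta N₂ (⊤ : Subgroup (ZMod N₂)ˣ)) →* 𝒪ˣ) hRρ₂),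
      ∀ (r : ℕ) (n : ℕ) (qv : Fin r → ℕ) [NeZero (∏ j, qv j)] (hqinj : Function.Injective qv) (hqv : ∀ i, (qv i).Prime ∧ qv i ∉ B ∧ p ^ (n + 1) ∣ qv i - 1) (aq : ℕ → 𝒪)
        {𝒟 : ∀ ⦃A : Type⦄ [CommRing A] [IsLocalRing A] [Algebra 𝒪 A], GaloisRepAdic A → Prop}
        (DQ : GaloisRep.DeformationRingData 𝒪 (s59i_rhobarW W p hΔ 𝒪 hp𝒪) 𝒟)
        [NeZero (N₁ * ∏ j, qv j)]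
        [NeZero (N₂ * ∏ j, qv j)]
        [NeZero (N₁ * ∏ q ∈ Finset.univ.image qv, q ^ (2 : ℕ))]
        [NeZero (N₂ * ∏ q ∈ Finset.univ.image qv, q ^ (2 : ℕ))]
        -- the Taylor–Wiles data of the level `N₁`
        (e₀₁ : MvPolynomial ↥(s59t_goodB (N₁ * ∏ j, qv j) B) 𝒪)
        (G₁ : MvPolynomial (s59w_AIdx (N₁ * ∏ j, qv j) ⊕ ℕ) 𝒪)
        (hXl₁ : s59ex_LvlX (N₁ * ∏ j, qv j) (s59t_Hmul N₁ (∏ j, qv j) (⊤ : Subgroup (ZMod N₁)ˣ) (s59t_KQ (p ^ n) qv)) aq (s59t_goodB (N₁ * ∏ j, qv j) B)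
      (s59t_cB (𝒪 := 𝒪) (N₁ * ∏ j, qv j) (fun ℓ => W.apOfModel ℓ)) (List.ofFn qv) e₀₁ G₁)
        (a₁ : (heckeAlgebra (N₁ * ∏ q ∈ Finset.univ.image qv, q ^ (2 : ℕ)) 2 (↑(B ∪ Finset.univ.image qv) : Set ℕ)) →+* Module.End 𝒪 (s48h_Hpar 𝒪 (s48h_GammaH (N₁ * ∏ j, qv j) (s59t_Hmul N₁ (∏ j, qv j) (⊤ : Subgroup (ZMod N₁)ˣ) (s59t_KQ (p ^ n) qv))) 𝒪))
        (ha1₁ : ∀ (ℓ : ℕ) (hℓ : ℓ.Prime) (hℓN : ¬ ℓ ∣ (N₁ * ∏ q ∈ Finset.univ.image qv, q ^ (2 : ℕ)))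
      (hℓS : ℓ ∉ (↑(B ∪ Finset.univ.image qv) : Set ℕ)) (i : s59w_TIdx (N₁ * ∏ j, qv j)),
      i.ell = ℓ → a₁ (heckeAlgebra.T hℓ hℓN hℓS) = s59e_Tp' (s59t_Hmul N₁ (∏ j, qv j) (⊤ : Subgroup (ZMod N₁)ˣ) (s59t_KQ (p ^ n) qv)) 𝒪 ((p ^ (0 + n) - 1) * ((p ^ (0 + n) + 1) / 2)) i)
        (ha2₁ : ∀ t, a₁ t ∈ Subring.closure (Set.range (s59e_Tp' (s59t_Hmul N₁ (∏ j, qv j) (⊤ : Subgroup (ZMod N₁)ˣ) (s59t_KQ (p ^ n) qv)) 𝒪 ((p ^ (0 + n) - 1) * ((p ^ (0 + n) + 1) / 2)))))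
        (hρ'₁ : ∀ δ y, (s59t_actH (N₁ * ∏ j, qv j) aq (dvd_refl (N₁ * ∏ j, qv j)) (s59t_Hmul N₁ (∏ j, qv j) (⊤ : Subgroup (ZMod N₁)ˣ) (s59t_KQ (p ^ n) qv)) (G₁ * s59t_jG 𝒪 (s59t_goodB (N₁ * ∏ j, qv j) B) e₀₁)) ((s59t_rho (N₁ * ∏ j, qv j) (s59t_Hmul N₁ (∏ j, qv j) (⊤ : Subgroup (ZMod N₁)ˣ) (s59t_KQ (p ^ n) qv)) 𝒪 𝒪) δ y) = (s59t_rho (N₁ * ∏ j, qv j) (s59t_Hmul N₁ (∏ j, qv j) (⊤ : Subgroup (ZMod N₁)ˣ) (s59t_KQ (p ^ n) qv)) 𝒪 𝒪) δ ((s59t_actH (N₁ * ∏ j, qv j) aq (dvd_refl (N₁ * ∏ j, qv j)) (s59t_Hmul N₁ (∏ j, qv j) (⊤ : Subgroup (ZMod N₁)ˣ) (s59t_KQ (p ^ n) qv)) (G₁ * s59t_jG 𝒪 (s59t_goodB (N₁ * ∏ j, qv j) B) e₀₁)) y))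
        (π₁ : s59t_part (s59t_actH (N₁ * ∏ j, qv j) aq (dvd_refl (N₁ * ∏ j, qv j)) (s59t_Hmul N₁ (∏ j, qv j) (⊤ : Subgroup (ZMod N₁)ˣ) (s59t_KQ (p ^ n) qv)) (G₁ * s59t_jG 𝒪 (s59t_goodB (N₁ * ∏ j, qv j) B) e₀₁)) →ₗ[𝒪] s59t_part (s59t_E0 (⊤ : Subgroup (ZMod N₁)ˣ) B e₁))
        (hιinj₁ : Function.Injective (s59t_iotaH (s59t_E0 (⊤ : Subgroup (ZMod N₁)ˣ) B e₁) (s59t_actH (N₁ * ∏ j, qv j) aq (dvd_refl (N₁ * ∏ j, qv j)) (s59t_Hmul N₁ (∏ j, qv j) (⊤ : Subgroup (ZMod N₁)ˣ) (s59t_KQ (p ^ n) qv)) (G₁ * s59t_jG 𝒪 (s59t_goodB (N₁ * ∏ j, qv j) B) e₀₁)) (s59t_resGHpar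
      (s59t_GammaHmul_le (N := N₁) (D := ∏ j, qv j) (H := (⊤ : Subgroup (ZMod N₁)ˣ)) (K := s59t_KQ (p ^ n) qv)) 𝒪 𝒪)))
        (hιπ₁ : ∀ y, s59t_iotaH (s59t_E0 (⊤ : Subgroup (ZMod N₁)ˣ) B e₁) (s59t_actH (N₁ * ∏ j, qv j) aq (dvd_refl (N₁ * ∏ j, qv j)) (s59t_Hmul N₁ (∏ j, qv j) (⊤ : Subgroup (ZMod N₁)ˣ) (s59t_KQ (p ^ n) qv)) (G₁ * s59t_jG 𝒪 (s59t_goodB (N₁ * ∏ j, qv j) B) e₀₁)) (s59t_resGHpar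
      (s59t_GammaHmul_le (N := N₁) (D := ∏ j, qv j) (H := (⊤ : Subgroup (ZMod N₁)ˣ)) (K := s59t_KQ (p ^ n) qv)) 𝒪 𝒪) (π₁ y) =
      s59t_normPsi (s59t_partRep (s59t_rho (N₁ * ∏ j, qv j) (s59t_Hmul N₁ (∏ j, qv j) (⊤ : Subgroup (ZMod N₁)ˣ) (s59t_KQ (p ^ n) qv)) 𝒪 𝒪) hρ'₁) (s59t_BQ N₁ (∏ j, qv j) (⊤ : Subgroup (ZMod N₁)ˣ) (s59t_KQ (p ^ n) qv)) 1 y)
        -- the kernel pair of the level `N₁`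
        (P'₁ : Module.End 𝒪 (s59t_part (s59t_actH (N₁ * ∏ j, qv j) aq (dvd_refl (N₁ * ∏ j, qv j)) (s59t_Hmul N₁ (∏ j, qv j) (⊤ : Subgroup (ZMod N₁)ˣ) (s59t_KQ (p ^ n) qv)) (G₁ * s59t_jG 𝒪 (s59t_goodB (N₁ * ∏ j, qv j) B) e₀₁))))
        (hP'₁ : ∀ δ x, P'₁ ((s59t_partRep (s59t_rho (N₁ * ∏ j, qv j) (s59t_Hmul N₁ (∏ j, qv j) (⊤ : Subgroup (ZMod N₁)ˣ) (s59t_KQ (p ^ n) qv)) 𝒪 𝒪) hρ'₁) δ x) = (s59t_partRep (s59t_rho (N₁ * ∏ j, qv j) (s59t_Hmul N₁ (∏ j, qv j) (⊤ : Subgroup (ZMod N₁)ˣ) (s59t_KQ (p ^ n) qv)) 𝒪 𝒪) hρ'₁) δ (P'₁ x))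
        (hPP'₁ : P'₁ * P'₁ = P'₁)
        (aZ₁ : (heckeAlgebra (N₁ * ∏ q ∈ Finset.univ.image qv, q ^ (2 : ℕ)) 2 (↑(B ∪ Finset.univ.image qv) : Set ℕ)) →+* Module.End 𝒪 (s59t_part P'₁))
        (haZ₁ : ∀ t (z : s59t_part P'₁), s59x_jZ (s59t_Hmul N₁ (∏ j, qv j) (⊤ : Subgroup (ZMod N₁)ˣ) (s59t_KQ (p ^ n) qv)) (s59t_actH (N₁ * ∏ j, qv j) aq (dvd_refl (N₁ * ∏ j, qv j)) (s59t_Hmul N₁ (∏ j, qv j) (⊤ : Subgroup (ZMod N₁)ˣ) (s59t_KQ (p ^ n) qv)) (G₁ * s59t_jG 𝒪 (s59t_goodB (N₁ * ∏ j, qv j) B) e₀₁)) P'₁ (aZ₁ t z) = a₁ t (s59x_jZ (s59t_Hmul N₁ (∏ j, qv j) (⊤ : Subgroup (ZMod N₁)ˣ) (s59t_KQ (p ^ n) qv)) (s59t_actH (N₁ * ∏ j, qv j) aq (dvd_refl (N₁ * ∏ j, qv j)) (s59t_Hmul N₁ (∏ j, qv j) (⊤ : Subgroup (ZMod N₁)ˣ) (s59t_KQ (p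 ^ n) qv)) (G₁ * s59t_jG 𝒪 (s59t_goodB (N₁ * ∏ j, qv j) B) e₀₁)) P'₁ z))
        [IsLocalRing (s59e_adj 𝒪 aZ₁)]
        (θ₁ : DQ.R →ₐ[𝒪] s59e_adj 𝒪 aZ₁)
        (hθ₁ : Function.Surjective θ₁)
        (hfrobT₁ : ∀ ℓ : ℕ, ℓ.Prime → ℓ ∉ (B ∪ Finset.univ.image qv) →
      ∀ A' : ValuationSubring (AlgebraicClosure ℚ), A'.LiesOverPrime ℓ →
      ∀ τ : Γℚ, A'.IsFrobeniusAt τ ℓ →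
        (LinearMap.charpoly (DQ.ρ.ρ τ)).map (θ₁ : DQ.R →+* s59e_adj 𝒪 aZ₁) =
          (Polynomial.X : Polynomial (s59e_adj 𝒪 aZ₁)) ^ (2 : ℕ) - Polynomial.C (s59e_tOf (𝒪 := 𝒪) (↑(B ∪ Finset.univ.image qv) : Set ℕ) aZ₁ ℓ) * (Polynomial.X : Polynomial (s59e_adj 𝒪 aZ₁)) +
            Polynomial.C ((ℓ : s59e_adj 𝒪 aZ₁)))
        (πK₁ : s59t_part P'₁ →ₗ[𝒪] s59t_part P₁)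
        (hπK₁ : ∀ y : s59t_part P'₁, ((πK₁ y : s59t_part P₁) : s59t_part (s59t_E0 (⊤ : Subgroup (ZMod N₁)ˣ) B e₁)) = π₁ (y : s59t_part (s59t_actH (N₁ * ∏ j, qv j) aq (dvd_refl (N₁ * ∏ j, qv j)) (s59t_Hmul N₁ (∏ j, qv j) (⊤ : Subgroup (ZMod N₁)ˣ) (s59t_KQ (p ^ n) qv)) (G₁ * s59t_jG 𝒪 (s59t_goodB (N₁ * ∏ j, qv j) B) e₀₁))))
        (hcomm₁ : ∀ (t : (heckeAlgebra (N₁ * ∏ q ∈ Finset.univ.image qv, q ^ (2 : ℕ)) 2 (↑(B ∪ Finset.univ.image qv) : Set ℕ))) (β : (s59t_BQ N₁ (∏ j, qv j) (⊤ : Subgroup (ZMod N₁)ˣ) (s59t_KQ (p ^ n) qv))),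
      Commute (aZ₁ t) (((s59t_partRep (s59t_partRep (s59t_rho (N₁ * ∏ j, qv j) (s59t_Hmul N₁ (∏ j, qv j) (⊤ : Subgroup (ZMod N₁)ˣ) (s59t_KQ (p ^ n) qv)) 𝒪 𝒪) hρ'₁) hP'₁).comp (s59t_BQ N₁ (∏ j, qv j) (⊤ : Subgroup (ZMod N₁)ˣ) (s59t_KQ (p ^ n) qv)).subtype) β))
        (hTρ₁ : ∀ (t : s59e_adj 𝒪 (s59e_aB aZ₁ ((s59t_partRep (s59t_partRep (s59t_rho (N₁ * ∏ j, qv j) (s59t_Hmul N₁ (∏ j, qv j) (⊤ : Subgroup (ZMod N₁)ˣ) (s59t_KQ (p ^ n) qv)) 𝒪 𝒪) hρ'₁) hP'₁).comp (s59t_BQ N₁ (∏ j, qv j) (⊤ : Subgroup (ZMod N₁)ˣ) (s59t_KQ (p ^ n) qv)).subtype) hcomm₁)) δ y,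
      t • (s59t_partRep (s59t_partRep (s59t_rho (N₁ * ∏ j, qv j) (s59t_Hmul N₁ (∏ j, qv j) (⊤ : Subgroup (ZMod N₁)ˣ) (s59t_KQ (p ^ n) qv)) 𝒪 𝒪) hρ'₁) hP'₁) δ y = (s59t_partRep (s59t_partRep (s59t_rho (N₁ * ∏ j, qv j) (s59t_Hmul N₁ (∏ j, qv j) (⊤ : Subgroup (ZMod N₁)ˣ) (s59t_KQ (p ^ n) qv)) 𝒪 𝒪) hρ'₁) hP'₁) δ (t • y))
        (h2₁ : ∀ y ∈ s59t_eig (s59t_partRep (s59t_partRep (s59t_rho (N₁ * ∏ j, qv j) (s59t_Hmul N₁ (∏ j, qv j) (⊤ : Subgroup (ZMod N₁)ˣ) (s59t_KQ (p ^ n) qv)) 𝒪 𝒪) hρ'₁) hP'₁) (s59t_CQ N₁ (∏ j, qv j) (⊤ : Subgroup (ZMod N₁)ˣ) (s59t_KQ (p ^ n) qv)) (1 : (s59t_Delta (N₁ * ∏ j, qv j) (s59t_Hmul N₁ (∏ j, qv j) (⊤ : Subgroup (ZMod N₁)ˣ) (s59t_KQ (p ^ n) qv))) →* 𝒪ˣ),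
      πK₁ y ∈ s59t_eig (s59t_partRep (s59t_partRep (s59t_rho N₁ (⊤ : Subgroup (ZMod N₁)ˣ) 𝒪 𝒪) hρ₁) hP₁) ⊤ (1 : (s59t_Delta N₁ (⊤ : Subgroup (ZMod N₁)ˣ)) →* 𝒪ˣ))
        (g₁ : Fin r → (s59t_BQ N₁ (∏ j, qv j) (⊤ : Subgroup (ZMod N₁)ˣ) (s59t_KQ (p ^ n) qv)))
        (rec₁ : s59efl_RingRec (p := p) r σ DQ n (s59t_partRep (s59t_partRep (s59t_rho N₁ (⊤ : Subgroup (ZMod N₁)ˣ) 𝒪 𝒪) hρ₁) hP₁) (s59e_adj 𝒪 aZ₀₁) hRρ₁ ρR₁ d₁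
      (s59t_partRep (s59t_partRep (s59t_rho (N₁ * ∏ j, qv j) (s59t_Hmul N₁ (∏ j, qv j) (⊤ : Subgroup (ZMod N₁)ˣ) (s59t_KQ (p ^ n) qv)) 𝒪 𝒪) hρ'₁) hP'₁) (s59t_BQ N₁ (∏ j, qv j) (⊤ : Subgroup (ZMod N₁)ˣ) (s59t_KQ (p ^ n) qv)) (s59t_CQ N₁ (∏ j, qv j) (⊤ : Subgroup (ZMod N₁)ˣ) (s59t_KQ (p ^ n) qv)) πK₁ aZ₁ hcomm₁ hTρ₁ h2₁ g₁ θ₁ qv)
        [IsNoetherianRing (s59e_adj 𝒪 aZ₁)]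
        [IsAdicComplete (maximalIdeal (s59e_adj 𝒪 aZ₁)) (s59e_adj 𝒪 aZ₁)]
        [IsLocalHom (algebraMap 𝒪 (s59e_adj 𝒪 aZ₁))]
        (hres𝒪₁ : Function.Surjective (residue (s59e_adj 𝒪 aZ₁) ∘ algebraMap 𝒪 (s59e_adj 𝒪 aZ₁)))
        (hθl₁ : IsLocalHom (θ₁ : DQ.R →+* s59e_adj 𝒪 aZ₁))
        (h𝒟₁ : 𝒟 (DQ.ρ.baseChangeAlong (θ₁ : DQ.R →+* s59e_adj 𝒪 aZ₁) hθl₁))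
        (hres₁ : (DQ.ρ.baseChangeAlong (θ₁ : DQ.R →+* s59e_adj 𝒪 aZ₁) hθl₁).residual.IsEquiv
      ((s59i_rhobarW W p hΔ 𝒪 hp𝒪).baseChangeAlong (ResidueField.map (algebraMap 𝒪 (s59e_adj 𝒪 aZ₁)))))
        -- the Taylor–Wiles data of the level `N₂`
        (e₀₂ : MvPolynomial ↥(s59t_goodB (N₂ * ∏ j, qv j) B) 𝒪)
        (G₂ : MvPolynomial (s59w_AIdx (N₂ * ∏ j, qv j) ⊕ ℕ) 𝒪)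
        (hXl₂ : s59ex_LvlX (N₂ * ∏ j, qv j) (s59t_Hmul N₂ (∏ j, qv j) (⊤ : Subgroup (ZMod N₂)ˣ) (s59t_KQ (p ^ n) qv)) aq (s59t_goodB (N₂ * ∏ j, qv j) B)
      (s59t_cB (𝒪 := 𝒪) (N₂ * ∏ j, qv j) (fun ℓ => W.apOfModel ℓ)) (List.ofFn qv) e₀₂ G₂)
        (a₂ : (heckeAlgebra (N₂ * ∏ q ∈ Finset.univ.image qv, q ^ (2 : ℕ)) 2 (↑(B ∪ Finset.univ.image qv) : Set ℕ)) →+* Module.End 𝒪 (s48h_Hpar 𝒪 (s48h_GammaH (N₂ * ∏ j, qv j) (s59t_Hmul N₂ (∏ j, qv j) (⊤ : Subgroup (ZMod N₂)ˣ) (s59t_KQ (p ^ n) qv))) 𝒪))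
        (ha1₂ : ∀ (ℓ : ℕ) (hℓ : ℓ.Prime) (hℓN : ¬ ℓ ∣ (N₂ * ∏ q ∈ Finset.univ.image qv, q ^ (2 : ℕ)))
      (hℓS : ℓ ∉ (↑(B ∪ Finset.univ.image qv) : Set ℕ)) (i : s59w_TIdx (N₂ * ∏ j, qv j)),
      i.ell = ℓ → a₂ (heckeAlgebra.T hℓ hℓN hℓS) = s59e_Tp' (s59t_Hmul N₂ (∏ j, qv j) (⊤ : Subgroup (ZMod N₂)ˣ) (s59t_KQ (p ^ n) qv)) 𝒪 ((p ^ (0 + n) - 1) * ((p ^ (0 + n) + 1) / 2)) i)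
        (ha2₂ : ∀ t, a₂ t ∈ Subring.closure (Set.range (s59e_Tp' (s59t_Hmul N₂ (∏ j, qv j) (⊤ : Subgroup (ZMod N₂)ˣ) (s59t_KQ (p ^ n) qv)) 𝒪 ((p ^ (0 + n) - 1) * ((p ^ (0 + n) + 1) / 2)))))
        (hρ'₂ : ∀ δ y, (s59t_actH (N₂ * ∏ j, qv j) aq (dvd_refl (N₂ * ∏ j, qv j)) (s59t_Hmul N₂ (∏ j, qv j) (⊤ : Subgroup (ZMod N₂)ˣ) (s59t_KQ (p ^ n) qv)) (G₂ * s59t_jG 𝒪 (s59t_goodB (N₂ * ∏ j, qv j) B) e₀₂)) ((s59t_rho (N₂ * ∏ j, qv j) (s59t_Hmul N₂ (∏ j, qv j) (⊤ : Subgroup (ZMod N₂)ˣ) (s59t_KQ (p ^ n) qv)) 𝒪 𝒪) δ y) = (s59t_rho (N₂ * ∏ j, qv j) (s59t_Hmul N₂ (∏ j, qv j) (⊤ : Subgroup (ZMod N₂)ˣ) (s59t_KQ (p ^ n) qv)) 𝒪 𝒪) δ ((s59t_actH (N₂ * ∏ j, qv j) aq (dvd_refl (N₂ * ∏ j, qv j)) (s59t_Hmul N₂ (∏ j, qv j) (⊤ : Subgroup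 (ZMod N₂)ˣ) (s59t_KQ (p ^ n) qv)) (G₂ * s59t_jG 𝒪 (s59t_goodB (N₂ * ∏ j, qv j) B) e₀₂)) y))
        (π₂ : s59t_part (s59t_actH (N₂ * ∏ j, qv j) aq (dvd_refl (N₂ * ∏ j, qv j)) (s59t_Hmul N₂ (∏ j, qv j) (⊤ : Subgroup (ZMod N₂)ˣ) (s59t_KQ (p ^ n) qv)) (G₂ * s59t_jG 𝒪 (s59t_goodB (N₂ * ∏ j, qv j) B) e₀₂)) →ₗ[𝒪] s59t_part (s59t_E0 (⊤ : Subgroup (ZMod N₂)ˣ) B e₂))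
        (hιinj₂ : Function.Injective (s59t_iotaH (s59t_E0 (⊤ : Subgroup (ZMod N₂)ˣ) B e₂) (s59t_actH (N₂ * ∏ j, qv j) aq (dvd_refl (N₂ * ∏ j, qv j)) (s59t_Hmul N₂ (∏ j, qv j) (⊤ : Subgroup (ZMod N₂)ˣ) (s59t_KQ (p ^ n) qv)) (G₂ * s59t_jG 𝒪 (s59t_goodB (N₂ * ∏ j, qv j) B) e₀₂)) (s59t_resGHpar
      (s59t_GammaHmul_le (N := N₂) (D := ∏ j, qv j) (H := (⊤ : Subgroup (ZMod N₂)ˣ)) (K := s59t_KQ (p ^ n) qv)) 𝒪 𝒪)))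
        (hιπ₂ : ∀ y, s59t_iotaH (s59t_E0 (⊤ : Subgroup (ZMod N₂)ˣ) B e₂) (s59t_actH (N₂ * ∏ j, qv j) aq (dvd_refl (N₂ * ∏ j, qv j)) (s59t_Hmul N₂ (∏ j, qv j) (⊤ : Subgroup (ZMod N₂)ˣ) (s59t_KQ (p ^ n) qv)) (G₂ * s59t_jG 𝒪 (s59t_goodB (N₂ * ∏ j, qv j) B) e₀₂)) (s59t_resGHpar
      (s59t_GammaHmul_le (N := N₂) (D := ∏ j, qv j) (H := (⊤ : Subgroup (ZMod N₂)ˣ)) (K := s59t_KQ (p ^ n) qv)) 𝒪 𝒪) (π₂ y) =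
      s59t_normPsi (s59t_partRep (s59t_rho (N₂ * ∏ j, qv j) (s59t_Hmul N₂ (∏ j, qv j) (⊤ : Subgroup (ZMod N₂)ˣ) (s59t_KQ (p ^ n) qv)) 𝒪 𝒪) hρ'₂) (s59t_BQ N₂ (∏ j, qv j) (⊤ : Subgroup (ZMod N₂)ˣ) (s59t_KQ (p ^ n) qv)) 1 y)
        -- the kernel pair of the level `N₂`
        (P'₂ : Module.End 𝒪 (s59t_part (s59t_actH (N₂ * ∏ j, qv j) aq (dvd_refl (N₂ * ∏ j, qv j)) (s59t_Hmul N₂ (∏ j, qv j) (⊤ : Subgroup (ZMod N₂)ˣ) (s59t_KQ (p ^ n) qv)) (G₂ * s59t_jG 𝒪 (s59t_goodB (N₂ * ∏ j, qv j) B) e₀₂))))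
        (hP'₂ : ∀ δ x, P'₂ ((s59t_partRep (s59t_rho (N₂ * ∏ j, qv j) (s59t_Hmul N₂ (∏ j, qv j) (⊤ : Subgroup (ZMod N₂)ˣ) (s59t_KQ (p ^ n) qv)) 𝒪 𝒪) hρ'₂) δ x) = (s59t_partRep (s59t_rho (N₂ * ∏ j, qv j) (s59t_Hmul N₂ (∏ j, qv j) (⊤ : Subgroup (ZMod N₂)ˣ) (s59t_KQ (p ^ n) qv)) 𝒪 𝒪) hρ'₂) δ (P'₂ x))
        (hPP'₂ : P'₂ * P'₂ = P'₂)
        (aZ₂ : (heckeAlgebra (N₂ * ∏ q ∈ Finset.univ.image qv, q ^ (2 : ℕ)) 2 (↑(B ∪ Finset.univ.image qv) : Set ℕ)) →+* Module.End 𝒪 (s59t_part P'₂))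
        (haZ₂ : ∀ t (z : s59t_part P'₂), s59x_jZ (s59t_Hmul N₂ (∏ j, qv j) (⊤ : Subgroup (ZMod N₂)ˣ) (s59t_KQ (p ^ n) qv)) (s59t_actH (N₂ * ∏ j, qv j) aq (dvd_refl (N₂ * ∏ j, qv j)) (s59t_Hmul N₂ (∏ j, qv j) (⊤ : Subgroup (ZMod N₂)ˣ) (s59t_KQ (p ^ n) qv)) (G₂ * s59t_jG 𝒪 (s59t_goodB (N₂ * ∏ j, qv j) B) e₀₂)) P'₂ (aZ₂ t z) = a₂ t (s59x_jZ (s59t_Hmul N₂ (∏ j, qv j) (⊤ : Subgroup (ZMod N₂)ˣ) (s59t_KQ (p ^ n) qv)) (s59t_actH (N₂ * ∏ j, qv j) aq (dvd_refl (N₂ * ∏ j, qv j)) (s59t_Hmul N₂ (∏ j, qv j) (⊤ : Subgroup (ZMod N₂)ˣ) (s59t_KQ (p ^ n) qv)) (G₂ * s59t_jG 𝒪 (s59t_goodB (N₂ * ∏ j, qv j) B) e₀₂)) P'₂ z))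
        [IsLocalRing (s59e_adj 𝒪 aZ₂)]
        (θ₂ : DQ.R →ₐ[𝒪] s59e_adj 𝒪 aZ₂)
        (hθ₂ : Function.Surjective θ₂)
        (hfrobT₂ : ∀ ℓ : ℕ, ℓ.Prime → ℓ ∉ (B ∪ Finset.univ.image qv) →
      ∀ A' : ValuationSubring (AlgebraicClosure ℚ), A'.LiesOverPrime ℓ →
      ∀ τ : Γℚ, A'.IsFrobeniusAt τ ℓ →
        (LinearMap.charpoly (DQ.ρ.ρ τ)).map (θ₂ : DQ.R →+* s59e_adj 𝒪 aZ₂) =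
          (Polynomial.X : Polynomial (s59e_adj 𝒪 aZ₂)) ^ (2 : ℕ) - Polynomial.C (s59e_tOf (𝒪 := 𝒪) (↑(B ∪ Finset.univ.image qv) : Set ℕ) aZ₂ ℓ) * (Polynomial.X : Polynomial (s59e_adj 𝒪 aZ₂)) +
            Polynomial.C ((ℓ : s59e_adj 𝒪 aZ₂)))
        (πK₂ : s59t_part P'₂ →ₗ[𝒪] s59t_part P₂)
        (hπK₂ : ∀ y : s59t_part P'₂, ((πK₂ y : s59t_part P₂) : s59t_part (s59t_E0 (⊤ : Subgroup (ZMod N₂)ˣ) B e₂)) = π₂ (y : s59t_part (s59t_actH (N₂ * ∏ j, qv j) aq (dvd_refl (N₂ * ∏ j, qv j)) (s59t_Hmul N₂ (∏ j, qv j) (⊤ : Subgroup (ZMod N₂)ˣ) (s59t_KQ (p ^ n) qv)) (G₂ * s59t_jG 𝒪 (s59t_goodB (N₂ * ∏ j, qv j) B) e₀₂))))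
        (hcomm₂ : ∀ (t : (heckeAlgebra (N₂ * ∏ q ∈ Finset.univ.image qv, q ^ (2 : ℕ)) 2 (↑(B ∪ Finset.univ.image qv) : Set ℕ))) (β : (s59t_BQ N₂ (∏ j, qv j) (⊤ : Subgroup (ZMod N₂)ˣ) (s59t_KQ (p ^ n) qv))),
      Commute (aZ₂ t) (((s59t_partRep (s59t_partRep (s59t_rho (N₂ * ∏ j, qv j) (s59t_Hmul N₂ (∏ j, qv j) (⊤ : Subgroup (ZMod N₂)ˣ) (s59t_KQ (p ^ n) qv)) 𝒪 𝒪) hρ'₂) hP'₂).comp (s59t_BQ N₂ (∏ j, qv j) (⊤ : Subgroup (ZMod N₂)ˣ) (s59t_KQ (p ^ n) qv)).subtype) β))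
        (hTρ₂ : ∀ (t : s59e_adj 𝒪 (s59e_aB aZ₂ ((s59t_partRep (s59t_partRep (s59t_rho (N₂ * ∏ j, qv j) (s59t_Hmul N₂ (∏ j, qv j) (⊤ : Subgroup (ZMod N₂)ˣ) (s59t_KQ (p ^ n) qv)) 𝒪 𝒪) hρ'₂) hP'₂).comp (s59t_BQ N₂ (∏ j, qv j) (⊤ : Subgroup (ZMod N₂)ˣ) (s59t_KQ (p ^ n) qv)).subtype) hcomm₂)) δ y,
      t • (s59t_partRep (s59t_partRep (s59t_rho (N₂ * ∏ j, qv j) (s59t_Hmul N₂ (∏ j, qv j) (⊤ : Subgroup (ZMod N₂)ˣ) (s59t_KQ (p ^ n) qv)) 𝒪 𝒪) hρ'₂) hP'₂) δ y = (s59t_partRep (s59t_partRep (s59t_rho (N₂ * ∏ j, qv j) (s59t_Hmul N₂ (∏ j, qv j) (⊤ : Subgroup (ZMod N₂)ˣ) (s59t_KQ (p ^ n) qv)) 𝒪 𝒪) hρ'₂) hP'₂) δ (t • y))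
        (h2₂ : ∀ y ∈ s59t_eig (s59t_partRep (s59t_partRep (s59t_rho (N₂ * ∏ j, qv j) (s59t_Hmul N₂ (∏ j, qv j) (⊤ : Subgroup (ZMod N₂)ˣ) (s59t_KQ (p ^ n) qv)) 𝒪 𝒪) hρ'₂) hP'₂) (s59t_CQ N₂ (∏ j, qv j) (⊤ : Subgroup (ZMod N₂)ˣ) (s59t_KQ (p ^ n) qv)) (1 : (s59t_Delta (N₂ * ∏ j, qv j) (s59t_Hmul N₂ (∏ j, qv j) (⊤ : Subgroup (ZMod N₂)ˣ) (s59t_KQ (p ^ n) qv))) →* 𝒪ˣ),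
      πK₂ y ∈ s59t_eig (s59t_partRep (s59t_partRep (s59t_rho N₂ (⊤ : Subgroup (ZMod N₂)ˣ) 𝒪 𝒪) hρ₂) hP₂) ⊤ (1 : (s59t_Delta N₂ (⊤ : Subgroup (ZMod N₂)ˣ)) →* 𝒪ˣ))
        (g₂ : Fin r → (s59t_BQ N₂ (∏ j, qv j) (⊤ : Subgroup (ZMod N₂)ˣ) (s59t_KQ (p ^ n) qv)))
        (rec₂ : s59efl_RingRec (p := p) r σ DQ n (s59t_partRep (s59t_partRep (s59t_rho N₂ (⊤ : Subgroup (ZMod N₂)ˣ) 𝒪 𝒪) hρ₂) hP₂) (s59e_adj 𝒪 aZ₀₂) hRρ₂ ρR₂ d₂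
      (s59t_partRep (s59t_partRep (s59t_rho (N₂ * ∏ j, qv j) (s59t_Hmul N₂ (∏ j, qv j) (⊤ : Subgroup (ZMod N₂)ˣ) (s59t_KQ (p ^ n) qv)) 𝒪 𝒪) hρ'₂) hP'₂) (s59t_BQ N₂ (∏ j, qv j) (⊤ : Subgroup (ZMod N₂)ˣ) (s59t_KQ (p ^ n) qv)) (s59t_CQ N₂ (∏ j, qv j) (⊤ : Subgroup (ZMod N₂)ˣ) (s59t_KQ (p ^ n) qv)) πK₂ aZ₂ hcomm₂ hTρ₂ h2₂ g₂ θ₂ qv)
        (hg : ∀ i, g₁ i = s59efl_pushG hd (p ^ n) qv g₂ i)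
        -- the kernel pair of the Taylor–Wiles levels is stable
        (hst' : ∀ (hqL : ¬ q ∣ (N₁ * ∏ j, qv j)) (hN' : (N₂ * ∏ j, qv j) = (N₁ * ∏ j, qv j) * q)
          (hG' : s59f_IsG' (N₁ * ∏ j, qv j) q (s59t_Hmul N₁ (∏ j, qv j) (⊤ : Subgroup (ZMod N₁)ˣ) (s59t_KQ (p ^ n) qv)) (s48h_GammaH (N₂ * ∏ j, qv j) (s59t_Hmul N₂ (∏ j, qv j) (⊤ : Subgroup (ZMod N₂)ˣ) (s59t_KQ (p ^ n) qv))))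
          (he' : s59f_eW hqL ((p ^ (0 + n) - 1) * ((p ^ (0 + n) + 1) / 2)) ∈ Gamma0 (N₂ * ∏ j, qv j))
          (hee : s59f_gW hqL * s59f_eW hqL ((p ^ (0 + n) - 1) * ((p ^ (0 + n) + 1) / 2)) * s59f_eW hqL ((p ^ (0 + n) - 1) * ((p ^ (0 + n) + 1) / 2)) ∈ s48h_GammaH (N₂ * ∏ j, qv j) (s59t_Hmul N₂ (∏ j, qv j) (⊤ : Subgroup (ZMod N₂)ˣ) (s59t_KQ (p ^ n) qv)))
          (hc' : (s59f_oldN hqL hN' hG' 𝒪 𝒪 (s59f_eW hqL ((p ^ (0 + n) - 1) * ((p ^ (0 + n) + 1) / 2))) he' hee).Compat (s59t_actH (N₁ * ∏ j, qv j) aq (dvd_refl (N₁ * ∏ j, qv j)) (s59t_Hmul N₁ (∏ j, qv j) (⊤ : Subgroup (ZMod N₁)ˣ) (s59t_KQ (p ^ n) qv)) (G₁ * s59t_jG 𝒪 (s59t_goodB (N₁ * ∏ j, qv j) B) e₀₁)) (s59t_actH (N₂ * ∏ j, qv j) aq (dvd_refl (N₂ * ∏ j, qv j))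 (s59t_Hmul N₂ (∏ j, qv j) (⊤ : Subgroup (ZMod N₂)ˣ) (s59t_KQ (p ^ n) qv)) (G₂ * s59t_jG 𝒪 (s59t_goodB (N₂ * ∏ j, qv j) B) e₀₂))), s59x_OldStable ((s59f_oldN hqL hN' hG' 𝒪 𝒪 (s59f_eW hqL ((p ^ (0 + n) - 1) * ((p ^ (0 + n) + 1) / 2))) he' hee).restrict hc') (s59t_part P'₁) (s59t_part P'₂))
        -- Eichler–Shimura and [NEW-q] on the kernel pairs
        (hES : ∀ (hqL : ¬ q ∣ (N₁ * ∏ j, qv j)) (hN' : (N₂ * ∏ j, qv j) = (N₁ * ∏ j, qv j) * q)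
          (hG' : s59f_IsG' (N₁ * ∏ j, qv j) q (s59t_Hmul N₁ (∏ j, qv j) (⊤ : Subgroup (ZMod N₁)ˣ) (s59t_KQ (p ^ n) qv)) (s48h_GammaH (N₂ * ∏ j, qv j) (s59t_Hmul N₂ (∏ j, qv j) (⊤ : Subgroup (ZMod N₂)ˣ) (s59t_KQ (p ^ n) qv))))
          (he' : s59f_eW hqL ((p ^ (0 + n) - 1) * ((p ^ (0 + n) + 1) / 2)) ∈ Gamma0 (N₂ * ∏ j, qv j))
          (hee : s59f_gW hqL * s59f_eW hqL ((p ^ (0 + n) - 1) * ((p ^ (0 + n) + 1) / 2)) * s59f_eW hqL ((p ^ (0 + n) - 1) * ((p ^ (0 + n) + 1) / 2)) ∈ s48h_GammaH (N₂ * ∏ j, qv j) (s59t_Hmul N₂ (∏ j, qv j) (⊤ : Subgroup (ZMod N₂)ˣ) (s59t_KQ (p ^ n) qv)))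
          (hc' : (s59f_oldN hqL hN' hG' 𝒪 𝒪 (s59f_eW hqL ((p ^ (0 + n) - 1) * ((p ^ (0 + n) + 1) / 2))) he' hee).Compat (s59t_actH (N₁ * ∏ j, qv j) aq (dvd_refl (N₁ * ∏ j, qv j)) (s59t_Hmul N₁ (∏ j, qv j) (⊤ : Subgroup (ZMod N₁)ˣ) (s59t_KQ (p ^ n) qv)) (G₁ * s59t_jG 𝒪 (s59t_goodB (N₁ * ∏ j, qv j) B) e₀₁)) (s59t_actH (N₂ * ∏ j, qv j) aq (dvd_refl (N₂ * ∏ j, qv j)) (s59t_Hmul N₂ (∏ j, qv j) (⊤ : Subgroup (ZMod N₂)ˣ) (s59t_KQ (p ^ n) qv)) (G₂ * s59t_jG 𝒪 (s59t_goodB (N₂ * ∏ j, qv j) B) e₀₂))) (hst : s59x_OldStable ((s59f_oldN hqL hN' hG' 𝒪 𝒪 (s59f_eW hqL ((p ^ (0 + n) - 1) * ((p ^ (0 + n) + 1) / 2))) he' hee).restrict hc') (s59t_part P'₁) (s59t_part P'₂))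
          (y : s59t_part P'₁), (s59x_oldSub ((s59f_oldN hqL hN' hG' 𝒪 𝒪 (s59f_eW hqL ((p ^ (0 + n) - 1) * ((p ^ (0 + n) + 1) / 2))) he' hee).restrict hc') hst).T y =
            ((θ₁ (s59i_cpTr DQ.ρ φq) : s59e_adj 𝒪 aZ₁) : Module.End 𝒪 (s59t_part P'₁)) y)
        (hNEW : ∀ (hqL : ¬ q ∣ (N₁ * ∏ j, qv j)) (hN' : (N₂ * ∏ j, qv j) = (N₁ * ∏ j, qv j) * q)
          (hG' : s59f_IsG' (N₁ * ∏ j, qv j) q (s59t_Hmul N₁ (∏ j, qv j) (⊤ : Subgroup (ZMod N₁)ˣ) (s59t_KQ (p ^ n) qv)) (s48h_GammaH (N₂ * ∏ j, qv j) (s59t_Hmul N₂ (∏ j, qv j) (⊤ : Subgroup (ZMod N₂)ˣ) (s59t_KQ (p ^ n) qv))))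
          (he' : s59f_eW hqL ((p ^ (0 + n) - 1) * ((p ^ (0 + n) + 1) / 2)) ∈ Gamma0 (N₂ * ∏ j, qv j))
          (hee : s59f_gW hqL * s59f_eW hqL ((p ^ (0 + n) - 1) * ((p ^ (0 + n) + 1) / 2)) * s59f_eW hqL ((p ^ (0 + n) - 1) * ((p ^ (0 + n) + 1) / 2)) ∈ s48h_GammaH (N₂ * ∏ j, qv j) (s59t_Hmul N₂ (∏ j, qv j) (⊤ : Subgroup (ZMod N₂)ˣ) (s59t_KQ (p ^ n) qv)))
          (hc' : (s59f_oldN hqL hN' hG' 𝒪 𝒪 (s59f_eW hqL ((p ^ (0 + n) - 1) * ((p ^ (0 + n) + 1) / 2))) he' hee).Compat (s59t_actH (N₁ * ∏ j, qv j) aq (dvd_refl (N₁ * ∏ j, qv j)) (s59t_Hmul N₁ (∏ j, qv j) (⊤ : Subgroup (ZMod N₁)ˣ) (s59t_KQ (p ^ n) qv)) (G₁ * s59t_jG 𝒪 (s59t_goodB (N₁ * ∏ j, qv j) B) e₀₁)) (s59t_actH (N₂ * ∏ j, qv j) aq (dvd_refl (N₂ * ∏ j, qv j))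 (s59t_Hmul N₂ (∏ j, qv j) (⊤ : Subgroup (ZMod N₂)ˣ) (s59t_KQ (p ^ n) qv)) (G₂ * s59t_jG 𝒪 (s59t_goodB (N₂ * ∏ j, qv j) B) e₀₂))) (hst : s59x_OldStable ((s59f_oldN hqL hN' hG' 𝒪 𝒪 (s59f_eW hqL ((p ^ (0 + n) - 1) * ((p ^ (0 + n) + 1) / 2))) he' hee).restrict hc') (s59t_part P'₁) (s59t_part P'₂)),
          ∀ z ∈ s59t_eig (s59t_partRep (s59t_partRep (s59t_rho (N₂ * ∏ j, qv j) (s59t_Hmul N₂ (∏ j, qv j) (⊤ : Subgroup (ZMod N₂)ˣ) (s59t_KQ (p ^ n) qv)) 𝒪 𝒪) hρ'₂) hP'₂) (s59t_CQ N₂ (∏ j, qv j) (⊤ : Subgroup (ZMod N₂)ˣ) (s59t_KQ (p ^ n) qv)) (1 : (s59t_Delta (N₂ * ∏ j, qv j) (s59t_Hmul N₂ (∏ j, qv j) (⊤ : Subgroup (ZMod N₂)ˣ) (s59t_KQ (p ^ n) qv))) →* 𝒪ˣ),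
            (s59x_oldSub ((s59f_oldN hqL hN' hG' 𝒪 𝒪 (s59f_eW hqL ((p ^ (0 + n) - 1) * ((p ^ (0 + n) + 1) / 2))) he' hee).restrict hc') hst).corA z = 0 → (s59x_oldSub ((s59f_oldN hqL hN' hG' 𝒪 𝒪 (s59f_eW hqL ((p ^ (0 + n) - 1) * ((p ^ (0 + n) + 1) / 2))) he' hee).restrict hc') hst).corB z = 0 →
            ((((q : ℕ) : 𝒪) + 1) ^ (2 : ℕ)) • z -
              (((θ₂ (s59i_cpTr DQ.ρ φq) : s59e_adj 𝒪 aZ₂) : Module.End 𝒪 (s59t_part P'₂)) ^ (2 : ℕ)) z = 0)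
        -- the weak trace clause
        (Jm : Set DQ.R)
        (hT5w : ∀ (hqL : ¬ q ∣ (N₁ * ∏ j, qv j)) (hN' : (N₂ * ∏ j, qv j) = (N₁ * ∏ j, qv j) * q)
          (hG' : s59f_IsG' (N₁ * ∏ j, qv j) q (s59t_Hmul N₁ (∏ j, qv j) (⊤ : Subgroup (ZMod N₁)ˣ) (s59t_KQ (p ^ n) qv)) (s48h_GammaH (N₂ * ∏ j, qv j) (s59t_Hmul N₂ (∏ j, qv j) (⊤ : Subgroup (ZMod N₂)ˣ) (s59t_KQ (p ^ n) qv))))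
          (he' : s59f_eW hqL ((p ^ (0 + n) - 1) * ((p ^ (0 + n) + 1) / 2)) ∈ Gamma0 (N₂ * ∏ j, qv j))
          (hee : s59f_gW hqL * s59f_eW hqL ((p ^ (0 + n) - 1) * ((p ^ (0 + n) + 1) / 2)) * s59f_eW hqL ((p ^ (0 + n) - 1) * ((p ^ (0 + n) + 1) / 2)) ∈ s48h_GammaH (N₂ * ∏ j, qv j) (s59t_Hmul N₂ (∏ j, qv j) (⊤ : Subgroup (ZMod N₂)ˣ) (s59t_KQ (p ^ n) qv)))
          (hc' : (s59f_oldN hqL hN' hG' 𝒪 𝒪 (s59f_eW hqL ((p ^ (0 + n) - 1) * ((p ^ (0 + n) + 1) / 2))) he' hee).Compat (s59t_actH (N₁ * ∏ j, qv j) aq (dvd_refl (N₁ * ∏ j, qv j)) (s59t_Hmul N₁ (∏ j, qv j) (⊤ : Subgroup (ZMod N₁)ˣ) (s59t_KQ (p ^ n) qv)) (G₁ * s59t_jG 𝒪 (s59t_goodB (N₁ * ∏ j, qv j) B) e₀₁)) (s59t_actH (N₂ * ∏ j, qv j) aq (dvd_refl (N₂ * ∏ j, qv j))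 (s59t_Hmul N₂ (∏ j, qv j) (⊤ : Subgroup (ZMod N₂)ˣ) (s59t_KQ (p ^ n) qv)) (G₂ * s59t_jG 𝒪 (s59t_goodB (N₂ * ∏ j, qv j) B) e₀₂))) (hst : s59x_OldStable ((s59f_oldN hqL hN' hG' 𝒪 𝒪 (s59f_eW hqL ((p ^ (0 + n) - 1) * ((p ^ (0 + n) + 1) / 2))) he' hee).restrict hc') (s59t_part P'₁) (s59t_part P'₂)),
          ∀ x ∈ Jm, ∀ u ∈ s59t_eig (s59t_partRep (s59t_partRep (s59t_rho (N₁ * ∏ j, qv j) (s59t_Hmul N₁ (∏ j, qv j) (⊤ : Subgroup (ZMod N₁)ˣ) (s59t_KQ (p ^ n) qv)) 𝒪 𝒪) hρ'₁) hP'₁) (s59t_CQ N₁ (∏ j, qv j) (⊤ : Subgroup (ZMod N₁)ˣ) (s59t_KQ (p ^ n) qv)) (1 : (s59t_Delta (N₁ * ∏ j, qv j) (s59t_Hmul N₁ (∏ j, qv j) (⊤ : Subgroup (ZMod N₁)ˣ) (s59t_KQ (p ^ n) qv))) →* 𝒪ˣ),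
          ∀ v ∈ s59t_eig (s59t_partRep (s59t_partRep (s59t_rho (N₁ * ∏ j, qv j) (s59t_Hmul N₁ (∏ j, qv j) (⊤ : Subgroup (ZMod N₁)ˣ) (s59t_KQ (p ^ n) qv)) 𝒪 𝒪) hρ'₁) hP'₁) (s59t_CQ N₁ (∏ j, qv j) (⊤ : Subgroup (ZMod N₁)ˣ) (s59t_KQ (p ^ n) qv)) (1 : (s59t_Delta (N₁ * ∏ j, qv j) (s59t_Hmul N₁ (∏ j, qv j) (⊤ : Subgroup (ZMod N₁)ˣ) (s59t_KQ (p ^ n) qv))) →* 𝒪ˣ),
          ∃ z ∈ s59t_eig (s59t_partRep (s59t_partRep (s59t_rho (N₂ * ∏ j, qv j) (s59t_Hmul N₂ (∏ j, qv j) (⊤ : Subgroup (ZMod N₂)ˣ) (s59t_KQ (p ^ n) qv)) 𝒪 𝒪) hρ'₂) hP'₂) (s59t_CQ N₂ (∏ j, qv j) (⊤ : Subgroup (ZMod N₂)ˣ) (s59t_KQ (p ^ n) qv)) (1 : (s59t_Delta (N₂ * ∏ j, qv j) (s59t_Hmul N₂ (∏ j, qv j) (⊤ : Subgroup (ZMod N₂)ˣ) (s59t_KQ (p ^ n) qv))) →* 𝒪ˣ),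
            (s59x_oldSub ((s59f_oldN hqL hN' hG' 𝒪 𝒪 (s59f_eW hqL ((p ^ (0 + n) - 1) * ((p ^ (0 + n) + 1) / 2))) he' hee).restrict hc') hst).corA z = ((θ₁ x : s59e_adj 𝒪 aZ₁) : Module.End 𝒪 (s59t_part P'₁)) u ∧
            (s59x_oldSub ((s59f_oldN hqL hN' hG' 𝒪 𝒪 (s59f_eW hqL ((p ^ (0 + n) - 1) * ((p ^ (0 + n) + 1) / 2))) he' hee).restrict hc') hst).corB z = ((θ₁ x : s59e_adj 𝒪 aZ₁) : Module.End 𝒪 (s59t_part P'₁)) v),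
      s59x_StepConclLv rec₁.Lv rec₂.Lv OldS q φq Jm

/-- **one step of the chain on the kernel pairs, concrete form, weak trace clause, general upper level.** -/
theorem s59x_step_concZ_gen (p : ℕ) [Fact p.Prime] (hp2 : p ≠ 2) (W : WeierstrassCurve ℤ) (hΔ : W.Δ ≠ 0)
    (B : Finset ℕ) (hirr : W.ModRepIsIrreducible p)
    (hB2 : ∀ r : ℕ, r.Prime → ¬ W.IsGoodPrimeFor r → r ∈ B)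
    (𝒪 : Type) [CommRing 𝒪] [IsDomain 𝒪] [IsDiscreteValuationRing 𝒪]
    [IsAdicComplete (maximalIdeal 𝒪) 𝒪] [Finite (ResidueField 𝒪)] [CharZero 𝒪]
    [Algebra ℤ_[p] 𝒪] [Module.Finite ℤ_[p] 𝒪]
    (hp𝒪 : ((p : ℕ) : 𝒪) ∈ maximalIdeal 𝒪)
    (σ : Type) [DecidableEq σ] [Fintype σ]
    -- the two levels
    (N₁ q N₂ : ℕ) [NeZero N₁] [NeZero N₂] [hq : Fact q.Prime] (hN : N₂ = N₁ * q) :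
    s59x_StepConcZStmt p hp2 W hΔ B hirr hB2 𝒪 hp𝒪 σ N₁ q N₂ hN := by
  subst hN
  exact Internal.s59x_step_concZ p hp2 W hΔ B hirr hB2 𝒪 hp𝒪 σ N₁ q

end Fermat.Agent.Lib.S59

end
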