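/-
PROGRAMME (R2) = S59, case (P), NON-MINIMAL half, item [WALL] / [W4c] (helper7, prefix `s59x_`): **EICHLER–SHIMURA (Z1) AND [NEW-q] (Z2) ON THE
KERNEL PAIRS** = the hypotheses `hES`, `hNEW` of `Internal.s59x_step_concZ` (NXConcZ.lean).  Twins of helper4's `s59f_oldN_T_level` (FZ1b.lean)
and `s59f_NEW_level` (FZ2b.lean): helper4's ring-context theorems `s59f_ES_TPkg` (FZ1.lean), `s59f_NEW_TPkg` (FZ2.lean) are stated for an abstract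
module `j : Y' ↪ H_par` with operators `opY`; here `Y' := s59t_part P'` (the kernel pair inside the part of `ε'`), `j := s59x_jZ`,
`opY := s59x_opZ` (NXKerH1.lean), and the package is `s59x_oldSub ((s59f_oldN …).restrict hc) hst` (NXOldSub.lean).
-/
import Mathlib
import Fermat.Agent.Lib.S59.FZ1b
import Fermat.Agent.Lib.S59.FZ2b
import Fermat.Agent.Lib.S59.NXKerH1
import Fermat.Agent.Lib.S59.NXOldSub

set_option autoImplicit false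
set_option linter.unusedSectionVars false
set_option linter.unusedVariables false
set_option linter.style.haveILetI false
set_option synthInstance.maxHeartbeats 400000
set_option maxSynthPendingDepth 3
set_option maxHeartbeats 4000000

noncomputable section

namespace Fermat.Agent.Lib.S59

open Fermat.Agent.Lib.S29 Fermat.Agent.Lib.S30 Fermat.Agent.Lib.S48 Fermat.Agent.Lib.PT
open IsLocalRing TensorProduct Polynomial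
open CongruenceSubgroup ModularCurve.Period
open scoped MatrixGroups

local notation "Qbar" => AlgebraicClosure ℚ
local notation "GQ" => (AlgebraicClosure ℚ ≃ₐ[ℚ] AlgebraicClosure ℚ)

section ESZ

variable {L q N' : ℕ} [NeZero L] [NeZero N'] [hq : Fact q.Prime] (hqL : ¬ q ∣ L)
  (hN' : N' = L * q) (H : Subgroup (ZMod L)ˣ) {H' : Subgroup (ZMod N')ˣ}
  (hG' : s59f_IsG' L q H (s48h_GammaH N' H'))
  {𝒪 : Type} [CommRing 𝒪] [IsDomain 𝒪] [IsDiscreteValuationRing 𝒪]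
  [IsAdicComplete (maximalIdeal 𝒪) 𝒪] [Finite (ResidueField 𝒪)] [CharZero 𝒪]
  (ε' : Module.End 𝒪 (s48h_Hpar 𝒪 (s48h_GammaH L H) 𝒪))
  (hεop : ∀ x y, ε' (s59w_op H 𝒪 x y) = s59w_op H 𝒪 x (ε' y))
  (P' : Module.End 𝒪 (s59t_part ε'))
  (hZop : ∀ x, ∀ z ∈ s59t_part P', s59m_opPart H ε' hεop x z ∈ s59t_part P')

variable {A : Type} [CommRing A] (a : A →+* Module.End 𝒪 (s48h_Hpar 𝒪 (s48h_GammaH L H) 𝒪)) (k : ℕ)
  (ha : ∀ t, a t ∈ Subring.closure (Set.range (s59e_Tp' H 𝒪 k)))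
  (aZ : A →+* Module.End 𝒪 (s59t_part P'))
  (haZ : ∀ t (z : s59t_part P'), s59x_jZ H ε' P' (aZ t z) = a t (s59x_jZ H ε' P' z))

include hεop hZop ha haZ in
/-- **(Z1) on the kernel pair**: the operator `T` of the package on the kernel pairs is `θ(tr ρ^univ(σ_q))`, `σ_q` ANY Frobenius at
`q`. -/
theorem Internal.s59x_oldN_T_levelZ [IsLocalRing (s59e_adj 𝒪 aZ)]
    (p : ℕ) [hpP : Fact p.Prime] (hp2 : p ≠ 2) (hqp : q ≠ p)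
    (N : ℕ) [NeZero N] (Q : Finset ℕ)
    (hMeq : L = N * ∏ q ∈ Q, q) (hQ : ∀ q ∈ Q, q.Prime ∧ ¬ q ∣ N)
    {D : ℕ} (hDQ : D = ∏ q ∈ Q, q) (hD : D ∣ L) (hH : s59u_ker L D hD ≤ H)
    {e m : ℕ} (hnm : 2 * m = p ^ e + 1) (hn : ∀ u : (ZMod L)ˣ, u ^ (p ^ e) ∈ H)
    (hk : k = (p ^ e - 1) * m)
    [Algebra ℤ_[p] 𝒪]
    (hp𝒪 : ((p : ℕ) : 𝒪) ∈ maximalIdeal 𝒪)
    (S : Finset ℕ) (hpS : p ∈ S) (hMS : ∀ r : ℕ, r.Prime → r ∣ L → r ∈ S)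
    {ρbar : ResidualGaloisRep (ResidueField 𝒪)}
    {𝒟 : ∀ ⦃A : Type⦄ [CommRing A] [IsLocalRing A] [Algebra 𝒪 A], GaloisRepAdic A → Prop}
    (DQ : GaloisRep.DeformationRingData 𝒪 ρbar 𝒟)
    (θ : DQ.R →ₐ[𝒪] s59e_adj 𝒪 aZ) (hθ : Function.Surjective θ)
    (tT' : ℕ → s59e_adj 𝒪 aZ)
    (htT' : ∀ i : s59w_TIdx L, i.ell ∉ S → ∀ z : s59t_part P',
      s59x_jZ H ε' P' (((tT' i.ell : s59e_adj 𝒪 aZ) : Module.End 𝒪 (s59t_part P')) z) =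
        s59e_Tp' H 𝒪 k i (s59x_jZ H ε' P' z))
    (hfrobT : ∀ ℓ : ℕ, ℓ.Prime → ℓ ∉ S →
      ∀ A : ValuationSubring (AlgebraicClosure ℚ), A.LiesOverPrime ℓ →
      ∀ τ : GQ, A.IsFrobeniusAt τ ℓ →
        (LinearMap.charpoly (DQ.ρ.ρ τ)).map (θ : DQ.R →+* s59e_adj 𝒪 aZ) =
          Polynomial.X ^ 2 - Polynomial.C (tT' ℓ) * Polynomial.X +
            Polynomial.C ((ℓ : s59e_adj 𝒪 aZ)))
    -- the package
    (he' : s59f_eW hqL k ∈ Gamma0 N')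
    (hee : s59f_gW hqL * s59f_eW hqL k * s59f_eW hqL k ∈ s48h_GammaH N' H')
    (ε'' : Module.End 𝒪 (s48h_Hpar 𝒪 (s48h_GammaH N' H') 𝒪))
    (hc : (s59f_oldN hqL hN' hG' 𝒪 𝒪 (s59f_eW hqL k) he' hee).Compat ε' ε'')
    (P'' : Module.End 𝒪 (s59t_part ε''))
    (hst : s59x_OldStable ((s59f_oldN hqL hN' hG' 𝒪 𝒪 (s59f_eW hqL k) he' hee).restrict hc)
      (s59t_part P') (s59t_part P''))
    -- the Frobenius
    (A₀ : ValuationSubring Qbar) (hA₀ : A₀.LiesOverPrime q) (σq : GQ)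
    (hσq : A₀.IsFrobeniusAt σq q) :
    ∀ y : s59t_part P',
      (s59x_oldSub ((s59f_oldN hqL hN' hG' 𝒪 𝒪 (s59f_eW hqL k) he' hee).restrict hc) hst).T y =
        ((θ (s59i_cpTr DQ.ρ σq) : s59e_adj 𝒪 aZ) : Module.End 𝒪 (s59t_part P')) y := by
  intro y
  haveI : Module.Finite 𝒪 (s48h_Hpar 𝒪 (s48h_GammaH L H) 𝒪) := s59t_Hpar_finite 𝒪
  haveI : Module.Finite 𝒪 (s59t_part ε') := s59t_part_finite ε'
  haveI : Module.Finite 𝒪 (s59t_part P') := s59t_part_finite P'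
  have h1 := s59f_ES_TPkg H (s59x_jZ H ε' P') (s59x_jZ_injective H ε' P')
    (s59x_opZ H ε' hεop P' hZop) (fun _ _ => rfl) a k ha aZ haZ p hp2 N Q hMeq hQ hDQ hD hH hnm hn hk
    hp𝒪 S hpS hMS DQ θ hθ tT' htT' hfrobT (s59f_iW hqL) hqp A₀ hA₀ σq hσq y
  refine s59x_jZ_injective H ε' P' ?_
  refine Eq.trans ?_ h1.symm
  show (s59f_oldN hqL hN' hG' 𝒪 𝒪 (s59f_eW hqL k) he' hee).T
    (((y : s59t_part ε') : s48h_Hpar 𝒪 (s48h_GammaH L H) 𝒪)) = _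
  rw [s59f_oldN_T_eq_Tp' hqL hN' hG' k he' hee]
  rfl

end ESZ

section NewZAux

variable {L q : ℕ} [NeZero L] [NeZero (L * q)] [hq : Fact q.Prime] (hqL : ¬ q ∣ L)
  (H : Subgroup (ZMod L)ˣ) (H' : Subgroup (ZMod (L * q))ˣ)
  (hLN : L ∣ L * q) (hH' : ∀ u : (ZMod (L * q))ˣ, u ∈ H' ↔ ZMod.unitsMap hLN u ∈ H)
  (hG' : s59f_IsG' L q H (s48h_GammaH (L * q) H'))
  {𝒪 : Type} [CommRing 𝒪] [IsDomain 𝒪] [IsDiscreteValuationRing 𝒪]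
  [IsAdicComplete (maximalIdeal 𝒪) 𝒪] [Finite (ResidueField 𝒪)] [CharZero 𝒪]
  (ε'' : Module.End 𝒪 (s48h_Hpar 𝒪 (s48h_GammaH (L * q) H') 𝒪))
  (hεop : ∀ x y, ε'' (s59w_op H' 𝒪 x y) = s59w_op H' 𝒪 x (ε'' y))
  (P'' : Module.End 𝒪 (s59t_part ε''))
  (hZop : ∀ x, ∀ z ∈ s59t_part P'', s59m_opPart H' ε'' hεop x z ∈ s59t_part P'')

variable {A : Type} [CommRing A]
  (a : A →+* Module.End 𝒪 (s48h_Hpar 𝒪 (s48h_GammaH (L * q) H') 𝒪)) (k : ℕ)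
  (ha : ∀ t, a t ∈ Subring.closure (Set.range (s59e_Tp' H' 𝒪 k)))
  (aZ : A →+* Module.End 𝒪 (s59t_part P''))
  (haZ : ∀ t (z : s59t_part P''), s59x_jZ H' ε'' P'' (aZ t z) = a t (s59x_jZ H' ε'' P'' z))

include hH' hεop hZop ha haZ in
/-- (Z2) on the kernel pair, at the level `L * q` on the nose. -/
theorem Internal.s59x_NEW_levelZ_aux [IsLocalRing (s59e_adj 𝒪 aZ)]
    (p : ℕ) [hpP : Fact p.Prime] (hp2 : p ≠ 2) (hqp : q ≠ p)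
    (N₁ : ℕ) [NeZero N₁] (Q : Finset ℕ) (hQ : ∀ q' ∈ Q, q'.Prime ∧ ¬ q' ∣ N₁ * q)
    (hL : L = N₁ * ∏ q' ∈ Q, q') (hD₁ : (∏ q' ∈ Q, q') ∣ L)
    (hHker : s59u_ker L (∏ q' ∈ Q, q') hD₁ ≤ H)
    {e m : ℕ} (hnm : 2 * m = p ^ e + 1) (hn : ∀ u : (ZMod (L * q))ˣ, u ^ (p ^ e) ∈ H')
    (hk : k = (p ^ e - 1) * m)
    [Algebra ℤ_[p] 𝒪]
    (hp𝒪 : ((p : ℕ) : 𝒪) ∈ maximalIdeal 𝒪)
    (S : Finset ℕ) (hpS : p ∈ S) (hMS : ∀ r : ℕ, r.Prime → r ∣ L * q → r ∈ S)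
    {ρbar : ResidualGaloisRep (ResidueField 𝒪)}
    {𝒟 : ∀ ⦃A : Type⦄ [CommRing A] [IsLocalRing A] [Algebra 𝒪 A], GaloisRepAdic A → Prop}
    (DQ : GaloisRep.DeformationRingData 𝒪 ρbar 𝒟)
    (θ : DQ.R →ₐ[𝒪] s59e_adj 𝒪 aZ) (hθ : Function.Surjective θ)
    (tT' : ℕ → s59e_adj 𝒪 aZ)
    (htT' : ∀ i : s59w_TIdx (L * q), i.ell ∉ S → ∀ z : s59t_part P'',
      s59x_jZ H' ε'' P'' (((tT' i.ell : s59e_adj 𝒪 aZ) : Module.End 𝒪 (s59t_part P'')) z) =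
        s59e_Tp' H' 𝒪 k i (s59x_jZ H' ε'' P'' z))
    (hfrobT : ∀ ℓ : ℕ, ℓ.Prime → ℓ ∉ S →
      ∀ A : ValuationSubring (AlgebraicClosure ℚ), A.LiesOverPrime ℓ →
      ∀ τ : GQ, A.IsFrobeniusAt τ ℓ →
        (LinearMap.charpoly (DQ.ρ.ρ τ)).map (θ : DQ.R →+* s59e_adj 𝒪 aZ) =
          Polynomial.X ^ 2 - Polynomial.C (tT' ℓ) * Polynomial.X +
            Polynomial.C ((ℓ : s59e_adj 𝒪 aZ)))
    -- the package
    (e₀ : SL(2, ℤ)) (he' : e₀ ∈ Gamma0 (L * q))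
    (hee : s59f_gW hqL * e₀ * e₀ ∈ s48h_GammaH (L * q) H')
    (ε' : Module.End 𝒪 (s48h_Hpar 𝒪 (s48h_GammaH L H) 𝒪))
    (hc : (s59f_oldN hqL rfl hG' 𝒪 𝒪 e₀ he' hee).Compat ε' ε'')
    (P' : Module.End 𝒪 (s59t_part ε'))
    (hst : s59x_OldStable ((s59f_oldN hqL rfl hG' 𝒪 𝒪 e₀ he' hee).restrict hc)
      (s59t_part P') (s59t_part P''))
    -- the Frobenius
    (A₀ : ValuationSubring Qbar) (hA₀ : A₀.LiesOverPrime q) (σq : GQ)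
    (hσq : A₀.IsFrobeniusAt σq q) :
    ∀ z : s59t_part P'',
      (s59x_oldSub ((s59f_oldN hqL rfl hG' 𝒪 𝒪 e₀ he' hee).restrict hc) hst).corA z = 0 →
      (s59x_oldSub ((s59f_oldN hqL rfl hG' 𝒪 𝒪 e₀ he' hee).restrict hc) hst).corB z = 0 →
      ((θ (s59i_cpTr DQ.ρ σq) : s59e_adj 𝒪 aZ) : Module.End 𝒪 (s59t_part P''))
          (((θ (s59i_cpTr DQ.ρ σq) : s59e_adj 𝒪 aZ) : Module.End 𝒪 (s59t_part P'')) z) =
        (((q : 𝒪) + 1) ^ 2) • z := by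
  haveI : NeZero q := ⟨hq.out.ne_zero⟩
  haveI : Module.Finite 𝒪 (s48h_Hpar 𝒪 (s48h_GammaH (L * q) H') 𝒪) := s59t_Hpar_finite 𝒪
  haveI : Module.Finite 𝒪 (s59t_part ε'') := s59t_part_finite ε''
  haveI : Module.Finite 𝒪 (s59t_part P'') := s59t_part_finite P''
  -- the kernel-new submodule
  have hZex : ∃ Zs, Zs =
    LinearMap.ker (s59x_oldSub ((s59f_oldN hqL rfl hG' 𝒪 𝒪 e₀ he' hee).restrict hc) hst).corA ⊓
      LinearMap.ker (s59x_oldSub ((s59f_oldN hqL rfl hG' 𝒪 𝒪 e₀ he' hee).restrict hc) hst).corB :=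
    ⟨_, rfl⟩
  choose Zs hZs_def using hZex
  have hcomp : ∀ x : s59w_AIdx (L * q),
      (s59f_oldN hqL rfl hG' 𝒪 𝒪 e₀ he' hee).Compat (s59w_op H 𝒪 (s59t_AIdx_down hLN x))
        (s59w_op H' 𝒪 x) := by
    intro x
    have := s59f_oldN_compat_wop hqL rfl hG' e₀ he' hee hLN (dvd_refl (L * q)) (R := 𝒪) x
    rwa [s59t_AIdx_down_self] at this
  have hcoeA : ∀ z : s59t_part P'',
      (s59x_oldSub ((s59f_oldN hqL rfl hG' 𝒪 𝒪 e₀ he' hee).restrict hc) hst).corA z = 0 →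
      (s59f_oldN hqL rfl hG' 𝒪 𝒪 e₀ he' hee).corA (s59x_jZ H' ε'' P'' z) = 0 := by
    intro z hz
    have h1 := congrArg (fun w : s59t_part P' => ((w : s59t_part ε') :
      s48h_Hpar 𝒪 (s48h_GammaH L H) 𝒪)) hz
    exact h1
  have hcoeB : ∀ z : s59t_part P'',
      (s59x_oldSub ((s59f_oldN hqL rfl hG' 𝒪 𝒪 e₀ he' hee).restrict hc) hst).corB z = 0 →
      (s59f_oldN hqL rfl hG' 𝒪 𝒪 e₀ he' hee).corB (s59x_jZ H' ε'' P'' z) = 0 := by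
    intro z hz
    have h1 := congrArg (fun w : s59t_part P' => ((w : s59t_part ε') :
      s48h_Hpar 𝒪 (s48h_GammaH L H) 𝒪)) hz
    exact h1
  have hZs : ∀ jdx, ∀ y ∈ Zs, s59x_opZ H' ε'' hεop P'' hZop jdx y ∈ Zs := by
    intro jdx y hy
    rw [hZs_def, Submodule.mem_inf, LinearMap.mem_ker, LinearMap.mem_ker] at hy ⊢
    constructor
    · refine Subtype.ext (Subtype.ext ?_)
      show (s59f_oldN hqL rfl hG' 𝒪 𝒪 e₀ he' hee).corA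
        (s59w_op H' 𝒪 jdx (s59x_jZ H' ε'' P'' y)) = 0
      rw [← (hcomp jdx).corA, hcoeA y hy.1, map_zero]
    · refine Subtype.ext (Subtype.ext ?_)
      show (s59f_oldN hqL rfl hG' 𝒪 𝒪 e₀ he' hee).corB
        (s59w_op H' 𝒪 jdx (s59x_jZ H' ε'' P'' y)) = 0
      rw [← (hcomp jdx).corB, hcoeB y hy.2, map_zero]
  have he₀L : e₀ ∈ Gamma0 L := (s59f_Gamma0_of_mul he').1
  have hnewA : ∀ z ∈ Zs, s59f_corH hqL (s59f_isG_GammaH L H)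
      (s59f_isG'_GammaH hqL rfl (dvd_mul_right L q) hH') 𝒪
      ((s59x_jZ H' ε'' P'' z : s48h_Hpar 𝒪 (s48h_GammaH (L * q) H') 𝒪) :
        Additive (s48h_GammaH (L * q) H') →+ 𝒪) = 0 := by
    intro z hz
    rw [hZs_def, Submodule.mem_inf, LinearMap.mem_ker, LinearMap.mem_ker] at hz
    exact congrArg Subtype.val (hcoeA z hz.1)
  have hnewB : ∀ z ∈ Zs, s59f_corH hqL (s59f_isG_GammaH L H)
      (s59f_isG'_GammaH hqL rfl (dvd_mul_right L q) hH') 𝒪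
      (s59f_wH hqL (s59f_isG'_GammaH hqL rfl (dvd_mul_right L q) hH') 𝒪
        ((s59x_jZ H' ε'' P'' z : s48h_Hpar 𝒪 (s48h_GammaH (L * q) H') 𝒪) :
          Additive (s48h_GammaH (L * q) H') →+ 𝒪)) = 0 := by
    intro z hz
    rw [hZs_def, Submodule.mem_inf, LinearMap.mem_ker, LinearMap.mem_ker] at hz
    have h1 := hcoeB z hz.2
    have h2 : s59f_corH hqL (s59f_isG_GammaH L H) hG' 𝒪
        (s48h_diamondH H' e₀ he' 𝒪 (s59f_wH hqL hG' 𝒪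
          ((s59x_jZ H' ε'' P'' z : s48h_Hpar 𝒪 (s48h_GammaH (L * q) H') 𝒪) :
            Additive (s48h_GammaH (L * q) H') →+ 𝒪))) = 0 := congrArg Subtype.val h1
    rw [s59f_corH_diamond hqL rfl hG' he' he₀L] at h2
    exact s59f_diamondH_injective H he₀L (h2.trans (map_zero _).symm)
  have key := s59f_NEW_TPkg p N₁ q Q H' (s59x_jZ H' ε'' P'') (s59x_jZ_injective H' ε'' P'')
    (s59x_opZ H' ε'' hεop P'' hZop) (fun _ _ => rfl) a k ha aZ haZ hp2 hqp hQ hL hqL H hD₁ hHker hH' hnm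
    hn hk hp𝒪 S hpS hMS Zs hZs hnewA hnewB DQ θ hθ tT' htT' hfrobT A₀ hA₀ σq hσq
  intro z hzA hzB
  have hz : z ∈ Zs := by
    rw [hZs_def, Submodule.mem_inf, LinearMap.mem_ker, LinearMap.mem_ker]
    exact ⟨hzA, hzB⟩
  exact key z hz

end NewZAux

section NewZ

variable {L q N' : ℕ} [NeZero L] [NeZero N'] [hq : Fact q.Prime] (hqL : ¬ q ∣ L)
  (hN' : N' = L * q) (H : Subgroup (ZMod L)ˣ) (H' : Subgroup (ZMod N')ˣ)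
  (hLN : L ∣ N') (hH' : ∀ u : (ZMod N')ˣ, u ∈ H' ↔ ZMod.unitsMap hLN u ∈ H)
  (hG' : s59f_IsG' L q H (s48h_GammaH N' H'))
  {𝒪 : Type} [CommRing 𝒪] [IsDomain 𝒪] [IsDiscreteValuationRing 𝒪]
  [IsAdicComplete (maximalIdeal 𝒪) 𝒪] [Finite (ResidueField 𝒪)] [CharZero 𝒪]
  (ε'' : Module.End 𝒪 (s48h_Hpar 𝒪 (s48h_GammaH N' H') 𝒪))
  (hεop : ∀ x y, ε'' (s59w_op H' 𝒪 x y) = s59w_op H' 𝒪 x (ε'' y))
  (P'' : Module.End 𝒪 (s59t_part ε''))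
  (hZop : ∀ x, ∀ z ∈ s59t_part P'', s59m_opPart H' ε'' hεop x z ∈ s59t_part P'')

variable {A : Type} [CommRing A]
  (a : A →+* Module.End 𝒪 (s48h_Hpar 𝒪 (s48h_GammaH N' H') 𝒪)) (k : ℕ)
  (ha : ∀ t, a t ∈ Subring.closure (Set.range (s59e_Tp' H' 𝒪 k)))
  (aZ : A →+* Module.End 𝒪 (s59t_part P''))
  (haZ : ∀ t (z : s59t_part P''), s59x_jZ H' ε'' P'' (aZ t z) = a t (s59x_jZ H' ε'' P'' z))

include hH' hεop hZop ha haZ in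
/-- **(Z2) [NEW-q] on the kernel pair**: on the classes of the kernel pair of level `N' = L q` which are killed by `cor_A`, `cor_B`
of the package at `q`, `θ(tr ρ^univ(σ_q))² = (q + 1)²`. -/
theorem Internal.s59x_NEW_levelZ [IsLocalRing (s59e_adj 𝒪 aZ)]
    (p : ℕ) [hpP : Fact p.Prime] (hp2 : p ≠ 2) (hqp : q ≠ p)
    (N₁ : ℕ) [NeZero N₁] (Q : Finset ℕ) (hQ : ∀ q' ∈ Q, q'.Prime ∧ ¬ q' ∣ N₁ * q)
    (hL : L = N₁ * ∏ q' ∈ Q, q') (hD₁ : (∏ q' ∈ Q, q') ∣ L)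
    (hHker : s59u_ker L (∏ q' ∈ Q, q') hD₁ ≤ H)
    {e m : ℕ} (hnm : 2 * m = p ^ e + 1) (hn : ∀ u : (ZMod N')ˣ, u ^ (p ^ e) ∈ H')
    (hk : k = (p ^ e - 1) * m)
    [Algebra ℤ_[p] 𝒪]
    (hp𝒪 : ((p : ℕ) : 𝒪) ∈ maximalIdeal 𝒪)
    (S : Finset ℕ) (hpS : p ∈ S) (hMS : ∀ r : ℕ, r.Prime → r ∣ N' → r ∈ S)
    {ρbar : ResidualGaloisRep (ResidueField 𝒪)}
    {𝒟 : ∀ ⦃A : Type⦄ [CommRing A] [IsLocalRing A] [Algebra 𝒪 A], GaloisRepAdic A → Prop}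
    (DQ : GaloisRep.DeformationRingData 𝒪 ρbar 𝒟)
    (θ : DQ.R →ₐ[𝒪] s59e_adj 𝒪 aZ) (hθ : Function.Surjective θ)
    (tT' : ℕ → s59e_adj 𝒪 aZ)
    (htT' : ∀ i : s59w_TIdx N', i.ell ∉ S → ∀ z : s59t_part P'',
      s59x_jZ H' ε'' P'' (((tT' i.ell : s59e_adj 𝒪 aZ) : Module.End 𝒪 (s59t_part P'')) z) =
        s59e_Tp' H' 𝒪 k i (s59x_jZ H' ε'' P'' z))
    (hfrobT : ∀ ℓ : ℕ, ℓ.Prime → ℓ ∉ S →
      ∀ A : ValuationSubring (AlgebraicClosure ℚ), A.LiesOverPrime ℓ →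
      ∀ τ : GQ, A.IsFrobeniusAt τ ℓ →
        (LinearMap.charpoly (DQ.ρ.ρ τ)).map (θ : DQ.R →+* s59e_adj 𝒪 aZ) =
          Polynomial.X ^ 2 - Polynomial.C (tT' ℓ) * Polynomial.X +
            Polynomial.C ((ℓ : s59e_adj 𝒪 aZ)))
    -- the package
    (e₀ : SL(2, ℤ)) (he' : e₀ ∈ Gamma0 N')
    (hee : s59f_gW hqL * e₀ * e₀ ∈ s48h_GammaH N' H')
    (ε' : Module.End 𝒪 (s48h_Hpar 𝒪 (s48h_GammaH L H) 𝒪))
    (hc : (s59f_oldN hqL hN' hG' 𝒪 𝒪 e₀ he' hee).Compat ε' ε'')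
    (P' : Module.End 𝒪 (s59t_part ε'))
    (hst : s59x_OldStable ((s59f_oldN hqL hN' hG' 𝒪 𝒪 e₀ he' hee).restrict hc)
      (s59t_part P') (s59t_part P''))
    -- the Frobenius
    (A₀ : ValuationSubring Qbar) (hA₀ : A₀.LiesOverPrime q) (σq : GQ)
    (hσq : A₀.IsFrobeniusAt σq q) :
    ∀ z : s59t_part P'',
      (s59x_oldSub ((s59f_oldN hqL hN' hG' 𝒪 𝒪 e₀ he' hee).restrict hc) hst).corA z = 0 →
      (s59x_oldSub ((s59f_oldN hqL hN' hG' 𝒪 𝒪 e₀ he' hee).restrict hc) hst).corB z = 0 →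
      ((θ (s59i_cpTr DQ.ρ σq) : s59e_adj 𝒪 aZ) : Module.End 𝒪 (s59t_part P''))
          (((θ (s59i_cpTr DQ.ρ σq) : s59e_adj 𝒪 aZ) : Module.End 𝒪 (s59t_part P'')) z) =
        (((q : 𝒪) + 1) ^ 2) • z := by
  subst hN'
  exact Internal.s59x_NEW_levelZ_aux hqL H H' hLN hH' hG' ε'' hεop P'' hZop a k ha aZ haZ p hp2 hqp N₁ Q hQ hL
    hD₁ hHker hnm hn hk hp𝒪 S hpS hMS DQ θ hθ tT' htT' hfrobT e₀ he' hee ε' hc P' hst A₀ hA₀ σq hσq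

end NewZ

export Internal (s59x_oldN_T_levelZ s59x_NEW_levelZ_aux s59x_NEW_levelZ)

end Fermat.Agent.Lib.S59

end
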