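/-
PROGRAMME R2 = S59, case (P), node [W5]-top (helper3, prefix `s59u_p_`), file `UPExp`: **THE TWO EXPORTS (E2) + (E-conc-P) OF THE BASE
PACKAGE OF THE KERNEL PAIR, IN THE DIALECT OF helper7's `base_binders`** (`NXKerH3r.lean`: `ε hρ P hP a₀ ha1₀ aZ₀ haZ₀ hRρ ρR hfrobR
hgenR`, module `s59t_EigT (ρ^Z) ⊤ 1 hRρ` over the ring `s59e_adj 𝒪 aZ₀`, `ρ^Z := partRep (partRep rho hρ) hP`).

* `s59u_p_eig_top_baseZ` : at the base level `(N, ⊤)` every class of the kernel part is in the eigen-part (trivial diamond group);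
* **`s59u_p_E2_Z`** : (E2) — the Hecke ring `𝒪[aZ₀(𝕋)] ⊆ End_𝒪 Z` acts faithfully on the base module;
* **`s59u_p_EConcP_Z`** : (E-conc-P) — `s59u_c2_EConcP 𝒪 p N₀ B c (s59e_adj 𝒪 aZ₀) ρR` for `Z = s59t_part P` the kernel part of the
  `p`-package `s59f_oldN hpL₀ hN₀ hGb 𝒪 𝒪 e_b he_b hee_b` restricted to `(ε₁, E₀(e))` (`hmem` = helper9's `s59m_KerConcl.hmem` shape).
-/
import Mathlib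
import Fermat.Agent.Lib.S59.UC2PA
import Fermat.Agent.Lib.S59.NXKerH1

set_option autoImplicit false
set_option linter.unusedSectionVars false
set_option linter.unusedVariables false
set_option linter.style.haveILetI false
set_option synthInstance.maxHeartbeats 400000
set_option maxHeartbeats 1600000
set_option maxSynthPendingDepth 3

noncomputable section

namespace Fermat.Agent.Lib.S59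

open IsLocalRing CongruenceSubgroup CuspForm
open Fermat.Agent.Lib.S48
open scoped MatrixGroups

local notation "Γℚ" => (AlgebraicClosure ℚ ≃ₐ[ℚ] AlgebraicClosure ℚ)

section BaseZ

variable {𝒪 : Type} [CommRing 𝒪] (N : ℕ) [NeZero N]
  {ε : Module.End 𝒪 (s48h_Hpar 𝒪 (s48h_GammaH N (⊤ : Subgroup (ZMod N)ˣ)) 𝒪)}
  (hρ : ∀ δ y, ε (s59t_rho N (⊤ : Subgroup (ZMod N)ˣ) 𝒪 𝒪 δ y) =
    s59t_rho N (⊤ : Subgroup (ZMod N)ˣ) 𝒪 𝒪 δ (ε y))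
  {P : Module.End 𝒪 (s59t_part ε)}
  (hP : ∀ δ x, P (s59t_partRep (s59t_rho N (⊤ : Subgroup (ZMod N)ˣ) 𝒪 𝒪) hρ δ x) =
    s59t_partRep (s59t_rho N (⊤ : Subgroup (ZMod N)ˣ) 𝒪 𝒪) hρ δ (P x))

/-- at the base level `(N, ⊤)` every class of the kernel part is in the eigen-part. -/
theorem s59u_p_eig_top_baseZ (y : s59t_part P) :
    y ∈ s59t_eig (s59t_partRep (s59t_partRep (s59t_rho N (⊤ : Subgroup (ZMod N)ˣ) 𝒪 𝒪) hρ) hP) ⊤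
      (1 : s59t_Delta N (⊤ : Subgroup (ZMod N)ˣ) →* 𝒪ˣ) := by
  intro δ _
  have hδ : δ = 1 := Subsingleton.elim _ _
  rw [hδ, map_one]
  simp only [MonoidHom.one_apply, Units.val_one, one_smul, Module.End.one_apply]

variable {A : Type} [CommRing A] (aZ₀ : A →+* Module.End 𝒪 (s59t_part P))
  (hRρ : ∀ (t : s59e_adj 𝒪 aZ₀) (δ : s59t_Delta N (⊤ : Subgroup (ZMod N)ˣ)) (y : s59t_part P),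
    t • (s59t_partRep (s59t_partRep (s59t_rho N (⊤ : Subgroup (ZMod N)ˣ) 𝒪 𝒪) hρ) hP) δ y =
      (s59t_partRep (s59t_partRep (s59t_rho N (⊤ : Subgroup (ZMod N)ˣ) 𝒪 𝒪) hρ) hP) δ (t • y))

/-- **(E2) on the kernel part**: faithfulness of the base module over the base Hecke ring. -/
theorem s59u_p_E2_Z (a : s59e_adj 𝒪 aZ₀)
    (h : ∀ mm : s59t_EigT (s59t_partRep (s59t_partRep (s59t_rho N (⊤ : Subgroup (ZMod N)ˣ) 𝒪 𝒪) hρ) hP) ⊤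
      (1 : s59t_Delta N (⊤ : Subgroup (ZMod N)ˣ) →* 𝒪ˣ) hRρ, a • mm = 0) : a = 0 :=
  s59c3_EigT_faithful_gen (s59t_partRep (s59t_partRep (s59t_rho N (⊤ : Subgroup (ZMod N)ˣ) 𝒪 𝒪) hρ) hP) ⊤
    (1 : s59t_Delta N (⊤ : Subgroup (ZMod N)ˣ) →* 𝒪ˣ) aZ₀ hRρ (s59u_p_eig_top_baseZ N hρ hP) a h

end BaseZ

section EConc

variable {𝒪 : Type} [CommRing 𝒪] [IsLocalRing 𝒪] (p : ℕ) [Fact p.Prime] (N₀ : ℕ) [NeZero N₀]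
  (B : Finset ℕ) (c : ℕ → ℤ)
  (L₀ : ℕ) [NeZero L₀] (hpL₀ : ¬ p ∣ L₀) (hN₀ : N₀ = L₀ * p)
  (hGb : s59f_IsG' L₀ p (⊤ : Subgroup (ZMod L₀)ˣ) (s48h_GammaH N₀ (⊤ : Subgroup (ZMod N₀)ˣ)))
  (e_b : SL(2, ℤ)) (he_b : e_b ∈ Gamma0 N₀)
  (hee_b : s59f_gW hpL₀ * e_b * e_b ∈ s48h_GammaH N₀ (⊤ : Subgroup (ZMod N₀)ˣ))
  (e : MvPolynomial ↥(s59t_goodB N₀ B) 𝒪)
  (h1e : 1 - e ∈ s59t_evalIdeal (fun x : ↥(s59t_goodB N₀ B) => s59t_cB (𝒪 := 𝒪) N₀ c (x : s59w_AIdx N₀)))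
  (hid : s59t_E0 (⊤ : Subgroup (ZMod N₀)ˣ) B e * s59t_E0 (⊤ : Subgroup (ZMod N₀)ˣ) B e =
      s59t_E0 (⊤ : Subgroup (ZMod N₀)ˣ) B e)
  (hnil : ∀ x ∈ s59t_goodB N₀ B, ∃ n : ℕ,
      ∀ y : s48h_Hpar 𝒪 (s48h_GammaH N₀ (⊤ : Subgroup (ZMod N₀)ˣ)) 𝒪,
        ((s59w_op (⊤ : Subgroup (ZMod N₀)ˣ) 𝒪 x - s59t_cB (𝒪 := 𝒪) N₀ c x •
          (1 : Module.End 𝒪 (s48h_Hpar 𝒪 (s48h_GammaH N₀ (⊤ : Subgroup (ZMod N₀)ˣ)) 𝒪))) ^ n)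
          (s59t_E0 (⊤ : Subgroup (ZMod N₀)ˣ) B e y) ∈
          (maximalIdeal 𝒪 • ⊤ :
            Submodule 𝒪 (s48h_Hpar 𝒪 (s48h_GammaH N₀ (⊤ : Subgroup (ZMod N₀)ˣ)) 𝒪)))
  {ε₁ : Module.End 𝒪 (s48h_Hpar 𝒪 (s48h_GammaH L₀ (⊤ : Subgroup (ZMod L₀)ˣ)) 𝒪)}
  (hcb : (s59f_oldN hpL₀ hN₀ hGb 𝒪 𝒪 e_b he_b hee_b).Compat ε₁ (s59t_E0 (⊤ : Subgroup (ZMod N₀)ˣ) B e))
  (P : Module.End 𝒪 (s59t_part (s59t_E0 (⊤ : Subgroup (ZMod N₀)ˣ) B e)))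
  (hmem : ∀ x, x ∈ s59t_part P ↔
    ((s59f_oldN hpL₀ hN₀ hGb 𝒪 𝒪 e_b he_b hee_b).restrict hcb).corA x = 0 ∧
    ((s59f_oldN hpL₀ hN₀ hGb 𝒪 𝒪 e_b he_b hee_b).restrict hcb).corB x = 0)
  (a₀ : heckeAlgebra N₀ 2 (↑B : Set ℕ) →+*
    Module.End 𝒪 (s48h_Hpar 𝒪 (s48h_GammaH N₀ (⊤ : Subgroup (ZMod N₀)ˣ)) 𝒪))
  (ha1₀ : ∀ (ℓ : ℕ) (hℓ : ℓ.Prime) (hℓN : ¬ ℓ ∣ N₀) (hℓS : ℓ ∉ (↑B : Set ℕ)) (i : s59w_TIdx N₀),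
    i.ell = ℓ → a₀ (heckeAlgebra.T hℓ hℓN hℓS) =
      s59e_Tp' (⊤ : Subgroup (ZMod N₀)ˣ) 𝒪 ((p ^ 0 - 1) * ((p ^ 0 + 1) / 2)) i)
  (aZ₀ : heckeAlgebra N₀ 2 (↑B : Set ℕ) →+* Module.End 𝒪 (s59t_part P))
  (haZ₀ : ∀ t (z : s59t_part P),
    s59x_jZ (⊤ : Subgroup (ZMod N₀)ˣ) (s59t_E0 (⊤ : Subgroup (ZMod N₀)ˣ) B e) P (aZ₀ t z) =
      a₀ t (s59x_jZ (⊤ : Subgroup (ZMod N₀)ˣ) (s59t_E0 (⊤ : Subgroup (ZMod N₀)ˣ) B e) P z))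

include h1e hid hnil hmem ha1₀ haZ₀ in
/-- **(E-conc-P) for the Hecke ring of the kernel part of the base package** (helper7's dialect). -/
theorem Internal.s59u_p_EConcP_Z [IsLocalRing (s59e_adj 𝒪 aZ₀)] (ρR : GaloisRepAdic (s59e_adj 𝒪 aZ₀))
    (hfrobR : ∀ (ℓ : ℕ), ℓ.Prime → ¬ ℓ ∣ N₀ → ℓ ∉ (↑B : Set ℕ) →
      ∀ A : ValuationSubring (AlgebraicClosure ℚ), A.LiesOverPrime ℓ →
      ∀ g : Γℚ, A.IsFrobeniusAt g ℓ →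
        LinearMap.charpoly (ρR.ρ g) =
          Polynomial.X ^ 2 - Polynomial.C (s59e_tOf (↑B : Set ℕ) aZ₀ ℓ) * Polynomial.X +
            Polynomial.C ((ℓ : s59e_adj 𝒪 aZ₀)))
    (hgenR : Algebra.adjoin 𝒪 {x : s59e_adj 𝒪 aZ₀ | ∃ ℓ : ℕ, ℓ.Prime ∧ ¬ ℓ ∣ N₀ ∧
      ℓ ∉ (↑B : Set ℕ) ∧ x = s59e_tOf (↑B : Set ℕ) aZ₀ ℓ} = ⊤) :
    s59u_c2_EConcP 𝒪 p N₀ B c (s59e_adj 𝒪 aZ₀) ρR := by
  have hrange : ∀ y : s48h_Hpar 𝒪 (s48h_GammaH N₀ (⊤ : Subgroup (ZMod N₀)ˣ)) 𝒪,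
      s59t_E0 (⊤ : Subgroup (ZMod N₀)ˣ) B e y = y →
      (s59f_oldN hpL₀ hN₀ hGb 𝒪 𝒪 e_b he_b hee_b).corA y = 0 →
      (s59f_oldN hpL₀ hN₀ hGb 𝒪 𝒪 e_b he_b hee_b).corB y = 0 → y ∈ LinearMap.range
        (s59x_jZ (⊤ : Subgroup (ZMod N₀)ˣ) (s59t_E0 (⊤ : Subgroup (ZMod N₀)ˣ) B e) P) := by
    intro y hy hA hB
    have hyp : y ∈ s59t_part (s59t_E0 (⊤ : Subgroup (ZMod N₀)ˣ) B e) := ⟨y, hy⟩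
    have hx : (⟨y, hyp⟩ : s59t_part (s59t_E0 (⊤ : Subgroup (ZMod N₀)ˣ) B e)) ∈ s59t_part P :=
      (hmem ⟨y, hyp⟩).mpr ⟨Subtype.ext hA, Subtype.ext hB⟩
    exact ⟨⟨⟨y, hyp⟩, hx⟩, rfl⟩
  have hT : ∀ (ℓ : ℕ) (hℓ : ℓ.Prime) (hℓN : ¬ ℓ ∣ N₀) (hℓS : ℓ ∉ (↑B : Set ℕ)) (i : s59w_TIdx N₀),
      i.ell = ℓ → ∀ z : s59t_part P,
      s59x_jZ (⊤ : Subgroup (ZMod N₀)ˣ) (s59t_E0 (⊤ : Subgroup (ZMod N₀)ˣ) B e) P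
        (aZ₀ (heckeAlgebra.T hℓ hℓN hℓS) z) =
      s59w_op (⊤ : Subgroup (ZMod N₀)ˣ) 𝒪 (Sum.inl i)
        (s59x_jZ (⊤ : Subgroup (ZMod N₀)ˣ) (s59t_E0 (⊤ : Subgroup (ZMod N₀)ˣ) B e) P z) := by
    intro ℓ hℓ hℓN hℓS i hi z
    have h0 : (p ^ 0 - 1) * ((p ^ 0 + 1) / 2) = 0 := by simp
    have h1 := ha1₀ ℓ hℓ hℓN hℓS i hi
    rw [h0, s59c3_Tp'_zero] at h1
    rw [haZ₀, h1]
  exact s59u_c2_econcP_adj p N₀ B c L₀ hpL₀ hN₀ hGb e_b he_b hee_b e h1e hid hnil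
    (s59x_jZ (⊤ : Subgroup (ZMod N₀)ˣ) (s59t_E0 (⊤ : Subgroup (ZMod N₀)ˣ) B e) P)
    (s59x_jZ_injective (⊤ : Subgroup (ZMod N₀)ˣ) (s59t_E0 (⊤ : Subgroup (ZMod N₀)ˣ) B e) P)
    hrange aZ₀ hT ρR hfrobR hgenR

export Internal (s59u_p_EConcP_Z)

end EConc

end Fermat.Agent.Lib.S59

end
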