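/-
S59 project, case (P), route (T5w), [W4c] (helper9, prefix `s59m_`): **THE PARITY-FREE CORE OF THE FINAL `T`-SIDE THEOREM OF CASE (P)** —
`Internal.s59m_finCore : s59m_TFinCore p W hΔ` (statement in MKerFinS.lean), the twin of helper5's `s59efl_fin` / helper8's `s59c3_finX` on the
KERNEL PAIRS of the levels `N t * p`: base data and Taylor–Wiles data of every chain index from the hypothesis `hIdx` (`s59m_IdxConcl`), steps
from helper7's `s59x_step_concZ_gen` (weak trace clause, `J_m = ker κ_sf`), assembly by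
`s59m_asm_mk_w` over helper8's `s59c3_mkBase`; the exports (E2), (E-conc-P) by helper3's `s59u_p_E2_Z`, `s59u_p_EConcP_Z`.
-/
import Mathlib
import Fermat.Agent.Lib.S59.MKerFinS
import Fermat.Agent.Lib.S59.MKerAsmW
import Fermat.Agent.Lib.S59.UPExp
import Fermat.Agent.Lib.S59.C3FlrMk
import Fermat.Agent.Lib.S59.QExistDQ
import Fermat.Agent.Lib.S59.QSfType
import Fermat.Agent.Lib.S59.NXConcSt
import Fermat.Agent.Lib.S59.EFlrGen
import Fermat.Agent.Lib.S59.KLvlGrp
import Fermat.Agent.Lib.S59.KLvlFin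
import Fermat.Agent.Lib.S59.FZ1b
import Fermat.Agent.Lib.S59.FEps7
import Fermat.Agent.Lib.S59.UWPkg
import Fermat.Agent.Lib.S59.UFreyPkg
import Fermat.Agent.Lib.S59.ETLvlOps
import Fermat.Agent.Lib.S59.ELPkgHb
import Fermat.Agent.Lib.S59.NXStepH2
import Fermat.Agent.Lib.S59.NXStepH3
import Fermat.Agent.Lib.S59.MKerStepG
import Fermat.Agent.Lib.S59.MKerHFW
import Fermat.Agent.Lib.S59.MKerFlat
import Fermat.Agent.Lib.S59.NXAsmLv
import Fermat.Agent.Lib.S59.NXConcZg
import Fermat.Agent.Lib.S59.EFlrAsmL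
import Fermat.Agent.Lib.S59.EAuxLem

set_option autoImplicit false
set_option linter.unusedSectionVars false
set_option linter.unusedVariables false
set_option linter.style.haveILetI false
set_option maxHeartbeats 0
set_option synthInstance.maxHeartbeats 400000
set_option maxSynthPendingDepth 3
set_option backward.isDefEq.respectTransparency.types true

noncomputable section

namespace Fermat.Agent.Lib.S59

open IsLocalRing CuspForm Polynomial ExtCitation CongruenceSubgroup
open WeierstrassCurve WeierstrassCurve.Affine WeierstrassCurve.Affine.Point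
open Fermat.Agent.Lib.S48 Fermat.Agent.Lib.S44
open Fermat.Agent.Lib.S53 (NormData)
open scoped MatrixGroups

local notation "Γℚ" => (AlgebraicClosure ℚ ≃ₐ[ℚ] AlgebraicClosure ℚ)

/-- the numerology of the chain of levels. -/
theorem s59m_chain_mono (k : ℕ) (N qr : ℕ → ℕ) (hN : ∀ t, t < k → N (t + 1) = N t * qr t)
    (hfreeze : ∀ t, k ≤ t → N t = N k) : ∀ a b : ℕ, a ≤ b → N a ∣ N b := by
  intro a b hab
  induction b, hab using Nat.le_induction with
  | base => exact dvd_refl _
  | succ b hab ih =>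
    refine ih.trans ?_
    by_cases hb : b < k
    · exact Dvd.intro _ (hN b hb).symm
    · exact dvd_of_eq ((hfreeze b (not_lt.mp hb)).trans
        (hfreeze (b + 1) ((not_lt.mp hb).trans (Nat.le_succ b))).symm)

theorem s59m_chain_dvdk (k : ℕ) (N qr : ℕ → ℕ) (hN : ∀ t, t < k → N (t + 1) = N t * qr t)
    (hfreeze : ∀ t, k ≤ t → N t = N k) (s : ℕ) : N s ∣ N k := by
  by_cases hs : s ≤ k
  · exact s59m_chain_mono k N qr hN hfreeze s k hs
  · exact dvd_of_eq (hfreeze s (not_le.mp hs).le)

/-- a prime factor of a squarefree product does not divide the cofactor. -/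
theorem s59m_not_dvd_of_sqfree {a q : ℕ} (hq : q.Prime) (h : Squarefree (a * q)) : ¬ q ∣ a :=
  fun hd => hq.one_lt.ne' (Nat.isUnit_iff.mp (h q (mul_dvd_mul hd (dvd_refl q))))

/-- **the kernel pairs of two adjacent base levels are stable under the `q`-package** (the hypothesis `hstb` of `s59x_step_concZ_gen`): helper7's
`s59x_stable_of_mem` at the levels `L`, `L p`, `N_q = L q`, `N_q p`, all normalising elements `1`. -/
theorem s59m_stb_base {L p q Nq : ℕ} [NeZero L] [NeZero Nq] [NeZero (L * p)] [NeZero (Nq * p)] [hp : Fact p.Prime]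
    [hq : Fact q.Prime] (hpL : ¬ p ∣ L) (hqL : ¬ q ∣ L) (hpNq : ¬ p ∣ Nq) (hNq : Nq = L * q) (hN : Nq * p = L * p * q)
    (R : Type) [CommRing R]
    (he1 : (1 : SL(2, ℤ)) ∈ Gamma0 (L * p))
    (hee1 : s59f_gW hpL * 1 * 1 ∈ s48h_GammaH (L * p) (⊤ : Subgroup (ZMod (L * p))ˣ))
    (he1' : (1 : SL(2, ℤ)) ∈ Gamma0 (Nq * p))
    (hee1' : s59f_gW hpNq * 1 * 1 ∈ s48h_GammaH (Nq * p) (⊤ : Subgroup (ZMod (Nq * p))ˣ))
    {εL : Module.End R (s48h_Hpar R (s48h_GammaH L (⊤ : Subgroup (ZMod L)ˣ)) R)}
    {εp : Module.End R (s48h_Hpar R (s48h_GammaH (L * p) (⊤ : Subgroup (ZMod (L * p))ˣ)) R)}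
    {εq : Module.End R (s48h_Hpar R (s48h_GammaH Nq (⊤ : Subgroup (ZMod Nq)ˣ)) R)}
    {εpq : Module.End R (s48h_Hpar R (s48h_GammaH (Nq * p) (⊤ : Subgroup (ZMod (Nq * p))ˣ)) R)}
    (hcp₁ : (s59f_oldN hpL rfl (s59f_isG'_top hpL) R R 1 he1 hee1).Compat εL εp)
    (hcp₂ : (s59f_oldN hpNq rfl (s59f_isG'_top hpNq) R R 1 he1' hee1').Compat εq εpq)
    (P₁ : Module.End R (s59t_part εp)) (P₂ : Module.End R (s59t_part εpq))
    (hmem₁ : ∀ x : s59t_part εp, x ∈ s59t_part P₁ ↔
      ((s59f_oldN hpL rfl (s59f_isG'_top hpL) R R 1 he1 hee1).restrict hcp₁).corA x = 0 ∧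
      ((s59f_oldN hpL rfl (s59f_isG'_top hpL) R R 1 he1 hee1).restrict hcp₁).corB x = 0)
    (hmem₂ : ∀ x : s59t_part εpq, x ∈ s59t_part P₂ ↔
      ((s59f_oldN hpNq rfl (s59f_isG'_top hpNq) R R 1 he1' hee1').restrict hcp₂).corA x = 0 ∧
      ((s59f_oldN hpNq rfl (s59f_isG'_top hpNq) R R 1 he1' hee1').restrict hcp₂).corB x = 0)
    (hqN : ¬ q ∣ L * p)
    (hG'b : s59f_IsG' (L * p) q (⊤ : Subgroup (ZMod (L * p))ˣ) (s48h_GammaH (Nq * p) (⊤ : Subgroup (ZMod (Nq * p))ˣ)))
    (he1q : (1 : SL(2, ℤ)) ∈ Gamma0 (Nq * p))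
    (hee1q : s59f_gW hqN * 1 * 1 ∈ s48h_GammaH (Nq * p) (⊤ : Subgroup (ZMod (Nq * p))ˣ))
    (hcb : (s59f_oldN hqN hN hG'b R R 1 he1q hee1q).Compat εp εpq) :
    s59x_OldStable ((s59f_oldN hqN hN hG'b R R 1 he1q hee1q).restrict hcb) (s59t_part P₁) (s59t_part P₂) := by
  subst hNq
  have heq1 : (1 : SL(2, ℤ)) ∈ Gamma0 (L * q) := one_mem _
  have heeq : s59f_gW hqL * 1 * 1 ∈ s48h_GammaH (L * q) (⊤ : Subgroup (ZMod (L * q))ˣ) :=
    (s59t_mem_GammaH_iff_unit (H := (⊤ : Subgroup (ZMod (L * q))ˣ))
      ⟨_, mul_mem (mul_mem (s59f_gW_mem hqL) heq1) heq1⟩).mpr (Subgroup.mem_top _)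
  exact s59x_stable_of_mem hpL hqL hpNq hqN rfl rfl rfl hN (s59f_isG'_top hpL) (s59f_isG'_top hqL) (s59f_isG'_top hpNq)
    hG'b R 1 he1 he1' hee1 hee1' 1 heq1 he1q heeq hee1q hcp₁ hcp₂ hcb P₁ P₂ hmem₁ hmem₂

/-- `p` does not divide the Taylor–Wiles level of a `p`-free level. -/
theorem s59m_p_not_dvd_level {r : ℕ} (qv : Fin r → ℕ) (hqvpr : ∀ i, (qv i).Prime) (p L : ℕ) (hp : p.Prime)
    (hpL : ¬ p ∣ L) (hpq : ∀ i, qv i ≠ p) : ¬ p ∣ L * ∏ j, qv j := by
  intro h
  rcases (Nat.Prime.dvd_mul hp).mp h with h | h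
  · exact hpL h
  · obtain ⟨i, -, hi⟩ := (Prime.dvd_finsetProd_iff (Nat.prime_iff.mp hp) _).mp h
    exact hpq i ((Nat.prime_dvd_prime_iff_eq hp (hqvpr i)).mp hi).symm

/-- the Hecke ring of the part cut out by an idempotent is a finite `𝒪`-module. -/
theorem s59m_adjF_finite {𝒪 : Type} [CommRing 𝒪] [IsDomain 𝒪] [IsDiscreteValuationRing 𝒪] [CharZero 𝒪] {M : ℕ} [NeZero M]
    (H : Subgroup (ZMod M)ˣ) (ε : Module.End 𝒪 (s48h_Hpar 𝒪 (s48h_GammaH M H) 𝒪)) (hid : ε * ε = ε)
    {A : Type*} [Semiring A] [IsMulCommutative A] (aF : A →+* Module.End 𝒪 (s59t_part ε)) :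
    Module.Finite 𝒪 (s59e_adj 𝒪 aF) := by
  let bZ := Module.Free.chooseBasis ℤ (s48h_M (s48h_GammaH M H))
  haveI : Module.Free 𝒪 (s48h_Hpar 𝒪 (s48h_GammaH M H) 𝒪) := Module.Free.of_basis (s59u_cB bZ 𝒪)
  haveI : Module.Finite 𝒪 (s48h_Hpar 𝒪 (s48h_GammaH M H) 𝒪) := Module.Finite.of_basis (s59u_cB bZ 𝒪)
  haveI : Module.Finite 𝒪 (s59t_part ε) := s59t_part_finite _
  haveI : Module.Free 𝒪 (s59t_part ε) := s59t_part_free hid
  exact s59e_adj_finite aF

/-- **the parity-free core of the final `T`-side theorem of case (P)** (kernel pairs of the levels `N t * p`, weak trace clause). -/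
theorem Internal.s59m_finCore (p : ℕ) [Fact p.Prime] (W : WeierstrassCurve ℤ) (hΔ : W.Δ ≠ 0) : s59m_TFinCore p W hΔ := by
  classical
  intro hp2 B hirr hB2 𝒪 _ _ _ _ _ _ _ _ hp𝒪 habs Nd hordp k N qr hNZ hqr hN hfreeze hsq hpN hB1 hocc₁ hocc₂
    φr σr hφr hσr Sg0 Su Smin Sgm hpSgm hSgm0 hSminSgm hmin hSuB hSgN hSgmN hqrSgm D0 Dm σ _ _ hIdx
  haveI := hNZ
  have hpP : p.Prime := Fact.out
  haveI hNZp : ∀ t, NeZero (N t * p) := fun t => ⟨Nat.mul_ne_zero (NeZero.ne (N t)) hpP.ne_zero⟩
  have hpB : p ∈ B := hB1 0 p hpP (Dvd.intro_left _ rfl)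
  have hpSg0 : p ∈ Sg0 := hSgm0 hpSgm
  have hNB : ∀ t, ∀ q : ℕ, q.Prime → q ∣ N t → q ∈ B := fun t q hq h => hB1 t q hq (Dvd.dvd.mul_right h p)
  have hgoodB : ∀ q : ℕ, q.Prime → q ∉ B → W.IsGoodPrimeFor q := fun q hq hqB =>
    Classical.byContradiction fun hbad => hqB (hB2 q hq hbad)
  -- the numerology of the chain
  have hmin1 : ∀ t, t < k → min t k = t := fun t ht => Nat.min_eq_left ht.le
  have hmin2 : ∀ t, t < k → min (t + 1) k = t + 1 := fun t ht => Nat.min_eq_left ht
  have hmk : ∀ t, k ≤ t → min k k = min t k := fun t ht =>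
    (Nat.min_self k).trans (Nat.min_eq_right ht).symm
  have hNs0 : ∀ s s' t : ℕ, t < k → s = t → s' = t + 1 → N s' = N s * qr t := fun s s' t ht hs hs' =>
    hs.symm ▸ hs'.symm ▸ hN t ht
  have hNs : ∀ s s' t : ℕ, t < k → s = t → s' = t + 1 → N s' * p = N s * p * qr t := fun s s' t ht hs hs' =>
    (congrArg (· * p) (hNs0 s s' t ht hs hs')).trans (Nat.mul_right_comm (N s) (qr t) p)
  have hdvdk : ∀ s, N s ∣ N k := s59m_chain_dvdk k N qr hN hfreeze
  have hdvdkp : ∀ s, N s * p ∣ N k * p := fun s => Nat.mul_dvd_mul_right (hdvdk s) p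
  have hqrN : ∀ s s' t : ℕ, ∀ ht : t < k, s = t → s' = t + 1 → ¬ qr t ∣ N s := fun s s' t ht hs hs' =>
    s59m_not_dvd_of_sqfree (hqr t ht) ((hNs0 s s' t ht hs hs') ▸ Squarefree.of_mul_left (hsq s'))
  have hqrB : ∀ l, l < k → qr l ∈ B := fun l hl =>
    hNB (l + 1) (qr l) (hqr l hl) (Dvd.intro_left _ (hN l hl).symm)
  have hqrp : ∀ l, l < k → qr l ≠ p := fun l hl h =>
    hpN (l + 1) (h ▸ Dvd.intro_left _ (hN l hl).symm)
  have hunrm : ∀ q : ℕ, q.Prime → q ∉ Sgm → (s59i_rhobarW W p hΔ 𝒪 hp𝒪).IsUnramifiedAt q := fun q hq hqS =>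
    Classical.byContradiction fun hram =>
      hqS (hSminSgm ((hmin q hq (fun h => hqS (h ▸ hpSgm))).mpr hram))
  -- the base data of the levels
  have hbase := fun s => hIdx s (hdvdkp s)
  unfold s59m_IdxConcl at hbase
  choose e₁ h1e₁ hid₁ hnil₁ hρ₁ e h1e hid hnil hρ he1 hee1 hcbp d₁ d₂ b₁ hb₁ b₂ hb₂ hrestA using hbase
  s59_aux_lemma =>
    choose P hP hPP hmem hbaseS hd1 hd0 a₀ ha1₀ aZ₀ haZ₀ hrestB using hrestA
    s59_aux_lemma =>
      choose hlr hnoeth hfinR hcompl hlh hRρ θ₀ hθ₀ hθ₀l hRres hMfin hMnt hfrobR hgenR hresR htype hν hTWidx using hrestB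
      s59_aux_lemma =>
        haveI := hlr
        haveI := hnoeth
        haveI := hfinR
        haveI := hcompl
        haveI := hlh
        -- the Frobenius elements at the raising primes
        choose Aφ hAφ1 hAφ2 using hφr
        -- the old submodules and the steps
        have hstep0 := by exact (fun (s s' t : ℕ) (ht : t < k) (hs : s = t) (hs' : s' = t + 1) =>
          s59x_step_concZ_gen (hq := ⟨hqr t ht⟩) p hp2 W hΔ B hirr hB2 𝒪 hp𝒪 σ (N s * p) (qr t) (N s' * p) (hNs s s' t ht hs hs')
            (Dvd.intro _ (hNs s s' t ht hs hs').symm) (hsq s') (hqrp t ht) hpB (hB1 s')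
            (e s) (h1e s) (hid s) (hnil s) (hρ s) (P s) (hP s) (hPP s) (a₀ s) (ha1₀ s) (aZ₀ s) (haZ₀ s) (hRρ s) (D0.ρ.baseChangeAlong (θ₀ s : D0.R →+* (s59e_adj 𝒪 (aZ₀ s))) (hθ₀l s)) (d₂ s - 2 * d₁ s)
            (e s') (h1e s') (hid s') (hnil s') (hρ s') (P s') (hP s') (hPP s') (a₀ s') (ha1₀ s') (aZ₀ s') (haZ₀ s') (hRρ s') (D0.ρ.baseChangeAlong (θ₀ s' : D0.R →+* (s59e_adj 𝒪 (aZ₀ s'))) (hθ₀l s')) (d₂ s' - 2 * d₁ s')
            (Aφ t ht) (hAφ1 t ht) (φr t) (hAφ2 t ht) (fun hqN hG'b he1q hee1q hcb =>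
              s59m_stb_base (hq := ⟨hqr t ht⟩) (hpN s) (hqrN s s' t ht hs hs') (hpN s') (hNs0 s s' t ht hs hs') (hNs s s' t ht hs hs') 𝒪
                (he1 s) (hee1 s) (he1 s') (hee1 s') (hcbp s) (hcbp s') (P s) (P s') (hmem s) (hmem s') hqN hG'b he1q hee1q hcb) :)
        choose OldSG hstepG using hstep0
        s59_aux_lemma =>
          refine ⟨(s59efl_mkBaseMin k D0 (fun s => (s59e_adj 𝒪 (aZ₀ s))) hlr hnoeth hcompl hlh hRres
              (fun s => (s59t_EigT (s59t_partRep (s59t_partRep (s59t_rho (N s * p) (⊤ : Subgroup (ZMod (N s * p))ˣ) 𝒪 𝒪) (hρ s)) (hP s)) ⊤ (1 : (s59t_Delta (N s * p) (⊤ : Subgroup (ZMod (N s * p))ˣ)) →* 𝒪ˣ) (hRρ s)))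
              (iM1 := fun s => s59t_EigT_addCommGroup _ _ _ (hRρ s)) (iM2 := fun s => s59t_EigT_module _ _ _ (hRρ s))
              hMfin hMnt OldSG
              (fun s => (D0.ρ.baseChangeAlong (θ₀ s : D0.R →+* (s59e_adj 𝒪 (aZ₀ s))) (hθ₀l s))) htype hresR θ₀ hν hθ₀ (fun s => (d₂ s - 2 * d₁ s)) : s59f_TBaseF 𝒪 k D0), ?_, ?_, ?_, ?_⟩
          · -- the Hecke map of the top base ring
            have key : ∀ a : ℕ, k = a → s59e_HkFrobP (N k * p) (↑B : Set ℕ) (s59e_adj 𝒪 (aZ₀ a)) (D0.ρ.baseChangeAlong (θ₀ a : D0.R →+* (s59e_adj 𝒪 (aZ₀ a))) (hθ₀l a)) := by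
              intro a ha
              subst ha
              exact s59e_HkFrobP_adj (↑B : Set ℕ) (aZ₀ k) _ (hfrobR k)
            exact key (min k k) (Nat.min_self k).symm
          · -- (E2) faithfulness of the base module of the level `0`
            have key : ∀ a : ℕ, 0 = a → ∀ x : (s59e_adj 𝒪 (aZ₀ a)), (∀ mm : (s59t_EigT (s59t_partRep (s59t_partRep (s59t_rho (N a * p) (⊤ : Subgroup (ZMod (N a * p))ˣ) 𝒪 𝒪) (hρ a)) (hP a)) ⊤ (1 : (s59t_Delta (N a * p) (⊤ : Subgroup (ZMod (N a * p))ˣ)) →* 𝒪ˣ) (hRρ a)), x • mm = 0) → x = 0 := by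
              intro a ha
              subst ha
              exact fun x hx => s59u_p_E2_Z (N 0 * p) (hρ 0) (hP 0) (aZ₀ 0) (hRρ 0) x hx
            exact key (min 0 k) (Nat.zero_min k).symm
          · -- (E-conc-P) the concrete model of the base ring of the level `0`
            have key : ∀ a : ℕ, 0 = a → s59u_c2_EConcP 𝒪 p (N 0 * p) B (fun ℓ => W.apOfModel ℓ) (s59e_adj 𝒪 (aZ₀ a)) (D0.ρ.baseChangeAlong (θ₀ a : D0.R →+* (s59e_adj 𝒪 (aZ₀ a))) (hθ₀l a)) := by
              intro a ha
              subst ha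
              exact s59u_p_EConcP_Z p (N 0 * p) B _ (N 0) (hpN 0) rfl (s59f_isG'_top (hpN 0)) 1 (he1 0) (hee1 0) (e 0) (h1e 0) (hid 0) (hnil 0)
                (hcbp 0) (P 0) (hmem 0) (a₀ 0) (ha1₀ 0) (aZ₀ 0) (haZ₀ 0) _ (hfrobR 0) (hgenR 0)
            exact key (min 0 k) (Nat.zero_min k).symm
          -- the Taylor–Wiles levels
          intro r n qv hqinj hqv hTW DQ Dsf κsf hκsf hκtr
          s59_aux_lemma =>
            have hqvpr : ∀ i, (qv i).Prime := fun i => (hqv i).1
            have hqvB : ∀ i, qv i ∉ B := fun i => (hqv i).2.1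
            haveI hNZq : NeZero (∏ j, qv j) := s59u_neZero_prod_qv qv hqvpr
            haveI hNZl : ∀ t, NeZero (N t * ∏ j, qv j) := fun t => s59u_neZero_level qv (N t) hqvpr
            haveI hNZlp : ∀ t, NeZero (N t * p * ∏ j, qv j) := fun t => s59u_neZero_level qv (N t * p) hqvpr
            have hsqne : (∏ q ∈ Finset.univ.image qv, q ^ 2) ≠ 0 := Finset.prod_ne_zero_iff.mpr fun q hq =>
              Exists.elim (Finset.mem_image.mp hq) fun i hi => hi.2 ▸ pow_ne_zero 2 (hqvpr i).ne_zero
            haveI hNZ2 : ∀ t, NeZero (N t * ∏ q ∈ Finset.univ.image qv, q ^ 2) := fun t =>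
              ⟨Nat.mul_ne_zero (NeZero.ne (N t)) hsqne⟩
            haveI hNZ2p : ∀ t, NeZero (N t * p * ∏ q ∈ Finset.univ.image qv, q ^ 2) := fun t =>
              ⟨Nat.mul_ne_zero (NeZero.ne (N t * p)) hsqne⟩
            haveI hIS : ∀ t, Fact (HasIntegralStructure (N t * p * ∏ q ∈ Finset.univ.image qv, q ^ 2) 2) := fun t =>
              ⟨Fermat.Agent.S23.result _⟩
            have himgB : ∀ q ∈ Finset.univ.image qv, q ∉ B := fun q hq =>
              Exists.elim (Finset.mem_image.mp hq) fun i hi => hi.2 ▸ hqvB i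
            -- the arithmetic of the Taylor–Wiles primes
            have harf := by exact (s59u_W_TW_arith_fam W hΔ p hirr B hpB hgoodB (𝒪 := 𝒪) hp𝒪 n qv hp2 hqinj hqv hTW :)
            choose aq bq harith hcongq using harf
            -- the generators of `B_Q`, pushed down from the top level
            have hgrpk := (s59u_W_level_grp p (N k * p) (hsq k) B (hB1 k) (⊤ : Subgroup (ZMod (N k * p))ˣ) n qv hqinj hqv).2
            choose gk hcardk hgenk hordk hglock using hgrpk
            have hcardS : ∀ s, Nat.card (s59t_BQ (N s * p) (∏ j, qv j) (⊤ : Subgroup (ZMod (N s * p))ˣ) (s59t_KQ (p ^ n) qv)) = (p ^ n) ^ r := fun s =>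
              Exists.elim (s59u_W_level_grp p (N s * p) (hsq s) B (hB1 s) (⊤ : Subgroup (ZMod (N s * p))ˣ) n qv hqinj hqv).2
                fun _ h => h.1
            have hgex : ∃ g : ∀ s, Fin r → (s59t_BQ (N s * p) (∏ j, qv j) (⊤ : Subgroup (ZMod (N s * p))ˣ) (s59t_KQ (p ^ n) qv)),
                ∀ s, g s = s59efl_pushG (hdvdkp s) (p ^ n) qv gk := ⟨fun s => s59efl_pushG (hdvdkp s) (p ^ n) qv gk, fun s => rfl⟩
            choose g hgdef using hgex
            have hgenS : ∀ s, ∀ x : (s59t_BQ (N s * p) (∏ j, qv j) (⊤ : Subgroup (ZMod (N s * p))ˣ) (s59t_KQ (p ^ n) qv)), ∃ a : Fin r → ℕ, x = ∏ i, g s i ^ a i := by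
              intro s
              rw [hgdef s]
              exact s59efl_pushG_gen (hdvdkp s) (p ^ n) qv gk hgenk
            have hordS : ∀ s, ∀ i, g s i ^ (p ^ n) = 1 := by
              intro s
              rw [hgdef s]
              exact s59efl_pushG_ord (hdvdkp s) (p ^ n) qv gk hordk
            have hglocS : ∀ s, ∀ i, ∃ τ : Gamma0 ((N s * p) * ∏ j, qv j),
                (QuotientGroup.mk τ : (s59t_Delta ((N s * p) * ∏ j, qv j) (s59t_Hmul (N s * p) (∏ j, qv j) (⊤ : Subgroup (ZMod (N s * p))ˣ) (s59t_KQ (p ^ n) qv)))) = (g s i : (s59t_Delta ((N s * p) * ∏ j, qv j) (s59t_Hmul (N s * p) (∏ j, qv j) (⊤ : Subgroup (ZMod (N s * p))ˣ) (s59t_KQ (p ^ n) qv)))) ∧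
                ZMod.unitsMap (Nat.div_dvd_of_dvd (s59t_qv_dvd_level qv (N s * p) i))
                  (s59t_unitHom ((N s * p) * ∏ j, qv j) τ) = 1 := by
              intro s
              rw [hgdef s]
              exact s59efl_pushG_loc (hdvdkp s) (p ^ n) qv gk hglock
            have hgS : ∀ (s s' : ℕ) (hd : N s * p ∣ N s' * p), ∀ i, g s i = s59efl_pushG hd (p ^ n) qv (g s') i := by
              intro s s' hd i
              rw [hgdef s, hgdef s']
              exact (s59efl_pushG_trans hd (hdvdkp s') (p ^ n) qv gk i).symm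
            -- the flat ring of the `p`-free levels
            have hDflex := by exact (s59q_exists_DQ_flat p hp2 hp𝒪 (s59i_rhobarW W p hΔ 𝒪 hp𝒪) habs (Sg0 ∪ Finset.univ.image qv) (Sg0 ∪ Finset.univ.image qv) Su (Finset.Subset.refl _)
              (Finset.mem_union_left _ hpSg0)
              (fun q hq hqS => hunrm q hq fun h => hqS (Finset.mem_union_left _ (hSgm0 h)))
              (A := Dsf.R) inferInstance Dsf.residue_surjective Dsf.ρ (s59q_sfType_flat p _ _ _ Dsf.isOfType) Dsf.residual_isEquiv :)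
            have hDfl := Classical.choice hDflex
            -- the `p`-package of the Taylor–Wiles levels, with ONE normalising element
            have hpLs : ∀ s, ¬ p ∣ N s * ∏ j, qv j := fun s =>
              s59m_p_not_dvd_level qv hqvpr p (N s) hpP (hpN s) (fun i h => hqvB i (h ▸ hpB))
            have hN's : ∀ s, N s * p * ∏ j, qv j = N s * (∏ j, qv j) * p := fun s => Nat.mul_right_comm _ _ _
            have hG's : ∀ s, s59f_IsG' (N s * ∏ j, qv j) p (s59t_Hmul (N s) (∏ j, qv j) (⊤ : Subgroup (ZMod (N s))ˣ) (s59t_KQ (p ^ n) qv))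
                (s48h_GammaH ((N s * p) * ∏ j, qv j) (s59t_Hmul (N s * p) (∏ j, qv j) (⊤ : Subgroup (ZMod (N s * p))ˣ) (s59t_KQ (p ^ n) qv))) := fun s =>
              s59f_isG'_Hmul (hpLs s) (⊤ : Subgroup (ZMod (N s))ˣ) (⊤ : Subgroup (ZMod (N s * p))ˣ)
                (fun u => ⟨fun _ => Subgroup.mem_top _, fun _ => Subgroup.mem_top _⟩) (s59t_KQ (p ^ n) qv)
            have hepex : ∃ ep : SL(2, ℤ), ep = s59f_eW (hpLs k) ((p ^ (0 + n) - 1) * ((p ^ (0 + n) + 1) / 2)) := ⟨_, rfl⟩
            choose ep hepdef using hepex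
            have hepk : ep ∈ Gamma0 ((N k * p) * ∏ j, qv j) := hepdef.symm ▸ s59f_eW_mem_N' (hpLs k) (hN's k) ((p ^ (0 + n) - 1) * ((p ^ (0 + n) + 1) / 2))
            have hepek : s59f_gW (hpLs k) * ep * ep ∈ s48h_GammaH ((N k * p) * ∏ j, qv j) (s59t_Hmul (N k * p) (∏ j, qv j) (⊤ : Subgroup (ZMod (N k * p))ˣ) (s59t_KQ (p ^ n) qv)) :=
              hepdef.symm ▸ s59f_eW_ee (hpLs k) (hN's k) (s59k_hnm_pow hpP hp2 (0 + n)) rfl
                (s59k_ppow_mem_Hmul_top (N k * p) qv p 0 n)
            have hep' : ∀ s, ep ∈ Gamma0 ((N s * p) * ∏ j, qv j) := fun s =>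
              s59t_Gamma0_anti (Nat.mul_dvd_mul_right (hdvdkp s) _) hepk
            have hepe : ∀ s, s59f_gW (hpLs s) * ep * ep ∈ s48h_GammaH ((N s * p) * ∏ j, qv j) (s59t_Hmul (N s * p) (∏ j, qv j) (⊤ : Subgroup (ZMod (N s * p))ˣ) (s59t_KQ (p ^ n) qv)) := fun s =>
              s59x_hee_descend (hpLs s) (hpLs k) (Nat.mul_dvd_mul_right (hdvdk s) _) (hG's s)
                (s59efl_GammaHmul_anti (hdvdkp s) (p ^ n) qv) hepek
            -- the Taylor–Wiles data of the chain indices
            have hlvl := by exact (fun s => hTWidx s r n qv hqinj hqv hTW aq bq harith hcongq (hpLs s) (hN's s) (hG's s) ep (hep' s) (hepe s)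
              (g s) (hcardS s) (hgenS s) (hordS s) (hglocS s)
              (hpLs k) hepk hepek gk (fun i => congrFun (hgdef s) i) hgenk hordk hglock DQ hDfl :)
            unfold s59m_LvlIdxConcl at hlvl
            choose ε₁' e₀₂ G₂ hX₂ hnil₂' hPkg hFu hUp using hlvl
            s59_aux_lemma =>
              unfold s59m_LvlPkgZConcl at hPkg
              choose hc' hρ' π₂ P' hP' b' πK a aZ hrestP1 using hPkg
              s59_aux_lemma =>
                choose hid' hεc' hP1 hιπ₂ hιinj₂ hPP' hmem' hZop hrestP2 using hrestP1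
                s59_aux_lemma =>
                  choose hb' hπK h2 h3 h4 ha1 ha2 haZ hlocA hlrQ hrestP3 using hrestP2
                  s59_aux_lemma =>
                    choose θ hθ hfrobT hcong hcomm hTρ rec hrestP4 using hrestP3
                    s59_aux_lemma =>
                      choose hnoethQ hcomplQ hlhQ hres𝒪 hθl h𝒟 hres hred htf hunrθ using hrestP4
                      s59_aux_lemma =>
                        haveI := hlrQ
                        haveI := hnoethQ
                        haveI := hcomplQ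
                        haveI := hlhQ
                        -- the Hecke rings of the full parts
                        unfold s59m_HeckeFConcl at hFu
                        choose aH ha1H ha2H aF haF hlrF hlhF hresF hcongF using hFu
                        s59_aux_lemma =>
                          haveI := hlrF
                          haveI := hlhF
                          haveI hfinF : ∀ s, Module.Finite 𝒪 (s59e_adj 𝒪 (aF s)) := fun s => s59m_adjF_finite _ _ (hid' s) (aF s)
                          -- the flat data of the `p`-free levels of the upper indices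
                          choose e₀₁ G₁ hε₁ hX₁ hid₁' hnil₁' hP1₁ hFlat using hUp
                          s59_aux_lemma =>
                            unfold s59m_LvlFlatConcl at hFlat
                            choose a₃ aM₃ ha1₃ ha2₃ haM₃ hlocA₃ hlrM θfl hθfl hfrobTfl hcongfl hrestF using hFlat
                            s59_aux_lemma =>
                              choose hnoethM hcomplM hlhM hres𝒪M hθlfl h𝒟fl hresfl hflatC habsC hfrobC using hrestF
                              s59_aux_lemma =>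
                                haveI := hlrM
                                have hne0 : ∀ s' t : ℕ, s' = t + 1 → s' ≠ 0 := fun s' t hs' h => Nat.succ_ne_zero t (hs'.symm.trans h)
                                -- the hypotheses of the steps (helper7's NXStepH)
                                have hst' := by exact (fun (s s' t : ℕ) (ht : t < k) (hs : s = t) (hs' : s' = t + 1) =>
                                  Internal.s59m_stepH_st_g (hq := ⟨hqr t ht⟩) p B 𝒪 (N s) (qr t) (N s * p) (N s' * p) (N s') rfl rfl (hNs s s' t ht hs hs') (hNs0 s s' t ht hs hs')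
                                    (hpN s) (hpN s') (hqrN s s' t ht hs hs') n qv aq (e₀₂ s) (G₂ s) (P' s) (e₀₂ s') (G₂ s') (P' s') ep
                                    (ε₁' s) (hpLs s) (hN's s) (hG's s) (hep' s) (hepe s) (hc' s) (hmem' s)
                                    (ε₁' s') (hpLs s') (hN's s') (hG's s') (hep' s') (hepe s') (hc' s') (hmem' s') :)
                                have hES := by exact (fun (s s' t : ℕ) (ht : t < k) (hs : s = t) (hs' : s' = t + 1) =>
                                  Internal.s59x_stepH_ES (hq := ⟨hqr t ht⟩) p B 𝒪 hp2 hp𝒪 (qr t) (N s * p) (N s' * p) (hqrp t ht) hpB (hB1 s)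
                                    (Aφ t ht) (hAφ1 t ht) (φr t) (hAφ2 t ht) n qv aq hqinj hqv DQ
                                    (e₀₂ s) (G₂ s) (a s) (ha1 s) (ha2 s) (P' s) (hZop s) (aZ s) (haZ s) (θ s) (hθ s) (hfrobT s)
                                    (e₀₂ s') (G₂ s') (P' s') :)
                                have hNEW := by exact (fun (s s' t : ℕ) (ht : t < k) (hs : s = t) (hs' : s' = t + 1) =>
                                  Internal.s59x_stepH_NEW (hq := ⟨hqr t ht⟩) p B 𝒪 hp2 hp𝒪 (qr t) (N s * p) (N s' * p) (hNs s s' t ht hs hs') (hqrp t ht) hpB (hB1 s')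
                                    (Aφ t ht) (hAφ1 t ht) (φr t) (hAφ2 t ht) n qv aq hqinj hqv DQ
                                    (e₀₂ s) (G₂ s) (P' s)
                                    (e₀₂ s') (G₂ s') (a s') (ha1 s') (ha2 s') (hρ' s') (P' s') (hP' s') (hZop s') (aZ s') (haZ s')
                                    (θ s') (hθ s') (hfrobT s') :)
                                have hT5w := by exact (fun (s s' t : ℕ) (ht : t < k) (hs : s = t) (hs' : s' = t + 1) =>
                                  Internal.s59m_stepH_T5w_g (hq := ⟨hqr t ht⟩) p hp2 W hΔ B hirr 𝒪 hp𝒪 (N s) (qr t) (N s * p) (N s' * p) (N s') rfl rfl (hNs s s' t ht hs hs') (hNs0 s s' t ht hs hs')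
                                    (hqrN s s' t ht hs hs') (hqrp t ht) hpB (hB1 s')
                                    (e s) (h1e s) (hid s) (hnil s) (e s') (h1e s') (hid s') (hnil s')
                                    n qv aq hqv (hcardS s) (Sg0 ∪ Finset.univ.image qv) Su DQ Dsf κsf hκtr
                                    (e₀₂ s) (G₂ s) (hρ' s) (π₂ s) (hιπ₂ s) (hP1 s) (P' s) (hP' s) (a s) (ha1 s) (aZ s) (haZ s)
                                    (θ s) (hθl s) (hfrobT s)
                                    (e₀₂ s') (G₂ s') (hρ' s') (π₂ s') (hιπ₂ s') (hP1 s') (P' s') (hP' s')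
                                    (aH s') (ha1H s') (ha2H s') (aF s') (haF s') (hresF s')
                                    ep (e₀₁ s' (hne0 s' t hs')) (G₁ s' (hne0 s' t hs')) (ε₁' s') (hε₁ s' (hne0 s' t hs'))
                                    (hpLs s') (hN's s') (hG's s') (hep' s') (hepe s') (hc' s') (hmem' s')
                                    (a₃ s' (hne0 s' t hs')) (ha1₃ s' (hne0 s' t hs')) (aM₃ s' (hne0 s' t hs')) (haM₃ s' (hne0 s' t hs'))
                                    (hDfl.ρ.baseChangeAlong (θfl s' (hne0 s' t hs') : hDfl.R →+* s59e_adj 𝒪 (aM₃ s' (hne0 s' t hs'))) (hθlfl s' (hne0 s' t hs'))) (hflatC s' (hne0 s' t hs')) (habsC s' (hne0 s' t hs')) (hfrobC s' (hne0 s' t hs')) :)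
                                s59_aux_lemma =>
                                  -- the steps, in the wrapped form of helper7's `s59x_asm_lv_w`
                                  have hstG := by exact (fun (s s' t : ℕ) (ht : t < k) (hs : s = t) (hs' : s' = t + 1) =>
                                    hstepG s s' t ht hs hs' r n qv hqinj hqv aq DQ
                                      (e₀₂ s) (G₂ s) (hX₂ s) (a s) (ha1 s) (ha2 s) (hρ' s) (π₂ s) (hιinj₂ s) (hιπ₂ s) (P' s) (hP' s) (hPP' s) (aZ s) (haZ s) (θ s) (hθ s) (hfrobT s) (πK s) (hπK s) (hcomm s) (hTρ s) (h2 s) (g s) (rec s) (hres𝒪 s) (hθl s) (h𝒟 s) (hres s)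
                                      (e₀₂ s') (G₂ s') (hX₂ s') (a s') (ha1 s') (ha2 s') (hρ' s') (π₂ s') (hιinj₂ s') (hιπ₂ s') (P' s') (hP' s') (hPP' s') (aZ s') (haZ s') (θ s') (hθ s') (hfrobT s') (πK s') (hπK s') (hcomm s') (hTρ s') (h2 s') (g s') (rec s')
                                      (hgS s s' _)
                                      (hst' s s' t ht hs hs') (hES s s' t ht hs hs') (hNEW s s' t ht hs hs')
                                      ((RingHom.ker (κsf : DQ.R →+* Dsf.R) : Ideal DQ.R) : Set DQ.R)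
                                      (hT5w s s' t ht hs hs') :)
                                  -- reducedness and torsion-freeness of the trace rings
                                  have hredT : ∀ s, IsReduced (rec s).Lv.T' := fun s =>
                                    haveI := hred s
                                    isReduced_of_injective (rec s).eT' (rec s).eT'.injective
                                  have htfT : ∀ s, ∀ o : 𝒪, o ≠ 0 → ∀ x : (rec s).Lv.T', algebraMap 𝒪 (rec s).Lv.T' o * x = 0 → x = 0 :=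
                                    fun s o ho x hx => (rec s).eT'.injective ((htf s o ho ((rec s).eT' x)
                                      (((congrArg (· * (rec s).eT' x) (AlgEquiv.commutes (rec s).eT' o).symm).trans
                                        (_root_.map_mul (rec s).eT' _ x).symm).trans ((congrArg (rec s).eT' hx).trans (_root_.map_zero (rec s).eT')))).trans
                                      (_root_.map_zero (rec s).eT').symm)
                                  -- the level `0` is unramified at the raising primes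
                                  have hunrG : ∀ s, s = 0 → ∀ l, l < k → ∀ (f : Module.Dual DQ.R DQ.ρ.V) (v : DQ.ρ.V),
                                      (rec s).Lv.θ (f (DQ.ρ.ρ (σr l) v - v)) = 0 := fun s hs l hl f v =>
                                    Exists.elim (hσr l hl) fun A hA =>
                                      (rec s).eT'.injective (((rec s).k2 _).trans
                                        ((hunrθ s (qr l) ⟨hs, l, hl, rfl⟩ A hA.1 (σr l) hA.2 f v).trans (_root_.map_zero (rec s).eT').symm))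
                                  s59_aux_lemma =>
                                    -- the assembly over the un-frozen families (helper7's `s59x_asm_lv_w`, NXAsmLv.lean)
                                    have hA1 := by exact (s59x_asm_lv_w k D0 (fun s => (s59e_adj 𝒪 (aZ₀ s))) hlr hnoeth hcompl hlh hRres
                                      (fun s => (s59t_EigT (s59t_partRep (s59t_partRep (s59t_rho (N s * p) (⊤ : Subgroup (ZMod (N s * p))ˣ) 𝒪 𝒪) (hρ s)) (hP s)) ⊤ (1 : (s59t_Delta (N s * p) (⊤ : Subgroup (ZMod (N s * p))ˣ)) →* 𝒪ˣ) (hRρ s)))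
                                      (iM1 := fun s => s59t_EigT_addCommGroup _ _ _ (hRρ s)) (iM2 := fun s => s59t_EigT_module _ _ _ (hRρ s))
                                      hMfin (hMnt (min 0 k)) OldSG
                                      (fun s => (D0.ρ.baseChangeAlong (θ₀ s : D0.R →+* (s59e_adj 𝒪 (aZ₀ s))) (hθ₀l s))) htype hresR θ₀ hν hθ₀ (fun s => (d₂ s - 2 * d₁ s))
                                      (fun s => (rec s).Lv) qr φr σr ((RingHom.ker (κsf : DQ.R →+* Dsf.R) : Ideal DQ.R) : Set DQ.R) :)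
                                    have hA2 := by exact (hA1 hredT htfT :)
                                    have hA3 := by exact (hA2 hstG :)
                                    have hA4 := by exact (hA3 hunrG :)
                                    exact hA4

export Internal (s59m_finCore)

end Fermat.Agent.Lib.S59
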