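/-
S59 project, case (P), item [P8-top] (helper9, prefix `s59m_`), file 1: **THE KERNEL PAIR AT ONE TAYLOR–WILES LEVEL, FOR THE CONCRETE
LEVELS `(N ∏ qv, ⊤ × K_Q)` AND `(N p ∏ qv, ⊤ × K_Q)`.**

* `s59m_e0_pow` : the normalising element `e₀ = g^k`, `2 k + 1 = m`, for a group `Γ₀(N')/Γ_{H'}(N')` of exponent `m`:
  `g e₀ e₀ ∈ Γ_{H'}(N')`;
* `s59m_restrict_congr`, `s59m_base_switch` : at the base level `(N p, ⊤)` the package does not depend on the normalising element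
  (helper5's `s59efl_oldN_top_indep`), so the base data (`hcb`, `hmem`, `hbase`) chosen ONCE can be read with the normalising element of any
  Taylor–Wiles level;
* `s59m_Delta_pgroup` : the diamond group of the level `(N ∏ qv, ⊤ × K_Q)` has exponent `p^n`;
* **`s59m_kerLevel_W`** : `s59m_kerTW_conc` at the concrete levels, with helper4's compatibility `s59f_oldN_compat_eps` of the Taylor–Wiles
  idempotents (helper5's extended output `s59ex_LvlX`) and the group lemmas `s59m_BQ_comap`, `s59m_CQ_comap`, `s59m_chi'_bijective`.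
-/
import Mathlib
import Fermat.Agent.Lib.S59.MKerConc
import Fermat.Agent.Lib.S59.EFlrConcB
import Fermat.Agent.Lib.S59.EXDef
import Fermat.Agent.Lib.S59.KLvlGrp

set_option autoImplicit false
set_option linter.unusedSectionVars false
set_option linter.unusedVariables false
set_option linter.style.haveILetI false
set_option maxHeartbeats 1600000

open IsLocalRing CongruenceSubgroup
open Fermat.Agent.Lib.S29 Fermat.Agent.Lib.S48 Fermat.Agent.Lib.S41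
open scoped MatrixGroups

noncomputable section

namespace Fermat.Agent.Lib.S59

/-! ### The normalising element -/

section E0

variable {N' : ℕ} [NeZero N'] (H' : Subgroup (ZMod N')ˣ)

/-- powers of an element of `Γ₀(N')` whose class has order dividing `m` in `Γ₀(N')/Γ_{H'}(N')`. -/
theorem s59m_pow_mem_GammaH (g : SL(2, ℤ)) (hg : g ∈ Gamma0 N') (m : ℕ)
    (hm : ∀ u : (ZMod N')ˣ, u ^ m ∈ H') : g ^ m ∈ s48h_GammaH N' H' := by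
  have h1 : ((⟨g, hg⟩ : Gamma0 N') ^ m : Gamma0 N').1 = g ^ m := by
    rw [SubgroupClass.coe_pow]
  rw [← h1, s59t_mem_GammaH_iff_unit, map_pow]
  exact hm _

/-- **the normalising element** `e₀ = g^k`, `2 k + 1 = m`. -/
theorem s59m_e0_pow (g : SL(2, ℤ)) (hg : g ∈ Gamma0 N') (m k : ℕ)
    (hm : ∀ u : (ZMod N')ˣ, u ^ m ∈ H') (hk : 2 * k + 1 = m) :
    g ^ k ∈ Gamma0 N' ∧ g * g ^ k * g ^ k ∈ s48h_GammaH N' H' := by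
  refine ⟨Subgroup.pow_mem _ hg k, ?_⟩
  have h1 : g * g ^ k * g ^ k = g ^ m := by
    rw [← hk, mul_assoc, ← pow_add, ← pow_succ', two_mul]
  rw [h1]
  exact s59m_pow_mem_GammaH H' g hg m hm

/-- the diamond group of a level whose unit group has exponent `m` modulo `H'` has exponent `m`. -/
theorem s59m_Delta_pow (m : ℕ) (hm : ∀ u : (ZMod N')ˣ, u ^ m ∈ H') (δ : s59t_Delta N' H') :
    δ ^ m = 1 := by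
  obtain ⟨τ, rfl⟩ := QuotientGroup.mk_surjective δ
  rw [← QuotientGroup.mk_pow, ← s59t_mem_iff_mk, SubgroupClass.coe_pow]
  exact s59m_pow_mem_GammaH H' τ.1 τ.2 m hm

end E0

/-! ### Switching the normalising element at the base -/

section Switch

variable {R : Type*} [CommRing R] {Y Z : Type*} [AddCommGroup Y] [Module R Y]
  [AddCommGroup Z] [Module R Z]

theorem s59m_restrict_congr {D₁ D₂ : s59t_Old R Y Z} (h : D₁ = D₂) {ε : Module.End R Y}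
    {ε' : Module.End R Z} (hc₁ : D₁.Compat ε ε') (hc₂ : D₂.Compat ε ε') :
    D₁.restrict hc₁ = D₂.restrict hc₂ := by
  subst h
  rfl

end Switch

/-! ### The kernel pair at the concrete Taylor–Wiles levels -/

section Level

variable {p : ℕ} [hp : Fact p.Prime] {𝒪 : Type} [CommRing 𝒪] [IsDomain 𝒪]
  [IsDiscreteValuationRing 𝒪] [IsAdicComplete (maximalIdeal 𝒪) 𝒪] [Finite (ResidueField 𝒪)]
  [CharZero 𝒪] [CharP (ResidueField 𝒪) p]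
  {N N₂ : ℕ} [NeZero N] [NeZero N₂] (hpN : ¬ p ∣ N) (hN₂ : N₂ = N * p)
  (hGb : s59f_IsG' N p (⊤ : Subgroup (ZMod N)ˣ) (s48h_GammaH N₂ (⊤ : Subgroup (ZMod N₂)ˣ)))
  (n : ℕ) {r : ℕ} (qv : Fin r → ℕ) [NeZero (∏ j, qv j)] [NeZero (N * ∏ j, qv j)]
  [NeZero (N₂ * ∏ j, qv j)]
  (hpL : ¬ p ∣ N * ∏ j, qv j) (hN' : N₂ * ∏ j, qv j = N * (∏ j, qv j) * p)
  (hG' : s59f_IsG' (N * ∏ j, qv j) p
    (s59t_Hmul N (∏ j, qv j) (⊤ : Subgroup (ZMod N)ˣ) (s59t_KQ (p ^ n) qv))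
    (s48h_GammaH (N₂ * ∏ j, qv j)
      (s59t_Hmul N₂ (∏ j, qv j) (⊤ : Subgroup (ZMod N₂)ˣ) (s59t_KQ (p ^ n) qv))))
  (Bset : Finset ℕ) (a : ℕ → ℤ) (aq : ℕ → 𝒪)
  -- the normalising elements: at the base (chosen once) and at the level
  (e_b : SL(2, ℤ)) (he_b : e_b ∈ Gamma0 N₂)
  (hee_b : s59f_gW hpN * e_b * e_b ∈ s48h_GammaH N₂ (⊤ : Subgroup (ZMod N₂)ˣ))
  (e₀ : SL(2, ℤ)) (he' : e₀ ∈ Gamma0 (N₂ * ∏ j, qv j))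
  (hee : s59f_gW hpL * e₀ * e₀ ∈ s48h_GammaH (N₂ * ∏ j, qv j)
    (s59t_Hmul N₂ (∏ j, qv j) (⊤ : Subgroup (ZMod N₂)ˣ) (s59t_KQ (p ^ n) qv)))
  (ε₁ : Module.End 𝒪 (s48h_Hpar 𝒪 (s48h_GammaH N (⊤ : Subgroup (ZMod N)ˣ)) 𝒪))
  (ε₂ : Module.End 𝒪 (s48h_Hpar 𝒪 (s48h_GammaH N₂ (⊤ : Subgroup (ZMod N₂)ˣ)) 𝒪))
  (e₀₁ : MvPolynomial ↥(s59t_goodB (N * ∏ j, qv j) Bset) 𝒪)
  (G₁ : MvPolynomial (s59w_AIdx (N * ∏ j, qv j) ⊕ ℕ) 𝒪)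
  (e₀₂ : MvPolynomial ↥(s59t_goodB (N₂ * ∏ j, qv j) Bset) 𝒪)
  (G₂ : MvPolynomial (s59w_AIdx (N₂ * ∏ j, qv j) ⊕ ℕ) 𝒪)

include hN₂ in
theorem s59m_dvd_N₂ : N ∣ N₂ := hN₂ ▸ Dvd.intro p rfl

/-- `⊤` is the preimage of `⊤`. -/
theorem s59m_top_preimage (h : N ∣ N₂) (u : (ZMod N₂)ˣ) :
    u ∈ (⊤ : Subgroup (ZMod N₂)ˣ) ↔ ZMod.unitsMap h u ∈ (⊤ : Subgroup (ZMod N)ˣ) :=
  ⟨fun _ => Subgroup.mem_top _, fun _ => Subgroup.mem_top _⟩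

set_option maxHeartbeats 3200000 in
/-- **the kernel pair at one Taylor–Wiles level, concrete levels.** -/
theorem s59m_kerLevel_W (hpm : (p : 𝒪) ∈ maximalIdeal 𝒪) (hpB : p ∈ Bset)
    (hqB : ∀ i, qv i ∉ Bset)
    (hCB : Function.Bijective (fun x :
        s59t_CQ N₂ (∏ j, qv j) (⊤ : Subgroup (ZMod N₂)ˣ) (s59t_KQ (p ^ n) qv) ×
        s59t_BQ N₂ (∏ j, qv j) (⊤ : Subgroup (ZMod N₂)ˣ) (s59t_KQ (p ^ n) qv) =>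
      ((x.1 : s59t_Delta (N₂ * ∏ j, qv j)
          (s59t_Hmul N₂ (∏ j, qv j) (⊤ : Subgroup (ZMod N₂)ˣ) (s59t_KQ (p ^ n) qv))) *
        (x.2 : s59t_Delta (N₂ * ∏ j, qv j)
          (s59t_Hmul N₂ (∏ j, qv j) (⊤ : Subgroup (ZMod N₂)ˣ) (s59t_KQ (p ^ n) qv))))))
    (hX₁ : s59ex_LvlX (N * ∏ j, qv j)
      (s59t_Hmul N (∏ j, qv j) (⊤ : Subgroup (ZMod N)ˣ) (s59t_KQ (p ^ n) qv)) aq
      (s59t_goodB (N * ∏ j, qv j) Bset) (s59t_cB (𝒪 := 𝒪) (N * ∏ j, qv j) a)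
      (List.ofFn qv) e₀₁ G₁)
    (hX₂ : s59ex_LvlX (N₂ * ∏ j, qv j)
      (s59t_Hmul N₂ (∏ j, qv j) (⊤ : Subgroup (ZMod N₂)ˣ) (s59t_KQ (p ^ n) qv)) aq
      (s59t_goodB (N₂ * ∏ j, qv j) Bset) (s59t_cB (𝒪 := 𝒪) (N₂ * ∏ j, qv j) a)
      (List.ofFn qv) e₀₂ G₂)
    (hP1₁ : s59t_TWFull (s59t_Gamma0_anti (s59t_dvd_mul_left' N (∏ j, qv j)))
      (s59t_GammaHmul_le (N := N) (D := ∏ j, qv j) (H := (⊤ : Subgroup (ZMod N)ˣ))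
        (K := s59t_KQ (p ^ n) qv))
      (s59t_BQ N (∏ j, qv j) (⊤ : Subgroup (ZMod N)ˣ) (s59t_KQ (p ^ n) qv))
      (s59t_CQ N (∏ j, qv j) (⊤ : Subgroup (ZMod N)ˣ) (s59t_KQ (p ^ n) qv)) ε₁
      (s59t_actH (N * ∏ j, qv j) aq (dvd_refl _)
        (s59t_Hmul N (∏ j, qv j) (⊤ : Subgroup (ZMod N)ˣ) (s59t_KQ (p ^ n) qv))
        (G₁ * s59t_jG 𝒪 (s59t_goodB (N * ∏ j, qv j) Bset) e₀₁)))
    (hP1₂ : s59t_TWFull (s59t_Gamma0_anti (s59t_dvd_mul_left' N₂ (∏ j, qv j)))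
      (s59t_GammaHmul_le (N := N₂) (D := ∏ j, qv j) (H := (⊤ : Subgroup (ZMod N₂)ˣ))
        (K := s59t_KQ (p ^ n) qv))
      (s59t_BQ N₂ (∏ j, qv j) (⊤ : Subgroup (ZMod N₂)ˣ) (s59t_KQ (p ^ n) qv))
      (s59t_CQ N₂ (∏ j, qv j) (⊤ : Subgroup (ZMod N₂)ˣ) (s59t_KQ (p ^ n) qv)) ε₂
      (s59t_actH (N₂ * ∏ j, qv j) aq (dvd_refl _)
        (s59t_Hmul N₂ (∏ j, qv j) (⊤ : Subgroup (ZMod N₂)ˣ) (s59t_KQ (p ^ n) qv))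
        (G₂ * s59t_jG 𝒪 (s59t_goodB (N₂ * ∏ j, qv j) Bset) e₀₂)))
    (hρ₁ : ∀ δ y, ε₁ (s59t_rho N (⊤ : Subgroup (ZMod N)ˣ) 𝒪 𝒪 δ y) =
      s59t_rho N (⊤ : Subgroup (ZMod N)ˣ) 𝒪 𝒪 δ (ε₁ y))
    (hρ₂ : ∀ δ y, ε₂ (s59t_rho N₂ (⊤ : Subgroup (ZMod N₂)ˣ) 𝒪 𝒪 δ y) =
      s59t_rho N₂ (⊤ : Subgroup (ZMod N₂)ˣ) 𝒪 𝒪 δ (ε₂ y))
    (hρ₂' : ∀ δ y, s59t_actH (N₂ * ∏ j, qv j) aq (dvd_refl _)
        (s59t_Hmul N₂ (∏ j, qv j) (⊤ : Subgroup (ZMod N₂)ˣ) (s59t_KQ (p ^ n) qv))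
        (G₂ * s59t_jG 𝒪 (s59t_goodB (N₂ * ∏ j, qv j) Bset) e₀₂)
        (s59t_rho (N₂ * ∏ j, qv j)
          (s59t_Hmul N₂ (∏ j, qv j) (⊤ : Subgroup (ZMod N₂)ˣ) (s59t_KQ (p ^ n) qv)) 𝒪 𝒪 δ y) =
      s59t_rho (N₂ * ∏ j, qv j)
        (s59t_Hmul N₂ (∏ j, qv j) (⊤ : Subgroup (ZMod N₂)ˣ) (s59t_KQ (p ^ n) qv)) 𝒪 𝒪 δ
        (s59t_actH (N₂ * ∏ j, qv j) aq (dvd_refl _)
          (s59t_Hmul N₂ (∏ j, qv j) (⊤ : Subgroup (ZMod N₂)ˣ) (s59t_KQ (p ^ n) qv))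
          (G₂ * s59t_jG 𝒪 (s59t_goodB (N₂ * ∏ j, qv j) Bset) e₀₂) y))
    (hcb : (s59f_oldN hpN hN₂ hGb 𝒪 𝒪 e_b he_b hee_b).Compat ε₁ ε₂)
    {d₁ d₂ : ℕ} (b₁ : Fin d₁ → s59t_part ε₁)
    (hb₁ : Function.Bijective (s59t_evalMap
      (s59t_partRep (s59t_rho N (⊤ : Subgroup (ZMod N)ˣ) 𝒪 𝒪) hρ₁) b₁))
    (b₂ : Fin d₂ → s59t_part ε₂)
    (hb₂ : Function.Bijective (s59t_evalMap
      (s59t_partRep (s59t_rho N₂ (⊤ : Subgroup (ZMod N₂)ˣ) 𝒪 𝒪) hρ₂) b₂))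
    {P : Module.End 𝒪 (s59t_part ε₂)}
    (hP : ∀ δ x, P (s59t_partRep (s59t_rho N₂ (⊤ : Subgroup (ZMod N₂)ˣ) 𝒪 𝒪) hρ₂ δ x) =
      s59t_partRep (s59t_rho N₂ (⊤ : Subgroup (ZMod N₂)ˣ) 𝒪 𝒪) hρ₂ δ (P x)) (hPP : P * P = P)
    (hmem : ∀ x, x ∈ s59t_part P ↔
      ((s59f_oldN hpN hN₂ hGb 𝒪 𝒪 e_b he_b hee_b).restrict hcb).corA x = 0 ∧
      ((s59f_oldN hpN hN₂ hGb 𝒪 𝒪 e_b he_b hee_b).restrict hcb).corB x = 0)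
    (hbase : ∀ y₁ y₂ : s59t_part ε₁, ∃ z : s59t_part ε₂,
      ((s59f_oldN hpN hN₂ hGb 𝒪 𝒪 e_b he_b hee_b).restrict hcb).corA z = y₁ ∧
      ((s59f_oldN hpN hN₂ hGb 𝒪 𝒪 e_b he_b hee_b).restrict hcb).corB z = y₂) :
    2 * d₁ ≤ d₂ ∧
    ∃ hc' : (s59f_oldN hpL hN' hG' 𝒪 𝒪 e₀ he' hee).Compat
        (s59t_actH (N * ∏ j, qv j) aq (dvd_refl _)
          (s59t_Hmul N (∏ j, qv j) (⊤ : Subgroup (ZMod N)ˣ) (s59t_KQ (p ^ n) qv))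
          (G₁ * s59t_jG 𝒪 (s59t_goodB (N * ∏ j, qv j) Bset) e₀₁))
        (s59t_actH (N₂ * ∏ j, qv j) aq (dvd_refl _)
          (s59t_Hmul N₂ (∏ j, qv j) (⊤ : Subgroup (ZMod N₂)ˣ) (s59t_KQ (p ^ n) qv))
          (G₂ * s59t_jG 𝒪 (s59t_goodB (N₂ * ∏ j, qv j) Bset) e₀₂)),
    ∃ π₂ : s59t_part (s59t_actH (N₂ * ∏ j, qv j) aq (dvd_refl _)
          (s59t_Hmul N₂ (∏ j, qv j) (⊤ : Subgroup (ZMod N₂)ˣ) (s59t_KQ (p ^ n) qv))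
          (G₂ * s59t_jG 𝒪 (s59t_goodB (N₂ * ∏ j, qv j) Bset) e₀₂)) →ₗ[𝒪] s59t_part ε₂,
      (∀ y, s59t_iotaH ε₂ _ (s59t_resGHpar (s59t_GammaHmul_le (N := N₂) (D := ∏ j, qv j)
          (H := (⊤ : Subgroup (ZMod N₂)ˣ)) (K := s59t_KQ (p ^ n) qv)) 𝒪 𝒪) (π₂ y) =
        s59t_normPsi (s59t_partRep (s59t_rho (N₂ * ∏ j, qv j)
          (s59t_Hmul N₂ (∏ j, qv j) (⊤ : Subgroup (ZMod N₂)ˣ) (s59t_KQ (p ^ n) qv)) 𝒪 𝒪) hρ₂')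
          (s59t_BQ N₂ (∏ j, qv j) (⊤ : Subgroup (ZMod N₂)ˣ) (s59t_KQ (p ^ n) qv))
          (1 : s59t_Delta (N₂ * ∏ j, qv j)
            (s59t_Hmul N₂ (∏ j, qv j) (⊤ : Subgroup (ZMod N₂)ˣ) (s59t_KQ (p ^ n) qv)) →* 𝒪ˣ) y) ∧
      s59m_KerConcl (s59t_partRep (s59t_rho N₂ (⊤ : Subgroup (ZMod N₂)ˣ) 𝒪 𝒪) hρ₂)
        (s59t_partRep (s59t_rho (N₂ * ∏ j, qv j)
          (s59t_Hmul N₂ (∏ j, qv j) (⊤ : Subgroup (ZMod N₂)ˣ) (s59t_KQ (p ^ n) qv)) 𝒪 𝒪) hρ₂')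
        (s59t_BQ N₂ (∏ j, qv j) (⊤ : Subgroup (ZMod N₂)ˣ) (s59t_KQ (p ^ n) qv))
        (s59t_CQ N₂ (∏ j, qv j) (⊤ : Subgroup (ZMod N₂)ˣ) (s59t_KQ (p ^ n) qv)) π₂
        ((s59f_oldN hpL hN' hG' 𝒪 𝒪 e₀ he' hee).restrict hc').corA
        ((s59f_oldN hpL hN' hG' 𝒪 𝒪 e₀ he' hee).restrict hc').corB hP (d₂ - 2 * d₁) := by
  classical
  have hNN₂ : N ∣ N₂ := s59m_dvd_N₂ hN₂
  have hHb := s59m_top_preimage (N := N) (N₂ := N₂) hNN₂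
  -- the compatibility of the Taylor–Wiles idempotents
  have hpLq : p ∉ List.ofFn qv := by
    intro h
    rw [List.mem_ofFn] at h
    obtain ⟨i, hi⟩ := h
    exact hqB i (hi ▸ hpB)
  have hc' := s59f_oldN_compat_eps hpL hN' hG' e₀ he' hee Bset a aq hpB (List.ofFn qv) hpLq hX₁ hX₂
  -- the normalising element at the base
  have he'b : e₀ ∈ Gamma0 N₂ := s59t_Gamma0_anti (s59t_dvd_mul_left' N₂ (∏ j, qv j)) he'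
  have hgWb : s59f_gW hpN ∈ Gamma0 N₂ := by
    have h := s59f_gW_mem hpN
    rw [← hN₂] at h
    exact h
  have heeb : s59f_gW hpN * e₀ * e₀ ∈ s48h_GammaH N₂ (⊤ : Subgroup (ZMod N₂)ˣ) :=
    s59t_mem_GammaH_top N₂ ⟨_, mul_mem (mul_mem hgWb he'b) he'b⟩
  have heq := s59efl_oldN_top_indep hpN hN₂ hGb 𝒪 𝒪 e_b e₀ he_b he'b hee_b heeb
  have hcb' : (s59f_oldN hpN hN₂ hGb 𝒪 𝒪 e₀ he'b heeb).Compat ε₁ ε₂ := heq ▸ hcb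
  have hR := s59m_restrict_congr heq hcb hcb'
  rw [hR] at hmem hbase
  -- the groups
  have h0' : Gamma0 (N₂ * ∏ j, qv j) ≤ Gamma0 (N * ∏ j, qv j) :=
    s59t_Gamma0_anti (Nat.mul_dvd_mul_right hNN₂ _)
  have hle' := s59m_GammaHmul_le_level hNN₂ hHb (s59t_KQ (p ^ n) qv)
  have hΔ' : ∀ δ : s59t_Delta (N₂ * ∏ j, qv j)
      (s59t_Hmul N₂ (∏ j, qv j) (⊤ : Subgroup (ZMod N₂)ˣ) (s59t_KQ (p ^ n) qv)),
      ∃ k : ℕ, δ ^ (p ^ k) = 1 := fun δ =>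
    ⟨0 + n, s59m_Delta_pow _ _ (s59k_ppow_mem_Hmul_top N₂ qv p 0 n) δ⟩
  obtain ⟨-, hρ₁', -⟩ := id hP1₁
  obtain ⟨h2d, π₂, hιπ₂, -, hK⟩ := s59m_kerTW_conc hpN hN₂ hGb hpL hN' (dvd_mul_right N _) hG'
    (s59t_Gamma0_anti (s59t_dvd_mul_left' N (∏ j, qv j))) s59t_GammaHmul_le
    (s59t_Gamma0_anti (s59t_dvd_mul_left' N₂ (∏ j, qv j))) s59t_GammaHmul_le
    (s59t_Gamma0_anti hNN₂) (s59m_GammaH_le_base hNN₂ hHb) h0' hle' e₀ he'b he' heeb hee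
    _ _ _ _ ε₁ ε₂ _ _ hpm hΔ' hCB
    (s59m_chi'_bijective hNN₂ hHb (s59t_KQ (p ^ n) qv) h0' hle')
    (s59m_BQ_comap hNN₂ hHb (s59t_KQ (p ^ n) qv) h0' hle')
    (s59m_CQ_comap (s59t_KQ (p ^ n) qv) h0' hle')
    hP1₁ hP1₂ hρ₁ hρ₂ hρ₁' hρ₂' hcb' hc' b₁ hb₁ b₂ hb₂ hP hPP hmem hbase
  exact ⟨h2d, hc', π₂, hιπ₂, hK⟩

end Level

end Fermat.Agent.Lib.S59
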