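/-
S59 project, case (P), item [P8-top] / [W4c] (helper9, prefix `s59m_`), file 4d: **`s59m_TPkgP_levelE` FOR A STRICT-ORDINARY TYPE WITH FREE
FINSETS** (request of helper2's post 4023 / helper7's post 4030: the target contract has `Su = WSmin ∪ raising primes`, which the record
`Rd : s59i_RData …` of `s59m_TPkgP_levelE` cannot express).

* `Internal.s59m_TPkgP_levelE_free` : binders of `s59m_TPkgP_levelE` (MKerTopE) with `Rd` REMOVED and the block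
  `Sg Su Smin hpSg hSg hmin hSu` (shapes of helper5's `s59efl_H3_free` / helper2's `s59b_H3_pnew_part_free`, `M' := N₂ ∏ q²`,
  `Q := image qv`) inserted before `DQ : strictOrdinaryCondition 𝒪 p Sg ρ ∧ ∀ q ∈ Su, …`; conclusion `s59m_LvlConclE …` VERBATIM.
-/
import Mathlib
import Fermat.Agent.Lib.S59.MKerTopE
import Fermat.Agent.Lib.S59.B9PNewF2

set_option autoImplicit false
set_option linter.unusedSectionVars false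
set_option linter.unusedVariables false
set_option linter.style.haveILetI false
set_option maxHeartbeats 6400000
set_option synthInstance.maxHeartbeats 400000
set_option maxSynthPendingDepth 3

noncomputable section

namespace Fermat.Agent.Lib.S59

open Matrix MatrixGroups CongruenceSubgroup IsLocalRing Polynomial CuspForm
open WeierstrassCurve WeierstrassCurve.Affine WeierstrassCurve.Affine.Point
open Fermat.Agent.Lib.S29 Fermat.Agent.Lib.S48 Fermat.Agent.Lib.S41 Fermat.Agent.Lib.S44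
open Fermat.Agent.Lib.S58 Fermat.Agent.Lib.S18

local notation "Γℚ" => (AlgebraicClosure ℚ ≃ₐ[ℚ] AlgebraicClosure ℚ)

/-- **the level data of the kernel pair over given bundles** (module half + Hecke ring of the kernel part), W-context, for a strict-ordinary
type with FREE finsets `(Sg, Su)` (helper2's `s59b_H3_pnew_part_free`). -/
theorem Internal.s59m_TPkgP_levelE_free (p : ℕ) [Fact p.Prime] (hp2 : p ≠ 2) (W : WeierstrassCurve ℤ) (hΔ : W.Δ ≠ 0)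
    (hirr : W.ModRepIsIrreducible p) (N : ℕ) [NeZero N] (N₂ : ℕ) [NeZero N₂] (hN₂ : N₂ = N * p)
    (hsq₂ : Squarefree N₂) (hpN : ¬ p ∣ N)
    (B : Finset ℕ) (hpB : p ∈ B) (hNB : ∀ q : ℕ, q.Prime → q ∣ N → q ∈ B)
    (hB2 : ∀ r : ℕ, r.Prime → ¬ W.IsGoodPrimeFor r → r ∈ B)
    (hgoodN : s18_GoodLevel p N)
    (𝒪 : Type) [CommRing 𝒪] [IsDomain 𝒪] [IsDiscreteValuationRing 𝒪]
    [IsAdicComplete (maximalIdeal 𝒪) 𝒪] [Finite (ResidueField 𝒪)] [CharZero 𝒪]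
    [Algebra ℤ_[p] 𝒪] [Module.Finite ℤ_[p] 𝒪]
    (hp𝒪 : ((p : ℕ) : 𝒪) ∈ maximalIdeal 𝒪)
    (hordp : (GaloisRepAdic.ofResidualGaloisRep (s59i_rhobarW W p hΔ 𝒪 hp𝒪)).IsOrdinaryAt p)
    {r : ℕ}
    -- the base data: the old package at `p` and the two idempotents
    (hGb : s59f_IsG' N p (⊤ : Subgroup (ZMod N)ˣ) (s48h_GammaH N₂ (⊤ : Subgroup (ZMod N₂)ˣ)))
    (e_b : SL(2, ℤ)) (he_b : e_b ∈ Gamma0 N₂)
    (hee_b : s59f_gW hpN * e_b * e_b ∈ s48h_GammaH N₂ (⊤ : Subgroup (ZMod N₂)ˣ))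
    (e₁ : MvPolynomial ↥(s59t_goodB N B) 𝒪)
    (e₂ : MvPolynomial ↥(s59t_goodB N₂ B) 𝒪)
    (hρ₁ : ∀ δ y, s59t_E0 (⊤ : Subgroup (ZMod N)ˣ) B e₁ (s59t_rho N (⊤ : Subgroup (ZMod N)ˣ) 𝒪 𝒪 δ y) =
        s59t_rho N (⊤ : Subgroup (ZMod N)ˣ) 𝒪 𝒪 δ (s59t_E0 (⊤ : Subgroup (ZMod N)ˣ) B e₁ y))
    (hρ₂ : ∀ δ y, s59t_E0 (⊤ : Subgroup (ZMod N₂)ˣ) B e₂ (s59t_rho N₂ (⊤ : Subgroup (ZMod N₂)ˣ) 𝒪 𝒪 δ y) =
        s59t_rho N₂ (⊤ : Subgroup (ZMod N₂)ˣ) 𝒪 𝒪 δ (s59t_E0 (⊤ : Subgroup (ZMod N₂)ˣ) B e₂ y))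
    (hcb : (s59f_oldN hpN hN₂ hGb 𝒪 𝒪 e_b he_b hee_b).Compat (s59t_E0 (⊤ : Subgroup (ZMod N)ˣ) B e₁)
        (s59t_E0 (⊤ : Subgroup (ZMod N₂)ˣ) B e₂))
    {d₁ d₂ : ℕ} (b₁ : Fin d₁ → s59t_part (s59t_E0 (⊤ : Subgroup (ZMod N)ˣ) B e₁))
    (hb₁ : Function.Bijective (s59t_evalMap
        (s59t_partRep (s59t_rho N (⊤ : Subgroup (ZMod N)ˣ) 𝒪 𝒪) hρ₁) b₁))
    (b₂ : Fin d₂ → s59t_part (s59t_E0 (⊤ : Subgroup (ZMod N₂)ˣ) B e₂))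
    (hb₂ : Function.Bijective (s59t_evalMap
        (s59t_partRep (s59t_rho N₂ (⊤ : Subgroup (ZMod N₂)ˣ) 𝒪 𝒪) hρ₂) b₂))
    -- the kernel part at the base
    (P : Module.End 𝒪 (s59t_part (s59t_E0 (⊤ : Subgroup (ZMod N₂)ˣ) B e₂)))
    (hP : ∀ δ x, P (s59t_partRep (s59t_rho N₂ (⊤ : Subgroup (ZMod N₂)ˣ) 𝒪 𝒪) hρ₂ δ x) =
        s59t_partRep (s59t_rho N₂ (⊤ : Subgroup (ZMod N₂)ˣ) 𝒪 𝒪) hρ₂ δ (P x)) (hPP : P * P = P)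
    (hmem : ∀ x, x ∈ s59t_part P ↔
        ((s59f_oldN hpN hN₂ hGb 𝒪 𝒪 e_b he_b hee_b).restrict hcb).corA x = 0 ∧
        ((s59f_oldN hpN hN₂ hGb 𝒪 𝒪 e_b he_b hee_b).restrict hcb).corB x = 0)
    (hbase : ∀ y₁ y₂ : s59t_part (s59t_E0 (⊤ : Subgroup (ZMod N)ˣ) B e₁),
        ∃ z : s59t_part (s59t_E0 (⊤ : Subgroup (ZMod N₂)ˣ) B e₂),
        ((s59f_oldN hpN hN₂ hGb 𝒪 𝒪 e_b he_b hee_b).restrict hcb).corA z = y₁ ∧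
        ((s59f_oldN hpN hN₂ hGb 𝒪 𝒪 e_b he_b hee_b).restrict hcb).corB z = y₂)
    (hd0 : d₂ - 2 * d₁ ≠ 0)
    -- the level
    (n : ℕ) (qv : Fin r → ℕ) [NeZero (∏ j, qv j)] [NeZero (N * ∏ j, qv j)] [NeZero (N₂ * ∏ j, qv j)]
    [NeZero (N₂ * ∏ q ∈ Finset.univ.image qv, q ^ 2)] (hqinj : Function.Injective qv)
    (hqv : ∀ i, (qv i).Prime ∧ qv i ∉ B ∧ p ^ (n + 1) ∣ qv i - 1)
    (aq : ℕ → 𝒪)
    -- the old package at `p` at the level, with a FREE normalising element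
    (hpL : ¬ p ∣ N * ∏ j, qv j) (hN' : N₂ * ∏ j, qv j = N * (∏ j, qv j) * p)
    (hG' : s59f_IsG' (N * ∏ j, qv j) p
      (s59t_Hmul N (∏ j, qv j) (⊤ : Subgroup (ZMod N)ˣ) (s59t_KQ (p ^ n) qv))
      (s48h_GammaH (N₂ * ∏ j, qv j)
        (s59t_Hmul N₂ (∏ j, qv j) (⊤ : Subgroup (ZMod N₂)ˣ) (s59t_KQ (p ^ n) qv))))
    (e₀ : SL(2, ℤ)) (he' : e₀ ∈ Gamma0 (N₂ * ∏ j, qv j))
    (hee : s59f_gW hpL * e₀ * e₀ ∈ s48h_GammaH (N₂ * ∏ j, qv j)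
      (s59t_Hmul N₂ (∏ j, qv j) (⊤ : Subgroup (ZMod N₂)ˣ) (s59t_KQ (p ^ n) qv)))
    -- the Taylor–Wiles bundles of the two levels (INPUTS: outputs of `s59ex_W_level` at `N` and at `N₂`, same `aq`)
    (e₀₁ : MvPolynomial ↥(s59t_goodB (N * ∏ j, qv j) B) 𝒪)
    (G₁ : MvPolynomial (s59w_AIdx (N * ∏ j, qv j) ⊕ ℕ) 𝒪)
    (hX₁ : s59ex_LvlX (N * ∏ j, qv j) (s59t_Hmul N (∏ j, qv j) (⊤ : Subgroup (ZMod N)ˣ) (s59t_KQ (p ^ n) qv)) aq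
      (s59t_goodB (N * ∏ j, qv j) B) (s59t_cB (𝒪 := 𝒪) (N * ∏ j, qv j) (fun ℓ => W.apOfModel ℓ)) (List.ofFn qv) e₀₁ G₁)
    (hP1₁ : s59t_TWFull (s59t_Gamma0_anti (s59t_dvd_mul_left' N (∏ j, qv j)))
      (s59t_GammaHmul_le (N := N) (D := ∏ j, qv j) (H := (⊤ : Subgroup (ZMod N)ˣ)) (K := s59t_KQ (p ^ n) qv))
      (s59t_BQ N (∏ j, qv j) (⊤ : Subgroup (ZMod N)ˣ) (s59t_KQ (p ^ n) qv))
      (s59t_CQ N (∏ j, qv j) (⊤ : Subgroup (ZMod N)ˣ) (s59t_KQ (p ^ n) qv))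
      (s59t_E0 (⊤ : Subgroup (ZMod N)ˣ) B e₁) (s59t_actH (N * ∏ j, qv j) aq (dvd_refl _) (s59t_Hmul N (∏ j, qv j) (⊤ : Subgroup (ZMod N)ˣ) (s59t_KQ (p ^ n) qv)) (G₁ * s59t_jG 𝒪 (s59t_goodB (N * ∏ j, qv j) B) e₀₁)))
    (e₀₂ : MvPolynomial ↥(s59t_goodB (N₂ * ∏ j, qv j) B) 𝒪)
    (G₂ : MvPolynomial (s59w_AIdx (N₂ * ∏ j, qv j) ⊕ ℕ) 𝒪)
    (hX₂ : s59ex_LvlX (N₂ * ∏ j, qv j) (s59t_Hmul N₂ (∏ j, qv j) (⊤ : Subgroup (ZMod N₂)ˣ) (s59t_KQ (p ^ n) qv)) aq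
      (s59t_goodB (N₂ * ∏ j, qv j) B) (s59t_cB (𝒪 := 𝒪) (N₂ * ∏ j, qv j) (fun ℓ => W.apOfModel ℓ)) (List.ofFn qv) e₀₂ G₂)
    (hid₂' : (s59t_actH (N₂ * ∏ j, qv j) aq (dvd_refl _) (s59t_Hmul N₂ (∏ j, qv j) (⊤ : Subgroup (ZMod N₂)ˣ) (s59t_KQ (p ^ n) qv)) (G₂ * s59t_jG 𝒪 (s59t_goodB (N₂ * ∏ j, qv j) B) e₀₂)) * (s59t_actH (N₂ * ∏ j, qv j) aq (dvd_refl _) (s59t_Hmul N₂ (∏ j, qv j) (⊤ : Subgroup (ZMod N₂)ˣ) (s59t_KQ (p ^ n) qv)) (G₂ * s59t_jG 𝒪 (s59t_goodB (N₂ * ∏ j, qv j) B) e₀₂)) = (s59t_actH (N₂ * ∏ j, qv j) aq (dvd_refl _) (s59t_Hmul N₂ (∏ j, qv j) (⊤ : Subgroup (ZMod N₂)ˣ) (s59t_KQ (p ^ n) qv)) (G₂ * s59t_jG 𝒪 (s59t_goodB (N₂ * ∏ j, qv j) B) e₀₂)))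
    (hP1₂ : s59t_TWFull (s59t_Gamma0_anti (s59t_dvd_mul_left' N₂ (∏ j, qv j)))
      (s59t_GammaHmul_le (N := N₂) (D := ∏ j, qv j) (H := (⊤ : Subgroup (ZMod N₂)ˣ)) (K := s59t_KQ (p ^ n) qv))
      (s59t_BQ N₂ (∏ j, qv j) (⊤ : Subgroup (ZMod N₂)ˣ) (s59t_KQ (p ^ n) qv))
      (s59t_CQ N₂ (∏ j, qv j) (⊤ : Subgroup (ZMod N₂)ˣ) (s59t_KQ (p ^ n) qv))
      (s59t_E0 (⊤ : Subgroup (ZMod N₂)ˣ) B e₂) (s59t_actH (N₂ * ∏ j, qv j) aq (dvd_refl _) (s59t_Hmul N₂ (∏ j, qv j) (⊤ : Subgroup (ZMod N₂)ˣ) (s59t_KQ (p ^ n) qv)) (G₂ * s59t_jG 𝒪 (s59t_goodB (N₂ * ∏ j, qv j) B) e₀₂)))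
    (hnil₂' : ∀ x ∈ s59t_goodB (N₂ * ∏ j, qv j) B, ∃ k : ℕ,
      ∀ y : s48h_Hpar 𝒪 (s48h_GammaH (N₂ * ∏ j, qv j) (s59t_Hmul N₂ (∏ j, qv j) (⊤ : Subgroup (ZMod N₂)ˣ) (s59t_KQ (p ^ n) qv))) 𝒪,
        ((s59w_op (s59t_Hmul N₂ (∏ j, qv j) (⊤ : Subgroup (ZMod N₂)ˣ) (s59t_KQ (p ^ n) qv)) 𝒪 x - s59t_cB (𝒪 := 𝒪) (N₂ * ∏ j, qv j) (fun ℓ => W.apOfModel ℓ) x •
          (1 : Module.End 𝒪 (s48h_Hpar 𝒪 (s48h_GammaH (N₂ * ∏ j, qv j) (s59t_Hmul N₂ (∏ j, qv j) (⊤ : Subgroup (ZMod N₂)ˣ) (s59t_KQ (p ^ n) qv))) 𝒪))) ^ k) ((s59t_actH (N₂ * ∏ j, qv j) aq (dvd_refl _) (s59t_Hmul N₂ (∏ j, qv j) (⊤ : Subgroup (ZMod N₂)ˣ) (s59t_KQ (p ^ n) qv)) (G₂ * s59t_jG 𝒪 (s59t_goodB (N₂ * ∏ j, qv j) B) e₀₂)) y) ∈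
          (maximalIdeal 𝒪 • ⊤ : Submodule 𝒪 (s48h_Hpar 𝒪 (s48h_GammaH (N₂ * ∏ j, qv j) (s59t_Hmul N₂ (∏ j, qv j) (⊤ : Subgroup (ZMod N₂)ˣ) (s59t_KQ (p ^ n) qv))) 𝒪)))
    -- the deformation type: strict-ordinary with free finsets
    (Sg Su Smin : Finset ℕ) (hpSg : p ∈ Sg)
    (hSg : ∀ q : ℕ, q.Prime → q ∣ (N₂ * ∏ q ∈ Finset.univ.image qv, q ^ 2) →
      q ∈ Sg ∨ s59e3q_E2Alt p (s59i_rhobarW W p hΔ 𝒪 hp𝒪) q)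
    (hmin : ∀ q : ℕ, q.Prime → q ≠ p →
      (q ∈ Smin ↔ ¬ (s59i_rhobarW W p hΔ 𝒪 hp𝒪).IsUnramifiedAt q))
    (hSu : ∀ q ∈ Su, q ∈ Smin ∨ q ∉ Finset.univ.image qv)
    (DQ : GaloisRep.DeformationRingData 𝒪 (s59i_rhobarW W p hΔ 𝒪 hp𝒪) (fun _A _ _ _ ρ =>
      GaloisRep.strictOrdinaryCondition 𝒪 p Sg ρ ∧
        ∀ q ∈ Su, q.Prime → q ≠ p → ρ.IsUnipotentOnInertiaAt q)) :
    s59m_LvlConclE p B (fun ℓ => W.apOfModel ℓ) e₂ hρ₂ P hP (d₂ - 2 * d₁) n qv hpL hN' hG' e₀ he' hee DQ (s59t_actH (N * ∏ j, qv j) aq (dvd_refl _) (s59t_Hmul N (∏ j, qv j) (⊤ : Subgroup (ZMod N)ˣ) (s59t_KQ (p ^ n) qv)) (G₁ * s59t_jG 𝒪 (s59t_goodB (N * ∏ j, qv j) B) e₀₁)) (s59t_actH (N₂ * ∏ j, qv j) aq (dvd_refl _) (s59t_Hmul N₂ (∏ j, qv j) (⊤ : Subgroup (ZMod N₂)ˣ) (s59t_KQ (p ^ n) qv)) (G₂ * s59t_jG 𝒪 (s59t_goodB (N₂ * ∏ j, qv j) B)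 e₀₂)) := by
  classical
  have hpP : p.Prime := Fact.out
  have hNN₂ : N ∣ N₂ := s59m_dvd_N₂ hN₂
  have hNB₂ : ∀ q : ℕ, q.Prime → q ∣ N₂ → q ∈ B := by
    intro q hq hqd
    rw [hN₂] at hqd
    rcases (Nat.Prime.dvd_mul hq).mp hqd with h | h
    · exact hNB q hq h
    · rw [(Nat.prime_dvd_prime_iff_eq hq hpP).mp h]
      exact hpB
  have hqvpr : ∀ i, (qv i).Prime := fun i => (hqv i).1
  have hHb := s59m_top_preimage (N := N) (N₂ := N₂) hNN₂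
  have hLN' : N * ∏ j, qv j ∣ N₂ * ∏ j, qv j := Nat.mul_dvd_mul_right hNN₂ _
  have hH' := s59m_Hmul_preimage hNN₂ hHb (s59t_KQ (p ^ n) qv)
  have hnH' := s59k_ppow_mem_Hmul_top N₂ qv p 0 n
  have hM := Internal.s59m_TPkgP_levelM p N N₂ hN₂ hsq₂ hpN B hpB hNB (fun ℓ => W.apOfModel ℓ) 𝒪 hp𝒪
    hGb e_b he_b hee_b e₁ e₂ hρ₁ hρ₂ hcb b₁ hb₁ b₂ hb₂ P hP hPP hmem hbase n qv hqinj hqv aq hpL hN' hG' e₀ he' hee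
    e₀₁ G₁ hX₁ hP1₁ e₀₂ G₂ hX₂ hid₂' hP1₂
  unfold s59m_LvlConclM at hM
  obtain ⟨hc', hρ₂', π₂, P', hP', b', πK, -, hεc', -, hιπ₂, hPP', hmem', hZop, hb', hπK, h2, h3, h4⟩ := hM
  -- the kernel part at the level is nonzero
  have hP'ne : P' ≠ 0 := (s59t_part_ne_zero_iff _ b' hb').2 hd0
  haveI : Nontrivial (s59t_part P') := by
    by_contra hnt
    rw [not_nontrivial_iff_subsingleton] at hnt
    apply hP'ne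
    refine LinearMap.ext fun y => ?_
    have h0 : (⟨P' y, ⟨y, rfl⟩⟩ : s59t_part P') = 0 := Subsingleton.elim _ _
    exact congrArg Subtype.val h0
  -- the numerology of the Hecke ring
  have hqvN₂ : ∀ i, ¬ qv i ∣ N₂ := fun i h => (hqv i).2.1 (hNB₂ _ (hqvpr i) h)
  have hMeq := s59k_level_eq_top qv N hqinj
  have hD₁ : ∏ q ∈ Finset.univ.image qv, q ∣ N * ∏ i, qv i := Dvd.intro_left N hMeq.symm
  have hQ₂ := s59k_hQ_top qv N₂ hqvpr hqvN₂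
  have hQ : ∀ q ∈ Finset.univ.image qv, q.Prime ∧ ¬ q ∣ N * p := by
    intro q hq
    have h := hQ₂ q hq
    rw [hN₂] at h
    exact h
  have hHker := s59k_hH_top qv N (p ^ n) hqinj rfl hD₁
  haveI : NeZero (N * (∏ q ∈ Finset.univ.image qv, q) * ∏ q ∈ Finset.univ.image qv, q) :=
    ⟨Nat.mul_ne_zero (Nat.mul_ne_zero (NeZero.ne N) (Finset.prod_ne_zero_iff.mpr fun q hq =>
      (hQ q hq).1.ne_zero)) (Finset.prod_ne_zero_iff.mpr fun q hq => (hQ q hq).1.ne_zero)⟩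
  haveI : Fact (HasIntegralStructure (N₂ * ∏ q ∈ Finset.univ.image qv, q ^ 2) 2) :=
    ⟨Fermat.Agent.S23.result _⟩
  have hMn : N₂ * ∏ q ∈ Finset.univ.image qv, q ^ 2 =
      N * (∏ q ∈ Finset.univ.image qv, q) * (∏ q ∈ Finset.univ.image qv, q) * p := by
    rw [hN₂, Finset.prod_pow]
    ring
  have hpM' : ¬ p ∣ N * (∏ q ∈ Finset.univ.image qv, q) * ∏ q ∈ Finset.univ.image qv, q := by
    have hpQ : ¬ p ∣ ∏ q ∈ Finset.univ.image qv, q := by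
      intro h
      obtain ⟨q', hq', hqq'⟩ := (Prime.dvd_finsetProd_iff (Nat.prime_iff.mp hpP) _).mp h
      obtain ⟨i, -, rfl⟩ := Finset.mem_image.mp hq'
      exact (hqv i).2.1 (((Nat.prime_dvd_prime_iff_eq hpP (hqvpr i)).mp hqq') ▸ hpB)
    intro h
    rcases (Nat.Prime.dvd_mul hpP).mp h with h | h
    · rcases (Nat.Prime.dvd_mul hpP).mp h with h | h
      · exact hpN h
      · exact hpQ h
    · exact hpQ h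
  have hgoodL : s18_GoodLevel p
      (N * (∏ q ∈ Finset.univ.image qv, q) * ∏ q ∈ Finset.univ.image qv, q) := by
    refine ⟨hpM', ?_⟩
    rcases hgoodN.2 with h | ⟨h3, h2⟩ | ⟨h2, h3⟩
    · exact Or.inl h
    · exact Or.inr (Or.inl ⟨h3, Dvd.dvd.mul_right (Dvd.dvd.mul_right h2 _) _⟩)
    · exact Or.inr (Or.inr ⟨h2, Dvd.dvd.mul_right (Dvd.dvd.mul_right h3 _) _⟩)
  have hS₂ : ∀ q : ℕ, q.Prime → q ∣ (N₂ * ∏ q ∈ Finset.univ.image qv, q ^ 2) →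
      q ∈ (B ∪ Finset.univ.image qv) := by
    intro q hq hqM
    rcases (Nat.Prime.dvd_mul hq).mp hqM with h | h
    · exact Finset.mem_union_left _ (hNB₂ q hq h)
    · obtain ⟨q', hq', hqq'⟩ := (Prime.dvd_finsetProd_iff (Nat.prime_iff.mp hq) _).mp h
      obtain ⟨i, -, rfl⟩ := Finset.mem_image.mp hq'
      have hqe : q = qv i := (Nat.prime_dvd_prime_iff_eq hq (hqvpr i)).mp (hq.dvd_of_dvd_pow hqq')
      subst hqe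
      exact Finset.mem_union_right _ (Finset.mem_image_of_mem qv (Finset.mem_univ i))
  have hXs : ∀ q ∈ Finset.univ.image qv, q.Prime ∧ q ∉ B := by
    intro q hq
    obtain ⟨i, -, rfl⟩ := Finset.mem_image.mp hq
    exact ⟨hqvpr i, (hqv i).2.1⟩
  have hsqNp : Squarefree (N * p) := hN₂ ▸ hsq₂
  have hNpN₂ : N * p ∣ N₂ := hN₂ ▸ dvd_refl _
  have hEigB : ∀ ℓ : ℕ, ℓ.Prime → ℓ ∉ (B ∪ Finset.univ.image qv) →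
      ∀ A : ValuationSubring (AlgebraicClosure ℚ), A.LiesOverPrime ℓ →
      ∀ σ : Γℚ, A.IsFrobeniusAt σ ℓ →
        LinearMap.charpoly ((s59i_rhobarW W p hΔ 𝒪 hp𝒪).ρ σ) =
          X ^ 2 - C (residue 𝒪 ((W.apOfModel ℓ : ℤ) : 𝒪)) * X +
            C ((ℓ : ResidueField 𝒪)) := fun ℓ hℓ hℓS A hA σ hσ =>
    s59e_rhobarW_charpoly_frob hΔ hp2 hirr hp𝒪 B hpB hB2 ℓ hℓ
      (fun h => hℓS (Finset.mem_union_left _ h)) A hA σ hσ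
  -- (H3) on the kernel part
  have hgoodB : ∀ q : ℕ, q.Prime → q ∉ B → W.IsGoodPrimeFor q := by
    intro q hq hqB
    by_contra hbad
    exact hqB (hB2 q hq hbad)
  have hQu : ∀ q ∈ Finset.univ.image qv, (s59i_rhobarW W p hΔ 𝒪 hp𝒪).IsUnramifiedAt q := by
    intro q hq
    obtain ⟨i, -, rfl⟩ := Finset.mem_image.mp hq
    exact s59e_rhobarW_unram_good hΔ hp2 hp𝒪 (qv i) (hqvpr i) (fun h => (hqv i).2.1 (h ▸ hpB))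
      (hgoodB _ (hqvpr i) (hqv i).2.1)
  have k1 := s59b_H3_pnew_part_free (B := B) (fun ℓ => W.apOfModel ℓ) hp2 hp𝒪 hordp N (Finset.univ.image qv) hQ
    hMeq hpL (s59t_Hmul N (∏ j, qv j) (⊤ : Subgroup (ZMod N)ˣ) (s59t_KQ (p ^ n) qv)) hD₁ hHker
    hN' hLN' (s59t_Hmul N₂ (∏ j, qv j) (⊤ : Subgroup (ZMod N₂)ˣ) (s59t_KQ (p ^ n) qv)) hH' hG'
    (0 + n) hnH'
  have k2 := k1 (N * (∏ q ∈ Finset.univ.image qv, q) * ∏ q ∈ Finset.univ.image qv, q)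
    (N₂ * ∏ q ∈ Finset.univ.image qv, q ^ 2) hMn rfl hgoodL (B ∪ Finset.univ.image qv)
    (Finset.mem_union_left _ hpB) Finset.subset_union_left hS₂ hsqNp hQu Sg Su Smin hpSg hSg hmin hSu
  have k3 := k2 _ hid₂' hεc' hnil₂' hEigB
  have k4 := k3 _ he' hee hc' hPP' hmem' DQ
  obtain ⟨a, ha1, ha2, aZ, haZ, hlocA, hlr, θ, hθ, hfrobT, hcong⟩ := k4
  unfold s59m_LvlConclE
  exact ⟨hc', hρ₂', π₂, P', hP', b', πK, a, aZ, hid₂', hεc', hP1₂, hιπ₂, hPP', hmem', hZop, hb', hπK, h2, h3, h4,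
    ha1, ha2, haZ, hlocA, hlr, θ, hθ, hfrobT, hcong⟩

export Internal (s59m_TPkgP_levelE_free)

end Fermat.Agent.Lib.S59
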