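/-
S59 project, case (P), route (T5w), [W4c] (helper9, prefix `s59m_`): **THE TAYLOR–WILES DATA OF ONE LEVEL OF THE KERNEL-PAIR CHAIN** — the
(P)-twin of helper5's `s59efl_lvl_pkg` (EFlrLvlP), with the bundles of the two levels `N` (`p`-free) and `N₂ = N p` as INPUTS (interface (A)
of helper7's post 4001: `s59ex_W_level` is called ONCE per level by the final and shared with the flat (H3) of the `p`-free level) and the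
[C8]-record as a PROVIDER hypothesis (helper3's post 4037: no parity in the package).

(the defs are in MKerRecProv.lean, MKerPkgZS.lean)
* `s59m_RecProv` (def) + `s59m_recProv_even` : the record provider = helper7's `Internal.s59x_levelZ_rec` universally quantified from the
  idempotent of the level on;
* `s59m_LvlPkgZConcl` (def) : the conclusion, a flat `∃`-list (`choose`-friendly);
* `Internal.s59m_lvl_pkgZ` : `s59m_TPkgP_levelE_free` (over the SMALL ring `DQ'`) + `θ := θ' ∘ κ` + the record + helper7's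
  `s59x_trace_factsZ` + `s59efl_adj_reduced`/`_torsionfree` (with `j := s59x_jZ`).
-/
import Mathlib
import Fermat.Agent.Lib.S59.MKerPkgZS
import Fermat.Agent.Lib.S59.MKerTopF
import Fermat.Agent.Lib.S59.NXKerH3r
import Fermat.Agent.Lib.S59.NXTrZ
import Fermat.Agent.Lib.S59.XDefOrd
import Fermat.Agent.Lib.S59.EFlrTr
import Fermat.Agent.Lib.S59.EFlrConcA

set_option autoImplicit false
set_option linter.unusedSectionVars false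
set_option linter.unusedVariables false
set_option linter.style.haveILetI false
set_option maxHeartbeats 0
set_option synthInstance.maxHeartbeats 400000
set_option maxSynthPendingDepth 3

noncomputable section

namespace Fermat.Agent.Lib.S59

open Matrix MatrixGroups CongruenceSubgroup IsLocalRing Polynomial CuspForm
open WeierstrassCurve WeierstrassCurve.Affine WeierstrassCurve.Affine.Point
open Fermat.Agent.Lib.S29 Fermat.Agent.Lib.S48 Fermat.Agent.Lib.S41 Fermat.Agent.Lib.S44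
open Fermat.Agent.Lib.S58 Fermat.Agent.Lib.S18

local notation "Γℚ" => (AlgebraicClosure ℚ ≃ₐ[ℚ] AlgebraicClosure ℚ)

/-- the primes dividing `N p` are in `B`. -/
theorem s59m_NB_mul_p {p N N₂ : ℕ} {B : Finset ℕ} (hpP : p.Prime) (hN₂ : N₂ = N * p)
    (hNB : ∀ q : ℕ, q.Prime → q ∣ N → q ∈ B) (hpB : p ∈ B) : ∀ q : ℕ, q.Prime → q ∣ N₂ → q ∈ B := by
  intro q hq hqd
  rw [hN₂] at hqd
  rcases (Nat.Prime.dvd_mul hq).mp hqd with h | h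
  · exact hNB q hq h
  · rw [(Nat.prime_dvd_prime_iff_eq hq hpP).mp h]
    exact hpB

/-- composition of a surjection of deformation rings with a surjection onto a Hecke ring. -/
theorem s59m_theta_comp {𝒪 R R' T : Type} [CommRing 𝒪] [CommRing R] [CommRing R'] [CommRing T]
    [Algebra 𝒪 R] [Algebra 𝒪 R'] [Algebra 𝒪 T]
    (κ : R →ₐ[𝒪] R') (hκs : Function.Surjective κ) (θ' : R' →ₐ[𝒪] T) (hθ' : Function.Surjective θ') :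
    ∃ θ : R →ₐ[𝒪] T, Function.Surjective θ ∧ (∀ x, θ x = θ' (κ x)) ∧
      ((θ : R →+* T) = (θ' : R' →+* T).comp (κ : R →+* R')) ∧ ∀ x, κ x = 0 → θ x = 0 :=
  ⟨θ'.comp κ, hθ'.comp hκs, fun x => rfl, rfl, fun x hx => by
    show θ' (κ x) = 0
    rw [hx, _root_.map_zero]⟩

/-- transport of a characteristic-polynomial identity along a composite. -/
theorem s59m_map_comp_eq {R R' T : Type} [CommRing R] [CommRing R'] [CommRing T] (κ : R →+* R') (θ' : R' →+* T)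
    (θ : R →+* T) (h : θ = θ'.comp κ) (f : Polynomial R) (f' : Polynomial R') (hf : f.map κ = f')
    (g : Polynomial T) (hg : f'.map θ' = g) : f.map θ = g := by
  rw [h, ← Polynomial.map_map, hf, hg]

/-- the Hecke ring of a submodule of a part is `𝒪`-torsion-free. -/
theorem s59m_adj_tf_part {𝒪 : Type} [CommRing 𝒪] [IsDomain 𝒪] [CharZero 𝒪] (G : Subgroup SL(2, ℤ))
    (ε : Module.End 𝒪 (s48h_Hpar 𝒪 G 𝒪)) (P' : Module.End 𝒪 (s59t_part ε)) {A : Type} [CommRing A]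
    (aZ : A →+* Module.End 𝒪 (s59t_part P')) (o : 𝒪) (ho : o ≠ 0) (x : s59e_adj 𝒪 aZ)
    (h : algebraMap 𝒪 (s59e_adj 𝒪 aZ) o * x = 0) : x = 0 := by
  haveI : NoZeroSMulDivisors 𝒪 (s59t_part P') :=
    ⟨fun {o y} h => or_iff_not_imp_left.mpr fun ho => by
      have h1 : o • (y : s59t_part ε) = 0 := congrArg Subtype.val h
      exact Subtype.ext (s59efl_part_torsionfree G ε o ho _ h1)⟩
  exact s59efl_adj_torsionfree aZ o ho x h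

/-- **the Taylor–Wiles data of one level of the kernel-pair chain**, bundles as inputs, record provider as hypothesis. -/
theorem Internal.s59m_lvl_pkgZ (p : ℕ) [Fact p.Prime] (hp2 : p ≠ 2) (W : WeierstrassCurve ℤ) (hΔ : W.Δ ≠ 0)
    (hirr : W.ModRepIsIrreducible p) (N : ℕ) [NeZero N] (N₂ : ℕ) [NeZero N₂] (hN₂ : N₂ = N * p)
    (hsq₂ : Squarefree N₂) (hpN : ¬ p ∣ N)
    (B : Finset ℕ) (hpB : p ∈ B) (hNB : ∀ q : ℕ, q.Prime → q ∣ N → q ∈ B)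
    (hB2 : ∀ r : ℕ, r.Prime → ¬ W.IsGoodPrimeFor r → r ∈ B)
    (hgoodN : s18_GoodLevel p N)
    (𝒪 : Type) [CommRing 𝒪] [IsDomain 𝒪] [IsDiscreteValuationRing 𝒪]
    [IsAdicComplete (maximalIdeal 𝒪) 𝒪] [Finite (ResidueField 𝒪)] [CharZero 𝒪]
    [Algebra ℤ_[p] 𝒪] [Module.Finite ℤ_[p] 𝒪]
    (hp𝒪 : ((p : ℕ) : 𝒪) ∈ maximalIdeal 𝒪)
    (hordp : (GaloisRepAdic.ofResidualGaloisRep (s59i_rhobarW W p hΔ 𝒪 hp𝒪)).IsOrdinaryAt p)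
    {r : ℕ} (σ : Type) [DecidableEq σ] [Fintype σ]
    -- the base data: the old package at `p` and the two idempotents
    (hGb : s59f_IsG' N p (⊤ : Subgroup (ZMod N)ˣ) (s48h_GammaH N₂ (⊤ : Subgroup (ZMod N₂)ˣ)))
    (e_b : SL(2, ℤ)) (he_b : e_b ∈ Gamma0 N₂)
    (hee_b : s59f_gW hpN * e_b * e_b ∈ s48h_GammaH N₂ (⊤ : Subgroup (ZMod N₂)ˣ))
    (e₁ : MvPolynomial ↥(s59t_goodB N B) 𝒪)
    (e₂ : MvPolynomial ↥(s59t_goodB N₂ B) 𝒪)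
    (hρ₁ : ∀ δ y, s59t_E0 (⊤ : Subgroup (ZMod N)ˣ) B e₁ (s59t_rho N (⊤ : Subgroup (ZMod N)ˣ) 𝒪 𝒪 δ y) =
        s59t_rho N (⊤ : Subgroup (ZMod N)ˣ) 𝒪 𝒪 δ (s59t_E0 (⊤ : Subgroup (ZMod N)ˣ) B e₁ y))
    (hρ₂ : ∀ δ y, s59t_E0 (⊤ : Subgroup (ZMod N₂)ˣ) B e₂ (s59t_rho N₂ (⊤ : Subgroup (ZMod N₂)ˣ) 𝒪 𝒪 δ y) =
        s59t_rho N₂ (⊤ : Subgroup (ZMod N₂)ˣ) 𝒪 𝒪 δ (s59t_E0 (⊤ : Subgroup (ZMod N₂)ˣ) B e₂ y))
    (hcb : (s59f_oldN hpN hN₂ hGb 𝒪 𝒪 e_b he_b hee_b).Compat (s59t_E0 (⊤ : Subgroup (ZMod N)ˣ) B e₁)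
        (s59t_E0 (⊤ : Subgroup (ZMod N₂)ˣ) B e₂))
    {d₁ d₂ : ℕ} (b₁ : Fin d₁ → s59t_part (s59t_E0 (⊤ : Subgroup (ZMod N)ˣ) B e₁))
    (hb₁ : Function.Bijective (s59t_evalMap
        (s59t_partRep (s59t_rho N (⊤ : Subgroup (ZMod N)ˣ) 𝒪 𝒪) hρ₁) b₁))
    (b₂ : Fin d₂ → s59t_part (s59t_E0 (⊤ : Subgroup (ZMod N₂)ˣ) B e₂))
    (hb₂ : Function.Bijective (s59t_evalMap
        (s59t_partRep (s59t_rho N₂ (⊤ : Subgroup (ZMod N₂)ˣ) 𝒪 𝒪) hρ₂) b₂))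
    -- the kernel part at the base
    (P : Module.End 𝒪 (s59t_part (s59t_E0 (⊤ : Subgroup (ZMod N₂)ˣ) B e₂)))
    (hP : ∀ δ x, P (s59t_partRep (s59t_rho N₂ (⊤ : Subgroup (ZMod N₂)ˣ) 𝒪 𝒪) hρ₂ δ x) =
        s59t_partRep (s59t_rho N₂ (⊤ : Subgroup (ZMod N₂)ˣ) 𝒪 𝒪) hρ₂ δ (P x)) (hPP : P * P = P)
    (hmem : ∀ x, x ∈ s59t_part P ↔
        ((s59f_oldN hpN hN₂ hGb 𝒪 𝒪 e_b he_b hee_b).restrict hcb).corA x = 0 ∧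
        ((s59f_oldN hpN hN₂ hGb 𝒪 𝒪 e_b he_b hee_b).restrict hcb).corB x = 0)
    (hbase : ∀ y₁ y₂ : s59t_part (s59t_E0 (⊤ : Subgroup (ZMod N)ˣ) B e₁),
        ∃ z : s59t_part (s59t_E0 (⊤ : Subgroup (ZMod N₂)ˣ) B e₂),
        ((s59f_oldN hpN hN₂ hGb 𝒪 𝒪 e_b he_b hee_b).restrict hcb).corA z = y₁ ∧
        ((s59f_oldN hpN hN₂ hGb 𝒪 𝒪 e_b he_b hee_b).restrict hcb).corB z = y₂)
    (hd0 : d₂ - 2 * d₁ ≠ 0)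
    -- the Hecke ring of the kernel part at the base (from the base package)
    (aZ₀ : heckeAlgebra N₂ 2 (↑B : Set ℕ) →+* Module.End 𝒪 (s59t_part P))
    [IsLocalRing (s59e_adj 𝒪 aZ₀)]
    (hRρ : ∀ (t : s59e_adj 𝒪 aZ₀) (δ : (s59t_Delta N₂ (⊤ : Subgroup (ZMod N₂)ˣ))) (y : s59t_part P),
      t • (s59t_partRep (s59t_partRep (s59t_rho N₂ (⊤ : Subgroup (ZMod N₂)ˣ) 𝒪 𝒪) hρ₂) hP) δ y = (s59t_partRep (s59t_partRep (s59t_rho N₂ (⊤ : Subgroup (ZMod N₂)ˣ) 𝒪 𝒪) hρ₂) hP) δ (t • y))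
    (ρR : GaloisRepAdic (s59e_adj 𝒪 aZ₀))
    -- the level
    (n : ℕ) (qv : Fin r → ℕ) [NeZero (∏ j, qv j)] [NeZero (N * ∏ j, qv j)] [NeZero (N₂ * ∏ j, qv j)]
    [NeZero (N₂ * ∏ q ∈ Finset.univ.image qv, q ^ 2)] (hqinj : Function.Injective qv)
    (hqv : ∀ i, (qv i).Prime ∧ qv i ∉ B ∧ p ^ (n + 1) ∣ qv i - 1)
    (aq : ℕ → 𝒪)
    -- the old package at `p` at the level, with a FREE normalising element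
    (hpL : ¬ p ∣ N * ∏ j, qv j) (hN' : N₂ * ∏ j, qv j = N * (∏ j, qv j) * p)
    (hG' : s59f_IsG' (N * ∏ j, qv j) p
      (s59t_Hmul N (∏ j, qv j) (⊤ : Subgroup (ZMod N)ˣ) (s59t_KQ (p ^ n) qv))
      (s48h_GammaH (N₂ * ∏ j, qv j)
        (s59t_Hmul N₂ (∏ j, qv j) (⊤ : Subgroup (ZMod N₂)ˣ) (s59t_KQ (p ^ n) qv))))
    (e₀ : SL(2, ℤ)) (he' : e₀ ∈ Gamma0 (N₂ * ∏ j, qv j))
    (hee : s59f_gW hpL * e₀ * e₀ ∈ s48h_GammaH (N₂ * ∏ j, qv j)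
      (s59t_Hmul N₂ (∏ j, qv j) (⊤ : Subgroup (ZMod N₂)ˣ) (s59t_KQ (p ^ n) qv)))
    -- the Taylor–Wiles bundles of the two levels (INPUTS: outputs of `s59ex_W_level` at `N` and at `N₂`, same `aq`)
    (e₀₁ : MvPolynomial ↥(s59t_goodB (N * ∏ j, qv j) B) 𝒪)
    (G₁ : MvPolynomial (s59w_AIdx (N * ∏ j, qv j) ⊕ ℕ) 𝒪)
    (hX₁ : s59ex_LvlX (N * ∏ j, qv j) (s59t_Hmul N (∏ j, qv j) (⊤ : Subgroup (ZMod N)ˣ) (s59t_KQ (p ^ n) qv)) aq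
      (s59t_goodB (N * ∏ j, qv j) B) (s59t_cB (𝒪 := 𝒪) (N * ∏ j, qv j) (fun ℓ => W.apOfModel ℓ)) (List.ofFn qv) e₀₁ G₁)
    (hP1₁ : s59t_TWFull (s59t_Gamma0_anti (s59t_dvd_mul_left' N (∏ j, qv j)))
      (s59t_GammaHmul_le (N := N) (D := ∏ j, qv j) (H := (⊤ : Subgroup (ZMod N)ˣ)) (K := s59t_KQ (p ^ n) qv))
      (s59t_BQ N (∏ j, qv j) (⊤ : Subgroup (ZMod N)ˣ) (s59t_KQ (p ^ n) qv))
      (s59t_CQ N (∏ j, qv j) (⊤ : Subgroup (ZMod N)ˣ) (s59t_KQ (p ^ n) qv))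
      (s59t_E0 (⊤ : Subgroup (ZMod N)ˣ) B e₁) (s59t_actH (N * ∏ j, qv j) aq (dvd_refl _) (s59t_Hmul N (∏ j, qv j) (⊤ : Subgroup (ZMod N)ˣ) (s59t_KQ (p ^ n) qv)) (G₁ * s59t_jG 𝒪 (s59t_goodB (N * ∏ j, qv j) B) e₀₁)))
    (e₀₂ : MvPolynomial ↥(s59t_goodB (N₂ * ∏ j, qv j) B) 𝒪)
    (G₂ : MvPolynomial (s59w_AIdx (N₂ * ∏ j, qv j) ⊕ ℕ) 𝒪)
    (hX₂ : s59ex_LvlX (N₂ * ∏ j, qv j) (s59t_Hmul N₂ (∏ j, qv j) (⊤ : Subgroup (ZMod N₂)ˣ) (s59t_KQ (p ^ n) qv)) aq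
      (s59t_goodB (N₂ * ∏ j, qv j) B) (s59t_cB (𝒪 := 𝒪) (N₂ * ∏ j, qv j) (fun ℓ => W.apOfModel ℓ)) (List.ofFn qv) e₀₂ G₂)
    (hid₂' : (s59t_actH (N₂ * ∏ j, qv j) aq (dvd_refl _) (s59t_Hmul N₂ (∏ j, qv j) (⊤ : Subgroup (ZMod N₂)ˣ) (s59t_KQ (p ^ n) qv)) (G₂ * s59t_jG 𝒪 (s59t_goodB (N₂ * ∏ j, qv j) B) e₀₂)) * (s59t_actH (N₂ * ∏ j, qv j) aq (dvd_refl _) (s59t_Hmul N₂ (∏ j, qv j) (⊤ : Subgroup (ZMod N₂)ˣ) (s59t_KQ (p ^ n) qv)) (G₂ * s59t_jG 𝒪 (s59t_goodB (N₂ * ∏ j, qv j) B) e₀₂)) = (s59t_actH (N₂ * ∏ j, qv j) aq (dvd_refl _) (s59t_Hmul N₂ (∏ j, qv j) (⊤ : Subgroup (ZMod N₂)ˣ) (s59t_KQ (p ^ n) qv)) (G₂ * s59t_jG 𝒪 (s59t_goodB (N₂ * ∏ j, qv j) B) e₀₂)))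
    (hP1₂ : s59t_TWFull (s59t_Gamma0_anti (s59t_dvd_mul_left' N₂ (∏ j, qv j)))
      (s59t_GammaHmul_le (N := N₂) (D := ∏ j, qv j) (H := (⊤ : Subgroup (ZMod N₂)ˣ)) (K := s59t_KQ (p ^ n) qv))
      (s59t_BQ N₂ (∏ j, qv j) (⊤ : Subgroup (ZMod N₂)ˣ) (s59t_KQ (p ^ n) qv))
      (s59t_CQ N₂ (∏ j, qv j) (⊤ : Subgroup (ZMod N₂)ˣ) (s59t_KQ (p ^ n) qv))
      (s59t_E0 (⊤ : Subgroup (ZMod N₂)ˣ) B e₂) (s59t_actH (N₂ * ∏ j, qv j) aq (dvd_refl _) (s59t_Hmul N₂ (∏ j, qv j) (⊤ : Subgroup (ZMod N₂)ˣ) (s59t_KQ (p ^ n) qv)) (G₂ * s59t_jG 𝒪 (s59t_goodB (N₂ * ∏ j, qv j) B) e₀₂)))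
    (hnil₂' : ∀ x ∈ s59t_goodB (N₂ * ∏ j, qv j) B, ∃ k : ℕ,
      ∀ y : s48h_Hpar 𝒪 (s48h_GammaH (N₂ * ∏ j, qv j) (s59t_Hmul N₂ (∏ j, qv j) (⊤ : Subgroup (ZMod N₂)ˣ) (s59t_KQ (p ^ n) qv))) 𝒪,
        ((s59w_op (s59t_Hmul N₂ (∏ j, qv j) (⊤ : Subgroup (ZMod N₂)ˣ) (s59t_KQ (p ^ n) qv)) 𝒪 x - s59t_cB (𝒪 := 𝒪) (N₂ * ∏ j, qv j) (fun ℓ => W.apOfModel ℓ) x •
          (1 : Module.End 𝒪 (s48h_Hpar 𝒪 (s48h_GammaH (N₂ * ∏ j, qv j) (s59t_Hmul N₂ (∏ j, qv j) (⊤ : Subgroup (ZMod N₂)ˣ) (s59t_KQ (p ^ n) qv))) 𝒪))) ^ k) ((s59t_actH (N₂ * ∏ j, qv j) aq (dvd_refl _) (s59t_Hmul N₂ (∏ j, qv j) (⊤ : Subgroup (ZMod N₂)ˣ) (s59t_KQ (p ^ n) qv)) (G₂ * s59t_jG 𝒪 (s59t_goodB (N₂ * ∏ j, qv j) B) e₀₂)) y) ∈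
          (maximalIdeal 𝒪 • ⊤ : Submodule 𝒪 (s48h_Hpar 𝒪 (s48h_GammaH (N₂ * ∏ j, qv j) (s59t_Hmul N₂ (∏ j, qv j) (⊤ : Subgroup (ZMod N₂)ˣ) (s59t_KQ (p ^ n) qv))) 𝒪)))
    -- the generators of `B_Q`
    (g : Fin r → (s59t_BQ N₂ (∏ j, qv j) (⊤ : Subgroup (ZMod N₂)ˣ) (s59t_KQ (p ^ n) qv)))
    (hcard : Nat.card (s59t_BQ N₂ (∏ j, qv j) (⊤ : Subgroup (ZMod N₂)ˣ) (s59t_KQ (p ^ n) qv)) = (p ^ n) ^ r)
    (hgen : ∀ x : (s59t_BQ N₂ (∏ j, qv j) (⊤ : Subgroup (ZMod N₂)ˣ) (s59t_KQ (p ^ n) qv)), ∃ a : Fin r → ℕ, x = ∏ i, g i ^ a i)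
    (hord : ∀ i, g i ^ (p ^ n) = 1)
    (hgloc : ∀ i, ∃ τ : Gamma0 (N₂ * ∏ j, qv j),
      (QuotientGroup.mk τ : (s59t_Delta (N₂ * ∏ j, qv j) (s59t_Hmul N₂ (∏ j, qv j) (⊤ : Subgroup (ZMod N₂)ˣ) (s59t_KQ (p ^ n) qv)))) = (g i : (s59t_Delta (N₂ * ∏ j, qv j) (s59t_Hmul N₂ (∏ j, qv j) (⊤ : Subgroup (ZMod N₂)ˣ) (s59t_KQ (p ^ n) qv)))) ∧
      ZMod.unitsMap (Nat.div_dvd_of_dvd (s59t_qv_dvd_level qv N₂ i))
        (s59t_unitHom (N₂ * ∏ j, qv j) τ) = 1)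
    -- the deformation type of the Taylor–Wiles datum
    (Sg Su : Finset ℕ)
    (DQ : GaloisRep.DeformationRingData 𝒪 (s59i_rhobarW W p hΔ 𝒪 hp𝒪) (fun _A _ _ _ ρ =>
      GaloisRep.strictOrdinaryCondition 𝒪 p Sg ρ ∧
        ∀ q ∈ Su, q.Prime → q ≠ p → ρ.IsUnipotentOnInertiaAt q))
    -- the auxiliary ring `DQ'` (of a smaller type) through which the Hecke ring of the level is reached
    (Sg' Su' Smin : Finset ℕ) (hpSg : p ∈ Sg')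
    (hSg : ∀ q : ℕ, q.Prime → q ∣ (N₂ * ∏ q ∈ Finset.univ.image qv, q ^ 2) →
      q ∈ Sg' ∨ s59e3q_E2Alt p (s59i_rhobarW W p hΔ 𝒪 hp𝒪) q)
    (hmin : ∀ q : ℕ, q.Prime → q ≠ p →
      (q ∈ Smin ↔ ¬ (s59i_rhobarW W p hΔ 𝒪 hp𝒪).IsUnramifiedAt q))
    (hSu : ∀ q ∈ Su', q ∈ Smin ∨ q ∉ Finset.univ.image qv)
    (DQ' : GaloisRep.DeformationRingData 𝒪 (s59i_rhobarW W p hΔ 𝒪 hp𝒪) (fun _A _ _ _ ρ =>
      GaloisRep.strictOrdinaryCondition 𝒪 p Sg' ρ ∧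
        ∀ q ∈ Su', q.Prime → q ≠ p → ρ.IsUnipotentOnInertiaAt q))
    (κ : DQ.R →ₐ[𝒪] DQ'.R) (hκs : Function.Surjective κ)
    (hκc : ∀ g : Γℚ, (LinearMap.charpoly (DQ.ρ.ρ g)).map (κ : DQ.R →+* DQ'.R) =
      LinearMap.charpoly (DQ'.ρ.ρ g))
    -- the primes where `κ` kills the inertia coefficients (the raising primes at the chain index `0`)
    (Qr : Set ℕ)
    (hκQr : ∀ q ∈ Qr, ∀ A' : ValuationSubring (AlgebraicClosure ℚ), A'.LiesOverPrime q →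
      ∀ τ ∈ A'.inertiaSubgroupIn ℚ, ∀ (f : Module.Dual DQ.R DQ.ρ.V) (v : DQ.ρ.V),
        κ (f (DQ.ρ.ρ τ v - v)) = 0)
    -- the record provider
    (hrec : s59m_RecProv p N₂ B (fun ℓ => W.apOfModel ℓ) r σ (s59t_E0 (⊤ : Subgroup (ZMod N₂)ˣ) B e₂) hρ₂ P hP
      (d₂ - 2 * d₁) aZ₀ hRρ ρR n qv DQ) :
    s59m_LvlPkgZConcl p B (fun ℓ => W.apOfModel ℓ) e₂ hρ₂ P hP (d₂ - 2 * d₁) aZ₀ hRρ ρR n σ qv hpL hN' hG' e₀ he' hee g Sg Su DQ Qr (s59t_actH (N * ∏ j, qv j) aq (dvd_refl _) (s59t_Hmul N (∏ j, qv j) (⊤ : Subgroup (ZMod N)ˣ) (s59t_KQ (p ^ n) qv)) (G₁ * s59t_jG 𝒪 (s59t_goodB (N * ∏ j, qv j) B) e₀₁)) (s59t_actH (N₂ * ∏ j, qv j) aq (dvd_refl _) (s59t_Hmul N₂ (∏ j, qv j) (⊤ : Subgroup (ZMod N₂)ˣ) (s59t_KQ (p ^ n) qv)) (G₂ * s59t_jG 𝒪 (s59t_goodB (N₂ * ∏ j, qv j) B) e₀₂)) := by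
  classical
  have hpP : p.Prime := Fact.out
  have hNB₂ : ∀ q : ℕ, q.Prime → q ∣ N₂ → q ∈ B := s59m_NB_mul_p hpP hN₂ hNB hpB
  have hqvpr : ∀ i, (qv i).Prime := fun i => (hqv i).1
  -- the kernel pair and its Hecke ring over the small ring `DQ'`
  have hE := Internal.s59m_TPkgP_levelE_free p hp2 W hΔ hirr N N₂ hN₂ hsq₂ hpN B hpB hNB hB2 hgoodN 𝒪 hp𝒪 hordp
    hGb e_b he_b hee_b e₁ e₂ hρ₁ hρ₂ hcb b₁ hb₁ b₂ hb₂ P hP hPP hmem hbase hd0 n qv hqinj hqv aq hpL hN' hG' e₀ he' hee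
    e₀₁ G₁ hX₁ hP1₁ e₀₂ G₂ hX₂ hid₂' hP1₂ hnil₂' Sg' Su' Smin hpSg hSg hmin hSu DQ'
  unfold s59m_LvlConclE at hE
  choose hc' hρ' π₂ P' hP' b' πK a aZ hid' hεc' hP1 hιπ₂ hPP' hmem' hZop hb' hπK h2 h3 h4
    ha1 ha2 haZ hlocA hlr θ' hθ' hfrobT' hcong using hE
  haveI : IsLocalRing (s59e_adj 𝒪 aZ) := hlr
  have hP1c := hP1
  unfold s59t_TWFull at hP1c
  choose hρc hρc' dn bn bn' πc hbn hbn' hιinj₂ hrestc using hP1c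
  -- the map from `DQ.R`
  have hexθ := s59m_theta_comp κ hκs θ' hθ'
  choose θ hθ hθdef hθcoe hθκ using hexθ
  have hfrobT : ∀ ℓ : ℕ, ℓ.Prime → ℓ ∉ (B ∪ Finset.univ.image qv) →
      ∀ A' : ValuationSubring (AlgebraicClosure ℚ), A'.LiesOverPrime ℓ →
      ∀ τ : Γℚ, A'.IsFrobeniusAt τ ℓ →
        (LinearMap.charpoly (DQ.ρ.ρ τ)).map (θ : DQ.R →+* s59e_adj 𝒪 aZ) =
          Polynomial.X ^ 2 - Polynomial.C (s59e_tOf (↑(B ∪ Finset.univ.image qv) : Set ℕ) aZ ℓ) * Polynomial.X +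
            Polynomial.C ((ℓ : s59e_adj 𝒪 aZ)) := fun ℓ hℓ hℓS A' hA' τ hτ =>
    s59m_map_comp_eq _ _ _ hθcoe _ _ (hκc τ) _ (hfrobT' ℓ hℓ hℓS A' hA' τ hτ)
  -- the level record
  unfold s59m_RecProv at hrec
  have hR := hrec _ hid' hεc' hP1 hρ' π₂ hιπ₂ P' hP' hPP' hZop b' hb' πK hπK h2 h3 h4 g hcard hgen hord hgloc
    a ha1 ha2 aZ haZ hlocA θ hθ hfrobT hcong
  choose hcomm hTρ hrecN using hR
  have recd := Classical.choice hrecN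
  -- the modules are finite free and nonzero
  let bZ := Module.Free.chooseBasis ℤ (s48h_M (s48h_GammaH (N₂ * ∏ j, qv j) (s59t_Hmul N₂ (∏ j, qv j) (⊤ : Subgroup (ZMod N₂)ˣ) (s59t_KQ (p ^ n) qv))))
  haveI : Module.Free 𝒪 (s48h_Hpar 𝒪 (s48h_GammaH (N₂ * ∏ j, qv j) (s59t_Hmul N₂ (∏ j, qv j) (⊤ : Subgroup (ZMod N₂)ˣ) (s59t_KQ (p ^ n) qv))) 𝒪) := Module.Free.of_basis (s59u_cB bZ 𝒪)
  haveI : Module.Finite 𝒪 (s48h_Hpar 𝒪 (s48h_GammaH (N₂ * ∏ j, qv j) (s59t_Hmul N₂ (∏ j, qv j) (⊤ : Subgroup (ZMod N₂)ˣ) (s59t_KQ (p ^ n) qv))) 𝒪) := Module.Finite.of_basis (s59u_cB bZ 𝒪)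
  haveI : Module.Finite 𝒪 (s59t_part (s59t_actH (N₂ * ∏ j, qv j) aq (dvd_refl _) (s59t_Hmul N₂ (∏ j, qv j) (⊤ : Subgroup (ZMod N₂)ˣ) (s59t_KQ (p ^ n) qv)) (G₂ * s59t_jG 𝒪 (s59t_goodB (N₂ * ∏ j, qv j) B) e₀₂))) := s59t_part_finite _
  haveI : Module.Free 𝒪 (s59t_part (s59t_actH (N₂ * ∏ j, qv j) aq (dvd_refl _) (s59t_Hmul N₂ (∏ j, qv j) (⊤ : Subgroup (ZMod N₂)ˣ) (s59t_KQ (p ^ n) qv)) (G₂ * s59t_jG 𝒪 (s59t_goodB (N₂ * ∏ j, qv j) B) e₀₂))) := s59t_part_free hid'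
  haveI : Module.Finite 𝒪 (s59t_part P') := s59t_part_finite _
  haveI : Module.Free 𝒪 (s59t_part P') := s59t_part_free hPP'
  have hP'ne : P' ≠ 0 := (s59t_part_ne_zero_iff _ b' hb').2 hd0
  haveI : Nontrivial (s59t_part P') := s59x_range_nontrivial _ hP'ne
  -- the trace ring
  have hT := s59x_trace_factsZ p hp2 W hΔ B hirr hpB hB2 𝒪 hp𝒪 (s59x_locCond_ord p hp2) Sg Su DQ aZ hlocA θ hθ
    (B ∪ Finset.univ.image qv) Finset.subset_union_left (s59e_tOf _ aZ) hfrobT hcong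
  choose hlh hθl hnoeth hcompl hres𝒪 hres h𝒟 using hT
  -- the numerology of the level
  have hqvN₂ : ∀ i, ¬ qv i ∣ N₂ := fun i h => (hqv i).2.1 (hNB₂ _ (hqvpr i) h)
  have hMeq₂ := s59k_level_eq_top qv N₂ hqinj
  have hD₂ : ∏ q ∈ Finset.univ.image qv, q ∣ N₂ * ∏ i, qv i := Dvd.intro_left N₂ hMeq₂.symm
  have hQ₂ := s59k_hQ_top qv N₂ hqvpr hqvN₂
  have hnm := s59k_hnm_pow hpP hp2 (0 + n)
  have hn := s59k_ppow_mem_Hmul_top N₂ qv p 0 n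
  have hHker₂ := s59k_hH_top qv N₂ (p ^ n) hqinj rfl hD₂
  have hred : IsReduced (s59e_adj 𝒪 aZ) :=
    s59efl_adj_reduced (s59t_Hmul N₂ (∏ j, qv j) (⊤ : Subgroup (ZMod N₂)ˣ) (s59t_KQ (p ^ n) qv))
      (s59x_jZ (s59t_Hmul N₂ (∏ j, qv j) (⊤ : Subgroup (ZMod N₂)ˣ) (s59t_KQ (p ^ n) qv)) _ P') (s59x_jZ_injective _ _ _)
      a ((p ^ (0 + n) - 1) * ((p ^ (0 + n) + 1) / 2)) ha2 aZ haZ
      N₂ (Finset.univ.image qv) hMeq₂ hQ₂ rfl hD₂ hHker₂ hnm hn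
  have htf : ∀ o : 𝒪, o ≠ 0 → ∀ x : s59e_adj 𝒪 aZ, algebraMap 𝒪 (s59e_adj 𝒪 aZ) o * x = 0 → x = 0 :=
    fun o ho x h => s59m_adj_tf_part _ _ P' aZ o ho x h
  unfold s59m_LvlPkgZConcl
  exact ⟨hc', hρ', π₂, P', hP', b', πK, a, aZ, hid', hεc', hP1, hιπ₂, hιinj₂, hPP', hmem', hZop, hb', hπK, h2, h3, h4,
    ha1, ha2, haZ, hlocA, hlr, θ, hθ, hfrobT, hcong, hcomm, hTρ, recd, hnoeth, hcompl, hlh, hres𝒪, hθl, h𝒟, hres,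
    hred, htf, fun q hq A' hA' τ hτ f v => hθκ _ (hκQr q hq A' hA' τ hτ f v)⟩

export Internal (s59m_lvl_pkgZ)

end Fermat.Agent.Lib.S59
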