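/-
S59 project, case (P), route (T5w), [W4c] (helper9, prefix `s59m_`): **ALL THE TAYLOR–WILES DATA OF ONE CHAIN INDEX** — what the final assembly
(`twin of EFlrFin` on the kernel pairs) needs at the index `s` (p-free level `N = N s`, level `N₂ = N s * p`), in ONE `∃`-list:
the two bundles of `s59ex_W_level` (called ONCE per level, same `aq bq`; helper7's posts 4001, 4038), the kernel pair with its Hecke ring,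
Galois datum and level record (`Internal.s59m_lvl_pkgZ`, MKerPkgZ), the flat data of the `p`-free level on the SAME idempotent
(`Internal.s59m_lvl_flat`, MKerFlat; input (D) of `Internal.s59x_concZ_T5w`) and the Hecke ring of the FULL part of the level `N₂`
(`s59m_TW_heckeF`, MKerHFW).  PARITY-FREE: `s59e_auxTors`, `s59b_S37H` at the two levels and the record provider `s59m_RecProv` are HYPOTHESES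
(helper3's post 4037), so ONE proof serves `h2N` (p = 3) and `hp5`.

* `s59m_LvlIdxConcl` (def, MKerLvlAllS.lean), `Internal.s59m_lvl_allZ` (+ export).
-/
import Mathlib
import Fermat.Agent.Lib.S59.MKerLvlAllS
import Fermat.Agent.Lib.S59.MKerPkgZ
import Fermat.Agent.Lib.S59.MKerFlat
import Fermat.Agent.Lib.S59.MKerHFW
import Fermat.Agent.Lib.S59.EXLvl

set_option autoImplicit false
set_option linter.unusedSectionVars false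
set_option linter.unusedVariables false
set_option linter.style.haveILetI false
set_option maxHeartbeats 0
set_option synthInstance.maxHeartbeats 400000
set_option maxSynthPendingDepth 3

noncomputable section

namespace Fermat.Agent.Lib.S59

open Matrix MatrixGroups CongruenceSubgroup IsLocalRing Polynomial CuspForm
open WeierstrassCurve WeierstrassCurve.Affine WeierstrassCurve.Affine.Point
open Fermat.Agent.Lib.S29 Fermat.Agent.Lib.S48 Fermat.Agent.Lib.S41 Fermat.Agent.Lib.S44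
open Fermat.Agent.Lib.S58 Fermat.Agent.Lib.S18

local notation "Γℚ" => (AlgebraicClosure ℚ ≃ₐ[ℚ] AlgebraicClosure ℚ)

/-- the idempotent of a Taylor–Wiles level over a nonzero base part is nonzero. -/
theorem s59m_TWFull_ne_zero {𝒪 : Type} [CommRing 𝒪] [Nontrivial 𝒪] {N N' : ℕ} [NeZero N] [NeZero N'] {H : Subgroup (ZMod N)ˣ}
    {H' : Subgroup (ZMod N')ˣ} {h0 : Gamma0 N' ≤ Gamma0 N} {hle : s48h_GammaH N' H' ≤ s48h_GammaH N H}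
    {Bq Cq : Subgroup (s59t_Delta N' H')} [Fintype Bq] [Fintype Cq]
    {ε : Module.End 𝒪 (s48h_Hpar 𝒪 (s48h_GammaH N H) 𝒪)} {ε' : Module.End 𝒪 (s48h_Hpar 𝒪 (s48h_GammaH N' H') 𝒪)}
    (hP1 : s59t_TWFull h0 hle Bq Cq ε ε')
    {hρ : ∀ δ y, ε (s59t_rho N H 𝒪 𝒪 δ y) = s59t_rho N H 𝒪 𝒪 δ (ε y)} {d : ℕ} (b : Fin d → s59t_part ε)
    (hb : Function.Bijective (s59t_evalMap (s59t_partRep (s59t_rho N H 𝒪 𝒪) hρ) b)) (hd : d ≠ 0) : ε' ≠ 0 := by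
  obtain ⟨hρ0, hρ'0, dn, bn, bn', π0, hbn, hbn', hrest⟩ := hP1
  have hdn : d = dn := (s59u_rank_unique _ bn hbn b hb).symm
  subst hdn
  exact (s59t_part_ne_zero_iff _ bn' hbn').2 hd

/-- **all the Taylor–Wiles data of one chain index**, parity-free (the parity-dependent inputs are hypotheses). -/
theorem Internal.s59m_lvl_allZ (p : ℕ) [Fact p.Prime] (hp2 : p ≠ 2) (W : WeierstrassCurve ℤ) (hΔ : W.Δ ≠ 0)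
    (hirr : W.ModRepIsIrreducible p) (N : ℕ) [NeZero N] (N₂ : ℕ) [NeZero N₂] (hN₂ : N₂ = N * p)
    (hsq₂ : Squarefree N₂) (hpN : ¬ p ∣ N)
    (B : Finset ℕ) (hpB : p ∈ B) (hNB : ∀ q : ℕ, q.Prime → q ∣ N → q ∈ B)
    (hB2 : ∀ r : ℕ, r.Prime → ¬ W.IsGoodPrimeFor r → r ∈ B)
    (hgoodN : s18_GoodLevel p N)
    (𝒪 : Type) [CommRing 𝒪] [IsDomain 𝒪] [IsDiscreteValuationRing 𝒪]
    [IsAdicComplete (maximalIdeal 𝒪) 𝒪] [Finite (ResidueField 𝒪)] [CharZero 𝒪]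
    [Algebra ℤ_[p] 𝒪] [Module.Finite ℤ_[p] 𝒪]
    (hp𝒪 : ((p : ℕ) : 𝒪) ∈ maximalIdeal 𝒪)
    (hordp : (GaloisRepAdic.ofResidualGaloisRep (s59i_rhobarW W p hΔ 𝒪 hp𝒪)).IsOrdinaryAt p)
    (habs : (s59i_rhobarW W p hΔ 𝒪 hp𝒪).IsAbsolutelyIrreducible)
    {r : ℕ} (σ : Type) [DecidableEq σ] [Fintype σ]
    -- residual modularity at the two levels and the PARITY-DEPENDENT inputs of `s59ex_W_level` (hypotheses: the package is parity-free)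
    (hocc₁ : s44i_LevelOcc N p (fun ℓ => W.apOfModel ℓ) B)
    (hocc₂ : s44i_LevelOcc N₂ p (fun ℓ => W.apOfModel ℓ) B)
    (hp12₁ : s59e_auxTors p N) (hN1₁ : 1 < N) (S37₁ : s59b_S37H N (⊤ : Subgroup (ZMod N)ˣ))
    (hp12₂ : s59e_auxTors p N₂) (S37₂ : s59b_S37H N₂ (⊤ : Subgroup (ZMod N₂)ˣ))
    -- the base data: the old package at `p` and the two idempotents
    (hGb : s59f_IsG' N p (⊤ : Subgroup (ZMod N)ˣ) (s48h_GammaH N₂ (⊤ : Subgroup (ZMod N₂)ˣ)))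
    (e_b : SL(2, ℤ)) (he_b : e_b ∈ Gamma0 N₂)
    (hee_b : s59f_gW hpN * e_b * e_b ∈ s48h_GammaH N₂ (⊤ : Subgroup (ZMod N₂)ˣ))
    (e₁ : MvPolynomial ↥(s59t_goodB N B) 𝒪)
    (e₂ : MvPolynomial ↥(s59t_goodB N₂ B) 𝒪)
    (h1e₁ : 1 - e₁ ∈ s59t_evalIdeal (fun x : ↥(s59t_goodB N B) =>
      s59t_cB (𝒪 := 𝒪) N (fun ℓ => W.apOfModel ℓ) (x : s59w_AIdx N)))
    (hid₁ : (s59t_E0 (⊤ : Subgroup (ZMod N)ˣ) B e₁) * (s59t_E0 (⊤ : Subgroup (ZMod N)ˣ) B e₁) = (s59t_E0 (⊤ : Subgroup (ZMod N)ˣ) B e₁))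
    (hnil₁ : ∀ x ∈ s59t_goodB N B, ∃ k : ℕ, ∀ y : (s48h_Hpar 𝒪 (s48h_GammaH N (⊤ : Subgroup (ZMod N)ˣ)) 𝒪),
      ((s59w_op (⊤ : Subgroup (ZMod N)ˣ) 𝒪 x - s59t_cB (𝒪 := 𝒪) N (fun ℓ => W.apOfModel ℓ) x •
        (1 : Module.End 𝒪 (s48h_Hpar 𝒪 (s48h_GammaH N (⊤ : Subgroup (ZMod N)ˣ)) 𝒪))) ^ k) ((s59t_E0 (⊤ : Subgroup (ZMod N)ˣ) B e₁) y) ∈
        (maximalIdeal 𝒪 • ⊤ : Submodule 𝒪 (s48h_Hpar 𝒪 (s48h_GammaH N (⊤ : Subgroup (ZMod N)ˣ)) 𝒪)))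
    (h1e₂ : 1 - e₂ ∈ s59t_evalIdeal (fun x : ↥(s59t_goodB N₂ B) =>
      s59t_cB (𝒪 := 𝒪) N₂ (fun ℓ => W.apOfModel ℓ) (x : s59w_AIdx N₂)))
    (hid₂ : (s59t_E0 (⊤ : Subgroup (ZMod N₂)ˣ) B e₂) * (s59t_E0 (⊤ : Subgroup (ZMod N₂)ˣ) B e₂) = (s59t_E0 (⊤ : Subgroup (ZMod N₂)ˣ) B e₂))
    (hnil₂ : ∀ x ∈ s59t_goodB N₂ B, ∃ k : ℕ, ∀ y : (s48h_Hpar 𝒪 (s48h_GammaH N₂ (⊤ : Subgroup (ZMod N₂)ˣ)) 𝒪),
      ((s59w_op (⊤ : Subgroup (ZMod N₂)ˣ) 𝒪 x - s59t_cB (𝒪 := 𝒪) N₂ (fun ℓ => W.apOfModel ℓ) x •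
        (1 : Module.End 𝒪 (s48h_Hpar 𝒪 (s48h_GammaH N₂ (⊤ : Subgroup (ZMod N₂)ˣ)) 𝒪))) ^ k) ((s59t_E0 (⊤ : Subgroup (ZMod N₂)ˣ) B e₂) y) ∈
        (maximalIdeal 𝒪 • ⊤ : Submodule 𝒪 (s48h_Hpar 𝒪 (s48h_GammaH N₂ (⊤ : Subgroup (ZMod N₂)ˣ)) 𝒪)))
    (hρ₁ : ∀ δ y, s59t_E0 (⊤ : Subgroup (ZMod N)ˣ) B e₁ (s59t_rho N (⊤ : Subgroup (ZMod N)ˣ) 𝒪 𝒪 δ y) =
        s59t_rho N (⊤ : Subgroup (ZMod N)ˣ) 𝒪 𝒪 δ (s59t_E0 (⊤ : Subgroup (ZMod N)ˣ) B e₁ y))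
    (hρ₂ : ∀ δ y, s59t_E0 (⊤ : Subgroup (ZMod N₂)ˣ) B e₂ (s59t_rho N₂ (⊤ : Subgroup (ZMod N₂)ˣ) 𝒪 𝒪 δ y) =
        s59t_rho N₂ (⊤ : Subgroup (ZMod N₂)ˣ) 𝒪 𝒪 δ (s59t_E0 (⊤ : Subgroup (ZMod N₂)ˣ) B e₂ y))
    (hcb : (s59f_oldN hpN hN₂ hGb 𝒪 𝒪 e_b he_b hee_b).Compat (s59t_E0 (⊤ : Subgroup (ZMod N)ˣ) B e₁)
        (s59t_E0 (⊤ : Subgroup (ZMod N₂)ˣ) B e₂))
    {d₁ d₂ : ℕ} (b₁ : Fin d₁ → s59t_part (s59t_E0 (⊤ : Subgroup (ZMod N)ˣ) B e₁))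
    (hb₁ : Function.Bijective (s59t_evalMap
        (s59t_partRep (s59t_rho N (⊤ : Subgroup (ZMod N)ˣ) 𝒪 𝒪) hρ₁) b₁))
    (b₂ : Fin d₂ → s59t_part (s59t_E0 (⊤ : Subgroup (ZMod N₂)ˣ) B e₂))
    (hb₂ : Function.Bijective (s59t_evalMap
        (s59t_partRep (s59t_rho N₂ (⊤ : Subgroup (ZMod N₂)ˣ) 𝒪 𝒪) hρ₂) b₂))
    -- the kernel part at the base
    (P : Module.End 𝒪 (s59t_part (s59t_E0 (⊤ : Subgroup (ZMod N₂)ˣ) B e₂)))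
    (hP : ∀ δ x, P (s59t_partRep (s59t_rho N₂ (⊤ : Subgroup (ZMod N₂)ˣ) 𝒪 𝒪) hρ₂ δ x) =
        s59t_partRep (s59t_rho N₂ (⊤ : Subgroup (ZMod N₂)ˣ) 𝒪 𝒪) hρ₂ δ (P x)) (hPP : P * P = P)
    (hmem : ∀ x, x ∈ s59t_part P ↔
        ((s59f_oldN hpN hN₂ hGb 𝒪 𝒪 e_b he_b hee_b).restrict hcb).corA x = 0 ∧
        ((s59f_oldN hpN hN₂ hGb 𝒪 𝒪 e_b he_b hee_b).restrict hcb).corB x = 0)
    (hbase : ∀ y₁ y₂ : s59t_part (s59t_E0 (⊤ : Subgroup (ZMod N)ˣ) B e₁),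
        ∃ z : s59t_part (s59t_E0 (⊤ : Subgroup (ZMod N₂)ˣ) B e₂),
        ((s59f_oldN hpN hN₂ hGb 𝒪 𝒪 e_b he_b hee_b).restrict hcb).corA z = y₁ ∧
        ((s59f_oldN hpN hN₂ hGb 𝒪 𝒪 e_b he_b hee_b).restrict hcb).corB z = y₂)
    (hd1 : d₁ ≠ 0)
    (hd0 : d₂ - 2 * d₁ ≠ 0)
    -- the Hecke ring of the kernel part at the base (from the base package)
    (aZ₀ : heckeAlgebra N₂ 2 (↑B : Set ℕ) →+* Module.End 𝒪 (s59t_part P))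
    [IsLocalRing (s59e_adj 𝒪 aZ₀)]
    (hRρ : ∀ (t : s59e_adj 𝒪 aZ₀) (δ : (s59t_Delta N₂ (⊤ : Subgroup (ZMod N₂)ˣ))) (y : s59t_part P),
      t • (s59t_partRep (s59t_partRep (s59t_rho N₂ (⊤ : Subgroup (ZMod N₂)ˣ) 𝒪 𝒪) hρ₂) hP) δ y = (s59t_partRep (s59t_partRep (s59t_rho N₂ (⊤ : Subgroup (ZMod N₂)ˣ) 𝒪 𝒪) hρ₂) hP) δ (t • y))
    (ρR : GaloisRepAdic (s59e_adj 𝒪 aZ₀))
    -- the level
    (n : ℕ) (qv : Fin r → ℕ) [NeZero (∏ j, qv j)] [NeZero (N * ∏ j, qv j)] [NeZero (N₂ * ∏ j, qv j)]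
    [NeZero (N₂ * ∏ q ∈ Finset.univ.image qv, q ^ 2)] [NeZero (N * ∏ q ∈ Finset.univ.image qv, q ^ 2)]
    [Fact (HasIntegralStructure (N₂ * ∏ q ∈ Finset.univ.image qv, q ^ 2) 2)] (hqinj : Function.Injective qv)
    (hqv : ∀ i, (qv i).Prime ∧ qv i ∉ B ∧ p ^ (n + 1) ∣ qv i - 1)
    (hTW : ∀ i, ∀ A : ValuationSubring (AlgebraicClosure ℚ), A.LiesOverPrime (qv i) →
      ∀ φ : Γℚ, A.IsFrobeniusAt φ (qv i) →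
        ∃ α β : ResidueField 𝒪, α ≠ β ∧
          LinearMap.charpoly ((s59i_rhobarW W p hΔ 𝒪 hp𝒪).ρ φ) = (X - C α) * (X - C β))
    (aq bq : ℕ → 𝒪)
    (harith : ∀ j, IsUnit (bq (qv j) - aq (qv j)) ∧
      ((qv j : ℕ) : 𝒪) - aq (qv j) * bq (qv j) ∈ maximalIdeal 𝒪 ∧
      IsUnit (1 - aq (qv j) ^ 2) ∧ IsUnit (1 - bq (qv j) ^ 2))
    (hcongq : ∀ j, aq (qv j) + bq (qv j) - ((W.apOfModel (qv j) : ℤ) : 𝒪) ∈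
      maximalIdeal 𝒪)
    -- the old package at `p` at the level, with a FREE normalising element
    (hpL : ¬ p ∣ N * ∏ j, qv j) (hN' : N₂ * ∏ j, qv j = N * (∏ j, qv j) * p)
    (hG' : s59f_IsG' (N * ∏ j, qv j) p
      (s59t_Hmul N (∏ j, qv j) (⊤ : Subgroup (ZMod N)ˣ) (s59t_KQ (p ^ n) qv))
      (s48h_GammaH (N₂ * ∏ j, qv j)
        (s59t_Hmul N₂ (∏ j, qv j) (⊤ : Subgroup (ZMod N₂)ˣ) (s59t_KQ (p ^ n) qv))))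
    (e₀ : SL(2, ℤ)) (he' : e₀ ∈ Gamma0 (N₂ * ∏ j, qv j))
    (hee : s59f_gW hpL * e₀ * e₀ ∈ s48h_GammaH (N₂ * ∏ j, qv j)
      (s59t_Hmul N₂ (∏ j, qv j) (⊤ : Subgroup (ZMod N₂)ˣ) (s59t_KQ (p ^ n) qv)))
    -- the generators of `B_Q`
    (g : Fin r → (s59t_BQ N₂ (∏ j, qv j) (⊤ : Subgroup (ZMod N₂)ˣ) (s59t_KQ (p ^ n) qv)))
    (hcard : Nat.card (s59t_BQ N₂ (∏ j, qv j) (⊤ : Subgroup (ZMod N₂)ˣ) (s59t_KQ (p ^ n) qv)) = (p ^ n) ^ r)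
    (hgen : ∀ x : (s59t_BQ N₂ (∏ j, qv j) (⊤ : Subgroup (ZMod N₂)ˣ) (s59t_KQ (p ^ n) qv)), ∃ a : Fin r → ℕ, x = ∏ i, g i ^ a i)
    (hord : ∀ i, g i ^ (p ^ n) = 1)
    (hgloc : ∀ i, ∃ τ : Gamma0 (N₂ * ∏ j, qv j),
      (QuotientGroup.mk τ : (s59t_Delta (N₂ * ∏ j, qv j) (s59t_Hmul N₂ (∏ j, qv j) (⊤ : Subgroup (ZMod N₂)ˣ) (s59t_KQ (p ^ n) qv)))) = (g i : (s59t_Delta (N₂ * ∏ j, qv j) (s59t_Hmul N₂ (∏ j, qv j) (⊤ : Subgroup (ZMod N₂)ˣ) (s59t_KQ (p ^ n) qv)))) ∧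
      ZMod.unitsMap (Nat.div_dvd_of_dvd (s59t_qv_dvd_level qv N₂ i))
        (s59t_unitHom (N₂ * ∏ j, qv j) τ) = 1)
    -- the deformation type of the Taylor–Wiles datum
    (Sg Su : Finset ℕ)
    (DQ : GaloisRep.DeformationRingData 𝒪 (s59i_rhobarW W p hΔ 𝒪 hp𝒪) (fun _A _ _ _ ρ =>
      GaloisRep.strictOrdinaryCondition 𝒪 p Sg ρ ∧
        ∀ q ∈ Su, q.Prime → q ≠ p → ρ.IsUnipotentOnInertiaAt q))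
    -- the auxiliary ring `DQ'` (of a smaller type) through which the Hecke ring of the level is reached
    (Sg' Su' Smin : Finset ℕ) (hpSg : p ∈ Sg')
    (hSg : ∀ q : ℕ, q.Prime → q ∣ (N₂ * ∏ q ∈ Finset.univ.image qv, q ^ 2) →
      q ∈ Sg' ∨ s59e3q_E2Alt p (s59i_rhobarW W p hΔ 𝒪 hp𝒪) q)
    (hmin : ∀ q : ℕ, q.Prime → q ≠ p →
      (q ∈ Smin ↔ ¬ (s59i_rhobarW W p hΔ 𝒪 hp𝒪).IsUnramifiedAt q))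
    (hSu : ∀ q ∈ Su', q ∈ Smin ∨ q ∉ Finset.univ.image qv)
    (DQ' : GaloisRep.DeformationRingData 𝒪 (s59i_rhobarW W p hΔ 𝒪 hp𝒪) (fun _A _ _ _ ρ =>
      GaloisRep.strictOrdinaryCondition 𝒪 p Sg' ρ ∧
        ∀ q ∈ Su', q.Prime → q ≠ p → ρ.IsUnipotentOnInertiaAt q))
    (κ : DQ.R →ₐ[𝒪] DQ'.R) (hκs : Function.Surjective κ)
    (hκc : ∀ g : Γℚ, (LinearMap.charpoly (DQ.ρ.ρ g)).map (κ : DQ.R →+* DQ'.R) =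
      LinearMap.charpoly (DQ'.ρ.ρ g))
    -- the primes where `κ` kills the inertia coefficients (the raising primes at the chain index `0`)
    (Qr : Set ℕ)
    (hκQr : ∀ q ∈ Qr, ∀ A' : ValuationSubring (AlgebraicClosure ℚ), A'.LiesOverPrime q →
      ∀ τ ∈ A'.inertiaSubgroupIn ℚ, ∀ (f : Module.Dual DQ.R DQ.ρ.V) (v : DQ.ρ.V),
        κ (f (DQ.ρ.ρ τ v - v)) = 0)
    -- the flat-type ring of the `p`-free level (free finsets)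
    (Sgf Suf : Finset ℕ) (hpSgf : p ∈ Sgf)
    (hSgf : ∀ q : ℕ, q.Prime → q ∣ (N * ∏ q ∈ Finset.univ.image qv, q ^ 2) →
      q ∈ Sgf ∨ s59e3q_E2Alt p (s59i_rhobarW W p hΔ 𝒪 hp𝒪) q)
    (hSuf : ∀ q ∈ Suf, q ∈ Smin ∨ q ∉ Finset.univ.image qv)
    (Dfl : GaloisRep.DeformationRingData 𝒪 (s59i_rhobarW W p hΔ 𝒪 hp𝒪) (fun _A _ _ _ ρ =>
      GaloisRep.flatCondition 𝒪 p Sgf ρ ∧
        ∀ q ∈ Suf, q.Prime → q ≠ p → ρ.IsUnipotentOnInertiaAt q))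
    -- the record provider
    (hrec : s59m_RecProv p N₂ B (fun ℓ => W.apOfModel ℓ) r σ (s59t_E0 (⊤ : Subgroup (ZMod N₂)ˣ) B e₂) hρ₂ P hP
      (d₂ - 2 * d₁) aZ₀ hRρ ρR n qv DQ)
    (up : Prop) :
    s59m_LvlIdxConcl p B (fun ℓ => W.apOfModel ℓ) e₁ e₂ hρ₂ P hP (d₂ - 2 * d₁) aZ₀ hRρ ρR n σ qv aq hpL hN' hG' e₀ he' hee g Sg Su DQ Qr Sgf Suf Dfl up := by
  classical
  have hpP : p.Prime := Fact.out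
  have hgoodB : ∀ q : ℕ, q.Prime → q ∉ B → W.IsGoodPrimeFor q := fun q hq hqB =>
    Classical.byContradiction fun hbad => hqB (hB2 q hq hbad)
  have hNB₂ : ∀ q : ℕ, q.Prime → q ∣ N₂ → q ∈ B := s59m_NB_mul_p hpP hN₂ hNB hpB
  have hqvpr : ∀ i, (qv i).Prime := fun i => (hqv i).1
  have hqvB : ∀ i, qv i ∉ B := fun i => (hqv i).2.1
  have hsq₁ : Squarefree N := Squarefree.of_mul_left (hN₂ ▸ hsq₂)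
  have hN1₂ : 1 < N₂ := hN₂ ▸ lt_of_lt_of_le hN1₁ (Nat.le_mul_of_pos_right N hpP.pos)
  have hnegH₁ : (-1 : (ZMod N)ˣ) ∈ (⊤ : Subgroup (ZMod N)ˣ) := Subgroup.mem_top _
  have hH₁ : ∀ u : (ZMod N)ˣ, ∃ k : ℕ, u ^ (p ^ k) ∈ (⊤ : Subgroup (ZMod N)ˣ) :=
    fun u => ⟨0, Subgroup.mem_top _⟩
  have hnegH₂ : (-1 : (ZMod N₂)ˣ) ∈ (⊤ : Subgroup (ZMod N₂)ˣ) := Subgroup.mem_top _
  have hH₂ : ∀ u : (ZMod N₂)ˣ, ∃ k : ℕ, u ^ (p ^ k) ∈ (⊤ : Subgroup (ZMod N₂)ˣ) :=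
    fun u => ⟨0, Subgroup.mem_top _⟩
  -- the two bundles (the ONLY parity-dependent calls: `hp12ᵢ`, `S37ᵢ` are hypotheses)
  have hW₁ := s59ex_W_level W hΔ p hirr N hsq₁ B hpB hNB hgoodB hocc₁ hp𝒪
    (⊤ : Subgroup (ZMod N)ˣ) hnegH₁ hH₁ n qv hp12₁ hN1₁ S37₁ hqinj hqv hTW e₁ h1e₁ hid₁ hnil₁ aq bq harith hcongq
  have hW₂ := s59ex_W_level W hΔ p hirr N₂ hsq₂ B hpB hNB₂ hgoodB hocc₂ hp𝒪
    (⊤ : Subgroup (ZMod N₂)ˣ) hnegH₂ hH₂ n qv hp12₂ hN1₂ S37₂ hqinj hqv hTW e₂ h1e₂ hid₂ hnil₂ aq bq harith hcongq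
  choose e₀₁ G₁ _hε₁ _hρ₁' hid₁' hnil₁' hP1₁ hX₁ using hW₁
  choose e₀₂ G₂ _hε₂ _hρ₂' hid₂' hnil₂' hP1₂ hX₂ using hW₂
  -- the parts are nonzero
  have hne₁' : (s59t_actH (N * ∏ j, qv j) aq (dvd_refl _) (s59t_Hmul N (∏ j, qv j) (⊤ : Subgroup (ZMod N)ˣ) (s59t_KQ (p ^ n) qv)) (G₁ * s59t_jG 𝒪 (s59t_goodB (N * ∏ j, qv j) B) e₀₁)) ≠ 0 := s59m_TWFull_ne_zero hP1₁ b₁ hb₁ hd1
  have hd2 : d₂ ≠ 0 := fun h => hd0 (h.symm ▸ Nat.zero_sub _)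
  have hne₂' : (s59t_actH (N₂ * ∏ j, qv j) aq (dvd_refl _) (s59t_Hmul N₂ (∏ j, qv j) (⊤ : Subgroup (ZMod N₂)ˣ) (s59t_KQ (p ^ n) qv)) (G₂ * s59t_jG 𝒪 (s59t_goodB (N₂ * ∏ j, qv j) B) e₀₂)) ≠ 0 := s59m_TWFull_ne_zero hP1₂ b₂ hb₂ hd2
  -- the kernel pair
  have hPk0 := by exact (Internal.s59m_lvl_pkgZ p hp2 W hΔ hirr N N₂ hN₂ hsq₂ hpN B hpB hNB hB2 hgoodN 𝒪 hp𝒪 hordp σ
    hGb e_b he_b hee_b e₁ e₂ hρ₁ hρ₂ hcb b₁ hb₁ b₂ hb₂ P hP hPP hmem hbase hd0 aZ₀ hRρ ρR n qv hqinj hqv aq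
    hpL hN' hG' e₀ he' hee e₀₁ G₁ hX₁ hP1₁ e₀₂ G₂ hX₂ hid₂' hP1₂ hnil₂' g hcard hgen hord hgloc Sg Su DQ
    Sg' Su' Smin hpSg hSg hmin hSu DQ' κ hκs hκc Qr hκQr :)
  have hPk := by exact (hPk0 hrec :)
  -- the flat data of the `p`-free level
  have hFl := Internal.s59m_lvl_flat p hp2 W hΔ hirr N hsq₁ hpN B hpB hNB hB2 𝒪 hp𝒪 n qv hqinj hqv aq e₀₁ G₁
    hid₁' hne₁' hnil₁' Sgf Suf Smin hpSgf hSgf hmin hSuf Dfl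
  -- the Hecke ring of the full part
  have hEig : ∀ ℓ : ℕ, ℓ.Prime → ℓ ∉ (B ∪ Finset.univ.image qv) →
      ∀ A : ValuationSubring (AlgebraicClosure ℚ), A.LiesOverPrime ℓ →
      ∀ σ' : Γℚ, A.IsFrobeniusAt σ' ℓ →
        LinearMap.charpoly ((s59i_rhobarW W p hΔ 𝒪 hp𝒪).ρ σ') =
          X ^ 2 - C (residue 𝒪 ((W.apOfModel ℓ : ℤ) : 𝒪)) * X +
            C ((ℓ : ResidueField 𝒪)) := fun ℓ hℓ hℓS A hA σ' hσ' =>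
    s59e_rhobarW_charpoly_frob hΔ hp2 hirr hp𝒪 B hpB hB2 ℓ hℓ
      (fun h => hℓS (Finset.mem_union_left _ h)) A hA σ' hσ'
  have hFu := s59m_TW_heckeF (fun ℓ => W.apOfModel ℓ) hp2 hp𝒪 hpB N₂ hNB₂ n qv hqinj hqvpr hqvB
    (s59t_actH (N₂ * ∏ j, qv j) aq (dvd_refl _) (s59t_Hmul N₂ (∏ j, qv j) (⊤ : Subgroup (ZMod N₂)ˣ) (s59t_KQ (p ^ n) qv)) (G₂ * s59t_jG 𝒪 (s59t_goodB (N₂ * ∏ j, qv j) B) e₀₂)) hid₂' hne₂' (fun jdx => s59t_actH_comm_op _ aq _ jdx) hnil₂' (s59i_rhobarW W p hΔ 𝒪 hp𝒪) habs hEig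
  unfold s59m_LvlPkgZConcl at hPk
  unfold s59m_LvlIdxConcl s59m_LvlPkgZConcl
  exact ⟨(s59t_actH (N * ∏ j, qv j) aq (dvd_refl _) (s59t_Hmul N (∏ j, qv j) (⊤ : Subgroup (ZMod N)ˣ) (s59t_KQ (p ^ n) qv)) (G₁ * s59t_jG 𝒪 (s59t_goodB (N * ∏ j, qv j) B) e₀₁)), e₀₂, G₂, hX₂, hnil₂', hPk, hFu, fun _ => ⟨e₀₁, G₁, rfl, hX₁, hid₁', hnil₁', hP1₁, hFl⟩⟩

export Internal (s59m_lvl_allZ)

end Fermat.Agent.Lib.S59
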