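/-
S59 project, case (P), route (T5w), [W4c] (helper9, prefix `s59m_`): **THE STANDARD (PARITY-FREE) PROVIDER OF THE PER-INDEX HYPOTHESIS OF THE
ABSTRACT CORE** — `Internal.s59m_idx_std : s59m_IdxConcl …` from the base package `s59m_BasePkgConcl` (helper2's `Internal.s59x_base_pkgZ`),
the parity-dependent inputs as HYPOTHESES (`s59e_auxTors`, `s59b_S37H` at the two levels, `s18_GoodLevel`, the record providers
`s59m_RecProvAll`) and `Internal.s59m_lvl_allZ` (MKerLvlAll); the ring without the primes of `Qr` is helper2's `s59x_exists_DQ0_ord`.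
Serves every chain index of the even case (MKerFinE) and of `5 ≤ p`, and the indices `≥ 1` of [C2P] (helper3).
-/
import Mathlib
import Fermat.Agent.Lib.S59.MKerFinS
import Fermat.Agent.Lib.S59.MKerLvlAll
import Fermat.Agent.Lib.S59.B9DQ0S
import Fermat.Agent.Lib.S59.ETLvlOps

set_option autoImplicit false
set_option linter.unusedSectionVars false
set_option linter.unusedVariables false
set_option linter.style.haveILetI false
set_option maxHeartbeats 0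
set_option synthInstance.maxHeartbeats 400000
set_option maxSynthPendingDepth 3

noncomputable section

namespace Fermat.Agent.Lib.S59

open IsLocalRing CuspForm Polynomial ExtCitation CongruenceSubgroup
open WeierstrassCurve WeierstrassCurve.Affine WeierstrassCurve.Affine.Point
open Fermat.Agent.Lib.S48 Fermat.Agent.Lib.S44 Fermat.Agent.Lib.S18
open Fermat.Agent.Lib.S53 (NormData)
open scoped MatrixGroups

local notation "Γℚ" => (AlgebraicClosure ℚ ≃ₐ[ℚ] AlgebraicClosure ℚ)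

/-- the types without the raising primes. -/
theorem s59m_exists_Sgs {P : ℕ → Prop} (N : ℕ → ℕ) (Sg0 Sgm : Finset ℕ) (hSgm0 : Sgm ⊆ Sg0)
    (hSgN : ∀ t, ∀ q : ℕ, q.Prime → q ∣ N t → q ∈ Sg0 ∨ P q)
    (hSgmN : ∀ q : ℕ, q.Prime → q ∣ N 0 → q ∈ Sgm ∨ P q) :
    ∃ Sgs : ℕ → Finset ℕ, Sgs 0 = Sgm ∧ (∀ s, Sgm ⊆ Sgs s) ∧
      (∀ s, Sgs s ⊆ Sg0) ∧ ∀ s, ∀ q : ℕ, q.Prime → q ∣ N s → q ∈ Sgs s ∨ P q := by
  refine ⟨fun s => if s = 0 then Sgm else Sg0, if_pos rfl, fun s => ?_, fun s => ?_, fun s => ?_⟩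
  · show Sgm ⊆ if s = 0 then Sgm else Sg0
    split_ifs
    · exact Finset.Subset.refl _
    · exact hSgm0
  · show (if s = 0 then Sgm else Sg0) ⊆ Sg0
    split_ifs
    · exact hSgm0
    · exact Finset.Subset.refl _
  · show ∀ q : ℕ, q.Prime → q ∣ N s → q ∈ (if s = 0 then Sgm else Sg0) ∨ P q
    split_ifs with hs
    · subst hs
      exact hSgmN
    · exact hSgN s

/-- a prime divisor of the level `L * ∏ q²` is a divisor of `L` or a Taylor–Wiles prime. -/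
theorem s59m_dvd_level_sq {r : ℕ} (qv : Fin r → ℕ) (hqvpr : ∀ i, (qv i).Prime) (L q : ℕ) (hq : q.Prime)
    (h : q ∣ L * ∏ q ∈ Finset.univ.image qv, q ^ 2) : q ∣ L ∨ q ∈ Finset.univ.image qv := by
  rcases (Nat.Prime.dvd_mul hq).mp h with h | h
  · exact Or.inl h
  · obtain ⟨q', hq', hqq'⟩ := (Prime.dvd_finsetProd_iff (Nat.prime_iff.mp hq) _).mp h
    obtain ⟨i, -, rfl⟩ := Finset.mem_image.mp hq'
    have hqe : q = qv i := (Nat.prime_dvd_prime_iff_eq hq (hqvpr i)).mp (hq.dvd_of_dvd_pow hqq')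
    subst hqe
    exact Or.inr (Finset.mem_image_of_mem qv (Finset.mem_univ i))


/-- **the standard provider of the per-index hypothesis of the abstract core** (parity-free). -/
theorem Internal.s59m_idx_std (p : ℕ) [Fact p.Prime] (hp2 : p ≠ 2) (W : WeierstrassCurve ℤ) (hΔ : W.Δ ≠ 0)
    (hirr : W.ModRepIsIrreducible p) (N : ℕ) [NeZero N] [NeZero (N * p)]
    (hsq₂ : Squarefree (N * p)) (hpN : ¬ p ∣ N)
    (B : Finset ℕ) (hB1 : ∀ r : ℕ, r.Prime → r ∣ N * p → r ∈ B)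
    (hB2 : ∀ r : ℕ, r.Prime → ¬ W.IsGoodPrimeFor r → r ∈ B)
    (𝒪 : Type) [CommRing 𝒪] [IsDomain 𝒪] [IsDiscreteValuationRing 𝒪]
    [IsAdicComplete (maximalIdeal 𝒪) 𝒪] [Finite (ResidueField 𝒪)] [CharZero 𝒪]
    [Algebra ℤ_[p] 𝒪] [Module.Finite ℤ_[p] 𝒪]
    (hp𝒪 : ((p : ℕ) : 𝒪) ∈ maximalIdeal 𝒪)
    (hordp : (GaloisRepAdic.ofResidualGaloisRep (s59i_rhobarW W p hΔ 𝒪 hp𝒪)).IsOrdinaryAt p)
    (habs : (s59i_rhobarW W p hΔ 𝒪 hp𝒪).IsAbsolutelyIrreducible)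
    (Nd : NormData (s59i_rhobarW W p hΔ 𝒪 hp𝒪))
    (σ : Type) [DecidableEq σ] [Fintype σ]
    (hocc₁ : s44i_LevelOcc N p (fun ℓ => W.apOfModel ℓ) B)
    (hocc₂ : s44i_LevelOcc (N * p) p (fun ℓ => W.apOfModel ℓ) B)
    -- the PARITY-DEPENDENT inputs
    (hgoodN : s18_GoodLevel p N)
    (hp12₁ : s59e_auxTors p N) (hN1₁ : 1 < N) (S37₁ : s59b_S37H N (⊤ : Subgroup (ZMod N)ˣ))
    (hp12₂ : s59e_auxTors p (N * p)) (S37₂ : s59b_S37H (N * p) (⊤ : Subgroup (ZMod (N * p))ˣ))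
    (hrecAll : s59m_RecProvAll p W hΔ (N * p) B 𝒪 hp𝒪)
    -- the deformation types
    (Sg0 Su Smin Sgm Sgs : Finset ℕ) (hpSgm : p ∈ Sgm) (hSgms : Sgm ⊆ Sgs) (hSgs0 : Sgs ⊆ Sg0) (hSminSgm : Smin ⊆ Sgm)
    (hmin : ∀ q : ℕ, q.Prime → q ≠ p → (q ∈ Smin ↔ ¬ (s59i_rhobarW W p hΔ 𝒪 hp𝒪).IsUnramifiedAt q))
    (hSuB : Su ⊆ B)
    (hSgN : ∀ q : ℕ, q.Prime → q ∣ N → q ∈ Sg0 ∨ s59e3q_E2Alt p (s59i_rhobarW W p hΔ 𝒪 hp𝒪) q)
    (hSgsN : ∀ q : ℕ, q.Prime → q ∣ N → q ∈ Sgs ∨ s59e3q_E2Alt p (s59i_rhobarW W p hΔ 𝒪 hp𝒪) q)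
    (D0 : GaloisRep.DeformationRingData 𝒪 (s59i_rhobarW W p hΔ 𝒪 hp𝒪) (fun _A _ _ _ ρ =>
      GaloisRep.strictOrdinaryCondition 𝒪 p Sg0 ρ ∧
        ∀ q ∈ Su, q.Prime → q ≠ p → ρ.IsUnipotentOnInertiaAt q))
    (Dm : GaloisRep.DeformationRingData 𝒪 (s59i_rhobarW W p hΔ 𝒪 hp𝒪) (fun _A _ _ _ ρ =>
      GaloisRep.strictOrdinaryCondition 𝒪 p Sgm ρ ∧
        ∀ q ∈ Su, q.Prime → q ≠ p → ρ.IsUnipotentOnInertiaAt q))
    -- the primes where `θ` must kill the inertia coefficients: outside the type `Sgs`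
    (Qr : Set ℕ) (hQr : ∀ q ∈ Qr, q.Prime ∧ q ≠ p ∧ q ∈ B ∧ q ∉ Sgs)
    (up : Prop)
    -- the top level of the chain (only in the binders that the standard provider ignores)
    (Nt : ℕ) [NeZero Nt] [NeZero (Nt * p)] (hdt : N * p ∣ Nt * p)
    (hbase : s59m_BasePkgConcl p W hΔ N B hpN 𝒪 hp𝒪 Sg0 Su D0) :
    s59m_IdxConcl p W hΔ N B hpN 𝒪 hp𝒪 σ Sg0 Su D0 Qr up Nt hdt := by
  classical
  have hpP : p.Prime := Fact.out
  have hpB : p ∈ B := hB1 p hpP (Dvd.intro_left _ rfl)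
  have hNB : ∀ q : ℕ, q.Prime → q ∣ N → q ∈ B := fun q hq h => hB1 q hq (Dvd.dvd.mul_right h p)
  have hunrm : ∀ q : ℕ, q.Prime → q ∉ Sgm → (s59i_rhobarW W p hΔ 𝒪 hp𝒪).IsUnramifiedAt q := fun q hq hqS =>
    Classical.byContradiction fun hram =>
      hqS (hSminSgm ((hmin q hq (fun h => hqS (h ▸ hpSgm))).mpr hram))
  unfold s59m_BasePkgConcl at hbase
  choose e₁ h1e₁ hid₁ hnil₁ hρ₁ e h1e hid hnil hρ he1 hee1 hcbp d₁ d₂ b₁ hb₁ b₂ hb₂ P hP hPP hmem hbaseS hd1 hd0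
    a₀ ha1₀ aZ₀ haZ₀ hlr hnoeth hfinR hcompl hlh hRρ θ₀ hθ₀ hθ₀l hRres hMfin hMnt hfrobR hgenR hresR htype hν using hbase
  haveI := hlr
  haveI := hnoeth
  haveI := hfinR
  haveI := hcompl
  haveI := hlh
  unfold s59m_IdxConcl
  refine ⟨e₁, h1e₁, hid₁, hnil₁, hρ₁, e, h1e, hid, hnil, hρ, he1, hee1, hcbp, d₁, d₂, b₁, hb₁, b₂, hb₂, P, hP, hPP, hmem, hbaseS, hd1, hd0,
    a₀, ha1₀, aZ₀, haZ₀, hlr, hnoeth, hfinR, hcompl, hlh, hRρ, θ₀, hθ₀, hθ₀l, hRres, hMfin, hMnt, hfrobR, hgenR, hresR, htype, hν, ?_⟩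
  intro r n qv _ _ _ _ _ _ hqinj hqv hTW aq bq harith hcongq hpL hN' hG' e₀ he' hee g hcard hgen hord hgloc
    _ _ hpLt he't heet gt hgt hgent hordt hgloct DQ Dfl
  have hqvpr : ∀ i, (qv i).Prime := fun i => (hqv i).1
  have hqvB : ∀ i, qv i ∉ B := fun i => (hqv i).2.1
  have himgB : ∀ q ∈ Finset.univ.image qv, q ∉ B := fun q hq =>
    Exists.elim (Finset.mem_image.mp hq) fun i hi => hi.2 ▸ hqvB i
  -- the ring without the primes of `Qr`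
  have hDQ' := s59x_exists_DQ0_ord p hp2 hp𝒪 (s59i_rhobarW W p hΔ 𝒪 hp𝒪) habs Nd Sgm
    (Sgs ∪ Finset.univ.image qv) Su (Sg0 ∪ Finset.univ.image qv) Su
    (hSgms.trans Finset.subset_union_left) (Finset.union_subset_union_left hSgs0)
    (Finset.mem_union_left _ (hSgms hpSgm))
    (fun q hq hqS => hunrm q hq fun h => hqS (Finset.mem_union_left _ (hSgms h))) (fun q hq => Or.inl hq) Dm DQ
  choose DQ' κ hκs hκc hκunr using hDQ'
  have hSgQ : ∀ q : ℕ, q.Prime → q ∣ ((N * p) * ∏ q ∈ Finset.univ.image qv, q ^ 2) →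
      q ∈ (Sgs ∪ Finset.univ.image qv) ∨ s59e3q_E2Alt p (s59i_rhobarW W p hΔ 𝒪 hp𝒪) q := fun q hq hqM =>
    (s59m_dvd_level_sq qv hqvpr (N * p) q hq hqM).elim
      (fun h => ((Nat.Prime.dvd_mul hq).mp h).elim
        (fun h' => (hSgsN q hq h').elim (fun h'' => Or.inl (Finset.mem_union_left _ h'')) Or.inr)
        (fun h' => Or.inl (Finset.mem_union_left _
          (((Nat.prime_dvd_prime_iff_eq hq hpP).mp h').symm ▸ hSgms hpSgm))))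
      (fun h => Or.inl (Finset.mem_union_right _ h))
  have hSgfQ : ∀ q : ℕ, q.Prime → q ∣ (N * ∏ q ∈ Finset.univ.image qv, q ^ 2) →
      q ∈ (Sg0 ∪ Finset.univ.image qv) ∨ s59e3q_E2Alt p (s59i_rhobarW W p hΔ 𝒪 hp𝒪) q := fun q hq hqM =>
    (s59m_dvd_level_sq qv hqvpr N q hq hqM).elim
      (fun h => (hSgN q hq h).elim (fun h'' => Or.inl (Finset.mem_union_left _ h'')) Or.inr)
      (fun h => Or.inl (Finset.mem_union_right _ h))
  have hSuQ : ∀ q ∈ Su, q ∈ Smin ∨ q ∉ Finset.univ.image qv := fun q hq =>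
    Or.inr fun h => himgB q h (hSuB hq)
  unfold s59m_RecProvAll at hrecAll
  have hrec := by exact (hrecAll r σ (s59t_E0 (⊤ : Subgroup (ZMod (N * p))ˣ) B e) (fun j => s59e_E0_comm_op _ B e j) hρ P hP (d₂ - 2 * d₁) hd0
      a₀ ha1₀ aZ₀ haZ₀ hRρ (D0.ρ.baseChangeAlong (θ₀ : D0.R →+* (s59e_adj 𝒪 aZ₀)) hθ₀l) hfrobR hgenR n qv hqinj hqv hTW DQ :)
  have hL0 := by exact (Internal.s59m_lvl_allZ p hp2 W hΔ hirr N (N * p) rfl hsq₂ hpN B hpB hNB hB2 hgoodN 𝒪 hp𝒪 hordp habs σ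
    hocc₁ hocc₂ hp12₁ hN1₁ S37₁ hp12₂ S37₂
    (s59f_isG'_top hpN) 1 he1 hee1 e₁ e h1e₁ hid₁ hnil₁ h1e hid hnil hρ₁ hρ hcbp b₁ hb₁ b₂ hb₂ P hP hPP hmem hbaseS hd1 hd0
    aZ₀ hRρ (D0.ρ.baseChangeAlong (θ₀ : D0.R →+* (s59e_adj 𝒪 aZ₀)) hθ₀l)
    n qv hqinj hqv hTW aq bq harith hcongq hpL hN' hG' e₀ he' hee g hcard hgen hord hgloc
    (Sg0 ∪ Finset.univ.image qv) Su DQ (Sgs ∪ Finset.univ.image qv) Su Smin
    (Finset.mem_union_left _ (hSgms hpSgm)) hSgQ hmin hSuQ DQ' κ hκs hκc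
    Qr (fun q hq A' hA' τ hτ f v => hκunr q (hQr q hq).1 (hQr q hq).2.1
      (fun h => (Finset.mem_union.mp h).elim (hQr q hq).2.2.2 (fun h' => himgB q h' (hQr q hq).2.2.1)) A' hA' τ hτ f v)
    (Sg0 ∪ Finset.univ.image qv) Su (Finset.mem_union_left _ (hSgs0 (hSgms hpSgm))) hSgfQ hSuQ Dfl :)
  -- NOTE: applications of `s59m_RecProv` / `s59m_LvlIdxConcl` / `s59m_LvlPkgZConcl` (heavy parameter types) must never be UNIFIED
  -- (their `FunInfo` is computed under the default heartbeat cap): all of them are unfolded on both sides first.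
  unfold s59m_RecProv at hrec
  unfold s59m_RecProv s59m_LvlIdxConcl s59m_LvlPkgZConcl at hL0
  have hL := by exact (hL0 hrec up :)
  unfold s59m_LvlIdxConcl s59m_LvlPkgZConcl
  exact hL

export Internal (s59m_idx_std)

end Fermat.Agent.Lib.S59
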