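/-
PROGRAMME (R), final wiring, node W7, second half (helper6, prefix `s59q_`): **the coefficient ring `𝒪` is finite free
over `ℤ_p`.**

`s59q_exists_padicInt_hom`: an `I`-adically complete ring with `p ∈ I` receives a ring homomorphism from `ℤ_[p]`.
`s59q_finite_padicInt`: a complete discrete valuation ring of characteristic zero with finite residue field and `p ∈ 𝔪`
is a finite `ℤ_[p]`-module for ANY algebra structure (complete Nakayama, Mathlib's
`surjective_of_mkQ_comp_surjective`, applied to `ℤ_p^T → 𝒪`, `T = 𝒪/p𝒪` finite); `s59q_padic_free`: hence free.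
`s59q_exists_coeffRing_padic`: the coefficient ring of `QOExt` together with a finite free `ℤ_[p]`-algebra structure.
-/
import Fermat.Agent.Lib.S59.QOExt
import Fermat.Prelude.Thm_IsAdicComplete_of_module_finite

set_option autoImplicit false
set_option linter.style.haveILetI false
set_option linter.unusedSectionVars false

noncomputable section

namespace Fermat.Agent.Lib.S59

open IsLocalRing

section PadicHom

variable {p : ℕ} {R : Type*} [CommRing R] (I : Ideal R)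

/-- if `p ∈ I`, there is a ring homomorphism `ZMod (p ^ n) →+* R ⧸ I ^ n`. -/
theorem s59q_exists_zmod_hom (hp : (p : R) ∈ I) (n : ℕ) :
    Nonempty (ZMod (p ^ n) →+* R ⧸ I ^ n) := by
  have := ringChar.charP (R ⧸ I ^ n)
  have h : ringChar (R ⧸ I ^ n) ∣ p ^ n := by
    rw [← CharP.cast_eq_zero_iff (R ⧸ I ^ n) (ringChar (R ⧸ I ^ n)) (p ^ n)]
    have h1 : ((p ^ n : ℕ) : R) ∈ I ^ n := by
      push_cast
      exact Ideal.pow_mem_pow hp n
    rw [← map_natCast (Ideal.Quotient.mk (I ^ n))]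
    exact Ideal.Quotient.eq_zero_iff_mem.mpr h1
  exact ⟨ZMod.castHom h _⟩

/-- a ring that is `I`-adically complete with `p ∈ I` receives a ring homomorphism from `ℤ_[p]`. -/
theorem s59q_exists_padicInt_hom [Fact p.Prime] [IsAdicComplete I R] (hp : (p : R) ∈ I) :
    Nonempty (ℤ_[p] →+* R) := by
  let g : ∀ n : ℕ, ZMod (p ^ n) →+* R ⧸ I ^ n := fun n => (s59q_exists_zmod_hom (p := p) I hp n).some
  let f : (n : ℕ) → ℤ_[p] →+* R ⧸ I ^ n := fun n => (g n).comp (PadicInt.toZModPow n)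
  have hf : ∀ {m n : ℕ} (hle : m ≤ n), (Ideal.Quotient.factorPow I hle).comp (f n) = f m := by
    intro m n hle
    have h1 : PadicInt.toZModPow (p := p) m =
        (ZMod.castHom (pow_dvd_pow p hle) (ZMod (p ^ m))).comp (PadicInt.toZModPow n) :=
      (PadicInt.zmod_cast_comp_toZModPow m n hle).symm
    show (Ideal.Quotient.factorPow I hle).comp ((g n).comp (PadicInt.toZModPow n)) =
      (g m).comp (PadicInt.toZModPow m)
    rw [h1, ← RingHom.comp_assoc, ← RingHom.comp_assoc]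
    congr 1
    exact Subsingleton.elim _ _
  exact ⟨IsAdicComplete.liftRingHom I f hf⟩

end PadicHom

section Finite

variable (p : ℕ) [hp : Fact p.Prime] (𝒪 : Type*) [CommRing 𝒪] [IsDomain 𝒪] [IsDiscreteValuationRing 𝒪]
  [IsAdicComplete (maximalIdeal 𝒪) 𝒪] [Finite (ResidueField 𝒪)] [CharZero 𝒪] [Algebra ℤ_[p] 𝒪]

theorem s59q_map_maxIdeal_le (hp𝒪 : (p : 𝒪) ∈ maximalIdeal 𝒪) :
    (maximalIdeal ℤ_[p]).map (algebraMap ℤ_[p] 𝒪) ≤ maximalIdeal 𝒪 := by
  rw [PadicInt.maximalIdeal_eq_span_p, Ideal.map_span, Set.image_singleton, Ideal.span_le,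
    Set.singleton_subset_iff, map_natCast]
  exact hp𝒪

/-- `𝒪 / p𝒪` is finite. -/
theorem s59q_finite_quot_p :
    Finite (𝒪 ⧸ (maximalIdeal ℤ_[p]).map (algebraMap ℤ_[p] 𝒪)) := by
  have hp0 : ((p : ℕ) : 𝒪) ≠ 0 := Nat.cast_ne_zero.2 hp.out.ne_zero
  have h1 : (maximalIdeal ℤ_[p]).map (algebraMap ℤ_[p] 𝒪) = Ideal.span {(p : 𝒪)} := by
    rw [PadicInt.maximalIdeal_eq_span_p, Ideal.map_span, Set.image_singleton, map_natCast]
  have h2 : Ideal.span {(p : 𝒪)} ≠ ⊥ := by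
    rw [Ne, Ideal.span_singleton_eq_bot]; exact hp0
  obtain ⟨ϖ, hϖ⟩ := IsDiscreteValuationRing.exists_irreducible 𝒪
  obtain ⟨e, he⟩ := IsDiscreteValuationRing.ideal_eq_span_pow_irreducible h2 hϖ
  rw [h1, he, ← Ideal.span_singleton_pow, ← hϖ.maximalIdeal_eq]
  haveI : Finite (𝒪 ⧸ maximalIdeal 𝒪) := ‹Finite (ResidueField 𝒪)›
  exact Ideal.finite_quotient_pow (IsNoetherian.noetherian _) e

/-- **a complete discrete valuation ring of characteristic zero with finite residue field of characteristic `p` is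
finite over `ℤ_p`** (for any algebra structure). -/
theorem s59q_finite_padicInt (hp𝒪 : (p : 𝒪) ∈ maximalIdeal 𝒪) : Module.Finite ℤ_[p] 𝒪 := by
  classical
  haveI : IsHausdorff (maximalIdeal ℤ_[p]) 𝒪 := IsHausdorff.of_map (s59q_map_maxIdeal_le p 𝒪 hp𝒪)
  have hfin : Finite (𝒪 ⧸ (maximalIdeal ℤ_[p] • ⊤ : Submodule ℤ_[p] 𝒪)) := by
    have := s59q_finite_quot_p p 𝒪
    rw [Ideal.smul_top_eq_map]
    exact this
  haveI := hfin
  haveI := Fintype.ofFinite (𝒪 ⧸ (maximalIdeal ℤ_[p] • ⊤ : Submodule ℤ_[p] 𝒪))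
  let s : (𝒪 ⧸ (maximalIdeal ℤ_[p] • ⊤ : Submodule ℤ_[p] 𝒪)) → 𝒪 := fun t => Quotient.out t
  have hs : ∀ t, Submodule.Quotient.mk (s t) = t := fun t => Quotient.out_eq t
  let f : ((𝒪 ⧸ (maximalIdeal ℤ_[p] • ⊤ : Submodule ℤ_[p] 𝒪)) → ℤ_[p]) →ₗ[ℤ_[p]] 𝒪 :=
    Fintype.linearCombination ℤ_[p] s
  haveI : IsAdicComplete (maximalIdeal ℤ_[p])
      ((𝒪 ⧸ (maximalIdeal ℤ_[p] • ⊤ : Submodule ℤ_[p] 𝒪)) → ℤ_[p]) :=
    IsAdicComplete.of_module_finite _ _
  have hsurj : Function.Surjective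
      ((maximalIdeal ℤ_[p] • ⊤ : Submodule ℤ_[p] 𝒪).mkQ ∘ₗ f) := by
    intro t
    refine ⟨Pi.single t 1, ?_⟩
    simp only [LinearMap.coe_comp, Function.comp_apply, f, Fintype.linearCombination_apply_single,
      one_smul, Submodule.mkQ_apply]
    exact hs t
  have := surjective_of_mkQ_comp_surjective hsurj
  exact Module.Finite.of_surjective f this

end Finite

theorem s59q_padic_inj (p : ℕ) [hp : Fact p.Prime] (𝒪 : Type*) [CommRing 𝒪] [IsDomain 𝒪] [CharZero 𝒪] [Algebra ℤ_[p] 𝒪] :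
    Function.Injective (algebraMap ℤ_[p] 𝒪) := by
  rw [injective_iff_map_eq_zero]
  intro x hx
  by_contra hx0
  have hxu := PadicInt.unitCoeff_spec hx0
  rw [hxu, map_mul, map_pow, map_natCast] at hx
  have h1 : (algebraMap ℤ_[p] 𝒪) (PadicInt.unitCoeff hx0 : ℤ_[p]) ≠ 0 :=
    ((PadicInt.unitCoeff hx0).isUnit.map _).ne_zero
  have h2 : ((p : ℕ) : 𝒪) ^ x.valuation ≠ 0 := pow_ne_zero _ (Nat.cast_ne_zero.2 hp.out.ne_zero)
  exact mul_ne_zero h1 h2 hx

theorem s59q_padic_free (p : ℕ) [hp : Fact p.Prime] (𝒪 : Type*) [CommRing 𝒪] [IsDomain 𝒪] [CharZero 𝒪] [Algebra ℤ_[p] 𝒪]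
    [Module.Finite ℤ_[p] 𝒪] : Module.Free ℤ_[p] 𝒪 := by
  haveI : FaithfulSMul ℤ_[p] 𝒪 := (faithfulSMul_iff_algebraMap_injective _ _).2 (s59q_padic_inj p 𝒪)
  infer_instance

/-- the coefficient ring, with its `ℤ_p`-algebra structure. -/
def s59q_CoeffRingSpecZp (p n : ℕ) [Fact p.Prime] : Prop :=
  ∃ (𝒪 : Type) (_ : CommRing 𝒪) (_ : IsDomain 𝒪) (_ : IsDiscreteValuationRing 𝒪)
    (_ : IsAdicComplete (maximalIdeal 𝒪) 𝒪) (_ : Finite (ResidueField 𝒪)) (_ : CharZero 𝒪)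
    (_ : Algebra ℤ_[p] 𝒪) (_ : Module.Finite ℤ_[p] 𝒪) (_ : Module.Free ℤ_[p] 𝒪),
    (p : 𝒪) ∈ maximalIdeal 𝒪 ∧ (∃ ζ : 𝒪, IsPrimitiveRoot ζ n) ∧
    ∀ a b : ℤ, ∃ α β : ResidueField 𝒪, α + β = (a : ResidueField 𝒪) ∧ α * β = (b : ResidueField 𝒪)

/-- **the coefficient ring** (W7): a complete discrete valuation ring, finite free over `ℤ_p`, with finite residue field
over which all quadratics with coefficients in `𝔽_p` split, containing a primitive `n`-th root of unity. -/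
theorem s59q_exists_coeffRing_padic (p n : ℕ) [hp : Fact p.Prime] (hn : 0 < n) : s59q_CoeffRingSpecZp p n := by
  obtain ⟨𝒪, i1, i2, i3, i4, i5, i6, hp𝒪, hζ, hq⟩ := s59q_exists_coeffRing p n hn
  obtain ⟨j⟩ := s59q_exists_padicInt_hom (p := p) (maximalIdeal 𝒪) hp𝒪
  letI : Algebra ℤ_[p] 𝒪 := j.toAlgebra
  haveI hfin : Module.Finite ℤ_[p] 𝒪 := s59q_finite_padicInt p 𝒪 hp𝒪
  exact ⟨𝒪, i1, i2, i3, i4, i5, i6, j.toAlgebra, hfin, s59q_padic_free p 𝒪, hp𝒪, hζ, hq⟩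

end Fermat.Agent.Lib.S59
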