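import Fermat.Agent.Lib.S59.NTower

/-
NStart (helper7): the start of the tower for C7 (G2).  s59n_genKer, s59n_tors, s59n_diaHom (the diamonds as a group
homomorphism), s59n_Zstart (the start subgroup: p-torsion, generalised eigenvectors, all diamond translates of the two Kummer
kernels), s59n_start_fixed (a non-zero class gives a non-zero class fixed by the diamonds) and s59n_start (the candidate
s59n_Ycon at the bottom level).
-/

set_option autoImplicit false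
set_option linter.style.haveILetI false
set_option linter.unusedSectionVars false

noncomputable section

namespace Fermat.Agent.Lib.S59

open AlgebraicCurve ModularCurve IntermediateField Fermat.Agent.Lib.FF Fermat.Agent.Lib.S33
  Fermat.Agent.Lib.S37 Fermat.Agent.Lib.S48 Fermat.Agent.Lib.S29
open scoped Pointwise

local notation "Qbar" => AlgebraicClosure ℚ

attribute [local instance] s29a_algebraC

section Abs

variable {J : Type*} [AddCommGroup J]

/-- the generalised kernel of an endomorphism. -/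
def s59n_genKer (E : AddMonoid.End J) : AddSubgroup J where
  carrier := {z | ∃ N : ℕ, (E ^ N) z = 0}
  zero_mem' := ⟨0, map_zero _⟩
  add_mem' := by
    rintro x y ⟨N₁, h₁⟩ ⟨N₂, h₂⟩
    refine ⟨N₁ + N₂, ?_⟩
    have e1 : (E ^ (N₁ + N₂)) x = 0 := by
      rw [add_comm, pow_add, s59n_end_mul_apply, h₁, map_zero]
    have e2 : (E ^ (N₁ + N₂)) y = 0 := by
      rw [pow_add, s59n_end_mul_apply, h₂, map_zero]
    rw [map_add, e1, e2, add_zero]
  neg_mem' := by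
    rintro x ⟨N, h⟩
    exact ⟨N, by rw [map_neg, h, neg_zero]⟩

theorem s59n_mem_genKer {E : AddMonoid.End J} {z : J} : z ∈ s59n_genKer E ↔ ∃ N : ℕ, (E ^ N) z = 0 :=
  Iff.rfl

/-- the `p`-torsion subgroup. -/
def s59n_tors (J : Type*) [AddCommGroup J] (p : ℕ) : AddSubgroup J where
  carrier := {z | p • z = 0}
  zero_mem' := smul_zero _
  add_mem' := by
    intro x y hx hy
    show p • (x + y) = 0
    rw [smul_add, show p • x = 0 from hx, show p • y = 0 from hy, add_zero]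
  neg_mem' := by
    intro x hx
    show p • (-x) = 0
    rw [smul_neg, show p • x = 0 from hx, neg_zero]

theorem s59n_mem_tors {p : ℕ} {z : J} : z ∈ s59n_tors J p ↔ p • z = 0 := Iff.rfl

/-- an endomorphism commuting with `E` on `p`-torsion maps the `p`-torsion of the generalised kernel of `E - a` to itself. -/
theorem s59n_genKer_stable (D T : AddMonoid.End J) (a : ℤ) (p : ℕ)
    (h : ∀ z, p • z = 0 → D (T z) = T (D z)) {z : J} (hz : p • z = 0)
    (hg : z ∈ s59n_genKer (T - (a : AddMonoid.End J))) :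
    D z ∈ s59n_genKer (T - (a : AddMonoid.End J)) := by
  obtain ⟨N, hN⟩ := hg
  refine ⟨N, ?_⟩
  have key : ∀ (n : ℕ) (y : J), p • y = 0 →
      ((T - (a : AddMonoid.End J)) ^ n) (D y) = D (((T - (a : AddMonoid.End J)) ^ n) y) := by
    intro n
    induction n with
    | zero => intro y _; rfl
    | succ n ih =>
      intro y hy
      have hy' : p • ((T - (a : AddMonoid.End J)) y) = 0 := by rw [← map_nsmul, hy, map_zero]
      rw [pow_succ, s59n_end_mul_apply, s59n_end_mul_apply, ← ih _ hy']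
      congr 1
      rw [s59n_end_sub_apply, s59n_end_sub_apply, s59n_intCast_end_apply, s59n_intCast_end_apply,
        map_sub, map_zsmul, h y hy]
  rw [key N z hz, hN, map_zero]

end Abs

section Con

variable {M : ℕ} [NeZero M] {κ : Type*}

/-- the diamonds as a group homomorphism into the semilinear automorphisms of `F_H`. -/
def s59n_diaHom (hM : 1 < M) {H : Subgroup (ZMod M)ˣ} (hneg : (-1 : (ZMod M)ˣ) ∈ H) :
    (ZMod M)ˣ →* SemilinearAut Qbar ↥(s48k_FH M H) where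
  toFun d := SemilinearAut.ofAlgAut (s48k_diamondAut M H d)
  map_one' := by
    rw [s59m_diamondAut_eq_refl hM hneg (one_mem H)]
    exact map_one SemilinearAut.ofAlgAut
  map_mul' d g := by
    rw [← map_mul]
    congr 1
    exact AlgEquiv.ext fun y => s59m_diamondAut_mul hM hneg d g y

theorem s59n_diaHom_apply (hM : 1 < M) {H : Subgroup (ZMod M)ˣ} (hneg : (-1 : (ZMod M)ˣ) ∈ H)
    (d : (ZMod M)ˣ) : s59n_diaHom hM hneg d = SemilinearAut.ofAlgAut (s48k_diamondAut M H d) := rfl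

theorem s59n_diaHom_of_mem (hM : 1 < M) {H : Subgroup (ZMod M)ˣ} (hneg : (-1 : (ZMod M)ˣ) ∈ H)
    {d : (ZMod M)ˣ} (hd : d ∈ H) : s59n_diaHom hM hneg d = 1 := by
  rw [s59n_diaHom_apply, s59m_diamondAut_eq_refl hM hneg hd]
  exact map_one SemilinearAut.ofAlgAut

/-- `T_ℓ` as an element of the ring `AddMonoid.End J_H`. -/
abbrev s59n_TE (M : ℕ) [NeZero M] (H : Subgroup (ZMod M)ˣ) (ℓ : ℕ) [NeZero ℓ] (ℓu : (ZMod M)ˣ) :
    AddMonoid.End (s48k_JH M H) := s48k_TpJ M H ℓ ℓu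

/-- **the start subgroup**: `p`-torsion, generalised eigenvectors of the Hecke family, in the Kummer kernels of all the
diamond translates of the two valuation subrings. -/
def s59n_Zstart (H : Subgroup (ZMod M)ˣ) (ℓ₀ : κ → ℕ) [∀ k, NeZero (ℓ₀ k)] (pu : κ → (ZMod M)ˣ)
    (a : κ → ℤ) (p : ℕ) (Winf Wzero : ValuationSubring ↥(s48k_FH M H)) : AddSubgroup (s48k_JH M H) :=
  s59n_tors (s48k_JH M H) p ⊓
    (⨅ k : κ, s59n_genKer (s59n_TE M H (ℓ₀ k) (pu k) - (a k : AddMonoid.End (s48k_JH M H)))) ⊓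
    (⨅ d : (ZMod M)ˣ,
      s59k_KumKer (K := Qbar) (SemilinearAut.ofAlgAut (s48k_diamondAut M H d) • Winf) p) ⊓
    (⨅ d : (ZMod M)ˣ,
      s59k_KumKer (K := Qbar) (SemilinearAut.ofAlgAut (s48k_diamondAut M H d) • Wzero) p)

theorem s59n_mem_Zstart {H : Subgroup (ZMod M)ˣ} {ℓ₀ : κ → ℕ} [∀ k, NeZero (ℓ₀ k)] {pu : κ → (ZMod M)ˣ}
    {a : κ → ℤ} {p : ℕ} {Winf Wzero : ValuationSubring ↥(s48k_FH M H)} {z : s48k_JH M H} :
    z ∈ s59n_Zstart H ℓ₀ pu a p Winf Wzero ↔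
      p • z = 0 ∧
      (∀ k : κ, ∃ N : ℕ, ((s59n_TE M H (ℓ₀ k) (pu k) - (a k : AddMonoid.End (s48k_JH M H))) ^ N) z = 0) ∧
      (∀ d : (ZMod M)ˣ,
        z ∈ s59k_KumKer (K := Qbar) (SemilinearAut.ofAlgAut (s48k_diamondAut M H d) • Winf) p) ∧
      (∀ d : (ZMod M)ˣ,
        z ∈ s59k_KumKer (K := Qbar) (SemilinearAut.ofAlgAut (s48k_diamondAut M H d) • Wzero) p) := by
  unfold s59n_Zstart
  constructor
  · intro h
    obtain ⟨⟨⟨h1, h2⟩, h3⟩, h4⟩ := h
    exact ⟨h1, fun k => (AddSubgroup.mem_iInf.mp h2) k, fun d => (AddSubgroup.mem_iInf.mp h3) d,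
      fun d => (AddSubgroup.mem_iInf.mp h4) d⟩
  · rintro ⟨h1, h2, h3, h4⟩
    exact ⟨⟨⟨h1, AddSubgroup.mem_iInf.mpr h2⟩, AddSubgroup.mem_iInf.mpr h3⟩, AddSubgroup.mem_iInf.mpr h4⟩

/-- **THE START**: a non-zero class of the start subgroup gives a non-zero class fixed by all the diamonds. -/
theorem s59n_start_fixed (hM : 1 < M) {H : Subgroup (ZMod M)ˣ} (hneg : (-1 : (ZMod M)ˣ) ∈ H) {p : ℕ}
    (hp : p.Prime) (hp2 : p ≠ 2) (hpgrp : ∀ g : (ZMod M)ˣ, ∃ n : ℕ, g ^ (p ^ n) ∈ H)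
    (ℓ₀ : κ → ℕ) [∀ k, NeZero (ℓ₀ k)] (pu : κ → (ZMod M)ˣ) (a : κ → ℤ)
    (hTD : ∀ (k : κ) (d : (ZMod M)ˣ) (x : s48k_JH M H), p • x = 0 →
      s48k_diamondJ M H d (s48k_TpJ M H (ℓ₀ k) (pu k) x) =
        s48k_TpJ M H (ℓ₀ k) (pu k) (s48k_diamondJ M H d x))
    (Winf Wzero : ValuationSubring ↥(s48k_FH M H)) (z₀ : s48k_JH M H)
    (hz₀ : z₀ ∈ s59n_Zstart H ℓ₀ pu a p Winf Wzero) (hne : z₀ ≠ 0) :
    ∃ z ∈ s59n_Zstart H ℓ₀ pu a p Winf Wzero, z ≠ 0 ∧
      ∀ d : (ZMod M)ˣ, SemilinearAut.ofAlgAut (s48k_diamondAut M H d) • z = z := by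
  classical
  set Δ := s59n_diaHom hM hneg with hΔ
  -- the endomorphisms
  let DE : (ZMod M)ˣ →* AddMonoid.End (s48k_JH M H) :=
    (DistribMulAction.toAddMonoidEnd (SemilinearAut Qbar ↥(s48k_FH M H)) (s48k_JH M H)).comp Δ
  have hDE : ∀ d z, DE d z = SemilinearAut.ofAlgAut (s48k_diamondAut M H d) • z := fun d z => rfl
  have hsw : ∀ (g : SemilinearAut Qbar ↥(s48k_FH M H)) (x : s48k_JH M H), p • (g • x) = g • (p • x) :=
    fun g x => (map_nsmul (DistribSMul.toAddMonoidHom (s48k_JH M H) g) p x).symm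
  have hs0 : ∀ g : SemilinearAut Qbar ↥(s48k_FH M H), g • (0 : s48k_JH M H) = 0 := fun g =>
    map_zero (DistribSMul.toAddMonoidHom (s48k_JH M H) g)
  have hcomm : ∀ (d d' : (ZMod M)ˣ) (z : s48k_JH M H), DE d (DE d' z) = DE d' (DE d z) := by
    intro d d' z
    show (DE d * DE d') z = (DE d' * DE d) z
    rw [← map_mul, ← map_mul, mul_comm]
  have hstab : ∀ d' : (ZMod M)ˣ, ∀ z ∈ s59n_Zstart H ℓ₀ pu a p Winf Wzero,
      DE d' z ∈ s59n_Zstart H ℓ₀ pu a p Winf Wzero := by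
    intro d' z hz
    rw [s59n_mem_Zstart] at hz ⊢
    obtain ⟨h1, h2, h3, h4⟩ := hz
    have hkum : ∀ (W : ValuationSubring ↥(s48k_FH M H)),
        (∀ d : (ZMod M)ˣ,
          z ∈ s59k_KumKer (K := Qbar) (SemilinearAut.ofAlgAut (s48k_diamondAut M H d) • W) p) →
        ∀ d : (ZMod M)ˣ, DE d' z ∈
          s59k_KumKer (K := Qbar) (SemilinearAut.ofAlgAut (s48k_diamondAut M H d) • W) p := by
      intro W hW d
      have h := s59k_smul_mem_kumKer (hW (d'⁻¹ * d)) (Δ d')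
      have e : Δ d' • (SemilinearAut.ofAlgAut (s48k_diamondAut M H (d'⁻¹ * d)) • W) =
          SemilinearAut.ofAlgAut (s48k_diamondAut M H d) • W := by
        rw [← s59n_diaHom_apply hM hneg, ← s59n_diaHom_apply hM hneg, ← mul_smul, ← map_mul,
          mul_inv_cancel_left]
      rw [e] at h
      exact h
    refine ⟨?_, fun k => ?_, hkum Winf h3, hkum Wzero h4⟩
    · rw [hDE, hsw, h1, hs0]
    · exact s59n_genKer_stable (DE d') (s59n_TE M H (ℓ₀ k) (pu k)) (a k) p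
        (fun x hx => hTD k d' x hx) h1 (h2 k)
  have hnil : ∀ d : (ZMod M)ˣ, ∀ z ∈ s59n_Zstart H ℓ₀ pu a p Winf Wzero,
      ∃ k : ℕ, ((DE d - 1) ^ k) z = 0 := by
    intro d z hz
    rw [s59n_mem_Zstart] at hz
    obtain ⟨n, hn⟩ := hpgrp d
    refine ⟨p ^ n, s59n_unip_of_pow_eq_one (DE d) p n hp hp2 ?_ z hz.1⟩
    rw [← map_pow]
    show (DistribMulAction.toAddMonoidEnd _ _) (Δ (d ^ p ^ n)) = 1
    rw [hΔ, s59n_diaHom_of_mem hM hneg hn, map_one]
  obtain ⟨z, hz, hzne, hfix⟩ := s59n_exists_common_fixed (s59n_Zstart H ℓ₀ pu a p Winf Wzero)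
    (fun d => DE d) hcomm hstab hnil z₀ hz₀ hne
  exact ⟨z, hz, hzne, fun d => hfix d⟩

/-- **THE START, in the form of the tower**: with (nil) at the bottom level, a non-zero class of the start subgroup gives a
non-zero class of the candidate `s59n_Ycon` at the bottom level. -/
theorem s59n_start (hM : 1 < M) {H : Subgroup (ZMod M)ˣ} (hneg : (-1 : (ZMod M)ˣ) ∈ H) {p : ℕ}
    (hp : p.Prime) (hp2 : p ≠ 2) (hpgrp : ∀ g : (ZMod M)ˣ, ∃ n : ℕ, g ^ (p ^ n) ∈ H)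
    (φ : s48k_G) (ℓ₀ : κ → ℕ) [∀ k, NeZero (ℓ₀ k)] (pu : κ → (ZMod M)ˣ) (a : κ → ℤ) (α β : ℤ)
    (hTD : ∀ (k : κ) (d : (ZMod M)ˣ) (x : s48k_JH M H), p • x = 0 →
      s48k_diamondJ M H d (s48k_TpJ M H (ℓ₀ k) (pu k) x) =
        s48k_TpJ M H (ℓ₀ k) (pu k) (s48k_diamondJ M H d x))
    (hnil : ∀ z : s48k_JH M H, p • z = 0 →
      (∀ k : κ, ∃ N : ℕ, ((s59n_TE M H (ℓ₀ k) (pu k) - (a k : AddMonoid.End (s48k_JH M H))) ^ N) z = 0) →
      ∃ N : ℕ, ((s59n_quadE (s59n_saE (arithmeticGalois (s48k_FHQ M H) φ)) α β) ^ N) z = 0)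
    (Winf Wzero : ValuationSubring ↥(s48k_FH M H)) (z₀ : s48k_JH M H)
    (hz₀ : z₀ ∈ s59n_Zstart H ℓ₀ pu a p Winf Wzero) (hne : z₀ ≠ 0) :
    ∃ z : s48k_JH M H, z ≠ 0 ∧ s59n_Ycon H le_rfl φ ℓ₀ pu a p α β Winf Wzero z := by
  obtain ⟨z, hz, hzne, hfix⟩ := s59n_start_fixed hM hneg hp hp2 hpgrp ℓ₀ pu a hTD Winf Wzero z₀ hz₀ hne
  rw [s59n_mem_Zstart] at hz
  obtain ⟨h1, h2, h3, h4⟩ := hz
  have hone : SemilinearAut.ofAlgAut (s48k_diamondAut M H 1) = 1 :=
    s59n_diaHom_of_mem hM hneg (one_mem H)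
  refine ⟨z, hzne, h1, fun d => hfix d, h2, hnil z h1 h2, ?_, ?_⟩
  · rw [s59n_Wres_self]
    have := h3 1
    rwa [hone, one_smul] at this
  · rw [s59n_Wres_self]
    have := h4 1
    rwa [hone, one_smul] at this

end Con

end Fermat.Agent.Lib.S59
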