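/-
Programme (R) / node [IA′], C7 = (G2), input (b) of the descent `Γ_H → Γ₀` (helper9, prefix `s59m_`):
**A KUMMER LAYER `F = F₀(τ)`, `τ ^ r = h`, IS UNRAMIFIED OVER EVERY PLACE `v` OF `F₀` WITH `r ∣ ord_v h`.**

`K` algebraically closed of characteristic zero, `F / F₀` finite, the powers `τ ^ i`, `i < r`, a basis, `τ ^ r = h ∈ F₀`,
`(r : ℤ) ∣ v.ord h`.  Then every place `w ∣ v` of `F` has ramification index one (`s59m_kummer_unr`).
Proof: with a uniformiser `π₀` at `v` and `m = ord_v h / r`, the generator `s = τ / π₀ ^ m` is a root of the monic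
`X ^ r - u ∈ O_v[X]`, `u = h / π₀ ^ (r m)` a unit at `v`, and `f'(s) * s = r u` is a unit at `v`: main's étale
certificate `s48g_unr` applies.
-/
import Fermat.Agent.Lib.S48.GUnr
import Fermat.Agent.Lib.FF.FFBasicResidue

set_option autoImplicit false
set_option linter.unusedSectionVars false
set_option linter.style.haveILetI false

noncomputable section

namespace Fermat.Agent.Lib.S59

open AlgebraicCurve Fermat.Agent.Lib.FF Fermat.Agent.Lib.S37 Fermat.Agent.Lib.S48 Polynomial

section Generic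

variable {K F₀ F : Type*} [Field K] [Field F₀] [Field F] [Algebra K F₀] [Algebra K F]
  [Algebra F₀ F] [IsScalarTower K F₀ F] [FiniteDimensional F₀ F] [CharZero F₀]
  [CharZero K] [IsAlgClosed K] [HasPrincipalDivisors K F]

/-- **a Kummer layer is unramified over the places where `r ∣ ord h`.** -/
theorem s59m_kummer_unr (x₀ : F₀) [FFGen K x₀] (x : F) [FFGen K x] (v : Place K F₀)
    {r : ℕ} (hr : 1 < r) (bs : Module.Basis (Fin r) F₀ F) (τ : F)
    (hbs : ∀ i : Fin r, bs i = τ ^ (i : ℕ)) (h : F₀) (hh : h ≠ 0)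
    (hτ : τ ^ r = algebraMap F₀ F h) (hdvd : (r : ℤ) ∣ v.ord h)
    (w : Place K F) (hw : w.restrict F₀ = v) : w.ramificationIndex F₀ = 1 := by
  classical
  obtain ⟨π₀, hπ₀, hπ1⟩ := ff_exists_ord_eq_one v
  obtain ⟨m, hm⟩ := hdvd
  set g : F₀ := π₀ ^ m with hg
  have hg0 : g ≠ 0 := zpow_ne_zero _ hπ₀
  have hgord : v.ord g = m := by rw [hg, v.ord_zpow, hπ1, mul_one]
  have hgr0 : g ^ r ≠ 0 := pow_ne_zero _ hg0
  have hgrord : v.ord (g ^ r) = r * m := by
    rw [← zpow_natCast, v.ord_zpow, hgord]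
  set u : F₀ := h * (g ^ r)⁻¹ with hu
  have hu0 : u ≠ 0 := mul_ne_zero hh (inv_ne_zero hgr0)
  have huord : v.ord u = 0 := by
    rw [hu, v.ord_mul hh (inv_ne_zero hgr0), v.ord_inv, hgrord, hm]
    ring
  have hgF : algebraMap F₀ F g ≠ 0 := (_root_.map_ne_zero _).mpr hg0
  set s : F := τ * (algebraMap F₀ F g)⁻¹ with hs
  have hsr : s ^ r = algebraMap F₀ F u := by
    rw [hs, mul_pow, hτ, inv_pow, hu, map_mul, map_inv₀, map_pow]
  -- the basis of powers of `s`
  let bs' : Module.Basis (Fin r) F₀ F :=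
    bs.isUnitSMul (w := fun i => (g⁻¹) ^ (i : ℕ))
      (fun i => IsUnit.mk0 _ (pow_ne_zero _ (inv_ne_zero hg0)))
  have hbs' : ∀ i : Fin r, bs' i = s ^ (i : ℕ) := by
    intro i
    show bs.isUnitSMul _ i = _
    rw [Module.Basis.isUnitSMul_apply, hbs, Algebra.smul_def, map_pow, map_inv₀, hs, mul_pow,
      mul_comm, inv_pow]
  -- the polynomial
  have humem : u ∈ v.toValuationSubring := (ff_mem_iff_ord_nonneg v hu0).mpr huord.ge
  set uv : ↥v.toValuationSubring := ⟨u, humem⟩ with huv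
  set fv : (↥v.toValuationSubring)[X] := X ^ r - C uv with hfv
  have hr0 : r ≠ 0 := by omega
  have hmonic : fv.Monic := monic_X_pow_sub_C uv hr0
  have hdeg : fv.natDegree = r := natDegree_X_pow_sub_C
  have hroot : eval₂ (s48g_inclV (F := F) v) s fv = 0 := by
    rw [hfv, eval₂_sub, eval₂_X_pow, eval₂_C, s48g_inclV_apply, hsr]
    exact sub_self _
  have hder : derivative fv = C ((r : ℕ) : ↥v.toValuationSubring) * X ^ (r - 1) := by
    rw [hfv, derivative_sub, derivative_C, sub_zero, derivative_X_pow]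
  set ν : F₀ := (r : F₀) * u with hν
  have hrF₀ : (r : F₀) ≠ 0 := Nat.cast_ne_zero.mpr hr0
  have hν0' : ν ≠ 0 := mul_ne_zero hrF₀ hu0
  have hνord : v.ord ν = 0 := by
    have h1 : (r : F₀) = algebraMap K F₀ (r : K) := (map_natCast _ r).symm
    rw [hν, v.ord_mul hrF₀ hu0, huord, h1, ff_ord_algebraMap]
    rfl
  have hcert : eval₂ (s48g_inclV (F := F) v) s (derivative fv) * s = algebraMap F₀ F ν := by
    rw [hder, eval₂_mul, eval₂_C, eval₂_X_pow, s48g_inclV_apply, mul_assoc, ← pow_succ,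
      Nat.sub_add_cancel (by omega : 1 ≤ r), hsr, ← map_mul]
    rfl
  -- `s` is integral over `O_v`
  have hsint : IsIntegral v.toValuationSubring s := ⟨fv, hmonic, hroot⟩
  have hsw : ∀ w' : Place K F, w'.restrict F₀ = v → s ∈ w'.toValuationSubring :=
    fun w' hw' => s48g_mem_of_isIntegral hsint hw'
  -- `s` is not constant
  have hsc : ∀ c : K, s ≠ algebraMap K F c := by
    intro c hc
    have h0 : bs' ⟨0, by omega⟩ = 1 := by rw [hbs']; exact pow_zero s
    have h1 : bs' ⟨1, hr⟩ = algebraMap K F₀ c • bs' ⟨0, by omega⟩ := by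
      rw [h0, hbs', Algebra.smul_def, mul_one, ← IsScalarTower.algebraMap_apply]
      show s ^ 1 = _
      rw [pow_one, hc]
    have h2 := congrArg (fun y => bs'.repr y ⟨1, hr⟩) h1
    simp only [Module.Basis.repr_self, map_smul, Finsupp.smul_apply, Finsupp.single_eq_same,
      smul_eq_mul] at h2
    rw [Finsupp.single_eq_of_ne (by intro h3; exact absurd (congrArg Fin.val h3) (by simp))] at h2
    simp at h2
  -- the value of `s` at `w`
  obtain ⟨c, hc | hc⟩ := ff_exists_const_sub_mem K x w (hsw w hw)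
  · exact absurd hc (hsc c)
  · exact (s48g_unr x₀ v bs' s hbs' fv hmonic hdeg hroot s hsw ν hνord hν0' hcert c (hsc c) w hw
      hc).1

end Generic

end Fermat.Agent.Lib.S59
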