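/-
Programme (R) / node [IA′], C7 = (G2), input (b) of the descent `Γ_H → Γ₀` (helper9, prefix `s59m_`):
**`F_{H'} / F_{H''}` IS UNRAMIFIED AT EVERY PLACE** (`H ≤ H' ≤ H''`, `H` a subgroup of `(ℤ/M)ˣ` for which (K-Div) holds).

* `s59m_incl hle : F_{H''} →ₐ[ℚ̄] F_{H'}` the inclusion, `s59m_incl_finite`, `s59m_incl_isIntegral`, `s59m_incl_FI`,
  `s59m_incl_surjPl` (places lift) : the generic inputs of helper7's `s59n_descent_class`;
* `s59m_KDiv M H` : (K-Div) for the tower above `H`, as a hypothesis (`s59m_kdiv_of_level`: main's `s48h_kdiv_layer` at a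
  level `s48k_Level M N₁ ℓ₀ H`; helper2's `s59b_h_kdiv_layer` gives it at the weak level `s59b_Lvl M H` in the same way);
* `s59m_layer_unr` : one Kummer layer `s48wg_Layer H' H'' g r χ` is unramified everywhere;
* **`s59m_FH_unr`** : `Place.ramificationIndexAlong (s59m_incl hle) w = 1` for every place `w` of `F_{H'}`.
-/
import Fermat.Agent.Lib.S59.MUnrLayer
import Fermat.Agent.Lib.S48.WGN
import Fermat.Agent.Lib.S48.ATGrp
import Fermat.Agent.Lib.S48.HKDivT
import Fermat.Agent.Lib.S48.EGenInputs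
import Fermat.Agent.Lib.S37.LFunct

set_option autoImplicit false
set_option linter.unusedSectionVars false
set_option linter.style.haveILetI false

noncomputable section

namespace Fermat.Agent.Lib.S59

open AlgebraicCurve ModularCurve Fermat.Agent.Lib.FF Fermat.Agent.Lib.S37 Fermat.Agent.Lib.S48
  Fermat.Agent.Lib.S29

local notation "Qbar" => AlgebraicClosure ℚ

attribute [local instance] s29a_algebraC

variable {M : ℕ} [NeZero M]

/-- the inclusion `F_{H''} ⊆ F_{H'}` (for `H' ≤ H''`) as a `ℚ̄`-algebra homomorphism. -/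
def s59m_incl {H' H'' : Subgroup (ZMod M)ˣ} (hle : H' ≤ H'') :
    ↥(s48k_FH M H'') →ₐ[Qbar] ↥(s48k_FH M H') :=
  IntermediateField.inclusion (s48wg_FH_anti H' H'' hle)

theorem s59m_incl_coe {H' H'' : Subgroup (ZMod M)ˣ} (hle : H' ≤ H'') (a : ↥(s48k_FH M H'')) :
    ((s59m_incl hle a : ↥(s48k_FH M H')) : LaurentSeries Qbar) = (a : LaurentSeries Qbar) :=
  IntermediateField.coe_inclusion _ a

theorem s59m_incl_comp {H' H'' H''' : Subgroup (ZMod M)ˣ} (h1 : H' ≤ H'') (h2 : H'' ≤ H''') :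
    (s59m_incl h1).comp (s59m_incl h2) = s59m_incl (h1.trans h2) := by
  apply AlgHom.ext
  intro a
  apply Subtype.ext
  show ((s59m_incl h1 (s59m_incl h2 a) : ↥(s48k_FH M H')) : LaurentSeries Qbar) = _
  rw [s59m_incl_coe, s59m_incl_coe, s59m_incl_coe]

/-- `F_{H'}` is finite over `F_{H''}`. -/
theorem s59m_incl_finite (hM : 1 < M) {H' H'' : Subgroup (ZMod M)ˣ} (hle : H' ≤ H'')
    (hneg : (-1 : (ZMod M)ˣ) ∈ H') : FiniteAlong Qbar (s59m_incl hle) := by
  letI a1 : Algebra ↥(modularFunctionFieldBar M) ↥(s48k_FH M H'') :=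
    (IntermediateField.inclusion (s48wg_bar_le_FH H'')).toRingHom.toAlgebra
  letI a2 : Algebra ↥(s48k_FH M H'') ↥(s48k_FH M H') := algebraAlong (s59m_incl hle)
  letI a3 : Algebra ↥(modularFunctionFieldBar M) ↥(s48k_FH M H') :=
    (IntermediateField.inclusion (s48wg_bar_le_FH H')).toRingHom.toAlgebra
  haveI : IsScalarTower ↥(modularFunctionFieldBar M) ↥(s48k_FH M H'') ↥(s48k_FH M H') :=
    IsScalarTower.of_algebraMap_eq (fun x => Subtype.ext (by
      rw [RingHom.algebraMap_toAlgebra, RingHom.algebraMap_toAlgebra,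
        RingHom.algebraMap_toAlgebra]
      show ((IntermediateField.inclusion (s48wg_bar_le_FH H') x : ↥(s48k_FH M H')) :
          LaurentSeries Qbar) =
        ((s59m_incl hle (IntermediateField.inclusion (s48wg_bar_le_FH H'') x) :
          ↥(s48k_FH M H')) : LaurentSeries Qbar)
      rw [s59m_incl_coe, IntermediateField.coe_inclusion, IntermediateField.coe_inclusion]))
  haveI : Module.Finite ↥(modularFunctionFieldBar M) ↥(s48k_FH M H') :=
    Module.finite_of_finrank_pos (by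
      rw [s48wg_finrank_FH H' hM hneg]
      exact s48wg_card_XH_pos H' hneg)
  show Module.Finite ↥(s48k_FH M H'') ↥(s48k_FH M H')
  exact Module.Finite.of_restrictScalars_finite ↥(modularFunctionFieldBar M) _ _

theorem s59m_incl_isIntegral (hM : 1 < M) {H' H'' : Subgroup (ZMod M)ˣ} (hle : H' ≤ H'')
    (hneg : (-1 : (ZMod M)ˣ) ∈ H') : (s59m_incl hle).toRingHom.IsIntegral :=
  s48e_isIntegral_of_finiteAlong _ (s59m_incl_finite hM hle hneg)

/-- `F_{H'}` has principal divisors. -/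
theorem s59m_FH_hasPrincipalDivisors (hM : 1 < M) {H' : Subgroup (ZMod M)ˣ}
    (hneg : (-1 : (ZMod M)ˣ) ∈ H') : HasPrincipalDivisors Qbar ↥(s48k_FH M H') :=
  haveI : FFGen Qbar (s48h_j0 H') := s48h_ffGen_jK (algebraMap Qbar ℂ) hM hneg
  s48e_hasPrincipalDivisors (s48h_j0 H')

/-- the fundamental identity along the inclusion. -/
theorem s59m_incl_FI (hM : 1 < M) {H' H'' : Subgroup (ZMod M)ˣ} (hle : H' ≤ H'')
    (hneg : (-1 : (ZMod M)ˣ) ∈ H') [HasPrincipalDivisors Qbar ↥(s48k_FH M H')] :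
    FundamentalIdentityAlong Qbar (s59m_incl hle) (s59m_incl_isIntegral hM hle hneg) :=
  haveI : FFGen Qbar (s48h_j0 H') := s48h_ffGen_jK (algebraMap Qbar ℂ) hM hneg
  haveI : FFGen Qbar (s48h_j0 H'') := s48h_ffGen_jK (algebraMap Qbar ℂ) hM (hle hneg)
  s48e_fundamentalIdentityAlong (s48h_j0 H'') (s48h_j0 H') _ (s59m_incl_finite hM hle hneg) _

/-- every place of `F_{H''}` has a place of `F_{H'}` above it. -/
theorem s59m_incl_surjPl (hM : 1 < M) {H' H'' : Subgroup (ZMod M)ˣ} (hle : H' ≤ H'')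
    (hneg : (-1 : (ZMod M)ˣ) ∈ H') (v : Place Qbar ↥(s48k_FH M H'')) :
    ∃ w : Place Qbar ↥(s48k_FH M H'),
      w.restrictAlong (s59m_incl hle) (s59m_incl_isIntegral hM hle hneg) = v := by
  haveI := s59m_FH_hasPrincipalDivisors hM hneg
  haveI : FFGen Qbar (s48h_j0 H'') := s48h_ffGen_jK (algebraMap Qbar ℂ) hM (hle hneg)
  have hFI := s59m_incl_FI hM hle hneg
  letI := algebraAlong (s59m_incl hle)
  haveI := isScalarTower_along (s59m_incl hle)
  haveI := isIntegral_along (s59m_incl hle) (s59m_incl_isIntegral hM hle hneg)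
  haveI : Module.Finite ↥(s48k_FH M H'') ↥(s48k_FH M H') := s59m_incl_finite hM hle hneg
  have hFI' : FundamentalIdentity Qbar ↥(s48k_FH M H'') ↥(s48k_FH M H') := hFI
  have hsum := hFI'.sum_ramificationIndex_mul_deg v
  have hdeg : v.deg = 1 := ff_deg_eq_one Qbar (s48h_j0 H'') v
  have hpos : 0 < Module.finrank ↥(s48k_FH M H'') ↥(s48k_FH M H') := Module.finrank_pos
  by_contra hcon
  have hempty : v.fiber ↥(s48k_FH M H') = ∅ := by
    rw [Finset.eq_empty_iff_forall_notMem]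
    intro w hw
    exact hcon ⟨w, Place.mem_fiber.mp hw⟩
  rw [hempty, Finset.sum_empty, hdeg] at hsum
  have : (0 : ℤ) < (Module.finrank ↥(s48k_FH M H'') ↥(s48k_FH M H') : ℤ) * ((1 : ℕ) : ℤ) := by
    positivity
  omega

/-! ### (K-Div) as a hypothesis -/

/-- **(K-Div)** for the tower above `H`. -/
def s59m_KDiv (M : ℕ) [NeZero M] (H : Subgroup (ZMod M)ˣ) : Prop :=
  ∀ (H' : Subgroup (ZMod M)ˣ), H ≤ H' → ∀ (χ : DirichletCharacter Qbar M),
    (∀ u ∈ H, χ (u : ZMod M) = 1) → ∀ (r : ℕ) [NeZero r] (h : ↥(s48k_FH M H')),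
    (h : LaurentSeries Qbar) =
      (HahnSeries.ofPowerSeries ℤ Qbar (s48k_tPS (fun c : ℕ => χ (c : ZMod M)))) ^ r →
    ∀ P : Place Qbar ↥(s48k_FH M H'), (r : ℤ) ∣ P.ord h

theorem s59m_kdiv_of_level {N₁ ℓ₀ : ℕ} {H : Subgroup (ZMod M)ˣ} (hL : s48k_Level M N₁ ℓ₀ H) :
    s59m_KDiv M H :=
  fun _ hHH' χ hχ r _ h hh P => s48h_kdiv_layer hL hHH' χ hχ r h hh P

/-! ### One layer -/

/-- **one Kummer layer is unramified everywhere.** -/
theorem s59m_layer_unr (hM : 1 < M) {H H' H'' : Subgroup (ZMod M)ˣ} (hK : s59m_KDiv M H)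
    (hHH' : H ≤ H') (hneg : (-1 : (ZMod M)ˣ) ∈ H') {g : (ZMod M)ˣ} {r : ℕ}
    {χ : DirichletCharacter Qbar M} (hLay : s48wg_Layer H' H'' g r χ)
    (w : Place Qbar ↥(s48k_FH M H')) :
    Place.ramificationIndexAlong (s59m_incl hLay.le) w = 1 := by
  haveI hP := s59m_FH_hasPrincipalDivisors hM hneg
  haveI : FFGen Qbar (s48h_j0 H') := s48h_ffGen_jK (algebraMap Qbar ℂ) hM hneg
  haveI : FFGen Qbar (s48h_j0 H'') := s48h_ffGen_jK (algebraMap Qbar ℂ) hM (hLay.le hneg)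
  haveI : NeZero r := ⟨hLay.prime.ne_zero⟩
  letI alg := s48wg_layerAlgebra hLay.le
  haveI := s48wg_layer_isScalarTower hLay.le
  haveI := hLay.finiteDimensional hM hneg
  haveI : Algebra.IsIntegral ↥(s48k_FH M H'') ↥(s48k_FH M H') := Algebra.IsIntegral.of_finite _ _
  have hχH : ∀ u ∈ H, χ (u : ZMod M) = 1 := fun u hu =>
    (s48wg_mem_XH H').mp hLay.chi_mem u (hHH' hu)
  show w.ramificationIndex ↥(s48k_FH M H'') = 1
  exact s59m_kummer_unr (s48h_j0 H'') (s48h_j0 H') (w.restrict ↥(s48k_FH M H''))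
    hLay.prime.one_lt (hLay.basis hM hneg) hLay.tau (hLay.basis_apply hM hneg)
    (hLay.h hM hneg) (hLay.h_ne_zero hM hneg) (hLay.hpow hM hneg)
    (hK H'' (hHH'.trans hLay.le) χ hχH r (hLay.h hM hneg) rfl _) w rfl

/-! ### The tower -/

/-- a surjective embedding is unramified. -/
theorem s59m_ramIdx_of_surjective {K F F' : Type*} [Field K] [Field F] [Field F'] [Algebra K F]
    [Algebra K F'] (φ : F →ₐ[K] F') (hφ : φ.toRingHom.IsIntegral)
    (hsurj : Function.Surjective φ) (w : Place K F') : Place.ramificationIndexAlong φ w = 1 := by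
  obtain ⟨f', -, hf1⟩ := s37l_exists_ord_eq_one w
  obtain ⟨f, rfl⟩ := hsurj f'
  have h := Place.ord_restrictAlong φ hφ w f
  rw [hf1] at h
  have hdvd : ((Place.ramificationIndexAlong φ w : ℕ) : ℤ) ∣ 1 := ⟨_, h⟩
  exact_mod_cast Int.eq_one_of_dvd_one (Int.natCast_nonneg _) hdvd

/-- **`F_{H'} / F̄₀(M)` is unramified at every place** (`F̄₀(M) = F_⊤`). -/
theorem s59m_FH_unr_top (hM : 1 < M) {H : Subgroup (ZMod M)ˣ} (hK : s59m_KDiv M H)
    (hneg : (-1 : (ZMod M)ˣ) ∈ H) :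
    ∀ H' : Subgroup (ZMod M)ˣ, H ≤ H' → ∀ w : Place Qbar ↥(s48k_FH M H'),
      Place.ramificationIndexAlong (s59m_incl (le_top : H' ≤ ⊤)) w = 1 := by
  refine s48a_subgroup_induction
    (P := fun H' : Subgroup (ZMod M)ˣ => H ≤ H' → ∀ w : Place Qbar ↥(s48k_FH M H'),
      Place.ramificationIndexAlong (s59m_incl (le_top : H' ≤ ⊤)) w = 1) ?_ ?_
  · intro hH w
    refine s59m_ramIdx_of_surjective _ (s59m_incl_isIntegral hM le_top (hH hneg)) ?_ w
    intro a
    exact ⟨a, Subtype.ext (s59m_incl_coe _ a)⟩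
  · intro H' g r hr hg hgr hP hHH' w
    obtain ⟨χ, hLay⟩ := s48wg_exists_layer H' g r hr hg hgr
    have hnegH' : (-1 : (ZMod M)ˣ) ∈ H' := hHH' hneg
    have hcomp : s59m_incl (le_top : H' ≤ ⊤) =
        (s59m_incl hLay.le).comp (s59m_incl (le_top : H' ⊔ Subgroup.zpowers g ≤ ⊤)) :=
      (s59m_incl_comp _ _).symm
    rw [hcomp, s37l_ramificationIndexAlong_comp _ _
      (s59m_incl_isIntegral hM le_top (hLay.le hnegH'))
      (s59m_incl_isIntegral hM hLay.le hnegH')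
      (by rw [← hcomp]; exact s59m_incl_isIntegral hM le_top hnegH') w,
      s59m_layer_unr hM hK hHH' hnegH' hLay w, one_mul]
    exact hP (hHH'.trans hLay.le) _

/-- **(b): `F_{H'} / F_{H''}` is unramified at every place**, `H ≤ H' ≤ H''`. -/
theorem s59m_FH_unr (hM : 1 < M) {H : Subgroup (ZMod M)ˣ} (hK : s59m_KDiv M H)
    (hneg : (-1 : (ZMod M)ˣ) ∈ H) {H' H'' : Subgroup (ZMod M)ˣ} (hHH' : H ≤ H')
    (hle : H' ≤ H'') (w : Place Qbar ↥(s48k_FH M H')) :
    Place.ramificationIndexAlong (s59m_incl hle) w = 1 := by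
  have hnegH' : (-1 : (ZMod M)ˣ) ∈ H' := hHH' hneg
  have h1 := s59m_FH_unr_top hM hK hneg H' hHH' w
  have hcomp : s59m_incl (le_top : H' ≤ ⊤) =
      (s59m_incl hle).comp (s59m_incl (le_top : H'' ≤ ⊤)) := (s59m_incl_comp _ _).symm
  rw [hcomp, s37l_ramificationIndexAlong_comp _ _
    (s59m_incl_isIntegral hM le_top (hle hnegH'))
    (s59m_incl_isIntegral hM hle hnegH')
    (by rw [← hcomp]; exact s59m_incl_isIntegral hM le_top hnegH') w] at h1
  exact Nat.eq_one_of_mul_eq_one_right h1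

/-- (b) at main's level `s48k_Level M N₁ ℓ₀ H`. -/
theorem s59m_FH_unr_of_level {N₁ ℓ₀ : ℕ} {H : Subgroup (ZMod M)ˣ} (hL : s48k_Level M N₁ ℓ₀ H)
    {H' H'' : Subgroup (ZMod M)ˣ} (hHH' : H ≤ H') (hle : H' ≤ H'')
    (w : Place Qbar ↥(s48k_FH M H')) :
    Place.ramificationIndexAlong (s59m_incl hle) w = 1 :=
  s59m_FH_unr (s48h_level_one_lt hL) (s59m_kdiv_of_level hL) hL.neg_one hHH' hle w

end Fermat.Agent.Lib.S59
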