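/-
Programme (R) / node [IA′], C7 = (G2), inputs (c3)/(c4) of the descent `Γ_H → Γ₀`, layer form (helper9, prefix `s59m_`):
**THE DIAMOND OPERATORS ALONG A LAYER `ι = s59m_incl hle : F_{H''} → F_{H'}` (`H' ≤ H''`).**

* `s59m_constOfOrdZero`     : functions without zeros and poles are constants (`FFGen` fields) — `hconst`;
* `s59m_diamondAut_tauH`    : `⟨d⟩ t_χ = χ(d) t_χ` on `F_H`;
* `s59m_diamondAut_incl`    : `⟨d⟩_{H'} ∘ ι = ι ∘ ⟨d⟩_{H''}`;
* `s59m_diamondAut_eq_refl` : `⟨d⟩_{H} = id` for `d ∈ H`;  `s59m_diamondAut_fix` : `⟨g⟩_{H'} (ι x) = ι x` for `g ∈ H''`;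
* `s59m_layer_fixed`        : for a prime layer `s48wg_Layer H' H'' g r χ`, the fixed field of `⟨g⟩_{H'}` is `ι F_{H''}`;
* `s59m_layer_finrankAlong` : `finrankAlong ι = r`;
* `s59m_incl_intertwines`   : `ι` intertwines the arithmetic Galois actions;  `s59m_diamond_intertwines` : and the diamonds.
-/
import Fermat.Agent.Lib.S59.MUnrFH
import Fermat.Agent.Lib.S48.EIntH2
import Fermat.Agent.Lib.S48.WGF
import Fermat.Agent.Lib.S33.DescGen

set_option autoImplicit false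
set_option linter.unusedSectionVars false
set_option linter.style.haveILetI false

noncomputable section

namespace Fermat.Agent.Lib.S59

open AlgebraicCurve ModularCurve IntermediateField Fermat.Agent.Lib.FF Fermat.Agent.Lib.S37
  Fermat.Agent.Lib.S48 Fermat.Agent.Lib.S29 Fermat.Agent.Lib.S33
open scoped MatrixGroups

local notation "Qbar" => AlgebraicClosure ℚ

section Generic

variable {K F : Type*} [Field K] [Field F] [Algebra K F] [CharZero K] [IsAlgClosed K]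

/-- functions without zeros and poles are constants (`F` a finite extension of `K(x)`). -/
theorem s59m_constOfOrdZero (x : F) [FFGen K x] : s33d_ConstOfOrdZero K F := by
  intro g _ hord
  by_cases halg : IsAlgebraic K g
  · obtain ⟨a, ha⟩ := ff_mem_range_of_isAlgebraic halg
    exact ⟨a, ha.symm⟩
  · exfalso
    haveI : FFGen K g := ff_gen_of_transcendental (x := x) halg
    obtain ⟨P, -, hsum⟩ := ff_fibreSum K g
    haveI : FiniteDimensional K⟮g⟯ F := FFGen.finite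
    have hpos : 0 < Module.finrank K⟮g⟯ F := Module.finrank_pos
    have h0 : ∑ v ∈ P, v.ord g = 0 := Finset.sum_eq_zero (fun v _ => hord v)
    rw [h0] at hsum
    omega

end Generic

section FixedBasis

variable {F₀ F : Type*} [Field F₀] [Field F] [Algebra F₀ F]

theorem s59m_eq_zero_of_mul_eq {R : Type*} [Field R] {c a : R} (h : c * a = c) (ha : a ≠ 1) :
    c = 0 := by
  have h3 : c * (a - 1) = 0 := by rw [mul_sub, mul_one, h, sub_self]
  exact (mul_eq_zero.mp h3).resolve_right (sub_ne_zero.mpr ha)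

/-- a ring endomorphism `γ` of `F = ⨁_{i<r} F₀ τ^i` fixing `F₀` with `γ τ = ζ₀ τ`, `ζ₀ ^ i ≠ 1` for `0 < i < r`, has fixed field
`F₀`. -/
theorem s59m_fixed_of_basis {r : ℕ} (b : Module.Basis (Fin r) F₀ F) (τ : F)
    (hb : ∀ i : Fin r, b i = τ ^ (i : ℕ)) (hr0 : 0 < r) (γ : F →+* F)
    (hγalg : ∀ c : F₀, γ (algebraMap F₀ F c) = algebraMap F₀ F c)
    (ζ₀ : F₀) (hγτ : γ τ = algebraMap F₀ F ζ₀ * τ)
    (hζ : ∀ i : ℕ, i ≠ 0 → i < r → ζ₀ ^ i ≠ 1) (y : F) (hy : γ y = y) :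
    ∃ x : F₀, algebraMap F₀ F x = y := by
  classical
  have hy1 : y = ∑ i, b.repr y i • b i := (b.sum_repr y).symm
  have hy2 : γ y = ∑ i, (b.repr y i * ζ₀ ^ (i : ℕ)) • b i := by
    conv_lhs => rw [hy1]
    rw [map_sum]
    refine Finset.sum_congr rfl fun i _ => ?_
    rw [Algebra.smul_def, Algebra.smul_def, map_mul, hγalg, hb, map_pow, hγτ, mul_pow, map_mul,
      map_pow, mul_assoc]
  have hcoef : ∀ i : Fin r, b.repr y i * ζ₀ ^ (i : ℕ) = b.repr y i := by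
    intro i
    have h3 : b.repr (γ y) i = b.repr y i := by rw [hy]
    have h4 : b.repr (γ y) i = b.repr y i * ζ₀ ^ (i : ℕ) := by
      rw [hy2]
      exact congrFun (b.repr_sum_self _) i
    rw [← h4, h3]
  have hzero : ∀ i : Fin r, (i : ℕ) ≠ 0 → b.repr y i = 0 := fun i hi =>
    s59m_eq_zero_of_mul_eq (hcoef i) (hζ i hi i.2)
  refine ⟨b.repr y ⟨0, hr0⟩, ?_⟩
  have h4 : y = b.repr y ⟨0, hr0⟩ • b ⟨0, hr0⟩ := by
    conv_lhs => rw [hy1]
    refine Finset.sum_eq_single_of_mem (⟨0, hr0⟩ : Fin r) (Finset.mem_univ _) fun i _ hi => ?_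
    rw [hzero i (fun h => hi (Fin.ext h)), zero_smul]
  have h5 : b ⟨0, hr0⟩ = 1 := by rw [hb]; exact pow_zero _
  have h6 : b.repr y ⟨0, hr0⟩ • b ⟨0, hr0⟩ = algebraMap F₀ F (b.repr y ⟨0, hr0⟩) := by
    rw [h5, Algebra.smul_def, mul_one]
  exact (h4.trans h6).symm

end FixedBasis

variable {M : ℕ} [NeZero M]

/-! ### Diamonds on the Kummer generators -/

/-- the diamond automorphism is the action of `σ⁻¹`, `σ ∈ Γ₀(M)` with lower right entry `d`. -/
theorem s59m_diamondAut_eq_actEquiv (hM : 1 < M) {H : Subgroup (ZMod M)ˣ}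
    (hneg : (-1 : (ZMod M)ˣ) ∈ H) (d : (ZMod M)ˣ) (σ : SL(2, ℤ)) (hσ : σ ∈ CongruenceSubgroup.Gamma0 M)
    (hσd : ((σ 1 1 : ℤ) : ZMod M) = (d : ZMod M)) :
    s48k_diamondAut M H d = s48wg_actEquiv H hM hneg σ⁻¹ (inv_mem hσ) :=
  s48e_isDiamondAut_unique M H (s48wg_isDiamondAut H hM hneg d)
    ⟨fun x hx => s48wg_actEquiv_of_mem_bar H hM hneg _ _ x hx,
      fun u => s48wg_actEquiv_sBar H hM hneg _ _ d (by rw [inv_inv]; exact hσd) u⟩

/-- **`⟨d⟩ t_χ = χ(d) t_χ`.** -/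
theorem s59m_diamondAut_tauH (hM : 1 < M) {H : Subgroup (ZMod M)ˣ} (hneg : (-1 : (ZMod M)ˣ) ∈ H)
    (d : (ZMod M)ˣ) (χ : DirichletCharacter Qbar M) (hχ : χ ∈ s48wg_XH H) :
    s48k_diamondAut M H d (s48wg_tauH H χ hχ) = χ (d : ZMod M) • s48wg_tauH H χ hχ := by
  obtain ⟨σ, hσ, hσd⟩ := s48wg_exists_sigma (dvd_refl M) d
  rw [s59m_diamondAut_eq_actEquiv hM hneg d σ hσ hσd, s48wg_actEquiv_tauH, inv_inv, hσd]

/-- `⟨d⟩ = id` on `F_H` for `d ∈ H`. -/
theorem s59m_diamondAut_eq_refl (hM : 1 < M) {H : Subgroup (ZMod M)ˣ}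
    (hneg : (-1 : (ZMod M)ˣ) ∈ H) {d : (ZMod M)ˣ} (hd : d ∈ H) :
    s48k_diamondAut M H d = AlgEquiv.refl := by
  refine s48e_isDiamondAut_unique M H (s48wg_isDiamondAut H hM hneg d) ⟨fun x _ => rfl, fun u => ?_⟩
  rw [AlgEquiv.coe_refl, id, s48wg_sBar_mul H u d⁻¹ (H.inv_mem hd)]

/-! ### Compatibility with the inclusions -/

/-- the bridges `Φ_H` only depend on the `q`-expansion. -/
theorem s59m_PhiH_eq_of_coe (hM : 1 < M) {H' H'' : Subgroup (ZMod M)ˣ}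
    (hneg' : (-1 : (ZMod M)ˣ) ∈ H') (hneg'' : (-1 : (ZMod M)ˣ) ∈ H'')
    (y : ↥(s48k_FH M H')) (x : ↥(s48k_FH M H''))
    (h : (y : LaurentSeries Qbar) = (x : LaurentSeries Qbar)) :
    s48wg_PhiH H' hM hneg' y = s48wg_PhiH H'' hM hneg'' x := by
  rw [s48wg_PhiH_apply, s48wg_PhiH_apply]
  exact congrArg (s48wg_Phi M) (Subtype.ext h)

/-- the bridges `Φ_H` are compatible with the inclusions. -/
theorem s59m_PhiH_incl (hM : 1 < M) {H' H'' : Subgroup (ZMod M)ˣ} (hle : H' ≤ H'')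
    (hneg : (-1 : (ZMod M)ˣ) ∈ H') (x : ↥(s48k_FH M H'')) :
    s48wg_PhiH H' hM hneg (s59m_incl hle x) = s48wg_PhiH H'' hM (hle hneg) x :=
  s59m_PhiH_eq_of_coe hM hneg (hle hneg) _ _ (s59m_incl_coe hle x)

/-- **`⟨d⟩_{H'} ∘ ι = ι ∘ ⟨d⟩_{H''}`.** -/
theorem s59m_diamondAut_incl (hM : 1 < M) {H' H'' : Subgroup (ZMod M)ˣ} (hle : H' ≤ H'')
    (hneg : (-1 : (ZMod M)ˣ) ∈ H') (d : (ZMod M)ˣ) (x : ↥(s48k_FH M H'')) :
    s48k_diamondAut M H' d (s59m_incl hle x) = s59m_incl hle (s48k_diamondAut M H'' d x) := by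
  obtain ⟨σ, hσ, hσd⟩ := s48wg_exists_sigma (dvd_refl M) d
  rw [s59m_diamondAut_eq_actEquiv hM hneg d σ hσ hσd,
    s59m_diamondAut_eq_actEquiv hM (hle hneg) d σ hσ hσd]
  apply s48wg_PhiH_injective H' hM hneg
  rw [s48wg_PhiH_actEquiv, s59m_PhiH_incl, s59m_PhiH_incl, s48wg_PhiH_actEquiv]

/-- `⟨g⟩_{H'}` fixes `ι F_{H''}` for `g ∈ H''`. -/
theorem s59m_diamondAut_fix (hM : 1 < M) {H' H'' : Subgroup (ZMod M)ˣ} (hle : H' ≤ H'')
    (hneg : (-1 : (ZMod M)ˣ) ∈ H') {g : (ZMod M)ˣ} (hg : g ∈ H'') (x : ↥(s48k_FH M H'')) :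
    s48k_diamondAut M H' g (s59m_incl hle x) = s59m_incl hle x := by
  rw [s59m_diamondAut_incl hM hle hneg, s59m_diamondAut_eq_refl hM (hle hneg) hg]
  rfl

/-! ### A prime layer: the fixed field of `⟨g⟩` -/

/-- `finrankAlong ι = r` for a prime layer. -/
theorem s59m_layer_finrankAlong (hM : 1 < M) {H' H'' : Subgroup (ZMod M)ˣ}
    (hneg : (-1 : (ZMod M)ˣ) ∈ H') {g : (ZMod M)ˣ} {r : ℕ} {χ : DirichletCharacter Qbar M}
    (hLay : s48wg_Layer H' H'' g r χ) : finrankAlong Qbar (s59m_incl hLay.le) = r :=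
  hLay.finrank hM hneg

/-- **the fixed field of `⟨g⟩_{H'}` is `ι F_{H''}`** (prime layer). -/
theorem s59m_layer_fixed (hM : 1 < M) {H' H'' : Subgroup (ZMod M)ˣ}
    (hneg : (-1 : (ZMod M)ˣ) ∈ H') {g : (ZMod M)ˣ} {r : ℕ} {χ : DirichletCharacter Qbar M}
    (hLay : s48wg_Layer H' H'' g r χ) (y : ↥(s48k_FH M H'))
    (hy : s48k_diamondAut M H' g y = y) : ∃ x : ↥(s48k_FH M H''), s59m_incl hLay.le x = y := by
  letI alg := s48wg_layerAlgebra hLay.le
  haveI := s48wg_layer_isScalarTower hLay.le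
  have hζ : IsPrimitiveRoot (χ ((g : (ZMod M)ˣ) : ZMod M)) r := hLay.isPrimitiveRoot
  have hγτ : s48k_diamondAut M H' g hLay.tau =
      algebraMap ↥(s48k_FH M H'') ↥(s48k_FH M H')
        (algebraMap Qbar ↥(s48k_FH M H'') (χ ((g : (ZMod M)ˣ) : ZMod M))) * hLay.tau := by
    rw [← IsScalarTower.algebraMap_apply, ← Algebra.smul_def]
    exact s59m_diamondAut_tauH hM hneg g χ hLay.chi_mem
  exact s59m_fixed_of_basis (hLay.basis hM hneg) hLay.tau (hLay.basis_apply hM hneg)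
    hLay.prime.pos (s48k_diamondAut M H' g : ↥(s48k_FH M H') →+* ↥(s48k_FH M H'))
    (fun c => s59m_diamondAut_fix hM hLay.le hneg hLay.g_mem c)
    (algebraMap Qbar ↥(s48k_FH M H'') (χ ((g : (ZMod M)ˣ) : ZMod M))) hγτ
    (fun i hi hir => by
      rw [← map_pow]
      exact (map_ne_one_iff (algebraMap Qbar ↥(s48k_FH M H''))
        (algebraMap Qbar ↥(s48k_FH M H'')).injective).mpr (hζ.pow_ne_one_of_pos_of_lt hi hir))
    y hy

/-! ### Intertwining -/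

/-- `ι` intertwines the arithmetic Galois actions. -/
theorem s59m_incl_intertwines {H' H'' : Subgroup (ZMod M)ˣ} (hle : H' ≤ H'') (σ : s48k_G) :
    SemilinearAut.IntertwinesAlong
      ((s59m_incl hle : _ →ₐ[Qbar] _) : ↥(s48k_FH M H'') →+* ↥(s48k_FH M H'))
      (arithmeticGalois (s48k_FHQ M H'') σ) (arithmeticGalois (s48k_FHQ M H') σ) := by
  intro x
  apply Subtype.ext
  show ((arithmeticGalois (s48k_FHQ M H') σ • (s59m_incl hle x) : ↥(s48k_FH M H')) :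
      LaurentSeries Qbar) =
    ((s59m_incl hle (arithmeticGalois (s48k_FHQ M H'') σ • x) : ↥(s48k_FH M H')) :
      LaurentSeries Qbar)
  rw [coe_arithmeticGalois_smul, s59m_incl_coe, s59m_incl_coe, coe_arithmeticGalois_smul]

/-- `ι` intertwines the diamond automorphisms. -/
theorem s59m_diamond_intertwines (hM : 1 < M) {H' H'' : Subgroup (ZMod M)ˣ} (hle : H' ≤ H'')
    (hneg : (-1 : (ZMod M)ˣ) ∈ H') (d : (ZMod M)ˣ) :
    SemilinearAut.IntertwinesAlong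
      ((s59m_incl hle : _ →ₐ[Qbar] _) : ↥(s48k_FH M H'') →+* ↥(s48k_FH M H'))
      (SemilinearAut.ofAlgAut (s48k_diamondAut M H'' d))
      (SemilinearAut.ofAlgAut (s48k_diamondAut M H' d)) := by
  intro x
  rw [SemilinearAut.ofAlgAut_smul, SemilinearAut.ofAlgAut_smul]
  exact s59m_diamondAut_incl hM hle hneg d x

end Fermat.Agent.Lib.S59
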