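/-
Programme (R) / node [IA′], C7 = (G2), the descent `Γ_H → Γ₀` (helper1 #3316), family N (helper7, prefix `s59n_`):
**CYCLIC KUMMER DESCENT (Hilbert 90) AND THE KUMMER KERNEL OF A CYCLIC RESIDUE EXTENSION.**  Mathlib only.

`F / F₀` a finite cyclic Galois extension with generator `γ`, `K ⊆ F₀` an algebraically closed field of constants.

* `s59n_const_of_pow` : an element of an extension of an algebraically closed `K` whose power is a constant is a constant;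
* **`s59n_kummer_descent`** : `γ u = c · g ^ p · u` (`c ∈ Kˣ`, `g ∈ Fˣ`: the class of `u` in `Fˣ / K^× F^{×p}` is `γ`-invariant)
  ⇒ there is `b ∈ Fˣ` such that `u₁ = u · b ^ p` is a `γ`-EIGENFUNCTION: `γ u₁ = c' · u₁`, `c' ∈ Kˣ`;
* `s59n_kummer_descent_full` : the combined form `u · b ^ p = f₀ · t ^ j`;
* `s59n_eigen_const_pow` : the eigenvalue satisfies `c' ^ [F : F₀] = 1`;
* **`s59n_eigen_descent`** : if `t ∈ Fˣ` has `γ t = ζ · t`, `ζ` a primitive `[F : F₀]`-th root of unity, then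
  `u₁ = f₀ · t ^ j` with `f₀ ∈ F₀`;
* **`s59n_kummer_ker_cyclic`** : `κ' / κ` cyclic with generator `γ`, `μ_p ⊆ κ`; `a₁ = b₁ ^ p` with `b₁ ∈ κ' ∖ κ`; then every
  `a ∈ κ` which is a `p`-th power in `κ'` is `a₁ ^ j · d ^ p`, `d ∈ κ`.
-/
import Mathlib

set_option autoImplicit false
set_option linter.style.haveILetI false
set_option linter.unusedSectionVars false

namespace Fermat.Agent.Lib.S59

open Polynomial

/-- an element of a field extension of an algebraically closed field `K` whose `m`-th power (`m ≠ 0`) is a constant is a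
constant. -/
theorem s59n_const_of_pow {K F : Type*} [Field K] [IsAlgClosed K] [Field F] [Algebra K F] {m : ℕ}
    (hm : m ≠ 0) (y : F) (c : K) (h : y ^ m = algebraMap K F c) : ∃ d : K, y = algebraMap K F d := by
  have hint : IsIntegral K y := by
    refine ⟨X ^ m - C c, monic_X_pow_sub_C c hm, ?_⟩
    rw [eval₂_sub, eval₂_pow, eval₂_X, eval₂_C, h, sub_self]
  have hdeg : (minpoly K y).degree = 1 :=
    IsAlgClosed.degree_eq_one_of_irreducible K (minpoly.irreducible hint)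
  obtain ⟨d, hd⟩ := minpoly.mem_range_of_degree_eq_one K y hdeg
  exact ⟨d, hd.symm⟩

/-- **cyclic Kummer descent (Hilbert 90).** -/
theorem s59n_kummer_descent {K F₀ F : Type} [Field K] [IsAlgClosed K] [Field F₀] [Field F]
    [Algebra K F₀] [Algebra K F] [Algebra F₀ F] [IsScalarTower K F₀ F]
    [FiniteDimensional F₀ F] [IsGalois F₀ F] [IsCyclic (F ≃ₐ[F₀] F)]
    (γ : F ≃ₐ[F₀] F) (hγ : ∀ g, g ∈ Subgroup.zpowers γ) {p : ℕ} (hp : p ≠ 0)
    (u g : F) (c : K) (hu : u ≠ 0) (h : γ u = algebraMap K F c * g ^ p * u) :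
    ∃ b : F, b ≠ 0 ∧ ∃ c' : K, c' ≠ 0 ∧ γ (u * b ^ p) = algebraMap K F c' * (u * b ^ p) := by
  have hγu : γ u ≠ 0 := by
    intro h0
    exact hu ((map_eq_zero_iff γ γ.injective).mp h0)
  have hc : c ≠ 0 := by
    rintro rfl
    rw [map_zero, zero_mul, zero_mul] at h
    exact hγu h
  have hg : g ≠ 0 := by
    rintro rfl
    rw [zero_pow hp, mul_zero, zero_mul] at h
    exact hγu h
  set d := Module.finrank F₀ F with hd
  have hd0 : 0 < d := Module.finrank_pos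
  -- norms
  have hN1 : Algebra.norm F₀ (γ u) = Algebra.norm F₀ u := Algebra.norm_eq_of_algEquiv γ u
  have hNu : Algebra.norm F₀ u ≠ 0 := Algebra.norm_ne_zero_iff.mpr hu
  have hcF : algebraMap K F c = algebraMap F₀ F (algebraMap K F₀ c) :=
    IsScalarTower.algebraMap_apply K F₀ F c
  have hN2 : Algebra.norm F₀ u = (algebraMap K F₀ c) ^ d * (Algebra.norm F₀ g) ^ p * Algebra.norm F₀ u := by
    conv_lhs => rw [← hN1, h, map_mul, map_mul, map_pow, hcF, Algebra.norm_algebraMap]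
  have hN3 : (algebraMap K F₀ c) ^ d * (Algebra.norm F₀ g) ^ p = 1 := by
    have : (1 : F₀) * Algebra.norm F₀ u
        = ((algebraMap K F₀ c) ^ d * (Algebra.norm F₀ g) ^ p) * Algebra.norm F₀ u := by
      rw [one_mul]; exact hN2
    exact (mul_right_cancel₀ hNu this).symm
  have hN4 : (Algebra.norm F₀ g) ^ p = algebraMap K F₀ ((c⁻¹) ^ d) := by
    rw [map_pow, map_inv₀, inv_pow]
    exact ((mul_eq_one_iff_inv_eq₀ (pow_ne_zero _ ((_root_.map_ne_zero _).mpr hc))).mp hN3).symm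
  obtain ⟨c₁, hc₁⟩ := s59n_const_of_pow hp (Algebra.norm F₀ g) _ hN4
  have hc₁0 : c₁ ≠ 0 := by
    rintro rfl
    rw [map_zero] at hc₁
    exact (Algebra.norm_ne_zero_iff.mpr hg) hc₁
  obtain ⟨c₂, hc₂⟩ := IsAlgClosed.exists_pow_nat_eq c₁ hd0
  have hc₂0 : c₂ ≠ 0 := by
    rintro rfl
    rw [zero_pow hd0.ne'] at hc₂
    exact hc₁0 hc₂.symm
  have hc₂F : algebraMap K F c₂ = algebraMap F₀ F (algebraMap K F₀ c₂) :=
    IsScalarTower.algebraMap_apply K F₀ F c₂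
  have hc₂F0 : algebraMap K F c₂ ≠ 0 := (_root_.map_ne_zero _).mpr hc₂0
  have hnorm1 : Algebra.norm F₀ (g / algebraMap K F c₂) = 1 := by
    rw [div_eq_mul_inv, map_mul, Algebra.norm_inv, hc₂F, Algebra.norm_algebraMap, hc₁, ← map_pow, hc₂]
    exact mul_inv_cancel₀ ((_root_.map_ne_zero _).mpr hc₁0)
  obtain ⟨y, hy⟩ := groupCohomology.exists_div_of_norm_eq_one hγ hnorm1
  have hy0 : (y : F) ≠ 0 := y.ne_zero
  have hγy0 : γ (y : F) ≠ 0 := (_root_.map_ne_zero _).mpr hy0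
  refine ⟨(y : F), hy0, c * c₂ ^ p, mul_ne_zero hc (pow_ne_zero _ hc₂0), ?_⟩
  have hγy : γ (y : F) = (y : F) * algebraMap K F c₂ / g := by
    field_simp
    have := hy
    field_simp at this
    rw [this]
  rw [map_mul, map_pow, h, hγy, map_mul, map_pow, div_pow, mul_pow]
  field_simp


/-- fixed by a generator of the Galois group ⇒ in the base field. -/
theorem s59n_mem_range_of_fixed_gen {F₀ F : Type*} [Field F₀] [Field F] [Algebra F₀ F]
    [FiniteDimensional F₀ F] [IsGalois F₀ F]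
    (γ : F ≃ₐ[F₀] F) (hγ : ∀ g, g ∈ Subgroup.zpowers γ) (x : F) (hfix : γ x = x) :
    ∃ f₀ : F₀, algebraMap F₀ F f₀ = x := by
  have hfix' : ∀ g : F ≃ₐ[F₀] F, g x = x := by
    intro g
    obtain ⟨k, rfl⟩ := Subgroup.mem_zpowers_iff.mp (hγ g)
    have : ∀ n : ℕ, (γ ^ n) x = x := by
      intro n
      induction n with
      | zero => simp
      | succ n ih => rw [pow_succ', AlgEquiv.mul_apply, ih, hfix]
    obtain ⟨n, rfl | rfl⟩ := Int.eq_nat_or_neg k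
    · rw [zpow_natCast]; exact this n
    · rw [zpow_neg, zpow_natCast]
      have h2 := this n
      calc (γ ^ n)⁻¹ x = (γ ^ n)⁻¹ ((γ ^ n) x) := by rw [h2]
        _ = x := by rw [← AlgEquiv.mul_apply, inv_mul_cancel, AlgEquiv.one_apply]
  exact (IsGalois.mem_range_algebraMap_iff_fixed x).mpr hfix'

/-- iterating an eigen-relation with a constant eigenvalue. -/
theorem s59n_eigen_iter {F₀ F : Type*} [Field F₀] [Field F] [Algebra F₀ F]
    (γ : F ≃ₐ[F₀] F) (u₁ : F) (c' : F₀) (h : γ u₁ = algebraMap F₀ F c' * u₁) (k : ℕ) :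
    (γ ^ k) u₁ = algebraMap F₀ F (c' ^ k) * u₁ := by
  induction k with
  | zero => simp
  | succ k ih =>
    rw [pow_succ', AlgEquiv.mul_apply, ih, map_mul, AlgEquiv.commutes, h, pow_succ, map_mul]
    ring

/-- the eigenvalue of a nonzero eigenfunction of `γ` is killed by the order of `γ`. -/
theorem s59n_eigen_const_pow {F₀ F : Type*} [Field F₀] [Field F] [Algebra F₀ F]
    (γ : F ≃ₐ[F₀] F) {d : ℕ} (hγd : γ ^ d = 1) (u₁ : F) (hu₁ : u₁ ≠ 0) (c' : F₀)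
    (h : γ u₁ = algebraMap F₀ F c' * u₁) : c' ^ d = 1 := by
  have h1 := s59n_eigen_iter γ u₁ c' h d
  rw [hγd, AlgEquiv.one_apply] at h1
  have h2 : algebraMap F₀ F (c' ^ d) = 1 := by
    have : (1 : F) * u₁ = algebraMap F₀ F (c' ^ d) * u₁ := by rw [one_mul]; exact h1
    exact (mul_right_cancel₀ hu₁ this).symm
  exact (algebraMap F₀ F).injective (by rw [h2, map_one])

/-- **eigenfunctions of a cyclic Kummer extension.** -/
theorem s59n_eigen_descent {F₀ F : Type*} [Field F₀] [Field F] [Algebra F₀ F]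
    [FiniteDimensional F₀ F] [IsGalois F₀ F]
    (γ : F ≃ₐ[F₀] F) (hγ : ∀ g, g ∈ Subgroup.zpowers γ) {d : ℕ} (hd : 0 < d) (hγd : γ ^ d = 1)
    (ζ : F₀) (hζ : IsPrimitiveRoot ζ d) (t : F) (ht0 : t ≠ 0) (ht : γ t = algebraMap F₀ F ζ * t)
    (u₁ : F) (hu₁ : u₁ ≠ 0) (c' : F₀) (h : γ u₁ = algebraMap F₀ F c' * u₁) :
    ∃ j < d, ∃ f₀ : F₀, f₀ ≠ 0 ∧ u₁ = algebraMap F₀ F f₀ * t ^ j := by
  have hc'd := s59n_eigen_const_pow γ hγd u₁ hu₁ c' h
  have : NeZero d := ⟨hd.ne'⟩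
  obtain ⟨j, hjd, hj⟩ := hζ.eq_pow_of_pow_eq_one hc'd
  have htj : γ (t ^ j) = algebraMap F₀ F c' * t ^ j := by
    rw [map_pow, ht, mul_pow, ← map_pow, hj]
  have htj0 : t ^ j ≠ 0 := pow_ne_zero _ ht0
  have hc'0 : algebraMap F₀ F c' ≠ 0 := by
    intro h0
    rw [h0, zero_mul] at h
    exact hu₁ ((map_eq_zero_iff γ γ.injective).mp h)
  have hfix : γ (u₁ / t ^ j) = u₁ / t ^ j := by
    rw [map_div₀, h, htj]
    field_simp
  obtain ⟨f₀, hf₀⟩ := s59n_mem_range_of_fixed_gen γ hγ _ hfix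
  refine ⟨j, hjd, f₀, ?_, ?_⟩
  · rintro rfl
    rw [map_zero] at hf₀
    exact (div_ne_zero hu₁ htj0) hf₀.symm
  · rw [hf₀]; field_simp

/-- **cyclic Kummer descent, combined form.**  `F / F₀` cyclic of degree `d` with generator `γ`, Kummer generator `t`
(`γ t = ζ t`, `ζ ∈ K` a primitive `d`-th root of unity); if the class of `u ∈ Fˣ` in `Fˣ / Kˣ F^{×p}` is `γ`-invariant
then `u · b ^ p = f₀ · t ^ j` for some `b ∈ Fˣ`, `f₀ ∈ F₀ˣ`, `j < d`. -/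
theorem s59n_kummer_descent_full {K F₀ F : Type} [Field K] [IsAlgClosed K] [Field F₀] [Field F]
    [Algebra K F₀] [Algebra K F] [Algebra F₀ F] [IsScalarTower K F₀ F]
    [FiniteDimensional F₀ F] [IsGalois F₀ F] [IsCyclic (F ≃ₐ[F₀] F)]
    (γ : F ≃ₐ[F₀] F) (hγ : ∀ g, g ∈ Subgroup.zpowers γ) {p : ℕ} (hp : p ≠ 0)
    {d : ℕ} (hd : 0 < d) (hγd : γ ^ d = 1) (ζ : K) (hζ : IsPrimitiveRoot ζ d)
    (t : F) (ht0 : t ≠ 0) (ht : γ t = algebraMap K F ζ * t)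
    (u g : F) (c : K) (hu : u ≠ 0) (h : γ u = algebraMap K F c * g ^ p * u) :
    ∃ b : F, b ≠ 0 ∧ ∃ j < d, ∃ f₀ : F₀, f₀ ≠ 0 ∧ u * b ^ p = algebraMap F₀ F f₀ * t ^ j := by
  obtain ⟨b, hb0, c', -, hc'⟩ := s59n_kummer_descent γ hγ hp u g c hu h
  have hζ' : IsPrimitiveRoot (algebraMap K F₀ ζ) d := hζ.map_of_injective (algebraMap K F₀).injective
  rw [IsScalarTower.algebraMap_apply K F₀ F] at ht hc'
  obtain ⟨j, hj, f₀, hf₀, hf⟩ := s59n_eigen_descent γ hγ hd hγd _ hζ' t ht0 ht (u * b ^ p)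
    (mul_ne_zero hu (pow_ne_zero _ hb0)) _ hc'
  exact ⟨b, hb0, j, hj, f₀, hf₀, hf⟩

/-- a `p`-th root (in `κ'`) of an element of `κ` is a `γ`-eigenvector with eigenvalue a power of `ζ`. -/
theorem s59n_root_eigen {κ κ' : Type*} [Field κ] [Field κ'] [Algebra κ κ']
    (γ : κ' ≃ₐ[κ] κ') {p : ℕ} [NeZero p] (ζ : κ) (hζ : IsPrimitiveRoot ζ p)
    (a : κ) (b : κ') (hb0 : b ≠ 0) (hb : b ^ p = algebraMap κ κ' a) :
    ∃ i < p, γ b = algebraMap κ κ' ζ ^ i * b := by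
  have hζ' : IsPrimitiveRoot (algebraMap κ κ' ζ) p := hζ.map_of_injective (algebraMap κ κ').injective
  have h1 : (γ b / b) ^ p = 1 := by
    rw [div_pow, ← map_pow, hb, AlgEquiv.commutes]
    exact div_self (by rw [← hb]; exact pow_ne_zero _ hb0)
  obtain ⟨i, hip, hi⟩ := hζ'.eq_pow_of_pow_eq_one h1
  refine ⟨i, hip, ?_⟩
  rw [hi]; field_simp

/-- **the Kummer kernel of a cyclic extension.** -/
theorem s59n_kummer_ker_cyclic {κ κ' : Type*} [Field κ] [Field κ'] [Algebra κ κ']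
    [FiniteDimensional κ κ'] [IsGalois κ κ']
    (γ : κ' ≃ₐ[κ] κ') (hγ : ∀ g, g ∈ Subgroup.zpowers γ) {p : ℕ} [hp : Fact p.Prime]
    (ζ : κ) (hζ : IsPrimitiveRoot ζ p)
    (a₁ : κ) (b₁ : κ') (hb₁ : b₁ ^ p = algebraMap κ κ' a₁) (hb₁κ : b₁ ∉ (algebraMap κ κ').range)
    (a : κ) (b : κ') (hb : b ^ p = algebraMap κ κ' a) :
    ∃ j : ℕ, ∃ d : κ, a = a₁ ^ j * d ^ p := by
  have hp0 : p ≠ 0 := hp.out.ne_zero
  have : NeZero p := ⟨hp0⟩
  by_cases hb0 : b = 0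
  · refine ⟨0, 0, ?_⟩
    rw [hb0, zero_pow hp0] at hb
    have : a = 0 := (algebraMap κ κ').injective (by rw [← hb, map_zero])
    rw [this, zero_pow hp0, mul_zero]
  have hb₁0 : b₁ ≠ 0 := by
    rintro rfl
    exact hb₁κ ⟨0, map_zero _⟩
  obtain ⟨i, hip, hi⟩ := s59n_root_eigen γ ζ hζ a b hb0 hb
  obtain ⟨i₁, hi₁p, hi₁⟩ := s59n_root_eigen γ ζ hζ a₁ b₁ hb₁0 hb₁
  have hζ' : IsPrimitiveRoot (algebraMap κ κ' ζ) p := hζ.map_of_injective (algebraMap κ κ').injective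
  obtain ⟨ζ', hζ'def⟩ : ∃ z : κ', z = algebraMap κ κ' ζ := ⟨_, rfl⟩
  rw [← hζ'def] at hi hi₁ hζ'
  have hi₁0 : i₁ ≠ 0 := by
    rintro rfl
    rw [pow_zero, one_mul] at hi₁
    obtain ⟨f₀, hf₀⟩ := s59n_mem_range_of_fixed_gen γ hγ b₁ hi₁
    exact hb₁κ ⟨f₀, hf₀⟩
  have hndvd : ¬ p ∣ i₁ := fun hdv => hi₁0 (Nat.eq_zero_of_dvd_of_lt hdv hi₁p)
  have hi₁Z : (i₁ : ZMod p) ≠ 0 := by
    rw [Ne, ZMod.natCast_eq_zero_iff]; exact hndvd
  obtain ⟨j, hj⟩ : ∃ j : ℕ, j * i₁ ≡ i [MOD p] := by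
    refine ⟨((i : ZMod p) * (i₁ : ZMod p)⁻¹).val, ?_⟩
    rw [← ZMod.natCast_eq_natCast_iff, Nat.cast_mul, ZMod.natCast_val, ZMod.cast_id', id_eq,
      mul_assoc, inv_mul_cancel₀ hi₁Z, mul_one]
  have hpow : ζ' ^ (j * i₁) = ζ' ^ i := by
    rw [← pow_mod_orderOf ζ' (j * i₁), ← pow_mod_orderOf ζ' i, ← hζ'.eq_orderOf]
    exact congrArg (ζ' ^ ·) hj
  have hγb₁j : γ (b₁ ^ j) = ζ' ^ i * b₁ ^ j := by
    rw [map_pow, hi₁, mul_pow, ← pow_mul, mul_comm i₁ j, hpow]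
  have hb₁j0 : b₁ ^ j ≠ 0 := pow_ne_zero _ hb₁0
  have hζ'0 : ζ' ^ i ≠ 0 := pow_ne_zero _ (hζ'.ne_zero hp0)
  have hfix : γ (b / b₁ ^ j) = b / b₁ ^ j := by
    rw [map_div₀, hi, hγb₁j]
    field_simp
  obtain ⟨d, hd⟩ := s59n_mem_range_of_fixed_gen γ hγ _ hfix
  refine ⟨j, d, (algebraMap κ κ').injective ?_⟩
  rw [map_mul, map_pow, map_pow, hd, ← hb₁, ← hb, div_pow, ← pow_mul, ← pow_mul, mul_comm p j]
  field_simp

end Fermat.Agent.Lib.S59
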