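/-
Programme (R) / node [IA′], C7 = (G2), the descent `Γ_H → Γ₀`, family N (helper7, prefix `s59n_`):
**THE FROBENIUS-TWISTED DESCENT OF `p`-TORSION CLASSES ALONG A CYCLIC UNRAMIFIED COVER** (generic: `Pic0 K F`, Prelude + S33/S37).

`ι : F₀ → F` a finite extension of function fields over an algebraically closed `K`, cyclic: `γ ∈ Aut_K(F)` fixes `ι F₀` and its
fixed field is `ι F₀`; `π^* = s37l_pic0Pullback ι`.

* `s59n_exists_kummer_elt`, `s59n_kum_descent_frob`, `s59n_ker_galois_fun`, `s59n_cyclic_of_fixed` : function-level lemmas;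
* **`s59n_descent_class`** : `F / F₀` UNRAMIFIED at every place; `Φ` a semilinear automorphism of `F` over `Φ₀` of `F₀`, commuting with
  `γ`, fixing a primitive `[F : F₀]`-th root of unity; `q ≡ 1 mod p`.  Every `γ`-invariant `z ∈ Pic⁰(F)[p]` satisfies
  `Φ z - q z = π^* w` with `w ∈ Pic⁰(F₀)[p]`.  (Hilbert 90; the factor `t ^ j` of the cyclic Kummer descent is killed by `Φ - q`.)
* **`s59n_ker_pull_galois`** : a semilinear automorphism `τ` (over `τ₀`) commuting with `γ`, acting on `μ_p ⊆ K` by `ζ ↦ ζ ^ c`,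
  acts on `ker(π^*) ∩ Pic⁰(F₀)[p]` as multiplication by `c` (the Shimura subgroup is of `μ`-type).
-/
import Fermat.Agent.Lib.S33.LPull
import Fermat.Agent.Lib.S59.NDesc

set_option autoImplicit false
set_option linter.style.haveILetI false
set_option linter.unusedSectionVars false

noncomputable section

namespace Fermat.Agent.Lib.S59

open AlgebraicCurve Fermat.Agent.Lib.S33 Fermat.Agent.Lib.S37


/-- existence of a Kummer generator of a cyclic extension (Hilbert 90). -/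
theorem s59n_exists_kummer_elt {K F₀ F : Type} [Field K] [Field F₀] [Field F]
    [Algebra K F₀] [Algebra K F] [Algebra F₀ F] [IsScalarTower K F₀ F]
    [FiniteDimensional F₀ F] [IsGalois F₀ F] [IsCyclic (F ≃ₐ[F₀] F)]
    (γ : F ≃ₐ[F₀] F) (hγ : ∀ g, g ∈ Subgroup.zpowers γ)
    {d : ℕ} (hdfin : Module.finrank F₀ F = d) (ζ : K) (hζ : ζ ^ d = 1) :
    ∃ t : F, t ≠ 0 ∧ γ t = algebraMap K F ζ⁻¹ * t := by
  have hζ0 : ζ ≠ 0 := by
    rintro rfl
    have hd0 : d ≠ 0 := by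
      rintro rfl
      exact (Module.finrank_pos (R := F₀) (M := F)).ne' hdfin
    rw [zero_pow hd0] at hζ
    exact zero_ne_one hζ
  have hnorm : Algebra.norm F₀ (algebraMap K F ζ) = 1 := by
    rw [IsScalarTower.algebraMap_apply K F₀ F, Algebra.norm_algebraMap, hdfin, ← map_pow, hζ,
      map_one]
  obtain ⟨y, hy⟩ := groupCohomology.exists_div_of_norm_eq_one hγ hnorm
  refine ⟨(y : F), y.ne_zero, ?_⟩
  have hγy0 : γ (y : F) ≠ 0 := (map_ne_zero _).mpr y.ne_zero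
  have hζF : algebraMap K F ζ ≠ 0 := (map_ne_zero _).mpr hζ0
  rw [div_eq_iff hγy0] at hy
  rw [map_inv₀]
  conv_rhs => rw [hy]
  rw [← mul_assoc, inv_mul_cancel₀ hζF, one_mul]

/-- **the Frobenius-twisted cyclic Kummer descent** (function level).  `F / F₀` cyclic of degree `d` with generator `γ`, `K ∋ ζ`
a primitive `d`-th root of unity; `Φ` a ring automorphism of `F` preserving `F₀`, commuting with `γ`, fixing `ζ`; `q ≡ 1 mod p`.
If the class of `u` in `Fˣ / Kˣ F^{×p}` is `γ`-invariant then `Φ(u) / u ^ q ∈ F₀ˣ · F^{×p}`. -/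
theorem s59n_kum_descent_frob {K F₀ F : Type} [Field K] [IsAlgClosed K] [Field F₀] [Field F]
    [Algebra K F₀] [Algebra K F] [Algebra F₀ F] [IsScalarTower K F₀ F]
    [FiniteDimensional F₀ F] [IsGalois F₀ F] [IsCyclic (F ≃ₐ[F₀] F)]
    (γ : F ≃ₐ[F₀] F) (hγ : ∀ g, g ∈ Subgroup.zpowers γ)
    {p : ℕ} (hp : p ≠ 0) {d : ℕ} (hdfin : Module.finrank F₀ F = d) (hγd : γ ^ d = 1)
    (ζ : K) (hζ : IsPrimitiveRoot ζ d)
    (Φ : F ≃+* F) (Φ₀ : F₀ ≃+* F₀) (hΦ₀ : ∀ x, Φ (algebraMap F₀ F x) = algebraMap F₀ F (Φ₀ x))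
    (hΦγ : ∀ y, Φ (γ y) = γ (Φ y)) (hΦζ : Φ (algebraMap K F ζ) = algebraMap K F ζ)
    (q m : ℕ) (hqm : q = 1 + p * m)
    (u g : F) (c : K) (hu : u ≠ 0) (h : γ u = algebraMap K F c * g ^ p * u) :
    ∃ (f₁ : F₀) (b₁ : F), f₁ ≠ 0 ∧ b₁ ≠ 0 ∧ Φ u * (u ^ q)⁻¹ = algebraMap F₀ F f₁ * b₁ ^ p := by
  have hd0 : 0 < d := by rw [← hdfin]; exact Module.finrank_pos
  obtain ⟨t, ht0, ht⟩ := s59n_exists_kummer_elt γ hγ hdfin ζ hζ.pow_eq_one
  have hζinv : IsPrimitiveRoot ζ⁻¹ d := hζ.inv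
  obtain ⟨b, hb0, j, -, f₀, hf₀, hub⟩ := s59n_kummer_descent_full γ hγ hp hd0 hγd ζ⁻¹ hζinv t ht0 ht
    u g c hu h
  -- `Φ t / t ∈ F₀`
  have hΦt0 : Φ t ≠ 0 := (map_ne_zero _).mpr ht0
  have hΦζinv : Φ (algebraMap K F ζ⁻¹) = algebraMap K F ζ⁻¹ := by
    rw [map_inv₀, map_inv₀, hΦζ]
  have hfix : γ (Φ t / t) = Φ t / t := by
    rw [map_div₀, ← hΦγ, ht, map_mul, hΦζinv]
    have : algebraMap K F ζ⁻¹ ≠ 0 := (map_ne_zero _).mpr (inv_ne_zero (hζ.ne_zero hd0.ne'))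
    rw [mul_div_mul_left _ _ this]
  obtain ⟨s, hs⟩ := s59n_mem_range_of_fixed_gen γ hγ _ hfix
  have hs0 : s ≠ 0 := by
    rintro rfl
    rw [map_zero] at hs
    exact (div_ne_zero hΦt0 ht0) hs.symm
  have hΦf₀ : Φ₀ f₀ ≠ 0 := (map_ne_zero _).mpr hf₀
  have hΦb0 : Φ b ≠ 0 := (map_ne_zero _).mpr hb0
  refine ⟨Φ₀ f₀ * (f₀ ^ q)⁻¹ * s ^ j, (t ^ (j * m))⁻¹ * (Φ b)⁻¹ * b ^ q, ?_, ?_, ?_⟩
  · exact mul_ne_zero (mul_ne_zero hΦf₀ (inv_ne_zero (pow_ne_zero _ hf₀))) (pow_ne_zero _ hs0)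
  · exact mul_ne_zero (mul_ne_zero (inv_ne_zero (pow_ne_zero _ ht0)) (inv_ne_zero hΦb0))
      (pow_ne_zero _ hb0)
  · subst hqm
    have hf₀F : algebraMap F₀ F f₀ ≠ 0 := (map_ne_zero _).mpr hf₀
    have hΦt : Φ t = algebraMap F₀ F s * t := by rw [hs]; field_simp
    have h1 : Φ u * Φ b ^ p = algebraMap F₀ F (Φ₀ f₀) * (algebraMap F₀ F s * t) ^ j := by
      rw [← hΦt, ← hΦ₀, ← map_pow, ← map_pow, ← map_mul, ← map_mul, hub]
    have h2q : u ^ (1 + p * m) * (b ^ p) ^ (1 + p * m) =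
        algebraMap F₀ F f₀ ^ (1 + p * m) * (t ^ j) ^ (1 + p * m) := by
      rw [← mul_pow, ← mul_pow, hub]
    have key : Φ u * (algebraMap F₀ F f₀ ^ (1 + p * m) * (t ^ (j * m)) ^ p * Φ b ^ p) =
        (algebraMap F₀ F (Φ₀ f₀) * algebraMap F₀ F s ^ j * (b ^ (1 + p * m)) ^ p) *
          u ^ (1 + p * m) := by
      linear_combination (algebraMap F₀ F f₀ ^ (1 + p * m) * (t ^ (j * m)) ^ p) * h1 -
        (algebraMap F₀ F (Φ₀ f₀) * algebraMap F₀ F s ^ j) * h2q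
    have huq : u ^ (1 + p * m) ≠ 0 := pow_ne_zero _ hu
    have htp : (t ^ (j * m)) ^ p ≠ 0 := pow_ne_zero _ (pow_ne_zero _ ht0)
    have hΦbp : Φ b ^ p ≠ 0 := pow_ne_zero _ hΦb0
    have hAq : algebraMap F₀ F f₀ ^ (1 + p * m) ≠ 0 := pow_ne_zero _ hf₀F
    rw [mul_inv_eq_iff_eq_mul₀ huq, map_mul, map_mul, map_inv₀, map_pow, map_pow, mul_pow, mul_pow,
      inv_pow, inv_pow]
    field_simp
    linear_combination key



/-- **Galois acts on the Kummer kernel of a cyclic extension through the cyclotomic character** (function level). -/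
theorem s59n_ker_galois_fun {K F₀ F : Type*} [Field K] [Field F₀] [Field F]
    [Algebra K F₀] [Algebra K F] [Algebra F₀ F] [IsScalarTower K F₀ F]
    [FiniteDimensional F₀ F] [IsGalois F₀ F]
    (γ : F ≃ₐ[F₀] F) (hγ : ∀ g, g ∈ Subgroup.zpowers γ)
    {p : ℕ} [NeZero p] (ζp : K) (hζp : IsPrimitiveRoot ζp p)
    (τ : F ≃+* F) (τ₀ : F₀ ≃+* F₀) (hτ₀ : ∀ x, τ (algebraMap F₀ F x) = algebraMap F₀ F (τ₀ x))
    (hτγ : ∀ y, τ (γ y) = γ (τ y)) (cτ : ℕ) (hτζ : τ (algebraMap K F ζp) = algebraMap K F ζp ^ cτ)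
    (f₀ : F₀) (c c' : K) (hc : c ≠ 0) (hτc : τ (algebraMap K F c) = algebraMap K F c')
    (g : F) (hg : g ≠ 0) (h : algebraMap F₀ F f₀ = algebraMap K F c * g ^ p) :
    ∃ s₀ : F₀, s₀ ≠ 0 ∧
      τ₀ f₀ * algebraMap K F₀ c ^ cτ = algebraMap K F₀ c' * s₀ ^ p * f₀ ^ cτ := by
  have hcF₀ : algebraMap K F₀ c ≠ 0 := (map_ne_zero _).mpr hc
  have hcF : algebraMap K F c ≠ 0 := (map_ne_zero _).mpr hc
  have hKF : ∀ x : K, algebraMap K F x = algebraMap F₀ F (algebraMap K F₀ x) :=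
    fun x => IsScalarTower.algebraMap_apply K F₀ F x
  have hgp : g ^ p = algebraMap F₀ F (f₀ / algebraMap K F₀ c) := by
    rw [map_div₀, h, ← hKF]; field_simp
  have hζ' : IsPrimitiveRoot (algebraMap K F₀ ζp) p :=
    hζp.map_of_injective (algebraMap K F₀).injective
  obtain ⟨i, -, hi⟩ := s59n_root_eigen γ (algebraMap K F₀ ζp) hζ' _ g hg hgp
  rw [← hKF] at hi
  obtain ⟨ω, hω⟩ : ∃ ω : F, ω = algebraMap K F ζp ^ i := ⟨_, rfl⟩
  rw [← hω] at hi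
  have hω0 : ω ≠ 0 := by
    rw [hω]
    exact pow_ne_zero _ ((map_ne_zero _).mpr (hζp.ne_zero (NeZero.ne p)))
  have hτω : τ ω = ω ^ cτ := by
    rw [hω, map_pow, hτζ, ← pow_mul, ← pow_mul, mul_comm]
  have hτg0 : τ g ≠ 0 := (map_ne_zero _).mpr hg
  have hfix : γ (τ g / g ^ cτ) = τ g / g ^ cτ := by
    rw [map_div₀, ← hτγ, map_pow, hi, map_mul, hτω, mul_pow]
    have : ω ^ cτ ≠ 0 := pow_ne_zero _ hω0
    rw [mul_div_mul_left _ _ this]
  obtain ⟨s₀, hs₀⟩ := s59n_mem_range_of_fixed_gen γ hγ _ hfix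
  have hs₀0 : s₀ ≠ 0 := by
    rintro rfl
    rw [map_zero] at hs₀
    exact (div_ne_zero hτg0 (pow_ne_zero _ hg)) hs₀.symm
  refine ⟨s₀, hs₀0, (algebraMap F₀ F).injective ?_⟩
  have hτg : τ g = algebraMap F₀ F s₀ * g ^ cτ := by
    rw [hs₀]; field_simp
  have h1 : algebraMap F₀ F (τ₀ f₀) = algebraMap K F c' * (algebraMap F₀ F s₀ * g ^ cτ) ^ p := by
    rw [← hτ₀, h, map_mul, map_pow, hτc, hτg]
  have h2 : (g ^ p) ^ cτ * algebraMap K F c ^ cτ = algebraMap F₀ F f₀ ^ cτ := by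
    rw [← mul_pow, mul_comm, ← h]
  rw [map_mul, map_mul, map_mul, map_pow, map_pow, map_pow, ← hKF, ← hKF, h1, ← h2]
  ring



/-- a finite extension whose fixed field under ONE automorphism is the base field is cyclic Galois, generated by it. -/
theorem s59n_cyclic_of_fixed {F₀ F : Type*} [Field F₀] [Field F] [Algebra F₀ F] [FiniteDimensional F₀ F]
    (γ : F ≃ₐ[F₀] F) (hfix : ∀ y : F, γ y = y → ∃ x : F₀, algebraMap F₀ F x = y) :
    IsGalois F₀ F ∧ (∀ g : F ≃ₐ[F₀] F, g ∈ Subgroup.zpowers γ) ∧ γ ^ Module.finrank F₀ F = 1 := by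
  have hbot : IntermediateField.fixedField (Subgroup.zpowers γ) = ⊥ := by
    rw [eq_bot_iff]
    intro y hy
    rw [IntermediateField.mem_fixedField_iff] at hy
    obtain ⟨x, hx⟩ := hfix y (hy γ (Subgroup.mem_zpowers γ))
    rw [IntermediateField.mem_bot]
    exact ⟨x, hx⟩
  have hgal : IsGalois F₀ F := by
    apply IsGalois.of_fixedField_eq_bot
    rw [eq_bot_iff, ← hbot]
    exact IntermediateField.fixedField_antitone le_top
  have htop : Subgroup.zpowers γ = ⊤ := by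
    have h1 := IntermediateField.fixingSubgroup_fixedField (Subgroup.zpowers γ)
    rw [hbot, IntermediateField.fixingSubgroup_bot] at h1
    exact h1.symm
  refine ⟨hgal, fun g => by rw [htop]; exact Subgroup.mem_top g, ?_⟩
  have hcard : Nat.card (F ≃ₐ[F₀] F) = Module.finrank F₀ F := IsGalois.card_aut_eq_finrank F₀ F
  rw [← hcard]
  exact pow_card_eq_one'


/-! ### Class level -/

section KumGenAlg

variable {K F : Type*} [Field K] [Field F] [Algebra K F]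

theorem s59n_kumGen_prod {m : ℕ} {z₁ z₂ : Pic0 K F} {f₁ f₂ : F}
    (h₁ : s33d_IsKumGen m z₁ f₁) (h₂ : s33d_IsKumGen m z₂ f₂) :
    s33d_IsKumGen m (z₁ + z₂) (f₁ * f₂) := by
  obtain ⟨hf₁, D₁, rfl, hD₁⟩ := h₁
  obtain ⟨hf₂, D₂, rfl, hD₂⟩ := h₂
  refine ⟨mul_ne_zero hf₁ hf₂, D₁ + D₂, map_add (QuotientAddGroup.mk' _) D₁ D₂, fun v => ?_⟩
  rw [v.ord_mul hf₁ hf₂, hD₁ v, hD₂ v, AddSubgroup.coe_add, Finsupp.add_apply]
  ring

theorem s59n_kumGen_inv {m : ℕ} {z : Pic0 K F} {f : F} (h : s33d_IsKumGen m z f) :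
    s33d_IsKumGen m (-z) f⁻¹ := by
  obtain ⟨hf, D, rfl, hD⟩ := h
  refine ⟨inv_ne_zero hf, -D, map_neg (QuotientAddGroup.mk' _) D, fun v => ?_⟩
  rw [v.ord_inv, hD v, AddSubgroup.coe_neg, Finsupp.neg_apply]
  ring

theorem s59n_kumGen_tors {m : ℕ} {z : Pic0 K F} {f : F} (h : s33d_IsKumGen m z f) : m • z = 0 := by
  obtain ⟨hf, D, rfl, hD⟩ := h
  have h1 : Pic0.mk (m • D) = m • Pic0.mk D := map_nsmul (QuotientAddGroup.mk' _) m D
  rw [← h1]
  refine (QuotientAddGroup.eq_zero_iff (m • D)).mpr ⟨f, hf, fun v => ?_⟩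
  show ((m • D : Divisor.degZero (K := K) (F := F)) : Divisor K F) v = v.ord f
  rw [hD v, AddSubgroupClass.coe_nsmul, Finsupp.smul_apply, nsmul_eq_mul]

/-- a function all of whose orders are divisible by `p` is a Kummer generator. -/
theorem s59n_exists_class_of_dvd [HasPrincipalDivisors K F] {p : ℕ} (hp : p ≠ 0) (f : F) (hf : f ≠ 0)
    (hdvd : ∀ v : Place K F, (p : ℤ) ∣ v.ord f) : ∃ w : Pic0 K F, s33d_IsKumGen p w f := by
  classical
  obtain ⟨E, hE, hE0⟩ := HasPrincipalDivisors.exists_divisor (K := K) f hf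
  have hp' : (p : ℤ) ≠ 0 := by exact_mod_cast hp
  set D₀ : Divisor K F := E.mapRange (fun n : ℤ => n / (p : ℤ)) (by simp) with hD₀
  have hD₀v : ∀ v : Place K F, (p : ℤ) * D₀ v = v.ord f := by
    intro v
    rw [hD₀, Finsupp.mapRange_apply, hE v]
    exact Int.mul_ediv_cancel' (hdvd v)
  have hpD : (p : ℤ) • D₀ = E := by
    ext v
    rw [Finsupp.smul_apply, smul_eq_mul, hD₀v v, hE v]
  have hdeg : Divisor.degree D₀ = 0 := by
    have h1 : (p : ℤ) • Divisor.degree D₀ = 0 := by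
      rw [← map_zsmul, hpD, hE0]
    rcases smul_eq_zero.mp h1 with h | h
    · exact absurd h hp'
    · exact h
  exact ⟨Pic0.mk ⟨D₀, hdeg⟩, hf, ⟨D₀, hdeg⟩, rfl, fun v => (hD₀v v).symm⟩

end KumGenAlg

section Class

variable {K F₀ F : Type} [Field K] [IsAlgClosed K] [Field F₀] [Field F] [Algebra K F₀] [Algebra K F]
  [HasPrincipalDivisors K F₀] [HasPrincipalDivisors K F]
  (ι : F₀ →ₐ[K] F) (hι : ι.toRingHom.IsIntegral) (hFI : FundamentalIdentityAlong K ι hι)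

/-- **THE FROBENIUS-TWISTED DESCENT.** -/
theorem s59n_descent_class (hconst : s33d_ConstOfOrdZero K F)
    (hunr : ∀ w : Place K F, Place.ramificationIndexAlong ι w = 1)
    (hsurjPl : ∀ v : Place K F₀, ∃ w : Place K F, w.restrictAlong ι hι = v)
    (hfin : FiniteAlong K ι) (γ : F ≃ₐ[K] F) (hγι : ∀ x, γ (ι x) = ι x)
    (hγfix : ∀ y, γ y = y → ∃ x, ι x = y)
    (ζ : K) (hζ : IsPrimitiveRoot ζ (finrankAlong K ι))
    (Φ : SemilinearAut K F) (Φ₀ : SemilinearAut K F₀)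
    (hΦ : SemilinearAut.IntertwinesAlong (ι : F₀ →+* F) Φ₀ Φ)
    (hΦγ : ∀ y, Φ • (γ y) = γ (Φ • y)) (hΦζ : SemilinearAut.baseAut Φ ζ = ζ)
    {p : ℕ} (hp : p ≠ 0) (q m : ℕ) (hqm : q = 1 + p * m)
    (z : Pic0 K F) (hz : p • z = 0) (hγz : SemilinearAut.ofAlgAut γ • z = z) :
    ∃ w : Pic0 K F₀, p • w = 0 ∧ s37l_pic0Pullback ι hι hFI w = Φ • z - q • z := by
  obtain ⟨u, hu⟩ := s33d_exists_kumGen p z hz
  obtain ⟨c, g, -, -, hγu⟩ := s33d_kumGen_fixed hconst (SemilinearAut.ofAlgAut γ) hu hγz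
  rw [SemilinearAut.ofAlgAut_smul] at hγu
  -- the function-level descent
  obtain ⟨f₁, b₁, hf₁, hb₁, hfb⟩ : ∃ (f₁ : F₀) (b₁ : F), f₁ ≠ 0 ∧ b₁ ≠ 0 ∧
      Φ • u * (u ^ q)⁻¹ = ι f₁ * b₁ ^ p := by
    letI := algebraAlong ι
    haveI := isScalarTower_along ι
    haveI : FiniteDimensional F₀ F := hfin
    let γ' : F ≃ₐ[F₀] F := { γ with commutes' := hγι }
    have hγ'app : ∀ y, γ' y = γ y := fun y => rfl
    obtain ⟨hgal, hgen, hord⟩ := s59n_cyclic_of_fixed γ' (fun y hy => hγfix y hy)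
    haveI := hgal
    haveI : IsCyclic (F ≃ₐ[F₀] F) := ⟨⟨γ', hgen⟩⟩
    exact s59n_kum_descent_frob γ' hgen hp rfl hord ζ hζ (SemilinearAut.toRingAut Φ)
      (SemilinearAut.toRingAut Φ₀) (fun x => hΦ x) hΦγ
      (by
        show Φ • algebraMap K F ζ = algebraMap K F ζ
        rw [SemilinearAut.smul_algebraMap, hΦζ])
      q m hqm u g c hu.1 hγu
  -- a Kummer generator of `Φ z - q z` in `F₀`
  have h1 : s33d_IsKumGen p (Φ • z - q • z) (Φ • u * (u ^ q)⁻¹) := by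
    rw [sub_eq_add_neg]
    exact s59n_kumGen_prod (s33d_kumGen_smul Φ hu) (s59n_kumGen_inv (s33l_kumGen_pow hu q))
  have h2 : s33d_IsKumGen p (Φ • z - q • z) (ι f₁) := by
    have h3 := s33d_kumGen_mul h1 (c := (1 : K)) one_ne_zero (inv_ne_zero hb₁)
    rw [hfb, map_one, one_mul, inv_pow] at h3
    have hb₁p : b₁ ^ p ≠ 0 := pow_ne_zero _ hb₁
    have : (b₁ ^ p)⁻¹ * (ι f₁ * b₁ ^ p) = ι f₁ := by field_simp
    rwa [this] at h3
  -- the class downstairs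
  have hdvd : ∀ v : Place K F₀, (p : ℤ) ∣ v.ord f₁ := by
    intro v
    obtain ⟨w, rfl⟩ := hsurjPl v
    obtain ⟨-, D, -, hD⟩ := h2
    have h4 := Place.ord_restrictAlong ι hι w f₁
    rw [hunr w, Nat.cast_one, one_mul] at h4
    rw [← h4, hD w]
    exact Dvd.intro _ rfl
  obtain ⟨w, hw⟩ := s59n_exists_class_of_dvd hp f₁ hf₁ hdvd
  refine ⟨w, s59n_kumGen_tors hw, ?_⟩
  exact s33l_kumGen_class_unique hp (s33l_kumGen_pull ι hι hFI hw) h2

/-- **Galois acts on `ker π^* ∩ Pic⁰(F₀)[p]` through the cyclotomic character.** -/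
theorem s59n_ker_pull_galois (hconst₀ : s33d_ConstOfOrdZero K F₀) (hconst : s33d_ConstOfOrdZero K F)
    (hfin : FiniteAlong K ι) (γ : F ≃ₐ[K] F) (hγι : ∀ x, γ (ι x) = ι x)
    (hγfix : ∀ y, γ y = y → ∃ x, ι x = y)
    {p : ℕ} (hp : p ≠ 0) (ζp : K) (hζp : IsPrimitiveRoot ζp p)
    (τ : SemilinearAut K F) (τ₀ : SemilinearAut K F₀)
    (hτ : SemilinearAut.IntertwinesAlong (ι : F₀ →+* F) τ₀ τ)
    (hτγ : ∀ y, τ • (γ y) = γ (τ • y)) (cτ : ℕ) (hτζ : SemilinearAut.baseAut τ ζp = ζp ^ cτ)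
    (w : Pic0 K F₀) (hw : p • w = 0) (hker : s37l_pic0Pullback ι hι hFI w = 0) :
    τ₀ • w = cτ • w := by
  haveI : NeZero p := ⟨hp⟩
  obtain ⟨f₀, hf₀⟩ := s33d_exists_kumGen p w hw
  have hpull := s33l_kumGen_pull ι hι hFI hf₀
  obtain ⟨c, g, hc, hg, hcg⟩ := (s33d_kumGen_zero_iff hconst hp hpull).mp hker
  obtain ⟨s₀, hs₀, hrel⟩ : ∃ s₀ : F₀, s₀ ≠ 0 ∧
      τ₀ • f₀ * algebraMap K F₀ c ^ cτ =
        algebraMap K F₀ (SemilinearAut.baseAut τ c) * s₀ ^ p * f₀ ^ cτ := by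
    letI := algebraAlong ι
    haveI := isScalarTower_along ι
    haveI : FiniteDimensional F₀ F := hfin
    let γ' : F ≃ₐ[F₀] F := { γ with commutes' := hγι }
    obtain ⟨hgal, hgen, -⟩ := s59n_cyclic_of_fixed γ' (fun y hy => hγfix y hy)
    haveI := hgal
    exact s59n_ker_galois_fun γ' hgen ζp hζp (SemilinearAut.toRingAut τ)
      (SemilinearAut.toRingAut τ₀) (fun x => hτ x) hτγ cτ
      (by
        show τ • algebraMap K F ζp = algebraMap K F ζp ^ cτ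
        rw [SemilinearAut.smul_algebraMap, hτζ, map_pow])
      f₀ c (SemilinearAut.baseAut τ c) hc
      (by
        show τ • algebraMap K F c = _
        rw [SemilinearAut.smul_algebraMap])
      g hg hcg
  have hcF₀ : algebraMap K F₀ c ^ cτ ≠ 0 := pow_ne_zero _ ((map_ne_zero _).mpr hc)
  have hτc0 : SemilinearAut.baseAut τ c ≠ 0 := (map_ne_zero (SemilinearAut.baseAut τ)).mpr hc
  have h1 : s33d_IsKumGen p (τ₀ • w) (τ₀ • f₀) := s33d_kumGen_smul τ₀ hf₀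
  have h2 : s33d_IsKumGen p (cτ • w) (f₀ ^ cτ) := s33l_kumGen_pow hf₀ cτ
  have h3 := s33d_kumGen_mul h2 (c := SemilinearAut.baseAut τ c * (c ^ cτ)⁻¹)
    (mul_ne_zero hτc0 (inv_ne_zero (pow_ne_zero _ hc))) hs₀
  have h4 : algebraMap K F₀ (SemilinearAut.baseAut τ c * (c ^ cτ)⁻¹) * s₀ ^ p * f₀ ^ cτ = τ₀ • f₀ := by
    rw [map_mul, map_inv₀, map_pow]
    field_simp
    rw [← hrel, mul_comm]
  rw [h4] at h3
  exact s33l_kumGen_class_unique hp h1 h3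

end Class

end Fermat.Agent.Lib.S59
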