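/-
Programme (R) / node [IA′], C7 = (G2), inputs [C7-d] (d1)/(d2) of the descent `Γ_H → Γ₀`, layer form (helper9, prefix `s59m_`):
**EICHLER–SHIMURA COMPATIBILITIES ALONG A LAYER `π^* : J_{H''} → J_{H'}`.**

* `s59m_piT_abs`, `s59m_KT_abs` : the two formal consequences of the Eichler–Shimura relation `σ² - T σ + ℓ₀ ⟨ℓ₀⟩ = 0`;
* `s59m_pull hM hle hneg : J_{H''} →+ J_{H'}` the pull-back, `s59m_pull_gal`, `s59m_pull_diamond` (equivariance);
* `s59m_diamondAut_comm` : the diamond automorphisms of `F_H` commute;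
* **(d1) `s59m_pull_Tp`** : `π^* T''_{ℓ₀} = T'_{ℓ₀} π^*` on `n`-torsion (Eichler–Shimura at both levels as hypotheses);
* `s59m_frob_root` : a Frobenius at `ℓ₀ ≠ p` raises `p`-th roots of unity to the `ℓ₀`-th power;
* `s59m_ker_pull_gal`, `s59m_ker_pull_diamond` : on `ker π^* ∩ J_{H''}[p]` (prime layer) Galois acts through the cyclotomic character
  and the diamonds act trivially (helper7's `s59n_ker_pull_galois`);
* **(d2) `s59m_KT`** : `T''_{ℓ₀} = ℓ₀ + 1` on `ker π^* ∩ J_{H''}[p]`.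
-/
import Fermat.Agent.Lib.S59.MUpDia
import Fermat.Agent.Lib.S59.NUp
import Fermat.Agent.Lib.S29.Cyclo

set_option autoImplicit false
set_option linter.unusedSectionVars false
set_option linter.style.haveILetI false

noncomputable section

namespace Fermat.Agent.Lib.S59

open AlgebraicCurve ModularCurve IntermediateField Fermat.Agent.Lib.FF Fermat.Agent.Lib.S37
  Fermat.Agent.Lib.S48 Fermat.Agent.Lib.S29 Fermat.Agent.Lib.S33

local notation "Qbar" => AlgebraicClosure ℚ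

attribute [local instance] s29a_algebraC

/-! ### The formal part -/

section Abs

variable {G J₀ J : Type*} [Group G] [AddCommGroup J₀] [AddCommGroup J] [DistribMulAction G J₀]
  [DistribMulAction G J]

theorem s59m_smul_zsmul {A : Type*} [AddCommGroup A] [DistribMulAction G A] (g : G) (n : ℤ)
    (x : A) : g • (n • x) = n • (g • x) :=
  map_zsmul (DistribSMul.toAddMonoidHom A g) n x

/-- **(πT), formal**: Eichler–Shimura on both sides ⇒ `π T₀ = T π` on torsion. -/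
theorem s59m_piT_abs (π : J₀ →+ J) (hπG : ∀ (g : G) (w : J₀), π (g • w) = g • π w)
    (T₀ D₀ : J₀ →+ J₀) (T D : J →+ J) (hπD : ∀ w, π (D₀ w) = D (π w)) (σ : G) (c : ℤ) (n : ℕ)
    (hQ₀ : ∀ x : J₀, (n : ℤ) • x = 0 → σ • σ • x - T₀ (σ • x) + c • D₀ x = 0)
    (hQ : ∀ x : J, (n : ℤ) • x = 0 → σ • σ • x - T (σ • x) + c • D x = 0)
    (w : J₀) (hw : (n : ℤ) • w = 0) : π (T₀ w) = T (π w) := by
  have hx : (n : ℤ) • (σ⁻¹ • w) = 0 := by rw [← s59m_smul_zsmul, hw, smul_zero]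
  have h1 := hQ₀ (σ⁻¹ • w) hx
  rw [smul_inv_smul] at h1
  have hx' : (n : ℤ) • π (σ⁻¹ • w) = 0 := by rw [← map_zsmul, hx, map_zero]
  have h2 := hQ (π (σ⁻¹ • w)) hx'
  rw [← hπG, smul_inv_smul] at h2
  have h3 : T₀ w = σ • w + c • D₀ (σ⁻¹ • w) := by
    rw [sub_add_eq_add_sub, sub_eq_zero] at h1
    exact h1.symm
  have h4 : T (π w) = σ • π w + c • D (π (σ⁻¹ • w)) := by
    rw [sub_add_eq_add_sub, sub_eq_zero] at h2
    exact h2.symm
  rw [h3, h4, map_add, map_zsmul, hπG, hπD]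

/-- **(KT), formal**: on a subgroup where `σ = ℓ₀` and `D₀ = 1`, Eichler–Shimura gives `T₀ = ℓ₀ + 1`. -/
theorem s59m_KT_abs (T₀ D₀ : J₀ →+ J₀) (σ : G) (ℓ₀ p : ℕ) (K : AddSubgroup J₀)
    (hKσ : ∀ w ∈ K, σ⁻¹ • w ∈ K) (hKp : ∀ w ∈ K, (p : ℤ) • w = 0)
    (hQ₀ : ∀ x : J₀, (p : ℤ) • x = 0 → σ • σ • x - T₀ (σ • x) + (ℓ₀ : ℤ) • D₀ x = 0)
    (hσK : ∀ w ∈ K, σ • w = ℓ₀ • w) (hDK : ∀ w ∈ K, D₀ w = w) (w : J₀) (hw : w ∈ K) :
    T₀ w = (ℓ₀ + 1) • w := by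
  have hx := hKσ w hw
  have h1 := hQ₀ (σ⁻¹ • w) (hKp _ hx)
  have h2 : (ℓ₀ : ℤ) • (σ⁻¹ • w) = w := by
    have := hσK _ hx
    rw [smul_inv_smul] at this
    rw [natCast_zsmul]
    exact this.symm
  rw [smul_inv_smul, hDK _ hx, h2, hσK w hw, sub_add_eq_add_sub, sub_eq_zero] at h1
  rw [add_smul, one_smul]
  exact h1.symm

end Abs

variable {M : ℕ} [NeZero M]

/-! ### The pull-back -/

/-- the pull-back `π^* : J_{H''} → J_{H'}`. -/
def s59m_pull (hM : 1 < M) {H' H'' : Subgroup (ZMod M)ˣ} (hle : H' ≤ H'')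
    (hneg : (-1 : (ZMod M)ˣ) ∈ H') : s48k_JH M H'' →+ s48k_JH M H' :=
  haveI := s59m_FH_hasPrincipalDivisors hM hneg
  s37l_pic0Pullback (s59m_incl hle) (s59m_incl_isIntegral hM hle hneg) (s59m_incl_FI hM hle hneg)

theorem s59m_pull_gal (hM : 1 < M) {H' H'' : Subgroup (ZMod M)ˣ} (hle : H' ≤ H'')
    (hneg : (-1 : (ZMod M)ˣ) ∈ H') (σ : s48k_G) (w : s48k_JH M H'') :
    s59m_pull hM hle hneg (σ • w) = σ • s59m_pull hM hle hneg w := by
  haveI := s59m_FH_hasPrincipalDivisors hM hneg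
  rw [galois_smul_pic0_def, galois_smul_pic0_def]
  exact s37l_pic0Pullback_smul _ _ _ _ _ (s59m_incl_intertwines hle σ) w

theorem s59m_pull_diamond (hM : 1 < M) {H' H'' : Subgroup (ZMod M)ˣ} (hle : H' ≤ H'')
    (hneg : (-1 : (ZMod M)ˣ) ∈ H') (d : (ZMod M)ˣ) (w : s48k_JH M H'') :
    s59m_pull hM hle hneg (s48k_diamondJ M H'' d w) =
      s48k_diamondJ M H' d (s59m_pull hM hle hneg w) := by
  haveI := s59m_FH_hasPrincipalDivisors hM hneg
  rw [s48k_diamondJ_apply, s48k_diamondJ_apply]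
  exact s37l_pic0Pullback_smul _ _ _ _ _ (s59m_diamond_intertwines hM hle hneg d) w

/-- **(d1) `π^* T'' = T' π^*`** on `n`-torsion, from the Eichler–Shimura relations at both levels. -/
theorem s59m_pull_Tp (hM : 1 < M) {H' H'' : Subgroup (ZMod M)ˣ} (hle : H' ≤ H'')
    (hneg : (-1 : (ZMod M)ˣ) ∈ H') (ℓ₀ : ℕ) [NeZero ℓ₀] (pu : (ZMod M)ˣ) (σ : s48k_G) (n : ℕ)
    (hFQ'' : ∀ x : s48k_JH M H'', (n : ℤ) • x = 0 →
      σ • σ • x - s48k_TpJ M H'' ℓ₀ pu (σ • x) + (ℓ₀ : ℤ) • s48k_diamondJ M H'' pu x = 0)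
    (hFQ' : ∀ x : s48k_JH M H', (n : ℤ) • x = 0 →
      σ • σ • x - s48k_TpJ M H' ℓ₀ pu (σ • x) + (ℓ₀ : ℤ) • s48k_diamondJ M H' pu x = 0)
    (w : s48k_JH M H'') (hw : (n : ℤ) • w = 0) :
    s59m_pull hM hle hneg (s48k_TpJ M H'' ℓ₀ pu w) =
      s48k_TpJ M H' ℓ₀ pu (s59m_pull hM hle hneg w) :=
  s59m_piT_abs (s59m_pull hM hle hneg) (fun g w => s59m_pull_gal hM hle hneg g w)
    (s48k_TpJ M H'' ℓ₀ pu) (s48k_diamondJ M H'' pu) (s48k_TpJ M H' ℓ₀ pu)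
    (s48k_diamondJ M H' pu) (fun w => s59m_pull_diamond hM hle hneg pu w) σ (ℓ₀ : ℤ) n hFQ'' hFQ'
    w hw

/-! ### The kernel of the pull-back -/

/-- the diamond automorphisms of `F_H` compose as the group law. -/
theorem s59m_diamondAut_mul (hM : 1 < M) {H : Subgroup (ZMod M)ˣ} (hneg : (-1 : (ZMod M)ˣ) ∈ H)
    (d g : (ZMod M)ˣ) (y : ↥(s48k_FH M H)) :
    s48k_diamondAut M H (d * g) y = s48k_diamondAut M H d (s48k_diamondAut M H g y) := by
  have hd := s48wg_isDiamondAut H hM hneg d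
  have hg := s48wg_isDiamondAut H hM hneg g
  have he : s48k_IsDiamondAut M H (d * g)
      ((s48k_diamondAut M H g).trans (s48k_diamondAut M H d)) := by
    refine ⟨fun x hx => ?_, fun u => ?_⟩
    · rw [AlgEquiv.trans_apply, hg.1 x hx, hd.1 x hx]
    · rw [AlgEquiv.trans_apply, hg.2 u, hd.2, mul_inv_rev, mul_assoc]
  rw [s48e_isDiamondAut_unique M H (s48wg_isDiamondAut H hM hneg (d * g)) he]
  rfl

/-- the diamond automorphisms of `F_H` commute. -/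
theorem s59m_diamondAut_comm (hM : 1 < M) {H : Subgroup (ZMod M)ˣ} (hneg : (-1 : (ZMod M)ˣ) ∈ H)
    (d g : (ZMod M)ˣ) (y : ↥(s48k_FH M H)) :
    s48k_diamondAut M H d (s48k_diamondAut M H g y) =
      s48k_diamondAut M H g (s48k_diamondAut M H d y) := by
  rw [← s59m_diamondAut_mul hM hneg, ← s59m_diamondAut_mul hM hneg, mul_comm]

/-- a Frobenius at `ℓ₀ ≠ p` raises the `p`-th roots of unity to the `ℓ₀`-th power. -/
theorem s59m_frob_root {ℓ₀ p : ℕ} (hℓ₀ : ℓ₀.Prime) (hp : p.Prime) (hℓp : ℓ₀ ≠ p)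
    (A : ValuationSubring Qbar) (hA : A.LiesOverPrime ℓ₀) (σ : s48k_G)
    (hσ : A.IsFrobeniusAt σ ℓ₀) {ζ : Qbar} (hζ : ζ ^ p = 1) : σ ζ = ζ ^ ℓ₀ :=
  s29y_apply_root_of_residue A hp.ne_zero (s29y_natCast_residue_ne_zero A hℓ₀ hp hℓp hA)
    ⟨σ, hσ.mem_decompositionSubgroup⟩ ℓ₀ (fun x => hσ.smul_residue_eq x) hζ

section Layer

variable (hM : 1 < M) {H' H'' : Subgroup (ZMod M)ˣ} (hneg : (-1 : (ZMod M)ˣ) ∈ H')
  {g : (ZMod M)ˣ} {r : ℕ} {χ : DirichletCharacter Qbar M} (hLay : s48wg_Layer H' H'' g r χ)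

include hLay in
/-- **Galois acts on `ker π^* ∩ J_{H''}[p]` through the cyclotomic character** (prime layer). -/
theorem s59m_ker_pull_gal {p : ℕ} (hp : p ≠ 0) (σ : s48k_G) (c : ℕ)
    (hσζ : ∀ ζ : Qbar, IsPrimitiveRoot ζ p → σ ζ = ζ ^ c) (w : s48k_JH M H'') (hw : p • w = 0)
    (hker : s59m_pull hM hLay.le hneg w = 0) : σ • w = c • w := by
  haveI := s59m_FH_hasPrincipalDivisors hM hneg
  haveI := s59m_FH_hasPrincipalDivisors hM (hLay.le hneg)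
  haveI : FFGen Qbar (s48h_j0 H') := s48h_ffGen_jK (algebraMap Qbar ℂ) hM hneg
  haveI : FFGen Qbar (s48h_j0 H'') := s48h_ffGen_jK (algebraMap Qbar ℂ) hM (hLay.le hneg)
  haveI : NeZero p := ⟨hp⟩
  obtain ⟨ζp, hζp⟩ := HasEnoughRootsOfUnity.exists_primitiveRoot Qbar p
  rw [galois_smul_pic0_def]
  exact s59n_ker_pull_galois (s59m_incl hLay.le) (s59m_incl_isIntegral hM hLay.le hneg)
    (s59m_incl_FI hM hLay.le hneg) (s59m_constOfOrdZero (s48h_j0 H''))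
    (s59m_constOfOrdZero (s48h_j0 H')) (s59m_incl_finite hM hLay.le hneg)
    (s48k_diamondAut M H' g) (fun x => s59m_diamondAut_fix hM hLay.le hneg hLay.g_mem x)
    (fun y hy => s59m_layer_fixed hM hneg hLay y hy) hp ζp hζp
    (arithmeticGalois (s48k_FHQ M H') σ) (arithmeticGalois (s48k_FHQ M H'') σ)
    (s59m_incl_intertwines hLay.le σ) (fun y => s48e_diamondAut_comm M H' g σ y) c
    (hσζ ζp hζp) w hw hker

include hLay in
/-- **the diamonds act trivially on `ker π^* ∩ J_{H''}[p]`** (prime layer). -/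
theorem s59m_ker_pull_diamond {p : ℕ} (hp : p ≠ 0) (d : (ZMod M)ˣ) (w : s48k_JH M H'')
    (hw : p • w = 0) (hker : s59m_pull hM hLay.le hneg w = 0) : s48k_diamondJ M H'' d w = w := by
  haveI := s59m_FH_hasPrincipalDivisors hM hneg
  haveI := s59m_FH_hasPrincipalDivisors hM (hLay.le hneg)
  haveI : FFGen Qbar (s48h_j0 H') := s48h_ffGen_jK (algebraMap Qbar ℂ) hM hneg
  haveI : FFGen Qbar (s48h_j0 H'') := s48h_ffGen_jK (algebraMap Qbar ℂ) hM (hLay.le hneg)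
  haveI : NeZero p := ⟨hp⟩
  obtain ⟨ζp, hζp⟩ := HasEnoughRootsOfUnity.exists_primitiveRoot Qbar p
  have h := s59n_ker_pull_galois (s59m_incl hLay.le) (s59m_incl_isIntegral hM hLay.le hneg)
    (s59m_incl_FI hM hLay.le hneg) (s59m_constOfOrdZero (s48h_j0 H''))
    (s59m_constOfOrdZero (s48h_j0 H')) (s59m_incl_finite hM hLay.le hneg)
    (s48k_diamondAut M H' g) (fun x => s59m_diamondAut_fix hM hLay.le hneg hLay.g_mem x)
    (fun y hy => s59m_layer_fixed hM hneg hLay y hy) hp ζp hζp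
    (SemilinearAut.ofAlgAut (s48k_diamondAut M H' d))
    (SemilinearAut.ofAlgAut (s48k_diamondAut M H'' d))
    (s59m_diamond_intertwines hM hLay.le hneg d)
    (fun y => by
      rw [SemilinearAut.ofAlgAut_smul, SemilinearAut.ofAlgAut_smul]
      exact s59m_diamondAut_comm hM hneg d g y) 1
    (by rw [SemilinearAut.baseAut_ofAlgAut, pow_one]; rfl) w hw hker
  rw [one_smul] at h
  rw [s48k_diamondJ_apply]
  exact h

include hLay in
/-- **(d2) (KT): `T''_{ℓ₀} = ℓ₀ + 1` on `ker π^* ∩ J_{H''}[p]`** (prime layer; Eichler–Shimura at level `H''` as a hypothesis). -/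
theorem s59m_KT {p : ℕ} (hp : p.Prime) {ℓ₀ : ℕ} [NeZero ℓ₀] (hℓ₀ : ℓ₀.Prime) (hℓp : ℓ₀ ≠ p)
    (pu : (ZMod M)ˣ) (A : ValuationSubring Qbar) (hA : A.LiesOverPrime ℓ₀) (σ : s48k_G)
    (hσ : A.IsFrobeniusAt σ ℓ₀)
    (hFQ'' : ∀ x : s48k_JH M H'', (p : ℤ) • x = 0 →
      σ • σ • x - s48k_TpJ M H'' ℓ₀ pu (σ • x) + (ℓ₀ : ℤ) • s48k_diamondJ M H'' pu x = 0)
    (w : s48k_JH M H'') (hw : p • w = 0) (hker : s59m_pull hM hLay.le hneg w = 0) :
    s48k_TpJ M H'' ℓ₀ pu w = (ℓ₀ + 1) • w := by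
  let K : AddSubgroup (s48k_JH M H'') :=
    { carrier := {w | p • w = 0 ∧ s59m_pull hM hLay.le hneg w = 0}
      zero_mem' := ⟨smul_zero _, map_zero _⟩
      add_mem' := fun {x y} hx hy => ⟨by rw [nsmul_add, hx.1, hy.1, add_zero],
        by rw [map_add, hx.2, hy.2, add_zero]⟩
      neg_mem' := fun {x} hx => ⟨by rw [neg_nsmul, hx.1, neg_zero],
        by rw [map_neg, hx.2, neg_zero]⟩ }
  have hKmem : ∀ w, w ∈ K ↔ p • w = 0 ∧ s59m_pull hM hLay.le hneg w = 0 := fun w => Iff.rfl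
  refine s59m_KT_abs (s48k_TpJ M H'' ℓ₀ pu) (s48k_diamondJ M H'' pu) σ ℓ₀ p K ?_ ?_ hFQ'' ?_ ?_ w
    ((hKmem w).mpr ⟨hw, hker⟩)
  · intro w hw
    refine (hKmem _).mpr ⟨?_, ?_⟩
    · have := s59m_smul_zsmul σ⁻¹ (p : ℤ) w
      rw [natCast_zsmul, natCast_zsmul, hw.1, smul_zero] at this
      exact this.symm
    · rw [s59m_pull_gal, hw.2]
      exact map_zero (DistribSMul.toAddMonoidHom (s48k_JH M H') σ⁻¹)
  · intro w hw
    rw [natCast_zsmul]
    exact hw.1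
  · intro w hw
    exact s59m_ker_pull_gal hM hneg hLay hp.ne_zero σ ℓ₀
      (fun ζ hζ => s59m_frob_root hℓ₀ hp hℓp A hA σ hσ hζ.pow_eq_one) w hw.1 hw.2
  · intro w hw
    exact s59m_ker_pull_diamond hM hneg hLay hp.ne_zero pu w hw.1 hw.2

end Layer

end Fermat.Agent.Lib.S59
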