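import Fermat.Agent.Lib.S59.NLayerFF
import Fermat.Agent.Lib.S59.MUpES

/-
NTower (helper7): the concrete tower induction for C7 (G2).  s59n_WHyp packages the hypotheses on the pair
of valuation subrings; s59n_Ycon is the concrete candidate at a level above the bottom group; s59n_layer_con
is the concrete prime layer step and s59n_tower the induction over the subgroups above the bottom group.
-/

set_option autoImplicit false
set_option linter.style.haveILetI false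
set_option linter.unusedSectionVars false

noncomputable section

namespace Fermat.Agent.Lib.S59

open AlgebraicCurve ModularCurve IntermediateField Fermat.Agent.Lib.FF Fermat.Agent.Lib.S33
  Fermat.Agent.Lib.S37 Fermat.Agent.Lib.S48 Fermat.Agent.Lib.S29
open scoped Pointwise

local notation "Qbar" => AlgebraicClosure ℚ

attribute [local instance] s29a_algebraC

section WHyp

variable {K : Type*} [Field K]

/-- valuations of a restricted valuation subring. -/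
theorem s59n_comap_val_lt_one' {F₀ F : Type*} [Field F₀] [Field F] (W : ValuationSubring F) (f : F₀ →+* F)
    (x : F₀) : (W.comap f).valuation x < 1 ↔ W.valuation (f x) < 1 := by
  rw [← ValuationSubring.mem_nonunits_iff, ← ValuationSubring.mem_nonunits_iff,
    ValuationSubring.mem_nonunits_iff_or, ValuationSubring.mem_nonunits_iff_or,
    ValuationSubring.mem_comap, map_inv₀, map_eq_zero]

theorem s59n_comap_val_eq_one {F₀ F : Type*} [Field F₀] [Field F] (W : ValuationSubring F) (f : F₀ →+* F)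
    (x : F₀) : (W.comap f).valuation x = 1 ↔ W.valuation (f x) = 1 := by
  have h1 := s59n_comap_val_lt_one' W f x
  have h2 : (W.comap f).valuation x ≤ 1 ↔ W.valuation (f x) ≤ 1 := by
    rw [ValuationSubring.valuation_le_one_iff, ValuationSubring.valuation_le_one_iff,
      ValuationSubring.mem_comap]
  constructor
  · intro h
    exact le_antisymm (h2.mp h.le)
      (not_lt.mp fun hlt => absurd (h1.mpr hlt) (by rw [h]; exact lt_irrefl _))
  · intro h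
    exact le_antisymm (h2.mpr h.le)
      (not_lt.mp fun hlt => absurd (h1.mp hlt) (by rw [h]; exact lt_irrefl _))

/-- **the hypotheses on the pair of valuation subrings** `(W_∞, W_0)` of a function field with Frobenius `Φ` and the diamond
`δ = ⟨δ_φ⟩`: scale, `p` a unit, `Φ W_∞ = W_∞`, `⟨δ_φ⟩⁻¹ Φ W_0 = W_0`. -/
structure s59n_WHyp {F : Type*} [Field F] [Algebra K F] (Φ : SemilinearAut K F) (δ : F ≃ₐ[K] F) (p : ℕ)
    (Winf Wzero : ValuationSubring F) : Prop where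
  norm_inf : ∀ f : F, f ≠ 0 → ∃ c : K, c ≠ 0 ∧ Winf.valuation (f * (algebraMap K F c)⁻¹) = 1
  norm_zero : ∀ f : F, f ≠ 0 → ∃ c : K, c ≠ 0 ∧ Wzero.valuation (f * (algebraMap K F c)⁻¹) = 1
  p_inf : Winf.valuation ((p : ℕ) : F) = 1
  p_zero : Wzero.valuation ((p : ℕ) : F) = 1
  stab_inf : ∀ y, Φ • y ∈ Winf ↔ y ∈ Winf
  stab_zero : ∀ y, ((SemilinearAut.ofAlgAut δ)⁻¹ * Φ) • y ∈ Wzero ↔ y ∈ Wzero

/-- the hypotheses descend along an embedding intertwining the Frobenius and the diamond. -/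
theorem s59n_WHyp.comap {F'' F' : Type*} [Field F''] [Field F'] [Algebra K F''] [Algebra K F']
    (ι : F'' →ₐ[K] F') {Φ' : SemilinearAut K F'} {Φ'' : SemilinearAut K F''}
    {δ' : F' ≃ₐ[K] F'} {δ'' : F'' ≃ₐ[K] F''} {p : ℕ} {Winf Wzero : ValuationSubring F'}
    (hΦ : SemilinearAut.IntertwinesAlong (ι : F'' →+* F') Φ'' Φ')
    (hδ : SemilinearAut.IntertwinesAlong (ι : F'' →+* F') (SemilinearAut.ofAlgAut δ'')
      (SemilinearAut.ofAlgAut δ'))
    (h : s59n_WHyp Φ' δ' p Winf Wzero) :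
    s59n_WHyp Φ'' δ'' p (Winf.comap (ι : F'' →+* F')) (Wzero.comap (ι : F'' →+* F')) := by
  have hnorm : ∀ W : ValuationSubring F',
      (∀ f : F', f ≠ 0 → ∃ c : K, c ≠ 0 ∧ W.valuation (f * (algebraMap K F' c)⁻¹) = 1) →
      ∀ f : F'', f ≠ 0 → ∃ c : K, c ≠ 0 ∧
        (W.comap (ι : F'' →+* F')).valuation (f * (algebraMap K F'' c)⁻¹) = 1 := by
    intro W hW f hf
    obtain ⟨c, hc, hv⟩ := hW (ι f) ((map_ne_zero _).mpr hf)
    refine ⟨c, hc, ?_⟩
    rw [s59n_comap_val_eq_one, map_mul, map_inv₀]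
    have : (ι : F'' →+* F') (algebraMap K F'' c) = algebraMap K F' c := ι.commutes c
    rw [this]
    exact hv
  have hpv : ∀ W : ValuationSubring F', W.valuation ((p : ℕ) : F') = 1 →
      (W.comap (ι : F'' →+* F')).valuation ((p : ℕ) : F'') = 1 := by
    intro W hW
    rw [s59n_comap_val_eq_one, map_natCast]
    exact hW
  refine ⟨hnorm _ h.norm_inf, hnorm _ h.norm_zero, hpv _ h.p_inf, hpv _ h.p_zero, fun y => ?_,
    fun y => ?_⟩
  · rw [ValuationSubring.mem_comap, ValuationSubring.mem_comap, ← hΦ y]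
    exact h.stab_inf _
  · rw [ValuationSubring.mem_comap, ValuationSubring.mem_comap, ← (hδ.inv.mul hΦ) y]
    exact h.stab_zero _

end WHyp

section Tower

variable {M : ℕ} [NeZero M]

/-- the restriction of a valuation subring of `F_H` to `F_{H'}`, `H ≤ H'`. -/
def s59n_Wres {H H' : Subgroup (ZMod M)ˣ} (hHH' : H ≤ H') (W : ValuationSubring ↥(s48k_FH M H)) :
    ValuationSubring ↥(s48k_FH M H') :=
  W.comap ((s59m_incl hHH' : _ →ₐ[Qbar] _) : ↥(s48k_FH M H') →+* ↥(s48k_FH M H))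

theorem s59n_Wres_trans {H H' H'' : Subgroup (ZMod M)ˣ} (hHH' : H ≤ H') (hle : H' ≤ H'')
    (W : ValuationSubring ↥(s48k_FH M H)) :
    (s59n_Wres hHH' W).comap ((s59m_incl hle : _ →ₐ[Qbar] _) : ↥(s48k_FH M H'') →+* ↥(s48k_FH M H')) =
      s59n_Wres (hHH'.trans hle) W := by
  ext x
  unfold s59n_Wres
  rw [ValuationSubring.mem_comap, ValuationSubring.mem_comap, ValuationSubring.mem_comap]
  have : (s59m_incl hHH') ((s59m_incl hle) x) = (s59m_incl (hHH'.trans hle)) x := by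
    rw [← s59m_incl_comp hHH' hle]; rfl
  exact Iff.of_eq (congrArg (· ∈ W) this)

/-- **the concrete candidate** at the level `H'` above the bottom group `H` (a family `T_{ℓ₀ k}`, `k : κ`, of Hecke operators). -/
def s59n_Ycon {κ : Type*} (H : Subgroup (ZMod M)ˣ) {H' : Subgroup (ZMod M)ˣ} (hHH' : H ≤ H') (φ : s48k_G)
    (ℓ₀ : κ → ℕ) [∀ k, NeZero (ℓ₀ k)] (pu : κ → (ZMod M)ˣ) (a : κ → ℤ) (p : ℕ) (α β : ℤ)
    (Winf Wzero : ValuationSubring ↥(s48k_FH M H)) (z : s48k_JH M H') : Prop :=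
  s59n_Y (s59n_saE (arithmeticGalois (s48k_FHQ M H') φ))
    (fun d : (ZMod M)ˣ => s59n_saE (SemilinearAut.ofAlgAut (s48k_diamondAut M H' d)))
    (fun k : κ => (s48k_TpJ M H' (ℓ₀ k) (pu k) : AddMonoid.End (s48k_JH M H'))) a p α β
    (s59k_KumKer (K := Qbar) (s59n_Wres hHH' Winf) p)
    (s59k_KumKer (K := Qbar) (s59n_Wres hHH' Wzero) p) z

/-- **THE CONCRETE LAYER STEP**: a prime layer `s48wg_Layer H' H'' g p χ` above the bottom group `H`. -/
theorem s59n_layer_con {κ : Type*} (hM : 1 < M) {H H' H'' : Subgroup (ZMod M)ˣ} (hneg : (-1 : (ZMod M)ˣ) ∈ H)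
    (hK : s59m_KDiv M H) (hHH' : H ≤ H') {g : (ZMod M)ˣ} {p : ℕ} {χ : DirichletCharacter Qbar M}
    (hLay : s48wg_Layer H' H'' g p χ) (φ : s48k_G) (q : ℕ)
    (hroots : ∀ ζ : Qbar, ζ ^ p = 1 → φ ζ = ζ ^ q)
    (ℓ₀ : κ → ℕ) [∀ k, NeZero (ℓ₀ k)] (pu : κ → (ZMod M)ˣ) (σ₀ : κ → s48k_G)
    (hFQ' : ∀ (k : κ) (x : s48k_JH M H'), (p : ℤ) • x = 0 →
      σ₀ k • σ₀ k • x - s48k_TpJ M H' (ℓ₀ k) (pu k) (σ₀ k • x) +
        (ℓ₀ k : ℤ) • s48k_diamondJ M H' (pu k) x = 0)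
    (hFQ'' : ∀ (k : κ) (x : s48k_JH M H''), (p : ℤ) • x = 0 →
      σ₀ k • σ₀ k • x - s48k_TpJ M H'' (ℓ₀ k) (pu k) (σ₀ k • x) +
        (ℓ₀ k : ℤ) • s48k_diamondJ M H'' (pu k) x = 0)
    (hTφ' : ∀ (k : κ) (x : s48k_JH M H'),
      φ • s48k_TpJ M H' (ℓ₀ k) (pu k) x = s48k_TpJ M H' (ℓ₀ k) (pu k) (φ • x))
    (hTφ'' : ∀ (k : κ) (x : s48k_JH M H''),
      φ • s48k_TpJ M H'' (ℓ₀ k) (pu k) x = s48k_TpJ M H'' (ℓ₀ k) (pu k) (φ • x))
    (hTD' : ∀ (k : κ) (d : (ZMod M)ˣ) (x : s48k_JH M H'), p • x = 0 →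
      s48k_diamondJ M H' d (s48k_TpJ M H' (ℓ₀ k) (pu k) x) =
        s48k_TpJ M H' (ℓ₀ k) (pu k) (s48k_diamondJ M H' d x))
    (a : κ → ℤ) (α β : ℤ) (hαβ : IsCoprime ((q : ℤ) ^ 2 - α * (q : ℤ) + β) (p : ℤ))
    (Winf Wzero : ValuationSubring ↥(s48k_FH M H)) (δφ : (ZMod M)ˣ)
    (hW : s59n_WHyp (arithmeticGalois (s48k_FHQ M H) φ) (s48k_diamondAut M H δφ) p Winf Wzero)
    (hbot : ∀ w : s48k_JH M H'',
      s59n_Ycon H (hHH'.trans hLay.le) φ ℓ₀ pu a p α β Winf Wzero w → w = 0) :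
    ∀ z : s48k_JH M H', s59n_Ycon H hHH' φ ℓ₀ pu a p α β Winf Wzero z → z = 0 := by
  have hneg' : (-1 : (ZMod M)ˣ) ∈ H' := hHH' hneg
  have hneg'' : (-1 : (ZMod M)ˣ) ∈ H'' := hLay.le hneg'
  haveI := s59m_FH_hasPrincipalDivisors hM hneg
  haveI := s59m_FH_hasPrincipalDivisors hM hneg'
  haveI := s59m_FH_hasPrincipalDivisors hM hneg''
  haveI : FFGen Qbar (s48h_j0 H') := s48h_ffGen_jK (algebraMap Qbar ℂ) hM hneg'
  haveI : FFGen Qbar (s48h_j0 H'') := s48h_ffGen_jK (algebraMap Qbar ℂ) hM hneg''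
  have hW' : s59n_WHyp (arithmeticGalois (s48k_FHQ M H') φ) (s48k_diamondAut M H' δφ) p
      (s59n_Wres hHH' Winf) (s59n_Wres hHH' Wzero) :=
    hW.comap (s59m_incl hHH') (s59m_incl_intertwines hHH' φ) (s59m_diamond_intertwines hM hHH' hneg δφ)
  intro z hz
  refine s59n_layer_ff (s59m_incl hLay.le) (s59m_incl_isIntegral hM hLay.le hneg')
    (s59m_incl_FI hM hLay.le hneg') (s59m_constOfOrdZero (s48h_j0 H''))
    (s59m_constOfOrdZero (s48h_j0 H')) (fun w => s59m_FH_unr hM hK hneg hHH' hLay.le w)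
    (fun v => s59m_incl_surjPl hM hLay.le hneg' v) (s59m_incl_finite hM hLay.le hneg')
    (fun d : (ZMod M)ˣ => s48k_diamondAut M H' d) (fun d : (ZMod M)ˣ => s48k_diamondAut M H'' d)
    (fun d x => s59m_diamondAut_incl hM hLay.le hneg' d x)
    (fun d d' y => s59m_diamondAut_comm hM hneg' d d' y) g
    (fun x => s59m_diamondAut_fix hM hLay.le hneg' hLay.g_mem x)
    (fun y hy => s59m_layer_fixed hM hneg' hLay y hy)
    (arithmeticGalois (s48k_FHQ M H') φ) (arithmeticGalois (s48k_FHQ M H'') φ)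
    (s59m_incl_intertwines hLay.le φ) (fun d y => s48e_diamondAut_comm M H' d φ y)
    (fun d x => s48e_diamondAut_comm M H'' d φ x) hLay.prime q
    (by rw [s59m_layer_finrankAlong hM hneg' hLay])
    (fun ζ hζ => hroots ζ hζ)
    (fun k : κ => (s48k_TpJ M H' (ℓ₀ k) (pu k) : AddMonoid.End (s48k_JH M H')))
    (fun k : κ => (s48k_TpJ M H'' (ℓ₀ k) (pu k) : AddMonoid.End (s48k_JH M H''))) a
    (fun k z => (hTφ' k z).symm) (fun k w => (hTφ'' k w).symm)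
    (fun k d z hz => hTD' k d z hz)
    (fun k w hw _ => s59m_pull_Tp hM hLay.le hneg' (ℓ₀ k) (pu k) (σ₀ k) p (hFQ'' k) (hFQ' k) w
      (by rw [natCast_zsmul]; exact hw))
    α β hαβ (s59n_Wres hHH' Winf) (s59n_Wres hHH' Wzero) hW'.norm_inf hW'.norm_zero hW'.p_inf
    hW'.p_zero hW'.stab_inf δφ hW'.stab_zero ?_ z hz
  intro w hw
  apply hbot w
  unfold s59n_Ycon
  rw [← s59n_Wres_trans hHH' hLay.le Winf, ← s59n_Wres_trans hHH' hLay.le Wzero]
  exact hw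

theorem s59n_Wres_self {H : Subgroup (ZMod M)ˣ} (W : ValuationSubring ↥(s48k_FH M H)) :
    s59n_Wres (le_refl H) W = W := by
  ext x
  unfold s59n_Wres
  rw [ValuationSubring.mem_comap]
  have : (s59m_incl (le_refl H)) x = x := Subtype.ext (s59m_incl_coe (le_refl H) x)
  exact Iff.of_eq (congrArg (· ∈ W) this)

/-- a step of the subgroup induction: above a proper subgroup `H'` of a group which is `p`-primary modulo `H ≤ H'` there is an
element `g ∉ H'` with `g ^ p ∈ H'`. -/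
theorem s59n_exists_step {G : Type*} [Group G] (H H' : Subgroup G) (hHH' : H ≤ H') (p : ℕ)
    (hpgrp : ∀ g : G, ∃ n : ℕ, g ^ (p ^ n) ∈ H) (hH' : H' ≠ ⊤) :
    ∃ g : G, g ∉ H' ∧ g ^ p ∈ H' := by
  classical
  obtain ⟨g₀, hg₀⟩ : ∃ g₀ : G, g₀ ∉ H' := by
    by_contra hcon
    push Not at hcon
    exact hH' (eq_top_iff.mpr fun g _ => hcon g)
  have hex : ∃ n : ℕ, g₀ ^ (p ^ n) ∈ H' := by
    obtain ⟨n, hn⟩ := hpgrp g₀
    exact ⟨n, hHH' hn⟩
  have h0 : Nat.find hex ≠ 0 := by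
    intro h0
    have := Nat.find_spec hex
    rw [h0, pow_zero, pow_one] at this
    exact hg₀ this
  obtain ⟨k, hk⟩ := Nat.exists_eq_succ_of_ne_zero h0
  refine ⟨g₀ ^ (p ^ k), Nat.find_min hex (by rw [hk]; exact Nat.lt_succ_self k), ?_⟩
  have := Nat.find_spec hex
  rw [hk, pow_succ, pow_mul] at this
  exact this

/-- **THE TOWER**: if the candidate vanishes at the top level `⊤` (`F_⊤ = F̄₀(M)`), it vanishes at every level `H' ≥ H`. -/
theorem s59n_tower {κ : Type*} (hM : 1 < M) {H : Subgroup (ZMod M)ˣ} (hneg : (-1 : (ZMod M)ˣ) ∈ H)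
    (hK : s59m_KDiv M H) {p : ℕ} (hp : p.Prime) (hpgrp : ∀ g : (ZMod M)ˣ, ∃ n : ℕ, g ^ (p ^ n) ∈ H)
    (φ : s48k_G) (q : ℕ) (hroots : ∀ ζ : Qbar, ζ ^ p = 1 → φ ζ = ζ ^ q)
    (ℓ₀ : κ → ℕ) [∀ k, NeZero (ℓ₀ k)] (pu : κ → (ZMod M)ˣ) (σ₀ : κ → s48k_G)
    (hFQ : ∀ H' : Subgroup (ZMod M)ˣ, H ≤ H' → ∀ (k : κ) (x : s48k_JH M H'), (p : ℤ) • x = 0 →
      σ₀ k • σ₀ k • x - s48k_TpJ M H' (ℓ₀ k) (pu k) (σ₀ k • x) +
        (ℓ₀ k : ℤ) • s48k_diamondJ M H' (pu k) x = 0)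
    (hTφ : ∀ H' : Subgroup (ZMod M)ˣ, H ≤ H' → ∀ (k : κ) (x : s48k_JH M H'),
      φ • s48k_TpJ M H' (ℓ₀ k) (pu k) x = s48k_TpJ M H' (ℓ₀ k) (pu k) (φ • x))
    (hTD : ∀ H' : Subgroup (ZMod M)ˣ, H ≤ H' → ∀ (k : κ) (d : (ZMod M)ˣ) (x : s48k_JH M H'), p • x = 0 →
      s48k_diamondJ M H' d (s48k_TpJ M H' (ℓ₀ k) (pu k) x) =
        s48k_TpJ M H' (ℓ₀ k) (pu k) (s48k_diamondJ M H' d x))
    (a : κ → ℤ) (α β : ℤ) (hαβ : IsCoprime ((q : ℤ) ^ 2 - α * (q : ℤ) + β) (p : ℤ))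
    (Winf Wzero : ValuationSubring ↥(s48k_FH M H)) (δφ : (ZMod M)ˣ)
    (hW : s59n_WHyp (arithmeticGalois (s48k_FHQ M H) φ) (s48k_diamondAut M H δφ) p Winf Wzero)
    (htop : ∀ w : s48k_JH M (⊤ : Subgroup (ZMod M)ˣ),
      s59n_Ycon H le_top φ ℓ₀ pu a p α β Winf Wzero w → w = 0) :
    ∀ (H' : Subgroup (ZMod M)ˣ) (hHH' : H ≤ H') (z : s48k_JH M H'),
      s59n_Ycon H hHH' φ ℓ₀ pu a p α β Winf Wzero z → z = 0 := by
  intro H'
  induction H' using WellFoundedGT.induction with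
  | ind H' ih =>
    intro hHH'
    by_cases hH' : H' = ⊤
    · subst hH'
      exact htop
    · obtain ⟨g, hg, hgp⟩ := s59n_exists_step H H' hHH' p hpgrp hH'
      obtain ⟨χ, hLay⟩ := s48wg_exists_layer H' g p hp hg hgp
      have hlt : H' < H' ⊔ Subgroup.zpowers g := by
        refine lt_of_le_of_ne le_sup_left fun heq => hg ?_
        rw [heq]
        exact (le_sup_right : Subgroup.zpowers g ≤ H' ⊔ Subgroup.zpowers g) (Subgroup.mem_zpowers g)
      exact s59n_layer_con hM hneg hK hHH' hLay φ q hroots ℓ₀ pu σ₀ (hFQ H' hHH')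
        (hFQ _ (hHH'.trans hLay.le)) (hTφ H' hHH') (hTφ _ (hHH'.trans hLay.le)) (hTD H' hHH')
        a α β hαβ Winf Wzero δφ hW (ih _ hlt (hHH'.trans hLay.le))

end Tower

end Fermat.Agent.Lib.S59
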