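import Fermat.Agent.Lib.S59.NTop
import Fermat.Agent.Lib.S59.NTower
import Fermat.Agent.Lib.S59.NStart
import Fermat.Agent.Lib.S30.TateLevel
import Fermat.Agent.Lib.S48.EIntH

/-
NFinal (helper7): THE FINAL ASSEMBLY OF C7 = (G2) upstairs.  s59n_quadOp_pow_apply, s59n_top_transport (the top of the tower
for a rational model equal to the function field of level M q), s59n_diamondJ_comm, s59n_TD_of_frobQuad (Hecke and diamonds
commute on p-torsion, from Eichler-Shimura), s59n_diamondJ_top, s59n_Wres_mem, s59n_Wres_spec_inf, s59n_Wres_spec_zero and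
s59n_G2_up_core: start (NStart) + tower (NTower) + top (NTop).
-/

set_option autoImplicit false
set_option linter.style.haveILetI false
set_option linter.unusedSectionVars false
set_option synthInstance.maxHeartbeats 400000

noncomputable section

namespace Fermat.Agent.Lib.S59

open ModularCurve AlgebraicCurve HahnSeries IntermediateField Fermat.Agent.Lib.FF Fermat.Agent.Lib.S18
  Fermat.Agent.Lib.S34 Fermat.Agent.Lib.S37 Fermat.Agent.Lib.S33 Fermat.Agent.Lib.S35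
  Fermat.Agent.Lib.S44 Fermat.Agent.Lib.Frey Fermat.Agent.Lib.S30 Fermat.Agent.Lib.S29
  Fermat.Agent.Lib.S48
open scoped Pointwise

local notation "Kb" => AlgebraicClosure ℚ
local notation "Γℚ" => (AlgebraicClosure ℚ ≃ₐ[ℚ] AlgebraicClosure ℚ)

attribute [local instance] s29a_algebraC

section Abs

variable {G : Type*} [Group G] {J : Type*} [AddCommGroup J] [DistribMulAction G J]

/-- powers of the quadratic operator, as iterates. -/
theorem s59n_quadOp_pow_apply (g : G) (α β : ℤ) (N : ℕ) (z : J) :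
    ((s59n_quadOp J g α β) ^ N) z =
      (fun z : J => g • g • z - (α + β) • g • z + (α * β) • z)^[N] z := by
  induction N generalizing z with
  | zero => rfl
  | succ N ih =>
    rw [pow_succ, s59n_end_mul_apply, Function.iterate_succ_apply, ih]
    congr 1

/-- powers of the quadratic operator `g² - t g + d`, as iterates. -/
theorem s59n_quadE_pow_apply (g : G) (t d : ℤ) (N : ℕ) (z : J) :
    ((s59n_quadE (s59n_sm J g) t d) ^ N) z =
      (fun z : J => g • g • z - t • g • z + d • z)^[N] z := by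
  induction N generalizing z with
  | zero => rfl
  | succ N ih =>
    rw [pow_succ, s59n_end_mul_apply, Function.iterate_succ_apply, ih]
    congr 1

end Abs

/-! ### The top of the tower, transported -/

section Transport

variable (M q : ℕ) [NeZero M] [hq : Fact q.Prime] (hqM : ¬ q ∣ M) (h5 : 5 ≤ q)
  {p : ℕ} (hp : p.Prime) (hp5 : 5 ≤ p) (hpq : p ≠ q)
  (P : ValuationSubring Kb) (hP : P.LiesOverPrime q)

include h5 hp hp5 hpq hP in
/-- **(G2) at the top of the tower, for a rational model `FQ` equal to the function field of `X₀(M q)`**: the Hecke family is any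
Galois-equivariant family one member of which satisfies the Eichler–Shimura relation on `p`-torsion. -/
theorem s59n_top_transport (FQ : IntermediateField ℚ (LaurentSeries ℚ))
    (hFQ : FQ = modularFunctionFieldFull (M * q))
    {κ : Type*} (T : κ → AddMonoid.End (Pic0 Kb ↥(laurentBaseChange Kb FQ))) (a : κ → ℤ) (k₀ : κ)
    (hTG : ∀ (k : κ) (σ : Γℚ) (w : Pic0 Kb ↥(laurentBaseChange Kb FQ)), T k (σ • w) = σ • T k w)
    (ℓ₀ : ℕ) (hℓ₀ : ℓ₀.Prime) (hℓ₀M : ¬ ℓ₀ ∣ M * q * p)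
    (A₀ : ValuationSubring Kb) (hA₀ : A₀.LiesOverPrime ℓ₀) (σ₀ : Γℚ) (hσ₀ : A₀.IsFrobeniusAt σ₀ ℓ₀)
    (hES : ∀ w : Pic0 Kb ↥(laurentBaseChange Kb FQ), (p : ℤ) • w = 0 →
      σ₀ • σ₀ • w - T k₀ (σ₀ • w) + (ℓ₀ : ℤ) • w = 0)
    (ha₀ : IsCoprime (((ℓ₀ + 1 : ℕ) : ℤ) - a k₀) (p : ℤ))
    (Winf Wzero : ValuationSubring ↥(laurentBaseChange Kb FQ))
    (hWinf : ∀ f : ↥(laurentBaseChange Kb FQ), f ∈ Winf ↔
      (f : LaurentSeries Kb) ∈ s37r_O P (IsLocalRing.residue ↥P))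
    (hWzero : ∀ (f : ↥(laurentBaseChange Kb FQ))
      (hf : (f : LaurentSeries Kb) ∈ modularFunctionFieldBar (M * q)), f ∈ Wzero ↔
      ((s37w_al M q hq.out hqM ⟨(f : LaurentSeries Kb), hf⟩ : ffi_F (M * q)) : LaurentSeries Kb) ∈
        s37r_O P (IsLocalRing.residue ↥P))
    {φ : Γℚ} (hφ : P.IsFrobeniusAt φ q) (tr dt : ℤ)
    (hcop : IsCoprime (((q : ℤ) ^ 2 + dt) ^ 2 - tr ^ 2 * (q : ℤ) ^ 2) (p : ℤ))
    (hnil : ∀ w : Pic0 Kb ↥(laurentBaseChange Kb FQ), p • w = 0 →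
      (∀ k : κ, ∃ N : ℕ, ((T k - (a k : AddMonoid.End (Pic0 Kb ↥(laurentBaseChange Kb FQ)))) ^ N) w = 0) →
      ∃ N : ℕ, ((s59n_quadE (s59n_sm (Pic0 Kb ↥(laurentBaseChange Kb FQ)) φ) tr dt) ^ N) w = 0)
    (z : Pic0 Kb ↥(laurentBaseChange Kb FQ)) (hz : p • z = 0)
    (hzT : ∀ k : κ, ∃ N : ℕ,
      ((T k - (a k : AddMonoid.End (Pic0 Kb ↥(laurentBaseChange Kb FQ)))) ^ N) z = 0)
    (hzi : z ∈ s59k_KumKer (K := Kb) Winf p) (hzz : z ∈ s59k_KumKer (K := Kb) Wzero p) : z = 0 := by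
  subst hFQ
  have hℓ₀' : ¬ ((⟨ℓ₀, hℓ₀⟩ : Nat.Primes) : ℕ) ∣ M * q := fun h => hℓ₀M (Dvd.dvd.mul_right h p)
  refine s59n_top_core M q hqM h5 hp hp5 hpq P hP ⟨ℓ₀, hℓ₀⟩ hℓ₀' T a k₀ hTG ?_ ha₀ Winf Wzero hWinf
    (fun f => hWzero f f.2) hφ tr dt hcop ?_ z hz hzT hzi hzz
  · -- `T k₀` is the Hecke operator on `p`-torsion
    intro w hw
    have hsw : ∀ (g : Γℚ) (x : JZero (M * q)), (p : ℤ) • (g • x) = g • ((p : ℤ) • x) :=
      fun g x => (map_zsmul (DistribSMul.toAddMonoidHom (JZero (M * q)) g) (p : ℤ) x).symm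
    have hy : (p : ℤ) • (σ₀⁻¹ • w) = 0 := by
      rw [hsw, natCast_zsmul, hw]
      exact map_zero (DistribSMul.toAddMonoidHom (JZero (M * q)) σ₀⁻¹)
    have h1 := hES (σ₀⁻¹ • w) hy
    have h2 := s30a_pt_frobQuad (M * q) p ⟨ℓ₀, hℓ₀⟩ hℓ₀M A₀ hA₀ σ₀ hσ₀ 1 (σ₀⁻¹ • w)
      (by rw [pow_one]; exact hy)
    rw [smul_inv_smul] at h1 h2
    have h3 : T k₀ w = σ₀ • w + (ℓ₀ : ℤ) • (σ₀⁻¹ • w) := by
      rw [sub_add_eq_add_sub, sub_eq_zero] at h1
      exact h1.symm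
    have h4 : heckeOperatorBar (M * q) ⟨ℓ₀, hℓ₀⟩ w = σ₀ • w + (ℓ₀ : ℤ) • (σ₀⁻¹ • w) := by
      rw [sub_add_eq_add_sub, sub_eq_zero] at h2
      exact h2.symm
    rw [h3, h4]
  · intro w hw hwT
    obtain ⟨N, hN⟩ := hnil w hw hwT
    exact ⟨N, (s59n_quadE_pow_apply φ tr dt N w).symm.trans hN⟩

end Transport

/-! ### The final assembly -/

section Final

variable (M q : ℕ) [NeZero M] [NeZero q] [hq : Fact q.Prime] (hqM : ¬ q ∣ M) (h5 : 5 ≤ q)

theorem s59n_diamondJ_comm {N : ℕ} [NeZero N] (hN : 1 < N) {H' : Subgroup (ZMod N)ˣ}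
    (hneg : (-1 : (ZMod N)ˣ) ∈ H') (d d' : (ZMod N)ˣ) (w : s48k_JH N H') :
    s48k_diamondJ N H' d (s48k_diamondJ N H' d' w) =
      s48k_diamondJ N H' d' (s48k_diamondJ N H' d w) := by
  show s59n_diaHom hN hneg d • s59n_diaHom hN hneg d' • w =
    s59n_diaHom hN hneg d' • s59n_diaHom hN hneg d • w
  rw [smul_smul, smul_smul, ← map_mul, ← map_mul, mul_comm]

/-- the Hecke operators commute with the diamonds on `p`-torsion (from Eichler–Shimura). -/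
theorem s59n_TD_of_frobQuad {N : ℕ} [NeZero N] (hN : 1 < N) {H' : Subgroup (ZMod N)ˣ}
    (hneg : (-1 : (ZMod N)ˣ) ∈ H') (ℓ : ℕ) [NeZero ℓ] (pu : (ZMod N)ˣ) (σ : s48k_G) (p : ℕ)
    (hFQ : ∀ x : s48k_JH N H', (p : ℤ) • x = 0 →
      σ • σ • x - s48k_TpJ N H' ℓ pu (σ • x) + (ℓ : ℤ) • s48k_diamondJ N H' pu x = 0)
    (d : (ZMod N)ˣ) (x : s48k_JH N H') (hx : p • x = 0) :
    s48k_diamondJ N H' d (s48k_TpJ N H' ℓ pu x) = s48k_TpJ N H' ℓ pu (s48k_diamondJ N H' d x) :=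
  s59m_piT_abs (s48k_diamondJ N H' d) (fun g w => (s48e_commD N H' d g w).symm)
    (s48k_TpJ N H' ℓ pu) (s48k_diamondJ N H' pu) (s48k_TpJ N H' ℓ pu) (s48k_diamondJ N H' pu)
    (fun w => s59n_diamondJ_comm hN hneg d pu w) σ (ℓ : ℤ) p hFQ hFQ x
    (by rw [natCast_zsmul]; exact hx)

/-- the diamonds are trivial at the top level. -/
theorem s59n_diamondJ_top {N : ℕ} [NeZero N] (hN : 1 < N) (d : (ZMod N)ˣ)
    (x : s48k_JH N (⊤ : Subgroup (ZMod N)ˣ)) : s48k_diamondJ N ⊤ d x = x := by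
  show s59n_diaHom hN (Subgroup.mem_top _) d • x = x
  rw [s59n_diaHom_of_mem hN (Subgroup.mem_top _) (Subgroup.mem_top _), one_smul]

theorem s59n_Wres_mem {N : ℕ} [NeZero N] {H H' : Subgroup (ZMod N)ˣ} (hHH' : H ≤ H')
    (W : ValuationSubring ↥(s48k_FH N H)) (f : ↥(s48k_FH N H')) :
    f ∈ s59n_Wres hHH' W ↔ s59m_incl hHH' f ∈ W := by
  unfold s59n_Wres
  rw [ValuationSubring.mem_comap]
  exact Iff.of_eq rfl

/-- the spec of the restriction to the top field of a valuation subring cut out by the Gauss ring at `∞`. -/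
theorem s59n_Wres_spec_inf {N : ℕ} [NeZero N] (hN : 1 < N) {H : Subgroup (ZMod N)ˣ} (P : ValuationSubring Kb)
    (Winf : ValuationSubring ↥(s48k_FH N H))
    (hWinf : ∀ f : ↥(s48k_FH N H), (f : LaurentSeries Kb) ∈ modularFunctionFieldBar N →
      (f ∈ Winf ↔ (f : LaurentSeries Kb) ∈ s37r_O P (IsLocalRing.residue ↥P)))
    (f : ↥(s48k_FH N (⊤ : Subgroup (ZMod N)ˣ))) :
    f ∈ s59n_Wres (le_top : H ≤ ⊤) Winf ↔
      (f : LaurentSeries Kb) ∈ s37r_O P (IsLocalRing.residue ↥P) := by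
  have hf : ((s59m_incl (le_top : H ≤ ⊤) f : ↥(s48k_FH N H)) : LaurentSeries Kb) ∈
      modularFunctionFieldBar N := by
    rw [s59m_incl_coe, ← s48wg_FH_top hN]
    exact f.2
  rw [s59n_Wres_mem, hWinf _ hf, s59m_incl_coe]

/-- the spec of the restriction to the top field of a valuation subring cut out by the Gauss ring at `0`. -/
theorem s59n_Wres_spec_zero {H : Subgroup (ZMod (M * q))ˣ} (P : ValuationSubring Kb)
    (Wzero : ValuationSubring ↥(s48k_FH (M * q) H))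
    (hWzero : ∀ (f : ↥(s48k_FH (M * q) H))
      (hf : (f : LaurentSeries Kb) ∈ modularFunctionFieldBar (M * q)), f ∈ Wzero ↔
        ((s37w_al M q hq.out hqM ⟨(f : LaurentSeries Kb), hf⟩ : ffi_F (M * q)) : LaurentSeries Kb) ∈
          s37r_O P (IsLocalRing.residue ↥P))
    (f : ↥(s48k_FH (M * q) (⊤ : Subgroup (ZMod (M * q))ˣ)))
    (hf : (f : LaurentSeries Kb) ∈ modularFunctionFieldBar (M * q)) :
    f ∈ s59n_Wres (le_top : H ≤ ⊤) Wzero ↔
      ((s37w_al M q hq.out hqM ⟨(f : LaurentSeries Kb), hf⟩ : ffi_F (M * q)) : LaurentSeries Kb) ∈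
        s37r_O P (IsLocalRing.residue ↥P) := by
  have hc : ((s59m_incl (le_top : H ≤ ⊤) f : ↥(s48k_FH (M * q) H)) : LaurentSeries Kb) =
      (f : LaurentSeries Kb) := s59m_incl_coe le_top f
  have hf' : ((s59m_incl (le_top : H ≤ ⊤) f : ↥(s48k_FH (M * q) H)) : LaurentSeries Kb) ∈
      modularFunctionFieldBar (M * q) := by
    rw [hc]
    exact hf
  have h1 := hWzero (s59m_incl (le_top : H ≤ ⊤) f) hf'
  have h2 := s59n_Wres_mem (le_top : H ≤ ⊤) Wzero f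
  have key : ∀ (x y : LaurentSeries Kb) (hx : x ∈ modularFunctionFieldBar (M * q))
      (hy : y ∈ modularFunctionFieldBar (M * q)), x = y →
      (((s37w_al M q hq.out hqM ⟨x, hx⟩ : ffi_F (M * q)) : LaurentSeries Kb) ∈
          s37r_O P (IsLocalRing.residue ↥P) ↔
        ((s37w_al M q hq.out hqM ⟨y, hy⟩ : ffi_F (M * q)) : LaurentSeries Kb) ∈
          s37r_O P (IsLocalRing.residue ↥P)) := by
    intro x y hx hy hxy
    subst hxy
    exact Iff.rfl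
  exact h2.trans (h1.trans (key _ _ hf' hf hc))

include h5 in
/-- **(G2)↑, THE FINAL ASSEMBLY** (level `M q`, `q ∥ M q`, `P ∣ q`, `φ` a Frobenius at `P`): a class of the start subgroup
(`p`-torsion, generalised eigenvector of the Hecke family, in the Kummer kernels of all the diamond translates of the two valuation
subrings) vanishes. -/
theorem s59n_G2_up_core (hM : 1 < M * q) {H : Subgroup (ZMod (M * q))ˣ}
    (hneg : (-1 : (ZMod (M * q))ˣ) ∈ H) (hK : s59m_KDiv (M * q) H) {p : ℕ} (hp : p.Prime)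
    (hp5 : 5 ≤ p) (hpq : p ≠ q) (hpgrp : ∀ g : (ZMod (M * q))ˣ, ∃ n : ℕ, g ^ (p ^ n) ∈ H)
    (P : ValuationSubring Kb) (hP : P.LiesOverPrime q) (φ : s48k_G) (hφ : P.IsFrobeniusAt φ q)
    {κ : Type*} (ℓ₀ : κ → ℕ) [∀ k, NeZero (ℓ₀ k)] (pu : κ → (ZMod (M * q))ˣ) (σ₀ : κ → s48k_G)
    (hFQ : ∀ H' : Subgroup (ZMod (M * q))ˣ, H ≤ H' → ∀ (k : κ) (x : s48k_JH (M * q) H'),
      (p : ℤ) • x = 0 → σ₀ k • σ₀ k • x - s48k_TpJ (M * q) H' (ℓ₀ k) (pu k) (σ₀ k • x) +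
        (ℓ₀ k : ℤ) • s48k_diamondJ (M * q) H' (pu k) x = 0)
    (hTG : ∀ H' : Subgroup (ZMod (M * q))ˣ, H ≤ H' → ∀ (k : κ) (σ : s48k_G) (x : s48k_JH (M * q) H'),
      σ • s48k_TpJ (M * q) H' (ℓ₀ k) (pu k) x = s48k_TpJ (M * q) H' (ℓ₀ k) (pu k) (σ • x))
    (a : κ → ℤ) (k₀ : κ) (hℓk₀ : (ℓ₀ k₀).Prime) (hℓk₀M : ¬ ℓ₀ k₀ ∣ M * q * p)
    (A₀ : ValuationSubring Kb) (hA₀ : A₀.LiesOverPrime (ℓ₀ k₀))
    (hσ₀ : A₀.IsFrobeniusAt (σ₀ k₀) (ℓ₀ k₀))
    (ha₀ : IsCoprime (((ℓ₀ k₀ + 1 : ℕ) : ℤ) - a k₀) (p : ℤ))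
    (tr dt : ℤ) (hcop : IsCoprime (((q : ℤ) ^ 2 + dt) ^ 2 - tr ^ 2 * (q : ℤ) ^ 2) (p : ℤ))
    (hcop1 : IsCoprime ((q : ℤ) ^ 2 - tr * (q : ℤ) + dt) (p : ℤ))
    (Winf Wzero : ValuationSubring ↥(s48k_FH (M * q) H)) (δφ : (ZMod (M * q))ˣ)
    (hW : s59n_WHyp (arithmeticGalois (s48k_FHQ (M * q) H) φ) (s48k_diamondAut (M * q) H δφ) p
      Winf Wzero)
    (hWinf : ∀ f : ↥(s48k_FH (M * q) H),
      (f : LaurentSeries Kb) ∈ modularFunctionFieldBar (M * q) →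
        (f ∈ Winf ↔ (f : LaurentSeries Kb) ∈ s37r_O P (IsLocalRing.residue ↥P)))
    (hWzero : ∀ (f : ↥(s48k_FH (M * q) H))
      (hf : (f : LaurentSeries Kb) ∈ modularFunctionFieldBar (M * q)), f ∈ Wzero ↔
        ((s37w_al M q hq.out hqM ⟨(f : LaurentSeries Kb), hf⟩ : ffi_F (M * q)) : LaurentSeries Kb) ∈
          s37r_O P (IsLocalRing.residue ↥P))
    (hnil : ∀ H' : Subgroup (ZMod (M * q))ˣ, H ≤ H' → ∀ z : s48k_JH (M * q) H', p • z = 0 →
      (∀ k : κ, ∃ N : ℕ, ((s59n_TE (M * q) H' (ℓ₀ k) (pu k) -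
        (a k : AddMonoid.End (s48k_JH (M * q) H'))) ^ N) z = 0) →
      ∃ N : ℕ, ((s59n_quadE (s59n_sm (s48k_JH (M * q) H') φ) tr dt) ^ N) z = 0) :
    ∀ z : s48k_JH (M * q) H, z ∈ s59n_Zstart H ℓ₀ pu a p Winf Wzero → z = 0 := by
  intro z hz
  by_contra hne
  have hp2 : p ≠ 2 := by omega
  have hqp : q ≠ p := fun h => hpq h.symm
  -- `T` commutes with the diamonds on `p`-torsion, at every level
  have hTD : ∀ H' : Subgroup (ZMod (M * q))ˣ, H ≤ H' → ∀ (k : κ) (d : (ZMod (M * q))ˣ)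
      (x : s48k_JH (M * q) H'), p • x = 0 →
      s48k_diamondJ (M * q) H' d (s48k_TpJ (M * q) H' (ℓ₀ k) (pu k) x) =
        s48k_TpJ (M * q) H' (ℓ₀ k) (pu k) (s48k_diamondJ (M * q) H' d x) :=
    fun H' hHH' k d x hx => s59n_TD_of_frobQuad hM (hHH' hneg) (ℓ₀ k) (pu k) (σ₀ k) p
      (hFQ H' hHH' k) d x hx
  -- (nil), in the form of the tower
  have hnil' : ∀ H' : Subgroup (ZMod (M * q))ˣ, H ≤ H' → ∀ z : s48k_JH (M * q) H', p • z = 0 →
      (∀ k : κ, ∃ N : ℕ, ((s59n_TE (M * q) H' (ℓ₀ k) (pu k) -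
        (a k : AddMonoid.End (s48k_JH (M * q) H'))) ^ N) z = 0) →
      ∃ N : ℕ, ((s59n_quadE (s59n_saE (arithmeticGalois (s48k_FHQ (M * q) H') φ)) tr dt) ^ N) z = 0 :=
    fun H' hHH' z hz hzT => hnil H' hHH' z hz hzT
  -- the start
  obtain ⟨z', hz'ne, hY⟩ := s59n_start hM hneg hp hp2 hpgrp φ ℓ₀ pu a tr dt (hTD H le_rfl)
    (hnil' H le_rfl) Winf Wzero z hz hne
  -- the roots of unity
  have hroots : ∀ ζ : Kb, ζ ^ p = 1 → φ ζ = ζ ^ q := fun ζ hζ =>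
    s59m_frob_root hq.out hp hqp P hP φ hφ hζ
  -- the top
  have hnegT : (-1 : (ZMod (M * q))ˣ) ∈ (⊤ : Subgroup (ZMod (M * q))ˣ) := Subgroup.mem_top _
  have htop : ∀ w : s48k_JH (M * q) (⊤ : Subgroup (ZMod (M * q))ˣ),
      s59n_Ycon H le_top φ ℓ₀ pu a p tr dt Winf Wzero w → w = 0 := by
    intro w hw
    obtain ⟨h1, -, h3, -, h5', h6⟩ := hw
    have hFHtop := s48wg_FH_top (M := M * q) hM
    refine s59n_top_transport M q hqM h5 hp hp5 hpq P hP (s48k_FHQ (M * q) ⊤)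
      (s48wg_FHQ_top hM) (fun k => s59n_TE (M * q) ⊤ (ℓ₀ k) (pu k)) a k₀
      (fun k σ x => (hTG ⊤ le_top k σ x).symm) (ℓ₀ k₀) hℓk₀ hℓk₀M A₀ hA₀ (σ₀ k₀) hσ₀ ?_ ha₀
      (s59n_Wres le_top Winf) (s59n_Wres le_top Wzero) ?_ ?_ hφ tr dt hcop (hnil ⊤ le_top) w h1 h3
      h5' h6
    · intro x hx
      have := hFQ ⊤ le_top k₀ x hx
      rw [s59n_diamondJ_top hM] at this
      exact this
    · intro f
      exact s59n_Wres_spec_inf hM P Winf hWinf f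
    · intro f hf
      exact s59n_Wres_spec_zero M q hqM P Wzero hWzero f hf
  -- the tower
  exact hz'ne (s59n_tower hM hneg hK hp hpgrp φ q hroots ℓ₀ pu σ₀ hFQ
    (fun H' hHH' k x => hTG H' hHH' k φ x) hTD a tr dt hcop1 Winf Wzero δφ hW htop H le_rfl z' hY)

end Final

end Fermat.Agent.Lib.S59
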