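/-
Programme (R) / node [IA′], C7 = (G2)↑, THE WRAPPER (helper9, prefix `s59m_`): helper7's `s59n_G2_up_core` with everything
dischargeable discharged, in helper1's consumer shape.

Level `M q` (`q ∥ M q`), `H ≤ (ℤ/Mq)ˣ` with `s59b_Lvl (M q) H` (helper2) and `(ℤ/Mq)ˣ/H` a `p`-group; `P ∣ q`, `φ` a Frobenius at `P`.
* `s59m_lvl_mono` : `s59b_Lvl` is monotone in `H`;  `s59m_kdiv_of_lvl` : (K-Div) from `s59b_Lvl`;
* **`s59m_G2_up`** : `z ∈ J_H[p]` in the generalised `a₀`-eigenspace (helper2's `s59b_GenEig`, unfolded), in the Kummer kernels of all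
  the diamond translates of `W_∞`, `W_0` ⇒ `z = 0`.  Remaining hypotheses: the residual datum `(t, hfin, hρ)` of (nil), the non-Eisenstein
  prime `ℓ₁`, the arithmetic conditions on the residual characteristic polynomial `X² - t₀ X + d₀` of `φ` (NO roots needed:
  (i) `q² - t₀ q + d₀` and (ii) `(q² + d₀)² - t₀² q²` prime to `p`), and helper1's `hW`, `hWinf`, `hWzero`.
-/
import Fermat.Agent.Lib.S59.NFinal
import Fermat.Agent.Lib.S59.MNil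
import Fermat.Agent.Lib.S59.BKS37

set_option autoImplicit false
set_option linter.unusedSectionVars false
set_option linter.style.haveILetI false
set_option synthInstance.maxHeartbeats 400000

noncomputable section

namespace Fermat.Agent.Lib.S59

open ModularCurve AlgebraicCurve HahnSeries IntermediateField Fermat.Agent.Lib.FF Fermat.Agent.Lib.S18
  Fermat.Agent.Lib.S34 Fermat.Agent.Lib.S37 Fermat.Agent.Lib.S33 Fermat.Agent.Lib.S35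
  Fermat.Agent.Lib.S44 Fermat.Agent.Lib.Frey Fermat.Agent.Lib.S30 Fermat.Agent.Lib.S29
  Fermat.Agent.Lib.S48
open scoped Pointwise

local notation "Kb" => AlgebraicClosure ℚ
local notation "Γℚ" => (AlgebraicClosure ℚ ≃ₐ[ℚ] AlgebraicClosure ℚ)

attribute [local instance] s29a_algebraC

/-- `s59b_Lvl` is monotone in the subgroup. -/
theorem s59m_lvl_mono {N : ℕ} {H H' : Subgroup (ZMod N)ˣ} (hL : s59b_Lvl N H) (hHH' : H ≤ H') :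
    s59b_Lvl N H' where
  one_lt := hL.one_lt
  neg_one := hHH' hL.neg_one
  finOrd := fun g hg hfo u hu => hHH' (hL.finOrd g hg hfo u hu)
  par := fun σ k hσ u hu => hHH' (hL.par σ k hσ u hu)
  good := hL.good

/-- (K-Div) from the weak level structure. -/
theorem s59m_kdiv_of_lvl {N : ℕ} [NeZero N] {H : Subgroup (ZMod N)ˣ} (hL : s59b_Lvl N H) :
    s59m_KDiv N H :=
  fun _ hHH' χ hχ r _ h hh P => s59b_h_kdiv_layer hL hHH' χ hχ r h hh P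

/-- the index type of the good Hecke operators: `(ℓ, ℓu)`, `ℓ ∤ N p` a prime outside `S`, `ℓu` the class of `ℓ`. -/
def s59m_Idx (N p : ℕ) (S : Set ℕ) : Type :=
  {k : ℕ × (ZMod N)ˣ // k.1.Prime ∧ ¬ k.1 ∣ N * p ∧ k.1 ∉ S ∧ ((k.2 : (ZMod N)ˣ) : ZMod N) = (k.1 : ZMod N)}

instance s59m_Idx_neZero (N p : ℕ) (S : Set ℕ) (k : s59m_Idx N p S) : NeZero k.1.1 :=
  ⟨k.2.1.ne_zero⟩

/-- every good prime occurs in the index type. -/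
theorem s59m_Idx_exists (N p : ℕ) (S : Set ℕ) (ℓ : ℕ) (hℓ : ℓ.Prime) (hℓS : ℓ ∉ S)
    (hℓN : ¬ ℓ ∣ N * p) :
    ∃ k : s59m_Idx N p S, k.1.1 = ℓ ∧ ((k.1.2 : (ZMod N)ˣ) : ZMod N) = (ℓ : ZMod N) := by
  have hcop : Nat.Coprime ℓ N :=
    (Nat.Prime.coprime_iff_not_dvd hℓ).mpr (fun h => hℓN (Dvd.dvd.mul_right h p))
  exact ⟨⟨(ℓ, ZMod.unitOfCoprime ℓ hcop), hℓ, hℓN, hℓS, ZMod.coe_unitOfCoprime ℓ hcop⟩, rfl,
    ZMod.coe_unitOfCoprime ℓ hcop⟩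

variable (M q : ℕ) [NeZero M] [NeZero q] [hq : Fact q.Prime] (hqM : ¬ q ∣ M) (h5 : 5 ≤ q)

include h5 in
/-- **(G2)↑ in consumer shape.** -/
theorem s59m_G2_up {H : Subgroup (ZMod (M * q))ˣ} (hL : s59b_Lvl (M * q) H) {p : ℕ} (hp : p.Prime)
    (hp5 : 5 ≤ p) (hpq : p ≠ q) (hpgrp : ∀ g : (ZMod (M * q))ˣ, ∃ n : ℕ, g ^ (p ^ n) ∈ H)
    (P : ValuationSubring Kb) (hP : P.LiesOverPrime q) (φ : s48k_G) (hφ : P.IsFrobeniusAt φ q)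
    (S : Set ℕ) (hS : S.Finite) (a₀ : ℕ → ℤ)
    (ℓ₁ : ℕ) (hℓ₁ : ℓ₁.Prime) (hℓ₁S : ℓ₁ ∉ S) (hℓ₁M : ¬ ℓ₁ ∣ M * q * p)
    (ha₁ : IsCoprime (((ℓ₁ + 1 : ℕ) : ℤ) - a₀ ℓ₁) (p : ℤ))
    {T : Type} [Group T] (t : s48k_G →* T) (hfin : GaloisFactorsThroughFiniteLevel t)
    (t₀ d₀ : ℤ)
    (hρ : ∀ ℓ : ℕ, ℓ.Prime → ℓ ∉ S → ¬ ℓ ∣ M * q * p →
      ∀ A : ValuationSubring Kb, A.LiesOverPrime ℓ → ∀ σ : s48k_G, A.IsFrobeniusAt σ ℓ →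
        (∃ g : s48k_G, t σ = t (g * φ * g⁻¹)) →
          (p : ℤ) ∣ a₀ ℓ - t₀ ∧ (p : ℤ) ∣ (ℓ : ℤ) - d₀)
    (hcop : IsCoprime (((q : ℤ) ^ 2 + d₀) ^ 2 - t₀ ^ 2 * (q : ℤ) ^ 2) (p : ℤ))
    (hcop1 : IsCoprime ((q : ℤ) ^ 2 - t₀ * (q : ℤ) + d₀) (p : ℤ))
    (Winf Wzero : ValuationSubring ↥(s48k_FH (M * q) H)) (δφ : (ZMod (M * q))ˣ)
    (hW : s59n_WHyp (arithmeticGalois (s48k_FHQ (M * q) H) φ) (s48k_diamondAut (M * q) H δφ) p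
      Winf Wzero)
    (hWinf : ∀ f : ↥(s48k_FH (M * q) H),
      (f : LaurentSeries Kb) ∈ modularFunctionFieldBar (M * q) →
        (f ∈ Winf ↔ (f : LaurentSeries Kb) ∈ s37r_O P (IsLocalRing.residue ↥P)))
    (hWzero : ∀ (f : ↥(s48k_FH (M * q) H))
      (hf : (f : LaurentSeries Kb) ∈ modularFunctionFieldBar (M * q)), f ∈ Wzero ↔
        ((s37w_al M q hq.out hqM ⟨(f : LaurentSeries Kb), hf⟩ : ffi_F (M * q)) : LaurentSeries Kb) ∈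
          s37r_O P (IsLocalRing.residue ↥P))
    (z : s48k_JH (M * q) H) (hz : p • z = 0)
    (hgen : ∀ (ℓ : ℕ) [NeZero ℓ] (ℓu : (ZMod (M * q))ˣ), ℓ.Prime → ¬ ℓ ∣ M * q → ℓ ∉ S →
      ((ℓu : (ZMod (M * q))ˣ) : ZMod (M * q)) = (ℓ : ZMod (M * q)) →
        ∃ N : ℕ, ((s59m_TEnd (M * q) H ℓ ℓu -
          (a₀ ℓ : AddMonoid.End (s48k_JH (M * q) H))) ^ N) z = 0)
    (hzinf : ∀ d : (ZMod (M * q))ˣ, z ∈ s59k_KumKer (K := Kb)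
      (SemilinearAut.ofAlgAut (s48k_diamondAut (M * q) H d) • Winf) p)
    (hzzero : ∀ d : (ZMod (M * q))ˣ, z ∈ s59k_KumKer (K := Kb)
      (SemilinearAut.ofAlgAut (s48k_diamondAut (M * q) H d) • Wzero) p) : z = 0 := by
  classical
  have hM : 1 < M * q := hL.one_lt
  have hneg : (-1 : (ZMod (M * q))ˣ) ∈ H := hL.neg_one
  have hp2 : p ≠ 2 := by omega
  -- the Hecke family
  let κ := s59m_Idx (M * q) p S
  let ℓ₀ : κ → ℕ := fun k => k.1.1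
  let pu : κ → (ZMod (M * q))ˣ := fun k => k.1.2
  let a : κ → ℤ := fun k => a₀ k.1.1
  have hprime : ∀ k : κ, (ℓ₀ k).Prime := fun k => k.2.1
  have hndvd : ∀ k : κ, ¬ ℓ₀ k ∣ M * q * p := fun k => k.2.2.1
  have hndvd' : ∀ k : κ, ¬ ℓ₀ k ∣ M * q := fun k h => k.2.2.1 (Dvd.dvd.mul_right h p)
  have hnS : ∀ k : κ, ℓ₀ k ∉ S := fun k => k.2.2.2.1
  have hpuk : ∀ k : κ, ((pu k : (ZMod (M * q))ˣ) : ZMod (M * q)) = (ℓ₀ k : ZMod (M * q)) :=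
    fun k => k.2.2.2.2
  -- Frobenius elements
  have hex : ∀ k : κ, ∃ (A : ValuationSubring Kb) (σ : s48k_G),
      A.LiesOverPrime (ℓ₀ k) ∧ A.IsFrobeniusAt σ (ℓ₀ k) :=
    fun k => Fermat.Agent.Lib.Frobenius.exists_isFrobeniusAt (ℓ₀ k) (hprime k)
  choose A₀ σ₀ hA₀ hσ₀ using hex
  -- the structure at every level
  have hS37 : ∀ H' : Subgroup (ZMod (M * q))ˣ, H ≤ H' → s59b_S37H (M * q) H' :=
    fun H' hHH' => s59b_S37H_of_lvl (s59m_lvl_mono hL hHH')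
  -- the non-Eisenstein index
  obtain ⟨k₀, hk₀, -⟩ := s59m_Idx_exists (M * q) p S ℓ₁ hℓ₁ hℓ₁S hℓ₁M
  have ha₀ : IsCoprime (((ℓ₀ k₀ + 1 : ℕ) : ℤ) - a k₀) (p : ℤ) := by
    show IsCoprime (((k₀.1.1 + 1 : ℕ) : ℤ) - a₀ k₀.1.1) (p : ℤ)
    rw [hk₀]
    exact ha₁
  refine s59n_G2_up_core M q hqM h5 hM hneg (s59m_kdiv_of_lvl hL) hp hp5 hpq hpgrp P hP φ hφ ℓ₀ pu σ₀
    ?_ ?_ a k₀ (hprime k₀) (hndvd k₀) (A₀ k₀) (hA₀ k₀) (hσ₀ k₀) ha₀ t₀ d₀ hcop hcop1 Winf Wzero δφ hW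
    hWinf hWzero ?_ z ?_
  · intro H' hHH' k x hx
    exact (hS37 H' hHH').frobQuad p (ℓ₀ k) (pu k) (hprime k) (hndvd k) (hpuk k) (A₀ k) (hA₀ k)
      (σ₀ k) (hσ₀ k) x hx
  · intro H' hHH' k σ x
    exact (hS37 H' hHH').commT (ℓ₀ k) (pu k) (hprime k) (hndvd' k) (hpuk k) σ x
  · intro H' hHH' w hw hwT
    have S37 := hS37 H' hHH'
    exact s59m_nil_family_td hM (hHH' hneg) p hp hp2
      (fun d => by obtain ⟨n, hn⟩ := hpgrp d; exact ⟨n, hHH' hn⟩)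
      S37.commD S37.commT (S37.frobQuad p) ℓ₀ pu a S hS
      (fun ℓ hℓ hℓS hℓN => s59m_Idx_exists (M * q) p S ℓ hℓ hℓS hℓN) t hfin φ t₀ d₀
      (fun k hk hkS hkN A hA σ hσ hg => hρ (ℓ₀ k) hk hkS hkN A hA σ hσ hg)
      w hw (S37.openStab w) hwT
  · rw [s59n_mem_Zstart]
    refine ⟨hz, fun k => ?_, hzinf, hzzero⟩
    exact hgen (ℓ₀ k) (pu k) (hprime k) (hndvd' k) (hnS k) (hpuk k)

end Fermat.Agent.Lib.S59
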