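/-
Programme (R) / node [IA′], C7 = (G2), the descent `Γ_H → Γ₀` UP A TOWER OF CYCLIC LAYERS, family N (helper7, prefix `s59n_`):
**THE ABSTRACT LAYER STEP** (Mathlib + `NAsm`; pure algebra).

`Δ = (ℤ/M)ˣ/H` is a `p`-group but NOT cyclic (helper1 #3375), so the Hilbert-90 descent is run one cyclic layer
`F_{H''} ⊂ F_{H'}` at a time.  At each level the candidate is
`Y = { z | p z = 0, ⟨d⟩ z = z ∀ d, z in the generalised eigenspaces of the T_k, ((Φ-α)(Φ-β))^N z = 0, z ∈ K_∞ ∩ K_0 }` (`s59n_Y`).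
The operator `E = Φ - q` (Frobenius minus `q`) preserves `Y` and is injective on it (`s59n_Y_E`, `s59n_Y_E_inj`), kills the
`p`-torsion of `ker π^*` (Shimura subgroup, `μ`-type) and moves Kummer kernels down (residue descent).

* **`s59n_layer_step`** : `Y'' = 0 ⇒ Y' = 0` from (D) descent, (Σ) `Φ = q` on `ker π ∩ J''[p]`, (N∞), (N0) residue descent,
  (πT) Hecke compatibility.  NO Hecke-Eisenstein input (KT) is needed: `E` kills `ker π` by itself.
* `s59n_piT_of_frobQuad`    : (πT) from Eichler–Shimura on both levels;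
* `s59n_unip_of_pow_eq_one` : an endomorphism of order `p ^ n` is unipotent on `p`-torsion;
* `s59n_exists_common_fixed`: common fixed vectors of a finite commuting unipotent family.
-/
import Mathlib
import Fermat.Agent.Lib.S59.NAsm

set_option autoImplicit false
set_option linter.style.haveILetI false
set_option linter.unusedSectionVars false

namespace Fermat.Agent.Lib.S59

section Layer

variable {J : Type*} [AddCommGroup J]

/-- the quadratic operator `Φ² - t Φ + d` of an endomorphism (`t = α + β`, `d = α β` when the roots exist). -/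
def s59n_quadE (Φ : AddMonoid.End J) (t d : ℤ) : AddMonoid.End J :=
  Φ * Φ - (t : AddMonoid.End J) * Φ + (d : AddMonoid.End J)

theorem s59n_quadOp_eq_quadE {G : Type*} [Group G] [DistribMulAction G J] (g : G) (α β : ℤ) :
    s59n_quadOp J g α β = s59n_quadE (s59n_sm J g) (α + β) (α * β) := rfl

/-- powers of commuting endomorphisms. -/
theorem s59n_pow_comm_apply (A B : AddMonoid.End J) (h : ∀ z, A (B z) = B (A z)) (N : ℕ) (z : J) :
    (A ^ N) (B z) = B ((A ^ N) z) := by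
  induction N generalizing z with
  | zero => rfl
  | succ N ih => rw [pow_succ, s59n_end_mul_apply, s59n_end_mul_apply, h, ih]

theorem s59n_sub_int_comm (A B : AddMonoid.End J) (c : ℤ) (h : ∀ z, A (B z) = B (A z)) (z : J) :
    (A - (c : AddMonoid.End J)) (B z) = B ((A - (c : AddMonoid.End J)) z) := by
  rw [s59n_end_sub_apply, s59n_end_sub_apply, s59n_intCast_end_apply, s59n_intCast_end_apply, h,
    map_sub, map_zsmul]

theorem s59n_quadE_comm (Φ B : AddMonoid.End J) (α β : ℤ) (h : ∀ z, Φ (B z) = B (Φ z)) (z : J) :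
    (s59n_quadE Φ α β) (B z) = B ((s59n_quadE Φ α β) z) := by
  unfold s59n_quadE
  rw [s59n_end_add_apply, s59n_end_sub_apply, s59n_end_mul_apply, s59n_end_mul_apply,
    s59n_intCast_end_apply, s59n_intCast_end_apply, s59n_end_add_apply, s59n_end_sub_apply,
    s59n_end_mul_apply, s59n_end_mul_apply, s59n_intCast_end_apply, s59n_intCast_end_apply,
    h, h, map_add, map_sub, map_zsmul, map_zsmul]

/-- `Φ - q` as an endomorphism. -/
def s59n_E (Φ : AddMonoid.End J) (q : ℕ) : AddMonoid.End J := Φ - ((q : ℤ) : AddMonoid.End J)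

theorem s59n_E_apply (Φ : AddMonoid.End J) (q : ℕ) (z : J) : s59n_E Φ q z = Φ z - q • z := by
  unfold s59n_E
  rw [s59n_end_sub_apply, s59n_intCast_end_apply, natCast_zsmul]

theorem s59n_E_comm (Φ B : AddMonoid.End J) (q : ℕ) (h : ∀ z, B (Φ z) = Φ (B z)) (z : J) :
    B (s59n_E Φ q z) = s59n_E Φ q (B z) := by
  rw [s59n_E_apply, s59n_E_apply, map_sub, map_nsmul, h]

/-- on a vector with `Φ z = q z` the quadratic operator is the scalar `q² - t q + d`. -/
theorem s59n_quadE_pow_eigen (Φ : AddMonoid.End J) (q : ℕ) (α β : ℤ) (z : J) (hz : Φ z = q • z) (N : ℕ) :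
    ((s59n_quadE Φ α β) ^ N) z = (((q : ℤ) ^ 2 - α * (q : ℤ) + β) ^ N) • z := by
  have h1 : ∀ y : J, Φ y = (q : ℤ) • y → (s59n_quadE Φ α β) y = ((q : ℤ) ^ 2 - α * (q : ℤ) + β) • y := by
    intro y hy
    unfold s59n_quadE
    rw [s59n_end_add_apply, s59n_end_sub_apply, s59n_end_mul_apply, s59n_end_mul_apply,
      s59n_intCast_end_apply, s59n_intCast_end_apply, hy, map_zsmul, hy, ← mul_smul, ← mul_smul,
      ← sub_smul, ← add_smul]
    congr 1
    ring
  have hz' : Φ z = (q : ℤ) • z := by rw [hz, natCast_zsmul]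
  induction N with
  | zero => rw [pow_zero, pow_zero, one_smul]; rfl
  | succ N ih =>
    rw [pow_succ', s59n_end_mul_apply, ih, map_zsmul, h1 z hz', ← mul_smul, ← pow_succ]

variable {ι κ : Type*}

/-- the candidate subgroup at one level of the tower (as a predicate). -/
def s59n_Y (Φ : AddMonoid.End J) (D : ι → AddMonoid.End J) (T : κ → AddMonoid.End J) (a : κ → ℤ)
    (p : ℕ) (α β : ℤ) (Kinf Kzero : AddSubgroup J) (z : J) : Prop :=
  p • z = 0 ∧ (∀ d, D d z = z) ∧ (∀ k, ∃ N : ℕ, ((T k - (a k : AddMonoid.End J)) ^ N) z = 0) ∧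
    (∃ N : ℕ, ((s59n_quadE Φ α β) ^ N) z = 0) ∧ z ∈ Kinf ∧ z ∈ Kzero

/-- `Φ - q` preserves the candidate. -/
theorem s59n_Y_E (Φ : AddMonoid.End J) (D : ι → AddMonoid.End J) (T : κ → AddMonoid.End J) (a : κ → ℤ)
    (p q : ℕ) (α β : ℤ) (Kinf Kzero : AddSubgroup J)
    (hDΦ : ∀ d z, D d (Φ z) = Φ (D d z)) (hTΦ : ∀ k z, T k (Φ z) = Φ (T k z))
    (hΦKinf : ∀ z ∈ Kinf, Φ z ∈ Kinf) (hΦKzero : ∀ z ∈ Kzero, (∀ d, D d z = z) → Φ z ∈ Kzero)
    {z : J} (hz : s59n_Y Φ D T a p α β Kinf Kzero z) :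
    s59n_Y Φ D T a p α β Kinf Kzero (s59n_E Φ q z) := by
  obtain ⟨h1, h2, h3, h4, h5, h6⟩ := hz
  refine ⟨?_, ?_, ?_, ?_, ?_, ?_⟩
  · rw [← map_nsmul, h1, map_zero]
  · intro d
    rw [s59n_E_comm Φ (D d) q (hDΦ d), h2 d]
  · intro k
    obtain ⟨N, hN⟩ := h3 k
    refine ⟨N, ?_⟩
    have hc : ∀ y, (T k - (a k : AddMonoid.End J)) (s59n_E Φ q y) =
        s59n_E Φ q ((T k - (a k : AddMonoid.End J)) y) := by
      intro y
      rw [s59n_end_sub_apply, s59n_end_sub_apply, s59n_intCast_end_apply, s59n_intCast_end_apply,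
        s59n_E_comm Φ (T k) q (hTΦ k), map_sub, map_zsmul]
    rw [s59n_pow_comm_apply _ _ hc, hN, map_zero]
  · obtain ⟨N, hN⟩ := h4
    refine ⟨N, ?_⟩
    have hc : ∀ y, (s59n_quadE Φ α β) (s59n_E Φ q y) = s59n_E Φ q ((s59n_quadE Φ α β) y) := by
      intro y
      exact s59n_E_comm Φ (s59n_quadE Φ α β) q (fun y => (s59n_quadE_comm Φ Φ α β (fun _ => rfl) y)) y
    rw [s59n_pow_comm_apply _ _ hc, hN, map_zero]
  · rw [s59n_E_apply]
    exact Kinf.sub_mem (hΦKinf z h5) (Kinf.nsmul_mem h5 q)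
  · rw [s59n_E_apply]
    exact Kzero.sub_mem (hΦKzero z h6 h2) (Kzero.nsmul_mem h6 q)

/-- `Φ - q` is injective on the candidate (`α = t`, `β = d`: the trace and the determinant of the quadratic operator). -/
theorem s59n_Y_E_inj (Φ : AddMonoid.End J) (D : ι → AddMonoid.End J) (T : κ → AddMonoid.End J) (a : κ → ℤ)
    (p q : ℕ) (α β : ℤ) (hαβ : IsCoprime ((q : ℤ) ^ 2 - α * (q : ℤ) + β) (p : ℤ))
    (Kinf Kzero : AddSubgroup J) {z : J} (hz : s59n_Y Φ D T a p α β Kinf Kzero z)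
    (h0 : s59n_E Φ q z = 0) : z = 0 := by
  obtain ⟨h1, -, -, ⟨N, hN⟩, -, -⟩ := hz
  rw [s59n_E_apply, sub_eq_zero] at h0
  rw [s59n_quadE_pow_eigen Φ q α β z h0 N] at hN
  obtain ⟨u, v, huv⟩ := (hαβ.pow_left : IsCoprime (((q : ℤ) ^ 2 - α * (q : ℤ) + β) ^ N) (p : ℤ))
  have hpz : (p : ℤ) • z = 0 := by rw [natCast_zsmul]; exact h1
  calc z = (u * ((q : ℤ) ^ 2 - α * (q : ℤ) + β) ^ N + v * (p : ℤ)) • z := by rw [huv, one_smul]
    _ = 0 := by rw [add_smul, mul_smul, mul_smul, hpz, hN, smul_zero, smul_zero, add_zero]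

/-- **THE LAYER STEP OF THE TOWER.**  `π : J'' → J'` (pull-back along a cyclic unramified layer), `Φ` (Frobenius), `D` (diamonds),
`T` (Hecke operators), `K_∞, K_0` (Kummer kernels) on both levels.  If the candidate at the lower level `J''` vanishes, so does the
candidate at the upper level `J'`.  Inputs: (D) descent of `d₀`-invariant classes up to `Φ - q`; (Σ) `Φ = q` on `ker π`; (N) residue
descent of the Kummer kernels up to `Φ - q`; (πT) compatibility of `π` with the Hecke operators on classes with invariant image. -/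
theorem s59n_layer_step {J' J'' : Type*} [AddCommGroup J'] [AddCommGroup J''] (π : J'' →+ J')
    (Φ' : AddMonoid.End J') (Φ'' : AddMonoid.End J'') (hπΦ : ∀ w, π (Φ'' w) = Φ' (π w))
    (D' : ι → AddMonoid.End J') (D'' : ι → AddMonoid.End J'')
    (hπD : ∀ d w, π (D'' d w) = D' d (π w))
    (hD'Φ : ∀ d z, D' d (Φ' z) = Φ' (D' d z)) (hD''Φ : ∀ d w, D'' d (Φ'' w) = Φ'' (D'' d w))
    (T' : κ → AddMonoid.End J') (T'' : κ → AddMonoid.End J'') (a : κ → ℤ)
    (hT'Φ : ∀ k z, T' k (Φ' z) = Φ' (T' k z)) (hT''Φ : ∀ k w, T'' k (Φ'' w) = Φ'' (T'' k w))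
    (p q : ℕ) (α β : ℤ) (hαβ : IsCoprime ((q : ℤ) ^ 2 - α * (q : ℤ) + β) (p : ℤ))
    (hT'D' : ∀ k d z, p • z = 0 → D' d (T' k z) = T' k (D' d z))
    (K'inf K'zero : AddSubgroup J') (K''inf K''zero : AddSubgroup J'')
    (hΦK'inf : ∀ z ∈ K'inf, Φ' z ∈ K'inf)
    (hΦK'zero : ∀ z ∈ K'zero, (∀ d, D' d z = z) → Φ' z ∈ K'zero)
    (hΦK''inf : ∀ w ∈ K''inf, Φ'' w ∈ K''inf)
    (hΦK''zero : ∀ w ∈ K''zero, (∀ d, D'' d w = w) → Φ'' w ∈ K''zero)
    (d₀ : ι)
    (hD : ∀ z : J', p • z = 0 → D' d₀ z = z → ∃ w : J'', p • w = 0 ∧ π w = Φ' z - q • z)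
    (hSig : ∀ w : J'', p • w = 0 → π w = 0 → Φ'' w = q • w)
    (hNinf : ∀ w : J'', p • w = 0 → π w ∈ K'inf → Φ'' w - q • w ∈ K''inf)
    (hNzero : ∀ w : J'', p • w = 0 → (∀ d, D'' d w = w) → π w ∈ K'zero → Φ'' w - q • w ∈ K''zero)
    (hπT : ∀ (k : κ) (w : J''), p • w = 0 → (∀ d, D' d (π w) = π w) → π (T'' k w) = T' k (π w))
    (hbot : ∀ w : J'', s59n_Y Φ'' D'' T'' a p α β K''inf K''zero w → w = 0) :
    ∀ z : J', s59n_Y Φ' D' T' a p α β K'inf K'zero z → z = 0 := by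
  intro z hz
  -- the iterates of `E' = Φ' - q`
  have hYE : ∀ y : J', s59n_Y Φ' D' T' a p α β K'inf K'zero y →
      s59n_Y Φ' D' T' a p α β K'inf K'zero (s59n_E Φ' q y) := fun y hy =>
    s59n_Y_E Φ' D' T' a p q α β K'inf K'zero hD'Φ hT'Φ hΦK'inf hΦK'zero hy
  have hinj : ∀ y : J', s59n_Y Φ' D' T' a p α β K'inf K'zero y → s59n_E Φ' q y = 0 → y = 0 :=
    fun y hy h0 => s59n_Y_E_inj Φ' D' T' a p q α β hαβ K'inf K'zero hy h0
  have hz1 := hYE z hz
  have hz2 := hYE _ hz1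
  have hz3 := hYE _ hz2
  -- `π` and `E`
  have hπE : ∀ w : J'', π (s59n_E Φ'' q w) = s59n_E Φ' q (π w) := by
    intro w
    rw [s59n_E_apply, s59n_E_apply, map_sub, map_nsmul, hπΦ]
  have hEp : ∀ w : J'', p • w = 0 → p • (s59n_E Φ'' q w) = 0 := by
    intro w hw
    rw [← map_nsmul, hw, map_zero]
  -- `E''` kills the `p`-torsion of `ker π`
  have hEker : ∀ w : J'', p • w = 0 → π w = 0 → s59n_E Φ'' q w = 0 := by
    intro w hw hπw
    rw [s59n_E_apply, hSig w hw hπw, sub_self]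
  -- the descent
  obtain ⟨w, hwp, hπw⟩ := hD z hz.1 (hz.2.1 d₀)
  have hπw' : π w = s59n_E Φ' q z := by rw [hπw, s59n_E_apply]
  set w₁ := s59n_E Φ'' q w with hw₁
  set w₂ := s59n_E Φ'' q w₁ with hw₂
  set w₃ := s59n_E Φ'' q w₂ with hw₃
  have hw₁p : p • w₁ = 0 := hEp w hwp
  have hw₂p : p • w₂ = 0 := hEp w₁ hw₁p
  have hw₃p : p • w₃ = 0 := hEp w₂ hw₂p
  have hπw₁ : π w₁ = s59n_E Φ' q (s59n_E Φ' q z) := by rw [hw₁, hπE, hπw']
  have hπw₂ : π w₂ = s59n_E Φ' q (s59n_E Φ' q (s59n_E Φ' q z)) := by rw [hw₂, hπE, hπw₁]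
  -- invariance under the diamonds
  have hw₁D : ∀ d, D'' d w₁ = w₁ := by
    intro d
    have h1 : p • (D'' d w - w) = 0 := by
      rw [nsmul_sub, ← map_nsmul, hwp, map_zero, sub_zero]
    have h2 : π (D'' d w - w) = 0 := by
      rw [map_sub, hπD, hπw', hz1.2.1 d, sub_self]
    have h3 := hEker _ h1 h2
    rw [map_sub, sub_eq_zero, ← s59n_E_comm Φ'' (D'' d) q (hD''Φ d)] at h3
    exact h3
  have hED : ∀ y : J'', (∀ d, D'' d y = y) → ∀ d, D'' d (s59n_E Φ'' q y) = s59n_E Φ'' q y := by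
    intro y hy d
    rw [s59n_E_comm Φ'' (D'' d) q (hD''Φ d), hy d]
  have hw₂D := hED w₁ hw₁D
  have hw₃D := hED w₂ hw₂D
  -- the Kummer kernels
  have hw₂inf : w₂ ∈ K''inf := by
    have := hNinf w₁ hw₁p (by rw [hπw₁]; exact hz2.2.2.2.2.1)
    rwa [← s59n_E_apply] at this
  have hw₂zero : w₂ ∈ K''zero := by
    have := hNzero w₁ hw₁p hw₁D (by rw [hπw₁]; exact hz2.2.2.2.2.2)
    rwa [← s59n_E_apply] at this
  have hw₃inf : w₃ ∈ K''inf := by
    rw [hw₃, s59n_E_apply]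
    exact K''inf.sub_mem (hΦK''inf _ hw₂inf) (K''inf.nsmul_mem hw₂inf q)
  have hw₃zero : w₃ ∈ K''zero := by
    rw [hw₃, s59n_E_apply]
    exact K''zero.sub_mem (hΦK''zero _ hw₂zero hw₂D) (K''zero.nsmul_mem hw₂zero q)
  -- the generalised eigenspace
  have hπTpow : ∀ (k : κ) (N : ℕ) (y : J''), p • y = 0 → (∀ d, D' d (π y) = π y) →
      π (((T'' k - (a k : AddMonoid.End J'')) ^ N) y) = ((T' k - (a k : AddMonoid.End J')) ^ N) (π y) ∧
        p • (((T'' k - (a k : AddMonoid.End J'')) ^ N) y) = 0 := by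
    intro k N
    induction N with
    | zero => intro y hy _; exact ⟨rfl, hy⟩
    | succ N ih =>
      intro y hy hDy
      have hy1 : p • ((T'' k - (a k : AddMonoid.End J'')) y) = 0 := by
        rw [← map_nsmul, hy, map_zero]
      have hπ1 : π ((T'' k - (a k : AddMonoid.End J'')) y) = (T' k - (a k : AddMonoid.End J')) (π y) := by
        rw [s59n_end_sub_apply, s59n_end_sub_apply, s59n_intCast_end_apply, s59n_intCast_end_apply,
          map_sub, map_zsmul, hπT k y hy hDy]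
      have hD1 : ∀ d, D' d (π ((T'' k - (a k : AddMonoid.End J'')) y)) =
          π ((T'' k - (a k : AddMonoid.End J'')) y) := by
        intro d
        rw [hπ1, s59n_end_sub_apply, s59n_intCast_end_apply, map_sub, map_zsmul,
          hT'D' k d (π y) (by rw [← map_nsmul, hy, map_zero]), hDy d]
      obtain ⟨h1, h2⟩ := ih _ hy1 hD1
      rw [pow_succ, s59n_end_mul_apply, pow_succ, s59n_end_mul_apply]
      exact ⟨by rw [h1, hπ1], h2⟩
  have hw₃T : ∀ k, ∃ N : ℕ, ((T'' k - (a k : AddMonoid.End J'')) ^ N) w₃ = 0 := by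
    intro k
    obtain ⟨N, hN⟩ := hz3.2.2.1 k
    refine ⟨N, ?_⟩
    obtain ⟨h1, h2⟩ := hπTpow k N w₂ hw₂p (by rw [hπw₂]; exact hz3.2.1)
    have h3 : π (((T'' k - (a k : AddMonoid.End J'')) ^ N) w₂) = 0 := by rw [h1, hπw₂, hN]
    have h4 := hEker _ h2 h3
    have hc : ∀ y, (T'' k - (a k : AddMonoid.End J'')) (s59n_E Φ'' q y) =
        s59n_E Φ'' q ((T'' k - (a k : AddMonoid.End J'')) y) := by
      intro y
      rw [s59n_end_sub_apply, s59n_end_sub_apply, s59n_intCast_end_apply, s59n_intCast_end_apply,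
        s59n_E_comm Φ'' (T'' k) q (hT''Φ k), map_sub, map_zsmul]
    rw [hw₃, s59n_pow_comm_apply _ _ hc, h4]
  -- nilpotency of the quadratic operator
  have hquadπ : ∀ (N : ℕ) (y : J''), π (((s59n_quadE Φ'' α β) ^ N) y) = ((s59n_quadE Φ' α β) ^ N) (π y) := by
    have h1 : ∀ y : J'', π ((s59n_quadE Φ'' α β) y) = (s59n_quadE Φ' α β) (π y) := by
      intro y
      unfold s59n_quadE
      rw [s59n_end_add_apply, s59n_end_sub_apply, s59n_end_mul_apply, s59n_end_mul_apply,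
        s59n_intCast_end_apply, s59n_intCast_end_apply, s59n_end_add_apply, s59n_end_sub_apply,
        s59n_end_mul_apply, s59n_end_mul_apply, s59n_intCast_end_apply, s59n_intCast_end_apply,
        map_add, map_sub, map_zsmul, map_zsmul, hπΦ, hπΦ]
    intro N
    induction N with
    | zero => intro y; rfl
    | succ N ih =>
      intro y
      rw [pow_succ, s59n_end_mul_apply, pow_succ, s59n_end_mul_apply, ih, h1]
  have hw₃Q : ∃ N : ℕ, ((s59n_quadE Φ'' α β) ^ N) w₃ = 0 := by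
    obtain ⟨N, hN⟩ := hz3.2.2.2.1
    refine ⟨N, ?_⟩
    have h2 : p • (((s59n_quadE Φ'' α β) ^ N) w₂) = 0 := by rw [← map_nsmul, hw₂p, map_zero]
    have h3 : π (((s59n_quadE Φ'' α β) ^ N) w₂) = 0 := by rw [hquadπ, hπw₂, hN]
    have h4 := hEker _ h2 h3
    have hc : ∀ y, (s59n_quadE Φ'' α β) (s59n_E Φ'' q y) = s59n_E Φ'' q ((s59n_quadE Φ'' α β) y) :=
      fun y => s59n_E_comm Φ'' (s59n_quadE Φ'' α β) q
        (fun y => (s59n_quadE_comm Φ'' Φ'' α β (fun _ => rfl) y)) y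
    rw [hw₃, s59n_pow_comm_apply _ _ hc, h4]
  -- conclusion
  have hw₃0 : w₃ = 0 := hbot w₃ ⟨hw₃p, hw₃D, hw₃T, hw₃Q, hw₃inf, hw₃zero⟩
  have h4 : s59n_E Φ' q (s59n_E Φ' q (s59n_E Φ' q (s59n_E Φ' q z))) = 0 := by
    rw [← hπw₂, ← hπE, ← hw₃, hw₃0, map_zero]
  exact hinj z hz (hinj _ hz1 (hinj _ hz2 (hinj _ hz3 h4)))

end Layer

section Aux

variable {J : Type*} [AddCommGroup J]

/-- **(πT) from Eichler–Shimura on both levels.**  `σ² - T σ + ℓ ⟨ℓ⟩ = 0` on the `p`-torsion of `J'` and of `J''`, `π` equivariant: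
on classes `w` with `⟨ℓ⟩'' (σ⁻¹ w) = σ⁻¹ w` and `⟨ℓ⟩' π(σ⁻¹ w) = π(σ⁻¹ w)`, `π T'' = T' π`. -/
theorem s59n_piT_of_frobQuad {G : Type*} [Group G] {J' J'' : Type*} [AddCommGroup J'] [AddCommGroup J'']
    [DistribMulAction G J'] [DistribMulAction G J''] (π : J'' →+ J')
    (hπG : ∀ (g : G) (w : J''), π (g • w) = g • π w) (σ : G)
    (T' : AddMonoid.End J') (T'' : AddMonoid.End J'') (ℓ : ℤ)
    (Dl' : AddMonoid.End J') (Dl'' : AddMonoid.End J'') (p : ℕ)
    (hq' : ∀ z : J', p • z = 0 → σ • σ • z - T' (σ • z) + ℓ • Dl' z = 0)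
    (hq'' : ∀ w : J'', p • w = 0 → σ • σ • w - T'' (σ • w) + ℓ • Dl'' w = 0)
    (w : J'') (hw : p • w = 0) (hDw : Dl'' (σ⁻¹ • w) = σ⁻¹ • w)
    (hDπ : Dl' (π (σ⁻¹ • w)) = π (σ⁻¹ • w)) : π (T'' w) = T' (π w) := by
  set w' := σ⁻¹ • w with hw'
  have hw'p : p • w' = 0 := by rw [hw', smul_comm, hw, smul_zero]
  have hσw' : σ • w' = w := by rw [hw', smul_inv_smul]
  have h1 := hq'' w' hw'p
  rw [hσw', hDw] at h1
  have h2 := hq' (π w') (by rw [← map_nsmul, hw'p, map_zero])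
  rw [hDπ, ← hπG, hσw'] at h2
  have h3 := congrArg π h1
  rw [map_add, map_sub, map_zsmul, hπG, map_zero] at h3
  have h4 : π (T'' w) - T' (π w) = 0 := by
    have := sub_eq_zero.mpr (h2.trans h3.symm)
    rw [← this]
    abel
  exact sub_eq_zero.mp h4

/-- an endomorphism of `p`-power order is unipotent on `p`-torsion (`p` odd). -/
theorem s59n_unip_of_pow_eq_one (D : AddMonoid.End J) (p n : ℕ) (hp : p.Prime) (hp2 : p ≠ 2)
    (hD : D ^ (p ^ n) = 1) (z : J) (hz : p • z = 0) : ((D - 1) ^ (p ^ n)) z = 0 := by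
  obtain ⟨r, hr⟩ := (Commute.neg_one_right D).exists_add_pow_prime_pow_eq hp n
  have hodd : Odd (p ^ n) := (hp.odd_of_ne_two hp2).pow
  rw [hodd.neg_one_pow, hD] at hr
  have e : D - 1 = D + -1 := sub_eq_add_neg D 1
  rw [e, hr, add_neg_cancel, zero_add]
  have h1 : ((p : AddMonoid.End J) * D * -1 * r) z = p • ((D * -1 * r) z) := by
    rw [mul_assoc, mul_assoc, s59n_end_mul_apply]
    exact AddMonoid.End.natCast_apply p _
  rw [h1, ← map_nsmul, hz, map_zero]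

variable {ι : Type*}

/-- a common fixed vector of a finite commuting family of unipotent endomorphisms. -/
theorem s59n_exists_common_fixed [Finite ι] (Z : AddSubgroup J) (D : ι → AddMonoid.End J)
    (hcomm : ∀ d d' z, D d (D d' z) = D d' (D d z)) (hZD : ∀ d, ∀ z ∈ Z, D d z ∈ Z)
    (hnil : ∀ d, ∀ z ∈ Z, ∃ k : ℕ, ((D d - 1) ^ k) z = 0) (z₀ : J) (hz₀ : z₀ ∈ Z) (hz₀ne : z₀ ≠ 0) :
    ∃ z ∈ Z, z ≠ 0 ∧ ∀ d, D d z = z := by
  classical
  haveI := Fintype.ofFinite ι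
  have key : ∀ S : Finset ι, ∃ z ∈ Z, z ≠ 0 ∧ ∀ d ∈ S, D d z = z := by
    intro S
    induction S using Finset.induction_on with
    | empty => exact ⟨z₀, hz₀, hz₀ne, fun d hd => absurd hd (Finset.notMem_empty d)⟩
    | insert d₁ S _ ih =>
      obtain ⟨z, hz, hzne, hzS⟩ := ih
      obtain ⟨k, hk⟩ := hnil d₁ z hz
      have hstab : ∀ j : ℕ, ((D d₁ - 1) ^ j) z ∈ Z ∧ ∀ d ∈ S, D d (((D d₁ - 1) ^ j) z) = ((D d₁ - 1) ^ j) z := by
        intro j
        induction j with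
        | zero => exact ⟨hz, hzS⟩
        | succ j ihj =>
          rw [pow_succ', s59n_end_mul_apply, s59n_end_sub_apply, s59n_end_one_apply]
          refine ⟨Z.sub_mem (hZD _ _ ihj.1) ihj.1, fun d hd => ?_⟩
          rw [map_sub, hcomm, ihj.2 d hd]
      have hex : ∃ j : ℕ, ((D d₁ - 1) ^ j) z = 0 := ⟨k, hk⟩
      have hj0 : Nat.find hex ≠ 0 := by
        intro h0
        have := Nat.find_spec hex
        rw [h0, pow_zero] at this
        exact hzne this
      obtain ⟨j, hj⟩ := Nat.exists_eq_succ_of_ne_zero hj0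
      have hjne : ((D d₁ - 1) ^ j) z ≠ 0 := Nat.find_min hex (by rw [hj]; exact Nat.lt_succ_self j)
      have hjz : ((D d₁ - 1) ^ (j + 1)) z = 0 := by
        have := Nat.find_spec hex
        rwa [hj] at this
      refine ⟨((D d₁ - 1) ^ j) z, (hstab j).1, hjne, fun d hd => ?_⟩
      rcases Finset.mem_insert.mp hd with rfl | hdS
      · rw [pow_succ', s59n_end_mul_apply, s59n_end_sub_apply, s59n_end_one_apply, sub_eq_zero] at hjz
        exact hjz
      · exact (hstab j).2 d hdS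
  obtain ⟨z, hz, hzne, hzS⟩ := key Finset.univ
  exact ⟨z, hz, hzne, fun d => hzS d (Finset.mem_univ d)⟩

end Aux

end Fermat.Agent.Lib.S59
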