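/-
Programme (R) / node [IA′], C7 = (G2), input [C7-d] (d4) (nil), abstract part (helper9, prefix `s59m_`):
**NILPOTENCY OF THE QUADRATIC FROBENIUS OPERATOR ON THE GENERALISED EIGENSPACE** (Mathlib + helper7's `NAsm`/`NLayer`; pure algebra).

`G` acts on `J`; `σ ∈ G` (a Frobenius at `ℓ`), `T`, `D` endomorphisms (`T_ℓ`, `⟨ℓ⟩`) commuting with `σ`, with the Eichler–Shimura
relation `σ² - T σ + c D = 0` on `J[p]` (`c = ℓ`).

* `s59m_quadTD J g t d` : the operator `g² - t g + d`; `s59n_quadOp J g α β = s59m_quadTD J g (α + β) (α β)` (`rfl`);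
* **`s59m_nil_core`** : `x ∈ J[p]`, `(T - a)^m x = 0`, `(D - 1)^k x = 0` ⇒ `(σ² - a σ + c)^(m+k) x = 0`;
* **`s59m_nil_transfer`** : `V ≤ J[p]` a `G`-stable subgroup on which `σ g = g φ`; `a ≡ t`, `c ≡ d mod p` ⇒
  `(σ² - a σ + c)^N (g x) = g (φ² - t φ + d)^N x` for `x ∈ V`.
-/
import Mathlib
import Fermat.Agent.Lib.S59.NLayer

set_option autoImplicit false
set_option linter.style.haveILetI false
set_option linter.unusedSectionVars false

namespace Fermat.Agent.Lib.S59

section NilAbs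

variable {G : Type*} [Group G] {J : Type*} [AddCommGroup J] [DistribMulAction G J]

/-- the quadratic operator `g² - t g + d`. -/
def s59m_quadTD (J : Type*) [AddCommGroup J] [DistribMulAction G J] (g : G) (t d : ℤ) :
    AddMonoid.End J :=
  s59n_sm J g * s59n_sm J g - (t : AddMonoid.End J) * s59n_sm J g + (d : AddMonoid.End J)

theorem s59m_quadTD_apply (g : G) (t d : ℤ) (x : J) :
    s59m_quadTD J g t d x = g • g • x - t • g • x + d • x := by
  unfold s59m_quadTD
  rw [s59n_end_add_apply, s59n_end_sub_apply, s59n_end_mul_apply, s59n_end_mul_apply,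
    s59n_intCast_end_apply, s59n_intCast_end_apply]
  rfl

theorem s59m_quadOp_eq_quadTD (g : G) (α β : ℤ) :
    s59n_quadOp J g α β = s59m_quadTD J g (α + β) (α * β) := rfl

theorem s59m_quadE_eq_quadTD (g : G) (t d : ℤ) :
    s59n_quadE (s59n_sm J g) t d = s59m_quadTD J g t d := rfl

/-- additive maps preserve `p`-torsion. -/
theorem s59m_tors_map (p : ℕ) (f : AddMonoid.End J) {x : J} (hx : p • x = 0) : p • f x = 0 := by
  rw [← map_nsmul, hx, map_zero]

theorem s59m_tors_smul (p : ℕ) (g : G) {x : J} (hx : p • x = 0) : p • (g • x) = 0 := by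
  rw [smul_comm, hx, smul_zero]

/-- powers of an endomorphism commute with an endomorphism commuting with it on a stable predicate. -/
theorem s59m_pow_comm_on (P : J → Prop) (A B : AddMonoid.End J) (hA : ∀ y, P y → P (A y))
    (h : ∀ y, P y → A (B y) = B (A y)) (N : ℕ) :
    ∀ z : J, P z → (A ^ N) (B z) = B ((A ^ N) z) ∧ P ((A ^ N) z) := by
  induction N with
  | zero => intro z hz; exact ⟨rfl, hz⟩
  | succ N ih =>
    intro z hz
    rw [pow_succ, s59n_end_mul_apply, s59n_end_mul_apply, h z hz]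
    exact ih (A z) (hA z hz)

/-- **(nil), core.**  On `J[p]`: `σ² - T σ + c D = 0`, `σ` commutes with `T` and `D`.  If `(T - a)^m x = 0` and `(D - 1)^k x = 0`
then `(σ² - a σ + c)^(m+k) x = 0`. -/
theorem s59m_nil_core (p : ℕ) (σ : G) (T D : AddMonoid.End J) (a c : ℤ)
    (hsT : ∀ x : J, σ • T x = T (σ • x)) (hsD : ∀ x : J, σ • D x = D (σ • x))
    (hquad : ∀ x : J, p • x = 0 → σ • σ • x - T (σ • x) + c • D x = 0) :
    ∀ (s m k : ℕ), m + k = s → ∀ x : J, p • x = 0 →
      ((T - (a : AddMonoid.End J)) ^ m) x = 0 → ((D - 1) ^ k) x = 0 →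
        ((s59m_quadTD J σ a c) ^ s) x = 0 := by
  set n₁ : AddMonoid.End J := T - (a : AddMonoid.End J) with hn₁
  set n₂ : AddMonoid.End J := D - 1 with hn₂
  set Sg : AddMonoid.End J := s59n_sm J σ with hSg
  have hSga : ∀ x : J, Sg x = σ • x := fun _ => rfl
  have hn₁a : ∀ x : J, n₁ x = T x - a • x := by
    intro x
    rw [hn₁, s59n_end_sub_apply, s59n_intCast_end_apply]
  have hn₂a : ∀ x : J, n₂ x = D x - x := by
    intro x
    rw [hn₂, s59n_end_sub_apply, s59n_end_one_apply]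
  -- `σ⁻¹` commutes with `D`
  have hsD' : ∀ x : J, σ⁻¹ • D x = D (σ⁻¹ • x) := by
    intro x
    have := hsD (σ⁻¹ • x)
    rw [smul_inv_smul] at this
    rw [← this, inv_smul_smul]
  -- `T = σ + c D σ⁻¹` on `J[p]`
  have hT : ∀ x : J, p • x = 0 → T x = σ • x + c • D (σ⁻¹ • x) := by
    intro x hx
    have h1 := hquad (σ⁻¹ • x) (s59m_tors_smul p σ⁻¹ hx)
    rw [smul_inv_smul, sub_add_eq_add_sub, sub_eq_zero] at h1
    exact h1.symm
  -- `T` and `D` commute on `J[p]`
  have hTD : ∀ x : J, p • x = 0 → T (D x) = D (T x) := by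
    intro x hx
    rw [hT x hx, hT (D x) (s59m_tors_map p D hx), map_add, map_zsmul, hsD, hsD']
  -- `n₁`, `n₂`, `σ`
  have hn₁σ : ∀ x : J, n₁ (Sg x) = Sg (n₁ x) := by
    intro x
    rw [hn₁a, hn₁a, hSga, hSga, smul_sub, hsT]
    congr 1
    exact (map_zsmul (DistribSMul.toAddMonoidHom J σ) a x).symm
  have hn₂σ : ∀ x : J, n₂ (Sg x) = Sg (n₂ x) := by
    intro x
    rw [hn₂a, hn₂a, hSga, hSga, smul_sub, hsD]
  have hn₁n₂ : ∀ x : J, p • x = 0 → n₁ (n₂ x) = n₂ (n₁ x) := by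
    intro x hx
    have e1 : n₁ (n₂ x) = T (D x) - T x - (a • D x - a • x) := by
      rw [hn₁a, hn₂a, map_sub, smul_sub]
    have e2 : n₂ (n₁ x) = D (T x) - a • D x - (T x - a • x) := by
      rw [hn₂a, hn₁a, map_sub, map_zsmul]
    rw [e1, e2, hTD x hx]
    abel
  -- the key identity `Q x = n₁ σ x - c n₂ x` on `J[p]`
  have hQ : ∀ x : J, p • x = 0 →
      s59m_quadTD J σ a c x = n₁ (Sg x) - c • n₂ x := by
    intro x hx
    have h1 := hquad x hx
    rw [sub_add_eq_add_sub, sub_eq_zero] at h1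
    rw [s59m_quadTD_apply, hn₁a, hn₂a, hSga, smul_sub, ← h1]
    abel
  intro s
  induction s with
  | zero =>
    intro m k hmk x _ hm _
    have hm0 : m = 0 := by omega
    subst hm0
    rw [pow_zero] at hm ⊢
    exact hm
  | succ s ih =>
    intro m k hmk x hx hm hk
    rcases Nat.eq_zero_or_pos m with hm0 | hmpos
    · subst hm0
      rw [pow_zero] at hm
      have hx0 : x = 0 := hm
      rw [hx0, map_zero]
    rcases Nat.eq_zero_or_pos k with hk0 | hkpos
    · subst hk0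
      rw [pow_zero] at hk
      have hx0 : x = 0 := hk
      rw [hx0, map_zero]
    obtain ⟨m', rfl⟩ := Nat.exists_eq_succ_of_ne_zero hmpos.ne'
    obtain ⟨k', rfl⟩ := Nat.exists_eq_succ_of_ne_zero hkpos.ne'
    rw [pow_succ, s59n_end_mul_apply, hQ x hx, map_sub, map_zsmul]
    have hσx : p • (Sg x) = 0 := s59m_tors_map p Sg hx
    -- first term
    have h1 : ((s59m_quadTD J σ a c) ^ s) (n₁ (Sg x)) = 0 := by
      refine ih m' (k' + 1) (by omega) _ (s59m_tors_map p n₁ hσx) ?_ ?_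
      · have e : (n₁ ^ m') (n₁ (Sg x)) = (n₁ ^ (m' + 1)) (Sg x) := by
          rw [pow_succ, s59n_end_mul_apply]
        rw [e, (s59m_pow_comm_on (fun _ => True) n₁ Sg (fun _ _ => trivial)
          (fun y _ => hn₁σ y) (m' + 1) x trivial).1, hm, map_zero]
      · have e1 := (s59m_pow_comm_on (fun y => p • y = 0) n₂ n₁ (fun y hy => s59m_tors_map p n₂ hy)
          (fun y hy => (hn₁n₂ y hy).symm) (k' + 1) (Sg x) hσx).1
        rw [e1, (s59m_pow_comm_on (fun _ => True) n₂ Sg (fun _ _ => trivial)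
          (fun y _ => hn₂σ y) (k' + 1) x trivial).1, hk, map_zero, map_zero]
    -- second term
    have h2 : ((s59m_quadTD J σ a c) ^ s) (n₂ x) = 0 := by
      refine ih (m' + 1) k' (by omega) _ (s59m_tors_map p n₂ hx) ?_ ?_
      · have e1 := (s59m_pow_comm_on (fun y => p • y = 0) n₁ n₂ (fun y hy => s59m_tors_map p n₁ hy)
          (fun y hy => hn₁n₂ y hy) (m' + 1) x hx).1
        rw [e1, hm, map_zero]
      · have e : (n₂ ^ k') (n₂ x) = (n₂ ^ (k' + 1)) x := by
          rw [pow_succ, s59n_end_mul_apply]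
        rw [e, hk]
    rw [h1, h2, smul_zero, sub_zero]

/-- integers congruent modulo `p` act in the same way on `p`-torsion. -/
theorem s59m_zsmul_congr (p : ℕ) {a t : ℤ} (hat : (p : ℤ) ∣ a - t) {x : J} (hx : p • x = 0) :
    a • x = t • x := by
  obtain ⟨r, hr⟩ := hat
  have h1 : a = t + r * (p : ℤ) := by linarith
  rw [h1, add_smul, mul_smul, natCast_zsmul, hx, smul_zero, add_zero]

/-- **(nil), transfer.**  `V ≤ J[p]` a `G`-stable subgroup on which `σ g = g φ`; `a ≡ t`, `c ≡ d` modulo `p`. -/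
theorem s59m_nil_transfer (p : ℕ) (V : AddSubgroup J) (hVp : ∀ x ∈ V, p • x = 0)
    (hVG : ∀ (g : G), ∀ x ∈ V, g • x ∈ V) (σ φ g : G)
    (hσφ : ∀ x ∈ V, σ • g • x = g • φ • x) (a c t d : ℤ) (hat : (p : ℤ) ∣ a - t)
    (hcd : (p : ℤ) ∣ c - d) (N : ℕ) :
    ∀ x ∈ V, ((s59m_quadTD J σ a c) ^ N) (g • x) = g • ((s59m_quadTD J φ t d) ^ N) x ∧
      ((s59m_quadTD J φ t d) ^ N) x ∈ V := by
  have hstep : ∀ y ∈ V, s59m_quadTD J σ a c (g • y) = g • s59m_quadTD J φ t d y ∧
      s59m_quadTD J φ t d y ∈ V := by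
    intro y hy
    have hφy : φ • y ∈ V := hVG φ y hy
    have hφφy : φ • φ • y ∈ V := hVG φ _ hφy
    refine ⟨?_, ?_⟩
    · rw [s59m_quadTD_apply, s59m_quadTD_apply, hσφ y hy, hσφ _ hφy, smul_add, smul_sub,
        s59m_zsmul_congr p hat (hVp _ (hVG g _ hφy)), s59m_zsmul_congr p hcd (hVp _ (hVG g _ hy))]
      congr 1
      · congr 1
        exact (map_zsmul (DistribSMul.toAddMonoidHom J g) t (φ • y)).symm
      · exact (map_zsmul (DistribSMul.toAddMonoidHom J g) d y).symm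
    · rw [s59m_quadTD_apply]
      exact V.add_mem (V.sub_mem hφφy (V.zsmul_mem hφy t)) (V.zsmul_mem hy d)
  induction N with
  | zero => intro x hx; exact ⟨rfl, hx⟩
  | succ N ih =>
    intro x hx
    obtain ⟨h1, h2⟩ := hstep x hx
    rw [pow_succ, s59n_end_mul_apply, h1, pow_succ, s59n_end_mul_apply]
    exact ih _ h2

/-- the `p`-torsion fixed by the kernel of a homomorphism `t'`. -/
def s59m_fixTors (J : Type*) [AddCommGroup J] [DistribMulAction G J] {T' : Type*} [Group T']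
    (p : ℕ) (t' : G →* T') : AddSubgroup J where
  carrier := {x | p • x = 0 ∧ ∀ h : G, t' h = 1 → h • x = x}
  zero_mem' := ⟨smul_zero p, fun h _ => smul_zero h⟩
  add_mem' := fun {x y} hx hy =>
    ⟨by rw [smul_add, hx.1, hy.1, add_zero], fun h hh => by rw [smul_add, hx.2 h hh, hy.2 h hh]⟩
  neg_mem' := fun {x} hx =>
    ⟨by rw [smul_neg, hx.1, neg_zero], fun h hh => by rw [smul_neg, hx.2 h hh]⟩

theorem s59m_mem_fixTors {T' : Type*} [Group T'] (p : ℕ) (t' : G →* T') (x : J) :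
    x ∈ s59m_fixTors J p t' ↔ p • x = 0 ∧ ∀ h : G, t' h = 1 → h • x = x := Iff.rfl

theorem s59m_fixTors_stable {T' : Type*} [Group T'] (p : ℕ) (t' : G →* T') (g : G) {x : J}
    (hx : x ∈ s59m_fixTors J p t') : g • x ∈ s59m_fixTors J p t' := by
  refine ⟨s59m_tors_smul p g hx.1, fun h hh => ?_⟩
  have h1 : t' (g⁻¹ * h * g) = 1 := by
    rw [map_mul, map_mul, hh, mul_one, map_inv, inv_mul_cancel]
  have h2 := hx.2 _ h1
  calc h • g • x = g • (g⁻¹ * h * g) • x := by
        rw [← mul_smul, ← mul_smul]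
        congr 1
        group
    _ = g • x := by rw [h2]

theorem s59m_fixTors_conj {T' : Type*} [Group T'] (p : ℕ) (t' : G →* T') (σ φ g : G)
    (hσ : t' σ = t' (g * φ * g⁻¹)) {x : J} (hx : x ∈ s59m_fixTors J p t') :
    σ • g • x = g • φ • x := by
  have h1 : t' ((g * φ * g⁻¹)⁻¹ * σ) = 1 := by
    rw [map_mul, map_inv, hσ, inv_mul_cancel]
  have h2 := (s59m_fixTors_stable p t' g hx).2 _ h1
  calc σ • g • x = (g * φ * g⁻¹) • ((g * φ * g⁻¹)⁻¹ * σ) • g • x := by
        rw [← mul_smul (g * φ * g⁻¹), mul_inv_cancel_left]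
    _ = (g * φ * g⁻¹) • g • x := by rw [h2]
    _ = g • φ • x := by
        rw [← mul_smul, ← mul_smul]
        congr 1
        group

/-- **(nil), abstract form.**  `σ` with Eichler–Shimura on `J[p]`, `t' σ = t' (g φ g⁻¹)`, `x` fixed by `ker t'`. -/
theorem s59m_nil_abs {T' : Type*} [Group T'] (p : ℕ) (t' : G →* T') (σ φ g : G)
    (hσ : t' σ = t' (g * φ * g⁻¹)) (T D : AddMonoid.End J) (a c t d : ℤ)
    (hat : (p : ℤ) ∣ a - t) (hcd : (p : ℤ) ∣ c - d)
    (hsT : ∀ (τ : G) (x : J), τ • T x = T (τ • x)) (hsD : ∀ x : J, σ • D x = D (σ • x))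
    (hquad : ∀ x : J, p • x = 0 → σ • σ • x - T (σ • x) + c • D x = 0)
    (k : ℕ) (hD : ∀ x : J, p • x = 0 → ((D - 1) ^ k) x = 0)
    (x : J) (hx : x ∈ s59m_fixTors J p t') (m : ℕ)
    (hm : ((T - (a : AddMonoid.End J)) ^ m) x = 0) :
    ((s59m_quadTD J φ t d) ^ (m + k)) x = 0 := by
  have hgx : p • (g • x) = 0 := s59m_tors_smul p g hx.1
  -- the generalised eigen-condition at `g • x`
  have hm' : ((T - (a : AddMonoid.End J)) ^ m) (g • x) = 0 := by
    have hc : ∀ y : J, (T - (a : AddMonoid.End J)) ((s59n_sm J g) y) =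
        (s59n_sm J g) ((T - (a : AddMonoid.End J)) y) := by
      intro y
      rw [s59n_end_sub_apply, s59n_end_sub_apply, s59n_intCast_end_apply, s59n_intCast_end_apply]
      show T (g • y) - a • (g • y) = g • (T y - a • y)
      rw [smul_sub, hsT]
      congr 1
      exact (map_zsmul (DistribSMul.toAddMonoidHom J g) a y).symm
    have := (s59m_pow_comm_on (fun _ => True) (T - (a : AddMonoid.End J)) (s59n_sm J g)
      (fun _ _ => trivial) (fun y _ => hc y) m x trivial).1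
    show ((T - (a : AddMonoid.End J)) ^ m) ((s59n_sm J g) x) = 0
    rw [this, hm, map_zero]
  have h1 := s59m_nil_core p σ T D a c (hsT σ) hsD hquad (m + k) m k rfl (g • x) hgx hm'
    (hD _ hgx)
  have h2 := (s59m_nil_transfer p (s59m_fixTors J p t') (fun y hy => hy.1)
    (fun τ y hy => s59m_fixTors_stable p t' τ hy) σ φ g
    (fun y hy => s59m_fixTors_conj p t' σ φ g hσ hy) a c t d hat hcd (m + k) x hx).1
  rw [h1] at h2
  exact (smul_eq_zero_iff_eq g).mp h2.symm

end NilAbs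

end Fermat.Agent.Lib.S59
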