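/-
Programme (R) / node [IA′], C7 = (G2), input [C7-d] (d4) (nil), concrete part (helper9, prefix `s59m_`):
**ON THE GENERALISED EIGENSPACE OF `J_H[p]` EVERY `φ ∈ G_ℚ` IS KILLED BY A POWER OF ITS RESIDUAL CHARACTERISTIC POLYNOMIAL.**

`Δ = (ℤ/M)ˣ/H` a `p`-group (`p` odd); the Galois/Hecke/diamond structure of `J_H` (`commD`, `commT`, `frobQuad` on `p`-torsion: the
fields of helper2's `s59b_S37H M H`) as hypotheses; `t : G_ℚ →* T` any homomorphism of finite level (the residual representation,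
possibly with a twisting character) such that for the Frobenius elements `σ_q`, `q ∉ S`, `q ∤ Mp`, with `t σ_q` conjugate to `t φ`
one has `a₀ q ≡ α + β`, `q ≡ α β mod p`.

* `s59m_diamondJ_mul`, `s59m_diamondJ_of_mem`, `s59m_diamondJ_pow`, `s59m_diamondJ_unip` : the diamonds on `J_H`
  (`⟨d⟩` is unipotent on `J_H[p]`);
* **`s59m_nil`** : `z ∈ J_H[p]` with open stabiliser, in the generalised `a₀`-eigenspace of the `T_ℓ` (`ℓ ∤ M`, `ℓ ∉ S`)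
  ⇒ `∃ N, ((φ - α)(φ - β))^N z = 0` (`s59n_quadOp`);  `s59m_nil_family` : the same for a family `T_{ℓ₀ k}`, `k : κ`
  (helper7's `s59n_Ycon` shape);  `s59m_nil_gen` : the common general form;  `s59m_quadOp_eq_quadE` (`rfl`).
  **`s59m_nil_gen_td`, `s59m_nil_td`, `s59m_nil_family_td`** : the same with `(t₀ d₀ : ℤ)` and the operator
  `φ² - t₀ φ + d₀` (`s59m_quadTD`) — NO splitting of the residual characteristic polynomial over `𝔽_p` needed (the `α β`-versions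
  are the special case `t₀ = α + β`, `d₀ = α β`).
  Any level `H` with `-1 ∈ H` and `(ℤ/M)ˣ/H` a `p`-group (in particular `H` and `⊤`).
  Route: Chebotarev (`s56h_cheb`) on `Gal(L'/ℚ) × T`, `L'` the normal closure of the field of definition of `z` ⇒ a Frobenius
  `σ_q` with `σ_q = g φ g⁻¹` on the `G_ℚ`-orbit of `z`; Eichler–Shimura at `q` + unipotence of `T_q - a₀ q` on `g z` and of
  `⟨q⟩ - 1` on `J_H[p]` (`s59m_nil_core`).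
-/
import Fermat.Agent.Lib.S59.MNilAbs
import Fermat.Agent.Lib.S59.MUpES
import Fermat.Agent.Lib.S56.HCheb

set_option autoImplicit false
set_option linter.unusedSectionVars false
set_option linter.style.haveILetI false

noncomputable section

namespace Fermat.Agent.Lib.S59

open AlgebraicCurve ModularCurve IntermediateField Fermat.Agent.Lib.FF Fermat.Agent.Lib.S37
  Fermat.Agent.Lib.S48 Fermat.Agent.Lib.S29 Fermat.Agent.Lib.S33 Fermat.Agent.Lib.S56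

local notation "Qbar" => AlgebraicClosure ℚ

variable {M : ℕ} [NeZero M] {H : Subgroup (ZMod M)ˣ}

/-! ### The diamonds on `J_H` -/

/-- `⟨d⟩` as an element of the ring `AddMonoid.End J_H`. -/
abbrev s59m_DEnd (M : ℕ) [NeZero M] (H : Subgroup (ZMod M)ˣ) (d : (ZMod M)ˣ) :
    AddMonoid.End (s48k_JH M H) := s48k_diamondJ M H d

/-- `T_ℓ` as an element of the ring `AddMonoid.End J_H` (helper2's `s59b_TEnd`). -/
abbrev s59m_TEnd (M : ℕ) [NeZero M] (H : Subgroup (ZMod M)ˣ) (ℓ : ℕ) [NeZero ℓ] (ℓu : (ZMod M)ˣ) :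
    AddMonoid.End (s48k_JH M H) := s48k_TpJ M H ℓ ℓu

theorem s59m_diamondJ_mul (hM : 1 < M) (hneg : (-1 : (ZMod M)ˣ) ∈ H) (d g : (ZMod M)ˣ)
    (x : s48k_JH M H) :
    s48k_diamondJ M H (d * g) x = s48k_diamondJ M H d (s48k_diamondJ M H g x) := by
  have e : s48k_diamondAut M H (d * g) = s48k_diamondAut M H d * s48k_diamondAut M H g := by
    apply AlgEquiv.ext
    intro y
    rw [AlgEquiv.mul_apply]
    exact s59m_diamondAut_mul hM hneg d g y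
  rw [s48k_diamondJ_apply, s48k_diamondJ_apply, s48k_diamondJ_apply, e, map_mul, mul_smul]

theorem s59m_diamondJ_of_mem (hM : 1 < M) (hneg : (-1 : (ZMod M)ˣ) ∈ H) {d : (ZMod M)ˣ}
    (hd : d ∈ H) (x : s48k_JH M H) : s48k_diamondJ M H d x = x := by
  have e : s48k_diamondAut M H d = 1 := s59m_diamondAut_eq_refl hM hneg hd
  rw [s48k_diamondJ_apply, e, map_one, one_smul]

theorem s59m_diamondJ_pow (hM : 1 < M) (hneg : (-1 : (ZMod M)ˣ) ∈ H) (d : (ZMod M)ˣ) (n : ℕ)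
    (x : s48k_JH M H) :
    ((s59m_DEnd M H d) ^ n) x = s48k_diamondJ M H (d ^ n) x := by
  induction n generalizing x with
  | zero =>
    rw [pow_zero, pow_zero, s59m_diamondJ_of_mem hM hneg H.one_mem]
    rfl
  | succ n ih =>
    rw [pow_succ, pow_succ, s59n_end_mul_apply, ih, s59m_diamondJ_mul hM hneg]
    rfl

/-- **the diamonds are unipotent on `J_H[p]`** when `Δ = (ℤ/M)ˣ/H` is a `p`-group, `p` odd. -/
theorem s59m_diamondJ_unip (hM : 1 < M) (hneg : (-1 : (ZMod M)ˣ) ∈ H) {p : ℕ} (hp : p.Prime)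
    (hp2 : p ≠ 2) (d : (ZMod M)ˣ) (n : ℕ) (hd : d ^ (p ^ n) ∈ H) (x : s48k_JH M H)
    (hx : p • x = 0) :
    ((s59m_DEnd M H d - 1) ^ (p ^ n)) x = 0 := by
  have hD : s59m_DEnd M H d ^ (p ^ n) = 1 := by
    refine DFunLike.ext _ _ (fun y => ?_)
    rw [s59m_diamondJ_pow hM hneg, s59m_diamondJ_of_mem hM hneg hd]
    rfl
  exact s59n_unip_of_pow_eq_one (s59m_DEnd M H d) p n hp hp2 hD x hx

/-! ### Finite level -/

/-- products of finite-level homomorphisms are of finite level. -/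
theorem s59m_finiteLevel_prod {T₁ T₂ : Type} [Group T₁] [Group T₂]
    (t₁ : (Qbar ≃ₐ[ℚ] Qbar) →* T₁) (t₂ : (Qbar ≃ₐ[ℚ] Qbar) →* T₂)
    (h₁ : GaloisFactorsThroughFiniteLevel t₁) (h₂ : GaloisFactorsThroughFiniteLevel t₂) :
    GaloisFactorsThroughFiniteLevel (t₁.prod t₂) := by
  obtain ⟨L₁, hfd₁, hL₁⟩ := h₁
  obtain ⟨L₂, hfd₂, hL₂⟩ := h₂
  haveI := hfd₁
  haveI := hfd₂
  refine ⟨L₁ ⊔ L₂, IntermediateField.finiteDimensional_sup L₁ L₂, fun σ hσ => ?_⟩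
  rw [MonoidHom.prod_apply, hL₁ σ (fun x hx => hσ x ((le_sup_left : L₁ ≤ L₁ ⊔ L₂) hx)),
    hL₂ σ (fun x hx => hσ x ((le_sup_right : L₂ ≤ L₁ ⊔ L₂) hx))]
  rfl

/-! ### (nil) -/

/-- **(d4) (nil), general form, `(t, d)`-version**: `(φ² - t₀ φ + d₀)^N z = 0`; the generalised eigen-condition and the residual
congruences are only asked at the primes `q ∉ S`, `q ∤ Mp` (merged hypothesis `hloc`).  NO splitting of `X² - t₀ X + d₀` modulo `p`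
is needed (Taylor–Wiles primes with Frobenius eigenvalues in `𝔽_{p²}`). -/
theorem s59m_nil_gen_td (hM : 1 < M) (hneg : (-1 : (ZMod M)ˣ) ∈ H) (p : ℕ) (hp : p.Prime)
    (hp2 : p ≠ 2) (hΔ : ∀ d : (ZMod M)ˣ, ∃ n : ℕ, d ^ (p ^ n) ∈ H)
    (commD : ∀ (d : (ZMod M)ˣ) (σ : s48k_G) (x : s48k_JH M H),
      σ • s48k_diamondJ M H d x = s48k_diamondJ M H d (σ • x))
    (commT : ∀ (q : ℕ) [NeZero q] (qu : (ZMod M)ˣ), q.Prime → ¬ q ∣ M →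
      ((qu : (ZMod M)ˣ) : ZMod M) = (q : ZMod M) →
      ∀ (σ : s48k_G) (x : s48k_JH M H), σ • s48k_TpJ M H q qu x = s48k_TpJ M H q qu (σ • x))
    (frobQuad : ∀ (q : ℕ) [NeZero q] (qu : (ZMod M)ˣ), q.Prime → ¬ q ∣ M * p →
      ((qu : (ZMod M)ˣ) : ZMod M) = (q : ZMod M) →
      ∀ A : ValuationSubring Qbar, A.LiesOverPrime q →
        ∀ σ : s48k_G, A.IsFrobeniusAt σ q → ∀ x : s48k_JH M H, (p : ℤ) • x = 0 →
          σ • σ • x - s48k_TpJ M H q qu (σ • x) + (q : ℤ) • s48k_diamondJ M H qu x = 0)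
    (S : Set ℕ) (hS : S.Finite)
    {T : Type} [Group T] (t : s48k_G →* T) (hfin : GaloisFactorsThroughFiniteLevel t)
    (φ : s48k_G) (t₀ d₀ : ℤ) (z : s48k_JH M H) (hz : p • z = 0)
    (hopen : ∃ L : IntermediateField ℚ Qbar, FiniteDimensional ℚ L ∧
      ∀ σ : s48k_G, (∀ y ∈ L, σ y = y) → σ • z = z)
    (hloc : ∀ (q : ℕ) [NeZero q] (qu : (ZMod M)ˣ), q.Prime → q ∉ S → ¬ q ∣ M * p →
      ((qu : (ZMod M)ˣ) : ZMod M) = (q : ZMod M) →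
        ∃ (a : ℤ) (m : ℕ), ((s59m_TEnd M H q qu - (a : AddMonoid.End (s48k_JH M H))) ^ m) z = 0 ∧
          ∀ A : ValuationSubring Qbar, A.LiesOverPrime q → ∀ σ : s48k_G, A.IsFrobeniusAt σ q →
            (∃ g : s48k_G, t σ = t (g * φ * g⁻¹)) →
              (p : ℤ) ∣ a - t₀ ∧ (p : ℤ) ∣ (q : ℤ) - d₀) :
    ∃ N : ℕ, ((s59m_quadTD (s48k_JH M H) φ t₀ d₀) ^ N) z = 0 := by
  classical
  obtain ⟨L₀, hL₀fd, hL₀⟩ := hopen
  haveI hcl : IsAlgClosure ℚ Qbar := ⟨inferInstance, AlgebraicClosure.isAlgebraic ℚ⟩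
  haveI : Normal ℚ Qbar := IsAlgClosure.normal ℚ Qbar
  set L' : IntermediateField ℚ Qbar := IntermediateField.normalClosure ℚ L₀ Qbar with hL'
  have hle : L₀ ≤ L' := IntermediateField.le_normalClosure L₀
  haveI hnorm : Normal ℚ L' := normalClosure.normal ℚ L₀ Qbar
  have hfd : FiniteDimensional ℚ L' := normalClosure.is_finiteDimensional ℚ L₀ Qbar
  set t' : s48k_G →* (L' ≃ₐ[ℚ] L') := AlgEquiv.restrictNormalHom (F := ℚ) (K₁ := Qbar) L' with ht'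
  have ht'one : ∀ τ : s48k_G, t' τ = 1 ↔ ∀ x ∈ L', τ x = x := fun τ =>
    @AlgEquiv.restrictNormal_eq_one_iff ℚ _ Qbar _ _ L' (normalClosure.normal ℚ L₀ Qbar) τ
  have ht'fin : GaloisFactorsThroughFiniteLevel t' :=
    ⟨L', hfd, fun τ hτ => (ht'one τ).mpr hτ⟩
  have httfin : GaloisFactorsThroughFiniteLevel (t'.prod t) :=
    s59m_finiteLevel_prod t' t ht'fin hfin
  have hMp : M * p ≠ 0 := Nat.mul_ne_zero (NeZero.ne M) hp.ne_zero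
  obtain ⟨q, hq, hqS', hcheb⟩ := s56h_cheb (t'.prod t) httfin
    (hS.toFinset ∪ (M * p).primeFactors) φ
  have hqS : q ∉ S := fun h => hqS' (Finset.mem_union_left _ (hS.mem_toFinset.mpr h))
  have hqMp : ¬ q ∣ M * p := fun h =>
    hqS' (Finset.mem_union_right _ (Nat.mem_primeFactors.mpr ⟨hq, h, hMp⟩))
  have hqM : ¬ q ∣ M := fun h => hqMp (Dvd.dvd.mul_right h p)
  obtain ⟨A, σ, hA, hσ⟩ := Fermat.Agent.Lib.Frobenius.exists_isFrobeniusAt q hq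
  obtain ⟨g, hg⟩ := hcheb A hA σ hσ
  have hg1 : t' σ = t' (g * φ * g⁻¹) := congrArg Prod.fst hg
  have hg2 : t σ = t (g * φ * g⁻¹) := congrArg Prod.snd hg
  haveI : NeZero q := ⟨hq.ne_zero⟩
  have hcop : Nat.Coprime q M := (Nat.Prime.coprime_iff_not_dvd hq).mpr hqM
  set qu : (ZMod M)ˣ := ZMod.unitOfCoprime q hcop with hqu
  have hquc : ((qu : (ZMod M)ˣ) : ZMod M) = (q : ZMod M) := ZMod.coe_unitOfCoprime q hcop
  obtain ⟨a, m, hm, hcong⟩ := hloc q qu hq hqS hqMp hquc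
  obtain ⟨hat, hcd⟩ := hcong A hA σ hσ ⟨g, hg2⟩
  obtain ⟨n, hn⟩ := hΔ qu
  -- `z` is fixed by the kernel of `t'`
  have hzV : z ∈ s59m_fixTors (s48k_JH M H) p t' := by
    refine ⟨hz, fun h hh => hL₀ h (fun y hy => ?_)⟩
    exact (ht'one h).mp hh y (hle hy)
  have key := s59m_nil_abs (J := s48k_JH M H) p t' σ φ g hg1
    (s59m_TEnd M H q qu) (s59m_DEnd M H qu) a (q : ℤ) t₀ d₀ hat hcd
    (fun τ x => commT q qu hq hqM hquc τ x) (fun x => commD qu σ x)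
    (fun x hx => frobQuad q qu hq hqMp hquc A hA σ hσ x (by rw [natCast_zsmul]; exact hx))
    (p ^ n) (fun x hx => s59m_diamondJ_unip hM hneg hp hp2 qu n hn x hx) z hzV m hm
  exact ⟨m + p ^ n, key⟩

/-- **(d4) (nil), general form**: the generalised eigen-condition and the residual congruences are only asked at the primes
`q ∉ S`, `q ∤ Mp` (merged hypothesis `hloc`). -/
theorem s59m_nil_gen (hM : 1 < M) (hneg : (-1 : (ZMod M)ˣ) ∈ H) (p : ℕ) (hp : p.Prime)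
    (hp2 : p ≠ 2) (hΔ : ∀ d : (ZMod M)ˣ, ∃ n : ℕ, d ^ (p ^ n) ∈ H)
    (commD : ∀ (d : (ZMod M)ˣ) (σ : s48k_G) (x : s48k_JH M H),
      σ • s48k_diamondJ M H d x = s48k_diamondJ M H d (σ • x))
    (commT : ∀ (q : ℕ) [NeZero q] (qu : (ZMod M)ˣ), q.Prime → ¬ q ∣ M →
      ((qu : (ZMod M)ˣ) : ZMod M) = (q : ZMod M) →
      ∀ (σ : s48k_G) (x : s48k_JH M H), σ • s48k_TpJ M H q qu x = s48k_TpJ M H q qu (σ • x))
    (frobQuad : ∀ (q : ℕ) [NeZero q] (qu : (ZMod M)ˣ), q.Prime → ¬ q ∣ M * p →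
      ((qu : (ZMod M)ˣ) : ZMod M) = (q : ZMod M) →
      ∀ A : ValuationSubring Qbar, A.LiesOverPrime q →
        ∀ σ : s48k_G, A.IsFrobeniusAt σ q → ∀ x : s48k_JH M H, (p : ℤ) • x = 0 →
          σ • σ • x - s48k_TpJ M H q qu (σ • x) + (q : ℤ) • s48k_diamondJ M H qu x = 0)
    (S : Set ℕ) (hS : S.Finite)
    {T : Type} [Group T] (t : s48k_G →* T) (hfin : GaloisFactorsThroughFiniteLevel t)
    (φ : s48k_G) (α β : ℤ) (z : s48k_JH M H) (hz : p • z = 0)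
    (hopen : ∃ L : IntermediateField ℚ Qbar, FiniteDimensional ℚ L ∧
      ∀ σ : s48k_G, (∀ y ∈ L, σ y = y) → σ • z = z)
    (hloc : ∀ (q : ℕ) [NeZero q] (qu : (ZMod M)ˣ), q.Prime → q ∉ S → ¬ q ∣ M * p →
      ((qu : (ZMod M)ˣ) : ZMod M) = (q : ZMod M) →
        ∃ (a : ℤ) (m : ℕ), ((s59m_TEnd M H q qu - (a : AddMonoid.End (s48k_JH M H))) ^ m) z = 0 ∧
          ∀ A : ValuationSubring Qbar, A.LiesOverPrime q → ∀ σ : s48k_G, A.IsFrobeniusAt σ q →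
            (∃ g : s48k_G, t σ = t (g * φ * g⁻¹)) →
              (p : ℤ) ∣ a - (α + β) ∧ (p : ℤ) ∣ (q : ℤ) - α * β) :
    ∃ N : ℕ, ((s59n_quadOp (s48k_JH M H) φ α β) ^ N) z = 0 :=
  s59m_nil_gen_td hM hneg p hp hp2 hΔ commD commT frobQuad S hS t hfin φ (α + β) (α * β) z hz hopen
    hloc

/-- **(d4) (nil), `(t, d)`-version** for `z` in the generalised `a₀`-eigenspace (`hgen` is helper2's `s59b_GenEig M H S a₀ z`, unfolded). -/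
theorem s59m_nil_td (hM : 1 < M) (hneg : (-1 : (ZMod M)ˣ) ∈ H) (p : ℕ) (hp : p.Prime)
    (hp2 : p ≠ 2) (hΔ : ∀ d : (ZMod M)ˣ, ∃ n : ℕ, d ^ (p ^ n) ∈ H)
    (commD : ∀ (d : (ZMod M)ˣ) (σ : s48k_G) (x : s48k_JH M H),
      σ • s48k_diamondJ M H d x = s48k_diamondJ M H d (σ • x))
    (commT : ∀ (q : ℕ) [NeZero q] (qu : (ZMod M)ˣ), q.Prime → ¬ q ∣ M →
      ((qu : (ZMod M)ˣ) : ZMod M) = (q : ZMod M) →
      ∀ (σ : s48k_G) (x : s48k_JH M H), σ • s48k_TpJ M H q qu x = s48k_TpJ M H q qu (σ • x))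
    (frobQuad : ∀ (q : ℕ) [NeZero q] (qu : (ZMod M)ˣ), q.Prime → ¬ q ∣ M * p →
      ((qu : (ZMod M)ˣ) : ZMod M) = (q : ZMod M) →
      ∀ A : ValuationSubring Qbar, A.LiesOverPrime q →
        ∀ σ : s48k_G, A.IsFrobeniusAt σ q → ∀ x : s48k_JH M H, (p : ℤ) • x = 0 →
          σ • σ • x - s48k_TpJ M H q qu (σ • x) + (q : ℤ) • s48k_diamondJ M H qu x = 0)
    (S : Set ℕ) (hS : S.Finite) (a₀ : ℕ → ℤ)
    {T : Type} [Group T] (t : s48k_G →* T) (hfin : GaloisFactorsThroughFiniteLevel t)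
    (φ : s48k_G) (t₀ d₀ : ℤ)
    (hρ : ∀ q : ℕ, q.Prime → q ∉ S → ¬ q ∣ M * p →
      ∀ A : ValuationSubring Qbar, A.LiesOverPrime q → ∀ σ : s48k_G, A.IsFrobeniusAt σ q →
        (∃ g : s48k_G, t σ = t (g * φ * g⁻¹)) →
          (p : ℤ) ∣ a₀ q - t₀ ∧ (p : ℤ) ∣ (q : ℤ) - d₀)
    (z : s48k_JH M H) (hz : p • z = 0)
    (hopen : ∃ L : IntermediateField ℚ Qbar, FiniteDimensional ℚ L ∧
      ∀ σ : s48k_G, (∀ y ∈ L, σ y = y) → σ • z = z)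
    (hgen : ∀ (ℓ : ℕ) [NeZero ℓ] (ℓu : (ZMod M)ˣ), ℓ.Prime → ¬ ℓ ∣ M → ℓ ∉ S →
      ((ℓu : (ZMod M)ˣ) : ZMod M) = (ℓ : ZMod M) →
        ∃ N : ℕ, ((s59m_TEnd M H ℓ ℓu - (a₀ ℓ : AddMonoid.End (s48k_JH M H))) ^ N) z = 0) :
    ∃ N : ℕ, ((s59m_quadTD (s48k_JH M H) φ t₀ d₀) ^ N) z = 0 := by
  refine s59m_nil_gen_td hM hneg p hp hp2 hΔ commD commT frobQuad S hS t hfin φ t₀ d₀ z hz hopen ?_
  intro q _ qu hq hqS hqMp hquc
  have hqM : ¬ q ∣ M := fun h => hqMp (Dvd.dvd.mul_right h p)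
  obtain ⟨m, hm⟩ := hgen q qu hq hqM hqS hquc
  exact ⟨a₀ q, m, hm, fun A hA σ hσ hg => hρ q hq hqS hqMp A hA σ hσ hg⟩

/-- **(d4) (nil)** for `z` in the generalised `a₀`-eigenspace (`hgen` is helper2's `s59b_GenEig M H S a₀ z`, unfolded). -/
theorem s59m_nil (hM : 1 < M) (hneg : (-1 : (ZMod M)ˣ) ∈ H) (p : ℕ) (hp : p.Prime)
    (hp2 : p ≠ 2) (hΔ : ∀ d : (ZMod M)ˣ, ∃ n : ℕ, d ^ (p ^ n) ∈ H)
    (commD : ∀ (d : (ZMod M)ˣ) (σ : s48k_G) (x : s48k_JH M H),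
      σ • s48k_diamondJ M H d x = s48k_diamondJ M H d (σ • x))
    (commT : ∀ (q : ℕ) [NeZero q] (qu : (ZMod M)ˣ), q.Prime → ¬ q ∣ M →
      ((qu : (ZMod M)ˣ) : ZMod M) = (q : ZMod M) →
      ∀ (σ : s48k_G) (x : s48k_JH M H), σ • s48k_TpJ M H q qu x = s48k_TpJ M H q qu (σ • x))
    (frobQuad : ∀ (q : ℕ) [NeZero q] (qu : (ZMod M)ˣ), q.Prime → ¬ q ∣ M * p →
      ((qu : (ZMod M)ˣ) : ZMod M) = (q : ZMod M) →
      ∀ A : ValuationSubring Qbar, A.LiesOverPrime q →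
        ∀ σ : s48k_G, A.IsFrobeniusAt σ q → ∀ x : s48k_JH M H, (p : ℤ) • x = 0 →
          σ • σ • x - s48k_TpJ M H q qu (σ • x) + (q : ℤ) • s48k_diamondJ M H qu x = 0)
    (S : Set ℕ) (hS : S.Finite) (a₀ : ℕ → ℤ)
    {T : Type} [Group T] (t : s48k_G →* T) (hfin : GaloisFactorsThroughFiniteLevel t)
    (φ : s48k_G) (α β : ℤ)
    (hρ : ∀ q : ℕ, q.Prime → q ∉ S → ¬ q ∣ M * p →
      ∀ A : ValuationSubring Qbar, A.LiesOverPrime q → ∀ σ : s48k_G, A.IsFrobeniusAt σ q →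
        (∃ g : s48k_G, t σ = t (g * φ * g⁻¹)) →
          (p : ℤ) ∣ a₀ q - (α + β) ∧ (p : ℤ) ∣ (q : ℤ) - α * β)
    (z : s48k_JH M H) (hz : p • z = 0)
    (hopen : ∃ L : IntermediateField ℚ Qbar, FiniteDimensional ℚ L ∧
      ∀ σ : s48k_G, (∀ y ∈ L, σ y = y) → σ • z = z)
    (hgen : ∀ (ℓ : ℕ) [NeZero ℓ] (ℓu : (ZMod M)ˣ), ℓ.Prime → ¬ ℓ ∣ M → ℓ ∉ S →
      ((ℓu : (ZMod M)ˣ) : ZMod M) = (ℓ : ZMod M) →
        ∃ N : ℕ, ((s59m_TEnd M H ℓ ℓu - (a₀ ℓ : AddMonoid.End (s48k_JH M H))) ^ N) z = 0) :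
    ∃ N : ℕ, ((s59n_quadOp (s48k_JH M H) φ α β) ^ N) z = 0 := by
  refine s59m_nil_gen hM hneg p hp hp2 hΔ commD commT frobQuad S hS t hfin φ α β z hz hopen ?_
  intro q _ qu hq hqS hqMp hquc
  have hqM : ¬ q ∣ M := fun h => hqMp (Dvd.dvd.mul_right h p)
  obtain ⟨m, hm⟩ := hgen q qu hq hqM hqS hquc
  exact ⟨a₀ q, m, hm, fun A hA σ hσ hg => hρ q hq hqS hqMp A hA σ hσ hg⟩

/-- **(d4) (nil), `(t, d)`-version** for a family `T_{ℓ₀ k}`, `k : κ`, of Hecke operators containing all the good primes outside `S`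
(helper7's `s59n_Ycon` shape). -/
theorem s59m_nil_family_td (hM : 1 < M) (hneg : (-1 : (ZMod M)ˣ) ∈ H) (p : ℕ) (hp : p.Prime)
    (hp2 : p ≠ 2) (hΔ : ∀ d : (ZMod M)ˣ, ∃ n : ℕ, d ^ (p ^ n) ∈ H)
    (commD : ∀ (d : (ZMod M)ˣ) (σ : s48k_G) (x : s48k_JH M H),
      σ • s48k_diamondJ M H d x = s48k_diamondJ M H d (σ • x))
    (commT : ∀ (q : ℕ) [NeZero q] (qu : (ZMod M)ˣ), q.Prime → ¬ q ∣ M →
      ((qu : (ZMod M)ˣ) : ZMod M) = (q : ZMod M) →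
      ∀ (σ : s48k_G) (x : s48k_JH M H), σ • s48k_TpJ M H q qu x = s48k_TpJ M H q qu (σ • x))
    (frobQuad : ∀ (q : ℕ) [NeZero q] (qu : (ZMod M)ˣ), q.Prime → ¬ q ∣ M * p →
      ((qu : (ZMod M)ˣ) : ZMod M) = (q : ZMod M) →
      ∀ A : ValuationSubring Qbar, A.LiesOverPrime q →
        ∀ σ : s48k_G, A.IsFrobeniusAt σ q → ∀ x : s48k_JH M H, (p : ℤ) • x = 0 →
          σ • σ • x - s48k_TpJ M H q qu (σ • x) + (q : ℤ) • s48k_diamondJ M H qu x = 0)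
    {κ : Type*} (ℓ₀ : κ → ℕ) [∀ k, NeZero (ℓ₀ k)] (pu : κ → (ZMod M)ˣ) (a : κ → ℤ)
    (S : Set ℕ) (hS : S.Finite)
    (hκ : ∀ ℓ : ℕ, ℓ.Prime → ℓ ∉ S → ¬ ℓ ∣ M * p →
      ∃ k, ℓ₀ k = ℓ ∧ ((pu k : (ZMod M)ˣ) : ZMod M) = (ℓ : ZMod M))
    {T : Type} [Group T] (t : s48k_G →* T) (hfin : GaloisFactorsThroughFiniteLevel t)
    (φ : s48k_G) (t₀ d₀ : ℤ)
    (hρ : ∀ k : κ, (ℓ₀ k).Prime → ℓ₀ k ∉ S → ¬ ℓ₀ k ∣ M * p →
      ∀ A : ValuationSubring Qbar, A.LiesOverPrime (ℓ₀ k) → ∀ σ : s48k_G,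
        A.IsFrobeniusAt σ (ℓ₀ k) → (∃ g : s48k_G, t σ = t (g * φ * g⁻¹)) →
          (p : ℤ) ∣ a k - t₀ ∧ (p : ℤ) ∣ (ℓ₀ k : ℤ) - d₀)
    (z : s48k_JH M H) (hz : p • z = 0)
    (hopen : ∃ L : IntermediateField ℚ Qbar, FiniteDimensional ℚ L ∧
      ∀ σ : s48k_G, (∀ y ∈ L, σ y = y) → σ • z = z)
    (hgen : ∀ k : κ, ∃ N : ℕ,
      ((s59m_TEnd M H (ℓ₀ k) (pu k) - (a k : AddMonoid.End (s48k_JH M H))) ^ N) z = 0) :
    ∃ N : ℕ, ((s59m_quadTD (s48k_JH M H) φ t₀ d₀) ^ N) z = 0 := by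
  refine s59m_nil_gen_td hM hneg p hp hp2 hΔ commD commT frobQuad S hS t hfin φ t₀ d₀ z hz hopen ?_
  intro q _ qu hq hqS hqMp hquc
  obtain ⟨k, hk, hpuk⟩ := hκ q hq hqS hqMp
  subst hk
  have hqu : qu = pu k := Units.ext (hquc.trans hpuk.symm)
  subst hqu
  obtain ⟨m, hm⟩ := hgen k
  exact ⟨a k, m, hm, fun A hA σ hσ hg => hρ k hq hqS hqMp A hA σ hσ hg⟩

/-- **(d4) (nil)** for a family `T_{ℓ₀ k}`, `k : κ`, of Hecke operators containing all the good primes outside `S`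
(helper7's `s59n_Ycon` shape). -/
theorem s59m_nil_family (hM : 1 < M) (hneg : (-1 : (ZMod M)ˣ) ∈ H) (p : ℕ) (hp : p.Prime)
    (hp2 : p ≠ 2) (hΔ : ∀ d : (ZMod M)ˣ, ∃ n : ℕ, d ^ (p ^ n) ∈ H)
    (commD : ∀ (d : (ZMod M)ˣ) (σ : s48k_G) (x : s48k_JH M H),
      σ • s48k_diamondJ M H d x = s48k_diamondJ M H d (σ • x))
    (commT : ∀ (q : ℕ) [NeZero q] (qu : (ZMod M)ˣ), q.Prime → ¬ q ∣ M →
      ((qu : (ZMod M)ˣ) : ZMod M) = (q : ZMod M) →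
      ∀ (σ : s48k_G) (x : s48k_JH M H), σ • s48k_TpJ M H q qu x = s48k_TpJ M H q qu (σ • x))
    (frobQuad : ∀ (q : ℕ) [NeZero q] (qu : (ZMod M)ˣ), q.Prime → ¬ q ∣ M * p →
      ((qu : (ZMod M)ˣ) : ZMod M) = (q : ZMod M) →
      ∀ A : ValuationSubring Qbar, A.LiesOverPrime q →
        ∀ σ : s48k_G, A.IsFrobeniusAt σ q → ∀ x : s48k_JH M H, (p : ℤ) • x = 0 →
          σ • σ • x - s48k_TpJ M H q qu (σ • x) + (q : ℤ) • s48k_diamondJ M H qu x = 0)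
    {κ : Type*} (ℓ₀ : κ → ℕ) [∀ k, NeZero (ℓ₀ k)] (pu : κ → (ZMod M)ˣ) (a : κ → ℤ)
    (S : Set ℕ) (hS : S.Finite)
    (hκ : ∀ ℓ : ℕ, ℓ.Prime → ℓ ∉ S → ¬ ℓ ∣ M * p →
      ∃ k, ℓ₀ k = ℓ ∧ ((pu k : (ZMod M)ˣ) : ZMod M) = (ℓ : ZMod M))
    {T : Type} [Group T] (t : s48k_G →* T) (hfin : GaloisFactorsThroughFiniteLevel t)
    (φ : s48k_G) (α β : ℤ)
    (hρ : ∀ k : κ, (ℓ₀ k).Prime → ℓ₀ k ∉ S → ¬ ℓ₀ k ∣ M * p →
      ∀ A : ValuationSubring Qbar, A.LiesOverPrime (ℓ₀ k) → ∀ σ : s48k_G,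
        A.IsFrobeniusAt σ (ℓ₀ k) → (∃ g : s48k_G, t σ = t (g * φ * g⁻¹)) →
          (p : ℤ) ∣ a k - (α + β) ∧ (p : ℤ) ∣ (ℓ₀ k : ℤ) - α * β)
    (z : s48k_JH M H) (hz : p • z = 0)
    (hopen : ∃ L : IntermediateField ℚ Qbar, FiniteDimensional ℚ L ∧
      ∀ σ : s48k_G, (∀ y ∈ L, σ y = y) → σ • z = z)
    (hgen : ∀ k : κ, ∃ N : ℕ,
      ((s59m_TEnd M H (ℓ₀ k) (pu k) - (a k : AddMonoid.End (s48k_JH M H))) ^ N) z = 0) :
    ∃ N : ℕ, ((s59n_quadOp (s48k_JH M H) φ α β) ^ N) z = 0 := by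
  refine s59m_nil_gen hM hneg p hp hp2 hΔ commD commT frobQuad S hS t hfin φ α β z hz hopen ?_
  intro q _ qu hq hqS hqMp hquc
  obtain ⟨k, hk, hpuk⟩ := hκ q hq hqS hqMp
  subst hk
  have hqu : qu = pu k := Units.ext (hquc.trans hpuk.symm)
  subst hqu
  obtain ⟨m, hm⟩ := hgen k
  exact ⟨a k, m, hm, fun A hA σ hσ hg => hρ k hq hqS hqMp A hA σ hσ hg⟩

/-- `s59n_quadOp` is helper7's `s59n_quadE` of the endomorphism `s59n_sm _ φ`. -/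
theorem s59m_quadOp_eq_quadE (φ : s48k_G) (α β : ℤ) :
    s59n_quadOp (s48k_JH M H) φ α β =
      s59n_quadE (s59n_sm (s48k_JH M H) φ) (α + β) (α * β) := rfl

end Fermat.Agent.Lib.S59
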