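/-
PROGRAMME (R2) (helper3, prefix `s59u_`): **(PF) for every odd prime `p`, including `p = 3`**.

helper8's `s59t_PF_of_pgroup` (THQ.lean) needs `Nat.Coprime p 12`, because for `p = 3` the group `Γ₀(N)` may contain
elliptic elements of order `3` (trace `±1`) whose diamond class is a non-trivial element of the `3`-group `(ℤ/N)ˣ/H`.
Such elements exist only if `x² + x + 1` has a root mod every prime `q ∣ N`; a prime `q ∣ N`, `q ≡ 2 (mod 3)`, kills them.

* `s59u_PF_of_refined` : (PF) if `H` contains the units with `(u ∓ 1)² = 0`, with `u² = -1` and with `u² ∓ u + 1 = 0`;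
* `s59u_no_root_of_two_mod_three` : `x² + x + 1 = 0` has no root in `ZMod q`, `q` prime, `q % 3 = 2`;
* `s59u_PF_odd` : (PF) for `N` squarefree, `-1 ∈ H`, `(ℤ/N)ˣ/H` a `p`-group, `p` an odd prime, and — if `p = 3` — a
  prime `q ∣ N` with `q % 3 = 2`.
-/
import Mathlib
import Fermat.Agent.Lib.S59.THQ

set_option autoImplicit false
set_option linter.unusedSectionVars false
set_option linter.unusedVariables false
set_option linter.style.haveILetI false

noncomputable section

namespace Fermat.Agent.Lib.S59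

open Matrix MatrixGroups CongruenceSubgroup
open Fermat.Agent.Lib.S29 Fermat.Agent.Lib.S48 Fermat.Agent.Lib.S41

local notation "Mat2" => Matrix (Fin 2) (Fin 2) ℤ

section PFref

variable {N : ℕ} [NeZero N] {H : Subgroup (ZMod N)ˣ}

/-- **(PF) from arithmetic, refined**: `H` contains all units `u` with `(u - 1)² = 0` or `(u + 1)² = 0` (parabolic
elements), with `u² = -1` (trace `0`) and with `u² - u + 1 = 0` or `u² + u + 1 = 0` (trace `±1`). -/
theorem s59u_PF_of_refined
    (hpar : ∀ u : (ZMod N)ˣ, ((u : ZMod N) - 1) ^ 2 = 0 ∨ ((u : ZMod N) + 1) ^ 2 = 0 → u ∈ H)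
    (h4 : ∀ u : (ZMod N)ˣ, (u : ZMod N) ^ 2 = -1 → u ∈ H)
    (h3 : ∀ u : (ZMod N)ˣ, ((u : ZMod N) ^ 2 - (u : ZMod N) + 1 = 0 ∨
      (u : ZMod N) ^ 2 + (u : ZMod N) + 1 = 0) → u ∈ H) : s59t_PF N H := by
  intro γ hγ
  rw [s59t_mem_GammaH_iff_unit]
  have hrel := s59t_unit_rel γ
  set u := s59t_unit γ with hu
  set t : ℤ := (((γ : SL(2, ℤ)) : Mat2).trace) with ht
  have hfin' : ∀ s : ℤ, t = s → (s = 0 ∨ s = 1 ∨ s = -1) → s59t_unitHom N γ ∈ H := by
    intro s hts hs
    rw [hts] at hrel
    rcases hs with rfl | rfl | rfl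
    · apply h4
      show (u : ZMod N) ^ 2 = -1
      push_cast at hrel
      linear_combination hrel
    · apply h3
      left
      show (u : ZMod N) ^ 2 - (u : ZMod N) + 1 = 0
      push_cast at hrel
      linear_combination hrel
    · apply h3
      right
      show (u : ZMod N) ^ 2 + (u : ZMod N) + 1 = 0
      push_cast at hrel
      linear_combination hrel
  have hpar' : ∀ s : ℤ, t = s → (s = 2 ∨ s = -2) → s59t_unitHom N γ ∈ H := by
    intro s hts hs
    apply hpar
    show ((u : ZMod N) - 1) ^ 2 = 0 ∨ ((u : ZMod N) + 1) ^ 2 = 0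
    rw [hts] at hrel
    rcases hs with rfl | rfl
    · left
      push_cast at hrel
      linear_combination hrel
    · right
      push_cast at hrel
      linear_combination hrel
  rcases hγ with hγ | hγ
  · have h4' : t = 2 ∨ t = -2 := by
      have h5 : (t - 2) * (t + 2) = 0 := by linear_combination hγ
      rcases mul_eq_zero.mp h5 with h | h
      · left; omega
      · right; omega
    rcases h4' with h | h
    · exact hpar' 2 h (Or.inl rfl)
    · exact hpar' (-2) h (Or.inr rfl)
  · have hγ' : IsOfFinOrder (γ : SL(2, ℤ)) := by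
      obtain ⟨n, hn, hγn⟩ := hγ.exists_pow_eq_one
      refine isOfFinOrder_iff_pow_eq_one.mpr ⟨n, hn, ?_⟩
      have := congrArg (fun g : Gamma0 N => (g : SL(2, ℤ))) hγn
      simpa using this
    rcases s48h_finOrd_trace _ hγ' with h1 | h1 | h1
    · have : t = 2 := by
        rw [ht, h1, Matrix.SpecialLinearGroup.coe_one, Matrix.trace_one]
        rfl
      exact hpar' 2 this (Or.inl rfl)
    · have : t = -2 := by
        rw [ht, h1, Matrix.SpecialLinearGroup.coe_neg, Matrix.SpecialLinearGroup.coe_one,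
          Matrix.trace_neg, Matrix.trace_one]
        rfl
      exact hpar' (-2) this (Or.inr rfl)
    · rw [abs_le] at h1
      have h6 : t = 0 ∨ t = 1 ∨ t = -1 := by omega
      exact hfin' t rfl h6

end PFref

/-- `x² + x + 1` has no root in `ZMod q` for a prime `q ≡ 2 (mod 3)`. -/
theorem s59u_no_root_of_two_mod_three {q : ℕ} (hq : q.Prime) (hq3 : q % 3 = 2) (x : ZMod q) :
    x ^ 2 + x + 1 ≠ 0 := by
  haveI : Fact q.Prime := ⟨hq⟩
  intro h
  have hx3 : x ^ 3 = 1 := by linear_combination (x - 1) * h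
  have hxne : x ≠ 1 := by
    rintro rfl
    have h3 : ((3 : ℕ) : ZMod q) = 0 := by
      push_cast
      linear_combination h
    have hdvd : q ∣ 3 := (ZMod.natCast_eq_zero_iff 3 q).mp h3
    have : q = 3 := (Nat.prime_dvd_prime_iff_eq hq Nat.prime_three).mp hdvd
    omega
  have hxu : IsUnit x := IsUnit.of_pow_eq_one hx3 (by norm_num)
  obtain ⟨u, rfl⟩ := hxu
  have hu3 : u ^ 3 = 1 := Units.ext (by rw [Units.val_pow_eq_pow_val, hx3, Units.val_one])
  have hune : u ≠ 1 := fun h1 => hxne (by rw [h1, Units.val_one])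
  have hord : orderOf u = 3 := orderOf_eq_prime hu3 hune
  have hdvd : 3 ∣ Fintype.card (ZMod q)ˣ := by
    rw [← hord]
    exact orderOf_dvd_card
  rw [ZMod.card_units_eq_totient, Nat.totient_prime hq] at hdvd
  have hq2 := hq.two_le
  omega

section PFodd

variable {N : ℕ} [NeZero N] {H : Subgroup (ZMod N)ˣ}

/-- a unit `u` with `uᵐ = 1` and `u ^ (p ^ n) ∈ H`, `p ^ n` prime to `m`, lies in `H`. -/
theorem s59u_mem_of_pow_coprime {m k : ℕ} (hc : Nat.Coprime k m) (u : (ZMod N)ˣ) (hu : u ^ m = 1)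
    (hk : u ^ k ∈ H) : u ∈ H := by
  have hb := Nat.gcd_eq_gcd_ab k m
  rw [hc.gcd_eq_one] at hb
  have h1 : u = (u ^ k) ^ (Nat.gcdA k m) := by
    have h2 : (u : (ZMod N)ˣ) ^ ((1 : ℕ) : ℤ) = u := by simp
    rw [← zpow_natCast u k, ← _root_.zpow_mul]
    have h3 : ((k : ℕ) : ℤ) * Nat.gcdA k m = ((1 : ℕ) : ℤ) - (m : ℤ) * Nat.gcdB k m := by
      rw [hb]
      ring
    rw [h3, _root_.zpow_sub, h2, _root_.zpow_mul]
    have h4 : (u : (ZMod N)ˣ) ^ (m : ℤ) = 1 := by
      rw [zpow_natCast]
      exact hu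
    rw [h4, _root_.one_zpow, inv_one, mul_one]
  rw [h1]
  exact zpow_mem hk _

/-- **(PF) for every odd prime `p`**: `N` squarefree, `-1 ∈ H`, `(ℤ/N)ˣ/H` a `p`-group, `p ≠ 2`, and, if `p = 3`,
a prime `q ∣ N` with `q ≡ 2 (mod 3)`. -/
theorem s59u_PF_odd (p : ℕ) (hp : p.Prime) (hp2 : p ≠ 2) (hsq : Squarefree N)
    (hneg : (-1 : (ZMod N)ˣ) ∈ H) (hH : ∀ u : (ZMod N)ˣ, ∃ n : ℕ, u ^ (p ^ n) ∈ H)
    (h3 : p = 3 → ∃ q : ℕ, q.Prime ∧ q ∣ N ∧ q % 3 = 2) : s59t_PF N H := by
  by_cases hp3 : p = 3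
  · obtain ⟨q, hq, hqN, hq3⟩ := h3 hp3
    haveI : IsReduced (ZMod N) := isReduced_zmod.mpr (Or.inl hsq)
    refine s59u_PF_of_refined ?_ ?_ ?_
    · rintro u (h | h)
      · have h1 : (u : ZMod N) - 1 = 0 := IsReduced.eq_zero _ ⟨2, h⟩
        have h2 : u = 1 := Units.ext (sub_eq_zero.mp h1)
        rw [h2]
        exact one_mem H
      · have h1 : (u : ZMod N) + 1 = 0 := IsReduced.eq_zero _ ⟨2, h⟩
        have h2 : u = -1 := Units.ext (by
          rw [Units.val_neg, Units.val_one]
          exact eq_neg_of_add_eq_zero_left h1)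
        rw [h2]
        exact hneg
    · intro u hu
      obtain ⟨n, hn⟩ := hH u
      have hu4 : u ^ 4 = 1 := Units.ext (by
        rw [Units.val_pow_eq_pow_val, Units.val_one]
        calc (u : ZMod N) ^ 4 = ((u : ZMod N) ^ 2) ^ 2 := by ring
          _ = 1 := by rw [hu]; ring)
      have hc : Nat.Coprime (p ^ n) 4 := by
        refine Nat.Coprime.pow_left n ?_
        have h4 : (4 : ℕ) = 2 ^ 2 := by norm_num
        rw [h4]
        exact Nat.Coprime.pow_right 2 ((Nat.coprime_primes hp Nat.prime_two).2 hp2)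
      exact s59u_mem_of_pow_coprime hc u hu4 hn
    · intro u hu
      exfalso
      set φ := ZMod.castHom hqN (ZMod q) with hφ
      rcases hu with hu | hu
      · refine s59u_no_root_of_two_mod_three hq hq3 (-(φ (u : ZMod N))) ?_
        have := congrArg φ hu
        simp only [map_add, map_sub, map_pow, map_one, map_zero] at this
        linear_combination this
      · refine s59u_no_root_of_two_mod_three hq hq3 (φ (u : ZMod N)) ?_
        have := congrArg φ hu
        simp only [map_add, map_pow, map_one, map_zero] at this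
        exact this
  · have hc : Nat.Coprime p 12 := by
      have h12 : (12 : ℕ) = 2 ^ 2 * 3 := by norm_num
      rw [h12]
      refine Nat.Coprime.mul_right (Nat.Coprime.pow_right 2 ?_) ?_
      · exact (Nat.coprime_primes hp Nat.prime_two).2 hp2
      · exact (Nat.coprime_primes hp Nat.prime_three).2 hp3
    exact s59t_PF_of_pgroup p hc hsq hneg hH

end PFodd

end Fermat.Agent.Lib.S59
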