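/-
PROGRAMME (R2) (helper3, prefix `s59u_`): **helper2's level hypotheses `s59b_Lvl M H` / `s59b_S37H M H` for EVERY ODD
`p`** (`p = 3` included).  helper2's `s59b_lvl_pgroup` (BLvlP.lean) needs `5 ≤ p` (elements of finite order of `Γ₀(M)`
have a `12`-th root of unity as lower right entry).  Here `s59b_Lvl M H` is obtained from helper8's (PF)
(`s59t_PF M H`), which holds for every odd `p` if — for `p = 3` — some prime `q ∣ M` is `≡ 2 (mod 3)`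
(`s59u_PF_odd`, `UPF3.lean`); `2 ∣ M` is enough.

* `s59u_lvl_of_PF`        : (PF) + `1 < M` + `-1 ∈ H` + goodness ⇒ `s59b_Lvl M H`;
* `s59u_lvl_pgroup_odd`   : the patching levels, every odd `p`;
* `s59u_S37H_pgroup_odd`  : `s59b_S37H M H` at these levels;
* `s59u_S37H_of_two_dvd`  : the case `2 ∣ M` (no condition at `p = 3`).
-/
import Mathlib
import Fermat.Agent.Lib.S59.UPF3
import Fermat.Agent.Lib.S59.BLvlP
import Fermat.Agent.Lib.S59.BKS37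

set_option autoImplicit false
set_option linter.unusedSectionVars false
set_option linter.unusedVariables false
set_option linter.style.haveILetI false

noncomputable section

namespace Fermat.Agent.Lib.S59

open Matrix.SpecialLinearGroup CongruenceSubgroup ModularGroup
open Fermat.Agent.Lib.S18 Fermat.Agent.Lib.S48
open scoped MatrixGroups

local notation "Mat2" => Matrix (Fin 2) (Fin 2) ℤ

/-- a unit whose value is the lower right entry of an element of `Γ_H` lies in `H`. -/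
theorem s59u_unit_mem_of_GammaH {M : ℕ} [NeZero M] {H : Subgroup (ZMod M)ˣ} {g : SL(2, ℤ)}
    (hg : g ∈ s48h_GammaH M H) (u : (ZMod M)ˣ)
    (hu : ((u : (ZMod M)ˣ) : ZMod M) = ((g 1 1 : ℤ) : ZMod M)) : u ∈ H := by
  obtain ⟨-, u', hu', hgu'⟩ := hg
  have : u = u' := Units.ext (hu.trans hgu')
  rw [this]
  exact hu'

/-- **`s59b_Lvl M H` from (PF).** -/
theorem s59u_lvl_of_PF {M : ℕ} [NeZero M] {H : Subgroup (ZMod M)ˣ} (hPF : s59t_PF M H)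
    (hM : 1 < M) (hneg : (-1 : (ZMod M)ˣ) ∈ H)
    (hgood : ∀ p : ℕ, p.Prime → ¬ p ∣ M → s18_GoodLevel p M) : s59b_Lvl M H := by
  refine ⟨hM, hneg, ?_, ?_, hgood⟩
  · intro g hg hfin u hu
    have hfin' : IsOfFinOrder (⟨g, hg⟩ : Gamma0 M) := by
      obtain ⟨n, hn, hgn⟩ := hfin.exists_pow_eq_one
      refine isOfFinOrder_iff_pow_eq_one.mpr ⟨n, hn, ?_⟩
      apply Subtype.ext
      rw [Subgroup.coe_pow]
      exact hgn
    exact s59u_unit_mem_of_GammaH (hPF ⟨g, hg⟩ (Or.inr hfin')) u hu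
  · intro σ k hmem u hu
    have htr : (((σ⁻¹ * T ^ k * σ : SL(2, ℤ)) : Mat2).trace) ^ 2 = 4 := by
      have h1 : ((σ⁻¹ * T ^ k * σ : SL(2, ℤ)) : Mat2).trace = 2 := by
        rw [Matrix.trace_fin_two]
        have := s48c_trace_conj σ (T ^ k)
        rw [s48c_T_pow_trace] at this
        exact this
      rw [h1]
      norm_num
    exact s59u_unit_mem_of_GammaH (hPF ⟨σ⁻¹ * T ^ k * σ, hmem⟩ (Or.inl htr)) u hu

/-- **the patching levels, every odd `p`**: `M` squarefree, divisible by `2` or `3`, `(ℤ/M)ˣ/H` a `p`-group, `p ≠ 2`, and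
— if `p = 3` — a prime `q ∣ M`, `q ≡ 2 (mod 3)`. -/
theorem s59u_lvl_pgroup_odd {M : ℕ} [NeZero M] {H : Subgroup (ZMod M)ˣ} (hsq : Squarefree M)
    (hM : 1 < M) (hneg : (-1 : (ZMod M)ˣ) ∈ H) (h23 : 2 ∣ M ∨ 3 ∣ M) {p : ℕ} (hp : p.Prime)
    (hp2 : p ≠ 2) (hpgrp : ∀ u : (ZMod M)ˣ, ∃ n : ℕ, u ^ (p ^ n) ∈ H)
    (h3 : p = 3 → ∃ q : ℕ, q.Prime ∧ q ∣ M ∧ q % 3 = 2) : s59b_Lvl M H :=
  s59u_lvl_of_PF (s59u_PF_odd p hp hp2 hsq hneg hpgrp h3) hM hneg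
    (fun q hq hqM => s59b_good_of h23 hq hqM)

/-- **`s59b_S37H M H` at the patching levels, every odd `p`.** -/
theorem s59u_S37H_pgroup_odd {M : ℕ} [NeZero M] {H : Subgroup (ZMod M)ˣ} (hsq : Squarefree M)
    (hM : 1 < M) (hneg : (-1 : (ZMod M)ˣ) ∈ H) (h23 : 2 ∣ M ∨ 3 ∣ M) {p : ℕ} (hp : p.Prime)
    (hp2 : p ≠ 2) (hpgrp : ∀ u : (ZMod M)ˣ, ∃ n : ℕ, u ^ (p ^ n) ∈ H)
    (h3 : p = 3 → ∃ q : ℕ, q.Prime ∧ q ∣ M ∧ q % 3 = 2) : s59b_S37H M H :=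
  s59b_S37H_of_lvl (s59u_lvl_pgroup_odd hsq hM hneg h23 hp hp2 hpgrp h3)

/-- **the case `2 ∣ M`**: no condition at `p = 3` (`q = 2`). -/
theorem s59u_S37H_of_two_dvd {M : ℕ} [NeZero M] {H : Subgroup (ZMod M)ˣ} (hsq : Squarefree M)
    (hneg : (-1 : (ZMod M)ˣ) ∈ H) (h2 : 2 ∣ M) {p : ℕ} (hp : p.Prime)
    (hp2 : p ≠ 2) (hpgrp : ∀ u : (ZMod M)ˣ, ∃ n : ℕ, u ^ (p ^ n) ∈ H) : s59b_S37H M H := by
  have hM : 1 < M := by
    have := Nat.le_of_dvd (Nat.pos_of_ne_zero (NeZero.ne M)) h2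
    omega
  exact s59u_S37H_pgroup_odd hsq hM hneg (Or.inl h2) hp hp2 hpgrp
    (fun _ => ⟨2, Nat.prime_two, h2, by norm_num⟩)

/-- **(PF) in the case `2 ∣ M`**, every odd `p`. -/
theorem s59u_PF_of_two_dvd {M : ℕ} [NeZero M] {H : Subgroup (ZMod M)ˣ} (hsq : Squarefree M)
    (hneg : (-1 : (ZMod M)ˣ) ∈ H) (h2 : 2 ∣ M) {p : ℕ} (hp : p.Prime)
    (hp2 : p ≠ 2) (hpgrp : ∀ u : (ZMod M)ˣ, ∃ n : ℕ, u ^ (p ^ n) ∈ H) : s59t_PF M H :=
  s59u_PF_odd p hp hp2 hsq hneg hpgrp (fun _ => ⟨2, Nat.prime_two, h2, by norm_num⟩)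

end Fermat.Agent.Lib.S59
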