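/-
CORNER₅ way (A) (helper3, prefix `s59u_`): **level transfer `M → M d`, part 4: the diamonds.**
* `s59u_w_diamond_tauH` : a diamond automorphism `⟨d⟩` of `F_H` multiplies `t_χ` by `χ(d)`;
* `s59u_w_algHom_ext_tq` : `ℚ̄`-algebra maps out of `F_H` into a field agreeing on `F̄₀(M)` and on the `t_χ` (`χ ∈ X_H`) are equal;
* **`s59u_w_pi_diamond`** : `⟨u'⟩ ∘ π = π ∘ ⟨u⟩` for `u' ∈ (ℤ/M d)ˣ` over `u ∈ (ℤ/M)ˣ`.
-/
import Mathlib
import Fermat.Agent.Lib.S59.UW37Field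

set_option autoImplicit false
set_option linter.unusedSectionVars false
set_option linter.style.haveILetI false

namespace Fermat.Agent.Lib.S59

open ModularCurve CongruenceSubgroup IntermediateField AlgebraicCurve
open Fermat.Agent.Lib.FF Fermat.Agent.Lib.S29 Fermat.Agent.Lib.S37 Fermat.Agent.Lib.S18
open Fermat.Agent.Lib.S48
open scoped MatrixGroups

noncomputable section

local notation "Kb" => AlgebraicClosure ℚ

variable {M : ℕ} [NeZero M] (H : Subgroup (ZMod M)ˣ)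

/-- A diamond automorphism acts on `σ_χ = ∑_v χ(v) s̄_v` through `χ`. -/
theorem s59u_w_diamond_sigH (d : (ZMod M)ˣ) (e : ↥(s48k_FH M H) ≃ₐ[Kb] ↥(s48k_FH M H))
    (he : s48k_IsDiamondAut M H d e) (χ : DirichletCharacter Kb M) :
    e (s48wg_sigH H χ) = χ ((d : (ZMod M)ˣ) : ZMod M) • s48wg_sigH H χ := by
  unfold s48wg_sigH
  rw [map_sum, Finset.smul_sum]
  rw [← Fintype.sum_bijective (fun u : (ZMod M)ˣ => u * d) (Group.mulRight_bijective d)
    (fun u => e (χ (((u * d : (ZMod M)ˣ)) : ZMod M) • s48k_sBar M H (u * d)))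
    (fun u => e (χ ((u : (ZMod M)ˣ) : ZMod M) • s48k_sBar M H u)) (fun u => rfl)]
  refine Finset.sum_congr rfl fun u _ => ?_
  rw [Algebra.smul_def, map_mul, e.commutes, ← Algebra.smul_def, he.2, mul_inv_cancel_right,
    smul_smul, Units.val_mul, map_mul, mul_comm]

/-- **A diamond automorphism multiplies `t_χ` by `χ(d)`.** -/
theorem s59u_w_diamond_tauH (d : (ZMod M)ˣ) (e : ↥(s48k_FH M H) ≃ₐ[Kb] ↥(s48k_FH M H))
    (he : s48k_IsDiamondAut M H d e) (χ : DirichletCharacter Kb M) (hχ : χ ∈ s48wg_XH H) :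
    e (s48wg_tauH H χ hχ) = χ ((d : (ZMod M)ˣ) : ZMod M) • s48wg_tauH H χ hχ := by
  have hcard : (Nat.card H : Kb) ≠ 0 := Nat.cast_ne_zero.mpr Nat.card_pos.ne'
  have h1 := s59u_w_diamond_sigH H d e he χ
  rw [s48wg_sigH_eq H χ hχ, s48wg_algEquiv_smul, smul_comm] at h1
  exact s48wg_smul_left_cancel hcard h1

/-- **Extensionality on `F_H` through the `t_χ`.** -/
theorem s59u_w_algHom_ext_tq {R : Type*} [Field R] [Algebra Kb R]
    {φ₁ φ₂ : ↥(s48k_FH M H) →ₐ[Kb] R}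
    (h0 : ∀ x : ↥(s48k_FH M H), (x : LaurentSeries Kb) ∈ modularFunctionFieldBar M →
      φ₁ x = φ₂ x)
    (ht : ∀ (χ : DirichletCharacter Kb M) (hχ : χ ∈ s48wg_XH H),
      φ₁ (s48wg_tauH H χ hχ) = φ₂ (s48wg_tauH H χ hχ)) : φ₁ = φ₂ := by
  let E : IntermediateField Kb ↥(s48k_FH M H) :=
    (AlgHom.equalizer φ₁ φ₂).toIntermediateField (fun x hx => by
      show φ₁ x⁻¹ = φ₂ x⁻¹
      rw [map_inv₀, map_inv₀, show φ₁ x = φ₂ x from hx])
  let K' : IntermediateField Kb (LaurentSeries Kb) := E.map (s48k_FH M H).val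
  have hle : s48k_FH M H ≤ K' := by
    refine s48wg_FH_le_of H K' ?_ ?_
    · intro x hx
      exact ⟨⟨x, s48wg_bar_le_FH H hx⟩, h0 _ hx, rfl⟩
    · intro χ hχ
      exact ⟨s48wg_tauH H χ hχ, ht χ hχ, rfl⟩
  apply AlgHom.ext
  intro x
  obtain ⟨y, hy, hyx⟩ := hle x.2
  have : y = x := Subtype.ext hyx
  rw [← this]
  exact hy

theorem s59u_w_algHom_smul {K A B : Type*} [CommSemiring K] [Semiring A] [Semiring B] [Algebra K A]
    [Algebra K B] (f : A →ₐ[K] B) (c : K) (x : A) : f (c • x) = c • f x := by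
  rw [Algebra.smul_def, map_mul, f.commutes, ← Algebra.smul_def]

variable (d : ℕ) [NeZero d]

/-- **`⟨u'⟩ ∘ π = π ∘ ⟨u⟩`.** -/
theorem s59u_w_pi_diamond (hM : 1 < M) (hneg : (-1 : (ZMod M)ˣ) ∈ H) (u' : (ZMod (M * d))ˣ)
    (x : ↥(s48k_FH M H)) :
    s48k_diamondAut (M * d) (s59u_w_Hup H d) u' (s59u_w_pi H d hM hneg x) =
      s59u_w_pi H d hM hneg
        (s48k_diamondAut M H (ZMod.unitsMap (dvd_mul_right M d) u') x) := by
  haveI : NeZero (M * d) := ⟨Nat.mul_ne_zero (NeZero.ne M) (NeZero.ne d)⟩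
  have hN : 1 < M * d := lt_of_lt_of_le hM (Nat.le_mul_of_pos_right M (NeZero.pos d))
  have hneg' := s59u_w_neg_one_mem_Hup H d hneg
  set u := ZMod.unitsMap (dvd_mul_right M d) u' with hu
  have he := s48wg_isDiamondAut H hM hneg u
  have he' := s48wg_isDiamondAut (s59u_w_Hup H d) hN hneg' u'
  set e := s48k_diamondAut M H u with hedef
  set e' := s48k_diamondAut (M * d) (s59u_w_Hup H d) u' with he'def
  have key : ((e' : ↥(s48k_FH (M * d) (s59u_w_Hup H d)) →ₐ[Kb] _).comp (s59u_w_pi H d hM hneg)) =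
      (s59u_w_pi H d hM hneg).comp (e : ↥(s48k_FH M H) →ₐ[Kb] _) := by
    refine s59u_w_algHom_ext_tq H ?_ ?_
    · intro y hy
      rw [AlgHom.comp_apply, AlgHom.comp_apply, AlgEquiv.coe_toAlgHom, AlgEquiv.coe_toAlgHom,
        he.1 y hy]
      refine he'.1 _ ?_
      rw [s59u_w_coe_pi]
      exact s18l_bar_mono (dvd_mul_right M d) hy
    · intro χ hχ
      rw [AlgHom.comp_apply, AlgHom.comp_apply, AlgEquiv.coe_toAlgHom, AlgEquiv.coe_toAlgHom,
        s59u_w_diamond_tauH H u e he χ hχ]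
      -- the ratio `c = t_χ / t_{χ'}` as an element of `F_{H'}(M d)`
      have hχ' := s59u_w_infl_mem_XH H d hχ
      have hc := s59u_w_tq_div_mem d hM χ ((s48wg_charSet_XH H hneg).even χ hχ)
      set c : ↥(s48k_FH (M * d) (s59u_w_Hup H d)) :=
        ⟨_, s48wg_bar_le_FH (s59u_w_Hup H d) hc⟩ with hcdef
      have hπτ : s59u_w_pi H d hM hneg (s48wg_tauH H χ hχ) =
          c * s48wg_tauH (s59u_w_Hup H d) (s59u_w_infl d χ) hχ' := by
        apply Subtype.ext
        rw [s59u_w_coe_pi]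
        show s48wf_tq χ = s48wf_tq χ / s48wf_tq (s59u_w_infl d χ) * s48wf_tq (s59u_w_infl d χ)
        exact (div_mul_cancel₀ _ (s48wf_tq_ne_zero _)).symm
      have hec : e' c = c := he'.1 c hc
      rw [s59u_w_algHom_smul, hπτ, map_mul, hec,
        s59u_w_diamond_tauH (s59u_w_Hup H d) u' e' he' (s59u_w_infl d χ) hχ',
        s59u_w_infl_unit, mul_smul_comm]
  exact congrArg (fun f => f x) key

end

end Fermat.Agent.Lib.S59
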