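/-
CORNER₅ way (A) (helper3, prefix `s59u_`): **level transfer `M → M d` for the `Γ_H`-layer, part 3: the pull-back
`π^* : J_H(M) → J_{H'}(M d)`** (H-version of helper8's `s37l_levelData`, items 1 and 3).
* `s59u_w_pullData` : for a prime `d ∤ M` there are `hπ`, `hFI` such that `P := s37l_pic0Pullback π hπ hFI` commutes with the
  arithmetic Galois action and has kernel killed by `d + 1`.
-/
import Mathlib
import Fermat.Agent.Lib.S37.LHecke
import Fermat.Agent.Lib.S48.EGenInputs
import Fermat.Agent.Lib.S59.UW37Field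

set_option autoImplicit false
set_option linter.unusedSectionVars false
set_option linter.style.haveILetI false

namespace Fermat.Agent.Lib.S59

open ModularCurve CongruenceSubgroup IntermediateField AlgebraicCurve
open Fermat.Agent.Lib.FF Fermat.Agent.Lib.S29 Fermat.Agent.Lib.S37 Fermat.Agent.Lib.S18
open Fermat.Agent.Lib.S48
open scoped MatrixGroups

noncomputable section

local notation "Kb" => AlgebraicClosure ℚ

section Generic

variable {K F F' : Type*} [Field K] [Field F] [Field F'] [Algebra K F] [Algebra K F']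
  [CharZero K] [IsAlgClosed K]

/-- `∑ e f = n` along a finite `K`-embedding of function fields with generators. -/
theorem s59u_w_sum_e_f (x : F) [FFGen K x] (x' : F') [FFGen K x'] [HasPrincipalDivisors K F']
    (φ : F →ₐ[K] F') (hφ : φ.toRingHom.IsIntegral) (hfin : FiniteAlong K φ) (v : Place K F) :
    ∑ W ∈ Place.fiberAlong φ hφ v,
      (W.ramificationIndexAlong φ : ℤ) * (W.inertiaDegAlong φ hφ : ℤ) =
        (finrankAlong K φ : ℕ) := by
  letI := algebraAlong φ
  haveI := isScalarTower_along φ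
  haveI := isIntegral_along φ hφ
  haveI : FiniteDimensional F F' := hfin
  haveI : CharZero F := charZero_of_injective_algebraMap (algebraMap K F).injective
  exact s37h_sum_ramificationIndex_mul_inertiaDeg (fun v => ff_residue_surjective K x v)
    (fun w => ff_deg_eq_one K x' w) v

end Generic

variable {M : ℕ} [NeZero M] (H : Subgroup (ZMod M)ˣ) (d : ℕ) [NeZero d]

/-- The inclusion intertwines the arithmetic Galois actions. -/
theorem s59u_w_pi_intertwines (hM : 1 < M) (hneg : (-1 : (ZMod M)ˣ) ∈ H) (σ : Kb ≃ₐ[ℚ] Kb) :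
    SemilinearAut.IntertwinesAlong
      ((s59u_w_pi H d hM hneg : ↥(s48k_FH M H) →ₐ[Kb] ↥(s48k_FH (M * d) (s59u_w_Hup H d))) :
        ↥(s48k_FH M H) →+* ↥(s48k_FH (M * d) (s59u_w_Hup H d)))
      (arithmeticGalois (s48k_FHQ M H) σ)
      (arithmeticGalois (s48k_FHQ (M * d) (s59u_w_Hup H d)) σ) := by
  intro x
  apply Subtype.ext
  show ((arithmeticGalois (s48k_FHQ (M * d) (s59u_w_Hup H d)) σ • (s59u_w_pi H d hM hneg x) :
      ↥(s48k_FH (M * d) (s59u_w_Hup H d))) : LaurentSeries Kb) =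
    ((s59u_w_pi H d hM hneg (arithmeticGalois (s48k_FHQ M H) σ • x) :
      ↥(s48k_FH (M * d) (s59u_w_Hup H d))) : LaurentSeries Kb)
  rw [coe_arithmeticGalois_smul, s59u_w_coe_pi, s59u_w_coe_pi, coe_arithmeticGalois_smul]

/-- **The pull-back data of the level change `M → M d`.** -/
theorem s59u_w_pullData (hM : 1 < M) (hneg : (-1 : (ZMod M)ˣ) ∈ H) (hd : d.Prime)
    (hdM : ¬ d ∣ M) :
    ∃ (_ : HasPrincipalDivisors Kb ↥(s48k_FH (M * d) (s59u_w_Hup H d)))
      (hπ : (s59u_w_pi H d hM hneg).toRingHom.IsIntegral)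
      (hFI : FundamentalIdentityAlong Kb (s59u_w_pi H d hM hneg) hπ),
      (∀ (σ : s48k_G) (x : s48k_JH M H),
        s37l_pic0Pullback _ hπ hFI (σ • x) = σ • s37l_pic0Pullback _ hπ hFI x) ∧
      (∀ x : s48k_JH M H, s37l_pic0Pullback _ hπ hFI x = 0 → (d + 1) • x = 0) := by
  haveI : NeZero (M * d) := ⟨Nat.mul_ne_zero (NeZero.ne M) (NeZero.ne d)⟩
  have hN : 1 < M * d := lt_of_lt_of_le hM (Nat.le_mul_of_pos_right M (NeZero.pos d))
  have hneg' := s59u_w_neg_one_mem_Hup H d hneg
  obtain ⟨x₀, hx₀⟩ := s48wg_ffGen_FH H hM hneg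
  obtain ⟨x₁, hx₁⟩ := s48wg_ffGen_FH (s59u_w_Hup H d) hN hneg'
  haveI := hx₀
  haveI := hx₁
  haveI hP : HasPrincipalDivisors Kb ↥(s48k_FH (M * d) (s59u_w_Hup H d)) :=
    s48e_hasPrincipalDivisors x₁
  have hfin := s59u_w_finiteAlong_pi H d hM hneg hd hdM
  have hπ := s48e_isIntegral_of_finiteAlong (s59u_w_pi H d hM hneg) hfin
  have hFI := s48e_fundamentalIdentityAlong x₀ x₁ (s59u_w_pi H d hM hneg) hfin hπ
  have hNF := s48e_normFormulaAlong x₀ x₁ (s59u_w_pi H d hM hneg) hfin
  refine ⟨hP, hπ, hFI, ?_, ?_⟩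
  · intro σ x
    rw [galois_smul_pic0_def, galois_smul_pic0_def]
    exact s37l_pic0Pullback_smul (s59u_w_pi H d hM hneg) hπ hFI _ _
      (s59u_w_pi_intertwines H d hM hneg σ) x
  · intro x hx
    refine s37l_pic0Pullback_eq_zero (s59u_w_pi H d hM hneg) hπ hFI hfin hNF (d + 1)
      (fun v => ?_) x hx
    rw [s59u_w_sum_e_f x₀ x₁ (s59u_w_pi H d hM hneg) hπ hfin v,
      s59u_w_finrankAlong_pi H d hM hneg hd hdM]

end

end Fermat.Agent.Lib.S59
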