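/-
CORNER₅ way (A) (helper3, prefix `s59u_`): **level transfer `M → M d`, part 5: the Hecke correspondence at `p ≠ d`.**
* `s59u_w_FHp_le` : `F'_p(M, H) ⊆ F'_p(M d, H')`; `s59u_w_pi'` the inclusion; the `α`- and `β`-squares commute;
* **`s59u_w_pull_heckeFF`** : `π^* ∘ (α_* β^*)_M = (α_* β^*)_{M d} ∘ π^*` when `(p + 1, d + 1) = 1` (helper8's
  `s37l_pic0_correspondence_pullback`: base change formula from linear disjointness);
* **`s59u_w_pull_TpJ`**, `s59u_w_pull_diamondJ` : the same for the classical `T_p` and the diamonds.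
-/
import Mathlib
import Fermat.Agent.Lib.S37.LNorm
import Fermat.Agent.Lib.S37.LApprox
import Fermat.Agent.Lib.S59.BKInputs
import Fermat.Agent.Lib.S59.UW37Dia
import Fermat.Agent.Lib.S59.UW37Pull

set_option autoImplicit false
set_option linter.unusedSectionVars false
set_option linter.style.haveILetI false

namespace Fermat.Agent.Lib.S59

open ModularCurve CongruenceSubgroup IntermediateField AlgebraicCurve
open Fermat.Agent.Lib.FF Fermat.Agent.Lib.S29 Fermat.Agent.Lib.S37 Fermat.Agent.Lib.S18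
open Fermat.Agent.Lib.S48
open scoped MatrixGroups

noncomputable section

local notation "Kb" => AlgebraicClosure ℚ

variable {M : ℕ} [NeZero M] (H : Subgroup (ZMod M)ˣ) (d : ℕ) [NeZero d]

/-- **`F'_p(M, H) ⊆ F'_p(M d, H')`.** -/
theorem s59u_w_FHp_le (hM : 1 < M) (hneg : (-1 : (ZMod M)ˣ) ∈ H) (p : ℕ) [NeZero p] :
    laurentBaseChange Kb (s48k_FHQp M H p) ≤
      laurentBaseChange Kb (s48k_FHQp (M * d) (s59u_w_Hup H d) p) := by
  haveI : NeZero (M * d) := ⟨Nat.mul_ne_zero (NeZero.ne M) (NeZero.ne d)⟩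
  haveI : NeZero (M * p) := ⟨Nat.mul_ne_zero (NeZero.ne M) (NeZero.ne p)⟩
  haveI : NeZero (M * d * p) := ⟨Nat.mul_ne_zero (NeZero.ne (M * d)) (NeZero.ne p)⟩
  set R := laurentBaseChange Kb (s48k_FHQp (M * d) (s59u_w_Hup H d) p) with hR
  have hup : s48k_FH M H ≤ R :=
    (s59u_w_FH_le_up H d hM hneg).trans (s48wg_FH_le_FHp (s59u_w_Hup H d) p)
  rw [s48k_FHQp, ffg_laurentBaseChange_adjoin, IntermediateField.adjoin_le_iff]
  rintro _ ⟨y, (hy | ⟨u, rfl⟩) | ⟨_, ⟨u, rfl⟩, rfl⟩, rfl⟩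
  · have h1 : coeffEmb Kb y ∈ modularFunctionFieldBar (M * p) :=
      coeffEmb_mem_laurentBaseChange Kb (IntermediateField.subset_adjoin ℚ _ hy)
    have hdvd : M * p ∣ M * d * p := ⟨d, by ring⟩
    exact s48wg_bar_le_FHp (s59u_w_Hup H d) p (s18l_bar_mono hdvd h1)
  · exact hup (s48k_sBar M H u).2
  · rw [s48k_coeffEmb_qExpand]
    have hmem : coeffEmb Kb (s48k_sQ M H u) ∈ s48k_FH (M * d) (s59u_w_Hup H d) :=
      s59u_w_FH_le_up H d hM hneg (s48k_sBar M H u).2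
    exact (s48k_heckeBetaH (M * d) (s59u_w_Hup H d) p ⟨_, hmem⟩).2

/-- The inclusion `π' : F'_p(M, H) → F'_p(M d, H')`. -/
def s59u_w_pi' (hM : 1 < M) (hneg : (-1 : (ZMod M)ˣ) ∈ H) (p : ℕ) [NeZero p] :
    ↥(laurentBaseChange Kb (s48k_FHQp M H p)) →ₐ[Kb]
      ↥(laurentBaseChange Kb (s48k_FHQp (M * d) (s59u_w_Hup H d) p)) :=
  IntermediateField.inclusion (s59u_w_FHp_le H d hM hneg p)

@[simp] theorem s59u_w_coe_pi' (hM : 1 < M) (hneg : (-1 : (ZMod M)ˣ) ∈ H) (p : ℕ) [NeZero p]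
    (x : ↥(laurentBaseChange Kb (s48k_FHQp M H p))) :
    ((s59u_w_pi' H d hM hneg p x :
      ↥(laurentBaseChange Kb (s48k_FHQp (M * d) (s59u_w_Hup H d) p))) : LaurentSeries Kb) =
      (x : LaurentSeries Kb) :=
  IntermediateField.coe_inclusion _ x

/-- The `α`-square commutes. -/
theorem s59u_w_sq_alpha (hM : 1 < M) (hneg : (-1 : (ZMod M)ˣ) ∈ H) (p : ℕ) [NeZero p] :
    (s48k_heckeAlphaH (M * d) (s59u_w_Hup H d) p).comp (s59u_w_pi H d hM hneg) =
      (s59u_w_pi' H d hM hneg p).comp (s48k_heckeAlphaH M H p) := by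
  apply AlgHom.ext
  intro x
  apply Subtype.ext
  rw [AlgHom.comp_apply, AlgHom.comp_apply, s48k_coe_heckeAlphaH, s59u_w_coe_pi, s59u_w_coe_pi',
    s48k_coe_heckeAlphaH]

/-- The `β`-square commutes. -/
theorem s59u_w_sq_beta (hM : 1 < M) (hneg : (-1 : (ZMod M)ˣ) ∈ H) (p : ℕ) [NeZero p] :
    (s48k_heckeBetaH (M * d) (s59u_w_Hup H d) p).comp (s59u_w_pi H d hM hneg) =
      (s59u_w_pi' H d hM hneg p).comp (s48k_heckeBetaH M H p) := by
  apply AlgHom.ext
  intro x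
  apply Subtype.ext
  rw [AlgHom.comp_apply, AlgHom.comp_apply, s48k_coe_heckeBetaH, s59u_w_coe_pi, s59u_w_coe_pi',
    s48k_coe_heckeBetaH]

set_option maxHeartbeats 800000 in
/-- **`π^*` commutes with the function-field correspondence `α_* β^*` at `p`.** -/
theorem s59u_w_pull_heckeFF (hM : 1 < M) (hneg : (-1 : (ZMod M)ˣ) ∈ H) (hd : d.Prime)
    (hdM : ¬ d ∣ M) (p : ℕ) [NeZero p] (hp : p.Prime) (hpM : ¬ p ∣ M) (hpd : p ≠ d)
    (hcop : (p + 1).Coprime (d + 1))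
    [HasPrincipalDivisors Kb ↥(s48k_FH (M * d) (s59u_w_Hup H d))]
    (hπ : (s59u_w_pi H d hM hneg).toRingHom.IsIntegral)
    (hFI : FundamentalIdentityAlong Kb (s59u_w_pi H d hM hneg) hπ) (x : s48k_JH M H) :
    s37l_pic0Pullback (s59u_w_pi H d hM hneg) hπ hFI (s48k_heckeFF M H p x) =
      s48k_heckeFF (M * d) (s59u_w_Hup H d) p
        (s37l_pic0Pullback (s59u_w_pi H d hM hneg) hπ hFI x) := by
  haveI : NeZero (M * d) := ⟨Nat.mul_ne_zero (NeZero.ne M) (NeZero.ne d)⟩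
  have hN : 1 < M * d := lt_of_lt_of_le hM (Nat.le_mul_of_pos_right M (NeZero.pos d))
  have hneg' := s59u_w_neg_one_mem_Hup H d hneg
  have hpN : ¬ p ∣ M * d := by
    intro h
    rcases (Nat.Prime.dvd_mul hp).mp h with h | h
    · exact hpM h
    · exact hpd ((Nat.prime_dvd_prime_iff_eq hp hd).mp h)
  have hin := s59b_heckeInputsH H hM hneg p hp hpM
  have hin' := s59b_heckeInputsH (s59u_w_Hup H d) hN hneg' p hp hpN
  haveI := hin.snd.snd.fst
  haveI := hin'.snd.snd.fst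
  have e1 : s48k_heckeFF M H p =
      Pic0.correspondence (s48k_heckeBetaH M H p) (s48k_heckeAlphaH M H p) hin.snd.fst hin.fst
        hin.snd.snd.snd.snd.1 hin.snd.snd.snd.fst hin.snd.snd.snd.snd.2 := by
    unfold s48k_heckeFF
    exact dif_pos hin
  have e2 : s48k_heckeFF (M * d) (s59u_w_Hup H d) p =
      Pic0.correspondence (s48k_heckeBetaH (M * d) (s59u_w_Hup H d) p)
        (s48k_heckeAlphaH (M * d) (s59u_w_Hup H d) p) hin'.snd.fst hin'.fst
        hin'.snd.snd.snd.snd.1 hin'.snd.snd.snd.fst hin'.snd.snd.snd.snd.2 := by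
    unfold s48k_heckeFF
    exact dif_pos hin'
  rw [e1, e2]
  have hsqα := s59u_w_sq_alpha H d hM hneg p
  have hsqβ := s59u_w_sq_beta H d hM hneg p
  have hfinπ := s59u_w_finiteAlong_pi H d hM hneg hd hdM
  have hπ' : (s59u_w_pi' H d hM hneg p).toRingHom.IsIntegral := by
    have h1 : ((s48k_heckeAlphaH (M * d) (s59u_w_Hup H d) p).comp
        (s59u_w_pi H d hM hneg)).toRingHom.IsIntegral :=
      s37l_isIntegral_comp _ _ hπ hin'.fst
    rw [hsqα] at h1
    exact RingHom.IsIntegral.tower_top (s48k_heckeAlphaH M H p).toRingHom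
      (s59u_w_pi' H d hM hneg p).toRingHom h1
  have hdegα := s48wg_finrankAlong_alpha H p hM hneg hp hpM
  have hdegα' := s48wg_finrankAlong_alpha (s59u_w_Hup H d) p hN hneg' hp hpN
  have hdegπ := s59u_w_finrankAlong_pi H d hM hneg hd hdM
  have hnorm := s37l_norm_baseChangeAlong (s48k_heckeAlphaH M H p) (s59u_w_pi H d hM hneg)
    (s48k_heckeAlphaH (M * d) (s59u_w_Hup H d) p) (s59u_w_pi' H d hM hneg p) hsqα
    hin.snd.snd.snd.fst hfinπ (by rw [hdegα, hdegπ]; exact hcop) (by rw [hdegα', hdegα])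
  haveI : CharZero ↥(s48k_FH M H) :=
    charZero_of_injective_algebraMap (algebraMap Kb ↥(s48k_FH M H)).injective
  have hwa := s37l_weakApproxAlong (s48k_heckeAlphaH M H p) hin.fst hin.snd.snd.snd.fst
  exact s37l_pic0_correspondence_pullback (s48k_heckeAlphaH M H p) (s48k_heckeBetaH M H p)
    (s59u_w_pi H d hM hneg) (s48k_heckeAlphaH (M * d) (s59u_w_Hup H d) p)
    (s48k_heckeBetaH (M * d) (s59u_w_Hup H d) p) (s59u_w_pi' H d hM hneg p) hsqα hsqβ
    hin.fst hin.snd.fst hπ hin'.fst hin'.snd.fst hπ'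
    hin.snd.snd.snd.snd.1 hin'.snd.snd.snd.snd.1 hFI
    hin.snd.snd.snd.fst hin.snd.snd.snd.snd.2 hin'.snd.snd.snd.fst hin'.snd.snd.snd.snd.2
    hnorm hwa x

/-- **`π^*` commutes with the diamonds.** -/
theorem s59u_w_pull_diamondJ (hM : 1 < M) (hneg : (-1 : (ZMod M)ˣ) ∈ H)
    [HasPrincipalDivisors Kb ↥(s48k_FH (M * d) (s59u_w_Hup H d))]
    (hπ : (s59u_w_pi H d hM hneg).toRingHom.IsIntegral)
    (hFI : FundamentalIdentityAlong Kb (s59u_w_pi H d hM hneg) hπ)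
    (u' : (ZMod (M * d))ˣ) (x : s48k_JH M H) :
    s37l_pic0Pullback (s59u_w_pi H d hM hneg) hπ hFI
        (s48k_diamondJ M H (ZMod.unitsMap (dvd_mul_right M d) u') x) =
      s48k_diamondJ (M * d) (s59u_w_Hup H d) u'
        (s37l_pic0Pullback (s59u_w_pi H d hM hneg) hπ hFI x) := by
  rw [s48k_diamondJ_apply, s48k_diamondJ_apply]
  refine s37l_pic0Pullback_smul (s59u_w_pi H d hM hneg) hπ hFI _ _ ?_ x
  intro y
  exact s59u_w_pi_diamond H d hM hneg u' y

/-- **`π^*` commutes with the classical `T_p`.** -/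
theorem s59u_w_pull_TpJ (hM : 1 < M) (hneg : (-1 : (ZMod M)ˣ) ∈ H) (hd : d.Prime)
    (hdM : ¬ d ∣ M) (p : ℕ) [NeZero p] (hp : p.Prime) (hpM : ¬ p ∣ M) (hpd : p ≠ d)
    (hcop : (p + 1).Coprime (d + 1))
    [HasPrincipalDivisors Kb ↥(s48k_FH (M * d) (s59u_w_Hup H d))]
    (hπ : (s59u_w_pi H d hM hneg).toRingHom.IsIntegral)
    (hFI : FundamentalIdentityAlong Kb (s59u_w_pi H d hM hneg) hπ)
    (u' : (ZMod (M * d))ˣ) (x : s48k_JH M H) :
    s37l_pic0Pullback (s59u_w_pi H d hM hneg) hπ hFI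
        (s48k_TpJ M H p (ZMod.unitsMap (dvd_mul_right M d) u') x) =
      s48k_TpJ (M * d) (s59u_w_Hup H d) p u'
        (s37l_pic0Pullback (s59u_w_pi H d hM hneg) hπ hFI x) := by
  show s37l_pic0Pullback (s59u_w_pi H d hM hneg) hπ hFI
      (s48k_heckeFF M H p (s48k_diamondJ M H (ZMod.unitsMap (dvd_mul_right M d) u') x)) =
    s48k_heckeFF (M * d) (s59u_w_Hup H d) p (s48k_diamondJ (M * d) (s59u_w_Hup H d) u'
      (s37l_pic0Pullback (s59u_w_pi H d hM hneg) hπ hFI x))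
  rw [s59u_w_pull_heckeFF H d hM hneg hd hdM p hp hpM hpd hcop hπ hFI,
    s59u_w_pull_diamondJ H d hM hneg hπ hFI u' x]

end

end Fermat.Agent.Lib.S59
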