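/-
CORNER₅ way (A) (helper3, prefix `s59u_`), file 1: **the weak level structure WITHOUT goodness.**

helper2's `s59b_Lvl M H` (BKLvl) asks `s18_GoodLevel p M` for EVERY prime `p ∤ M`; this fails for `p ∈ {2, 3}` when `M` is
prime to `6`.  `s59u_LvlW M H` keeps the four other fields.  The files `UW37Div*`, `UW37Step`, `UW37Tower`, `UW37Wild` are
the twins of helper2's `BKDiv*`, `BKAT*` over `s59u_LvlW` (goodness is only used at the prime of reduction, in the base of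
the tower).
-/
import Mathlib
import Fermat.Agent.Lib.S59.BKLvl

set_option autoImplicit false
set_option linter.unusedSectionVars false

namespace Fermat.Agent.Lib.S59

open Matrix.SpecialLinearGroup CongruenceSubgroup ModularGroup
open Fermat.Agent.Lib.S18 Fermat.Agent.Lib.S48
open scoped MatrixGroups

/-- **The weak level hypotheses of the `Γ_H`-layer, without goodness.** -/
structure s59u_LvlW (M : ℕ) (H : Subgroup (ZMod M)ˣ) : Prop where
  one_lt : 1 < M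
  neg_one : (-1 : (ZMod M)ˣ) ∈ H
  /-- the elements of finite order of `Γ₀(M)` have lower right entry in `H` -/
  finOrd : ∀ g : SL(2, ℤ), g ∈ Gamma0 M → IsOfFinOrder g → ∀ u : (ZMod M)ˣ,
    ((u : (ZMod M)ˣ) : ZMod M) = ((g 1 1 : ℤ) : ZMod M) → u ∈ H
  /-- the parabolic elements of `Γ₀(M)` have lower right entry in `H` -/
  par : ∀ (σ : SL(2, ℤ)) (k : ℕ), σ⁻¹ * T ^ k * σ ∈ Gamma0 M → ∀ u : (ZMod M)ˣ,
    ((u : (ZMod M)ˣ) : ZMod M) = (((σ⁻¹ * T ^ k * σ) 1 1 : ℤ) : ZMod M) → u ∈ H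

theorem s59u_lvlW_of_lvl {M : ℕ} {H : Subgroup (ZMod M)ˣ} (hL : s59b_Lvl M H) : s59u_LvlW M H :=
  ⟨hL.one_lt, hL.neg_one, hL.finOrd, hL.par⟩

theorem s59u_lvl_of_lvlW {M : ℕ} {H : Subgroup (ZMod M)ˣ} (hW : s59u_LvlW M H)
    (hgood : ∀ p : ℕ, p.Prime → ¬ p ∣ M → s18_GoodLevel p M) : s59b_Lvl M H :=
  ⟨hW.one_lt, hW.neg_one, hW.finOrd, hW.par, hgood⟩

/-- `s59u_LvlW` is monotone in the subgroup. -/
theorem s59u_lvlW_mono {M : ℕ} {H H' : Subgroup (ZMod M)ˣ} (hW : s59u_LvlW M H) (hHH' : H ≤ H') :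
    s59u_LvlW M H' :=
  ⟨hW.one_lt, hHH' hW.neg_one, fun g hg h u hu => hHH' (hW.finOrd g hg h u hu),
    fun σ k hmem u hu => hHH' (hW.par σ k hmem u hu)⟩

/-- primes `≥ 5` not dividing the level are good. -/
theorem s59u_good_of_five_le {M p : ℕ} (hpM : ¬ p ∣ M) (h5 : 5 ≤ p) : s18_GoodLevel p M :=
  ⟨hpM, Or.inl h5⟩

end Fermat.Agent.Lib.S59
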