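/-
CORNER₅ way (A) (helper3): twin of helper2's `BKATTower.lean` over the weak level structure WITHOUT goodness `s59u_LvlW`
(UW37Lvl): goodness is asked ONLY at the prime of reduction (`hgood : s18_GoodLevel p M`), in the base of the tower.
-/
import Fermat.Agent.Lib.S48.ATStep
import Fermat.Agent.Lib.S48.WildBase
import Fermat.Agent.Lib.S48.EIntGlueZ
import Fermat.Agent.Lib.S48.ATTower
import Fermat.Agent.Lib.S59.UW37Lvl
import Fermat.Agent.Lib.S59.UW37Step

set_option autoImplicit false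
set_option linter.unusedSectionVars false
set_option linter.style.haveILetI false

noncomputable section

namespace Fermat.Agent.Lib.S59

open Fermat.Agent.Lib.S48

open ModularCurve HahnSeries AlgebraicCurve IntermediateField Fermat.Agent.Lib.S18
  Fermat.Agent.Lib.FF

local notation "Qbar" => AlgebraicClosure ℚ

variable {M : ℕ} [NeZero M]

set_option maxHeartbeats 800000 in
/-- **the base of the concrete tower.** -/
theorem s59u_w_towerP_top {H : Subgroup (ZMod M)ˣ} (hL : s59u_LvlW M H)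
    {p : ℕ} [Fact p.Prime] (hpM : ¬ p ∣ M) (hgood : s18_GoodLevel p M)
    (A : ValuationSubring Qbar) (hA : A.LiesOverPrime p) :
    s48a_TowerP M H A ⊤ := by
  have hp : p.Prime := Fact.out
  have hM : 1 < M := hL.one_lt
  obtain ⟨w, hw0, htop, hfin⟩ := s48c_tower_base M hpM A hA hgood
    (s48e_GbZ M H (IsLocalRing.ResidueField ↥A)) (s48e_fullC_le_GbZ M H _)
  unfold s48a_TowerP
  have e : s48k_FHQ M (⊤ : Subgroup (ZMod M)ˣ) = modularFunctionFieldFull M := s48wg_FHQ_top hM
  show ∃ w : ↥(laurentBaseChange Qbar (s48k_FHQ M (⊤ : Subgroup (ZMod M)ˣ))), w ≠ 0 ∧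
    s48g_TopIH A (modularFunctionFieldFull M) (s48e_GbZ M H (IsLocalRing.ResidueField ↥A))
      (s48k_FHQ M (⊤ : Subgroup (ZMod M)ˣ)) w ∧
    s48g_FinIH A (s48k_FHQ M (⊤ : Subgroup (ZMod M)ˣ)) w
  rw [e]
  exact ⟨w, hw0, htop, hfin⟩

/-- **the concrete wild step**, as a hypothesis shape. -/
def s59u_w_WildStep : Prop :=
  ∀ (M : ℕ) [NeZero M] (H : Subgroup (ZMod M)ˣ), s59u_LvlW M H →
    ∀ (p : ℕ) [Fact p.Prime], ¬ p ∣ M → ∀ (A : ValuationSubring Qbar), A.LiesOverPrime p →
      ∀ (H' : Subgroup (ZMod M)ˣ), H ≤ H' → ∀ g : (ZMod M)ˣ, g ∉ H' → g ^ p ∈ H' →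
        s48a_TowerP M H A (H' ⊔ Subgroup.zpowers g) → s48a_TowerP M H A H'

/-- **`P(H)`** by induction along the tower. -/
theorem s59u_w_towerP (hwild : s59u_w_WildStep) {H : Subgroup (ZMod M)ˣ}
    (hL : s59u_LvlW M H) {p : ℕ} [Fact p.Prime] (hpM : ¬ p ∣ M) (hgood : s18_GoodLevel p M)
    (A : ValuationSubring Qbar) (hA : A.LiesOverPrime p) : s48a_TowerP M H A H := by
  have key : ∀ K : Subgroup (ZMod M)ˣ, H ≤ K → s48a_TowerP M H A K := by
    refine s48a_subgroup_induction (fun K => H ≤ K → s48a_TowerP M H A K) ?_ ?_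
    · intro _
      exact s59u_w_towerP_top hL hpM hgood A hA
    · intro H' g r hr hg hgr ih hHH'
      have hP := ih (hHH'.trans le_sup_left)
      by_cases hpr : p = r
      · subst hpr
        exact hwild M H hL p hpM A hA H' hHH' g hg hgr hP
      · exact s59u_w_tame_step_conc hL A hA hHH' g hr hg hgr hpr hP
  exact key H le_rfl

end Fermat.Agent.Lib.S59

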