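/-
CORNER₅ way (A) (helper3): twin of helper2's `BKATWild.lean` over the weak level structure WITHOUT goodness `s59u_LvlW`
(UW37Lvl); proofs unchanged, names `s59b_a_foo ↦ s59u_w_foo`.
-/
import Fermat.Agent.Lib.S48.ATStep
import Fermat.Agent.Lib.S48.ATTower
import Fermat.Agent.Lib.S48.WCyc
import Fermat.Agent.Lib.S48.WildAff
import Fermat.Agent.Lib.S48.GTowerWF
import Fermat.Agent.Lib.S48.ATWild
import Fermat.Agent.Lib.S59.UW37Lvl
import Fermat.Agent.Lib.S59.UW37Step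
import Fermat.Agent.Lib.S59.UW37Tower

set_option autoImplicit false
set_option linter.unusedSectionVars false
set_option linter.style.haveILetI false

noncomputable section

namespace Fermat.Agent.Lib.S59

open Fermat.Agent.Lib.S48

open ModularCurve HahnSeries AlgebraicCurve IntermediateField Fermat.Agent.Lib.S18
  Fermat.Agent.Lib.FF

local notation "Qbar" => AlgebraicClosure ℚ

set_option synthInstance.maxHeartbeats 400000 in
set_option maxHeartbeats 1600000 in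
/-- **the concrete wild step** (`r = p`): one call of the generic wild step `s48g_wild_step`. -/
theorem s59u_w_wildStep : s59u_w_WildStep := by
  classical
  intro M _ H hL p _ hpM A hA H' hHH' g hg hgp hP
  obtain ⟨w, hw0, htop, hfin⟩ := hP
  have hp : p.Prime := Fact.out
  obtain ⟨χ, hLay⟩ := s48wg_exists_layer H' g p hp hg hgp
  have hM : 1 < M := hL.one_lt
  have hneg : (-1 : (ZMod M)ˣ) ∈ H' := hHH' hL.neg_one
  haveI : NeZero p := ⟨hp.ne_zero⟩
  letI alg := s48wg_layerAlgebra hLay.le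
  haveI := s48wg_layer_isScalarTower hLay.le
  haveI := hLay.finiteDimensional hM hneg
  have halg : ∀ a : ↥(s48k_FH M (H' ⊔ Subgroup.zpowers g)),
      ((algebraMap ↥(s48k_FH M (H' ⊔ Subgroup.zpowers g)) ↥(s48k_FH M H') a : ↥(s48k_FH M H')) :
        LaurentSeries Qbar) = (a : LaurentSeries Qbar) := fun a => s48wg_layerAlgebra_coe hLay.le a
  obtain ⟨S₂, hS₂, hS₂mem⟩ := s48wg_exists_finset_gens H'
  have hχH : χ ∈ s48wg_XH H := s48wg_XH_anti H H' hHH' hLay.chi_mem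
  -- the cyclotomic unit
  obtain ⟨lamA, uA, uinvA, hlam, huinv, hpu, hlam0, hlamπ⟩ :=
    s48w_cyc A hp (χ ((g : (ZMod M)ˣ) : ZMod M)) hLay.isPrimitiveRoot
  -- the series data
  obtain ⟨T, X₀, Y, cc, hTA, hX₀, hY, hιY, hrelS, hcc, hY0, hTG, -⟩ :=
    hLay.wild_data_Z hM hneg H hHH' lamA uA hlam hpu
  -- the basis
  obtain ⟨hT2, b', hb'⟩ := s48c_affine_basis_series halg (hLay.basis hM hneg) hLay.tau
    (fun i => hLay.basis_apply hM hneg i) A (s48wg_TA A χ) X₀ T lamA hlam0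
    (by rw [hLay.coe_tau, s48wg_iota_TA]) hTA hX₀
  -- (K-Div)
  have hdiv : ∀ P : Place Qbar ↥(s48k_FH M (H' ⊔ Subgroup.zpowers g)),
      (p : ℤ) ∣ P.ord (⟨coeffMap A.subtype Y, hY⟩ : ↥(s48k_FH M (H' ⊔ Subgroup.zpowers g))) :=
    fun P => s59u_w_kdiv_layer hL (hHH'.trans hLay.le) χ ((s48wg_mem_XH H).mp hχH) p
      ⟨coeffMap A.subtype Y, hY⟩ hιY P
  have hres := s48g_wild_step hA (FQ₀ := modularFunctionFieldFull M)
    (Gb := s48e_GbZ M H (IsLocalRing.ResidueField ↥A))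
    (FQ₁ := s48k_FHQ M (H' ⊔ Subgroup.zpowers g)) (FQ₂ := s48k_FHQ M H') halg
    (s48k_full_le_FHQ M (H' ⊔ Subgroup.zpowers g))
    (s48wg_FHQ_anti H' (H' ⊔ Subgroup.zpowers g) hLay.le) S₂ hS₂ hS₂mem w hw0
    T X₀ Y cc hT2 hTG b' hb' hX₀ hY lamA uA uinvA huinv hpu (hlamπ hA) hlam0 hrelS hcc hY0 hdiv
    (fun L₀ _ ϖ hϖ f hf => s48wg_FHK_mem_Frac _ H' f hf) ⟨htop, hfin⟩
  refine ⟨algebraMap ↥(s48k_FH M (H' ⊔ Subgroup.zpowers g)) ↥(s48k_FH M H') w, ?_, hres.1, hres.2⟩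
  exact (map_ne_zero_iff _ (algebraMap ↥(s48k_FH M (H' ⊔ Subgroup.zpowers g))
    ↥(s48k_FH M H')).injective).mpr hw0

end Fermat.Agent.Lib.S59

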