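/-
CORNER₅ way (A) (helper3, prefix `s59u_`): **the Galois/Hecke/diamond structure of `J_H(M)` at the weak levels WITHOUT
goodness `s59u_LvlW M H`** (twin of helper2's `BKS37.lean`).

* `s59u_w_commD`, `s59u_w_commT`, `s59u_w_openStab` : unconditional;
* `s59u_w_frobQuad`, `s59u_w_unram` : at the primes `p ∤ M ℓ` which are GOOD for `M` (`s18_GoodLevel p M`; automatic for `5 ≤ p`).
The primes `p ∈ {2, 3}` which are not good for `M` are treated by level transfer (`UW37Trans*`).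
-/
import Mathlib
import Fermat.Agent.Lib.S48.EIntTopQ
import Fermat.Agent.Lib.S48.EIntRedQ
import Fermat.Agent.Lib.S48.EIntGlue
import Fermat.Agent.Lib.S48.EIntGlueZ
import Fermat.Agent.Lib.S59.BKInputs
import Fermat.Agent.Lib.S59.BKS37
import Fermat.Agent.Lib.S59.UW37Wild

set_option autoImplicit false
set_option linter.unusedSectionVars false
set_option linter.style.haveILetI false
set_option synthInstance.maxHeartbeats 400000

noncomputable section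

namespace Fermat.Agent.Lib.S59

open AlgebraicCurve ModularCurve HahnSeries IntermediateField
open Fermat.Agent.Lib.FF Fermat.Agent.Lib.S37 Fermat.Agent.Lib.S28 Fermat.Agent.Lib.S18
open Fermat.Agent.Lib.S48

local notation "Qbar" => AlgebraicClosure ℚ

variable {M : ℕ} [NeZero M] {H : Subgroup (ZMod M)ˣ}

/-- the induction predicate of the concrete tower at the bottom subgroup. -/
theorem s59u_w_towerP_lvl (hL : s59u_LvlW M H) {p : ℕ} [Fact p.Prime] (hpM : ¬ p ∣ M)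
    (hgood : s18_GoodLevel p M)
    (A : ValuationSubring Qbar) (hA : A.LiesOverPrime p) : s48a_TowerP M H A H :=
  s59u_w_towerP s59u_w_wildStep hL hpM hgood A hA

/-- the top package of the tower. -/
theorem s59u_w_topPack_lvl (hL : s59u_LvlW M H) {p : ℕ} [Fact p.Prime] (hpM : ¬ p ∣ M)
    (hgood : s18_GoodLevel p M)
    (A : ValuationSubring Qbar) (hA : A.LiesOverPrime p) : s48e_TopPack M H A := by
  obtain ⟨w, hw0, htop, hfin⟩ := s59u_w_towerP_lvl hL hpM hgood A hA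
  exact s48e_topPack_of_IH M H A (s48e_GbZ M H (IsLocalRing.ResidueField ↥A)) (s48e_TZ M H)
    le_rfl (s48e_TZ_mem_FHQ M H) w hw0 htop hfin

/-- Galois commutes with the diamonds. -/
theorem s59u_w_commD (d : (ZMod M)ˣ) (σ : s48k_G) (x : s48k_JH M H) :
    σ • s48k_diamondJ M H d x = s48k_diamondJ M H d (σ • x) :=
  s48e_commD M H d σ x

/-- Galois commutes with `T_p`. -/
theorem s59u_w_commT (hL : s59u_LvlW M H) (p : ℕ) [NeZero p] (pu : (ZMod M)ˣ) (hp : p.Prime)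
    (hpM : ¬ p ∣ M) (hpu : ((pu : (ZMod M)ˣ) : ZMod M) = (p : ZMod M)) (σ : s48k_G)
    (x : s48k_JH M H) : σ • s48k_TpJ M H p pu x = s48k_TpJ M H p pu (σ • x) := by
  obtain ⟨x₀, hx₀⟩ := s59b_inputs_ffGen H hL.one_lt hL.neg_one
  haveI := hx₀
  exact s48e_commT M H p
    (fun v => by rw [ff_deg_eq_one Qbar x₀ v]; exact one_ne_zero) pu σ x

/-- Open stabilisers. -/
theorem s59u_w_openStab (hL : s59u_LvlW M H) (x : s48k_JH M H) :
    ∃ L : IntermediateField ℚ Qbar, FiniteDimensional ℚ L ∧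
      ∀ σ : s48k_G, (∀ y ∈ L, σ y = y) → σ • x = x := by
  obtain ⟨x₀, hx₀⟩ := s59b_inputs_ffGen H hL.one_lt hL.neg_one
  haveI := hx₀
  haveI : HasPrincipalDivisors Qbar ↥(s48k_FH M H) := s48e_hasPrincipalDivisors x₀
  exact s48e_openStab M H x

set_option maxHeartbeats 1600000 in
/-- **Eichler–Shimura on `ℓ`-torsion at a GOOD prime `p ∤ M ℓ`.** -/
theorem s59u_w_frobQuad (hL : s59u_LvlW M H) (ℓ p : ℕ) [NeZero p] (pu : (ZMod M)ˣ) (hp : p.Prime)
    (hpMℓ : ¬ p ∣ M * ℓ) (hgood : s18_GoodLevel p M)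
    (hpu : ((pu : (ZMod M)ˣ) : ZMod M) = (p : ZMod M))
    (A : ValuationSubring Qbar) (hA : A.LiesOverPrime p) (σ : s48k_G) (hσ : A.IsFrobeniusAt σ p)
    (z : s48k_JH M H) (hz : (ℓ : ℤ) • z = 0) :
    σ • σ • z - s48k_TpJ M H p pu (σ • z) + (p : ℤ) • s48k_diamondJ M H pu z = 0 := by
  have hpM : ¬ p ∣ M := fun h => hpMℓ (Dvd.dvd.mul_right h ℓ)
  have hpℓ : ¬ p ∣ ℓ := fun h' => hpMℓ (Dvd.dvd.mul_left h' M)
  obtain ⟨x₀, hx₀⟩ := s59b_inputs_ffGen H hL.one_lt hL.neg_one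
  have hdia := s59b_inputs_diamond H hL.one_lt hL.neg_one
  obtain ⟨⟨x', hx'⟩, hfinα, hfinβ, hrank⟩ := s59b_inputs_p H hL.one_lt hL.neg_one p hp hpM
  haveI : Fact p.Prime := ⟨hp⟩
  obtain ⟨Fb, hFb, r, hrQ, hgen, h3, hinj, hS⟩ :=
    s48e_redInputsQ_body M H A hA ℓ hpℓ (s59u_w_topPack_lvl hL hpM hgood A hA)
  obtain ⟨δ, hc⟩ := hS pu hpu
  haveI := hx₀
  haveI := hx'
  haveI := s18n_charP_residueField A hp hA
  haveI : IsAlgClosed (IsLocalRing.ResidueField ↥A) := s18n_isAlgClosed_residueField A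
  haveI : PerfectRing (IsLocalRing.ResidueField ↥A) p := inferInstance
  obtain ⟨ζ, hζ⟩ : ∃ ζ : Qbarˣ, IsPrimitiveRoot (ζ : Qbar) p := by
    haveI : NeZero ((p : ℕ) : Qbar) := ⟨Nat.cast_ne_zero.mpr (NeZero.ne p)⟩
    obtain ⟨ζ0, hζ0⟩ := HasEnoughRootsOfUnity.exists_primitiveRoot Qbar p
    exact ⟨(hζ0.isUnit (NeZero.ne p)).unit, by rw [IsUnit.unit_spec]; exact hζ0⟩
  exact s48e_frobQuad_ofQ M H ℓ A (IsLocalRing.residue ↥A) (fun _ h => h) hFb x₀ r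
    hrQ.isPlaceRed hgen hrQ h3 hinj p pu x' hfinα hfinβ hrank (hdia pu) δ hc ζ hζ
    (s59b_twistedW H hL.one_lt hL.neg_one p pu hp hpM hpu ζ hζ) σ hσ z hz

set_option maxHeartbeats 1600000 in
/-- **Inertia at a GOOD prime `p ∤ M ℓ` acts trivially on `ℓ`-torsion.** -/
theorem s59u_w_unram (hL : s59u_LvlW M H) (ℓ p : ℕ) (hp : p.Prime) (hpMℓ : ¬ p ∣ M * ℓ)
    (hgood : s18_GoodLevel p M)
    (A : ValuationSubring Qbar) (hA : A.LiesOverPrime p) (σ : s48k_G)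
    (hσ : σ ∈ A.inertiaSubgroupIn ℚ) (z : s48k_JH M H) (hz : (ℓ : ℤ) • z = 0) : σ • z = z := by
  have hpM : ¬ p ∣ M := fun h => hpMℓ (Dvd.dvd.mul_right h ℓ)
  have hpℓ : ¬ p ∣ ℓ := fun h' => hpMℓ (Dvd.dvd.mul_left h' M)
  obtain ⟨x₀, hx₀⟩ := s59b_inputs_ffGen H hL.one_lt hL.neg_one
  haveI : Fact p.Prime := ⟨hp⟩
  obtain ⟨Fb, hFb, r, hrQ, hgen, h3, hinj, -⟩ :=
    s48e_redInputsQ_body M H A hA ℓ hpℓ (s59u_w_topPack_lvl hL hpM hgood A hA)
  haveI := hx₀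
  exact s48e_unram_of M H ℓ A (IsLocalRing.residue ↥A) (fun _ h => h) hFb x₀ r hrQ.isPlaceRed
    hgen h3 hinj σ hσ z hz

end Fermat.Agent.Lib.S59
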