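/-
CORNER₅ way (A) (helper3, prefix `s59u_`): **`unram` at EVERY prime `p ∤ M ℓ` for the weak levels WITHOUT goodness.**
* `s59u_w_lvlW_up`   : `s59u_LvlW M H → s59u_LvlW (M d) H'`;
* `s59u_w_unram_up`  : inertia at `p` acts trivially on `J_H(M)[ℓ]` if `p` is good for `M d` (`d` prime, `d ∤ M`, `(d + 1, ℓ) = 1`);
* **`s59u_w_unram_all`** : inertia at `p ∤ M ℓ` acts trivially on `J_H(M)[ℓ]` (`p ∈ {2, 3}` not good for `M`: `d` = the other one).
-/
import Mathlib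
import Fermat.Agent.Lib.S59.UW37Good
import Fermat.Agent.Lib.S59.UW37Pull

set_option autoImplicit false
set_option linter.unusedSectionVars false
set_option linter.style.haveILetI false

namespace Fermat.Agent.Lib.S59

open ModularCurve CongruenceSubgroup IntermediateField AlgebraicCurve
open Fermat.Agent.Lib.FF Fermat.Agent.Lib.S29 Fermat.Agent.Lib.S37 Fermat.Agent.Lib.S18
open Fermat.Agent.Lib.S48
open scoped MatrixGroups

noncomputable section

local notation "Qbar" => AlgebraicClosure ℚ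

variable {M : ℕ} [NeZero M] {H : Subgroup (ZMod M)ˣ}

/-- **The weak level structure at level `M d`.** -/
theorem s59u_w_lvlW_up (hW : s59u_LvlW M H) (d : ℕ) [NeZero d] :
    s59u_LvlW (M * d) (s59u_w_Hup H d) where
  one_lt := lt_of_lt_of_le hW.one_lt (Nat.le_mul_of_pos_right M (NeZero.pos d))
  neg_one := s59u_w_neg_one_mem_Hup H d hW.neg_one
  finOrd := fun g hg hfin u hu => (s59u_w_mem_Hup H d).mpr
    (hW.finOrd g (s48wf_Gamma0_le (dvd_mul_right M d) hg) hfin _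
      (s59u_w_unitsMap_intCast d u _ hu))
  par := fun σ k hmem u hu => (s59u_w_mem_Hup H d).mpr
    (hW.par σ k (s48wf_Gamma0_le (dvd_mul_right M d) hmem) _
      (s59u_w_unitsMap_intCast d u _ hu))

/-- an element killed by two coprime integers is zero. -/
theorem s59u_w_eq_zero_of_coprime {G : Type*} [AddGroup G] {a b : ℕ} (hab : Nat.Coprime a b)
    (x : G) (ha : a • x = 0) (hb : b • x = 0) : x = 0 := by
  have h1 : addOrderOf x ∣ a := addOrderOf_dvd_of_nsmul_eq_zero ha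
  have h2 : addOrderOf x ∣ b := addOrderOf_dvd_of_nsmul_eq_zero hb
  have h3 : addOrderOf x ∣ 1 := by
    have := Nat.dvd_gcd h1 h2
    rwa [hab] at this
  exact AddMonoid.addOrderOf_eq_one_iff.mp (Nat.dvd_one.mp h3)

/-- **`unram` at `p` from goodness at level `M d`.** -/
theorem s59u_w_unram_up (hW : s59u_LvlW M H) (d : ℕ) [NeZero d] (hd : d.Prime) (hdM : ¬ d ∣ M)
    (ℓ p : ℕ) (hp : p.Prime) (hpNℓ : ¬ p ∣ M * d * ℓ) (hgood : s18_GoodLevel p (M * d))
    (hcop : Nat.Coprime (d + 1) ℓ)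
    (A : ValuationSubring Qbar) (hA : A.LiesOverPrime p) (σ : s48k_G)
    (hσ : σ ∈ A.inertiaSubgroupIn ℚ) (z : s48k_JH M H) (hz : (ℓ : ℤ) • z = 0) : σ • z = z := by
  haveI : NeZero (M * d) := ⟨Nat.mul_ne_zero (NeZero.ne M) (NeZero.ne d)⟩
  obtain ⟨hP, hπ, hFI, hgal, hker⟩ := s59u_w_pullData H d hW.one_lt hW.neg_one hd hdM
  set P := s37l_pic0Pullback (s59u_w_pi H d hW.one_lt hW.neg_one) hπ hFI with hPdef
  have hPz : (ℓ : ℤ) • P z = 0 := by rw [← map_zsmul, hz, map_zero]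
  have h1 : σ • P z = P z :=
    s59u_w_unram (s59u_w_lvlW_up hW d) ℓ p hp hpNℓ hgood A hA σ hσ (P z) hPz
  have h2 : P (σ • z - z) = 0 := by
    rw [map_sub, hgal σ z, h1, sub_self]
  have h3 : (d + 1) • (σ • z - z) = 0 := hker _ h2
  have h4 : ℓ • (σ • z - z) = 0 := by
    have : (ℓ : ℤ) • (σ • z - z) = 0 := by
      rw [zsmul_sub, s48e_zsmul_gal, hz, s48e_gal_smul_zero, sub_zero]
    rwa [natCast_zsmul] at this
  exact sub_eq_zero.mp (s59u_w_eq_zero_of_coprime hcop _ h3 h4)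

/-- a prime `< 5` is `2` or `3`. -/
theorem s59u_w_two_or_three {p : ℕ} (hp : p.Prime) (h5 : ¬ 5 ≤ p) : p = 2 ∨ p = 3 := by
  have hp2 := hp.two_le
  have : p < 5 := by omega
  interval_cases p
  · left; rfl
  · right; rfl
  · exact absurd hp (by norm_num)

/-- **`unram` at EVERY prime `p ∤ M ℓ`**, at the weak levels without goodness. -/
theorem s59u_w_unram_all (hW : s59u_LvlW M H) (ℓ p : ℕ) (hp : p.Prime) (hpMℓ : ¬ p ∣ M * ℓ)
    (A : ValuationSubring Qbar) (hA : A.LiesOverPrime p) (σ : s48k_G)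
    (hσ : σ ∈ A.inertiaSubgroupIn ℚ) (z : s48k_JH M H) (hz : (ℓ : ℤ) • z = 0) : σ • z = z := by
  have hpM : ¬ p ∣ M := fun h => hpMℓ (Dvd.dvd.mul_right h ℓ)
  have hpℓ : ¬ p ∣ ℓ := fun h' => hpMℓ (Dvd.dvd.mul_left h' M)
  by_cases hgood : s18_GoodLevel p M
  · exact s59u_w_unram hW ℓ p hp hpMℓ hgood A hA σ hσ z hz
  · have h5 : ¬ 5 ≤ p := fun h5 => hgood ⟨hpM, Or.inl h5⟩
    rcases s59u_w_two_or_three hp h5 with rfl | rfl
    · -- `p = 2`, `3 ∤ M`: `d = 3`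
      have h3M : ¬ 3 ∣ M := fun h => hgood ⟨hpM, Or.inr (Or.inr ⟨rfl, h⟩)⟩
      have hN : ¬ 2 ∣ M * 3 := fun h =>
        (Nat.Prime.dvd_mul Nat.prime_two).mp h |>.elim hpM (by norm_num)
      refine s59u_w_unram_up hW 3 Nat.prime_three h3M ℓ 2 hp ?_ ⟨hN, Or.inr (Or.inr ⟨rfl, dvd_mul_left 3 M⟩)⟩ ?_
        A hA σ hσ z hz
      · intro h
        exact (Nat.Prime.dvd_mul Nat.prime_two).mp h |>.elim hN hpℓ
      · have h2 : Nat.Coprime 2 ℓ := (Nat.Prime.coprime_iff_not_dvd Nat.prime_two).mpr hpℓ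
        exact Nat.Coprime.pow_left 2 h2
    · -- `p = 3`, `2 ∤ M`: `d = 2`
      have h2M : ¬ 2 ∣ M := fun h => hgood ⟨hpM, Or.inr (Or.inl ⟨rfl, h⟩)⟩
      have hN : ¬ 3 ∣ M * 2 := fun h =>
        (Nat.Prime.dvd_mul Nat.prime_three).mp h |>.elim hpM (by norm_num)
      refine s59u_w_unram_up hW 2 Nat.prime_two h2M ℓ 3 hp ?_ ⟨hN, Or.inr (Or.inl ⟨rfl, dvd_mul_left 2 M⟩)⟩ ?_
        A hA σ hσ z hz
      · intro h
        exact (Nat.Prime.dvd_mul Nat.prime_three).mp h |>.elim hN hpℓ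
      · exact (Nat.Prime.coprime_iff_not_dvd Nat.prime_three).mpr hpℓ

end

end Fermat.Agent.Lib.S59
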