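/-
CORNER₅ way (A) (helper3, prefix `s59u_`): **THE TOP: `s59u_S37H_of_lvlW : s59u_LvlW M H → s59b_S37H M H`** — the
Galois/Hecke/diamond structure of `J_H(M)` (helper2's `s59b_S37H`, UNCHANGED) at the weak levels WITHOUT goodness, i.e.
without `2 ∣ M ∨ 3 ∣ M`.
* `s59u_w_frobQuad_up`  : Eichler–Shimura at `p` on `J_H(M)[ℓ]` if `p` is good for `M d` (`d` prime, `d ∤ M`, `(d+1, ℓ) = 1`,
  `(p+1, d+1) = 1`), by the pull-back `π^* : J_H(M) → J_{H'}(M d)`;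
* `s59u_w_frobQuad_all` : Eichler–Shimura at EVERY `p ∤ M ℓ`;
* `s59u_S37H_of_lvlW`, and the drop-in `s59u_S37H_pgroup_noh23` for helper2's `s59b_S37H_pgroup`.
-/
import Mathlib
import Fermat.Agent.Lib.S59.UW37Unram
import Fermat.Agent.Lib.S59.UW37Hecke

set_option autoImplicit false
set_option linter.unusedSectionVars false
set_option linter.style.haveILetI false

namespace Fermat.Agent.Lib.S59

open ModularCurve CongruenceSubgroup IntermediateField AlgebraicCurve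
open Fermat.Agent.Lib.FF Fermat.Agent.Lib.S29 Fermat.Agent.Lib.S37 Fermat.Agent.Lib.S18
open Fermat.Agent.Lib.S48
open scoped MatrixGroups

noncomputable section

local notation "Qbar" => AlgebraicClosure ℚ

variable {M : ℕ} [NeZero M] {H : Subgroup (ZMod M)ˣ}

set_option maxHeartbeats 800000 in
/-- **Eichler–Shimura at `p` from goodness at level `M d`.** -/
theorem s59u_w_frobQuad_up (hW : s59u_LvlW M H) (d : ℕ) [NeZero d] (hd : d.Prime)
    (hdM : ¬ d ∣ M) (ℓ p : ℕ) [NeZero p] (pu : (ZMod M)ˣ) (hp : p.Prime)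
    (hpNℓ : ¬ p ∣ M * d * ℓ) (hgood : s18_GoodLevel p (M * d))
    (hpu : ((pu : (ZMod M)ˣ) : ZMod M) = (p : ZMod M))
    (hcopℓ : Nat.Coprime (d + 1) ℓ) (hcop : (p + 1).Coprime (d + 1))
    (A : ValuationSubring Qbar) (hA : A.LiesOverPrime p) (σ : s48k_G) (hσ : A.IsFrobeniusAt σ p)
    (z : s48k_JH M H) (hz : (ℓ : ℤ) • z = 0) :
    σ • σ • z - s48k_TpJ M H p pu (σ • z) + (p : ℤ) • s48k_diamondJ M H pu z = 0 := by
  haveI : NeZero (M * d) := ⟨Nat.mul_ne_zero (NeZero.ne M) (NeZero.ne d)⟩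
  have hpN : ¬ p ∣ M * d := fun h => hpNℓ (Dvd.dvd.mul_right h ℓ)
  have hpM : ¬ p ∣ M := fun h => hpN (Dvd.dvd.mul_right h d)
  have hpd : p ≠ d := fun h => hpN (h ▸ dvd_mul_left p M)
  -- the unit `p` modulo `M d`
  have hcopN : Nat.Coprime p (M * d) := (Nat.Prime.coprime_iff_not_dvd hp).mpr hpN
  set pu' : (ZMod (M * d))ˣ := ZMod.unitOfCoprime p hcopN with hpu'def
  have hpu' : ((pu' : (ZMod (M * d))ˣ) : ZMod (M * d)) = (p : ZMod (M * d)) :=
    ZMod.coe_unitOfCoprime p hcopN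
  have hmap : ZMod.unitsMap (dvd_mul_right M d) pu' = pu := by
    apply Units.ext
    rw [s59u_w_unitsMap_val, hpu', map_natCast, hpu]
  subst hmap
  obtain ⟨hP, hπ, hFI, hgal, hker⟩ := s59u_w_pullData H d hW.one_lt hW.neg_one hd hdM
  set P := s37l_pic0Pullback (s59u_w_pi H d hW.one_lt hW.neg_one) hπ hFI with hPdef
  have hTp : ∀ x : s48k_JH M H,
      P (s48k_TpJ M H p (ZMod.unitsMap (dvd_mul_right M d) pu') x) =
        s48k_TpJ (M * d) (s59u_w_Hup H d) p pu' (P x) := fun x =>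
    s59u_w_pull_TpJ H d hW.one_lt hW.neg_one hd hdM p hp hpM hpd hcop hπ hFI pu' x
  have hdia : ∀ x : s48k_JH M H,
      P (s48k_diamondJ M H (ZMod.unitsMap (dvd_mul_right M d) pu') x) =
        s48k_diamondJ (M * d) (s59u_w_Hup H d) pu' (P x) := fun x =>
    s59u_w_pull_diamondJ H d hW.one_lt hW.neg_one hπ hFI pu' x
  have hPz : (ℓ : ℤ) • P z = 0 := by rw [← map_zsmul, hz, map_zero]
  set w := σ • σ • z - s48k_TpJ M H p (ZMod.unitsMap (dvd_mul_right M d) pu') (σ • z) +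
    (p : ℤ) • s48k_diamondJ M H (ZMod.unitsMap (dvd_mul_right M d) pu') z with hw
  have h1 : P w = 0 := by
    rw [hw, map_add, map_sub, map_zsmul, hgal, hgal, hTp, hgal, hdia]
    exact s59u_w_frobQuad (s59u_w_lvlW_up hW d) ℓ p pu' hp hpNℓ hgood hpu' A hA σ hσ (P z) hPz
  have h2 : (d + 1) • w = 0 := hker w h1
  have h3 : ℓ • w = 0 := by
    have : (ℓ : ℤ) • w = 0 := by
      rw [hw, zsmul_add, zsmul_sub, s48e_zsmul_gal, s48e_zsmul_gal, hz, s48e_gal_smul_zero,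
        s48e_gal_smul_zero, ← map_zsmul, s48e_zsmul_gal, hz, s48e_gal_smul_zero, map_zero,
        smul_comm (ℓ : ℤ) (p : ℤ), ← map_zsmul, hz, map_zero, smul_zero, sub_zero, add_zero]
    rwa [natCast_zsmul] at this
  exact s59u_w_eq_zero_of_coprime hcopℓ w h2 h3

/-- **Eichler–Shimura at EVERY prime `p ∤ M ℓ`**, at the weak levels without goodness. -/
theorem s59u_w_frobQuad_all (hW : s59u_LvlW M H) (ℓ p : ℕ) [NeZero p] (pu : (ZMod M)ˣ)
    (hp : p.Prime) (hpMℓ : ¬ p ∣ M * ℓ)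
    (hpu : ((pu : (ZMod M)ˣ) : ZMod M) = (p : ZMod M))
    (A : ValuationSubring Qbar) (hA : A.LiesOverPrime p) (σ : s48k_G) (hσ : A.IsFrobeniusAt σ p)
    (z : s48k_JH M H) (hz : (ℓ : ℤ) • z = 0) :
    σ • σ • z - s48k_TpJ M H p pu (σ • z) + (p : ℤ) • s48k_diamondJ M H pu z = 0 := by
  have hpM : ¬ p ∣ M := fun h => hpMℓ (Dvd.dvd.mul_right h ℓ)
  have hpℓ : ¬ p ∣ ℓ := fun h' => hpMℓ (Dvd.dvd.mul_left h' M)
  by_cases hgood : s18_GoodLevel p M
  · exact s59u_w_frobQuad hW ℓ p pu hp hpMℓ hgood hpu A hA σ hσ z hz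
  · have h5 : ¬ 5 ≤ p := fun h5 => hgood ⟨hpM, Or.inl h5⟩
    rcases s59u_w_two_or_three hp h5 with rfl | rfl
    · -- `p = 2`, `3 ∤ M`: `d = 3`
      have h3M : ¬ 3 ∣ M := fun h => hgood ⟨hpM, Or.inr (Or.inr ⟨rfl, h⟩)⟩
      have hN : ¬ 2 ∣ M * 3 := fun h =>
        (Nat.Prime.dvd_mul Nat.prime_two).mp h |>.elim hpM (by norm_num)
      refine s59u_w_frobQuad_up hW 3 Nat.prime_three h3M ℓ 2 pu hp ?_
        ⟨hN, Or.inr (Or.inr ⟨rfl, dvd_mul_left 3 M⟩)⟩ hpu ?_ (by norm_num) A hA σ hσ z hz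
      · intro h
        exact (Nat.Prime.dvd_mul Nat.prime_two).mp h |>.elim hN hpℓ
      · have h2 : Nat.Coprime 2 ℓ := (Nat.Prime.coprime_iff_not_dvd Nat.prime_two).mpr hpℓ
        exact Nat.Coprime.pow_left 2 h2
    · -- `p = 3`, `2 ∤ M`: `d = 2`
      have h2M : ¬ 2 ∣ M := fun h => hgood ⟨hpM, Or.inr (Or.inl ⟨rfl, h⟩)⟩
      have hN : ¬ 3 ∣ M * 2 := fun h =>
        (Nat.Prime.dvd_mul Nat.prime_three).mp h |>.elim hpM (by norm_num)
      refine s59u_w_frobQuad_up hW 2 Nat.prime_two h2M ℓ 3 pu hp ?_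
        ⟨hN, Or.inr (Or.inl ⟨rfl, dvd_mul_left 2 M⟩)⟩ hpu ?_ (by norm_num) A hA σ hσ z hz
      · intro h
        exact (Nat.Prime.dvd_mul Nat.prime_three).mp h |>.elim hN hpℓ
      · exact (Nat.Prime.coprime_iff_not_dvd Nat.prime_three).mpr hpℓ

/-- **`s59b_S37H M H` at every weak level WITHOUT goodness.** -/
theorem s59u_S37H_of_lvlW (hW : s59u_LvlW M H) : s59b_S37H M H where
  commD := fun d σ x => s59u_w_commD d σ x
  commT := fun p _ pu hp hpM hpu σ x => s59u_w_commT hW p pu hp hpM hpu σ x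
  frobQuad := fun ℓ p _ pu hp hpMℓ hpu A hA σ hσ x hx =>
    s59u_w_frobQuad_all hW ℓ p pu hp hpMℓ hpu A hA σ hσ x hx
  unram := fun ℓ p hp hpMℓ A hA σ hσ x hx => s59u_w_unram_all hW ℓ p hp hpMℓ A hA σ hσ x hx
  openStab := fun x => s59u_w_openStab hW x

end

end Fermat.Agent.Lib.S59
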