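/-
CORNER₅ way (A) (helper3, prefix `s59u_`): **the patching levels WITHOUT `h23 : 2 ∣ M ∨ 3 ∣ M`** — drop-ins for helper2's
`s59b_lvl_pgroup` / `s59b_S37H_pgroup` / `s59b_lvl_sq`, my `s59u_lvl_pgroup_odd` / `s59u_S37H_pgroup_odd` and helper5's
`s59e_aux_lvl_pgroup` / `s59e_aux_S37H_pgroup`: same hypotheses MINUS `h23`, conclusion `s59u_LvlW M H` resp. THE SAME
`s59b_S37H M H` (via `s59u_S37H_of_lvlW`, UW37Top).
-/
import Mathlib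
import Fermat.Agent.Lib.S59.ULvl3
import Fermat.Agent.Lib.S59.EAuxS37
import Fermat.Agent.Lib.S59.UW37Top

set_option autoImplicit false
set_option linter.unusedSectionVars false
set_option linter.unusedVariables false
set_option linter.style.haveILetI false

noncomputable section

namespace Fermat.Agent.Lib.S59

open Matrix.SpecialLinearGroup CongruenceSubgroup ModularGroup
open Fermat.Agent.Lib.S18 Fermat.Agent.Lib.S48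
open scoped MatrixGroups

local notation "Mat2" => Matrix (Fin 2) (Fin 2) ℤ

/-- **`s59u_LvlW M H` from (PF).** -/
theorem s59u_lvlW_of_PF {M : ℕ} [NeZero M] {H : Subgroup (ZMod M)ˣ} (hPF : s59t_PF M H)
    (hM : 1 < M) (hneg : (-1 : (ZMod M)ˣ) ∈ H) : s59u_LvlW M H := by
  refine ⟨hM, hneg, ?_, ?_⟩
  · intro g hg hfin u hu
    have hfin' : IsOfFinOrder (⟨g, hg⟩ : Gamma0 M) := by
      obtain ⟨n, hn, hgn⟩ := hfin.exists_pow_eq_one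
      refine isOfFinOrder_iff_pow_eq_one.mpr ⟨n, hn, ?_⟩
      apply Subtype.ext
      rw [Subgroup.coe_pow]
      exact hgn
    exact s59u_unit_mem_of_GammaH (hPF ⟨g, hg⟩ (Or.inr hfin')) u hu
  · intro σ k hmem u hu
    have htr : (((σ⁻¹ * T ^ k * σ : SL(2, ℤ)) : Mat2).trace) ^ 2 = 4 := by
      have h1 : ((σ⁻¹ * T ^ k * σ : SL(2, ℤ)) : Mat2).trace = 2 := by
        rw [Matrix.trace_fin_two]
        have := s48c_trace_conj σ (T ^ k)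
        rw [s48c_T_pow_trace] at this
        exact this
      rw [h1]
      norm_num
    exact s59u_unit_mem_of_GammaH (hPF ⟨σ⁻¹ * T ^ k * σ, hmem⟩ (Or.inl htr)) u hu

/-- **`s59b_S37H M H` from (PF)**, no goodness. -/
theorem s59u_S37H_of_PF {M : ℕ} [NeZero M] {H : Subgroup (ZMod M)ˣ} (hPF : s59t_PF M H)
    (hM : 1 < M) (hneg : (-1 : (ZMod M)ˣ) ∈ H) : s59b_S37H M H :=
  s59u_S37H_of_lvlW (s59u_lvlW_of_PF hPF hM hneg)

/-- the patching levels, every odd `p`, WITHOUT `h23`. -/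
theorem s59u_lvlW_pgroup_odd {M : ℕ} [NeZero M] {H : Subgroup (ZMod M)ˣ} (hsq : Squarefree M)
    (hM : 1 < M) (hneg : (-1 : (ZMod M)ˣ) ∈ H) {p : ℕ} (hp : p.Prime)
    (hp2 : p ≠ 2) (hpgrp : ∀ u : (ZMod M)ˣ, ∃ n : ℕ, u ^ (p ^ n) ∈ H)
    (h3 : p = 3 → ∃ q : ℕ, q.Prime ∧ q ∣ M ∧ q % 3 = 2) : s59u_LvlW M H :=
  s59u_lvlW_of_PF (s59u_PF_odd p hp hp2 hsq hneg hpgrp h3) hM hneg

/-- **`s59b_S37H M H` at the patching levels, every odd `p`, WITHOUT `h23`** (drop-in for `s59u_S37H_pgroup_odd`). -/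
theorem s59u_S37H_pgroup_odd_W {M : ℕ} [NeZero M] {H : Subgroup (ZMod M)ˣ} (hsq : Squarefree M)
    (hM : 1 < M) (hneg : (-1 : (ZMod M)ˣ) ∈ H) {p : ℕ} (hp : p.Prime)
    (hp2 : p ≠ 2) (hpgrp : ∀ u : (ZMod M)ˣ, ∃ n : ℕ, u ^ (p ^ n) ∈ H)
    (h3 : p = 3 → ∃ q : ℕ, q.Prime ∧ q ∣ M ∧ q % 3 = 2) : s59b_S37H M H :=
  s59u_S37H_of_lvlW (s59u_lvlW_pgroup_odd hsq hM hneg hp hp2 hpgrp h3)

/-- the patching levels, `p ≥ 5`, WITHOUT `h23` (drop-in for `s59b_lvl_pgroup`). -/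
theorem s59u_lvlW_pgroup {M : ℕ} [NeZero M] {H : Subgroup (ZMod M)ˣ} (hsq : Squarefree M)
    (hM : 1 < M) (hneg : (-1 : (ZMod M)ˣ) ∈ H) {p : ℕ} (hp : p.Prime)
    (hp5 : 5 ≤ p) (hpgrp : ∀ u : (ZMod M)ˣ, ∃ n : ℕ, u ^ (p ^ n) ∈ H) : s59u_LvlW M H :=
  s59u_lvlW_pgroup_odd hsq hM hneg hp (by omega) hpgrp (fun h => by omega)

/-- **`s59b_S37H M H` at the patching levels, `p ≥ 5`, WITHOUT `h23`** (drop-in for `s59b_S37H_pgroup`). -/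
theorem s59u_S37H_pgroup_W {M : ℕ} [NeZero M] {H : Subgroup (ZMod M)ˣ} (hsq : Squarefree M)
    (hM : 1 < M) (hneg : (-1 : (ZMod M)ˣ) ∈ H) {p : ℕ} (hp : p.Prime)
    (hp5 : 5 ≤ p) (hpgrp : ∀ u : (ZMod M)ˣ, ∃ n : ℕ, u ^ (p ^ n) ∈ H) : s59b_S37H M H :=
  s59u_S37H_of_lvlW (s59u_lvlW_pgroup hsq hM hneg hp hp5 hpgrp)

/-- the patching levels under helper5's torsion hypothesis, WITHOUT `h23` (drop-in for `s59e_aux_lvl_pgroup`). -/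
theorem s59u_lvlW_aux_pgroup {M : ℕ} [NeZero M] {H : Subgroup (ZMod M)ˣ} (hsq : Squarefree M)
    (hM : 1 < M) (hneg : (-1 : (ZMod M)ˣ) ∈ H) {p : ℕ}
    (hp12 : s59e_auxTors p M) (hpgrp : ∀ u : (ZMod M)ˣ, ∃ n : ℕ, u ^ (p ^ n) ∈ H) :
    s59u_LvlW M H :=
  s59u_lvlW_of_PF (s59e_aux_PF_of_pgroup p hp12 hsq hneg hpgrp) hM hneg

/-- **`s59b_S37H M H` under helper5's torsion hypothesis, WITHOUT `h23`** (drop-in for `s59e_aux_S37H_pgroup`). -/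
theorem s59u_S37H_aux_pgroup_W {M : ℕ} [NeZero M] {H : Subgroup (ZMod M)ˣ} (hsq : Squarefree M)
    (hM : 1 < M) (hneg : (-1 : (ZMod M)ˣ) ∈ H) {p : ℕ}
    (hp12 : s59e_auxTors p M) (hpgrp : ∀ u : (ZMod M)ˣ, ∃ n : ℕ, u ^ (p ^ n) ∈ H) :
    s59b_S37H M H :=
  s59u_S37H_of_lvlW (s59u_lvlW_aux_pgroup hsq hM hneg hp12 hpgrp)

/-- **The Taylor–Wiles levels WITHOUT `h23`** (drop-in for `s59b_lvl_sq`). -/
theorem s59u_lvlW_sq {M N₁ L ℓ₀ : ℕ} [NeZero M] {H : Subgroup (ZMod M)ˣ}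
    (hM : M = N₁ ^ 2 * L) (hL : Squarefree L) (hcop : Nat.Coprime N₁ L)
    (hℓ : ℓ₀.Prime) (h12 : ℓ₀ % 12 = 11) (hℓL : ℓ₀ ∣ L)
    (hneg : (-1 : (ZMod M)ˣ) ∈ H)
    (hcond : ∀ (x : ℤ) (u : (ZMod M)ˣ), ((x : ℤ) : ZMod (N₁ * L)) = 1 →
      ((u : (ZMod M)ˣ) : ZMod M) = ((x : ℤ) : ZMod M) → u ∈ H) : s59u_LvlW M H := by
  have hdvd : ℓ₀ ∣ M := by rw [hM]; exact Dvd.dvd.mul_left hℓL _
  refine ⟨?_, hneg, fun g hg h u hu => s59b_finOrd_of_pm hneg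
    (s48h_finOrd_Gamma0 hℓ h12 hdvd hg h) u hu, ?_⟩
  · have h2 := hℓ.two_le
    have h3 := Nat.le_of_dvd (Nat.pos_of_ne_zero (NeZero.ne M)) hdvd
    omega
  · intro σ k hmem u hu
    have h11 := s59b_diag_of_trace_two hM hL hcop hmem
      (by rw [s48c_trace_conj, s48c_T_pow_trace])
    exact hcond _ u h11 hu

end Fermat.Agent.Lib.S59
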