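/-
CORNER₅ way (A) (helper3): h23-free twin of `MG2Up.lean` — only the declarations that depended on `h23 : 2 ∣ M ∨ 3 ∣ M` /
`s59b_Lvl` are repeated (over `s59u_LvlW`, UW37*), renamed `s59x_foo ↦ s59u_nh_x_foo`; proofs unchanged.
-/
import Fermat.Agent.Lib.S59.NFinal
import Fermat.Agent.Lib.S59.MNil
import Fermat.Agent.Lib.S59.BKS37
import Fermat.Agent.Lib.S59.MG2Up
import Fermat.Agent.Lib.S59.UW37Cons

set_option autoImplicit false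
set_option linter.unusedSectionVars false
set_option linter.style.haveILetI false
set_option synthInstance.maxHeartbeats 400000

noncomputable section

namespace Fermat.Agent.Lib.S59

open ModularCurve AlgebraicCurve HahnSeries IntermediateField Fermat.Agent.Lib.FF Fermat.Agent.Lib.S18
  Fermat.Agent.Lib.S34 Fermat.Agent.Lib.S37 Fermat.Agent.Lib.S33 Fermat.Agent.Lib.S35
  Fermat.Agent.Lib.S44 Fermat.Agent.Lib.Frey Fermat.Agent.Lib.S30 Fermat.Agent.Lib.S29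
  Fermat.Agent.Lib.S48
open scoped Pointwise

local notation "Kb" => AlgebraicClosure ℚ
local notation "Γℚ" => (AlgebraicClosure ℚ ≃ₐ[ℚ] AlgebraicClosure ℚ)

attribute [local instance] s29a_algebraC


/-- (K-Div) from the weak level structure. -/
theorem s59u_nh_m_kdiv_of_lvl {N : ℕ} [NeZero N] {H : Subgroup (ZMod N)ˣ} (hL : s59u_LvlW N H) :
    s59m_KDiv N H :=
  fun _ hHH' χ hχ r _ h hh P => s59u_w_kdiv_layer hL hHH' χ hχ r h hh P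




variable (M q : ℕ) [NeZero M] [NeZero q] [hq : Fact q.Prime] (hqM : ¬ q ∣ M) (h5 : 5 ≤ q)

include h5 in
/-- **(G2)↑ in consumer shape.** -/
theorem s59u_nh_m_G2_up {H : Subgroup (ZMod (M * q))ˣ} (hL : s59u_LvlW (M * q) H) {p : ℕ} (hp : p.Prime)
    (hp5 : 5 ≤ p) (hpq : p ≠ q) (hpgrp : ∀ g : (ZMod (M * q))ˣ, ∃ n : ℕ, g ^ (p ^ n) ∈ H)
    (P : ValuationSubring Kb) (hP : P.LiesOverPrime q) (φ : s48k_G) (hφ : P.IsFrobeniusAt φ q)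
    (S : Set ℕ) (hS : S.Finite) (a₀ : ℕ → ℤ)
    (ℓ₁ : ℕ) (hℓ₁ : ℓ₁.Prime) (hℓ₁S : ℓ₁ ∉ S) (hℓ₁M : ¬ ℓ₁ ∣ M * q * p)
    (ha₁ : IsCoprime (((ℓ₁ + 1 : ℕ) : ℤ) - a₀ ℓ₁) (p : ℤ))
    {T : Type} [Group T] (t : s48k_G →* T) (hfin : GaloisFactorsThroughFiniteLevel t)
    (t₀ d₀ : ℤ)
    (hρ : ∀ ℓ : ℕ, ℓ.Prime → ℓ ∉ S → ¬ ℓ ∣ M * q * p →
      ∀ A : ValuationSubring Kb, A.LiesOverPrime ℓ → ∀ σ : s48k_G, A.IsFrobeniusAt σ ℓ →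
        (∃ g : s48k_G, t σ = t (g * φ * g⁻¹)) →
          (p : ℤ) ∣ a₀ ℓ - t₀ ∧ (p : ℤ) ∣ (ℓ : ℤ) - d₀)
    (hcop : IsCoprime (((q : ℤ) ^ 2 + d₀) ^ 2 - t₀ ^ 2 * (q : ℤ) ^ 2) (p : ℤ))
    (hcop1 : IsCoprime ((q : ℤ) ^ 2 - t₀ * (q : ℤ) + d₀) (p : ℤ))
    (Winf Wzero : ValuationSubring ↥(s48k_FH (M * q) H)) (δφ : (ZMod (M * q))ˣ)
    (hW : s59n_WHyp (arithmeticGalois (s48k_FHQ (M * q) H) φ) (s48k_diamondAut (M * q) H δφ) p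
      Winf Wzero)
    (hWinf : ∀ f : ↥(s48k_FH (M * q) H),
      (f : LaurentSeries Kb) ∈ modularFunctionFieldBar (M * q) →
        (f ∈ Winf ↔ (f : LaurentSeries Kb) ∈ s37r_O P (IsLocalRing.residue ↥P)))
    (hWzero : ∀ (f : ↥(s48k_FH (M * q) H))
      (hf : (f : LaurentSeries Kb) ∈ modularFunctionFieldBar (M * q)), f ∈ Wzero ↔
        ((s37w_al M q hq.out hqM ⟨(f : LaurentSeries Kb), hf⟩ : ffi_F (M * q)) : LaurentSeries Kb) ∈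
          s37r_O P (IsLocalRing.residue ↥P))
    (z : s48k_JH (M * q) H) (hz : p • z = 0)
    (hgen : ∀ (ℓ : ℕ) [NeZero ℓ] (ℓu : (ZMod (M * q))ˣ), ℓ.Prime → ¬ ℓ ∣ M * q → ℓ ∉ S →
      ((ℓu : (ZMod (M * q))ˣ) : ZMod (M * q)) = (ℓ : ZMod (M * q)) →
        ∃ N : ℕ, ((s59m_TEnd (M * q) H ℓ ℓu -
          (a₀ ℓ : AddMonoid.End (s48k_JH (M * q) H))) ^ N) z = 0)
    (hzinf : ∀ d : (ZMod (M * q))ˣ, z ∈ s59k_KumKer (K := Kb)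
      (SemilinearAut.ofAlgAut (s48k_diamondAut (M * q) H d) • Winf) p)
    (hzzero : ∀ d : (ZMod (M * q))ˣ, z ∈ s59k_KumKer (K := Kb)
      (SemilinearAut.ofAlgAut (s48k_diamondAut (M * q) H d) • Wzero) p) : z = 0 := by
  classical
  have hM : 1 < M * q := hL.one_lt
  have hneg : (-1 : (ZMod (M * q))ˣ) ∈ H := hL.neg_one
  have hp2 : p ≠ 2 := by omega
  -- the Hecke family
  let κ := s59m_Idx (M * q) p S
  let ℓ₀ : κ → ℕ := fun k => k.1.1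
  let pu : κ → (ZMod (M * q))ˣ := fun k => k.1.2
  let a : κ → ℤ := fun k => a₀ k.1.1
  have hprime : ∀ k : κ, (ℓ₀ k).Prime := fun k => k.2.1
  have hndvd : ∀ k : κ, ¬ ℓ₀ k ∣ M * q * p := fun k => k.2.2.1
  have hndvd' : ∀ k : κ, ¬ ℓ₀ k ∣ M * q := fun k h => k.2.2.1 (Dvd.dvd.mul_right h p)
  have hnS : ∀ k : κ, ℓ₀ k ∉ S := fun k => k.2.2.2.1
  have hpuk : ∀ k : κ, ((pu k : (ZMod (M * q))ˣ) : ZMod (M * q)) = (ℓ₀ k : ZMod (M * q)) :=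
    fun k => k.2.2.2.2
  -- Frobenius elements
  have hex : ∀ k : κ, ∃ (A : ValuationSubring Kb) (σ : s48k_G),
      A.LiesOverPrime (ℓ₀ k) ∧ A.IsFrobeniusAt σ (ℓ₀ k) :=
    fun k => Fermat.Agent.Lib.Frobenius.exists_isFrobeniusAt (ℓ₀ k) (hprime k)
  choose A₀ σ₀ hA₀ hσ₀ using hex
  -- the structure at every level
  have hS37 : ∀ H' : Subgroup (ZMod (M * q))ˣ, H ≤ H' → s59b_S37H (M * q) H' :=
    fun H' hHH' => s59u_S37H_of_lvlW (s59u_lvlW_mono hL hHH')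
  -- the non-Eisenstein index
  obtain ⟨k₀, hk₀, -⟩ := s59m_Idx_exists (M * q) p S ℓ₁ hℓ₁ hℓ₁S hℓ₁M
  have ha₀ : IsCoprime (((ℓ₀ k₀ + 1 : ℕ) : ℤ) - a k₀) (p : ℤ) := by
    show IsCoprime (((k₀.1.1 + 1 : ℕ) : ℤ) - a₀ k₀.1.1) (p : ℤ)
    rw [hk₀]
    exact ha₁
  refine s59n_G2_up_core M q hqM h5 hM hneg (s59u_nh_m_kdiv_of_lvl hL) hp hp5 hpq hpgrp P hP φ hφ ℓ₀ pu σ₀
    ?_ ?_ a k₀ (hprime k₀) (hndvd k₀) (A₀ k₀) (hA₀ k₀) (hσ₀ k₀) ha₀ t₀ d₀ hcop hcop1 Winf Wzero δφ hW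
    hWinf hWzero ?_ z ?_
  · intro H' hHH' k x hx
    exact (hS37 H' hHH').frobQuad p (ℓ₀ k) (pu k) (hprime k) (hndvd k) (hpuk k) (A₀ k) (hA₀ k)
      (σ₀ k) (hσ₀ k) x hx
  · intro H' hHH' k σ x
    exact (hS37 H' hHH').commT (ℓ₀ k) (pu k) (hprime k) (hndvd' k) (hpuk k) σ x
  · intro H' hHH' w hw hwT
    have S37 := hS37 H' hHH'
    exact s59m_nil_family_td hM (hHH' hneg) p hp hp2
      (fun d => by obtain ⟨n, hn⟩ := hpgrp d; exact ⟨n, hHH' hn⟩)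
      S37.commD S37.commT (S37.frobQuad p) ℓ₀ pu a S hS
      (fun ℓ hℓ hℓS hℓN => s59m_Idx_exists (M * q) p S ℓ hℓ hℓS hℓN) t hfin φ t₀ d₀
      (fun k hk hkS hkN A hA σ hσ hg => hρ (ℓ₀ k) hk hkS hkN A hA σ hσ hg)
      w hw (S37.openStab w) hwT
  · rw [s59n_mem_Zstart]
    refine ⟨hz, fun k => ?_, hzinf, hzzero⟩
    exact hgen (ℓ₀ k) (pu k) (hprime k) (hndvd' k) (hnS k) (hpuk k)

end Fermat.Agent.Lib.S59
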