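/-
CORNER₅ way (A) (helper3): h23-free twin of `MG2Frey.lean` — only the declarations that depended on `h23 : 2 ∣ M ∨ 3 ∣ M` /
`s59b_Lvl` are repeated (over `s59u_LvlW`, UW37*), renamed `s59x_foo ↦ s59u_nh_x_foo`; proofs unchanged.
-/
import Fermat.Agent.Lib.S59.MG2Up
import Fermat.Agent.Lib.S58.OLevel
import Fermat.Agent.Lib.S58.OExact
import Fermat.Agent.Lib.S58.ORed
import Fermat.Agent.Lib.S58.FCore
import Fermat.Agent.Lib.S41.ANonEis
import Fermat.Agent.Lib.S59.MG2Frey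
import Fermat.Agent.Lib.S59.UW37Cons
import Fermat.Agent.Lib.S59.UHMG2Up

set_option autoImplicit false
set_option linter.unusedSectionVars false
set_option linter.style.haveILetI false
set_option synthInstance.maxHeartbeats 400000

noncomputable section

namespace Fermat.Agent.Lib.S59

open WeierstrassCurve WeierstrassCurve.Affine IntermediateField Fermat.Agent.Lib.S58
  Fermat.Agent.Lib.S48 Fermat.Agent.Lib.S41

local notation "Kb" => AlgebraicClosure ℚ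

/-! ### elementary lemmas -/





/-! ### the residual datum -/






/-! ### (G2)↑ for the eigenvalue system of an elliptic curve -/

open ModularCurve AlgebraicCurve HahnSeries Fermat.Agent.Lib.FF Fermat.Agent.Lib.S18
  Fermat.Agent.Lib.S34 Fermat.Agent.Lib.S37 Fermat.Agent.Lib.S33 Fermat.Agent.Lib.S35
  Fermat.Agent.Lib.S44 Fermat.Agent.Lib.Frey Fermat.Agent.Lib.S30 Fermat.Agent.Lib.S29
open scoped Pointwise

attribute [local instance] s29a_algebraC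


variable (M q : ℕ) [NeZero M] [NeZero q] [hq : Fact q.Prime] (hqM : ¬ q ∣ M) (h5 : 5 ≤ q)

include h5 in
/-- **(G2)↑ for the eigenvalue system `a_ℓ(W)` of an elliptic curve `E/ℚ` with irreducible `E[p]`**, at a prime `q ∥ M q` of good
reduction which is not level-raising (`a_q² ≢ (q + 1)² mod p`; for `q ≡ 1 (mod p)` : `a_q² ≢ 4`, the Taylor–Wiles condition). -/
theorem s59u_nh_m_G2_up_ell {H : Subgroup (ZMod (M * q))ˣ} (hL : s59u_LvlW (M * q) H) {p : ℕ}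
    (hp : p.Prime) (hp5 : 5 ≤ p) (hpq : p ≠ q)
    (hpgrp : ∀ g : (ZMod (M * q))ˣ, ∃ n : ℕ, g ^ (p ^ n) ∈ H)
    (P : ValuationSubring Kb) (hP : P.LiesOverPrime q) (φ : s48k_G) (hφ : P.IsFrobeniusAt φ q)
    (E : WeierstrassCurve ℚ) [E.IsElliptic] (W : WeierstrassCurve ℤ) (hWE : W.IsIntegralModelOf E)
    (hirr : Point.GaloisRepIsIrreducible (K := Kb) ℚ E p)
    (S : Finset ℕ) (hpS : p ∈ S) (hgood : ∀ ℓ : ℕ, ℓ.Prime → ℓ ∉ S → W.IsGoodPrimeFor ℓ)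
    (hqg : ¬ (q : ℤ) ∣ W.Δ) (hLR : ¬ (p : ℤ) ∣ W.apOfModel q ^ 2 - ((q : ℤ) + 1) ^ 2)
    (Winf Wzero : ValuationSubring ↥(s48k_FH (M * q) H)) (δφ : (ZMod (M * q))ˣ)
    (hW : s59n_WHyp (arithmeticGalois (s48k_FHQ (M * q) H) φ) (s48k_diamondAut (M * q) H δφ) p
      Winf Wzero)
    (hWinf : ∀ f : ↥(s48k_FH (M * q) H),
      (f : LaurentSeries Kb) ∈ modularFunctionFieldBar (M * q) →
        (f ∈ Winf ↔ (f : LaurentSeries Kb) ∈ s37r_O P (IsLocalRing.residue ↥P)))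
    (hWzero : ∀ (f : ↥(s48k_FH (M * q) H))
      (hf : (f : LaurentSeries Kb) ∈ modularFunctionFieldBar (M * q)), f ∈ Wzero ↔
        ((s37w_al M q hq.out hqM ⟨(f : LaurentSeries Kb), hf⟩ : ffi_F (M * q)) : LaurentSeries Kb) ∈
          s37r_O P (IsLocalRing.residue ↥P))
    (z : s48k_JH (M * q) H) (hz : p • z = 0)
    (hgen : ∀ (ℓ : ℕ) [NeZero ℓ] (ℓu : (ZMod (M * q))ˣ), ℓ.Prime → ¬ ℓ ∣ M * q →
      ℓ ∉ (↑S : Set ℕ) → ((ℓu : (ZMod (M * q))ˣ) : ZMod (M * q)) = (ℓ : ZMod (M * q)) →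
        ∃ N : ℕ, ((s59m_TEnd (M * q) H ℓ ℓu -
          ((W.apOfModel ℓ : ℤ) : AddMonoid.End (s48k_JH (M * q) H))) ^ N) z = 0)
    (hzinf : ∀ d : (ZMod (M * q))ˣ, z ∈ s59k_KumKer (K := Kb)
      (SemilinearAut.ofAlgAut (s48k_diamondAut (M * q) H d) • Winf) p)
    (hzzero : ∀ d : (ZMod (M * q))ˣ, z ∈ s59k_KumKer (K := Kb)
      (SemilinearAut.ofAlgAut (s48k_diamondAut (M * q) H d) • Wzero) p) : z = 0 := by
  have hp2 : p ≠ 2 := by omega
  have hMqp : M * q * p ≠ 0 :=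
    Nat.mul_ne_zero (Nat.mul_ne_zero (NeZero.ne M) (NeZero.ne q)) hp.ne_zero
  obtain ⟨ℓ₁, T, instT, t, hℓ₁, hℓ₁S, hℓ₁M, ha₁, hfin, hρ, hcop, hcop1⟩ :=
    s59m_ell_package (M * q * p) hMqp hp hp2 hq.out hpq P hP φ hφ E W hWE hirr S hpS hgood hqg hLR
  letI := instT
  exact s59u_nh_m_G2_up M q hqM h5 hL hp hp5 hpq hpgrp P hP φ hφ (↑S : Set ℕ) S.finite_toSet
    (fun ℓ => W.apOfModel ℓ) ℓ₁ hℓ₁ hℓ₁S hℓ₁M ha₁ t hfin (W.apOfModel q) (q : ℤ) hρ hcop hcop1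
    Winf Wzero δφ hW hWinf hWzero z hz hgen hzinf hzzero

end Fermat.Agent.Lib.S59
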