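/-
Programme (R) / node [IA′], C7 = (G2)↑, THE RESIDUAL DATUM AT AN ELLIPTIC CURVE (helper9, prefix `s59m_`).

`W/ℤ` with `Δ ≠ 0`, `p` an odd prime, `q₀ ≠ p` a prime of good reduction, `φ` a Frobenius at `q₀`.
* `s59m_ell_datum` : a finite-level homomorphism `t : G_ℚ →* T` (restriction to the normal closure of `ℚ(W[p], ζ_p)`) such that for
  every good prime `ℓ ≠ p` and every Frobenius `σ` at `ℓ` with `t σ` conjugate to `t φ`: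
  `a_ℓ(W) ≡ a_{q₀}(W)` and `ℓ ≡ q₀ (mod p)`  (main's `s58_EllFrob` at `ℓ` and at `q₀`, on `W[p]`; the roots of unity give `ℓ ≡ q₀`).
* `s59m_cop_of_notLR` : the arithmetic conditions (i), (ii) of `s59m_G2_up` for `t₀ = a`, `d₀ = q` follow from `p ∤ q` and
  `p ∤ a² - (q + 1)²` (`q` is not a level-raising prime); `s59m_cop_of_TW` : for `q ≡ 1 (mod p)` this is `p ∤ a² - 4`.
* **`s59m_G2_up_ell`** : `s59m_G2_up` for the system of eigenvalues `a₀ = a_ℓ(W)` of an elliptic curve with irreducible `E[p]`: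
  the residual datum, the non-Eisenstein prime (main's `s41a_nonEis`) and the arithmetic conditions are discharged.
-/
import Fermat.Agent.Lib.S59.MG2Up
import Fermat.Agent.Lib.S58.OLevel
import Fermat.Agent.Lib.S58.OExact
import Fermat.Agent.Lib.S58.ORed
import Fermat.Agent.Lib.S58.FCore
import Fermat.Agent.Lib.S41.ANonEis

set_option autoImplicit false
set_option linter.unusedSectionVars false
set_option linter.style.haveILetI false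
set_option synthInstance.maxHeartbeats 400000

noncomputable section

namespace Fermat.Agent.Lib.S59

open WeierstrassCurve WeierstrassCurve.Affine IntermediateField Fermat.Agent.Lib.S58
  Fermat.Agent.Lib.S48 Fermat.Agent.Lib.S41

local notation "Kb" => AlgebraicClosure ℚ

/-! ### elementary lemmas -/

/-- a point of prime order `p` killed by the integer `d`: then `p ∣ d`. -/
theorem s59m_dvd_of_zsmul_eq_zero {A : Type*} [AddGroup A] {p : ℕ} (hp : p.Prime) {Q : A}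
    (hQ : p • Q = 0) (hQ0 : Q ≠ 0) {d : ℤ} (hd : d • Q = 0) : (p : ℤ) ∣ d := by
  have h5 : addOrderOf Q = p := by
    have h := addOrderOf_dvd_of_nsmul_eq_zero hQ
    rcases (Nat.dvd_prime hp).mp h with h1 | h1
    · exact absurd (AddMonoid.addOrderOf_eq_one_iff.mp h1) hQ0
    · exact h1
  rw [← h5]
  exact addOrderOf_dvd_iff_zsmul_eq_zero.mpr hd

/-- for a prime `p`: an integer not divisible by `p` is prime to `p`. -/
theorem s59m_isCoprime_of_not_dvd {p : ℕ} (hp : p.Prime) {x : ℤ} (hx : ¬ (p : ℤ) ∣ x) :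
    IsCoprime x (p : ℤ) := by
  have hp' : Prime (p : ℤ) := Nat.prime_iff_prime_int.mp hp
  exact ((hp'.irreducible.coprime_iff_not_dvd).mpr hx).symm

/-- **the arithmetic conditions (i), (ii) at a prime which is not level-raising.** -/
theorem s59m_cop_of_notLR {p : ℕ} (hp : p.Prime) (q : ℕ) (a : ℤ) (hq : ¬ (p : ℤ) ∣ (q : ℤ))
    (h : ¬ (p : ℤ) ∣ a ^ 2 - ((q : ℤ) + 1) ^ 2) :
    IsCoprime (((q : ℤ) ^ 2 + (q : ℤ)) ^ 2 - a ^ 2 * (q : ℤ) ^ 2) (p : ℤ) ∧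
      IsCoprime ((q : ℤ) ^ 2 - a * (q : ℤ) + (q : ℤ)) (p : ℤ) := by
  have hp' : Prime (p : ℤ) := Nat.prime_iff_prime_int.mp hp
  constructor
  · apply s59m_isCoprime_of_not_dvd hp
    intro hd
    have e : ((q : ℤ) ^ 2 + (q : ℤ)) ^ 2 - a ^ 2 * (q : ℤ) ^ 2 =
        -((q : ℤ) * ((q : ℤ) * (a ^ 2 - ((q : ℤ) + 1) ^ 2))) := by ring
    rw [e, dvd_neg] at hd
    rcases hp'.dvd_or_dvd hd with h1 | h1
    · exact hq h1
    · rcases hp'.dvd_or_dvd h1 with h2 | h2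
      · exact hq h2
      · exact h h2
  · apply s59m_isCoprime_of_not_dvd hp
    intro hd
    have e : (q : ℤ) ^ 2 - a * (q : ℤ) + (q : ℤ) = (q : ℤ) * ((q : ℤ) + 1 - a) := by ring
    rw [e] at hd
    rcases hp'.dvd_or_dvd hd with h1 | h1
    · exact hq h1
    · apply h
      have e2 : a ^ 2 - ((q : ℤ) + 1) ^ 2 = -(((q : ℤ) + 1 - a) * ((q : ℤ) + 1 + a)) := by ring
      rw [e2, dvd_neg]
      exact Dvd.dvd.mul_right h1 _

/-- **the arithmetic conditions (i), (ii) at a Taylor–Wiles prime** `q ≡ 1 (mod p)`, `a_q² ≢ 4`. -/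
theorem s59m_cop_of_TW {p : ℕ} (hp : p.Prime) (q : ℕ) (a : ℤ) (hq1 : (p : ℤ) ∣ (q : ℤ) - 1)
    (h : ¬ (p : ℤ) ∣ a ^ 2 - 4) :
    IsCoprime (((q : ℤ) ^ 2 + (q : ℤ)) ^ 2 - a ^ 2 * (q : ℤ) ^ 2) (p : ℤ) ∧
      IsCoprime ((q : ℤ) ^ 2 - a * (q : ℤ) + (q : ℤ)) (p : ℤ) := by
  have hp' : Prime (p : ℤ) := Nat.prime_iff_prime_int.mp hp
  refine s59m_cop_of_notLR hp q a ?_ ?_
  · intro hd
    have h1 : (p : ℤ) ∣ 1 := by
      have := dvd_sub hd hq1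
      rwa [sub_sub_cancel] at this
    exact hp'.not_dvd_one h1
  · intro hd
    apply h
    obtain ⟨k, hk⟩ := hq1
    have e : a ^ 2 - 4 = (a ^ 2 - ((q : ℤ) + 1) ^ 2) + (p : ℤ) * (k * ((q : ℤ) + 3)) := by
      have hq' : (q : ℤ) = 1 + (p : ℤ) * k := by linarith
      rw [hq']
      ring
    rw [e]
    exact dvd_add hd (Dvd.intro _ rfl)

/-! ### the residual datum -/

/-- the Galois action commutes with integer multiples. -/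
theorem s59m_pt_smul_zsmul (W : WeierstrassCurve ℤ) (g : s58_G) (n : ℤ) (Q : s58_Pt W) :
    g • (n • Q) = n • (g • Q) := WeierstrassCurve.Affine.Point.algEquiv_smul_zsmul g n Q

theorem s59m_pt_smul_add (W : WeierstrassCurve ℤ) (g : s58_G) (A B : s58_Pt W) :
    g • (A + B) = g • A + g • B := smul_add g A B

theorem s59m_pt_smul_sub (W : WeierstrassCurve ℤ) (g : s58_G) (A B : s58_Pt W) :
    g • (A - B) = g • A - g • B := smul_sub g A B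

/-- the Galois action preserves the `p`-torsion. -/
theorem s59m_pt_tors (W : WeierstrassCurve ℤ) (g : s58_G) (p : ℕ) {Q : s58_Pt W} (hQ : p • Q = 0) :
    p • (g • Q) = 0 := by
  rw [← natCast_zsmul, ← WeierstrassCurve.Affine.Point.algEquiv_smul_zsmul, natCast_zsmul, hQ]
  exact smul_zero (A := s58_Pt W) g

/-- **the residual datum of an elliptic curve at `p`, relative to a Frobenius `φ` at a good prime `q₀ ≠ p`.** -/
theorem s59m_ell_datum (W : WeierstrassCurve ℤ) (hΔ : W.Δ ≠ 0) {p : ℕ} (hp : p.Prime) (hp2 : p ≠ 2)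
    {q₀ : ℕ} (hq₀ : q₀.Prime) (hq₀p : q₀ ≠ p) (hq₀g : ¬ (q₀ : ℤ) ∣ W.Δ)
    (P : ValuationSubring Kb) (hP : P.LiesOverPrime q₀) (φ : s58_G) (hφ : P.IsFrobeniusAt φ q₀) :
    ∃ (T : Type) (_ : Group T) (t : s58_G →* T), GaloisFactorsThroughFiniteLevel t ∧
      ∀ ℓ : ℕ, ℓ.Prime → ℓ ≠ p → ¬ (ℓ : ℤ) ∣ W.Δ →
        ∀ A : ValuationSubring Kb, A.LiesOverPrime ℓ → ∀ σ : s58_G, A.IsFrobeniusAt σ ℓ →
          (∃ g : s58_G, t σ = t (g * φ * g⁻¹)) →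
            (p : ℤ) ∣ W.apOfModel ℓ - W.apOfModel q₀ ∧ (p : ℤ) ∣ (ℓ : ℤ) - (q₀ : ℤ) := by
  have hF : s58_EllFrob := s58o_ellFrob_of_core s58f_frobCore
  obtain ⟨L₁, hL₁fd, hL₁⟩ := s58o_ellLevel W hΔ p hp.pos
  obtain ⟨P₀, hP₀1, hP₀0⟩ := s58o_ellExact W hΔ p hp 0
  rw [zero_add, pow_one] at hP₀1
  rw [pow_zero, one_smul] at hP₀0
  -- a primitive `p`-th root of unity
  haveI : NeZero p := ⟨hp.ne_zero⟩
  obtain ⟨ζ, hζ⟩ := HasEnoughRootsOfUnity.exists_primitiveRoot Kb p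
  have hζp : ζ ^ p = 1 := hζ.pow_eq_one
  have hζ0 : ζ ≠ 0 := hζ.ne_zero hp.ne_zero
  have hζint : IsIntegral ℚ ζ := Algebra.IsIntegral.isIntegral (R := ℚ) ζ
  haveI hcl : IsAlgClosure ℚ Kb := ⟨inferInstance, AlgebraicClosure.isAlgebraic ℚ⟩
  haveI : Normal ℚ Kb := IsAlgClosure.normal ℚ Kb
  haveI := hL₁fd
  haveI hζfd : FiniteDimensional ℚ ℚ⟮ζ⟯ := IntermediateField.adjoin.finiteDimensional hζint
  set L₀ : IntermediateField ℚ Kb := L₁ ⊔ ℚ⟮ζ⟯ with hL₀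
  haveI hL₀fd : FiniteDimensional ℚ L₀ := IntermediateField.finiteDimensional_sup L₁ ℚ⟮ζ⟯
  set L' : IntermediateField ℚ Kb := IntermediateField.normalClosure ℚ L₀ Kb with hL'
  have hle : L₀ ≤ L' := IntermediateField.le_normalClosure L₀
  haveI hnorm : Normal ℚ L' := normalClosure.normal ℚ L₀ Kb
  have hfd : FiniteDimensional ℚ L' := normalClosure.is_finiteDimensional ℚ L₀ Kb
  set t' : s58_G →* (L' ≃ₐ[ℚ] L') := AlgEquiv.restrictNormalHom (F := ℚ) (K₁ := Kb) L' with ht'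
  have ht'one : ∀ τ : s58_G, t' τ = 1 ↔ ∀ x ∈ L', τ x = x := fun τ =>
    @AlgEquiv.restrictNormal_eq_one_iff ℚ _ Kb _ _ L' (normalClosure.normal ℚ L₀ Kb) τ
  have ht'fin : GaloisFactorsThroughFiniteLevel t' :=
    ⟨L', hfd, fun τ hτ => (ht'one τ).mpr hτ⟩
  have hζL : ζ ∈ L' :=
    hle ((le_sup_right : ℚ⟮ζ⟯ ≤ L₁ ⊔ ℚ⟮ζ⟯) (IntermediateField.mem_adjoin_simple_self ℚ ζ))
  refine ⟨(L' ≃ₐ[ℚ] L'), inferInstance, t', ht'fin, ?_⟩
  rintro ℓ hℓ hℓp hℓg A hA σ hσ ⟨g, hg⟩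
  set τ : s58_G := g * φ * g⁻¹ with hτ
  have h1 : t' (σ⁻¹ * τ) = 1 := by rw [map_mul, map_inv, hg, inv_mul_cancel]
  have hfix : ∀ x ∈ L', (σ⁻¹ * τ) x = x := (ht'one _).mp h1
  -- the roots of unity: `ℓ ≡ q₀`
  have e1 : σ ζ = ζ ^ ℓ := s59m_frob_root hℓ hp hℓp A hA σ hσ hζp
  have e2 : τ ζ = ζ ^ q₀ := by
    have hη : (g⁻¹ ζ) ^ p = 1 := by rw [← map_pow, hζp, map_one]
    have e3 : φ (g⁻¹ ζ) = (g⁻¹ ζ) ^ q₀ := s59m_frob_root hq₀ hp hq₀p P hP φ hφ hη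
    show g (φ (g⁻¹ ζ)) = ζ ^ q₀
    rw [e3, map_pow]
    congr 1
    exact AlgEquiv.apply_symm_apply g ζ
  have e4 : τ ζ = σ ζ := by
    have := hfix ζ hζL
    have h2 : σ ((σ⁻¹ * τ) ζ) = σ ζ := by rw [this]
    rw [← h2]
    show τ ζ = σ (σ⁻¹ (τ ζ))
    exact (AlgEquiv.apply_symm_apply σ (τ ζ)).symm
  have hmod : (p : ℤ) ∣ (ℓ : ℤ) - (q₀ : ℤ) := by
    rw [← hζ.zpow_eq_one_iff_dvd, zpow_sub₀ hζ0, zpow_natCast, zpow_natCast, ← e1, ← e2, e4]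
    exact div_self (by rw [e1]; exact pow_ne_zero _ hζ0)
  refine ⟨?_, hmod⟩
  -- the points: `τ` and `σ` agree on `W[p]`
  have hpt : ∀ Q : s58_Pt W, p • Q = 0 → τ • Q = σ • Q := by
    intro Q hQ
    have h3 := hL₁ (σ⁻¹ * τ)
      (fun x hx => hfix x (hle ((le_sup_left : L₁ ≤ L₁ ⊔ ℚ⟮ζ⟯) hx))) Q hQ
    rw [mul_smul, inv_smul_eq_iff] at h3
    exact h3
  -- the two quadratic relations
  have R1 : ∀ Q : s58_Pt W, p • Q = 0 →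
      σ • σ • Q - W.apOfModel ℓ • σ • Q + ℓ • Q = 0 := fun Q hQ =>
    hF W ℓ hℓ hℓg p hp hp2 (fun h => hℓp h.symm) 1 A hA σ hσ Q (by rwa [pow_one])
  have R2 : ∀ Q : s58_Pt W, p • Q = 0 →
      τ • τ • Q - W.apOfModel q₀ • τ • Q + q₀ • Q = 0 := by
    intro Q hQ
    have hQ' : p • (g⁻¹ • Q) = 0 := s59m_pt_tors W g⁻¹ p hQ
    have h4 := hF W q₀ hq₀ hq₀g p hp hp2 (fun h => hq₀p h.symm) 1 P hP φ hφ (g⁻¹ • Q)
      (by rwa [pow_one])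
    have h5 : g • (φ • φ • g⁻¹ • Q - W.apOfModel q₀ • φ • g⁻¹ • Q + q₀ • g⁻¹ • Q) = 0 := by
      rw [h4]
      exact smul_zero (A := s58_Pt W) g
    rw [s59m_pt_smul_add, s59m_pt_smul_sub, s59m_pt_smul_zsmul, ← natCast_zsmul,
      s59m_pt_smul_zsmul, smul_inv_smul, natCast_zsmul] at h5
    have e5 : τ • Q = g • φ • g⁻¹ • Q := by rw [hτ, mul_smul, mul_smul]
    have e6 : τ • τ • Q = g • φ • φ • g⁻¹ • Q := by
      rw [e5, hτ, mul_smul, mul_smul, inv_smul_smul]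
    rw [e6, e5]
    exact h5
  -- comparison at `Q = σ⁻¹ P₀`
  set Q : s58_Pt W := σ⁻¹ • P₀ with hQdef
  have hQ : p • Q = 0 := s59m_pt_tors W σ⁻¹ p hP₀1
  have hσQ : σ • Q = P₀ := smul_inv_smul σ P₀
  have r1 := R1 Q hQ
  have r2 := R2 Q hQ
  rw [hpt Q hQ, hσQ, hpt P₀ hP₀1] at r2
  rw [hσQ] at r1
  have hℓq : ((ℓ : ℤ) - (q₀ : ℤ)) • Q = 0 := by
    obtain ⟨k, hk⟩ := hmod
    rw [hk, mul_comm, mul_smul, natCast_zsmul, hQ, zsmul_zero]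
  have key : (W.apOfModel ℓ - W.apOfModel q₀) • P₀ = 0 := by
    have r3 : (σ • P₀ - W.apOfModel ℓ • P₀ + (ℓ : ℤ) • Q) -
        (σ • P₀ - W.apOfModel q₀ • P₀ + (q₀ : ℤ) • Q) = 0 := by
      rw [natCast_zsmul, natCast_zsmul, r1, r2, sub_zero]
    have r4 : (W.apOfModel ℓ - W.apOfModel q₀) • P₀ =
        ((ℓ : ℤ) - (q₀ : ℤ)) • Q - ((σ • P₀ - W.apOfModel ℓ • P₀ + (ℓ : ℤ) • Q) -
        (σ • P₀ - W.apOfModel q₀ • P₀ + (q₀ : ℤ) • Q)) := by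
      rw [sub_smul, sub_smul]
      abel
    rw [r4, r3, hℓq, sub_zero]
  exact s59m_dvd_of_zsmul_eq_zero hp hP₀1 hP₀0 key

/-! ### (G2)↑ for the eigenvalue system of an elliptic curve -/

open ModularCurve AlgebraicCurve HahnSeries Fermat.Agent.Lib.FF Fermat.Agent.Lib.S18
  Fermat.Agent.Lib.S34 Fermat.Agent.Lib.S37 Fermat.Agent.Lib.S33 Fermat.Agent.Lib.S35
  Fermat.Agent.Lib.S44 Fermat.Agent.Lib.Frey Fermat.Agent.Lib.S30 Fermat.Agent.Lib.S29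
open scoped Pointwise

attribute [local instance] s29a_algebraC

/-- **the whole arithmetic package of `s59m_G2_up` / `s59n_G2_up_final` for the eigenvalue system `a_ℓ(W)` of an elliptic curve
`E/ℚ` with irreducible `E[p]`** (`a₀ := a_ℓ(W)`, `t₀ := a_q(W)`, `d₀ := q`): the non-Eisenstein prime `ℓ₁`, the residual datum
`(t, hfin, hρ)` and the conditions (ii), (i), at a good prime `q ≠ p` which is not level-raising. -/
theorem s59m_ell_package (N : ℕ) (hN : N ≠ 0) {p : ℕ} (hp : p.Prime) (hp2 : p ≠ 2) {q : ℕ}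
    (hq : q.Prime) (hpq : p ≠ q)
    (P : ValuationSubring Kb) (hP : P.LiesOverPrime q) (φ : s48k_G) (hφ : P.IsFrobeniusAt φ q)
    (E : WeierstrassCurve ℚ) [E.IsElliptic] (W : WeierstrassCurve ℤ) (hWE : W.IsIntegralModelOf E)
    (hirr : Point.GaloisRepIsIrreducible (K := Kb) ℚ E p)
    (S : Finset ℕ) (hpS : p ∈ S) (hgood : ∀ ℓ : ℕ, ℓ.Prime → ℓ ∉ S → W.IsGoodPrimeFor ℓ)
    (hqg : ¬ (q : ℤ) ∣ W.Δ) (hLR : ¬ (p : ℤ) ∣ W.apOfModel q ^ 2 - ((q : ℤ) + 1) ^ 2) :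
    ∃ (ℓ₁ : ℕ) (T : Type) (_ : Group T) (t : s48k_G →* T),
      ℓ₁.Prime ∧ ℓ₁ ∉ (↑S : Set ℕ) ∧ ¬ ℓ₁ ∣ N ∧
      IsCoprime (((ℓ₁ + 1 : ℕ) : ℤ) - W.apOfModel ℓ₁) (p : ℤ) ∧
      GaloisFactorsThroughFiniteLevel t ∧
      (∀ ℓ : ℕ, ℓ.Prime → ℓ ∉ (↑S : Set ℕ) → ¬ ℓ ∣ N →
        ∀ A : ValuationSubring Kb, A.LiesOverPrime ℓ → ∀ σ : s48k_G, A.IsFrobeniusAt σ ℓ →
          (∃ g : s48k_G, t σ = t (g * φ * g⁻¹)) →
            (p : ℤ) ∣ W.apOfModel ℓ - W.apOfModel q ∧ (p : ℤ) ∣ (ℓ : ℤ) - (q : ℤ)) ∧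
      IsCoprime (((q : ℤ) ^ 2 + (q : ℤ)) ^ 2 - W.apOfModel q ^ 2 * (q : ℤ) ^ 2) (p : ℤ) ∧
      IsCoprime ((q : ℤ) ^ 2 - W.apOfModel q * (q : ℤ) + (q : ℤ)) (p : ℤ) := by
  have hΔ : W.Δ ≠ 0 := by
    obtain ⟨C, hC⟩ := hWE
    intro h0
    have h1 : (C • E).Δ ≠ 0 := (C • E).isUnit_Δ.ne_zero
    rw [hC, map_Δ, h0, map_zero] at h1
    exact h1 rfl
  have hqp : q ≠ p := fun h => hpq h.symm
  -- the residual datum
  obtain ⟨T, instT, t, hfin, hdat⟩ := s59m_ell_datum W hΔ hp hp2 hq hqp hqg P hP φ hφ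
  -- the non-Eisenstein prime
  obtain ⟨ℓ₁, hℓ₁, hℓ₁B, -, hne⟩ := s41a_nonEis E W hWE p hp hp2 hirr (S ∪ N.primeFactors)
  have hℓ₁S : ℓ₁ ∉ (↑S : Set ℕ) := fun h => hℓ₁B (Finset.mem_union_left _ (Finset.mem_coe.mp h))
  have hℓ₁M : ¬ ℓ₁ ∣ N := fun h =>
    hℓ₁B (Finset.mem_union_right _ (Nat.mem_primeFactors.mpr ⟨hℓ₁, h, hN⟩))
  have ha₁ : IsCoprime (((ℓ₁ + 1 : ℕ) : ℤ) - W.apOfModel ℓ₁) (p : ℤ) := by
    apply s59m_isCoprime_of_not_dvd hp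
    intro hd
    apply hne
    have e : W.apOfModel ℓ₁ ^ 2 - ((ℓ₁ : ℤ) + 1) ^ 2 =
        -((((ℓ₁ + 1 : ℕ) : ℤ) - W.apOfModel ℓ₁) * (((ℓ₁ : ℤ) + 1) + W.apOfModel ℓ₁)) := by
      push_cast
      ring
    rw [e, dvd_neg]
    exact Dvd.dvd.mul_right hd _
  -- the arithmetic conditions
  have hqp' : ¬ (p : ℤ) ∣ (q : ℤ) := by
    intro hd
    exact hpq ((Nat.prime_dvd_prime_iff_eq hp hq).mp (Int.natCast_dvd_natCast.mp hd))
  obtain ⟨hcop, hcop1⟩ := s59m_cop_of_notLR hp q (W.apOfModel q) hqp' hLR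
  refine ⟨ℓ₁, T, instT, t, hℓ₁, hℓ₁S, hℓ₁M, ha₁, hfin, ?_, hcop, hcop1⟩
  intro ℓ hℓ hℓS _ A hA σ hσ hg
  have hℓS' : ℓ ∉ S := fun h => hℓS (Finset.mem_coe.mpr h)
  have hℓp : ℓ ≠ p := fun h => hℓS' (h ▸ hpS)
  exact hdat ℓ hℓ hℓp (hgood ℓ hℓ hℓS') A hA σ hσ hg

variable (M q : ℕ) [NeZero M] [NeZero q] [hq : Fact q.Prime] (hqM : ¬ q ∣ M) (h5 : 5 ≤ q)

include h5 in
/-- **(G2)↑ for the eigenvalue system `a_ℓ(W)` of an elliptic curve `E/ℚ` with irreducible `E[p]`**, at a prime `q ∥ M q` of good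
reduction which is not level-raising (`a_q² ≢ (q + 1)² mod p`; for `q ≡ 1 (mod p)` : `a_q² ≢ 4`, the Taylor–Wiles condition). -/
theorem s59m_G2_up_ell {H : Subgroup (ZMod (M * q))ˣ} (hL : s59b_Lvl (M * q) H) {p : ℕ}
    (hp : p.Prime) (hp5 : 5 ≤ p) (hpq : p ≠ q)
    (hpgrp : ∀ g : (ZMod (M * q))ˣ, ∃ n : ℕ, g ^ (p ^ n) ∈ H)
    (P : ValuationSubring Kb) (hP : P.LiesOverPrime q) (φ : s48k_G) (hφ : P.IsFrobeniusAt φ q)
    (E : WeierstrassCurve ℚ) [E.IsElliptic] (W : WeierstrassCurve ℤ) (hWE : W.IsIntegralModelOf E)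
    (hirr : Point.GaloisRepIsIrreducible (K := Kb) ℚ E p)
    (S : Finset ℕ) (hpS : p ∈ S) (hgood : ∀ ℓ : ℕ, ℓ.Prime → ℓ ∉ S → W.IsGoodPrimeFor ℓ)
    (hqg : ¬ (q : ℤ) ∣ W.Δ) (hLR : ¬ (p : ℤ) ∣ W.apOfModel q ^ 2 - ((q : ℤ) + 1) ^ 2)
    (Winf Wzero : ValuationSubring ↥(s48k_FH (M * q) H)) (δφ : (ZMod (M * q))ˣ)
    (hW : s59n_WHyp (arithmeticGalois (s48k_FHQ (M * q) H) φ) (s48k_diamondAut (M * q) H δφ) p
      Winf Wzero)
    (hWinf : ∀ f : ↥(s48k_FH (M * q) H),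
      (f : LaurentSeries Kb) ∈ modularFunctionFieldBar (M * q) →
        (f ∈ Winf ↔ (f : LaurentSeries Kb) ∈ s37r_O P (IsLocalRing.residue ↥P)))
    (hWzero : ∀ (f : ↥(s48k_FH (M * q) H))
      (hf : (f : LaurentSeries Kb) ∈ modularFunctionFieldBar (M * q)), f ∈ Wzero ↔
        ((s37w_al M q hq.out hqM ⟨(f : LaurentSeries Kb), hf⟩ : ffi_F (M * q)) : LaurentSeries Kb) ∈
          s37r_O P (IsLocalRing.residue ↥P))
    (z : s48k_JH (M * q) H) (hz : p • z = 0)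
    (hgen : ∀ (ℓ : ℕ) [NeZero ℓ] (ℓu : (ZMod (M * q))ˣ), ℓ.Prime → ¬ ℓ ∣ M * q →
      ℓ ∉ (↑S : Set ℕ) → ((ℓu : (ZMod (M * q))ˣ) : ZMod (M * q)) = (ℓ : ZMod (M * q)) →
        ∃ N : ℕ, ((s59m_TEnd (M * q) H ℓ ℓu -
          ((W.apOfModel ℓ : ℤ) : AddMonoid.End (s48k_JH (M * q) H))) ^ N) z = 0)
    (hzinf : ∀ d : (ZMod (M * q))ˣ, z ∈ s59k_KumKer (K := Kb)
      (SemilinearAut.ofAlgAut (s48k_diamondAut (M * q) H d) • Winf) p)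
    (hzzero : ∀ d : (ZMod (M * q))ˣ, z ∈ s59k_KumKer (K := Kb)
      (SemilinearAut.ofAlgAut (s48k_diamondAut (M * q) H d) • Wzero) p) : z = 0 := by
  have hp2 : p ≠ 2 := by omega
  have hMqp : M * q * p ≠ 0 :=
    Nat.mul_ne_zero (Nat.mul_ne_zero (NeZero.ne M) (NeZero.ne q)) hp.ne_zero
  obtain ⟨ℓ₁, T, instT, t, hℓ₁, hℓ₁S, hℓ₁M, ha₁, hfin, hρ, hcop, hcop1⟩ :=
    s59m_ell_package (M * q * p) hMqp hp hp2 hq.out hpq P hP φ hφ E W hWE hirr S hpS hgood hqg hLR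
  letI := instT
  exact s59m_G2_up M q hqM h5 hL hp hp5 hpq hpgrp P hP φ hφ (↑S : Set ℕ) S.finite_toSet
    (fun ℓ => W.apOfModel ℓ) ℓ₁ hℓ₁ hℓ₁S hℓ₁M ha₁ t hfin (W.apOfModel q) (q : ℤ) hρ hcop hcop1
    Winf Wzero δφ hW hWinf hWzero z hz hgen hzinf hzzero

end Fermat.Agent.Lib.S59
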