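/-
Programme (R) / node [IA′], C7 = (G2)↑, CALL-SITE FORM (helper9, prefix `s59m_`): helper7's `s59n_G2_up_final` (any extensions
`W_∞`, `W_0` of the explicit Gauss rings) with the whole arithmetic package discharged for the eigenvalue system `a_ℓ(W)` of an
elliptic curve `E/ℚ` with irreducible `E[p]` (`s59m_ell_package`: residual datum from `W[p]` and `μ_p`, non-Eisenstein prime from
main's `s41a_nonEis`, conditions (i), (ii) from "`q` is not level-raising").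

* **`s59m_G2_up_ell_final`** : hypotheses = the level structure (`s59b_Lvl`, `p`-group quotient), `φ` a Frobenius at `P ∣ q`, the curve
  (`E`, `W`, `hirr`, `S ∋ p` containing the bad primes), `q` good and `p ∤ a_q(W)² − (q + 1)²`, the two comap equalities of helper1,
  `z ∈ J_H[p]` in the generalised `a_ℓ(W)`-eigenspace and in the Kummer kernels of all diamond translates ⇒ `z = 0`.
* `s59m_G2_up_ell_TW` : the same with `q ≡ 1 (mod p)` and the Taylor–Wiles condition `p ∤ a_q(W)² − 4`.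
-/
import Fermat.Agent.Lib.S59.NG2Fin
import Fermat.Agent.Lib.S59.MG2Frey

set_option autoImplicit false
set_option linter.unusedSectionVars false
set_option linter.style.haveILetI false
set_option synthInstance.maxHeartbeats 400000

noncomputable section

namespace Fermat.Agent.Lib.S59

open ModularCurve AlgebraicCurve HahnSeries IntermediateField Fermat.Agent.Lib.FF Fermat.Agent.Lib.S18
  Fermat.Agent.Lib.S34 Fermat.Agent.Lib.S37 Fermat.Agent.Lib.S33 Fermat.Agent.Lib.S35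
  Fermat.Agent.Lib.S44 Fermat.Agent.Lib.Frey Fermat.Agent.Lib.S30 Fermat.Agent.Lib.S29
  Fermat.Agent.Lib.S48 WeierstrassCurve WeierstrassCurve.Affine
open scoped Pointwise

local notation "Kb" => AlgebraicClosure ℚ

attribute [local instance] s29a_algebraC

variable (M q : ℕ) [NeZero M] [NeZero q] [hq : Fact q.Prime] (hqM : ¬ q ∣ M) (h5 : 5 ≤ q)

include h5 in
/-- **(G2)↑ at the call site**: the eigenvalue system of an elliptic curve, `q` good and not level-raising. -/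
theorem s59m_G2_up_ell_final {H : Subgroup (ZMod (M * q))ˣ} (hL : s59b_Lvl (M * q) H) {p : ℕ}
    (hp : p.Prime) (hp5 : 5 ≤ p) (hpq : p ≠ q)
    (hpgrp : ∀ g : (ZMod (M * q))ˣ, ∃ n : ℕ, g ^ (p ^ n) ∈ H)
    (P : ValuationSubring Kb) (hP : P.LiesOverPrime q) (φ : s48k_G) (hφ : P.IsFrobeniusAt φ q)
    (E : WeierstrassCurve ℚ) [E.IsElliptic] (W : WeierstrassCurve ℤ) (hWE : W.IsIntegralModelOf E)
    (hirr : Point.GaloisRepIsIrreducible (K := Kb) ℚ E p)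
    (S : Finset ℕ) (hpS : p ∈ S) (hgood : ∀ ℓ : ℕ, ℓ.Prime → ℓ ∉ S → W.IsGoodPrimeFor ℓ)
    (hqg : ¬ (q : ℤ) ∣ W.Δ) (hLR : ¬ (p : ℤ) ∣ W.apOfModel q ^ 2 - ((q : ℤ) + 1) ^ 2)
    (Winf Wzero : ValuationSubring ↥(s48k_FH (M * q) H))
    (hWi : Winf.comap (s59k_iotaH (M * q) H) = s59k_Vinf P hP (M * q))
    (hWz : Wzero.comap (s59k_iotaH (M * q) H) = s59k_Vzero P hP M q hq.out hqM)
    (z : s48k_JH (M * q) H) (hz : p • z = 0)
    (hgen : ∀ (ℓ : ℕ) [NeZero ℓ] (ℓu : (ZMod (M * q))ˣ), ℓ.Prime → ¬ ℓ ∣ M * q →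
      ℓ ∉ (↑S : Set ℕ) → ((ℓu : (ZMod (M * q))ˣ) : ZMod (M * q)) = (ℓ : ZMod (M * q)) →
        ∃ N : ℕ, ((s59m_TEnd (M * q) H ℓ ℓu -
          ((W.apOfModel ℓ : ℤ) : AddMonoid.End (s48k_JH (M * q) H))) ^ N) z = 0)
    (hzinf : ∀ d : (ZMod (M * q))ˣ, z ∈ s59k_KumKer (K := Kb)
      (SemilinearAut.ofAlgAut (s48k_diamondAut (M * q) H d) • Winf) p)
    (hzzero : ∀ d : (ZMod (M * q))ˣ, z ∈ s59k_KumKer (K := Kb)
      (SemilinearAut.ofAlgAut (s48k_diamondAut (M * q) H d) • Wzero) p) : z = 0 := by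
  have hp2 : p ≠ 2 := by omega
  have hMqp : M * q * p ≠ 0 :=
    Nat.mul_ne_zero (Nat.mul_ne_zero (NeZero.ne M) (NeZero.ne q)) hp.ne_zero
  obtain ⟨ℓ₁, T, instT, t, hℓ₁, hℓ₁S, hℓ₁M, ha₁, hfin, hρ, hcop, hcop1⟩ :=
    s59m_ell_package (M * q * p) hMqp hp hp2 hq.out hpq P hP φ hφ E W hWE hirr S hpS hgood hqg hLR
  letI := instT
  exact s59n_G2_up_final M q hqM h5 hL hp hp5 hpq hpgrp P hP φ hφ (↑S : Set ℕ) S.finite_toSet
    (fun ℓ => W.apOfModel ℓ) ℓ₁ hℓ₁ hℓ₁S hℓ₁M ha₁ t hfin (W.apOfModel q) (q : ℤ) hρ hcop hcop1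
    Winf Wzero hWi hWz z hz hgen hzinf hzzero

include h5 in
/-- **(G2)↑ at the call site, Taylor–Wiles form**: `q ≡ 1 (mod p)`, `p ∤ a_q(W)² − 4`. -/
theorem s59m_G2_up_ell_TW {H : Subgroup (ZMod (M * q))ˣ} (hL : s59b_Lvl (M * q) H) {p : ℕ}
    (hp : p.Prime) (hp5 : 5 ≤ p) (hpq : p ≠ q)
    (hpgrp : ∀ g : (ZMod (M * q))ˣ, ∃ n : ℕ, g ^ (p ^ n) ∈ H)
    (P : ValuationSubring Kb) (hP : P.LiesOverPrime q) (φ : s48k_G) (hφ : P.IsFrobeniusAt φ q)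
    (E : WeierstrassCurve ℚ) [E.IsElliptic] (W : WeierstrassCurve ℤ) (hWE : W.IsIntegralModelOf E)
    (hirr : Point.GaloisRepIsIrreducible (K := Kb) ℚ E p)
    (S : Finset ℕ) (hpS : p ∈ S) (hgood : ∀ ℓ : ℕ, ℓ.Prime → ℓ ∉ S → W.IsGoodPrimeFor ℓ)
    (hqg : ¬ (q : ℤ) ∣ W.Δ) (hq1 : (p : ℤ) ∣ (q : ℤ) - 1)
    (hTW : ¬ (p : ℤ) ∣ W.apOfModel q ^ 2 - 4)
    (Winf Wzero : ValuationSubring ↥(s48k_FH (M * q) H))
    (hWi : Winf.comap (s59k_iotaH (M * q) H) = s59k_Vinf P hP (M * q))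
    (hWz : Wzero.comap (s59k_iotaH (M * q) H) = s59k_Vzero P hP M q hq.out hqM)
    (z : s48k_JH (M * q) H) (hz : p • z = 0)
    (hgen : ∀ (ℓ : ℕ) [NeZero ℓ] (ℓu : (ZMod (M * q))ˣ), ℓ.Prime → ¬ ℓ ∣ M * q →
      ℓ ∉ (↑S : Set ℕ) → ((ℓu : (ZMod (M * q))ˣ) : ZMod (M * q)) = (ℓ : ZMod (M * q)) →
        ∃ N : ℕ, ((s59m_TEnd (M * q) H ℓ ℓu -
          ((W.apOfModel ℓ : ℤ) : AddMonoid.End (s48k_JH (M * q) H))) ^ N) z = 0)
    (hzinf : ∀ d : (ZMod (M * q))ˣ, z ∈ s59k_KumKer (K := Kb)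
      (SemilinearAut.ofAlgAut (s48k_diamondAut (M * q) H d) • Winf) p)
    (hzzero : ∀ d : (ZMod (M * q))ˣ, z ∈ s59k_KumKer (K := Kb)
      (SemilinearAut.ofAlgAut (s48k_diamondAut (M * q) H d) • Wzero) p) : z = 0 := by
  have hLR : ¬ (p : ℤ) ∣ W.apOfModel q ^ 2 - ((q : ℤ) + 1) ^ 2 := by
    intro hd
    apply hTW
    obtain ⟨k, hk⟩ := hq1
    have e : W.apOfModel q ^ 2 - 4 =
        (W.apOfModel q ^ 2 - ((q : ℤ) + 1) ^ 2) + (p : ℤ) * (k * ((q : ℤ) + 3)) := by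
      have hq' : (q : ℤ) = 1 + (p : ℤ) * k := by linarith
      rw [hq']
      ring
    rw [e]
    exact dvd_add hd (Dvd.intro _ rfl)
  exact s59m_G2_up_ell_final M q hqM h5 hL hp hp5 hpq hpgrp P hP φ hφ E W hWE hirr S hpS hgood hqg
    hLR Winf Wzero hWi hWz z hz hgen hzinf hzzero

end Fermat.Agent.Lib.S59
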