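import Fermat.Agent.Lib.S59.MG2FreyFin
import Fermat.Agent.Lib.S59.KKer
import Fermat.Agent.Lib.Frobenius.Exists

/-
NKEnd (helper7): THE K-END ASSEMBLY modulo (P3).  Level M q (q exactly dividing M q), A a valuation subring over q, sigma in
the inertia group of A.  From helper1's generic consumer s59k_K_of_translates, his concrete (P2) s59k_P2_inf, the prime-power
reduction s59k_G2_pow_set, and (G2)-up at the call site (helper9's s59m_G2_up_ell_final), one gets the relation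
(sigma - 1)(sigma - <delta>) z = 0 on the p-power torsion of the generalised eigenspace of J_H, as soon as (P3) holds for ONE
extension Wzero of the explicit Gauss ring at the cusp 0 and the diamond <delta>.
* s59n_hK_of_P3 (not level-raising form), s59n_hK_of_P3_TW (Taylor-Wiles form).
-/

set_option autoImplicit false
set_option linter.unusedSectionVars false
set_option linter.style.haveILetI false
set_option synthInstance.maxHeartbeats 400000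

noncomputable section

namespace Fermat.Agent.Lib.S59

open ModularCurve AlgebraicCurve HahnSeries IntermediateField Fermat.Agent.Lib.FF Fermat.Agent.Lib.S18
  Fermat.Agent.Lib.S34 Fermat.Agent.Lib.S37 Fermat.Agent.Lib.S33 Fermat.Agent.Lib.S35
  Fermat.Agent.Lib.S44 Fermat.Agent.Lib.Frey Fermat.Agent.Lib.S30 Fermat.Agent.Lib.S29
  Fermat.Agent.Lib.S48 WeierstrassCurve WeierstrassCurve.Affine
open scoped Pointwise

local notation "Kb" => AlgebraicClosure ℚ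

attribute [local instance] s29a_algebraC

variable (M q : ℕ) [NeZero M] [NeZero q] [hq : Fact q.Prime] (hqM : ¬ q ∣ M) (h5 : 5 ≤ q)

include h5 in
/-- **K-END modulo (P3)**: `(σ - 1)(σ - ⟨δ⟩) = 0` on the `p`-power torsion of the generalised eigenspace. -/
theorem s59n_hK_of_P3 {H : Subgroup (ZMod (M * q))ˣ} (hL : s59b_Lvl (M * q) H) {p : ℕ}
    (hp : p.Prime) (hp5 : 5 ≤ p) (hpq : p ≠ q)
    (hpgrp : ∀ g : (ZMod (M * q))ˣ, ∃ n : ℕ, g ^ (p ^ n) ∈ H)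
    (A : ValuationSubring Kb) (hA : A.LiesOverPrime q)
    (E : WeierstrassCurve ℚ) [E.IsElliptic] (W : WeierstrassCurve ℤ) (hWE : W.IsIntegralModelOf E)
    (hirr : Point.GaloisRepIsIrreducible (K := Kb) ℚ E p)
    (S : Finset ℕ) (hpS : p ∈ S) (hgood : ∀ ℓ : ℕ, ℓ.Prime → ℓ ∉ S → W.IsGoodPrimeFor ℓ)
    (hqg : ¬ (q : ℤ) ∣ W.Δ) (hLR : ¬ (p : ℤ) ∣ W.apOfModel q ^ 2 - ((q : ℤ) + 1) ^ 2)
    (σ : s48k_G) (hσ : σ ∈ A.inertiaSubgroupIn ℚ) (δσ : (ZMod (M * q))ˣ)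
    (Wzero : ValuationSubring ↥(s48k_FH (M * q) H))
    (hWz : Wzero.comap (s59k_iotaH (M * q) H) = s59k_Vzero A hA M q hq.out hqM)
    (hP3 : ∀ (n : ℕ) (z : s48k_JH (M * q) H), n • z = 0 →
      arithmeticGalois (s48k_FHQ (M * q) H) σ • z -
        SemilinearAut.ofAlgAut (s48k_diamondAut (M * q) H δσ) • z ∈
          s59k_KumKer (K := Kb) Wzero n)
    (k : ℕ) (z : s48k_JH (M * q) H) (hz : p ^ k • z = 0)
    (hgen : ∀ (ℓ : ℕ) [NeZero ℓ] (ℓu : (ZMod (M * q))ˣ), ℓ.Prime → ¬ ℓ ∣ M * q →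
      ℓ ∉ (↑S : Set ℕ) → ((ℓu : (ZMod (M * q))ˣ) : ZMod (M * q)) = (ℓ : ZMod (M * q)) →
        ∃ N : ℕ, ((s59m_TEnd (M * q) H ℓ ℓu -
          ((W.apOfModel ℓ : ℤ) : AddMonoid.End (s48k_JH (M * q) H))) ^ N) z = 0) :
    σ • (σ • z - s48k_diamondJ (M * q) H δσ z) - (σ • z - s48k_diamondJ (M * q) H δσ z) = 0 := by
  classical
  have hN : 1 < M * q := hL.one_lt
  have hneg : (-1 : (ZMod (M * q))ˣ) ∈ H := hL.neg_one
  have S37 := s59b_S37H_of_lvl hL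
  haveI : NeZero p := ⟨hp.ne_zero⟩
  obtain ⟨φ, hφ⟩ := Fermat.Agent.Lib.Frobenius.exists_isFrobeniusAt_of_liesOverPrime A q hq.out hA
  obtain ⟨τ, hτ⟩ : ∃ τ : SemilinearAut Kb ↥(s48k_FH (M * q) H),
      τ = arithmeticGalois (s48k_FHQ (M * q) H) σ := ⟨_, rfl⟩
  obtain ⟨δ, hδ⟩ : ∃ δ : SemilinearAut Kb ↥(s48k_FH (M * q) H),
      δ = SemilinearAut.ofAlgAut (s48k_diamondAut (M * q) H δσ) := ⟨_, rfl⟩
  have hcomm : τ * δ = δ * τ := by
    rw [hτ, hδ]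
    exact s48e_diamondAut_comm_mul (M * q) H δσ σ
  -- the diamonds
  let G : Set (SemilinearAut Kb ↥(s48k_FH (M * q) H)) :=
    Set.range fun d : (ZMod (M * q))ˣ => SemilinearAut.ofAlgAut (s48k_diamondAut (M * q) H d)
  have hGτ : ∀ γ ∈ G, τ * γ = γ * τ := by
    rintro _ ⟨d, rfl⟩
    rw [hτ]
    exact s48e_diamondAut_comm_mul (M * q) H d σ
  have hGδ : ∀ γ ∈ G, δ * γ = γ * δ := by
    rintro _ ⟨d, rfl⟩
    rw [hδ]
    have e1 := map_mul (s59n_diaHom hN hneg (H := H)) δσ d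
    have e2 := map_mul (s59n_diaHom hN hneg (H := H)) d δσ
    have e3 : s59n_diaHom hN hneg (H := H) (δσ * d) = s59n_diaHom hN hneg (H := H) (d * δσ) :=
      congrArg _ (mul_comm δσ d)
    exact e1.symm.trans (e3.trans e2)
  -- the generalised eigenspace
  let TT : s59m_Idx (M * q) p (↑S : Set ℕ) → AddMonoid.End (s48k_JH (M * q) H) := fun i =>
    s59m_TEnd (M * q) H i.1.1 i.1.2 -
      ((W.apOfModel i.1.1 : ℤ) : AddMonoid.End (s48k_JH (M * q) H))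
  let Egen : AddSubgroup (s48k_JH (M * q) H) := ⨅ i, s59n_genKer (TT i)
  have hEgen : ∀ w : s48k_JH (M * q) H, w ∈ Egen ↔ ∀ i, ∃ N : ℕ, ((TT i) ^ N) w = 0 := by
    intro w
    simp only [Egen, AddSubgroup.mem_iInf]
    exact Iff.rfl
  have hndvd : ∀ ℓ : ℕ, ℓ.Prime → ¬ ℓ ∣ M * q → ℓ ∉ (↑S : Set ℕ) → ∀ j : ℕ,
      ¬ ℓ ∣ M * q * p ^ j := by
    intro ℓ hℓ hℓM hℓS j hdvd
    rcases (Nat.Prime.dvd_mul hℓ).mp hdvd with h | h
    · exact hℓM h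
    · have := (Nat.prime_dvd_prime_iff_eq hℓ hp).mp (hℓ.dvd_of_dvd_pow h)
      exact hℓS (this ▸ Finset.mem_coe.mpr hpS)
  have hzgen : z ∈ Egen := by
    rw [hEgen]
    intro i
    exact hgen i.1.1 i.1.2 i.2.1 (fun h => i.2.2.1 (Dvd.dvd.mul_right h p)) i.2.2.2.1 i.2.2.2.2
  -- (G2) at `p`
  have hG2p : ∀ w ∈ Egen,
      w ∈ s59k_KumKerSet (K := Kb) (s59k_translates G (s59k_Winf A hA (M * q) H)) p →
      w ∈ s59k_KumKerSet (K := Kb) (s59k_translates G Wzero) p → w = 0 := by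
    intro w hw h1 h2
    rw [s59k_mem_kumKerSet_translates] at h1 h2
    have hpw : p • w = 0 := s59k_kumKer_nsmul (h1 _ ⟨1, rfl⟩)
    refine s59m_G2_up_ell_final M q hqM h5 hL hp hp5 hpq hpgrp A hA φ hφ E W hWE hirr S hpS hgood
      hqg hLR (s59k_Winf A hA (M * q) H) Wzero (s59k_Winf_comap A hA (M * q) H) hWz w hpw ?_
      (fun d => h1 _ ⟨d, rfl⟩) (fun d => h2 _ ⟨d, rfl⟩)
    intro ℓ _ ℓu hℓ hℓM hℓS hℓu
    have hi : ¬ ℓ ∣ M * q * p := by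
      have := hndvd ℓ hℓ hℓM hℓS 1
      rwa [pow_one] at this
    exact (hEgen w).mp hw ⟨(ℓ, ℓu), hℓ, hi, hℓS, hℓu⟩
  -- (G2) at `p ^ k`
  obtain ⟨ζ, hζ⟩ := HasEnoughRootsOfUnity.exists_primitiveRoot Kb p
  haveI : FFGen Kb (s48h_j0 H) := s48h_ffGen_jK (algebraMap Kb ℂ) hN hneg
  have hG2k := s59k_G2_pow_set (K := Kb) (s59k_translates G (s59k_Winf A hA (M * q) H))
    (s59k_translates G Wzero) p hp.pos ζ hζ (fun c => IsAlgClosed.exists_pow_nat_eq c hp.pos)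
    (s59m_constOfOrdZero (s48h_j0 H)) Egen hG2p k
  -- the stable subgroup
  let Ek : AddSubgroup (s48k_JH (M * q) H) := s59n_tors (s48k_JH (M * q) H) (p ^ k) ⊓ Egen
  have hsw : ∀ (γ : SemilinearAut Kb ↥(s48k_FH (M * q) H)) (x : s48k_JH (M * q) H),
      p ^ k • (γ • x) = γ • (p ^ k • x) :=
    fun γ x => (map_nsmul (DistribSMul.toAddMonoidHom (s48k_JH (M * q) H) γ) (p ^ k) x).symm
  have hs0 : ∀ γ : SemilinearAut Kb ↥(s48k_FH (M * q) H), γ • (0 : s48k_JH (M * q) H) = 0 :=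
    fun γ => map_zero (DistribSMul.toAddMonoidHom (s48k_JH (M * q) H) γ)
  have hstab : ∀ (γ : SemilinearAut Kb ↥(s48k_FH (M * q) H)),
      (∀ (i : s59m_Idx (M * q) p (↑S : Set ℕ)) (x : s48k_JH (M * q) H), p ^ k • x = 0 →
        γ • (s59m_TEnd (M * q) H i.1.1 i.1.2 x) = s59m_TEnd (M * q) H i.1.1 i.1.2 (γ • x)) →
      ∀ w ∈ Ek, γ • w ∈ Ek := by
    intro γ hγ w hw
    obtain ⟨hw1, hw2⟩ := AddSubgroup.mem_inf.mp hw
    have hw1' : p ^ k • w = 0 := hw1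
    refine AddSubgroup.mem_inf.mpr ⟨?_, ?_⟩
    · show p ^ k • (γ • w) = 0
      rw [hsw, hw1', hs0]
    · rw [hEgen] at hw2 ⊢
      intro i
      exact s59n_genKer_stable
        (DistribMulAction.toAddMonoidEnd (SemilinearAut Kb ↥(s48k_FH (M * q) H))
          (s48k_JH (M * q) H) γ)
        (s59m_TEnd (M * q) H i.1.1 i.1.2) (W.apOfModel i.1.1) (p ^ k)
        (fun x hx => hγ i x hx) hw1' (hw2 i)
  have hEτ : ∀ w ∈ Ek, τ • w ∈ Ek := by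
    refine hstab τ fun i x _ => ?_
    rw [hτ]
    exact S37.commT i.1.1 i.1.2 i.2.1 (fun h => i.2.2.1 (Dvd.dvd.mul_right h p)) i.2.2.2.2 σ x
  have hEδ : ∀ w ∈ Ek, δ • w ∈ Ek := by
    refine hstab δ fun i x hx => ?_
    rw [hδ]
    obtain ⟨A₀, σ₀, hA₀, hσ₀⟩ := Fermat.Agent.Lib.Frobenius.exists_isFrobeniusAt i.1.1 i.2.1
    have hi : ¬ i.1.1 ∣ M * q * p ^ k :=
      hndvd i.1.1 i.2.1 (fun h => i.2.2.1 (Dvd.dvd.mul_right h p)) i.2.2.2.1 k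
    exact s59n_TD_of_frobQuad hN hneg i.1.1 i.1.2 σ₀ (p ^ k)
      (fun y hy => S37.frobQuad (p ^ k) i.1.1 i.1.2 i.2.1 hi i.2.2.2.2 A₀ hA₀ σ₀ hσ₀ y hy) δσ x hx
  -- the consumer
  have h2 : ∀ w : s48k_JH (M * q) H, p ^ k • w = 0 →
      τ • w - w ∈ s59k_KumKer (K := Kb) (s59k_Winf A hA (M * q) H) (p ^ k) := by
    intro w hw
    rw [hτ]
    exact s59k_P2_inf A hA (M * q) H σ hσ (p ^ k) w hw
  have h3 : ∀ w : s48k_JH (M * q) H, p ^ k • w = 0 →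
      τ • w - δ • w ∈ s59k_KumKer (K := Kb) Wzero (p ^ k) := by
    intro w hw
    rw [hτ, hδ]
    exact hP3 (p ^ k) w hw
  have key := s59k_K_of_translates (K := Kb) τ δ hcomm (s59k_Winf A hA (M * q) H) Wzero (p ^ k)
    h2 h3 G hGτ hGδ Ek hEτ hEδ (fun w hw h1 h2 => hG2k w (AddSubgroup.mem_inf.mp hw).2 h1 h2) z
    (AddSubgroup.mem_inf.mpr ⟨hz, hzgen⟩) hz
  rw [hτ, hδ] at key
  exact key

include h5 in
/-- **K-END modulo (P3), Taylor–Wiles form**: `q ≡ 1 (mod p)`, `p ∤ a_q(W)² - 4`. -/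
theorem s59n_hK_of_P3_TW {H : Subgroup (ZMod (M * q))ˣ} (hL : s59b_Lvl (M * q) H) {p : ℕ}
    (hp : p.Prime) (hp5 : 5 ≤ p) (hpq : p ≠ q)
    (hpgrp : ∀ g : (ZMod (M * q))ˣ, ∃ n : ℕ, g ^ (p ^ n) ∈ H)
    (A : ValuationSubring Kb) (hA : A.LiesOverPrime q)
    (E : WeierstrassCurve ℚ) [E.IsElliptic] (W : WeierstrassCurve ℤ) (hWE : W.IsIntegralModelOf E)
    (hirr : Point.GaloisRepIsIrreducible (K := Kb) ℚ E p)
    (S : Finset ℕ) (hpS : p ∈ S) (hgood : ∀ ℓ : ℕ, ℓ.Prime → ℓ ∉ S → W.IsGoodPrimeFor ℓ)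
    (hqg : ¬ (q : ℤ) ∣ W.Δ) (hq1 : (p : ℤ) ∣ (q : ℤ) - 1)
    (hTW : ¬ (p : ℤ) ∣ W.apOfModel q ^ 2 - 4)
    (σ : s48k_G) (hσ : σ ∈ A.inertiaSubgroupIn ℚ) (δσ : (ZMod (M * q))ˣ)
    (Wzero : ValuationSubring ↥(s48k_FH (M * q) H))
    (hWz : Wzero.comap (s59k_iotaH (M * q) H) = s59k_Vzero A hA M q hq.out hqM)
    (hP3 : ∀ (n : ℕ) (z : s48k_JH (M * q) H), n • z = 0 →
      arithmeticGalois (s48k_FHQ (M * q) H) σ • z -
        SemilinearAut.ofAlgAut (s48k_diamondAut (M * q) H δσ) • z ∈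
          s59k_KumKer (K := Kb) Wzero n)
    (k : ℕ) (z : s48k_JH (M * q) H) (hz : p ^ k • z = 0)
    (hgen : ∀ (ℓ : ℕ) [NeZero ℓ] (ℓu : (ZMod (M * q))ˣ), ℓ.Prime → ¬ ℓ ∣ M * q →
      ℓ ∉ (↑S : Set ℕ) → ((ℓu : (ZMod (M * q))ˣ) : ZMod (M * q)) = (ℓ : ZMod (M * q)) →
        ∃ N : ℕ, ((s59m_TEnd (M * q) H ℓ ℓu -
          ((W.apOfModel ℓ : ℤ) : AddMonoid.End (s48k_JH (M * q) H))) ^ N) z = 0) :
    σ • (σ • z - s48k_diamondJ (M * q) H δσ z) - (σ • z - s48k_diamondJ (M * q) H δσ z) = 0 := by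
  have hLR : ¬ (p : ℤ) ∣ W.apOfModel q ^ 2 - ((q : ℤ) + 1) ^ 2 := by
    intro hd
    apply hTW
    obtain ⟨c, hc⟩ := hq1
    have e : W.apOfModel q ^ 2 - 4 =
        (W.apOfModel q ^ 2 - ((q : ℤ) + 1) ^ 2) + (p : ℤ) * (c * ((q : ℤ) + 3)) := by
      have hq' : (q : ℤ) = 1 + (p : ℤ) * c := by linarith
      rw [hq']
      ring
    rw [e]
    exact dvd_add hd (Dvd.intro _ rfl)
  exact s59n_hK_of_P3 M q hqM h5 hL hp hp5 hpq hpgrp A hA E W hWE hirr S hpS hgood hqg hLR σ hσ δσ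
    Wzero hWz hP3 k z hz hgen

end Fermat.Agent.Lib.S59
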