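import Fermat.Agent.Lib.S59.NKEnd
import Fermat.Agent.Lib.S59.KK
import Fermat.Agent.Lib.S59.NKFin
import Fermat.Agent.Lib.S59.UW37Cons
import Fermat.Agent.Lib.S59.UHMG2Up
import Fermat.Agent.Lib.S59.UHMG2Frey
import Fermat.Agent.Lib.S59.UHMG2FreyFin
import Fermat.Agent.Lib.S59.UHNG2Fin
import Fermat.Agent.Lib.S59.UHNKEnd

/-
NKFin (helper7): THE K-END RELATION, FINAL FORM (no valuation-subring binder left).  Level M q, A over q, sigma in the inertia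
group of A: there is a diamond <delta> with (sigma - 1)(sigma - <delta>) = 0 on the p-power torsion of the generalised
eigenspace of J_H attached to an elliptic curve (q good, not level-raising).  = NKEnd.s59n_hK_of_P3 with helper1's
s59k_exists_Wzero (Chevalley) and s59k_P3_zero (inertia on extensions) plugged in.
* s59n_smul_comap_iotaH : a diamond translate of an extension of V is an extension of V;
* s59n_hK_final, s59n_hK_final_TW;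
* s59n_exists_delta : the function delta : G_Q -> units of Z/(M q) of helper2's C8, by choice.
-/

set_option autoImplicit false
set_option linter.unusedSectionVars false
set_option linter.style.haveILetI false
set_option synthInstance.maxHeartbeats 400000

noncomputable section

namespace Fermat.Agent.Lib.S59

open ModularCurve AlgebraicCurve HahnSeries IntermediateField Fermat.Agent.Lib.FF Fermat.Agent.Lib.S18
  Fermat.Agent.Lib.S34 Fermat.Agent.Lib.S37 Fermat.Agent.Lib.S33 Fermat.Agent.Lib.S35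
  Fermat.Agent.Lib.S44 Fermat.Agent.Lib.Frey Fermat.Agent.Lib.S30 Fermat.Agent.Lib.S29
  Fermat.Agent.Lib.S48 WeierstrassCurve WeierstrassCurve.Affine
open scoped Pointwise

local notation "Kb" => AlgebraicClosure ℚ

attribute [local instance] s29a_algebraC


variable (M q : ℕ) [NeZero M] [NeZero q] [hq : Fact q.Prime] (hqM : ¬ q ∣ M) (h5 : 5 ≤ q)

include hqM h5 in
/-- **THE K-END RELATION, FINAL FORM.** -/
theorem s59u_nh_n_hK_final {H : Subgroup (ZMod (M * q))ˣ} (hL : s59u_LvlW (M * q) H) {p : ℕ}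
    (hp : p.Prime) (hp5 : 5 ≤ p) (hpq : p ≠ q)
    (hpgrp : ∀ g : (ZMod (M * q))ˣ, ∃ n : ℕ, g ^ (p ^ n) ∈ H)
    (A : ValuationSubring Kb) (hA : A.LiesOverPrime q)
    (E : WeierstrassCurve ℚ) [E.IsElliptic] (W : WeierstrassCurve ℤ) (hWE : W.IsIntegralModelOf E)
    (hirr : Point.GaloisRepIsIrreducible (K := Kb) ℚ E p)
    (S : Finset ℕ) (hpS : p ∈ S) (hgood : ∀ ℓ : ℕ, ℓ.Prime → ℓ ∉ S → W.IsGoodPrimeFor ℓ)
    (hqg : ¬ (q : ℤ) ∣ W.Δ) (hLR : ¬ (p : ℤ) ∣ W.apOfModel q ^ 2 - ((q : ℤ) + 1) ^ 2)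
    (σ : s48k_G) (hσ : σ ∈ A.inertiaSubgroupIn ℚ) :
    ∃ δσ : (ZMod (M * q))ˣ, ∀ (k : ℕ) (z : s48k_JH (M * q) H), p ^ k • z = 0 →
      (∀ (ℓ : ℕ) [NeZero ℓ] (ℓu : (ZMod (M * q))ˣ), ℓ.Prime → ¬ ℓ ∣ M * q →
        ℓ ∉ (↑S : Set ℕ) → ((ℓu : (ZMod (M * q))ˣ) : ZMod (M * q)) = (ℓ : ZMod (M * q)) →
          ∃ N : ℕ, ((s59m_TEnd (M * q) H ℓ ℓu -
            ((W.apOfModel ℓ : ℤ) : AddMonoid.End (s48k_JH (M * q) H))) ^ N) z = 0) →
      σ • (σ • z - s48k_diamondJ (M * q) H δσ z) - (σ • z - s48k_diamondJ (M * q) H δσ z) = 0 := by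
  have hN : 1 < M * q := hL.one_lt
  have hneg : (-1 : (ZMod (M * q))ˣ) ∈ H := hL.neg_one
  obtain ⟨W₀, hW₀⟩ := s59k_exists_Wzero A hA M q hq.out hqM H
  obtain ⟨δσ, h3⟩ := s59k_P3_zero A hA M q hq.out hqM H hN hneg W₀ hW₀ σ hσ
  refine ⟨δσ, fun k z hz hgen => ?_⟩
  exact s59u_nh_n_hK_of_P3 M q hqM h5 hL hp hp5 hpq hpgrp A hA E W hWE hirr S hpS hgood hqg hLR σ hσ δσ
    (SemilinearAut.ofAlgAut (s48k_diamondAut (M * q) H δσ) • W₀)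
    ((s59n_smul_comap_iotaH hN hneg δσ W₀).trans hW₀) h3 k z hz hgen

include hqM h5 in
/-- **THE K-END RELATION, FINAL FORM, Taylor–Wiles primes**: `q ≡ 1 (mod p)`, `p ∤ a_q(W)² - 4`. -/
theorem s59u_nh_n_hK_final_TW {H : Subgroup (ZMod (M * q))ˣ} (hL : s59u_LvlW (M * q) H) {p : ℕ}
    (hp : p.Prime) (hp5 : 5 ≤ p) (hpq : p ≠ q)
    (hpgrp : ∀ g : (ZMod (M * q))ˣ, ∃ n : ℕ, g ^ (p ^ n) ∈ H)
    (A : ValuationSubring Kb) (hA : A.LiesOverPrime q)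
    (E : WeierstrassCurve ℚ) [E.IsElliptic] (W : WeierstrassCurve ℤ) (hWE : W.IsIntegralModelOf E)
    (hirr : Point.GaloisRepIsIrreducible (K := Kb) ℚ E p)
    (S : Finset ℕ) (hpS : p ∈ S) (hgood : ∀ ℓ : ℕ, ℓ.Prime → ℓ ∉ S → W.IsGoodPrimeFor ℓ)
    (hqg : ¬ (q : ℤ) ∣ W.Δ) (hq1 : (p : ℤ) ∣ (q : ℤ) - 1)
    (hTW : ¬ (p : ℤ) ∣ W.apOfModel q ^ 2 - 4)
    (σ : s48k_G) (hσ : σ ∈ A.inertiaSubgroupIn ℚ) :
    ∃ δσ : (ZMod (M * q))ˣ, ∀ (k : ℕ) (z : s48k_JH (M * q) H), p ^ k • z = 0 →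
      (∀ (ℓ : ℕ) [NeZero ℓ] (ℓu : (ZMod (M * q))ˣ), ℓ.Prime → ¬ ℓ ∣ M * q →
        ℓ ∉ (↑S : Set ℕ) → ((ℓu : (ZMod (M * q))ˣ) : ZMod (M * q)) = (ℓ : ZMod (M * q)) →
          ∃ N : ℕ, ((s59m_TEnd (M * q) H ℓ ℓu -
            ((W.apOfModel ℓ : ℤ) : AddMonoid.End (s48k_JH (M * q) H))) ^ N) z = 0) →
      σ • (σ • z - s48k_diamondJ (M * q) H δσ z) - (σ • z - s48k_diamondJ (M * q) H δσ z) = 0 := by
  have hLR : ¬ (p : ℤ) ∣ W.apOfModel q ^ 2 - ((q : ℤ) + 1) ^ 2 := by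
    intro hd
    apply hTW
    obtain ⟨c, hc⟩ := hq1
    have e : W.apOfModel q ^ 2 - 4 =
        (W.apOfModel q ^ 2 - ((q : ℤ) + 1) ^ 2) + (p : ℤ) * (c * ((q : ℤ) + 3)) := by
      have hq' : (q : ℤ) = 1 + (p : ℤ) * c := by linarith
      rw [hq']
      ring
    rw [e]
    exact dvd_add hd (Dvd.intro _ rfl)
  exact s59u_nh_n_hK_final M q hqM h5 hL hp hp5 hpq hpgrp A hA E W hWE hirr S hpS hgood hqg hLR σ hσ

include hqM h5 in
/-- **the function `δ` of helper2's C8, with the K-END relation on the whole inertia group.** -/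
theorem s59u_nh_n_exists_delta {H : Subgroup (ZMod (M * q))ˣ} (hL : s59u_LvlW (M * q) H) {p : ℕ}
    (hp : p.Prime) (hp5 : 5 ≤ p) (hpq : p ≠ q)
    (hpgrp : ∀ g : (ZMod (M * q))ˣ, ∃ n : ℕ, g ^ (p ^ n) ∈ H)
    (A : ValuationSubring Kb) (hA : A.LiesOverPrime q)
    (E : WeierstrassCurve ℚ) [E.IsElliptic] (W : WeierstrassCurve ℤ) (hWE : W.IsIntegralModelOf E)
    (hirr : Point.GaloisRepIsIrreducible (K := Kb) ℚ E p)
    (S : Finset ℕ) (hpS : p ∈ S) (hgood : ∀ ℓ : ℕ, ℓ.Prime → ℓ ∉ S → W.IsGoodPrimeFor ℓ)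
    (hqg : ¬ (q : ℤ) ∣ W.Δ) (hLR : ¬ (p : ℤ) ∣ W.apOfModel q ^ 2 - ((q : ℤ) + 1) ^ 2) :
    ∃ δ : s48k_G → (ZMod (M * q))ˣ, ∀ σ ∈ A.inertiaSubgroupIn ℚ,
      ∀ (k : ℕ) (z : s48k_JH (M * q) H), p ^ k • z = 0 →
      (∀ (ℓ : ℕ) [NeZero ℓ] (ℓu : (ZMod (M * q))ˣ), ℓ.Prime → ¬ ℓ ∣ M * q →
        ℓ ∉ (↑S : Set ℕ) → ((ℓu : (ZMod (M * q))ˣ) : ZMod (M * q)) = (ℓ : ZMod (M * q)) →
          ∃ N : ℕ, ((s59m_TEnd (M * q) H ℓ ℓu -
            ((W.apOfModel ℓ : ℤ) : AddMonoid.End (s48k_JH (M * q) H))) ^ N) z = 0) →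
      σ • (σ • z - s48k_diamondJ (M * q) H (δ σ) z) -
        (σ • z - s48k_diamondJ (M * q) H (δ σ) z) = 0 := by
  classical
  have key := fun (σ : s48k_G) (hσ : σ ∈ A.inertiaSubgroupIn ℚ) =>
    s59u_nh_n_hK_final M q hqM h5 hL hp hp5 hpq hpgrp A hA E W hWE hirr S hpS hgood hqg hLR σ hσ
  refine ⟨fun σ => if hσ : σ ∈ A.inertiaSubgroupIn ℚ then (key σ hσ).choose else 1,
    fun σ hσ k z hz hgen => ?_⟩
  have e : (if hσ' : σ ∈ A.inertiaSubgroupIn ℚ then (key σ hσ').choose else 1) =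
      (key σ hσ).choose := dif_pos hσ
  show σ • (σ • z - s48k_diamondJ (M * q) H
      (if hσ' : σ ∈ A.inertiaSubgroupIn ℚ then (key σ hσ').choose else 1) z) -
    (σ • z - s48k_diamondJ (M * q) H
      (if hσ' : σ ∈ A.inertiaSubgroupIn ℚ then (key σ hσ').choose else 1) z) = 0
  rw [e]
  exact (key σ hσ).choose_spec k z hz hgen

end Fermat.Agent.Lib.S59
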