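/-
CORNER₅ way (A) (helper3): h23-free twin of `ELMin.lean` — only the declarations that depended on `h23 : 2 ∣ M ∨ 3 ∣ M` /
`s59b_Lvl` are repeated (over `s59u_LvlW`, UW37*), renamed `s59x_foo ↦ s59u_nh_x_foo`; proofs unchanged.
-/
import Mathlib
import Fermat.Agent.Lib.S59.ELMinA
import Fermat.Agent.Lib.S59.ELMinR
import Fermat.Agent.Lib.S59.ELPkgH
import Fermat.Agent.Lib.S59.VMono
import Fermat.Agent.Lib.S59.QOExtFin
import Fermat.Agent.Lib.S59.ELMin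
import Fermat.Agent.Lib.S59.UW37Cons
import Fermat.Agent.Lib.Level.SmallLevel
import Fermat.Agent.Lib.S59.UHMG2Up
import Fermat.Agent.Lib.S59.UHMG2Frey
import Fermat.Agent.Lib.S59.UHMG2FreyFin
import Fermat.Agent.Lib.S59.UHNG2Fin
import Fermat.Agent.Lib.S59.UHNKEnd
import Fermat.Agent.Lib.S59.UHNKFin
import Fermat.Agent.Lib.S59.UHEWC8a
import Fermat.Agent.Lib.S59.UHEWC8b
import Fermat.Agent.Lib.S59.UHEWC8c
import Fermat.Agent.Lib.S59.UHEWC8d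
import Fermat.Agent.Lib.S59.UHELC8a
import Fermat.Agent.Lib.S59.UHELC8b
import Fermat.Agent.Lib.S59.UHELPkg
import Fermat.Agent.Lib.S59.UHELPkgH

set_option autoImplicit false
set_option linter.unusedSectionVars false
set_option linter.unusedVariables false
set_option linter.style.haveILetI false
set_option maxHeartbeats 1600000
set_option synthInstance.maxHeartbeats 400000

noncomputable section

namespace Fermat.Agent.Lib.S59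

open IsLocalRing CuspForm Polynomial
open Fermat.Agent.Lib.S44

local notation "Γℚ" => (AlgebraicClosure ℚ ≃ₐ[ℚ] AlgebraicClosure ℚ)


section E2

variable (W : WeierstrassCurve ℤ) {p : ℕ} [hpP : Fact p.Prime] (hΔ : W.Δ ≠ 0)
  {𝒪 : Type} [CommRing 𝒪] [IsDomain 𝒪] [IsDiscreteValuationRing 𝒪]
  [IsAdicComplete (maximalIdeal 𝒪) 𝒪] [Algebra ℤ_[p] 𝒪]
  (hp𝒪 : ((p : ℕ) : 𝒪) ∈ maximalIdeal 𝒪)


end E2

/-- **[PATCH-min], flat case, at a level `N` with `2 ∣ N ∨ 3 ∣ N`.** -/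
theorem s59u_nh_e_Lmin_flat (p : ℕ) [Fact p.Prime] (hp35 : p = 3 ∨ p = 5) (hp5 : 5 ≤ p)
    (W : WeierstrassCurve ℤ) (hΔ : W.Δ ≠ 0) (hss : W.IsSemistableModel)
    (hirr : W.ModRepIsIrreducible p) (hgoodp : W.IsGoodPrimeFor p)
    (N : ℕ) [NeZero N] (hsq : Squarefree N) (hpN : ¬ p ∣ N) (hONE : 1 < N)
    (hres : W.IsResiduallyModularOfLevel p N)
    (hbad : ∀ q : ℕ, q.Prime → q ≠ p → ¬ W.IsGoodPrimeFor q → ¬ s59_Unr W p q)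
    (hNtype : ∀ q : ℕ, q.Prime → q ∣ N → ¬ s59_Unr W p q ∨
      (W.IsGoodPrimeFor q ∧ ¬ p ∣ q ^ 2 - 1 ∧
        ¬ (p : ℤ) ∣ (W.apOfModel q : ℤ) ^ 2 - ((q : ℤ) + 1) ^ 2)) :
    ∃ (B : Finset ℕ) (𝒪 : Type) (_ : CommRing 𝒪) (_ : IsDomain 𝒪) (_ : CharZero 𝒪)
      (χ : heckeAlgebra N 2 (↑B : Set ℕ) →+* 𝒪),
      ∀ (ℓ : ℕ) (hℓ : ℓ.Prime) (hℓN : ¬ ℓ ∣ N) (hℓB : ℓ ∉ (↑B : Set ℕ)),
        χ (heckeAlgebra.T hℓ hℓN hℓB) = ((W.apOfModel ℓ : ℤ) : 𝒪) := by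
  classical
  have hpp : p.Prime := Fact.out
  have hp2 : p ≠ 2 := by omega
  have hN0 : N ≠ 0 := NeZero.ne N
  set B : Finset ℕ := (N * p).primeFactors ∪ W.Δ.natAbs.primeFactors with hB
  have hB1 : ∀ r : ℕ, r.Prime → r ∣ N * p → r ∈ B := fun r hr hd =>
    Finset.mem_union_left _ (Nat.mem_primeFactors.mpr ⟨hr, hd, Nat.mul_ne_zero hN0 hpp.ne_zero⟩)
  have hB2Δ : ∀ r : ℕ, r.Prime → (r : ℤ) ∣ W.Δ → r ∈ B := fun r hr hd =>
    Finset.mem_union_right _ (Nat.mem_primeFactors.mpr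
      ⟨hr, Int.natCast_dvd.mp hd, Int.natAbs_ne_zero.mpr hΔ⟩)
  have hB2 : ∀ r : ℕ, r.Prime → ¬ W.IsGoodPrimeFor r → r ∈ B := by
    intro r hr hbad'
    refine hB2Δ r hr ?_
    by_contra h
    exact hbad' h
  have hpB : p ∈ B := hB1 p hpp (Dvd.intro_left N rfl)
  have hocc := s59e_Lmin_levelOcc W p N B hB1 hB2 hres
  -- the coefficient ring
  obtain ⟨𝒪, i1, i2, i3, i4, i5, i6, i7, i8, i9, hp𝒪, -, hsplit⟩ :=
    s59q_exists_coeffRing_padic p 1 one_pos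
  -- the `R`-side
  obtain ⟨Rd, hSmin, hm, he⟩ := s59e_Lmin_RData W hΔ hp𝒪 hp35 hss hirr hsplit N B hpB hB2Δ
    (fun q hq hqN => by
      have hqp : q ≠ p := fun h => hpN (h ▸ hqN)
      rcases hNtype q hq hqN with h | ⟨hg, h1, h2⟩
      · exact Or.inl ((s59q_WSmin_hmin W hΔ hp𝒪 hp2 q hq hqp).mpr fun hunr =>
          h ((s59q_W_unram_iff W hΔ hp𝒪 q).mp hunr))
      · exact Or.inr (s59e_Lmin_E2 W hΔ hp𝒪 hp2 hirr q hq hqp hg h1 h2))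
  have hbadS : ∀ q : ℕ, q.Prime → q ≠ p → ¬ W.IsGoodPrimeFor q → q ∈ Rd.Smin := by
    intro q hq hqp hg
    rw [hSmin]
    exact (s59q_WSmin_hmin W hΔ hp𝒪 hp2 q hq hqp).mpr fun hunr =>
      hbad q hq hqp hg ((s59q_W_unram_iff W hΔ hp𝒪 q).mp hunr)
  -- the assembly
  obtain ⟨χ, hχ⟩ := s59e_Lmin_abs p hp2 W hΔ N B hss hirr hsq hpN hB1 hB2 hocc hgoodp 𝒪 hp𝒪 Rd hm
    he hbadS (fun D0 r => s59u_nh_e_TPkgLH p hp5 W hΔ N (∅ : Finset ℕ) B hirr hsq hpN hB1 hB2 hocc hONE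
      𝒪 hp𝒪 Rd D0 r (s59q_ZIdx Rd.m Rd.e))
  exact ⟨B, 𝒪, inferInstance, inferInstance, inferInstance, χ, hχ⟩

/-- `S₂(Γ₀(1)) = 0`: there is no residual modularity at level one. -/
theorem s59u_nh_not_resMod_one (W : WeierstrassCurve ℤ) (p : ℕ) :
    ¬ W.IsResiduallyModularOfLevel p 1 := by
  rintro ⟨f, 𝔪, hf, -⟩
  refine hf.ne_zero (Fermat.Agent.Lib.Level.cuspForm_eq_zero_of_sturm_eq_zero ?_ f)
  rw [Fermat.Agent.Lib.Level.index_Gamma0_one]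
  norm_num

/-- **[PATCH-min], flat case, in the shape of `s59g_HeckePt W p`, WITHOUT the hypothesis `hT23`**
(CORNER₅ way (A): the `Γ_H`-Eichler–Shimura input `s59u_S37H_of_lvlW` needs no prime `2`/`3` in the
level, so the level `M` itself is used; `M = 1` is excluded because `S₂(Γ₀(1)) = 0`). -/
theorem s59u_nh_e_Lmin_heckePt (p : ℕ) [Fact p.Prime] (hp35 : p = 3 ∨ p = 5) (hp5 : 5 ≤ p)
    (W : WeierstrassCurve ℤ) (hΔ : W.Δ ≠ 0) (hss : W.IsSemistableModel)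
    (hirr : W.ModRepIsIrreducible p) (hgoodp : W.IsGoodPrimeFor p)
    (M : ℕ) (hM0 : 0 < M) (hsq : Squarefree M) (hpM : ¬ p ∣ M)
    (hram : ∀ q : ℕ, q.Prime → q ≠ p → q ∣ M → ¬ s59_Unr W p q)
    (hbad : ∀ q : ℕ, q.Prime → q ≠ p → ¬ W.IsGoodPrimeFor q → ¬ s59_Unr W p q)
    (hres : W.IsResiduallyModularOfLevel p M) :
    ∃ (N : ℕ) (_ : NeZero N) (B : Finset ℕ) (𝒪 : Type) (_ : CommRing 𝒪) (_ : IsDomain 𝒪)
      (_ : CharZero 𝒪) (χ : CuspForm.heckeAlgebra N 2 (↑B : Set ℕ) →+* 𝒪),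
      ¬ p ^ 2 ∣ N ∧ (∀ q : ℕ, q.Prime → ¬ q ^ 3 ∣ N) ∧
      ∀ (ℓ : ℕ) (hℓ : ℓ.Prime) (hℓN : ¬ ℓ ∣ N) (hℓB : ℓ ∉ (↑B : Set ℕ)),
        χ (CuspForm.heckeAlgebra.T hℓ hℓN hℓB) = ((W.apOfModel ℓ : ℤ) : 𝒪) := by
  have hONE : 1 < M := by
    rcases Nat.lt_or_ge 1 M with h | h
    · exact h
    · have h1 : M = 1 := by omega
      subst h1
      exact absurd hres (s59u_nh_not_resMod_one W p)
  haveI : NeZero M := ⟨hM0.ne'⟩
  obtain ⟨B, 𝒪, i1, i2, i3, χ, hχ⟩ := s59u_nh_e_Lmin_flat p hp35 hp5 W hΔ hss hirr hgoodp M hsq hpM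
    hONE hres hbad fun q hq hqM => Or.inl (hram q hq (fun h => hpM (h ▸ hqM)) hqM)
  refine ⟨M, inferInstance, B, 𝒪, i1, i2, i3, χ, ?_, ?_, hχ⟩
  · exact fun h => hpM (dvd_trans (dvd_pow_self p two_ne_zero) h)
  · intro q hq h
    have h2 : q * q ∣ M := dvd_trans ⟨q, by ring⟩ h
    exact hq.not_isUnit (hsq q h2)

end Fermat.Agent.Lib.S59
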