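/-
PROGRAMME (R2) = S59, node [STRICT-p] (helper6, prefix `s59q_`): **the TYPED CONTRACTS** of the two halves
  (T1) [LOC-STRICT] : `A` noetherian local with finite residue field, `ρ : GaloisRepAdic A` with cyclotomic determinant,
                      ordinary at `p`, residually TRÈS RAMIFIÉ at `p`  ⟹  `ρ.IsStrictOrdinaryAt p`;
  (T2) [W-très]     : `W / ℤ` multiplicative at `p` with `p ∤ v_p(Δ_W)` (`¬ s59g_Peu W p`)  ⟹  the residual representation of
                      `ρ_W ⊗ 𝒪` is très ramifié at `p`.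

`s59q_TresAtP r p hp P hP` — the GALOIS FORM of "très ramifié" at a place `P ∣ p` of `ℚ̄`, for a residual representation `r`
over a field `k`: there are a basis `e₀, e₁` of `r.V`, a function `c : G_ℚ → k` with `τ e₁ = e₁ + c(τ) e₀` on the inertia group
`I_P`, and an additive character `μ : k → μ_p(ℚ̄)`, such that every Kummer generator of the crossed homomorphism
`μ ∘ c : I_P → μ_p` (`β ≠ 0`, `τ β = μ(c τ) β` for all `τ ∈ I_P`) has NON-INTEGRAL valuation (`v = ford_vQ P`, `v p = 1`).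
(For `ρ̄ = E[p]`, `E` a Tate curve with parameter `q`: `β = q^{1/p}`, `v β = v_p(Δ)/p`.)
-/
import Mathlib
import Fermat.Agent.Lib.Frey.OrdInertia
import Fermat.Prelude.Def_GaloisRep_StrictOrdinary

set_option autoImplicit false

noncomputable section

namespace Fermat.Agent.Lib.S59

open Fermat.Agent.Lib.Frey

local notation "Kb" => AlgebraicClosure ℚ
local notation "GQ" => (AlgebraicClosure ℚ ≃ₐ[ℚ] AlgebraicClosure ℚ)

/-- an additive character of `k` with values in the `p`-th roots of unity of `ℚ̄`. -/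
def s59q_IsAddChar {k : Type} [Add k] (p : ℕ) (μ : k → Kb) : Prop :=
  (∀ a b : k, μ (a + b) = μ a * μ b) ∧ ∀ a : k, μ a ^ p = 1

/-- **très ramifié at the place `P ∣ p`, Galois form.** -/
def s59q_TresAtP {k : Type} [Field k] (r : ResidualGaloisRep k) (p : ℕ) (hp : p.Prime)
    (P : ValuationSubring Kb) (hP : P.LiesOverPrime p) : Prop :=
  ∃ (e₀ e₁ : r.V) (c : GQ → k) (μ : k → Kb),
    LinearIndependent k ![e₀, e₁] ∧
    (∀ τ ∈ P.inertiaSubgroupIn ℚ, r.ρ τ e₁ = e₁ + c τ • e₀) ∧
    s59q_IsAddChar p μ ∧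
    ∀ β : Kb, β ≠ 0 → (∀ τ ∈ P.inertiaSubgroupIn ℚ, τ β = μ (c τ) * β) →
      ∀ n : ℤ, ford_vQ P hp hP β ≠ ((n : ℚ) : WithTop ℚ)

/-- **très ramifié at `p`** (at every place of `ℚ̄` over `p`). -/
def s59q_Tres {k : Type} [Field k] (r : ResidualGaloisRep k) (p : ℕ) (hp : p.Prime) : Prop :=
  ∀ (P : ValuationSubring Kb) (hP : P.LiesOverPrime p), s59q_TresAtP r p hp P hP

/-- **(T1) [LOC-STRICT], the contract**: ordinary + cyclotomic determinant + residually très ramifié ⟹ strictly ordinary. -/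
def s59q_LocStrict : Prop :=
  ∀ (A : Type) [CommRing A] [IsLocalRing A] [IsNoetherianRing A]
    [Finite (IsLocalRing.ResidueField A)] (ρ : GaloisRepAdic A) (p : ℕ) (hp : p.Prime),
    ρ.DetIsCyclotomic p → ρ.IsOrdinaryAt p → s59q_Tres ρ.residual p hp → ρ.IsStrictOrdinaryAt p

end Fermat.Agent.Lib.S59

end
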