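/-
PROGRAMME (R2) = S59, node [STRICT-p], half (T1) [LOC-STRICT] (helper6, prefix `s59q_`): **the abstract core over a FINITE local
ring `B`** (`pᴺ = 0` in `B`).

Data: functions `x z c : G_ℚ → B`, the entries of an upper triangular representation `σ ↦ [[x σ, c σ], [0, z σ]]` of the
decomposition group `D_P`, `z = 1` on the inertia group `I_P`, `x z = ε` (cyclotomic, mod `pᴺ`), `c` of finite level on `I_P`.
Hypothesis (très): an additive character `μ : B → μ_p(ℚ̄)` trivial on `𝔪_B` such that every `β ≠ 0` with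
`τ β = μ(c τ) β` (`τ ∈ I_P`) has non-integral valuation.  Conclusion: `z(φ)² = 1` for every `φ ∈ D_P`.

Proof (Kummer theory, no class field theory).  For a character `λ` of `(B, +)` the map `τ ↦ λ(c τ)` is a crossed homomorphism
`I_P → μ_{pᴺ} ⊂ ℚ̄ˣ`; Hilbert 90 (`ptg_hilbert90_open`) gives `b` with `τ b = λ(c τ) b`.  Conjugating by `φ ∈ D_P`:
`c(φ τ φ⁻¹) = (x φ / z φ) c(τ) + (1 − x τ) c(φ) / z(φ)`, while `φ⁻¹ b` is a Kummer generator of `τ ↦ φ⁻¹ λ(c(φ τ φ⁻¹))`.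
Comparing, `τ ↦ λ((z(φ)⁻² − 1) c τ)` has a Kummer generator of valuation `0`, for EVERY `λ` (`s59q_core_kummer`).  If
`u = z(φ)⁻² − 1 ≠ 0`, multiply it into the socle of `B` (`s59q_socle`) and extend `μ` from `a B ≅ B/𝔪` to a character of `B`
(`s59q_exists_char`): contradiction with (très).
-/
import Mathlib
import Fermat.Agent.Lib.S59.QStrictDefs
import Fermat.Agent.Lib.PT.BridgeL
import Fermat.Agent.Lib.PT.GLevelField
import Fermat.Agent.Lib.S56.RLocal
import Fermat.Agent.Lib.S59.XRestCl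
import Fermat.Agent.Lib.S37.Formal
import Fermat.Agent.Lib.Frey.ULevelVal

set_option autoImplicit false
set_option linter.unusedSectionVars false
set_option linter.unusedVariables false
set_option linter.style.haveILetI false

noncomputable section

namespace Fermat.Agent.Lib.S59

open Fermat.Agent.Lib.Frey Fermat.Agent.Lib.PT Fermat.Agent.Lib.S56 Fermat.Agent.Lib.S37 IsLocalRing

local notation "Kb" => AlgebraicClosure ℚ
local notation "GQ" => (AlgebraicClosure ℚ ≃ₐ[ℚ] AlgebraicClosure ℚ)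

/-- the inertia group is contained in the decomposition group. -/
theorem s59q_inertia_le_decomp (P : ValuationSubring Kb) :
    P.inertiaSubgroupIn ℚ ≤ P.decompositionSubgroup ℚ := by
  rintro _ ⟨τ, -, rfl⟩
  exact τ.2

/-! ### characters of `(B, +)` with values in `ℚ̄ˣ` -/

section Chars

variable {B : Type} [CommRing B]

/-- the value of a character of `(B, +)`. -/
def s59q_ev (lam : Multiplicative B →* Kbˣ) (t : B) : Kb :=
  ((lam (Multiplicative.ofAdd t) : Kbˣ) : Kb)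

theorem s59q_ev_add (lam : Multiplicative B →* Kbˣ) (s t : B) :
    s59q_ev lam (s + t) = s59q_ev lam s * s59q_ev lam t := by
  unfold s59q_ev
  rw [ofAdd_add, map_mul, Units.val_mul]

theorem s59q_ev_zero (lam : Multiplicative B →* Kbˣ) : s59q_ev lam 0 = 1 := by
  unfold s59q_ev
  rw [ofAdd_zero, map_one, Units.val_one]

theorem s59q_ev_ne_zero (lam : Multiplicative B →* Kbˣ) (t : B) : s59q_ev lam t ≠ 0 :=
  Units.ne_zero _

theorem s59q_ev_neg (lam : Multiplicative B →* Kbˣ) (t : B) :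
    s59q_ev lam (-t) = (s59q_ev lam t)⁻¹ :=
  eq_inv_of_mul_eq_one_left (by rw [← s59q_ev_add, neg_add_cancel, s59q_ev_zero])

theorem s59q_ev_sub (lam : Multiplicative B →* Kbˣ) (s t : B) :
    s59q_ev lam (s - t) = s59q_ev lam s / s59q_ev lam t := by
  rw [sub_eq_add_neg, s59q_ev_add, s59q_ev_neg, div_eq_mul_inv]

theorem s59q_ev_nat_mul (lam : Multiplicative B →* Kbˣ) (n : ℕ) (t : B) :
    s59q_ev lam ((n : B) * t) = s59q_ev lam t ^ n := by
  induction n with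
  | zero => rw [Nat.cast_zero, zero_mul, s59q_ev_zero, pow_zero]
  | succ n ih => rw [Nat.cast_succ, add_mul, one_mul, s59q_ev_add, ih, pow_succ]

theorem s59q_ev_pow_eq_one (lam : Multiplicative B →* Kbˣ) {M : ℕ} (hM : ((M : ℕ) : B) = 0)
    (t : B) : s59q_ev lam t ^ M = 1 := by
  rw [← s59q_ev_nat_mul, hM, zero_mul, s59q_ev_zero]

/-- the twist `λ · s : t ↦ λ(s t)`. -/
def s59q_tw (lam : Multiplicative B →* Kbˣ) (s : B) : Multiplicative B →* Kbˣ :=
  lam.comp (AddMonoidHom.toMultiplicative (AddMonoidHom.mulLeft s))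

theorem s59q_ev_tw (lam : Multiplicative B →* Kbˣ) (s t : B) :
    s59q_ev (s59q_tw lam s) t = s59q_ev lam (s * t) := rfl

/-- the Galois action on the values of a character: `σ = ^a` on `μ_M`. -/
theorem s59q_sigma_ev (lam : Multiplicative B →* Kbˣ) {M : ℕ} (hM : ((M : ℕ) : B) = 0)
    (σ : GQ) (a : ℕ) (ha : ∀ ζ : Kb, ζ ^ M = 1 → σ ζ = ζ ^ a) (t : B) :
    σ (s59q_ev lam t) = s59q_ev lam ((a : B) * t) := by
  rw [ha _ (s59q_ev_pow_eq_one lam hM t), s59q_ev_nat_mul]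

end Chars

/-! ### the socle of a finite local ring, extension of characters -/

section Finite

variable {B : Type} [CommRing B] [Finite B] [IsLocalRing B]

/-- every non-zero element of a finite local ring has a multiple which is non-zero and killed by the maximal ideal. -/
theorem s59q_socle (u : B) (hu : u ≠ 0) :
    ∃ s : B, s * u ≠ 0 ∧ ∀ m ∈ maximalIdeal B, m * (s * u) = 0 := by
  have hnil : IsNilpotent (maximalIdeal B) := by
    have h1 : IsNilpotent (Ideal.jacobson (⊥ : Ideal B)) := IsArtinianRing.isNilpotent_jacobson_bot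
    rwa [IsLocalRing.jacobson_eq_maximalIdeal (⊥ : Ideal B) bot_ne_top] at h1
  obtain ⟨n, hn⟩ := hnil
  have key : ∀ n : ℕ, (∀ s ∈ maximalIdeal B ^ n, s * u = 0) →
      ∃ s : B, s * u ≠ 0 ∧ ∀ m ∈ maximalIdeal B, m * (s * u) = 0 := by
    intro n
    induction n with
    | zero =>
      intro h
      exfalso
      apply hu
      have := h 1 (by rw [pow_zero, Ideal.one_eq_top]; exact Submodule.mem_top)
      rwa [one_mul] at this
    | succ n ih =>
      intro h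
      by_cases h' : ∀ s ∈ maximalIdeal B ^ n, s * u = 0
      · exact ih h'
      · push Not at h'
        obtain ⟨s, hs, hsu⟩ := h'
        refine ⟨s, hsu, fun m hm => ?_⟩
        rw [← mul_assoc]
        refine h (m * s) ?_
        rw [pow_succ']
        exact Ideal.mul_mem_mul hm hs
  refine key n (fun s hs => ?_)
  rw [hn] at hs
  have hs0 : s = 0 := by simpa using hs
  rw [hs0, zero_mul]

/-- **extension of characters**: if `a ≠ 0` is killed by `𝔪`, every additive character of `B` trivial on `𝔪` is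
`t ↦ λ(a t)` for a character `λ` of `(B, +)`. -/
theorem s59q_exists_char (a : B) (ha : a ≠ 0) (ha𝔪 : ∀ m ∈ maximalIdeal B, m * a = 0)
    (μ : B → Kb) (hμadd : ∀ s t : B, μ (s + t) = μ s * μ t) (hμ0 : ∀ t : B, μ t ≠ 0)
    (hμ𝔪 : ∀ t ∈ maximalIdeal B, μ t = 1) :
    ∃ lam : Multiplicative B →* Kbˣ, ∀ t : B, s59q_ev lam (a * t) = μ t := by
  classical
  -- `μ` as a homomorphism
  have hμz : μ 0 = 1 := by
    have h := hμadd 0 0
    rw [add_zero] at h
    have h0 := hμ0 0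
    field_simp at h
    exact h.symm
  let μ' : Multiplicative B →* Kbˣ :=
    { toFun := fun t => Units.mk0 (μ (Multiplicative.toAdd t)) (hμ0 _)
      map_one' := by
        apply Units.ext
        rw [Units.val_mk0, toAdd_one, hμz, Units.val_one]
      map_mul' := fun s t => by
        apply Units.ext
        rw [Units.val_mul, Units.val_mk0, Units.val_mk0, Units.val_mk0, toAdd_mul, hμadd] }
  let f : Multiplicative B →* Multiplicative B :=
    AddMonoidHom.toMultiplicative (AddMonoidHom.mulLeft a)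
  have hf : ∀ t : B, f (Multiplicative.ofAdd t) = Multiplicative.ofAdd (a * t) := fun t => rfl
  have hker : f.rangeRestrict.ker ≤ μ'.ker := by
    intro t ht
    rw [MonoidHom.mem_ker] at ht ⊢
    have h1 : f t = 1 := by
      have := congrArg Subtype.val ht
      simpa using this
    have h2 : a * Multiplicative.toAdd t = 0 := by
      have h3 : f (Multiplicative.ofAdd (Multiplicative.toAdd t)) = 1 := h1
      rw [hf] at h3
      exact h3
    have h4 : Multiplicative.toAdd t ∈ maximalIdeal B := by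
      rw [mem_maximalIdeal, mem_nonunits_iff]
      intro hunit
      apply ha
      obtain ⟨w, hw⟩ := hunit.exists_right_inv
      calc a = a * (Multiplicative.toAdd t * w) := by rw [hw, mul_one]
        _ = (a * Multiplicative.toAdd t) * w := by ring
        _ = 0 := by rw [h2, zero_mul]
    apply Units.ext
    show μ (Multiplicative.toAdd t) = 1
    exact hμ𝔪 _ h4
  have hsurj : Function.Surjective f.rangeRestrict := f.rangeRestrict_surjective
  let χ : f.range →* Kbˣ :=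
    (f.rangeRestrict.liftOfRightInverse (Function.surjInv hsurj)
      (Function.rightInverse_surjInv hsurj)) ⟨μ', hker⟩
  have hχ : ∀ t : Multiplicative B, χ (f.rangeRestrict t) = μ' t := fun t =>
    MonoidHom.liftOfRightInverse_comp_apply _ _ _ ⟨μ', hker⟩ t
  haveI : NeZero (Monoid.exponent (Multiplicative B)) := ⟨Monoid.exponent_ne_zero_of_finite⟩
  haveI : NeZero ((Monoid.exponent (Multiplicative B) : ℕ) : ℚ) :=
    ⟨Nat.cast_ne_zero.mpr Monoid.exponent_ne_zero_of_finite⟩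
  obtain ⟨lam, hlam⟩ := MonoidHom.domRestrict_surjective (M := Kb) f.range χ
  refine ⟨lam, fun t => ?_⟩
  have h1 : lam (f (Multiplicative.ofAdd t)) = χ (f.rangeRestrict (Multiplicative.ofAdd t)) := by
    rw [← hlam]
    rfl
  show ((lam (Multiplicative.ofAdd (a * t)) : Kbˣ) : Kb) = μ t
  rw [← hf, h1, hχ]
  rfl

end Finite

/-! ### the Kummer generators -/

section Core

variable {p : ℕ} (hp : p.Prime) (P : ValuationSubring Kb) (hP : P.LiesOverPrime p)
  {B : Type} [CommRing B]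

/-- the entries `x, z, c` of an upper triangular representation of `D_P` over `B`, `z = 1` on `I_P`, `x z = ε` modulo `pᴺ`,
`c` of finite level on `I_P`. -/
structure s59q_TriData (p : ℕ) (P : ValuationSubring Kb) (N : ℕ) (x z c : GQ → B) : Prop where
  hx1 : x 1 = 1
  hz1 : z 1 = 1
  hx : ∀ σ ∈ P.decompositionSubgroup ℚ, ∀ τ ∈ P.decompositionSubgroup ℚ, x (σ * τ) = x σ * x τ
  hz : ∀ σ ∈ P.decompositionSubgroup ℚ, ∀ τ ∈ P.decompositionSubgroup ℚ, z (σ * τ) = z σ * z τ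
  hc : ∀ σ ∈ P.decompositionSubgroup ℚ, ∀ τ ∈ P.decompositionSubgroup ℚ,
    c (σ * τ) = z τ * c σ + x σ * c τ
  hzI : ∀ τ ∈ P.inertiaSubgroupIn ℚ, z τ = 1
  hcyc : ∀ σ ∈ P.decompositionSubgroup ℚ, ∀ a : ℕ,
    (∀ ζ : Kb, ζ ^ p ^ N = 1 → σ ζ = ζ ^ a) → x σ * z σ = (a : B)
  hlev : ∃ F : IntermediateField ℚ Kb, FiniteDimensional ℚ F ∧
    ∀ τ ∈ P.inertiaSubgroupIn ℚ, τ ∈ F.fixingSubgroup → c τ = 0

variable {N : ℕ} {x z c : GQ → B}

theorem s59q_TriData.z_inv (T : s59q_TriData p P N x z c) {φ : GQ}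
    (hφ : φ ∈ P.decompositionSubgroup ℚ) : z φ * z φ⁻¹ = 1 := by
  rw [← T.hz φ hφ φ⁻¹ (inv_mem hφ), mul_inv_cancel, T.hz1]

theorem s59q_TriData.x_inv (T : s59q_TriData p P N x z c) {φ : GQ}
    (hφ : φ ∈ P.decompositionSubgroup ℚ) : x φ * x φ⁻¹ = 1 := by
  rw [← T.hx φ hφ φ⁻¹ (inv_mem hφ), mul_inv_cancel, T.hx1]

/-- on inertia, `x τ` is the cyclotomic exponent. -/
theorem s59q_TriData.x_inertia (T : s59q_TriData p P N x z c) {τ : GQ}
    (hτ : τ ∈ P.inertiaSubgroupIn ℚ) (a : ℕ) (ha : ∀ ζ : Kb, ζ ^ p ^ N = 1 → τ ζ = ζ ^ a) :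
    x τ = (a : B) := by
  have h := T.hcyc τ (s59q_inertia_le_decomp P hτ) a ha
  rwa [T.hzI τ hτ, mul_one] at h

/-- the conjugation formula. -/
theorem s59q_TriData.c_conj (T : s59q_TriData p P N x z c) {φ τ : GQ}
    (hφ : φ ∈ P.decompositionSubgroup ℚ) (hτ : τ ∈ P.inertiaSubgroupIn ℚ) :
    c (φ * τ * φ⁻¹) = x φ * z φ⁻¹ * c τ + (1 - x τ) * (c φ * z φ⁻¹) := by
  have hτD : τ ∈ P.decompositionSubgroup ℚ := s59q_inertia_le_decomp P hτ
  have hφi : φ⁻¹ ∈ P.decompositionSubgroup ℚ := inv_mem hφ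
  have hconjD : φ * τ * φ⁻¹ ∈ P.decompositionSubgroup ℚ := mul_mem (mul_mem hφ hτD) hφi
  have e1 : c (φ * τ) = c φ + x φ * c τ := by
    rw [T.hc φ hφ τ hτD, T.hzI τ hτ, one_mul]
  have e2 : c (φ * τ) = z φ * c (φ * τ * φ⁻¹) + x (φ * τ * φ⁻¹) * c φ := by
    have hg : φ * τ = (φ * τ * φ⁻¹) * φ := by group
    conv_lhs => rw [hg]
    exact T.hc _ hconjD φ hφ
  have e3 : x (φ * τ * φ⁻¹) = x τ := by
    rw [T.hx _ (mul_mem hφ hτD) _ hφi, T.hx φ hφ τ hτD]
    have := T.x_inv P hφ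
    linear_combination (x τ) * this
  have hz := T.z_inv P hφ
  rw [e3] at e2
  have e4 : z φ * c (φ * τ * φ⁻¹) = c φ + x φ * c τ - x τ * c φ := by
    linear_combination e1 - e2
  calc c (φ * τ * φ⁻¹) = (z φ * z φ⁻¹) * c (φ * τ * φ⁻¹) := by rw [hz, one_mul]
    _ = z φ⁻¹ * (z φ * c (φ * τ * φ⁻¹)) := by ring
    _ = z φ⁻¹ * (c φ + x φ * c τ - x τ * c φ) := by rw [e4]
    _ = _ := by ring

include hp hP in
/-- **Hilbert 90**: every character `κ` of `(B, +)` composed with `c` has a Kummer generator on `I_P`. -/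
theorem s59q_exists_gen (T : s59q_TriData p P N x z c) (hpN : ((p ^ N : ℕ) : B) = 0)
    (κ : Multiplicative B →* Kbˣ) :
    ∃ b : Kb, b ≠ 0 ∧ ∀ τ ∈ P.inertiaSubgroupIn ℚ, τ b = s59q_ev κ (c τ) * b := by
  obtain ⟨F, hFfd, hF⟩ := T.hlev
  haveI := hFfd
  haveI : F.fixingSubgroup.FiniteIndex := pta_finiteIndex_fixingSubgroup F
  have hpos : 0 < p ^ N := pow_pos hp.pos N
  let U : Subgroup GQ := P.inertiaSubgroupIn ℚ
  let f : U → Kbˣ := fun g => κ (Multiplicative.ofAdd (c (g : GQ)))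
  obtain ⟨b, hb⟩ := ptg_hilbert90_open F U f
    (fun g h => by
      apply Units.ext
      rw [Units.val_mul, AlgEquiv.smul_units_def]
      show s59q_ev κ (c ((g : GQ) * (h : GQ))) = (g : GQ) (s59q_ev κ (c (h : GQ))) *
        s59q_ev κ (c (g : GQ))
      obtain ⟨a, ha⟩ := s59x_exists_exp (p ^ N) hpos (g : GQ)
      rw [s59q_sigma_ev κ hpN (g : GQ) a ha,
        T.hc g (s59q_inertia_le_decomp P g.2) h (s59q_inertia_le_decomp P h.2),
        T.hzI h h.2, one_mul, T.x_inertia P g.2 a ha, s59q_ev_add, mul_comm])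
    (fun g n hn => by
      apply Units.ext
      show s59q_ev κ (c ((g : GQ) * (n : GQ))) = s59q_ev κ (c (g : GQ))
      rw [T.hc g (s59q_inertia_le_decomp P g.2) n (s59q_inertia_le_decomp P n.2),
        T.hzI n n.2, one_mul, hF n n.2 hn, mul_zero, add_zero])
  refine ⟨(b : Kb), b.ne_zero, fun τ hτ => ?_⟩
  have h1 := hb ⟨τ, hτ⟩
  have h2 := congrArg (fun w : Kbˣ => (w : Kb)) h1
  simp only [f, Units.val_div_eq_div_val, AlgEquiv.smul_units_def] at h2
  have h3 : s59q_ev κ (c τ) = τ (b : Kb) / (b : Kb) := h2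
  rw [h3, div_mul_cancel₀ _ b.ne_zero]

include hp hP in
/-- **the key step**: for `φ ∈ D_P` and EVERY character `λ`, the crossed homomorphism
`τ ↦ λ((z(φ⁻¹)² − 1) c τ)` of `I_P` has a Kummer generator of valuation `0`. -/
theorem s59q_core_kummer (T : s59q_TriData p P N x z c) (hpN : ((p ^ N : ℕ) : B) = 0)
    {φ : GQ} (hφ : φ ∈ P.decompositionSubgroup ℚ) (lam : Multiplicative B →* Kbˣ) :
    ∃ β : Kb, β ≠ 0 ∧ ford_vQ P hp hP β = 0 ∧
      ∀ τ ∈ P.inertiaSubgroupIn ℚ, τ β = s59q_ev lam ((z φ⁻¹ ^ 2 - 1) * c τ) * β := by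
  set v := ford_vQ P hp hP with hv
  have hpos : 0 < p ^ N := pow_pos hp.pos N
  have hφi : φ⁻¹ ∈ P.decompositionSubgroup ℚ := inv_mem hφ
  obtain ⟨a, ha⟩ := s59x_exists_exp (p ^ N) hpos φ
  have hxz : x φ * z φ = (a : B) := T.hcyc φ hφ a ha
  have hzi := T.z_inv P hφ
  have hxi := T.x_inv P hφ
  set ι : B := x φ⁻¹ * z φ⁻¹ with hι
  have hιa : ι * (a : B) = 1 := by
    rw [← hxz, hι]
    linear_combination (z φ * z φ⁻¹) * hxi + hzi
  set κ := s59q_tw lam ι with hκ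
  obtain ⟨b, hb0, hb⟩ := s59q_exists_gen hp P hP T hpN κ
  -- the conjugate generator
  set β₁ : Kb := φ⁻¹ b with hβ₁
  have hβ₁0 : β₁ ≠ 0 := by
    rw [hβ₁]
    exact (map_ne_zero _).mpr hb0
  have hφβ₁ : ∀ y : Kb, φ (φ⁻¹ y) = y := fun y => by
    rw [← AlgEquiv.mul_apply, mul_inv_cancel, AlgEquiv.one_apply]
  set w : B := c φ * z φ⁻¹ with hw
  set ξw : Kb := s59q_ev κ w with hξw
  have hξw0 : ξw ≠ 0 := s59q_ev_ne_zero κ w
  set θ : B := x φ * z φ⁻¹ with hθ
  -- `τ (β₁ ^ a) = κ(c(φ τ φ⁻¹)) β₁ ^ a`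
  have h1 : ∀ τ ∈ P.inertiaSubgroupIn ℚ,
      τ (β₁ ^ a) = s59q_ev κ (c (φ * τ * φ⁻¹)) * β₁ ^ a := by
    intro τ hτ
    have hconj : φ * τ * φ⁻¹ ∈ P.inertiaSubgroupIn ℚ := s37f_conj_mem_inertiaSubgroupIn P hφ hτ
    set ξ : Kb := s59q_ev κ (c (φ * τ * φ⁻¹)) with hξ
    have e1 : τ β₁ = φ⁻¹ ξ * β₁ := by
      have e2 : τ β₁ = φ⁻¹ ((φ * τ * φ⁻¹) b) := by
        rw [hβ₁, ← AlgEquiv.mul_apply, ← AlgEquiv.mul_apply]
        congr 1
        group
      rw [e2, hb _ hconj, map_mul]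
    have e3 : (φ⁻¹ ξ) ^ a = ξ := by
      have e4 : (φ⁻¹ ξ) ^ (p ^ N) = 1 := by
        rw [← map_pow, hξ, s59q_ev_pow_eq_one κ hpN, map_one]
      rw [← ha _ e4, hφβ₁]
    rw [map_pow, e1, mul_pow, e3]
  -- the generator of `κ · θ`
  have h2 : ∀ τ ∈ P.inertiaSubgroupIn ℚ,
      τ (β₁ ^ a * ξw) = s59q_ev κ (θ * c τ) * (β₁ ^ a * ξw) := by
    intro τ hτ
    obtain ⟨aτ, haτ⟩ := s59x_exists_exp (p ^ N) hpos τ
    have hxτ : x τ = (aτ : B) := T.x_inertia P hτ aτ haτ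
    have e1 : τ ξw = ξw ^ aτ := haτ _ (s59q_ev_pow_eq_one κ hpN w)
    have e2 : s59q_ev κ (c (φ * τ * φ⁻¹)) = s59q_ev κ (θ * c τ) * ξw / ξw ^ aτ := by
      rw [T.c_conj P hφ hτ, hxτ, ← hθ, ← hw]
      have e3 : θ * c τ + (1 - (aτ : B)) * w = θ * c τ + w - (aτ : B) * w := by ring
      rw [e3, s59q_ev_sub, s59q_ev_add, s59q_ev_nat_mul]
    rw [map_mul, h1 τ hτ, e1, e2]
    have : ξw ^ aτ ≠ 0 := pow_ne_zero _ hξw0
    field_simp
  -- the generator of `κ · a`
  have h3 : ∀ τ ∈ P.inertiaSubgroupIn ℚ, τ (b ^ a) = s59q_ev κ ((a : B) * c τ) * b ^ a := by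
    intro τ hτ
    rw [map_pow, hb τ hτ, mul_pow, s59q_ev_nat_mul]
  have hba0 : b ^ a ≠ 0 := pow_ne_zero _ hb0
  refine ⟨β₁ ^ a * ξw / b ^ a, div_ne_zero (mul_ne_zero (pow_ne_zero _ hβ₁0) hξw0) hba0, ?_, ?_⟩
  · -- the valuation
    have hvβ₁ : v β₁ = v b := by
      rw [hβ₁, hv]
      exact ford_vQ_decomposition hp hP φ⁻¹ hφi b
    have hvξ : v ξw = 0 := by
      have h4 : ξw ^ (p ^ N) = 1 := s59q_ev_pow_eq_one κ hpN w
      have h5 := congrArg v h4
      rw [AddValuation.map_pow, AddValuation.map_one] at h5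
      obtain ⟨r, hr⟩ := fuc_exists_ex v hξw0
      rw [hr, ← WithTop.coe_nsmul] at h5
      have h6 : (p ^ N) • r = 0 := by exact_mod_cast h5
      rw [nsmul_eq_mul] at h6
      have h7 : ((p ^ N : ℕ) : ℚ) ≠ 0 := by exact_mod_cast hpos.ne'
      have h8 : r = 0 := by
        rcases mul_eq_zero.mp h6 with h | h
        · exact absurd h h7
        · exact h
      rw [hr, h8]
      rfl
    obtain ⟨r, hr⟩ := fuc_exists_ex v hb0
    have h4 : v (b ^ a) = (((a : ℚ) * r : ℚ) : WithTop ℚ) := by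
      rw [AddValuation.map_pow, hr, ← WithTop.coe_nsmul, nsmul_eq_mul]
    have h5 : v (β₁ ^ a * ξw) = (((a : ℚ) * r : ℚ) : WithTop ℚ) := by
      rw [AddValuation.map_mul, AddValuation.map_pow, hvβ₁, hr, hvξ, add_zero,
        ← WithTop.coe_nsmul, nsmul_eq_mul]
    have h6 : v (β₁ ^ a * ξw / b ^ a * b ^ a) = (((a : ℚ) * r : ℚ) : WithTop ℚ) := by
      rw [div_mul_cancel₀ _ hba0, h5]
    have h7 := fuc_ex_of_mul v h6 h4
    rw [h7, sub_self]
    rfl
  · intro τ hτ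
    rw [map_div₀, h2 τ hτ, h3 τ hτ]
    have e1 : s59q_ev lam ((z φ⁻¹ ^ 2 - 1) * c τ) =
        s59q_ev κ (θ * c τ) / s59q_ev κ ((a : B) * c τ) := by
      rw [← s59q_ev_sub, hκ, s59q_ev_tw]
      congr 1
      rw [hθ, hι]
      linear_combination (c τ) * hιa - (z φ⁻¹ ^ 2 * c τ) * hxi
    rw [e1]
    have h4 : s59q_ev κ ((a : B) * c τ) ≠ 0 := s59q_ev_ne_zero κ _
    field_simp

end Core

/-! ### the core theorem -/

section Main

variable {p : ℕ} (hp : p.Prime) (P : ValuationSubring Kb) (hP : P.LiesOverPrime p)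
  {B : Type} [CommRing B] [Finite B] [IsLocalRing B]

include hp hP in
/-- **(T1), the abstract core**: très ramifié residually ⟹ `z² = 1` on the decomposition group. -/
theorem s59q_strict_core {N : ℕ} {x z c : GQ → B} (T : s59q_TriData p P N x z c)
    (hpN : ((p ^ N : ℕ) : B) = 0)
    (μ : B → Kb) (hμ : s59q_IsAddChar p μ) (hμ𝔪 : ∀ t ∈ maximalIdeal B, μ t = 1)
    (htres : ∀ β : Kb, β ≠ 0 → (∀ τ ∈ P.inertiaSubgroupIn ℚ, τ β = μ (c τ) * β) →
      ∀ n : ℤ, ford_vQ P hp hP β ≠ ((n : ℚ) : WithTop ℚ))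
    {φ : GQ} (hφ : φ ∈ P.decompositionSubgroup ℚ) : z φ ^ 2 = 1 := by
  by_contra hne
  have hu : z φ ^ 2 - 1 ≠ 0 := sub_ne_zero.mpr hne
  obtain ⟨s, hsu, hs𝔪⟩ := s59q_socle (z φ ^ 2 - 1) hu
  have hμ0 : ∀ t : B, μ t ≠ 0 := by
    intro t h0
    have := hμ.2 t
    rw [h0, zero_pow hp.ne_zero] at this
    exact zero_ne_one this
  obtain ⟨lam, hlam⟩ := s59q_exists_char (s * (z φ ^ 2 - 1)) hsu hs𝔪 μ hμ.1 hμ0 hμ𝔪
  obtain ⟨β, hβ0, hvβ, hβ⟩ := s59q_core_kummer hp P hP T hpN (inv_mem hφ) (s59q_tw lam s)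
  refine htres β hβ0 (fun τ hτ => ?_) 0 (by rw [hvβ]; rfl)
  rw [hβ τ hτ, inv_inv, s59q_ev_tw, ← mul_assoc, hlam]

end Main

end Fermat.Agent.Lib.S59

end
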