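/-
PROGRAMME (R2) = S59, node [STRICT-p], half (T1) [LOC-STRICT] (helper6, prefix `s59q_`): **the reduction to the abstract core**
(`QStrictCore.lean`) and the theorem `s59q_locStrict : s59q_LocStrict` (`QStrictDefs.lean`):

  `A` noetherian local with finite residue field, `ρ : GaloisRepAdic A`, `DetIsCyclotomic p`, `IsOrdinaryAt p`,
  `ρ.residual` très ramifié at `p` (Galois form `s59q_Tres`)   ⟹   `ρ.IsStrictOrdinaryAt p`.

At a place `P ∣ p`: the ordinary line `L = A b₀` gives the matrix entries `x, z, c : G_ℚ → A` of `ρ` in the basis `b`; pushed to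
the finite local rings `A/𝔪ⁿ⁺¹` they are data `s59q_TriData` for the core; the très datum of `ρ.residual` (ANY admissible basis
`e₀, e₁`) is converted to the basis `1 ⊗ b₀, 1 ⊗ b₁` (`s59q_tres_change`: the line is unique, the cocycles differ by a scalar and a
coboundary); the core gives `z(σ)² ≡ 1` modulo every `𝔪ⁿ⁺¹`, hence `z(σ)² = 1` (Krull), hence `x − a z = z (x z − a) ∈ (pⁿ)`.
-/
import Mathlib
import Fermat.Agent.Lib.S59.QStrictCore

set_option autoImplicit false
set_option linter.unusedSectionVars false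
set_option linter.unusedVariables false
set_option linter.style.haveILetI false
set_option maxHeartbeats 1000000

noncomputable section

namespace Fermat.Agent.Lib.S59

open Fermat.Agent.Lib.Frey Fermat.Agent.Lib.PT Fermat.Agent.Lib.S56 IsLocalRing TensorProduct

local notation "Kb" => AlgebraicClosure ℚ
local notation "GQ" => (AlgebraicClosure ℚ ≃ₐ[ℚ] AlgebraicClosure ℚ)

/-! ### small tools -/

/-- roots of unity have valuation `0`. -/
theorem s59q_val_root_of_unity (v : AddValuation Kb (WithTop ℚ)) {M : ℕ} (hM : 0 < M) {ξ : Kb}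
    (h : ξ ^ M = 1) : v ξ = 0 := by
  have hξ0 : ξ ≠ 0 := by
    rintro rfl
    rw [zero_pow hM.ne'] at h
    exact zero_ne_one h
  have h5 := congrArg v h
  rw [AddValuation.map_pow, AddValuation.map_one] at h5
  obtain ⟨r, hr⟩ := fuc_exists_ex v hξ0
  rw [hr, ← WithTop.coe_nsmul] at h5
  have h6 : M • r = 0 := by exact_mod_cast h5
  rw [nsmul_eq_mul] at h6
  have h7 : ((M : ℕ) : ℚ) ≠ 0 := by exact_mod_cast hM.ne'
  have h8 : r = 0 := by
    rcases mul_eq_zero.mp h6 with h | h
    · exact absurd h h7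
    · exact h
  rw [hr, h8]
  rfl

section Coord

variable {R : Type} [CommRing R] {V : Type} [AddCommGroup V] [Module R V]
  (b : Module.Basis (Fin 2) R V)

theorem s59q_repr_comb (a₀ a₁ : R) :
    b.repr (a₀ • b 0 + a₁ • b 1) 0 = a₀ ∧ b.repr (a₀ • b 0 + a₁ • b 1) 1 = a₁ := by
  constructor <;>
  simp [Module.Basis.repr_self]

theorem s59q_eq_comb (w : V) : w = b.repr w 0 • b 0 + b.repr w 1 • b 1 := by
  conv_lhs => rw [← b.sum_repr w]
  rw [Fin.sum_univ_two]

/-- coordinates of elements of `J • ⊤` lie in `J`. -/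
theorem s59q_repr_mem_of_mem_smul (J : Ideal R) {w : V} (hw : w ∈ J • (⊤ : Submodule R V))
    (i : Fin 2) : b.repr w i ∈ J := by
  refine Submodule.smul_induction_on (p := fun w => b.repr w i ∈ J) hw ?_ ?_
  · intro a ha u _
    rw [map_smul, Finsupp.smul_apply, smul_eq_mul]
    exact Ideal.mul_mem_right _ _ ha
  · intro u u' hu hu'
    rw [map_add, Finsupp.add_apply]
    exact Ideal.add_mem _ hu hu'

end Coord

/-! ### the change of admissible basis, residually -/

section Change

variable {p : ℕ} (hp : p.Prime) (P : ValuationSubring Kb) (hP : P.LiesOverPrime p)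
  {k : Type} [Field k] {Vb : Type} [AddCommGroup Vb] [Module k Vb]

include hp hP in
/-- **uniqueness of the très datum**: a très datum `(e₀, e₁, c', μ')` of a two-dimensional representation whose restriction to
`I_P` is `[[x̄, c̄], [0, 1]]` in a basis `ē` (with `x̄` the cyclotomic character mod `p`) gives a très datum for `c̄`. -/
theorem s59q_tres_change (R : GQ → Module.End k Vb) (eb : Module.Basis (Fin 2) k Vb)
    (xb cb : GQ → k)
    (h0 : ∀ τ ∈ P.inertiaSubgroupIn ℚ, R τ (eb 0) = xb τ • eb 0)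
    (h1 : ∀ τ ∈ P.inertiaSubgroupIn ℚ, R τ (eb 1) = cb τ • eb 0 + eb 1)
    (hcyc : ∀ τ ∈ P.inertiaSubgroupIn ℚ, ∀ a : ℕ, (∀ ζ : Kb, ζ ^ p = 1 → τ ζ = ζ ^ a) →
      xb τ = (a : k))
    (e₀ e₁ : Vb) (c' : GQ → k) (μ' : k → Kb) (hli : LinearIndependent k ![e₀, e₁])
    (hc' : ∀ τ ∈ P.inertiaSubgroupIn ℚ, R τ e₁ = e₁ + c' τ • e₀) (hμ' : s59q_IsAddChar p μ')
    (htres : ∀ β : Kb, β ≠ 0 → (∀ τ ∈ P.inertiaSubgroupIn ℚ, τ β = μ' (c' τ) * β) →
      ∀ n : ℤ, ford_vQ P hp hP β ≠ ((n : ℚ) : WithTop ℚ)) :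
    ∃ μ : k → Kb, s59q_IsAddChar p μ ∧
      ∀ β : Kb, β ≠ 0 → (∀ τ ∈ P.inertiaSubgroupIn ℚ, τ β = μ (cb τ) * β) →
        ∀ n : ℤ, ford_vQ P hp hP β ≠ ((n : ℚ) : WithTop ℚ) := by
  set v := ford_vQ P hp hP with hv
  have hμ'ne : ∀ t : k, μ' t ≠ 0 := by
    intro t h0
    have := hμ'.2 t
    rw [h0, zero_pow hp.ne_zero] at this
    exact zero_ne_one this
  have hμ'0 : μ' 0 = 1 := by
    have h := hμ'.1 0 0
    rw [add_zero] at h
    have h0 := hμ'ne 0
    field_simp at h
    exact h.symm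
  have hμ'nat : ∀ (n : ℕ) (t : k), μ' ((n : k) * t) = μ' t ^ n := by
    intro n t
    induction n with
    | zero => rw [Nat.cast_zero, zero_mul, hμ'0, pow_zero]
    | succ n ih => rw [Nat.cast_succ, add_mul, one_mul, hμ'.1, ih, pow_succ]
  -- `c'` does not vanish on inertia
  have hτ₁ : ∃ τ₁ ∈ P.inertiaSubgroupIn ℚ, c' τ₁ ≠ 0 := by
    by_contra hcon
    push Not at hcon
    refine htres 1 one_ne_zero (fun τ hτ => ?_) 0 ?_
    · rw [map_one, hcon τ hτ, hμ'0, one_mul]
    · rw [AddValuation.map_one]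
      rfl
  obtain ⟨τ₁, hτ₁I, hτ₁⟩ := hτ₁
  -- coordinates
  set α₀ := eb.repr e₀ 0 with hα₀
  set γ₀ := eb.repr e₀ 1 with hγ₀
  set α := eb.repr e₁ 0 with hα
  set γ := eb.repr e₁ 1 with hγ
  have he₀ : e₀ = α₀ • eb 0 + γ₀ • eb 1 := s59q_eq_comb eb e₀
  have he₁ : e₁ = α • eb 0 + γ • eb 1 := s59q_eq_comb eb e₁
  have hrel : ∀ τ ∈ P.inertiaSubgroupIn ℚ,
      c' τ * γ₀ = 0 ∧ α * xb τ + γ * cb τ = α + c' τ * α₀ := by
    intro τ hτ
    have e1 : R τ e₁ = (α * xb τ + γ * cb τ) • eb 0 + γ • eb 1 := by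
      conv_lhs => rw [he₁]
      rw [map_add, map_smul, map_smul, h0 τ hτ, h1 τ hτ]
      module
    have e2 : e₁ + c' τ • e₀ = (α + c' τ * α₀) • eb 0 + (γ + c' τ * γ₀) • eb 1 := by
      conv_lhs => rw [he₀, he₁]
      module
    have e3 := (hc' τ hτ).symm.trans e1
    rw [e2] at e3
    have c0 := congrArg (fun w => eb.repr w 0) e3
    have c1 := congrArg (fun w => eb.repr w 1) e3
    simp only [(s59q_repr_comb eb _ _).1, (s59q_repr_comb eb _ _).2] at c0 c1
    constructor
    · linear_combination c1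
    · exact c0.symm
  have hγ₀0 : γ₀ = 0 := by
    rcases mul_eq_zero.mp (hrel τ₁ hτ₁I).1 with h | h
    · exact absurd h hτ₁
    · exact h
  have hpair := LinearIndependent.pair_iff.mp hli
  have hα₀0 : α₀ ≠ 0 := by
    intro h
    have : e₀ = 0 := by rw [he₀, h, hγ₀0, zero_smul, zero_smul, add_zero]
    have h2 := hpair 1 0 (by rw [this, smul_zero, zero_smul, add_zero])
    exact one_ne_zero h2.1
  have hγ0 : γ ≠ 0 := by
    intro h
    have h2 := hpair α (-α₀) (by
      rw [he₀, he₁, h, hγ₀0]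
      module)
    exact hα₀0 (neg_eq_zero.mp h2.2)
  -- the character
  refine ⟨fun t => μ' (α₀⁻¹ * γ * t), ⟨fun s t => ?_, fun t => hμ'.2 _⟩, ?_⟩
  · show μ' (α₀⁻¹ * γ * (s + t)) = μ' (α₀⁻¹ * γ * s) * μ' (α₀⁻¹ * γ * t)
    rw [mul_add, hμ'.1]
  · intro β hβ0 hβ n hn
    set s : k := α₀⁻¹ * α with hs
    refine htres (β * μ' s) (mul_ne_zero hβ0 (hμ'ne s)) (fun τ hτ => ?_) n ?_
    · obtain ⟨a, ha⟩ := s59x_exists_exp p hp.pos τ
      have hxa : xb τ = (a : k) := hcyc τ hτ a ha
      have e1 : τ (μ' s) = μ' ((a : k) * s) := by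
        rw [ha _ (hμ'.2 s), hμ'nat]
      have e2 : c' τ + s = α₀⁻¹ * γ * cb τ + (a : k) * s := by
        have h2 := (hrel τ hτ).2
        rw [hxa] at h2
        rw [hs]
        field_simp
        linear_combination (-1 : k) * h2
      rw [map_mul, hβ τ hτ, e1]
      show μ' (α₀⁻¹ * γ * cb τ) * β * μ' ((a : k) * s) = μ' (c' τ) * (β * μ' s)
      have e3 : μ' (c' τ) * μ' s = μ' (α₀⁻¹ * γ * cb τ) * μ' ((a : k) * s) := by
        rw [← hμ'.1, ← hμ'.1, e2]
      linear_combination (-β) * e3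
    · rw [AddValuation.map_mul, s59q_val_root_of_unity (ford_vQ P hp hP) hp.pos (hμ'.2 s),
        add_zero]
      exact hn

end Change

/-! ### the theorem -/

section Main

variable {A : Type} [CommRing A] [IsLocalRing A] [IsNoetherianRing A]
  [Finite (ResidueField A)]

/-- **(T1) [LOC-STRICT]**: ordinary + cyclotomic determinant + residually très ramifié ⟹ strictly ordinary. -/
theorem s59q_locStrict_aux (ρ : GaloisRepAdic A) (p : ℕ) (hp : p.Prime)
    (hdet : ρ.DetIsCyclotomic p) (hord : ρ.IsOrdinaryAt p)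
    (htres : s59q_Tres ρ.residual p hp) : ρ.IsStrictOrdinaryAt p := by
  classical
  have hpA : (p : A) ∈ maximalIdeal A := hdet.1
  refine ⟨hpA, fun P hP => ?_⟩
  obtain ⟨L, ⟨b, hL⟩, hD, hI⟩ := hord P hP
  refine ⟨L, ⟨b, hL⟩, hD, hI, ?_⟩
  -- the matrix entries
  set x : GQ → A := fun σ => b.repr (ρ.ρ σ (b 0)) 0 with hx
  set z : GQ → A := fun σ => b.repr (ρ.ρ σ (b 1)) 1 with hz
  set c : GQ → A := fun σ => b.repr (ρ.ρ σ (b 1)) 0 with hc
  have hb0L : b 0 ∈ L := by
    rw [hL]
    exact Submodule.mem_span_singleton_self _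
  have hcol0 : ∀ σ ∈ P.decompositionSubgroup ℚ, ρ.ρ σ (b 0) = x σ • b 0 := by
    intro σ hσ
    have h := hD σ hσ (b 0) hb0L
    rw [hL, Submodule.mem_span_singleton] at h
    obtain ⟨a, ha⟩ := h
    have h2 : x σ = a := by
      show b.repr (ρ.ρ σ (b 0)) 0 = a
      rw [← ha]
      have := (s59q_repr_comb b a 0).1
      rwa [zero_smul, add_zero] at this
    rw [h2, ha]
  have hcol1 : ∀ σ : GQ, ρ.ρ σ (b 1) = c σ • b 0 + z σ • b 1 := fun σ =>
    s59q_eq_comb b (ρ.ρ σ (b 1))
  have hmul : ∀ (σ τ : GQ) (w : ρ.V), ρ.ρ (σ * τ) w = ρ.ρ σ (ρ.ρ τ w) := by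
    intro σ τ w
    rw [map_mul, Module.End.mul_apply]
  have hx1 : x 1 = 1 := by
    show b.repr (ρ.ρ 1 (b 0)) 0 = 1
    rw [map_one ρ.ρ, Module.End.one_apply]
    have := (s59q_repr_comb b 1 0).1
    rwa [zero_smul, add_zero, one_smul] at this
  have hz1 : z 1 = 1 := by
    show b.repr (ρ.ρ 1 (b 1)) 1 = 1
    rw [map_one ρ.ρ, Module.End.one_apply]
    have := (s59q_repr_comb b 0 1).2
    rwa [zero_smul, zero_add, one_smul] at this
  have hxmul : ∀ σ ∈ P.decompositionSubgroup ℚ, ∀ τ ∈ P.decompositionSubgroup ℚ,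
      x (σ * τ) = x σ * x τ := by
    intro σ hσ τ hτ
    show b.repr (ρ.ρ (σ * τ) (b 0)) 0 = x σ * x τ
    rw [hmul, hcol0 τ hτ, map_smul, hcol0 σ hσ]
    have := (s59q_repr_comb b (x σ * x τ) 0).1
    rw [zero_smul, add_zero] at this
    rw [← this]
    congr 2
    rw [smul_smul, mul_comm]
  have hcol1' : ∀ σ ∈ P.decompositionSubgroup ℚ, ∀ τ ∈ P.decompositionSubgroup ℚ,
      ρ.ρ (σ * τ) (b 1) = (z τ * c σ + x σ * c τ) • b 0 + (z σ * z τ) • b 1 := by
    intro σ hσ τ hτ
    rw [hmul, hcol1 τ, map_add, map_smul, map_smul, hcol0 σ hσ, hcol1 σ]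
    module
  have hzmul : ∀ σ ∈ P.decompositionSubgroup ℚ, ∀ τ ∈ P.decompositionSubgroup ℚ,
      z (σ * τ) = z σ * z τ := by
    intro σ hσ τ hτ
    show b.repr (ρ.ρ (σ * τ) (b 1)) 1 = z σ * z τ
    rw [hcol1' σ hσ τ hτ]
    exact (s59q_repr_comb b _ _).2
  have hcmul : ∀ σ ∈ P.decompositionSubgroup ℚ, ∀ τ ∈ P.decompositionSubgroup ℚ,
      c (σ * τ) = z τ * c σ + x σ * c τ := by
    intro σ hσ τ hτ
    show b.repr (ρ.ρ (σ * τ) (b 1)) 0 = z τ * c σ + x σ * c τ
    rw [hcol1' σ hσ τ hτ]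
    exact (s59q_repr_comb b _ _).1
  have hzI : ∀ τ ∈ P.inertiaSubgroupIn ℚ, z τ = 1 := by
    intro τ hτ
    have h := hI τ hτ (b 1)
    rw [hL, Submodule.mem_span_singleton] at h
    obtain ⟨a, ha⟩ := h
    have h2 : ρ.ρ τ (b 1) = a • b 0 + (1 : A) • b 1 := by
      rw [one_smul, ha]
      abel
    show b.repr (ρ.ρ τ (b 1)) 1 = 1
    rw [h2]
    exact (s59q_repr_comb b _ _).2
  have hdetσ : ∀ σ ∈ P.decompositionSubgroup ℚ, LinearMap.det (ρ.ρ σ) = x σ * z σ := by
    intro σ hσ
    rw [← LinearMap.det_toMatrix b, Matrix.det_fin_two]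
    have e10 : LinearMap.toMatrix b b (ρ.ρ σ) 1 0 = 0 := by
      rw [LinearMap.toMatrix_apply, hcol0 σ hσ]
      have := (s59q_repr_comb b (x σ) 0).2
      rwa [zero_smul, add_zero] at this
    rw [e10, mul_zero, sub_zero, LinearMap.toMatrix_apply, LinearMap.toMatrix_apply]
  -- `z² = 1`
  have hzsq : ∀ σ ∈ P.decompositionSubgroup ℚ, z σ ^ 2 = 1 := by
    intro σ hσ
    -- the residual datum
    have hres : ∃ μk : ResidueField A → Kb, s59q_IsAddChar p μk ∧
        ∀ β : Kb, β ≠ 0 →
          (∀ τ ∈ P.inertiaSubgroupIn ℚ, τ β = μk (residue A (c τ)) * β) →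
          ∀ n : ℤ, ford_vQ P hp hP β ≠ ((n : ℚ) : WithTop ℚ) := by
      obtain ⟨e₀, e₁, c', μ', hli, hc', hμ', ht⟩ := htres P hP
      have htm : ∀ (a : A) (w : ρ.V), (1 : ResidueField A) ⊗ₜ[A] (a • w) =
          residue A a • ((1 : ResidueField A) ⊗ₜ[A] w) := by
        intro a w
        rw [TensorProduct.tmul_smul, TensorProduct.smul_tmul', TensorProduct.smul_tmul',
          Algebra.smul_def, smul_eq_mul, mul_one, mul_one]
        rfl
      refine s59q_tres_change (Vb := ResidueField A ⊗[A] ρ.V) hp P hP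
        (fun τ => (ρ.ρ τ).baseChange (ResidueField A))
        (Algebra.TensorProduct.basis (ResidueField A) b)
        (fun τ => residue A (x τ)) (fun τ => residue A (c τ)) ?_ ?_ ?_ e₀ e₁ c' μ' hli hc' hμ' ht
      · intro τ hτ
        rw [Algebra.TensorProduct.basis_apply, LinearMap.baseChange_tmul,
          hcol0 τ (s59q_inertia_le_decomp P hτ), htm]
      · intro τ hτ
        rw [Algebra.TensorProduct.basis_apply, Algebra.TensorProduct.basis_apply,
          LinearMap.baseChange_tmul, hcol1 τ, hzI τ hτ, one_smul, TensorProduct.tmul_add, htm]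
      · intro τ hτ a ha
        have h1 := hdet.2 1 τ a (by simpa using ha)
        rw [hdetσ τ (s59q_inertia_le_decomp P hτ), hzI τ hτ, mul_one] at h1
        have h2 : x τ - (a : A) ∈ maximalIdeal A := by
          refine (Ideal.span_singleton_le_iff_mem (I := maximalIdeal A)).mpr ?_ h1
          rw [pow_one]
          exact hpA
        have h3 : residue A (x τ - (a : A)) = 0 := (residue_eq_zero_iff _).mpr h2
        rw [map_sub, map_natCast, sub_eq_zero] at h3
        exact h3
    obtain ⟨μk, hμk, hμkt⟩ := hres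
    -- modulo `𝔪ⁿ⁺¹`
    have hmod : ∀ n : ℕ, z σ ^ 2 - 1 ∈ maximalIdeal A ^ (n + 1) := by
      intro n
      set J : Ideal A := maximalIdeal A ^ (n + 1) with hJ
      have hJtop : J ≠ ⊤ := by
        intro h
        have h1 : J ≤ maximalIdeal A := Ideal.pow_le_self (Nat.succ_ne_zero n)
        rw [h] at h1
        exact (Ideal.IsMaximal.ne_top inferInstance) (top_le_iff.mp h1)
      haveI : Nontrivial (A ⧸ J) := Ideal.Quotient.nontrivial_iff.mpr hJtop
      letI : IsLocalRing (A ⧸ J) :=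
        IsLocalRing.of_surjective' (Ideal.Quotient.mk J) Ideal.Quotient.mk_surjective
      haveI : Finite (A ⧸ J) := by
        have : Finite (A ⧸ maximalIdeal A) := ‹Finite (ResidueField A)›
        exact Ideal.finite_quotient_pow (IsNoetherian.noetherian _) (n + 1)
      set π := Ideal.Quotient.mk J with hπ
      have hle : J ≤ maximalIdeal A := Ideal.pow_le_self (Nat.succ_ne_zero n)
      have hpJ : ((p ^ (n + 1) : ℕ) : A) ∈ J := by
        rw [Nat.cast_pow]
        exact Ideal.pow_mem_pow hpA (n + 1)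
      have T : s59q_TriData p P (n + 1) (fun τ => π (x τ)) (fun τ => π (z τ))
          (fun τ => π (c τ)) :=
        { hx1 := by
            show π (x 1) = 1
            rw [hx1, map_one]
          hz1 := by
            show π (z 1) = 1
            rw [hz1, map_one]
          hx := fun σ hσ τ hτ => by
            show π (x (σ * τ)) = π (x σ) * π (x τ)
            rw [hxmul σ hσ τ hτ, map_mul]
          hz := fun σ hσ τ hτ => by
            show π (z (σ * τ)) = π (z σ) * π (z τ)
            rw [hzmul σ hσ τ hτ, map_mul]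
          hc := fun σ hσ τ hτ => by
            show π (c (σ * τ)) = π (z τ) * π (c σ) + π (x σ) * π (c τ)
            rw [hcmul σ hσ τ hτ, map_add, map_mul, map_mul]
          hzI := fun τ hτ => by
            show π (z τ) = 1
            rw [hzI τ hτ, map_one]
          hcyc := fun σ hσ a ha => by
            show π (x σ) * π (z σ) = ((a : ℕ) : A ⧸ J)
            have h1 := hdet.2 (n + 1) σ a ha
            rw [hdetσ σ hσ] at h1
            have h2 : x σ * z σ - (a : A) ∈ J :=
              (Ideal.span_singleton_le_iff_mem (I := J)).mpr hpJ h1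
            have h3 : π (x σ * z σ - (a : A)) = 0 := Ideal.Quotient.eq_zero_iff_mem.mpr h2
            rw [map_sub, map_mul, map_natCast, sub_eq_zero] at h3
            exact h3
          hlev := by
            obtain ⟨F, hFfd, hF⟩ := ρ.isAdicContinuous (n + 1)
            refine ⟨F, hFfd, fun τ hτ hτF => ?_⟩
            have h1 := hF τ (fun y hy => (IntermediateField.mem_fixingSubgroup_iff F τ).mp hτF y hy)
              (b 1)
            have h2 := s59q_repr_mem_of_mem_smul b J h1 0
            rw [map_sub, Finsupp.sub_apply] at h2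
            have h3 : b.repr (b 1) 0 = 0 := by
              have := (s59q_repr_comb b 0 1).1
              rwa [zero_smul, zero_add, one_smul] at this
            rw [h3, sub_zero] at h2
            show π (c τ) = 0
            exact Ideal.Quotient.eq_zero_iff_mem.mpr h2 }
      have hpN : ((p ^ (n + 1) : ℕ) : A ⧸ J) = 0 := by
        have := Ideal.Quotient.eq_zero_iff_mem.mpr hpJ
        rwa [map_natCast] at this
      -- the character on `A/J`
      set μB : A ⧸ J → Kb := fun t => μk (Ideal.Quotient.factor hle t) with hμB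
      have hμBπ : ∀ y : A, μB (π y) = μk (residue A y) := by
        intro y
        show μk (Ideal.Quotient.factor hle (Ideal.Quotient.mk J y)) = μk (residue A y)
        rw [Ideal.Quotient.factor_mk]
        rfl
      have hμBchar : s59q_IsAddChar p μB := by
        refine ⟨fun s t => ?_, fun t => hμk.2 _⟩
        show μk (Ideal.Quotient.factor hle (s + t)) = _
        rw [map_add]
        exact hμk.1 _ _
      have hμk0 : μk 0 = 1 := by
        have h := hμk.1 0 0
        rw [add_zero] at h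
        have h0 : μk 0 ≠ 0 := by
          intro h0
          have := hμk.2 0
          rw [h0, zero_pow hp.ne_zero] at this
          exact zero_ne_one this
        field_simp at h
        exact h.symm
      have hμB𝔪 : ∀ t ∈ maximalIdeal (A ⧸ J), μB t = 1 := by
        intro t ht
        obtain ⟨y, rfl⟩ := Ideal.Quotient.mk_surjective t
        have hy : y ∈ maximalIdeal A := by
          rw [mem_maximalIdeal, mem_nonunits_iff]
          intro hu
          rw [mem_maximalIdeal, mem_nonunits_iff] at ht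
          exact ht (hu.map (Ideal.Quotient.mk J))
        have : μB (π y) = 1 := by
          rw [hμBπ, (residue_eq_zero_iff y).mpr hy, hμk0]
        exact this
      have hcore := s59q_strict_core hp P hP T hpN μB hμBchar hμB𝔪
        (fun β hβ0 hβ => hμkt β hβ0 (fun τ hτ => by
          rw [hβ τ hτ, hμBπ])) hσ
      have h4 : π (z σ ^ 2 - 1) = 0 := by
        rw [map_sub, map_pow, map_one, sub_eq_zero]
        exact hcore
      exact Ideal.Quotient.eq_zero_iff_mem.mp h4
    have hinf : z σ ^ 2 - 1 ∈ (⨅ i : ℕ, maximalIdeal A ^ i) := by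
      rw [Ideal.mem_iInf]
      intro i
      exact Ideal.pow_le_pow_right (Nat.le_succ i) (hmod i)
    rw [Ideal.iInf_pow_eq_bot_of_isLocalRing _ (Ideal.IsMaximal.ne_top inferInstance),
      Ideal.mem_bot] at hinf
    exact sub_eq_zero.mp hinf
  -- the strict condition
  intro σ hσ
  refine ⟨x σ, z σ, ?_, ?_, ?_⟩
  · intro w hw
    rw [hL, Submodule.mem_span_singleton] at hw
    obtain ⟨a, rfl⟩ := hw
    rw [map_smul, hcol0 σ hσ, smul_comm]
  · intro w
    rw [hL, Submodule.mem_span_singleton]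
    refine ⟨b.repr w 0 * (x σ - z σ) + b.repr w 1 * c σ, ?_⟩
    conv_rhs => rw [s59q_eq_comb b w]
    rw [map_add, map_smul, map_smul, hcol0 σ hσ, hcol1 σ]
    module
  · intro n a ha
    have h1 := hdet.2 n σ a ha
    rw [hdetσ σ hσ] at h1
    have h2 : x σ - (a : A) * z σ = z σ * (x σ * z σ - (a : A)) := by
      linear_combination (-(x σ)) * hzsq σ hσ
    rw [h2]
    exact Ideal.mul_mem_left _ _ h1

/-- **(T1) [LOC-STRICT]**, in the form of the contract `s59q_LocStrict`. -/
theorem s59q_locStrict : s59q_LocStrict := by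
  intro A _ _ _ _ ρ p hp hdet hord htres
  exact s59q_locStrict_aux ρ p hp hdet hord htres

end Main

end Fermat.Agent.Lib.S59

end
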