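/-
PROGRAMME (R2) = S59, node [STRICT-p], half (T2) [W-très] (helper6, prefix `s59q_`), part A: **tools for the Kummer break**.

* `s59q_interp_expand` : `Γ` acting on a field `Ω`, `x` with finite orbit `X`; every `c` fixed by the stabiliser of `x` is
  `∑_{i < #X} aᵢ xⁱ` with `Γ`-fixed coefficients `aᵢ` (Lagrange interpolation over the orbit; no valuations);
* `s59q_inertiaFix P ζ` : the subgroup `{τ ∈ I_P | τ ζ = ζ}`;
* `s59q_val_fix_zeta` : `ζ` a primitive `p`-th root of unity; a non-zero element of `ℚ̄` fixed by `s59q_inertiaFix P ζ` has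
  valuation in `(1/(p−1)) ℤ`.
-/
import Mathlib
import Fermat.Agent.Lib.S56.RKummerA
import Fermat.Agent.Lib.S56.RLocal
import Fermat.Agent.Lib.S56.RTwist
import Fermat.Agent.Lib.Frey.ULevelVal

set_option autoImplicit false
set_option linter.unusedSectionVars false
set_option linter.unusedVariables false
set_option linter.style.haveILetI false

noncomputable section

namespace Fermat.Agent.Lib.S59

open Fermat.Agent.Lib.Frey Fermat.Agent.Lib.S56 Polynomial

local notation "Kb" => AlgebraicClosure ℚ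
local notation "GQ" => (AlgebraicClosure ℚ ≃ₐ[ℚ] AlgebraicClosure ℚ)

section Interp

variable {Ω : Type*} [Field Ω] {Γ : Type*} [Group Γ] [MulSemiringAction Γ Ω]

/-- **interpolation over an orbit**: an element fixed by the stabiliser of `x` is a polynomial in `x` of degree `< #orbit`
with `Γ`-fixed coefficients. -/
theorem s59q_interp_expand (x : Ω) (X : Finset Ω) (hX : ∀ w, w ∈ X ↔ ∃ σ : Γ, σ • x = w)
    (c : Ω) (hfix : ∀ δ : Γ, δ • x = x → δ • c = c) :
    ∃ a : ℕ → Ω, (∀ (i : ℕ) (τ : Γ), τ • a i = a i) ∧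
      c = ∑ i ∈ Finset.range X.card, a i * x ^ i := by
  classical
  set n := X.card with hn
  have hxX : x ∈ X := (hX x).mpr ⟨1, one_smul _ _⟩
  have hnpos : 0 < n := Finset.card_pos.mpr ⟨x, hxX⟩
  let val : Ω → Ω := fun w => if h : ∃ σ : Γ, σ • x = w then (Classical.choose h) • c else 0
  have hval : ∀ σ : Γ, val (σ • x) = σ • c := by
    intro σ
    have h : ∃ σ' : Γ, σ' • x = σ • x := ⟨σ, rfl⟩
    have h1 : val (σ • x) = (Classical.choose h) • c := dif_pos h
    have h2 : (Classical.choose h) • x = σ • x := Classical.choose_spec h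
    have h3 : (σ⁻¹ * Classical.choose h) • x = x := by
      rw [mul_smul, h2, inv_smul_smul]
    have h4 := hfix _ h3
    rw [mul_smul, inv_smul_eq_iff] at h4
    rw [h1, h4]
  set G₁ : Polynomial Ω := Lagrange.interpolate X id val with hG₁
  have hinj : Set.InjOn (id : Ω → Ω) (X : Set Ω) := Function.injective_id.injOn
  have hdeg : G₁.degree < (n : WithBot ℕ) := Lagrange.degree_interpolate_lt val hinj
  have hev : ∀ w ∈ X, G₁.eval w = val w := fun w hw =>
    Lagrange.eval_interpolate_at_node val hinj hw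
  have hinv : ∀ τ : Γ, G₁.map (MulSemiringAction.toRingHom Γ Ω τ) = G₁ := by
    intro τ
    refine Polynomial.eq_of_degrees_lt_of_eval_finset_eq X
      (lt_of_le_of_lt (Polynomial.degree_map_le) hdeg) hdeg ?_
    intro w hw
    obtain ⟨σ, rfl⟩ := (hX w).mp hw
    have h1 : σ • x = τ • ((τ⁻¹ * σ) • x) := by rw [mul_smul, smul_inv_smul]
    have hw' : (τ⁻¹ * σ) • x ∈ X := (hX _).mpr ⟨_, rfl⟩
    have h2 : (G₁.map (MulSemiringAction.toRingHom Γ Ω τ)).eval (τ • ((τ⁻¹ * σ) • x))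
        = τ • (G₁.eval ((τ⁻¹ * σ) • x)) := by
      rw [Polynomial.eval_map]
      exact Polynomial.eval₂_at_apply (MulSemiringAction.toRingHom Γ Ω τ) _
    calc (G₁.map (MulSemiringAction.toRingHom Γ Ω τ)).eval (σ • x)
        = (G₁.map (MulSemiringAction.toRingHom Γ Ω τ)).eval (τ • ((τ⁻¹ * σ) • x)) := by rw [← h1]
      _ = τ • (G₁.eval ((τ⁻¹ * σ) • x)) := h2
      _ = τ • ((τ⁻¹ * σ) • c) := by rw [hev _ hw', hval]
      _ = σ • c := by rw [mul_smul, smul_inv_smul]
      _ = G₁.eval (σ • x) := by rw [hev _ hw, hval]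
  have hcoeff : ∀ (i : ℕ) (τ : Γ), τ • G₁.coeff i = G₁.coeff i := by
    intro i τ
    have h1 := congrArg (fun q : Polynomial Ω => q.coeff i) (hinv τ)
    simp only [Polynomial.coeff_map] at h1
    exact h1
  have hnat : G₁.natDegree < n := by
    by_cases h0 : G₁ = 0
    · rw [h0, Polynomial.natDegree_zero]; exact hnpos
    · exact (Polynomial.natDegree_lt_iff_degree_lt h0).mpr hdeg
  refine ⟨fun i => G₁.coeff i, hcoeff, ?_⟩
  rw [← Polynomial.eval_eq_sum_range' hnat, hev x hxX]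
  have := hval 1
  rw [one_smul, one_smul] at this
  exact this.symm

end Interp

section FixZeta

variable {p : ℕ} (hp : p.Prime) (P : ValuationSubring Kb) (hP : P.LiesOverPrime p)

/-- the inertia elements fixing `ζ`. -/
def s59q_inertiaFix (ζ : Kb) : Subgroup GQ where
  carrier := {τ | τ ∈ P.inertiaSubgroupIn ℚ ∧ τ ζ = ζ}
  mul_mem' := by
    rintro a b ⟨ha, ha'⟩ ⟨hb, hb'⟩
    exact ⟨mul_mem ha hb, by rw [AlgEquiv.mul_apply, hb', ha']⟩
  one_mem' := ⟨one_mem _, rfl⟩
  inv_mem' := by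
    rintro a ⟨ha, ha'⟩
    refine ⟨inv_mem ha, ?_⟩
    have h1 : a⁻¹ (a ζ) = ζ := by
      rw [← AlgEquiv.mul_apply, inv_mul_cancel, AlgEquiv.one_apply]
    rwa [ha'] at h1

theorem s59q_mem_inertiaFix {ζ : Kb} {τ : GQ} :
    τ ∈ s59q_inertiaFix P ζ ↔ τ ∈ P.inertiaSubgroupIn ℚ ∧ τ ζ = ζ := Iff.rfl

include hp hP in
/-- the `I_P`-orbit of `ζ − 1` has `p − 1` elements. -/
theorem s59q_card_orb_zeta {ζ : Kb} (hζ : IsPrimitiveRoot ζ p) :
    (s56r_orb P (ζ - 1)).card = p - 1 := by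
  classical
  haveI : NeZero p := ⟨hp.ne_zero⟩
  set v := ford_vQ P hp hP with hv
  have hvp : v ((p : ℕ) : Kb) = 1 := ford_vQ_q hp hP
  have hp1 : (1 : ℚ) < (p : ℚ) := by exact_mod_cast hp.one_lt
  have hle : (s56r_orb P (ζ - 1)).card ≤ p - 1 := by
    have hsub : s56r_orb P (ζ - 1) ⊆
        (Finset.range (p - 1)).image (fun i => ζ ^ (i + 1) - 1) := by
      intro w hw
      obtain ⟨σ, hσ, rfl⟩ := (s56r_mem_orb P).mp hw
      have h1 : (σ ζ) ^ p = 1 := by rw [← map_pow, hζ.pow_eq_one, map_one]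
      obtain ⟨i, hi, hi'⟩ := hζ.eq_pow_of_pow_eq_one h1
      have hi0 : i ≠ 0 := by
        rintro rfl
        rw [pow_zero] at hi'
        have h2 : σ ζ = σ 1 := by rw [← hi', map_one]
        have h3 : ζ = 1 := σ.injective h2
        exact hζ.ne_one hp.one_lt h3
      rw [Finset.mem_image]
      refine ⟨i - 1, Finset.mem_range.mpr (by omega), ?_⟩
      rw [map_sub, map_one, ← hi']
      congr 2
      omega
    calc (s56r_orb P (ζ - 1)).card ≤ ((Finset.range (p - 1)).image _).card :=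
          Finset.card_le_card hsub
      _ ≤ (Finset.range (p - 1)).card := Finset.card_image_le
      _ = p - 1 := Finset.card_range _
  have hge : p - 1 ≤ (s56r_orb P (ζ - 1)).card := by
    have h1 := s56r_one_le_card_mul v (Γ := ↥(P.inertiaSubgroupIn ℚ)) (s56r_inertia_int' hp P hP)
      (s56r_inertia_val hp P hP) (ζ - 1) (s56r_orb P (ζ - 1)) (fun w => s56r_mem_orb' P)
      (1 / ((p : ℚ) - 1)) (s56r_val_zeta_sub_one v hp hvp hζ) (by
        apply div_pos one_pos
        linarith)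
    have h2 : (p : ℚ) - 1 ≤ ((s56r_orb P (ζ - 1)).card : ℚ) := by
      have hpos : (0 : ℚ) < (p : ℚ) - 1 := by linarith
      rw [mul_one_div, le_div_iff₀ hpos] at h1
      linarith
    have h3 : ((p - 1 : ℕ) : ℚ) = (p : ℚ) - 1 := by
      rw [Nat.cast_sub hp.one_lt.le, Nat.cast_one]
    have h4 : ((p - 1 : ℕ) : ℚ) ≤ ((s56r_orb P (ζ - 1)).card : ℚ) := by rw [h3]; exact h2
    exact_mod_cast h4
  exact le_antisymm hle hge

include hp hP in
/-- **the value group of the fixed field of `{τ ∈ I_P | τ ζ = ζ}`** is contained in `(1/(p−1)) ℤ`. -/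
theorem s59q_val_fix_zeta {ζ : Kb} (hζ : IsPrimitiveRoot ζ p) (c : Kb) (hc0 : c ≠ 0)
    (hfix : ∀ τ ∈ s59q_inertiaFix P ζ, τ c = c) :
    ∃ k : ℤ, ford_vQ P hp hP c = ((((k : ℚ) / ((p : ℚ) - 1) : ℚ)) : WithTop ℚ) := by
  set v := ford_vQ P hp hP with hv
  have hvp : v ((p : ℕ) : Kb) = 1 := ford_vQ_q hp hP
  have hcard := s59q_card_orb_zeta hp P hP hζ
  have h3 : (((s56r_orb P (ζ - 1)).card : ℕ) : ℚ) = (p : ℚ) - 1 := by
    rw [hcard, Nat.cast_sub hp.one_lt.le, Nat.cast_one]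
  have hvx : v (ζ - 1) = ((((1 : ℚ) / ((s56r_orb P (ζ - 1)).card : ℚ) : ℚ)) : WithTop ℚ) := by
    rw [h3]
    exact s56r_val_zeta_sub_one v hp hvp hζ
  obtain ⟨k, hk⟩ := s56r_val_stab_fixed v (Γ := ↥(P.inertiaSubgroupIn ℚ)) (s56r_inertia_int' hp P hP)
    (ζ - 1) (s56r_orb P (ζ - 1)) (fun w => s56r_mem_orb' P) hvx c hc0 (by
      rintro ⟨δ, hδ⟩ hδx
      have h1 : δ (ζ - 1) = ζ - 1 := hδx
      rw [map_sub, map_one] at h1
      have h2 : δ ζ = ζ := by linear_combination h1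
      exact hfix δ ⟨hδ, h2⟩)
  rw [h3] at hk
  exact ⟨k, hk⟩

end FixZeta

end Fermat.Agent.Lib.S59

end
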