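/-
PROGRAMME (R2) = S59, node [STRICT-p], half (T2) [W-très] (helper6, prefix `s59q_`), part B: **the Kummer break**.

`v = ford_vQ P` (`v p = 1`), `I = I_P`, `ζ` a primitive `p`-th root of unity.

* `s59q_break_norm` : a Kummer generator `β` (`τ β / β ∈ μ_p` on `I`) with INTEGRAL valuation can be normalised by an `I`-fixed
  factor `d`: `v (d β) = 0`, `v ((d β)^p − 1) > 0` (power of `p` and a Frobenius lift);
* `s59q_break_unif` : for such a normalised `β₁` moved by some `τ₀ ∈ I` fixing `ζ`: `v (β₁ − 1) = 1/p`;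
* **`s59q_peu_break`** : if moreover `g` is fixed by the stabiliser of `β` in `{τ ∈ I | τ ζ = ζ}` and
  `v g ∉ (1/(p−1)) ℤ`, then some `τ ∈ I` fixing `ζ` has `v (τ g − g) < v g + 1/(p−1)` (stated as: the lower bound
  `v g + 1/(p−1) ≤ v (τ g − g)` for all such `τ` is contradictory).
-/
import Mathlib
import Fermat.Agent.Lib.S59.QTresBreakA

set_option autoImplicit false
set_option linter.unusedSectionVars false
set_option linter.unusedVariables false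
set_option linter.style.haveILetI false

noncomputable section

namespace Fermat.Agent.Lib.S59

open Fermat.Agent.Lib.Frey Fermat.Agent.Lib.S56 Fermat.Agent.Lib.S35 Polynomial

local notation "Kb" => AlgebraicClosure ℚ
local notation "GQ" => (AlgebraicClosure ℚ ≃ₐ[ℚ] AlgebraicClosure ℚ)

section Abs

variable {Ω : Type*} [Field Ω] (v : AddValuation Ω (WithTop ℚ))

theorem s59q_ex_pow {x : Ω} {s : ℚ} (hx : v x = s) (n : ℕ) :
    v (x ^ n) = (((n : ℚ) * s : ℚ) : WithTop ℚ) := by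
  rw [AddValuation.map_pow, hx, ← WithTop.coe_nsmul, nsmul_eq_mul]

theorem s59q_ex_div {x y : Ω} {s t : ℚ} (hx : v x = s) (hy : v y = t) :
    v (x / y) = ((s - t : ℚ) : WithTop ℚ) := by
  have hy0 : y ≠ 0 := fuc_ne_zero_of_ex v hy
  have h1 : v (x / y * y) = s := by rw [div_mul_cancel₀ _ hy0, hx]
  exact fuc_ex_of_mul v h1 hy

variable {p : ℕ} (hp : p.Prime) (hvp : v (p : Ω) = 1)

include hp hvp in
/-- `α^p = 1 + x`, `v (α − 1) < 1/(p−1)` `⇒` `v x = p · v (α − 1)`. -/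
theorem s59q_val_root_sub_one' {ζ : Ω} (hζ : IsPrimitiveRoot ζ p) (α : Ω)
    (s : ℚ) (hs : v (α - 1) = (s : WithTop ℚ)) (hlt : s < 1 / ((p : ℚ) - 1)) :
    v (α ^ p - 1) = ((((p : ℚ) * s : ℚ)) : WithTop ℚ) := by
  classical
  have hprodeq : α ^ p - 1 = ∏ μ ∈ Polynomial.nthRootsFinset p (1 : Ω), (α - μ) := by
    have h := hζ.pow_sub_pow_eq_prod_sub_mul α 1 hp.pos
    rw [one_pow] at h
    rw [h]
    refine Finset.prod_congr rfl fun μ _ => ?_
    rw [mul_one]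
  have hcard : (Polynomial.nthRootsFinset p (1 : Ω)).card = p := hζ.card_nthRootsFinset
  have hμval : ∀ μ ∈ Polynomial.nthRootsFinset p (1 : Ω), μ ≠ 1 →
      v (1 - μ) = ((((1 : ℚ) / ((p : ℚ) - 1) : ℚ)) : WithTop ℚ) := by
    intro μ hμ hμ1
    have hμp : μ ^ p = 1 := (Polynomial.mem_nthRootsFinset hp.pos 1).mp hμ
    have hord : orderOf μ = p := by
      have h1 := orderOf_dvd_of_pow_eq_one hμp
      rcases (Nat.dvd_prime hp).mp h1 with h | h
      · exact absurd (orderOf_eq_one_iff.mp h) hμ1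
      · exact h
    have hprim : IsPrimitiveRoot μ p := hord ▸ IsPrimitiveRoot.orderOf μ
    rw [AddValuation.map_sub_swap]
    exact s56r_val_zeta_sub_one v hp hvp hprim
  have hdecomp : ∀ μ : Ω, α - μ = (α - 1) + (1 - μ) := fun μ => by ring
  have hall : ∀ μ ∈ Polynomial.nthRootsFinset p (1 : Ω), v (α - μ) = v (α - 1) := by
    intro μ hμ
    by_cases hμ1 : μ = 1
    · rw [hμ1]
    · rw [hdecomp μ]
      refine AddValuation.map_add_eq_of_lt_left v ?_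
      rw [hμval μ hμ hμ1, hs]
      exact_mod_cast hlt
  rw [hprodeq, s56r_map_prod, Finset.sum_congr rfl hall, Finset.sum_const, hcard, hs,
    ← WithTop.coe_nsmul, nsmul_eq_mul]

end Abs

/-- the arithmetic behind "the terms of a `y`-adic expansion have distinct valuations". -/
theorem s59q_distinct_aux {p : ℕ} (hp : p.Prime) {i j : ℕ} (hi : i < p) (hj : j < p) (hij : i ≠ j)
    (k k' : ℤ) (e : ℚ) :
    (k : ℚ) / ((p : ℚ) - 1) + (i : ℚ) * (1 / (p : ℚ)) + e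
      ≠ (k' : ℚ) / ((p : ℚ) - 1) + (j : ℚ) * (1 / (p : ℚ)) + e := by
  intro h
  have hp1 : (1 : ℚ) < (p : ℚ) := by exact_mod_cast hp.one_lt
  have hpq : ((p : ℚ) - 1) ≠ 0 := by linarith
  have hp0 : (p : ℚ) ≠ 0 := by linarith
  have h1 : (k : ℚ) * p + i * ((p : ℚ) - 1) = k' * p + j * ((p : ℚ) - 1) := by
    field_simp at h
    linarith
  have h2 : (k : ℤ) * p + i * ((p : ℤ) - 1) = k' * p + j * ((p : ℤ) - 1) := by
    exact_mod_cast h1
  have h3 : (p : ℤ) ∣ ((i : ℤ) - j) * ((p : ℤ) - 1) := ⟨k' - k, by linarith⟩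
  have hcop : IsCoprime (p : ℤ) ((p : ℤ) - 1) := ⟨1, -1, by ring⟩
  have h4 : (p : ℤ) ∣ ((i : ℤ) - j) := hcop.dvd_of_dvd_mul_right h3
  have h5 : |(i : ℤ) - j| < (p : ℤ) := by
    rw [abs_lt]
    constructor <;> omega
  have h6 := Int.eq_zero_of_abs_lt_dvd h4 h5
  omega

section Break

variable {p : ℕ} (hp : p.Prime) (P : ValuationSubring Kb) (hP : P.LiesOverPrime p)

include hp hP in
/-- **normalisation of a Kummer generator with integral valuation.** -/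
theorem s59q_break_norm (β : Kb) (hβ0 : β ≠ 0) (n : ℤ)
    (hvβ : ford_vQ P hp hP β = ((n : ℚ) : WithTop ℚ))
    (hβ : ∀ τ ∈ P.inertiaSubgroupIn ℚ, ∃ ξ : Kb, ξ ^ p = 1 ∧ τ β = ξ * β) :
    ∃ d : Kb, d ≠ 0 ∧ (∀ τ ∈ P.inertiaSubgroupIn ℚ, τ d = d) ∧
      ford_vQ P hp hP (d * β) = 0 ∧ 0 < ford_vQ P hp hP ((d * β) ^ p - 1) := by
  set v := ford_vQ P hp hP with hv
  have hvp : v ((p : ℕ) : Kb) = ((1 : ℚ) : WithTop ℚ) := ford_vQ_q hp hP
  have hp0 : ((p : ℕ) : Kb) ≠ 0 := Nat.cast_ne_zero.mpr hp.ne_zero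
  -- `d₀ = p^(-n)`
  set m₁ : ℕ := n.toNat with hm₁
  set m₂ : ℕ := (-n).toNat with hm₂
  have hn : (n : ℚ) = (m₁ : ℚ) - (m₂ : ℚ) := by
    have h := Int.toNat_sub_toNat_neg n
    have h' : ((m₁ : ℤ) : ℚ) - ((m₂ : ℤ) : ℚ) = (n : ℚ) := by
      rw [← Int.cast_sub, hm₁, hm₂, h]
    rw [← h']
    push_cast
    ring
  set d₀ : Kb := ((p : ℕ) : Kb) ^ m₂ / ((p : ℕ) : Kb) ^ m₁ with hd₀
  have hd₀0 : d₀ ≠ 0 := div_ne_zero (pow_ne_zero _ hp0) (pow_ne_zero _ hp0)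
  have hd₀fix : ∀ τ : GQ, τ d₀ = d₀ := by
    intro τ
    rw [hd₀, map_div₀, map_pow, map_pow, map_natCast]
  have hvd₀ : v d₀ = (((m₂ : ℚ) * 1 - (m₁ : ℚ) * 1 : ℚ) : WithTop ℚ) :=
    s59q_ex_div v (s59q_ex_pow v hvp m₂) (s59q_ex_pow v hvp m₁)
  set β' := d₀ * β with hβ'
  have hβ'0 : β' ≠ 0 := mul_ne_zero hd₀0 hβ0
  have hvβ' : v β' = ((0 : ℚ) : WithTop ℚ) := by
    rw [hβ', fuc_ex_mul v hvd₀ hvβ]
    congr 1
    rw [hn]
    ring
  set u := β' ^ p with hu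
  have hvu : v u = ((0 : ℚ) : WithTop ℚ) := by
    rw [hu, s59q_ex_pow v hvβ' p]
    congr 1
    ring
  have hufix : ∀ τ ∈ P.inertiaSubgroupIn ℚ, τ u = u := by
    intro τ hτ
    obtain ⟨ξ, hξ, hτβ⟩ := hβ τ hτ
    rw [hu, hβ', map_pow, map_mul, hd₀fix, hτβ,
      show d₀ * (ξ * β) = ξ * (d₀ * β) by ring, mul_pow, hξ, one_mul]
  obtain ⟨φ, hφD, hφ⟩ := s56r_exists_frob hp P hP
  set c := φ⁻¹ u with hc
  have hφc : φ c = u := by
    rw [hc, ← AlgEquiv.mul_apply, mul_inv_cancel, AlgEquiv.one_apply]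
  have hvc : v c = ((0 : ℚ) : WithTop ℚ) := by
    rw [hc, hv, ford_vQ_decomposition hp hP φ⁻¹ (inv_mem hφD), ← hv, hvu]
  have hc0 : c ≠ 0 := fuc_ne_zero_of_ex v hvc
  have hcfix : ∀ τ ∈ P.inertiaSubgroupIn ℚ, τ c = c := by
    intro τ hτ
    have h1 := s35t_conj_mem_inertia P φ τ hφD hτ
    have h2 := hufix _ h1
    rw [AlgEquiv.mul_apply, AlgEquiv.mul_apply, ← hc, ← hφc] at h2
    exact φ.injective h2
  have h3 : 0 < v (u - c ^ p) := by
    have h := hφ c (by rw [← hv, hvc]; exact le_rfl)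
    rwa [hφc] at h
  have hcp : v (c ^ p) = ((0 : ℚ) : WithTop ℚ) := by
    rw [s59q_ex_pow v hvc p]
    congr 1
    ring
  have hcp0 : c ^ p ≠ 0 := pow_ne_zero _ hc0
  refine ⟨d₀ / c, div_ne_zero hd₀0 hc0, ?_, ?_, ?_⟩
  · intro τ hτ
    rw [map_div₀, hd₀fix, hcfix τ hτ]
  · have h4 : d₀ / c * β = β' / c := by rw [hβ']; ring
    rw [h4, s59q_ex_div v hvβ' hvc]
    norm_num
  · have h4 : (d₀ / c * β) ^ p - 1 = (u - c ^ p) / c ^ p := by
      have h40 : d₀ / c * β * c = d₀ * β := by field_simp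
      rw [eq_div_iff hcp0, sub_mul, one_mul, ← mul_pow, h40, hu, hβ']
    rw [h4]
    by_cases h5 : u - c ^ p = 0
    · rw [h5, zero_div, AddValuation.map_zero]
      exact WithTop.top_pos
    · obtain ⟨s, hs⟩ := fuc_exists_ex v h5
      rw [s59q_ex_div v hs hcp]
      rw [hs] at h3
      have h6 : (0 : ℚ) < s := by exact_mod_cast h3
      have h7 : (0 : ℚ) < s - 0 := by linarith
      exact_mod_cast h7

include hp hP in
/-- **the uniformiser**: a normalised Kummer generator moved by some `τ₀ ∈ I` fixing `ζ` has `v (β₁ − 1) = 1/p`. -/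
theorem s59q_break_unif {ζ : Kb} (hζ : IsPrimitiveRoot ζ p) (β₁ : Kb)
    (hv1 : ford_vQ P hp hP β₁ = 0)
    (hw : 0 < ford_vQ P hp hP (β₁ ^ p - 1))
    (hwfix : ∀ τ ∈ P.inertiaSubgroupIn ℚ, τ (β₁ ^ p - 1) = β₁ ^ p - 1)
    (τ₀ : GQ) (hτ₀ : τ₀ ∈ P.inertiaSubgroupIn ℚ) (hτ₀ζ : τ₀ ζ = ζ) (ξ : Kb)
    (hξ : IsPrimitiveRoot ξ p) (hτ₀β : τ₀ β₁ = ξ * β₁) :
    ford_vQ P hp hP (β₁ - 1) = (((1 : ℚ) / (p : ℚ) : ℚ) : WithTop ℚ) := by
  haveI : NeZero p := ⟨hp.ne_zero⟩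
  set v := ford_vQ P hp hP with hv
  have hvp : v ((p : ℕ) : Kb) = 1 := ford_vQ_q hp hP
  have hp1 : (1 : ℚ) < (p : ℚ) := by exact_mod_cast hp.one_lt
  have hpq : (0 : ℚ) < (p : ℚ) - 1 := by linarith
  have hv1' : v β₁ = ((0 : ℚ) : WithTop ℚ) := hv1
  have hβ₁0 : β₁ ≠ 0 := fuc_ne_zero_of_ex v hv1'
  have hw0 : β₁ ^ p - 1 ≠ 0 := by
    intro h
    have h1 : β₁ ^ p = 1 := by linear_combination h
    obtain ⟨i, -, hi⟩ := hζ.eq_pow_of_pow_eq_one h1
    have h2 : τ₀ β₁ = β₁ := by rw [← hi, map_pow, hτ₀ζ]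
    rw [hτ₀β] at h2
    have h3 : ξ = 1 := by
      have : ξ * β₁ = 1 * β₁ := by rw [h2, one_mul]
      exact mul_right_cancel₀ hβ₁0 this
    exact hξ.ne_one hp.one_lt h3
  obtain ⟨k, hk⟩ := s56r_inertia_int hp P hP _ hwfix hw0
  have hk1 : 1 ≤ k := by
    rw [hk] at hw
    have h1 : (0 : ℚ) < (k : ℚ) := by exact_mod_cast hw
    have h2 : 0 < k := by exact_mod_cast h1
    omega
  have hy0 : β₁ - 1 ≠ 0 := by
    intro h
    apply hw0
    have : β₁ = 1 := by linear_combination h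
    rw [this, one_pow, sub_self]
  obtain ⟨s, hs⟩ := fuc_exists_ex v hy0
  have hvξ : v (ξ - 1) = (((1 : ℚ) / ((p : ℚ) - 1) : ℚ) : WithTop ℚ) :=
    s56r_val_zeta_sub_one v hp hvp hξ
  have hvζ : v (ζ - 1) = (((1 : ℚ) / ((p : ℚ) - 1) : ℚ) : WithTop ℚ) :=
    s56r_val_zeta_sub_one v hp hvp hζ
  have hslt : s < 1 / ((p : ℚ) - 1) := by
    by_contra hge
    rw [not_lt] at hge
    set t := (β₁ - 1) / (ζ - 1) with ht
    have hvt : v t = ((s - 1 / ((p : ℚ) - 1) : ℚ) : WithTop ℚ) := s59q_ex_div v hs hvζ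
    have h0t : 0 ≤ v t := by
      rw [hvt]
      have : (0 : ℚ) ≤ s - 1 / ((p : ℚ) - 1) := by linarith
      exact_mod_cast this
    have h1 := (ford_vQ_inertia hp hP τ₀ hτ₀).2 t h0t
    have hζ10 : ζ - 1 ≠ 0 := fuc_ne_zero_of_ex v hvζ
    have h2 : τ₀ t - t = (ξ - 1) * β₁ / (ζ - 1) := by
      rw [ht, map_div₀, map_sub, map_sub, map_one, hτ₀ζ, hτ₀β]
      ring
    rw [h2, ← hv, s59q_ex_div v (fuc_ex_mul v hvξ hv1') hvζ] at h1
    have h3 : (0 : ℚ) < 1 / ((p : ℚ) - 1) + 0 - 1 / ((p : ℚ) - 1) := by exact_mod_cast h1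
    linarith
  have h5 := s59q_val_root_sub_one' v hp hvp hζ β₁ s hs hslt
  rw [hk] at h5
  have h6 : (k : ℚ) = (p : ℚ) * s := by exact_mod_cast h5
  have h7 : (k : ℚ) < 2 := by
    have h71 : (p : ℚ) * s < p * (1 / ((p : ℚ) - 1)) := by
      apply mul_lt_mul_of_pos_left hslt
      linarith
    have h72 : (p : ℚ) * (1 / ((p : ℚ) - 1)) ≤ 2 := by
      rw [mul_one_div, div_le_iff₀ hpq]
      have : (2 : ℚ) ≤ p := by exact_mod_cast hp.two_le
      linarith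
    linarith
  have h8 : k < 2 := by exact_mod_cast h7
  have hk' : k = 1 := by omega
  rw [hs]
  congr 1
  rw [hk'] at h6
  have hp0 : (p : ℚ) ≠ 0 := by linarith
  field_simp
  push_cast at h6
  linarith

include hp hP in
/-- **THE KUMMER BREAK.**  `β` a Kummer generator on `I = I_P` (`τ β / β ∈ μ_p`) with INTEGRAL valuation; `g` fixed by the
stabiliser of `β` in `{τ ∈ I | τ ζ = ζ}`, with `v g = a ∉ (1/(p−1)) ℤ`.  Then the lower bound
`a + 1/(p−1) ≤ v (τ g − g)` for all `τ ∈ I` fixing `ζ` is impossible. -/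
theorem s59q_peu_break {ζ : Kb} (hζ : IsPrimitiveRoot ζ p)
    (β : Kb) (hβ0 : β ≠ 0) (n : ℤ) (hvβ : ford_vQ P hp hP β = ((n : ℚ) : WithTop ℚ))
    (hβ : ∀ τ ∈ P.inertiaSubgroupIn ℚ, ∃ ξ : Kb, ξ ^ p = 1 ∧ τ β = ξ * β)
    (g : Kb) (a : ℚ) (hvg : ford_vQ P hp hP g = (a : WithTop ℚ))
    (ha : ∀ k : ℤ, a ≠ (k : ℚ) / ((p : ℚ) - 1))
    (hgfix : ∀ τ ∈ P.inertiaSubgroupIn ℚ, τ ζ = ζ → τ β = β → τ g = g)
    (hdisp : ∀ τ ∈ P.inertiaSubgroupIn ℚ, τ ζ = ζ →
      ((a + 1 / ((p : ℚ) - 1) : ℚ) : WithTop ℚ) ≤ ford_vQ P hp hP (τ g - g)) : False := by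
  classical
  haveI : NeZero p := ⟨hp.ne_zero⟩
  set v := ford_vQ P hp hP with hv
  have hvp : v ((p : ℕ) : Kb) = 1 := ford_vQ_q hp hP
  have hp1 : (1 : ℚ) < (p : ℚ) := by exact_mod_cast hp.one_lt
  have hpq : (0 : ℚ) < (p : ℚ) - 1 := by linarith
  have hp0 : (0 : ℚ) < (p : ℚ) := by linarith
  have hg0 : g ≠ 0 := fuc_ne_zero_of_ex v hvg
  by_cases hcase : ∀ τ ∈ s59q_inertiaFix P ζ, τ β = β
  · obtain ⟨k, hk⟩ := s59q_val_fix_zeta hp P hP hζ g hg0
      (fun τ hτ => hgfix τ hτ.1 hτ.2 (hcase τ hτ))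
    rw [← hv, hvg] at hk
    exact ha k (by exact_mod_cast hk)
  · rw [not_forall] at hcase
    obtain ⟨τ₀, hcase⟩ := hcase
    rw [Classical.not_imp] at hcase
    obtain ⟨⟨hτ₀I, hτ₀ζ⟩, hτ₀β⟩ := hcase
    obtain ⟨ξ, hξp, hξβ⟩ := hβ τ₀ hτ₀I
    have hξ1 : ξ ≠ 1 := by
      rintro rfl
      rw [one_mul] at hξβ
      exact hτ₀β hξβ
    have hξ : IsPrimitiveRoot ξ p := by
      have hord : orderOf ξ = p := by
        have h1 := orderOf_dvd_of_pow_eq_one hξp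
        rcases (Nat.dvd_prime hp).mp h1 with h | h
        · exact absurd (orderOf_eq_one_iff.mp h) hξ1
        · exact h
      exact hord ▸ IsPrimitiveRoot.orderOf ξ
    have hHroot : ∀ τ : GQ, τ ζ = ζ → ∀ μ : Kb, μ ^ p = 1 → τ μ = μ := by
      intro τ hτ μ hμ
      obtain ⟨i, -, rfl⟩ := hζ.eq_pow_of_pow_eq_one hμ
      rw [map_pow, hτ]
    obtain ⟨d, hd0, hdfix, hvd, hwd⟩ := s59q_break_norm hp P hP β hβ0 n hvβ hβ
    set β₁ := d * β with hβ₁
    have hβ₁0 : β₁ ≠ 0 := mul_ne_zero hd0 hβ0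
    have hβ₁act : ∀ τ ∈ P.inertiaSubgroupIn ℚ, ∀ μ : Kb, τ β = μ * β → τ β₁ = μ * β₁ := by
      intro τ hτ μ h
      rw [hβ₁, map_mul, hdfix τ hτ, h]
      ring
    have hwfix : ∀ τ ∈ P.inertiaSubgroupIn ℚ, τ (β₁ ^ p - 1) = β₁ ^ p - 1 := by
      intro τ hτ
      obtain ⟨μ, hμ, h⟩ := hβ τ hτ
      rw [map_sub, map_pow, map_one, hβ₁act τ hτ μ h, mul_pow, hμ, one_mul]
    have hvβ₁ : v β₁ = ((0 : ℚ) : WithTop ℚ) := hvd
    have hvy : v (β₁ - 1) = (((1 : ℚ) / (p : ℚ) : ℚ) : WithTop ℚ) :=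
      s59q_break_unif hp P hP hζ β₁ hvd hwd hwfix τ₀ hτ₀I hτ₀ζ ξ hξ (hβ₁act τ₀ hτ₀I ξ hξβ)
    set y := β₁ - 1 with hy
    have hy0 : y ≠ 0 := fuc_ne_zero_of_ex v hvy
    -- the orbit of `y`
    set X : Finset Kb := (Finset.range p).image (fun k => ξ ^ k * β₁ - 1) with hX
    have hXcard : X.card = p := by
      rw [hX, Finset.card_image_of_injOn, Finset.card_range]
      intro i hi j hj hij
      have h1 : ξ ^ i * β₁ = ξ ^ j * β₁ := by
        have h0 : ξ ^ i * β₁ - 1 = ξ ^ j * β₁ - 1 := hij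
        linear_combination h0
      exact hξ.pow_inj (Finset.mem_range.mp hi) (Finset.mem_range.mp hj)
        (mul_right_cancel₀ hβ₁0 h1)
    have hτ₀pow : ∀ k : ℕ, (τ₀ ^ k) β₁ = ξ ^ k * β₁ := by
      intro k
      induction k with
      | zero => simp
      | succ k ih =>
        rw [pow_succ', AlgEquiv.mul_apply, ih, map_mul, map_pow, hHroot τ₀ hτ₀ζ ξ hξp,
          hβ₁act τ₀ hτ₀I ξ hξβ, pow_succ]
        ring
    have hXorb : ∀ w, w ∈ X ↔ ∃ σ : ↥(s59q_inertiaFix P ζ), σ • y = w := by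
      intro w
      constructor
      · intro hw
        obtain ⟨k, hk, rfl⟩ := Finset.mem_image.mp hw
        refine ⟨(⟨τ₀, hτ₀I, hτ₀ζ⟩ : ↥(s59q_inertiaFix P ζ)) ^ k, ?_⟩
        show ((((⟨τ₀, hτ₀I, hτ₀ζ⟩ : ↥(s59q_inertiaFix P ζ)) ^ k :
          ↥(s59q_inertiaFix P ζ)) : GQ)) y = _
        rw [Subgroup.coe_pow]
        show (τ₀ ^ k) y = _
        rw [hy, map_sub, map_one, hτ₀pow]
      · rintro ⟨⟨σ, hσI, hσζ⟩, rfl⟩
        obtain ⟨μ, hμ, h⟩ := hβ σ hσI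
        obtain ⟨i, hi, rfl⟩ := hξ.eq_pow_of_pow_eq_one hμ
        show σ y ∈ X
        rw [hy, map_sub, map_one, hβ₁act σ hσI _ h]
        exact Finset.mem_image.mpr ⟨i, Finset.mem_range.mpr hi, rfl⟩
    have hstab : ∀ δ : ↥(s59q_inertiaFix P ζ), δ • y = y → δ • g = g := by
      rintro ⟨δ, hδI, hδζ⟩ hδy
      have h1 : δ y = y := hδy
      have h2 : δ β₁ = β₁ := by
        rw [hy, map_sub, map_one] at h1
        linear_combination h1
      have h3 : δ β = β := by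
        have h4 : d * δ β = d * β := by
          rw [hβ₁, map_mul, hdfix δ hδI] at h2
          exact h2
        exact mul_left_cancel₀ hd0 h4
      exact hgfix δ hδI hδζ h3
    obtain ⟨A, hAfix, hgexp⟩ :=
      s59q_interp_expand (Γ := ↥(s59q_inertiaFix P ζ)) y X hXorb g hstab
    rw [hXcard] at hgexp
    have hAval : ∀ i : ℕ, ∃ k : ℤ, A i ≠ 0 →
        v (A i) = ((((k : ℚ) / ((p : ℚ) - 1) : ℚ)) : WithTop ℚ) := by
      intro i
      by_cases hi : A i = 0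
      · exact ⟨0, fun h => absurd hi h⟩
      · obtain ⟨k, hk⟩ := s59q_val_fix_zeta hp P hP hζ (A i) hi
          (fun τ hτ => hAfix i ⟨τ, hτ⟩)
        exact ⟨k, fun _ => hk⟩
    choose kk hkk using hAval
    -- the terms
    set t : ℕ → Kb := fun i => A i * y ^ i with ht
    have htval : ∀ i : ℕ, A i ≠ 0 →
        v (t i) = ((((kk i : ℚ) / ((p : ℚ) - 1) + (i : ℚ) * (1 / (p : ℚ)) : ℚ)) : WithTop ℚ) := by
      intro i hi
      exact fuc_ex_mul v (hkk i hi) (s59q_ex_pow v hvy i)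
    have ht0 : ∀ i : ℕ, t i ≠ 0 → A i ≠ 0 := by
      intro i hi hA
      apply hi
      rw [ht]
      simp only
      rw [hA, zero_mul]
    have hdist : ∀ i ∈ Finset.range p, ∀ j ∈ Finset.range p, i ≠ j → t i ≠ 0 →
        v (t i) ≠ v (t j) := by
      intro i hi j hj hij hti
      by_cases htj : t j = 0
      · rw [htj, AddValuation.map_zero, htval i (ht0 i hti)]
        exact WithTop.coe_ne_top
      · rw [htval i (ht0 i hti), htval j (ht0 j htj)]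
        intro h
        have h' := WithTop.coe_injective h
        have := s59q_distinct_aux hp (Finset.mem_range.mp hi) (Finset.mem_range.mp hj) hij
          (kk i) (kk j) 0
        apply this
        rw [add_zero, add_zero]
        exact h'
    obtain ⟨i₀, hi₀, hmin⟩ := Finset.exists_min_image (Finset.range p) (fun i => v (t i))
      ⟨0, Finset.mem_range.mpr hp.pos⟩
    have hgsum : g = ∑ i ∈ Finset.range p, t i := hgexp
    have h1 : v g ≤ v (t i₀) := by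
      rw [hgsum]
      exact s56r_le_of_sum_distinct v (Finset.range p) t hdist i₀ hi₀
    have h2 : v (t i₀) ≤ v g := by
      rw [hgsum]
      exact AddValuation.map_le_sum v (fun j hj => hmin j hj)
    have hti₀ : v (t i₀) = (a : WithTop ℚ) := by
      rw [← hvg]
      exact le_antisymm h2 h1
    have hti₀0 : t i₀ ≠ 0 := fuc_ne_zero_of_ex v hti₀
    have hAi₀ : A i₀ ≠ 0 := ht0 i₀ hti₀0
    have hi₀p : i₀ < p := Finset.mem_range.mp hi₀
    have hi₀0 : i₀ ≠ 0 := by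
      rintro h
      have h3 := htval i₀ hAi₀
      rw [hti₀, h] at h3
      have h4 : a = (kk 0 : ℚ) / ((p : ℚ) - 1) + ((0 : ℕ) : ℚ) * (1 / (p : ℚ)) := by
        exact_mod_cast h3
      apply ha (kk 0)
      rw [h4]
      push_cast
      ring
    -- the displacement
    set ε : Kb := (ξ - 1) * β₁ / y with hε
    have hvξ : v (ξ - 1) = (((1 : ℚ) / ((p : ℚ) - 1) : ℚ) : WithTop ℚ) :=
      s56r_val_zeta_sub_one v hp hvp hξ
    set e : ℚ := 1 / ((p : ℚ) - 1) + 0 - 1 / (p : ℚ) with he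
    have hvε : v ε = (e : WithTop ℚ) := s59q_ex_div v (fuc_ex_mul v hvξ hvβ₁) hvy
    have he0 : 0 < e := by
      rw [he, add_zero, sub_pos]
      apply one_div_lt_one_div_of_lt hpq
      linarith
    have hε0 : 0 < v ε := by
      rw [hvε]
      exact_mod_cast he0
    have hτ₀y : τ₀ y = y * (1 + ε) := by
      have h1 : τ₀ y = ξ * β₁ - 1 := by
        rw [hy, map_sub, map_one, hβ₁act τ₀ hτ₀I ξ hξβ]
      have h2 : y * ε = (ξ - 1) * β₁ := by
        rw [hε]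
        field_simp
      rw [h1, mul_add, mul_one, h2, hy]
      ring
    set s : ℕ → Kb := fun i => t i * ((1 + ε) ^ i - 1) with hs
    have hτ₀g : τ₀ g - g = ∑ i ∈ Finset.range p, s i := by
      rw [hgsum, map_sum, ← Finset.sum_sub_distrib]
      refine Finset.sum_congr rfl fun i _ => ?_
      have hAi : τ₀ (A i) = A i := hAfix i ⟨τ₀, hτ₀I, hτ₀ζ⟩
      rw [hs, ht]
      simp only
      rw [map_mul, map_pow, hAi, hτ₀y, mul_pow]
      ring
    have hsval : ∀ i : ℕ, 0 < i → i < p → A i ≠ 0 →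
        v (s i) = ((((kk i : ℚ) / ((p : ℚ) - 1) + (i : ℚ) * (1 / (p : ℚ)) + e : ℚ)) : WithTop ℚ) := by
      intro i hi0 hip hAi
      have h3 : v ((1 + ε) ^ i - 1) = (e : WithTop ℚ) := by
        rw [s56r_val_one_add_pow_sub_one v hp hvp ε hε0 i hi0 hip, hvε]
      exact fuc_ex_mul v (htval i hAi) h3
    have hs0 : ∀ i : ℕ, s i ≠ 0 → 0 < i ∧ A i ≠ 0 := by
      intro i hi
      constructor
      · rcases Nat.eq_zero_or_pos i with h | h
        · exfalso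
          apply hi
          rw [hs]
          simp only
          rw [h, pow_zero, sub_self, mul_zero]
        · exact h
      · intro hA
        apply hi
        rw [hs, ht]
        simp only
        rw [hA, zero_mul, zero_mul]
    have hdist' : ∀ i ∈ Finset.range p, ∀ j ∈ Finset.range p, i ≠ j → s i ≠ 0 →
        v (s i) ≠ v (s j) := by
      intro i hi j hj hij hsi
      obtain ⟨hi0, hAi⟩ := hs0 i hsi
      by_cases hsj : s j = 0
      · rw [hsj, AddValuation.map_zero, hsval i hi0 (Finset.mem_range.mp hi) hAi]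
        exact WithTop.coe_ne_top
      · obtain ⟨hj0, hAj⟩ := hs0 j hsj
        rw [hsval i hi0 (Finset.mem_range.mp hi) hAi, hsval j hj0 (Finset.mem_range.mp hj) hAj]
        intro h
        exact s59q_distinct_aux hp (Finset.mem_range.mp hi) (Finset.mem_range.mp hj) hij
          (kk i) (kk j) e (WithTop.coe_injective h)
    have h5 : v (τ₀ g - g) ≤ v (s i₀) := by
      rw [hτ₀g]
      exact s56r_le_of_sum_distinct v (Finset.range p) s hdist' i₀ hi₀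
    have h6 : v (s i₀) = ((a + e : ℚ) : WithTop ℚ) := by
      have h3 : v ((1 + ε) ^ i₀ - 1) = (e : WithTop ℚ) := by
        rw [s56r_val_one_add_pow_sub_one v hp hvp ε hε0 i₀ (Nat.pos_of_ne_zero hi₀0) hi₀p, hvε]
      exact fuc_ex_mul v hti₀ h3
    have h7 := le_trans (hdisp τ₀ hτ₀I hτ₀ζ) h5
    rw [h6] at h7
    have h8 : a + 1 / ((p : ℚ) - 1) ≤ a + e := by exact_mod_cast h7
    have h9 : (0 : ℚ) < 1 / (p : ℚ) := by positivity
    rw [he] at h8
    linarith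

end Break

end Fermat.Agent.Lib.S59

end
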