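/-
PROGRAMME (R2) = S59, node [MRP-mult] (helper6, prefix `s59q_`): **the displacement lemma at a prime of
MULTIPLICATIVE reduction**, on the Legendre-type model `Y² = X (X − δ)(X − ε)` over a valued field
`(K, v)` (`v δ = m > 0`, `v ε = 0`, `v 2 = 0`).

Two points `P = (X, Y)`, `P' = (X', Y')` (`P' = τ P` in the application, `τ` an inertia element of
order `p`), `X' ≠ X`, `X` integral, `v X < m`, `P' − P` in the kernel of reduction with
`v x(P' − P) ≥ −2c`.  Then, with `d ≤ c` the opposite of the valuation of the slope of the chord: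
* `v X = 0`, `v Y = 0`      : `v (X' − X) ≤ c`;
* `v X = 0`, `v Y > 0`      : `v (Y' − Y) ≤ c`;
* `0 < v X = a < m` (node)  : `v Y = a` and `v (Y' − Y) ≤ a + c`.
No formal groups: the chord formula `x(P' − P) = ℓ² + (δ + ε) − X' − X` and the relation
`(Y' − Y)(Y' + Y) = (X' − X)(X'² + X'X + X² − (δ+ε)(X'+X) + δε)`.
-/
import Fermat.Agent.Lib.S59.BDisp
import Fermat.Agent.Lib.S59.BOrdSign
import Fermat.Agent.Lib.Frey.Defs

set_option autoImplicit false
set_option linter.unusedSectionVars false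

namespace Fermat.Agent.Lib.S59

open WeierstrassCurve Fermat.Agent.Lib.Frey

section Abs

variable {K : Type*} [Field K] [DecidableEq K] (v : AddValuation K (WithTop ℚ)) {δ ε : K}

/-- the slope of the chord through two integral points whose difference lies in the kernel of
reduction with `v x ≥ −2c` has valuation `−d`, `0 < d ≤ c`. -/
theorem s59q_slope (hδ : 0 ≤ v δ) (hε : 0 ≤ v ε) {X Y X' Y' : K}
    (h : (fl_curve δ ε).toAffine.Nonsingular X Y) (h' : (fl_curve δ ε).toAffine.Nonsingular X' Y')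
    (hxx : X' ≠ X) (hX : 0 ≤ v X) (hX' : 0 ≤ v X') {c : ℚ}
    (hQ : ∀ (xq yq : K) (hq : (fl_curve δ ε).toAffine.Nonsingular xq yq),
      Affine.Point.some X' Y' h' - Affine.Point.some X Y h = Affine.Point.some xq yq hq →
        v xq < 0 ∧ ((-(2 * c) : ℚ) : WithTop ℚ) ≤ v xq) :
    ∃ d : ℚ, 0 < d ∧ d ≤ c ∧ v ((Y' + Y) / (X' - X)) = ((-d : ℚ) : WithTop ℚ) := by
  obtain ⟨hQns, hQe⟩ := s59b_sub_some (fl_curve δ ε).toAffine h h' hxx
  obtain ⟨hneg, hge⟩ := hQ _ _ hQns hQe
  have hnY : (fl_curve δ ε).toAffine.negY X Y = -Y := by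
    simp [Affine.negY]
  rw [hnY, sub_neg_eq_add] at hneg hge
  set ℓ := (Y' + Y) / (X' - X) with hℓ
  have h1 : 0 ≤ v (fl_curve δ ε).toAffine.a₁ := by
    show 0 ≤ v (0 : K)
    rw [v.map_zero]; exact le_top
  have h2 : 0 ≤ v (fl_curve δ ε).toAffine.a₂ := by
    show 0 ≤ v (-(δ + ε))
    rw [v.map_neg]; exact s59b_v_add_ge v hδ hε
  -- the slope has negative valuation
  have hℓneg : v ℓ < 0 := by
    by_contra hcon
    rw [not_lt] at hcon
    have e : (fl_curve δ ε).toAffine.addX X' X ℓ = ℓ ^ 2 + (δ + ε) - X' - X := by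
      simp only [Affine.addX, fl_curve_a₁, fl_curve_a₂]
      ring
    rw [e] at hneg
    have : 0 ≤ v (ℓ ^ 2 + (δ + ε) - X' - X) := by
      refine s59b_v_sub_ge v (s59b_v_sub_ge v (s59b_v_add_ge v ?_ (s59b_v_add_ge v hδ hε)) hX') hX
      rw [v.map_pow]; exact nsmul_nonneg hcon 2
    exact absurd hneg (not_lt.mpr this)
  have hℓ0 : ℓ ≠ 0 := by
    rintro e0
    rw [e0, v.map_zero] at hℓneg
    exact absurd hℓneg (not_lt.mpr le_top)
  obtain ⟨r, hr⟩ := s59b_v_coe v hℓ0
  have hr0 : r < 0 := by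
    rw [hr] at hℓneg
    exact_mod_cast hℓneg
  have hr' : v ℓ = ((-(-r) : ℚ) : WithTop ℚ) := by rw [neg_neg]; exact hr
  have hX2 := s59b_v_addX v (fl_curve δ ε) h1 h2 hX' hX (d := -r) (by linarith) hr'
  rw [hX2, WithTop.coe_le_coe] at hge
  exact ⟨-r, by linarith, by linarith, hr'⟩

/-- the relation between the two increments on the Legendre-type model. -/
theorem s59q_leg_rel {X Y X' Y' : K} (h : (fl_curve δ ε).toAffine.Nonsingular X Y)
    (h' : (fl_curve δ ε).toAffine.Nonsingular X' Y') :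
    (Y' - Y) * (Y' + Y) =
      (X' - X) * (X' ^ 2 + X' * X + X ^ 2 - (δ + ε) * (X' + X) + δ * ε) := by
  have e := (fl_curve_equation_iff δ ε X Y).mp h.1
  have e' := (fl_curve_equation_iff δ ε X' Y').mp h'.1
  linear_combination e' - e

/-- **the displacement lemma at a multiplicative prime** (Legendre-type model). -/
theorem s59q_disp_leg {m : ℚ} (hm : 0 < m) (hδ : v δ = (m : ℚ)) (hε : v ε = 0)
    (h2 : v (2 : K) = 0) {X Y X' Y' : K}
    (h : (fl_curve δ ε).toAffine.Nonsingular X Y) (h' : (fl_curve δ ε).toAffine.Nonsingular X' Y')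
    (hxx : X' ≠ X) (hX : 0 ≤ v X) (hXm : v X < (m : WithTop ℚ)) (hdx : 0 < v (X' - X))
    (hdy0 : 0 < v (Y' - Y)) (hdy : Y ≠ 0 → v Y < v (Y' - Y)) {c : ℚ}
    (hQ : ∀ (xq yq : K) (hq : (fl_curve δ ε).toAffine.Nonsingular xq yq),
      Affine.Point.some X' Y' h' - Affine.Point.some X Y h = Affine.Point.some xq yq hq →
        v xq < 0 ∧ ((-(2 * c) : ℚ) : WithTop ℚ) ≤ v xq) :
    v (X' - X) ≤ (c : WithTop ℚ) ∨
      (0 ≤ v Y ∧ Y' ≠ Y ∧ v (Y' - Y) ≤ (c : WithTop ℚ)) ∨
      ∃ a : ℚ, 0 < a ∧ v X = (a : WithTop ℚ) ∧ v Y = (a : WithTop ℚ) ∧ Y' ≠ Y ∧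
        v (Y' - Y) ≤ ((a + c : ℚ) : WithTop ℚ) := by
  have hε' : v ε = ((0 : ℚ) : WithTop ℚ) := by rw [hε]; rfl
  have h2' : v (2 : K) = ((0 : ℚ) : WithTop ℚ) := by rw [h2]; rfl
  have hδ0 : 0 ≤ v δ := by
    rw [hδ]; exact_mod_cast hm.le
  have hX' : 0 ≤ v X' := by
    have e : X' = (X' - X) + X := by ring
    rw [e]; exact s59b_v_add_ge v hdx.le hX
  obtain ⟨d, hd0, hdc, hℓ⟩ := s59q_slope v hδ0 hε.ge h h' hxx hX hX' hQ
  have hE0 : X' - X ≠ 0 := sub_ne_zero.mpr hxx
  obtain ⟨r, hr⟩ := fuc_exists_ex v hE0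
  have hr0 : 0 < r := by
    rw [hr] at hdx; exact_mod_cast hdx
  -- the value of `Y' + Y`
  have hS0 : Y' + Y ≠ 0 := by
    intro e0
    rw [e0, zero_div, v.map_zero] at hℓ
    exact WithTop.top_ne_coe hℓ
  have hS : v (Y' + Y) = ((r - d : ℚ) : WithTop ℚ) := by
    obtain ⟨s, hs⟩ := fuc_exists_ex v hS0
    rw [v.map_div, hs, hr, ← WithTop.LinearOrderedAddCommGroup.coe_sub, WithTop.coe_eq_coe] at hℓ
    rw [hs, WithTop.coe_eq_coe]; linarith
  have rel := s59q_leg_rel (δ := δ) (ε := ε) h h'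
  have eqn := (fl_curve_equation_iff δ ε X Y).mp h.1
  have hSsum : Y' + Y = 2 * Y + (Y' - Y) := by ring
  rcases hX.lt_or_eq with hXpos | hX0
  · -- the node case
    right; right
    have hXne : X ≠ 0 := by
      rintro rfl
      rw [v.map_zero] at hXm
      exact absurd hXm (not_lt.mpr le_top)
    obtain ⟨a, ha⟩ := fuc_exists_ex v hXne
    have ha0 : 0 < a := by
      rw [ha] at hXpos; exact_mod_cast hXpos
    have ham : a < m := by
      rw [ha] at hXm; exact_mod_cast hXm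
    obtain ⟨hY, -⟩ := s59b_val_Y v hδ hε ha0 ham eqn ha
    have hY0 : Y ≠ 0 := fuc_ne_zero_of_ex v hY
    have hD := hdy hY0
    rw [hY] at hD
    have h2Y : v (2 * Y) = (a : WithTop ℚ) := by
      rw [fuc_ex_mul v h2' hY]; congr 1; ring
    have hS' : v (Y' + Y) = (a : WithTop ℚ) := by
      rw [hSsum]; exact s59b_ex_add_lt v h2Y hD
    have hra : r - d = a := fuc_ex_unique v hS hS'
    have hr' : v (X' - X) = ((a + d : ℚ) : WithTop ℚ) := by
      rw [hr]; congr 1; linarith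
    have hElt : (a : WithTop ℚ) < v (X' - X) := by
      rw [hr']; exact_mod_cast (by linarith : a < a + d)
    -- the bracket has value `a`
    have h2X : v (2 * X) = (a : WithTop ℚ) := by
      rw [fuc_ex_mul v h2' ha]; congr 1; ring
    have hXX : v (X' + X) = (a : WithTop ℚ) := by
      have e : X' + X = 2 * X + (X' - X) := by ring
      rw [e]; exact s59b_ex_add_lt v h2X hElt
    have hX'a : v X' = (a : WithTop ℚ) := by
      have e : X' = X + (X' - X) := by ring
      rw [e]; exact s59b_ex_add_lt v ha hElt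
    have hδε : v (δ + ε) = ((0 : ℚ) : WithTop ℚ) :=
      fuc_ex_add' v hε' hδ.ge hm
    have hmain : v ((δ + ε) * (X' + X)) = (a : WithTop ℚ) := by
      rw [fuc_ex_mul v hδε hXX]; congr 1; ring
    have hB : v (X' ^ 2 + X' * X + X ^ 2 - (δ + ε) * (X' + X) + δ * ε) = (a : WithTop ℚ) := by
      have e : X' ^ 2 + X' * X + X ^ 2 - (δ + ε) * (X' + X) + δ * ε =
          -((δ + ε) * (X' + X)) + (X' ^ 2 + X' * X + X ^ 2 + δ * ε) := by ring
      rw [e]
      refine s59b_ex_add_lt v (by rw [v.map_neg]; exact hmain) ?_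
      refine s59b_lt_add v (s59b_lt_add v (s59b_lt_add v ?_ ?_) ?_) ?_
      · rw [fuc_ex_sq v hX'a]; exact_mod_cast (by linarith : a < 2 * a)
      · rw [fuc_ex_mul v hX'a ha]; exact_mod_cast (by linarith : a < a + a)
      · rw [fuc_ex_sq v ha]; exact_mod_cast (by linarith : a < 2 * a)
      · rw [fuc_ex_mul v hδ hε']; exact_mod_cast (by linarith : a < m + 0)
    have hrhs : v ((X' - X) * (X' ^ 2 + X' * X + X ^ 2 - (δ + ε) * (X' + X) + δ * ε)) =
        ((a + d + a : ℚ) : WithTop ℚ) := fuc_ex_mul v hr' hB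
    rw [← rel] at hrhs
    have hDv := fuc_ex_of_mul v hrhs hS'
    have hD0 : Y' - Y ≠ 0 := fuc_ne_zero_of_ex v hDv
    refine ⟨a, ha0, ha, hY, sub_ne_zero.mp hD0, ?_⟩
    rw [hDv, WithTop.coe_le_coe]
    linarith
  · -- `X` is a unit
    have hX0' : v X = ((0 : ℚ) : WithTop ℚ) := by rw [← hX0]; rfl
    have hXδ : v (X - δ) = ((0 : ℚ) : WithTop ℚ) := fuc_ex_sub v hX0' hδ.ge hm
    -- integrality of `Y`
    have hYint : 0 ≤ v Y := by
      by_contra hcon
      rw [not_le] at hcon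
      have hY0 : Y ≠ 0 := (s59b_v_inv_pos v hcon).1
      obtain ⟨s, hs⟩ := fuc_exists_ex v hY0
      have hs0 : s < 0 := by
        rw [hs] at hcon; exact_mod_cast hcon
      have h3 := fuc_ex_sq v hs
      rw [eqn] at h3
      have h4 : ((0 + 0 + 0 : ℚ) : WithTop ℚ) ≤ v (X * (X - δ) * (X - ε)) := by
        refine fuc_lb_mul v (fuc_lb_mul v hX0'.ge hXδ.ge) ?_
        exact fuc_lb_sub v hX0'.ge hε'.ge le_rfl le_rfl
      rw [h3, WithTop.coe_le_coe] at h4
      linarith
    by_cases hY : 0 < v Y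
    · -- `Y` in the maximal ideal: use `Y`
      right; left
      have hXε : 0 < v (X - ε) := by
        have h3 : 0 < v (Y ^ 2) := by
          rw [v.map_pow]
          exact lt_of_lt_of_le hY (by rw [two_nsmul]; exact le_add_of_nonneg_left hYint)
        rw [eqn, v.map_mul, v.map_mul, hX0', hXδ, ← WithTop.coe_add] at h3
        simpa using h3
      -- the derivative is a unit
      have hf' : v ((X - ε) * (2 * X - δ) + X * (X - δ)) = ((0 : ℚ) : WithTop ℚ) := by
        have h5 : v (X * (X - δ)) = ((0 : ℚ) : WithTop ℚ) := by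
          rw [fuc_ex_mul v hX0' hXδ]; congr 1; ring
        rw [add_comm]
        refine s59b_ex_add_lt v h5 ?_
        have h6 : 0 ≤ v (2 * X - δ) :=
          s59b_v_sub_ge v (s59b_v_mul_ge v h2.ge hX) hδ0
        rw [v.map_mul]
        calc ((0 : ℚ) : WithTop ℚ) = 0 := rfl
          _ < v (X - ε) := hXε
          _ = v (X - ε) + 0 := (add_zero _).symm
          _ ≤ v (X - ε) + v (2 * X - δ) := by gcongr
      have hB : v (X' ^ 2 + X' * X + X ^ 2 - (δ + ε) * (X' + X) + δ * ε) =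
          ((0 : ℚ) : WithTop ℚ) := by
        have e : X' ^ 2 + X' * X + X ^ 2 - (δ + ε) * (X' + X) + δ * ε =
            ((X - ε) * (2 * X - δ) + X * (X - δ)) + (X' - X) * (X' + 2 * X - (δ + ε)) := by ring
        rw [e]
        refine s59b_ex_add_lt v hf' ?_
        have h6 : 0 ≤ v (X' + 2 * X - (δ + ε)) :=
          s59b_v_sub_ge v (s59b_v_add_ge v hX' (s59b_v_mul_ge v h2.ge hX))
            (s59b_v_add_ge v hδ0 hε.ge)
        rw [v.map_mul]
        calc ((0 : ℚ) : WithTop ℚ) = 0 := rfl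
          _ < v (X' - X) := hdx
          _ = v (X' - X) + 0 := (add_zero _).symm
          _ ≤ v (X' - X) + v (X' + 2 * X - (δ + ε)) := by gcongr
      have hrhs : v ((X' - X) * (X' ^ 2 + X' * X + X ^ 2 - (δ + ε) * (X' + X) + δ * ε)) =
          ((r + 0 : ℚ) : WithTop ℚ) := fuc_ex_mul v hr hB
      rw [← rel] at hrhs
      have hDv := fuc_ex_of_mul v hrhs hS
      have hD0 : Y' - Y ≠ 0 := fuc_ne_zero_of_ex v hDv
      refine ⟨hYint, sub_ne_zero.mp hD0, ?_⟩
      rw [hDv, WithTop.coe_le_coe]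
      linarith
    · -- `Y` a unit: use `X`
      left
      have hY0 : v Y = ((0 : ℚ) : WithTop ℚ) := by
        have := le_antisymm (not_lt.mp hY) hYint
        rw [this]; rfl
      have h2Y : v (2 * Y) = ((0 : ℚ) : WithTop ℚ) := by
        rw [fuc_ex_mul v h2' hY0]; congr 1; ring
      have hS' : v (Y' + Y) = ((0 : ℚ) : WithTop ℚ) := by
        rw [hSsum]; exact s59b_ex_add_lt v h2Y hdy0
      have hrd : r - d = 0 := fuc_ex_unique v hS hS'
      rw [hr, WithTop.coe_le_coe]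
      linarith

end Abs

end Fermat.Agent.Lib.S59
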