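/-
PROGRAMME (R2) = S59, node [STRICT-p], half (T2) [W-très] (helper6, prefix `s59q_`), part C: **the LOWER displacement bound
near the node**, on the Legendre-type model `Y² = X (X − δ)(X − ε)` over a valued field `(K, v)` (`v δ = m > 0`, `v ε = 0`).

Two points `P = (X, Y)`, `P' = (X', Y')` with `v X = v X' = a ∈ (0, m)`, `X' ≠ X`, and `P' − P` in the kernel of reduction with
`v x(P' − P) ≤ −2w` (`w > 0`).  Then `a + w ≤ v (Y' − Y)`.
(Chord formula `x(P' − P) = ℓ² + (δ+ε) − X' − X`, `ℓ = (Y'+Y)/(X'−X)`, and the relation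
`(Y' − Y)(Y' + Y) = (X' − X)(X'² + X'X + X² − (δ+ε)(X'+X) + δε)`; no formal groups.)
-/
import Fermat.Agent.Lib.S59.QMultDisp

set_option autoImplicit false
set_option linter.unusedSectionVars false

namespace Fermat.Agent.Lib.S59

open WeierstrassCurve Fermat.Agent.Lib.Frey

section Abs

variable {K : Type*} [Field K] [DecidableEq K] (v : AddValuation K (WithTop ℚ)) {δ ε : K}

/-- **the lower displacement bound near the node.** -/
theorem s59q_disp_lower {m : ℚ} (hm : 0 < m) (hδ : v δ = (m : ℚ)) (hε : v ε = 0)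
    {X Y X' Y' : K}
    (h : (fl_curve δ ε).toAffine.Nonsingular X Y) (h' : (fl_curve δ ε).toAffine.Nonsingular X' Y')
    (hxx : X' ≠ X) {a : ℚ} (ha0 : 0 < a) (ham : a < m) (hX : v X = (a : WithTop ℚ))
    (hX' : v X' = (a : WithTop ℚ)) {w : ℚ} (hw : 0 < w)
    (hQ : ∀ (xq yq : K) (hq : (fl_curve δ ε).toAffine.Nonsingular xq yq),
      Affine.Point.some X' Y' h' - Affine.Point.some X Y h = Affine.Point.some xq yq hq →
        v xq ≤ ((-(2 * w) : ℚ) : WithTop ℚ)) :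
    ((a + w : ℚ) : WithTop ℚ) ≤ v (Y' - Y) := by
  have hε' : v ε = ((0 : ℚ) : WithTop ℚ) := by rw [hε]; rfl
  have hδ0 : 0 ≤ v δ := by
    rw [hδ]; exact_mod_cast hm.le
  have hX0 : 0 ≤ v X := by rw [hX]; exact_mod_cast ha0.le
  have hX'0 : 0 ≤ v X' := by rw [hX']; exact_mod_cast ha0.le
  obtain ⟨hQns, hQe⟩ := s59b_sub_some (fl_curve δ ε).toAffine h h' hxx
  have hle := hQ _ _ hQns hQe
  have hnY : (fl_curve δ ε).toAffine.negY X Y = -Y := by
    simp [Affine.negY]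
  rw [hnY, sub_neg_eq_add] at hle
  set ℓ := (Y' + Y) / (X' - X) with hℓ
  have h1 : 0 ≤ v (fl_curve δ ε).toAffine.a₁ := by
    show 0 ≤ v (0 : K)
    rw [v.map_zero]; exact le_top
  have h2 : 0 ≤ v (fl_curve δ ε).toAffine.a₂ := by
    show 0 ≤ v (-(δ + ε))
    rw [v.map_neg]; exact s59b_v_add_ge v hδ0 hε.ge
  have hneg2w : ((-(2 * w) : ℚ) : WithTop ℚ) < 0 := by
    have : (-(2 * w) : ℚ) < 0 := by linarith
    exact_mod_cast this
  -- the slope has negative valuation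
  have hℓneg : v ℓ < 0 := by
    by_contra hcon
    rw [not_lt] at hcon
    have e : (fl_curve δ ε).toAffine.addX X' X ℓ = ℓ ^ 2 + (δ + ε) - X' - X := by
      simp only [Affine.addX, fl_curve_a₁, fl_curve_a₂]
      ring
    rw [e] at hle
    have : 0 ≤ v (ℓ ^ 2 + (δ + ε) - X' - X) := by
      refine s59b_v_sub_ge v (s59b_v_sub_ge v (s59b_v_add_ge v ?_ (s59b_v_add_ge v hδ0 hε.ge)) hX'0) hX0
      rw [v.map_pow]; exact nsmul_nonneg hcon 2
    exact absurd (lt_of_le_of_lt hle hneg2w) (not_lt.mpr this)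
  have hℓ0 : ℓ ≠ 0 := by
    rintro e0
    rw [e0, v.map_zero] at hℓneg
    exact absurd hℓneg (not_lt.mpr le_top)
  obtain ⟨r, hr⟩ := s59b_v_coe v hℓ0
  have hr0 : r < 0 := by
    rw [hr] at hℓneg
    exact_mod_cast hℓneg
  have hr' : v ℓ = ((-(-r) : ℚ) : WithTop ℚ) := by rw [neg_neg]; exact hr
  have hX2 := s59b_v_addX v (fl_curve δ ε) h1 h2 hX'0 hX0 (d := -r) (by linarith) hr'
  rw [hX2, WithTop.coe_le_coe] at hle
  have hdw : w ≤ -r := by linarith
  -- the value of `Y' + Y`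
  have hS0 : Y' + Y ≠ 0 := by
    intro e0
    apply hℓ0
    rw [hℓ, e0, zero_div]
  have hE0 : X' - X ≠ 0 := sub_ne_zero.mpr hxx
  obtain ⟨r₁, hr₁⟩ := fuc_exists_ex v hE0
  obtain ⟨s, hs⟩ := fuc_exists_ex v hS0
  have hsr : s = r₁ + r := by
    have h3 : v (ℓ * (X' - X)) = (s : WithTop ℚ) := by
      rw [hℓ, div_mul_cancel₀ _ hE0, hs]
    have h4 := fuc_ex_mul v hr hr₁
    rw [h3] at h4
    have : s = r + r₁ := by exact_mod_cast h4
    linarith
  by_cases hD0 : Y' - Y = 0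
  · rw [hD0, v.map_zero]; exact le_top
  obtain ⟨t, ht⟩ := fuc_exists_ex v hD0
  have rel := s59q_leg_rel (δ := δ) (ε := ε) h h'
  -- the bracket has value `≥ a`
  have hB : ((a : ℚ) : WithTop ℚ) ≤
      v (X' ^ 2 + X' * X + X ^ 2 - (δ + ε) * (X' + X) + δ * ε) := by
    have hδε : ((0 : ℚ) : WithTop ℚ) ≤ v (δ + ε) :=
      fuc_lb_add v (s := m) (t := 0) hδ.ge hε'.ge hm.le le_rfl
    have hXX : ((a : ℚ) : WithTop ℚ) ≤ v (X' + X) :=
      fuc_lb_add v hX'.ge hX.ge le_rfl le_rfl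
    refine fuc_lb_add v (s := a) (t := m + 0) ?_ (fuc_lb_mul v hδ.ge hε'.ge) le_rfl (by linarith)
    refine fuc_lb_sub v (s := a) (t := 0 + a) ?_ (fuc_lb_mul v hδε hXX) le_rfl (by linarith)
    refine fuc_lb_add v (s := a) (t := 2 * a) ?_ (fuc_lb_sq v hX.ge) le_rfl (by linarith)
    exact fuc_lb_add v (s := 2 * a) (t := a + a) (fuc_lb_sq v hX'.ge) (fuc_lb_mul v hX'.ge hX.ge)
      (by linarith) (by linarith)
  have hrhs : ((r₁ + a : ℚ) : WithTop ℚ) ≤
      v ((X' - X) * (X' ^ 2 + X' * X + X ^ 2 - (δ + ε) * (X' + X) + δ * ε)) :=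
    fuc_lb_mul v hr₁.ge hB
  rw [← rel, fuc_ex_mul v ht hs, WithTop.coe_le_coe] at hrhs
  rw [ht, WithTop.coe_le_coe]
  linarith

end Abs

end Fermat.Agent.Lib.S59
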