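/-
PROGRAMME (R2) = S59, node [STRICT-p], half (T2) [W-très] (helper6, prefix `s59q_`), part D: **the W-side, at the level of
points.**  `W / ℤ` multiplicative at the odd prime `p` (`p ∣ Δ`, `p ∤ c₄`), `A` a place of `ℚ̄` over `p`, `v = ford_vQ A`,
`E = E₁ ⊂ W(ℚ̄)` the kernel of reduction.

* `s59q_exists_ordData` : helper2's `s59b_exists_ordData` with the EXPLICIT subgroup `E = {P | fl_InE1 v P}`;
* `s59q_tW`, `s59q_tW_smul` : the Galois-equivariant parameter `x / y` on `W(ℚ̄)`;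
* `s59q_tors_x_le` : a non-zero multiple `R` of a point `Q ∈ E[p]` whose inertia conjugates are multiples of `Q` has
  `v x_L(R) ≤ −2/(p−1)` in the Legendre coordinates (orbit of size `≤ p − 1`);
* **`s59q_W_break`** : if `p ∤ v_p(Δ)`, `P₁ ∈ W[p] ∖ E`, `Q ∈ E[p]`, `τ P₁ = P₁ + j(τ) Q` on inertia, then NO Kummer generator
  `β` of `τ ↦ ζ^{j(τ)}` has integral valuation.
-/
import Fermat.Agent.Lib.S59.QTresBreakB
import Fermat.Agent.Lib.S59.QTresDisp
import Fermat.Agent.Lib.S59.QMultSide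

set_option autoImplicit false
set_option linter.unusedSectionVars false
set_option linter.unusedVariables false
set_option linter.style.haveILetI false
set_option synthInstance.maxHeartbeats 400000

namespace Fermat.Agent.Lib.S59

open WeierstrassCurve WeierstrassCurve.Affine WeierstrassCurve.Affine.Point IsLocalRing
  Fermat.Agent.Lib.Frey Fermat.Agent.Lib.S41 Fermat.Agent.Lib.S58 Fermat.Agent.Lib.S56
  Fermat.Agent.Lib.S13

local notation "Kb" => AlgebraicClosure ℚ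
local notation "Γℚ" => (AlgebraicClosure ℚ ≃ₐ[ℚ] AlgebraicClosure ℚ)

noncomputable section

/-- **the local data at a multiplicative odd prime, with the explicit subgroup `E₁`.**
(`s59b_exists_ordData` with one more output.) -/
theorem s59q_exists_ordData (W : WeierstrassCurve ℤ) {p : ℕ} (hp : p.Prime) (hp2 : p ≠ 2)
    (hΔ : W.Δ ≠ 0) (hbad : (p : ℤ) ∣ W.Δ) (hc4 : ¬ (p : ℤ) ∣ W.c₄) (A : ValuationSubring Kb)
    (hA : A.LiesOverPrime p) : ∃ E : AddSubgroup (s58_Pt W), s59b_OrdData W p A E ∧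
      ∀ P : s58_Pt W, P ∈ E ↔ fl_InE1 (s59b_v hp hA) P := by
  classical
  obtain ⟨M⟩ := s59b_exists_model (hp := hp) (hA := hA) W hp2 hΔ hbad hc4
  have : IsAlgClosed (ResidueField A) := s41a_isAlgClosed_residueField A
  have : CharP (ResidueField A) p := s41a_charP_residueField A hp hA
  set v := s59b_v hp hA with hv
  have H := M.leg
  set φ := s59b_phi M with hφ
  have hE : ∀ Q, fl_InE1 v (φ Q) ↔ fl_InE1 v Q := s59b_phi_E1 M
  have hE' : ∀ P : s58_Pt W, fl_InE1 v P ↔ fl_InE1 v (φ.symm P) := fun P => by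
    rw [← hE, φ.apply_symm_apply]
  let E : AddSubgroup (s58_Pt W) :=
    { carrier := {P | fl_InE1 v P}
      zero_mem' := Or.inl rfl
      add_mem' := fun {P Q} hP hQ => by
        show fl_InE1 v (P + Q)
        rw [hE', map_add]
        exact s59b_E1_add H ((hE' P).mp hP) ((hE' Q).mp hQ)
      neg_mem' := fun {P} hP => fab_E1_neg v hP }
  have hmem : ∀ P : s58_Pt W, P ∈ E ↔ fl_InE1 v P := fun P => Iff.rfl
  have hs0 : ∀ σ : Γℚ, σ • (0 : s58_Pt W) = 0 := fun σ =>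
    fvc_smul_zero' (W.map (Int.castRingHom ℚ)) σ
  have hsn : ∀ (σ : Γℚ) (n : ℕ) (P : s58_Pt W), σ • (n • P) = n • (σ • P) := fun σ n P =>
    map_nsmul (DistribSMul.toAddMonoidHom (s58_Pt W) σ) n P
  have key : ∀ (σ : Γℚ) (n : ℕ) (P : s58_Pt W), p ^ n • P = 0 → P = 0 ∨
      ∃ (x y : Kb) (h : (s41a_WK A (s59b_WL A M.δ M.ε)).toAffine.Nonsingular x y)
        (h' : (s41a_WK A (s59b_WL A M.δ M.ε)).toAffine.Nonsingular
          (σ x + (σ M.e₁ - M.e₁)) (σ y)),
        P = φ (Point.some x y h) ∧ σ • P = φ (Point.some _ _ h') ∧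
        p ^ n • (Point.some x y h : s59b_PtK A M.δ M.ε) = 0 ∧
        p ^ n • (Point.some _ _ h' : s59b_PtK A M.δ M.ε) = 0 := by
    intro σ n P hP
    rcases hQ : φ.symm P with _ | ⟨x, y, h⟩
    · left
      have h0 : φ.symm P = 0 := hQ
      rw [← φ.apply_symm_apply P, h0, _root_.map_zero]
    · right
      obtain ⟨h', he⟩ := s59b_smul_phi_some M σ h
      have hP' : P = φ (Point.some x y h) := by rw [← hQ, φ.apply_symm_apply]
      have hσP : σ • P = φ (Point.some _ _ h') := by rw [← he, ← hP']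
      refine ⟨x, y, h, h', hP', hσP, ?_, ?_⟩
      · apply φ.injective
        rw [map_nsmul, ← hP', hP, _root_.map_zero]
      · apply φ.injective
        rw [map_nsmul, ← hσP, ← hsn, hP, hs0, _root_.map_zero]
  refine ⟨E, ⟨?_, ?_, ?_, ?_, ?_, ?_⟩, hmem⟩
  · obtain ⟨P, hP, hP1⟩ := s59b_exists_torsion_not_E1 H hp
    exact ⟨φ P, by rw [← map_nsmul, hP, _root_.map_zero], fun h => hP1 ((hE P).mp h)⟩
  · obtain ⟨R, hR, hR0, hR1⟩ := s59b_exists_E1_torsion H hp
    refine ⟨φ R, by rw [← map_nsmul, hR, _root_.map_zero], fun h => hR0 ?_, (hE R).mpr hR1⟩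
    exact φ.injective (h.trans (_root_.map_zero φ).symm)
  · intro Q hQ
    obtain ⟨S, hS, hSQ⟩ := s59b_E1_divisible H hp ((hE' Q).mp hQ)
    refine ⟨φ S, (hE S).mpr hS, ?_⟩
    rw [← map_nsmul, hSQ, φ.apply_symm_apply]
  · intro σ hσ P hP
    rcases hP with rfl | ⟨x, y, h, rfl, hx⟩
    · exact Or.inl (hs0 σ)
    · obtain ⟨h', he⟩ := fvc_smul_some (W.map (Int.castRingHom ℚ)) σ h
      refine Or.inr ⟨σ x, σ y, h', he, ?_⟩
      rw [ford_vQ_decomposition hp hA σ hσ]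
      exact hx
  · intro σ hσ n P hP
    rcases key σ n P hP with rfl | ⟨x, y, h, h', hP', hσP, ht, ht'⟩
    · left
      rw [hs0, sub_zero]
      exact E.zero_mem
    · have hσv : ∀ a : Kb, v ((σ : Kb →+* Kb) a) = v a :=
        fun a => ford_vQ_decomposition hp hA σ hσ a
      rcases s59b_twist_pm H hp (σ := (σ : Kb →+* Kb)) hσv (M.hD σ hσ) h h' n ht ht' with h1 | h1
      · left
        have e : σ • P - P = φ (Point.some _ _ h' - Point.some x y h) := by
          rw [map_sub, ← hσP, ← hP']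
        rw [hmem, e, hE]
        exact h1
      · right
        have e : σ • P + P = φ (Point.some _ _ h' + Point.some x y h) := by
          rw [map_add, ← hσP, ← hP']
        rw [hmem, e, hE]
        exact h1
  · intro σ hσ n P hP
    rcases key σ n P hP with rfl | ⟨x, y, h, h', hP', hσP, ht, ht'⟩
    · rw [hs0, sub_zero]
      exact E.zero_mem
    · obtain ⟨hσv, hσI⟩ := ford_vQ_inertia hp hA σ hσ
      have hσD := (ford_inertia_spec A σ hσ).1
      have h1 := s59b_twist_plus H hp hp2 (σ := (σ : Kb →+* Kb)) hσv hσI (M.hD σ hσD) h h' n ht ht'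
      have e : σ • P - P = φ (Point.some _ _ h' - Point.some x y h) := by
        rw [map_sub, ← hσP, ← hP']
      rw [hmem, e, hE]
      exact h1

variable {W : WeierstrassCurve ℤ}

/-- the parameter `x / y` of a point of `W(ℚ̄)` (`0` at the origin). -/
def s59q_tW : s58_Pt W → Kb
  | .zero => 0
  | .some x y _ => x / y

theorem s59q_tW_some {x y : Kb} (h : ((W.map (Int.castRingHom ℚ))⁄Kb).Nonsingular x y) :
    s59q_tW (Point.some x y h : s58_Pt W) = x / y := rfl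

/-- Galois equivariance of the parameter. -/
theorem s59q_tW_smul (σ : Γℚ) (R : s58_Pt W) : σ (s59q_tW R) = s59q_tW (σ • R) := by
  rcases R with _ | ⟨x, y, h⟩
  · have h0 : σ • (0 : s58_Pt W) = 0 := smul_zero (A := s58_Pt W) σ
    show σ (s59q_tW (0 : s58_Pt W)) = s59q_tW (σ • (0 : s58_Pt W))
    rw [h0]
    exact _root_.map_zero σ
  · obtain ⟨h', hσ⟩ := s59b_smul_some W σ h
    rw [hσ, s59q_tW_some, s59q_tW_some, map_div₀]

variable {A : ValuationSubring Kb} {p : ℕ} {hp : p.Prime} {hA : A.LiesOverPrime p}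

/-- `(c * p + d) • Q = d • Q` for a `p`-torsion point. -/
theorem s59q_mod_nsmul {G : Type*} [AddCommGroup G] {Q : G} {p : ℕ} (hpQ : p • Q = 0) (n : ℕ) :
    n • Q = (n % p) • Q := by
  conv_lhs => rw [← Nat.div_add_mod n p]
  rw [add_smul, mul_comm, mul_smul, hpQ, smul_zero, zero_add]

/-- **the torsion bound**: in the Legendre coordinates, a non-zero point `R` of the kernel of reduction which is a multiple of
a `p`-torsion point `Q` all of whose inertia conjugates are multiples of `Q` has `v x(R) ≤ −2/(p−1)`. -/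
theorem s59q_tors_x_le (M : s59b_Model W A hp hA) (Q : s58_Pt W) (hpQ : p • Q = 0)
    (hQstab : ∀ τ ∈ A.inertiaSubgroupIn ℚ, ∃ k : ℕ, τ • Q = k • Q) {xq yq : Kb}
    (hq : (s41a_WK A (s59b_WL A M.δ M.ε)).toAffine.Nonsingular xq yq)
    (hxq : s59b_v hp hA xq < 0) (i : ℕ)
    (hi : s59b_phi M (Point.some xq yq hq) = i • Q) :
    s59b_v hp hA xq ≤ ((-(2 * (1 / ((p : ℚ) - 1))) : ℚ) : WithTop ℚ) := by
  classical
  set v := s59b_v hp hA with hv
  have H := M.leg
  have hp1 : (1 : ℚ) < (p : ℚ) := by exact_mod_cast hp.one_lt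
  have hpq : (0 : ℚ) < (p : ℚ) - 1 := by linarith
  have hδ0 : 0 ≤ v (M.δ : Kb) := by
    rw [H.hδ]; exact_mod_cast H.hm.le
  have hql : (fl_curve (M.δ : Kb) (M.ε : Kb)).toAffine.Nonsingular xq yq := hq
  have ha2 : 0 ≤ v (fl_curve (M.δ : Kb) (M.ε : Kb)).a₂ := by
    show 0 ≤ v (-((M.δ : Kb) + (M.ε : Kb)))
    rw [v.map_neg]; exact s59b_v_add_ge v hδ0 H.hε.ge
  have ha4 : 0 ≤ v (fl_curve (M.δ : Kb) (M.ε : Kb)).a₄ := by
    show 0 ≤ v ((M.δ : Kb) * (M.ε : Kb))
    exact s59b_v_mul_ge v hδ0 H.hε.ge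
  have ha6 : 0 ≤ v (fl_curve (M.δ : Kb) (M.ε : Kb)).a₆ := by
    show 0 ≤ v (0 : Kb)
    rw [v.map_zero]; exact le_top
  obtain ⟨r, hr0, hxr, hyr, -⟩ :=
    frd_val_point v (W := fl_curve (M.δ : Kb) (M.ε : Kb)) rfl rfl ha2 ha4 ha6 hql.1 hxq
  -- the `W`-coordinates
  have hsome := s59b_phi_some M hq
  set xW := fvc_X (s59b_C (s59b_EQb W) M.e₁) xq with hxWdef
  set yW := fvc_Y (s59b_C (s59b_EQb W) M.e₁) xq yq with hyWdef
  have hxW : xW = xq + M.e₁ := by
    rw [hxWdef]; simp [fvc_X]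
  have hyW : yW * 2 = 2 * yq +
      (-(((W.a₁ : ℤ) : Kb) * xq) - (((W.a₃ : ℤ) : Kb) + M.e₁ * ((W.a₁ : ℤ) : Kb))) := by
    rw [hyWdef]
    simp only [fvc_Y, s59b_C_u, s59b_C_s, s59b_C_t, Units.val_one, one_pow, one_mul,
      s59b_EQb_a₁, s59b_EQb_a₃]
    ring
  have h2' : v (2 : Kb) = ((0 : ℚ) : WithTop ℚ) := by rw [H.h2]; rfl
  have he₁ : ((0 : ℚ) : WithTop ℚ) ≤ v M.e₁ := M.he₁
  have hvxW : v xW = ((-2 * r : ℚ) : WithTop ℚ) := by
    rw [hxW]; exact fuc_ex_add v hxr he₁ (by linarith)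
  have hint : ∀ z : ℤ, ((0 : ℚ) : WithTop ℚ) ≤ v ((z : ℤ) : Kb) := fun z => s59b_v_int hp hA z
  have hvyW2 : v (yW * 2) = ((0 + -3 * r : ℚ) : WithTop ℚ) := by
    rw [hyW]
    refine fuc_ex_add v (fuc_ex_mul v h2' hyr) (t := -2 * r) ?_ (by linarith)
    refine fuc_lb_sub v (s := 0 + -2 * r) (t := 0) ?_ ?_ (by linarith) (by linarith)
    · rw [v.map_neg]; exact fuc_lb_mul v (hint _) hxr.ge
    · exact fuc_lb_add v (s := 0) (t := 0 + 0) (hint _) (fuc_lb_mul v he₁ (hint _)) le_rfl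
        (by linarith)
  have hvyW : v yW = ((0 + -3 * r - 0 : ℚ) : WithTop ℚ) := fuc_ex_of_mul v hvyW2 h2'
  have hvt : v (xW / yW) = ((-2 * r - (0 + -3 * r - 0) : ℚ) : WithTop ℚ) :=
    s59q_ex_div v hvxW hvyW
  have hvt' : v (xW / yW) = (r : WithTop ℚ) := by
    rw [hvt]; congr 1; ring
  -- the orbit
  set R : s58_Pt W := s59b_phi M (Point.some xq yq hq) with hR
  have htR : s59q_tW R = xW / yW := by
    rw [hsome]; rfl
  have hR0 : R ≠ 0 := by
    rw [hsome]; exact Point.some_ne_zero _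
  have hsub : s56r_orb A (s59q_tW R) ⊆ (Finset.Ico 1 p).image (fun k => s59q_tW (k • Q)) := by
    intro w hw
    obtain ⟨τ, hτ, rfl⟩ := (s56r_mem_orb A).mp hw
    rw [s59q_tW_smul]
    obtain ⟨k, hk⟩ := hQstab τ hτ
    have h1 : τ • R = (i * k) • Q := by
      rw [hi, s59b_smul_nsmul, hk, ← mul_smul]
    have h2 : τ • R = ((i * k) % p) • Q := by
      rw [h1]; exact s59q_mod_nsmul hpQ _
    have h3 : (i * k) % p ≠ 0 := by
      intro h0
      rw [h0, zero_nsmul] at h2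
      apply hR0
      have h4 : τ⁻¹ • (τ • R) = τ⁻¹ • (0 : s58_Pt W) := by rw [h2]
      rw [inv_smul_smul] at h4
      rw [h4]
      exact smul_zero (A := s58_Pt W) τ⁻¹
    rw [h2]
    exact Finset.mem_image.mpr ⟨(i * k) % p,
      Finset.mem_Ico.mpr ⟨Nat.one_le_iff_ne_zero.mpr h3, Nat.mod_lt _ hp.pos⟩, rfl⟩
  have hcard : (s56r_orb A (s59q_tW R)).card ≤ p - 1 :=
    calc (s56r_orb A (s59q_tW R)).card
        ≤ ((Finset.Ico 1 p).image (fun k => s59q_tW (k • Q))).card := Finset.card_le_card hsub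
      _ ≤ (Finset.Ico 1 p).card := Finset.card_image_le
      _ = p - 1 := Nat.card_Ico 1 p
  have h1 := s56r_one_le_card_mul v (Γ := ↥(A.inertiaSubgroupIn ℚ)) (s56r_inertia_int' hp A hA)
    (s56r_inertia_val hp A hA) (s59q_tW R) (s56r_orb A (s59q_tW R)) (fun w => s56r_mem_orb' A) r
    (by rw [htR]; exact hvt') hr0
  have h2 : ((s56r_orb A (s59q_tW R)).card : ℚ) ≤ (p : ℚ) - 1 := by
    have h3 : (((s56r_orb A (s59q_tW R)).card : ℕ) : ℚ) ≤ ((p - 1 : ℕ) : ℚ) := by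
      exact_mod_cast hcard
    rwa [Nat.cast_sub hp.one_lt.le, Nat.cast_one] at h3
  have h3 : (1 : ℚ) ≤ ((p : ℚ) - 1) * r :=
    le_trans h1 (mul_le_mul_of_nonneg_right h2 hr0.le)
  have h4 : 1 / ((p : ℚ) - 1) ≤ r := by
    rw [div_le_iff₀ hpq]; linarith
  rw [hxr, WithTop.coe_le_coe]
  linarith

/-- **THE W-SIDE OF [W-très], at the level of points.**  `W` multiplicative at the odd prime `p`, `p ∤ v_p(Δ_W)`;
`P₁ ∈ W[p]` outside the kernel of reduction, `Q ∈ W[p]` with inertia conjugates in `ℕ Q`, `τ P₁ = P₁ + j(τ) Q` on inertia.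
Then no Kummer generator `β` of the character `τ ↦ ζ^{j(τ)}` of `I_A` has integral valuation. -/
theorem s59q_W_break (hp2 : p ≠ 2) (hΔ : W.Δ ≠ 0) (M : s59b_Model W A hp hA)
    (hpeu : ¬ p ∣ padicValInt p W.Δ)
    (P₁ Q : s58_Pt W) (hpP : p • P₁ = 0) (hP₁ : ¬ fl_InE1 (s59b_v hp hA) P₁)
    (hpQ : p • Q = 0)
    (hQstab : ∀ τ ∈ A.inertiaSubgroupIn ℚ, ∃ k : ℕ, τ • Q = k • Q)
    (j : Γℚ → ℕ) (hj : ∀ τ ∈ A.inertiaSubgroupIn ℚ, τ • P₁ = P₁ + j τ • Q)
    {ζ : Kb} (hζ : IsPrimitiveRoot ζ p) (β : Kb) (hβ0 : β ≠ 0)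
    (hβ : ∀ τ ∈ A.inertiaSubgroupIn ℚ, τ β = ζ ^ (j τ) * β) (n : ℤ) :
    ford_vQ A hp hA β ≠ ((n : ℚ) : WithTop ℚ) := by
  classical
  intro hvβ
  haveI : IsAlgClosed (ResidueField A) := s41a_isAlgClosed_residueField A
  haveI : CharP (ResidueField A) p := s41a_charP_residueField A hp hA
  set v := s59b_v hp hA with hv
  have H := M.leg
  set φ := s59b_phi M with hφ
  have hE : ∀ R, fl_InE1 v (φ R) ↔ fl_InE1 v R := s59b_phi_E1 M
  have hp1 : (1 : ℚ) < (p : ℚ) := by exact_mod_cast hp.one_lt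
  have hpq : (0 : ℚ) < (p : ℚ) - 1 := by linarith
  have hp0 : (p : ℚ) ≠ 0 := by linarith
  -- the Legendre coordinates of `P₁`
  rcases hQ₁ : φ.symm P₁ with _ | ⟨X, Y, hXY⟩
  · exfalso
    have h0 : φ.symm P₁ = 0 := hQ₁
    have h1 : P₁ = 0 := by rw [← φ.apply_symm_apply P₁, h0, _root_.map_zero]
    exact hP₁ (Or.inl h1)
  have hP : P₁ = φ (Point.some X Y hXY) := by rw [← hQ₁, φ.apply_symm_apply]
  have hXYl : (fl_curve (M.δ : Kb) (M.ε : Kb)).toAffine.Nonsingular X Y := hXY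
  have htorP : p • (Point.some X Y hXY : s59b_PtK A M.δ M.ε) = 0 := by
    apply φ.injective
    rw [map_nsmul, ← hP, hpP, _root_.map_zero]
  have hnotE1 : ¬ fl_InE1 v (Point.some X Y hXY : s59b_PtK A M.δ M.ε) := fun h =>
    hP₁ (by rw [hP]; exact (hE _).mpr h)
  -- the level
  set lv := fuc_lvl v M.m (Point.some X Y hXY : s59b_PtK A M.δ M.ε) with hlv
  have hlaw := fuc_level_nsmul H.hm (fuc_lvl_nonneg v H.hm) (fuc_lvl_le v H.hm) (s59b_law H)
    (Point.some X Y hXY) p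
  rw [htorP, fuc_lvl_zero] at hlaw
  obtain ⟨z, hz⟩ := hlaw
  rw [← hlv] at hz
  have h2m := s59q_model_two_m M hΔ
  have hlv0 : lv ≠ 0 := by
    intro h0
    have h1 : fl_InE0 v (Point.some X Y hXY : s59b_PtK A M.δ M.ε) :=
      (s59b_lvl_zero_iff H _).mp h0
    exact hnotE1 (s59b_E0_torsion H hp h1 1 (by rw [pow_one]; exact htorP))
  have hlvm : lv ≠ M.m := by
    intro e
    have hm0 : M.m ≠ 0 := H.hm.ne'
    obtain ⟨t, ht⟩ := hp.odd_of_ne_two hp2
    rcases hz with hz | hz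
    · rw [e] at hz
      have h5 : ((p : ℚ) + 2 * z) * M.m = 0 := by linarith
      have h6 : (p : ℚ) + 2 * z = 0 := (mul_eq_zero.mp h5).resolve_right hm0
      have h7 : (p : ℤ) + 2 * z = 0 := by exact_mod_cast h6
      omega
    · rw [e] at hz
      have h5 : ((p : ℚ) - 2 * z) * M.m = 0 := by linarith
      have h6 : (p : ℚ) - 2 * z = 0 := (mul_eq_zero.mp h5).resolve_right hm0
      have h7 : (p : ℤ) - 2 * z = 0 := by exact_mod_cast h6
      omega
  have hspec : fuc_IsLvl v M.m X lv := fuc_lvl_some_spec v M.m hXY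
  obtain ⟨a, haX, ha0, ham, hlva⟩ : ∃ a : ℚ, v X = (a : WithTop ℚ) ∧ 0 < a ∧ a < M.m ∧ lv = a := by
    rcases hspec with ⟨-, ht⟩ | ⟨s, hx, hs0, hsm, ht⟩ | ⟨-, ht⟩
    · exact absurd ht hlv0
    · exact ⟨s, hx, hs0, hsm, ht⟩
    · exact absurd ht hlvm
  -- `a ∉ (1/(p−1)) ℤ`
  have ha : ∀ k : ℤ, a ≠ (k : ℚ) / ((p : ℚ) - 1) := by
    intro k hk
    obtain ⟨z', hz'⟩ : ∃ z' : ℤ, (p : ℚ) * a = (z' : ℚ) * ((padicValInt p W.Δ : ℕ) : ℚ) := by
      rcases hz with hz | hz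
      · refine ⟨-z, ?_⟩
        rw [← hlva, ← h2m]
        push_cast
        linarith
      · refine ⟨z, ?_⟩
        rw [← hlva, ← h2m]
        linarith
    have h1 : (k : ℚ) * p = z' * ((padicValInt p W.Δ : ℕ) : ℚ) * ((p : ℚ) - 1) := by
      rw [hk] at hz'
      have hpq' : ((p : ℚ) - 1) ≠ 0 := hpq.ne'
      field_simp at hz'
      linarith
    have h2 : (k : ℤ) * p = z' * ((padicValInt p W.Δ : ℕ) : ℤ) * ((p : ℤ) - 1) := by
      exact_mod_cast h1
    have h3 : (p : ℤ) ∣ z' * ((padicValInt p W.Δ : ℕ) : ℤ) * ((p : ℤ) - 1) := ⟨k, by linarith⟩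
    have hcop : IsCoprime (p : ℤ) ((p : ℤ) - 1) := ⟨1, -1, by ring⟩
    have h4 : (p : ℤ) ∣ z' * ((padicValInt p W.Δ : ℕ) : ℤ) := hcop.dvd_of_dvd_mul_right h3
    have hprime : Prime (p : ℤ) := Nat.prime_iff_prime_int.mp hp
    have hN : ¬ (p : ℤ) ∣ ((padicValInt p W.Δ : ℕ) : ℤ) := by
      intro h
      exact hpeu (Int.natCast_dvd_natCast.mp h)
    rcases hprime.dvd_or_dvd h4 with h5 | h5
    · obtain ⟨c, hc⟩ := h5
      have h6 : a = (c : ℚ) * (2 * M.m) := by
        rw [h2m]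
        have h7 : (p : ℚ) * a = (p : ℚ) * ((c : ℚ) * ((padicValInt p W.Δ : ℕ) : ℚ)) := by
          rw [hz', hc]; push_cast; ring
        exact mul_left_cancel₀ hp0 h7
      rcases le_or_gt c 0 with hc0 | hc0
      · have h8 : (c : ℚ) ≤ 0 := by exact_mod_cast hc0
        nlinarith [H.hm]
      · have h8 : (1 : ℚ) ≤ c := by exact_mod_cast hc0
        nlinarith [H.hm]
    · exact hN h5
  -- the value of `Y`
  have heqn := fuc_leg_eqn hXYl
  obtain ⟨hY, -⟩ := s59b_val_Y v H.hδ H.hε ha0 ham heqn haX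
  -- the Galois action
  have hact : ∀ τ : Γℚ, ∃ h' : (s41a_WK A (s59b_WL A M.δ M.ε)).toAffine.Nonsingular
      (τ X + (τ M.e₁ - M.e₁)) (τ Y), τ • P₁ = φ (Point.some _ _ h') := by
    intro τ
    obtain ⟨h', he⟩ := s59b_smul_phi_some M τ hXY
    exact ⟨h', by rw [hP, he]⟩
  refine s59q_peu_break hp A hA hζ β hβ0 n hvβ
    (fun τ hτ => ⟨ζ ^ j τ, by rw [← pow_mul, mul_comm, pow_mul, hζ.pow_eq_one, one_pow], hβ τ hτ⟩)
    Y a hY ha ?_ ?_
  · -- `g` is fixed by the stabiliser of `β`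
    intro τ hτ hτζ hτβ
    have h1 : ζ ^ (j τ) = 1 := by
      have h0 := hβ τ hτ
      rw [hτβ] at h0
      have h2 : ζ ^ j τ * β = 1 * β := by rw [one_mul]; exact h0.symm
      exact mul_right_cancel₀ hβ0 h2
    have h2 : p ∣ j τ := (hζ.pow_eq_one_iff_dvd _).mp h1
    have h3 : j τ • Q = 0 := by
      rw [s59q_mod_nsmul hpQ, Nat.mod_eq_zero_of_dvd h2, zero_nsmul]
    have h4 : τ • P₁ = P₁ := by rw [hj τ hτ, h3, add_zero]
    obtain ⟨h', he⟩ := hact τ
    rw [h4, hP] at he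
    have h5 := φ.injective he
    exact ((Point.some.inj h5).2).symm
  · -- the displacement
    intro τ hτ hτζ
    obtain ⟨h', he⟩ := hact τ
    set η := τ M.e₁ - M.e₁ with hη
    obtain ⟨hτv, hτres⟩ := ford_vQ_inertia hp hA τ hτ
    have hτD := (ford_inertia_spec A τ hτ).1
    have hηm : (M.m : WithTop ℚ) ≤ v η := M.hD τ hτD
    have hXYl' : (fl_curve (M.δ : Kb) (M.ε : Kb)).toAffine.Nonsingular (τ X + η) (τ Y) := h'
    have hτX : v (τ X) = (a : WithTop ℚ) := (hτv X).trans haX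
    have hX' : v (τ X + η) = (a : WithTop ℚ) := fuc_ex_add v hτX hηm ham
    have htorP' : p • (Point.some (τ X + η) (τ Y) h' : s59b_PtK A M.δ M.ε) = 0 := by
      apply φ.injective
      rw [map_nsmul, ← he, ← s59b_smul_nsmul, hpP, _root_.map_zero]
      exact smul_zero (A := s58_Pt W) τ
    have hE1 : fl_InE1 v ((Point.some (τ X + η) (τ Y) h' : s59b_PtK A M.δ M.ε) -
        Point.some X Y hXY) :=
      s59b_twist_plus H hp hp2 (σ := (τ : Kb →+* Kb)) hτv hτres hηm hXY h' 1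
        (by rw [pow_one]; exact htorP) (by rw [pow_one]; exact htorP')
    have hdiff : φ ((Point.some (τ X + η) (τ Y) h' : s59b_PtK A M.δ M.ε) - Point.some X Y hXY)
        = j τ • Q := by
      rw [map_sub, ← he, ← hP, hj τ hτ, add_sub_cancel_left]
    by_cases hxx : τ X + η = X
    · rcases s59b_eq_or_neg (fl_curve (M.δ : Kb) (M.ε : Kb)).toAffine hXYl hXYl' hxx with h1 | h1
      · have h2 := (Point.some.inj h1).2
        rw [h2, sub_self, v.map_zero]
        exact le_top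
      · exfalso
        have h2 : (Point.some (τ X + η) (τ Y) h' : s59b_PtK A M.δ M.ε) =
            -(Point.some X Y hXY : s59b_PtK A M.δ M.ε) := h1
        rw [h2] at hE1
        have h3 : fl_InE1 v (2 • (Point.some X Y hXY : s59b_PtK A M.δ M.ε)) := by
          have h4 := fab_E1_neg v hE1
          have h5 : -(-(Point.some X Y hXY : s59b_PtK A M.δ M.ε) - Point.some X Y hXY) =
              2 • (Point.some X Y hXY : s59b_PtK A M.δ M.ε) := by
            rw [two_nsmul]; abel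
          rwa [h5] at h4
        obtain ⟨t, ht⟩ := hp.odd_of_ne_two hp2
        have h6 := s59b_E1_nsmul H h3 (t + 1)
        have h7 : (t + 1) • (2 • (Point.some X Y hXY : s59b_PtK A M.δ M.ε)) =
            Point.some X Y hXY := by
          rw [← mul_smul]
          have h8 : (t + 1) * 2 = p + 1 := by omega
          rw [h8, add_smul, htorP, zero_add, one_smul]
        rw [h7] at h6
        exact hnotE1 h6
    · refine s59q_disp_lower v H.hm H.hδ H.hε hXYl hXYl' hxx ha0 ham haX hX'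
        (w := 1 / ((p : ℚ) - 1)) (by positivity) ?_
      intro xq yq hq hsub
      have hq' : (s41a_WK A (s59b_WL A M.δ M.ε)).toAffine.Nonsingular xq yq := hq
      have hsub' : (Point.some (τ X + η) (τ Y) h' : s59b_PtK A M.δ M.ε) - Point.some X Y hXY =
          Point.some xq yq hq' := hsub
      have hE1' : fl_InE1 v (Point.some xq yq hq' : s59b_PtK A M.δ M.ε) := by
        rw [← hsub']; exact hE1
      have hxq : v xq < 0 := by
        rcases hE1' with h0 | ⟨x₁, y₁, h₁, he₁, hx₁⟩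
        · exact absurd h0 (Point.some_ne_zero _)
        · rw [(Point.some.inj he₁).1]; exact hx₁
      exact s59q_tors_x_le M Q hpQ hQstab hq' hxq (j τ) (by rw [← hsub']; exact hdiff)

end

end Fermat.Agent.Lib.S59
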