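/-
PROGRAMME (R2) = S59, node [STRICT-p], half (T2) [W-très] (helper6, prefix `s59q_`), part E: **the wiring**.

* `s59q_exists_addChar`    : a field `k` of characteristic `p` has an additive character `μ : k → μ_p(ℚ̄)` with `μ(1) = ζ`;
* `s59q_tresAtP_of_basis`  : très-ramifié data on a `GaloisRepAdic A₀` (a basis `b`, `τ b₁ = b₁ + c₀(τ) b₀` on inertia) pass
                             to the residual representation of any base change `A₀ → A`;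
* `s59q_W_tate`            : the W-side on the Tate module `T_p W` (from `s59q_W_break`);
* **`s59q_W_tres`**        : `W / ℤ` multiplicative at the odd prime `p`, `p ∤ v_p(Δ_W)` ⟹
                             `s59q_Tres (s59i_rhobarW W p hΔ 𝒪 hp𝒪) p` — (T2) [W-très].
-/
import Fermat.Agent.Lib.S59.QTresW
import Fermat.Agent.Lib.S59.QStrictDefs
import Fermat.Agent.Lib.S59.BOrd
import Fermat.Agent.Lib.S59.LFinW1
import Fermat.Prelude.Def_WeierstrassCurve_PeuRamifiee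

set_option autoImplicit false
set_option linter.unusedSectionVars false
set_option linter.unusedVariables false
set_option linter.style.haveILetI false
set_option synthInstance.maxHeartbeats 400000

noncomputable section

namespace Fermat.Agent.Lib.S59

open IsLocalRing TensorProduct
open Fermat.Agent.Lib.Frey Fermat.Agent.Lib.S30 Fermat.Agent.Lib.S58

local notation "Kb" => AlgebraicClosure ℚ
local notation "GQ" => (AlgebraicClosure ℚ ≃ₐ[ℚ] AlgebraicClosure ℚ)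

/-- `ζ^p = 1 ⟹ ζ^(n % p) = ζ^n`. -/
theorem s59q_pow_mod {M : Type*} [Monoid M] {ζ : M} {p : ℕ} (hζ : ζ ^ p = 1) (n : ℕ) :
    ζ ^ (n % p) = ζ ^ n := by
  conv_rhs => rw [← Nat.div_add_mod n p, pow_add, pow_mul, hζ, one_pow, one_mul]

/-- **an additive character with `μ(1) = ζ`** on a field of characteristic `p`. -/
theorem s59q_exists_addChar {k : Type} [Field k] (p : ℕ) [hp : Fact p.Prime] [CharP k p] {ζ : Kb}
    (hζ : ζ ^ p = 1) : ∃ μ : k → Kb, s59q_IsAddChar p μ ∧ ∀ n : ℕ, μ (n : k) = ζ ^ n := by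
  letI : Algebra (ZMod p) k := ZMod.algebra k p
  obtain ⟨f, hf⟩ : ∃ f : Module.Dual (ZMod p) k, f 1 ≠ 0 := by
    by_contra h
    rw [not_exists] at h
    have h' : ∀ f : Module.Dual (ZMod p) k, f 1 = 0 := fun f => not_not.mp (h f)
    exact one_ne_zero ((Module.forall_dual_apply_eq_zero_iff (ZMod p) (1 : k)).mp h')
  set ℓ : k →ₗ[ZMod p] ZMod p := (f 1)⁻¹ • f with hℓ
  have hℓ1 : ℓ 1 = 1 := by
    rw [hℓ, LinearMap.smul_apply, smul_eq_mul, inv_mul_cancel₀ hf]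
  refine ⟨fun t => ζ ^ (ℓ t).val, ⟨?_, ?_⟩, ?_⟩
  · intro a b
    show ζ ^ (ℓ (a + b)).val = ζ ^ (ℓ a).val * ζ ^ (ℓ b).val
    rw [map_add, ZMod.val_add, ← pow_add, s59q_pow_mod hζ]
  · intro a
    show (ζ ^ (ℓ a).val) ^ p = 1
    rw [← pow_mul, mul_comm, pow_mul, hζ, one_pow]
  · intro n
    show ζ ^ (ℓ (n : k)).val = ζ ^ n
    have h1 : ℓ (n : k) = (n : ZMod p) := by
      have h : (n : k) = (n : ZMod p) • (1 : k) := by
        rw [Algebra.smul_def, mul_one, map_natCast]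
      rw [h, map_smul, hℓ1, smul_eq_mul, mul_one]
    rw [h1, ZMod.val_natCast, s59q_pow_mod hζ]

/-- **très-ramifié data pass to the residual representation of a base change.** -/
theorem s59q_tresAtP_of_basis {A₀ A : Type} [CommRing A₀] [IsLocalRing A₀] [CommRing A]
    [IsLocalRing A] (φ : A₀ →+* A) (hφ : IsLocalHom φ) (ρ₀ : GaloisRepAdic A₀) (p : ℕ)
    (hp : p.Prime) (P : ValuationSubring Kb) (hP : P.LiesOverPrime p)
    (b : Module.Basis (Fin 2) A₀ ρ₀.V) (c₀ : GQ → A₀)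
    (hc₀ : ∀ τ ∈ P.inertiaSubgroupIn ℚ, ρ₀.ρ τ (b 1) = b 1 + c₀ τ • b 0)
    (μ : ResidueField A → Kb) (hμ : s59q_IsAddChar p μ)
    (hbreak : ∀ β : Kb, β ≠ 0 →
      (∀ τ ∈ P.inertiaSubgroupIn ℚ, τ β = μ (residue A (φ (c₀ τ))) * β) →
      ∀ n : ℤ, ford_vQ P hp hP β ≠ ((n : ℚ) : WithTop ℚ)) :
    s59q_TresAtP (ρ₀.baseChangeAlong φ hφ).residual p hp P hP := by
  letI : Algebra A₀ A := φ.toAlgebra
  let b' : Module.Basis (Fin 2) A (A ⊗[A₀] ρ₀.V) := Algebra.TensorProduct.basis A b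
  let b'' : Module.Basis (Fin 2) (ResidueField A) (ResidueField A ⊗[A] (A ⊗[A₀] ρ₀.V)) :=
    Algebra.TensorProduct.basis (ResidueField A) b'
  have hb' : ∀ i, b' i = (1 : A) ⊗ₜ[A₀] b i := fun i => Algebra.TensorProduct.basis_apply b i
  have hb'' : ∀ i, b'' i = (1 : ResidueField A) ⊗ₜ[A] b' i := fun i =>
    Algebra.TensorProduct.basis_apply b' i
  refine ⟨b'' 0, b'' 1, fun τ => residue A (φ (c₀ τ)), μ, ?_, ?_, hμ, hbreak⟩
  · have h := b''.linearIndependent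
    have e : (![b'' 0, b'' 1] : Fin 2 → ResidueField A ⊗[A] (A ⊗[A₀] ρ₀.V)) = b'' := by
      funext i
      fin_cases i <;> rfl
    have h2 : LinearIndependent (ResidueField A)
        (![b'' 0, b'' 1] : Fin 2 → ResidueField A ⊗[A] (A ⊗[A₀] ρ₀.V)) := by
      rw [e]
      exact h
    exact h2
  · intro τ hτ
    show ((ρ₀.ρ τ).baseChange A).baseChange (ResidueField A) (b'' 1) =
      b'' 1 + residue A (φ (c₀ τ)) • b'' 0
    rw [hb'' 1, hb'' 0, hb' 1, hb' 0, LinearMap.baseChange_tmul, LinearMap.baseChange_tmul,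
      hc₀ τ hτ, TensorProduct.tmul_add, TensorProduct.tmul_add, TensorProduct.tmul_smul,
      ← algebraMap_smul A (c₀ τ) ((1 : A) ⊗ₜ[A₀] b 0), TensorProduct.tmul_smul,
      ← algebraMap_smul (ResidueField A) ((algebraMap A₀ A) (c₀ τ)),
      IsLocalRing.ResidueField.algebraMap_eq]
    rfl

section W

variable {W : WeierstrassCurve ℤ} {p : ℕ} [hp : Fact p.Prime]

/-- **the W-side on the Tate module.** -/
theorem s59q_W_tate (hp2 : p ≠ 2) (hΔ : W.Δ ≠ 0) (hbad : (p : ℤ) ∣ W.Δ)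
    (hc4 : ¬ (p : ℤ) ∣ W.c₄) (hpeu : ¬ p ∣ padicValInt p W.Δ) (A : ValuationSubring Kb)
    (hA : A.LiesOverPrime p) :
    ∃ (b : Module.Basis (Fin 2) ℤ_[p] (s59b_TW W p)) (cW : GQ → ℤ_[p]),
      (∀ τ ∈ A.inertiaSubgroupIn ℚ, s59b_rhoFun W p τ (b 1) = b 1 + cW τ • b 0) ∧
      ∀ {ζ : Kb}, IsPrimitiveRoot ζ p → ∀ β : Kb, β ≠ 0 →
        (∀ τ ∈ A.inertiaSubgroupIn ℚ, τ β = ζ ^ ((cW τ).appr 1) * β) →
        ∀ n : ℤ, ford_vQ A hp.out hA β ≠ ((n : ℚ) : WithTop ℚ) := by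
  classical
  obtain ⟨E, hE, hmem⟩ := s59q_exists_ordData W hp.out hp2 hΔ hbad hc4 A hA
  obtain ⟨b, hL, hb1⟩ := s59b_exists_line_basis (s59b_card_tor W p hΔ) E hE.exists_notMem
    hE.exists_mem hE.divisible
  obtain ⟨M⟩ := s59b_exists_model (hp := hp.out) (hA := hA) W hp2 hΔ hbad hc4
  have hb0L : b 0 ∈ s59b_line (p := p) E := by
    rw [hL]; exact Submodule.mem_span_singleton_self _
  have hI : ∀ τ ∈ A.inertiaSubgroupIn ℚ, ∃ c : ℤ_[p],
      s59b_rhoFun W p τ (b 1) = b 1 + c • b 0 := by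
    intro τ hτ
    have h1 : s59b_rhoFun W p τ (b 1) - b 1 ∈ s59b_line (p := p) E := by
      intro n
      rw [s30a_sub_apply, s59b_rhoFun_apply]
      exact hE.inertia τ hτ n _ (s30a_pow_smul (b 1) n)
    rw [hL] at h1
    obtain ⟨c, hc⟩ := Submodule.mem_span_singleton.mp h1
    exact ⟨c, by rw [hc]; abel⟩
  let cW : GQ → ℤ_[p] := fun τ =>
    if h : τ ∈ A.inertiaSubgroupIn ℚ then Classical.choose (hI τ h) else 0
  have hcW : ∀ τ ∈ A.inertiaSubgroupIn ℚ, s59b_rhoFun W p τ (b 1) = b 1 + cW τ • b 0 := by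
    intro τ hτ
    have h1 : cW τ = Classical.choose (hI τ hτ) := dif_pos hτ
    rw [h1]
    exact Classical.choose_spec (hI τ hτ)
  refine ⟨b, cW, hcW, ?_⟩
  intro ζ hζ β hβ0 hβ n
  have hpP : p • ((b 1 : s59b_TW W p) : ℕ → s58_Pt W) 1 = 0 := by
    have h1 := s30a_pow_smul (b 1) 1
    rwa [pow_one] at h1
  have hpQ : p • ((b 0 : s59b_TW W p) : ℕ → s58_Pt W) 1 = 0 := by
    have h1 := s30a_pow_smul (b 0) 1
    rwa [pow_one] at h1
  have hP₁ : ¬ fl_InE1 (s59b_v hp.out hA) (((b 1 : s59b_TW W p) : ℕ → s58_Pt W) 1) :=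
    fun h => hb1 ((hmem _).mpr h)
  have hQstab : ∀ τ ∈ A.inertiaSubgroupIn ℚ, ∃ k : ℕ,
      τ • ((b 0 : s59b_TW W p) : ℕ → s58_Pt W) 1 = k • ((b 0 : s59b_TW W p) : ℕ → s58_Pt W) 1 := by
    intro τ hτ
    have hτD := (ford_inertia_spec A τ hτ).1
    have h1 : s59b_rhoFun W p τ (b 0) ∈ s59b_line (p := p) E := by
      intro n
      rw [s59b_rhoFun_apply]
      exact hE.smul_mem τ hτD _ (hb0L n)
    rw [hL] at h1
    obtain ⟨x, hx⟩ := Submodule.mem_span_singleton.mp h1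
    refine ⟨x.appr 1, ?_⟩
    have h2 := congrArg (fun t : s59b_TW W p => (t : ℕ → s58_Pt W) 1) hx
    simp only [s59b_rhoFun_apply, s30a_smul_apply] at h2
    exact h2.symm
  have hj : ∀ τ ∈ A.inertiaSubgroupIn ℚ, τ • ((b 1 : s59b_TW W p) : ℕ → s58_Pt W) 1 =
      ((b 1 : s59b_TW W p) : ℕ → s58_Pt W) 1 +
        (cW τ).appr 1 • ((b 0 : s59b_TW W p) : ℕ → s58_Pt W) 1 := by
    intro τ hτ
    have h2 := congrArg (fun t : s59b_TW W p => (t : ℕ → s58_Pt W) 1) (hcW τ hτ)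
    simp only [s59b_rhoFun_apply, s30a_add_apply, s30a_smul_apply] at h2
    exact h2
  exact s59q_W_break hp2 hΔ M hpeu _ _ hpP hP₁ hpQ hQstab (fun τ => (cW τ).appr 1) hj hζ β hβ0
    hβ n

/-- `¬ s59g_Peu` in elementary terms. -/
theorem s59q_not_peu_iff (W : WeierstrassCurve ℤ) (p : ℕ) :
    (W.map (Int.castRingHom ℚ)).IsPeuRamifieeAt p p ↔ p ∣ padicValInt p W.Δ := by
  unfold WeierstrassCurve.IsPeuRamifieeAt
  rw [WeierstrassCurve.map_Δ]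
  have h1 : padicValRat p ((Int.castRingHom ℚ) W.Δ) = ((padicValInt p W.Δ : ℕ) : ℤ) := by
    rw [eq_intCast]
    exact padicValRat.of_int
  rw [h1, Int.natCast_dvd_natCast]

/-- **(T2) [W-très], at one place.** -/
theorem s59q_W_tresAtP (hp2 : p ≠ 2) (hΔ : W.Δ ≠ 0) (hbad : (p : ℤ) ∣ W.Δ)
    (hc4 : ¬ (p : ℤ) ∣ W.c₄) (hpeu : ¬ p ∣ padicValInt p W.Δ)
    (𝒪 : Type) [CommRing 𝒪] [IsLocalRing 𝒪] [Algebra ℤ_[p] 𝒪]
    (hp𝒪 : ((p : ℕ) : 𝒪) ∈ maximalIdeal 𝒪) (A : ValuationSubring Kb) (hA : A.LiesOverPrime p) :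
    s59q_TresAtP (s59i_rhobarW W p hΔ 𝒪 hp𝒪) p hp.out A hA := by
  obtain ⟨b, cW, hcW, hbr⟩ := s59q_W_tate hp2 hΔ hbad hc4 hpeu A hA
  haveI : NeZero ((p : ℕ) : Kb) := ⟨Nat.cast_ne_zero.mpr hp.out.ne_zero⟩
  obtain ⟨ζ, hζ⟩ := HasEnoughRootsOfUnity.exists_primitiveRoot Kb p
  have hpk : ((p : ℕ) : ResidueField 𝒪) = 0 := by
    have h1 : residue 𝒪 ((p : ℕ) : 𝒪) = 0 := (residue_eq_zero_iff _).mpr hp𝒪
    rwa [map_natCast] at h1
  haveI : CharP (ResidueField 𝒪) p := by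
    have h1 : ringChar (ResidueField 𝒪) ∣ p := ringChar.dvd hpk
    rcases (Nat.dvd_prime hp.out).mp h1 with h | h
    · exact absurd h CharP.ringChar_ne_one
    · exact ringChar.of_eq h
  obtain ⟨μ, hμ, hμn⟩ := s59q_exists_addChar (k := ResidueField 𝒪) p hζ.pow_eq_one
  refine s59q_tresAtP_of_basis (algebraMap ℤ_[p] 𝒪) (s59b_isLocalHom_padic p _ hp𝒪)
    (s59b_rhoW W p hΔ) p hp.out A hA b cW hcW μ hμ ?_
  intro β hβ0 hβ n
  refine hbr hζ β hβ0 (fun τ hτ => ?_) n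
  rw [hβ τ hτ]
  congr 1
  -- `μ (residue (φ (cW τ))) = ζ ^ appr 1`
  have h1 : residue 𝒪 (algebraMap ℤ_[p] 𝒪 (cW τ)) = (((cW τ).appr 1 : ℕ) : ResidueField 𝒪) := by
    have h2 : cW τ - (((cW τ).appr 1 : ℕ) : ℤ_[p]) ∈ Ideal.span {(p : ℤ_[p]) ^ 1} :=
      PadicInt.appr_spec 1 (cW τ)
    rw [pow_one, Ideal.mem_span_singleton] at h2
    obtain ⟨d, hd⟩ := h2
    have h3 : cW τ = (((cW τ).appr 1 : ℕ) : ℤ_[p]) + (p : ℤ_[p]) * d := by
      rw [← hd]; ring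
    conv_lhs => rw [h3]
    rw [map_add, map_mul, map_natCast, map_natCast, map_add, map_mul, map_natCast, map_natCast,
      hpk, zero_mul, add_zero]
  rw [h1, hμn]

/-- **(T2) [W-très]**: `W / ℤ` multiplicative at the odd prime `p`, `p ∤ v_p(Δ_W)` ⟹ the residual representation of
`ρ_W ⊗ 𝒪` is très ramifié at `p`. -/
theorem s59q_W_tres (hp2 : p ≠ 2) (hΔ : W.Δ ≠ 0) (hbad : (p : ℤ) ∣ W.Δ)
    (hc4 : ¬ (p : ℤ) ∣ W.c₄) (hpeu : ¬ (W.map (Int.castRingHom ℚ)).IsPeuRamifieeAt p p)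
    (𝒪 : Type) [CommRing 𝒪] [IsLocalRing 𝒪] [Algebra ℤ_[p] 𝒪]
    (hp𝒪 : ((p : ℕ) : 𝒪) ∈ maximalIdeal 𝒪) :
    s59q_Tres (s59i_rhobarW W p hΔ 𝒪 hp𝒪) p hp.out := fun A hA =>
  s59q_W_tresAtP hp2 hΔ hbad hc4 (fun h => hpeu ((s59q_not_peu_iff W p).mpr h)) 𝒪 hp𝒪 A hA

end W

end Fermat.Agent.Lib.S59

end
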