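/-
PROGRAMME (R2) = S59, node [STRICT-p] (helper6, prefix `s59q_`), part F: **transfers and the final corollary.**

* `s59q_tresAtP_of_equiv`, `s59q_tres_of_isEquiv`     : très ramifié passes along `ResidualGaloisRep.IsEquiv`;
* `s59q_tresAtP_baseChange`, `s59q_tres_baseChange`   : … and along a field extension `ResidualGaloisRep.baseChangeAlong ψ`;
* `s59q_resOrd_of_ord`, `s59q_resOrd_baseChange`, `s59q_resOrd_of_isEquiv` : the same three transfers for RESIDUAL ORDINARITY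
  `(ofResidualGaloisRep r).IsOrdinaryAt p` (the hypothesis of frozen S33);
* **`s59q_hecke_strict_of_tres`** : a Hecke–Galois datum of level `p ∥ N` lifting (an extension of scalars of) `ρ̄`, with `ρ̄`
  ordinary and très ramifié at `p`, is STRICTLY ordinary at `p`  (S33 + `s59e_hecke_detCyc` + (T1) `s59q_locStrict`);
* **`s59q_hecke_strict_W`** : the same for `ρ̄ = ρ̄_W = s59i_rhobarW W p hΔ 𝒪 hp𝒪`, `W` multiplicative at `p`, `p ∤ v_p(Δ_W)`
  — this is the input `hstr` of `QWOrd.lean` in the très ramifié case.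
-/
import Fermat.Agent.Lib.S59.QTresFin
import Fermat.Agent.Lib.S59.QStrictRed
import Fermat.Agent.Lib.S59.QWOrd

set_option autoImplicit false
set_option linter.unusedSectionVars false
set_option linter.unusedVariables false
set_option linter.style.haveILetI false
set_option synthInstance.maxHeartbeats 400000

noncomputable section

namespace Fermat.Agent.Lib.S59

open IsLocalRing TensorProduct CuspForm
open Fermat.Agent.Lib.Frey

local notation "Kb" => AlgebraicClosure ℚ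
local notation "GQ" => (AlgebraicClosure ℚ ≃ₐ[ℚ] AlgebraicClosure ℚ)

section Tres

variable {k : Type} [Field k] {p : ℕ} {hp : p.Prime} {P : ValuationSubring Kb}
  {hP : P.LiesOverPrime p}

/-- très ramifié passes along an equivalence. -/
theorem s59q_tresAtP_of_equiv {r₁ r₂ : ResidualGaloisRep k} (e : ResidualGaloisRep.Equiv r₁ r₂)
    (h : s59q_TresAtP r₁ p hp P hP) : s59q_TresAtP r₂ p hp P hP := by
  obtain ⟨e₀, e₁, c, μ, hli, hact, hμ, hbr⟩ := h
  refine ⟨e.toLinearEquiv e₀, e.toLinearEquiv e₁, c, μ, ?_, ?_, hμ, hbr⟩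
  · have h1 := hli.map' e.toLinearEquiv.toLinearMap e.toLinearEquiv.ker
    have e2 : (e.toLinearEquiv.toLinearMap ∘ ![e₀, e₁] : Fin 2 → r₂.V) =
        ![e.toLinearEquiv e₀, e.toLinearEquiv e₁] := by
      funext i
      fin_cases i <;> rfl
    rwa [e2] at h1
  · intro τ hτ
    rw [← e.map_apply, hact τ hτ, map_add, map_smul]

theorem s59q_tres_of_isEquiv {r₁ r₂ : ResidualGaloisRep k} (h12 : r₁.IsEquiv r₂)
    (h : s59q_Tres r₁ p hp) : s59q_Tres r₂ p hp := by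
  obtain ⟨e⟩ := h12
  exact fun P hP => s59q_tresAtP_of_equiv e (h P hP)

/-- très ramifié passes to an extension of scalars. -/
theorem s59q_tresAtP_baseChange {k' : Type} [Field k'] (ψ : k →+* k') (r : ResidualGaloisRep k)
    (h : s59q_TresAtP r p hp P hP) : s59q_TresAtP (r.baseChangeAlong ψ) p hp P hP := by
  letI : Algebra k k' := ψ.toAlgebra
  obtain ⟨e₀, e₁, c, μ, hli, hact, hμ, hbr⟩ := h
  -- a `k`-linear retraction of `ψ`
  obtain ⟨ℓ, hℓ⟩ := LinearMap.exists_leftInverse_of_injective (Algebra.linearMap k k')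
    (LinearMap.ker_eq_bot.mpr (algebraMap k k').injective)
  have hℓ' : ∀ a : k, ℓ (ψ a) = a := fun a => by
    have h1 := LinearMap.congr_fun hℓ a
    exact h1
  -- the basis
  have hcard : Fintype.card (Fin 2) = Module.finrank k r.V := by
    rw [r.finrank_eq, Fintype.card_fin]
  let B : Module.Basis (Fin 2) k r.V := basisOfLinearIndependentOfCardEqFinrank hli hcard
  have hB : ∀ i, B i = ![e₀, e₁] i := fun i => by
    show (basisOfLinearIndependentOfCardEqFinrank hli hcard) i = _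
    rw [coe_basisOfLinearIndependentOfCardEqFinrank]
  let B' : Module.Basis (Fin 2) k' (k' ⊗[k] r.V) := Algebra.TensorProduct.basis k' B
  have hB' : ∀ i, B' i = (1 : k') ⊗ₜ[k] B i := fun i => Algebra.TensorProduct.basis_apply B i
  refine ⟨B' 0, B' 1, fun τ => ψ (c τ), fun t => μ (ℓ t), ?_, ?_, ⟨?_, ?_⟩, ?_⟩
  · have h := B'.linearIndependent
    have e : (![B' 0, B' 1] : Fin 2 → k' ⊗[k] r.V) = B' := by
      funext i
      fin_cases i <;> rfl
    have h2 : LinearIndependent k' (![B' 0, B' 1] : Fin 2 → k' ⊗[k] r.V) := by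
      rw [e]
      exact h
    exact h2
  · intro τ hτ
    show (r.ρ τ).baseChange k' (B' 1) = B' 1 + ψ (c τ) • B' 0
    have h0 : B 0 = e₀ := hB 0
    have h1 : B 1 = e₁ := hB 1
    rw [hB' 1, hB' 0, h0, h1, LinearMap.baseChange_tmul, hact τ hτ, TensorProduct.tmul_add,
      TensorProduct.tmul_smul, ← algebraMap_smul k' (c τ) ((1 : k') ⊗ₜ[k] e₀)]
    rfl
  · intro a b
    show μ (ℓ (a + b)) = μ (ℓ a) * μ (ℓ b)
    rw [map_add, hμ.1]
  · intro a
    exact hμ.2 (ℓ a)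
  · intro β hβ0 hβ n
    refine hbr β hβ0 (fun τ hτ => ?_) n
    have h1 := hβ τ hτ
    have h2 : μ (ℓ (ψ (c τ))) = μ (c τ) := by rw [hℓ']
    rw [← h2]
    exact h1

theorem s59q_tres_baseChange {k' : Type} [Field k'] (ψ : k →+* k') (r : ResidualGaloisRep k)
    (h : s59q_Tres r p hp) : s59q_Tres (r.baseChangeAlong ψ) p hp :=
  fun P hP => s59q_tresAtP_baseChange ψ r (h P hP)

end Tres

section ResOrd

/-- the residual representation of an ordinary representation is ordinary. -/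
theorem s59q_resOrd_of_ord {A : Type} [CommRing A] [IsLocalRing A] (ρ : GaloisRepAdic A) (p : ℕ)
    (h : ρ.IsOrdinaryAt p) : (GaloisRepAdic.ofResidualGaloisRep ρ.residual).IsOrdinaryAt p := by
  intro P hP
  obtain ⟨L, ⟨b, hLb⟩, hD, hI⟩ := h P hP
  let b' : Module.Basis (Fin 2) (ResidueField A) (ResidueField A ⊗[A] ρ.V) :=
    Algebra.TensorProduct.basis (ResidueField A) b
  have hb'0 : b' 0 = (1 : ResidueField A) ⊗ₜ[A] b 0 := Algebra.TensorProduct.basis_apply b 0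
  have hspan : Submodule.span (ResidueField A) {(1 : ResidueField A) ⊗ₜ[A] b 0} =
      Submodule.span (ResidueField A) {b' 0} := by rw [hb'0]
  have hb0 : b 0 ∈ L := by rw [hLb]; exact Submodule.mem_span_singleton_self (b 0)
  have hDst : ∀ σ ∈ P.decompositionSubgroup ℚ,
      ∀ v ∈ Submodule.span (ResidueField A) {(1 : ResidueField A) ⊗ₜ[A] b 0},
      (ρ.ρ σ).baseChange (ResidueField A) v ∈
        Submodule.span (ResidueField A) {(1 : ResidueField A) ⊗ₜ[A] b 0} := by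
    intro σ hσ v hv
    obtain ⟨c, rfl⟩ := Submodule.mem_span_singleton.mp hv
    rw [map_smul, LinearMap.baseChange_tmul]
    refine Submodule.smul_mem _ _ (s59e_tmul_mem_span (b 0) 1 ?_)
    rw [← hLb]
    exact hD σ hσ (b 0) hb0
  have hIn : ∀ σ ∈ P.inertiaSubgroupIn ℚ, ∀ v : ResidueField A ⊗[A] ρ.V,
      (ρ.ρ σ).baseChange (ResidueField A) v - v ∈
        Submodule.span (ResidueField A) {(1 : ResidueField A) ⊗ₜ[A] b 0} := by
    intro σ hσ v
    have h1 := s59e_baseChange_sub_mem (A := ResidueField A) (b 0) (ρ.ρ σ) 1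
      (fun v => by rw [one_smul, ← hLb]; exact hI σ hσ v) v
    rwa [map_one, one_smul] at h1
  exact ⟨Submodule.span (ResidueField A) {(1 : ResidueField A) ⊗ₜ[A] b 0}, ⟨b', hspan⟩, hDst, hIn⟩

/-- residual ordinarity passes to an extension of scalars. -/
theorem s59q_resOrd_baseChange {k k' : Type} [Field k] [Field k'] (ψ : k →+* k')
    (r : ResidualGaloisRep k) (p : ℕ)
    (h : (GaloisRepAdic.ofResidualGaloisRep r).IsOrdinaryAt p) :
    (GaloisRepAdic.ofResidualGaloisRep (r.baseChangeAlong ψ)).IsOrdinaryAt p := by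
  letI : Algebra k k' := ψ.toAlgebra
  intro P hP
  obtain ⟨L, ⟨b, hLb⟩, hD, hI⟩ := h P hP
  let L₀ : Submodule k r.V := L
  let b₀ : Module.Basis (Fin 2) k r.V := b
  have hLb₀ : L₀ = Submodule.span k {b₀ 0} := hLb
  have hD' : ∀ σ ∈ P.decompositionSubgroup ℚ, ∀ v ∈ L₀, r.ρ σ v ∈ L₀ := hD
  have hI' : ∀ σ ∈ P.inertiaSubgroupIn ℚ, ∀ v : r.V, r.ρ σ v - v ∈ L₀ := hI
  have hb0 : b₀ 0 ∈ L₀ := by rw [hLb₀]; exact Submodule.mem_span_singleton_self (b₀ 0)
  let b' : Module.Basis (Fin 2) k' (k' ⊗[k] r.V) := Algebra.TensorProduct.basis k' b₀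
  have hb'0 : b' 0 = (1 : k') ⊗ₜ[k] b₀ 0 := Algebra.TensorProduct.basis_apply b₀ 0
  have hspan : Submodule.span k' {(1 : k') ⊗ₜ[k] b₀ 0} = Submodule.span k' {b' 0} := by rw [hb'0]
  have hDst : ∀ σ ∈ P.decompositionSubgroup ℚ,
      ∀ v ∈ Submodule.span k' {(1 : k') ⊗ₜ[k] b₀ 0},
      (r.ρ σ).baseChange k' v ∈ Submodule.span k' {(1 : k') ⊗ₜ[k] b₀ 0} := by
    intro σ hσ v hv
    obtain ⟨c, rfl⟩ := Submodule.mem_span_singleton.mp hv
    rw [map_smul, LinearMap.baseChange_tmul]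
    refine Submodule.smul_mem _ _ (s59e_tmul_mem_span (b₀ 0) 1 ?_)
    rw [← hLb₀]
    exact hD' σ hσ (b₀ 0) hb0
  have hIn : ∀ σ ∈ P.inertiaSubgroupIn ℚ, ∀ v : k' ⊗[k] r.V,
      (r.ρ σ).baseChange k' v - v ∈ Submodule.span k' {(1 : k') ⊗ₜ[k] b₀ 0} := by
    intro σ hσ v
    have h1 := s59e_baseChange_sub_mem (A := k') (b₀ 0) (r.ρ σ) 1
      (fun v => by rw [one_smul, ← hLb₀]; exact hI' σ hσ v) v
    rwa [map_one, one_smul] at h1
  exact ⟨Submodule.span k' {(1 : k') ⊗ₜ[k] b₀ 0}, ⟨b', hspan⟩, hDst, hIn⟩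

/-- residual ordinarity passes along an equivalence. -/
theorem s59q_resOrd_of_equiv {k : Type} [Field k] {r₁ r₂ : ResidualGaloisRep k}
    (e : ResidualGaloisRep.Equiv r₁ r₂) (p : ℕ)
    (h : (GaloisRepAdic.ofResidualGaloisRep r₁).IsOrdinaryAt p) :
    (GaloisRepAdic.ofResidualGaloisRep r₂).IsOrdinaryAt p := by
  intro P hP
  obtain ⟨L, ⟨b, hLb⟩, hD, hI⟩ := h P hP
  let L₀ : Submodule k r₁.V := L
  let b₀ : Module.Basis (Fin 2) k r₁.V := b
  have hLb₀ : L₀ = Submodule.span k {b₀ 0} := hLb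
  have hD' : ∀ σ ∈ P.decompositionSubgroup ℚ, ∀ v ∈ L₀, r₁.ρ σ v ∈ L₀ := hD
  have hI' : ∀ σ ∈ P.inertiaSubgroupIn ℚ, ∀ v : r₁.V, r₁.ρ σ v - v ∈ L₀ := hI
  let b₂ : Module.Basis (Fin 2) k r₂.V := b₀.map e.toLinearEquiv
  have hb₂ : b₂ 0 = e.toLinearEquiv (b₀ 0) := Module.Basis.map_apply b₀ e.toLinearEquiv 0
  let L₂ : Submodule k r₂.V := L₀.map e.toLinearEquiv.toLinearMap
  have hL₂ : L₂ = Submodule.span k {b₂ 0} := by
    show L₀.map e.toLinearEquiv.toLinearMap = _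
    rw [hLb₀, Submodule.map_span, Set.image_singleton, hb₂]
    rfl
  have hDst : ∀ σ ∈ P.decompositionSubgroup ℚ, ∀ v ∈ L₂, r₂.ρ σ v ∈ L₂ := by
    intro σ hσ v hv
    obtain ⟨w, hw, rfl⟩ := Submodule.mem_map.mp hv
    have h1 : r₂.ρ σ (e.toLinearEquiv w) = e.toLinearEquiv (r₁.ρ σ w) := (e.map_apply σ w).symm
    show r₂.ρ σ (e.toLinearEquiv w) ∈ L₂
    rw [h1]
    exact Submodule.mem_map_of_mem (hD' σ hσ w hw)
  have hIn : ∀ σ ∈ P.inertiaSubgroupIn ℚ, ∀ v : r₂.V, r₂.ρ σ v - v ∈ L₂ := by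
    intro σ hσ v
    obtain ⟨w, rfl⟩ := e.toLinearEquiv.surjective v
    have h1 : r₂.ρ σ (e.toLinearEquiv w) - e.toLinearEquiv w = e.toLinearEquiv (r₁.ρ σ w - w) := by
      rw [map_sub, e.map_apply]
    rw [h1]
    exact Submodule.mem_map_of_mem (hI' σ hσ w)
  exact ⟨L₂, ⟨b₂, hL₂⟩, hDst, hIn⟩

end ResOrd

section Final

variable {p : ℕ} [Fact p.Prime] {N : ℕ} [NeZero N] {S : Finset ℕ}
  {𝒪 : Type} [CommRing 𝒪] [IsDomain 𝒪] [IsDiscreteValuationRing 𝒪]
  [IsAdicComplete (maximalIdeal 𝒪) 𝒪]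
  {θ : heckeAlgebra N 2 (↑S : Set ℕ) →+* ResidueField 𝒪}
  {T : Type} [CommRing T] [IsLocalRing T] [IsNoetherianRing T]
  [IsAdicComplete (maximalIdeal T) T] [Algebra 𝒪 T] [IsLocalHom (algebraMap 𝒪 T)]
  [Module.Finite 𝒪 T] [Module.Free 𝒪 T]
  (H : HeckeGaloisRepDatum N (↑S : Set ℕ) 𝒪 θ T)

/-- **[STRICT-p], très ramifié case, generic in `ρ̄`**: a Hecke–Galois datum of level `p ∥ N` whose residual representation
is (an extension of scalars of) `ρ̄`, with `ρ̄` ordinary and très ramifié at `p`, is strictly ordinary at `p`. -/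
theorem s59q_hecke_strict_of_tres [Finite (ResidueField 𝒪)] [CharZero 𝒪] (hp2 : p ≠ 2)
    (hp𝒪 : (p : 𝒪) ∈ maximalIdeal 𝒪) (hN : p ∣ N ∧ ¬ p ^ 2 ∣ N)
    (hNS : ∀ q : ℕ, q.Prime → q ∣ N → q ∈ S)
    (ρbar : ResidualGaloisRep (ResidueField 𝒪))
    (hres : H.ρ.residual.IsEquiv (ρbar.baseChangeAlong (ResidueField.map (algebraMap 𝒪 T))))
    (hord : (GaloisRepAdic.ofResidualGaloisRep ρbar).IsOrdinaryAt p)
    (htres : s59q_Tres ρbar p (Fact.out : p.Prime)) :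
    H.ρ.IsStrictOrdinaryAt p := by
  obtain ⟨e⟩ := hres
  haveI : Finite (ResidueField T) :=
    IsLocalRing.ResidueField.finite_of_finite (R := 𝒪) inferInstance
  have h1 : (GaloisRepAdic.ofResidualGaloisRep H.ρ.residual).IsOrdinaryAt p :=
    s59q_resOrd_of_equiv e.symm p (s59q_resOrd_baseChange _ ρbar p hord)
  have h2 : H.ρ.IsOrdinaryAt p :=
    Fermat.Agent.S33.result (Fact.out : p.Prime) hp2 hp𝒪 hN hNS H h1
  have h3 : s59q_Tres H.ρ.residual p (Fact.out : p.Prime) :=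
    s59q_tres_of_isEquiv ⟨e.symm⟩ (s59q_tres_baseChange _ ρbar htres)
  exact s59q_locStrict T H.ρ p (Fact.out : p.Prime) (s59e_hecke_detCyc H hp𝒪 hNS) h2 h3

/-- **[STRICT-p], très ramifié case, for `ρ̄ = ρ̄_W`**: `W / ℤ` multiplicative at the odd prime `p` with `p ∤ v_p(Δ_W)`
(`ρ̄_W` très ramifié at `p`); every Hecke–Galois datum of level `p ∥ N` lifting `ρ̄_W` is strictly ordinary at `p`.
This is the hypothesis `hstr` of `s59q_hecke_ordType_E2`, `s59q_hD_ord_E2`, `s59q_hD_ord_RData`,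
`s59q_existDQ_ord_of_datum` (QWOrd.lean). -/
theorem s59q_hecke_strict_W [Finite (ResidueField 𝒪)] [CharZero 𝒪] [Algebra ℤ_[p] 𝒪]
    (hp2 : p ≠ 2) (hp𝒪 : ((p : ℕ) : 𝒪) ∈ maximalIdeal 𝒪) (hN : p ∣ N ∧ ¬ p ^ 2 ∣ N)
    (hNS : ∀ q : ℕ, q.Prime → q ∣ N → q ∈ S)
    (W : WeierstrassCurve ℤ) (hΔ : W.Δ ≠ 0) (hirr : W.ModRepIsIrreducible p)
    (hbad : (p : ℤ) ∣ W.Δ) (hc4 : ¬ (p : ℤ) ∣ W.c₄)
    (hpeu : ¬ (W.map (Int.castRingHom ℚ)).IsPeuRamifieeAt p p)
    (hres : H.ρ.residual.IsEquiv ((s59i_rhobarW W p hΔ 𝒪 hp𝒪).baseChangeAlong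
      (ResidueField.map (algebraMap 𝒪 T)))) :
    H.ρ.IsStrictOrdinaryAt p :=
  s59q_hecke_strict_of_tres H hp2 hp𝒪 hN hNS _ hres
    (s59q_resOrd_of_ord _ p (s59e_bc_ord _ _ _ p
      (s59b_rhoW_strictOrd hΔ hp2 hirr hbad hc4).isOrdinaryAt))
    (s59q_W_tres hp2 hΔ hbad hc4 hpeu 𝒪 hp𝒪)

end Final

end Fermat.Agent.Lib.S59

end
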