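/-
PROGRAMME (R2) = S59, (T3) = THE STRICT `T`-SIDE AT `p ∥ N` FOR [IA′-core], part A (helper6, prefix `s59q_`):
**the hypotheses of [IA′-core] at the STRICT levels (`p ∣ N`, `ρ̄_W` très ramifié at `p`) and the `R`-side package.**

* `s59q_IAHypS`   : the twin of helper4's `s59i_IAHypW` (LFinW1.lean) with `p ∣ N` and `¬ peu` instead of `¬ p ∣ N`;
* `s59q_IAHypS.hbad`, `.hc4`, `.hmult` : `W` is multiplicative at `p`;
* `s59q_RPkgS`    : the `R`-side data `s59i_RData p N ρ̄_W B Bd` under `s59q_IAHypS` (copy of `s59q_RPkgW`; the prime `p` of the level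
                    lies in `Smin`).
-/
import Fermat.Agent.Lib.S59.QWRPkg
import Fermat.Agent.Lib.S59.QTresTr

set_option autoImplicit false
set_option linter.style.haveILetI false
set_option linter.unusedSectionVars false
set_option linter.unusedVariables false
set_option maxHeartbeats 1600000

noncomputable section

namespace Fermat.Agent.Lib.S59

open IsLocalRing Module ExtCitation Polynomial Fermat.Agent.Lib.S56
open Fermat.Agent.Lib.S44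

local notation "Kb" => AlgebraicClosure ℚ
local notation "Γℚ" => (AlgebraicClosure ℚ ≃ₐ[ℚ] AlgebraicClosure ℚ)

/-- **the hypotheses of [IA′-core] for a general semistable `W` at a STRICT level**: `p ∣ N` and `ρ̄_W` is très ramifié at
`p` (`p ∤ v_p(Δ_W)`).  Everything else as in `s59i_IAHypW`. -/
structure s59q_IAHypS (W : WeierstrassCurve ℤ) (p N : ℕ) (Bd B : Finset ℕ) : Prop where
  hss : W.IsSemistableModel
  hirr : W.ModRepIsIrreducible p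
  hN0 : 0 < N
  hNsq : Squarefree N
  hpN : p ∣ N
  hpeu : ¬ (W.map (Int.castRingHom ℚ)).IsPeuRamifieeAt p p
  hne : Bd.Nonempty
  hBd : ∀ q ∈ Bd, q.Prime ∧ q ≠ p ∧ q ∣ N ∧ s59_Unr W p q ∧ p ∣ q - 1 ∧ s59_FrobScalar W p q
  /-- every other prime of the level is a ramified prime of `ρ̄` or is tolerated (`ℓ² ≢ 1 mod p`). -/
  hram : ∀ ℓ : ℕ, ℓ.Prime → ℓ ≠ p → ℓ ∣ N → ℓ ∉ Bd → ¬ s59_Unr W p ℓ ∨ ¬ p ∣ ℓ ^ 2 - 1
  hB1 : ∀ r : ℕ, r.Prime → r ∣ N * p → r ∈ B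
  hB2 : ∀ r : ℕ, r.Prime → ¬ W.IsGoodPrimeFor r → r ∈ B
  hocc : s44i_LevelOcc N p (fun ℓ => W.apOfModel ℓ) B

/-- très ramifié ⇒ bad reduction at `p`. -/
theorem s59q_IAHypS.hbad {W : WeierstrassCurve ℤ} {p N : ℕ} {Bd B : Finset ℕ}
    (H : s59q_IAHypS W p N Bd B) : (p : ℤ) ∣ W.Δ := by
  by_contra hgood
  apply H.hpeu
  unfold WeierstrassCurve.IsPeuRamifieeAt
  rw [WeierstrassCurve.map_Δ]
  have h1 : padicValRat p ((Int.castRingHom ℚ) W.Δ) = padicValInt p W.Δ := by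
    rw [eq_intCast]
    exact padicValRat.of_int
  rw [h1, padicValInt.eq_zero_of_not_dvd hgood]
  exact dvd_zero _

theorem s59q_IAHypS.hmult {W : WeierstrassCurve ℤ} {p N : ℕ} {Bd B : Finset ℕ}
    (H : s59q_IAHypS W p N Bd B) : ¬ W.IsGoodPrimeFor p := fun hg => hg H.hbad

theorem s59q_IAHypS.hc4 {W : WeierstrassCurve ℤ} {p N : ℕ} {Bd B : Finset ℕ}
    (H : s59q_IAHypS W p N Bd B) (hp : p.Prime) : ¬ (p : ℤ) ∣ W.c₄ :=
  H.hss p hp H.hbad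

/-- `p ∥ N`. -/
theorem s59q_IAHypS.hpN2 {W : WeierstrassCurve ℤ} {p N : ℕ} {Bd B : Finset ℕ}
    (H : s59q_IAHypS W p N Bd B) (hp : p.Prime) : ¬ p ^ 2 ∣ N := by
  intro h
  rw [pow_two] at h
  exact hp.one_lt.ne' (Nat.isUnit_iff.mp (H.hNsq p h))

variable (W : WeierstrassCurve ℤ) {p : ℕ} [hpP : Fact p.Prime] (hΔ : W.Δ ≠ 0)
  {𝒪 : Type} [CommRing 𝒪] [IsDomain 𝒪] [IsDiscreteValuationRing 𝒪]
  [IsAdicComplete (maximalIdeal 𝒪) 𝒪] [Algebra ℤ_[p] 𝒪]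
  (hp𝒪 : (p : 𝒪) ∈ maximalIdeal 𝒪)

/-- **the `R`-side data at a STRICT level, for `p ∈ {3, 5}`** (twin of `s59q_RPkgW`). -/
theorem s59q_RPkgS (hp35 : p = 3 ∨ p = 5) (N : ℕ) (Bd B : Finset ℕ)
    (H : s59q_IAHypS W p N Bd B)
    (hsplitℤ : ∀ a b : ℤ, ∃ α β : ResidueField 𝒪,
      α + β = (a : ResidueField 𝒪) ∧ α * β = (b : ResidueField 𝒪)) :
    Nonempty (s59i_RData p N (s59i_rhobarW W p hΔ 𝒪 hp𝒪) B Bd) := by
  classical
  have hp2 : p ≠ 2 := s59q_W_p_ne_two hp35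
  have hpB : p ∈ B := H.hB1 p hpP.out (Dvd.intro_left N rfl)
  have hB2 : ∀ r : ℕ, r.Prime → (r : ℤ) ∣ W.Δ → r ∈ B := fun r hr hd =>
    H.hB2 r hr (fun hg => hg hd)
  have hmemEd : ∀ ℓ, ℓ ∈ s59q_WEd W hΔ hp𝒪 N Bd ↔ (ℓ.Prime ∧ ℓ ∣ N) ∧ ℓ ≠ p ∧ ℓ ∉ Bd ∧
      (s59q_WRhobar W hΔ hp𝒪).IsUnramifiedAt ℓ ∧ ¬ p ∣ ℓ ^ 2 - 1 ∧ s59q_WE1At W hΔ hp𝒪 ℓ := by
    intro ℓ
    unfold s59q_WEd
    rw [Finset.mem_filter, Nat.mem_primeFactors]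
    constructor
    · rintro ⟨⟨h1, h2, -⟩, h3⟩
      exact ⟨⟨h1, h2⟩, h3⟩
    · rintro ⟨⟨h1, h2⟩, h3⟩
      exact ⟨⟨h1, h2, H.hN0.ne'⟩, h3⟩
  refine s59q_WR W hΔ hp𝒪 hp35 H.hss H.hirr hsplitℤ N Bd B hpB hB2 ?_
    (s59q_WEd W hΔ hp𝒪 N Bd) ?_ ?_ ?_
  · intro q hq
    obtain ⟨h1, h2, h3, h4, h5, h6⟩ := H.hBd q hq
    exact ⟨h1, h2, H.hB1 q h1 (Dvd.dvd.mul_right h3 _), h4, h5, h6⟩
  · intro q hq
    obtain ⟨⟨h1, h2⟩, h3, h4, h5, h6, -⟩ := (hmemEd q).mp hq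
    obtain ⟨h7, h8⟩ := s59q_W_not_dvd_of_sq h1.one_lt.le h6
    exact ⟨h1, h3, h4, H.hB1 q h1 (Dvd.dvd.mul_right h2 _), h5, h7, h8⟩
  · intro q hq
    obtain ⟨-, -, -, -, -, hℓ, φ, hφ, ε, hε, hcp⟩ := (hmemEd q).mp hq
    exact ⟨φ, hφ, ε, hε, hcp⟩
  · intro q hq hqN
    by_cases hqp : q = p
    · subst hqp
      exact Or.inl (Finset.mem_union_left _ (s59q_WSmin_p_mem W hΔ hp𝒪))
    by_cases hqBd : q ∈ Bd
    · exact Or.inl (Finset.mem_union_right _ (Finset.mem_union_left _ hqBd))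
    by_cases hunr : (s59q_WRhobar W hΔ hp𝒪).IsUnramifiedAt q
    · rcases H.hram q hq hqp hqN hqBd with h | h
      · exact absurd ((s59q_W_unram_iff W hΔ hp𝒪 q).mp hunr) h
      · by_cases hE1 : s59q_WE1At W hΔ hp𝒪 q
        · exact Or.inl (Finset.mem_union_right _ (Finset.mem_union_right _
            ((hmemEd q).mpr ⟨⟨hq, hqN⟩, hqp, hqBd, hunr, h, hE1⟩)))
        · right
          obtain ⟨φ, hφ⟩ := s56z_exists_frob ⟨q, hq⟩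
          refine ⟨hqp, hunr, s59q_W_sq_sub_one_ne hp𝒪 hq.one_lt.le h, primeLocalPlace ⟨q, hq⟩, φ,
            s56z_place_liesOver ⟨q, hq⟩, hφ, ?_⟩
          rcases s59q_W_E_dichotomy W hΔ hp𝒪 hp2 H.hirr q hq hqp _
            (s56z_place_liesOver ⟨q, hq⟩) φ hφ with ⟨ε, hε, hcp⟩ | hne
          · exact absurd ⟨hq, φ, hφ, ε, hε, hcp⟩ hE1
          · exact hne
    · exact Or.inl (Finset.mem_union_left _ ((s59q_WSmin_hmin W hΔ hp𝒪 hp2 q hq hqp).mpr hunr))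

end Fermat.Agent.Lib.S59

end
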