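/-
PROGRAMME R2 = S59, node [FLR] / [SPEC-R] (helper3, prefix `s59u_sp_`), part B:
**[PATCH-FLR]: THE ASSEMBLY, BASE CASE BY A MODULAR POINT.**  Verbatim helper4's `s59f_FLR_asm`
(FAsmMain.lean) with the `R`-side contract (R0) (and the `T`-side field `hunr0`) replaced by a modular
point of the base level: a prime `𝔭₀ ⊇ Ann_{D0.R} (Bs.M 0)` and, for every component `i ≠ c 0`, an
element `y ∉ 𝔭₀` of `D0.R` which is, for every `n`, the image of an element of `𝒦 i` under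
`κ n ∘ constantCoeff ∘ γ n`.
* `s59u_sp_FLR_asm_pt` : the theorem.
-/
import Mathlib
import Fermat.Agent.Lib.S59.FAsmMain
import Fermat.Agent.Lib.S59.USpA

set_option autoImplicit false
set_option linter.unusedSectionVars false
set_option linter.unusedVariables false
set_option linter.style.haveILetI false
set_option maxHeartbeats 3200000
set_option synthInstance.maxHeartbeats 400000

noncomputable section

namespace Fermat.Agent.Lib.S59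

open IsLocalRing MvPowerSeries
open Fermat.Agent.Lib.S53 (matOf NormData)
open Fermat.Agent.Lib.S56

local notation "Γℚ" => (AlgebraicClosure ℚ ≃ₐ[ℚ] AlgebraicClosure ℚ)

variable {𝒪 : Type} [CommRing 𝒪] [IsDomain 𝒪] [IsDiscreteValuationRing 𝒪]
  [IsAdicComplete (maximalIdeal 𝒪) 𝒪] [Finite (ResidueField 𝒪)]
  {ρbar : ResidualGaloisRep (ResidueField 𝒪)}

/-- **[PATCH-FLR], assembled, base case by a modular point.** -/
theorem s59u_sp_FLR_asm_pt (p : ℕ) [Fact p.Prime] (hp2 : p ≠ 2) (hp𝒪 : (p : 𝒪) ∈ maximalIdeal 𝒪)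
    (i2 : 𝒪) (hi2 : 2 * i2 = 1)
    {𝒟₀ : ∀ ⦃A : Type⦄ [CommRing A] [IsLocalRing A] [Algebra 𝒪 A], GaloisRepAdic A → Prop}
    {𝒟Q : ℕ → ∀ ⦃A : Type⦄ [CommRing A] [IsLocalRing A] [Algebra 𝒪 A], GaloisRepAdic A → Prop}
    (hmono : ∀ (n : ℕ) {A : Type} [CommRing A] [IsLocalRing A] [Algebra 𝒪 A]
      (ρ : GaloisRepAdic A), 𝒟₀ ρ → 𝒟Q n ρ)
    (D0 : GaloisRep.DeformationRingData 𝒪 ρbar 𝒟₀)
    (DQ : ∀ n, GaloisRep.DeformationRingData 𝒪 ρbar (𝒟Q n))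
    (κ : ∀ n, (DQ n).R →ₐ[𝒪] D0.R) (hκs : ∀ n, Function.Surjective (κ n))
    (hκtr : ∀ n g, κ n (s59i_cpTr (DQ n).ρ g) = s59i_cpTr D0.ρ g)
    -- the rings `S` and `P`
    {σ : Type} [Fintype σ] [DecidableEq σ] (r : ℕ)
    (P : Type) [CommRing P] [IsLocalRing P] [IsNoetherianRing P]
    [IsAdicComplete (maximalIdeal P) P] [Finite (ResidueField P)] [Algebra 𝒪 P]
    (γ : ∀ n, P →ₐ[𝒪] MvPowerSeries σ (DQ n).R) (hγ : ∀ n, Function.Surjective (γ n))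
    -- the chain and the ring contract
    (k : ℕ) {ι : Type*} (s : Finset ι) (𝒦 : ι → Ideal P) (c : ℕ → ι) (δ : ℕ → P)
    (hring : s59f_RingData' (MvPowerSeries σ (MvPowerSeries (Fin r) 𝒪)) P s 𝒦 k c δ
      (fun t => Ideal.span {δ t ^ 2}))
    (qr : ℕ → ℕ) (φr σr : ℕ → Γℚ) (g12 : ℕ → P)
    (hδ : ∀ t < k, (((qr t : ℕ) : P) + 1) * (((qr t : ℕ) : P) + 1) - g12 t * g12 t = δ t)
    -- the `R`-side contract
    (hRτ : ∀ n, ∀ t < k, γ n (g12 t) = C (s59i_cpTr (DQ n).ρ (φr t)))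
    (hRkill : ∀ (n : ℕ) (T₁ : Type) [CommRing T₁] [IsLocalRing T₁] [IsNoetherianRing T₁]
      [IsAdicComplete (maximalIdeal T₁) T₁] [IsReduced T₁] [Algebra 𝒪 T₁],
      (∀ o : 𝒪, o ≠ 0 → ∀ x : T₁, algebraMap 𝒪 T₁ o * x = 0 → x = 0) →
      ∀ f : (DQ n).R →ₐ[𝒪] T₁, Function.Surjective f →
      ∀ F ∈ s.inf 𝒦, MvPowerSeries.map (σ := σ) (f : (DQ n).R →+* T₁) (γ n F) = 0)
    -- the `T`-side contract
    (Bs : s59f_TBaseF 𝒪 k D0) (qv : ∀ n, Fin r → ℕ)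
    (TL : ∀ n, s59f_TLevelF 𝒪 p n r σ k Bs (qv n) qr φr σr (DQ n))
    (hunrQ : ∀ n i (g : Γℚ), (∃ A : ValuationSubring (AlgebraicClosure ℚ),
      A.LiesOverPrime (qv n i) ∧ g ∈ A.inertiaSubgroupIn ℚ) → s59i_cpTr D0.ρ g = 2)
    -- the base point
    (𝔭₀ : Ideal D0.R) [h𝔭₀p : 𝔭₀.IsPrime]
    (hM₀ : ∀ a : D0.R, (∀ m : Bs.M 0, Bs.ν 0 a • m = 0) → a ∈ 𝔭₀)
    (hpt : ∀ i ∈ s, i ≠ c 0 → ∃ y : D0.R,
      (∀ n, ∃ F ∈ 𝒦 i, κ n (constantCoeff (γ n F)) = y) ∧ y ∉ 𝔭₀)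
    -- the point
    (𝒪' : Type) [CommRing 𝒪'] [IsDomain 𝒪'] [IsLocalRing 𝒪'] [IsNoetherianRing 𝒪']
    (x : D0.R →+* 𝒪') (hx : ∀ a ∈ maximalIdeal D0.R, x a ∈ maximalIdeal 𝒪')
    (hxK : ∀ g ∈ 𝒦 (c k), ∀ n, x (κ n (constantCoeff (γ n g))) = 0) :
    RingHom.ker (Bs.ν k : D0.R →+* Bs.R k) ≤ RingHom.ker x := by
  classical
  -- notation
  set g11 : ℕ → P := fun t => ((qr t : ℕ) : P) + 1 with hg11
  -- `γT` on the Gram entries
  have hγT11 : ∀ n t, s59f_gammaT (T := (TL n).T) (γ n : P →+* MvPowerSeries σ (DQ n).R)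
      ((TL n).θ : (DQ n).R →+* (TL n).T') (g11 t) =
      (C ((qr t : ℕ) : (TL n).T) + 1 : MvPowerSeries σ (TL n).T) := by
    intro n t
    rw [hg11]
    simp only [map_add, map_one, map_natCast]
  have hγT12 : ∀ n, ∀ t < k, s59f_gammaT (T := (TL n).T) (γ n : P →+* MvPowerSeries σ (DQ n).R)
      ((TL n).θ : (DQ n).R →+* (TL n).T') (g12 t) =
      (C (algebraMap (TL n).T' (TL n).T ((TL n).θ (s59i_cpTr (DQ n).ρ (φr t)))) :
        MvPowerSeries σ (TL n).T) := by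
    intro n t ht
    rw [s59f_gammaT_apply]
    have := hRτ n t ht
    rw [RingHom.coe_coe, this, MvPowerSeries.map_C, MvPowerSeries.map_C]
    rfl
  haveI hTnoeth : ∀ n, IsNoetherianRing (TL n).T := fun n =>
    IsNoetherianRing.of_finite (TL n).T' (TL n).T
  refine s59u_sp_FLR_absL_pt i2 hi2 D0 DQ κ hκs hκtr r P γ hγ k s 𝒦 c δ
    (fun t => Ideal.span {δ t ^ 2}) hring g11 g12 g12 g11 hδ
    Bs.R Bs.hRres Bs.M Bs.MQ Bs.ρ Bs.hρ Bs.hρinj Bs.ρR (fun t n => hmono n _ (Bs.hρR t))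
    Bs.hresR Bs.ν Bs.hν Bs.hνs
    (s59t_frameA σ (RingHom.ker (constantCoeff (σ := Fin r) (R := 𝒪))))
    (s59f_frameA_CX σ) (s59f_frameA_X σ) (s59f_frameA_le σ)
    (fun n => s59t_frameJ σ (s59t_JH 𝒪 p n r))
    (fun n => s59t_frameJ_JH_le σ hp2 hp𝒪 n r)
    (fun n => (TL n).T') (fun n => (TL n).T) (fun n => (TL n).θ) (fun n => (TL n).hθ)
    (fun t n => (TL n).L0 t) Bs.d (fun t n => (TL n).hd t) (fun n => (TL n).std)
    (fun t n => (TL n).hstd t) (fun t n => (TL n).hψ𝒪 t) (fun n => (TL n).uu)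
    (fun n => (TL n).huu) (fun n => (TL n).hgen) (fun n => (TL n).hstdX)
    (fun n => (TL n).hstdz) (fun t n => (TL n).σQ t) (fun t ht n i => (TL n).hC8 t ht i)
    (fun t n i => hunrQ n i _ ((TL n).hσQ t i)) (fun t n => (TL n).hτ t)
    (fun t n => Ideal.span {(((C ((qr t : ℕ) : (TL n).T) + 1 : MvPowerSeries σ (TL n).T)) ^ 2 -
      (C (algebraMap (TL n).T' (TL n).T ((TL n).θ (s59i_cpTr (DQ n).ρ (φr t)))) :
        MvPowerSeries σ (TL n).T) ^ 2) ^ 2})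
    ?_ ?_ ?_
    (fun i => ⨅ n, (𝒦 i).map ((κ n : (DQ n).R →+* D0.R).comp
      ((constantCoeff (σ := σ) (R := (DQ n).R)).comp (γ n : P →+* MvPowerSeries σ (DQ n).R))))
    (fun i _ n => iInf_le _ n) 𝔭₀ hM₀ ?_ 𝒪' x hx hxK
  · -- `h𝔫U`
    intro t ht n y hy
    obtain ⟨a, rfl⟩ := Ideal.mem_span_singleton'.mp hy
    rw [map_mul, map_pow, ← hδ t ht, map_sub, map_mul, map_mul, hγT11, hγT12 n t ht]
    refine Ideal.mul_mem_left _ _ (Ideal.subset_span ?_)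
    rw [Set.mem_singleton_iff, pow_two (C _ + 1), pow_two (C _)]
  · -- `hT`
    intro t ht n
    rw [hγT11, hγT12 n t ht]
    exact (TL n).hT t ht
  · -- `hkill`
    intro t ht n F hF
    have h1 := hRkill n (TL n).T' (TL n).htf (TL n).θ (TL n).hθ F hF
    have h2 : s59f_gammaT (T := (TL n).T) (γ n : P →+* MvPowerSeries σ (DQ n).R)
        ((TL n).θ : (DQ n).R →+* (TL n).T') F = 0 := by
      rw [s59f_gammaT_apply]
      exact (congrArg (MvPowerSeries.map (σ := σ) (algebraMap (TL n).T' (TL n).T)) h1).trans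
        (map_zero _)
    rw [h2]
    exact Submodule.zero_mem _
  · -- the base point
    intro i hi hle
    by_contra hne
    obtain ⟨y, hy, hy𝔭⟩ := hpt i hi hne
    refine hy𝔭 (hle ?_)
    rw [Ideal.mem_iInf]
    intro n
    obtain ⟨F, hF, e⟩ := hy n
    rw [← e]
    exact Ideal.mem_map_of_mem _ hF

end Fermat.Agent.Lib.S59
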