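/-
PROGRAMME R2 = S59, node [FLR] / [SPEC-R] (helper3, prefix `s59u_sp_`), part C:
**the ring-side lemmas for spectator primes.**

A SPECTATOR is a prime `l` with a smooth several-component local model `L l : s59f_LocBr 𝒪 i2`
which sits in the BASE level of the family level raising: along the chain of components its
component is constant (`unr` if it is never in the range of `step`; `tgt` if it is raised at a
VIRTUAL step `t < k₀` before the base level).

* `s59u_sp_ringData_shift` : the ring contract `s59f_RingData'` along `t ↦ c (k₀ + t)`;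
* `s59u_sp_LocBrPt`        : the two extra facts on a local bridge datum used to separate the
                             components by invariant functions (`δ` vanishes off `unr`; `g12 + tr0`
                             vanishes on the components other than `unr`, `tgt`), with the instances
                             `s59u_sp_locBrPt_E/_MP/_MM/_P` for helper3's four data;
(continued in USpD.lean)
-/
import Mathlib
import Fermat.Agent.Lib.S59.FAsmG7
import Fermat.Agent.Lib.S59.ULocBrM
import Fermat.Agent.Lib.S59.ULocBrP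

set_option autoImplicit false
set_option linter.unusedSectionVars false
set_option linter.unusedVariables false
set_option linter.style.haveILetI false
set_option maxHeartbeats 1600000

noncomputable section

namespace Fermat.Agent.Lib.S59

open IsLocalRing MvPowerSeries Fermat.Agent.Lib.Deform

section Shift

/-- the ring contract along the shifted chain `t ↦ c (k₀ + t)`. -/
theorem s59u_sp_ringData_shift {S : Type} [CommRing S] {A : Type} [CommRing A] {ι : Type*}
    {s : Finset ι} {𝒦 : ι → Ideal A} {k₀ k : ℕ} {c : ℕ → ι} {δ : ℕ → A} {𝔫 : ℕ → Ideal A}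
    (h : s59f_RingData' S A s 𝒦 (k₀ + k) c δ 𝔫) (h0 : c k₀ ∈ s) :
    s59f_RingData' S A s 𝒦 k (fun t => c (k₀ + t)) (fun t => δ (k₀ + t))
      (fun t => 𝔫 (k₀ + t)) where
  prime := h.prime
  dim := h.dim
  mem0 := h0
  wit := fun t ht => h.wit (k₀ + t) (Nat.add_lt_add_left ht k₀)

end Shift

section Pt

variable {𝒪 : Type} [CommRing 𝒪] [IsLocalRing 𝒪] [IsNoetherianRing 𝒪] [IsDomain 𝒪]
  [IsAdicComplete (maximalIdeal 𝒪) 𝒪] [Finite (ResidueField 𝒪)]

/-- **the separation facts** of a local bridge datum: the Gram determinant `δ` vanishes on every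
component other than `unr`, and `g12 + tr0` vanishes on the components other than `unr`, `tgt`. -/
structure s59u_sp_LocBrPt {i2 : 𝒪} (L : s59f_LocBr 𝒪 i2) : Prop where
  δ_off : ∀ c : Fin L.Λ.nc, c ≠ L.D.unr → s59r_ParHom L.Λ c L.D.δ = 0
  third : ∀ c : Fin L.Λ.nc, c ≠ L.D.unr → c ≠ L.D.tgt →
    s59r_ParHom L.Λ c (L.g12 + C L.tr0) = 0

end Pt

section InstE

variable {𝒪 : Type} [CommRing 𝒪] [IsLocalRing 𝒪] [IsNoetherianRing 𝒪] [IsDomain 𝒪]
  [IsAdicComplete (maximalIdeal 𝒪) 𝒪] [Finite (ResidueField 𝒪)]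
variable (d : s59r_UData 𝒪) (hu1 : IsUnit (1 - d.u)) (hu2 : IsUnit (1 + d.u))

theorem s59u_sp_locBrPt_E : s59u_sp_LocBrPt (s59u_lb_locBrE d hu1 hu2) where
  δ_off := by
    intro c hc
    fin_cases c
    · exact absurd rfl hc
    · show s59r_PE d hu1 1 (s59r_deltaLocE d) = 0
      unfold s59r_deltaLocE
      rw [map_mul, s59r_PE_rel1, mul_zero]
  third := by
    intro c hc hc'
    fin_cases c
    · exact absurd rfl hc
    · exact absurd rfl hc'

end InstE

section InstP

variable {𝒪 : Type} [CommRing 𝒪] [IsLocalRing 𝒪] [IsNoetherianRing 𝒪] [IsDomain 𝒪]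
  [IsAdicComplete (maximalIdeal 𝒪) 𝒪] [Finite (ResidueField 𝒪)]
variable (d : s59r_UData 𝒪) (hu1m : 1 - d.u ∈ maximalIdeal 𝒪) (hu1n : 1 - d.u ≠ 0)

theorem s59u_sp_locBrPt_P : s59u_sp_LocBrPt (s59u_lb_locBrP d hu1m hu1n) where
  δ_off := by
    intro c hc
    fin_cases c
    · exact absurd rfl hc
    · show s59r_PP d 1 (s59r_deltaLocP d) = 0
      unfold s59r_deltaLocP
      rw [map_mul, s59r_PP_rel1, mul_zero]
  third := by
    intro c hc hc'
    fin_cases c
    · exact absurd rfl hc
    · exact absurd rfl hc'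

end InstP

section InstM

variable {𝒪 : Type} [CommRing 𝒪] [IsLocalRing 𝒪] [IsNoetherianRing 𝒪] [IsDomain 𝒪]
  [IsAdicComplete (maximalIdeal 𝒪) 𝒪] [Finite (ResidueField 𝒪)]
variable (d : s59r_UData 𝒪) (hu1 : IsUnit (1 - d.u)) (hu2m : 1 + d.u ∈ maximalIdeal 𝒪)
  (hu2n : 1 + d.u ≠ 0)

theorem s59u_sp_PM_X3_one : s59r_PM d hu1 hu2m 1 (X 3) = C d.a0 := by
  rw [s59r_PM_X]; rfl

theorem s59u_sp_PM_X3_two : s59r_PM d hu1 hu2m 2 (X 3) = -C d.a0 := by
  rw [s59r_PM_X]; rfl

theorem s59u_sp_tr0_Par : (C (d.ε * (d.u + 1)) : s59r_Par 𝒪) = 2 * C d.a0 := by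
  have h : d.ε * (d.u + 1) = 2 * d.a0 := by
    rw [s59r_UData.a0]
    linear_combination (-(d.ε * (d.u + 1))) * d.hi2
  rw [h, map_mul, map_ofNat]

theorem s59u_sp_PM_delta_one : s59r_PM d hu1 hu2m 1 (s59r_deltaLocM d) = 0 := by
  unfold s59r_deltaLocM
  rw [map_mul, map_sub, map_pow, map_pow, s59r_PM_C, s59u_sp_PM_X3_one, sub_self, mul_zero]

theorem s59u_sp_PM_delta_two : s59r_PM d hu1 hu2m 2 (s59r_deltaLocM d) = 0 := by
  unfold s59r_deltaLocM
  rw [map_mul, map_sub, map_pow, map_pow, s59r_PM_C, s59u_sp_PM_X3_two]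
  ring

theorem s59u_sp_locBrPt_MP : s59u_sp_LocBrPt (s59u_lb_locBrMP d hu1 hu2m hu2n) where
  δ_off := by
    intro c hc
    fin_cases c
    · exact absurd rfl hc
    · exact s59u_sp_PM_delta_one d hu1 hu2m
    · exact s59u_sp_PM_delta_two d hu1 hu2m
  third := by
    intro c hc hc'
    fin_cases c
    · exact absurd rfl hc
    · exact absurd rfl hc'
    · show s59r_PM d hu1 hu2m 2 (2 * X 3 + C (d.ε * (d.u + 1))) = 0
      rw [map_add, map_mul, map_ofNat, s59u_sp_PM_X3_two, s59r_PM_C, s59u_sp_tr0_Par]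
      ring

theorem s59u_sp_locBrPt_MM : s59u_sp_LocBrPt (s59u_lb_locBrMM d hu1 hu2m hu2n) where
  δ_off := by
    intro c hc
    fin_cases c
    · exact absurd rfl hc
    · exact s59u_sp_PM_delta_one d hu1 hu2m
    · exact s59u_sp_PM_delta_two d hu1 hu2m
  third := by
    intro c hc hc'
    fin_cases c
    · exact absurd rfl hc
    · show s59r_PM d hu1 hu2m 1 (2 * X 3 + C (-(d.ε * (d.u + 1)))) = 0
      rw [map_add, map_mul, map_ofNat, s59u_sp_PM_X3_one, s59r_PM_C, map_neg, s59u_sp_tr0_Par]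
      ring
    · exact absurd rfl hc'

end InstM

end Fermat.Agent.Lib.S59
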