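/-
PROGRAMME R2 = S59, node [FLR] / [SPEC-R] (helper3, prefix `s59u_sp_`), part D:
**the ring-side lemmas for spectator primes, continued.**

* `s59u_sp_delta_mem_inr/_inl`, `s59u_sp_third_mem`, `s59u_sp_U_mem` : elements of `𝒦_{b,ch}`;
* `s59u_sp_G_delta_img`, `s59u_sp_G_third_img`, `s59u_sp_G_unr_one` : their images under the bridge;
* `s59u_sp_G_xK`           : `s59f_G_xK` for an arbitrary choice `ch` (every smooth prime either
                             ramified with `tr = tr0`, on `tgt`, or unramified, on `unr`).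
-/
import Mathlib
import Fermat.Agent.Lib.S59.USpC

set_option autoImplicit false
set_option linter.unusedSectionVars false
set_option linter.unusedVariables false
set_option linter.style.haveILetI false
set_option maxHeartbeats 1600000

noncomputable section

namespace Fermat.Agent.Lib.S59

open IsLocalRing MvPowerSeries Fermat.Agent.Lib.Deform

section Mem

variable {𝒪 : Type} [CommRing 𝒪] [IsLocalRing 𝒪] [IsNoetherianRing 𝒪] [IsDomain 𝒪]
  [IsAdicComplete (maximalIdeal 𝒪) 𝒪] [Finite (ResidueField 𝒪)]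
variable {i2 : 𝒪} {r r4 : ℕ} (g : ℕ) (L : Fin r → s59f_LocBr 𝒪 i2) (ε4 u4 : Fin r4 → 𝒪)
  (hϑ : ∀ i, s59l_Hyp (s59u_r2_theta4 i2 ε4 u4 i))

/-- the Gram determinant of a prime of type (iv) lies on the components on which this prime is
Steinberg. -/
theorem s59u_sp_delta_mem_inr (b : Fin r4 → Bool) (ch : s59r_Ch (fun l => (L l).Λ)) (j : Fin r4)
    (hb : b j = true) :
    s59u_r2_delta (fun l => (L l).Λ) (fun l => (L l).D) (Fin.natAdd 0)
        (s59u_r2_theta4 i2 ε4 u4) g (fun _ => (Sum.inr j : Fin r ⊕ Fin r4)) 0 ∈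
      s59f_KG (fun l => (L l).Λ) (s59u_r2_theta4 i2 ε4 u4) hϑ g (b, ch) := by
  show -4 * s59u_r2_quadWB r g (Fin.natAdd 0 j) (s59u_r2_theta4 i2 ε4 u4 j ^ 2) ∈ _
  refine Ideal.mul_mem_left _ _ ?_
  unfold s59f_KG
  refine s59u_r2_quadWB_mem_KK _ _ _ ch (Fin.natAdd 0 j) (s59u_r2_theta4 i2 ε4 u4 j) ?_
  rw [s59u_r2_kappa_right, if_pos hb]

/-- the Gram determinant of a smooth prime lies on the components on which this prime is not on
`unr`. -/
theorem s59u_sp_delta_mem_inl (hL : ∀ l, s59u_sp_LocBrPt (L l)) (b : Fin r4 → Bool)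
    (ch : s59r_Ch (fun l => (L l).Λ)) (l : Fin r) (hch : ch l ≠ (L l).D.unr) :
    s59u_r2_delta (fun l => (L l).Λ) (fun l => (L l).D) (Fin.natAdd 0)
        (s59u_r2_theta4 i2 ε4 u4) g (fun _ => (Sum.inl l : Fin r ⊕ Fin r4)) 0 ∈
      s59f_KG (fun l => (L l).Λ) (s59u_r2_theta4 i2 ε4 u4) hϑ g (b, ch) := by
  show s59r_loc (0 + r4) g l (L l).D.δ ∈ _
  unfold s59f_KG
  rw [s59u_r2_loc_mem_KK]
  exact (hL l).δ_off (ch l) hch

/-- `g12 + tr0` lies on the components on which the smooth prime `l` is neither on `unr` nor on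
`tgt`. -/
theorem s59u_sp_third_mem (hL : ∀ l, s59u_sp_LocBrPt (L l)) (b : Fin r4 → Bool)
    (ch : s59r_Ch (fun l => (L l).Λ)) (l : Fin r) (hch : ch l ≠ (L l).D.unr)
    (hch' : ch l ≠ (L l).D.tgt) :
    s59r_loc (0 + r4) g l ((L l).g12 + C (L l).tr0) ∈
      s59f_KG (fun l => (L l).Λ) (s59u_r2_theta4 i2 ε4 u4) hϑ g (b, ch) := by
  unfold s59f_KG
  rw [s59u_r2_loc_mem_KK]
  exact (hL l).third (ch l) hch hch'

/-- the inertia coordinates of a smooth prime lie on the components on which it is on `unr`. -/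
theorem s59u_sp_U_mem (b : Fin r4 → Bool) (ch : s59r_Ch (fun l => (L l).Λ)) (l : Fin r)
    (hch : ch l = (L l).D.unr) (k : Fin 3) :
    (s59r_U l (Fin.castAdd 3 k) : s59r_Flat 𝒪 (0 + r4) r g) ∈
      s59f_KG (fun l => (L l).Λ) (s59u_r2_theta4 i2 ε4 u4) hϑ g (b, ch) := by
  rw [← s59r_loc_X]
  unfold s59f_KG
  rw [s59u_r2_loc_mem_KK]
  show s59r_ParHom (L l).Λ (ch l) _ = 0
  rw [hch, s59r_ParHom_X, (L l).unr_par]
  fin_cases k <;> rfl

end Mem

section Img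

variable {𝒪 : Type} [CommRing 𝒪] [IsLocalRing 𝒪] [IsNoetherianRing 𝒪] [IsDomain 𝒪]
  [IsAdicComplete (maximalIdeal 𝒪) 𝒪] [Finite (ResidueField 𝒪)]
variable {i2 : 𝒪} {r r4 g : ℕ} {L : Fin r → s59f_LocBr 𝒪 i2} {ε4 u4 : Fin r4 → 𝒪}
variable {σ : Type} [Finite σ] {R' : Type} [CommRing R'] [IsLocalRing R'] [Algebra 𝒪 R']
  {G : Type} [Monoid G] {ρm : G →* Matrix (Fin 2) (Fin 2) R'}
  {U U' : Fin r4 ⊕ Fin r → Matrix (Fin 2) (Fin 2) (MvPowerSeries σ R')}
  {γ : s59r_Flat 𝒪 (0 + r4) r g →ₐ[𝒪] MvPowerSeries σ R'}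
  {sg ph : Fin r4 ⊕ Fin r → G} {qn : Fin r4 ⊕ Fin r → ℕ}

/-- **the image of the Gram determinant** of the framed prime `s'` under the bridge. -/
theorem s59u_sp_G_delta_img (hi2 : 2 * i2 = 1) (hε4 : ∀ i, ε4 i ^ 2 = 1)
    (hϑ : ∀ i, s59l_Hyp (s59u_r2_theta4 i2 ε4 u4 i))
    (hγ : Function.Surjective γ)
    (hB : s59f_BridgeEqsG L ρm U U' γ sg ph) (hG : s59f_GalG L ε4 u4 ρm U U' sg ph qn)
    (s' : Fin r ⊕ Fin r4) :
    γ (s59u_r2_delta (fun l => (L l).Λ) (fun l => (L l).D) (Fin.natAdd 0)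
        (s59u_r2_theta4 i2 ε4 u4) g (fun _ => s') 0) =
      C ((((qn (Sum.swap s') : ℕ) : R') + 1) * (((qn (Sum.swap s') : ℕ) : R') + 1) -
        (ρm (ph (Sum.swap s'))).trace * (ρm (ph (Sum.swap s'))).trace) := by
  have hu : s59f_uG L u4 (fun _ => s') 0 = ((qn (Sum.swap s') : ℕ) : 𝒪) := by
    unfold s59f_uG
    rcases s' with l | i
    · exact hG.qu l
    · exact hG.qu4 i
  rw [← s59f_G_hδ' g L ε4 u4 hi2 hε4 hϑ (fun _ => s') 0 _ hu, map_sub, map_mul, map_mul,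
    s59f_G_Rτ hi2 hε4 hϑ hγ hB hG (fun _ => s') 0]
  simp only [map_sub, map_mul, map_add, map_one, map_natCast]

/-- the image of `g12 + tr0` under the bridge. -/
theorem s59u_sp_G_third_img (hi2 : 2 * i2 = 1) (hε4 : ∀ i, ε4 i ^ 2 = 1)
    (hϑ : ∀ i, s59l_Hyp (s59u_r2_theta4 i2 ε4 u4 i))
    (hγ : Function.Surjective γ)
    (hB : s59f_BridgeEqsG L ρm U U' γ sg ph) (hG : s59f_GalG L ε4 u4 ρm U U' sg ph qn)
    (l : Fin r) :
    γ (s59r_loc (0 + r4) g l ((L l).g12 + C (L l).tr0)) =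
      C (ρm (ph (Sum.inr l))).trace + algebraMap 𝒪 (MvPowerSeries σ R') (L l).tr0 := by
  have h := s59f_G_Rτ hi2 hε4 hϑ hγ hB hG (fun _ => (Sum.inl l : Fin r ⊕ Fin r4)) 0
  have e : s59f_g12G g L ε4 u4 hi2 hε4 hϑ (fun _ => (Sum.inl l : Fin r ⊕ Fin r4)) 0 =
      s59r_loc (0 + r4) g l (L l).g12 := rfl
  rw [e] at h
  rw [map_add, map_add, h, s59l_algHom_C, AlgHom.commutes]
  rfl

/-- if a ring map kills the images of the inertia coordinates of the smooth prime `l` then the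
matrix of the inertia generator maps to `1`. -/
theorem s59u_sp_G_unr_one
    (hB : s59f_BridgeEqsG L ρm U U' γ sg ph) (hG : s59f_GalG L ε4 u4 ρm U U' sg ph qn)
    (hUU' : ∀ t, U t * U' t = 1)
    {A : Type*} [CommRing A] (f : MvPowerSeries σ R' →+* A)
    (hi2A : (2 : A) * f (algebraMap 𝒪 (MvPowerSeries σ R') i2) = 1) (l : Fin r)
    (h : ∀ k : Fin 3, f (γ (s59r_U l (Fin.castAdd 3 k))) = 0) :
    ((ρm (sg (Sum.inr l))).map (C : R' →+* MvPowerSeries σ R')).map f = 1 := by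
  refine s59f_rho_map_of_Fm_one ρm U U' hUU' f (Sum.inr l) (sg (Sum.inr l)) ?_
  refine s59i_eq_one_of_tl (f (algebraMap 𝒪 (MvPowerSeries σ R') i2)) hi2A _ (fun k => ?_) ?_
  · have hc : γ (s59r_U l (Fin.castAdd 3 k)) =
        s59i_tl (algebraMap 𝒪 (MvPowerSeries σ R') i2)
          (s59i_Fm ρm U U' (Sum.inr l) (sg (Sum.inr l))) k := by
      rw [hB.2.2 l (Fin.castAdd 3 k), s59f_coordG_left]
      rfl
    rw [s59i_tl_map, ← hc]
    exact h k
  · obtain ⟨-, h2, -, -, -⟩ := hG.type1 (Sum.inr l)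
    rw [s59i_map_trace', h2, map_ofNat]

end Img

section XK

variable {𝒪 : Type} [CommRing 𝒪] [IsLocalRing 𝒪] [IsNoetherianRing 𝒪] [IsDomain 𝒪]
  [IsAdicComplete (maximalIdeal 𝒪) 𝒪] [Finite (ResidueField 𝒪)]
variable {i2 : 𝒪} {r r4 g : ℕ} {L : Fin r → s59f_LocBr 𝒪 i2} {ε4 u4 : Fin r4 → 𝒪}
variable {σ : Type} [Finite σ] {R' : Type} [CommRing R'] [IsLocalRing R'] [Algebra 𝒪 R']
  {G : Type} [Monoid G] {ρm : G →* Matrix (Fin 2) (Fin 2) R'}
  {U U' : Fin r4 ⊕ Fin r → Matrix (Fin 2) (Fin 2) (MvPowerSeries σ R')}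
  {γ : s59r_Flat 𝒪 (0 + r4) r g →ₐ[𝒪] MvPowerSeries σ R'}
  {sg ph : Fin r4 ⊕ Fin r → G} {qn : Fin r4 ⊕ Fin r → ℕ}

/-- **the point condition for an arbitrary choice of components at the smooth primes**: a complete
local domain point `ψ` of `R′⟦z⟧`, flat over `𝒪`, ramified at every prime of type (iv), and at every
smooth prime `l` EITHER ramified with `tr ρ(φ_l) = tr0_l` (`ch l = tgt`) OR unramified
(`ch l = unr`), kills the component `(true, ch)`. -/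
theorem s59u_sp_G_xK (hi2 : 2 * i2 = 1) (hε4 : ∀ i, ε4 i ^ 2 = 1)
    (hϑ : ∀ i, s59l_Hyp (s59u_r2_theta4 i2 ε4 u4 i))
    (hu0 : ∀ i, u4 i ≠ 0) (hu1 : ∀ i, 1 - u4 i ≠ 0) (hu2 : ∀ i, IsUnit (1 + u4 i))
    (hγ : Function.Surjective γ)
    (hB : s59f_BridgeEqsG L ρm U U' γ sg ph) (hG : s59f_GalG L ε4 u4 ρm U U' sg ph qn)
    {T : Type} [CommRing T] [IsLocalRing T] [IsDomain T] [IsAdicComplete (maximalIdeal T) T]
    [Algebra 𝒪 T] (ψ : MvPowerSeries σ R' →ₐ[𝒪] T)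
    (hψ : ∀ a ∈ maximalIdeal (MvPowerSeries σ R'), ψ a ∈ maximalIdeal T)
    (hinj : Function.Injective (algebraMap 𝒪 T))
    (hram4 : ∀ i, (s59i_Fm ρm U U' (Sum.inl i) (sg (Sum.inl i))).map ψ ≠ 1)
    (ch : s59r_Ch (fun l => (L l).Λ))
    (hch : ∀ l, (ch l = (L l).D.tgt ∧
        (s59i_Fm ρm U U' (Sum.inr l) (sg (Sum.inr l))).map ψ ≠ 1 ∧
        ψ (C (ρm (ph (Sum.inr l))).trace) = algebraMap 𝒪 T (L l).tr0) ∨
      (ch l = (L l).D.unr ∧ (s59i_Fm ρm U U' (Sum.inr l) (sg (Sum.inr l))).map ψ = 1)) :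
    ∀ F ∈ s59f_KG (fun l => (L l).Λ) (s59u_r2_theta4 i2 ε4 u4) hϑ g (fun _ => true, ch),
      ψ (γ F) = 0 := by
  classical
  intro F hF
  have hΨ𝒪 : ∀ o : 𝒪, ψ (algebraMap 𝒪 (MvPowerSeries σ R') o) = algebraMap 𝒪 T o := ψ.commutes
  have hi2' : (2 : T) * algebraMap 𝒪 T i2 = 1 := by
    rw [← map_ofNat (algebraMap 𝒪 T) 2, ← map_mul, hi2, map_one]
  obtain ⟨b, hb⟩ := s59f_G_rel hi2 hε4 hϑ hu0 hu1 hu2 hγ hB hG ψ hψ hinj
  -- the mapped `Σ`'s have trace `2`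
  have htr2 : ∀ t, ((s59i_Fm ρm U U' t (sg t)).map ψ).trace = 2 := by
    intro t
    obtain ⟨-, h2, -, -, -⟩ := hG.type1 t
    have := s59i_map_trace' (ψ : MvPowerSeries σ R' →+* T) (s59i_Fm ρm U U' t (sg t))
    rw [RingHom.coe_coe] at this
    rw [this, h2, map_ofNat]
  -- the coordinates of `Σ`
  have htlψ : ∀ t k, ψ (s59i_tl (algebraMap 𝒪 (MvPowerSeries σ R') i2)
      (s59i_Fm ρm U U' t (sg t)) k) =
      s59i_tl (algebraMap 𝒪 T i2) ((s59i_Fm ρm U U' t (sg t)).map ψ) k := by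
    intro t k
    have e := s59i_tl_map (ψ : MvPowerSeries σ R' →+* T)
      (algebraMap 𝒪 (MvPowerSeries σ R') i2) (s59i_Fm ρm U U' t (sg t)) k
    rw [RingHom.coe_coe, hΨ𝒪] at e
    exact e.symm
  -- all primes of type (iv) are on the Steinberg cone
  have hball : b = fun _ => true := by
    funext i
    by_contra hbi
    have hbf : b i = false := by simpa using hbi
    have hrel := hb.rel (Fin.natAdd 0 i)
    rw [s59u_r2_kappa_right, hbf] at hrel
    have hrel' : ∀ k, (ψ.comp γ) (s59r_VB (Fin.natAdd 0 i) k) = 0 := hrel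
    refine hram4 i (s59i_eq_one_of_tl (algebraMap 𝒪 T i2) hi2' _ (fun k => ?_)
      (htr2 (Sum.inl i)))
    rw [← htlψ, ← hB.1 i k]
    exact hrel' k
  subst hball
  have hle := s59u_r2_KK_kill_ch (fun l => (L l).Λ)
    (s59u_r2_kappa (s59f_th0 𝒪) (s59u_r2_theta4 i2 ε4 u4) (fun _ => true))
    (s59u_r2_kappa_hyp (s59f_th0 𝒪) (s59u_r2_theta4 i2 ε4 u4) s59f_th0_hyp hϑ (fun _ => true)) g
    (ψ.comp γ) hb.mem hb.rel hb.reg ch ?_
  · have := hle hF
    rw [RingHom.mem_ker, AlgHom.comp_apply] at this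
    exact this
  intro l
  have hv : ∀ k, (ψ.comp γ) (s59r_U l k) ∈ maximalIdeal T := fun k => hb.mem _
  have hc : ∀ k : Fin 3, γ (s59r_U l (Fin.castAdd 3 k)) =
      s59i_tl (algebraMap 𝒪 (MvPowerSeries σ R') i2)
        (s59i_Fm ρm U U' (Sum.inr l) (sg (Sum.inr l))) k := by
    intro k
    rw [hB.2.2 l (Fin.castAdd 3 k), s59f_coordG_left]
    rfl
  rcases hch l with ⟨hcl, hram, htr0⟩ | ⟨hcl, hone⟩
  · rw [hcl]
    refine (L l).tgtOf T hinj hb.loc (fun k => (ψ.comp γ) (s59r_U l k)) hv (hb.mrel l) ?_ ?_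
    · -- ramified
      rintro ⟨h0, h1, h2⟩
      refine hram (s59i_eq_one_of_tl (algebraMap 𝒪 T i2) hi2' _ (fun k => ?_)
        (htr2 (Sum.inr l)))
      rw [← htlψ, ← hc k]
      fin_cases k
      · exact h0
      · exact h1
      · exact h2
    · -- the trace
      have hev : evalHom (R := 𝒪) (maximalIdeal T) (fun k => (ψ.comp γ) (s59r_U l k)) hv =
          (ψ.comp γ).comp (s59r_loc (0 + r4) g l) := by
        refine algHom_ext_of_X (maximalIdeal T) (fun k => ?_) (fun k => ?_)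
        · rw [evalHom_X]
          exact hv k
        · rw [evalHom_X]
          show _ = (ψ.comp γ) (s59r_loc (0 + r4) g l (X k))
          rw [s59r_loc_X]
      rw [hev]
      show ψ (γ (s59r_loc (0 + r4) g l (L l).g12)) = _
      have h := s59f_G_Rτ hi2 hε4 hϑ hγ hB hG (fun _ => (Sum.inl l : Fin r ⊕ Fin r4)) 0
      have e : s59f_g12G g L ε4 u4 hi2 hε4 hϑ (fun _ => (Sum.inl l : Fin r ⊕ Fin r4)) 0 =
          s59r_loc (0 + r4) g l (L l).g12 := rfl
      rw [e] at h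
      rw [h]
      exact htr0
  · -- unramified: the point is on `unr`
    have hk0 : ∀ k : Fin 3, (ψ.comp γ) (s59r_U l (Fin.castAdd 3 k)) = 0 := by
      intro k
      rw [AlgHom.comp_apply, hc k, htlψ, hone]
      exact s59f_tl_one _ k
    have hy : ∀ j : Fin 3, (ψ.comp γ) (s59r_U l (Fin.natAdd 3 j)) ∈ maximalIdeal T :=
      fun j => hv _
    refine ⟨fun j => (ψ.comp γ) (s59r_U l (Fin.natAdd 3 j)), hy, fun k => ?_⟩
    have hpar : (L l).Λ.par (ch l) = ![0, 0, 0, X 0, X 1, X 2] := by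
      rw [hcl]
      exact (L l).unr_par
    have hparL : ∀ k' : Fin 3, (L l).Λ.par (ch l) (Fin.castAdd 3 k') = 0 := by
      intro k'
      rw [hpar]
      fin_cases k' <;> rfl
    have hparR : ∀ k' : Fin 3, (L l).Λ.par (ch l) (Fin.natAdd 3 k') = X k' := by
      intro k'
      rw [hpar]
      fin_cases k' <;> rfl
    have hk : ∀ k : Fin (3 + 3), (ψ.comp γ) (s59r_U l k) = evalHom (R := 𝒪) (maximalIdeal T)
        (fun j => (ψ.comp γ) (s59r_U l (Fin.natAdd 3 j))) hy ((L l).Λ.par (ch l) k) := by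
      intro k
      refine Fin.addCases (fun k' => ?_) (fun k' => ?_) k
      · rw [hparL, map_zero]
        exact hk0 k'
      · rw [hparR, evalHom_X]
    exact hk k

end XK

end Fermat.Agent.Lib.S59
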