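/-
PROGRAMME R2 = S59, node [FLR] / [SPEC-R] (helper3, prefix `s59u_sp_`), part E:
**THE `R`-SIDE OF [PATCH-FLR] WITH SPECTATOR PRIMES IN THE BASE LEVEL, BASE CASE BY A MODULAR POINT.**

`s59u_sp_FLR_R_pt` = helper4's `s59f_FLR_R` (FAsmG8.lean) in which the family `L : Fin e → s59f_LocBr`
of smooth local models may contain SPECTATORS, i.e. primes of the BASE level `N_0` carrying a
several-component model and no local condition:
  * a smooth prime which is NOT in the range of `step` stays on its component `unr` along the whole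
    chain (type (c1): `W` good at the spectator);
  * a smooth prime raised at one of the first `k₀` VIRTUAL steps is on its component `tgt` along the
    whole chain `t ↦ c (k₀ + t)` seen by the `T`-side (type (c2): `W` multiplicative at the spectator,
    sign = the choice MP/MM of the model).
The `T`-side contract `(D0, Bs, HT)` is that of `s59f_FLR_R` for the `k` real steps `step (k₀ + t)`.
The base hypothesis "(R0) + `hunr0`" is replaced by a MODULAR POINT `x₀` of the base level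
(`Ann_{D0.R} (Bs.M 0) ≤ ker x₀`) lying on the component `c k₀` ONLY, expressed by invariants:
  * `tr ρ_{x₀}(φ_q)² ≠ (q + 1)²` at every framed prime `q` not raised at a virtual step
    (Ramanujan–Petersson at `q ∤ N_0`, resp. [RP-2] at an `unr`-spectator);
  * `ρ_{x₀}` ramified at `q` and `tr ρ_{x₀}(φ_q) ≠ −tr0_q` at the primes raised at a virtual step.
Conclusion as in `s59f_FLR_R`: every point `x` of `D0.R` on the last component factors through the
top Hecke ring `Bs.R k`.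
-/
import Mathlib
import Fermat.Agent.Lib.S59.FAsmG8
import Fermat.Agent.Lib.S59.USpB
import Fermat.Agent.Lib.S59.USpD

set_option autoImplicit false
set_option linter.unusedSectionVars false
set_option linter.unusedVariables false
set_option linter.style.haveILetI false
set_option maxHeartbeats 3200000
set_option synthInstance.maxHeartbeats 400000

noncomputable section

namespace Fermat.Agent.Lib.S59

open IsLocalRing MvPowerSeries ExtCitation
open Fermat.Agent.Lib.S53 (matOf matOfRes NormData matOf_apply matOfRes_apply)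
open Fermat.Agent.Lib.Deform
open Fermat.Agent.Lib.S56

local notation "Γℚ" => (AlgebraicClosure ℚ ≃ₐ[ℚ] AlgebraicClosure ℚ)

/-- **[PATCH-FLR] with the `R`-side discharged, spectators in the base level, base case by a
modular point.** -/
theorem s59u_sp_FLR_R_pt
    (p : ℕ) [hp : Fact p.Prime] (hp2 : p ≠ 2)
    {𝒪 : Type} [CommRing 𝒪] [IsDomain 𝒪] [IsDiscreteValuationRing 𝒪]
    [IsAdicComplete (maximalIdeal 𝒪) 𝒪] [Finite (ResidueField 𝒪)] [CharZero 𝒪]
    (hp𝒪 : ((p : ℕ) : 𝒪) ∈ maximalIdeal 𝒪)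
    -- the binders of `s59f_inst_flatG`
    (ρbar : ResidualGaloisRep (ResidueField 𝒪))
    (habs : ρbar.IsAbsolutelyIrreducible)
    (hdet : (GaloisRepAdic.ofResidualGaloisRep ρbar).DetIsCyclotomic p)
    (hsplit : ∀ σ : Γℚ, ∃ α β : ResidueField 𝒪,
      LinearMap.charpoly (ρbar.ρ σ) = (Polynomial.X - Polynomial.C α) * (Polynomial.X - Polynomial.C β))
    (hTW : ∀ (K : Type) [Field K] [Algebra (ResidueField 𝒪) K] (G : Subgroup Γℚ), G.index = 2 →
      ∀ V : Submodule K (ρbar.baseChange K).V,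
        (∀ σ ∈ G, ∀ x ∈ V, (ρbar.baseChange K).ρ σ x ∈ V) → V = ⊥ ∨ V = ⊤)
    (S Smin Bd Ed : Finset ℕ) (hpSmin : p ∈ Smin) (hSmin : Smin ⊆ S) (hBS : Bd ⊆ S) (hES : Ed ⊆ S)
    (hBprime : ∀ q ∈ Bd, q.Prime) (hEprime : ∀ q ∈ Ed, q.Prime)
    (hmin : ∀ q : ℕ, q.Prime → q ≠ p → (q ∈ Smin ↔ ¬ ρbar.IsUnramifiedAt q))
    (hBunr : ∀ q ∈ Bd, q ≠ p ∧ ρbar.IsUnramifiedAt q)
    (hEunr : ∀ q ∈ Ed, q ≠ p ∧ ρbar.IsUnramifiedAt q)
    (hBE : Disjoint Bd Ed)
    (hcen : ∀ q : Nat.Primes, (q : ℕ) ∈ Bd → s59q_CentralAt ρbar q)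
    (Nd : NormData ρbar) (m e : ℕ) (pr : Fin m ⊕ Fin e → Nat.Primes)
    (hprB : Finset.univ.image (fun j : Fin m => (pr (Sum.inl j) : ℕ)) = Bd)
    (hprE : Finset.univ.image (fun l : Fin e => (pr (Sum.inr l) : ℕ)) = Ed)
    (hBinj : Function.Injective fun j : Fin m => (pr (Sum.inl j) : ℕ))
    (hEinj : Function.Injective fun l : Fin e => (pr (Sum.inr l) : ℕ))
    (σq φq : Fin m ⊕ Fin e → Γℚ)
    (hσq : ∀ t, s59q_IsTameGen (pr t) (primeLocalPlace (pr t)) (σq t))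
    (hφq : ∀ t, (primeLocalPlace (pr t)).IsFrobeniusAt (φq t) (pr t))
    (i2 : 𝒪) (hi2 : 2 * i2 = 1)
    (P P' : Fin m ⊕ Fin e → Matrix (Fin 2) (Fin 2) 𝒪) (hPP' : ∀ t, P t * P' t = 1)
    (hP'P : ∀ t, P' t * P t = 1)
    -- the local models
    (L : Fin e → s59f_LocBr 𝒪 i2) (hLpt : ∀ l, s59u_sp_LocBrPt (L l))
    (ε4 : Fin m → 𝒪) (hε4 : ∀ i, ε4 i ^ 2 = 1)
    (hMres : ∀ l, (P' (Sum.inr l)).map (residue 𝒪) * matOfRes ρbar Nd.b (φq (Sum.inr l)) *
      (P (Sum.inr l)).map (residue 𝒪) = ((L l).M0).map (residue 𝒪))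
    (hφ4 : ∀ i, matOfRes ρbar Nd.b (φq (Sum.inl i)) =
      residue 𝒪 (ε4 i) • (1 : Matrix (Fin 2) (Fin 2) (ResidueField 𝒪)))
    (hqu : ∀ l, (L l).u = (((pr (Sum.inr l) : ℕ) : ℕ) : 𝒪))
    (hqB : ∀ j, (((pr (Sum.inl j) : ℕ) : ℕ) : 𝒪) - 1 ∈ maximalIdeal 𝒪)
    -- the order of the raising primes
    -- (`k₀` virtual steps at smooth primes = spectators on `tgt`, then the `k` real steps)
    (step : ℕ → Fin e ⊕ Fin m) (k₀ k : ℕ) (hstep : ∀ t < k₀ + k, ∀ t' < t, step t' ≠ step t)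
    (hvirt : ∀ t < k₀, ∃ l, step t = Sum.inl l)
    (hcover4 : ∀ j : Fin m, ∃ t < k₀ + k, step t = Sum.inr j)
    -- the base ring and the `T`-side
    (D0 : GaloisRep.DeformationRingData 𝒪 ρbar (fun _A _ _ _ ρ =>
      GaloisRep.flatCondition 𝒪 p (Smin ∪ (Bd ∪ Ed)) ρ ∧
        ∀ q ∈ Smin ∪ (Bd ∪ Ed), q.Prime → q ≠ p → ρ.IsUnipotentOnInertiaAt q))
    (Bs : s59f_TBaseF 𝒪 k D0)
    (HT : ∀ r : ℕ, 3 * m + e ≤ r → ∀ (n : ℕ) (qv : Fin r → ℕ), Function.Injective qv →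
      (∀ i, (qv i).Prime ∧ qv i ∉ S ∧ p ^ (n + 1) ∣ qv i - 1) →
      (∀ i, ∀ A : ValuationSubring (AlgebraicClosure ℚ), A.LiesOverPrime (qv i) →
        ∀ φ : Γℚ, A.IsFrobeniusAt φ (qv i) →
          ∃ α β : ResidueField 𝒪, α ≠ β ∧
            LinearMap.charpoly (ρbar.ρ φ) = (Polynomial.X - Polynomial.C α) * (Polynomial.X - Polynomial.C β)) →
      ∀ DQ : GaloisRep.DeformationRingData 𝒪 ρbar (fun _A _ _ _ ρ =>
        GaloisRep.flatCondition 𝒪 p (Smin ∪ (Bd ∪ Ed) ∪ Finset.univ.image qv) ρ ∧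
          ∀ q ∈ Smin ∪ (Bd ∪ Ed), q.Prime → q ≠ p → ρ.IsUnipotentOnInertiaAt q),
        Nonempty (s59f_TLevelF 𝒪 p n r (s59q_ZIdx m e) k Bs qv
          (fun t => (pr (Sum.swap (step (k₀ + t))) : ℕ)) (fun t => φq (Sum.swap (step (k₀ + t))))
          (fun t => σq (Sum.swap (step (k₀ + t)))) DQ))
    -- the base point
    (𝒪₀ : Type) [CommRing 𝒪₀] [IsDomain 𝒪₀] (x₀ : D0.R →+* 𝒪₀)
    (hx₀M : ∀ a : D0.R, (∀ mm : Bs.M 0, Bs.ν 0 a • mm = 0) → x₀ a = 0)
    (hx₀δ : ∀ t : Fin m ⊕ Fin e, (∀ l, t = Sum.inr l → ¬ ∃ t', t' < k₀ ∧ step t' = Sum.inl l) →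
      x₀ (s59i_cpTr D0.ρ (φq t)) * x₀ (s59i_cpTr D0.ρ (φq t)) ≠
        ((((pr t : ℕ) : ℕ) : 𝒪₀) + 1) * ((((pr t : ℕ) : ℕ) : 𝒪₀) + 1))
    (hx₀ram : ∀ l, (∃ t', t' < k₀ ∧ step t' = Sum.inl l) →
      ∃ (f : Module.Dual D0.R D0.ρ.V) (v : D0.ρ.V),
        x₀ (f (D0.ρ.ρ (σq (Sum.inr l)) v - v)) ≠ 0)
    (hx₀tr : ∀ l, (∃ t', t' < k₀ ∧ step t' = Sum.inl l) →
      x₀ (s59i_cpTr D0.ρ (φq (Sum.inr l))) + x₀ (algebraMap 𝒪 D0.R (L l).tr0) ≠ 0)
    -- the point
    (𝒪' : Type) [CommRing 𝒪'] [IsDomain 𝒪'] [IsLocalRing 𝒪'] [IsNoetherianRing 𝒪']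
    [IsAdicComplete (maximalIdeal 𝒪') 𝒪']
    (x : D0.R →+* 𝒪') (hx : ∀ a ∈ maximalIdeal D0.R, x a ∈ maximalIdeal 𝒪')
    (hxinj : Function.Injective (x.comp (algebraMap 𝒪 D0.R)))
    (hxram4 : ∀ j, ∃ (f : Module.Dual D0.R D0.ρ.V) (v : D0.ρ.V),
      x (f (D0.ρ.ρ (σq (Sum.inl j)) v - v)) ≠ 0)
    (hxsm : ∀ l, ((∃ t', t' < k₀ + k ∧ step t' = Sum.inl l) ∧
        (∃ (f : Module.Dual D0.R D0.ρ.V) (v : D0.ρ.V),
          x (f (D0.ρ.ρ (σq (Sum.inr l)) v - v)) ≠ 0) ∧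
        x (s59i_cpTr D0.ρ (φq (Sum.inr l))) = x (algebraMap 𝒪 D0.R (L l).tr0)) ∨
      ((¬ ∃ t', t' < k₀ + k ∧ step t' = Sum.inl l) ∧
        ∀ (f : Module.Dual D0.R D0.ρ.V) (v : D0.ρ.V),
          x (f (D0.ρ.ρ (σq (Sum.inr l)) v - v)) = 0)) :
    RingHom.ker (Bs.ν k : D0.R →+* Bs.R k) ≤ RingHom.ker x := by
  classical
  obtain ⟨-, -, hmemB, hmemE, -⟩ := s59q_enum_facts Bd Ed pr hprB hprE hBinj hEinj
  obtain ⟨r, hr, H⟩ := s59f_inst_flatG p hp2 hp𝒪 ρbar habs hdet hsplit hTW S Smin Bd Ed hpSmin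
    hSmin hBS hES hBprime hEprime hmin hBunr hEunr hBE hcen Nd m e pr hprB hprE hBinj hEinj σq φq
    hσq hφq i2 hi2 P P' hPP' hP'P (fun l => (L l).lam) (fun l => (L l).sh)
    (fun l => ((L l).M0).map (residue 𝒪)) (fun l => (L l).fp) hMres (fun l => (L l).hlam)
    (fun l k => (L l).hsh k) (fun l => (L l).hfp)
  choose qv hqv1 hqv2 hqv3 hqv4 using H
  -- unramifiedness at the framed primes
  have hunr : ∀ t, ((pr t : ℕ) ≠ p) ∧ ρbar.IsUnramifiedAt (pr t) := by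
    rintro (j | l)
    · exact hBunr _ (hmemB j)
    · exact hEunr _ (hmemE l)
  have hprSu : ∀ t, (pr t : ℕ) ∈ Smin ∪ (Bd ∪ Ed) := by
    rintro (j | l)
    · exact Finset.mem_union_right _ (Finset.mem_union_left _ (hmemB j))
    · exact Finset.mem_union_right _ (Finset.mem_union_right _ (hmemE l))
  have hSgS : Smin ∪ (Bd ∪ Ed) ⊆ S := Finset.union_subset hSmin (Finset.union_subset hBS hES)
  -- the constants at the primes of type (iv)
  set u4 : Fin m → 𝒪 := fun i => (((pr (Sum.inl i) : ℕ) : ℕ) : 𝒪) with hu4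
  have hu4ne : ∀ i, u4 i ≠ 1 := by
    intro i h
    have h' : (((pr (Sum.inl i) : ℕ) : ℕ) : 𝒪) = ((1 : ℕ) : 𝒪) := by rw [Nat.cast_one]; exact h
    exact (pr (Sum.inl i)).prop.one_lt.ne' (Nat.cast_injective h')
  have hϑ : ∀ i, s59l_Hyp (s59u_r2_theta4 i2 ε4 u4 i) :=
    s59f_hyp_theta4 ε4 u4 hi2 hε4 hqB hu4ne
  have hu0 : ∀ i, u4 i ≠ 0 := fun i => Nat.cast_ne_zero.mpr (pr (Sum.inl i)).prop.ne_zero
  have hu1 : ∀ i, 1 - u4 i ≠ 0 := fun i h => hu4ne i (sub_eq_zero.mp h).symm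
  have hu2 : ∀ i, IsUnit (1 + u4 i) := by
    intro i
    have h2 : IsUnit (2 : 𝒪) := IsUnit.of_mul_eq_one i2 hi2
    by_contra hnu
    have hmem : 1 + u4 i ∈ maximalIdeal 𝒪 := (mem_maximalIdeal _).mpr hnu
    have h2m : (2 : 𝒪) ∈ maximalIdeal 𝒪 := by
      have := Ideal.sub_mem _ hmem (hqB i)
      have e : 1 + u4 i - (u4 i - 1) = 2 := by ring
      rwa [e] at this
    exact ((mem_maximalIdeal _).mp h2m) h2
  have huq : ∀ t, s59f_uG L u4 step t = (((pr (Sum.swap (step t)) : ℕ) : ℕ) : 𝒪) := by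
    intro t
    unfold s59f_uG
    rcases step t with l | i
    · exact hqu l
    · rfl
  -- the deformation types
  let 𝒟s : ℕ → ∀ ⦃A : Type⦄ [CommRing A] [IsLocalRing A] [Algebra 𝒪 A], GaloisRepAdic A → Prop :=
    fun n _A _ _ _ ρ =>
      GaloisRep.flatCondition 𝒪 p (Smin ∪ (Bd ∪ Ed) ∪ Finset.univ.image (qv n)) ρ ∧
        ∀ q ∈ Smin, q.Prime → q ≠ p → ρ.IsUnipotentOnInertiaAt q
  let 𝒟Q : ℕ → ∀ ⦃A : Type⦄ [CommRing A] [IsLocalRing A] [Algebra 𝒪 A], GaloisRepAdic A → Prop :=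
    fun n _A _ _ _ ρ =>
      GaloisRep.flatCondition 𝒪 p (Smin ∪ (Bd ∪ Ed) ∪ Finset.univ.image (qv n)) ρ ∧
        ∀ q ∈ Smin ∪ (Bd ∪ Ed), q.Prime → q ≠ p → ρ.IsUnipotentOnInertiaAt q
  have hunrbar : ∀ n (q : ℕ), q.Prime →
      q ∉ Smin ∪ (Bd ∪ Ed) ∪ Finset.univ.image (qv n) → ρbar.IsUnramifiedAt q := by
    intro n q hq hqS
    have hqSmin : q ∉ Smin := fun h =>
      hqS (Finset.mem_union_left _ (Finset.mem_union_left _ h))
    have hne : q ≠ p := fun h => hqSmin (h ▸ hpSmin)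
    by_contra hram
    exact hqSmin ((hmin q hq hne).2 hram)
  have hDQs : ∀ n, Nonempty (GaloisRep.DeformationRingData 𝒪 ρbar (𝒟s n)) := fun n =>
    s59q_exists_DQ_flat p hp2 hp𝒪 ρbar habs (Smin ∪ (Bd ∪ Ed)) _ Smin Finset.subset_union_left
      (Finset.mem_union_left _ (Finset.mem_union_left _ hpSmin)) (hunrbar n) inferInstance
      D0.residue_surjective D0.ρ
      ⟨D0.isOfType.1, fun q hq => D0.isOfType.2 q (Finset.mem_union_left _ hq)⟩
      D0.residual_isEquiv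
  have hDQ : ∀ n, Nonempty (GaloisRep.DeformationRingData 𝒪 ρbar (𝒟Q n)) := fun n =>
    s59q_exists_DQ_flat p hp2 hp𝒪 ρbar habs (Smin ∪ (Bd ∪ Ed)) _ (Smin ∪ (Bd ∪ Ed))
      Finset.subset_union_left
      (Finset.mem_union_left _ (Finset.mem_union_left _ hpSmin)) (hunrbar n) inferInstance
      D0.residue_surjective D0.ρ D0.isOfType D0.residual_isEquiv
  let DQs : ∀ n, GaloisRep.DeformationRingData 𝒪 ρbar (𝒟s n) := fun n => (hDQs n).some
  let DQ : ∀ n, GaloisRep.DeformationRingData 𝒪 ρbar (𝒟Q n) := fun n => (hDQ n).some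
  have hmono : ∀ (n : ℕ) {A : Type} [CommRing A] [IsLocalRing A] [Algebra 𝒪 A]
      (ρ : GaloisRepAdic A),
      (GaloisRep.flatCondition 𝒪 p (Smin ∪ (Bd ∪ Ed)) ρ ∧
        ∀ q ∈ Smin ∪ (Bd ∪ Ed), q.Prime → q ≠ p → ρ.IsUnipotentOnInertiaAt q) → 𝒟Q n ρ :=
    fun n A _ _ _ ρ h => ⟨s59f_flatCondition_mono p Finset.subset_union_left ρ h.1, h.2⟩
  -- the canonical maps
  have h𝒟s : ∀ n, 𝒟s n (DQ n).ρ := fun n =>
    ⟨(DQ n).isOfType.1, fun q hq => (DQ n).isOfType.2 q (Finset.mem_union_left _ hq)⟩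
  choose κs hκs eκs using fun n => s59f_kappa_exists (DQ n) (DQs n) (h𝒟s n)
  have hκs_surj : ∀ n, Function.Surjective (κs n) := fun n =>
    s59f_kappa_surjective (DQ n) (DQs n) Nd p (s56a_tangentStable_flat 𝒪 p _ _) (κs n) (hκs n)
      (eκs n)
  choose κ hκ eκ using fun n => s59f_kappa_exists D0 (DQ n) (hmono n D0.ρ D0.isOfType)
  have hκ_surj : ∀ n, Function.Surjective (κ n) := fun n =>
    s59f_kappa_surjective D0 (DQ n) Nd p (s56a_tangentStable_flat 𝒪 p _ _) (κ n) (hκ n) (eκ n)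
  have hκtr : ∀ n g, κ n (s59i_cpTr (DQ n).ρ g) = s59i_cpTr D0.ρ g := fun n g =>
    s59f_kappa_trace D0 (DQ n) (κ n) (hκ n) (eκ n) g
  -- the bases
  choose bR hbR using fun n => s56a_exists_basisR (DQs n) Nd
  choose b' hb' using fun n =>
    s59f_exists_basis_kappa (DQs n) (DQ n) (bR n) (κs n) (hκs n) (eκs n)
  choose b0 hb0 using fun n => s59f_exists_basis_kappa (DQ n) D0 (b' n) (κ n) (hκ n) (eκ n)
  -- the bridges
  have hbridge : ∀ n, ∃ γ : s59r_Flat 𝒪 (0 + m) e (r + m + e) →ₐ[𝒪]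
      MvPowerSeries (s59q_ZIdx m e) (DQ n).R, Function.Surjective γ ∧
      s59f_BridgeEqsG L (s59i_rhoM (DQs n) (bR n) (κs n))
        (fun t => s59q_frameU (DQ n).R (P t) t) (fun t => s59q_frameU' (DQ n).R (P' t) t)
        γ σq φq := by
    intro n
    obtain ⟨γ₀, hγ₀, h1, h2, h3, h4⟩ := hqv4 n (DQs n) (bR n) (hbR n)
      (s56a_isTestAlgebra_R (DQ n)) (κs n) (hκs_surj n)
    exact s59f_bridgeEqsG_inst (DQs n) (bR n) (κs n) σq φq L P P' γ₀ hγ₀ h1 h2 h3 h4
  choose γ hγ hB using hbridge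
  have hG : ∀ n, s59f_GalG L ε4 u4 (s59i_rhoM (DQs n) (bR n) (κs n))
      (fun t => s59q_frameU (DQ n).R (P t) t) (fun t => s59q_frameU' (DQ n).R (P' t) t)
      σq φq (fun t => (pr t : ℕ)) := fun n =>
    s59f_GalG_inst (DQs n) (DQ n) Nd (bR n) (hbR n) (κs n) (hκs n) (eκs n) pr σq φq L ε4 u4 P P' p
      hi2 (DQs n).isOfType.1.1 hunr (fun t => (hσq t).1) hφq
      (fun t => (DQ n).isOfType.2 _ (hprSu t) (pr t).prop (hunr t).1) hPP' hP'P hMres hφ4 hqu
      (fun i => rfl) hqB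
  -- the ring contract
  have hS : ringKrullDim 𝒪 + ((3 * (0 + m) + ((r + m + e) + e * 3) : ℕ) : WithBot ℕ∞) ≤
      ringKrullDim (MvPowerSeries (s59q_ZIdx m e) (MvPowerSeries (Fin r) 𝒪)) := by
    refine s59i_hdim' 𝒪 (0 + m) e (r + m + e) r (s59q_ZIdx m e) ?_
    rw [s59i_card_ZIdx]
    omega
  let TL : ∀ n, s59f_TLevelF 𝒪 p n r (s59q_ZIdx m e) k Bs (qv n)
      (fun t => (pr (Sum.swap (step (k₀ + t))) : ℕ)) (fun t => φq (Sum.swap (step (k₀ + t))))
      (fun t => σq (Sum.swap (step (k₀ + t)))) (DQ n) := fun n =>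
    (HT r hr n (qv n) (hqv1 n) (hqv2 n) (hqv3 n) (DQ n)).some
  -- the chain
  have hring0 := s59f_G_ring (r + m + e) L ε4 u4 hi2 hϑ step (k₀ + k) hstep
    (MvPowerSeries (s59q_ZIdx m e) (MvPowerSeries (Fin r) 𝒪)) hS
  have hring := s59u_sp_ringData_shift hring0 (Finset.mem_univ _)
  haveI hx₀p : (RingHom.ker x₀).IsPrime := RingHom.ker_isPrime x₀
  have hUU' : ∀ n (t : Fin m ⊕ Fin e), s59q_frameU (DQ n).R (P t) t * s59q_frameU' (DQ n).R (P' t) t = 1 :=
    fun n t => s59q_frameU_mul (P t) (P' t) (hPP' t) t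
  -- the matrices of `D0.ρ` in the bases `b0 n`
  have hmat0 : ∀ n g i j, matOf D0.ρ (b0 n) g i j = κ n (κs n (matOf (DQs n).ρ (bR n) g i j)) := by
    intro n g i j
    rw [hb0 n, hb' n]
    rfl
  refine s59u_sp_FLR_asm_pt p hp2 hp𝒪 i2 hi2 (𝒟Q := 𝒟Q) hmono D0 DQ κ hκ_surj hκtr r
    (s59r_Flat 𝒪 (0 + m) e (r + m + e)) γ hγ k Finset.univ
    (s59f_KG (fun l => (L l).Λ) (s59u_r2_theta4 i2 ε4 u4) hϑ (r + m + e))
    (fun t => s59u_r2_chain (fun l => (L l).Λ) (fun l => (L l).D) step (k₀ + t))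
    (fun t => s59u_r2_delta (fun l => (L l).Λ) (fun l => (L l).D) (Fin.natAdd 0)
      (s59u_r2_theta4 i2 ε4 u4) (r + m + e) step (k₀ + t))
    hring
    (fun t => (pr (Sum.swap (step (k₀ + t))) : ℕ)) (fun t => φq (Sum.swap (step (k₀ + t))))
    (fun t => σq (Sum.swap (step (k₀ + t))))
    (fun t => s59f_g12G (r + m + e) L ε4 u4 hi2 hε4 hϑ step (k₀ + t))
    ?_ ?_ ?_ Bs qv TL ?_ (RingHom.ker x₀) ?_ ?_ 𝒪' x hx ?_
  · -- `hδ`
    intro t ht
    exact s59f_G_hδ' (r + m + e) L ε4 u4 hi2 hε4 hϑ step (k₀ + t) _ (huq (k₀ + t))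
  · -- (Rτ)
    intro n t ht
    rw [s59f_G_Rτ hi2 hε4 hϑ (hγ n) (hB n) (hG n) step (k₀ + t), s59i_rhoM_trace,
      s59f_kappa_trace (DQ n) (DQs n) (κs n) (hκs n) (eκs n)]
  · -- (Rkill)
    intro n T₁ _ _ _ _ _ _ htf f hf
    exact s59f_G_Rkill hi2 hε4 hϑ hu0 hu1 hu2 (hγ n) (hB n) (hG n) T₁ htf f hf
  · -- `hunrQ`
    rintro n i g ⟨A, hA, hg⟩
    exact s59f_cpTr_two_of_unram D0.ρ (b0 0) (qv n i)
      (D0.isOfType.1.2.2 (qv n i) (hqv2 n i).1 (fun h => (hqv2 n i).2.1 (hSgS h))) A hA g hg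
  · -- the base point: the annihilator
    intro a ha
    rw [RingHom.mem_ker]
    exact hx₀M a ha
  · -- the base point: it lies on the component `c k₀` only
    rintro ⟨b, ch⟩ - hne
    -- the image of the Gram determinants
    have himg : ∀ n (s' : Fin e ⊕ Fin m),
        κ n (constantCoeff (γ n (s59u_r2_delta (fun l => (L l).Λ) (fun l => (L l).D) (Fin.natAdd 0)
          (s59u_r2_theta4 i2 ε4 u4) (r + m + e) (fun _ => s') 0))) =
        ((((pr (Sum.swap s') : ℕ) : ℕ) : D0.R) + 1) * ((((pr (Sum.swap s') : ℕ) : ℕ) : D0.R) + 1) -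
          s59i_cpTr D0.ρ (φq (Sum.swap s')) * s59i_cpTr D0.ρ (φq (Sum.swap s')) := by
      intro n s'
      rw [s59u_sp_G_delta_img hi2 hε4 hϑ (hγ n) (hB n) (hG n) s', constantCoeff_C, s59i_rhoM_trace,
        s59f_kappa_trace (DQ n) (DQs n) (κs n) (hκs n) (eκs n), map_sub, map_mul, map_mul, map_add,
        map_one, map_natCast, hκtr]
    have hx₀y : ∀ s' : Fin e ⊕ Fin m,
        (∀ l, Sum.swap s' = Sum.inr l → ¬ ∃ t', t' < k₀ ∧ step t' = Sum.inl l) →
        ((((pr (Sum.swap s') : ℕ) : ℕ) : D0.R) + 1) * ((((pr (Sum.swap s') : ℕ) : ℕ) : D0.R) + 1) -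
          s59i_cpTr D0.ρ (φq (Sum.swap s')) * s59i_cpTr D0.ρ (φq (Sum.swap s')) ∉
          RingHom.ker x₀ := by
      intro s' hs' hmem
      rw [RingHom.mem_ker, map_sub, map_mul, map_mul, map_add, map_one, map_natCast,
        sub_eq_zero] at hmem
      exact hx₀δ (Sum.swap s') hs' hmem.symm
    by_cases hb : ∃ j, b j = true
    · -- a prime of type (iv) on the Steinberg cone
      obtain ⟨j, hj⟩ := hb
      refine ⟨_, fun n => ⟨_, s59u_sp_delta_mem_inr (r + m + e) L ε4 u4 hϑ b ch j hj,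
        himg n (Sum.inr j)⟩, hx₀y (Sum.inr j) ?_⟩
      intro l hl
      exact absurd hl Sum.inl_ne_inr
    have hbf : ∀ j, b j = false := by
      intro j
      by_contra hbj
      exact hb ⟨j, by simpa using hbj⟩
    have hch : ∃ l, ch l ≠ (s59u_r2_chain (fun l => (L l).Λ) (fun l => (L l).D) step k₀).2 l := by
      by_contra hall
      have hall' : ∀ l, ch l =
          (s59u_r2_chain (fun l => (L l).Λ) (fun l => (L l).D) step k₀).2 l := by
        intro l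
        by_contra h
        exact hall ⟨l, h⟩
      apply hne
      refine Prod.ext (funext fun j => ?_) (funext hall')
      show b j = (s59u_r2_chain (fun l => (L l).Λ) (fun l => (L l).D) step (k₀ + 0)).1 j
      rw [hbf j]
      symm
      rw [Bool.eq_false_iff]
      intro h
      rw [s59u_r2_chain_fst] at h
      obtain ⟨t', ht', hst⟩ := h
      obtain ⟨l, hl⟩ := hvirt t' ht'
      rw [hl] at hst
      exact Sum.inl_ne_inr hst
    obtain ⟨l, hl⟩ := hch
    by_cases hv : ∃ t', t' < k₀ ∧ step t' = Sum.inl l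
    · -- a spectator on `tgt`
      rw [s59u_r2_chain_snd_pos _ _ step k₀ l hv] at hl
      by_cases hu : ch l = (L l).D.unr
      · -- the component `unr`: the ramification of `x₀`
        obtain ⟨f, v, hfv⟩ := hx₀ram l hv
        refine ⟨f (D0.ρ.ρ (σq (Sum.inr l)) v - v), fun n => ?_,
          fun hmem => hfv (RingHom.mem_ker.mp hmem)⟩
        set ψP : s59r_Flat 𝒪 (0 + m) e (r + m + e) →+* D0.R :=
          (κ n : (DQ n).R →+* D0.R).comp ((constantCoeff (σ := s59q_ZIdx m e) (R := (DQ n).R)).comp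
            (γ n : s59r_Flat 𝒪 (0 + m) e (r + m + e) →+* MvPowerSeries (s59q_ZIdx m e) (DQ n).R))
          with hψP
        have hψPs : Function.Surjective ψP := by
          intro y
          obtain ⟨b1, rfl⟩ := hκ_surj n y
          obtain ⟨a, ha⟩ := hγ n (C b1)
          refine ⟨a, ?_⟩
          show κ n (constantCoeff (γ n a)) = κ n b1
          rw [ha, constantCoeff_C]
        set J : Ideal D0.R := (s59f_KG (fun l => (L l).Λ) (s59u_r2_theta4 i2 ε4 u4) hϑ (r + m + e)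
          (b, ch)).map ψP with hJ
        suffices hy : f (D0.ρ.ρ (σq (Sum.inr l)) v - v) ∈ J by
          obtain ⟨F, hF, e⟩ := (Ideal.mem_map_iff_of_surjective ψP hψPs).mp hy
          exact ⟨F, hF, e⟩
        rw [← Ideal.Quotient.eq_zero_iff_mem]
        set fA : MvPowerSeries (s59q_ZIdx m e) (DQ n).R →+* D0.R ⧸ J :=
          (Ideal.Quotient.mk J).comp ((κ n : (DQ n).R →+* D0.R).comp
            (constantCoeff (σ := s59q_ZIdx m e) (R := (DQ n).R))) with hfA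
        have hfAC : ∀ z : (DQ n).R, fA (C z) = Ideal.Quotient.mk J (κ n z) := by
          intro z
          show Ideal.Quotient.mk J (κ n (constantCoeff (C z))) = _
          rw [constantCoeff_C]
        have hone := s59u_sp_G_unr_one (hB n) (hG n) (hUU' n) fA ?_ l ?_
        · refine s59f_dual_kill D0.ρ (b0 n) (Ideal.Quotient.mk J) (σq (Sum.inr l)) ?_ f v
          intro i j
          have h3 := congrFun (congrFun hone i) j
          have h4 : Ideal.Quotient.mk J (κ n (κs n (matOf (DQs n).ρ (bR n) (σq (Sum.inr l)) i j))) =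
              (1 : Matrix (Fin 2) (Fin 2) (D0.R ⧸ J)) i j := by
            rw [← h3, ← hfAC]
            rfl
          rw [Matrix.sub_apply, map_sub, hmat0, h4, Matrix.one_apply, Matrix.one_apply]
          split_ifs <;> simp
        · -- `2 · (1/2) = 1`
          have e1 : fA (algebraMap 𝒪 (MvPowerSeries (s59q_ZIdx m e) (DQ n).R) i2) =
              algebraMap 𝒪 (D0.R ⧸ J) i2 := by
            rw [MvPowerSeries.algebraMap_apply, hfAC, AlgHom.commutes]
            rfl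
          rw [e1, ← map_ofNat (algebraMap 𝒪 (D0.R ⧸ J)) 2, ← map_mul, hi2, map_one]
        · intro k'
          show Ideal.Quotient.mk J (ψP (s59r_U l (Fin.castAdd 3 k'))) = 0
          rw [Ideal.Quotient.eq_zero_iff_mem]
          exact Ideal.mem_map_of_mem ψP (s59u_sp_U_mem (r + m + e) L ε4 u4 hϑ b ch l hu k')
      · -- a third component: the trace
        refine ⟨s59i_cpTr D0.ρ (φq (Sum.inr l)) + algebraMap 𝒪 D0.R (L l).tr0,
          fun n => ⟨_, s59u_sp_third_mem (r + m + e) L ε4 u4 hϑ hLpt b ch l hu hl, ?_⟩, ?_⟩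
        · rw [s59u_sp_G_third_img hi2 hε4 hϑ (hγ n) (hB n) (hG n) l, map_add, constantCoeff_C,
            MvPowerSeries.algebraMap_apply, constantCoeff_C, map_add, s59i_rhoM_trace,
            s59f_kappa_trace (DQ n) (DQs n) (κs n) (hκs n) (eκs n), hκtr, AlgHom.commutes]
        · intro hmem
          rw [RingHom.mem_ker, map_add] at hmem
          exact hx₀tr l hv hmem
    · -- a smooth prime on `unr` at the base level
      rw [s59u_r2_chain_snd_neg _ _ step k₀ l hv] at hl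
      refine ⟨_, fun n => ⟨_, s59u_sp_delta_mem_inl (r + m + e) L ε4 u4 hϑ hLpt b ch l hl,
        himg n (Sum.inl l)⟩, hx₀y (Sum.inl l) ?_⟩
      intro l' hl'
      have : l' = l := (Sum.inr_injective hl').symm
      rw [this]
      exact hv
  · -- `hxK`
    intro F hF n
    have hfst : (s59u_r2_chain (fun l => (L l).Λ) (fun l => (L l).D) step (k₀ + k)).1 =
        fun _ => true := by
      funext j
      show _ = true
      rw [s59u_r2_chain_fst]
      exact hcover4 j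
    have hF' : F ∈ s59f_KG (fun l => (L l).Λ) (s59u_r2_theta4 i2 ε4 u4) hϑ (r + m + e)
        (fun _ => true,
          (s59u_r2_chain (fun l => (L l).Λ) (fun l => (L l).D) step (k₀ + k)).2) := by
      have e : s59u_r2_chain (fun l => (L l).Λ) (fun l => (L l).D) step (k₀ + k) =
          (fun _ => true,
            (s59u_r2_chain (fun l => (L l).Λ) (fun l => (L l).D) step (k₀ + k)).2) :=
        Prod.ext hfst rfl
      rw [← e]
      exact hF
    letI : Algebra 𝒪 𝒪' := (x.comp (algebraMap 𝒪 D0.R)).toAlgebra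
    have halg : ∀ o : 𝒪, algebraMap 𝒪 𝒪' o = x (algebraMap 𝒪 D0.R o) := fun o => rfl
    let ψ : MvPowerSeries (s59q_ZIdx m e) (DQ n).R →ₐ[𝒪] 𝒪' :=
      { toRingHom := x.comp ((κ n : (DQ n).R →+* D0.R).comp
          (constantCoeff (σ := s59q_ZIdx m e) (R := (DQ n).R)))
        commutes' := fun o => by
          show x (κ n (constantCoeff (algebraMap 𝒪 (MvPowerSeries (s59q_ZIdx m e) (DQ n).R) o))) =
            x (algebraMap 𝒪 D0.R o)
          rw [MvPowerSeries.algebraMap_apply, constantCoeff_C, (κ n).commutes] }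
    have hψdef : ∀ a, ψ a = x (κ n (constantCoeff a)) := fun a => rfl
    -- ramification of `x` at `t` from a non-vanishing `f (ρ(σ) v − v)`
    have hramψ : ∀ t, (∃ (f : Module.Dual D0.R D0.ρ.V) (v : D0.ρ.V),
        x (f (D0.ρ.ρ (σq t) v - v)) ≠ 0) →
        (s59i_Fm (s59i_rhoM (DQs n) (bR n) (κs n)) (fun t => s59q_frameU (DQ n).R (P t) t)
          (fun t => s59q_frameU' (DQ n).R (P' t) t) t (σq t)).map ψ ≠ 1 := by
      rintro t ⟨f, v, hfv⟩ h1
      apply hfv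
      refine s59f_dual_kill D0.ρ (b0 n) x (σq t) ?_ f v
      intro i j
      have h2 := s59f_rho_map_of_Fm_one (s59i_rhoM (DQs n) (bR n) (κs n))
        (fun t => s59q_frameU (DQ n).R (P t) t) (fun t => s59q_frameU' (DQ n).R (P' t) t)
        (hUU' n)
        (ψ : MvPowerSeries (s59q_ZIdx m e) (DQ n).R →+* 𝒪') t (σq t) h1
      have h3 := congrFun (congrFun h2 i) j
      have h4 : x (κ n (κs n (matOf (DQs n).ρ (bR n) (σq t) i j))) =
          (1 : Matrix (Fin 2) (Fin 2) 𝒪') i j := by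
        rw [← h3]
        show _ = x (κ n (constantCoeff (C (κs n (matOf (DQs n).ρ (bR n) (σq t) i j)))))
        rw [constantCoeff_C]
      rw [Matrix.sub_apply, map_sub, hmat0, h4, Matrix.one_apply, Matrix.one_apply]
      split_ifs <;> simp
    have h := s59u_sp_G_xK hi2 hε4 hϑ hu0 hu1 hu2 (hγ n) (hB n) (hG n) ψ ?_ hxinj ?_
      (s59u_r2_chain (fun l => (L l).Λ) (fun l => (L l).D) step (k₀ + k)).2 ?_ F hF'
    · exact h
    · -- locality
      intro a ha
      rw [hψdef]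
      exact hx _ (s59i_surj_mem (κ n : (DQ n).R →+* D0.R) (hκ_surj n) _
        ((s59i_mem_maximalIdeal_iff_constantCoeff a).mp ha))
    · -- ramified at the primes of type (iv)
      intro j
      exact hramψ (Sum.inl j) (hxram4 j)
    · -- the smooth primes
      intro l
      rcases hxsm l with ⟨hst, hram, htr⟩ | ⟨hnst, hunrx⟩
      · refine Or.inl ⟨s59u_r2_chain_snd_pos _ _ step (k₀ + k) l hst,
          hramψ (Sum.inr l) hram, ?_⟩
        rw [hψdef, constantCoeff_C, s59i_rhoM_trace,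
          s59f_kappa_trace (DQ n) (DQs n) (κs n) (hκs n) (eκs n), hκtr, halg]
        exact htr
      · refine Or.inr ⟨s59u_r2_chain_snd_neg _ _ step (k₀ + k) l hnst, ?_⟩
        refine s59f_Fm_map_eq_one (s59i_rhoM (DQs n) (bR n) (κs n))
          (fun t => s59q_frameU (DQ n).R (P t) t) (fun t => s59q_frameU' (DQ n).R (P' t) t)
          (hG n).frame (ψ : MvPowerSeries (s59q_ZIdx m e) (DQ n).R →+* 𝒪') (Sum.inr l)
          (σq (Sum.inr l)) ?_
        intro i j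
        have h5 := hunrx ((b0 n).coord i) ((b0 n) j)
        rw [← s59f_matOf_sub_one_apply, Matrix.sub_apply, hmat0] at h5
        show x (κ n (constantCoeff (C ((s59i_rhoM (DQs n) (bR n) (κs n) (σq (Sum.inr l)) - 1) i j)))) = 0
        rw [constantCoeff_C, Matrix.sub_apply, map_sub, map_sub]
        rw [map_sub] at h5
        have e1 : κ n ((1 : Matrix (Fin 2) (Fin 2) (DQ n).R) i j) =
            (1 : Matrix (Fin 2) (Fin 2) D0.R) i j := by
          rw [Matrix.one_apply, Matrix.one_apply]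
          split_ifs <;> simp
        rw [e1]
        exact h5

end Fermat.Agent.Lib.S59
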