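/-
PROGRAMME R2 = S59, node [PATCH-FLR] / [SPEC-R] (helper3, prefix `s59u_sp_`), part F:
**THE ASSEMBLY `x_W ∈ Spec T_k(∅)` ⇒ A HECKE POINT OF THE TOP LEVEL WITH THE EIGENVALUES `a_ℓ(W)`,
WITH SPECTATOR PRIMES IN THE BASE LEVEL** — the twin of helper4's `s59f_FLR_W_abs` (FAsmW1.lean) over
`s59u_sp_FLR_R_pt` (USpE.lean).

Differences with `s59f_FLR_W_abs`:
  * `hLpt`, the order `step` with `k₀` virtual steps (`hvirt`, `hcover4`) as in `s59u_sp_FLR_R_pt`;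
  * the position of `ρ_W`: ramified at the primes of type (iv) (`hram4W`); at a smooth prime `l`
    EITHER raised (virtually or really), `ρ_W` ramified and `tr ρ_W(φ_l) = tr0_l`, OR never raised and
    `ρ_W(σ_l) = 1` (`hsmW`);
  * the `T`-side contract `HT` provides in addition, after `Bs`, the MODULAR BASE POINT
    `x₀ : D0.R → 𝒪₀` with the four properties `hx₀M`, `hx₀δ`, `hx₀ram`, `hx₀tr` of `s59u_sp_FLR_R_pt`.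
* `s59u_sp_dual_eq_zero` : the converse of helper4's `s59f_exists_dual_ne`;
* `s59u_sp_FLR_W_abs`    : the theorem.
-/
import Mathlib
import Fermat.Agent.Lib.S59.FAsmW1
import Fermat.Agent.Lib.S59.USpE

set_option autoImplicit false
set_option linter.unusedSectionVars false
set_option linter.unusedVariables false
set_option linter.style.haveILetI false
set_option maxHeartbeats 3200000
set_option synthInstance.maxHeartbeats 400000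

noncomputable section

namespace Fermat.Agent.Lib.S59

open IsLocalRing CuspForm ExtCitation
open Fermat.Agent.Lib.S53 (matOf matOfRes NormData matOf_apply matOfRes_apply
  exists_basis_baseChangeAlong exists_basis_of_isEquiv)
open Fermat.Agent.Lib.Deform (IsTestAlgebra)
open Fermat.Agent.Lib.S56 Fermat.Agent.Lib.S44

local notation "Γℚ" => (AlgebraicClosure ℚ ≃ₐ[ℚ] AlgebraicClosure ℚ)

/-- a representation equivalent to a base change along `x` is trivial at `g` only if `x` kills the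
coefficients of `ρ(g) − 1`. -/
theorem s59u_sp_dual_eq_zero {A B : Type} [CommRing A] [IsLocalRing A] [CommRing B] [IsLocalRing B]
    (ρ : GaloisRepAdic A) (ρB : GaloisRepAdic B) (x : A →+* B) (hx : IsLocalHom x)
    (e : (ρ.baseChangeAlong x hx).IsEquiv ρB) (g : Γℚ) (hone : ρB.ρ g = 1)
    (f : Module.Dual A ρ.V) (v : ρ.V) : x (f (ρ.ρ g v - v)) = 0 := by
  classical
  set b : Module.Basis (Fin 2) A ρ.V := Module.finBasisOfFinrankEq A ρ.V ρ.finrank_eq with hb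
  obtain ⟨b₁, h₁⟩ := exists_basis_baseChangeAlong ρ b x hx
  obtain ⟨b₂, h₂⟩ := exists_basis_of_isEquiv e b₁
  have hmat : (matOf ρ b g).map x = 1 := by
    rw [← h₁ g, ← h₂ g, matOf_apply, hone]
    exact LinearMap.toMatrix_one b₂
  refine s59f_dual_kill ρ b x g ?_ f v
  intro i j
  have h := congrFun (congrFun hmat i) j
  rw [Matrix.map_apply] at h
  rw [Matrix.sub_apply, map_sub, h, Matrix.one_apply, Matrix.one_apply]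
  split_ifs <;> simp

/-- **[PATCH-FLR], flat case, over an abstract `T`-side, spectators in the base level.** -/
theorem s59u_sp_FLR_W_abs (p : ℕ) [Fact p.Prime] (hp2 : p ≠ 2) (W : WeierstrassCurve ℤ) (hΔ : W.Δ ≠ 0)
    (N : ℕ) [NeZero N] (B : Finset ℕ)
    (hss : W.IsSemistableModel) (hirr : W.ModRepIsIrreducible p)
    (hpB : p ∈ B)
    (hB2 : ∀ r : ℕ, r.Prime → ¬ W.IsGoodPrimeFor r → r ∈ B)
    (hgoodp : W.IsGoodPrimeFor p)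
    (𝒪 : Type) [CommRing 𝒪] [IsDomain 𝒪] [IsDiscreteValuationRing 𝒪]
    [IsAdicComplete (maximalIdeal 𝒪) 𝒪] [Finite (ResidueField 𝒪)] [CharZero 𝒪]
    [Algebra ℤ_[p] 𝒪] [Module.Finite ℤ_[p] 𝒪]
    (hp𝒪 : ((p : ℕ) : 𝒪) ∈ maximalIdeal 𝒪)
    -- the binders of `s59f_FLR_R` for `ρ̄ = ρ̄_W`
    (habs : (s59i_rhobarW W p hΔ 𝒪 hp𝒪).IsAbsolutelyIrreducible)
    (hdet : (GaloisRepAdic.ofResidualGaloisRep (s59i_rhobarW W p hΔ 𝒪 hp𝒪)).DetIsCyclotomic p)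
    (hsplit : ∀ σ : Γℚ, ∃ α β : ResidueField 𝒪,
      LinearMap.charpoly ((s59i_rhobarW W p hΔ 𝒪 hp𝒪).ρ σ) =
        (Polynomial.X - Polynomial.C α) * (Polynomial.X - Polynomial.C β))
    (hTW : ∀ (K : Type) [Field K] [Algebra (ResidueField 𝒪) K] (G : Subgroup Γℚ), G.index = 2 →
      ∀ V : Submodule K ((s59i_rhobarW W p hΔ 𝒪 hp𝒪).baseChange K).V,
        (∀ σ ∈ G, ∀ x ∈ V, ((s59i_rhobarW W p hΔ 𝒪 hp𝒪).baseChange K).ρ σ x ∈ V) → V = ⊥ ∨ V = ⊤)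
    (S Smin Bd Ed : Finset ℕ) (hpSmin : p ∈ Smin) (hSmin : Smin ⊆ S) (hBS : Bd ⊆ S) (hES : Ed ⊆ S)
    (hBprime : ∀ q ∈ Bd, q.Prime) (hEprime : ∀ q ∈ Ed, q.Prime)
    (hmin : ∀ q : ℕ, q.Prime → q ≠ p →
      (q ∈ Smin ↔ ¬ (s59i_rhobarW W p hΔ 𝒪 hp𝒪).IsUnramifiedAt q))
    (hBunr : ∀ q ∈ Bd, q ≠ p ∧ (s59i_rhobarW W p hΔ 𝒪 hp𝒪).IsUnramifiedAt q)
    (hEunr : ∀ q ∈ Ed, q ≠ p ∧ (s59i_rhobarW W p hΔ 𝒪 hp𝒪).IsUnramifiedAt q)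
    (hBE : Disjoint Bd Ed)
    (hcen : ∀ q : Nat.Primes, (q : ℕ) ∈ Bd → s59q_CentralAt (s59i_rhobarW W p hΔ 𝒪 hp𝒪) q)
    (Nd : NormData (s59i_rhobarW W p hΔ 𝒪 hp𝒪)) (m e : ℕ) (pr : Fin m ⊕ Fin e → Nat.Primes)
    (hprB : Finset.univ.image (fun j : Fin m => (pr (Sum.inl j) : ℕ)) = Bd)
    (hprE : Finset.univ.image (fun l : Fin e => (pr (Sum.inr l) : ℕ)) = Ed)
    (hBinj : Function.Injective fun j : Fin m => (pr (Sum.inl j) : ℕ))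
    (hEinj : Function.Injective fun l : Fin e => (pr (Sum.inr l) : ℕ))
    (σq φq : Fin m ⊕ Fin e → Γℚ)
    (hσq : ∀ t, s59q_IsTameGen (pr t) (primeLocalPlace (pr t)) (σq t))
    (hφq : ∀ t, (primeLocalPlace (pr t)).IsFrobeniusAt (φq t) (pr t))
    (i2 : 𝒪) (hi2 : 2 * i2 = 1)
    (P P' : Fin m ⊕ Fin e → Matrix (Fin 2) (Fin 2) 𝒪) (hPP' : ∀ t, P t * P' t = 1)
    (hP'P : ∀ t, P' t * P t = 1)
    (L : Fin e → s59f_LocBr 𝒪 i2) (hLpt : ∀ l, s59u_sp_LocBrPt (L l))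
    (ε4 : Fin m → 𝒪) (hε4 : ∀ i, ε4 i ^ 2 = 1)
    (hMres : ∀ l, (P' (Sum.inr l)).map (residue 𝒪) *
      matOfRes (s59i_rhobarW W p hΔ 𝒪 hp𝒪) Nd.b (φq (Sum.inr l)) *
      (P (Sum.inr l)).map (residue 𝒪) = ((L l).M0).map (residue 𝒪))
    (hφ4 : ∀ i, matOfRes (s59i_rhobarW W p hΔ 𝒪 hp𝒪) Nd.b (φq (Sum.inl i)) =
      residue 𝒪 (ε4 i) • (1 : Matrix (Fin 2) (Fin 2) (ResidueField 𝒪)))
    (hqu : ∀ l, (L l).u = (((pr (Sum.inr l) : ℕ) : ℕ) : 𝒪))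
    (hqB : ∀ j, (((pr (Sum.inl j) : ℕ) : ℕ) : 𝒪) - 1 ∈ maximalIdeal 𝒪)
    (step : ℕ → Fin e ⊕ Fin m) (k₀ k : ℕ) (hstep : ∀ t < k₀ + k, ∀ t' < t, step t' ≠ step t)
    (hvirt : ∀ t < k₀, ∃ l, step t = Sum.inl l)
    (hcover4 : ∀ j : Fin m, ∃ t < k₀ + k, step t = Sum.inr j)
    -- the position of `ρ_W`
    (hunrW : ∀ q : ℕ, q.Prime → q ∉ Smin ∪ (Bd ∪ Ed) → (s59q_WRho W hΔ hp𝒪).IsUnramifiedAt q)
    (hram4W : ∀ j, (s59q_WRho W hΔ hp𝒪).ρ (σq (Sum.inl j)) ≠ 1)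
    (hsmW : ∀ l, ((∃ t', t' < k₀ + k ∧ step t' = Sum.inl l) ∧
        (s59q_WRho W hΔ hp𝒪).ρ (σq (Sum.inr l)) ≠ 1 ∧
        s59i_cpTr (s59q_WRho W hΔ hp𝒪) (φq (Sum.inr l)) = (L l).tr0) ∨
      ((¬ ∃ t', t' < k₀ + k ∧ step t' = Sum.inl l) ∧
        (s59q_WRho W hΔ hp𝒪).ρ (σq (Sum.inr l)) = 1))
    -- the ring of the base point
    (𝒪₀ : Type) [CommRing 𝒪₀] [IsDomain 𝒪₀]
    -- the `T`-side
    (HT : ∀ (D0 : GaloisRep.DeformationRingData 𝒪 (s59i_rhobarW W p hΔ 𝒪 hp𝒪) (fun _A _ _ _ ρ =>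
        GaloisRep.flatCondition 𝒪 p (Smin ∪ (Bd ∪ Ed)) ρ ∧
          ∀ q ∈ Smin ∪ (Bd ∪ Ed), q.Prime → q ≠ p → ρ.IsUnipotentOnInertiaAt q)),
      ∃ Bs : s59f_TBaseF 𝒪 k D0,
        (∃ hk : heckeAlgebra N 2 (↑B : Set ℕ) →+* Bs.R k,
          ∀ (ℓ : ℕ) (hℓ : ℓ.Prime) (hℓN : ¬ ℓ ∣ N) (hℓB : ℓ ∉ (↑B : Set ℕ)),
          ∀ A : ValuationSubring (AlgebraicClosure ℚ), A.LiesOverPrime ℓ →
          ∀ g : Γℚ, A.IsFrobeniusAt g ℓ →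
            LinearMap.charpoly ((Bs.ρR k).ρ g) =
              Polynomial.X ^ 2 - Polynomial.C (hk (heckeAlgebra.T hℓ hℓN hℓB)) * Polynomial.X +
                Polynomial.C ((ℓ : Bs.R k))) ∧
        (∃ x₀ : D0.R →+* 𝒪₀,
          (∀ a : D0.R, (∀ mm : Bs.M 0, Bs.ν 0 a • mm = 0) → x₀ a = 0) ∧
          (∀ t : Fin m ⊕ Fin e,
            (∀ l, t = Sum.inr l → ¬ ∃ t', t' < k₀ ∧ step t' = Sum.inl l) →
            x₀ (s59i_cpTr D0.ρ (φq t)) * x₀ (s59i_cpTr D0.ρ (φq t)) ≠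
              ((((pr t : ℕ) : ℕ) : 𝒪₀) + 1) * ((((pr t : ℕ) : ℕ) : 𝒪₀) + 1)) ∧
          (∀ l, (∃ t', t' < k₀ ∧ step t' = Sum.inl l) →
            ∃ (f : Module.Dual D0.R D0.ρ.V) (v : D0.ρ.V),
              x₀ (f (D0.ρ.ρ (σq (Sum.inr l)) v - v)) ≠ 0) ∧
          (∀ l, (∃ t', t' < k₀ ∧ step t' = Sum.inl l) →
            x₀ (s59i_cpTr D0.ρ (φq (Sum.inr l))) + x₀ (algebraMap 𝒪 D0.R (L l).tr0) ≠ 0)) ∧
        ∀ r : ℕ, 3 * m + e ≤ r → ∀ (n : ℕ) (qv : Fin r → ℕ), Function.Injective qv →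
          (∀ i, (qv i).Prime ∧ qv i ∉ S ∧ p ^ (n + 1) ∣ qv i - 1) →
          (∀ i, ∀ A : ValuationSubring (AlgebraicClosure ℚ), A.LiesOverPrime (qv i) →
            ∀ φ : Γℚ, A.IsFrobeniusAt φ (qv i) →
              ∃ α β : ResidueField 𝒪, α ≠ β ∧
                LinearMap.charpoly ((s59i_rhobarW W p hΔ 𝒪 hp𝒪).ρ φ) =
                  (Polynomial.X - Polynomial.C α) * (Polynomial.X - Polynomial.C β)) →
          ∀ DQ : GaloisRep.DeformationRingData 𝒪 (s59i_rhobarW W p hΔ 𝒪 hp𝒪) (fun _A _ _ _ ρ =>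
            GaloisRep.flatCondition 𝒪 p (Smin ∪ (Bd ∪ Ed) ∪ Finset.univ.image qv) ρ ∧
              ∀ q ∈ Smin ∪ (Bd ∪ Ed), q.Prime → q ≠ p → ρ.IsUnipotentOnInertiaAt q),
            Nonempty (s59f_TLevelF 𝒪 p n r (s59q_ZIdx m e) k Bs qv
              (fun t => (pr (Sum.swap (step (k₀ + t))) : ℕ))
              (fun t => φq (Sum.swap (step (k₀ + t))))
              (fun t => σq (Sum.swap (step (k₀ + t)))) DQ)) :
    ∃ χ : heckeAlgebra N 2 (↑B : Set ℕ) →+* 𝒪,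
      ∀ (ℓ : ℕ) (hℓ : ℓ.Prime) (hℓN : ¬ ℓ ∣ N) (hℓB : ℓ ∉ (↑B : Set ℕ)),
        χ (heckeAlgebra.T hℓ hℓN hℓB) = ((W.apOfModel ℓ : ℤ) : 𝒪) := by
  classical
  have hpP : p.Prime := Fact.out
  haveI hlid : IsLocalHom (algebraMap 𝒪 𝒪) := ⟨fun a h => h⟩
  -- the type of `ρ_W ⊗ 𝒪`
  have h𝒟W : GaloisRep.flatCondition 𝒪 p (Smin ∪ (Bd ∪ Ed)) (s59q_WRho W hΔ hp𝒪) ∧
      ∀ q ∈ Smin ∪ (Bd ∪ Ed), q.Prime → q ≠ p →
        (s59q_WRho W hΔ hp𝒪).IsUnipotentOnInertiaAt q := by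
    refine ⟨⟨s59q_W_detCyc W hΔ hp𝒪 hp2 hirr,
      s59e_flat hΔ hgoodp (algebraMap ℤ_[p] 𝒪) (s59b_isLocalHom_padic p _ hp𝒪), hunrW⟩, ?_⟩
    intro q _ hq hqp
    exact s59e_bc_unip _ _ _ q (s59b_rhoW_unip hΔ hp2 hirr hss q hq hqp)
  have hfrobW : ∀ ℓ : ℕ, ℓ.Prime → ℓ ∉ B → ∀ Pl : ValuationSubring (AlgebraicClosure ℚ),
      Pl.LiesOverPrime ℓ → ∀ σ : Γℚ, Pl.IsFrobeniusAt σ ℓ →
        LinearMap.charpoly ((s59q_WRho W hΔ hp𝒪).ρ σ) =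
          Polynomial.X ^ 2 - Polynomial.C (((W.apOfModel ℓ : ℤ) : 𝒪)) * Polynomial.X +
            Polynomial.C ((ℓ : 𝒪)) := by
    intro ℓ hℓ hℓB Pl hP σ hσ
    have hℓp : ℓ ≠ p := fun h => hℓB (h ▸ hpB)
    have hgood : W.IsGoodPrimeFor ℓ := by
      by_contra hbad
      exact hℓB (hB2 ℓ hℓ hbad)
    rw [s59e_bc_charpoly, s59b_rhoW_charpoly hΔ hp2 hirr ℓ hℓ hgood hℓp Pl hP σ hσ]
    simp
  have hresW : (s59q_WRho W hΔ hp𝒪).residual.IsEquiv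
      ((s59i_rhobarW W p hΔ 𝒪 hp𝒪).baseChangeAlong (ResidueField.map (algebraMap 𝒪 𝒪))) :=
    s59b_hres_of_frob p hp2 hp𝒪 (s59q_WRho W hΔ hp𝒪) habs B
      (fun ℓ => ((W.apOfModel ℓ : ℤ) : 𝒪)) (fun ℓ => ((W.apOfModel ℓ : ℤ) : 𝒪)) hfrobW
      (fun ℓ _ _ => by
        show ((W.apOfModel ℓ : ℤ) : 𝒪) - ((W.apOfModel ℓ : ℤ) : 𝒪) ∈ maximalIdeal 𝒪
        rw [sub_self]
        exact Ideal.zero_mem _)
      (s59i_rhobarW W p hΔ 𝒪 hp𝒪)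
      (fun ℓ hℓ hℓS A hA σ hσ =>
        s59e_rhobarW_charpoly_frob hΔ hp2 hirr hp𝒪 B hpB hB2 ℓ hℓ hℓS A hA σ hσ)
  -- the base ring
  have hunrbar : ∀ q : ℕ, q.Prime → q ∉ Smin ∪ (Bd ∪ Ed) →
      (s59i_rhobarW W p hΔ 𝒪 hp𝒪).IsUnramifiedAt q := by
    intro q hq hqS
    have hqSmin : q ∉ Smin := fun h => hqS (Finset.mem_union_left _ h)
    have hne : q ≠ p := fun h => hqSmin (h ▸ hpSmin)
    by_contra hram
    exact hqSmin ((hmin q hq hne).2 hram)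
  obtain ⟨D0⟩ := s59q_exists_DQ_flat p hp2 hp𝒪 (s59i_rhobarW W p hΔ 𝒪 hp𝒪) habs
    (Smin ∪ (Bd ∪ Ed)) (Smin ∪ (Bd ∪ Ed)) (Smin ∪ (Bd ∪ Ed)) (Finset.Subset.refl _)
    (Finset.mem_union_left _ hpSmin) hunrbar hlid IsLocalRing.residue_surjective
    (s59q_WRho W hΔ hp𝒪) h𝒟W hresW
  obtain ⟨x, ⟨hx, ex⟩, -⟩ := D0.universal 𝒪 IsLocalRing.residue_surjective (s59q_WRho W hΔ hp𝒪)
    h𝒟W hresW
  have hxtr : ∀ g, x (s59i_cpTr D0.ρ g) = s59i_cpTr (s59q_WRho W hΔ hp𝒪) g := fun g =>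
    s59e_Lmin_point_trace D0 _ (x : D0.R →+* 𝒪) hx ex g
  obtain ⟨Bs, ⟨hk, hhk⟩, ⟨x₀, hx₀M, hx₀δ, hx₀ram, hx₀tr⟩, HL⟩ := HT D0
  -- the point factors through the top Hecke ring
  have hker := s59u_sp_FLR_R_pt p hp2 hp𝒪 (s59i_rhobarW W p hΔ 𝒪 hp𝒪) habs hdet hsplit hTW S Smin
    Bd Ed
    hpSmin hSmin hBS hES hBprime hEprime hmin hBunr hEunr hBE hcen Nd m e pr hprB hprE hBinj hEinj
    σq φq hσq hφq i2 hi2 P P' hPP' hP'P L hLpt ε4 hε4 hMres hφ4 hqu hqB step k₀ k hstep hvirt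
    hcover4 D0 Bs HL 𝒪₀ x₀ hx₀M hx₀δ hx₀ram hx₀tr
    𝒪 (x : D0.R →+* 𝒪)
    (fun a ha => by
      have hnu := (mem_maximalIdeal a).mp ha
      rw [mem_maximalIdeal, mem_nonunits_iff]
      intro hu
      exact hnu (hx.map_nonunit a hu))
    (by
      intro a b hab
      have h1 : x (algebraMap 𝒪 D0.R a) = a := x.commutes a
      have h2 : x (algebraMap 𝒪 D0.R b) = b := x.commutes b
      simp only [RingHom.comp_apply, RingHom.coe_coe] at hab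
      rw [h1, h2] at hab
      exact hab)
    (fun j => s59f_exists_dual_ne D0.ρ (s59q_WRho W hΔ hp𝒪) (x : D0.R →+* 𝒪) hx ex
      (σq (Sum.inl j)) (hram4W j))
    (fun l => by
      rcases hsmW l with ⟨hst, hram, htr⟩ | ⟨hnst, hone⟩
      · refine Or.inl ⟨hst, s59f_exists_dual_ne D0.ρ (s59q_WRho W hΔ hp𝒪) (x : D0.R →+* 𝒪) hx ex
          (σq (Sum.inr l)) hram, ?_⟩
        rw [RingHom.coe_coe, hxtr, htr]
        exact (x.commutes _).symm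
      · exact Or.inr ⟨hnst, fun f v => s59u_sp_dual_eq_zero D0.ρ (s59q_WRho W hΔ hp𝒪)
          (x : D0.R →+* 𝒪) hx ex (σq (Sum.inr l)) hone f v⟩)
  set χ₀ : Bs.R k →+* 𝒪 := RingHom.liftOfSurjective (Bs.ν k : D0.R →+* Bs.R k) (Bs.hνs k)
    ⟨(x : D0.R →+* 𝒪), hker⟩ with hχ₀
  have hχ : ∀ a : D0.R, χ₀ (Bs.ν k a) = x a := fun a =>
    RingHom.liftOfRightInverse_comp_apply (Bs.ν k : D0.R →+* Bs.R k) _ _
      ⟨(x : D0.R →+* 𝒪), hker⟩ a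
  refine ⟨χ₀.comp hk, fun ℓ hℓ hℓN hℓB => ?_⟩
  obtain ⟨A, g, hA, hg⟩ := Fermat.Agent.Lib.Frobenius.exists_isFrobeniusAt ℓ hℓ
  have h1 : s59i_cpTr (Bs.ρR k) g = hk (heckeAlgebra.T hℓ hℓN hℓB) :=
    s59i_cpTr_of_charpoly (Bs.ρR k) g _ _ (hhk ℓ hℓ hℓN hℓB A hA g hg)
  have h2 : s59i_cpTr (s59q_WRho W hΔ hp𝒪) g = ((W.apOfModel ℓ : ℤ) : 𝒪) :=
    s59i_cpTr_of_charpoly _ g _ _
      (hfrobW ℓ hℓ (fun h => hℓB (Finset.mem_coe.mpr h)) A hA g hg)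
  rw [RingHom.comp_apply, ← h1, ← Bs.hν k g, hχ, hxtr g, h2]

end Fermat.Agent.Lib.S59
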