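/-
PROGRAMME R2 = S59, node [PATCH-FLR] / [SPEC-R] (helper3, prefix `s59u_sp_`), part G:
**two auxiliary facts for the `W`-specific core with a spectator prime** (USpH.lean):

* `s59u_sp_exists_step`  : an order of the steps `step : ℕ → ι` with `k₀ ≤ 1` virtual steps at a
                           distinguished index `a` followed by an enumeration of all the other indices;
* `s59u_sp_exists_locBr` : helper4's `s59f_exists_locBr` (FAsmW3.lean) together with the point facts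
                           `s59u_sp_LocBrPt L` (USpC.lean) of the chosen local model.
-/
import Mathlib
import Fermat.Agent.Lib.S59.FAsmW3
import Fermat.Agent.Lib.S59.USpC

set_option autoImplicit false
set_option linter.unusedSectionVars false
set_option linter.unusedVariables false
set_option linter.style.haveILetI false
set_option maxHeartbeats 1600000
set_option synthInstance.maxHeartbeats 400000

noncomputable section

namespace Fermat.Agent.Lib.S59

open IsLocalRing Module Polynomial ExtCitation Fermat.Agent.Lib.S56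
open Fermat.Agent.Lib.S53 (matOf matOfRes matOfRes_apply NormData)

local notation "Γℚ" => (AlgebraicClosure ℚ ≃ₐ[ℚ] AlgebraicClosure ℚ)

section Step

/-- **the order of the steps with a spectator**: `k₀ ≤ 1` virtual steps at the index `a`, then an
enumeration without repetition of all the indices `≠ a`. -/
theorem s59u_sp_exists_step {ι : Type} [Fintype ι] [DecidableEq ι] (a : ι) (k₀ : ℕ) (hk₀ : k₀ ≤ 1) :
    ∃ (step : ℕ → ι) (k : ℕ), k + 1 = Fintype.card ι ∧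
      (∀ t < k₀ + k, ∀ t' < t, step t' ≠ step t) ∧
      (∀ t < k₀, step t = a) ∧
      (∀ t, k₀ ≤ t → t < k₀ + k → step t ≠ a) ∧
      (∀ x, x ≠ a → ∃ t, k₀ ≤ t ∧ t < k₀ + k ∧ step t = x) := by
  classical
  set s : Finset ι := Finset.univ.erase a with hs
  set k : ℕ := s.card with hk
  set e : s ≃ Fin k := s.equivFin with he
  set step : ℕ → ι := fun t =>
    if t < k₀ then a else if h : t - k₀ < k then ((e.symm ⟨t - k₀, h⟩ : s) : ι) else a with hstep
  have hmem : ∀ x : s, (x : ι) ≠ a := fun x => (Finset.mem_erase.mp x.2).1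
  have hst : ∀ t, k₀ ≤ t → ∀ h : t - k₀ < k, step t = ((e.symm ⟨t - k₀, h⟩ : s) : ι) := by
    intro t ht h
    show (if t < k₀ then a else if h : t - k₀ < k then ((e.symm ⟨t - k₀, h⟩ : s) : ι) else a) = _
    rw [if_neg (by omega), dif_pos h]
  have hsv : ∀ t < k₀, step t = a := by
    intro t ht
    show (if t < k₀ then a else if h : t - k₀ < k then ((e.symm ⟨t - k₀, h⟩ : s) : ι) else a) = _
    rw [if_pos ht]
  refine ⟨step, k, ?_, ?_, hsv, ?_, ?_⟩
  · rw [hk, hs, Finset.card_erase_of_mem (Finset.mem_univ a), Finset.card_univ]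
    have : 0 < Fintype.card ι := Fintype.card_pos_iff.mpr ⟨a⟩
    omega
  · intro t ht t' ht'
    by_cases h0 : t < k₀
    · omega
    · have h1 : t - k₀ < k := by omega
      rw [hst t (by omega) h1]
      by_cases h0' : t' < k₀
      · rw [hsv t' h0']
        exact (hmem _).symm
      · have h1' : t' - k₀ < k := by omega
        rw [hst t' (by omega) h1']
        intro heq
        have h2 := e.symm.injective (Subtype.ext heq)
        rw [Fin.mk.injEq] at h2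
        omega
  · intro t ht ht'
    have h1 : t - k₀ < k := by omega
    rw [hst t ht h1]
    exact hmem _
  · intro x hx
    have hxs : x ∈ s := Finset.mem_erase.mpr ⟨hx, Finset.mem_univ x⟩
    refine ⟨k₀ + (e ⟨x, hxs⟩).val, by omega, by have := (e ⟨x, hxs⟩).isLt; omega, ?_⟩
    have h1 : k₀ + (e ⟨x, hxs⟩).val - k₀ < k := by have := (e ⟨x, hxs⟩).isLt; omega
    rw [hst _ (by omega) h1]
    have h2 : (⟨k₀ + (e ⟨x, hxs⟩).val - k₀, h1⟩ : Fin k) = e ⟨x, hxs⟩ := by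
      apply Fin.ext
      show k₀ + (e ⟨x, hxs⟩).val - k₀ = (e ⟨x, hxs⟩).val
      omega
    rw [h2, Equiv.symm_apply_apply]

end Step

section LocBr

variable {𝒪 : Type} [CommRing 𝒪] [IsDomain 𝒪] [IsDiscreteValuationRing 𝒪]
  [IsAdicComplete (maximalIdeal 𝒪) 𝒪] [Finite (ResidueField 𝒪)] [CharZero 𝒪]
  {p : ℕ} [hpP : Fact p.Prime] (hp𝒪 : ((p : ℕ) : 𝒪) ∈ maximalIdeal 𝒪)

include hp𝒪 in
/-- **the local bridge model at a prime `q ≠ p`** with residual Frobenius polynomial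
`(X − ε̄q)(X − ε̄)`, non-scalar Frobenius if `q ≡ 1 mod p` — helper4's `s59f_exists_locBr` together with
the point facts `s59u_sp_LocBrPt L`. -/
theorem s59u_sp_exists_locBr (ρbar : ResidualGaloisRep (ResidueField 𝒪))
    (b : Basis (Fin 2) (ResidueField 𝒪) ρbar.V) (q : ℕ) (hq : q.Prime) (hqp : q ≠ p) (φ : Γℚ)
    (ε : 𝒪) (hε : ε = 1 ∨ ε = -1)
    (hcp : LinearMap.charpoly (ρbar.ρ φ) =
      (X - C (residue 𝒪 (ε * ((q : ℕ) : 𝒪)))) * (X - C (residue 𝒪 ε)))
    (hns : p ∣ q - 1 → ρbar.ρ φ ≠ residue 𝒪 ε • 1) (i2 : 𝒪) (hi2 : 2 * i2 = 1) :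
    ∃ (Pm P'm : Matrix (Fin 2) (Fin 2) 𝒪) (L : s59f_LocBr 𝒪 i2), Pm * P'm = 1 ∧ P'm * Pm = 1 ∧
      P'm.map (residue 𝒪) * matOfRes ρbar b φ * Pm.map (residue 𝒪) = L.M0.map (residue 𝒪) ∧
      L.u = ((q : ℕ) : 𝒪) ∧ L.tr0 = ε * (((q : ℕ) : 𝒪) + 1) ∧ s59u_sp_LocBrPt L := by
  have hpq : ¬ p ∣ q := fun h => hqp ((Nat.prime_dvd_prime_iff_eq hpP.out hq).mp h).symm
  have hε2 : ε ^ 2 = 1 := by rcases hε with h | h <;> rw [h] <;> ring
  have hεu : IsUnit ε := by
    rcases hε with h | h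
    · rw [h]; exact isUnit_one
    · rw [h]; exact isUnit_one.neg
  have hresε : residue 𝒪 ε ≠ 0 := (residue_ne_zero_iff_isUnit _).mpr hεu
  set d : s59r_UData 𝒪 :=
    { u := ((q : ℕ) : 𝒪), ε := ε, i2 := i2, hi2 := hi2, hε := hε2,
      hu0 := s59f_isUnit_natCast hp𝒪 q hpq } with hd
  have e1 : (1 : 𝒪) - ((q : ℕ) : 𝒪) = -(((q - 1 : ℕ) : ℕ) : 𝒪) := by
    rw [Nat.cast_sub hq.one_lt.le]; push_cast; ring
  have e2 : (1 : 𝒪) + ((q : ℕ) : 𝒪) = (((q + 1 : ℕ) : ℕ) : 𝒪) := by push_cast; ring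
  have hn1 : (1 : 𝒪) - ((q : ℕ) : 𝒪) ≠ 0 := by
    rw [e1, neg_ne_zero]
    exact Nat.cast_ne_zero.mpr (Nat.sub_ne_zero_of_lt hq.one_lt)
  have hn2 : (1 : 𝒪) + ((q : ℕ) : 𝒪) ≠ 0 := by
    rw [e2]
    exact Nat.cast_ne_zero.mpr (Nat.succ_ne_zero q)
  by_cases h1 : p ∣ q - 1
  · -- `q ≡ 1`: the Jordan model
    have hu1m : (1 : 𝒪) - d.u ∈ maximalIdeal 𝒪 := by
      show (1 : 𝒪) - ((q : ℕ) : 𝒪) ∈ maximalIdeal 𝒪
      rw [e1]
      exact neg_mem (s59f_natCast_mem hp𝒪 _ h1)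
    have hresq : residue 𝒪 (ε * ((q : ℕ) : 𝒪)) = residue 𝒪 ε := by
      have h := (residue_eq_zero_iff _).mpr hu1m
      rw [map_sub, map_one] at h
      have h' : residue 𝒪 ((q : ℕ) : 𝒪) = 1 := (sub_eq_zero.mp h).symm
      rw [map_mul, h', mul_one]
    rw [hresq] at hcp
    obtain ⟨Pm, P'm, hP1, hP2, hP3⟩ := s59f_exists_frameJ ρbar b φ (residue 𝒪 ε) hresε hcp (hns h1)
    refine ⟨Pm, P'm, s59u_lb_locBrP d hu1m hn1, hP1, hP2, ?_, rfl, rfl,
      s59u_sp_locBrPt_P d hu1m hn1⟩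
    rw [hP3]
    exact (s59u_lb_M0P_map d hu1m).symm
  · have hu1 : IsUnit ((1 : 𝒪) - d.u) := by
      show IsUnit ((1 : 𝒪) - ((q : ℕ) : 𝒪))
      rw [e1]
      exact (s59f_isUnit_natCast hp𝒪 _ h1).neg
    have hαβ : residue 𝒪 (ε * ((q : ℕ) : 𝒪)) ≠ residue 𝒪 ε := by
      intro h
      have h' : residue 𝒪 (ε * (1 - ((q : ℕ) : 𝒪))) = 0 := by
        rw [mul_sub, mul_one, map_sub, h, sub_self]
      exact (residue_ne_zero_iff_isUnit _).mpr (hεu.mul hu1) h'
    obtain ⟨Pm, P'm, hP1, hP2, hP3⟩ := s59q_exists_frame ρbar b φ _ _ hαβ hcp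
    have hM0 : (s59u_lb_M0E d).map (residue 𝒪) =
        Matrix.diagonal ![residue 𝒪 (ε * ((q : ℕ) : 𝒪)), residue 𝒪 ε] :=
      s59u_lb_diag_map _ _
    by_cases h2 : p ∣ q + 1
    · -- `q ≡ −1`
      have hu2m : (1 : 𝒪) + d.u ∈ maximalIdeal 𝒪 := by
        show (1 : 𝒪) + ((q : ℕ) : 𝒪) ∈ maximalIdeal 𝒪
        rw [e2]
        exact s59f_natCast_mem hp𝒪 _ h2
      refine ⟨Pm, P'm, s59u_lb_locBrMP d hu1 hu2m hn2, hP1, hP2, ?_, rfl, rfl,
        s59u_sp_locBrPt_MP d hu1 hu2m hn2⟩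
      rw [hP3]
      exact hM0.symm
    · -- generic
      have hu2 : IsUnit ((1 : 𝒪) + d.u) := by
        show IsUnit ((1 : 𝒪) + ((q : ℕ) : 𝒪))
        rw [e2]
        exact s59f_isUnit_natCast hp𝒪 _ h2
      refine ⟨Pm, P'm, s59u_lb_locBrE d hu1 hu2, hP1, hP2, ?_, rfl, rfl,
        s59u_sp_locBrPt_E d hu1 hu2⟩
      rw [hP3]
      exact hM0.symm

end LocBr

end Fermat.Agent.Lib.S59
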