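/-
PROGRAMME (R2) = S59, [STRICT-p], node [SPEC-R] / [LGC-new 2] (helper6, prefix `s59q_sp_`), part O:
**THE SUPPORT OF A BASE MODULE WITH AN OLD POINT CONTAINS EVERY POINT WHICH IS UNRAMIFIED AT THE SPECTATOR, STRICT-ORDINARY TYPE** — scripted twin
of helper3's USpK.lean (`s59u_sp_unr_pt`): the instance `m = 0`, `e = 1`, `k₀ = k = 0` of `s59q_sp_FLR_R_pt_ord` (QSSpE.lean) for `ρ̄ = ρ̄_{W,p}`.
Substitution: `flatCondition → strictOrdinaryCondition`, `s59u_sp_FLR_R_pt → s59q_sp_FLR_R_pt_ord`.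

* **`s59q_sp_unr_pt_ord`**.
-/
import Mathlib
import Fermat.Agent.Lib.S59.USpK
import Fermat.Agent.Lib.S59.QSSpE

set_option autoImplicit false
set_option linter.unusedSectionVars false
set_option linter.unusedVariables false
set_option linter.style.haveILetI false
set_option maxHeartbeats 3200000
set_option synthInstance.maxHeartbeats 400000

noncomputable section

namespace Fermat.Agent.Lib.S59

open IsLocalRing Module CuspForm ExtCitation Fermat.Agent.Lib.S56 Fermat.Agent.Lib.S44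
open Fermat.Agent.Lib.S53 (matOf matOfRes matOfRes_apply matOf_apply NormData exists_normData)

local notation "Γℚ" => (AlgebraicClosure ℚ ≃ₐ[ℚ] AlgebraicClosure ℚ)

/-- **no raising, one spectator on `unr`, STRICT-ORDINARY type: every point of `D0.R` which is unramified at `s` lies in the
support of a base module carrying one point off `St_±`** (twin of helper3's `s59u_sp_unr_pt`). -/
theorem s59q_sp_unr_pt_ord (p : ℕ) [hpF : Fact p.Prime] (hp35 : p = 3 ∨ p = 5)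
    (W : WeierstrassCurve ℤ) (hΔ : W.Δ ≠ 0) (hss : W.IsSemistableModel)
    (hirr : W.ModRepIsIrreducible p)
    (𝒪 : Type) [CommRing 𝒪] [IsDomain 𝒪] [IsDiscreteValuationRing 𝒪]
    [IsAdicComplete (maximalIdeal 𝒪) 𝒪] [Finite (ResidueField 𝒪)] [CharZero 𝒪]
    [Algebra ℤ_[p] 𝒪] [Module.Finite ℤ_[p] 𝒪]
    (hp𝒪 : ((p : ℕ) : 𝒪) ∈ maximalIdeal 𝒪)
    (hsplitℤ : ∀ a b : ℤ, ∃ α β : ResidueField 𝒪,
      α + β = (a : ResidueField 𝒪) ∧ α * β = (b : ResidueField 𝒪))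
    (B : Finset ℕ) (hpB : p ∈ B) (hB2Δ : ∀ r : ℕ, r.Prime → (r : ℤ) ∣ W.Δ → r ∈ B)
    -- the spectator
    (s : Nat.Primes) (hsp : (s : ℕ) ≠ p) (hsB : (s : ℕ) ∈ B) (hsns : ¬ p ∣ (s : ℕ) - 1)
    (hsU : (s59q_WRhobar W hΔ hp𝒪).IsUnramifiedAt s)
    (εs : 𝒪) (hεs : εs = 1 ∨ εs = -1)
    (φs : Γℚ) (hφs : (primeLocalPlace s).IsFrobeniusAt φs s)
    (hscp : LinearMap.charpoly ((s59q_WRhobar W hΔ hp𝒪).ρ φs) =
      (Polynomial.X - Polynomial.C (residue 𝒪 (εs * (((s : ℕ) : ℕ) : 𝒪)))) *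
        (Polynomial.X - Polynomial.C (residue 𝒪 εs)))
    (σs : Γℚ) (hσs : s59q_IsTameGen s (primeLocalPlace s) σs)
    -- the base ring and the `T`-side (no raising: `k = 0`)
    (D0 : GaloisRep.DeformationRingData 𝒪 (s59i_rhobarW W p hΔ 𝒪 hp𝒪) (fun _A _ _ _ ρ =>
      GaloisRep.strictOrdinaryCondition 𝒪 p (s59q_WSmin W hΔ hp𝒪 ∪ ((∅ : Finset ℕ) ∪ {(s : ℕ)})) ρ ∧
        ∀ q ∈ s59q_WSmin W hΔ hp𝒪 ∪ ((∅ : Finset ℕ) ∪ {(s : ℕ)}), q.Prime → q ≠ p →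
          ρ.IsUnipotentOnInertiaAt q))
    (Bs : s59f_TBaseF 𝒪 0 D0)
    (HL : ∀ r : ℕ, 1 ≤ r → ∀ (n : ℕ) (qv : Fin r → ℕ), Function.Injective qv →
      (∀ i, (qv i).Prime ∧ qv i ∉ B ∧ p ^ (n + 1) ∣ qv i - 1) →
      (∀ i, ∀ A : ValuationSubring (AlgebraicClosure ℚ), A.LiesOverPrime (qv i) →
        ∀ φ : Γℚ, A.IsFrobeniusAt φ (qv i) →
          ∃ α β : ResidueField 𝒪, α ≠ β ∧
            LinearMap.charpoly ((s59i_rhobarW W p hΔ 𝒪 hp𝒪).ρ φ) =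
              (Polynomial.X - Polynomial.C α) * (Polynomial.X - Polynomial.C β)) →
      ∀ DQ : GaloisRep.DeformationRingData 𝒪 (s59i_rhobarW W p hΔ 𝒪 hp𝒪) (fun _A _ _ _ ρ =>
        GaloisRep.strictOrdinaryCondition 𝒪 p
            (s59q_WSmin W hΔ hp𝒪 ∪ ((∅ : Finset ℕ) ∪ {(s : ℕ)}) ∪ Finset.univ.image qv) ρ ∧
          ∀ q ∈ s59q_WSmin W hΔ hp𝒪 ∪ ((∅ : Finset ℕ) ∪ {(s : ℕ)}), q.Prime → q ≠ p →
            ρ.IsUnipotentOnInertiaAt q),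
        Nonempty (s59f_TLevelF 𝒪 p n r (s59q_ZIdx 0 1) 0 Bs qv
          (fun _ => (s : ℕ)) (fun _ => φs) (fun _ => σs) DQ))
    -- the base point (off `St_±`)
    (𝒪₀ : Type) [CommRing 𝒪₀] [IsDomain 𝒪₀] (x₀ : D0.R →+* 𝒪₀)
    (hx₀M : ∀ a : D0.R, (∀ mm : Bs.M 0, Bs.ν 0 a • mm = 0) → x₀ a = 0)
    (hx₀δ : x₀ (s59i_cpTr D0.ρ φs) * x₀ (s59i_cpTr D0.ρ φs) ≠
      ((((s : ℕ) : ℕ) : 𝒪₀) + 1) * ((((s : ℕ) : ℕ) : 𝒪₀) + 1))
    -- the point, unramified at `s`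
    (𝒪' : Type) [CommRing 𝒪'] [IsDomain 𝒪'] [IsLocalRing 𝒪'] [IsNoetherianRing 𝒪']
    [IsAdicComplete (maximalIdeal 𝒪') 𝒪']
    (x : D0.R →+* 𝒪') (hx : ∀ a ∈ maximalIdeal D0.R, x a ∈ maximalIdeal 𝒪')
    (hxinj : Function.Injective (x.comp (algebraMap 𝒪 D0.R)))
    (hxunr : ∀ (f : Module.Dual D0.R D0.ρ.V) (v : D0.ρ.V), x (f (D0.ρ.ρ σs v - v)) = 0) :
    RingHom.ker (Bs.ν 0 : D0.R →+* Bs.R 0) ≤ RingHom.ker x := by
  classical
  have hpP : p.Prime := hpF.out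
  have hp2 : p ≠ 2 := s59q_W_p_ne_two hp35
  have habs := s59q_W_habs W hΔ hp𝒪 hp35 hss hirr
  obtain ⟨Nd⟩ := exists_normData (s59q_WRhobar W hΔ hp𝒪) habs
  obtain ⟨i2, hi2⟩ := s59q_two_inv p hp2 hp𝒪
  obtain ⟨Pm, P'm, Ls, hP1, hP2, hP3, hLu, hLtr, hLpt⟩ :=
    s59u_sp_exists_locBr hp𝒪 (s59q_WRhobar W hΔ hp𝒪) Nd.b s s.2 hsp φs εs hεs hscp
      (fun hd => absurd hd hsns) i2 hi2
  exact s59q_sp_FLR_R_pt_ord p hp2 hp𝒪 (s59i_rhobarW W p hΔ 𝒪 hp𝒪) habs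
    (s59q_W_hdet W hΔ hp𝒪 hp2 hirr) (s59q_W_hsplit W hΔ hp𝒪 hsplitℤ)
    (s59q_W_hTW W hΔ hp𝒪 hp35 hss hirr) B (s59q_WSmin W hΔ hp𝒪) (∅ : Finset ℕ) {(s : ℕ)}
    (s59q_WSmin_p_mem W hΔ hp𝒪) (s59q_WSmin_subset W hΔ hp𝒪 B hpB hB2Δ)
    (Finset.empty_subset _) (Finset.singleton_subset_iff.mpr hsB)
    (fun q hq => absurd hq (Finset.notMem_empty q))
    (fun q hq => by rw [Finset.mem_singleton.mp hq]; exact s.2)
    (s59q_WSmin_hmin W hΔ hp𝒪 hp2)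
    (fun q hq => absurd hq (Finset.notMem_empty q))
    (fun q hq => by rw [Finset.mem_singleton.mp hq]; exact ⟨hsp, hsU⟩)
    (Finset.disjoint_empty_left _)
    (fun q hq => absurd hq (Finset.notMem_empty _))
    Nd 0 1 (fun _ => s)
    (by rw [Finset.univ_eq_empty, Finset.image_empty])
    (by
      ext q
      simp only [Finset.mem_image, Finset.mem_univ, true_and, Finset.mem_singleton]
      constructor
      · rintro ⟨_, rfl⟩; rfl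
      · rintro rfl; exact ⟨0, rfl⟩)
    (fun j => j.elim0)
    (fun l l' _ => Subsingleton.elim l l')
    (fun _ => σs) (fun _ => φs) (fun _ => hσs) (fun _ => hφs) i2 hi2
    (Sum.elim (fun _ => 1) (fun _ => Pm)) (Sum.elim (fun _ => 1) (fun _ => P'm))
    (by
      rintro (j | l)
      · exact j.elim0
      · exact hP1)
    (by
      rintro (j | l)
      · exact j.elim0
      · exact hP2)
    (fun _ => Ls) (fun _ => hLpt) (fun i => i.elim0) (fun i => i.elim0)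
    (fun _ => hP3) (fun i => i.elim0) (fun _ => hLu) (fun j => j.elim0)
    (fun _ => Sum.inl 0) 0 0
    (fun t ht => absurd ht (by omega))
    (fun t ht => absurd ht (by omega))
    (fun j => j.elim0)
    D0 Bs HL 𝒪₀ x₀ hx₀M
    (fun t _ => hx₀δ)
    (fun l h => by obtain ⟨t', ht', -⟩ := h; omega)
    (fun l h => by obtain ⟨t', ht', -⟩ := h; omega)
    𝒪' x hx hxinj
    (fun j => j.elim0)
    (fun l => Or.inr ⟨fun h => by obtain ⟨t', ht', -⟩ := h; omega, hxunr⟩)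

end Fermat.Agent.Lib.S59
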