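/-
PROGRAMME R2 = S59, (c2) / [LGC-new 2] (helper3, prefix `s59u_sp_`), part O: **POINTS OF A DEFORMATION RING
OF A BIG TYPE WHICH ARE OFF `St_±` AT THE EXTRA PRIMES ARE POINTS OF THE RING OF THE SMALL TYPE.**

* `s59u_sp_unr_of_RP`        : `A` a noetherian local DOMAIN, `ρ` unipotent on inertia at `q ≠ p`, `ρ̄` unramified
                               at `q`, `(1 − q) · det ρ(φ) · ((1+q)² det ρ(φ) − q (tr ρ(φ))²) ≠ 0` for ONE Frobenius
                               element ⟹ `ρ` is unramified at `q` (the matrix identity `s59i_ratio_identity`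
                               in a domain; no unit hypothesis);
* `s59u_sp_bc_residual`      : the residual representation of a base change is the base change of the
                               residual representation;
* `s59u_sp_residual_of_algHom`: `hresR` is inherited along a local `𝒪`-algebra homomorphism;
* `s59u_sp_pt_small_core`    : THE CONVERSION: a point `x₀` of the ring of the type `flat(Sg0) ∧ unip(Su)` which kills
                               the ramification at every prime of `Sg0 ∖ Sg'` gives a point `x` of the ring of the type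
                               `flat(Sg') ∧ unip(Su')` with values in the complete local domain `A = D0.R ⧸ ker x₀`,
                               with the same traces, unramified wherever `x₀` is;
* `s59u_sp_pt_kill_of_RP`    : [RP] at `q` (+ unipotence) ⟹ the point kills the ramification at `q`;
* `s59u_sp_pt_kill_of_T`     : (E5)-route: the point factors through a `T`-ring whose representation (same traces,
                               Carayol) is unramified at `q` ⟹ the point kills the ramification at `q`;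
* `s59u_sp_pt_small`         : the conversion with [RP] at the extra primes;
* `s59u_sp_ram_of_lgc`       : **the `R`-side of [LGC-new 2]** (helper1 #3872/#3912): `s59u_sp_pt_small` +
                               `s59u_sp_unr_pt` (USpK) + the `T`-side statement "the eigensystem of `x₀` does not
                               occur in the Hecke ring of `Y^{s'}`" ⟹ `x₀` is RAMIFIED at the spectator — the clause
                               `k₀ = 1 → ∃ f v, x₀ (f (D0.ρ.ρ σs v − v)) ≠ 0` of `s59u_sp_TFinPt`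
                               (`s59u_sp_ram_of_lgc_RP`: with [RP] at the extra primes).
-/
import Mathlib
import Fermat.Agent.Lib.S59.USpK
import Fermat.Agent.Lib.S59.UE2Unr
import Fermat.Agent.Lib.S59.EHFlat
import Fermat.Agent.Lib.S59.ETWRes
import Fermat.Agent.Lib.S59.FLiftK
import Fermat.Agent.Lib.S59.FAsmG7
import Fermat.Agent.Lib.S59.BDQRes
import Fermat.Agent.Lib.S59.BChiFam
import Fermat.Agent.Lib.S59.BBaseRes
import Fermat.Agent.Lib.S59.EB7Rep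
import Fermat.Agent.Lib.S59.LChiRing

set_option autoImplicit false
set_option linter.unusedSectionVars false
set_option linter.unusedVariables false
set_option linter.style.haveILetI false
set_option maxHeartbeats 1600000
set_option synthInstance.maxHeartbeats 400000

noncomputable section

namespace Fermat.Agent.Lib.S59

open IsLocalRing Polynomial TensorProduct
open Fermat.Agent.Lib.S53 (matOf matOf_apply exists_basis_baseChangeAlong exists_basis_of_isEquiv)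
open Fermat.Agent.Lib.Mz

local notation "Qbar" => AlgebraicClosure ℚ
local notation "Γℚ" => (AlgebraicClosure ℚ ≃ₐ[ℚ] AlgebraicClosure ℚ)

section Local

variable {A : Type} [CommRing A] [IsLocalRing A] [IsNoetherianRing A] [IsDomain A]

/-- **one place, matrix form**: unipotent inertia + tame relation + the ratio is not `q^{±1}` (as a NON-ZERO
condition in a domain) ⟹ trivial inertia. -/
theorem s59u_sp_unr_of_RP_at (ρ : GaloisRepAdic A) {p q : ℕ}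
    (hp : p.Prime) (hq : q.Prime) (hqp : q ≠ p) (hpA : (p : A) ∈ maximalIdeal A)
    (P : ValuationSubring Qbar) (hP : P.LiesOverPrime q)
    (hres : ∀ τ ∈ P.inertiaSubgroupIn ℚ, ∀ v : ρ.V,
      ρ.ρ τ v - v ∈ maximalIdeal A • (⊤ : Submodule A ρ.V))
    (hunip : ∀ τ ∈ P.inertiaSubgroupIn ℚ, LinearMap.charpoly (ρ.ρ τ) = (X - 1) ^ 2)
    (φ : Γℚ) (hφ : P.IsFrobeniusAt φ q)
    (hne : (1 - (q : A)) * LinearMap.det (ρ.ρ φ) *
      ((1 + (q : A)) ^ 2 * LinearMap.det (ρ.ρ φ) -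
        (q : A) * LinearMap.trace A ρ.V (ρ.ρ φ) ^ 2) ≠ 0)
    (τ : Γℚ) (hτ : τ ∈ P.inertiaSubgroupIn ℚ) : ρ.ρ τ = 1 := by
  have bs : Module.Basis (Fin 2) A ρ.V := Module.finBasisOfFinrankEq A ρ.V ρ.finrank_eq
  refine s59u_eq_one_of_matOf ρ bs τ ?_
  set M := matOf ρ bs τ with hM
  set Φ := matOf ρ bs φ with hΦ
  -- `(M − 1)² = 0`
  have hsq : (M - 1) * (M - 1) = 0 := by
    have hcp : M.charpoly = (X - 1) ^ 2 := by
      rw [hM, matOf_apply, LinearMap.charpoly_toMatrix, hunip τ hτ]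
    have h1 := Matrix.aeval_self_charpoly M
    rw [hcp] at h1
    simpa [pow_two] using h1
  have ht : Φ * M = M ^ q * Φ :=
    s59u_tame_rel_matOf ρ bs hp hq hqp hpA P hP hres φ τ hφ hτ
  have h1 : Φ * (M - 1) = (q : A) • ((M - 1) * Φ) := s59i_tame_unip M Φ q hsq ht
  have hid := s59i_ratio_identity Φ (M - 1) (q : A)
  have h0 : Φ * (M - 1) - (q : A) • ((M - 1) * Φ) = 0 := sub_eq_zero.mpr h1
  rw [h0] at hid
  simp only [mul_zero, zero_mul, smul_zero, add_zero, sub_zero] at hid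
  have hdet : Φ.det = LinearMap.det (ρ.ρ φ) := by
    rw [hΦ, matOf_apply, LinearMap.det_toMatrix]
  have htr : Φ.trace = LinearMap.trace A ρ.V (ρ.ρ φ) := by
    rw [hΦ, matOf_apply, ← LinearMap.trace_eq_matrix_trace]
  rw [hdet, htr] at hid
  have h2 : M - 1 = 0 := by
    ext i j
    have := congrFun (congrFun hid i) j
    rw [Matrix.smul_apply, Matrix.zero_apply, smul_eq_mul] at this
    rcases mul_eq_zero.mp this with h | h
    · exact absurd h hne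
    · rw [Matrix.zero_apply]; exact h
  exact sub_eq_zero.mp h2

/-- **[RP ⟹ unramified] in a domain**: `ρ` unipotent on inertia at `q ≠ p`, `ρ̄` unramified at `q`, and ONE
Frobenius element `φ` at ONE place over `q` with
`(1 − q) · det ρ(φ) · ((1+q)² det ρ(φ) − q (tr ρ(φ))²) ≠ 0` ⟹ `ρ` is unramified at `q`. -/
theorem s59u_sp_unr_of_RP (ρ : GaloisRepAdic A) {p q : ℕ}
    (hp : p.Prime) (hq : q.Prime) (hqp : q ≠ p) (hpA : (p : A) ∈ maximalIdeal A)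
    (hU : ρ.residual.IsUnramifiedAt q) (hunip : ρ.IsUnipotentOnInertiaAt q)
    (P : ValuationSubring Qbar) (hP : P.LiesOverPrime q) (φ : Γℚ) (hφ : P.IsFrobeniusAt φ q)
    (hne : (1 - (q : A)) * LinearMap.det (ρ.ρ φ) *
      ((1 + (q : A)) ^ 2 * LinearMap.det (ρ.ρ φ) -
        (q : A) * LinearMap.trace A ρ.V (ρ.ρ φ) ^ 2) ≠ 0) :
    ρ.IsUnramifiedAt q := by
  intro P' hP' τ hτ
  obtain ⟨g, hg⟩ := ptm_inertia_conj hq P P' hP hP'
  have h1 := s59u_sp_unr_of_RP_at ρ hp hq hqp hpA P hP ((s59e_residual_unr_iff ρ q).mp hU P hP)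
    (hunip P hP) φ hφ hne (g * τ * g⁻¹) (hg τ hτ)
  rw [map_mul, map_mul] at h1
  have h2 : ρ.ρ g⁻¹ * ρ.ρ g = 1 := by rw [← map_mul, inv_mul_cancel, map_one]
  calc ρ.ρ τ = ρ.ρ g⁻¹ * (ρ.ρ g * ρ.ρ τ * ρ.ρ g⁻¹) * ρ.ρ g := by
        rw [mul_assoc (ρ.ρ g), ← mul_assoc (ρ.ρ g⁻¹), h2, one_mul, mul_assoc, h2, mul_one]
    _ = 1 := by rw [h1, mul_one, h2]

end Local

section Residual

variable {A₀ A : Type} [CommRing A₀] [IsLocalRing A₀] [CommRing A] [IsLocalRing A]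

/-- **the residual representation of a base change is the base change of the residual representation.** -/
theorem s59u_sp_bc_residual (f : A₀ →+* A) (hf : IsLocalHom f) (ρ₀ : GaloisRepAdic A₀) :
    haveI := hf
    (ρ₀.baseChangeAlong f hf).residual.IsEquiv
      (ρ₀.residual.baseChangeAlong (ResidueField.map f)) := by
  letI : Algebra A₀ A := f.toAlgebra
  haveI : IsLocalHom (algebraMap A₀ A) := hf
  have hinst : (@ResidueField.map _ _ _ _ _ _ f hf).toAlgebra =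
      (inferInstance : Algebra (ResidueField A₀) (ResidueField A)) := by
    refine Algebra.algebra_ext _ _ fun r => ?_
    obtain ⟨a, rfl⟩ := residue_surjective r
    rfl
  show (ρ₀.baseChangeAlong f hf).residual.IsEquiv
    (@ResidualGaloisRep.baseChange _ _ (ResidueField A) _
      (@ResidueField.map _ _ _ _ _ _ f hf).toAlgebra ρ₀.residual)
  rw [hinst]
  let e1 := TensorProduct.AlgebraTensorModule.cancelBaseChange A₀ A (ResidueField A)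
    (ResidueField A) ρ₀.V
  let e2 := TensorProduct.AlgebraTensorModule.cancelBaseChange A₀ (ResidueField A₀)
    (ResidueField A) (ResidueField A) ρ₀.V
  refine ⟨⟨e1.trans e2.symm, fun σ x => ?_⟩⟩
  show e2.symm (e1 ((((ρ₀.ρ σ).baseChange A).baseChange (ResidueField A)) x)) =
    (((ρ₀.ρ σ).baseChange (ResidueField A₀)).baseChange (ResidueField A)) (e2.symm (e1 x))
  apply e2.injective
  rw [LinearEquiv.apply_symm_apply, s59e_cancelBaseChange_baseChange (ρ₀.ρ σ) x,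
    s59e_cancelBaseChange_baseChange (ρ₀.ρ σ) (e2.symm (e1 x)), LinearEquiv.apply_symm_apply]

/-- iterated base change of a residual representation. -/
theorem s59u_sp_res_bc_comp {k k' k'' : Type} [Field k] [Field k'] [Field k''] (ψ₁ : k →+* k')
    (ψ₂ : k' →+* k'') (ρ : ResidualGaloisRep k) :
    ((ρ.baseChangeAlong ψ₁).baseChangeAlong ψ₂).IsEquiv (ρ.baseChangeAlong (ψ₂.comp ψ₁)) := by
  letI : Algebra k k' := ψ₁.toAlgebra
  letI : Algebra k' k'' := ψ₂.toAlgebra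
  letI : Algebra k k'' := (ψ₂.comp ψ₁).toAlgebra
  haveI : IsScalarTower k k' k'' := IsScalarTower.of_algebraMap_eq fun _ => rfl
  exact ⟨⟨TensorProduct.AlgebraTensorModule.cancelBaseChange k k' k'' k'' ρ.V, fun σ x =>
    s59e_cancelBaseChange_baseChange (ρ.ρ σ) x⟩⟩

theorem s59u_sp_res_bc_congr {k k' : Type} [Field k] [Field k'] {ψ ψ' : k →+* k'} (h : ψ = ψ')
    (ρ : ResidualGaloisRep k) : (ρ.baseChangeAlong ψ).IsEquiv (ρ.baseChangeAlong ψ') := by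
  subst h
  exact ⟨ResidualGaloisRep.Equiv.refl _⟩

variable {𝒪 : Type} [CommRing 𝒪] [IsLocalRing 𝒪]
  {R' : Type} [CommRing R'] [IsLocalRing R'] [Algebra 𝒪 R'] [IsLocalHom (algebraMap 𝒪 R')]
  {R : Type} [CommRing R] [IsLocalRing R] [Algebra 𝒪 R] [IsLocalHom (algebraMap 𝒪 R)]

/-- **`hresR` is inherited along a local `𝒪`-algebra homomorphism.** -/
theorem s59u_sp_residual_of_algHom (f : R' →ₐ[𝒪] R) (hfl : IsLocalHom (f : R' →+* R))
    (ρ' : GaloisRepAdic R') (ρbar : ResidualGaloisRep (ResidueField 𝒪))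
    (h : ρ'.residual.IsEquiv (ρbar.baseChangeAlong (ResidueField.map (algebraMap 𝒪 R')))) :
    (ρ'.baseChangeAlong (f : R' →+* R) hfl).residual.IsEquiv
      (ρbar.baseChangeAlong (ResidueField.map (algebraMap 𝒪 R))) := by
  haveI := hfl
  obtain ⟨e1⟩ := s59u_sp_bc_residual (f : R' →+* R) hfl ρ'
  obtain ⟨e0⟩ := h
  have e2 := ResidualGaloisRep.Equiv.baseChangeAlong (ResidueField.map (f : R' →+* R)) e0
  obtain ⟨e3⟩ := s59u_sp_res_bc_comp (ResidueField.map (algebraMap 𝒪 R'))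
    (ResidueField.map (f : R' →+* R)) ρbar
  have hcomp : (ResidueField.map (f : R' →+* R)).comp (ResidueField.map (algebraMap 𝒪 R')) =
      ResidueField.map (algebraMap 𝒪 R) := by
    refine RingHom.ext fun r => ?_
    obtain ⟨a, rfl⟩ := residue_surjective r
    rw [RingHom.comp_apply, ResidueField.map_residue, ResidueField.map_residue,
      ResidueField.map_residue]
    congr 1
    exact f.commutes a
  obtain ⟨e4⟩ := s59u_sp_res_bc_congr hcomp ρbar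
  exact ⟨((e1.trans e2).trans e3).trans e4⟩

end Residual

section Convert

variable {𝒪 : Type} [CommRing 𝒪] [IsDomain 𝒪] [IsDiscreteValuationRing 𝒪]
  [IsAdicComplete (maximalIdeal 𝒪) 𝒪] [CharZero 𝒪]
  {ρbar : ResidualGaloisRep (ResidueField 𝒪)}

/-- **a point of the ring of the BIG type `flat(Sg0) ∧ unip(Su)` which is off `St_±` at every prime of
`Sg0 ∖ Sg'` is a point of the ring of the SMALL type `flat(Sg') ∧ unip(Su')`** (`Su' ⊆ Su`): the image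
`A = D0.R ⧸ ker x₀` of the point is a complete noetherian local domain with residue field `k`, the push-forward
of the universal representation to `A` is unramified at the extra primes by `s59u_sp_unr_of_RP`, hence of the
small type; the universal property of `Ds` gives `x : Ds.R → A`, with the same traces, and unramified at
every `σ` at which `x₀` is. -/
theorem s59u_sp_pt_small_core (p : ℕ) [hpF : Fact p.Prime]
    (Sg0 Su Sg' Su' : Finset ℕ) (hSu : Su' ⊆ Su)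
    (D0 : GaloisRep.DeformationRingData 𝒪 ρbar (fun _A _ _ _ ρ =>
      GaloisRep.flatCondition 𝒪 p Sg0 ρ ∧
        ∀ q ∈ Su, q.Prime → q ≠ p → ρ.IsUnipotentOnInertiaAt q))
    (Ds : GaloisRep.DeformationRingData 𝒪 ρbar (fun _A _ _ _ ρ =>
      GaloisRep.flatCondition 𝒪 p Sg' ρ ∧
        ∀ q ∈ Su', q.Prime → q ≠ p → ρ.IsUnipotentOnInertiaAt q))
    (𝒪₀ : Type) [CommRing 𝒪₀] [IsDomain 𝒪₀] (x₀ : D0.R →+* 𝒪₀)
    (hx₀inj : Function.Injective (x₀.comp (algebraMap 𝒪 D0.R)))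
    (hx₀unr : ∀ q : ℕ, q.Prime → q ∈ Sg0 → q ∉ Sg' →
      ∀ P : ValuationSubring Qbar, P.LiesOverPrime q → ∀ τ ∈ P.inertiaSubgroupIn ℚ,
        ∀ (f : Module.Dual D0.R D0.ρ.V) (v : D0.ρ.V), x₀ (f (D0.ρ.ρ τ v - v)) = 0) :
    ∃ (A : Type) (_ : CommRing A) (_ : IsDomain A) (_ : IsLocalRing A) (_ : IsNoetherianRing A)
      (_ : IsAdicComplete (maximalIdeal A) A) (x : Ds.R →+* A) (ι : A →+* 𝒪₀),
      Function.Injective ι ∧
      (∀ a ∈ maximalIdeal Ds.R, x a ∈ maximalIdeal A) ∧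
      Function.Injective (x.comp (algebraMap 𝒪 Ds.R)) ∧
      (∀ g : Γℚ, ι (x (s59i_cpTr Ds.ρ g)) = x₀ (s59i_cpTr D0.ρ g)) ∧
      ∀ σ : Γℚ, (∀ (f : Module.Dual D0.R D0.ρ.V) (v : D0.ρ.V), x₀ (f (D0.ρ.ρ σ v - v)) = 0) →
        ∀ (f : Module.Dual Ds.R Ds.ρ.V) (v : Ds.ρ.V), x (f (Ds.ρ.ρ σ v - v)) = 0 := by
  classical
  have hpP : p.Prime := hpF.out
  -- the image of the point
  set I : Ideal D0.R := RingHom.ker x₀ with hI
  haveI hIprime : I.IsPrime := RingHom.ker_isPrime x₀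
  haveI : IsLocalRing (D0.R ⧸ I) := s59l_quot_isLocalRing I hIprime.ne_top
  haveI : IsAdicComplete (maximalIdeal (D0.R ⧸ I)) (D0.R ⧸ I) := s59l_quot_complete I
  let π : D0.R →ₐ[𝒪] D0.R ⧸ I := Ideal.Quotient.mkₐ 𝒪 I
  have hπs : Function.Surjective π := Ideal.Quotient.mkₐ_surjective 𝒪 I
  have hπl : IsLocalHom (π : D0.R →+* D0.R ⧸ I) :=
    IsLocalHom.of_surjective (π : D0.R →+* D0.R ⧸ I) hπs
  let ι : D0.R ⧸ I →+* 𝒪₀ := RingHom.kerLift x₀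
  have hι : Function.Injective ι := RingHom.kerLift_injective x₀
  have hιπ : ∀ a, ι (π a) = x₀ a := fun a => RingHom.kerLift_mk x₀ a
  haveI hOl : IsLocalHom (algebraMap 𝒪 (D0.R ⧸ I)) := s59b_isLocalHom_algebraMap_of_algHom π hπl
  have hAres : Function.Surjective (residue (D0.R ⧸ I) ∘ algebraMap 𝒪 (D0.R ⧸ I)) := by
    intro y
    obtain ⟨a', rfl⟩ := residue_surjective y
    obtain ⟨a, rfl⟩ := hπs a'
    obtain ⟨c, hc⟩ := D0.residue_surjective (residue D0.R a)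
    refine ⟨c, ?_⟩
    haveI := hπl
    have h1 : residue (D0.R ⧸ I) ((π : D0.R →+* D0.R ⧸ I) (algebraMap 𝒪 D0.R c)) =
        residue (D0.R ⧸ I) ((π : D0.R →+* D0.R ⧸ I) a) := by
      rw [← ResidueField.map_residue, ← ResidueField.map_residue]
      exact congrArg _ hc
    have h2 : (π : D0.R →+* D0.R ⧸ I) (algebraMap 𝒪 D0.R c) = algebraMap 𝒪 (D0.R ⧸ I) c :=
      π.commutes c
    rw [h2] at h1
    exact h1
  -- natural numbers do not vanish in `𝒪₀`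
  have hnat : ∀ n : ℕ, n ≠ 0 → ((n : ℕ) : 𝒪₀) ≠ 0 := by
    intro n hn h0
    have h1 : (x₀.comp (algebraMap 𝒪 D0.R)) ((n : ℕ) : 𝒪) = (x₀.comp (algebraMap 𝒪 D0.R)) 0 := by
      rw [map_natCast, map_zero]; exact h0
    have h2 := hx₀inj h1
    exact hn (by exact_mod_cast h2)
  -- the push-forward
  set ρA := D0.ρ.baseChangeAlong (π : D0.R →+* D0.R ⧸ I) hπl with hρA
  have hdetA : ρA.DetIsCyclotomic p := s59e_bc_detCyc _ hπl D0.ρ p D0.isOfType.1.1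
  have hflatA : ρA.IsFlatAt p := s59e_bc_flat_surj _ hπl D0.ρ hπs p D0.isOfType.1.2.1
  have hresA : ρA.residual.IsEquiv
      (ρbar.baseChangeAlong (ResidueField.map (algebraMap 𝒪 (D0.R ⧸ I)))) :=
    s59u_sp_residual_of_algHom π hπl D0.ρ ρbar D0.residual_isEquiv
  have htype : GaloisRep.flatCondition 𝒪 p Sg' ρA ∧
      ∀ q ∈ Su', q.Prime → q ≠ p → ρA.IsUnipotentOnInertiaAt q := by
    refine ⟨⟨hdetA, hflatA, fun q hq hqS => ?_⟩, fun q hqS hq hqp =>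
      s59e_bc_unip _ hπl D0.ρ q (D0.isOfType.2 q (hSu hqS) hq hqp)⟩
    by_cases hq0 : q ∈ Sg0
    · intro P hP τ hτ
      obtain bR : Module.Basis (Fin 2) D0.R D0.ρ.V :=
        Module.finBasisOfFinrankEq D0.R D0.ρ.V D0.ρ.finrank_eq
      obtain ⟨b₁, hb₁⟩ := exists_basis_baseChangeAlong D0.ρ bR (π : D0.R →+* D0.R ⧸ I) hπl
      refine s59u_eq_one_of_matOf ρA b₁ τ ?_
      rw [hb₁ τ]
      ext i j
      have h1 : x₀ ((matOf D0.ρ bR τ - 1) i j) = 0 := by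
        rw [s59f_matOf_sub_one_apply]
        exact hx₀unr q hq hq0 hqS P hP τ hτ (bR.coord i) (bR j)
      have h2 : π ((matOf D0.ρ bR τ - 1) i j) = 0 := by
        apply hι
        rw [hιπ, h1, map_zero]
      rw [Matrix.sub_apply, map_sub] at h2
      rw [Matrix.map_apply, RingHom.coe_coe, sub_eq_zero.mp h2, Matrix.one_apply, Matrix.one_apply]
      split_ifs
      · exact map_one π
      · exact map_zero π
    · exact s59e_bc_unram _ hπl D0.ρ q (D0.isOfType.1.2.2 q hq hq0)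
  -- the universal property of `Ds`
  obtain ⟨φs, ⟨hφsl, eφ⟩, -⟩ := Ds.universal (D0.R ⧸ I) hAres ρA htype hresA
  refine ⟨D0.R ⧸ I, inferInstance, inferInstance, inferInstance, inferInstance, inferInstance,
    (φs : Ds.R →+* D0.R ⧸ I), ι, hι, ?_, ?_, ?_, ?_⟩
  · intro a ha
    haveI := hφsl
    exact map_nonunit (φs : Ds.R →+* D0.R ⧸ I) a ha
  · intro a b hab
    apply hx₀inj
    rw [RingHom.comp_apply, RingHom.comp_apply] at hab ⊢
    have h1 : ∀ c : 𝒪, (φs : Ds.R →+* D0.R ⧸ I) (algebraMap 𝒪 Ds.R c) = π (algebraMap 𝒪 D0.R c) := by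
      intro c
      rw [π.commutes]
      exact φs.commutes c
    rw [h1, h1] at hab
    rw [← hιπ, ← hιπ, hab]
  · intro g
    have h1 : (φs : Ds.R →+* D0.R ⧸ I) (s59i_cpTr Ds.ρ g) = s59i_cpTr ρA g := by
      rw [← s59e_cpTr_map (φs : Ds.R →+* D0.R ⧸ I) hφsl Ds.ρ g]
      unfold s59i_cpTr
      rw [s59e_charpoly_of_isEquiv eφ g]
    rw [h1, hρA, s59e_cpTr_map]
    exact hιπ _
  · intro σ hσ f v
    obtain bR : Module.Basis (Fin 2) D0.R D0.ρ.V :=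
      Module.finBasisOfFinrankEq D0.R D0.ρ.V D0.ρ.finrank_eq
    obtain bS : Module.Basis (Fin 2) Ds.R Ds.ρ.V :=
      Module.finBasisOfFinrankEq Ds.R Ds.ρ.V Ds.ρ.finrank_eq
    obtain ⟨b₁, hb₁⟩ := exists_basis_baseChangeAlong D0.ρ bR (π : D0.R →+* D0.R ⧸ I) hπl
    -- `ρA(σ) = 1`
    have hA1 : ρA.ρ σ = 1 := by
      refine s59u_eq_one_of_matOf ρA b₁ σ ?_
      rw [hb₁ σ]
      ext i j
      have h1 : x₀ ((matOf D0.ρ bR σ - 1) i j) = 0 := by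
        rw [s59f_matOf_sub_one_apply]
        exact hσ (bR.coord i) (bR j)
      have h2 : π ((matOf D0.ρ bR σ - 1) i j) = 0 := by
        apply hι
        rw [hιπ, h1, map_zero]
      rw [Matrix.sub_apply, map_sub] at h2
      rw [Matrix.map_apply, RingHom.coe_coe, sub_eq_zero.mp h2, Matrix.one_apply, Matrix.one_apply]
      split_ifs
      · exact map_one π
      · exact map_zero π
    obtain ⟨b₂, hb₂⟩ := exists_basis_baseChangeAlong Ds.ρ bS (φs : Ds.R →+* D0.R ⧸ I) hφsl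
    obtain ⟨b₃, hb₃⟩ := exists_basis_of_isEquiv eφ b₂
    have h3 : (matOf Ds.ρ bS σ).map (φs : Ds.R →+* D0.R ⧸ I) = 1 := by
      rw [← hb₂ σ, ← hb₃ σ, matOf_apply, hA1]
      exact LinearMap.toMatrix_one b₃
    refine s59f_dual_kill Ds.ρ bS (φs : Ds.R →+* D0.R ⧸ I) σ (fun i j => ?_) f v
    have h4 := congrFun (congrFun h3 i) j
    rw [Matrix.map_apply] at h4
    rw [Matrix.sub_apply, map_sub, h4, Matrix.one_apply, Matrix.one_apply]
    split_ifs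
    · rw [map_one, sub_self]
    · rw [map_zero, sub_self]


/-- **a point off `St_±` at `q` kills the ramification at `q`** (`q ≠ p`, `ρ̄` unramified at `q`, the universal
representation unipotent on inertia at `q`): [RP] at ONE Frobenius element ⟹ `x₀ (f (ρ(τ) v − v)) = 0` for
every inertia element `τ` at every place over `q`. -/
theorem s59u_sp_pt_kill_of_RP (p : ℕ) [hpF : Fact p.Prime]
    {𝒟₀ : ∀ ⦃A : Type⦄ [CommRing A] [IsLocalRing A] [Algebra 𝒪 A], GaloisRepAdic A → Prop}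
    (D0 : GaloisRep.DeformationRingData 𝒪 ρbar 𝒟₀) (hdet : D0.ρ.DetIsCyclotomic p)
    (𝒪₀ : Type) [CommRing 𝒪₀] [IsDomain 𝒪₀] (x₀ : D0.R →+* 𝒪₀)
    (hx₀inj : Function.Injective (x₀.comp (algebraMap 𝒪 D0.R)))
    (q : ℕ) (hq : q.Prime) (hqp : q ≠ p) (hqU : ρbar.IsUnramifiedAt q)
    (hunip : D0.ρ.IsUnipotentOnInertiaAt q)
    (P : ValuationSubring Qbar) (φ : Γℚ) (hP : P.LiesOverPrime q) (hφ : P.IsFrobeniusAt φ q)
    (hRP : x₀ (s59i_cpTr D0.ρ φ) * x₀ (s59i_cpTr D0.ρ φ) ≠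
      (((q : ℕ) : 𝒪₀) + 1) * (((q : ℕ) : 𝒪₀) + 1))
    (P' : ValuationSubring Qbar) (hP' : P'.LiesOverPrime q) (τ : Γℚ)
    (hτ : τ ∈ P'.inertiaSubgroupIn ℚ) (f : Module.Dual D0.R D0.ρ.V) (v : D0.ρ.V) :
    x₀ (f (D0.ρ.ρ τ v - v)) = 0 := by
  classical
  have hpP : p.Prime := hpF.out
  set I : Ideal D0.R := RingHom.ker x₀ with hI
  haveI hIprime : I.IsPrime := RingHom.ker_isPrime x₀
  haveI : IsLocalRing (D0.R ⧸ I) := s59l_quot_isLocalRing I hIprime.ne_top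
  let π : D0.R →ₐ[𝒪] D0.R ⧸ I := Ideal.Quotient.mkₐ 𝒪 I
  have hπs : Function.Surjective π := Ideal.Quotient.mkₐ_surjective 𝒪 I
  have hπl : IsLocalHom (π : D0.R →+* D0.R ⧸ I) :=
    IsLocalHom.of_surjective (π : D0.R →+* D0.R ⧸ I) hπs
  let ι : D0.R ⧸ I →+* 𝒪₀ := RingHom.kerLift x₀
  have hι : Function.Injective ι := RingHom.kerLift_injective x₀
  have hιπ : ∀ a, ι (π a) = x₀ a := fun a => RingHom.kerLift_mk x₀ a
  have hnat : ∀ n : ℕ, n ≠ 0 → ((n : ℕ) : 𝒪₀) ≠ 0 := by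
    intro n hn h0
    have h1 : (x₀.comp (algebraMap 𝒪 D0.R)) ((n : ℕ) : 𝒪) = (x₀.comp (algebraMap 𝒪 D0.R)) 0 := by
      rw [map_natCast, map_zero]; exact h0
    have h2 := hx₀inj h1
    exact hn (by exact_mod_cast h2)
  set ρA := D0.ρ.baseChangeAlong (π : D0.R →+* D0.R ⧸ I) hπl with hρA
  have hdetA : ρA.DetIsCyclotomic p := s59e_bc_detCyc _ hπl D0.ρ p hdet
  have hAunr : ρA.IsUnramifiedAt q := by
    refine s59u_sp_unr_of_RP ρA hpP hq hqp hdetA.1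
      (s59b_bc_residual_unram _ hπl D0.ρ q (s59b_DQ_residual_unram D0 q hqU))
      (s59e_bc_unip _ hπl D0.ρ q hunip) P hP φ hφ ?_
    rw [s59e_det_frob ρA hdetA hq hqp P hP φ hφ]
    intro h0
    have h1 := congrArg ι h0
    have htr : ι (LinearMap.trace (D0.R ⧸ I) ρA.V (ρA.ρ φ)) = x₀ (s59i_cpTr D0.ρ φ) := by
      rw [← s59u_neg_coeff_one, ← hιπ]
      congr 1
      have := s59e_cpTr_map (π : D0.R →+* D0.R ⧸ I) hπl D0.ρ φ
      unfold s59i_cpTr at this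
      exact this
    rw [map_zero, map_mul, map_mul, map_sub, map_sub, map_mul, map_mul, map_pow, map_pow,
      map_add, map_one, map_natCast, htr] at h1
    have hq0' : ((q : ℕ) : 𝒪₀) ≠ 0 := hnat q hq.ne_zero
    have hq1 : (1 : 𝒪₀) - ((q : ℕ) : 𝒪₀) ≠ 0 := by
      intro h
      have h2 : ((q - 1 : ℕ) : 𝒪₀) = 0 := by
        rw [Nat.cast_sub hq.one_le, Nat.cast_one]
        linear_combination -h
      exact hnat (q - 1) (Nat.sub_ne_zero_of_lt hq.one_lt) h2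
    have h3 : (1 + ((q : ℕ) : 𝒪₀)) ^ 2 * ((q : ℕ) : 𝒪₀) -
        ((q : ℕ) : 𝒪₀) * x₀ (s59i_cpTr D0.ρ φ) ^ 2 ≠ 0 := by
      intro h
      apply hRP
      have h4 : ((q : ℕ) : 𝒪₀) * ((((q : ℕ) : 𝒪₀) + 1) * (((q : ℕ) : 𝒪₀) + 1) -
          x₀ (s59i_cpTr D0.ρ φ) * x₀ (s59i_cpTr D0.ρ φ)) = 0 := by
        linear_combination h
      rcases mul_eq_zero.mp h4 with h5 | h5
      · exact absurd h5 hq0'
      · exact (sub_eq_zero.mp h5).symm
    exact (mul_ne_zero (mul_ne_zero hq1 hq0') h3) h1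
  obtain bR : Module.Basis (Fin 2) D0.R D0.ρ.V :=
    Module.finBasisOfFinrankEq D0.R D0.ρ.V D0.ρ.finrank_eq
  obtain ⟨b₁, hb₁⟩ := exists_basis_baseChangeAlong D0.ρ bR (π : D0.R →+* D0.R ⧸ I) hπl
  refine s59f_dual_kill D0.ρ bR x₀ τ (fun i j => ?_) f v
  have h3 : (matOf D0.ρ bR τ).map (π : D0.R →+* D0.R ⧸ I) = 1 := by
    rw [← hb₁ τ, matOf_apply, hAunr P' hP' τ hτ]
    exact LinearMap.toMatrix_one b₁
  have h4 := congrFun (congrFun h3 i) j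
  rw [Matrix.map_apply] at h4
  rw [← hιπ, Matrix.sub_apply, map_sub, RingHom.coe_coe] at *
  rw [h4, Matrix.one_apply, Matrix.one_apply]
  split_ifs
  · rw [map_one, sub_self, map_zero]
  · rw [map_zero, sub_self, map_zero]

/-- **the same from the `T`-side** ((E5), helper1 #3924): if the point factors through a ring `R` carrying a
representation `ρR` with the traces of `D0.ρ` (Carayol) which is unramified at `q`, then the point kills the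
ramification at `q`. -/
theorem s59u_sp_pt_kill_of_T
    {𝒟₀ : ∀ ⦃A : Type⦄ [CommRing A] [IsLocalRing A] [Algebra 𝒪 A], GaloisRepAdic A → Prop}
    (D0 : GaloisRep.DeformationRingData 𝒪 ρbar 𝒟₀)
    {R : Type} [CommRing R] [IsLocalRing R] [Algebra 𝒪 R] [IsLocalHom (algebraMap 𝒪 R)]
    (hRres : Function.Surjective (residue R ∘ algebraMap 𝒪 R))
    (ν : D0.R →ₐ[𝒪] R) (ρR : GaloisRepAdic R)
    (hν : ∀ g, ν (s59i_cpTr D0.ρ g) = s59i_cpTr ρR g)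
    (hresR : ρR.residual.IsEquiv (ρbar.baseChangeAlong (ResidueField.map (algebraMap 𝒪 R))))
    {𝒪₀ : Type} [CommRing 𝒪₀] (x₀ : D0.R →+* 𝒪₀)
    (hker : RingHom.ker (ν : D0.R →+* R) ≤ RingHom.ker x₀)
    (q : ℕ) (hunr : ρR.IsUnramifiedAt q)
    (P' : ValuationSubring Qbar) (hP' : P'.LiesOverPrime q) (τ : Γℚ)
    (hτ : τ ∈ P'.inertiaSubgroupIn ℚ) (f : Module.Dual D0.R D0.ρ.V) (v : D0.ρ.V) :
    x₀ (f (D0.ρ.ρ τ v - v)) = 0 := by
  classical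
  have hνl : IsLocalHom (ν : D0.R →+* R) :=
    Fermat.Agent.Lib.Deform.isLocalHom_of_isTestAlgebra ⟨inferInstance, hRres⟩ ν
  have habsR : ρR.residual.IsAbsolutelyIrreducible := by
    obtain ⟨e⟩ := hresR
    exact s59b_absIrr_of_isEquiv _ _ ⟨e.symm⟩
      (s59u_absIrr_baseChangeAlong (ResidueField.map (algebraMap 𝒪 R)) ρbar D0.absIrr)
  have e : (D0.ρ.baseChangeAlong (ν : D0.R →+* R) hνl).IsEquiv ρR :=
    s59f_carayol _ _ (s59e_bc_absIrr _ hνl D0.ρ (s59b_DQ_residual_absIrr D0)) habsR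
      (fun g => by rw [s59e_cpTr_map]; exact hν g)
  obtain bR : Module.Basis (Fin 2) D0.R D0.ρ.V :=
    Module.finBasisOfFinrankEq D0.R D0.ρ.V D0.ρ.finrank_eq
  obtain ⟨b₁, hb₁⟩ := exists_basis_baseChangeAlong D0.ρ bR (ν : D0.R →+* R) hνl
  obtain ⟨b₂, hb₂⟩ := exists_basis_of_isEquiv e b₁
  refine s59f_dual_kill D0.ρ bR x₀ τ (fun i j => ?_) f v
  have h3 : (matOf D0.ρ bR τ).map (ν : D0.R →+* R) = 1 := by
    rw [← hb₁ τ, ← hb₂ τ, matOf_apply, hunr P' hP' τ hτ]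
    exact LinearMap.toMatrix_one b₂
  have h4 := congrFun (congrFun h3 i) j
  rw [Matrix.map_apply] at h4
  apply hker
  rw [RingHom.mem_ker, Matrix.sub_apply, map_sub, h4, Matrix.one_apply, Matrix.one_apply]
  split_ifs
  · rw [map_one, sub_self]
  · rw [map_zero, sub_self]

/-- **`s59u_sp_pt_small_core` with [RP] at the extra primes** (`Sg0 ∖ Sg' ⊆ Su`, `ρ̄` unramified there). -/
theorem s59u_sp_pt_small (p : ℕ) [hpF : Fact p.Prime]
    (Sg0 Su Sg' Su' : Finset ℕ) (hSu : Su' ⊆ Su)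
    (D0 : GaloisRep.DeformationRingData 𝒪 ρbar (fun _A _ _ _ ρ =>
      GaloisRep.flatCondition 𝒪 p Sg0 ρ ∧
        ∀ q ∈ Su, q.Prime → q ≠ p → ρ.IsUnipotentOnInertiaAt q))
    (Ds : GaloisRep.DeformationRingData 𝒪 ρbar (fun _A _ _ _ ρ =>
      GaloisRep.flatCondition 𝒪 p Sg' ρ ∧
        ∀ q ∈ Su', q.Prime → q ≠ p → ρ.IsUnipotentOnInertiaAt q))
    (𝒪₀ : Type) [CommRing 𝒪₀] [IsDomain 𝒪₀] (x₀ : D0.R →+* 𝒪₀)
    (hx₀inj : Function.Injective (x₀.comp (algebraMap 𝒪 D0.R)))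
    (hextra : ∀ q : ℕ, q.Prime → q ∈ Sg0 → q ∉ Sg' →
      q ≠ p ∧ q ∈ Su ∧ ρbar.IsUnramifiedAt q ∧
        ∃ (P : ValuationSubring Qbar) (φ : Γℚ), P.LiesOverPrime q ∧ P.IsFrobeniusAt φ q ∧
          x₀ (s59i_cpTr D0.ρ φ) * x₀ (s59i_cpTr D0.ρ φ) ≠
            (((q : ℕ) : 𝒪₀) + 1) * (((q : ℕ) : 𝒪₀) + 1)) :
    ∃ (A : Type) (_ : CommRing A) (_ : IsDomain A) (_ : IsLocalRing A) (_ : IsNoetherianRing A)
      (_ : IsAdicComplete (maximalIdeal A) A) (x : Ds.R →+* A) (ι : A →+* 𝒪₀),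
      Function.Injective ι ∧
      (∀ a ∈ maximalIdeal Ds.R, x a ∈ maximalIdeal A) ∧
      Function.Injective (x.comp (algebraMap 𝒪 Ds.R)) ∧
      (∀ g : Γℚ, ι (x (s59i_cpTr Ds.ρ g)) = x₀ (s59i_cpTr D0.ρ g)) ∧
      ∀ σ : Γℚ, (∀ (f : Module.Dual D0.R D0.ρ.V) (v : D0.ρ.V), x₀ (f (D0.ρ.ρ σ v - v)) = 0) →
        ∀ (f : Module.Dual Ds.R Ds.ρ.V) (v : Ds.ρ.V), x (f (Ds.ρ.ρ σ v - v)) = 0 :=
  s59u_sp_pt_small_core p Sg0 Su Sg' Su' hSu D0 Ds 𝒪₀ x₀ hx₀inj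
    (fun q hq hq0 hqS P' hP' τ hτ f v => by
      obtain ⟨hqp, hqSu, hqU, P, φ, hP, hφ, hRP⟩ := hextra q hq hq0 hqS
      exact s59u_sp_pt_kill_of_RP p D0 D0.isOfType.1.1 𝒪₀ x₀ hx₀inj q hq hqp hqU
        (D0.isOfType.2 q hqSu hq hqp) P φ hP hφ hRP P' hP' τ hτ f v)

end Convert

section LGC

open Module CuspForm ExtCitation Fermat.Agent.Lib.S56 Fermat.Agent.Lib.S44

/-- **the `R`-side of [LGC-new 2]**: let `x₀` be a point of the ring `D0.R` of the BIG type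
`flat(Sg0) ∧ unip(Su)`, killing the ramification at every prime of `Sg0` outside `Σ_min ∪ {s}`
(`s59u_sp_pt_kill_of_RP`: [RP] there; or `s59u_sp_pt_kill_of_T`: (E5)).  Let `(Ds, Bss, HLs)` be a
`T`-side of the SMALL type `Σ_min ∪ {s}` (no raising, `k = 0`) whose base module carries an `s`-old point
`xs₀`, and suppose that NO point of its Hecke ring `Bss.R 0` has the traces of `x₀` (`hno`: for the module
`Y^{s'}` of the sign OPPOSITE to that of `x₀` this is [S35±] + [RP-s]).  Then `x₀` is RAMIFIED at `s`. -/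
theorem s59u_sp_ram_of_lgc (p : ℕ) [hpF : Fact p.Prime] (hp35 : p = 3 ∨ p = 5)
    (W : WeierstrassCurve ℤ) (hΔ : W.Δ ≠ 0) (hss : W.IsSemistableModel)
    (hirr : W.ModRepIsIrreducible p)
    (𝒪 : Type) [CommRing 𝒪] [IsDomain 𝒪] [IsDiscreteValuationRing 𝒪]
    [IsAdicComplete (maximalIdeal 𝒪) 𝒪] [Finite (ResidueField 𝒪)] [CharZero 𝒪]
    [Algebra ℤ_[p] 𝒪] [Module.Finite ℤ_[p] 𝒪]
    (hp𝒪 : ((p : ℕ) : 𝒪) ∈ maximalIdeal 𝒪)
    (hsplitℤ : ∀ a b : ℤ, ∃ α β : ResidueField 𝒪,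
      α + β = (a : ResidueField 𝒪) ∧ α * β = (b : ResidueField 𝒪))
    (B : Finset ℕ) (hpB : p ∈ B) (hB2Δ : ∀ r : ℕ, r.Prime → (r : ℤ) ∣ W.Δ → r ∈ B)
    -- the spectator
    (s : Nat.Primes) (hsp : (s : ℕ) ≠ p) (hsB : (s : ℕ) ∈ B) (hsns : ¬ p ∣ (s : ℕ) - 1)
    (hsU : (s59q_WRhobar W hΔ hp𝒪).IsUnramifiedAt s)
    (εs : 𝒪) (hεs : εs = 1 ∨ εs = -1)
    (φs : Γℚ) (hφs : (primeLocalPlace s).IsFrobeniusAt φs s)
    (hscp : LinearMap.charpoly ((s59q_WRhobar W hΔ hp𝒪).ρ φs) =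
      (Polynomial.X - Polynomial.C (residue 𝒪 (εs * (((s : ℕ) : ℕ) : 𝒪)))) *
        (Polynomial.X - Polynomial.C (residue 𝒪 εs)))
    (σs : Γℚ) (hσs : s59q_IsTameGen s (primeLocalPlace s) σs)
    -- the `T`-side of the SMALL type (no raising: `k = 0`)
    (Ds : GaloisRep.DeformationRingData 𝒪 (s59i_rhobarW W p hΔ 𝒪 hp𝒪) (fun _A _ _ _ ρ =>
      GaloisRep.flatCondition 𝒪 p (s59q_WSmin W hΔ hp𝒪 ∪ ((∅ : Finset ℕ) ∪ {(s : ℕ)})) ρ ∧
        ∀ q ∈ s59q_WSmin W hΔ hp𝒪 ∪ ((∅ : Finset ℕ) ∪ {(s : ℕ)}), q.Prime → q ≠ p →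
          ρ.IsUnipotentOnInertiaAt q))
    (Bss : s59f_TBaseF 𝒪 0 Ds)
    (HLs : ∀ r : ℕ, 1 ≤ r → ∀ (n : ℕ) (qv : Fin r → ℕ), Function.Injective qv →
      (∀ i, (qv i).Prime ∧ qv i ∉ B ∧ p ^ (n + 1) ∣ qv i - 1) →
      (∀ i, ∀ A : ValuationSubring (AlgebraicClosure ℚ), A.LiesOverPrime (qv i) →
        ∀ φ : Γℚ, A.IsFrobeniusAt φ (qv i) →
          ∃ α β : ResidueField 𝒪, α ≠ β ∧
            LinearMap.charpoly ((s59i_rhobarW W p hΔ 𝒪 hp𝒪).ρ φ) =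
              (Polynomial.X - Polynomial.C α) * (Polynomial.X - Polynomial.C β)) →
      ∀ DQ : GaloisRep.DeformationRingData 𝒪 (s59i_rhobarW W p hΔ 𝒪 hp𝒪) (fun _A _ _ _ ρ =>
        GaloisRep.flatCondition 𝒪 p
            (s59q_WSmin W hΔ hp𝒪 ∪ ((∅ : Finset ℕ) ∪ {(s : ℕ)}) ∪ Finset.univ.image qv) ρ ∧
          ∀ q ∈ s59q_WSmin W hΔ hp𝒪 ∪ ((∅ : Finset ℕ) ∪ {(s : ℕ)}), q.Prime → q ≠ p →
            ρ.IsUnipotentOnInertiaAt q),
        Nonempty (s59f_TLevelF 𝒪 p n r (s59q_ZIdx 0 1) 0 Bss qv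
          (fun _ => (s : ℕ)) (fun _ => φs) (fun _ => σs) DQ))
    -- its `s`-old point (off `St_±`)
    (𝒪s : Type) [CommRing 𝒪s] [IsDomain 𝒪s] (xs₀ : Ds.R →+* 𝒪s)
    (hxs₀M : ∀ a : Ds.R, (∀ mm : Bss.M 0, Bss.ν 0 a • mm = 0) → xs₀ a = 0)
    (hxs₀δ : xs₀ (s59i_cpTr Ds.ρ φs) * xs₀ (s59i_cpTr Ds.ρ φs) ≠
      ((((s : ℕ) : ℕ) : 𝒪s) + 1) * ((((s : ℕ) : ℕ) : 𝒪s) + 1))
    -- the ring of the BIG type and its point
    (Sg0 Su : Finset ℕ)
    (hSuS : s59q_WSmin W hΔ hp𝒪 ∪ ((∅ : Finset ℕ) ∪ {(s : ℕ)}) ⊆ Su)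
    (D0 : GaloisRep.DeformationRingData 𝒪 (s59i_rhobarW W p hΔ 𝒪 hp𝒪) (fun _A _ _ _ ρ =>
      GaloisRep.flatCondition 𝒪 p Sg0 ρ ∧
        ∀ q ∈ Su, q.Prime → q ≠ p → ρ.IsUnipotentOnInertiaAt q))
    (𝒪₀ : Type) [CommRing 𝒪₀] [IsDomain 𝒪₀] (x₀ : D0.R →+* 𝒪₀)
    (hx₀inj : Function.Injective (x₀.comp (algebraMap 𝒪 D0.R)))
    (hx₀unr : ∀ q : ℕ, q.Prime → q ∈ Sg0 →
      q ∉ s59q_WSmin W hΔ hp𝒪 ∪ ((∅ : Finset ℕ) ∪ {(s : ℕ)}) →
      ∀ P : ValuationSubring Qbar, P.LiesOverPrime q → ∀ τ ∈ P.inertiaSubgroupIn ℚ,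
        ∀ (f : Module.Dual D0.R D0.ρ.V) (v : D0.ρ.V), x₀ (f (D0.ρ.ρ τ v - v)) = 0)
    -- the `T`-side contradiction: the eigensystem of `x₀` does not occur in `Bss.R 0`
    (hno : ∀ y : Bss.R 0 →+* 𝒪₀,
      (∀ g : Γℚ, y (s59i_cpTr (Bss.ρR 0) g) = x₀ (s59i_cpTr D0.ρ g)) → False) :
    ∃ (f : Module.Dual D0.R D0.ρ.V) (v : D0.ρ.V), x₀ (f (D0.ρ.ρ σs v - v)) ≠ 0 := by
  classical
  by_contra hcon
  push Not at hcon
  obtain ⟨A, _, _, _, _, _, x, ι, hι, hxl, hxinj, hxtr, hxunr⟩ :=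
    s59u_sp_pt_small_core p Sg0 Su (s59q_WSmin W hΔ hp𝒪 ∪ ((∅ : Finset ℕ) ∪ {(s : ℕ)}))
      (s59q_WSmin W hΔ hp𝒪 ∪ ((∅ : Finset ℕ) ∪ {(s : ℕ)})) hSuS D0 Ds 𝒪₀ x₀ hx₀inj hx₀unr
  have hker := s59u_sp_unr_pt p hp35 W hΔ hss hirr 𝒪 hp𝒪 hsplitℤ B hpB hB2Δ s hsp hsB hsns hsU εs hεs
    φs hφs hscp σs hσs Ds Bss HLs 𝒪s xs₀ hxs₀M hxs₀δ A x hxl hxinj (hxunr σs hcon)
  -- `x` factors through `Bss.R 0`
  let y' : Bss.R 0 →+* A :=
    RingHom.liftOfSurjective (Bss.ν 0 : Ds.R →+* Bss.R 0) (Bss.hνs 0) ⟨x, hker⟩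
  have hy' : ∀ a : Ds.R, y' (Bss.ν 0 a) = x a := fun a =>
    RingHom.liftOfRightInverse_comp_apply _ _ _ ⟨x, hker⟩ a
  refine hno (ι.comp y') (fun g => ?_)
  rw [RingHom.comp_apply, ← Bss.hν 0 g, hy', hxtr]


/-- **`s59u_sp_ram_of_lgc` with [RP] at the extra primes.** -/
theorem s59u_sp_ram_of_lgc_RP (p : ℕ) [hpF : Fact p.Prime] (hp35 : p = 3 ∨ p = 5)
    (W : WeierstrassCurve ℤ) (hΔ : W.Δ ≠ 0) (hss : W.IsSemistableModel)
    (hirr : W.ModRepIsIrreducible p)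
    (𝒪 : Type) [CommRing 𝒪] [IsDomain 𝒪] [IsDiscreteValuationRing 𝒪]
    [IsAdicComplete (maximalIdeal 𝒪) 𝒪] [Finite (ResidueField 𝒪)] [CharZero 𝒪]
    [Algebra ℤ_[p] 𝒪] [Module.Finite ℤ_[p] 𝒪]
    (hp𝒪 : ((p : ℕ) : 𝒪) ∈ maximalIdeal 𝒪)
    (hsplitℤ : ∀ a b : ℤ, ∃ α β : ResidueField 𝒪,
      α + β = (a : ResidueField 𝒪) ∧ α * β = (b : ResidueField 𝒪))
    (B : Finset ℕ) (hpB : p ∈ B) (hB2Δ : ∀ r : ℕ, r.Prime → (r : ℤ) ∣ W.Δ → r ∈ B)
    -- the spectator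
    (s : Nat.Primes) (hsp : (s : ℕ) ≠ p) (hsB : (s : ℕ) ∈ B) (hsns : ¬ p ∣ (s : ℕ) - 1)
    (hsU : (s59q_WRhobar W hΔ hp𝒪).IsUnramifiedAt s)
    (εs : 𝒪) (hεs : εs = 1 ∨ εs = -1)
    (φs : Γℚ) (hφs : (primeLocalPlace s).IsFrobeniusAt φs s)
    (hscp : LinearMap.charpoly ((s59q_WRhobar W hΔ hp𝒪).ρ φs) =
      (Polynomial.X - Polynomial.C (residue 𝒪 (εs * (((s : ℕ) : ℕ) : 𝒪)))) *
        (Polynomial.X - Polynomial.C (residue 𝒪 εs)))
    (σs : Γℚ) (hσs : s59q_IsTameGen s (primeLocalPlace s) σs)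
    -- the `T`-side of the SMALL type (no raising: `k = 0`)
    (Ds : GaloisRep.DeformationRingData 𝒪 (s59i_rhobarW W p hΔ 𝒪 hp𝒪) (fun _A _ _ _ ρ =>
      GaloisRep.flatCondition 𝒪 p (s59q_WSmin W hΔ hp𝒪 ∪ ((∅ : Finset ℕ) ∪ {(s : ℕ)})) ρ ∧
        ∀ q ∈ s59q_WSmin W hΔ hp𝒪 ∪ ((∅ : Finset ℕ) ∪ {(s : ℕ)}), q.Prime → q ≠ p →
          ρ.IsUnipotentOnInertiaAt q))
    (Bss : s59f_TBaseF 𝒪 0 Ds)
    (HLs : ∀ r : ℕ, 1 ≤ r → ∀ (n : ℕ) (qv : Fin r → ℕ), Function.Injective qv →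
      (∀ i, (qv i).Prime ∧ qv i ∉ B ∧ p ^ (n + 1) ∣ qv i - 1) →
      (∀ i, ∀ A : ValuationSubring (AlgebraicClosure ℚ), A.LiesOverPrime (qv i) →
        ∀ φ : Γℚ, A.IsFrobeniusAt φ (qv i) →
          ∃ α β : ResidueField 𝒪, α ≠ β ∧
            LinearMap.charpoly ((s59i_rhobarW W p hΔ 𝒪 hp𝒪).ρ φ) =
              (Polynomial.X - Polynomial.C α) * (Polynomial.X - Polynomial.C β)) →
      ∀ DQ : GaloisRep.DeformationRingData 𝒪 (s59i_rhobarW W p hΔ 𝒪 hp𝒪) (fun _A _ _ _ ρ =>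
        GaloisRep.flatCondition 𝒪 p
            (s59q_WSmin W hΔ hp𝒪 ∪ ((∅ : Finset ℕ) ∪ {(s : ℕ)}) ∪ Finset.univ.image qv) ρ ∧
          ∀ q ∈ s59q_WSmin W hΔ hp𝒪 ∪ ((∅ : Finset ℕ) ∪ {(s : ℕ)}), q.Prime → q ≠ p →
            ρ.IsUnipotentOnInertiaAt q),
        Nonempty (s59f_TLevelF 𝒪 p n r (s59q_ZIdx 0 1) 0 Bss qv
          (fun _ => (s : ℕ)) (fun _ => φs) (fun _ => σs) DQ))
    -- its `s`-old point (off `St_±`)
    (𝒪s : Type) [CommRing 𝒪s] [IsDomain 𝒪s] (xs₀ : Ds.R →+* 𝒪s)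
    (hxs₀M : ∀ a : Ds.R, (∀ mm : Bss.M 0, Bss.ν 0 a • mm = 0) → xs₀ a = 0)
    (hxs₀δ : xs₀ (s59i_cpTr Ds.ρ φs) * xs₀ (s59i_cpTr Ds.ρ φs) ≠
      ((((s : ℕ) : ℕ) : 𝒪s) + 1) * ((((s : ℕ) : ℕ) : 𝒪s) + 1))
    -- the ring of the BIG type and its point
    (Sg0 Su : Finset ℕ)
    (hSuS : s59q_WSmin W hΔ hp𝒪 ∪ ((∅ : Finset ℕ) ∪ {(s : ℕ)}) ⊆ Su)
    (D0 : GaloisRep.DeformationRingData 𝒪 (s59i_rhobarW W p hΔ 𝒪 hp𝒪) (fun _A _ _ _ ρ =>
      GaloisRep.flatCondition 𝒪 p Sg0 ρ ∧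
        ∀ q ∈ Su, q.Prime → q ≠ p → ρ.IsUnipotentOnInertiaAt q))
    (𝒪₀ : Type) [CommRing 𝒪₀] [IsDomain 𝒪₀] (x₀ : D0.R →+* 𝒪₀)
    (hx₀inj : Function.Injective (x₀.comp (algebraMap 𝒪 D0.R)))
    (hextra : ∀ q : ℕ, q.Prime → q ∈ Sg0 →
      q ∉ s59q_WSmin W hΔ hp𝒪 ∪ ((∅ : Finset ℕ) ∪ {(s : ℕ)}) →
      q ≠ p ∧ q ∈ Su ∧ (s59i_rhobarW W p hΔ 𝒪 hp𝒪).IsUnramifiedAt q ∧
        ∃ (P : ValuationSubring Qbar) (φ : Γℚ), P.LiesOverPrime q ∧ P.IsFrobeniusAt φ q ∧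
          x₀ (s59i_cpTr D0.ρ φ) * x₀ (s59i_cpTr D0.ρ φ) ≠
            (((q : ℕ) : 𝒪₀) + 1) * (((q : ℕ) : 𝒪₀) + 1))
    -- the `T`-side contradiction: the eigensystem of `x₀` does not occur in `Bss.R 0`
    (hno : ∀ y : Bss.R 0 →+* 𝒪₀,
      (∀ g : Γℚ, y (s59i_cpTr (Bss.ρR 0) g) = x₀ (s59i_cpTr D0.ρ g)) → False) :
    ∃ (f : Module.Dual D0.R D0.ρ.V) (v : D0.ρ.V), x₀ (f (D0.ρ.ρ σs v - v)) ≠ 0 :=
  s59u_sp_ram_of_lgc p hp35 W hΔ hss hirr 𝒪 hp𝒪 hsplitℤ B hpB hB2Δ s hsp hsB hsns hsU εs hεs φs hφs hscp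
    σs hσs Ds Bss HLs 𝒪s xs₀ hxs₀M hxs₀δ Sg0 Su hSuS D0 𝒪₀ x₀ hx₀inj
    (fun q hq hq0 hqS P' hP' τ hτ f v => by
      obtain ⟨hqp, hqSu, hqU, P, φ, hP, hφ, hRP⟩ := hextra q hq hq0 hqS
      exact s59u_sp_pt_kill_of_RP p D0 D0.isOfType.1.1 𝒪₀ x₀ hx₀inj q hq hqp hqU
        (D0.isOfType.2 q hqSu hq hqp) P φ hP hφ hRP P' hP' τ hτ f v)
    hno

end LGC

end Fermat.Agent.Lib.S59
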