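/-
PROGRAMME (R2) = S59, [STRICT-p], (c2) / [LGC-new 2] (helper6, prefix `s59q_sp_`), part P: **POINTS OF A DEFORMATION RING OF A BIG STRICT-ORDINARY
TYPE WHICH ARE OFF `St_±` AT THE EXTRA PRIMES ARE POINTS OF THE RING OF THE SMALL TYPE; THE `R`-SIDE OF [LGC-new 2], STRICT TYPE** — scripted twin
of the type-dependent theorems of helper3's USpO.lean (the generic lemmas `s59u_sp_unr_of_RP`, `s59u_sp_residual_of_algHom`,
`s59u_sp_pt_kill_of_RP`, `s59u_sp_pt_kill_of_T` are used as they are).  Substitution: `flatCondition → strictOrdinaryCondition`,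
`s59e_bc_flat_surj → s59e_bc_strictOrd`, `s59u_sp_unr_pt → s59q_sp_unr_pt_ord` (QSSpO.lean).

* `s59q_sp_pt_small_core_ord`, `s59q_sp_pt_small_ord`, **`s59q_sp_ram_of_lgc_ord`**, `s59q_sp_ram_of_lgc_RP_ord`.
-/
import Mathlib
import Fermat.Agent.Lib.S59.USpO
import Fermat.Agent.Lib.S59.QSSpO
import Fermat.Agent.Lib.S59.EOrdBC

set_option autoImplicit false
set_option linter.unusedSectionVars false
set_option linter.unusedVariables false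
set_option linter.style.haveILetI false
set_option maxHeartbeats 1600000
set_option synthInstance.maxHeartbeats 400000

noncomputable section

namespace Fermat.Agent.Lib.S59

open IsLocalRing Polynomial TensorProduct
open Fermat.Agent.Lib.S53 (matOf matOf_apply exists_basis_baseChangeAlong exists_basis_of_isEquiv)
open Fermat.Agent.Lib.Mz

local notation "Qbar" => AlgebraicClosure ℚ
local notation "Γℚ" => (AlgebraicClosure ℚ ≃ₐ[ℚ] AlgebraicClosure ℚ)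

section Convert

variable {𝒪 : Type} [CommRing 𝒪] [IsDomain 𝒪] [IsDiscreteValuationRing 𝒪]
  [IsAdicComplete (maximalIdeal 𝒪) 𝒪] [CharZero 𝒪]
  {ρbar : ResidualGaloisRep (ResidueField 𝒪)}

/-- **STRICT-ORDINARY twin of helper3's `s59u_sp_pt_small_core`: a point of the ring of the BIG type `ord(Sg0) ∧ unip(Su)` which is off `St_±` at every prime of
`Sg0 ∖ Sg'` is a point of the ring of the SMALL type `flat(Sg') ∧ unip(Su')`** (`Su' ⊆ Su`): the image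
`A = D0.R ⧸ ker x₀` of the point is a complete noetherian local domain with residue field `k`, the push-forward
of the universal representation to `A` is unramified at the extra primes by `s59u_sp_unr_of_RP`, hence of the
small type; the universal property of `Ds` gives `x : Ds.R → A`, with the same traces, and unramified at
every `σ` at which `x₀` is. -/
theorem s59q_sp_pt_small_core_ord (p : ℕ) [hpF : Fact p.Prime]
    (Sg0 Su Sg' Su' : Finset ℕ) (hSu : Su' ⊆ Su)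
    (D0 : GaloisRep.DeformationRingData 𝒪 ρbar (fun _A _ _ _ ρ =>
      GaloisRep.strictOrdinaryCondition 𝒪 p Sg0 ρ ∧
        ∀ q ∈ Su, q.Prime → q ≠ p → ρ.IsUnipotentOnInertiaAt q))
    (Ds : GaloisRep.DeformationRingData 𝒪 ρbar (fun _A _ _ _ ρ =>
      GaloisRep.strictOrdinaryCondition 𝒪 p Sg' ρ ∧
        ∀ q ∈ Su', q.Prime → q ≠ p → ρ.IsUnipotentOnInertiaAt q))
    (𝒪₀ : Type) [CommRing 𝒪₀] [IsDomain 𝒪₀] (x₀ : D0.R →+* 𝒪₀)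
    (hx₀inj : Function.Injective (x₀.comp (algebraMap 𝒪 D0.R)))
    (hx₀unr : ∀ q : ℕ, q.Prime → q ∈ Sg0 → q ∉ Sg' →
      ∀ P : ValuationSubring Qbar, P.LiesOverPrime q → ∀ τ ∈ P.inertiaSubgroupIn ℚ,
        ∀ (f : Module.Dual D0.R D0.ρ.V) (v : D0.ρ.V), x₀ (f (D0.ρ.ρ τ v - v)) = 0) :
    ∃ (A : Type) (_ : CommRing A) (_ : IsDomain A) (_ : IsLocalRing A) (_ : IsNoetherianRing A)
      (_ : IsAdicComplete (maximalIdeal A) A) (x : Ds.R →+* A) (ι : A →+* 𝒪₀),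
      Function.Injective ι ∧
      (∀ a ∈ maximalIdeal Ds.R, x a ∈ maximalIdeal A) ∧
      Function.Injective (x.comp (algebraMap 𝒪 Ds.R)) ∧
      (∀ g : Γℚ, ι (x (s59i_cpTr Ds.ρ g)) = x₀ (s59i_cpTr D0.ρ g)) ∧
      ∀ σ : Γℚ, (∀ (f : Module.Dual D0.R D0.ρ.V) (v : D0.ρ.V), x₀ (f (D0.ρ.ρ σ v - v)) = 0) →
        ∀ (f : Module.Dual Ds.R Ds.ρ.V) (v : Ds.ρ.V), x (f (Ds.ρ.ρ σ v - v)) = 0 := by
  classical
  have hpP : p.Prime := hpF.out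
  -- the image of the point
  set I : Ideal D0.R := RingHom.ker x₀ with hI
  haveI hIprime : I.IsPrime := RingHom.ker_isPrime x₀
  haveI : IsLocalRing (D0.R ⧸ I) := s59l_quot_isLocalRing I hIprime.ne_top
  haveI : IsAdicComplete (maximalIdeal (D0.R ⧸ I)) (D0.R ⧸ I) := s59l_quot_complete I
  let π : D0.R →ₐ[𝒪] D0.R ⧸ I := Ideal.Quotient.mkₐ 𝒪 I
  have hπs : Function.Surjective π := Ideal.Quotient.mkₐ_surjective 𝒪 I
  have hπl : IsLocalHom (π : D0.R →+* D0.R ⧸ I) :=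
    IsLocalHom.of_surjective (π : D0.R →+* D0.R ⧸ I) hπs
  let ι : D0.R ⧸ I →+* 𝒪₀ := RingHom.kerLift x₀
  have hι : Function.Injective ι := RingHom.kerLift_injective x₀
  have hιπ : ∀ a, ι (π a) = x₀ a := fun a => RingHom.kerLift_mk x₀ a
  haveI hOl : IsLocalHom (algebraMap 𝒪 (D0.R ⧸ I)) := s59b_isLocalHom_algebraMap_of_algHom π hπl
  have hAres : Function.Surjective (residue (D0.R ⧸ I) ∘ algebraMap 𝒪 (D0.R ⧸ I)) := by
    intro y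
    obtain ⟨a', rfl⟩ := residue_surjective y
    obtain ⟨a, rfl⟩ := hπs a'
    obtain ⟨c, hc⟩ := D0.residue_surjective (residue D0.R a)
    refine ⟨c, ?_⟩
    haveI := hπl
    have h1 : residue (D0.R ⧸ I) ((π : D0.R →+* D0.R ⧸ I) (algebraMap 𝒪 D0.R c)) =
        residue (D0.R ⧸ I) ((π : D0.R →+* D0.R ⧸ I) a) := by
      rw [← ResidueField.map_residue, ← ResidueField.map_residue]
      exact congrArg _ hc
    have h2 : (π : D0.R →+* D0.R ⧸ I) (algebraMap 𝒪 D0.R c) = algebraMap 𝒪 (D0.R ⧸ I) c :=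
      π.commutes c
    rw [h2] at h1
    exact h1
  -- natural numbers do not vanish in `𝒪₀`
  have hnat : ∀ n : ℕ, n ≠ 0 → ((n : ℕ) : 𝒪₀) ≠ 0 := by
    intro n hn h0
    have h1 : (x₀.comp (algebraMap 𝒪 D0.R)) ((n : ℕ) : 𝒪) = (x₀.comp (algebraMap 𝒪 D0.R)) 0 := by
      rw [map_natCast, map_zero]; exact h0
    have h2 := hx₀inj h1
    exact hn (by exact_mod_cast h2)
  -- the push-forward
  set ρA := D0.ρ.baseChangeAlong (π : D0.R →+* D0.R ⧸ I) hπl with hρA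
  have hdetA : ρA.DetIsCyclotomic p := s59e_bc_detCyc _ hπl D0.ρ p D0.isOfType.1.1
  have hflatA : ρA.IsStrictOrdinaryAt p := s59e_bc_strictOrd _ hπl D0.ρ p D0.isOfType.1.2.1
  have hresA : ρA.residual.IsEquiv
      (ρbar.baseChangeAlong (ResidueField.map (algebraMap 𝒪 (D0.R ⧸ I)))) :=
    s59u_sp_residual_of_algHom π hπl D0.ρ ρbar D0.residual_isEquiv
  have htype : GaloisRep.strictOrdinaryCondition 𝒪 p Sg' ρA ∧
      ∀ q ∈ Su', q.Prime → q ≠ p → ρA.IsUnipotentOnInertiaAt q := by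
    refine ⟨⟨hdetA, hflatA, fun q hq hqS => ?_⟩, fun q hqS hq hqp =>
      s59e_bc_unip _ hπl D0.ρ q (D0.isOfType.2 q (hSu hqS) hq hqp)⟩
    by_cases hq0 : q ∈ Sg0
    · intro P hP τ hτ
      obtain bR : Module.Basis (Fin 2) D0.R D0.ρ.V :=
        Module.finBasisOfFinrankEq D0.R D0.ρ.V D0.ρ.finrank_eq
      obtain ⟨b₁, hb₁⟩ := exists_basis_baseChangeAlong D0.ρ bR (π : D0.R →+* D0.R ⧸ I) hπl
      refine s59u_eq_one_of_matOf ρA b₁ τ ?_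
      rw [hb₁ τ]
      ext i j
      have h1 : x₀ ((matOf D0.ρ bR τ - 1) i j) = 0 := by
        rw [s59f_matOf_sub_one_apply]
        exact hx₀unr q hq hq0 hqS P hP τ hτ (bR.coord i) (bR j)
      have h2 : π ((matOf D0.ρ bR τ - 1) i j) = 0 := by
        apply hι
        rw [hιπ, h1, map_zero]
      rw [Matrix.sub_apply, map_sub] at h2
      rw [Matrix.map_apply, RingHom.coe_coe, sub_eq_zero.mp h2, Matrix.one_apply, Matrix.one_apply]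
      split_ifs
      · exact map_one π
      · exact map_zero π
    · exact s59e_bc_unram _ hπl D0.ρ q (D0.isOfType.1.2.2 q hq hq0)
  -- the universal property of `Ds`
  obtain ⟨φs, ⟨hφsl, eφ⟩, -⟩ := Ds.universal (D0.R ⧸ I) hAres ρA htype hresA
  refine ⟨D0.R ⧸ I, inferInstance, inferInstance, inferInstance, inferInstance, inferInstance,
    (φs : Ds.R →+* D0.R ⧸ I), ι, hι, ?_, ?_, ?_, ?_⟩
  · intro a ha
    haveI := hφsl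
    exact map_nonunit (φs : Ds.R →+* D0.R ⧸ I) a ha
  · intro a b hab
    apply hx₀inj
    rw [RingHom.comp_apply, RingHom.comp_apply] at hab ⊢
    have h1 : ∀ c : 𝒪, (φs : Ds.R →+* D0.R ⧸ I) (algebraMap 𝒪 Ds.R c) = π (algebraMap 𝒪 D0.R c) := by
      intro c
      rw [π.commutes]
      exact φs.commutes c
    rw [h1, h1] at hab
    rw [← hιπ, ← hιπ, hab]
  · intro g
    have h1 : (φs : Ds.R →+* D0.R ⧸ I) (s59i_cpTr Ds.ρ g) = s59i_cpTr ρA g := by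
      rw [← s59e_cpTr_map (φs : Ds.R →+* D0.R ⧸ I) hφsl Ds.ρ g]
      unfold s59i_cpTr
      rw [s59e_charpoly_of_isEquiv eφ g]
    rw [h1, hρA, s59e_cpTr_map]
    exact hιπ _
  · intro σ hσ f v
    obtain bR : Module.Basis (Fin 2) D0.R D0.ρ.V :=
      Module.finBasisOfFinrankEq D0.R D0.ρ.V D0.ρ.finrank_eq
    obtain bS : Module.Basis (Fin 2) Ds.R Ds.ρ.V :=
      Module.finBasisOfFinrankEq Ds.R Ds.ρ.V Ds.ρ.finrank_eq
    obtain ⟨b₁, hb₁⟩ := exists_basis_baseChangeAlong D0.ρ bR (π : D0.R →+* D0.R ⧸ I) hπl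
    -- `ρA(σ) = 1`
    have hA1 : ρA.ρ σ = 1 := by
      refine s59u_eq_one_of_matOf ρA b₁ σ ?_
      rw [hb₁ σ]
      ext i j
      have h1 : x₀ ((matOf D0.ρ bR σ - 1) i j) = 0 := by
        rw [s59f_matOf_sub_one_apply]
        exact hσ (bR.coord i) (bR j)
      have h2 : π ((matOf D0.ρ bR σ - 1) i j) = 0 := by
        apply hι
        rw [hιπ, h1, map_zero]
      rw [Matrix.sub_apply, map_sub] at h2
      rw [Matrix.map_apply, RingHom.coe_coe, sub_eq_zero.mp h2, Matrix.one_apply, Matrix.one_apply]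
      split_ifs
      · exact map_one π
      · exact map_zero π
    obtain ⟨b₂, hb₂⟩ := exists_basis_baseChangeAlong Ds.ρ bS (φs : Ds.R →+* D0.R ⧸ I) hφsl
    obtain ⟨b₃, hb₃⟩ := exists_basis_of_isEquiv eφ b₂
    have h3 : (matOf Ds.ρ bS σ).map (φs : Ds.R →+* D0.R ⧸ I) = 1 := by
      rw [← hb₂ σ, ← hb₃ σ, matOf_apply, hA1]
      exact LinearMap.toMatrix_one b₃
    refine s59f_dual_kill Ds.ρ bS (φs : Ds.R →+* D0.R ⧸ I) σ (fun i j => ?_) f v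
    have h4 := congrFun (congrFun h3 i) j
    rw [Matrix.map_apply] at h4
    rw [Matrix.sub_apply, map_sub, h4, Matrix.one_apply, Matrix.one_apply]
    split_ifs
    · rw [map_one, sub_self]
    · rw [map_zero, sub_self]


/-- **`s59q_sp_pt_small_core_ord` with [RP] at the extra primes** (`Sg0 ∖ Sg' ⊆ Su`, `ρ̄` unramified there). -/
theorem s59q_sp_pt_small_ord (p : ℕ) [hpF : Fact p.Prime]
    (Sg0 Su Sg' Su' : Finset ℕ) (hSu : Su' ⊆ Su)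
    (D0 : GaloisRep.DeformationRingData 𝒪 ρbar (fun _A _ _ _ ρ =>
      GaloisRep.strictOrdinaryCondition 𝒪 p Sg0 ρ ∧
        ∀ q ∈ Su, q.Prime → q ≠ p → ρ.IsUnipotentOnInertiaAt q))
    (Ds : GaloisRep.DeformationRingData 𝒪 ρbar (fun _A _ _ _ ρ =>
      GaloisRep.strictOrdinaryCondition 𝒪 p Sg' ρ ∧
        ∀ q ∈ Su', q.Prime → q ≠ p → ρ.IsUnipotentOnInertiaAt q))
    (𝒪₀ : Type) [CommRing 𝒪₀] [IsDomain 𝒪₀] (x₀ : D0.R →+* 𝒪₀)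
    (hx₀inj : Function.Injective (x₀.comp (algebraMap 𝒪 D0.R)))
    (hextra : ∀ q : ℕ, q.Prime → q ∈ Sg0 → q ∉ Sg' →
      q ≠ p ∧ q ∈ Su ∧ ρbar.IsUnramifiedAt q ∧
        ∃ (P : ValuationSubring Qbar) (φ : Γℚ), P.LiesOverPrime q ∧ P.IsFrobeniusAt φ q ∧
          x₀ (s59i_cpTr D0.ρ φ) * x₀ (s59i_cpTr D0.ρ φ) ≠
            (((q : ℕ) : 𝒪₀) + 1) * (((q : ℕ) : 𝒪₀) + 1)) :
    ∃ (A : Type) (_ : CommRing A) (_ : IsDomain A) (_ : IsLocalRing A) (_ : IsNoetherianRing A)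
      (_ : IsAdicComplete (maximalIdeal A) A) (x : Ds.R →+* A) (ι : A →+* 𝒪₀),
      Function.Injective ι ∧
      (∀ a ∈ maximalIdeal Ds.R, x a ∈ maximalIdeal A) ∧
      Function.Injective (x.comp (algebraMap 𝒪 Ds.R)) ∧
      (∀ g : Γℚ, ι (x (s59i_cpTr Ds.ρ g)) = x₀ (s59i_cpTr D0.ρ g)) ∧
      ∀ σ : Γℚ, (∀ (f : Module.Dual D0.R D0.ρ.V) (v : D0.ρ.V), x₀ (f (D0.ρ.ρ σ v - v)) = 0) →
        ∀ (f : Module.Dual Ds.R Ds.ρ.V) (v : Ds.ρ.V), x (f (Ds.ρ.ρ σ v - v)) = 0 :=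
  s59q_sp_pt_small_core_ord p Sg0 Su Sg' Su' hSu D0 Ds 𝒪₀ x₀ hx₀inj
    (fun q hq hq0 hqS P' hP' τ hτ f v => by
      obtain ⟨hqp, hqSu, hqU, P, φ, hP, hφ, hRP⟩ := hextra q hq hq0 hqS
      exact s59u_sp_pt_kill_of_RP p D0 D0.isOfType.1.1 𝒪₀ x₀ hx₀inj q hq hqp hqU
        (D0.isOfType.2 q hqSu hq hqp) P φ hP hφ hRP P' hP' τ hτ f v)

end Convert

section LGC

open Module CuspForm ExtCitation Fermat.Agent.Lib.S56 Fermat.Agent.Lib.S44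

/-- **the `R`-side of [LGC-new 2], STRICT-ORDINARY type** (twin of helper3's `s59u_sp_ram_of_lgc`): let `x₀` be a point of the ring `D0.R` of the BIG type
`flat(Sg0) ∧ unip(Su)`, killing the ramification at every prime of `Sg0` outside `Σ_min ∪ {s}`
(`s59u_sp_pt_kill_of_RP`: [RP] there; or `s59u_sp_pt_kill_of_T`: (E5)).  Let `(Ds, Bss, HLs)` be a
`T`-side of the SMALL type `Σ_min ∪ {s}` (no raising, `k = 0`) whose base module carries an `s`-old point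
`xs₀`, and suppose that NO point of its Hecke ring `Bss.R 0` has the traces of `x₀` (`hno`: for the module
`Y^{s'}` of the sign OPPOSITE to that of `x₀` this is [S35±] + [RP-s]).  Then `x₀` is RAMIFIED at `s`. -/
theorem s59q_sp_ram_of_lgc_ord (p : ℕ) [hpF : Fact p.Prime] (hp35 : p = 3 ∨ p = 5)
    (W : WeierstrassCurve ℤ) (hΔ : W.Δ ≠ 0) (hss : W.IsSemistableModel)
    (hirr : W.ModRepIsIrreducible p)
    (𝒪 : Type) [CommRing 𝒪] [IsDomain 𝒪] [IsDiscreteValuationRing 𝒪]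
    [IsAdicComplete (maximalIdeal 𝒪) 𝒪] [Finite (ResidueField 𝒪)] [CharZero 𝒪]
    [Algebra ℤ_[p] 𝒪] [Module.Finite ℤ_[p] 𝒪]
    (hp𝒪 : ((p : ℕ) : 𝒪) ∈ maximalIdeal 𝒪)
    (hsplitℤ : ∀ a b : ℤ, ∃ α β : ResidueField 𝒪,
      α + β = (a : ResidueField 𝒪) ∧ α * β = (b : ResidueField 𝒪))
    (B : Finset ℕ) (hpB : p ∈ B) (hB2Δ : ∀ r : ℕ, r.Prime → (r : ℤ) ∣ W.Δ → r ∈ B)
    -- the spectator
    (s : Nat.Primes) (hsp : (s : ℕ) ≠ p) (hsB : (s : ℕ) ∈ B) (hsns : ¬ p ∣ (s : ℕ) - 1)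
    (hsU : (s59q_WRhobar W hΔ hp𝒪).IsUnramifiedAt s)
    (εs : 𝒪) (hεs : εs = 1 ∨ εs = -1)
    (φs : Γℚ) (hφs : (primeLocalPlace s).IsFrobeniusAt φs s)
    (hscp : LinearMap.charpoly ((s59q_WRhobar W hΔ hp𝒪).ρ φs) =
      (Polynomial.X - Polynomial.C (residue 𝒪 (εs * (((s : ℕ) : ℕ) : 𝒪)))) *
        (Polynomial.X - Polynomial.C (residue 𝒪 εs)))
    (σs : Γℚ) (hσs : s59q_IsTameGen s (primeLocalPlace s) σs)
    -- the `T`-side of the SMALL type (no raising: `k = 0`)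
    (Ds : GaloisRep.DeformationRingData 𝒪 (s59i_rhobarW W p hΔ 𝒪 hp𝒪) (fun _A _ _ _ ρ =>
      GaloisRep.strictOrdinaryCondition 𝒪 p (s59q_WSmin W hΔ hp𝒪 ∪ ((∅ : Finset ℕ) ∪ {(s : ℕ)})) ρ ∧
        ∀ q ∈ s59q_WSmin W hΔ hp𝒪 ∪ ((∅ : Finset ℕ) ∪ {(s : ℕ)}), q.Prime → q ≠ p →
          ρ.IsUnipotentOnInertiaAt q))
    (Bss : s59f_TBaseF 𝒪 0 Ds)
    (HLs : ∀ r : ℕ, 1 ≤ r → ∀ (n : ℕ) (qv : Fin r → ℕ), Function.Injective qv →
      (∀ i, (qv i).Prime ∧ qv i ∉ B ∧ p ^ (n + 1) ∣ qv i - 1) →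
      (∀ i, ∀ A : ValuationSubring (AlgebraicClosure ℚ), A.LiesOverPrime (qv i) →
        ∀ φ : Γℚ, A.IsFrobeniusAt φ (qv i) →
          ∃ α β : ResidueField 𝒪, α ≠ β ∧
            LinearMap.charpoly ((s59i_rhobarW W p hΔ 𝒪 hp𝒪).ρ φ) =
              (Polynomial.X - Polynomial.C α) * (Polynomial.X - Polynomial.C β)) →
      ∀ DQ : GaloisRep.DeformationRingData 𝒪 (s59i_rhobarW W p hΔ 𝒪 hp𝒪) (fun _A _ _ _ ρ =>
        GaloisRep.strictOrdinaryCondition 𝒪 p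
            (s59q_WSmin W hΔ hp𝒪 ∪ ((∅ : Finset ℕ) ∪ {(s : ℕ)}) ∪ Finset.univ.image qv) ρ ∧
          ∀ q ∈ s59q_WSmin W hΔ hp𝒪 ∪ ((∅ : Finset ℕ) ∪ {(s : ℕ)}), q.Prime → q ≠ p →
            ρ.IsUnipotentOnInertiaAt q),
        Nonempty (s59f_TLevelF 𝒪 p n r (s59q_ZIdx 0 1) 0 Bss qv
          (fun _ => (s : ℕ)) (fun _ => φs) (fun _ => σs) DQ))
    -- its `s`-old point (off `St_±`)
    (𝒪s : Type) [CommRing 𝒪s] [IsDomain 𝒪s] (xs₀ : Ds.R →+* 𝒪s)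
    (hxs₀M : ∀ a : Ds.R, (∀ mm : Bss.M 0, Bss.ν 0 a • mm = 0) → xs₀ a = 0)
    (hxs₀δ : xs₀ (s59i_cpTr Ds.ρ φs) * xs₀ (s59i_cpTr Ds.ρ φs) ≠
      ((((s : ℕ) : ℕ) : 𝒪s) + 1) * ((((s : ℕ) : ℕ) : 𝒪s) + 1))
    -- the ring of the BIG type and its point
    (Sg0 Su : Finset ℕ)
    (hSuS : s59q_WSmin W hΔ hp𝒪 ∪ ((∅ : Finset ℕ) ∪ {(s : ℕ)}) ⊆ Su)
    (D0 : GaloisRep.DeformationRingData 𝒪 (s59i_rhobarW W p hΔ 𝒪 hp𝒪) (fun _A _ _ _ ρ =>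
      GaloisRep.strictOrdinaryCondition 𝒪 p Sg0 ρ ∧
        ∀ q ∈ Su, q.Prime → q ≠ p → ρ.IsUnipotentOnInertiaAt q))
    (𝒪₀ : Type) [CommRing 𝒪₀] [IsDomain 𝒪₀] (x₀ : D0.R →+* 𝒪₀)
    (hx₀inj : Function.Injective (x₀.comp (algebraMap 𝒪 D0.R)))
    (hx₀unr : ∀ q : ℕ, q.Prime → q ∈ Sg0 →
      q ∉ s59q_WSmin W hΔ hp𝒪 ∪ ((∅ : Finset ℕ) ∪ {(s : ℕ)}) →
      ∀ P : ValuationSubring Qbar, P.LiesOverPrime q → ∀ τ ∈ P.inertiaSubgroupIn ℚ,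
        ∀ (f : Module.Dual D0.R D0.ρ.V) (v : D0.ρ.V), x₀ (f (D0.ρ.ρ τ v - v)) = 0)
    -- the `T`-side contradiction: the eigensystem of `x₀` does not occur in `Bss.R 0`
    (hno : ∀ y : Bss.R 0 →+* 𝒪₀,
      (∀ g : Γℚ, y (s59i_cpTr (Bss.ρR 0) g) = x₀ (s59i_cpTr D0.ρ g)) → False) :
    ∃ (f : Module.Dual D0.R D0.ρ.V) (v : D0.ρ.V), x₀ (f (D0.ρ.ρ σs v - v)) ≠ 0 := by
  classical
  by_contra hcon
  push Not at hcon
  obtain ⟨A, _, _, _, _, _, x, ι, hι, hxl, hxinj, hxtr, hxunr⟩ :=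
    s59q_sp_pt_small_core_ord p Sg0 Su (s59q_WSmin W hΔ hp𝒪 ∪ ((∅ : Finset ℕ) ∪ {(s : ℕ)}))
      (s59q_WSmin W hΔ hp𝒪 ∪ ((∅ : Finset ℕ) ∪ {(s : ℕ)})) hSuS D0 Ds 𝒪₀ x₀ hx₀inj hx₀unr
  have hker := s59q_sp_unr_pt_ord p hp35 W hΔ hss hirr 𝒪 hp𝒪 hsplitℤ B hpB hB2Δ s hsp hsB hsns hsU εs hεs
    φs hφs hscp σs hσs Ds Bss HLs 𝒪s xs₀ hxs₀M hxs₀δ A x hxl hxinj (hxunr σs hcon)
  -- `x` factors through `Bss.R 0`
  let y' : Bss.R 0 →+* A :=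
    RingHom.liftOfSurjective (Bss.ν 0 : Ds.R →+* Bss.R 0) (Bss.hνs 0) ⟨x, hker⟩
  have hy' : ∀ a : Ds.R, y' (Bss.ν 0 a) = x a := fun a =>
    RingHom.liftOfRightInverse_comp_apply _ _ _ ⟨x, hker⟩ a
  refine hno (ι.comp y') (fun g => ?_)
  rw [RingHom.comp_apply, ← Bss.hν 0 g, hy', hxtr]


/-- **`s59q_sp_ram_of_lgc_ord` with [RP] at the extra primes.** -/
theorem s59q_sp_ram_of_lgc_RP_ord (p : ℕ) [hpF : Fact p.Prime] (hp35 : p = 3 ∨ p = 5)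
    (W : WeierstrassCurve ℤ) (hΔ : W.Δ ≠ 0) (hss : W.IsSemistableModel)
    (hirr : W.ModRepIsIrreducible p)
    (𝒪 : Type) [CommRing 𝒪] [IsDomain 𝒪] [IsDiscreteValuationRing 𝒪]
    [IsAdicComplete (maximalIdeal 𝒪) 𝒪] [Finite (ResidueField 𝒪)] [CharZero 𝒪]
    [Algebra ℤ_[p] 𝒪] [Module.Finite ℤ_[p] 𝒪]
    (hp𝒪 : ((p : ℕ) : 𝒪) ∈ maximalIdeal 𝒪)
    (hsplitℤ : ∀ a b : ℤ, ∃ α β : ResidueField 𝒪,
      α + β = (a : ResidueField 𝒪) ∧ α * β = (b : ResidueField 𝒪))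
    (B : Finset ℕ) (hpB : p ∈ B) (hB2Δ : ∀ r : ℕ, r.Prime → (r : ℤ) ∣ W.Δ → r ∈ B)
    -- the spectator
    (s : Nat.Primes) (hsp : (s : ℕ) ≠ p) (hsB : (s : ℕ) ∈ B) (hsns : ¬ p ∣ (s : ℕ) - 1)
    (hsU : (s59q_WRhobar W hΔ hp𝒪).IsUnramifiedAt s)
    (εs : 𝒪) (hεs : εs = 1 ∨ εs = -1)
    (φs : Γℚ) (hφs : (primeLocalPlace s).IsFrobeniusAt φs s)
    (hscp : LinearMap.charpoly ((s59q_WRhobar W hΔ hp𝒪).ρ φs) =
      (Polynomial.X - Polynomial.C (residue 𝒪 (εs * (((s : ℕ) : ℕ) : 𝒪)))) *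
        (Polynomial.X - Polynomial.C (residue 𝒪 εs)))
    (σs : Γℚ) (hσs : s59q_IsTameGen s (primeLocalPlace s) σs)
    -- the `T`-side of the SMALL type (no raising: `k = 0`)
    (Ds : GaloisRep.DeformationRingData 𝒪 (s59i_rhobarW W p hΔ 𝒪 hp𝒪) (fun _A _ _ _ ρ =>
      GaloisRep.strictOrdinaryCondition 𝒪 p (s59q_WSmin W hΔ hp𝒪 ∪ ((∅ : Finset ℕ) ∪ {(s : ℕ)})) ρ ∧
        ∀ q ∈ s59q_WSmin W hΔ hp𝒪 ∪ ((∅ : Finset ℕ) ∪ {(s : ℕ)}), q.Prime → q ≠ p →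
          ρ.IsUnipotentOnInertiaAt q))
    (Bss : s59f_TBaseF 𝒪 0 Ds)
    (HLs : ∀ r : ℕ, 1 ≤ r → ∀ (n : ℕ) (qv : Fin r → ℕ), Function.Injective qv →
      (∀ i, (qv i).Prime ∧ qv i ∉ B ∧ p ^ (n + 1) ∣ qv i - 1) →
      (∀ i, ∀ A : ValuationSubring (AlgebraicClosure ℚ), A.LiesOverPrime (qv i) →
        ∀ φ : Γℚ, A.IsFrobeniusAt φ (qv i) →
          ∃ α β : ResidueField 𝒪, α ≠ β ∧
            LinearMap.charpoly ((s59i_rhobarW W p hΔ 𝒪 hp𝒪).ρ φ) =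
              (Polynomial.X - Polynomial.C α) * (Polynomial.X - Polynomial.C β)) →
      ∀ DQ : GaloisRep.DeformationRingData 𝒪 (s59i_rhobarW W p hΔ 𝒪 hp𝒪) (fun _A _ _ _ ρ =>
        GaloisRep.strictOrdinaryCondition 𝒪 p
            (s59q_WSmin W hΔ hp𝒪 ∪ ((∅ : Finset ℕ) ∪ {(s : ℕ)}) ∪ Finset.univ.image qv) ρ ∧
          ∀ q ∈ s59q_WSmin W hΔ hp𝒪 ∪ ((∅ : Finset ℕ) ∪ {(s : ℕ)}), q.Prime → q ≠ p →
            ρ.IsUnipotentOnInertiaAt q),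
        Nonempty (s59f_TLevelF 𝒪 p n r (s59q_ZIdx 0 1) 0 Bss qv
          (fun _ => (s : ℕ)) (fun _ => φs) (fun _ => σs) DQ))
    -- its `s`-old point (off `St_±`)
    (𝒪s : Type) [CommRing 𝒪s] [IsDomain 𝒪s] (xs₀ : Ds.R →+* 𝒪s)
    (hxs₀M : ∀ a : Ds.R, (∀ mm : Bss.M 0, Bss.ν 0 a • mm = 0) → xs₀ a = 0)
    (hxs₀δ : xs₀ (s59i_cpTr Ds.ρ φs) * xs₀ (s59i_cpTr Ds.ρ φs) ≠
      ((((s : ℕ) : ℕ) : 𝒪s) + 1) * ((((s : ℕ) : ℕ) : 𝒪s) + 1))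
    -- the ring of the BIG type and its point
    (Sg0 Su : Finset ℕ)
    (hSuS : s59q_WSmin W hΔ hp𝒪 ∪ ((∅ : Finset ℕ) ∪ {(s : ℕ)}) ⊆ Su)
    (D0 : GaloisRep.DeformationRingData 𝒪 (s59i_rhobarW W p hΔ 𝒪 hp𝒪) (fun _A _ _ _ ρ =>
      GaloisRep.strictOrdinaryCondition 𝒪 p Sg0 ρ ∧
        ∀ q ∈ Su, q.Prime → q ≠ p → ρ.IsUnipotentOnInertiaAt q))
    (𝒪₀ : Type) [CommRing 𝒪₀] [IsDomain 𝒪₀] (x₀ : D0.R →+* 𝒪₀)
    (hx₀inj : Function.Injective (x₀.comp (algebraMap 𝒪 D0.R)))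
    (hextra : ∀ q : ℕ, q.Prime → q ∈ Sg0 →
      q ∉ s59q_WSmin W hΔ hp𝒪 ∪ ((∅ : Finset ℕ) ∪ {(s : ℕ)}) →
      q ≠ p ∧ q ∈ Su ∧ (s59i_rhobarW W p hΔ 𝒪 hp𝒪).IsUnramifiedAt q ∧
        ∃ (P : ValuationSubring Qbar) (φ : Γℚ), P.LiesOverPrime q ∧ P.IsFrobeniusAt φ q ∧
          x₀ (s59i_cpTr D0.ρ φ) * x₀ (s59i_cpTr D0.ρ φ) ≠
            (((q : ℕ) : 𝒪₀) + 1) * (((q : ℕ) : 𝒪₀) + 1))
    -- the `T`-side contradiction: the eigensystem of `x₀` does not occur in `Bss.R 0`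
    (hno : ∀ y : Bss.R 0 →+* 𝒪₀,
      (∀ g : Γℚ, y (s59i_cpTr (Bss.ρR 0) g) = x₀ (s59i_cpTr D0.ρ g)) → False) :
    ∃ (f : Module.Dual D0.R D0.ρ.V) (v : D0.ρ.V), x₀ (f (D0.ρ.ρ σs v - v)) ≠ 0 :=
  s59q_sp_ram_of_lgc_ord p hp35 W hΔ hss hirr 𝒪 hp𝒪 hsplitℤ B hpB hB2Δ s hsp hsB hsns hsU εs hεs φs hφs hscp
    σs hσs Ds Bss HLs 𝒪s xs₀ hxs₀M hxs₀δ Sg0 Su hSuS D0 𝒪₀ x₀ hx₀inj
    (fun q hq hq0 hqS P' hP' τ hτ f v => by
      obtain ⟨hqp, hqSu, hqU, P, φ, hP, hφ, hRP⟩ := hextra q hq hq0 hqS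
      exact s59u_sp_pt_kill_of_RP p D0 D0.isOfType.1.1 𝒪₀ x₀ hx₀inj q hq hqp hqU
        (D0.isOfType.2 q hqSu hq hqp) P φ hP hφ hRP P' hP' τ hτ f v)
    hno

end LGC

end Fermat.Agent.Lib.S59
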