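/-
S59, plan [C2P] (helper3, prefix `s59u_c2_`), file A: **the order of the steps with a spectator AND a prescribed first real step.**

`s59u_c2_exists_step` : as `s59u_sp_exists_step` (USpG.lean: `k₀ ≤ 1` virtual steps at the index `a`, then an enumeration without
repetition of all the indices `≠ a`), with moreover `0 < k` and `step k₀ = b` for a given index `b ≠ a` — the prime `2` has to be the
FIRST raising prime of the chain over the odd base level `3·L·r`.
-/
import Mathlib
import Fermat.Agent.Lib.S59.USpG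

set_option autoImplicit false
set_option linter.unusedSectionVars false
set_option linter.unusedVariables false

namespace Fermat.Agent.Lib.S59

/-- **the order of the steps with a spectator `a` and a prescribed first real step `b`.** -/
theorem s59u_c2_exists_step {ι : Type} [Fintype ι] [DecidableEq ι] (a b : ι) (hba : b ≠ a)
    (k₀ : ℕ) (hk₀ : k₀ ≤ 1) :
    ∃ (step : ℕ → ι) (k : ℕ), k + 1 = Fintype.card ι ∧
      (∀ t < k₀ + k, ∀ t' < t, step t' ≠ step t) ∧
      (∀ t < k₀, step t = a) ∧
      (∀ t, k₀ ≤ t → t < k₀ + k → step t ≠ a) ∧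
      (∀ x, x ≠ a → ∃ t, k₀ ≤ t ∧ t < k₀ + k ∧ step t = x) ∧
      0 < k ∧ step k₀ = b := by
  classical
  obtain ⟨step, k, hcard, hinj, hvirt, hreal, hcov⟩ := s59u_sp_exists_step a k₀ hk₀
  obtain ⟨tb, htb0, htb1, htb⟩ := hcov b hba
  have hk : 0 < k := by omega
  -- injectivity in the symmetric form
  have hinj' : ∀ u < k₀ + k, ∀ v < k₀ + k, u ≠ v → step u ≠ step v := by
    intro u hu v hv huv
    rcases lt_or_gt_of_ne huv with h | h
    · exact hinj v hv u h
    · exact (hinj u hu v h).symm
  set σ : Equiv.Perm ℕ := Equiv.swap k₀ tb with hσ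
  have hσlt : ∀ t, t < k₀ + k → σ t < k₀ + k := by
    intro t ht
    rw [hσ, Equiv.swap_apply_def]
    split_ifs <;> omega
  have hσge : ∀ t, k₀ ≤ t → k₀ ≤ σ t := by
    intro t ht
    rw [hσ, Equiv.swap_apply_def]
    split_ifs <;> omega
  have hσfix : ∀ t, t < k₀ → σ t = t := by
    intro t ht
    rw [hσ]
    exact Equiv.swap_apply_of_ne_of_ne (by omega) (by omega)
  refine ⟨fun t => step (σ t), k, hcard, ?_, ?_, ?_, ?_, hk, ?_⟩
  · intro t ht t' ht'
    exact hinj' (σ t') (hσlt t' (by omega)) (σ t) (hσlt t ht)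
      (fun h => absurd (σ.injective h) (by omega))
  · intro t ht
    show step (σ t) = a
    rw [hσfix t ht]
    exact hvirt t ht
  · intro t ht0 ht1
    exact hreal (σ t) (hσge t ht0) (hσlt t ht1)
  · intro x hx
    obtain ⟨u, hu0, hu1, hux⟩ := hcov x hx
    refine ⟨σ u, hσge u hu0, hσlt u hu1, ?_⟩
    show step (σ (σ u)) = x
    rw [hσ, Equiv.swap_apply_self]
    exact hux
  · show step (σ k₀) = b
    rw [hσ, Equiv.swap_apply_left]
    exact htb

end Fermat.Agent.Lib.S59
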