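/-
PROGRAMME (R), non-minimal case (P), route (T5w) (helper6, prefix `s59q_`): **the core of the concrete instance of the
bridge with frames, with ONE MARKED free variable** (twin of helper4's `s59f_inst_coreG`, `FBrG2.lean`).

`Hbridge` is the joint bridge (clause (C) of `s59q_bridge_sfJ`): generators `x : Fin (s + w + 1) → Cr` with
`x (Fin.last _) ∈ (J)` for every `J ⊆ 𝔪_Cr` such that tangent vectors killing `E` and `J` induce first-order lifts with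
the property `Pj`.  Here `J := C '' Jt` (constants) for a set `Jt ⊆ 𝔪_T` such that tangent vectors `f₀ : T → k[ε]` killing
`Jt` induce (through `θ : DQ.R ↠ T`) first-order lifts with `Pj`.  Output: the surjection
`γ : 𝒪⟦GIdx m e g⟧ ↠ T⟦ZIdx m e⟧` of `s59f_inst_coreG` (same images of the local variables), `g = s + (4m + 2e) + 1`,
with `γ (X (the last free variable)) ∈ Ideal.span (C '' Jt)`.
-/
import Mathlib
import Fermat.Agent.Lib.S59.FBrG2

set_option autoImplicit false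
set_option linter.style.haveILetI false
set_option linter.unusedSectionVars false
set_option linter.unusedVariables false
set_option maxHeartbeats 1600000

noncomputable section

namespace Fermat.Agent.Lib.S59

open IsLocalRing Module ExtCitation groupCohomology Fermat.Agent.Lib.S56
open Fermat.Agent.Lib.S53 (matOf matOfRes NormData)
open Fermat.Agent.Lib.Deform

attribute [local instance] Fermat.Agent.Lib.Deform.dualNumberAlgebra

local notation "Γℚ" => (AlgebraicClosure ℚ ≃ₐ[ℚ] AlgebraicClosure ℚ)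

section Core

variable {𝒪 : Type} [CommRing 𝒪] [IsDomain 𝒪] [IsDiscreteValuationRing 𝒪]
  [IsAdicComplete (maximalIdeal 𝒪) 𝒪]
  {ρbar : ResidualGaloisRep (ResidueField 𝒪)}
  {𝒟 : ∀ ⦃A : Type⦄ [CommRing A] [IsLocalRing A] [Algebra 𝒪 A], GaloisRepAdic A → Prop}
  (DQ : GaloisRep.DeformationRingData 𝒪 ρbar 𝒟) (N : NormData ρbar)
  (bR : Basis (Fin 2) DQ.R DQ.ρ.V)
  (hbR : ∀ σ i j, matOf DQ.ρ bR σ i j - algebraMap 𝒪 DQ.R (N.Mtil σ i j) ∈ maximalIdeal DQ.R)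
  {T : Type} [CommRing T] [IsLocalRing T] [Algebra 𝒪 T]
  {m e : ℕ}

include hbR in
/-- **the core of the concrete instance with one marked free variable.** -/
theorem s59q_inst_coreJ (p : ℕ) [Fact p.Prime] (h𝒟 : s56a_TangentStable 𝒪 𝒟 p)
    (hpk : ((p : ℕ) : ResidueField 𝒪) = 0) (s : ℕ) (Fq : Set Nat.Primes)
    (Pj : GaloisRepAdic (DualNumber (ResidueField 𝒪)) → Prop)
    (Hbridge : ∀ {Cr : Type} [CommRing Cr] [IsLocalRing Cr] [IsNoetherianRing Cr] [Algebra 𝒪 Cr]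
      (_ : IsTestAlgebra 𝒪 Cr) (ψ : DQ.R →ₐ[𝒪] Cr) (E : Set Cr) (w : ℕ)
      (Λ : (Cr →ₐ[𝒪] DualNumber (ResidueField 𝒪)) → (Fin w → ResidueField 𝒪))
      (_ : ∀ (f : Cr →ₐ[𝒪] DualNumber (ResidueField 𝒪)), (∀ x ∈ E, f x = 0) →
        ∀ hs : Function.Surjective (f.comp ψ), ∀ q : Nat.Primes, q ∈ Fq →
          ∃ Y : s56a_ad0 ρbar, ∀ τ : primeLocalGaloisGroup q,
            (s56a_cocPhi DQ N bR hbR p h𝒟 (f.comp ψ) hs).1 (primeLocalToGlobal q τ) =
              (s56a_ad0 ρbar).ρ (primeLocalToGlobal q τ) Y - Y)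
      (_ : ∀ f f' : Cr →ₐ[𝒪] DualNumber (ResidueField 𝒪), (∀ x ∈ E, f x = 0) →
        (∀ x ∈ E, f' x = 0) → f.comp ψ = f'.comp ψ → Λ f = Λ f' → f = f')
      (J : Set Cr) (_ : ∀ j ∈ J, j ∈ maximalIdeal Cr)
      (_ : ∀ (f : Cr →ₐ[𝒪] DualNumber (ResidueField 𝒪)), (∀ x ∈ E, f x = 0) → (∀ j ∈ J, f j = 0) →
        ∀ hs : Function.Surjective (f.comp ψ),
          Pj (s56a_liftRep ρbar (s56a_cocPhi DQ N bR hbR p h𝒟 (f.comp ψ) hs)
            (s56a_isLevel_cocPhi DQ N bR hbR p h𝒟 (f.comp ψ) hs))),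
      ∃ x : Fin (s + w + 1) → Cr, (∀ i, x i ∈ maximalIdeal Cr) ∧
        maximalIdeal Cr ≤ Ideal.span (E ∪ Set.range x) ⊔ (maximalIdeal 𝒪).map (algebraMap 𝒪 Cr) ∧
        x (Fin.last (s + w)) ∈ Ideal.span J)
    (pr : Fin m ⊕ Fin e → Nat.Primes) (hpr : ∀ q ∈ Fq, ∃ t, pr t = q)
    (hunr : ∀ t, ((pr t : ℕ) ≠ p) ∧ ρbar.IsUnramifiedAt (pr t))
    (σq φq : Fin m ⊕ Fin e → Γℚ)
    (hσq : ∀ t, s59q_IsTameGen (pr t) (primeLocalPlace (pr t)) (σq t))
    (hφq : ∀ t, (primeLocalPlace (pr t)).IsFrobeniusAt (φq t) (pr t))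
    (i2 : 𝒪) (hi2 : 2 * i2 = 1)
    (P P' : Fin m ⊕ Fin e → Matrix (Fin 2) (Fin 2) 𝒪) (hPP' : ∀ t, P t * P' t = 1)
    (hP'P : ∀ t, P' t * P t = 1)
    (hscal : ∀ j : Fin m, ∃ c : ResidueField 𝒪,
      matOfRes ρbar N.b (φq (Sum.inl j)) = c • (1 : Matrix (Fin 2) (Fin 2) (ResidueField 𝒪)))
    (lam : Fin e → Fin 2 → 𝒪) (sh : Fin e → Fin 3 → 𝒪)
    (Mres : Fin e → Matrix (Fin 2) (Fin 2) (ResidueField 𝒪))
    (fp : Fin e → Fin 2 → Fin 2 × Fin 2)
    (hMres : ∀ l, (P' (Sum.inr l)).map (residue 𝒪) * matOfRes ρbar N.b (φq (Sum.inr l)) *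
      (P (Sum.inr l)).map (residue 𝒪) = Mres l)
    (hlam : ∀ l, residue 𝒪 (lam l 0) * Mres l 0 0 - residue 𝒪 (lam l 1) * Mres l 1 1 ≠ 0)
    (hsh : ∀ l k, residue 𝒪 (sh l k) = s59f_tlG (fun i => residue 𝒪 (lam l i)) (Mres l) k)
    (hfp : ∀ l (Δ : Matrix (Fin 2) (Fin 2) (ResidueField 𝒪)), Δ * Mres l = Mres l * Δ →
      Δ (fp l 0).1 (fp l 0).2 = 0 → Δ (fp l 1).1 (fp l 1).2 = 0 → Δ = 0)
    [IsNoetherianRing T] [IsAdicComplete (maximalIdeal T) T] (hT : IsTestAlgebra 𝒪 T)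
    (θ : DQ.R →ₐ[𝒪] T) (hθ : Function.Surjective θ)
    (Jt : Set T) (hJtm : ∀ j ∈ Jt, j ∈ maximalIdeal T)
    (hJt : ∀ (f₀ : T →ₐ[𝒪] DualNumber (ResidueField 𝒪)), (∀ j ∈ Jt, f₀ j = 0) →
      ∀ hs : Function.Surjective (f₀.comp θ),
        Pj (s56a_liftRep ρbar (s56a_cocPhi DQ N bR hbR p h𝒟 (f₀.comp θ) hs)
          (s56a_isLevel_cocPhi DQ N bR hbR p h𝒟 (f₀.comp θ) hs)))
    (g : ℕ) (hg : g = s + (4 * m + 2 * e) + 1) :
    ∃ γ : MvPowerSeries (s59q_GIdx m e g) 𝒪 →ₐ[𝒪] MvPowerSeries (s59q_ZIdx m e) T,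
      Function.Surjective γ ∧
      (∀ j k, γ (MvPowerSeries.X (Sum.inl (j, k))) =
        s59q_tl (algebraMap 𝒪 _ i2) (s59q_Fm DQ bR θ P P' (Sum.inl j) (σq (Sum.inl j))) k) ∧
      (∀ j k, γ (MvPowerSeries.X (Sum.inr (Sum.inl (j, k)))) =
        s59q_tl (algebraMap 𝒪 _ i2) (s59q_Fm DQ bR θ P P' (Sum.inl j) (φq (Sum.inl j))) k) ∧
      (∀ l k, γ (MvPowerSeries.X (Sum.inr (Sum.inr (Sum.inl (l, k))))) =
        s59q_tl (algebraMap 𝒪 _ i2) (s59q_Fm DQ bR θ P P' (Sum.inr l) (σq (Sum.inr l))) k) ∧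
      (∀ l k, γ (MvPowerSeries.X (Sum.inr (Sum.inr (Sum.inr (Sum.inl (l, k)))))) =
        s59f_tlG (fun i => algebraMap 𝒪 _ (lam l i))
            (s59q_Fm DQ bR θ P P' (Sum.inr l) (φq (Sum.inr l))) k -
          algebraMap 𝒪 _ (sh l k)) ∧
      (∀ i : Fin g, (i : ℕ) = s + (4 * m + 2 * e) →
        γ (MvPowerSeries.X (Sum.inr (Sum.inr (Sum.inr (Sum.inr i))))) ∈
          Ideal.span ((fun t : T => (MvPowerSeries.C t : MvPowerSeries (s59q_ZIdx m e) T)) '' Jt)) := by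
  classical
  -- notation
  set Cr := MvPowerSeries (s59q_ZIdx m e) T with hCr
  have hC : IsTestAlgebra 𝒪 Cr := s59q_isTestAlgebra_ps hT
  set ψ : DQ.R →ₐ[𝒪] Cr := (s59q_cT 𝒪 T (s59q_ZIdx m e)).comp θ with hψ
  set i2c : Cr := algebraMap 𝒪 Cr i2 with hi2c
  set Fm : Fin m ⊕ Fin e → Γℚ → Matrix (Fin 2) (Fin 2) Cr := s59q_Fm DQ bR θ P P' with hFm
  have hFm_def : ∀ t g', Fm t g' =
      s59q_frameU' T (P' t) t * (matOf DQ.ρ bR g').map ψ * s59q_frameU T (P t) t := fun _ _ => rfl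
  have h2k : (2 : ResidueField 𝒪) ≠ 0 := s59q_two_ne_zero i2 hi2
  -- the residual matrices
  have hσres : ∀ t, matOfRes ρbar N.b (σq t) = 1 := by
    intro t
    rw [Fermat.Agent.Lib.S53.matOfRes_apply,
      (hunr t).2 _ (s56g_place_liesOver (pr t)) (σq t) (hσq t).1]
    exact LinearMap.toMatrix_one N.b
  have hPb : ∀ t, (P t).map (residue 𝒪) * (P' t).map (residue 𝒪) = 1 := fun t => by
    rw [← Matrix.map_mul, hPP' t, Matrix.map_one _ (map_zero _) (map_one _)]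
  have hPb' : ∀ t, (P' t).map (residue 𝒪) * (P t).map (residue 𝒪) = 1 := fun t => by
    rw [← Matrix.map_mul, hP'P t, Matrix.map_one _ (map_zero _) (map_one _)]
  have hres_σ : ∀ t, (P' t).map (residue 𝒪) * matOfRes ρbar N.b (σq t) * (P t).map (residue 𝒪) = 1 := by
    intro t; rw [hσres t, mul_one, hPb' t]
  have hres_φB : ∀ j : Fin m, ∃ c : ResidueField 𝒪, c ≠ 0 ∧
      matOfRes ρbar N.b (φq (Sum.inl j)) = c • (1 : Matrix (Fin 2) (Fin 2) (ResidueField 𝒪)) ∧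
      (P' (Sum.inl j)).map (residue 𝒪) * matOfRes ρbar N.b (φq (Sum.inl j)) *
        (P (Sum.inl j)).map (residue 𝒪) = c • (1 : Matrix (Fin 2) (Fin 2) (ResidueField 𝒪)) := by
    intro j
    obtain ⟨c, hc⟩ := hscal j
    refine ⟨c, ?_, hc, ?_⟩
    · intro h0
      have h1 : matOfRes ρbar N.b (φq (Sum.inl j)) * matOfRes ρbar N.b (φq (Sum.inl j))⁻¹ = 1 := by
        rw [← map_mul, mul_inv_cancel, map_one]
      rw [hc, h0, zero_smul, zero_mul] at h1
      exact zero_ne_one h1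
    · rw [hc, Matrix.mul_smul, mul_one, Matrix.smul_mul, hPb']
  -- traces
  have htr_σ : ∀ t, (matOfRes ρbar N.b (σq t)).trace ≠ 0 := by
    intro t
    rw [hσres t, Matrix.trace_one, Fintype.card_fin]
    exact_mod_cast h2k
  have htr_φB : ∀ j : Fin m, (matOfRes ρbar N.b (φq (Sum.inl j))).trace ≠ 0 := by
    intro j
    obtain ⟨c, hc0, hc, -⟩ := hres_φB j
    rw [hc, Matrix.trace_smul, Matrix.trace_one, Fintype.card_fin, smul_eq_mul]
    exact mul_ne_zero hc0 (by exact_mod_cast h2k)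
  -- the values on the local variables
  set vB1 : Fin m × Fin 3 → Cr := fun a => s59q_tl i2c (Fm (Sum.inl a.1) (σq (Sum.inl a.1))) a.2
    with hvB1
  set vB2 : Fin m × Fin 3 → Cr := fun a => s59q_tl i2c (Fm (Sum.inl a.1) (φq (Sum.inl a.1))) a.2
    with hvB2
  set vE1 : Fin e × Fin 3 → Cr := fun a => s59q_tl i2c (Fm (Sum.inr a.1) (σq (Sum.inr a.1))) a.2
    with hvE1
  set vE2 : Fin e × Fin 3 → Cr := fun a =>
    s59f_tlG (fun i => algebraMap 𝒪 Cr (lam a.1 i)) (Fm (Sum.inr a.1) (φq (Sum.inr a.1))) a.2 -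
      algebraMap 𝒪 Cr (sh a.1 a.2) with hvE2
  set E : Set Cr := Set.range vB1 ∪ Set.range vB2 ∪ Set.range vE1 ∪ Set.range vE2 with hE
  -- `ε`-freeness of the framed matrices
  have hfree : ∀ f : Cr →ₐ[𝒪] DualNumber (ResidueField 𝒪), (∀ x ∈ E, f x = 0) →
      ∀ t, s56a_sndM ((Fm t (σq t)).map f) = 0 ∧ s56a_sndM ((Fm t (φq t)).map f) = 0 := by
    intro f hf t
    have hσ : s56a_sndM ((Fm t (σq t)).map f) = 0 := by
      have hw1 : ∀ k, (f (s59q_tl i2c (Fm t (σq t)) k)).snd = 0 := by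
        intro k
        rcases t with j | l
        · have := hf (vB1 (j, k)) (Or.inl (Or.inl (Or.inl ⟨(j, k), rfl⟩)))
          rw [hvB1] at this
          simp only at this
          rw [this]; rfl
        · have := hf (vE1 (l, k)) (Or.inl (Or.inr ⟨(l, k), rfl⟩))
          rw [hvE1] at this
          simp only at this
          rw [this]; rfl
      obtain ⟨a1, a2, a3⟩ := s59q_weak_of_tl f i2 hi2 (Fm t (σq t)) hw1
      rw [hFm_def] at a1 a2 a3 ⊢
      exact s59q_framed_eps_free DQ N bR hbR ψ p h𝒟 f _ _ (s59q_frameU_mul _ _ (hPP' t) t)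
        (s59q_frameU'_mul _ _ (hP'P t) t) (σq t) a1 a2 a3 (htr_σ t)
    refine ⟨hσ, ?_⟩
    rcases t with j | l
    · have hw2 : ∀ k, (f (s59q_tl i2c (Fm (Sum.inl j) (φq (Sum.inl j))) k)).snd = 0 := by
        intro k
        have := hf (vB2 (j, k)) (Or.inl (Or.inl (Or.inr ⟨(j, k), rfl⟩)))
        rw [hvB2] at this
        simp only at this
        rw [this]; rfl
      obtain ⟨b1, b2, b3⟩ := s59q_weak_of_tl f i2 hi2 (Fm (Sum.inl j) (φq (Sum.inl j))) hw2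
      rw [hFm_def] at b1 b2 b3 ⊢
      exact s59q_framed_eps_free DQ N bR hbR ψ p h𝒟 f _ _ (s59q_frameU_mul _ _ (hPP' _) _)
        (s59q_frameU'_mul _ _ (hP'P _) _) (φq (Sum.inl j)) b1 b2 b3 (htr_φB j)
    · have hw2 : ∀ k, (f (s59f_tlG (fun i => algebraMap 𝒪 Cr (lam l i))
          (Fm (Sum.inr l) (φq (Sum.inr l))) k)).snd = 0 := by
        intro k
        have := hf (vE2 (l, k)) (Or.inr ⟨(l, k), rfl⟩)
        rw [hvE2] at this
        simp only at this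
        exact s59q_snd_eq_zero_of_sub_const f _ _ this
      obtain ⟨b1, b2, b3⟩ := s59f_weak_of_tlG f (lam l) (Fm (Sum.inr l) (φq (Sum.inr l))) hw2
      rw [hFm_def] at b1 b2 b3 ⊢
      refine s59f_framed_eps_freeG DQ N bR hbR ψ p h𝒟 f _ _ (s59q_frameU_mul _ _ (hPP' _) _)
        (s59q_frameU'_mul _ _ (hP'P _) _) (φq (Sum.inr l)) (residue 𝒪 (lam l 0))
        (residue 𝒪 (lam l 1)) b1 b2 b3 ?_
      rw [s59f_fst_frame_entry DQ N bR hbR ψ hC f (Sum.inr l) (P _) (P' _) (hPP' _) (hP'P _)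
          (φq (Sum.inr l)) 0 0,
        s59f_fst_frame_entry DQ N bR hbR ψ hC f (Sum.inr l) (P _) (P' _) (hPP' _) (hP'P _)
          (φq (Sum.inr l)) 1 1, hMres l]
      exact hlam l
  -- (1)
  have hE1 : ∀ (f : Cr →ₐ[𝒪] DualNumber (ResidueField 𝒪)), (∀ x ∈ E, f x = 0) →
      ∀ hs : Function.Surjective (f.comp ψ), ∀ q : Nat.Primes, q ∈ Fq →
        ∃ Y : s56a_ad0 ρbar, ∀ τ : primeLocalGaloisGroup q,
          (s56a_cocPhi DQ N bR hbR p h𝒟 (f.comp ψ) hs).1 (primeLocalToGlobal q τ) =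
            (s56a_ad0 ρbar).ρ (primeLocalToGlobal q τ) Y - Y := by
    intro f hf hs q hq
    obtain ⟨t, rfl⟩ := hpr q hq
    obtain ⟨h1, h1'⟩ := hfree f hf t
    rw [hFm_def] at h1 h1'
    exact s59q_hE1_of_framed DQ N bR hbR ψ p h𝒟 h2k f hs (pr t) (σq t) (φq t) (hφq t)
      (s59q_firstOrder_of_isTameGen DQ N bR hbR p hpk (pr t) (hunr t).1 (hunr t).2 (σq t)
        (hσq t)).1
      _ _ (s59q_frameU_mul _ _ (hPP' t) t) (s59q_frameU'_mul _ _ (hP'P t) t) h1 h1'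
  -- (2)
  set eqv : Fin (4 * m + 2 * e) ≃ (Fin m × Fin 2 × Fin 2) ⊕ (Fin e × Fin 2) :=
    (Fintype.equivFinOfCardEq (s59q_card_freeIdx m e)).symm with heqv
  set Λ : (Cr →ₐ[𝒪] DualNumber (ResidueField 𝒪)) → (Fin (4 * m + 2 * e) → ResidueField 𝒪) :=
    fun f i => (f (MvPowerSeries.X (s59f_freeVarG m e fp (eqv i)))).snd with hΛ
  have hE2 : ∀ f f' : Cr →ₐ[𝒪] DualNumber (ResidueField 𝒪), (∀ x ∈ E, f x = 0) →
      (∀ x ∈ E, f' x = 0) → f.comp ψ = f'.comp ψ → Λ f = Λ f' → f = f' := by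
    intro f f' hf hf' hff' hΛff'
    have hfree_eq : ∀ a, (f (MvPowerSeries.X (s59f_freeVarG m e fp a))).snd =
        (f' (MvPowerSeries.X (s59f_freeVarG m e fp a))).snd := by
      intro a
      have := congrFun hΛff' (eqv.symm a)
      simp only [hΛ, Equiv.apply_symm_apply] at this
      exact this
    refine s59q_algHom_ext_ps hC f f' ?_ ?_
    · intro x
      obtain ⟨y, rfl⟩ := hθ x
      have := congrArg (fun φ : DQ.R →ₐ[𝒪] DualNumber (ResidueField 𝒪) => φ y) hff'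
      simpa [hψ] using this
    · rintro ⟨t, a, b⟩
      have hfst : ∀ f₁ : Cr →ₐ[𝒪] DualNumber (ResidueField 𝒪),
          (f₁ (MvPowerSeries.X (t, a, b))).fst = 0 := by
        intro f₁
        rw [s59q_fst_tangent hC, resk_eq_zero_iff]
        exact X_mem_maximalIdeal _
      refine TrivSqZeroExt.ext (by rw [hfst, hfst]) ?_
      rcases t with j | l
      · exact hfree_eq (Sum.inl (j, a, b))
      · have hcomm := s59f_zeta_sub_comm DQ N bR hbR ψ hC f f' hff' (Sum.inr l) (P (Sum.inr l))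
          (P' (Sum.inr l)) (hPP' _) (hP'P _) (φq (Sum.inr l))
          (by rw [← hFm_def]; exact (hfree f hf (Sum.inr l)).2)
          (by rw [← hFm_def]; exact (hfree f' hf' (Sum.inr l)).2)
        rw [hMres l] at hcomm
        have hz := hfp l _ hcomm
          (by
            rw [Matrix.sub_apply, s59q_zeta_apply, s59q_zeta_apply, sub_eq_zero]
            exact (hfree_eq (Sum.inr (l, 0))).symm)
          (by
            rw [Matrix.sub_apply, s59q_zeta_apply, s59q_zeta_apply, sub_eq_zero]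
            exact (hfree_eq (Sum.inr (l, 1))).symm)
        have hab := congrFun (congrFun hz a) b
        rw [Matrix.sub_apply, s59q_zeta_apply, s59q_zeta_apply, Matrix.zero_apply,
          sub_eq_zero] at hab
        exact hab.symm
  -- the marked ideal
  set J : Set Cr := (fun t : T => (MvPowerSeries.C t : MvPowerSeries (s59q_ZIdx m e) T)) '' Jt with hJ
  have hJm : ∀ j ∈ J, j ∈ maximalIdeal Cr := by
    rintro _ ⟨t, ht, rfl⟩
    have h1 := hJtm t ht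
    rw [mem_maximalIdeal, mem_nonunits_iff] at h1 ⊢
    intro hu
    apply h1
    rw [MvPowerSeries.isUnit_iff_constantCoeff, MvPowerSeries.constantCoeff_C] at hu
    exact hu
  have hJfl : ∀ (f : Cr →ₐ[𝒪] DualNumber (ResidueField 𝒪)), (∀ x ∈ E, f x = 0) → (∀ j ∈ J, f j = 0) →
      ∀ hs : Function.Surjective (f.comp ψ),
        Pj (s56a_liftRep ρbar (s56a_cocPhi DQ N bR hbR p h𝒟 (f.comp ψ) hs)
          (s56a_isLevel_cocPhi DQ N bR hbR p h𝒟 (f.comp ψ) hs)) := by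
    intro f _ hfJ hs
    exact hJt (f.comp (s59q_cT 𝒪 T (s59q_ZIdx m e)))
      (fun j hj => hfJ _ ⟨j, hj, rfl⟩) hs
  -- the bridge
  obtain ⟨x, hx, hgen, hxJ⟩ := Hbridge hC ψ E (4 * m + 2 * e) Λ hE1 hE2 J hJm hJfl
  -- the values
  set vals : s59q_GIdx m e g → Cr :=
    Sum.elim vB1 (Sum.elim vB2 (Sum.elim vE1 (Sum.elim vE2 (fun i => x (Fin.cast hg i))))) with hvals
  have hmemB1 : ∀ a, vB1 a ∈ maximalIdeal Cr := by
    rintro ⟨j, k⟩
    have := s59q_tl_sub_mem DQ N bR hbR ψ hC (Sum.inl j) (P _) (P' _) (hPP' _) (hP'P _)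
      (σq (Sum.inl j)) i2 (fun _ => 0) (fun k' => by
        rw [hres_σ, s59q_tl_one, map_zero]; rfl) k
    rw [map_zero, sub_zero] at this
    exact this
  have hmemB2 : ∀ a, vB2 a ∈ maximalIdeal Cr := by
    rintro ⟨j, k⟩
    obtain ⟨c, -, -, hc⟩ := hres_φB j
    have := s59q_tl_sub_mem DQ N bR hbR ψ hC (Sum.inl j) (P _) (P' _) (hPP' _) (hP'P _)
      (φq (Sum.inl j)) i2 (fun _ => 0) (fun k' => by
        rw [hc, s59q_tl_smul_one, map_zero]; rfl) k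
    rw [map_zero, sub_zero] at this
    exact this
  have hmemE1 : ∀ a, vE1 a ∈ maximalIdeal Cr := by
    rintro ⟨l, k⟩
    have := s59q_tl_sub_mem DQ N bR hbR ψ hC (Sum.inr l) (P _) (P' _) (hPP' _) (hP'P _)
      (σq (Sum.inr l)) i2 (fun _ => 0) (fun k' => by
        rw [hres_σ, s59q_tl_one, map_zero]; rfl) k
    rw [map_zero, sub_zero] at this
    exact this
  have hmemE2 : ∀ a, vE2 a ∈ maximalIdeal Cr := by
    rintro ⟨l, k⟩
    exact s59f_tlG_sub_mem DQ N bR hbR ψ hC (Sum.inr l) (P _) (P' _) (hPP' _) (hP'P _)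
      (φq (Sum.inr l)) (lam l) (sh l) (fun k' => by rw [hMres l]; exact hsh l k') k
  have hvals_mem : ∀ u, vals u ∈ maximalIdeal Cr := by
    rintro (a | a | a | a | i)
    · exact hmemB1 a
    · exact hmemB2 a
    · exact hmemE1 a
    · exact hmemE2 a
    · exact hx _
  have hgen' : maximalIdeal Cr ≤
      Ideal.span (Set.range vals) ⊔ (maximalIdeal 𝒪).map (algebraMap 𝒪 Cr) := by
    refine hgen.trans (sup_le_sup_right (Ideal.span_mono ?_) _)
    rintro y (((( ⟨a, rfl⟩ | ⟨a, rfl⟩) | ⟨a, rfl⟩) | ⟨a, rfl⟩) | ⟨i, rfl⟩)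
    · exact ⟨Sum.inl a, rfl⟩
    · exact ⟨Sum.inr (Sum.inl a), rfl⟩
    · exact ⟨Sum.inr (Sum.inr (Sum.inl a)), rfl⟩
    · exact ⟨Sum.inr (Sum.inr (Sum.inr (Sum.inl a))), rfl⟩
    · refine ⟨Sum.inr (Sum.inr (Sum.inr (Sum.inr (Fin.cast hg.symm i)))), ?_⟩
      simp [hvals]
  refine ⟨evalHom (maximalIdeal Cr) vals hvals_mem,
    s59q_surjective_evalHom hC vals hvals_mem hgen', fun j k => ?_, fun j k => ?_, fun l k => ?_,
    fun l k => ?_, fun i hi => ?_⟩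
  · rw [evalHom_X]; rfl
  · rw [evalHom_X]; rfl
  · rw [evalHom_X]; rfl
  · rw [evalHom_X]; rfl
  · rw [evalHom_X]
    have h1 : vals (Sum.inr (Sum.inr (Sum.inr (Sum.inr i)))) = x (Fin.cast hg i) := rfl
    have h2 : Fin.cast hg i = Fin.last (s + (4 * m + 2 * e)) := Fin.ext hi
    rw [h1, h2]
    exact hxJ

end Core

end Fermat.Agent.Lib.S59
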