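/-
PROGRAMME (R), non-minimal case (P), route (T5w) (helper6, prefix `s59q_`): **the concrete instance of the JOINT bridge with
frames** (twin of helper4's `s59f_inst_ordG` / `s59f_inst_flatG`, `FBrG3.lean`).

Given the local bound `hW1 : dim L_p(strict AND flat) ≤ h⁰(G_p, ad⁰ρ̄)`: ONE `r ≥ 3m + e + 1` and for every `n` ONE family of
Taylor-Wiles primes `qv : Fin r → ℕ` such that
 * for every universal ring `DQ` of type "strict at `p`", `θ : DQ.R ↠ T` and `Jt ⊆ 𝔪_T` such that tangent vectors of `T` killing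
   `Jt` induce FLAT first-order lifts (`s59q_flat_of_kill_ker`: `Jt = ker (T ↠ R^{strict AND flat})`): the surjection
   `γ : 𝒪⟦GIdx m e (r+m+e)⟧ ↠ T⟦ZIdx m e⟧` of `s59f_inst_ordG`, and the LAST free variable goes into `(C '' Jt)`;
 * for every universal ring of type "flat at `p`": the surjection of `s59f_inst_flatG`.
-/
import Mathlib
import Fermat.Agent.Lib.S59.FBrG3
import Fermat.Agent.Lib.S59.QInstCoreJ
import Fermat.Agent.Lib.S59.QBrJWire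

set_option autoImplicit false
set_option linter.style.haveILetI false
set_option linter.unusedSectionVars false
set_option linter.unusedVariables false
set_option maxHeartbeats 1600000

noncomputable section

namespace Fermat.Agent.Lib.S59

open IsLocalRing Module ExtCitation groupCohomology Polynomial Fermat.Agent.Lib.S56
open Fermat.Agent.Lib.S53 (matOf matOfRes NormData)
open Fermat.Agent.Lib.Deform (dualNumberAlgebra IsTestAlgebra)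

attribute [local instance] Fermat.Agent.Lib.Deform.dualNumberAlgebra

local notation "Γℚ" => (AlgebraicClosure ℚ ≃ₐ[ℚ] AlgebraicClosure ℚ)

section FinalJ

variable {𝒪 : Type} [CommRing 𝒪] [IsDomain 𝒪] [IsDiscreteValuationRing 𝒪]
  [IsAdicComplete (maximalIdeal 𝒪) 𝒪] [Finite (ResidueField 𝒪)]

/-- **the concrete instance of the joint bridge with frames: strict with one marked free variable, and flat, for the
SAME Taylor-Wiles families.** -/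
theorem s59q_inst_ordJ (p : ℕ) [Fact p.Prime] (hp2 : p ≠ 2) (hp𝒪 : (p : 𝒪) ∈ maximalIdeal 𝒪)
    (ρbar : ResidualGaloisRep (ResidueField 𝒪))
    (habs : ρbar.IsAbsolutelyIrreducible)
    (hdet : (GaloisRepAdic.ofResidualGaloisRep ρbar).DetIsCyclotomic p)
    (hsplit : ∀ σ : Γℚ, ∃ α β : ResidueField 𝒪,
      LinearMap.charpoly (ρbar.ρ σ) = (X - C α) * (X - C β))
    (hTW : ∀ (K : Type) [Field K] [Algebra (ResidueField 𝒪) K] (G : Subgroup Γℚ), G.index = 2 →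
      ∀ V : Submodule K (ρbar.baseChange K).V,
        (∀ σ ∈ G, ∀ x ∈ V, (ρbar.baseChange K).ρ σ x ∈ V) → V = ⊥ ∨ V = ⊤)
    (S Smin Bd Ed : Finset ℕ) (hpSmin : p ∈ Smin) (hSmin : Smin ⊆ S) (hBS : Bd ⊆ S) (hES : Ed ⊆ S)
    (hBprime : ∀ q ∈ Bd, q.Prime) (hEprime : ∀ q ∈ Ed, q.Prime)
    (hmin : ∀ q : ℕ, q.Prime → q ≠ p → (q ∈ Smin ↔ ¬ ρbar.IsUnramifiedAt q))
    (hBunr : ∀ q ∈ Bd, q ≠ p ∧ ρbar.IsUnramifiedAt q)
    (hEunr : ∀ q ∈ Ed, q ≠ p ∧ ρbar.IsUnramifiedAt q)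
    (hBE : Disjoint Bd Ed)
    (hcen : ∀ q : Nat.Primes, (q : ℕ) ∈ Bd → s59q_CentralAt ρbar q)
    (N : NormData ρbar) (m e : ℕ) (pr : Fin m ⊕ Fin e → Nat.Primes)
    (hprB : Finset.univ.image (fun j : Fin m => (pr (Sum.inl j) : ℕ)) = Bd)
    (hprE : Finset.univ.image (fun l : Fin e => (pr (Sum.inr l) : ℕ)) = Ed)
    (hBinj : Function.Injective fun j : Fin m => (pr (Sum.inl j) : ℕ))
    (hEinj : Function.Injective fun l : Fin e => (pr (Sum.inr l) : ℕ))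
    (σq φq : Fin m ⊕ Fin e → Γℚ)
    (hσq : ∀ t, s59q_IsTameGen (pr t) (primeLocalPlace (pr t)) (σq t))
    (hφq : ∀ t, (primeLocalPlace (pr t)).IsFrobeniusAt (φq t) (pr t))
    (i2 : 𝒪) (hi2 : 2 * i2 = 1)
    (P P' : Fin m ⊕ Fin e → Matrix (Fin 2) (Fin 2) 𝒪) (hPP' : ∀ t, P t * P' t = 1)
    (hP'P : ∀ t, P' t * P t = 1)
    (lam : Fin e → Fin 2 → 𝒪) (sh : Fin e → Fin 3 → 𝒪)
    (Mres : Fin e → Matrix (Fin 2) (Fin 2) (ResidueField 𝒪))
    (fp : Fin e → Fin 2 → Fin 2 × Fin 2)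
    (hMres : ∀ l, (P' (Sum.inr l)).map (residue 𝒪) * matOfRes ρbar N.b (φq (Sum.inr l)) *
      (P (Sum.inr l)).map (residue 𝒪) = Mres l)
    (hlam : ∀ l, residue 𝒪 (lam l 0) * Mres l 0 0 - residue 𝒪 (lam l 1) * Mres l 1 1 ≠ 0)
    (hsh : ∀ l k, residue 𝒪 (sh l k) = s59f_tlG (fun i => residue 𝒪 (lam l i)) (Mres l) k)
    (hfp : ∀ l (Δ : Matrix (Fin 2) (Fin 2) (ResidueField 𝒪)), Δ * Mres l = Mres l * Δ →
      Δ (fp l 0).1 (fp l 0).2 = 0 → Δ (fp l 1).1 (fp l 1).2 = 0 → Δ = 0)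
    (hW1 : ∀ [Algebra (ZMod p) (ResidueField 𝒪)],
      finrank (ZMod p) ↥(s56z_Lp p ρbar
        (fun ρ => (ρ.DetIsCyclotomic p ∧ ρ.IsStrictOrdinaryAt p) ∧ ρ.IsFlatAt p) (pPrime p)) ≤
      finrank (ZMod p) ↥(Rep.res (primeLocalToGlobal (pPrime p)) (s56z_M p ρbar)).ρ.invariants) :
    ∃ r : ℕ, 3 * m + e + 1 ≤ r ∧ ∀ n : ℕ, ∃ qv : Fin r → ℕ, Function.Injective qv ∧
      (∀ i, (qv i).Prime ∧ qv i ∉ S ∧ p ^ (n + 1) ∣ qv i - 1) ∧
      (∀ i, ∀ A : ValuationSubring (AlgebraicClosure ℚ), A.LiesOverPrime (qv i) →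
        ∀ φ : Γℚ, A.IsFrobeniusAt φ (qv i) →
          ∃ α β : ResidueField 𝒪, α ≠ β ∧ LinearMap.charpoly (ρbar.ρ φ) = (X - C α) * (X - C β)) ∧
      (∀ (DQ : GaloisRep.DeformationRingData 𝒪 ρbar (fun _A _ _ _ ρ =>
          GaloisRep.strictOrdinaryCondition 𝒪 p (Smin ∪ (Bd ∪ Ed) ∪ Finset.univ.image qv) ρ ∧
            ∀ q ∈ Smin, q.Prime → q ≠ p → ρ.IsUnipotentOnInertiaAt q))
        (bR : Basis (Fin 2) DQ.R DQ.ρ.V)
        (hbR : ∀ σ i j, matOf DQ.ρ bR σ i j - algebraMap 𝒪 DQ.R (N.Mtil σ i j) ∈ maximalIdeal DQ.R)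
        {T : Type} [CommRing T] [IsLocalRing T] [IsNoetherianRing T]
        [IsAdicComplete (maximalIdeal T) T] [Algebra 𝒪 T] (_ : IsTestAlgebra 𝒪 T)
        (θ : DQ.R →ₐ[𝒪] T) (_ : Function.Surjective θ)
        (Jt : Set T) (_ : ∀ j ∈ Jt, j ∈ maximalIdeal T)
        (_ : ∀ (f₀ : T →ₐ[𝒪] DualNumber (ResidueField 𝒪)), (∀ j ∈ Jt, f₀ j = 0) →
          ∀ hs : Function.Surjective (f₀.comp θ),
            (s56a_liftRep ρbar (s56a_cocPhi DQ N bR hbR p (s56a_tangentStable_ord 𝒪 p _ Smin)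
                (f₀.comp θ) hs)
              (s56a_isLevel_cocPhi DQ N bR hbR p (s56a_tangentStable_ord 𝒪 p _ Smin)
                (f₀.comp θ) hs)).IsFlatAt p),
        ∃ γ : MvPowerSeries (s59q_GIdx m e (r + m + e)) 𝒪 →ₐ[𝒪] MvPowerSeries (s59q_ZIdx m e) T,
          Function.Surjective γ ∧
          (∀ j k, γ (MvPowerSeries.X (Sum.inl (j, k))) =
            s59q_tl (algebraMap 𝒪 _ i2) (s59q_Fm DQ bR θ P P' (Sum.inl j) (σq (Sum.inl j))) k) ∧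
          (∀ j k, γ (MvPowerSeries.X (Sum.inr (Sum.inl (j, k)))) =
            s59q_tl (algebraMap 𝒪 _ i2) (s59q_Fm DQ bR θ P P' (Sum.inl j) (φq (Sum.inl j))) k) ∧
          (∀ l k, γ (MvPowerSeries.X (Sum.inr (Sum.inr (Sum.inl (l, k))))) =
            s59q_tl (algebraMap 𝒪 _ i2) (s59q_Fm DQ bR θ P P' (Sum.inr l) (σq (Sum.inr l))) k) ∧
          (∀ l k, γ (MvPowerSeries.X (Sum.inr (Sum.inr (Sum.inr (Sum.inl (l, k)))))) =
            s59f_tlG (fun i => algebraMap 𝒪 _ (lam l i))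
                (s59q_Fm DQ bR θ P P' (Sum.inr l) (φq (Sum.inr l))) k -
              algebraMap 𝒪 _ (sh l k)) ∧
          (∀ i : Fin (r + m + e), (i : ℕ) + 1 = r + m + e →
            γ (MvPowerSeries.X (Sum.inr (Sum.inr (Sum.inr (Sum.inr i))))) ∈
              Ideal.span ((fun t : T => (MvPowerSeries.C t : MvPowerSeries (s59q_ZIdx m e) T)) '' Jt))) ∧
      (∀ (DQ : GaloisRep.DeformationRingData 𝒪 ρbar (fun _A _ _ _ ρ =>
          GaloisRep.flatCondition 𝒪 p (Smin ∪ (Bd ∪ Ed) ∪ Finset.univ.image qv) ρ ∧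
            ∀ q ∈ Smin, q.Prime → q ≠ p → ρ.IsUnipotentOnInertiaAt q))
        (bR : Basis (Fin 2) DQ.R DQ.ρ.V)
        (_ : ∀ σ i j, matOf DQ.ρ bR σ i j - algebraMap 𝒪 DQ.R (N.Mtil σ i j) ∈ maximalIdeal DQ.R)
        {T : Type} [CommRing T] [IsLocalRing T] [IsNoetherianRing T]
        [IsAdicComplete (maximalIdeal T) T] [Algebra 𝒪 T] (_ : IsTestAlgebra 𝒪 T)
        (θ : DQ.R →ₐ[𝒪] T) (_ : Function.Surjective θ),
        ∃ γ : MvPowerSeries (s59q_GIdx m e (r + m + e)) 𝒪 →ₐ[𝒪] MvPowerSeries (s59q_ZIdx m e) T,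
          Function.Surjective γ ∧
          (∀ j k, γ (MvPowerSeries.X (Sum.inl (j, k))) =
            s59q_tl (algebraMap 𝒪 _ i2) (s59q_Fm DQ bR θ P P' (Sum.inl j) (σq (Sum.inl j))) k) ∧
          (∀ j k, γ (MvPowerSeries.X (Sum.inr (Sum.inl (j, k)))) =
            s59q_tl (algebraMap 𝒪 _ i2) (s59q_Fm DQ bR θ P P' (Sum.inl j) (φq (Sum.inl j))) k) ∧
          (∀ l k, γ (MvPowerSeries.X (Sum.inr (Sum.inr (Sum.inl (l, k))))) =
            s59q_tl (algebraMap 𝒪 _ i2) (s59q_Fm DQ bR θ P P' (Sum.inr l) (σq (Sum.inr l))) k) ∧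
          (∀ l k, γ (MvPowerSeries.X (Sum.inr (Sum.inr (Sum.inr (Sum.inl (l, k)))))) =
            s59f_tlG (fun i => algebraMap 𝒪 _ (lam l i))
                (s59q_Fm DQ bR θ P P' (Sum.inr l) (φq (Sum.inr l))) k -
              algebraMap 𝒪 _ (sh l k))) := by
  haveI : CharP (ResidueField 𝒪) p := s56z_charP p hp𝒪
  have hpk : ((p : ℕ) : ResidueField 𝒪) = 0 := CharP.cast_eq_zero _ p
  obtain ⟨hBc, hEc, hmemB, hmemE, hpr⟩ := s59q_enum_facts Bd Ed pr hprB hprE hBinj hEinj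
  obtain ⟨r, hr, H⟩ := s59q_bridge_sfJ p hp2 hp𝒪 ρbar habs hdet hsplit hTW S Smin Bd Ed hpSmin
    hSmin hBS hES hBprime hEprime hmin hBunr hEunr hBE hcen hW1
  rw [hBc, hEc] at hr
  refine ⟨r, hr, fun n => ?_⟩
  obtain ⟨qv, h1, h2, h3, -, H4f, H4j⟩ := H n
  have hunr : ∀ t, ((pr t : ℕ) ≠ p) ∧ ρbar.IsUnramifiedAt (pr t) := by
    rintro (j | l)
    · exact hBunr _ (hmemB j)
    · exact hEunr _ (hmemE l)
  have hscal : ∀ j : Fin m, ∃ c : ResidueField 𝒪,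
      matOfRes ρbar N.b (φq (Sum.inl j)) = c • (1 : Matrix (Fin 2) (Fin 2) (ResidueField 𝒪)) :=
    fun j => s59q_scalar_of_central ρbar (pr (Sum.inl j)) (hcen _ (hmemB j)) N.b _
      (hφq (Sum.inl j)).mem_decompositionSubgroup
  refine ⟨qv, h1, h2, h3, fun DQ bR hbR T _ _ _ _ _ hT θ hθ Jt hJtm hJt => ?_,
    fun DQ bR hbR T _ _ _ _ _ hT θ hθ => ?_⟩
  · obtain ⟨γ, hγ, e1, e2, e3, e4, e5⟩ := s59q_inst_coreJ DQ N bR hbR p (s56a_tangentStable_ord 𝒪 p _ Smin) hpk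
      (r - (3 * Bd.card + Ed.card) - 1) {q : Nat.Primes | (q : ℕ) ∈ Bd ∪ Ed} (fun ρ => ρ.IsFlatAt p)
      (fun {Cr} _ _ _ _ hC ψ E w Λ hE1 hE2 J hJm hJfl => H4j DQ N bR hbR hC ψ E w Λ hE1 hE2 J hJm hJfl)
      pr hpr hunr σq φq hσq hφq i2 hi2 P P' hPP' hP'P hscal lam sh Mres fp hMres hlam hsh hfp hT θ hθ
      Jt hJtm hJt (r + m + e) (by rw [hBc, hEc]; omega)
    refine ⟨γ, hγ, e1, e2, e3, e4, fun i hi => e5 i ?_⟩
    rw [hBc, hEc]
    omega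
  · refine s59f_inst_coreG DQ N bR hbR p (s56a_tangentStable_flat 𝒪 p _ Smin) hpk
      (r - (3 * Bd.card + Ed.card)) {q : Nat.Primes | (q : ℕ) ∈ Bd ∪ Ed}
      (fun {Cr} _ _ _ _ hC ψ E w Λ hE1 hE2 => H4f DQ N bR hbR hC ψ E w Λ hE1 hE2)
      pr hpr hunr σq φq hσq hφq i2 hi2 P P' hPP' hP'P hscal lam sh Mres fp hMres hlam hsh hfp hT θ hθ
      (r + m + e) ?_
    rw [hBc, hEc]
    omega

end FinalJ

end Fermat.Agent.Lib.S59
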