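/-
PROGRAMME (R), non-minimal case (P), route (T5w) (helper6, prefix `s59q_`): **tangent vectors killing the kernel of the map
to the "strict AND flat" ring induce FLAT first-order lifts** (the hypothesis `hJt` of `s59q_inst_coreJ`).

`DQs` a universal ring (any tangent-stable type), `θ : DQs.R → T` with `(DQs.ρ ⊗_θ T) ≅ ρT`, `κ : T ↠ Dsf.R` with
`(ρT ⊗_κ Dsf.R) ≅ Dsf.ρ` and `Dsf.ρ` flat at `p`.  Then for every `f₀ : T →ₐ[𝒪] k[ε]` killing `ker κ` with `f₀ ∘ θ` onto,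
the first-order lift attached to `f₀ ∘ θ` is flat at `p`                                     (`s59q_flat_of_kill_ker`).
-/
import Fermat.Agent.Lib.S59.FLiftK

set_option autoImplicit false
set_option linter.style.haveILetI false
set_option linter.unusedSectionVars false
set_option linter.unusedVariables false

noncomputable section

namespace Fermat.Agent.Lib.S59

open IsLocalRing Module
open Fermat.Agent.Lib.S53 (matOf matOfRes NormData isEquiv_of_matOf_eq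
  exists_basis_baseChangeAlong exists_basis_of_isEquiv isEquiv_symm isEquiv_trans)
open Fermat.Agent.Lib.Deform (dualNumberAlgebra IsTestAlgebra isTestAlgebra_dualNumber)
open Fermat.Agent.Lib.S56

attribute [local instance] Fermat.Agent.Lib.Deform.dualNumberAlgebra

local notation "Γℚ" => (AlgebraicClosure ℚ ≃ₐ[ℚ] AlgebraicClosure ℚ)

variable {𝒪 : Type} [CommRing 𝒪] [IsDomain 𝒪] [IsDiscreteValuationRing 𝒪]
  [IsAdicComplete (maximalIdeal 𝒪) 𝒪]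
  {ρbar : ResidualGaloisRep (ResidueField 𝒪)}
  {𝒟s 𝒟sf : ∀ ⦃A : Type⦄ [CommRing A] [IsLocalRing A] [Algebra 𝒪 A], GaloisRepAdic A → Prop}

/-- **tangent vectors killing `ker κ` induce flat first-order lifts.** -/
theorem s59q_flat_of_kill_ker
    (DQs : GaloisRep.DeformationRingData 𝒪 ρbar 𝒟s) (Dsf : GaloisRep.DeformationRingData 𝒪 ρbar 𝒟sf)
    (N : NormData ρbar) (bR : Basis (Fin 2) DQs.R DQs.ρ.V)
    (hbR : ∀ σ i j, matOf DQs.ρ bR σ i j - algebraMap 𝒪 DQs.R (N.Mtil σ i j) ∈ maximalIdeal DQs.R)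
    (p : ℕ) [Fact p.Prime] (h𝒟 : s56a_TangentStable 𝒪 𝒟s p)
    {T : Type} [CommRing T] [IsLocalRing T] [Algebra 𝒪 T] (ρT : GaloisRepAdic T)
    (θ : DQs.R →ₐ[𝒪] T) (hθ : IsLocalHom (θ : DQs.R →+* T))
    (eθ : (DQs.ρ.baseChangeAlong (θ : DQs.R →+* T) hθ).IsEquiv ρT)
    (κ : T →ₐ[𝒪] Dsf.R) (hκ : IsLocalHom (κ : T →+* Dsf.R))
    (eκ : (ρT.baseChangeAlong (κ : T →+* Dsf.R) hκ).IsEquiv Dsf.ρ)
    (hκsurj : Function.Surjective κ) (hfl : Dsf.ρ.IsFlatAt p)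
    (f₀ : T →ₐ[𝒪] DualNumber (ResidueField 𝒪)) (hf₀ : ∀ j ∈ RingHom.ker (κ : T →+* Dsf.R), f₀ j = 0)
    (hs : Function.Surjective (f₀.comp θ)) :
    (s56a_liftRep ρbar (s56a_cocPhi DQs N bR hbR p h𝒟 (f₀.comp θ) hs)
      (s56a_isLevel_cocPhi DQs N bR hbR p h𝒟 (f₀.comp θ) hs)).IsFlatAt p := by
  classical
  -- the factorisation of `f₀` through `κ`
  have hker : RingHom.ker (κ : T →+* Dsf.R) ≤ RingHom.ker (f₀ : T →+* DualNumber (ResidueField 𝒪)) :=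
    fun j hj => (RingHom.mem_ker).2 (hf₀ j hj)
  have hκs : Function.Surjective (κ : T →+* Dsf.R) := hκsurj
  set g₀ : Dsf.R →+* DualNumber (ResidueField 𝒪) :=
    (κ : T →+* Dsf.R).liftOfSurjective hκs ⟨(f₀ : T →+* DualNumber (ResidueField 𝒪)), hker⟩ with hg₀
  have hg₀κ : ∀ x : T, g₀ (κ x) = f₀ x := fun x =>
    RingHom.liftOfSurjective_comp_apply (κ : T →+* Dsf.R) hκs
      ⟨(f₀ : T →+* DualNumber (ResidueField 𝒪)), hker⟩ x
  have hg₀surj : Function.Surjective g₀ := by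
    intro y
    obtain ⟨x, hx⟩ := hs y
    exact ⟨κ (θ x), by rw [hg₀κ]; exact hx⟩
  have hg₀loc : IsLocalHom g₀ := IsLocalHom.of_surjective g₀ hg₀surj
  -- the flat representation over `k[ε]`
  have hflat : (Dsf.ρ.baseChangeAlong g₀ hg₀loc).IsFlatAt p :=
    s56a_isFlatAt_baseChange g₀ hg₀loc hg₀surj Dsf.ρ hfl
  -- bases
  have hφl := s56a_isLocalHom_hom DQs (f₀.comp θ)
  obtain ⟨b1, hb1⟩ := exists_basis_baseChangeAlong DQs.ρ bR (θ : DQs.R →+* T) hθ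
  obtain ⟨b2, hb2⟩ := exists_basis_of_isEquiv eθ b1
  obtain ⟨b3, hb3⟩ := exists_basis_baseChangeAlong ρT b2 (κ : T →+* Dsf.R) hκ
  obtain ⟨b4, hb4⟩ := exists_basis_of_isEquiv eκ b3
  obtain ⟨b5, hb5⟩ := exists_basis_baseChangeAlong Dsf.ρ b4 g₀ hg₀loc
  obtain ⟨bφ, hbφ⟩ := exists_basis_baseChangeAlong DQs.ρ bR
    ((f₀.comp θ : DQs.R →ₐ[𝒪] DualNumber (ResidueField 𝒪)) : DQs.R →+* DualNumber (ResidueField 𝒪)) hφl
  have e1 : (Dsf.ρ.baseChangeAlong g₀ hg₀loc).IsEquiv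
      (DQs.ρ.baseChangeAlong
        ((f₀.comp θ : DQs.R →ₐ[𝒪] DualNumber (ResidueField 𝒪)) : DQs.R →+* DualNumber (ResidueField 𝒪))
        hφl) := by
    refine isEquiv_of_matOf_eq b5 bφ fun σ => ?_
    rw [hb5, hb4, hb3, hb2, hb1, hbφ]
    refine Matrix.ext fun i j => ?_
    simp only [Matrix.map_apply]
    exact hg₀κ _
  have e2 := isEquiv_trans e1
    (isEquiv_symm (s56a_liftRep_cocPhi_isEquiv DQs N bR hbR p h𝒟 (f₀.comp θ) hs))
  obtain ⟨e⟩ := e2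
  exact s56a_isFlatAt_of_equiv e hflat

end Fermat.Agent.Lib.S59
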