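/-
S59, plan [C2P] (helper3, prefix `s59u_c2_`), file B: **THE WEAK STRICT `T`-SIDE CONTRACT WITH A PRESCRIBED FIRST RAISING PRIME `q₀`,
AND THE `W`-SPECIFIC `R`-SIDE OVER IT** — scripted twin of the second half of my UWSpH.lean.

`s59u_c2_TPkgFLR p W hΔ N₀ s k₀ q₀` = `s59u_w_sp_TPkgFLR p W hΔ N₀ s k₀` with ONE more premise handed to the `T`-side: there is at
least one real step, and the FIRST real step `step k₀` is the prime `q₀` (`0 < k ∧ pr (swap (step k₀)) = q₀`).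
`s59u_c2_FLR_W_core_ord` = `s59u_w_sp_FLR_W_core_ord` over this contract, for any `q₀ ∈ Rs`: the `R`-side chooses the order of the
steps by `s59u_c2_exists_step` (UC2A.lean) instead of `s59u_sp_exists_step`.

Use ([C2P], `p = 3`): `N₀ = 3·L·r` ODD, `q₀ = 2` — the prime `2` is the FIRST raising prime, so that every level of the chain except
the base level `N 0 = N₀` is EVEN.
-/
import Mathlib
import Fermat.Agent.Lib.S59.USpH
import Fermat.Agent.Lib.S59.QSSpE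
import Fermat.Agent.Lib.S59.BOrdSS
import Fermat.Agent.Lib.S59.UWSpE
import Fermat.Agent.Lib.S59.UWSpH
import Fermat.Agent.Lib.S59.UC2A

set_option autoImplicit false
set_option linter.unusedSectionVars false
set_option linter.unusedVariables false
set_option linter.style.haveILetI false
set_option maxHeartbeats 3200000
set_option synthInstance.maxHeartbeats 400000

noncomputable section

namespace Fermat.Agent.Lib.S59

open IsLocalRing Module CuspForm ExtCitation Fermat.Agent.Lib.S56 Fermat.Agent.Lib.S44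
open Fermat.Agent.Lib.S53 (matOf matOfRes matOfRes_apply matOf_apply NormData exists_normData
  exists_basis_baseChangeAlong exists_basis_of_isEquiv)
open Fermat.Agent.Lib.Deform (IsTestAlgebra)

local notation "Γℚ" => (AlgebraicClosure ℚ ≃ₐ[ℚ] AlgebraicClosure ℚ)

/-! ### The `T`-side contract -/

/-- **the `T`-side contract of [PATCH-FLR] (STRICT-ORDINARY type, `p ∣ N₀`) at the base level `N₀` with the spectator
`s ∣ N₀` and the prescribed FIRST raising prime `q₀`** (`k₀ = 0`: never raised; `k₀ = 1`: raised virtually): for every coefficient ring `𝒪` and all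
raising data `(m, e, pr, σq, φq, ls, εs, step, k)` with the properties guaranteed by the `R`-side
(`pr (inr ls) = s` is the spectator), the records `s59f_TBaseF` / `s59f_TLevelF` along the REAL steps
`t ↦ step (k₀ + t)`, the Hecke map of the top base ring, and the modular base point. -/
def s59u_c2_TPkgFLR (p : ℕ) [Fact p.Prime] (W : WeierstrassCurve ℤ) (hΔ : W.Δ ≠ 0) (N₀ : ℕ)
    (s : ℕ) (k₀ : ℕ) (q₀ : ℕ) : Prop :=
  ∀ (𝒪 : Type) [CommRing 𝒪] [IsDomain 𝒪] [IsDiscreteValuationRing 𝒪]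
    [IsAdicComplete (maximalIdeal 𝒪) 𝒪] [Finite (ResidueField 𝒪)] [CharZero 𝒪]
    [Algebra ℤ_[p] 𝒪] [Module.Finite ℤ_[p] 𝒪]
    (hp𝒪 : ((p : ℕ) : 𝒪) ∈ maximalIdeal 𝒪)
    (_hsplitℤ : ∀ a b : ℤ, ∃ α β : ResidueField 𝒪,
      α + β = (a : ResidueField 𝒪) ∧ α * β = (b : ResidueField 𝒪))
    (m e : ℕ) (pr : Fin m ⊕ Fin e → Nat.Primes) (σq φq : Fin m ⊕ Fin e → Γℚ)
    (ls : Fin e) (εs : 𝒪)
    (step : ℕ → Fin e ⊕ Fin m) (k : ℕ) (N : ℕ) [NeZero N] (B : Finset ℕ),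
    Function.Injective (fun t => (pr t : ℕ)) →
    -- the spectator
    (pr (Sum.inr ls) : ℕ) = s →
    (s59i_rhobarW W p hΔ 𝒪 hp𝒪).IsUnramifiedAt s →
    (εs = 1 ∨ εs = -1) →
    LinearMap.charpoly ((s59i_rhobarW W p hΔ 𝒪 hp𝒪).ρ (φq (Sum.inr ls))) =
      (Polynomial.X - Polynomial.C (residue 𝒪 (εs * ((s : ℕ) : 𝒪)))) *
        (Polynomial.X - Polynomial.C (residue 𝒪 εs)) →
    (k₀ = 0 → (s59q_WRho W hΔ hp𝒪).IsUnramifiedAt s) →
    (k₀ = 1 → ¬ (s59q_WRho W hΔ hp𝒪).IsUnramifiedAt s ∧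
      s59i_cpTr (s59q_WRho W hΔ hp𝒪) (φq (Sum.inr ls)) = εs * (((s : ℕ) : 𝒪) + 1)) →
    -- the raising primes
    (∀ t, t ≠ Sum.inr ls → (pr t : ℕ) ≠ p ∧ ¬ (pr t : ℕ) ∣ N₀ ∧ ¬ W.IsGoodPrimeFor (pr t) ∧
      (s59i_rhobarW W p hΔ 𝒪 hp𝒪).IsUnramifiedAt (pr t) ∧
      ¬ (s59q_WRho W hΔ hp𝒪).IsUnramifiedAt (pr t)) →
    (∀ t, s59q_IsTameGen (pr t) (primeLocalPlace (pr t)) (σq t)) →
    (∀ t, (primeLocalPlace (pr t)).IsFrobeniusAt (φq t) (pr t)) →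
    (∀ t, t ≠ Sum.inr ls → ∃ ε : 𝒪, (ε = 1 ∨ ε = -1) ∧
      s59i_cpTr (s59q_WRho W hΔ hp𝒪) (φq t) = ε * ((((pr t : ℕ) : ℕ) : 𝒪) + 1)) →
    -- the order of the steps: `k₀` virtual steps at the spectator, then `k` real steps
    (∀ t < k₀ + k, ∀ t' < t, step t' ≠ step t) →
    (∀ t < k₀, step t = Sum.inl ls) →
    (∀ t, k₀ ≤ t → t < k₀ + k → step t ≠ Sum.inl ls) →
    (∀ x : Fin e ⊕ Fin m, x ≠ Sum.inl ls → ∃ t, k₀ ≤ t ∧ t < k₀ + k ∧ step t = x) →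
    -- the FIRST real step is the prime `q₀`
    (0 < k ∧ (pr (Sum.swap (step k₀)) : ℕ) = q₀) →
    -- the top level
    N = N₀ * ∏ t ∈ Finset.univ.erase (Sum.inr ls), (pr t : ℕ) → Squarefree N → p ∣ N →
    B = (N * p).primeFactors ∪ W.Δ.natAbs.primeFactors →
    -- `ρ_W ⊗ 𝒪` is unramified outside `Σ_min ∪ {raising primes, s}`
    (∀ q : ℕ, q.Prime → q ∉ s59q_WSmin W hΔ hp𝒪 ∪
        (Finset.univ.image (fun j : Fin m => (pr (Sum.inl j) : ℕ)) ∪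
          Finset.univ.image (fun l : Fin e => (pr (Sum.inr l) : ℕ))) →
      (s59q_WRho W hΔ hp𝒪).IsUnramifiedAt q) →
    -- a universal ring of the type of the BASE level exists
    Nonempty (GaloisRep.DeformationRingData 𝒪 (s59i_rhobarW W p hΔ 𝒪 hp𝒪) (fun _A _ _ _ ρ =>
      GaloisRep.strictOrdinaryCondition 𝒪 p (s59q_WSmin W hΔ hp𝒪 ∪ {s}) ρ ∧
        ∀ q ∈ s59q_WSmin W hΔ hp𝒪 ∪
          (Finset.univ.image (fun j : Fin m => (pr (Sum.inl j) : ℕ)) ∪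
            Finset.univ.image (fun l : Fin e => (pr (Sum.inr l) : ℕ))),
          q.Prime → q ≠ p → ρ.IsUnipotentOnInertiaAt q)) →
    ∀ (D0 : GaloisRep.DeformationRingData 𝒪 (s59i_rhobarW W p hΔ 𝒪 hp𝒪) (fun _A _ _ _ ρ =>
        GaloisRep.strictOrdinaryCondition 𝒪 p (s59q_WSmin W hΔ hp𝒪 ∪
          (Finset.univ.image (fun j : Fin m => (pr (Sum.inl j) : ℕ)) ∪
            Finset.univ.image (fun l : Fin e => (pr (Sum.inr l) : ℕ)))) ρ ∧
          ∀ q ∈ s59q_WSmin W hΔ hp𝒪 ∪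
            (Finset.univ.image (fun j : Fin m => (pr (Sum.inl j) : ℕ)) ∪
              Finset.univ.image (fun l : Fin e => (pr (Sum.inr l) : ℕ))),
            q.Prime → q ≠ p → ρ.IsUnipotentOnInertiaAt q)),
      ∃ Bs : s59f_TBaseF 𝒪 k D0,
        (∃ hk : heckeAlgebra N 2 (↑B : Set ℕ) →+* Bs.R k,
          ∀ (ℓ : ℕ) (hℓ : ℓ.Prime) (hℓN : ¬ ℓ ∣ N) (hℓB : ℓ ∉ (↑B : Set ℕ)),
          ∀ A : ValuationSubring (AlgebraicClosure ℚ), A.LiesOverPrime ℓ →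
          ∀ g : Γℚ, A.IsFrobeniusAt g ℓ →
            LinearMap.charpoly ((Bs.ρR k).ρ g) =
              Polynomial.X ^ 2 - Polynomial.C (hk (heckeAlgebra.T hℓ hℓN hℓB)) * Polynomial.X +
                Polynomial.C ((ℓ : Bs.R k))) ∧
        -- the modular base point of level `N₀`
        (∃ (𝒪₀ : Type) (_ : CommRing 𝒪₀) (_ : IsDomain 𝒪₀) (x₀ : D0.R →+* 𝒪₀),
          (∀ a : D0.R, (∀ mm : Bs.M 0, Bs.ν 0 a • mm = 0) → x₀ a = 0) ∧
          (∀ t : Fin m ⊕ Fin e, (k₀ = 1 → t ≠ Sum.inr ls) →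
            x₀ (s59i_cpTr D0.ρ (φq t)) * x₀ (s59i_cpTr D0.ρ (φq t)) ≠
              ((((pr t : ℕ) : ℕ) : 𝒪₀) + 1) * ((((pr t : ℕ) : ℕ) : 𝒪₀) + 1)) ∧
          (k₀ = 1 → ∃ (f : Module.Dual D0.R D0.ρ.V) (v : D0.ρ.V),
            x₀ (f (D0.ρ.ρ (σq (Sum.inr ls)) v - v)) ≠ 0) ∧
          (k₀ = 1 → x₀ (s59i_cpTr D0.ρ (φq (Sum.inr ls))) +
            x₀ (algebraMap 𝒪 D0.R (εs * (((s : ℕ) : 𝒪) + 1))) ≠ 0)) ∧
        ∀ r : ℕ, 3 * m + e ≤ r → ∀ (n : ℕ) (qv : Fin r → ℕ), Function.Injective qv →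
          (∀ i, (qv i).Prime ∧ qv i ∉ B ∧ p ^ (n + 1) ∣ qv i - 1) →
          (∀ i, ∀ A : ValuationSubring (AlgebraicClosure ℚ), A.LiesOverPrime (qv i) →
            ∀ φ : Γℚ, A.IsFrobeniusAt φ (qv i) →
              ∃ α β : ResidueField 𝒪, α ≠ β ∧
                LinearMap.charpoly ((s59i_rhobarW W p hΔ 𝒪 hp𝒪).ρ φ) =
                  (Polynomial.X - Polynomial.C α) * (Polynomial.X - Polynomial.C β)) →
          ∀ (DQ : GaloisRep.DeformationRingData 𝒪 (s59i_rhobarW W p hΔ 𝒪 hp𝒪) (fun _A _ _ _ ρ =>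
            GaloisRep.strictOrdinaryCondition 𝒪 p (s59q_WSmin W hΔ hp𝒪 ∪
              (Finset.univ.image (fun j : Fin m => (pr (Sum.inl j) : ℕ)) ∪
                Finset.univ.image (fun l : Fin e => (pr (Sum.inr l) : ℕ))) ∪
              Finset.univ.image qv) ρ ∧
              ∀ q ∈ s59q_WSmin W hΔ hp𝒪 ∪
                (Finset.univ.image (fun j : Fin m => (pr (Sum.inl j) : ℕ)) ∪
                  Finset.univ.image (fun l : Fin e => (pr (Sum.inr l) : ℕ))),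
                q.Prime → q ≠ p → ρ.IsUnipotentOnInertiaAt q))
            (Dsf : GaloisRep.DeformationRingData 𝒪 (s59i_rhobarW W p hΔ 𝒪 hp𝒪)
              (s59q_SfType 𝒪 p (s59q_WSmin W hΔ hp𝒪 ∪
                (Finset.univ.image (fun j : Fin m => (pr (Sum.inl j) : ℕ)) ∪
                  Finset.univ.image (fun l : Fin e => (pr (Sum.inr l) : ℕ))) ∪
                Finset.univ.image qv)
                (s59q_WSmin W hΔ hp𝒪 ∪
                  (Finset.univ.image (fun j : Fin m => (pr (Sum.inl j) : ℕ)) ∪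
                    Finset.univ.image (fun l : Fin e => (pr (Sum.inr l) : ℕ))))))
            (κsf : DQ.R →ₐ[𝒪] Dsf.R), Function.Surjective κsf →
            (∀ g, κsf (s59i_cpTr DQ.ρ g) = s59i_cpTr Dsf.ρ g) →
            Nonempty (s59b_TLevelFW 𝒪 p n r (s59q_ZIdx m e) k Bs qv
              (fun t => (pr (Sum.swap (step (k₀ + t))) : ℕ))
              (fun t => φq (Sum.swap (step (k₀ + t))))
              (fun t => σq (Sum.swap (step (k₀ + t)))) DQ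
              (↑(RingHom.ker (κsf : DQ.R →+* Dsf.R)) : Set DQ.R))

/-! ### The assembly -/

/-- **[PATCH-FLR], STRICT-ORDINARY type (`W` multiplicative at `p`, `p ∣ N₀`), ONE SPECTATOR `s ∣ N₀` in the base level: the `W`-specific assembly over
the `T`-side contract** (`k₀ = 0`: `ρ_W ⊗ 𝒪` unramified at `s`, type (c1); `k₀ = 1`: ramified at `s` with
`tr ρ_W(Frob_s) = εs (s+1)`, type (c2)). The set `Rs` of the raising primes may be empty. -/
theorem s59u_c2_FLR_W_core_ord (p : ℕ) [hpF : Fact p.Prime] (hp35 : p = 3 ∨ p = 5)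
    (W : WeierstrassCurve ℤ)
    (hΔ : W.Δ ≠ 0) (hss : W.IsSemistableModel) (hirr : W.ModRepIsIrreducible p)
    (hmult : ¬ W.IsGoodPrimeFor p) (N₀ : ℕ) (hN₀ : N₀ ≠ 0) (hsq : Squarefree N₀) (hpN₀ : p ∣ N₀)
    (𝒪 : Type) [CommRing 𝒪] [IsDomain 𝒪] [IsDiscreteValuationRing 𝒪]
    [IsAdicComplete (maximalIdeal 𝒪) 𝒪] [Finite (ResidueField 𝒪)] [CharZero 𝒪]
    [Algebra ℤ_[p] 𝒪] [Module.Finite ℤ_[p] 𝒪]
    (hp𝒪 : ((p : ℕ) : 𝒪) ∈ maximalIdeal 𝒪)
    (hsplitℤ : ∀ a b : ℤ, ∃ α β : ResidueField 𝒪,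
      α + β = (a : ResidueField 𝒪) ∧ α * β = (b : ResidueField 𝒪))
    (Rs : Finset ℕ)
    (hRs : ∀ q ∈ Rs, q.Prime ∧ q ≠ p ∧ ¬ q ∣ N₀ ∧ ¬ W.IsGoodPrimeFor q ∧
      (s59q_WRhobar W hΔ hp𝒪).IsUnramifiedAt q ∧ ¬ (s59q_WRho W hΔ hp𝒪).IsUnramifiedAt q)
    -- the spectator
    (s : Nat.Primes) (hsp : (s : ℕ) ≠ p) (hsN₀ : (s : ℕ) ∣ N₀) (hsns : ¬ p ∣ (s : ℕ) - 1)
    (hsU : (s59q_WRhobar W hΔ hp𝒪).IsUnramifiedAt s)
    (εs : 𝒪) (hεs : εs = 1 ∨ εs = -1)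
    (φs : Γℚ) (hφs : (primeLocalPlace s).IsFrobeniusAt φs s)
    (hscp : LinearMap.charpoly ((s59q_WRhobar W hΔ hp𝒪).ρ φs) =
      (Polynomial.X - Polynomial.C (residue 𝒪 (εs * (((s : ℕ) : ℕ) : 𝒪)))) *
        (Polynomial.X - Polynomial.C (residue 𝒪 εs)))
    (k₀ : ℕ)
    (hspec : (k₀ = 0 ∧ (s59q_WRho W hΔ hp𝒪).IsUnramifiedAt s) ∨
      (k₀ = 1 ∧ ¬ (s59q_WRho W hΔ hp𝒪).IsUnramifiedAt s ∧
        s59i_cpTr (s59q_WRho W hΔ hp𝒪) φs = εs * ((((s : ℕ) : ℕ) : 𝒪) + 1)))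
    (hunrW : ∀ q : ℕ, q.Prime → q ∉ s59q_WSmin W hΔ hp𝒪 ∪ insert (s : ℕ) Rs →
      (s59q_WRho W hΔ hp𝒪).IsUnramifiedAt q)
    (hDm : Nonempty (GaloisRep.DeformationRingData 𝒪 (s59i_rhobarW W p hΔ 𝒪 hp𝒪)
      (fun _A _ _ _ ρ => GaloisRep.strictOrdinaryCondition 𝒪 p (s59q_WSmin W hΔ hp𝒪 ∪ {(s : ℕ)}) ρ ∧
        ∀ q ∈ s59q_WSmin W hΔ hp𝒪 ∪ insert (s : ℕ) Rs, q.Prime → q ≠ p →
          ρ.IsUnipotentOnInertiaAt q)))
    (hDsf0 : Nonempty (GaloisRep.DeformationRingData 𝒪 (s59i_rhobarW W p hΔ 𝒪 hp𝒪)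
      (s59q_SfType 𝒪 p (s59q_WSmin W hΔ hp𝒪 ∪ insert (s : ℕ) Rs)
        (s59q_WSmin W hΔ hp𝒪 ∪ insert (s : ℕ) Rs))))
    (q₀ : ℕ) (hq₀Rs : q₀ ∈ Rs)
    (HT : s59u_c2_TPkgFLR p W hΔ N₀ s k₀ q₀) :
    ∃ (N : ℕ) (_ : NeZero N) (χ : heckeAlgebra N 2
        (↑((N * p).primeFactors ∪ W.Δ.natAbs.primeFactors) : Set ℕ) →+* 𝒪),
      N = N₀ * ∏ q ∈ Rs, q ∧ Squarefree N ∧ p ∣ N ∧
      ∀ (ℓ : ℕ) (hℓ : ℓ.Prime) (hℓN : ¬ ℓ ∣ N)
        (hℓB : ℓ ∉ (↑((N * p).primeFactors ∪ W.Δ.natAbs.primeFactors) : Set ℕ)),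
        χ (heckeAlgebra.T hℓ hℓN hℓB) = ((W.apOfModel ℓ : ℤ) : 𝒪) := by
  classical
  have hpP : p.Prime := hpF.out
  have hp2 : p ≠ 2 := s59q_W_p_ne_two hp35
  have habs := s59q_W_habs W hΔ hp𝒪 hp35 hss hirr
  obtain ⟨Nd⟩ := exists_normData (s59q_WRhobar W hΔ hp𝒪) habs
  obtain ⟨i2, hi2⟩ := s59q_two_inv p hp2 hp𝒪
  have hk₀ : k₀ ≤ 1 := by rcases hspec with ⟨h, -⟩ | ⟨h, -⟩ <;> omega
  have hsRs : (s : ℕ) ∉ Rs := fun h => (hRs _ h).2.2.1 hsN₀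
  -- Frobenius elements and tame generators at all primes
  have hfrob : ∀ q : Nat.Primes, ∃ φ : Γℚ, (primeLocalPlace q).IsFrobeniusAt φ q ∧
      (q = s → φ = φs) := by
    intro q
    by_cases hqs : q = s
    · subst hqs
      exact ⟨φs, hφs, fun _ => rfl⟩
    · obtain ⟨φ, hφ⟩ := s56z_exists_frob q
      exact ⟨φ, hφ, fun h => absurd h hqs⟩
  choose φall hφall hφalls using hfrob
  have hφs' : φall s = φs := hφalls s rfl
  choose σall hσall using fun q : Nat.Primes =>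
    s59q_exists_isTameGen q.2 (s56z_place_liesOver q)
  -- the signs
  have hsign : ∀ q : Nat.Primes, ∃ ε : 𝒪, (ε = 1 ∨ ε = -1) ∧ ((q : ℕ) ∈ Rs →
      s59i_cpTr (s59q_WRho W hΔ hp𝒪) (φall q) = ε * ((((q : ℕ) : ℕ) : 𝒪) + 1) ∧
      LinearMap.charpoly ((s59q_WRhobar W hΔ hp𝒪).ρ (φall q)) =
        (Polynomial.X - Polynomial.C (residue 𝒪 (ε * (((q : ℕ) : ℕ) : 𝒪)))) *
          (Polynomial.X - Polynomial.C (residue 𝒪 ε))) ∧ (q = s → ε = εs) := by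
    intro q
    by_cases hq : (q : ℕ) ∈ Rs
    · obtain ⟨-, hqp, -, -, hU, hram⟩ := hRs q hq
      obtain ⟨ε, hε, h1, h2⟩ := s59f_W_sign W hΔ hp𝒪 hp2 hss hirr q q.2 hqp hU hram
        (primeLocalPlace q) (s56z_place_liesOver q) (φall q) (hφall q)
      exact ⟨ε, hε, fun _ => ⟨h1, h2⟩, fun h => absurd (h ▸ hq) hsRs⟩
    · by_cases hqs : q = s
      · exact ⟨εs, hεs, fun h => absurd h hq, fun _ => rfl⟩
      · exact ⟨1, Or.inl rfl, fun h => absurd h hq, fun h => absurd h hqs⟩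
  choose εall hεall hεRs hεsp using hsign
  have hεs' : εall s = εs := hεsp s rfl
  -- the classification of the raising primes
  set isB : ℕ → Prop := fun q => p ∣ q - 1 ∧ ∃ hq : q.Prime,
    (s59q_WRhobar W hΔ hp𝒪).ρ (φall ⟨q, hq⟩) =
      residue 𝒪 (εall ⟨q, hq⟩) • (1 : Module.End (ResidueField 𝒪) (s59q_WRhobar W hΔ hp𝒪).V)
    with hisB
  set Bd : Finset ℕ := Rs.filter isB with hBd
  set Ed' : Finset ℕ := Rs.filter (fun q => ¬ isB q) with hEd'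
  set Ed : Finset ℕ := insert (s : ℕ) Ed' with hEd
  have hBdEd' : Bd ∪ Ed' = Rs := Finset.filter_union_filter_not_eq _ _
  have hBE' : Disjoint Bd Ed' := Finset.disjoint_filter_filter_not _ _ _
  have hBdRs : ∀ q ∈ Bd, q ∈ Rs := fun q hq => (Finset.mem_filter.mp hq).1
  have hEdRs' : ∀ q ∈ Ed', q ∈ Rs := fun q hq => (Finset.mem_filter.mp hq).1
  have hEdRs : ∀ q ∈ Ed, q ≠ (s : ℕ) → q ∈ Rs := fun q hq hqs =>
    hEdRs' q ((Finset.mem_insert.mp hq).resolve_left hqs)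
  have hBE : Disjoint Bd Ed :=
    Finset.disjoint_insert_right.mpr ⟨fun h => hsRs (hBdRs _ h), hBE'⟩
  have hsEd : (s : ℕ) ∈ Ed := Finset.mem_insert_self _ _
  have hBdEd : Bd ∪ Ed = insert (s : ℕ) Rs := by
    rw [hEd, Finset.union_insert, hBdEd']
  have hEdP : ∀ q ∈ Ed, q.Prime := by
    intro q hq
    by_cases hqs : q = (s : ℕ)
    · rw [hqs]; exact s.2
    · exact (hRs q (hEdRs q hq hqs)).1
  obtain ⟨prB, hBinj, hprB⟩ := s59q_exists_enum Bd (fun q hq => (hRs q (hBdRs q hq)).1)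
  obtain ⟨prE, hEinj, hprE⟩ := s59q_exists_enum Ed hEdP
  set pr : Fin Bd.card ⊕ Fin Ed.card → Nat.Primes := Sum.elim prB prE with hpr
  have hmemB : ∀ j, (prB j : ℕ) ∈ Bd := fun j => by
    rw [← hprB]; exact Finset.mem_image_of_mem _ (Finset.mem_univ j)
  have hmemE : ∀ l, (prE l : ℕ) ∈ Ed := fun l => by
    rw [← hprE]; exact Finset.mem_image_of_mem _ (Finset.mem_univ l)
  -- the index of the spectator
  obtain ⟨ls, hls⟩ : ∃ ls : Fin Ed.card, prE ls = s := by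
    have h := hsEd
    rw [← hprE] at h
    obtain ⟨l, -, hl⟩ := Finset.mem_image.mp h
    exact ⟨l, Subtype.ext hl⟩
  have hlsne : ∀ l, l ≠ ls → (prE l : ℕ) ≠ (s : ℕ) := by
    intro l hl h
    apply hl
    apply hEinj
    show (prE l : ℕ) = (prE ls : ℕ)
    rw [h, hls]
  have hmemRs : ∀ t, t ≠ Sum.inr ls → (pr t : ℕ) ∈ Rs := by
    rintro (j | l) ht
    · exact hBdRs _ (hmemB j)
    · exact hEdRs _ (hmemE l) (hlsne l fun h => ht (by rw [h]))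
  set σq : Fin Bd.card ⊕ Fin Ed.card → Γℚ := fun t => σall (pr t) with hσqdef
  set φq : Fin Bd.card ⊕ Fin Ed.card → Γℚ := fun t => φall (pr t) with hφqdef
  have hσq : ∀ t, s59q_IsTameGen (pr t) (primeLocalPlace (pr t)) (σq t) := fun t => hσall (pr t)
  have hφq : ∀ t, (primeLocalPlace (pr t)).IsFrobeniusAt (φq t) (pr t) := fun t => hφall (pr t)
  -- the primes of type (iv)
  have hBsc : ∀ j, p ∣ (prB j : ℕ) - 1 ∧ (s59q_WRhobar W hΔ hp𝒪).ρ (φall (prB j)) =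
      residue 𝒪 (εall (prB j)) •
        (1 : Module.End (ResidueField 𝒪) (s59q_WRhobar W hΔ hp𝒪).V) := by
    intro j
    obtain ⟨h1, hq, h2⟩ := (Finset.mem_filter.mp (hmemB j)).2
    exact ⟨h1, h2⟩
  -- the local models at the smooth primes
  have hloc : ∀ l : Fin Ed.card, ∃ (Pm P'm : Matrix (Fin 2) (Fin 2) 𝒪) (L : s59f_LocBr 𝒪 i2),
      Pm * P'm = 1 ∧ P'm * Pm = 1 ∧
      P'm.map (residue 𝒪) * matOfRes (s59q_WRhobar W hΔ hp𝒪) Nd.b (φall (prE l)) *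
        Pm.map (residue 𝒪) = L.M0.map (residue 𝒪) ∧
      L.u = (((prE l : ℕ) : ℕ) : 𝒪) ∧
      L.tr0 = εall (prE l) * ((((prE l : ℕ) : ℕ) : 𝒪) + 1) ∧ s59u_sp_LocBrPt L := by
    intro l
    by_cases hl : l = ls
    · have hpe : prE l = s := by rw [hl, hls]
      rw [hpe]
      refine s59u_sp_exists_locBr hp𝒪 (s59q_WRhobar W hΔ hp𝒪) Nd.b s s.2 hsp
        (φall s) (εall s) (hεall _) ?_ ?_ i2 hi2
      · rw [hεs', hφs']
        exact hscp
      · intro hd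
        exact absurd hd hsns
    · have hqRs : (prE l : ℕ) ∈ Rs := hEdRs _ (hmemE l) (hlsne l hl)
      have hR := hRs _ hqRs
      refine s59u_sp_exists_locBr hp𝒪 (s59q_WRhobar W hΔ hp𝒪) Nd.b (prE l) (prE l).2 hR.2.1
        (φall (prE l)) (εall (prE l)) (hεall _) (hεRs _ hqRs).2 ?_ i2 hi2
      intro hd hsc
      have hmem : (prE l : ℕ) ∈ Ed' := (Finset.mem_insert.mp (hmemE l)).resolve_left (hlsne l hl)
      exact (Finset.mem_filter.mp hmem).2 ⟨hd, (prE l).2, hsc⟩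
  choose PE P'E LE hPE1 hPE2 hPE3 hLu hLtr hLpt using hloc
  -- the top level
  have hinj : Function.Injective (fun t => (pr t : ℕ)) := by
    rintro (j | l) (j' | l') h
    · exact congrArg Sum.inl (hBinj h)
    · exact absurd (hmemE l') (Finset.disjoint_left.mp hBE (by
        have : (prB j : ℕ) = (prE l' : ℕ) := h
        rw [← this]; exact hmemB j))
    · exact absurd (hmemE l) (Finset.disjoint_left.mp hBE (by
        have : (prE l : ℕ) = (prB j' : ℕ) := h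
        rw [this]; exact hmemB j'))
    · exact congrArg Sum.inr (hEinj h)
  have hprs : (pr (Sum.inr ls) : ℕ) = (s : ℕ) := by
    show (prE ls : ℕ) = (s : ℕ)
    rw [hls]
  have himgRs : (Finset.univ.erase (Sum.inr ls : Fin Bd.card ⊕ Fin Ed.card)).image
      (fun t => (pr t : ℕ)) = Rs := by
    ext q
    constructor
    · intro hq
      obtain ⟨t, ht, rfl⟩ := Finset.mem_image.mp hq
      exact hmemRs t (Finset.mem_erase.mp ht).1
    · intro hq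
      have hq' : q ∈ Bd ∪ Ed' := by rw [hBdEd']; exact hq
      rcases Finset.mem_union.mp hq' with h | h
      · rw [← hprB] at h
        obtain ⟨j, -, hj⟩ := Finset.mem_image.mp h
        exact Finset.mem_image.mpr ⟨Sum.inl j, Finset.mem_erase.mpr ⟨by simp, Finset.mem_univ _⟩, hj⟩
      · have h' : q ∈ Ed := Finset.mem_insert_of_mem h
        rw [← hprE] at h'
        obtain ⟨l, -, hl⟩ := Finset.mem_image.mp h'
        refine Finset.mem_image.mpr ⟨Sum.inr l, Finset.mem_erase.mpr ⟨?_, Finset.mem_univ _⟩, hl⟩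
        intro hll
        have hll' : l = ls := Sum.inr_injective hll
        apply hsRs
        have : (s : ℕ) = q := by rw [← hl, hll', hls]
        rw [this]
        exact hq
  have hprod : ∏ t ∈ Finset.univ.erase (Sum.inr ls : Fin Bd.card ⊕ Fin Ed.card), (pr t : ℕ) =
      ∏ q ∈ Rs, q := by
    rw [← himgRs, Finset.prod_image (fun a _ b _ h => hinj h)]
  -- the order of the steps: the FIRST real step is `q₀`
  obtain ⟨t₂, ht₂ne, ht₂⟩ : ∃ t₂ : Fin Bd.card ⊕ Fin Ed.card, t₂ ≠ Sum.inr ls ∧ (pr t₂ : ℕ) = q₀ := by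
    have h := hq₀Rs
    rw [← himgRs] at h
    obtain ⟨t, ht, htq⟩ := Finset.mem_image.mp h
    exact ⟨t, (Finset.mem_erase.mp ht).1, htq⟩
  obtain ⟨step, k, -, hstep, hvirt, hreal, hcov, hkpos, hfirst⟩ :=
    s59u_c2_exists_step (Sum.inl ls : Fin Ed.card ⊕ Fin Bd.card) (Sum.swap t₂)
      (fun h => ht₂ne (by
        have h' := congrArg Sum.swap h
        rwa [Sum.swap_swap] at h')) k₀ hk₀
  have hRsP : ∀ q ∈ Rs, q.Prime := fun q hq => (hRs q hq).1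
  have hN0 : N₀ * ∏ t ∈ Finset.univ.erase (Sum.inr ls : Fin Bd.card ⊕ Fin Ed.card), (pr t : ℕ) ≠ 0 :=
    Nat.mul_ne_zero hN₀ (Finset.prod_ne_zero_iff.mpr fun t _ => (pr t).2.ne_zero)
  have hNsq : Squarefree
      (N₀ * ∏ t ∈ Finset.univ.erase (Sum.inr ls : Fin Bd.card ⊕ Fin Ed.card), (pr t : ℕ)) := by
    rw [hprod]
    exact s59f_squarefree_mul_prod N₀ hsq Rs fun q hq => ⟨(hRs q hq).1, (hRs q hq).2.2.1⟩
  have hpN : p ∣
      N₀ * ∏ t ∈ Finset.univ.erase (Sum.inr ls : Fin Bd.card ⊕ Fin Ed.card), (pr t : ℕ) :=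
    Dvd.dvd.mul_right hpN₀ _
  refine ⟨N₀ * ∏ t ∈ Finset.univ.erase (Sum.inr ls : Fin Bd.card ⊕ Fin Ed.card), (pr t : ℕ),
    ⟨hN0⟩, ?_⟩
  haveI : NeZero
      (N₀ * ∏ t ∈ Finset.univ.erase (Sum.inr ls : Fin Bd.card ⊕ Fin Ed.card), (pr t : ℕ)) := ⟨hN0⟩
  set N : ℕ := N₀ * ∏ t ∈ Finset.univ.erase (Sum.inr ls : Fin Bd.card ⊕ Fin Ed.card), (pr t : ℕ)
    with hNdef
  set B : Finset ℕ := (N * p).primeFactors ∪ W.Δ.natAbs.primeFactors with hBdef
  have hB1 : ∀ r : ℕ, r.Prime → r ∣ N * p → r ∈ B := fun r hr hd =>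
    Finset.mem_union_left _ (Nat.mem_primeFactors.mpr ⟨hr, hd, Nat.mul_ne_zero hN0 hpP.ne_zero⟩)
  have hB2Δ : ∀ r : ℕ, r.Prime → (r : ℤ) ∣ W.Δ → r ∈ B := fun r hr hd =>
    Finset.mem_union_right _ (Nat.mem_primeFactors.mpr
      ⟨hr, Int.natCast_dvd.mp hd, Int.natAbs_ne_zero.mpr hΔ⟩)
  have hB2 : ∀ r : ℕ, r.Prime → ¬ W.IsGoodPrimeFor r → r ∈ B := by
    intro r hr hbad'
    refine hB2Δ r hr ?_
    by_contra h
    exact hbad' h
  have hpB : p ∈ B := hB1 p hpP (Dvd.intro_left N rfl)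
  have hsB : (s : ℕ) ∈ B :=
    hB1 s s.2 (Dvd.dvd.mul_right (Dvd.dvd.mul_right hsN₀ _) _)
  have hRsB : ∀ q ∈ Rs, q ∈ B := fun q hq => hB2 q (hRs q hq).1 (hRs q hq).2.2.2.1
  have hEdB : ∀ q ∈ Ed, q ∈ B := by
    intro q hq
    by_cases hqs : q = (s : ℕ)
    · rw [hqs]; exact hsB
    · exact hRsB q (hEdRs q hq hqs)
  have hEdunr : ∀ q ∈ Ed, q ≠ p ∧ (s59q_WRhobar W hΔ hp𝒪).IsUnramifiedAt q := by
    intro q hq
    by_cases hqs : q = (s : ℕ)
    · rw [hqs]; exact ⟨hsp, hsU⟩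
    · exact ⟨(hRs q (hEdRs q hq hqs)).2.1, (hRs q (hEdRs q hq hqs)).2.2.2.2.1⟩
  -- the sets of raising primes as images
  have himB : Finset.univ.image (fun j : Fin Bd.card => (pr (Sum.inl j) : ℕ)) = Bd := hprB
  have himE : Finset.univ.image (fun l : Fin Ed.card => (pr (Sum.inr l) : ℕ)) = Ed := hprE
  have hunrW' : ∀ q : ℕ, q.Prime → q ∉ s59q_WSmin W hΔ hp𝒪 ∪
      (Finset.univ.image (fun j : Fin Bd.card => (pr (Sum.inl j) : ℕ)) ∪
        Finset.univ.image (fun l : Fin Ed.card => (pr (Sum.inr l) : ℕ))) →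
      (s59q_WRho W hΔ hp𝒪).IsUnramifiedAt q := by
    intro q hq hqS
    refine hunrW q hq fun h => hqS ?_
    rw [himB, himE, hBdEd]
    exact h
  have hsigns : ∀ t, t ≠ Sum.inr ls → ∃ ε : 𝒪, (ε = 1 ∨ ε = -1) ∧
      s59i_cpTr (s59q_WRho W hΔ hp𝒪) (φq t) = ε * ((((pr t : ℕ) : ℕ) : 𝒪) + 1) := fun t ht =>
    ⟨εall (pr t), hεall _, (hεRs _ (hmemRs t ht)).1⟩
  have hprops : ∀ t, t ≠ Sum.inr ls → (pr t : ℕ) ≠ p ∧ ¬ (pr t : ℕ) ∣ N₀ ∧
      ¬ W.IsGoodPrimeFor (pr t) ∧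
      (s59i_rhobarW W p hΔ 𝒪 hp𝒪).IsUnramifiedAt (pr t) ∧
      ¬ (s59q_WRho W hΔ hp𝒪).IsUnramifiedAt (pr t) := fun t ht =>
    (hRs _ (hmemRs t ht)).2
  have hDm' : Nonempty (GaloisRep.DeformationRingData 𝒪 (s59i_rhobarW W p hΔ 𝒪 hp𝒪)
      (fun _A _ _ _ ρ => GaloisRep.strictOrdinaryCondition 𝒪 p (s59q_WSmin W hΔ hp𝒪 ∪ {(s : ℕ)}) ρ ∧
        ∀ q ∈ s59q_WSmin W hΔ hp𝒪 ∪
          (Finset.univ.image (fun j : Fin Bd.card => (pr (Sum.inl j) : ℕ)) ∪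
            Finset.univ.image (fun l : Fin Ed.card => (pr (Sum.inr l) : ℕ))),
          q.Prime → q ≠ p → ρ.IsUnipotentOnInertiaAt q)) := by
    rw [himB, himE, hBdEd]
    exact hDm
  have hDsf0' : Nonempty (GaloisRep.DeformationRingData 𝒪 (s59i_rhobarW W p hΔ 𝒪 hp𝒪)
      (s59q_SfType 𝒪 p (s59q_WSmin W hΔ hp𝒪 ∪
        (Finset.univ.image (fun j : Fin Bd.card => (pr (Sum.inl j) : ℕ)) ∪
          Finset.univ.image (fun l : Fin Ed.card => (pr (Sum.inr l) : ℕ))))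
        (s59q_WSmin W hΔ hp𝒪 ∪
          (Finset.univ.image (fun j : Fin Bd.card => (pr (Sum.inl j) : ℕ)) ∪
            Finset.univ.image (fun l : Fin Ed.card => (pr (Sum.inr l) : ℕ)))))) := by
    rw [himB, himE, hBdEd]
    exact hDsf0
  have hφs : φq (Sum.inr ls) = φall s := by
    show φall (prE ls) = φall s
    rw [hls]
  have hσs : σq (Sum.inr ls) = σall s := by
    show σall (prE ls) = σall s
    rw [hls]
  have HT' := HT 𝒪 hp𝒪 hsplitℤ Bd.card Ed.card pr σq φq ls εs step k N B hinj hprs hsU hεs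
    (by rw [hφs, hφs']; exact hscp)
    (fun h0 => by
      rcases hspec with ⟨-, h⟩ | ⟨h, -⟩
      · exact h
      · omega)
    (fun h1 => by
      rcases hspec with ⟨h, -⟩ | ⟨-, h, h'⟩
      · omega
      · exact ⟨h, by rw [hφs, hφs']; exact h'⟩)
    hprops hσq hφq hsigns hstep hvirt hreal hcov
    ⟨hkpos, by rw [hfirst, Sum.swap_swap]; exact ht₂⟩ rfl hNsq hpN rfl hunrW' hDm'
  have hBmem : ∀ q, q ∈ Finset.univ.image (fun j : Fin Bd.card => (pr (Sum.inl j) : ℕ)) →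
      q ∈ Bd := fun q hq => by rwa [himB] at hq
  have hEmem : ∀ q, q ∈ Finset.univ.image (fun l : Fin Ed.card => (pr (Sum.inr l) : ℕ)) →
      q ∈ Ed := fun q hq => by rwa [himE] at hq
  -- the position of `ρ_W` at the tame generators
  have hramt : ∀ t, t ≠ Sum.inr ls → (s59q_WRho W hΔ hp𝒪).ρ (σq t) ≠ 1 := fun t ht =>
    s59f_tame_ne_one (s59q_WRho W hΔ hp𝒪) hpP hp𝒪 (pr t).2 (hprops t ht).1
      (hprops t ht).2.2.2.1 (hprops t ht).2.2.2.2 (primeLocalPlace (pr t))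
      (s56z_place_liesOver (pr t)) (σq t) (hσq t)
  have hLtrs : (LE ls).tr0 = εs * ((((s : ℕ) : ℕ) : 𝒪) + 1) := by
    rw [hLtr ls, hls, hεs']
  obtain ⟨χ, hχ⟩ := s59u_w_sp_FLR_W_absE_ord p hp2 W hΔ N B hss hirr hpB hB2 hmult 𝒪 hp𝒪 habs
    (s59q_W_hdet W hΔ hp𝒪 hp2 hirr) (s59q_W_hsplit W hΔ hp𝒪 hsplitℤ)
    (s59q_W_hTW W hΔ hp𝒪 hp35 hss hirr) B (s59q_WSmin W hΔ hp𝒪)
    (Finset.univ.image (fun j : Fin Bd.card => (pr (Sum.inl j) : ℕ)))
    (Finset.univ.image (fun l : Fin Ed.card => (pr (Sum.inr l) : ℕ)))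
    (s59q_WSmin_p_mem W hΔ hp𝒪) (s59q_WSmin_subset W hΔ hp𝒪 B hpB hB2Δ)
    (fun q hq => hRsB q (hBdRs q (hBmem q hq))) (fun q hq => hEdB q (hEmem q hq))
    (fun q hq => (hRs q (hBdRs q (hBmem q hq))).1) (fun q hq => hEdP q (hEmem q hq))
    (s59q_WSmin_hmin W hΔ hp𝒪 hp2)
    (fun q hq => ⟨(hRs q (hBdRs q (hBmem q hq))).2.1, (hRs q (hBdRs q (hBmem q hq))).2.2.2.2.1⟩)
    (fun q hq => hEdunr q (hEmem q hq))
    (Finset.disjoint_left.mpr fun q hq hq' =>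
      Finset.disjoint_left.mp hBE (hBmem q hq) (hEmem q hq'))
    (fun q hq => by
      obtain ⟨-, hqP, hsc⟩ := (Finset.mem_filter.mp (hBmem q hq)).2
      exact s59f_central_of_scalar (s59q_WRhobar W hΔ hp𝒪) q
        (hRs q (hBdRs q (hBmem q hq))).2.2.2.2.1 (φall q) (hφall q) _ hsc)
    Nd Bd.card Ed.card pr rfl rfl hBinj hEinj σq φq hσq hφq i2 hi2
    (Sum.elim (fun _ => 1) PE) (Sum.elim (fun _ => 1) P'E)
    (by
      rintro (j | l)
      · exact one_mul _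
      · exact hPE1 l)
    (by
      rintro (j | l)
      · exact one_mul _
      · exact hPE2 l)
    LE hLpt (fun i => εall (prB i))
    (fun i => by rcases hεall (prB i) with h | h <;> rw [h] <;> ring)
    hPE3
    (fun i => by
      show matOfRes (s59q_WRhobar W hΔ hp𝒪) Nd.b (φall (prB i)) = _
      rw [matOfRes_apply, (hBsc i).2, map_smul, LinearMap.toMatrix_one])
    hLu
    (fun j => s59q_W_sub_one_mem hp𝒪 _ (prB j).2 (hBsc j).1)
    step k₀ k hstep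
    (fun t ht => ⟨ls, hvirt t ht⟩)
    (fun j => by
      obtain ⟨t, h1, h2, h3⟩ := hcov (Sum.inr j) (by simp)
      exact ⟨t, h2, h3⟩)
    hunrW'
    (fun j => hramt (Sum.inl j) (by simp))
    (fun l => by
      by_cases hl : l = ls
      · rw [hl]
        rcases hspec with ⟨h0, hun⟩ | ⟨h1, hram, htr⟩
        · refine Or.inr ⟨?_, ?_⟩
          · rintro ⟨t', ht', hst⟩
            exact hreal t' (by omega) ht' hst
          · exact hun (primeLocalPlace s) (s56z_place_liesOver s) (σq (Sum.inr ls))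
              (by rw [hσs]; exact (hσall s).1)
        · refine Or.inl ⟨⟨0, by omega, hvirt 0 (by omega)⟩, ?_, ?_⟩
          · rw [hσs]
            exact s59f_tame_ne_one (s59q_WRho W hΔ hp𝒪) hpP hp𝒪 s.2 hsp hsU hram
              (primeLocalPlace s) (s56z_place_liesOver s) (σall s) (hσall s)
          · rw [hLtrs, hφs, hφs']
            exact htr
      · have hne : (Sum.inr l : Fin Bd.card ⊕ Fin Ed.card) ≠ Sum.inr ls := fun h =>
          hl (Sum.inr_injective h)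
        refine Or.inl ⟨?_, hramt (Sum.inr l) hne, ?_⟩
        · obtain ⟨t, h1, h2, h3⟩ := hcov (Sum.inl l) (fun h => hl (Sum.inl_injective h))
          exact ⟨t, h2, h3⟩
        · show s59i_cpTr (s59q_WRho W hΔ hp𝒪) (φall (prE l)) = (LE l).tr0
          rw [hLtr l]
          exact (hεRs _ (hmemRs (Sum.inr l) hne)).1)
    hDsf0'
    (fun D0 => by
      obtain ⟨Bs, hHk, ⟨𝒪₀, i𝒪₀, j𝒪₀, x₀, hx₀M, hx₀δ, hx₀ram, hx₀tr⟩, HL⟩ := HT' D0
      refine ⟨Bs, hHk, ⟨𝒪₀, i𝒪₀, j𝒪₀, x₀, hx₀M, ?_, ?_, ?_⟩, HL⟩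
      · intro t ht
        refine hx₀δ t fun h1 hts => ?_
        exact ht ls hts ⟨0, by omega, hvirt 0 (by omega)⟩
      · rintro l ⟨t', ht', hst⟩
        have h1 : k₀ = 1 := by omega
        have hl : l = ls := by
          have := hvirt t' ht'
          rw [hst] at this
          exact Sum.inl_injective this
        rw [hl]
        exact hx₀ram h1
      · rintro l ⟨t', ht', hst⟩
        have h1 : k₀ = 1 := by omega
        have hl : l = ls := by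
          have := hvirt t' ht'
          rw [hst] at this
          exact Sum.inl_injective this
        rw [hl, hLtrs]
        exact hx₀tr h1)
  exact ⟨χ, congrArg (fun x => N₀ * x) hprod, hNsq, hpN, hχ⟩

end Fermat.Agent.Lib.S59
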