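/-
PROGRAMME R2 = S59, node [PATCH-FLR] / [SPEC-T] (helper3, prefix `s59u_sp_`), part L:
**THE ADAPTER: THE FINAL `T`-SIDE STATEMENT WITH A SPECTATOR AND A BASE POINT, IN THE DIALECT OF
helper5's `s59efl_TFin` / helper8's `s59c3_TFin` ⟹ THE CONTRACT `s59u_sp_TPkgFLR p W hΔ N₀ s k₀`**
(USpH.lean) — the twin of helper4's `s59f_TPkgFLR_of_TFin` (FAsmW6.lean).

* `s59u_sp_TFinPt p W hΔ s k₀` : helper8's `s59c3_TFin` (`p ≠ 2`, EVEN levels) with
    - the hypothesis `hqrW` on the raising primes (`W` bad, `ρ̄` unramified, `ρ_W ⊗ 𝒪` ramified),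
    - the spectator binders (`s ∣ N 0`, `s ∈ Sgm`, `s ∈ Su`, `φs σs εs`, the residual Frobenius polynomial at
      `s`, the position of `ρ_W ⊗ 𝒪` at `s`),
    - and, in the conclusion, INSTEAD of the exports (E1), (E2): THE MODULAR BASE POINT `x₀ : D0.R → 𝒪₀` of the
      level `N 0` ([RP] at the raising primes `qr t`, `t < k`; `k₀ = 0`: [RP] at `s`; `k₀ = 1`: ramified at
      `σs` and `tr ρ_{x₀}(φs) ≠ −εs (s+1)`);
* `s59u_sp_prod_step`          : `∏_{l<k} f (step (k₀ + l)) = ∏_{x ≠ a} f x`;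
* **`s59u_sp_TPkgFLR_of_TFinPt`** : the contract at a base level `N₀` (squarefree, EVEN, prime to `p`, `ρ̄` modular of
  level `N₀`, ramified at every prime `≠ s` of `N₀`) from `s59u_sp_TFinPt`: levels
  `N t = N₀ ∏_{l < min t k} qr l`, `qr t = pr (swap (step (k₀ + t)))`, `Sg0 = Su = Σ_min ∪ (Bd ∪ Ed)`,
  `Sgm = Σ_min ∪ {s}`.
-/
import Mathlib
import Fermat.Agent.Lib.S59.FAsmW6
import Fermat.Agent.Lib.S59.USpH
import Fermat.Agent.Lib.S59.USpO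
import Fermat.Agent.Lib.S59.QExistDQ

set_option autoImplicit false
set_option linter.unusedSectionVars false
set_option linter.unusedVariables false
set_option linter.style.haveILetI false
set_option synthInstance.maxHeartbeats 400000
set_option maxHeartbeats 3200000

noncomputable section

namespace Fermat.Agent.Lib.S59

open IsLocalRing Polynomial CuspForm ExtCitation
open Fermat.Agent.Lib.S53 (NormData exists_normData)
open Fermat.Agent.Lib.S56 Fermat.Agent.Lib.S44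

local notation "Γℚ" => (AlgebraicClosure ℚ ≃ₐ[ℚ] AlgebraicClosure ℚ)

/-- **the final `T`-side statement of [PATCH-FLR] with one spectator `s ∣ N 0` and the modular base point**
(`p` odd, even levels, flat at `p`): helper8's `s59c3_TFin` + spectator + base point. -/
def s59u_sp_TFinPt (p : ℕ) [Fact p.Prime] (W : WeierstrassCurve ℤ) (hΔ : W.Δ ≠ 0) (s k₀ : ℕ) : Prop :=
  ∀ (hp2 : p ≠ 2) (B : Finset ℕ) (hp35 : p = 3 ∨ p = 5) (hss : W.IsSemistableModel)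
    (hirr : W.ModRepIsIrreducible p)
    (hB2 : ∀ r : ℕ, r.Prime → ¬ W.IsGoodPrimeFor r → r ∈ B)
    (𝒪 : Type) [CommRing 𝒪] [IsDomain 𝒪] [IsDiscreteValuationRing 𝒪]
    [IsAdicComplete (maximalIdeal 𝒪) 𝒪] [Finite (ResidueField 𝒪)] [CharZero 𝒪]
    [Algebra ℤ_[p] 𝒪] [Module.Finite ℤ_[p] 𝒪]
    (hp𝒪 : ((p : ℕ) : 𝒪) ∈ maximalIdeal 𝒪)
    (hsplitℤ : ∀ a b : ℤ, ∃ α β : ResidueField 𝒪,
      α + β = (a : ResidueField 𝒪) ∧ α * β = (b : ResidueField 𝒪))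
    (habs : (s59i_rhobarW W p hΔ 𝒪 hp𝒪).IsAbsolutelyIrreducible)
    (Nd : NormData (s59i_rhobarW W p hΔ 𝒪 hp𝒪))
    -- the chain of levels
    (k : ℕ) (N : ℕ → ℕ) (qr : ℕ → ℕ) (hNZ : ∀ t, NeZero (N t))
    (hqr : ∀ t, t < k → (qr t).Prime)
    (hN : ∀ t, t < k → N (t + 1) = N t * qr t)
    (hfreeze : ∀ t, k ≤ t → N t = N k)
    (hsq : ∀ t, Squarefree (N t)) (hpN : ∀ t, ¬ p ∣ N t)
    (hB1 : ∀ t, ∀ r : ℕ, r.Prime → r ∣ N t * p → r ∈ B)
    (hocc : ∀ t, Fermat.Agent.Lib.S44.s44i_LevelOcc (N t) p (fun ℓ => W.apOfModel ℓ) B)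
    (h23 : ∀ t, 2 ∣ N t)
    -- residual modularity at the base level
    (hres0 : W.IsResiduallyModularOfLevel p (N 0))
    -- Frobenius and inertia elements at the raising primes
    (φr σr : ℕ → Γℚ)
    (hφr : ∀ t, t < k → ∃ A : ValuationSubring (AlgebraicClosure ℚ),
      A.LiesOverPrime (qr t) ∧ A.IsFrobeniusAt (φr t) (qr t))
    (hσr : ∀ t, t < k → ∃ A : ValuationSubring (AlgebraicClosure ℚ),
      A.LiesOverPrime (qr t) ∧ σr t ∈ A.inertiaSubgroupIn ℚ)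
    -- the raising primes: `W` bad, `ρ̄` unramified, `ρ_W ⊗ 𝒪` ramified
    (hqrW : ∀ t, t < k → qr t ≠ p ∧ ¬ qr t ∣ N 0 ∧ ¬ W.IsGoodPrimeFor (qr t) ∧
      (s59i_rhobarW W p hΔ 𝒪 hp𝒪).IsUnramifiedAt (qr t) ∧
      ¬ (s59q_WRho W hΔ hp𝒪).IsUnramifiedAt (qr t))
    -- the deformation types
    (Sg0 Su Smin Sgm : Finset ℕ) (hpSgm : p ∈ Sgm) (hSgm0 : Sgm ⊆ Sg0) (hSminSgm : Smin ⊆ Sgm)
    (hmin : ∀ q : ℕ, q.Prime → q ≠ p →
      (q ∈ Smin ↔ ¬ (s59i_rhobarW W p hΔ 𝒪 hp𝒪).IsUnramifiedAt q))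
    (hSuB : Su ⊆ B)
    (hSgN : ∀ t, ∀ q : ℕ, q.Prime → q ∣ N t →
      q ∈ Sg0 ∨ s59e3q_E2Alt p (s59i_rhobarW W p hΔ 𝒪 hp𝒪) q)
    (hSgmN : ∀ q : ℕ, q.Prime → q ∣ N 0 →
      q ∈ Sgm ∨ s59e3q_E2Alt p (s59i_rhobarW W p hΔ 𝒪 hp𝒪) q)
    (hqrSgm : ∀ t, t < k → qr t ∉ Sgm)
    -- the shape of the types: `Sgm ⊆ Σ_min ∪ {s}`, `Sg0 ⊆ Sgm ∪ {raising primes}`, `Su ⊇ Σ_min ∪ {raising primes}`
    (hSgmS : ∀ q ∈ Sgm, q ∈ Smin ∨ q = s)
    (hSg0qr : ∀ q ∈ Sg0, q ∈ Sgm ∨ ∃ t, t < k ∧ q = qr t)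
    (hqrSu : ∀ t, t < k → qr t ∈ Su)
    (hWSminSu : s59q_WSmin W hΔ hp𝒪 ⊆ Su)
    -- the spectator
    (hs : s.Prime) (hsp : s ≠ p) (hsN : s ∣ N 0)
    (hold : W.IsResiduallyModularOfLevel p (N 0 / s))
    (hsSgm : s ∈ Sgm) (hsSu : s ∈ Su)
    (hsU : (s59i_rhobarW W p hΔ 𝒪 hp𝒪).IsUnramifiedAt s)
    (φs σs : Γℚ)
    (hφs : ∃ A : ValuationSubring (AlgebraicClosure ℚ), A.LiesOverPrime s ∧ A.IsFrobeniusAt φs s)
    (hσs : ∃ A : ValuationSubring (AlgebraicClosure ℚ),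
      A.LiesOverPrime s ∧ σs ∈ A.inertiaSubgroupIn ℚ)
    (εs : 𝒪) (hεs : εs = 1 ∨ εs = -1)
    (hscp : LinearMap.charpoly ((s59i_rhobarW W p hΔ 𝒪 hp𝒪).ρ φs) =
      (X - C (residue 𝒪 (εs * ((s : ℕ) : 𝒪)))) * (X - C (residue 𝒪 εs)))
    (hk0 : k₀ = 0 → (s59q_WRho W hΔ hp𝒪).IsUnramifiedAt s)
    (hk1 : k₀ = 1 → ¬ (s59q_WRho W hΔ hp𝒪).IsUnramifiedAt s ∧
      s59i_cpTr (s59q_WRho W hΔ hp𝒪) φs = εs * (((s : ℕ) : 𝒪) + 1))
    -- the spectator at the standard place: `φs` a Frobenius, `σs` a TAME GENERATOR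
    (hφsP : (primeLocalPlace ⟨s, hs⟩).IsFrobeniusAt φs s)
    (hσsT : s59q_IsTameGen s (primeLocalPlace ⟨s, hs⟩) σs)
    (D0 : GaloisRep.DeformationRingData 𝒪 (s59i_rhobarW W p hΔ 𝒪 hp𝒪) (fun _A _ _ _ ρ =>
      GaloisRep.flatCondition 𝒪 p Sg0 ρ ∧
        ∀ q ∈ Su, q.Prime → q ≠ p → ρ.IsUnipotentOnInertiaAt q))
    (Dm : GaloisRep.DeformationRingData 𝒪 (s59i_rhobarW W p hΔ 𝒪 hp𝒪) (fun _A _ _ _ ρ =>
      GaloisRep.flatCondition 𝒪 p Sgm ρ ∧
        ∀ q ∈ Su, q.Prime → q ≠ p → ρ.IsUnipotentOnInertiaAt q))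
    (σ : Type) [DecidableEq σ] [Fintype σ],
    ∃ Bs : s59f_TBaseF 𝒪 k D0,
      s59e_HkFrobP (N k) (↑B : Set ℕ) (Bs.R k) (Bs.ρR k) ∧
      -- the modular base point of level `N 0`
      (∃ (𝒪₀ : Type) (_ : CommRing 𝒪₀) (_ : IsDomain 𝒪₀) (x₀ : D0.R →+* 𝒪₀),
        (∀ a : D0.R, (∀ mm : Bs.M 0, Bs.ν 0 a • mm = 0) → x₀ a = 0) ∧
        (∀ t, t < k → x₀ (s59i_cpTr D0.ρ (φr t)) * x₀ (s59i_cpTr D0.ρ (φr t)) ≠
          (((qr t : ℕ) : 𝒪₀) + 1) * (((qr t : ℕ) : 𝒪₀) + 1)) ∧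
        (k₀ = 0 → x₀ (s59i_cpTr D0.ρ φs) * x₀ (s59i_cpTr D0.ρ φs) ≠
          (((s : ℕ) : 𝒪₀) + 1) * (((s : ℕ) : 𝒪₀) + 1)) ∧
        (k₀ = 1 → Function.Injective (x₀.comp (algebraMap 𝒪 D0.R))) ∧
        (k₀ = 1 → x₀ (s59i_cpTr D0.ρ φs) =
          x₀ (algebraMap 𝒪 D0.R (εs * (((s : ℕ) : 𝒪) + 1))))) ∧
      ∀ (r : ℕ) (n : ℕ) (qv : Fin r → ℕ), Function.Injective qv →
        (∀ i, (qv i).Prime ∧ qv i ∉ B ∧ p ^ (n + 1) ∣ qv i - 1) →
        (∀ i, ∀ A : ValuationSubring (AlgebraicClosure ℚ), A.LiesOverPrime (qv i) →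
          ∀ φ : Γℚ, A.IsFrobeniusAt φ (qv i) →
            ∃ α β : ResidueField 𝒪, α ≠ β ∧
              LinearMap.charpoly ((s59i_rhobarW W p hΔ 𝒪 hp𝒪).ρ φ) = (X - C α) * (X - C β)) →
        ∀ DQ : GaloisRep.DeformationRingData 𝒪 (s59i_rhobarW W p hΔ 𝒪 hp𝒪) (fun _A _ _ _ ρ =>
          GaloisRep.flatCondition 𝒪 p (Sg0 ∪ Finset.univ.image qv) ρ ∧
            ∀ q ∈ Su, q.Prime → q ≠ p → ρ.IsUnipotentOnInertiaAt q),
          Nonempty (s59f_TLevelF 𝒪 p n r σ k Bs qv qr φr σr DQ)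

/-- **the final `T`-side statement of the CUT run** (helper1 #3941; second run of [LGC-new 2]): level `N₀` (even,
squarefree, prime to `p`), spectator `s ∣ N₀` with `ρ̄` unramified at `s`, `ρ̄` modular of level `N₀ / s`, `W` BAD at `s`
with sign `εs`; module `Y′ = ε₀ e_{w = +εs} H_par(Γ_⊤(N₀))`, NO raising (`k = 0`), type `Σ_min ∪ (∅ ∪ {s})`.
Output: the `T`-side package of `s59u_sp_unr_pt` (`Bss`, all Taylor–Wiles levels), its `s`-old point, and **(hnoT)**: no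
characteristic-zero point of the Hecke ring of `Y′` has `tr ρ(φs) = εs (s + 1)`. -/
def s59u_sp_TFinCut (p : ℕ) [Fact p.Prime] (W : WeierstrassCurve ℤ) (hΔ : W.Δ ≠ 0) (s : ℕ) : Prop :=
  ∀ (hp2 : p ≠ 2) (B : Finset ℕ) (hp35 : p = 3 ∨ p = 5) (hss : W.IsSemistableModel)
    (hirr : W.ModRepIsIrreducible p)
    (hB2 : ∀ r : ℕ, r.Prime → ¬ W.IsGoodPrimeFor r → r ∈ B)
    (𝒪 : Type) [CommRing 𝒪] [IsDomain 𝒪] [IsDiscreteValuationRing 𝒪]
    [IsAdicComplete (maximalIdeal 𝒪) 𝒪] [Finite (ResidueField 𝒪)] [CharZero 𝒪]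
    [Algebra ℤ_[p] 𝒪] [Module.Finite ℤ_[p] 𝒪]
    (hp𝒪 : ((p : ℕ) : 𝒪) ∈ maximalIdeal 𝒪)
    (hsplitℤ : ∀ a b : ℤ, ∃ α β : ResidueField 𝒪,
      α + β = (a : ResidueField 𝒪) ∧ α * β = (b : ResidueField 𝒪))
    (habs : (s59i_rhobarW W p hΔ 𝒪 hp𝒪).IsAbsolutelyIrreducible)
    (Nd : NormData (s59i_rhobarW W p hΔ 𝒪 hp𝒪))
    -- the level
    (N₀ : ℕ) (hNZ : NeZero N₀) (hsq : Squarefree N₀) (hpN : ¬ p ∣ N₀) (h2 : 2 ∣ N₀)
    (hB1 : ∀ r : ℕ, r.Prime → r ∣ N₀ * p → r ∈ B)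
    (hocc : Fermat.Agent.Lib.S44.s44i_LevelOcc N₀ p (fun ℓ => W.apOfModel ℓ) B)
    (hres0 : W.IsResiduallyModularOfLevel p N₀)
    -- the spectator
    (hs : s.Prime) (hsp : s ≠ p) (hsN : s ∣ N₀) (hsns : ¬ p ∣ s - 1)
    (hold : W.IsResiduallyModularOfLevel p (N₀ / s))
    (hsU : (s59i_rhobarW W p hΔ 𝒪 hp𝒪).IsUnramifiedAt s)
    (φs σs : Γℚ)
    (hφs : (primeLocalPlace ⟨s, hs⟩).IsFrobeniusAt φs s)
    (hσs : s59q_IsTameGen s (primeLocalPlace ⟨s, hs⟩) σs)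
    (εs : 𝒪) (hεs : εs = 1 ∨ εs = -1)
    (hscp : LinearMap.charpoly ((s59i_rhobarW W p hΔ 𝒪 hp𝒪).ρ φs) =
      (X - C (residue 𝒪 (εs * ((s : ℕ) : 𝒪)))) * (X - C (residue 𝒪 εs)))
    (hsW : ¬ (s59q_WRho W hΔ hp𝒪).IsUnramifiedAt s)
    (htrW : s59i_cpTr (s59q_WRho W hΔ hp𝒪) φs = εs * (((s : ℕ) : 𝒪) + 1))
    -- the type `Σ_min ∪ (∅ ∪ {s})`
    (Smin : Finset ℕ) (hpSmin : p ∈ Smin)
    (hmin : ∀ q : ℕ, q.Prime → q ≠ p →
      (q ∈ Smin ↔ ¬ (s59i_rhobarW W p hΔ 𝒪 hp𝒪).IsUnramifiedAt q))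
    (hSminB : Smin ⊆ B)
    (hNmin : ∀ q : ℕ, q.Prime → q ∣ N₀ → q ≠ s → q ∈ Smin)
    (Ds : GaloisRep.DeformationRingData 𝒪 (s59i_rhobarW W p hΔ 𝒪 hp𝒪) (fun _A _ _ _ ρ =>
      GaloisRep.flatCondition 𝒪 p (Smin ∪ ((∅ : Finset ℕ) ∪ {s})) ρ ∧
        ∀ q ∈ Smin ∪ ((∅ : Finset ℕ) ∪ {s}), q.Prime → q ≠ p → ρ.IsUnipotentOnInertiaAt q))
    (σ : Type) [DecidableEq σ] [Fintype σ],
    ∃ Bss : s59f_TBaseF 𝒪 0 Ds,
      -- all the Taylor–Wiles levels (no raising)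
      (∀ (r : ℕ) (n : ℕ) (qv : Fin r → ℕ), Function.Injective qv →
        (∀ i, (qv i).Prime ∧ qv i ∉ B ∧ p ^ (n + 1) ∣ qv i - 1) →
        (∀ i, ∀ A : ValuationSubring (AlgebraicClosure ℚ), A.LiesOverPrime (qv i) →
          ∀ φ : Γℚ, A.IsFrobeniusAt φ (qv i) →
            ∃ α β : ResidueField 𝒪, α ≠ β ∧
              LinearMap.charpoly ((s59i_rhobarW W p hΔ 𝒪 hp𝒪).ρ φ) = (X - C α) * (X - C β)) →
        ∀ DQ : GaloisRep.DeformationRingData 𝒪 (s59i_rhobarW W p hΔ 𝒪 hp𝒪) (fun _A _ _ _ ρ =>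
          GaloisRep.flatCondition 𝒪 p
              (Smin ∪ ((∅ : Finset ℕ) ∪ {s}) ∪ Finset.univ.image qv) ρ ∧
            ∀ q ∈ Smin ∪ ((∅ : Finset ℕ) ∪ {s}), q.Prime → q ≠ p →
              ρ.IsUnipotentOnInertiaAt q),
          Nonempty (s59f_TLevelF 𝒪 p n r σ 0 Bss qv (fun _ => s) (fun _ => φs)
            (fun _ => σs) DQ)) ∧
      -- the `s`-old point of `Y′` (off `St_±`)
      (∃ (𝒪s : Type) (_ : CommRing 𝒪s) (_ : IsDomain 𝒪s) (xs₀ : Ds.R →+* 𝒪s),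
        (∀ a : Ds.R, (∀ mm : Bss.M 0, Bss.ν 0 a • mm = 0) → xs₀ a = 0) ∧
        xs₀ (s59i_cpTr Ds.ρ φs) * xs₀ (s59i_cpTr Ds.ρ φs) ≠
          (((s : ℕ) : 𝒪s) + 1) * (((s : ℕ) : 𝒪s) + 1)) ∧
      -- (hnoT): the eigensystems of `Y′` never have `tr ρ(φs) = εs (s + 1)`
      ∀ (𝒪₀ : Type) [CommRing 𝒪₀] [IsDomain 𝒪₀] [CharZero 𝒪₀] (y : Bss.R 0 →+* 𝒪₀),
        y (s59i_cpTr (Bss.ρR 0) φs) ≠
          y (algebraMap 𝒪 (Bss.R 0) (εs * (((s : ℕ) : 𝒪) + 1)))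

/-- products along the real steps `t ↦ step (k₀ + t)`, which enumerate the indices `≠ a`. -/
theorem s59u_sp_prod_step {ι : Type} [Fintype ι] [DecidableEq ι] (step : ℕ → ι) (a : ι) (k₀ k : ℕ)
    (hstep : ∀ t < k₀ + k, ∀ t' < t, step t' ≠ step t)
    (hreal : ∀ t, k₀ ≤ t → t < k₀ + k → step t ≠ a)
    (hcov : ∀ x : ι, x ≠ a → ∃ t, k₀ ≤ t ∧ t < k₀ + k ∧ step t = x)
    (f : ι → ℕ) : ∏ l ∈ Finset.range k, f (step (k₀ + l)) = ∏ x ∈ Finset.univ.erase a, f x := by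
  have hinj : Set.InjOn (fun l => step (k₀ + l)) (Finset.range k : Set ℕ) := by
    intro x hx y hy hxy
    rw [Finset.coe_range, Set.mem_Iio] at hx hy
    rcases lt_trichotomy x y with h | h | h
    · exact absurd hxy (hstep (k₀ + y) (by omega) (k₀ + x) (by omega))
    · exact h
    · exact absurd hxy.symm (hstep (k₀ + x) (by omega) (k₀ + y) (by omega))
  have himg : (Finset.range k).image (fun l => step (k₀ + l)) = Finset.univ.erase a := by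
    ext x
    simp only [Finset.mem_image, Finset.mem_range, Finset.mem_erase, Finset.mem_univ, and_true]
    constructor
    · rintro ⟨l, hl, rfl⟩
      exact hreal (k₀ + l) (by omega) (by omega)
    · intro hx
      obtain ⟨t, h1, h2, h3⟩ := hcov x hx
      exact ⟨t - k₀, by omega, by rw [← h3]; congr 1; omega⟩
  rw [← himg, Finset.prod_image hinj]

/-- **the adapter: the final `T`-side statement with spectator and base point ⟹ the contract at the base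
level `N₀`.** -/
theorem s59u_sp_TPkgFLR_of_TFinPt (p : ℕ) [hpF : Fact p.Prime] (hp35 : p = 3 ∨ p = 5)
    (W : WeierstrassCurve ℤ) (hΔ : W.Δ ≠ 0) (hss : W.IsSemistableModel)
    (hirr : W.ModRepIsIrreducible p)
    (N₀ : ℕ) (hsq : Squarefree N₀) (hpN₀ : ¬ p ∣ N₀) (h2 : 2 ∣ N₀)
    (s : ℕ) (hsN₀ : s ∣ N₀)
    (hres : W.IsResiduallyModularOfLevel p N₀)
    (hresS : W.IsResiduallyModularOfLevel p (N₀ / s))
    (hsns : ¬ p ∣ s - 1)
    (hNtype : ∀ q : ℕ, q.Prime → q ∣ N₀ → q ≠ s → ¬ s59_Unr W p q)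
    (k₀ : ℕ)
    (HF : s59u_sp_TFinPt p W hΔ s k₀)
    (HC : k₀ = 1 → s59u_sp_TFinCut p W hΔ s) : s59u_sp_TPkgFLR p W hΔ N₀ s k₀ := by
  intro 𝒪 _ _ _ _ _ _ _ _ hp𝒪 hsplitℤ m e pr σq φq ls εs step k N _ B hinj hprs hsU hεs hscp hk0 hk1
    hprops hσq hφq hsigns hstep hvirt hreal hcov hN hNsq hpN hB hunrW hDm D0
  classical
  subst hprs
  have hpP : p.Prime := hpF.out
  have hp2 : p ≠ 2 := s59q_W_p_ne_two hp35
  obtain ⟨Dm⟩ := hDm
  have habs := s59q_W_habs W hΔ hp𝒪 hp35 hss hirr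
  obtain ⟨Nd⟩ := exists_normData (s59q_WRhobar W hΔ hp𝒪) habs
  have hN0 : N ≠ 0 := NeZero.ne N
  have hsp : ((pr (Sum.inr ls) : ℕ)) ≠ p := fun h => hpN₀ (h ▸ hsN₀)
  have hk₀ : k₀ ≤ 1 := by
    by_contra hlt
    have h1 : step 0 = step 1 := by rw [hvirt 0 (by omega), hvirt 1 (by omega)]
    exact hstep 1 (by omega) 0 (by omega) h1
  -- the real steps
  set qr : ℕ → ℕ := fun t => (pr (Sum.swap (step (k₀ + t))) : ℕ) with hqrdef
  have hne : ∀ t, t < k → Sum.swap (step (k₀ + t)) ≠ (Sum.inr ls : Fin m ⊕ Fin e) := by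
    intro t ht h
    apply hreal (k₀ + t) (by omega) (by omega)
    have := congrArg Sum.swap h
    rwa [Sum.swap_swap] at this
  -- the levels
  have hprodk : ∏ l ∈ Finset.range k, qr l =
      ∏ t ∈ Finset.univ.erase (Sum.inr ls : Fin m ⊕ Fin e), (pr t : ℕ) := by
    rw [hqrdef, s59u_sp_prod_step step (Sum.inl ls) k₀ k hstep hreal hcov
      (fun x => (pr (Sum.swap x) : ℕ))]
    refine Finset.prod_bij (fun x _ => Sum.swap x) ?_ ?_ ?_ ?_
    · intro x hx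
      rw [Finset.mem_erase] at hx ⊢
      refine ⟨fun h => hx.1 ?_, Finset.mem_univ _⟩
      have := congrArg Sum.swap h
      rwa [Sum.swap_swap] at this
    · intro x _ y _ hxy
      have := congrArg Sum.swap hxy
      rwa [Sum.swap_swap, Sum.swap_swap] at this
    · intro y hy
      rw [Finset.mem_erase] at hy
      refine ⟨Sum.swap y, ?_, Sum.swap_swap y⟩
      rw [Finset.mem_erase]
      refine ⟨fun h => hy.1 ?_, Finset.mem_univ _⟩
      have := congrArg Sum.swap h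
      rwa [Sum.swap_swap] at this
    · intro x _
      rfl
  have hNk : N₀ * ∏ l ∈ Finset.range (min k k), qr l = N := by
    rw [hN, min_self, hprodk]
  have hNfdvd : ∀ t, N₀ * ∏ l ∈ Finset.range (min t k), qr l ∣ N := by
    intro t
    rw [hN, ← hprodk]
    exact Nat.mul_dvd_mul_left _ (Finset.prod_dvd_prod_of_subset _ _ _
      (Finset.range_subset_range.mpr (min_le_right t k)))
  have hN₀dvd : ∀ t, N₀ ∣ N₀ * ∏ l ∈ Finset.range (min t k), qr l :=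
    fun t => Dvd.intro _ rfl
  have hN₀N : N₀ ∣ N := (hN₀dvd k).trans (hNfdvd k)
  have hB1 : ∀ t, ∀ r : ℕ, r.Prime →
      r ∣ (N₀ * ∏ l ∈ Finset.range (min t k), qr l) * p → r ∈ B := by
    intro t r hr hd
    rw [hB]
    exact Finset.mem_union_left _ (Nat.mem_primeFactors.mpr
      ⟨hr, hd.trans (Nat.mul_dvd_mul_right (hNfdvd t) p), Nat.mul_ne_zero hN0 hpP.ne_zero⟩)
  have hB2Δ : ∀ r : ℕ, r.Prime → (r : ℤ) ∣ W.Δ → r ∈ B := by
    intro r hr hd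
    rw [hB]
    exact Finset.mem_union_right _ (Nat.mem_primeFactors.mpr
      ⟨hr, Int.natCast_dvd.mp hd, Int.natAbs_ne_zero.mpr hΔ⟩)
  have hB2 : ∀ r : ℕ, r.Prime → ¬ W.IsGoodPrimeFor r → r ∈ B := by
    intro r hr hbad'
    refine hB2Δ r hr ?_
    by_contra h
    exact hbad' h
  have hpB : p ∈ B := hB1 k p hpP (Dvd.intro_left _ rfl)
  have hsB : ((pr (Sum.inr ls) : ℕ)) ∈ B :=
    hB1 0 _ (pr (Sum.inr ls)).2 (Dvd.dvd.mul_right (hsN₀.trans (hN₀dvd 0)) p)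
  have hsqf : ∀ t, Squarefree (N₀ * ∏ l ∈ Finset.range (min t k), qr l) :=
    fun t => hNsq.squarefree_of_dvd (hNfdvd t)
  -- membership of the framed primes
  have hprmem : ∀ t, (pr t : ℕ) ∈
      Finset.univ.image (fun j : Fin m => (pr (Sum.inl j) : ℕ)) ∪
        Finset.univ.image (fun l : Fin e => (pr (Sum.inr l) : ℕ)) := by
    rintro (j | l)
    · exact Finset.mem_union_left _ (Finset.mem_image_of_mem _ (Finset.mem_univ j))
    · exact Finset.mem_union_right _ (Finset.mem_image_of_mem _ (Finset.mem_univ l))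
  have hSm : ∀ q : ℕ, q.Prime → q ∣ N₀ → q ≠ (pr (Sum.inr ls) : ℕ) →
      q ∈ s59q_WSmin W hΔ hp𝒪 := by
    intro q hq hqN hqs
    have hqp : q ≠ p := fun h => hpN₀ (h ▸ hqN)
    exact (s59q_WSmin_hmin W hΔ hp𝒪 hp2 q hq hqp).mpr fun hunr =>
      hNtype q hq hqN hqs ((s59q_W_unram_iff W hΔ hp𝒪 q).mp hunr)
  have hsSmin : ((pr (Sum.inr ls) : ℕ)) ∉ s59q_WSmin W hΔ hp𝒪 := fun h =>
    ((s59q_WSmin_hmin W hΔ hp𝒪 hp2 _ (pr (Sum.inr ls)).2 hsp).mp h) hsU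
  have hN00 : N₀ * ∏ l ∈ Finset.range (min 0 k), qr l = N₀ := by
    rw [Nat.zero_min, Finset.range_zero, Finset.prod_empty, mul_one]
  have H := HF hp2 B hp35 hss hirr hB2 𝒪 hp𝒪 hsplitℤ habs Nd k
    (fun t => N₀ * ∏ l ∈ Finset.range (min t k), qr l) qr
    (fun t => ⟨fun h0 => hN0 (Nat.eq_zero_of_zero_dvd (h0 ▸ hNfdvd t))⟩)
    (fun t _ => (pr (Sum.swap (step (k₀ + t)))).2)
    (fun t ht => by
      show N₀ * ∏ l ∈ Finset.range (min (t + 1) k), qr l =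
        (N₀ * ∏ l ∈ Finset.range (min t k), qr l) * qr t
      rw [min_eq_left (Nat.succ_le_of_lt ht), min_eq_left ht.le, Finset.prod_range_succ, mul_assoc])
    (fun t ht => by
      show N₀ * ∏ l ∈ Finset.range (min t k), qr l = N₀ * ∏ l ∈ Finset.range (min k k), qr l
      rw [min_eq_right ht, min_self])
    hsqf (fun t h => hpN (h.trans (hNfdvd t))) hB1
    (fun t => s59e_Lmin_levelOcc W p _ B (hB1 t) hB2
      (s59v_resMod_mono (hN₀dvd t) (hsqf t) hres))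
    (fun t => h2.trans (hN₀dvd t))
    (by
      show W.IsResiduallyModularOfLevel p (N₀ * ∏ l ∈ Finset.range (min 0 k), qr l)
      rw [hN00]
      exact hres)
    (fun t => φq (Sum.swap (step (k₀ + t)))) (fun t => σq (Sum.swap (step (k₀ + t))))
    (fun t _ => ⟨primeLocalPlace (pr (Sum.swap (step (k₀ + t)))), s56z_place_liesOver _, hφq _⟩)
    (fun t _ => ⟨primeLocalPlace (pr (Sum.swap (step (k₀ + t)))), s56z_place_liesOver _,
      (hσq _).1⟩)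
    (fun t ht => by
      obtain ⟨h1, h2', h3, h4, h5⟩ := hprops _ (hne t ht)
      refine ⟨h1, ?_, h3, h4, h5⟩
      show ¬ qr t ∣ N₀ * ∏ l ∈ Finset.range (min 0 k), qr l
      rw [Nat.zero_min, Finset.range_zero, Finset.prod_empty, mul_one]
      exact h2')
    (s59q_WSmin W hΔ hp𝒪 ∪
      (Finset.univ.image (fun j : Fin m => (pr (Sum.inl j) : ℕ)) ∪
        Finset.univ.image (fun l : Fin e => (pr (Sum.inr l) : ℕ))))
    (s59q_WSmin W hΔ hp𝒪 ∪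
      (Finset.univ.image (fun j : Fin m => (pr (Sum.inl j) : ℕ)) ∪
        Finset.univ.image (fun l : Fin e => (pr (Sum.inr l) : ℕ))))
    (s59q_WSmin W hΔ hp𝒪) (s59q_WSmin W hΔ hp𝒪 ∪ {((pr (Sum.inr ls) : ℕ))})
    (Finset.mem_union_left _ (s59q_WSmin_p_mem W hΔ hp𝒪))
    (by
      intro q hq
      rcases Finset.mem_union.mp hq with h | h
      · exact Finset.mem_union_left _ h
      · rw [Finset.mem_singleton.mp h]
        exact Finset.mem_union_right _ (hprmem _))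
    Finset.subset_union_left
    (s59q_WSmin_hmin W hΔ hp𝒪 hp2)
    (by
      intro q hq
      rcases Finset.mem_union.mp hq with h | h
      · exact s59q_WSmin_subset W hΔ hp𝒪 B hpB hB2Δ h
      · have : ∃ t, (pr t : ℕ) = q := by
          rcases Finset.mem_union.mp h with h' | h'
          · obtain ⟨j, -, hj⟩ := Finset.mem_image.mp h'
            exact ⟨Sum.inl j, hj⟩
          · obtain ⟨l, -, hl⟩ := Finset.mem_image.mp h'
            exact ⟨Sum.inr l, hl⟩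
        obtain ⟨t, rfl⟩ := this
        by_cases ht : t = Sum.inr ls
        · rw [ht]; exact hsB
        · exact hB2 _ (pr t).2 (hprops t ht).2.2.1)
    (by
      intro t q hq hqN
      rcases (Nat.Prime.dvd_mul hq).mp hqN with h | h
      · by_cases hqs : q = (pr (Sum.inr ls) : ℕ)
        · rw [hqs]
          exact Or.inl (Finset.mem_union_right _ (hprmem _))
        · exact Or.inl (Finset.mem_union_left _ (hSm q hq h hqs))
      · obtain ⟨l, -, hd⟩ := (Prime.dvd_finsetProd_iff hq.prime _).mp h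
        have hql : q = (pr (Sum.swap (step (k₀ + l))) : ℕ) :=
          (Nat.prime_dvd_prime_iff_eq hq (pr (Sum.swap (step (k₀ + l)))).2).mp hd
        rw [hql]
        exact Or.inl (Finset.mem_union_right _ (hprmem _)))
    (by
      intro q hq hqN
      have hqN' : q ∣ N₀ := by
        have h0 : N₀ * ∏ l ∈ Finset.range (min 0 k), qr l = N₀ := by
          rw [Nat.zero_min, Finset.range_zero, Finset.prod_empty, mul_one]
        rw [← h0]
        exact hqN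
      by_cases hqs : q = (pr (Sum.inr ls) : ℕ)
      · rw [hqs]
        exact Or.inl (Finset.mem_union_right _ (Finset.mem_singleton_self _))
      · exact Or.inl (Finset.mem_union_left _ (hSm q hq hqN' hqs)))
    (by
      intro t ht hmem
      rcases Finset.mem_union.mp hmem with h | h
      · exact ((s59q_WSmin_hmin W hΔ hp𝒪 hp2 _ (pr (Sum.swap (step (k₀ + t)))).2
          (hprops _ (hne t ht)).1).mp h) (hprops _ (hne t ht)).2.2.2.1
      · exact hne t ht (hinj (Finset.mem_singleton.mp h)))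
    (by
      intro q hq
      rcases Finset.mem_union.mp hq with h | h
      · exact Or.inl h
      · exact Or.inr (Finset.mem_singleton.mp h))
    (by
      intro q hq
      rcases Finset.mem_union.mp hq with h | h
      · exact Or.inl (Finset.mem_union_left _ h)
      · have : ∃ t, (pr t : ℕ) = q := by
          rcases Finset.mem_union.mp h with h' | h'
          · obtain ⟨j, -, hj⟩ := Finset.mem_image.mp h'
            exact ⟨Sum.inl j, hj⟩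
          · obtain ⟨l, -, hl⟩ := Finset.mem_image.mp h'
            exact ⟨Sum.inr l, hl⟩
        obtain ⟨t, rfl⟩ := this
        by_cases hts : t = Sum.inr ls
        · rw [hts]
          exact Or.inl (Finset.mem_union_right _ (Finset.mem_singleton_self _))
        · have hx : Sum.swap t ≠ (Sum.inl ls : Fin e ⊕ Fin m) := by
            intro h''
            apply hts
            have := congrArg Sum.swap h''
            rwa [Sum.swap_swap] at this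
          obtain ⟨t', h1, h2', h3⟩ := hcov (Sum.swap t) hx
          refine Or.inr ⟨t' - k₀, by omega, ?_⟩
          show (pr t : ℕ) = (pr (Sum.swap (step (k₀ + (t' - k₀)))) : ℕ)
          have : k₀ + (t' - k₀) = t' := by omega
          rw [this, h3, Sum.swap_swap])
    (fun t _ => Finset.mem_union_right _ (hprmem _))
    Finset.subset_union_left
    (pr (Sum.inr ls)).2 hsp
    (by
      show ((pr (Sum.inr ls) : ℕ)) ∣ N₀ * ∏ l ∈ Finset.range (min 0 k), qr l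
      exact hsN₀.trans (hN₀dvd 0))
    (by
      show W.IsResiduallyModularOfLevel p
        ((N₀ * ∏ l ∈ Finset.range (min 0 k), qr l) / (pr (Sum.inr ls) : ℕ))
      rw [hN00]
      exact hresS)
    (Finset.mem_union_right _ (Finset.mem_singleton_self _))
    (Finset.mem_union_right _ (hprmem _))
    hsU (φq (Sum.inr ls)) (σq (Sum.inr ls))
    ⟨primeLocalPlace (pr (Sum.inr ls)), s56z_place_liesOver _, hφq _⟩
    ⟨primeLocalPlace (pr (Sum.inr ls)), s56z_place_liesOver _, (hσq _).1⟩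
    εs hεs hscp hk0 hk1 (hφq _) (hσq _) D0 Dm (s59q_ZIdx m e)
  obtain ⟨Bs, hHk, ⟨𝒪₀, i𝒪₀, j𝒪₀, x₀, hM, hδr, hδs, hinj1, htr1⟩, HL⟩ := H
  letI := i𝒪₀
  haveI := j𝒪₀
  -- [RP] at every framed prime which is not a virtual step
  have hRPall : ∀ t : Fin m ⊕ Fin e, (k₀ = 1 → t ≠ Sum.inr ls) →
      x₀ (s59i_cpTr D0.ρ (φq t)) * x₀ (s59i_cpTr D0.ρ (φq t)) ≠
        ((((pr t : ℕ) : ℕ) : 𝒪₀) + 1) * ((((pr t : ℕ) : ℕ) : 𝒪₀) + 1) := by
    intro t ht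
    by_cases hts : t = Sum.inr ls
    · have h0 : k₀ = 0 := by
        by_contra h
        exact ht (by omega) hts
      rw [hts]
      exact hδs h0
    · have hx : Sum.swap t ≠ (Sum.inl ls : Fin e ⊕ Fin m) := by
        intro h
        apply hts
        have := congrArg Sum.swap h
        rwa [Sum.swap_swap] at this
      obtain ⟨t', h1, h2', h3⟩ := hcov (Sum.swap t) hx
      have h4 : t = Sum.swap (step (k₀ + (t' - k₀))) := by
        have : k₀ + (t' - k₀) = t' := by omega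
        rw [this, h3, Sum.swap_swap]
      have h5 := hδr (t' - k₀) (by omega)
      rw [h4]
      exact h5
  -- the constant `εs (s + 1)` is (plus or minus) a natural number
  have hconst : ∀ {R₁ R₂ : Type} [CommRing R₁] [CommRing R₂] [Algebra 𝒪 R₁] [Algebra 𝒪 R₂]
      (f₁ : R₁ →+* 𝒪₀) (f₂ : R₂ →+* 𝒪₀),
      f₁ (algebraMap 𝒪 R₁ (εs * ((((pr (Sum.inr ls) : ℕ) : ℕ) : 𝒪) + 1))) =
        f₂ (algebraMap 𝒪 R₂ (εs * ((((pr (Sum.inr ls) : ℕ) : ℕ) : 𝒪) + 1))) := by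
    intro R₁ R₂ _ _ _ _ f₁ f₂
    rcases hεs with h | h <;> rw [h] <;> simp
  refine ⟨Bs, ?_, ⟨𝒪₀, i𝒪₀, j𝒪₀, x₀, hM, hRPall, ?_, ?_⟩,
    fun r _ n qv h1 h2 h3 DQ => HL r n qv h1 h2 h3 DQ⟩
  · haveI hNZk : NeZero (N₀ * ∏ l ∈ Finset.range (min k k), qr l) :=
      ⟨fun h0 => hN0 (Nat.eq_zero_of_zero_dvd (h0 ▸ hNfdvd k))⟩
    exact s59f_HkFrobP_congr hNk (↑B : Set ℕ) (Bs.R k) (Bs.ρR k) hHk
  · -- the ramification clause (`k₀ = 1`): the second run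
    intro hk1'
    have hinj₀ := hinj1 hk1'
    haveI : CharZero 𝒪₀ := charZero_of_injective_ringHom hinj₀
    -- the universal ring of the small type
    have hSsub : s59q_WSmin W hΔ hp𝒪 ∪ ((∅ : Finset ℕ) ∪ {((pr (Sum.inr ls) : ℕ))}) ⊆
        s59q_WSmin W hΔ hp𝒪 ∪
          (Finset.univ.image (fun j : Fin m => (pr (Sum.inl j) : ℕ)) ∪
            Finset.univ.image (fun l : Fin e => (pr (Sum.inr l) : ℕ))) := by
      intro q hq
      rcases Finset.mem_union.mp hq with h | h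
      · exact Finset.mem_union_left _ h
      · rw [Finset.empty_union, Finset.mem_singleton] at h
        rw [h]
        exact Finset.mem_union_right _ (hprmem _)
    obtain ⟨Ds⟩ := s59q_exists_DQ_flat p hp2 hp𝒪 (s59q_WRhobar W hΔ hp𝒪) habs
      (s59q_WSmin W hΔ hp𝒪 ∪ {((pr (Sum.inr ls) : ℕ))})
      (s59q_WSmin W hΔ hp𝒪 ∪ ((∅ : Finset ℕ) ∪ {((pr (Sum.inr ls) : ℕ))}))
      (s59q_WSmin W hΔ hp𝒪 ∪ ((∅ : Finset ℕ) ∪ {((pr (Sum.inr ls) : ℕ))}))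
      (by rw [Finset.empty_union])
      (Finset.mem_union_left _ (s59q_WSmin_p_mem W hΔ hp𝒪))
      (by
        intro q hq hqS
        have hqSmin : q ∉ s59q_WSmin W hΔ hp𝒪 := fun h => hqS (Finset.mem_union_left _ h)
        have hqp : q ≠ p := fun h => hqSmin (h ▸ s59q_WSmin_p_mem W hΔ hp𝒪)
        by_contra hram'
        exact hqSmin ((s59q_WSmin_hmin W hΔ hp𝒪 hp2 q hq hqp).mpr hram'))
      inferInstance Dm.residue_surjective Dm.ρ
      ⟨Dm.isOfType.1, fun q hq hqP hqp => Dm.isOfType.2 q (hSsub hq) hqP hqp⟩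
      Dm.residual_isEquiv
    have hB1N₀ : ∀ r : ℕ, r.Prime → r ∣ N₀ * p → r ∈ B := by
      intro r hr hd
      have := hB1 0 r hr
      rw [hN00] at this
      exact this hd
    haveI hNZ₀ : NeZero N₀ := ⟨fun h0 => by rw [h0] at hsq; exact not_squarefree_zero hsq⟩
    obtain ⟨Bss, HLs, ⟨𝒪s, i𝒪s, j𝒪s, xs₀, hxM, hxδ⟩, hnoT⟩ :=
      HC hk1' hp2 B hp35 hss hirr hB2 𝒪 hp𝒪 hsplitℤ habs Nd N₀ hNZ₀ hsq hpN₀ h2 hB1N₀
        (s59e_Lmin_levelOcc W p N₀ B hB1N₀ hB2 hres) hres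
        (pr (Sum.inr ls)).2 hsp hsN₀ hsns hresS hsU (φq (Sum.inr ls)) (σq (Sum.inr ls))
        (hφq _) (hσq _) εs hεs hscp (hk1 hk1').1 (hk1 hk1').2
        (s59q_WSmin W hΔ hp𝒪) (s59q_WSmin_p_mem W hΔ hp𝒪) (s59q_WSmin_hmin W hΔ hp𝒪 hp2)
        (s59q_WSmin_subset W hΔ hp𝒪 B hpB hB2Δ) hSm Ds (s59q_ZIdx 0 1)
    letI := i𝒪s
    haveI := j𝒪s
    refine s59u_sp_ram_of_lgc_RP p hp35 W hΔ hss hirr 𝒪 hp𝒪 hsplitℤ B hpB hB2Δ (pr (Sum.inr ls))
      hsp hsB hsns hsU εs hεs (φq (Sum.inr ls)) (hφq _) hscp (σq (Sum.inr ls)) (hσq _) Ds Bss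
      (fun r _ n qv h1 h2 h3 DQ => HLs r n qv h1 h2 h3 DQ) 𝒪s xs₀ hxM hxδ _ _ hSsub D0 𝒪₀ x₀
      hinj₀ ?_ ?_
    · -- `hextra`: the primes of `Sg0` outside the small type are raising primes
      intro q hq hq0 hqS
      have hqW : q ∉ s59q_WSmin W hΔ hp𝒪 := fun h => hqS (Finset.mem_union_left _ h)
      have hqs : q ≠ (pr (Sum.inr ls) : ℕ) := fun h => hqS (Finset.mem_union_right _ (by
        rw [Finset.empty_union, Finset.mem_singleton]; exact h))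
      have hex : ∃ t, (pr t : ℕ) = q := by
        rcases Finset.mem_union.mp hq0 with h | h
        · exact absurd h hqW
        · rcases Finset.mem_union.mp h with h' | h'
          · obtain ⟨j, -, hj⟩ := Finset.mem_image.mp h'
            exact ⟨Sum.inl j, hj⟩
          · obtain ⟨l, -, hl⟩ := Finset.mem_image.mp h'
            exact ⟨Sum.inr l, hl⟩
      obtain ⟨t, rfl⟩ := hex
      have hts : t ≠ Sum.inr ls := fun h => hqs (by rw [h])
      obtain ⟨h1, -, -, h4, -⟩ := hprops t hts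
      exact ⟨h1, hq0, h4, primeLocalPlace (pr t), φq t, s56z_place_liesOver _, hφq t,
        hRPall t (fun _ => hts)⟩
    · -- `hno`: (hnoT) + the exact trace
      intro y hy
      refine hnoT 𝒪₀ y ?_
      rw [hy (φq (Sum.inr ls)), htr1 hk1']
      exact hconst x₀ y
  · -- `tr + εs (s + 1) ≠ 0` from the exact trace
    intro hk1'
    have hinj₀ := hinj1 hk1'
    rw [htr1 hk1', ← map_add, ← map_add]
    intro h0
    have h1 : (algebraMap 𝒪 D0.R) (εs * ((((pr (Sum.inr ls) : ℕ) : ℕ) : 𝒪) + 1) +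
        εs * ((((pr (Sum.inr ls) : ℕ) : ℕ) : 𝒪) + 1)) = algebraMap 𝒪 D0.R
          ((εs * ((((pr (Sum.inr ls) : ℕ) : ℕ) : 𝒪) + 1) +
            εs * ((((pr (Sum.inr ls) : ℕ) : ℕ) : 𝒪) + 1))) := rfl
    have h2 : εs * ((((pr (Sum.inr ls) : ℕ) : ℕ) : 𝒪) + 1) +
        εs * ((((pr (Sum.inr ls) : ℕ) : ℕ) : 𝒪) + 1) = 0 := by
      apply hinj₀
      rw [RingHom.comp_apply, map_zero]
      exact h0
    have h3 : ((((pr (Sum.inr ls) : ℕ) : ℕ) : 𝒪) + 1) ≠ 0 := by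
      have : ((((pr (Sum.inr ls) : ℕ) + 1 : ℕ) : ℕ) : 𝒪) ≠ 0 :=
        Nat.cast_ne_zero.mpr (Nat.succ_ne_zero _)
      simpa using this
    rcases hεs with h | h <;> rw [h] at h2
    · have : (2 : 𝒪) * ((((pr (Sum.inr ls) : ℕ) : ℕ) : 𝒪) + 1) = 0 := by linear_combination h2
      rcases mul_eq_zero.mp this with h4 | h4
      · exact two_ne_zero h4
      · exact h3 h4
    · have : (2 : 𝒪) * ((((pr (Sum.inr ls) : ℕ) : ℕ) : 𝒪) + 1) = 0 := by linear_combination -h2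
      rcases mul_eq_zero.mp this with h4 | h4
      · exact two_ne_zero h4
      · exact h3 h4

end Fermat.Agent.Lib.S59
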