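/-
S59, plan [C2P] (helper3, prefix `s59u_c2_`), file D: **THE FINAL WEAK STRICT `T`-SIDE STATEMENT OF PLAN [C2P] (ODD BASE LEVEL, GOOD
SPECTATOR `s ≡ 2 mod 3`, FIRST RAISING PRIME `2`) AND THE ADAPTER TO THE CONTRACT `s59u_c2_TPkgFLR p W hΔ N₀ s 0 2`** (UC2B.lean) —
scripted twin of my UWSpL.lean (`s59u_w_sp_TFinPt`, `s59u_w_sp_TPkgFLR_of_TFinPt`).

`s59u_c2_TFinPt p W hΔ s k₀` = `s59u_w_sp_TFinPt p W hΔ s k₀` (UWSpL.lean) with exactly TWO changes in the hypotheses handed to the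
`T`-side:
  * `h23 : ∀ t, 2 ∣ N t`  is replaced by  `h23 : ¬ 2 ∣ N 0 ∧ 0 < k ∧ qr 0 = 2`
    (the BASE level `N 0` is ODD, there is at least one raising step, and the FIRST raising prime is `2`; hence `2 ∣ N t` for `t ≥ 1`);
  * one more hypothesis on the spectator: `hstors : p = 3 → s % 3 = 2` (so `s59e_auxTors p N'` holds for every multiple `N'` of `s`:
    the torsion-killer of the odd levels).
Only `k₀ = 0` is used (the spectator `s` is a GOOD prime of `W`, never raised), so the clauses `k₀ = 1 → …` are vacuous and the cut run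
is not needed.

* `s59u_c2_TFinPt p W hΔ s k₀`, **`s59u_c2_TPkgFLR_of_TFinPt`**.
-/
import Mathlib
import Fermat.Prelude.Def_WeierstrassCurve_PeuRamifiee
import Fermat.Agent.Lib.S59.USpL
import Fermat.Agent.Lib.S59.UWSpH
import Fermat.Agent.Lib.S59.QSSpP
import Fermat.Agent.Lib.S59.UWSpL
import Fermat.Agent.Lib.S59.UC2B
import Fermat.Agent.Lib.S59.EAuxPF

set_option autoImplicit false
set_option linter.unusedSectionVars false
set_option linter.unusedVariables false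
set_option linter.style.haveILetI false
set_option synthInstance.maxHeartbeats 400000
set_option maxHeartbeats 3200000

noncomputable section

namespace Fermat.Agent.Lib.S59

open IsLocalRing Polynomial CuspForm ExtCitation
open Fermat.Agent.Lib.S53 (NormData exists_normData)
open Fermat.Agent.Lib.S56 Fermat.Agent.Lib.S44

local notation "Γℚ" => (AlgebraicClosure ℚ ≃ₐ[ℚ] AlgebraicClosure ℚ)

/-- **the final STRICT `T`-side statement of [PATCH-FLR] with one spectator `s ∣ N 0` and the modular base point**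
(`p` odd, ODD base level and first raising prime `2`, case (P): `W` multiplicative and `ρ̄_W` peu ramifié at `p`, `p` divides every level): the twin of helper3's `s59u_sp_TFinPt` (USpL.lean):
`¬ p ∣ N t → p ∣ N t`, `hbadp hc4p hpeu` added, `flatCondition → strictOrdinaryCondition`. -/
def s59u_c2_TFinPt (p : ℕ) [Fact p.Prime] (W : WeierstrassCurve ℤ) (hΔ : W.Δ ≠ 0) (s k₀ : ℕ) : Prop :=
  ∀ (hp2 : p ≠ 2) (B : Finset ℕ) (hp35 : p = 3 ∨ p = 5) (hss : W.IsSemistableModel)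
    (hirr : W.ModRepIsIrreducible p)
    (hbadp : (p : ℤ) ∣ W.Δ) (hc4p : ¬ (p : ℤ) ∣ W.c₄)
    (hpeu : (W.map (Int.castRingHom ℚ)).IsPeuRamifieeAt p p)
    (hB2 : ∀ r : ℕ, r.Prime → ¬ W.IsGoodPrimeFor r → r ∈ B)
    (𝒪 : Type) [CommRing 𝒪] [IsDomain 𝒪] [IsDiscreteValuationRing 𝒪]
    [IsAdicComplete (maximalIdeal 𝒪) 𝒪] [Finite (ResidueField 𝒪)] [CharZero 𝒪]
    [Algebra ℤ_[p] 𝒪] [Module.Finite ℤ_[p] 𝒪]
    (hp𝒪 : ((p : ℕ) : 𝒪) ∈ maximalIdeal 𝒪)
    (hsplitℤ : ∀ a b : ℤ, ∃ α β : ResidueField 𝒪,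
      α + β = (a : ResidueField 𝒪) ∧ α * β = (b : ResidueField 𝒪))
    (habs : (s59i_rhobarW W p hΔ 𝒪 hp𝒪).IsAbsolutelyIrreducible)
    (Nd : NormData (s59i_rhobarW W p hΔ 𝒪 hp𝒪))
    -- the chain of levels
    (k : ℕ) (N : ℕ → ℕ) (qr : ℕ → ℕ) (hNZ : ∀ t, NeZero (N t))
    (hqr : ∀ t, t < k → (qr t).Prime)
    (hN : ∀ t, t < k → N (t + 1) = N t * qr t)
    (hfreeze : ∀ t, k ≤ t → N t = N k)
    (hsq : ∀ t, Squarefree (N t)) (hpN : ∀ t, p ∣ N t)
    (hB1 : ∀ t, ∀ r : ℕ, r.Prime → r ∣ N t * p → r ∈ B)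
    (hocc : ∀ t, Fermat.Agent.Lib.S44.s44i_LevelOcc (N t) p (fun ℓ => W.apOfModel ℓ) B)
    (h23 : ¬ 2 ∣ N 0 ∧ 0 < k ∧ qr 0 = 2)
    -- residual modularity at the base level
    (hres0 : W.IsResiduallyModularOfLevel p (N 0))
    (hres0' : W.IsResiduallyModularOfLevel p (N 0 / p))
    -- Frobenius and inertia elements at the raising primes
    (φr σr : ℕ → Γℚ)
    (hφr : ∀ t, t < k → ∃ A : ValuationSubring (AlgebraicClosure ℚ),
      A.LiesOverPrime (qr t) ∧ A.IsFrobeniusAt (φr t) (qr t))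
    (hσr : ∀ t, t < k → ∃ A : ValuationSubring (AlgebraicClosure ℚ),
      A.LiesOverPrime (qr t) ∧ σr t ∈ A.inertiaSubgroupIn ℚ)
    -- the raising primes: `W` bad, `ρ̄` unramified, `ρ_W ⊗ 𝒪` ramified
    (hqrW : ∀ t, t < k → qr t ≠ p ∧ ¬ qr t ∣ N 0 ∧ ¬ W.IsGoodPrimeFor (qr t) ∧
      (s59i_rhobarW W p hΔ 𝒪 hp𝒪).IsUnramifiedAt (qr t) ∧
      ¬ (s59q_WRho W hΔ hp𝒪).IsUnramifiedAt (qr t))
    -- the deformation types
    (Sg0 Su Smin Sgm : Finset ℕ) (hpSgm : p ∈ Sgm) (hSgm0 : Sgm ⊆ Sg0) (hSminSgm : Smin ⊆ Sgm)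
    (hmin : ∀ q : ℕ, q.Prime → q ≠ p →
      (q ∈ Smin ↔ ¬ (s59i_rhobarW W p hΔ 𝒪 hp𝒪).IsUnramifiedAt q))
    (hSuB : Su ⊆ B)
    (hSgN : ∀ t, ∀ q : ℕ, q.Prime → q ∣ N t →
      q ∈ Sg0 ∨ s59e3q_E2Alt p (s59i_rhobarW W p hΔ 𝒪 hp𝒪) q)
    (hSgmN : ∀ q : ℕ, q.Prime → q ∣ N 0 →
      q ∈ Sgm ∨ s59e3q_E2Alt p (s59i_rhobarW W p hΔ 𝒪 hp𝒪) q)
    (hqrSgm : ∀ t, t < k → qr t ∉ Sgm)
    -- the shape of the types: `Sgm ⊆ Σ_min ∪ {s}`, `Sg0 ⊆ Sgm ∪ {raising primes}`, `Su ⊇ Σ_min ∪ {raising primes}`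
    (hSgmS : ∀ q ∈ Sgm, q ∈ Smin ∨ q = s)
    (hSg0qr : ∀ q ∈ Sg0, q ∈ Sgm ∨ ∃ t, t < k ∧ q = qr t)
    (hqrSu : ∀ t, t < k → qr t ∈ Su)
    (hWSminSu : s59q_WSmin W hΔ hp𝒪 ⊆ Su)
    -- the spectator
    (hs : s.Prime) (hsp : s ≠ p) (hsN : s ∣ N 0) (hstors : p = 3 → s % 3 = 2)
    (hold : W.IsResiduallyModularOfLevel p (N 0 / s))
    (hold' : W.IsResiduallyModularOfLevel p (N 0 / p / s))
    (hsSgm : s ∈ Sgm) (hsSu : s ∈ Su)
    (hsU : (s59i_rhobarW W p hΔ 𝒪 hp𝒪).IsUnramifiedAt s)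
    (φs σs : Γℚ)
    (hφs : ∃ A : ValuationSubring (AlgebraicClosure ℚ), A.LiesOverPrime s ∧ A.IsFrobeniusAt φs s)
    (hσs : ∃ A : ValuationSubring (AlgebraicClosure ℚ),
      A.LiesOverPrime s ∧ σs ∈ A.inertiaSubgroupIn ℚ)
    (εs : 𝒪) (hεs : εs = 1 ∨ εs = -1)
    (hscp : LinearMap.charpoly ((s59i_rhobarW W p hΔ 𝒪 hp𝒪).ρ φs) =
      (X - C (residue 𝒪 (εs * ((s : ℕ) : 𝒪)))) * (X - C (residue 𝒪 εs)))
    (hk0 : k₀ = 0 → (s59q_WRho W hΔ hp𝒪).IsUnramifiedAt s)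
    (hk1 : k₀ = 1 → ¬ (s59q_WRho W hΔ hp𝒪).IsUnramifiedAt s ∧
      s59i_cpTr (s59q_WRho W hΔ hp𝒪) φs = εs * (((s : ℕ) : 𝒪) + 1))
    -- the spectator at the standard place: `φs` a Frobenius, `σs` a TAME GENERATOR
    (hφsP : (primeLocalPlace ⟨s, hs⟩).IsFrobeniusAt φs s)
    (hσsT : s59q_IsTameGen s (primeLocalPlace ⟨s, hs⟩) σs)
    (D0 : GaloisRep.DeformationRingData 𝒪 (s59i_rhobarW W p hΔ 𝒪 hp𝒪) (fun _A _ _ _ ρ =>
      GaloisRep.strictOrdinaryCondition 𝒪 p Sg0 ρ ∧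
        ∀ q ∈ Su, q.Prime → q ≠ p → ρ.IsUnipotentOnInertiaAt q))
    (Dm : GaloisRep.DeformationRingData 𝒪 (s59i_rhobarW W p hΔ 𝒪 hp𝒪) (fun _A _ _ _ ρ =>
      GaloisRep.strictOrdinaryCondition 𝒪 p Sgm ρ ∧
        ∀ q ∈ Su, q.Prime → q ≠ p → ρ.IsUnipotentOnInertiaAt q))
    (σ : Type) [DecidableEq σ] [Fintype σ],
    ∃ Bs : s59f_TBaseF 𝒪 k D0,
      s59e_HkFrobP (N k) (↑B : Set ℕ) (Bs.R k) (Bs.ρR k) ∧
      -- the modular base point of level `N 0`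
      (∃ (𝒪₀ : Type) (_ : CommRing 𝒪₀) (_ : IsDomain 𝒪₀) (x₀ : D0.R →+* 𝒪₀),
        (∀ a : D0.R, (∀ mm : Bs.M 0, Bs.ν 0 a • mm = 0) → x₀ a = 0) ∧
        (∀ t, t < k → x₀ (s59i_cpTr D0.ρ (φr t)) * x₀ (s59i_cpTr D0.ρ (φr t)) ≠
          (((qr t : ℕ) : 𝒪₀) + 1) * (((qr t : ℕ) : 𝒪₀) + 1)) ∧
        (k₀ = 0 → x₀ (s59i_cpTr D0.ρ φs) * x₀ (s59i_cpTr D0.ρ φs) ≠
          (((s : ℕ) : 𝒪₀) + 1) * (((s : ℕ) : 𝒪₀) + 1)) ∧
        (k₀ = 1 → Function.Injective (x₀.comp (algebraMap 𝒪 D0.R))) ∧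
        (k₀ = 1 → x₀ (s59i_cpTr D0.ρ φs) =
          x₀ (algebraMap 𝒪 D0.R (εs * (((s : ℕ) : 𝒪) + 1))))) ∧
      ∀ (r : ℕ) (n : ℕ) (qv : Fin r → ℕ), Function.Injective qv →
        (∀ i, (qv i).Prime ∧ qv i ∉ B ∧ p ^ (n + 1) ∣ qv i - 1) →
        (∀ i, ∀ A : ValuationSubring (AlgebraicClosure ℚ), A.LiesOverPrime (qv i) →
          ∀ φ : Γℚ, A.IsFrobeniusAt φ (qv i) →
            ∃ α β : ResidueField 𝒪, α ≠ β ∧
              LinearMap.charpoly ((s59i_rhobarW W p hΔ 𝒪 hp𝒪).ρ φ) = (X - C α) * (X - C β)) →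
        ∀ (DQ : GaloisRep.DeformationRingData 𝒪 (s59i_rhobarW W p hΔ 𝒪 hp𝒪) (fun _A _ _ _ ρ =>
          GaloisRep.strictOrdinaryCondition 𝒪 p (Sg0 ∪ Finset.univ.image qv) ρ ∧
            ∀ q ∈ Su, q.Prime → q ≠ p → ρ.IsUnipotentOnInertiaAt q))
          (Dsf : GaloisRep.DeformationRingData 𝒪 (s59i_rhobarW W p hΔ 𝒪 hp𝒪)
            (s59q_SfType 𝒪 p (Sg0 ∪ Finset.univ.image qv) Su))
          (κsf : DQ.R →ₐ[𝒪] Dsf.R), Function.Surjective κsf →
          (∀ g, κsf (s59i_cpTr DQ.ρ g) = s59i_cpTr Dsf.ρ g) →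
          Nonempty (s59b_TLevelFW 𝒪 p n r σ k Bs qv qr φr σr DQ
            (↑(RingHom.ker (κsf : DQ.R →+* Dsf.R)) : Set DQ.R))

/-- **the adapter of plan [C2P]: the final weak strict `T`-side statement with the good spectator `s` over the ODD base level `N₀`, first
raising prime `2` ⟹ the contract `s59u_c2_TPkgFLR p W hΔ N₀ s k₀ 2`** (`k₀ = 0`; twin of `s59u_w_sp_TPkgFLR_of_TFinPt`). -/
theorem s59u_c2_TPkgFLR_of_TFinPt (p : ℕ) [hpF : Fact p.Prime] (hp35 : p = 3 ∨ p = 5)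
    (W : WeierstrassCurve ℤ) (hΔ : W.Δ ≠ 0) (hss : W.IsSemistableModel)
    (hirr : W.ModRepIsIrreducible p)
    (hmult : ¬ W.IsGoodPrimeFor p)
    (hpeu : (W.map (Int.castRingHom ℚ)).IsPeuRamifieeAt p p)
    (N₀ : ℕ) (hsq : Squarefree N₀) (hpN₀ : p ∣ N₀) (h2 : ¬ 2 ∣ N₀)
    (s : ℕ) (hsp0 : s ≠ p) (hsN₀ : s ∣ N₀) (hstors : p = 3 → s % 3 = 2)
    (hres : W.IsResiduallyModularOfLevel p N₀)
    (hresS : W.IsResiduallyModularOfLevel p (N₀ / s))
    (hresM : W.IsResiduallyModularOfLevel p (N₀ / p))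
    (hresMS : W.IsResiduallyModularOfLevel p (N₀ / p / s))
    (hsns : ¬ p ∣ s - 1)
    (hNtype : ∀ q : ℕ, q.Prime → q ≠ p → q ∣ N₀ → q ≠ s → ¬ s59_Unr W p q)
    (k₀ : ℕ) (hk₀0 : k₀ = 0)
    (HF : s59u_c2_TFinPt p W hΔ s k₀) : s59u_c2_TPkgFLR p W hΔ N₀ s k₀ 2 := by
  intro 𝒪 _ _ _ _ _ _ _ _ hp𝒪 hsplitℤ m e pr σq φq ls εs step k N _ B hinj hprs hsU hεs hscp hk0 hk1
    hprops hσq hφq hsigns hstep hvirt hreal hcov hfirst hN hNsq hpN hB hunrW hDm D0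
  classical
  subst hprs
  have hpP : p.Prime := hpF.out
  have hp2 : p ≠ 2 := s59q_W_p_ne_two hp35
  have hbadp : (p : ℤ) ∣ W.Δ := by
    by_contra hgood
    exact hmult hgood
  have hc4p : ¬ (p : ℤ) ∣ W.c₄ := hss p hpP hbadp
  obtain ⟨Dm⟩ := hDm
  have habs := s59q_W_habs W hΔ hp𝒪 hp35 hss hirr
  obtain ⟨Nd⟩ := exists_normData (s59q_WRhobar W hΔ hp𝒪) habs
  have hN0 : N ≠ 0 := NeZero.ne N
  have hsp : ((pr (Sum.inr ls) : ℕ)) ≠ p := hsp0
  have hk₀ : k₀ ≤ 1 := by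
    by_contra hlt
    have h1 : step 0 = step 1 := by rw [hvirt 0 (by omega), hvirt 1 (by omega)]
    exact hstep 1 (by omega) 0 (by omega) h1
  -- the real steps
  set qr : ℕ → ℕ := fun t => (pr (Sum.swap (step (k₀ + t))) : ℕ) with hqrdef
  have hne : ∀ t, t < k → Sum.swap (step (k₀ + t)) ≠ (Sum.inr ls : Fin m ⊕ Fin e) := by
    intro t ht h
    apply hreal (k₀ + t) (by omega) (by omega)
    have := congrArg Sum.swap h
    rwa [Sum.swap_swap] at this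
  -- the levels
  have hprodk : ∏ l ∈ Finset.range k, qr l =
      ∏ t ∈ Finset.univ.erase (Sum.inr ls : Fin m ⊕ Fin e), (pr t : ℕ) := by
    rw [hqrdef, s59u_sp_prod_step step (Sum.inl ls) k₀ k hstep hreal hcov
      (fun x => (pr (Sum.swap x) : ℕ))]
    refine Finset.prod_bij (fun x _ => Sum.swap x) ?_ ?_ ?_ ?_
    · intro x hx
      rw [Finset.mem_erase] at hx ⊢
      refine ⟨fun h => hx.1 ?_, Finset.mem_univ _⟩
      have := congrArg Sum.swap h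
      rwa [Sum.swap_swap] at this
    · intro x _ y _ hxy
      have := congrArg Sum.swap hxy
      rwa [Sum.swap_swap, Sum.swap_swap] at this
    · intro y hy
      rw [Finset.mem_erase] at hy
      refine ⟨Sum.swap y, ?_, Sum.swap_swap y⟩
      rw [Finset.mem_erase]
      refine ⟨fun h => hy.1 ?_, Finset.mem_univ _⟩
      have := congrArg Sum.swap h
      rwa [Sum.swap_swap] at this
    · intro x _
      rfl
  have hNk : N₀ * ∏ l ∈ Finset.range (min k k), qr l = N := by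
    rw [hN, min_self, hprodk]
  have hNfdvd : ∀ t, N₀ * ∏ l ∈ Finset.range (min t k), qr l ∣ N := by
    intro t
    rw [hN, ← hprodk]
    exact Nat.mul_dvd_mul_left _ (Finset.prod_dvd_prod_of_subset _ _ _
      (Finset.range_subset_range.mpr (min_le_right t k)))
  have hN₀dvd : ∀ t, N₀ ∣ N₀ * ∏ l ∈ Finset.range (min t k), qr l :=
    fun t => Dvd.intro _ rfl
  have hN₀N : N₀ ∣ N := (hN₀dvd k).trans (hNfdvd k)
  have hB1 : ∀ t, ∀ r : ℕ, r.Prime →
      r ∣ (N₀ * ∏ l ∈ Finset.range (min t k), qr l) * p → r ∈ B := by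
    intro t r hr hd
    rw [hB]
    exact Finset.mem_union_left _ (Nat.mem_primeFactors.mpr
      ⟨hr, hd.trans (Nat.mul_dvd_mul_right (hNfdvd t) p), Nat.mul_ne_zero hN0 hpP.ne_zero⟩)
  have hB2Δ : ∀ r : ℕ, r.Prime → (r : ℤ) ∣ W.Δ → r ∈ B := by
    intro r hr hd
    rw [hB]
    exact Finset.mem_union_right _ (Nat.mem_primeFactors.mpr
      ⟨hr, Int.natCast_dvd.mp hd, Int.natAbs_ne_zero.mpr hΔ⟩)
  have hB2 : ∀ r : ℕ, r.Prime → ¬ W.IsGoodPrimeFor r → r ∈ B := by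
    intro r hr hbad'
    refine hB2Δ r hr ?_
    by_contra h
    exact hbad' h
  have hpB : p ∈ B := hB1 k p hpP (Dvd.intro_left _ rfl)
  have hsB : ((pr (Sum.inr ls) : ℕ)) ∈ B :=
    hB1 0 _ (pr (Sum.inr ls)).2 (Dvd.dvd.mul_right (hsN₀.trans (hN₀dvd 0)) p)
  have hsqf : ∀ t, Squarefree (N₀ * ∏ l ∈ Finset.range (min t k), qr l) :=
    fun t => hNsq.squarefree_of_dvd (hNfdvd t)
  -- membership of the framed primes
  have hprmem : ∀ t, (pr t : ℕ) ∈
      Finset.univ.image (fun j : Fin m => (pr (Sum.inl j) : ℕ)) ∪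
        Finset.univ.image (fun l : Fin e => (pr (Sum.inr l) : ℕ)) := by
    rintro (j | l)
    · exact Finset.mem_union_left _ (Finset.mem_image_of_mem _ (Finset.mem_univ j))
    · exact Finset.mem_union_right _ (Finset.mem_image_of_mem _ (Finset.mem_univ l))
  have hSm : ∀ q : ℕ, q.Prime → q ∣ N₀ → q ≠ (pr (Sum.inr ls) : ℕ) →
      q ∈ s59q_WSmin W hΔ hp𝒪 := by
    intro q hq hqN hqs
    by_cases hqp : q = p
    · rw [hqp]
      exact s59q_WSmin_p_mem W hΔ hp𝒪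
    exact (s59q_WSmin_hmin W hΔ hp𝒪 hp2 q hq hqp).mpr fun hunr =>
      hNtype q hq hqp hqN hqs ((s59q_W_unram_iff W hΔ hp𝒪 q).mp hunr)
  have hsSmin : ((pr (Sum.inr ls) : ℕ)) ∉ s59q_WSmin W hΔ hp𝒪 := fun h =>
    ((s59q_WSmin_hmin W hΔ hp𝒪 hp2 _ (pr (Sum.inr ls)).2 hsp).mp h) hsU
  have hN00 : N₀ * ∏ l ∈ Finset.range (min 0 k), qr l = N₀ := by
    rw [Nat.zero_min, Finset.range_zero, Finset.prod_empty, mul_one]
  have H := HF hp2 B hp35 hss hirr hbadp hc4p hpeu hB2 𝒪 hp𝒪 hsplitℤ habs Nd k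
    (fun t => N₀ * ∏ l ∈ Finset.range (min t k), qr l) qr
    (fun t => ⟨fun h0 => hN0 (Nat.eq_zero_of_zero_dvd (h0 ▸ hNfdvd t))⟩)
    (fun t _ => (pr (Sum.swap (step (k₀ + t)))).2)
    (fun t ht => by
      show N₀ * ∏ l ∈ Finset.range (min (t + 1) k), qr l =
        (N₀ * ∏ l ∈ Finset.range (min t k), qr l) * qr t
      rw [min_eq_left (Nat.succ_le_of_lt ht), min_eq_left ht.le, Finset.prod_range_succ, mul_assoc])
    (fun t ht => by
      show N₀ * ∏ l ∈ Finset.range (min t k), qr l = N₀ * ∏ l ∈ Finset.range (min k k), qr l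
      rw [min_eq_right ht, min_self])
    hsqf (fun t => hpN₀.trans (hN₀dvd t)) hB1
    (fun t => s59e_Lmin_levelOcc W p _ B (hB1 t) hB2
      (s59v_resMod_mono (hN₀dvd t) (hsqf t) hres))
    ⟨by
        show ¬ 2 ∣ N₀ * ∏ l ∈ Finset.range (min 0 k), qr l
        rw [hN00]
        exact h2, hfirst.1, by
        show (pr (Sum.swap (step (k₀ + 0))) : ℕ) = 2
        rw [Nat.add_zero]
        exact hfirst.2⟩
    (by
      show W.IsResiduallyModularOfLevel p (N₀ * ∏ l ∈ Finset.range (min 0 k), qr l)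
      rw [hN00]
      exact hres)
    (by
      show W.IsResiduallyModularOfLevel p ((N₀ * ∏ l ∈ Finset.range (min 0 k), qr l) / p)
      rw [hN00]
      exact hresM)
    (fun t => φq (Sum.swap (step (k₀ + t)))) (fun t => σq (Sum.swap (step (k₀ + t))))
    (fun t _ => ⟨primeLocalPlace (pr (Sum.swap (step (k₀ + t)))), s56z_place_liesOver _, hφq _⟩)
    (fun t _ => ⟨primeLocalPlace (pr (Sum.swap (step (k₀ + t)))), s56z_place_liesOver _,
      (hσq _).1⟩)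
    (fun t ht => by
      obtain ⟨h1, h2', h3, h4, h5⟩ := hprops _ (hne t ht)
      refine ⟨h1, ?_, h3, h4, h5⟩
      show ¬ qr t ∣ N₀ * ∏ l ∈ Finset.range (min 0 k), qr l
      rw [Nat.zero_min, Finset.range_zero, Finset.prod_empty, mul_one]
      exact h2')
    (s59q_WSmin W hΔ hp𝒪 ∪
      (Finset.univ.image (fun j : Fin m => (pr (Sum.inl j) : ℕ)) ∪
        Finset.univ.image (fun l : Fin e => (pr (Sum.inr l) : ℕ))))
    (s59q_WSmin W hΔ hp𝒪 ∪
      (Finset.univ.image (fun j : Fin m => (pr (Sum.inl j) : ℕ)) ∪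
        Finset.univ.image (fun l : Fin e => (pr (Sum.inr l) : ℕ))))
    (s59q_WSmin W hΔ hp𝒪) (s59q_WSmin W hΔ hp𝒪 ∪ {((pr (Sum.inr ls) : ℕ))})
    (Finset.mem_union_left _ (s59q_WSmin_p_mem W hΔ hp𝒪))
    (by
      intro q hq
      rcases Finset.mem_union.mp hq with h | h
      · exact Finset.mem_union_left _ h
      · rw [Finset.mem_singleton.mp h]
        exact Finset.mem_union_right _ (hprmem _))
    Finset.subset_union_left
    (s59q_WSmin_hmin W hΔ hp𝒪 hp2)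
    (by
      intro q hq
      rcases Finset.mem_union.mp hq with h | h
      · exact s59q_WSmin_subset W hΔ hp𝒪 B hpB hB2Δ h
      · have : ∃ t, (pr t : ℕ) = q := by
          rcases Finset.mem_union.mp h with h' | h'
          · obtain ⟨j, -, hj⟩ := Finset.mem_image.mp h'
            exact ⟨Sum.inl j, hj⟩
          · obtain ⟨l, -, hl⟩ := Finset.mem_image.mp h'
            exact ⟨Sum.inr l, hl⟩
        obtain ⟨t, rfl⟩ := this
        by_cases ht : t = Sum.inr ls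
        · rw [ht]; exact hsB
        · exact hB2 _ (pr t).2 (hprops t ht).2.2.1)
    (by
      intro t q hq hqN
      rcases (Nat.Prime.dvd_mul hq).mp hqN with h | h
      · by_cases hqs : q = (pr (Sum.inr ls) : ℕ)
        · rw [hqs]
          exact Or.inl (Finset.mem_union_right _ (hprmem _))
        · exact Or.inl (Finset.mem_union_left _ (hSm q hq h hqs))
      · obtain ⟨l, -, hd⟩ := (Prime.dvd_finsetProd_iff hq.prime _).mp h
        have hql : q = (pr (Sum.swap (step (k₀ + l))) : ℕ) :=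
          (Nat.prime_dvd_prime_iff_eq hq (pr (Sum.swap (step (k₀ + l)))).2).mp hd
        rw [hql]
        exact Or.inl (Finset.mem_union_right _ (hprmem _)))
    (by
      intro q hq hqN
      have hqN' : q ∣ N₀ := by
        have h0 : N₀ * ∏ l ∈ Finset.range (min 0 k), qr l = N₀ := by
          rw [Nat.zero_min, Finset.range_zero, Finset.prod_empty, mul_one]
        rw [← h0]
        exact hqN
      by_cases hqs : q = (pr (Sum.inr ls) : ℕ)
      · rw [hqs]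
        exact Or.inl (Finset.mem_union_right _ (Finset.mem_singleton_self _))
      · exact Or.inl (Finset.mem_union_left _ (hSm q hq hqN' hqs)))
    (by
      intro t ht hmem
      rcases Finset.mem_union.mp hmem with h | h
      · exact ((s59q_WSmin_hmin W hΔ hp𝒪 hp2 _ (pr (Sum.swap (step (k₀ + t)))).2
          (hprops _ (hne t ht)).1).mp h) (hprops _ (hne t ht)).2.2.2.1
      · exact hne t ht (hinj (Finset.mem_singleton.mp h)))
    (by
      intro q hq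
      rcases Finset.mem_union.mp hq with h | h
      · exact Or.inl h
      · exact Or.inr (Finset.mem_singleton.mp h))
    (by
      intro q hq
      rcases Finset.mem_union.mp hq with h | h
      · exact Or.inl (Finset.mem_union_left _ h)
      · have : ∃ t, (pr t : ℕ) = q := by
          rcases Finset.mem_union.mp h with h' | h'
          · obtain ⟨j, -, hj⟩ := Finset.mem_image.mp h'
            exact ⟨Sum.inl j, hj⟩
          · obtain ⟨l, -, hl⟩ := Finset.mem_image.mp h'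
            exact ⟨Sum.inr l, hl⟩
        obtain ⟨t, rfl⟩ := this
        by_cases hts : t = Sum.inr ls
        · rw [hts]
          exact Or.inl (Finset.mem_union_right _ (Finset.mem_singleton_self _))
        · have hx : Sum.swap t ≠ (Sum.inl ls : Fin e ⊕ Fin m) := by
            intro h''
            apply hts
            have := congrArg Sum.swap h''
            rwa [Sum.swap_swap] at this
          obtain ⟨t', h1, h2', h3⟩ := hcov (Sum.swap t) hx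
          refine Or.inr ⟨t' - k₀, by omega, ?_⟩
          show (pr t : ℕ) = (pr (Sum.swap (step (k₀ + (t' - k₀)))) : ℕ)
          have : k₀ + (t' - k₀) = t' := by omega
          rw [this, h3, Sum.swap_swap])
    (fun t _ => Finset.mem_union_right _ (hprmem _))
    Finset.subset_union_left
    (pr (Sum.inr ls)).2 hsp
    (by
      show ((pr (Sum.inr ls) : ℕ)) ∣ N₀ * ∏ l ∈ Finset.range (min 0 k), qr l
      exact hsN₀.trans (hN₀dvd 0))
    hstors
    (by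
      show W.IsResiduallyModularOfLevel p
        ((N₀ * ∏ l ∈ Finset.range (min 0 k), qr l) / (pr (Sum.inr ls) : ℕ))
      rw [hN00]
      exact hresS)
    (by
      show W.IsResiduallyModularOfLevel p
        ((N₀ * ∏ l ∈ Finset.range (min 0 k), qr l) / p / (pr (Sum.inr ls) : ℕ))
      rw [hN00]
      exact hresMS)
    (Finset.mem_union_right _ (Finset.mem_singleton_self _))
    (Finset.mem_union_right _ (hprmem _))
    hsU (φq (Sum.inr ls)) (σq (Sum.inr ls))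
    ⟨primeLocalPlace (pr (Sum.inr ls)), s56z_place_liesOver _, hφq _⟩
    ⟨primeLocalPlace (pr (Sum.inr ls)), s56z_place_liesOver _, (hσq _).1⟩
    εs hεs hscp hk0 hk1 (hφq _) (hσq _) D0 Dm (s59q_ZIdx m e)
  obtain ⟨Bs, hHk, ⟨𝒪₀, i𝒪₀, j𝒪₀, x₀, hM, hδr, hδs, hinj1, htr1⟩, HL⟩ := H
  letI := i𝒪₀
  haveI := j𝒪₀
  -- [RP] at every framed prime which is not a virtual step
  have hRPall : ∀ t : Fin m ⊕ Fin e, (k₀ = 1 → t ≠ Sum.inr ls) →
      x₀ (s59i_cpTr D0.ρ (φq t)) * x₀ (s59i_cpTr D0.ρ (φq t)) ≠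
        ((((pr t : ℕ) : ℕ) : 𝒪₀) + 1) * ((((pr t : ℕ) : ℕ) : 𝒪₀) + 1) := by
    intro t ht
    by_cases hts : t = Sum.inr ls
    · have h0 : k₀ = 0 := by
        by_contra h
        exact ht (by omega) hts
      rw [hts]
      exact hδs h0
    · have hx : Sum.swap t ≠ (Sum.inl ls : Fin e ⊕ Fin m) := by
        intro h
        apply hts
        have := congrArg Sum.swap h
        rwa [Sum.swap_swap] at this
      obtain ⟨t', h1, h2', h3⟩ := hcov (Sum.swap t) hx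
      have h4 : t = Sum.swap (step (k₀ + (t' - k₀))) := by
        have : k₀ + (t' - k₀) = t' := by omega
        rw [this, h3, Sum.swap_swap]
      have h5 := hδr (t' - k₀) (by omega)
      rw [h4]
      exact h5
  -- the constant `εs (s + 1)` is (plus or minus) a natural number
  have hconst : ∀ {R₁ R₂ : Type} [CommRing R₁] [CommRing R₂] [Algebra 𝒪 R₁] [Algebra 𝒪 R₂]
      (f₁ : R₁ →+* 𝒪₀) (f₂ : R₂ →+* 𝒪₀),
      f₁ (algebraMap 𝒪 R₁ (εs * ((((pr (Sum.inr ls) : ℕ) : ℕ) : 𝒪) + 1))) =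
        f₂ (algebraMap 𝒪 R₂ (εs * ((((pr (Sum.inr ls) : ℕ) : ℕ) : 𝒪) + 1))) := by
    intro R₁ R₂ _ _ _ _ f₁ f₂
    rcases hεs with h | h <;> rw [h] <;> simp
  refine ⟨Bs, ?_, ⟨𝒪₀, i𝒪₀, j𝒪₀, x₀, hM, hRPall, ?_, ?_⟩,
    fun r _ n qv h1 h2 h3 DQ Dsf κsf hκ hκtr => HL r n qv h1 h2 h3 DQ Dsf κsf hκ hκtr⟩
  · haveI hNZk : NeZero (N₀ * ∏ l ∈ Finset.range (min k k), qr l) :=
      ⟨fun h0 => hN0 (Nat.eq_zero_of_zero_dvd (h0 ▸ hNfdvd k))⟩
    exact s59f_HkFrobP_congr hNk (↑B : Set ℕ) (Bs.R k) (Bs.ρR k) hHk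
  · -- the ramification clause (`k₀ = 1`): vacuous
    intro hk1'
    omega
  · -- the trace clause (`k₀ = 1`): vacuous
    intro hk1'
    omega

end Fermat.Agent.Lib.S59
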