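/-
PROGRAMME R2 = S59, case (P), the spectator fields, node [PT-P] (helper3, prefix `s59u_c2_`), file 2:
**THE BASE KERNEL PAIR IS NON-ZERO AT A LEVEL WITHOUT TORSION-KILLER** (torsion-free-free twins of helper2's
`s59b_hP4_W_up` / `s59b_kerBase_W_mult_up`, B9P4Up.lean, and `s59b_kerBase_W`, B9KerBaseW.lean).

The base point of the spectator fields in case (P) lives on the kernel part of the level `N' = L p` with `L` ODD and WITHOUT any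
torsion-killing prime (`s59e_auxTors p L` fails in general).  In helper2's theorems the hypothesis `hp12 : s59e_auxTors p N` is used
only (a) to get `s59e_auxTors p (N q)` (for `p = 3`, `q = 2` this is free) and (b) through helper5's full base package `s59b_BaseW`
at the levels `N`, `N p`, of which only the clauses `h1e hid hne hnil` are used.  Those four clauses follow from the occurrence of the
eigensystem alone (`s59u_exists_idem`, UW6Idem.lean).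
* `s59u_c2_BaseW0 W N B 𝒪 e` : the four clauses; `s59u_c2_baseW0_exists` (from `s44i_LevelOcc N p a_W B`);
* **`s59u_c2_hP4_up0`** : `[P4]` at the level `N` from the level `N q` (hypothesis `s59e_auxTors p (N q)` only);
* **`s59u_c2_kerBase_up0`** : the base kernel pair `ker cor_A ∩ ker cor_B` of `(N, N p)` is non-zero on the part of a `BaseW0`
  idempotent, in the UNRESTRICTED form consumed by `s59u_c2_econcP_pt0`.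
-/
import Mathlib
import Fermat.Agent.Lib.S59.B9P4Up
import Fermat.Agent.Lib.S59.UW6Idem

set_option autoImplicit false
set_option linter.unusedSectionVars false
set_option linter.unusedVariables false
set_option linter.style.haveILetI false
set_option synthInstance.maxHeartbeats 400000

noncomputable section

namespace Fermat.Agent.Lib.S59

open Matrix MatrixGroups CongruenceSubgroup IsLocalRing Polynomial CuspForm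
open Fermat.Agent.Lib.S29 Fermat.Agent.Lib.S48 Fermat.Agent.Lib.S41 Fermat.Agent.Lib.S44
open Fermat.Agent.Lib.S31 Fermat.Agent.Lib.S18

/-- the four torsion-free-free clauses of helper5's base package at `(N, ⊤)` as a predicate on `e`. -/
def s59u_c2_BaseW0 (W : WeierstrassCurve ℤ) (N : ℕ) [NeZero N] (B : Finset ℕ) (𝒪 : Type) [CommRing 𝒪]
    [IsLocalRing 𝒪] (e : MvPolynomial ↥(s59t_goodB N B) 𝒪) : Prop :=
  1 - e ∈ s59t_evalIdeal (fun x : ↥(s59t_goodB N B) =>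
    s59t_cB (𝒪 := 𝒪) N (fun ℓ => W.apOfModel ℓ) (x : s59w_AIdx N)) ∧
  s59t_E0 (⊤ : Subgroup (ZMod N)ˣ) B e * s59t_E0 ⊤ B e = s59t_E0 ⊤ B e ∧
  s59t_E0 (⊤ : Subgroup (ZMod N)ˣ) B e ≠ 0 ∧
  (∀ x ∈ s59t_goodB N B, ∃ k : ℕ,
    ∀ y : s48h_Hpar 𝒪 (s48h_GammaH N (⊤ : Subgroup (ZMod N)ˣ)) 𝒪,
      ((s59w_op (⊤ : Subgroup (ZMod N)ˣ) 𝒪 x - s59t_cB (𝒪 := 𝒪) N (fun ℓ => W.apOfModel ℓ) x •
        (1 : Module.End 𝒪 (s48h_Hpar 𝒪 (s48h_GammaH N (⊤ : Subgroup (ZMod N)ˣ)) 𝒪))) ^ k)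
        (s59t_E0 ⊤ B e y) ∈
        (maximalIdeal 𝒪 • ⊤ :
          Submodule 𝒪 (s48h_Hpar 𝒪 (s48h_GammaH N (⊤ : Subgroup (ZMod N)ˣ)) 𝒪)))

/-- helper5's full base package gives the four clauses. -/
theorem s59u_c2_BaseW0_of_BaseW {W : WeierstrassCurve ℤ} {N : ℕ} [NeZero N] {B : Finset ℕ} {𝒪 : Type}
    [CommRing 𝒪] [IsDomain 𝒪] [IsDiscreteValuationRing 𝒪] {e : MvPolynomial ↥(s59t_goodB N B) 𝒪}
    (h : s59b_BaseW W N B 𝒪 e) : s59u_c2_BaseW0 W N B 𝒪 e := by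
  unfold s59b_BaseW at h
  exact ⟨h.1, h.2.2.1, h.2.2.2.1, h.2.2.2.2.1⟩

/-- **the four clauses from the occurrence of the eigensystem alone** (no torsion hypothesis, no squarefreeness). -/
theorem s59u_c2_baseW0_exists (W : WeierstrassCurve ℤ) (p : ℕ) [Fact p.Prime] (N : ℕ) [NeZero N]
    (B : Finset ℕ) {𝒪 : Type} [CommRing 𝒪] [IsDomain 𝒪] [IsDiscreteValuationRing 𝒪]
    [IsAdicComplete (maximalIdeal 𝒪) 𝒪] [CharZero 𝒪]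
    (hp𝒪 : ((p : ℕ) : 𝒪) ∈ maximalIdeal 𝒪)
    (hocc : s44i_LevelOcc N p (fun ℓ => W.apOfModel ℓ) B) :
    ∃ e : MvPolynomial ↥(s59t_goodB N B) 𝒪, s59u_c2_BaseW0 W N B 𝒪 e := by
  classical
  haveI : Module.Finite 𝒪 (s48h_Hpar 𝒪 (s48h_GammaH N (⊤ : Subgroup (ZMod N)ˣ)) 𝒪) :=
    Module.Finite.of_basis
      (s59u_cB (Module.Free.chooseBasis ℤ (s48h_M (s48h_GammaH N (⊤ : Subgroup (ZMod N)ˣ)))) 𝒪)
  have hW6 := s59u_W6 (L := N) (M := N) (dvd_refl N) (⊤ : Subgroup (ZMod N)ˣ) 𝒪 p hp𝒪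
    (fun ℓ => W.apOfModel ℓ) B hocc
  obtain ⟨v, hv, hT, hD⟩ := hW6
  have heig : ∀ j : ↥(s59t_goodB N B),
      s59w_op (⊤ : Subgroup (ZMod N)ˣ) 𝒪 (j : s59w_AIdx N) v -
        s59t_cB (𝒪 := 𝒪) N (fun ℓ => W.apOfModel ℓ) (j : s59w_AIdx N) • v ∈
        (maximalIdeal 𝒪 • ⊤ :
          Submodule 𝒪 (s48h_Hpar 𝒪 (s48h_GammaH N (⊤ : Subgroup (ZMod N)ˣ)) 𝒪)) := by
    rintro ⟨_, i, rfl, hi⟩
    exact hT i hi
  have hex := s59u_exists_idem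
    (fun x : ↥(s59t_goodB N B) => s59w_op (⊤ : Subgroup (ZMod N)ˣ) 𝒪 (x : s59w_AIdx N))
    (fun x y => s59w_op_comm (⊤ : Subgroup (ZMod N)ˣ) 𝒪 _ _)
    (fun x : ↥(s59t_goodB N B) => s59t_cB (𝒪 := 𝒪) N (fun ℓ => W.apOfModel ℓ) (x : s59w_AIdx N))
    v hv heig
  obtain ⟨e, h1e, hee, he0, -, hnil, -, -⟩ := hex
  exact ⟨e, h1e, hee, he0, fun x hx => hnil ⟨x, hx⟩⟩

/-! ### `[P4]` one level up, without torsion hypothesis at the level `N` -/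

section Up

variable (W : WeierstrassCurve ℤ) (hΔ : W.Δ ≠ 0) (p : ℕ) [Fact p.Prime] (hp2 : p ≠ 2)
  (hirr : W.ModRepIsIrreducible p) (hss : W.IsSemistableModel) (hmult : ¬ W.IsGoodPrimeFor p)
  (N : ℕ) [NeZero N] (q : ℕ) [hq : Fact q.Prime] (hqN : ¬ q ∣ N) (hpq : p ≠ q)
  [NeZero (N * q)] (hsq' : Squarefree (N * q)) (hgood' : s18_GoodLevel p (N * q))
  (B : Finset ℕ) (hpB : p ∈ B) (hqB : q ∈ B) (hNB : ∀ r : ℕ, r.Prime → r ∣ N → r ∈ B)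
  (hB2 : ∀ r : ℕ, r.Prime → ¬ W.IsGoodPrimeFor r → r ∈ B)
  (hocc' : s44i_LevelOcc (N * q) p (fun ℓ => W.apOfModel ℓ) B)
  {𝒪 : Type} [CommRing 𝒪] [IsDomain 𝒪] [IsDiscreteValuationRing 𝒪]
  [IsAdicComplete (maximalIdeal 𝒪) 𝒪] [Finite (ResidueField 𝒪)] [CharZero 𝒪] [Algebra ℤ_[p] 𝒪]
  (hp𝒪 : ((p : ℕ) : 𝒪) ∈ maximalIdeal 𝒪) (hp12' : s59e_auxTors p (N * q))
  (habs : (((s59b_rhoW W p hΔ).baseChangeAlong (algebraMap ℤ_[p] 𝒪)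
    (s59b_isLocalHom_padic p _ hp𝒪)).residual).IsAbsolutelyIrreducible)

include hp2 hirr hss hmult hqN hpq hsq' hgood' hpB hqB hNB hB2 hocc' hp12' habs in
set_option maxHeartbeats 1600000 in
/-- **`[P4]` at the level `N` from the level `N q`**, torsion hypothesis at `N q` only (twin of `s59b_hP4_W_up`). -/
theorem s59u_c2_hP4_up0 :
    ∀ e₁ : MvPolynomial ↥(s59t_goodB N B) 𝒪, s59u_c2_BaseW0 W N B 𝒪 e₁ →
      ∀ ip : s59w_TIdx N, ip.ell = p →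
      ∃ m : ℕ, ∀ y, ((s59w_op (⊤ : Subgroup (ZMod N)ˣ) 𝒪 (Sum.inl ip) *
          s59w_op (⊤ : Subgroup (ZMod N)ˣ) 𝒪 (Sum.inl ip) - 1) ^ m)
        (s59t_E0 (⊤ : Subgroup (ZMod N)ˣ) B e₁ y) ∈ (maximalIdeal 𝒪 • ⊤ :
          Submodule 𝒪 (s48h_Hpar 𝒪 (s48h_GammaH N (⊤ : Subgroup (ZMod N)ˣ)) 𝒪)) := by
  intro e₁ hB₁ ip hip
  classical
  haveI : CharP (ResidueField 𝒪) p := s59e_charP_residue p hp𝒪
  have hpP : p.Prime := Fact.out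
  have hqP : q.Prime := hq.out
  -- the base package one level up
  have hNB' : ∀ r : ℕ, r.Prime → r ∣ N * q → r ∈ B := by
    intro r hr h
    rcases (Nat.Prime.dvd_mul hr).mp h with h | h
    · exact hNB r hr h
    · rw [(Nat.prime_dvd_prime_iff_eq hr hqP).mp h]
      exact hqB
  have hnegH : (-1 : (ZMod (N * q))ˣ) ∈ (⊤ : Subgroup (ZMod (N * q))ˣ) := Subgroup.mem_top _
  have hH : ∀ u : (ZMod (N * q))ˣ, ∃ k : ℕ, u ^ (p ^ k) ∈ (⊤ : Subgroup (ZMod (N * q))ˣ) :=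
    fun u => ⟨0, Subgroup.mem_top _⟩
  have hpk := s59e_W_base_pkg W hΔ p hirr (N * q) hsq' B hocc' (𝒪 := 𝒪) hp𝒪
      (⊤ : Subgroup (ZMod (N * q))ˣ) hnegH hH hp12'
  obtain ⟨e₂, h1e₂, hunit₂, hid₂, hne₂, hnil₂, -, -, -, hP3₂⟩ := hpk
  have hB₂ : s59b_BaseW W (N * q) B 𝒪 e₂ := by
    refine ⟨h1e₂, ?_, hid₂, hne₂, hnil₂, hP3₂⟩
    intro t ht
    obtain ⟨η, h1, -⟩ := hunit₂ t ht
    exact ⟨η, h1⟩
  -- `[P4]` one level up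
  have hpNq : ¬ p ∣ N * q := hgood'.1
  have hexσ := s48h_exists_sigma_p (M := N * q) hpNq
  obtain ⟨σp, hσp, hσp11⟩ := hexσ
  obtain ⟨ip', hip'⟩ : ∃ ip' : s59w_TIdx (N * q), ip'.ell = p :=
    ⟨⟨p, hpP, hpNq, σp, hσp, hσp11⟩, rfl⟩
  have hP4' := s59b_hP4_W W hΔ p hp2 hirr hss hmult (N * q) hgood' B hpB hNB' hB2 (𝒪 := 𝒪) hp𝒪 habs
    e₂ hB₂ ip' hip'
  obtain ⟨m, hm⟩ := hP4'
  refine ⟨m, ?_⟩
  -- the package
  have hG' : s59f_IsG' N q (⊤ : Subgroup (ZMod N)ˣ)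
      (s48h_GammaH (N * q) (⊤ : Subgroup (ZMod (N * q))ˣ)) := s59f_isG'_top hqN
  have he' : (1 : SL(2, ℤ)) ∈ Gamma0 (N * q) := one_mem _
  have hee : s59f_gW hqN * 1 * 1 ∈ s48h_GammaH (N * q) (⊤ : Subgroup (ZMod (N * q))ˣ) := by
    rw [mul_one, mul_one]
    exact s59t_mem_GammaH_top (N * q) (⟨s59f_gW hqN, s59f_gW_mem hqN⟩ : Gamma0 (N * q))
  have hB₁' := hB₁
  unfold s59u_c2_BaseW0 at hB₁'
  obtain ⟨h1e₁, hid₁, hne₁, hnil₁⟩ := hB₁'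
  have hcb := s59f_oldN_compat_E0 hqN rfl hG' 1 he' hee B (fun ℓ => W.apOfModel ℓ) hqB
    e₂ h1e₂ hid₂ hnil₂ e₁ h1e₁ hid₁ hnil₁
  -- `T_p` at the two levels
  have hcT := s59f_oldN_compat_wop (R := 𝒪) hqN rfl hG' 1 he' hee (Dvd.intro q rfl)
    (dvd_refl (N * q)) (Sum.inl ip')
  have hT' : s59w_op (⊤ : Subgroup (ZMod (N * q))ˣ) 𝒪
      (s59t_AIdx_down (dvd_refl (N * q)) (Sum.inl ip')) =
      s59w_op (⊤ : Subgroup (ZMod (N * q))ˣ) 𝒪 (Sum.inl ip') := by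
    rw [s59t_AIdx_down_self]
  have hT : s59w_op (⊤ : Subgroup (ZMod N)ˣ) 𝒪
      (s59t_AIdx_down (Dvd.intro q rfl : N ∣ N * q) (Sum.inl ip')) =
      s59w_op (⊤ : Subgroup (ZMod N)ˣ) 𝒪 (Sum.inl ip) :=
    s59e_op_inl_congr (⊤ : Subgroup (ZMod N)ˣ) 𝒪 (hip'.trans hip.symm)
  rw [hT, hT'] at hcT
  -- the non-Eisenstein index
  have hexi := s59u_W_exists_nonEis_idx W hΔ p hp2 hirr (𝒪 := 𝒪) hp𝒪 B N
  obtain ⟨i, hiB, hu⟩ := hexi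
  have hiq : i.ell ≠ q := fun h => hiB (h ▸ hqB)
  have hεT : ∀ (j : s59w_AIdx N) (y), s59t_E0 (⊤ : Subgroup (ZMod N)ˣ) B e₁
      (s59w_op (⊤ : Subgroup (ZMod N)ˣ) 𝒪 j y) =
      s59w_op (⊤ : Subgroup (ZMod N)ˣ) 𝒪 j (s59t_E0 (⊤ : Subgroup (ZMod N)ˣ) B e₁ y) := by
    intro j y
    have h := LinearMap.congr_fun (s59e_E0_comm_op (⊤ : Subgroup (ZMod N)ˣ) B e₁ j) y
    rw [Module.End.mul_apply, Module.End.mul_apply] at h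
    exact h
  have hnil_i := hnil₁ (Sum.inl i) (s59t_inl_mem_goodB (Bset := B) i hiB)
  -- injectivity modulo `𝔪` on the part
  have hinj : ∀ y, (s59f_oldN hqN rfl hG' 𝒪 𝒪 1 he' hee).resA
      (s59t_E0 (⊤ : Subgroup (ZMod N)ˣ) B e₁ y) ∈ (maximalIdeal 𝒪 • ⊤ : Submodule 𝒪
        (s48h_Hpar 𝒪 (s48h_GammaH (N * q) (⊤ : Subgroup (ZMod (N * q))ˣ)) 𝒪)) →
      s59t_E0 (⊤ : Subgroup (ZMod N)ˣ) B e₁ y ∈ (maximalIdeal 𝒪 • ⊤ : Submodule 𝒪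
        (s48h_Hpar 𝒪 (s48h_GammaH N (⊤ : Subgroup (ZMod N)ˣ)) 𝒪)) := by
    intro y hy
    let x : s59t_part (s59t_E0 (⊤ : Subgroup (ZMod N)ˣ) B e₁) :=
      ⟨s59t_E0 (⊤ : Subgroup (ZMod N)ˣ) B e₁ y, ⟨y, rfl⟩⟩
    have h0 : ((s59f_oldN hqN rfl hG' 𝒪 𝒪 1 he' hee).restrict hcb).resA x +
        ((s59f_oldN hqN rfl hG' 𝒪 𝒪 1 he' hee).restrict hcb).resB 0 ∈
        (maximalIdeal 𝒪 • ⊤ : Submodule 𝒪 (s59t_part (s59t_E0
          (⊤ : Subgroup (ZMod (N * q))ˣ) B e₂))) := by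
      rw [map_zero, add_zero, s59t_part_smul_top_iff (maximalIdeal 𝒪) hid₂]
      exact hy
    have h1 := s59f_ihara_part_top 𝒪 p hqN rfl hG' 1 he' hee hcb hpq i hiq hid₁
      (hεT (Sum.inl i)) (((W.apOfModel i.ell : ℤ) : 𝒪)) hu hnil_i x 0 h0
    exact (s59t_part_smul_top_iff (maximalIdeal 𝒪) hid₁ x).mp h1.1
  intro y
  exact s59b_nil_transfer (maximalIdeal 𝒪) (s59f_oldN hqN rfl hG' 𝒪 𝒪 1 he' hee).resA
    (s59t_E0 (⊤ : Subgroup (ZMod N)ˣ) B e₁) (s59w_op (⊤ : Subgroup (ZMod N)ˣ) 𝒪 (Sum.inl ip))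
    (s59t_E0 (⊤ : Subgroup (ZMod (N * q))ˣ) B e₂)
    (s59w_op (⊤ : Subgroup (ZMod (N * q))ˣ) 𝒪 (Sum.inl ip'))
    (fun y => (hcT.resA y).symm) (fun y => (hcb.resA y).symm) (hεT (Sum.inl ip)) hinj m hm y

end Up

/-! ### The base kernel pair is non-zero, without torsion hypothesis at the levels `N`, `N p` -/

section KerBase0

variable (W : WeierstrassCurve ℤ) (hΔ : W.Δ ≠ 0) (p : ℕ) [Fact p.Prime] (hp2 : p ≠ 2)
  (hirr : W.ModRepIsIrreducible p) (hss : W.IsSemistableModel) (hmult : ¬ W.IsGoodPrimeFor p)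
  (N : ℕ) [NeZero N] (N₂ : ℕ) [NeZero N₂] (hN₂ : N₂ = N * p) (hpN : ¬ p ∣ N)
  (q : ℕ) [hq : Fact q.Prime] (hqN : ¬ q ∣ N) (hpq : p ≠ q)
  [NeZero (N * q)] (hsq' : Squarefree (N * q)) (hgood' : s18_GoodLevel p (N * q))
  (B : Finset ℕ) (hpB : p ∈ B) (hqB : q ∈ B) (hNB : ∀ r : ℕ, r.Prime → r ∣ N → r ∈ B)
  (hB2 : ∀ r : ℕ, r.Prime → ¬ W.IsGoodPrimeFor r → r ∈ B)
  (hocc₁ : s44i_LevelOcc N p (fun ℓ => W.apOfModel ℓ) B)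
  (hocc₂ : s44i_LevelOcc N₂ p (fun ℓ => W.apOfModel ℓ) B)
  (hocc' : s44i_LevelOcc (N * q) p (fun ℓ => W.apOfModel ℓ) B)
  {𝒪 : Type} [CommRing 𝒪] [IsDomain 𝒪] [IsDiscreteValuationRing 𝒪]
  [IsAdicComplete (maximalIdeal 𝒪) 𝒪]
  [Finite (ResidueField 𝒪)] [CharZero 𝒪] [Algebra ℤ_[p] 𝒪]
  (hp𝒪 : ((p : ℕ) : 𝒪) ∈ maximalIdeal 𝒪) (hp12' : s59e_auxTors p (N * q))
  (habs : (((s59b_rhoW W p hΔ).baseChangeAlong (algebraMap ℤ_[p] 𝒪)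
    (s59b_isLocalHom_padic p _ hp𝒪)).residual).IsAbsolutelyIrreducible)
  (hGb : s59f_IsG' N p (⊤ : Subgroup (ZMod N)ˣ) (s48h_GammaH N₂ (⊤ : Subgroup (ZMod N₂)ˣ)))
  (e₀ : SL(2, ℤ)) (he'b : e₀ ∈ Gamma0 N₂)
  (heeb : s59f_gW hpN * e₀ * e₀ ∈ s48h_GammaH N₂ (⊤ : Subgroup (ZMod N₂)ˣ))

include hΔ hp2 hirr hss hmult hqN hpq hsq' hgood' hocc₁ hocc₂ hocc' hp𝒪 hp12' hN₂ hpB hqB hNB hB2
  habs in
set_option maxHeartbeats 1600000 in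
/-- **the base kernel pair of `(N, N p)` is non-zero** on the part of a `BaseW0`-idempotent of the level `N p`, for a level `N`
which need be neither good for `p` nor torsion-free (`[P4]` imported from the level `N q`): unrestricted form. -/
theorem Internal.s59u_c2_kerBase_up0 :
    ∃ e₂ : MvPolynomial ↥(s59t_goodB N₂ B) 𝒪, s59u_c2_BaseW0 W N₂ B 𝒪 e₂ ∧
      ∃ z : s48h_Hpar 𝒪 (s48h_GammaH N₂ (⊤ : Subgroup (ZMod N₂)ˣ)) 𝒪, z ≠ 0 ∧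
        s59t_E0 (⊤ : Subgroup (ZMod N₂)ˣ) B e₂ z = z ∧
        (s59f_oldN hpN hN₂ hGb 𝒪 𝒪 e₀ he'b heeb).corA z = 0 ∧
        (s59f_oldN hpN hN₂ hGb 𝒪 𝒪 e₀ he'b heeb).corB z = 0 := by
  classical
  haveI : CharP (ResidueField 𝒪) p := s59e_charP_residue p hp𝒪
  have hpP : p.Prime := Fact.out
  have hex1 := s59u_c2_baseW0_exists W p N B (𝒪 := 𝒪) hp𝒪 hocc₁
  have hex2 := s59u_c2_baseW0_exists W p N₂ B (𝒪 := 𝒪) hp𝒪 hocc₂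
  obtain ⟨e₁, hB₁⟩ := hex1
  obtain ⟨e₂, hB₂⟩ := hex2
  -- the index of `T_p` and the `[P4]` input
  have hexσ := s48h_exists_sigma_p (M := N) hpN
  obtain ⟨σp, hσp, hσp11⟩ := hexσ
  have hexip : ∃ ip : s59w_TIdx N, ip.ell = p := ⟨⟨p, hpP, hpN, σp, hσp, hσp11⟩, rfl⟩
  obtain ⟨ip, hip⟩ := hexip
  have hnilp := s59u_c2_hP4_up0 W hΔ p hp2 hirr hss hmult N q hqN hpq hsq' hgood' B hpB hqB hNB hB2
    hocc' (𝒪 := 𝒪) hp𝒪 hp12' habs e₁ hB₁ ip hip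
  have hB₁' := hB₁
  have hB₂' := hB₂
  unfold s59u_c2_BaseW0 at hB₁' hB₂'
  obtain ⟨h1e₁, hid₁, hne₁, hnil₁⟩ := hB₁'
  obtain ⟨h1e₂, hid₂, hne₂, hnil₂⟩ := hB₂'
  have hcb := s59f_oldN_compat_E0 hpN hN₂ hGb e₀ he'b heeb B (fun ℓ => W.apOfModel ℓ) hpB
    e₂ h1e₂ hid₂ hnil₂ e₁ h1e₁ hid₁ hnil₁
  refine ⟨e₂, hB₂, ?_⟩
  -- the auxiliary (non-Eisenstein) prime
  have hexi := s59u_W_exists_nonEis_idx W hΔ p hp2 hirr (𝒪 := 𝒪) hp𝒪 B N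
  obtain ⟨i, hiB, hu⟩ := hexi
  have hi : ¬ i.ell ∣ N * p * p := s59b_not_dvd_aux B i.prime hpP hiB hpB hNB
  have hεT : ∀ y, s59t_E0 (⊤ : Subgroup (ZMod N)ˣ) B e₁
      (s59w_op (⊤ : Subgroup (ZMod N)ˣ) 𝒪 (Sum.inl i) y) =
      s59w_op (⊤ : Subgroup (ZMod N)ˣ) 𝒪 (Sum.inl i) (s59t_E0 (⊤ : Subgroup (ZMod N)ˣ) B e₁ y) := by
    intro y
    have h := LinearMap.congr_fun (s59e_E0_comm_op (⊤ : Subgroup (ZMod N)ˣ) B e₁ (Sum.inl i)) y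
    rw [Module.End.mul_apply, Module.End.mul_apply] at h
    exact h
  have hnil_i := hnil₁ (Sum.inl i) (s59t_inl_mem_goodB (Bset := B) i hiB)
  -- finiteness, non-triviality
  let bZ₀ := Module.Free.chooseBasis ℤ (s48h_M (s48h_GammaH N (⊤ : Subgroup (ZMod N)ˣ)))
  haveI : Module.Finite 𝒪 (s48h_Hpar 𝒪 (s48h_GammaH N (⊤ : Subgroup (ZMod N)ˣ)) 𝒪) :=
    Module.Finite.of_basis (s59u_cB bZ₀ 𝒪)
  haveI hfin₀ : Module.Finite 𝒪 (s59t_part (s59t_E0 (⊤ : Subgroup (ZMod N)ˣ) B e₁)) :=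
    s59t_part_finite _
  haveI hnt₀ : Nontrivial (s59t_part (s59t_E0 (⊤ : Subgroup (ZMod N)ˣ) B e₁)) := by
    by_contra hnt
    rw [not_nontrivial_iff_subsingleton] at hnt
    apply hne₁
    refine LinearMap.ext fun y => ?_
    have h0 : (⟨s59t_E0 (⊤ : Subgroup (ZMod N)ˣ) B e₁ y, ⟨y, rfl⟩⟩ :
        s59t_part (s59t_E0 (⊤ : Subgroup (ZMod N)ˣ) B e₁)) = 0 := Subsingleton.elim _ _
    exact congrArg Subtype.val h0
  have hne := s59b_new_ne_zero_base 𝒪 p hpN hN₂ hGb e₀ he'b heeb hcb hp2 i hi hid₁ hεT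
    (((W.apOfModel i.ell : ℤ) : 𝒪)) hu hnil_i ip hip hnilp
  obtain ⟨z, hz, hzA, hzB⟩ := hne
  refine ⟨(z : s48h_Hpar 𝒪 (s48h_GammaH N₂ (⊤ : Subgroup (ZMod N₂)ˣ)) 𝒪), ?_, ?_, ?_, ?_⟩
  · intro h0
    exact hz (Subtype.ext h0)
  · exact (s59t_mem_part hid₂ _).mp z.2
  · exact congrArg Subtype.val hzA
  · exact congrArg Subtype.val hzB

export Internal (s59u_c2_kerBase_up0)

end KerBase0

end Fermat.Agent.Lib.S59

end
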