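/-
PROGRAMME (R2) = S59, leaf [RP-ℓ] (helper1, prefix `s59rp_`), part 1: **a continuous non-negative function on `ℍ` which is
invariant under a finite-index subgroup of `SL(2, ℤ)` and tends to `0` at every cusp attains its maximum.**
Only Mathlib.
-/
import Mathlib

set_option autoImplicit false
set_option linter.style.haveILetI false

open UpperHalfPlane Filter Topology
open scoped MatrixGroups Modular

noncomputable section

namespace Fermat.Agent.Lib.S59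

/-- a continuous function tending to `0` at `i∞` attains its maximum on the standard fundamental domain. -/
theorem s59rp_exists_max_fd {k : ℍ → ℝ} (hcont : Continuous k) (hnn : ∀ τ, 0 ≤ k τ)
    (hinf : Tendsto k atImInfty (𝓝 0)) : ∃ w₀ ∈ 𝒟, ∀ w ∈ 𝒟, k w ≤ k w₀ := by
  obtain ⟨g₁, hw₁⟩ := ModularGroup.exists_smul_mem_fd UpperHalfPlane.I
  by_cases h0 : ∀ w ∈ 𝒟, k w = 0
  · exact ⟨_, hw₁, fun w hw => by rw [h0 w hw, h0 _ hw₁]⟩
  rw [not_forall] at h0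
  obtain ⟨w₂, h0⟩ := h0
  rw [Classical.not_imp] at h0
  obtain ⟨hw₂, hk₂⟩ := h0
  have hpos : 0 < k w₂ := lt_of_le_of_ne (hnn w₂) (Ne.symm hk₂)
  have hev : ∀ᶠ τ in atImInfty, k τ < k w₂ := (tendsto_order.mp hinf).2 _ hpos
  obtain ⟨y, hy⟩ := (atImInfty_mem _).mp hev
  set y' := max y w₂.im with hy'
  have hK := ModularGroup.isCompact_truncatedFundamentalDomain y'
  have hne : (ModularGroup.truncatedFundamentalDomain y').Nonempty :=
    ⟨w₂, hw₂, le_max_right _ _⟩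
  obtain ⟨w₀, hw₀, hmax⟩ := hK.exists_isMaxOn hne hcont.continuousOn
  refine ⟨w₀, hw₀.1, fun w hw => ?_⟩
  have h2 : k w₂ ≤ k w₀ := hmax ⟨hw₂, le_max_right _ _⟩
  rcases le_or_gt w.im y' with h | h
  · exact hmax ⟨hw, h⟩
  · have : k w < k w₂ := hy w ((le_max_left _ _).trans h.le)
    exact this.le.trans h2

/-- **the maximum is attained.** -/
theorem s59rp_exists_max {g : ℍ → ℝ} (hcont : Continuous g) (hnn : ∀ τ, 0 ≤ g τ)
    (hinf : ∀ γ : SL(2, ℤ), Tendsto (fun τ => g (γ • τ)) atImInfty (𝓝 0))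
    (Γ : Subgroup SL(2, ℤ)) [Γ.FiniteIndex] (hinv : ∀ γ ∈ Γ, ∀ τ, g (γ • τ) = g τ) :
    ∃ τ₀, ∀ τ, g τ ≤ g τ₀ := by
  classical
  letI : Fintype (SL(2, ℤ) ⧸ Γ) := Subgroup.fintypeQuotientOfFiniteIndex
  -- the maximum of each translate on the fundamental domain
  have hq : ∀ q : SL(2, ℤ) ⧸ Γ, ∃ w₀ ∈ 𝒟, ∀ w ∈ 𝒟,
      g ((Quotient.out q)⁻¹ • w) ≤ g ((Quotient.out q)⁻¹ • w₀) := fun q =>
    s59rp_exists_max_fd (k := fun w => g ((Quotient.out q)⁻¹ • w))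
      (by simp only [ModularGroup.sl_moeb]; fun_prop) (fun _ => hnn _) (hinf _)
  choose W hW hWmax using hq
  obtain ⟨q₀, -, hq₀⟩ := Finset.exists_max_image (Finset.univ : Finset (SL(2, ℤ) ⧸ Γ))
    (fun q => g ((Quotient.out q)⁻¹ • W q)) ⟨(1 : SL(2, ℤ)), Finset.mem_univ _⟩
  refine ⟨(Quotient.out q₀)⁻¹ • W q₀, fun τ => ?_⟩
  obtain ⟨γ, hγ⟩ := ModularGroup.exists_smul_mem_fd τ
  obtain ⟨h, hh⟩ := QuotientGroup.mk_out_eq_mul Γ γ
  set q : SL(2, ℤ) ⧸ Γ := ((γ : SL(2, ℤ)) : SL(2, ℤ) ⧸ Γ) with hqdef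
  -- `τ = γ⁻¹ • (γ • τ) = (h * (out q)⁻¹) • (γ • τ)`
  have e1 : γ⁻¹ = (h : SL(2, ℤ)) * (Quotient.out q)⁻¹ := by
    rw [hh]; group
  have hτ : τ = ((h : SL(2, ℤ)) * (Quotient.out q)⁻¹) • (γ • τ) := by
    rw [← e1, ← mul_smul, inv_mul_cancel, one_smul]
  rw [hτ, mul_smul, hinv _ h.2]
  exact (hWmax q _ hγ).trans (hq₀ q (Finset.mem_univ _))

end Fermat.Agent.Lib.S59
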