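/-
PROGRAMME (R2) = S59, leaf [RP-ℓ] (helper1, prefix `s59rp_`), part 2: **the strict trivial bound**
`‖a_ℓ(f)‖ < ℓ + 1` for a normalised eigenform `f` of weight 2 on `Γ₀(N)` and a prime `ℓ ∤ N`.

Proof (no Weil, no Petersson integral): `G(τ) = ‖f τ‖ · Im τ` is `Γ₀(N)`-invariant, continuous and tends to `0` at every cusp, so
it attains its maximum `M > 0` at some `τ₀` (`s59rp_exists_max`).  `T_ℓ f = a_ℓ f` (`s29s_heckeT_eigen`) reads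
`a_ℓ f(τ) = ℓ⁻¹ ∑_{j<ℓ} f((τ+j)/ℓ) + ℓ f(ℓτ)`, hence `‖a_ℓ‖ G(τ) ≤ ∑_j G((τ+j)/ℓ) + G(ℓτ)`.  If `‖a_ℓ‖ ≥ ℓ + 1` then
`G(ℓτ₀) = M`, so `G(ℓᵏτ₀) = M` for all `k` — but `G → 0` as `Im → ∞`.
-/
import Mathlib
import Fermat.Agent.Lib.S59.GRPMax
import Fermat.Agent.Lib.S29.DSPeriod

set_option autoImplicit false
set_option linter.style.haveILetI false
set_option linter.unusedSectionVars false

open UpperHalfPlane ModularFormClass CongruenceSubgroup Complex Filter Topology ModularForm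
open scoped MatrixGroups Modular

noncomputable section

namespace Fermat.Agent.Lib.S59

variable {N : ℕ} [NeZero N]

/-- `G(τ) = ‖f τ‖ · Im τ`. -/
def s59rp_G (f : CuspForm (Gamma0 N) 2) (τ : ℍ) : ℝ := ‖f τ‖ * τ.im

theorem s59rp_G_nonneg (f : CuspForm (Gamma0 N) 2) (τ : ℍ) : 0 ≤ s59rp_G f τ :=
  mul_nonneg (norm_nonneg _) τ.im_pos.le

theorem s59rp_petersson_norm (f : CuspForm (Gamma0 N) 2) (τ : ℍ) :
    ‖petersson 2 f f τ‖ = s59rp_G f τ ^ 2 := by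
  unfold petersson s59rp_G
  rw [norm_mul, norm_mul, Complex.norm_conj, mul_pow]
  congr 1
  · ring
  · rw [norm_zpow, Complex.norm_real, Real.norm_of_nonneg τ.im_pos.le]
    norm_cast

theorem s59rp_G_sq_cont (f : CuspForm (Gamma0 N) 2) : Continuous fun τ => s59rp_G f τ ^ 2 := by
  have h : Continuous fun τ => ‖petersson 2 f f τ‖ := by fun_prop
  simpa only [s59rp_petersson_norm] using h

theorem s59rp_G_sq_inv (f : CuspForm (Gamma0 N) 2) (γ : SL(2, ℤ)) (hγ : γ ∈ Gamma0 N) (τ : ℍ) :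
    s59rp_G f (γ • τ) ^ 2 = s59rp_G f τ ^ 2 := by
  rw [← s59rp_petersson_norm, ← s59rp_petersson_norm, ModularGroup.sl_moeb]
  exact SlashInvariantFormClass.norm_petersson_smul
    (Γ := Subgroup.map (Matrix.SpecialLinearGroup.mapGL ℝ) (Gamma0 N))
    (Subgroup.mem_map.mpr ⟨γ, hγ, rfl⟩)

open ConjAct Pointwise Matrix.SpecialLinearGroup in
theorem s59rp_G_sq_tendsto (f : CuspForm (Gamma0 N) 2) (γ : SL(2, ℤ)) :
    Tendsto (fun τ => s59rp_G f (γ • τ) ^ 2) atImInfty (𝓝 0) := by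
  simp_rw [← s59rp_petersson_norm]
  rw [← tendsto_zero_iff_norm_tendsto_zero]
  simp_rw [← UpperHalfPlane.petersson_slash_SL]
  have : ((toConjAct (γ : GL (Fin 2) ℝ)⁻¹) •
      (Subgroup.map (mapGL ℝ) (Gamma0 N) : Subgroup (GL (Fin 2) ℝ))).IsArithmetic := by
    simpa [(show Rat.castHom ℝ = algebraMap ℚ ℝ by rfl), map_inv, map_mapGL]
      using! Subgroup.IsArithmetic.conj (Subgroup.map (mapGL ℝ) (Gamma0 N)) (mapGL ℚ γ)⁻¹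
  exact (CuspFormClass.zero_at_infty <| CuspForm.translate f γ).petersson_isZeroAtImInfty_left 2 _
    (ModularForm.translate f γ)

theorem s59rp_im_heckeMatrix {ℓ : ℕ} (hℓ : ℓ ≠ 0) (j : ℕ) (τ : ℍ) :
    (heckeMatrix ℓ j • τ).im = τ.im / ℓ := by
  have h := congrArg Complex.im (coe_heckeMatrix_smul hℓ j τ)
  rw [UpperHalfPlane.coe_im] at h
  rw [h, Complex.div_natCast_im, Complex.add_im, Complex.natCast_im, add_zero,
    UpperHalfPlane.coe_im]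

theorem s59rp_im_heckeDiag {ℓ : ℕ} (hℓ : ℓ ≠ 0) (τ : ℍ) :
    (heckeDiagMatrix ℓ • τ).im = ℓ * τ.im := by
  have h := congrArg Complex.im (coe_heckeDiagMatrix_smul hℓ τ)
  rw [UpperHalfPlane.coe_im] at h
  rw [h, Complex.mul_im, Complex.natCast_re, Complex.natCast_im, zero_mul, add_zero,
    UpperHalfPlane.coe_im]

/-- the Hecke inequality for `G`. -/
theorem s59rp_hecke_le {f : CuspForm (Gamma0 N) 2} (hf : f.IsNormalizedEigenform) {ℓ : ℕ}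
    (hℓ : ℓ.Prime) (hℓN : ¬ ℓ ∣ N) (τ : ℍ) :
    ‖qCoeff f ℓ‖ * s59rp_G f τ ≤
      ∑ j ∈ Finset.range ℓ, s59rp_G f (heckeMatrix ℓ j • τ) +
        s59rp_G f (heckeDiagMatrix ℓ • τ) := by
  have hℓ0 : ℓ ≠ 0 := hℓ.ne_zero
  have hℓpos : (0 : ℝ) < ℓ := by exact_mod_cast hℓ.pos
  have h1 : CuspForm.heckeTLin 2 hℓ hℓN f τ = (qCoeff (⇑f) ℓ • f) τ :=
    congrFun (congrArg (⇑) (Fermat.Agent.Lib.S29.s29s_heckeT_eigen hf hℓ hℓN)) τ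
  rw [CuspForm.heckeTLin_apply_apply, heckeT_apply 2 hℓ0] at h1
  have h2 : (qCoeff (⇑f) ℓ • f) τ = qCoeff (⇑f) ℓ * f τ := rfl
  rw [h2] at h1
  have h3 : ‖qCoeff (⇑f) ℓ‖ * ‖f τ‖ ≤
      (ℓ : ℝ)⁻¹ * ∑ j ∈ Finset.range ℓ, ‖f (heckeMatrix ℓ j • τ)‖ +
        (ℓ : ℝ) * ‖f (heckeDiagMatrix ℓ • τ)‖ := by
    rw [← norm_mul, ← h1]
    refine (norm_add_le _ _).trans ?_
    rw [norm_mul, norm_mul, norm_inv, Complex.norm_natCast]
    have e : ((ℓ : ℂ) ^ ((2 : ℤ) - 1)) = (ℓ : ℂ) := by norm_num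
    rw [e, Complex.norm_natCast]
    gcongr
    exact norm_sum_le _ _
  unfold s59rp_G
  simp only [s59rp_im_heckeMatrix hℓ0, s59rp_im_heckeDiag hℓ0]
  have h4 := mul_le_mul_of_nonneg_right h3 τ.im_pos.le
  calc ‖qCoeff (⇑f) ℓ‖ * (‖f τ‖ * τ.im) = ‖qCoeff (⇑f) ℓ‖ * ‖f τ‖ * τ.im := by ring
    _ ≤ ((ℓ : ℝ)⁻¹ * ∑ j ∈ Finset.range ℓ, ‖f (heckeMatrix ℓ j • τ)‖ +
        (ℓ : ℝ) * ‖f (heckeDiagMatrix ℓ • τ)‖) * τ.im := h4
    _ = _ := by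
      rw [add_mul, Finset.mul_sum, Finset.sum_mul]
      congr 1
      · refine Finset.sum_congr rfl fun j _ => ?_
        field_simp
      · ring

/-- **[RP-ℓ]: the strict trivial bound.** -/
theorem s59rp_strict_bound {f : CuspForm (Gamma0 N) 2} (hf : f.IsNormalizedEigenform) {ℓ : ℕ}
    (hℓ : ℓ.Prime) (hℓN : ¬ ℓ ∣ N) : ‖qCoeff f ℓ‖ < (ℓ : ℝ) + 1 := by
  by_contra hcon
  rw [not_lt] at hcon
  have hℓ0 : ℓ ≠ 0 := hℓ.ne_zero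
  have hℓ1 : (1 : ℝ) < ℓ := by exact_mod_cast hℓ.one_lt
  -- the maximum
  obtain ⟨τ₀, hτ₀⟩ := s59rp_exists_max (s59rp_G_sq_cont f) (fun τ => sq_nonneg _)
    (s59rp_G_sq_tendsto f) (Gamma0 N) (s59rp_G_sq_inv f)
  have hmax : ∀ τ, s59rp_G f τ ≤ s59rp_G f τ₀ := fun τ =>
    (pow_le_pow_iff_left₀ (s59rp_G_nonneg f τ) (s59rp_G_nonneg f τ₀) two_ne_zero).mp (hτ₀ τ)
  -- `M > 0`
  have hMpos : 0 < s59rp_G f τ₀ := by
    have hne : f ≠ 0 := hf.ne_zero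
    obtain ⟨τ, hτ⟩ : ∃ τ, f τ ≠ 0 := by
      by_contra hall
      rw [not_exists] at hall
      apply hne
      ext τ
      simpa using hall τ
    have : 0 < s59rp_G f τ := mul_pos (norm_pos_iff.mpr hτ) τ.im_pos
    exact this.trans_le (hmax τ)
  -- a maximum point is mapped to a maximum point by `τ ↦ ℓ τ`
  have hstep : ∀ τ, s59rp_G f τ = s59rp_G f τ₀ →
      s59rp_G f (heckeDiagMatrix ℓ • τ) = s59rp_G f τ₀ := by
    intro τ hτ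
    have h1 := s59rp_hecke_le hf hℓ hℓN τ
    have h2 : ∑ j ∈ Finset.range ℓ, s59rp_G f (heckeMatrix ℓ j • τ) ≤ ℓ * s59rp_G f τ₀ := by
      calc _ ≤ ∑ _j ∈ Finset.range ℓ, s59rp_G f τ₀ := Finset.sum_le_sum fun j _ => hmax _
        _ = ℓ * s59rp_G f τ₀ := by rw [Finset.sum_const, Finset.card_range, nsmul_eq_mul]
    have h3 : ((ℓ : ℝ) + 1) * s59rp_G f τ₀ ≤ ‖qCoeff f ℓ‖ * s59rp_G f τ := by
      rw [hτ]
      exact mul_le_mul_of_nonneg_right hcon hMpos.le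
    refine le_antisymm (hmax _) ?_
    nlinarith
  have hiter : ∀ k : ℕ, ∃ τ, s59rp_G f τ = s59rp_G f τ₀ ∧ τ.im = (ℓ : ℝ) ^ k * τ₀.im := by
    intro k
    induction k with
    | zero => exact ⟨τ₀, rfl, by simp⟩
    | succ k ih =>
      obtain ⟨τ, h1, h2⟩ := ih
      refine ⟨heckeDiagMatrix ℓ • τ, hstep τ h1, ?_⟩
      rw [s59rp_im_heckeDiag hℓ0, h2, pow_succ]
      ring
  -- decay at `i∞`
  have hdec := s59rp_G_sq_tendsto f 1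
  simp only [one_smul] at hdec
  have hev : ∀ᶠ τ in atImInfty, s59rp_G f τ ^ 2 < s59rp_G f τ₀ ^ 2 :=
    (tendsto_order.mp hdec).2 _ (by positivity)
  obtain ⟨y, hy⟩ := (atImInfty_mem _).mp hev
  obtain ⟨k, hk⟩ : ∃ k : ℕ, y < (ℓ : ℝ) ^ k * τ₀.im := by
    obtain ⟨k, hk⟩ := pow_unbounded_of_one_lt (y / τ₀.im) hℓ1
    exact ⟨k, by rwa [div_lt_iff₀ τ₀.im_pos] at hk⟩
  obtain ⟨τ, h1, h2⟩ := hiter k
  have := hy τ (by rw [h2]; exact hk.le)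
  have this' : s59rp_G f τ ^ 2 < s59rp_G f τ₀ ^ 2 := this
  rw [h1] at this'
  exact lt_irrefl _ this'

/-- `a_ℓ ≠ ± (ℓ + 1)`. -/
theorem s59rp_ne {f : CuspForm (Gamma0 N) 2} (hf : f.IsNormalizedEigenform) {ℓ : ℕ}
    (hℓ : ℓ.Prime) (hℓN : ¬ ℓ ∣ N) :
    qCoeff f ℓ ≠ (ℓ : ℂ) + 1 ∧ qCoeff f ℓ ≠ -((ℓ : ℂ) + 1) := by
  have h := s59rp_strict_bound hf hℓ hℓN
  have e : ‖((ℓ : ℂ) + 1)‖ = (ℓ : ℝ) + 1 := by
    have : ((ℓ : ℂ) + 1) = ((ℓ + 1 : ℕ) : ℂ) := by push_cast; ring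
    rw [this, Complex.norm_natCast]; push_cast; ring
  constructor
  · intro h1
    rw [h1, e] at h
    exact lt_irrefl _ h
  · intro h1
    rw [h1, norm_neg, e] at h
    exact lt_irrefl _ h

/-- `a_ℓ² ≠ (ℓ + 1)²`. -/
theorem s59rp_sq_ne {f : CuspForm (Gamma0 N) 2} (hf : f.IsNormalizedEigenform) {ℓ : ℕ}
    (hℓ : ℓ.Prime) (hℓN : ¬ ℓ ∣ N) : qCoeff f ℓ ^ 2 ≠ ((ℓ : ℂ) + 1) ^ 2 := by
  obtain ⟨h1, h2⟩ := s59rp_ne hf hℓ hℓN
  intro h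
  rcases sq_eq_sq_iff_eq_or_eq_neg.mp h with h | h
  · exact h1 h
  · exact h2 h

end Fermat.Agent.Lib.S59
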