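/-
PROGRAMME (R2) = S59 — CONTRACT GRAPH v3 (helper1, chief architect; lead's decision #3597).
NEW file, NEW names (prefix `s59g_`); `Graph.lean` (v2.3) is frozen on main and is only imported.

WHAT CHANGED AGAINST v2.3
  * every node is restricted to `p = 3 ∨ p = 5` and to the levels that really occur in the induction
    (the invariants `s59g_Inv1`, `s59g_Inv2` below), and its conclusion is relaxed to
    "SOME strictly smaller level with the same invariants" (so `M / q`, `M / q ^ 2`, "∃ q ∈ Bd, M / q" … all qualify);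
  * step 2 of [LOWER] is PRIMED (lead's #3262): it removes every prime `q ≠ p` of the level at which `ρ̄ = W[p]` is
    unramified (`s59_Unr W p q`), whether `W` is good at `q` or not; so [LIFT] receives a level `M` with `ρ̄` RAMIFIED at every
    prime `q ≠ p` of `M` (helper4's #3587 §2), and `p ∣ M → W bad at p`;
  * the order in step 2 is: FIRST `p` ([MRP_W], only when `W` is good at `p`), THEN the primes `q ≠ p`; hence the nodes
    [MP_W], [IA_W] only see levels with `p ∣ M → W bad at p` (flat case = level prime to `p`, as in the landed S43 machine);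
  * [IA_W] has the shape of the landed `s59i_IAcoreSsp`: a nonempty set `Bd` of scalar primes, every other prime of the
    level ramified, conclusion "some smaller level";
  * [LIFT_W] only has to produce a normalized eigenform with `a_ℓ = a_ℓ(W)` outside a finite set `B` of primes, of a level
    `N` with `p² ∤ N`, cube-free: the stabilisation at the primes of `B` and at the bad primes of `W` not dividing `N` is
    PROVED here (`s59g_lift_aux`, from main's `s58q_stab`), and S58[main] brings the level down to the conductor;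
  * [LIFT_W] ⇐ [PATCH_W] (a characteristic-zero point `χ` of a Hecke algebra with `χ(T_ℓ) = a_ℓ(W)`: the output of
    R = T, helper4's `FGraph.lean`) + (X) (eigenvector extraction, finite level, no Galois theory).

TOP LEVEL (everything below is CHECKED: `s59g_S59` is the frozen S59 statement verbatim)
  S59 ⇐ [CAR_W] + [MP_W] + [IA_W] + [MRP_W] + [LIFT_W]           (`s59g_S59`)
  [LIFT_W] ⇐ [PATCH_W] + (X)                                      (`s59g_LIFTW_of_patch`)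
  [PATCH_W] ⇐ [PATCH-min] + [PATCH-FLR]                           (`s59g_PATCHW_of_cases`, a case split)
  adapters from the v2.3 nodes (all odd `p`, rigid conclusions):  `s59g_CARW_of`, `s59g_MPW_of`, `s59g_IAW_of`,
                                                                  `s59g_MRPW_of`, `s59g_LIFTW_of`.

OWNERS (lead's #3597)
  [CAR_W]  helper9 + helper8 (helper7 consult)      geometric route on the three-component model of S36
  [MP_W]   helper7                                  all `q` incl. `q = 2, 3`, and `p = 3`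
  [IA_W]   helper4 (R-side, `LFinC*` W-parametrised) + helper5 (T-side) + helper3 (Frey packages → W) + helper6 (R-side)
  [MRP_W]  helper2
  [LIFT_W] helper4 ([FLR], `FGraph.lean`) + the same four seats as [IA_W];  (X) helper1
-/
import Fermat.Agent.Lib.S59.Graph
import Fermat.Agent.Lib.S58.E1Close
import Fermat.Agent.Lib.S58.QStabForm

set_option autoImplicit false

open Polynomial IsLocalRing
open CongruenceSubgroup ModularFormClass

noncomputable section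

namespace Fermat.Agent.Lib.S59

/-! ### The invariants of the levels -/

/-- the levels of step 1 of [LOWER]: positive, `p² ∤ M`, cube-free away from `p`
(= the hypotheses of the frozen S59 on `M₀`). -/
def s59g_Inv1 (p M : ℕ) : Prop :=
  0 < M ∧ ¬ p ^ 2 ∣ M ∧ ∀ q : ℕ, q.Prime → q ≠ p → ¬ q ^ 3 ∣ M

/-- the levels of step 2 of [LOWER] and of [LIFT]: positive, squarefree, and `p` divides the level
only if `W` is bad at `p`. -/
def s59g_Inv2 (W : WeierstrassCurve ℤ) (p M : ℕ) : Prop :=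
  0 < M ∧ Squarefree M ∧ (p ∣ M → ¬ W.IsGoodPrimeFor p)

/-- "`ρ̄` is modular of some strictly smaller level of step 1". -/
def s59g_Drop1 (W : WeierstrassCurve ℤ) (p M : ℕ) : Prop :=
  ∃ M' : ℕ, M' < M ∧ s59g_Inv1 p M' ∧ W.IsResiduallyModularOfLevel p M'

/-- "`ρ̄` is modular of some strictly smaller level of step 2". -/
def s59g_Drop2 (W : WeierstrassCurve ℤ) (p M : ℕ) : Prop :=
  ∃ M' : ℕ, M' < M ∧ s59g_Inv2 W p M' ∧ W.IsResiduallyModularOfLevel p M'

/-! ### The five top-level nodes -/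

/-- **[CAR_W]** (owners helper9 + helper8): `q² ∣ M`, `q ≠ p` ⇒ a smaller level.
(`M / q` and `M / q ^ 2` both qualify.) -/
def s59g_CARW : Prop :=
  ∀ (p : ℕ), p = 3 ∨ p = 5 → ∀ (W : WeierstrassCurve ℤ), W.Δ ≠ 0 → W.IsSemistableModel →
    W.ModRepIsIrreducible p → ∀ (M q : ℕ), s59g_Inv1 p M → q.Prime → q ≠ p → q ^ 2 ∣ M →
    W.IsResiduallyModularOfLevel p M → s59g_Drop1 W p M

/-- **[MRP_W]** (owner helper2): `p ∣ M` squarefree, `W` good at `p` ⇒ a squarefree level prime to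
`p`.  (`M / p` qualifies; no constraint on the other primes.) -/
def s59g_MRPW : Prop :=
  ∀ (p : ℕ), p = 3 ∨ p = 5 → ∀ (W : WeierstrassCurve ℤ), W.Δ ≠ 0 → W.IsSemistableModel →
    W.ModRepIsIrreducible p → ∀ (M : ℕ), 0 < M → Squarefree M → p ∣ M → W.IsGoodPrimeFor p →
    W.IsResiduallyModularOfLevel p M →
    ∃ M' : ℕ, 0 < M' ∧ Squarefree M' ∧ ¬ p ∣ M' ∧ W.IsResiduallyModularOfLevel p M'

/-- **[MP_W]** (owner helper7) Mazur's principle: `q ∣ M`, `q ≠ p`, `ρ̄` unramified at `q` ⇒ a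
smaller level, unless `q ≡ 1 mod p` and Frobenius at `q` is scalar on `W[p]`. -/
def s59g_MPW : Prop :=
  ∀ (p : ℕ), p = 3 ∨ p = 5 → ∀ (W : WeierstrassCurve ℤ), W.Δ ≠ 0 → W.IsSemistableModel →
    W.ModRepIsIrreducible p → ∀ (M q : ℕ), s59g_Inv2 W p M → q.Prime → q ≠ p → q ∣ M →
    s59_Unr W p q → W.IsResiduallyModularOfLevel p M →
    s59g_Drop2 W p M ∨ (p ∣ q - 1 ∧ s59_FrobScalar W p q)

/-- **[IA_W]** (owners helper4/5/3/6) Ihara avoidance, in the shape of the landed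
`s59i_IAcoreSsp`: `Bd ≠ ∅` a set of primes of the level at which `ρ̄` is unramified, `q ≡ 1 mod p`,
Frobenius scalar; `ρ̄` is RAMIFIED at every other prime `ℓ ≠ p` of the level ⇒ a smaller level. -/
def s59g_IAW : Prop :=
  ∀ (p : ℕ), p = 3 ∨ p = 5 → ∀ (W : WeierstrassCurve ℤ), W.Δ ≠ 0 → W.IsSemistableModel →
    W.ModRepIsIrreducible p → ∀ (M : ℕ), s59g_Inv2 W p M → ∀ Bd : Finset ℕ, Bd.Nonempty →
    (∀ q ∈ Bd, q.Prime ∧ q ≠ p ∧ q ∣ M ∧ s59_Unr W p q ∧ p ∣ q - 1 ∧ s59_FrobScalar W p q) →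
    (∀ ℓ : ℕ, ℓ.Prime → ℓ ≠ p → ℓ ∣ M → ℓ ∉ Bd → ¬ s59_Unr W p ℓ) →
    W.IsResiduallyModularOfLevel p M → s59g_Drop2 W p M

/-- the conclusion of [LIFT_W]: a normalized eigenform with the `a_ℓ(W)` outside a finite set
`B`, of a level `N` with `p² ∤ N`, cube-free. -/
def s59g_AlmostModular (W : WeierstrassCurve ℤ) (p : ℕ) : Prop :=
  ∃ (N : ℕ) (B : Finset ℕ) (f : CuspForm (Gamma0 N) 2), 0 < N ∧ ¬ p ^ 2 ∣ N ∧
    (∀ q : ℕ, q.Prime → ¬ q ^ 3 ∣ N) ∧ f.IsNormalizedEigenform ∧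
    ∀ ℓ : ℕ, ℓ.Prime → W.IsGoodPrimeFor ℓ → ¬ ℓ ∣ N → ℓ ∉ B →
      qCoeff f ℓ = (W.apOfModel ℓ : ℂ)

/-- **[LIFT_W]** (owners helper4 + helper5/3/6) modularity lifting at the type of `W`: `ρ̄`
modular of a squarefree level `M`, RAMIFIED at every prime `q ≠ p` of `M`, `p ∣ M → W bad at p`. -/
def s59g_LIFTW : Prop :=
  ∀ (p : ℕ), p = 3 ∨ p = 5 → ∀ (W : WeierstrassCurve ℤ), W.Δ ≠ 0 → W.IsSemistableModel →
    W.ModRepIsIrreducible p → ∀ (M : ℕ), s59g_Inv2 W p M →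
    (∀ q : ℕ, q.Prime → q ≠ p → q ∣ M → ¬ s59_Unr W p q) →
    W.IsResiduallyModularOfLevel p M → s59g_AlmostModular W p

/-! ### [LOWER_W] ⇐ [CAR_W] + [MP_W] + [IA_W] + [MRP_W] -/

/-- step 1: strip the squares with [CAR_W]. -/
theorem s59g_lower1 (hC : s59g_CARW) (p : ℕ) (hp : p = 3 ∨ p = 5)
    (W : WeierstrassCurve ℤ) (hΔ : W.Δ ≠ 0) (hW : W.IsSemistableModel)
    (hirr : W.ModRepIsIrreducible p) :
    ∀ M : ℕ, s59g_Inv1 p M → W.IsResiduallyModularOfLevel p M →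
      ∃ M' : ℕ, 0 < M' ∧ Squarefree M' ∧ W.IsResiduallyModularOfLevel p M' := by
  intro M
  induction M using Nat.strong_induction_on with
  | _ M ih =>
    intro hinv hres
    by_cases hsq : Squarefree M
    · exact ⟨M, hinv.1, hsq, hres⟩
    · rw [Nat.squarefree_iff_prime_squarefree] at hsq
      push Not at hsq
      obtain ⟨q, hq, hqq⟩ := hsq
      have hq2 : q ^ 2 ∣ M := by rwa [pow_two]
      have hqp : q ≠ p := by
        rintro rfl
        exact hinv.2.1 hq2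
      obtain ⟨M', hlt, hinv', hres'⟩ := hC p hp W hΔ hW hirr M q hinv hq hqp hq2 hres
      exact ih M' hlt hinv' hres'

/-- the step of [RIB′_W]: one more prime `q ≠ p` of the level with `ρ̄` unramified at `q` ⇒ a
smaller level.  [RIB′_W] ⇐ [MP_W] + [IA_W], checked. -/
theorem s59g_rib_step (hMP : s59g_MPW) (hIA : s59g_IAW) (p : ℕ) (hp : p = 3 ∨ p = 5)
    (W : WeierstrassCurve ℤ) (hΔ : W.Δ ≠ 0) (hW : W.IsSemistableModel)
    (hirr : W.ModRepIsIrreducible p) (M : ℕ) (hinv : s59g_Inv2 W p M)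
    (hex : ∃ q : ℕ, q.Prime ∧ q ≠ p ∧ q ∣ M ∧ s59_Unr W p q)
    (hres : W.IsResiduallyModularOfLevel p M) : s59g_Drop2 W p M := by
  classical
  by_cases hdrop : s59g_Drop2 W p M
  · exact hdrop
  · -- every unramified prime of the level is scalar with `q ≡ 1 mod p`
    have hsc : ∀ q : ℕ, q.Prime → q ≠ p → q ∣ M → s59_Unr W p q →
        p ∣ q - 1 ∧ s59_FrobScalar W p q := by
      intro q hq hqp hqM hunr
      rcases hMP p hp W hΔ hW hirr M q hinv hq hqp hqM hunr hres with h | h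
      · exact absurd h hdrop
      · exact h
    set Bd : Finset ℕ := M.primeFactors.filter (fun q => q ≠ p ∧ s59_Unr W p q) with hBd
    have hmem : ∀ q : ℕ, q ∈ Bd ↔ q.Prime ∧ q ∣ M ∧ q ≠ p ∧ s59_Unr W p q := by
      intro q
      rw [hBd, Finset.mem_filter, Nat.mem_primeFactors]
      constructor
      · rintro ⟨⟨h1, h2, -⟩, h3, h4⟩
        exact ⟨h1, h2, h3, h4⟩
      · rintro ⟨h1, h2, h3, h4⟩
        exact ⟨⟨h1, h2, hinv.1.ne'⟩, h3, h4⟩
    have hne : Bd.Nonempty := by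
      obtain ⟨q, hq, hqp, hqM, hunr⟩ := hex
      exact ⟨q, (hmem q).mpr ⟨hq, hqM, hqp, hunr⟩⟩
    refine hIA p hp W hΔ hW hirr M hinv Bd hne ?_ ?_ hres
    · intro q hqB
      obtain ⟨hq, hqM, hqp, hunr⟩ := (hmem q).mp hqB
      obtain ⟨h1, h2⟩ := hsc q hq hqp hqM hunr
      exact ⟨hq, hqp, hqM, hunr, h1, h2⟩
    · intro ℓ hℓ hℓp hℓM hℓB hunr
      exact hℓB ((hmem ℓ).mpr ⟨hℓ, hℓM, hℓp, hunr⟩)

/-- step 2b: remove every prime `q ≠ p` of the level at which `ρ̄` is unramified. -/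
theorem s59g_lower2b (hMP : s59g_MPW) (hIA : s59g_IAW) (p : ℕ) (hp : p = 3 ∨ p = 5)
    (W : WeierstrassCurve ℤ) (hΔ : W.Δ ≠ 0) (hW : W.IsSemistableModel)
    (hirr : W.ModRepIsIrreducible p) :
    ∀ M : ℕ, s59g_Inv2 W p M → W.IsResiduallyModularOfLevel p M →
      ∃ M' : ℕ, s59g_Inv2 W p M' ∧
        (∀ q : ℕ, q.Prime → q ≠ p → q ∣ M' → ¬ s59_Unr W p q) ∧
        W.IsResiduallyModularOfLevel p M' := by
  intro M
  induction M using Nat.strong_induction_on with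
  | _ M ih =>
    intro hinv hres
    by_cases hall : ∀ q : ℕ, q.Prime → q ≠ p → q ∣ M → ¬ s59_Unr W p q
    · exact ⟨M, hinv, hall, hres⟩
    · push Not at hall
      obtain ⟨q, hq, hqp, hqM, hunr⟩ := hall
      obtain ⟨M', hlt, hinv', hres'⟩ :=
        s59g_rib_step hMP hIA p hp W hΔ hW hirr M hinv ⟨q, hq, hqp, hqM, hunr⟩ hres
      exact ih M' hlt hinv' hres'

/-- **[LOWER_W]**: the level can be made squarefree, with `ρ̄` ramified at each of its primes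
`q ≠ p`, and divisible by `p` only if `W` is bad at `p`. -/
def s59g_LOWERW : Prop :=
  ∀ (p : ℕ), p = 3 ∨ p = 5 → ∀ (W : WeierstrassCurve ℤ), W.Δ ≠ 0 → W.IsSemistableModel →
    W.ModRepIsIrreducible p → ∀ (M₀ : ℕ), s59g_Inv1 p M₀ → W.IsResiduallyModularOfLevel p M₀ →
    ∃ M : ℕ, s59g_Inv2 W p M ∧ (∀ q : ℕ, q.Prime → q ≠ p → q ∣ M → ¬ s59_Unr W p q) ∧
      W.IsResiduallyModularOfLevel p M

/-- [LOWER_W] ⇐ [CAR_W] + [MP_W] + [IA_W] + [MRP_W], checked. -/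
theorem s59g_LOWERW_of (hC : s59g_CARW) (hMP : s59g_MPW) (hIA : s59g_IAW) (hP : s59g_MRPW) :
    s59g_LOWERW := by
  intro p hp W hΔ hW hirr M₀ hinv hres
  obtain ⟨M₁, h0, hsq, hres₁⟩ := s59g_lower1 hC p hp W hΔ hW hirr M₀ hinv hres
  -- step 2a: remove `p` if `W` is good at `p`
  obtain ⟨M₂, hinv₂, hres₂⟩ : ∃ M₂ : ℕ, s59g_Inv2 W p M₂ ∧
      W.IsResiduallyModularOfLevel p M₂ := by
    by_cases hpg : p ∣ M₁ ∧ W.IsGoodPrimeFor p
    · obtain ⟨M', h0', hsq', hpM', hres'⟩ := hP p hp W hΔ hW hirr M₁ h0 hsq hpg.1 hpg.2 hres₁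
      exact ⟨M', ⟨h0', hsq', fun h => absurd h hpM'⟩, hres'⟩
    · exact ⟨M₁, ⟨h0, hsq, fun h hg => hpg ⟨h, hg⟩⟩, hres₁⟩
  exact s59g_lower2b hMP hIA p hp W hΔ hW hirr M₂ hinv₂ hres₂

/-! ### Stabilisation (proved) and the end of the proof -/

/-- stabilisation at a squarefree `k` prime to the level (the induction of main's
`s58q_lift_aux`, without the hypothesis that the level is squarefree). -/
theorem s59g_lift_aux : ∀ (k M R : ℕ), R = M * k → M ≠ 0 → Squarefree k → M.Coprime k →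
    ∀ g : CuspForm (Gamma0 M) 2, g.IsNormalizedEigenform →
      ∃ h : CuspForm (Gamma0 R) 2, h.IsNormalizedEigenform ∧
        ∀ ℓ : ℕ, ℓ.Prime → ¬ ℓ ∣ k → qCoeff h ℓ = qCoeff g ℓ := by
  intro k
  induction k using Nat.strong_induction_on with
  | _ k ih =>
    intro M R hR hM0 hsq hcop g hg
    by_cases hk : k = 1
    · subst hk
      rw [mul_one] at hR
      subst hR
      exact ⟨g, hg, fun _ _ _ => rfl⟩
    · obtain ⟨q, hq, k', rfl⟩ := Nat.exists_prime_and_dvd hk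
      have hk'0 : k' ≠ 0 := by
        rintro rfl
        exact hsq.ne_zero (mul_zero q)
      have : NeZero M := ⟨hM0⟩
      have : NeZero q := ⟨hq.ne_zero⟩
      have hqM : ¬ q ∣ M := fun h =>
        hq.one_lt.ne' (Nat.eq_one_of_dvd_coprimes hcop h (dvd_mul_right q k'))
      have hqk' : ¬ q ∣ k' := by
        rintro ⟨k'', rfl⟩
        have hdvd : q * q ∣ q * (q * k'') := ⟨k'', by ring⟩
        exact hq.one_lt.ne' (Nat.isUnit_iff.mp (hsq q hdvd))
      obtain ⟨β, hβ⟩ := Fermat.Agent.Lib.S58.s58q_exists_root (qCoeff g q) (q : ℂ)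
      obtain ⟨h1, h2⟩ := Fermat.Agent.Lib.S58.s58q_stab hq hqM g hg β hβ
      have hlt : k' < q * k' := by
        have := hq.two_le
        have hk'pos : 0 < k' := Nat.pos_of_ne_zero hk'0
        nlinarith
      have hsq' : Squarefree k' := hsq.squarefree_of_dvd (dvd_mul_left k' q)
      have hcop' : (M * q).Coprime k' := by
        refine Nat.Coprime.mul_left (hcop.coprime_dvd_right (dvd_mul_left k' q)) ?_
        exact (Nat.Prime.coprime_iff_not_dvd hq).mpr hqk'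
      obtain ⟨h, hh, hcoef⟩ := ih k' hlt (M * q) R (by rw [hR]; ring)
        (mul_ne_zero hM0 hq.ne_zero) hsq' hcop' (Fermat.Agent.Lib.S58.s58q_stabForm M q g β) h1
      refine ⟨h, hh, fun ℓ hℓ hℓk => ?_⟩
      rw [hcoef ℓ hℓ (fun hd => hℓk (hd.trans (dvd_mul_left k' q)))]
      refine h2 ℓ hℓ ?_
      rintro rfl
      exact hℓk (dvd_mul_right ℓ k')

/-- a prime power `q ^ (e + 1)` with `e ≥ 1` does not divide `N * k` when it does not divide `N`,
`k` is squarefree and prime to `N`. -/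
theorem s59g_not_pow_dvd_mul {N k q e : ℕ} (hq : q.Prime) (he : 1 ≤ e) (hN : ¬ q ^ (e + 1) ∣ N)
    (hk : Squarefree k) (hcop : N.Coprime k) : ¬ q ^ (e + 1) ∣ N * k := by
  intro hd
  by_cases hqk : q ∣ k
  · have hqN : ¬ q ∣ N := fun h => hq.one_lt.ne' (Nat.eq_one_of_dvd_coprimes hcop h hqk)
    have hc : (q ^ (e + 1)).Coprime N :=
      Nat.Coprime.pow_left _ ((Nat.Prime.coprime_iff_not_dvd hq).mpr hqN)
    have h1 : q ^ (e + 1) ∣ k := hc.dvd_of_dvd_mul_left hd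
    have h2 : q * q ∣ k := by
      refine Dvd.dvd.trans ?_ h1
      rw [← pow_two]
      exact pow_dvd_pow q (by omega)
    exact hq.one_lt.ne' (Nat.isUnit_iff.mp (hk q h2))
  · have hc : (q ^ (e + 1)).Coprime k :=
      Nat.Coprime.pow_left _ ((Nat.Prime.coprime_iff_not_dvd hq).mpr hqk)
    exact hN (hc.dvd_of_dvd_mul_right hd)

/-- "almost modular" ⇒ modular of a level admissible for S58[main] (stabilise at the exceptional
primes and at the bad primes of `W` which do not divide the level). -/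
theorem s59g_modular_of_almost (p : ℕ) (hp : p.Prime) (W : WeierstrassCurve ℤ) (hΔ : W.Δ ≠ 0)
    (h : s59g_AlmostModular W p) :
    ∃ N : ℕ, ¬ p ^ 2 ∣ N ∧ W.IsModularModelOfLevel N ∧
      (∀ ℓ : ℕ, ℓ.Prime → (ℓ : ℤ) ∣ W.Δ → ℓ ∣ N) ∧ ∀ q : ℕ, q.Prime → ¬ q ^ 3 ∣ N := by
  classical
  obtain ⟨N, B, f, hN0, hp2, h3, hf, hcoef⟩ := h
  set T : Finset ℕ := (B ∪ W.Δ.natAbs.primeFactors).filter (fun ℓ => ℓ.Prime ∧ ¬ ℓ ∣ N) with hT
  have hTmem : ∀ ℓ : ℕ, ℓ ∈ T ↔ (ℓ ∈ B ∨ ℓ ∈ W.Δ.natAbs.primeFactors) ∧ ℓ.Prime ∧ ¬ ℓ ∣ N := by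
    intro ℓ
    rw [hT, Finset.mem_filter, Finset.mem_union]
  set k : ℕ := ∏ ℓ ∈ T, ℓ with hk
  have hTprime : ∀ ℓ ∈ T, ℓ.Prime := fun ℓ hℓ => ((hTmem ℓ).mp hℓ).2.1
  have hksq : Squarefree k := by
    rw [hk]
    refine Finset.squarefree_prod_of_pairwise_isCoprime ?_ ?_
    · intro a ha b hb hab
      exact Nat.coprime_iff_isRelPrime.mp
        ((Nat.coprime_primes (hTprime a ha) (hTprime b hb)).mpr hab)
    · intro a ha
      exact (hTprime a ha).prime.squarefree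
  have hkcop : N.Coprime k := by
    rw [hk]
    refine Nat.Coprime.prod_right fun ℓ hℓ => ?_
    exact ((Nat.Prime.coprime_iff_not_dvd (hTprime ℓ hℓ)).mpr ((hTmem ℓ).mp hℓ).2.2).symm
  have hkdvd : ∀ ℓ : ℕ, ℓ.Prime → (ℓ ∣ k ↔ ℓ ∈ T) := by
    intro ℓ hℓ
    constructor
    · intro hd
      rw [hk] at hd
      obtain ⟨a, ha, hda⟩ := (Prime.dvd_finsetProd_iff hℓ.prime _).mp hd
      rwa [(Nat.prime_dvd_prime_iff_eq hℓ (hTprime a ha)).mp hda]
    · intro hm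
      rw [hk]
      exact Finset.dvd_prod_of_mem _ hm
  obtain ⟨g, hg, hgcoef⟩ := s59g_lift_aux k N (N * k) rfl hN0.ne' hksq hkcop f hf
  refine ⟨N * k, ?_, ⟨g, hg, ?_⟩, ?_, ?_⟩
  · exact s59g_not_pow_dvd_mul hp le_rfl hp2 hksq hkcop
  · intro ℓ hℓ hgood hℓNk
    have hℓN : ¬ ℓ ∣ N := fun hd => hℓNk (hd.trans (dvd_mul_right N k))
    have hℓk : ¬ ℓ ∣ k := fun hd => hℓNk (hd.trans (dvd_mul_left k N))
    have hℓT : ℓ ∉ T := fun hm => hℓk ((hkdvd ℓ hℓ).mpr hm)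
    have hℓB : ℓ ∉ B := fun hm => hℓT ((hTmem ℓ).mpr ⟨Or.inl hm, hℓ, hℓN⟩)
    rw [hgcoef ℓ hℓ hℓk]
    exact hcoef ℓ hℓ hgood hℓN hℓB
  · intro ℓ hℓ hbad
    by_cases hℓN : ℓ ∣ N
    · exact hℓN.trans (dvd_mul_right N k)
    · have hmem : ℓ ∈ W.Δ.natAbs.primeFactors := by
        rw [Nat.mem_primeFactors]
        exact ⟨hℓ, Int.natCast_dvd.mp hbad, Int.natAbs_ne_zero.mpr hΔ⟩
      exact ((hkdvd ℓ hℓ).mpr ((hTmem ℓ).mpr ⟨Or.inr hmem, hℓ, hℓN⟩)).trans (dvd_mul_left k N)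
  · intro q hq
    exact s59g_not_pow_dvd_mul hq (by norm_num) (h3 q hq) hksq hkcop

/-- **S59 from the five top-level nodes of v3** — the frozen statement, verbatim.  CHECKED. -/
theorem s59g_S59 (hC : s59g_CARW) (hMP : s59g_MPW) (hIA : s59g_IAW) (hP : s59g_MRPW)
    (hT : s59g_LIFTW)
    (p : ℕ) (hp : p = 3 ∨ p = 5)
    (W : WeierstrassCurve ℤ) (hΔ : W.Δ ≠ 0) (hW : W.IsSemistableModel)
    (hirr : W.ModRepIsIrreducible p)
    (M₀ : ℕ) [NeZero M₀] (hres₀ : W.IsResiduallyModularOfLevel p M₀)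
    (hM₀ : ¬ p ^ 2 ∣ M₀)
    (hM₀3 : ∀ q : ℕ, q.Prime → q ≠ p → ¬ q ^ 3 ∣ M₀) :
    Mlc1IsModularModelOfExactConductorLevel W := by
  have hpp : p.Prime := by rcases hp with rfl | rfl <;> norm_num
  refine s59_of_R0 ?_ p hp W hΔ hW hirr M₀ hres₀ hM₀ hM₀3
  intro p hp W hΔ hW hirr M₀ _ hres hp2 h3
  have hpp : p.Prime := by rcases hp with rfl | rfl <;> norm_num
  obtain ⟨M, hinv, hram, hresM⟩ := s59g_LOWERW_of hC hMP hIA hP p hp W hΔ hW hirr M₀
    ⟨Nat.pos_of_ne_zero (NeZero.ne M₀), hp2, h3⟩ hres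
  exact s59g_modular_of_almost p hpp W hΔ (hT p hp W hΔ hW hirr M hinv hram hresM)

/-! ### [LIFT_W] ⇐ [PATCH_W] + (X) -/

/-- **(X)** (owner helper1) eigenvector extraction: a characteristic-zero point of a Hecke algebra
with integer values `a ℓ` at the `T_ℓ` comes from a normalized eigenform.  Finite level, no Galois
theory (minimal primes of a finite `ℤ`-algebra are associated primes; a common eigenvector of the
remaining operators in the eigenspace; main's `exists_normalizedEigenform_of_eigenvector`). -/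
def s59g_X : Prop :=
  ∀ (N : ℕ) [NeZero N] (B : Finset ℕ) (𝒪 : Type) [CommRing 𝒪] [IsDomain 𝒪] [CharZero 𝒪]
    (a : ℕ → ℤ) (χ : CuspForm.heckeAlgebra N 2 (↑B : Set ℕ) →+* 𝒪),
    (∀ (ℓ : ℕ) (hℓ : ℓ.Prime) (hℓN : ¬ ℓ ∣ N) (hℓB : ℓ ∉ (↑B : Set ℕ)),
      χ (CuspForm.heckeAlgebra.T hℓ hℓN hℓB) = ((a ℓ : ℤ) : 𝒪)) →
    ∃ f : CuspForm (Gamma0 N) 2, f.IsNormalizedEigenform ∧
      ∀ ℓ : ℕ, ℓ.Prime → ¬ ℓ ∣ N → ℓ ∉ B → qCoeff f ℓ = (a ℓ : ℂ)

/-- the conclusion of [PATCH_W]: a characteristic-zero point of the Hecke algebra of a level `N`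
(`p² ∤ N`, cube-free), away from a finite set `B`, with the eigenvalues `a_ℓ(W)`. -/
def s59g_HeckePt (W : WeierstrassCurve ℤ) (p : ℕ) : Prop :=
  ∃ (N : ℕ) (_ : NeZero N) (B : Finset ℕ) (𝒪 : Type) (_ : CommRing 𝒪) (_ : IsDomain 𝒪)
    (_ : CharZero 𝒪) (χ : CuspForm.heckeAlgebra N 2 (↑B : Set ℕ) →+* 𝒪),
    ¬ p ^ 2 ∣ N ∧ (∀ q : ℕ, q.Prime → ¬ q ^ 3 ∣ N) ∧
    ∀ (ℓ : ℕ) (hℓ : ℓ.Prime) (hℓN : ¬ ℓ ∣ N) (hℓB : ℓ ∉ (↑B : Set ℕ)),
      χ (CuspForm.heckeAlgebra.T hℓ hℓN hℓB) = ((W.apOfModel ℓ : ℤ) : 𝒪)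

/-- **[PATCH_W]** (owner helper4, `FGraph.lean`) the output of R = T at the type of `W`. -/
def s59g_PATCHW : Prop :=
  ∀ (p : ℕ), p = 3 ∨ p = 5 → ∀ (W : WeierstrassCurve ℤ), W.Δ ≠ 0 → W.IsSemistableModel →
    W.ModRepIsIrreducible p → ∀ (M : ℕ), s59g_Inv2 W p M →
    (∀ q : ℕ, q.Prime → q ≠ p → q ∣ M → ¬ s59_Unr W p q) →
    W.IsResiduallyModularOfLevel p M → s59g_HeckePt W p

/-- [LIFT_W] ⇐ [PATCH_W] + (X), checked. -/
theorem s59g_LIFTW_of_patch (hPt : s59g_PATCHW) (hX : s59g_X) : s59g_LIFTW := by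
  intro p hp W hΔ hW hirr M hinv hram hres
  obtain ⟨N, _, B, 𝒪, _, _, _, χ, hp2, h3, hχ⟩ := hPt p hp W hΔ hW hirr M hinv hram hres
  obtain ⟨f, hf, hcoef⟩ := hX N B 𝒪 (fun ℓ => W.apOfModel ℓ) χ hχ
  exact ⟨N, B, f, Nat.pos_of_ne_zero (NeZero.ne N), hp2, h3, hf,
    fun ℓ hℓ _ hℓN hℓB => hcoef ℓ hℓ hℓN hℓB⟩

/-- the MINIMAL situation: `ρ̄` is ramified at every bad prime `q ≠ p` of `W`, and `p` divides the
level if `W` is bad at `p` (no Steinberg prime to be raised, no `p`-stabilisation). -/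
def s59g_IsMin (W : WeierstrassCurve ℤ) (p M : ℕ) : Prop :=
  (∀ q : ℕ, q.Prime → q ≠ p → ¬ W.IsGoodPrimeFor q → ¬ s59_Unr W p q) ∧
    (¬ W.IsGoodPrimeFor p → p ∣ M)

/-- **[PATCH-min]** = [PATCH_W] in the minimal situation (the landed machine re-instantiated). -/
def s59g_PATCHmin : Prop :=
  ∀ (p : ℕ), p = 3 ∨ p = 5 → ∀ (W : WeierstrassCurve ℤ), W.Δ ≠ 0 → W.IsSemistableModel →
    W.ModRepIsIrreducible p → ∀ (M : ℕ), s59g_Inv2 W p M →
    (∀ q : ℕ, q.Prime → q ≠ p → q ∣ M → ¬ s59_Unr W p q) → s59g_IsMin W p M →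
    W.IsResiduallyModularOfLevel p M → s59g_HeckePt W p

/-- **[PATCH-FLR]** = [PATCH_W] in the non-minimal situation: some bad prime `q ≠ p` of `W` with
`ρ̄` unramified at `q` ([FLR], helper4's #3587 §3), or `W` bad at `p` and `p ∤ M` ((RAISE-p)). -/
def s59g_PATCHflr : Prop :=
  ∀ (p : ℕ), p = 3 ∨ p = 5 → ∀ (W : WeierstrassCurve ℤ), W.Δ ≠ 0 → W.IsSemistableModel →
    W.ModRepIsIrreducible p → ∀ (M : ℕ), s59g_Inv2 W p M →
    (∀ q : ℕ, q.Prime → q ≠ p → q ∣ M → ¬ s59_Unr W p q) → ¬ s59g_IsMin W p M →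
    W.IsResiduallyModularOfLevel p M → s59g_HeckePt W p

/-- [PATCH_W] ⇐ [PATCH-min] + [PATCH-FLR] (case split), checked. -/
theorem s59g_PATCHW_of_cases (h0 : s59g_PATCHmin) (h1 : s59g_PATCHflr) : s59g_PATCHW := by
  intro p hp W hΔ hW hirr M hinv hram hres
  by_cases hmin : s59g_IsMin W p M
  · exact h0 p hp W hΔ hW hirr M hinv hram hmin hres
  · exact h1 p hp W hΔ hW hirr M hinv hram hmin hres

/-! ### Adapters from the nodes of v2.3 (`Graph.lean`) -/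

/-- good ⇒ unramified (main's `s58e_ellUnram`). -/
theorem s59g_unr_of_good (p : ℕ) (hp : p.Prime) (hp2 : p ≠ 2) (W : WeierstrassCurve ℤ) (q : ℕ)
    (hq : q.Prime) (hqp : q ≠ p) (hgood : W.IsGoodPrimeFor q) : s59_Unr W p q := by
  intro A hA σ hσ x hx
  exact Fermat.Agent.Lib.S58.s58e_ellUnram W q hq hgood p hp hp2 (Ne.symm hqp) 1 A hA σ hσ x
    (by rw [pow_one]; exact hx)

theorem s59g_drop1_of_div {W : WeierstrassCurve ℤ} {p M q : ℕ} (hinv : s59g_Inv1 p M)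
    (hq : q.Prime) (hq2 : q ^ 2 ∣ M) (hres : W.IsResiduallyModularOfLevel p (M / q)) :
    s59g_Drop1 W p M := by
  have hqM : q ∣ M := (dvd_pow_self q two_ne_zero).trans hq2
  have hdvd : M / q ∣ M := Nat.div_dvd_of_dvd hqM
  refine ⟨M / q, Nat.div_lt_self hinv.1 hq.one_lt,
    ⟨Nat.div_pos (Nat.le_of_dvd hinv.1 hqM) hq.pos, fun h => hinv.2.1 (h.trans hdvd),
      fun q' hq' hq'p h => hinv.2.2 q' hq' hq'p (h.trans hdvd)⟩, hres⟩

theorem s59g_drop2_of_div {W : WeierstrassCurve ℤ} {p M q : ℕ} (hinv : s59g_Inv2 W p M)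
    (hq : q.Prime) (hqM : q ∣ M) (hres : W.IsResiduallyModularOfLevel p (M / q)) :
    s59g_Drop2 W p M := by
  have hdvd : M / q ∣ M := Nat.div_dvd_of_dvd hqM
  exact ⟨M / q, Nat.div_lt_self hinv.1 hq.one_lt,
    ⟨Nat.div_pos (Nat.le_of_dvd hinv.1 hqM) hq.pos, hinv.2.1.squarefree_of_dvd hdvd,
      fun h => hinv.2.2 (h.trans hdvd)⟩, hres⟩

theorem s59g_CARW_of (h : s59_CAR) : s59g_CARW := by
  intro p hp W hΔ hW hirr M q hinv hq hqp hq2 hres
  have hpp : p.Prime := by rcases hp with rfl | rfl <;> norm_num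
  have hp2 : p ≠ 2 := by rcases hp with rfl | rfl <;> norm_num
  exact s59g_drop1_of_div hinv hq hq2
    (h p hpp hp2 W hΔ hW hirr M q hq hqp hq2 (hinv.2.2 q hq hqp) hres)

theorem s59g_MPW_of (h : s59_MP') : s59g_MPW := by
  intro p hp W hΔ hW hirr M q hinv hq hqp hqM hunr hres
  have hpp : p.Prime := by rcases hp with rfl | rfl <;> norm_num
  have hp2 : p ≠ 2 := by rcases hp with rfl | rfl <;> norm_num
  rcases h p hpp hp2 W hΔ hW hirr M q hinv.2.1 hq hqp hqM hunr hres with h1 | h1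
  · exact Or.inl (s59g_drop2_of_div hinv hq hqM h1)
  · exact Or.inr h1

theorem s59g_IAW_of (h : s59_IA') : s59g_IAW := by
  intro p hp W hΔ hW hirr M hinv Bd hne hBd _ hres
  have hpp : p.Prime := by rcases hp with rfl | rfl <;> norm_num
  have hp2 : p ≠ 2 := by rcases hp with rfl | rfl <;> norm_num
  obtain ⟨q, hqB⟩ := hne
  obtain ⟨hq, hqp, hqM, hunr, h1, hsc⟩ := hBd q hqB
  exact s59g_drop2_of_div hinv hq hqM
    (h p hpp hp2 W hΔ hW hirr M q hinv.2.1 hq hqp hqM hunr h1 hsc hres)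

theorem s59g_MRPW_of (h : s59_MRP) : s59g_MRPW := by
  intro p hp W hΔ hW hirr M h0 hsq hpM hgood hres
  have hpp : p.Prime := by rcases hp with rfl | rfl <;> norm_num
  have hp2 : p ≠ 2 := by rcases hp with rfl | rfl <;> norm_num
  have hdvd : M / p ∣ M := Nat.div_dvd_of_dvd hpM
  refine ⟨M / p, Nat.div_pos (Nat.le_of_dvd h0 hpM) hpp.pos, hsq.squarefree_of_dvd hdvd, ?_,
    h p hpp hp2 W hΔ hW hirr M hsq hpM hgood hres⟩
  intro hd
  obtain ⟨c, hc⟩ := hd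
  have hM : M = p * (p * c) := by
    rw [← hc]
    exact (Nat.mul_div_cancel' hpM).symm
  have hpp2 : p * p ∣ M := ⟨c, by rw [hM]; ring⟩
  exact hpp.one_lt.ne' (Nat.isUnit_iff.mp (hsq p hpp2))

theorem s59g_LIFTW_of (h : s59_LIFT) : s59g_LIFTW := by
  intro p hp W hΔ hW hirr M hinv hram hres
  have hpp : p.Prime := by rcases hp with rfl | rfl <;> norm_num
  have hp2 : p ≠ 2 := by rcases hp with rfl | rfl <;> norm_num
  have hbad : ∀ q : ℕ, q.Prime → q ∣ M → (q : ℤ) ∣ W.Δ := by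
    intro q hq hqM
    by_contra hgood
    by_cases hqp : q = p
    · subst hqp
      exact hinv.2.2 hqM hgood
    · exact hram q hq hqp hqM (s59g_unr_of_good p hpp hp2 W q hq hqp hgood)
  obtain ⟨N, hp2N, ⟨f, hf, hcoef⟩, hbadN, h3⟩ := h p hp W hΔ hW hirr M hinv.1 hinv.2.1 hbad hres
  have hN0 : 0 < N := by
    rcases Nat.eq_zero_or_pos N with rfl | h0
    · exact absurd (dvd_zero _) hp2N
    · exact h0
  exact ⟨N, ∅, f, hN0, hp2N, h3, hf, fun ℓ hℓ hgood hℓN _ => hcoef ℓ hℓ hgood hℓN⟩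

end Fermat.Agent.Lib.S59

end
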