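/-
PROGRAMME (R2) = S59, node **(X)** of Graph v3 (helper1, prefix `s59g_`): **eigenvector extraction.**

`s59g_X_proved : s59g_X` — a ring homomorphism `χ` from a Hecke algebra `𝕋 = heckeAlgebra N 2 B` to a
domain of characteristic zero with `χ(T_ℓ) = a ℓ ∈ ℤ` (`ℓ ∤ N`, `ℓ ∉ B`) comes from a normalized
eigenform `f` of level `N` with `a_ℓ(f) = a ℓ` for those `ℓ`.

Proof: `𝔫 = ker χ` is a prime of `𝕋` with `𝔫 ∩ ℤ = 0`; main's `exists_eigencharacter_ker_le`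
(`Lib/Hecke/CommEigen`) gives a common eigenvector `v ≠ 0` of `𝕋` with eigencharacter `ψ : 𝕋 → ℂ`,
`ker ψ ≤ 𝔫`; both primes lie over `0 ⊂ ℤ` and `𝕋` is integral over `ℤ` (S22[main]), so `ker ψ = 𝔫`
(incomparability), i.e. `T_ℓ v = a ℓ • v`; main's `s35c_exists_eigenform` finishes.
-/
import Fermat.Agent.Lib.S59.Graph3
import Fermat.Agent.Lib.S35.B3Form
import Fermat.Agent.S22

set_option autoImplicit false

open ModularFormClass

noncomputable section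

namespace Fermat.Agent.Lib.S59

open Fermat.Agent.Lib.QCoeff Fermat.Agent.Lib.CommEigen

/-- **(X) closed.** -/
theorem s59g_X_proved : s59g_X := by
  intro N _ B 𝒪 _ _ _ a χ hχ
  have hfd : FiniteDimensional ℂ (CuspForm (CongruenceSubgroup.Gamma0 N) 2) := finiteDimensional
  have hfin : Module.Finite ℤ (CuspForm.heckeAlgebra N 2 (↑B : Set ℕ)) :=
    Fermat.Agent.S22.result N 2 (↑B : Set ℕ)
  set ρ : CuspForm.heckeAlgebra N 2 (↑B : Set ℕ) →+*
      Module.End ℂ (CuspForm (CongruenceSubgroup.Gamma0 N) 2) :=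
    (CuspForm.heckeAlgebra N 2 (↑B : Set ℕ)).val.toRingHom with hρ
  have hρa : ∀ t : CuspForm.heckeAlgebra N 2 (↑B : Set ℕ),
      ρ t = (t : Module.End ℂ (CuspForm (CongruenceSubgroup.Gamma0 N) 2)) := fun t => rfl
  have hP : (RingHom.ker χ).IsPrime := RingHom.ker_isPrime χ
  have hρker : RingHom.ker ρ ≤ RingHom.ker χ := by
    intro x hx
    rw [RingHom.mem_ker, hρa] at hx
    have h0 : x = 0 := Subtype.ext hx
    rw [h0]
    exact Ideal.zero_mem _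
  obtain ⟨ψ, v, hv0, hv, hker⟩ := exists_eigencharacter_ker_le ρ (RingHom.ker χ) hρker
  have hQ : (RingHom.ker ψ).IsPrime := RingHom.ker_isPrime ψ
  -- incomparability
  have hle : RingHom.ker χ ≤ RingHom.ker ψ := by
    by_contra hnle
    obtain ⟨x, hxχ, hxψ⟩ := SetLike.not_le_iff_exists.mp hnle
    have hint : IsIntegral ℤ x := IsIntegral.of_finite ℤ x
    have hlt := Ideal.comap_lt_comap_of_integral_mem_sdiff (R := ℤ) hker
      (show x ∈ ((RingHom.ker χ : Ideal _) : Set _) \ (RingHom.ker ψ : Ideal _) from ⟨hxχ, hxψ⟩)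
      hint
    have hbot : (RingHom.ker χ).comap (algebraMap ℤ (CuspForm.heckeAlgebra N 2 (↑B : Set ℕ))) =
        ⊥ := by
      rw [eq_bot_iff]
      intro n hn
      rw [Ideal.mem_comap, RingHom.mem_ker, eq_intCast, map_intCast] at hn
      rw [Ideal.mem_bot]
      exact_mod_cast hn
    rw [hbot] at hlt
    exact not_lt_bot hlt
  refine Fermat.Agent.Lib.S35.s35c_exists_eigenform (↑B : Set ℕ) (fun ℓ => (a ℓ : ℂ)) v hv0 ?_
  intro ℓ hℓ hℓN hℓB
  have h1 : CuspForm.heckeAlgebra.T hℓ hℓN hℓB - ((a ℓ : ℤ) : CuspForm.heckeAlgebra N 2 (↑B : Set ℕ)) ∈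
      RingHom.ker χ := by
    rw [RingHom.mem_ker, map_sub, hχ ℓ hℓ hℓN hℓB, map_intCast, sub_self]
  have h2 := hle h1
  rw [RingHom.mem_ker, map_sub, map_intCast, sub_eq_zero] at h2
  have h3 := hv (CuspForm.heckeAlgebra.T hℓ hℓN hℓB)
  rw [hρa, CuspForm.heckeAlgebra.coe_T, h2] at h3
  exact h3

/-- [LIFT_W] ⇐ [PATCH_W] (with (X) discharged). -/
theorem s59g_LIFTW_of_PATCHW (hPt : s59g_PATCHW) : s59g_LIFTW :=
  s59g_LIFTW_of_patch hPt s59g_X_proved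

/-- **S59 from [CAR_W] + [MP_W] + [IA_W] + [MRP_W] + [PATCH-min] + [PATCH-FLR]** — the frozen
statement, verbatim. -/
theorem s59g_S59_of_patch (hC : s59g_CARW) (hMP : s59g_MPW) (hIA : s59g_IAW) (hP : s59g_MRPW)
    (h0 : s59g_PATCHmin) (h1 : s59g_PATCHflr)
    (p : ℕ) (hp : p = 3 ∨ p = 5)
    (W : WeierstrassCurve ℤ) (hΔ : W.Δ ≠ 0) (hW : W.IsSemistableModel)
    (hirr : W.ModRepIsIrreducible p)
    (M₀ : ℕ) [NeZero M₀] (hres₀ : W.IsResiduallyModularOfLevel p M₀)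
    (hM₀ : ¬ p ^ 2 ∣ M₀)
    (hM₀3 : ∀ q : ℕ, q.Prime → q ≠ p → ¬ q ^ 3 ∣ M₀) :
    Mlc1IsModularModelOfExactConductorLevel W :=
  s59g_S59 hC hMP hIA hP (s59g_LIFTW_of_PATCHW (s59g_PATCHW_of_cases h0 h1))
    p hp W hΔ hW hirr M₀ hres₀ hM₀ hM₀3

end Fermat.Agent.Lib.S59

end
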