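/-
PROGRAMME (R2) = S59 / base point [PT-c1] (helper1, prefix `s59pt_`): **[RP-ℓ] FOR THE POINTS OF A HECKE ALGEBRA.**

* `s59pt_point_eigenform` : a ring homomorphism `χ` from `𝕋 = heckeAlgebra N 2 B` to a domain of characteristic zero comes
                            from a normalized eigenform `f` and an eigencharacter `ψ : 𝕋 → ℂ` with `ker ψ = ker χ`,
                            `a_ℓ(f) = ψ(T_ℓ)` (the argument of `s59g_X_proved`, without the integrality of the values);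
* **`s59pt_point_sq_ne`** : `χ(T_ℓ)² ≠ (ℓ + 1)²` for every such point and every prime `ℓ ∤ N`, `ℓ ∉ B`
                            (`s59rp_sq_ne`): NO characteristic-zero point of level `N` sits on a Steinberg component at a
                            prime `ℓ ∤ N`.
-/
import Fermat.Agent.Lib.S59.GX
import Fermat.Agent.Lib.S59.GRPMain

set_option autoImplicit false

open ModularFormClass

noncomputable section

namespace Fermat.Agent.Lib.S59

open Fermat.Agent.Lib.QCoeff Fermat.Agent.Lib.CommEigen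

/-- a characteristic-zero point of a Hecke algebra comes from a normalized eigenform. -/
theorem s59pt_point_eigenform (N : ℕ) [NeZero N] (B : Set ℕ) (𝒪 : Type) [CommRing 𝒪] [IsDomain 𝒪]
    [CharZero 𝒪] (χ : CuspForm.heckeAlgebra N 2 B →+* 𝒪) :
    ∃ (ψ : CuspForm.heckeAlgebra N 2 B →+* ℂ) (f : CuspForm (CongruenceSubgroup.Gamma0 N) 2),
      RingHom.ker ψ = RingHom.ker χ ∧ f.IsNormalizedEigenform ∧
      ∀ (ℓ : ℕ) (hℓ : ℓ.Prime) (hℓN : ¬ ℓ ∣ N) (hℓB : ℓ ∉ B),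
        qCoeff f ℓ = ψ (CuspForm.heckeAlgebra.T hℓ hℓN hℓB) := by
  classical
  have hfd : FiniteDimensional ℂ (CuspForm (CongruenceSubgroup.Gamma0 N) 2) := finiteDimensional
  have hfin : Module.Finite ℤ (CuspForm.heckeAlgebra N 2 B) := Fermat.Agent.S22.result N 2 B
  set ρ : CuspForm.heckeAlgebra N 2 B →+*
      Module.End ℂ (CuspForm (CongruenceSubgroup.Gamma0 N) 2) :=
    (CuspForm.heckeAlgebra N 2 B).val.toRingHom with hρ
  have hρa : ∀ t : CuspForm.heckeAlgebra N 2 B,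
      ρ t = (t : Module.End ℂ (CuspForm (CongruenceSubgroup.Gamma0 N) 2)) := fun t => rfl
  have hP : (RingHom.ker χ).IsPrime := RingHom.ker_isPrime χ
  have hρker : RingHom.ker ρ ≤ RingHom.ker χ := by
    intro x hx
    rw [RingHom.mem_ker, hρa] at hx
    have h0 : x = 0 := Subtype.ext hx
    rw [h0]
    exact Ideal.zero_mem _
  obtain ⟨ψ, v, hv0, hv, hker⟩ := exists_eigencharacter_ker_le ρ (RingHom.ker χ) hρker
  have hQ : (RingHom.ker ψ).IsPrime := RingHom.ker_isPrime ψ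
  -- incomparability
  have hle : RingHom.ker χ ≤ RingHom.ker ψ := by
    by_contra hnle
    obtain ⟨x, hxχ, hxψ⟩ := SetLike.not_le_iff_exists.mp hnle
    have hint : IsIntegral ℤ x := IsIntegral.of_finite ℤ x
    have hlt := Ideal.comap_lt_comap_of_integral_mem_sdiff (R := ℤ) hker
      (show x ∈ ((RingHom.ker χ : Ideal _) : Set _) \ (RingHom.ker ψ : Ideal _) from ⟨hxχ, hxψ⟩)
      hint
    have hbot : (RingHom.ker χ).comap (algebraMap ℤ (CuspForm.heckeAlgebra N 2 B)) = ⊥ := by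
      rw [eq_bot_iff]
      intro n hn
      rw [Ideal.mem_comap, RingHom.mem_ker, eq_intCast, map_intCast] at hn
      rw [Ideal.mem_bot]
      exact_mod_cast hn
    rw [hbot] at hlt
    exact not_lt_bot hlt
  set c : ℕ → ℂ := fun ℓ =>
    if h : ℓ.Prime ∧ ¬ ℓ ∣ N ∧ ℓ ∉ B then ψ (CuspForm.heckeAlgebra.T h.1 h.2.1 h.2.2) else 0 with hc
  have hcℓ : ∀ (ℓ : ℕ) (hℓ : ℓ.Prime) (hℓN : ¬ ℓ ∣ N) (hℓB : ℓ ∉ B),
      c ℓ = ψ (CuspForm.heckeAlgebra.T hℓ hℓN hℓB) := by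
    intro ℓ hℓ hℓN hℓB
    rw [hc]
    exact dif_pos ⟨hℓ, hℓN, hℓB⟩
  obtain ⟨f, hf, hcoef⟩ := Fermat.Agent.Lib.S35.s35c_exists_eigenform B c v hv0 (by
    intro ℓ hℓ hℓN hℓB
    have h3 := hv (CuspForm.heckeAlgebra.T hℓ hℓN hℓB)
    rw [hρa, CuspForm.heckeAlgebra.coe_T] at h3
    rw [h3, hcℓ ℓ hℓ hℓN hℓB])
  exact ⟨ψ, f, le_antisymm hker hle, hf, fun ℓ hℓ hℓN hℓB => by
    rw [hcoef ℓ hℓ hℓN hℓB, hcℓ ℓ hℓ hℓN hℓB]⟩

/-- **[RP-ℓ] at the points**: `χ(T_ℓ)² ≠ (ℓ + 1)²`. -/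
theorem s59pt_point_sq_ne (N : ℕ) [NeZero N] (B : Set ℕ) (𝒪 : Type) [CommRing 𝒪] [IsDomain 𝒪]
    [CharZero 𝒪] (χ : CuspForm.heckeAlgebra N 2 B →+* 𝒪) {ℓ : ℕ} (hℓ : ℓ.Prime) (hℓN : ¬ ℓ ∣ N)
    (hℓB : ℓ ∉ B) :
    χ (CuspForm.heckeAlgebra.T hℓ hℓN hℓB) ^ 2 ≠ ((ℓ : 𝒪) + 1) ^ 2 := by
  intro h
  obtain ⟨ψ, f, hker, hf, hcoef⟩ := s59pt_point_eigenform N B 𝒪 χ
  have h1 : CuspForm.heckeAlgebra.T hℓ hℓN hℓB ^ 2 -
      (((ℓ : ℕ) : CuspForm.heckeAlgebra N 2 B) + 1) ^ 2 ∈ RingHom.ker χ := by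
    rw [RingHom.mem_ker, map_sub, map_pow, map_pow, map_add, map_one, map_natCast, h, sub_self]
  rw [← hker, RingHom.mem_ker, map_sub, map_pow, map_pow, map_add, map_one, map_natCast,
    sub_eq_zero, ← hcoef ℓ hℓ hℓN hℓB] at h1
  exact s59rp_sq_ne hf hℓ hℓN h1

end Fermat.Agent.Lib.S59

end
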