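/-
PROGRAMME (R2) = S59 / base points [PT-c1], [PT-c2] (helper1, prefix `s59pt_`): **[PT-c1] — THE OLD BASE POINT, ABSTRACT FORM.**

Setting (the `T`-side of the base level `N₀ = N'·s`, `s` the spectator prime, e.g. `s = 2`, `N' = M/2` ODD at `p = 3`):
`T` the (local) Hecke ring of the base level with its representation `ρT` (`charpoly ρT(Frob_ℓ) = X² − tr ℓ·X + ℓ`, `ℓ ∉ S`),
acting (`jT`) on a NONZERO finite free `𝒪`-module `Z` which is embedded Hecke-equivariantly (`emb`, `op`) in the cohomology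
`H_par(Γ₀(N'), 𝒪)` of the LOWER level `N'` (the `s`-old part `res⁻¹(ε H_par(Γ₀(N₀)))` of the base module), `tr ℓ` acting as `T_ℓ`.

* `s59pt_char_of_eigenclass_top` : an eigenclass on `Γ_⊤(N) = Γ₀(N)` with values in a characteristic-zero domain gives a
  character of `heckeAlgebra N 2 S` (`s59t_res_hecke` + helper3's `s59u_exists_heckeChar`);
* **`s59pt_c1_point`** : there is a characteristic-zero domain `𝒪'` (a complete DVR finite over `𝒪`) and a point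
  `x : T → 𝒪'` in the support of `Z` (`jT t = 0 → x t = 0`) such that for EVERY prime `r ∤ N' p` and every Frobenius `σ` at `r`:
  `x(tr ρT(σ))² ≠ (r + 1)²` — Eichler–Shimura at the good prime `r` of level `N'` (helper4's `s59f_ESpt`) +
  Ramanujan–Petersson (`s59pt_point_sq_ne`).  This is the base-point input `hx₀M`, `hx₀δ` of helper3's `s59u_sp_FLR_R_pt` in type (c1)
  (`r = s` the `unr`-spectator, and `r` = the raising primes).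
-/
import Mathlib
import Fermat.Agent.Lib.S59.FNewFam2
import Fermat.Agent.Lib.S59.UNNChar
import Fermat.Agent.Lib.S59.TExt
import Fermat.Agent.Lib.S59.GPtRP
import Fermat.Agent.Lib.S59.LFinB1
import Fermat.Agent.Lib.S59.ETGal

set_option autoImplicit false
set_option linter.unusedSectionVars false
set_option linter.unusedVariables false
set_option linter.style.haveILetI false
set_option synthInstance.maxHeartbeats 400000
set_option maxHeartbeats 4000000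

noncomputable section

namespace Fermat.Agent.Lib.S59

open Fermat.Agent.Lib.S29 Fermat.Agent.Lib.S30 Fermat.Agent.Lib.S48 Fermat.Agent.Lib.S41
open IsLocalRing TensorProduct Polynomial CuspForm
open CongruenceSubgroup ModularCurve.Period
open scoped MatrixGroups

local notation "Qbar" => AlgebraicClosure ℚ
local notation "GQ" => (AlgebraicClosure ℚ ≃ₐ[ℚ] AlgebraicClosure ℚ)

section Char

variable (N : ℕ) [NeZero N] {R : Type*} [CommRing R] [IsDomain R] [CharZero R]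

/-- `Γ₀(N) ≤ Γ_⊤(N)`. -/
theorem s59pt_Gamma0_le_top : Gamma0 N ≤ s48h_GammaH N (⊤ : Subgroup (ZMod N)ˣ) := by
  intro g hg
  exact ⟨hg, s59w_lrUnit ⟨g, hg⟩, Subgroup.mem_top _, (s59w_lrUnit_coe ⟨g, hg⟩).symm⟩

/-- **from an eigenclass on `Γ_⊤(N)` to a character of the Hecke algebra.** -/
theorem s59pt_char_of_eigenclass_top (a : ℕ → R)
    (φ : Additive (s48h_GammaH N (⊤ : Subgroup (ZMod N)ˣ)) →+ R) (hφ0 : φ ≠ 0)
    (hpar : IsParabolicHom (s48h_GammaH N (⊤ : Subgroup (ZMod N)ˣ)) φ)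
    (heig : ∀ (ℓ : ℕ) [Fact ℓ.Prime] (hℓ : ¬ ℓ ∣ N) (σ : SL(2, ℤ)) (hσ : σ ∈ Gamma0 N)
      (hσ11 : ((σ 1 1 : ℤ) : ZMod N) = (ℓ : ZMod N)),
      s48h_TpH (⊤ : Subgroup (ZMod N)ˣ) hℓ σ hσ hσ11 R φ = a ℓ • φ)
    (S : Set ℕ) (hNS : ∀ r : ℕ, r.Prime → r ∣ N → r ∈ S) :
    ∃ χ : heckeAlgebra N 2 S →+* R,
      ∀ (ℓ : ℕ) (hℓ : ℓ.Prime) (hℓN : ¬ ℓ ∣ N) (hℓS : ℓ ∉ S),
        χ (heckeAlgebra.T hℓ hℓN hℓS) = a ℓ := by
  classical
  -- the class on `Γ₀(N)`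
  set Φ : Additive (Gamma0 N) →+ R :=
    φ.comp (MonoidHom.toAdditive (Subgroup.inclusion (s59pt_Gamma0_le_top N))) with hΦ
  have hres : s59t_res N (⊤ : Subgroup (ZMod N)ˣ) R Φ = φ := by
    refine AddMonoidHom.ext fun x => ?_
    obtain ⟨g, rfl⟩ := Additive.ofMul.surjective x
    rw [s59t_res_apply]
    rfl
  have hinj : ∀ ψ ψ' : Additive (Gamma0 N) →+ R,
      s59t_res N (⊤ : Subgroup (ZMod N)ˣ) R ψ = s59t_res N (⊤ : Subgroup (ZMod N)ˣ) R ψ' →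
        ψ = ψ' := by
    intro ψ ψ' h
    refine AddMonoidHom.ext fun x => ?_
    obtain ⟨g, rfl⟩ := Additive.ofMul.surjective x
    have h1 := DFunLike.congr_fun h
      (Additive.ofMul (⟨(g : SL(2, ℤ)), s59pt_Gamma0_le_top N g.2⟩ :
        s48h_GammaH N (⊤ : Subgroup (ZMod N)ˣ)))
    rw [s59t_res_apply, s59t_res_apply] at h1
    exact h1
  have hΦ0 : Φ ≠ 0 := by
    intro h
    apply hφ0
    rw [← hres, h, map_zero]
  have hΦpar : IsParabolicHom (Gamma0 N) Φ := by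
    intro γ hγ
    exact hpar ⟨(γ : SL(2, ℤ)), s59pt_Gamma0_le_top N γ.2⟩ hγ
  have hΦeig : ∀ (ℓ : ℕ) [Fact ℓ.Prime], ¬ ℓ ∣ N → ℓ ∉ S →
      s29h_heckeHom N ℓ R Φ = a ℓ • Φ := by
    intro ℓ _ hℓN _
    have hℓ : ℓ.Prime := Fact.out
    have hcop : Nat.Coprime ℓ N := (Nat.Prime.coprime_iff_not_dvd hℓ).mpr hℓN
    obtain ⟨σ, hσ⟩ := s59w_exists_sig (ZMod.unitOfCoprime ℓ hcop)
    have hσ11 : (((σ : SL(2, ℤ)) 1 1 : ℤ) : ZMod N) = (ℓ : ZMod N) := by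
      have h1 := congrArg (fun u : (ZMod N)ˣ => (u : ZMod N)) hσ
      simp only [s59w_lrUnit_coe, ZMod.coe_unitOfCoprime] at h1
      exact h1
    apply hinj
    rw [s59t_res_hecke hℓN σ.2 hσ11, hres, heig ℓ hℓN σ σ.2 hσ11]
    refine AddMonoidHom.ext fun x => ?_
    obtain ⟨g, rfl⟩ := Additive.ofMul.surjective x
    rw [s59t_res_apply]
    rfl
  exact s59u_exists_heckeChar N S R hNS a Φ hΦpar hΦ0 hΦeig

end Char

section Point

variable (p : ℕ) [hpP : Fact p.Prime]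

/-- **[PT-c1], abstract form: the old base point.** -/
theorem s59pt_c1_point (hp2 : p ≠ 2) (N' : ℕ) [NeZero N']
    (𝒪 : Type) [CommRing 𝒪] [IsDomain 𝒪] [IsDiscreteValuationRing 𝒪]
    [IsAdicComplete (maximalIdeal 𝒪) 𝒪] [Finite (ResidueField 𝒪)] [CharZero 𝒪] [Algebra ℤ_[p] 𝒪]
    (hp𝒪 : (p : 𝒪) ∈ maximalIdeal 𝒪)
    (S : Finset ℕ) (hpS : p ∈ S) (hMS : ∀ q : ℕ, q.Prime → q ∣ N' → q ∈ S)
    -- the old part of the base module
    {Z : Type} [AddCommGroup Z] [Module 𝒪 Z] [Module.Finite 𝒪 Z] [Module.Free 𝒪 Z] [Nontrivial Z]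
    (emb : Z →ₗ[𝒪] s48h_Hpar 𝒪 (s48h_GammaH N' (⊤ : Subgroup (ZMod N')ˣ)) 𝒪)
    (hemb : Function.Injective emb)
    (op : s59w_AIdx N' → Module.End 𝒪 Z)
    (hop : ∀ j z, emb (op j z) = s59w_op (⊤ : Subgroup (ZMod N')ˣ) 𝒪 j (emb z))
    -- the Hecke ring of the base level
    (T : Type) [CommRing T] [IsLocalRing T] [Algebra 𝒪 T]
    (jT : T →ₐ[𝒪] Module.End 𝒪 Z)
    (hjTg : ∀ t, jT t ∈ Algebra.adjoin 𝒪 (Set.range op))
    (ρT : GaloisRepAdic T) (tr : ℕ → T) (k : ℕ)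
    (htr : ∀ i : s59w_TIdx N', i.ell ∉ S →
      jT (tr i.ell) = op (Sum.inr (s59e_tau i k)) * op (Sum.inl i))
    (hfrob : ∀ ℓ : ℕ, ℓ.Prime → ℓ ∉ S → ∀ P' : ValuationSubring Qbar, P'.LiesOverPrime ℓ →
      ∀ σ : GQ, P'.IsFrobeniusAt σ ℓ →
        LinearMap.charpoly (ρT.ρ σ) = X ^ 2 - C (tr ℓ) * X + C (ℓ : T)) :
    ∃ (𝒪' : Type) (_ : CommRing 𝒪') (_ : IsDomain 𝒪') (_ : IsDiscreteValuationRing 𝒪')
      (_ : IsAdicComplete (maximalIdeal 𝒪') 𝒪') (_ : Finite (ResidueField 𝒪')) (_ : CharZero 𝒪')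
      (_ : Algebra 𝒪 𝒪') (_ : Module.Finite 𝒪 𝒪') (_ : IsLocalHom (algebraMap 𝒪 𝒪'))
      (x : T →ₐ[𝒪] 𝒪'),
      (∀ t, jT t = 0 → x t = 0) ∧
      ∀ (r : ℕ), r.Prime → r ≠ p → ¬ r ∣ N' →
        ∀ (A : ValuationSubring Qbar), A.LiesOverPrime r → ∀ σ : GQ, A.IsFrobeniusAt σ r →
          x (s59i_cpTr ρT σ) * x (s59i_cpTr ρT σ) ≠ ((r : 𝒪') + 1) * ((r : 𝒪') + 1) := by
  classical
  -- a minimal prime over `ker jT`
  have hne : RingHom.ker (jT : T →+* Module.End 𝒪 Z) ≠ ⊤ := by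
    intro h
    have h1 : (1 : T) ∈ RingHom.ker (jT : T →+* Module.End 𝒪 Z) := by rw [h]; trivial
    rw [RingHom.mem_ker] at h1
    have h2 : (jT : T →+* Module.End 𝒪 Z) 1 = 1 := map_one _
    rw [h2] at h1
    obtain ⟨z, hz⟩ := exists_ne (0 : Z)
    have h3 := LinearMap.congr_fun h1 z
    rw [Module.End.one_apply, LinearMap.zero_apply] at h3
    exact hz h3
  obtain ⟨𝔪, h𝔪, hle⟩ := Ideal.exists_le_maximal _ hne
  haveI : 𝔪.IsPrime := h𝔪.isPrime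
  obtain ⟨𝔓, h𝔓, -⟩ := Ideal.exists_minimalPrimes_le hle
  -- the point
  obtain ⟨𝒪', i1, i2, i3, i4, i5, i6, i7, i8, i9, x, θ, a, φ, hker, hφ0, hpar, hθH, hθn, hdia, heig,
    hprod, hpure, v, hφv⟩ :=
    s59f_eigenclass_of_minimalPrime_abs (⊤ : Subgroup (ZMod N')ˣ) (n := 1) (m := 1) rfl
      (fun u => Subgroup.mem_top _) emb hemb op hop T jT hjTg 𝔓 h𝔓
  letI : Algebra ℤ_[p] 𝒪' := ((algebraMap 𝒪 𝒪').comp (algebraMap ℤ_[p] 𝒪)).toAlgebra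
  haveI : IsScalarTower ℤ_[p] 𝒪 𝒪' := IsScalarTower.of_algebraMap_eq fun _ => rfl
  have hp𝒪' : (p : 𝒪') ∈ maximalIdeal 𝒪' := by
    have h1 := map_nonunit (algebraMap 𝒪 𝒪') _ hp𝒪
    rwa [map_natCast] at h1
  have hθ1 : ∀ d, θ d = 1 := fun d => hθH d (Subgroup.mem_top _)
  refine ⟨𝒪', i1, i2, i3, i4, i5, i6, i7, i8, i9, x, ?_, ?_⟩
  · intro t ht
    have h1 : t ∈ RingHom.ker x := by
      rw [hker]
      exact h𝔓.1.2 (RingHom.mem_ker.mpr ht)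
    exact RingHom.mem_ker.mp h1
  intro r hr hrp hrN A hA σ hσ
  have hy : IsLocalHom (x : T →+* 𝒪') := s59e_isLocalHom_of_finite T 𝒪' x
  have hℓM : ∀ ℓ : ℕ, ℓ.Prime → ℓ ∉ S → ¬ ℓ ∣ N' := fun ℓ hℓ hℓS hd => hℓS (hMS ℓ hℓ hd)
  have hytr : ∀ ℓ : ℕ, ℓ.Prime → ℓ ∉ S → x (tr ℓ) = a ℓ := by
    intro ℓ hℓ hℓS
    have hcop : Nat.Coprime ℓ N' := (Nat.Prime.coprime_iff_not_dvd hℓ).mpr (hℓM ℓ hℓ hℓS)
    set ℓu : (ZMod N')ˣ := ZMod.unitOfCoprime ℓ hcop with hℓu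
    have hℓu' : ((ℓu : (ZMod N')ˣ) : ZMod N') = (ℓ : ZMod N') := ZMod.coe_unitOfCoprime ℓ hcop
    let i : s59w_TIdx N' := ⟨ℓ, hℓ, hℓM ℓ hℓ hℓS, (s59w_sig ℓu : SL(2, ℤ)), (s59w_sig ℓu).2, by
      rw [← s59w_lrUnit_coe, s59w_sig_spec, hℓu']⟩
    have h1 := hprod (tr ℓ) i k ℓu hℓu' (htr i hℓS)
    rw [h1, hθ1, Units.val_one, one_pow, one_mul]
  -- the representation at the point
  set ρ : GaloisRepAdic 𝒪' := ρT.baseChangeAlong (x : T →+* 𝒪') hy with hρdef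
  have hρ : ∀ ℓ : ℕ, ℓ.Prime → ℓ ∉ S → ∀ ℓu : (ZMod N')ˣ,
      ((ℓu : (ZMod N')ˣ) : ZMod N') = (ℓ : ZMod N') →
      ∀ P' : ValuationSubring Qbar, P'.LiesOverPrime ℓ → ∀ τ : GQ, P'.IsFrobeniusAt τ ℓ →
        (ρ.ρ τ).charpoly = X ^ 2 - C ((((θ ℓu)⁻¹ : 𝒪'ˣ) : 𝒪') * a ℓ) * X + C (ℓ : 𝒪') := by
    intro ℓ hℓ hℓS ℓu hℓu P' hP' τ hτ
    rw [hρdef, s59e_bc_charpoly, hfrob ℓ hℓ hℓS P' hP' τ hτ, hθ1, inv_one, Units.val_one, one_mul,
      ← hytr ℓ hℓ hℓS]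
    simp only [Polynomial.map_add, Polynomial.map_sub, Polynomial.map_mul, Polynomial.map_pow,
      Polynomial.map_X, Polynomial.map_C, map_natCast, Polynomial.map_natCast]
    rfl
  -- Eichler–Shimura at `r`
  have hcopr : Nat.Coprime r N' := (Nat.Prime.coprime_iff_not_dvd hr).mpr hrN
  have key := s59f_ESpt p N' N' (∅ : Finset ℕ) (by rw [Finset.prod_empty, mul_one])
    (fun q hq => absurd hq (Finset.notMem_empty q)) (⊤ : Subgroup (ZMod N')ˣ)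
    (fun _ u _ _ => Subgroup.mem_top u) 𝒪' hp𝒪' θ hθH (⊥ : Subgroup 𝒪'ˣ)
    (fun y hy _ => Subgroup.mem_bot.mp hy) (fun d => Subgroup.mem_bot.mpr (hθ1 d)) a φ hφ0 hpar
    hdia heig S hpS hMS ρ hρ r hr hrp hrN (ZMod.unitOfCoprime r hcopr)
    (ZMod.coe_unitOfCoprime r hcopr) A hA σ hσ
  rw [hθ1, inv_one, Units.val_one, one_mul] at key
  have htrr : x (s59i_cpTr ρT σ) = a r := by
    have h1 := s59i_cpTr_of_charpoly ρ σ (a r) (r : 𝒪') key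
    rw [hρdef, s59e_cpTr_map] at h1
    exact h1
  -- Ramanujan–Petersson
  set S₀ : Set ℕ := {q | q.Prime ∧ q ∣ N'} with hS₀
  obtain ⟨χ, hχ⟩ := s59pt_char_of_eigenclass_top N' a φ hφ0 hpar heig S₀ (fun q hq hqN => ⟨hq, hqN⟩)
  have hrS₀ : r ∉ S₀ := fun h => hrN h.2
  have hRP := s59pt_point_sq_ne N' S₀ 𝒪' χ hr hrN hrS₀
  rw [hχ r hr hrN hrS₀] at hRP
  rw [htrr]
  intro h
  apply hRP
  rw [sq, sq, h]

end Point

end Fermat.Agent.Lib.S59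

end
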