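/-
PROGRAMME (R2) = S59 / base points (helper1, prefix `s59pt_`): **every characteristic-zero point in the support of a
finite module is a MINIMAL prime of the support** (incomparability), and the triviality of the diamond operators on `Γ_⊤`.

* `s59pt_ker_mem_minimalPrimes` : `T` an `𝒪`-algebra acting (`jT`) on a finite `𝒪`-module `Z`, `y : T →ₐ[𝒪] 𝒪₁` into a domain
  with `𝒪 → 𝒪₁` injective and `ker jT ≤ ker y` ⟹ `ker y ∈ (ker jT).minimalPrimes`;
* `s59pt_op_inr_top` : `s59w_op ⊤ R (Sum.inr τ) = 1`.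
-/
import Mathlib
import Fermat.Agent.Lib.S59.GPtC1

set_option autoImplicit false
set_option linter.unusedSectionVars false
set_option linter.unusedVariables false
set_option linter.style.haveILetI false

noncomputable section

namespace Fermat.Agent.Lib.S59

open Fermat.Agent.Lib.S48
open IsLocalRing Polynomial
open CongruenceSubgroup
open scoped MatrixGroups

/-- **a characteristic-zero point of the support is a minimal prime of the support.** -/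
theorem s59pt_ker_mem_minimalPrimes {𝒪 : Type*} [CommRing 𝒪] {Z : Type*} [AddCommGroup Z] [Module 𝒪 Z]
    [Module.Finite 𝒪 Z] [Module.Free 𝒪 Z]
    {T : Type*} [CommRing T] [Algebra 𝒪 T] (jT : T →ₐ[𝒪] Module.End 𝒪 Z)
    {𝒪₁ : Type*} [CommRing 𝒪₁] [IsDomain 𝒪₁] [Algebra 𝒪 𝒪₁]
    (hinj : Function.Injective (algebraMap 𝒪 𝒪₁))
    (y : T →ₐ[𝒪] 𝒪₁) (hy : ∀ t, jT t = 0 → y t = 0) :
    RingHom.ker (y : T →+* 𝒪₁) ∈ (RingHom.ker (jT : T →+* Module.End 𝒪 Z)).minimalPrimes := by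
  classical
  set I : Ideal T := RingHom.ker (jT : T →+* Module.End 𝒪 Z) with hI
  set 𝔮 : Ideal T := RingHom.ker (y : T →+* 𝒪₁) with h𝔮
  haveI h𝔮p : 𝔮.IsPrime := RingHom.ker_isPrime _
  have hle : I ≤ 𝔮 := fun t ht => RingHom.mem_ker.mpr (hy t (RingHom.mem_ker.mp ht))
  obtain ⟨𝔓, h𝔓, h𝔓le⟩ := Ideal.exists_minimalPrimes_le hle
  haveI h𝔓p : 𝔓.IsPrime := h𝔓.1.1
  suffices h : 𝔓 = 𝔮 by rw [← h]; exact h𝔓
  by_contra hne
  have hlt : 𝔓 < 𝔮 := lt_of_le_of_ne h𝔓le hne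
  obtain ⟨-, x, hx𝔮, hx𝔓⟩ := SetLike.lt_iff_le_and_exists.mp hlt
  -- `jT x` is integral over `𝒪`
  have hint : IsIntegral 𝒪 (jT x) := Algebra.IsIntegral.isIntegral (jT x)
  obtain ⟨P, hPm, hP⟩ := hint
  have hPI : P.eval₂ (algebraMap 𝒪 T) x ∈ 𝔓 := by
    apply h𝔓.1.2
    rw [hI, RingHom.mem_ker]
    have h1 : (jT : T →+* Module.End 𝒪 Z) (P.eval₂ (algebraMap 𝒪 T) x) =
        P.eval₂ (((jT : T →+* Module.End 𝒪 Z)).comp (algebraMap 𝒪 T)) ((jT : T →+* Module.End 𝒪 Z) x) :=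
      Polynomial.hom_eval₂ P (algebraMap 𝒪 T) (jT : T →+* Module.End 𝒪 Z) x
    rw [h1]
    have h2 : ((jT : T →+* Module.End 𝒪 Z)).comp (algebraMap 𝒪 T) =
        algebraMap 𝒪 (Module.End 𝒪 Z) := by
      ext a : 1
      exact jT.commutes a
    rw [h2]
    exact hP
  have hlt' : 𝔓.comap (algebraMap 𝒪 T) < 𝔮.comap (algebraMap 𝒪 T) := by
    haveI : (𝔓.comap (algebraMap 𝒪 T)).IsPrime := Ideal.comap_isPrime _ _
    exact Ideal.comap_lt_comap_of_root_mem_sdiff h𝔓le ⟨hx𝔮, hx𝔓⟩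
      (Polynomial.map_monic_ne_zero hPm) hPI
  have hbot : 𝔮.comap (algebraMap 𝒪 T) = ⊥ := by
    rw [eq_bot_iff]
    intro a ha
    rw [Ideal.mem_comap, h𝔮, RingHom.mem_ker] at ha
    have h1 : (y : T →+* 𝒪₁) (algebraMap 𝒪 T a) = algebraMap 𝒪 𝒪₁ a := y.commutes a
    rw [h1] at ha
    rw [Ideal.mem_bot]
    exact hinj (ha.trans (map_zero _).symm)
  rw [hbot] at hlt'
  exact not_lt_bot hlt'

/-- on `Γ_⊤` the diamond operators are trivial. -/
theorem s59pt_op_inr_top (N : ℕ) [NeZero N] (R : Type*) [CommRing R] (τ : Gamma0 N) :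
    s59w_op (⊤ : Subgroup (ZMod N)ˣ) R (Sum.inr τ) = 1 := by
  refine LinearMap.ext fun v => Subtype.ext ?_
  exact s48h_diamondH_of_mem (s59pt_Gamma0_le_top N τ.2) v.1

end Fermat.Agent.Lib.S59

end
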