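/-
PROGRAMME (R2) = S59 / base points [PT-c1], [PT-c2] (helper1, prefix `s59pt_`): **[PT-c1], UNIVERSAL FORM, and Ramanujan–Petersson
as an operator statement.**

Setting of `GPtC1.lean` (`T` the Hecke ring of the base level with `ρT`, acting (`jT`) on a finite free `𝒪`-module `Z` embedded
Hecke-equivariantly in `H_par(Γ₀(N'), 𝒪)`).

* `s59pt_eigen_sq_ne`  : an eigenclass on `Γ_⊤(N)` over a characteristic-zero domain has `a_r² ≠ (r+1)²` (`r ∤ N`);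
* `s59pt_c1_minimal`   : for a MINIMAL prime `𝔓` over `ker jT`: `tr ρT(σ_r)² − (r+1)² ∉ 𝔓` (`r ∤ N' p`);
* **`s59pt_c1_all`**   : EVERY `𝒪`-algebra point `y : T → 𝒪₁` (`𝒪₁` a domain, `𝒪 → 𝒪₁` injective) in the support of `Z`
  satisfies `y(tr ρT(σ_r))² ≠ (r+1)²`;
* **`s59pt_T_sub_inj`** : `T_r y = c • y`, `c² = (r+1)²` ⟹ `y = 0` on `H_par(Γ_⊤(N'), 𝒪)`.
-/
import Mathlib
import Fermat.Agent.Lib.S59.GPtMin

set_option autoImplicit false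
set_option linter.unusedSectionVars false
set_option linter.unusedVariables false
set_option linter.style.haveILetI false
set_option synthInstance.maxHeartbeats 400000
set_option maxHeartbeats 4000000

noncomputable section

namespace Fermat.Agent.Lib.S59

open Fermat.Agent.Lib.S29 Fermat.Agent.Lib.S30 Fermat.Agent.Lib.S48 Fermat.Agent.Lib.S41
open IsLocalRing TensorProduct Polynomial CuspForm
open CongruenceSubgroup ModularCurve.Period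
open scoped MatrixGroups

local notation "Qbar" => AlgebraicClosure ℚ
local notation "GQ" => (AlgebraicClosure ℚ ≃ₐ[ℚ] AlgebraicClosure ℚ)

section RP

variable (N : ℕ) [NeZero N] {R : Type} [CommRing R] [IsDomain R] [CharZero R]

/-- **Ramanujan–Petersson for an eigenclass on `Γ_⊤(N)`.** -/
theorem s59pt_eigen_sq_ne (a : ℕ → R)
    (φ : Additive (s48h_GammaH N (⊤ : Subgroup (ZMod N)ˣ)) →+ R) (hφ0 : φ ≠ 0)
    (hpar : IsParabolicHom (s48h_GammaH N (⊤ : Subgroup (ZMod N)ˣ)) φ)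
    (heig : ∀ (ℓ : ℕ) [Fact ℓ.Prime] (hℓ : ¬ ℓ ∣ N) (σ : SL(2, ℤ)) (hσ : σ ∈ Gamma0 N)
      (hσ11 : ((σ 1 1 : ℤ) : ZMod N) = (ℓ : ZMod N)),
      s48h_TpH (⊤ : Subgroup (ZMod N)ˣ) hℓ σ hσ hσ11 R φ = a ℓ • φ)
    {r : ℕ} (hr : r.Prime) (hrN : ¬ r ∣ N) :
    a r * a r ≠ ((r : R) + 1) * ((r : R) + 1) := by
  set S₀ : Set ℕ := {q | q.Prime ∧ q ∣ N} with hS₀
  obtain ⟨χ, hχ⟩ := s59pt_char_of_eigenclass_top N a φ hφ0 hpar heig S₀ (fun q hq hqN => ⟨hq, hqN⟩)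
  have hrS₀ : r ∉ S₀ := fun h => hrN h.2
  have hRP := s59pt_point_sq_ne N S₀ R χ hr hrN hrS₀
  rw [hχ r hr hrN hrS₀] at hRP
  intro h
  apply hRP
  rw [sq, sq, h]

end RP

section Point

variable (p : ℕ) [hpP : Fact p.Prime]

/-- **[PT-c1] for a minimal prime of the support.** -/
theorem s59pt_c1_minimal (hp2 : p ≠ 2) (N' : ℕ) [NeZero N']
    (𝒪 : Type) [CommRing 𝒪] [IsDomain 𝒪] [IsDiscreteValuationRing 𝒪]
    [IsAdicComplete (maximalIdeal 𝒪) 𝒪] [Finite (ResidueField 𝒪)] [CharZero 𝒪] [Algebra ℤ_[p] 𝒪]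
    (hp𝒪 : (p : 𝒪) ∈ maximalIdeal 𝒪)
    (S : Finset ℕ) (hpS : p ∈ S) (hMS : ∀ q : ℕ, q.Prime → q ∣ N' → q ∈ S)
    {Z : Type} [AddCommGroup Z] [Module 𝒪 Z] [Module.Finite 𝒪 Z] [Module.Free 𝒪 Z]
    (emb : Z →ₗ[𝒪] s48h_Hpar 𝒪 (s48h_GammaH N' (⊤ : Subgroup (ZMod N')ˣ)) 𝒪)
    (hemb : Function.Injective emb)
    (op : s59w_AIdx N' → Module.End 𝒪 Z)
    (hop : ∀ j z, emb (op j z) = s59w_op (⊤ : Subgroup (ZMod N')ˣ) 𝒪 j (emb z))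
    (T : Type) [CommRing T] [IsLocalRing T] [Algebra 𝒪 T]
    (jT : T →ₐ[𝒪] Module.End 𝒪 Z)
    (hjTg : ∀ t, jT t ∈ Algebra.adjoin 𝒪 (Set.range op))
    (ρT : GaloisRepAdic T) (tr : ℕ → T) (k : ℕ)
    (htr : ∀ i : s59w_TIdx N', i.ell ∉ S →
      jT (tr i.ell) = op (Sum.inr (s59e_tau i k)) * op (Sum.inl i))
    (hfrob : ∀ ℓ : ℕ, ℓ.Prime → ℓ ∉ S → ∀ P' : ValuationSubring Qbar, P'.LiesOverPrime ℓ →
      ∀ σ : GQ, P'.IsFrobeniusAt σ ℓ →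
        LinearMap.charpoly (ρT.ρ σ) = X ^ 2 - C (tr ℓ) * X + C (ℓ : T))
    (𝔓 : Ideal T) (h𝔓 : 𝔓 ∈ (RingHom.ker (jT : T →+* Module.End 𝒪 Z)).minimalPrimes)
    (r : ℕ) (hr : r.Prime) (hrp : r ≠ p) (hrN : ¬ r ∣ N')
    (A : ValuationSubring Qbar) (hA : A.LiesOverPrime r) (σ : GQ) (hσ : A.IsFrobeniusAt σ r) :
    s59i_cpTr ρT σ * s59i_cpTr ρT σ - ((r : T) + 1) * ((r : T) + 1) ∉ 𝔓 := by
  classical
  obtain ⟨𝒪', i1, i2, i3, i4, i5, i6, i7, i8, i9, x, θ, a, φ, hker, hφ0, hpar, hθH, hθn, hdia, heig,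
    hprod, hpure, v, hφv⟩ :=
    s59f_eigenclass_of_minimalPrime_abs (⊤ : Subgroup (ZMod N')ˣ) (n := 1) (m := 1) rfl
      (fun u => Subgroup.mem_top _) emb hemb op hop T jT hjTg 𝔓 h𝔓
  letI : Algebra ℤ_[p] 𝒪' := ((algebraMap 𝒪 𝒪').comp (algebraMap ℤ_[p] 𝒪)).toAlgebra
  haveI : IsScalarTower ℤ_[p] 𝒪 𝒪' := IsScalarTower.of_algebraMap_eq fun _ => rfl
  have hp𝒪' : (p : 𝒪') ∈ maximalIdeal 𝒪' := by
    have h1 := map_nonunit (algebraMap 𝒪 𝒪') _ hp𝒪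
    rwa [map_natCast] at h1
  have hθ1 : ∀ d, θ d = 1 := fun d => hθH d (Subgroup.mem_top _)
  have hy : IsLocalHom (x : T →+* 𝒪') := s59e_isLocalHom_of_finite T 𝒪' x
  have hℓM : ∀ ℓ : ℕ, ℓ.Prime → ℓ ∉ S → ¬ ℓ ∣ N' := fun ℓ hℓ hℓS hd => hℓS (hMS ℓ hℓ hd)
  have hytr : ∀ ℓ : ℕ, ℓ.Prime → ℓ ∉ S → x (tr ℓ) = a ℓ := by
    intro ℓ hℓ hℓS
    have hcop : Nat.Coprime ℓ N' := (Nat.Prime.coprime_iff_not_dvd hℓ).mpr (hℓM ℓ hℓ hℓS)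
    set ℓu : (ZMod N')ˣ := ZMod.unitOfCoprime ℓ hcop with hℓu
    have hℓu' : ((ℓu : (ZMod N')ˣ) : ZMod N') = (ℓ : ZMod N') := ZMod.coe_unitOfCoprime ℓ hcop
    let i : s59w_TIdx N' := ⟨ℓ, hℓ, hℓM ℓ hℓ hℓS, (s59w_sig ℓu : SL(2, ℤ)), (s59w_sig ℓu).2, by
      rw [← s59w_lrUnit_coe, s59w_sig_spec, hℓu']⟩
    have h1 := hprod (tr ℓ) i k ℓu hℓu' (htr i hℓS)
    rw [h1, hθ1, Units.val_one, one_pow, one_mul]
  set ρ : GaloisRepAdic 𝒪' := ρT.baseChangeAlong (x : T →+* 𝒪') hy with hρdef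
  have hρ : ∀ ℓ : ℕ, ℓ.Prime → ℓ ∉ S → ∀ ℓu : (ZMod N')ˣ,
      ((ℓu : (ZMod N')ˣ) : ZMod N') = (ℓ : ZMod N') →
      ∀ P' : ValuationSubring Qbar, P'.LiesOverPrime ℓ → ∀ τ : GQ, P'.IsFrobeniusAt τ ℓ →
        (ρ.ρ τ).charpoly = X ^ 2 - C ((((θ ℓu)⁻¹ : 𝒪'ˣ) : 𝒪') * a ℓ) * X + C (ℓ : 𝒪') := by
    intro ℓ hℓ hℓS ℓu hℓu P' hP' τ hτ
    rw [hρdef, s59e_bc_charpoly, hfrob ℓ hℓ hℓS P' hP' τ hτ, hθ1, inv_one, Units.val_one, one_mul,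
      ← hytr ℓ hℓ hℓS]
    simp only [Polynomial.map_add, Polynomial.map_sub, Polynomial.map_mul, Polynomial.map_pow,
      Polynomial.map_X, Polynomial.map_C, map_natCast, Polynomial.map_natCast]
    rfl
  have hcopr : Nat.Coprime r N' := (Nat.Prime.coprime_iff_not_dvd hr).mpr hrN
  have key := s59f_ESpt p N' N' (∅ : Finset ℕ) (by rw [Finset.prod_empty, mul_one])
    (fun q hq => absurd hq (Finset.notMem_empty q)) (⊤ : Subgroup (ZMod N')ˣ)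
    (fun _ u _ _ => Subgroup.mem_top u) 𝒪' hp𝒪' θ hθH (⊥ : Subgroup 𝒪'ˣ)
    (fun y hy _ => Subgroup.mem_bot.mp hy) (fun d => Subgroup.mem_bot.mpr (hθ1 d)) a φ hφ0 hpar
    hdia heig S hpS hMS ρ hρ r hr hrp hrN (ZMod.unitOfCoprime r hcopr)
    (ZMod.coe_unitOfCoprime r hcopr) A hA σ hσ
  rw [hθ1, inv_one, Units.val_one, one_mul] at key
  have htrr : x (s59i_cpTr ρT σ) = a r := by
    have h1 := s59i_cpTr_of_charpoly ρ σ (a r) (r : 𝒪') key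
    rw [hρdef, s59e_cpTr_map] at h1
    exact h1
  have hRP := s59pt_eigen_sq_ne N' a φ hφ0 hpar heig hr hrN
  intro hmem
  rw [← hker, RingHom.mem_ker, map_sub, map_mul, map_mul, map_add, map_one, map_natCast,
    sub_eq_zero] at hmem
  apply hRP
  rw [← htrr]
  exact hmem

/-- **[PT-c1], universal form: every point of the support of the old module satisfies [RP] at `r ∤ N' p`.** -/
theorem s59pt_c1_all (hp2 : p ≠ 2) (N' : ℕ) [NeZero N']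
    (𝒪 : Type) [CommRing 𝒪] [IsDomain 𝒪] [IsDiscreteValuationRing 𝒪]
    [IsAdicComplete (maximalIdeal 𝒪) 𝒪] [Finite (ResidueField 𝒪)] [CharZero 𝒪] [Algebra ℤ_[p] 𝒪]
    (hp𝒪 : (p : 𝒪) ∈ maximalIdeal 𝒪)
    (S : Finset ℕ) (hpS : p ∈ S) (hMS : ∀ q : ℕ, q.Prime → q ∣ N' → q ∈ S)
    {Z : Type} [AddCommGroup Z] [Module 𝒪 Z] [Module.Finite 𝒪 Z] [Module.Free 𝒪 Z]
    (emb : Z →ₗ[𝒪] s48h_Hpar 𝒪 (s48h_GammaH N' (⊤ : Subgroup (ZMod N')ˣ)) 𝒪)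
    (hemb : Function.Injective emb)
    (op : s59w_AIdx N' → Module.End 𝒪 Z)
    (hop : ∀ j z, emb (op j z) = s59w_op (⊤ : Subgroup (ZMod N')ˣ) 𝒪 j (emb z))
    (T : Type) [CommRing T] [IsLocalRing T] [Algebra 𝒪 T]
    (jT : T →ₐ[𝒪] Module.End 𝒪 Z)
    (hjTg : ∀ t, jT t ∈ Algebra.adjoin 𝒪 (Set.range op))
    (ρT : GaloisRepAdic T) (tr : ℕ → T) (k : ℕ)
    (htr : ∀ i : s59w_TIdx N', i.ell ∉ S →
      jT (tr i.ell) = op (Sum.inr (s59e_tau i k)) * op (Sum.inl i))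
    (hfrob : ∀ ℓ : ℕ, ℓ.Prime → ℓ ∉ S → ∀ P' : ValuationSubring Qbar, P'.LiesOverPrime ℓ →
      ∀ σ : GQ, P'.IsFrobeniusAt σ ℓ →
        LinearMap.charpoly (ρT.ρ σ) = X ^ 2 - C (tr ℓ) * X + C (ℓ : T))
    {𝒪₁ : Type*} [CommRing 𝒪₁] [IsDomain 𝒪₁] [Algebra 𝒪 𝒪₁]
    (hinj : Function.Injective (algebraMap 𝒪 𝒪₁))
    (y : T →ₐ[𝒪] 𝒪₁) (hy : ∀ t, jT t = 0 → y t = 0)
    (r : ℕ) (hr : r.Prime) (hrp : r ≠ p) (hrN : ¬ r ∣ N')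
    (A : ValuationSubring Qbar) (hA : A.LiesOverPrime r) (σ : GQ) (hσ : A.IsFrobeniusAt σ r) :
    y (s59i_cpTr ρT σ) * y (s59i_cpTr ρT σ) ≠ ((r : 𝒪₁) + 1) * ((r : 𝒪₁) + 1) := by
  have hmin := s59pt_ker_mem_minimalPrimes jT hinj y hy
  have h1 := s59pt_c1_minimal p hp2 N' 𝒪 hp𝒪 S hpS hMS emb hemb op hop T jT hjTg ρT tr k htr hfrob
    _ hmin r hr hrp hrN A hA σ hσ
  intro h
  apply h1
  rw [RingHom.mem_ker]
  show y (s59i_cpTr ρT σ * s59i_cpTr ρT σ - ((r : T) + 1) * ((r : T) + 1)) = 0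
  rw [map_sub, map_mul, map_mul, map_add, map_one, map_natCast, h, sub_self]

end Point

end Fermat.Agent.Lib.S59

end
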