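/-
PROGRAMME (R2) = S59 / base points (helper1, prefix `s59pt_`): **Ramanujan–Petersson as an operator statement on the integral
cohomology of `Γ_⊤(N') = Γ₀(N')`**: `T_r y = c • y` with `c² = (r+1)²` forces `y = 0`.

Proof: the eigenspace `Z = ker(T_r − c)` is a finite free `𝒪`-module stable under all the `s59w_op`; the commutative algebra
`𝒪[op]` on `Z` has a minimal prime, hence (helper4's `s59f_eigenclass_of_minimalPrime_abs`) an eigenclass with `a_r = c`,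
contradicting `s59pt_eigen_sq_ne`.
-/
import Mathlib
import Fermat.Agent.Lib.S59.GPtC1b
import Fermat.Agent.Lib.S59.TFin
import Fermat.Agent.Lib.S59.TPolyAct

set_option autoImplicit false
set_option linter.unusedSectionVars false
set_option linter.unusedVariables false
set_option linter.style.haveILetI false
set_option synthInstance.maxHeartbeats 400000
set_option maxHeartbeats 4000000

noncomputable section

namespace Fermat.Agent.Lib.S59

open Fermat.Agent.Lib.S29 Fermat.Agent.Lib.S30 Fermat.Agent.Lib.S48 Fermat.Agent.Lib.S41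
open IsLocalRing TensorProduct Polynomial CuspForm
open CongruenceSubgroup ModularCurve.Period
open scoped MatrixGroups

/-- the values of `s59t_polyAct` lie in the subalgebra generated by the operators. -/
theorem s59pt_polyAct_mem_adjoin {𝒪 : Type*} [CommRing 𝒪] {Z : Type*} [AddCommGroup Z] [Module 𝒪 Z]
    {I : Type*} (op : I → Module.End 𝒪 Z) (hc : ∀ i j, op i * op j = op j * op i)
    (t : MvPolynomial I 𝒪) : s59t_polyAct op hc t ∈ Algebra.adjoin 𝒪 (Set.range op) := by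
  induction t using MvPolynomial.induction_on with
  | C r =>
    rw [s59t_polyAct_C, ← Algebra.algebraMap_eq_smul_one]
    exact Subalgebra.algebraMap_mem _ r
  | add s t hs ht =>
    rw [map_add]
    exact Subalgebra.add_mem _ hs ht
  | mul_X s i hs =>
    rw [map_mul, s59t_polyAct_X]
    exact Subalgebra.mul_mem _ hs (Algebra.subset_adjoin ⟨i, rfl⟩)

/-- **[RP] as an operator statement, abstract form**: a nonzero finite free module embedded Hecke-equivariantly in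
`H_par(Γ_⊤(N'), 𝒪)` on which `T_r` acts by a scalar `c` has `c² ≠ (r+1)²`. -/
theorem s59pt_T_scalar_abs (N' : ℕ) [NeZero N']
    (𝒪 : Type) [CommRing 𝒪] [IsDomain 𝒪] [IsDiscreteValuationRing 𝒪]
    [IsAdicComplete (maximalIdeal 𝒪) 𝒪] [Finite (ResidueField 𝒪)] [CharZero 𝒪]
    {Z : Type} [AddCommGroup Z] [Module 𝒪 Z] [Module.Finite 𝒪 Z] [Module.Free 𝒪 Z]
    (emb : Z →ₗ[𝒪] s48h_Hpar 𝒪 (s48h_GammaH N' (⊤ : Subgroup (ZMod N')ˣ)) 𝒪)
    (hemb : Function.Injective emb)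
    (op : s59w_AIdx N' → Module.End 𝒪 Z)
    (hop : ∀ j z, emb (op j z) = s59w_op (⊤ : Subgroup (ZMod N')ˣ) 𝒪 j (emb z))
    (i : s59w_TIdx N') (c : 𝒪) (hZ : ∀ z, op (Sum.inl i) z = c • z)
    (z₀ : Z) (hz₀ : z₀ ≠ 0) :
    c * c ≠ ((i.ell : 𝒪) + 1) * ((i.ell : 𝒪) + 1) := by
  classical
  intro hc
  have hopc : ∀ j j', op j * op j' = op j' * op j := by
    intro j j'
    refine LinearMap.ext fun z => hemb ?_
    rw [Module.End.mul_apply, Module.End.mul_apply, hop, hop, hop, hop]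
    exact LinearMap.congr_fun (s59w_op_comm (⊤ : Subgroup (ZMod N')ˣ) 𝒪 j j') (emb z)
  set jT : MvPolynomial (s59w_AIdx N') 𝒪 →ₐ[𝒪] Module.End 𝒪 Z := s59t_polyAct op hopc with hjT
  have hjTg : ∀ t, jT t ∈ Algebra.adjoin 𝒪 (Set.range op) := fun t => by
    rw [hjT]; exact s59pt_polyAct_mem_adjoin op hopc t
  -- a minimal prime
  have hne : RingHom.ker (jT : MvPolynomial (s59w_AIdx N') 𝒪 →+* Module.End 𝒪 Z) ≠ ⊤ := by
    intro h
    have h1 : (1 : MvPolynomial (s59w_AIdx N') 𝒪) ∈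
        RingHom.ker (jT : MvPolynomial (s59w_AIdx N') 𝒪 →+* Module.End 𝒪 Z) := by
      rw [h]; trivial
    rw [RingHom.mem_ker] at h1
    have h2 : (jT : MvPolynomial (s59w_AIdx N') 𝒪 →+* Module.End 𝒪 Z) 1 = 1 := map_one _
    rw [h2] at h1
    have h3 := LinearMap.congr_fun h1 z₀
    rw [Module.End.one_apply, LinearMap.zero_apply] at h3
    exact hz₀ h3
  obtain ⟨𝔪, h𝔪, hle⟩ := Ideal.exists_le_maximal _ hne
  haveI : 𝔪.IsPrime := h𝔪.isPrime
  obtain ⟨𝔓, h𝔓, -⟩ := Ideal.exists_minimalPrimes_le hle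
  obtain ⟨𝒪', i1, i2, i3, i4, i5, i6, i7, i8, i9, x, θ, a, φ, hker, hφ0, hpar, hθH, hθn, hdia, heig,
    hprod, hpure, v, hφv⟩ :=
    s59f_eigenclass_of_minimalPrime_abs (⊤ : Subgroup (ZMod N')ˣ) (n := 1) (m := 1) rfl
      (fun u => Subgroup.mem_top _) emb hemb op hop
      (MvPolynomial (s59w_AIdx N') 𝒪) jT hjTg 𝔓 h𝔓
  have hθ1 : ∀ d, θ d = 1 := fun d => hθH d (Subgroup.mem_top _)
  -- the value of `x` at `T_r`
  have hcop : Nat.Coprime i.ell N' := (Nat.Prime.coprime_iff_not_dvd i.prime).mpr i.ndvd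
  have h1 : x (MvPolynomial.X (Sum.inl i)) = a i.ell := by
    have h2 := hprod (MvPolynomial.X (Sum.inl i)) i 0 (ZMod.unitOfCoprime i.ell hcop)
      (ZMod.coe_unitOfCoprime i.ell hcop)
      (by
        rw [hjT, s59t_polyAct_X]
        have h3 : op (Sum.inr (s59e_tau i 0)) = 1 := by
          refine LinearMap.ext fun z => hemb ?_
          rw [hop, s59pt_op_inr_top]
          rfl
        rw [h3, one_mul])
    rw [h2, mul_zero, pow_zero, one_mul]
  have h2 : MvPolynomial.X (Sum.inl i) - MvPolynomial.C c ∈ RingHom.ker x := by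
    rw [hker]
    apply h𝔓.1.2
    rw [RingHom.mem_ker]
    show jT (MvPolynomial.X (Sum.inl i) - MvPolynomial.C c) = 0
    rw [map_sub, hjT, s59t_polyAct_X, s59t_polyAct_C]
    refine LinearMap.ext fun z => ?_
    rw [LinearMap.sub_apply, LinearMap.smul_apply, Module.End.one_apply, LinearMap.zero_apply,
      sub_eq_zero]
    exact hZ z
  have h3 : a i.ell = algebraMap 𝒪 𝒪' c := by
    rw [RingHom.mem_ker] at h2
    have h4 : x (MvPolynomial.X (Sum.inl i) - MvPolynomial.C c) = 0 := h2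
    rw [map_sub, sub_eq_zero, h1] at h4
    rw [h4, ← MvPolynomial.algebraMap_eq]
    exact x.commutes c
  refine s59pt_eigen_sq_ne N' a φ hφ0 hpar heig i.prime i.ndvd ?_
  rw [h3, ← map_mul, hc, map_mul, map_add, map_natCast, map_one]

/-- **[RP] as an operator statement.** -/
theorem s59pt_T_sub_inj (N' : ℕ) [NeZero N']
    (𝒪 : Type) [CommRing 𝒪] [IsDomain 𝒪] [IsDiscreteValuationRing 𝒪]
    [IsAdicComplete (maximalIdeal 𝒪) 𝒪] [Finite (ResidueField 𝒪)] [CharZero 𝒪]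
    (i : s59w_TIdx N') (c : 𝒪) (hc : c * c = ((i.ell : 𝒪) + 1) * ((i.ell : 𝒪) + 1))
    (y : s48h_Hpar 𝒪 (s48h_GammaH N' (⊤ : Subgroup (ZMod N')ˣ)) 𝒪)
    (hy : s59w_op (⊤ : Subgroup (ZMod N')ˣ) 𝒪 (Sum.inl i) y = c • y) : y = 0 := by
  by_contra hy0
  haveI : Module.Finite 𝒪 (s48h_Hpar 𝒪 (s48h_GammaH N' (⊤ : Subgroup (ZMod N')ˣ)) 𝒪) :=
    s59t_Hpar_finite 𝒪
  haveI : Module.Free 𝒪 (s48h_Hpar 𝒪 (s48h_GammaH N' (⊤ : Subgroup (ZMod N')ˣ)) 𝒪) :=
    s59t_Hpar_free 𝒪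
  obtain ⟨Zs, hZs⟩ : ∃ Zs : Submodule 𝒪 (s48h_Hpar 𝒪 (s48h_GammaH N' (⊤ : Subgroup (ZMod N')ˣ)) 𝒪),
      Zs = LinearMap.ker (s59w_op (⊤ : Subgroup (ZMod N')ˣ) 𝒪 (Sum.inl i) - c • 1) := ⟨_, rfl⟩
  have hmemZ : ∀ z, z ∈ Zs ↔
      s59w_op (⊤ : Subgroup (ZMod N')ˣ) 𝒪 (Sum.inl i) z = c • z := by
    intro z
    rw [hZs, LinearMap.mem_ker, LinearMap.sub_apply, LinearMap.smul_apply, Module.End.one_apply,
      sub_eq_zero]
  have hstab : ∀ (j : s59w_AIdx N'), ∀ z ∈ Zs,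
      s59w_op (⊤ : Subgroup (ZMod N')ˣ) 𝒪 j z ∈ Zs := by
    intro j z hz
    rw [hmemZ] at hz ⊢
    have h1 := LinearMap.congr_fun (s59w_op_comm (⊤ : Subgroup (ZMod N')ˣ) 𝒪 (Sum.inl i) j) z
    rw [Module.End.mul_apply, Module.End.mul_apply] at h1
    rw [h1, hz, map_smul]
  haveI : Module.Finite 𝒪 ↥Zs := Module.IsNoetherian.finite 𝒪 ↥Zs
  haveI : Module.IsTorsionFree 𝒪 ↥Zs := inferInstance
  haveI : Module.Free 𝒪 ↥Zs := Module.free_of_finite_type_torsion_free' (R := 𝒪) (M := ↥Zs)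
  have yZ : y ∈ Zs := (hmemZ y).mpr hy
  exact s59pt_T_scalar_abs N' 𝒪 (Z := ↥Zs) Zs.subtype Zs.injective_subtype
    (fun j => (s59w_op (⊤ : Subgroup (ZMod N')ˣ) 𝒪 j).restrict (hstab j)) (fun j z => rfl) i c
    (fun z => Subtype.ext ((hmemZ z.1).mp z.2)) ⟨y, yZ⟩
    (fun h => hy0 (congrArg Subtype.val h)) hc

end Fermat.Agent.Lib.S59

end
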