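/-
PROGRAMME R2 = S59, node [PT] (helper1, prefix `s59pt_`): **transport of the action of a Hecke ring to an auxiliary
Hecke module.**

`Y ⊆ H₀` a submodule, `T` an `𝒪`-algebra acting on `Y` through POLYNOMIALS in a commuting family `ops` of
endomorphisms of `H₀` (the (E-conc) interface of the `T`-side); `Z` any module with a commuting family `opsZ` indexed
by the same set, such that every polynomial killing `Y` kills `Z` (e.g. `Z ↪ Y` or `Y ↠ Z`, equivariantly).  Then `T`
acts on `Z`, each `t` by the same polynomials.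
-/
import Mathlib
import Fermat.Agent.Lib.S59.TPolyAct

set_option autoImplicit false
set_option linter.unusedSectionVars false
set_option linter.unusedVariables false
set_option linter.style.haveILetI false

noncomputable section

namespace Fermat.Agent.Lib.S59

variable {𝒪 : Type*} [CommRing 𝒪] {T : Type*} [CommRing T] [Algebra 𝒪 T]
  {H₀ : Type*} [AddCommGroup H₀] [Module 𝒪 H₀] (Y : Submodule 𝒪 H₀)
  {J : Type*} (ops : J → Module.End 𝒪 H₀) (hc : ∀ i j, ops i * ops j = ops j * ops i)
  (act : T →ₐ[𝒪] Module.End 𝒪 Y)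
  {Z : Type*} [AddCommGroup Z] [Module 𝒪 Z]
  (opsZ : J → Module.End 𝒪 Z) (hcZ : ∀ i j, opsZ i * opsZ j = opsZ j * opsZ i)

/-- **transport of a polynomial action.** -/
theorem s59pt_transport
    (hact : ∀ t, ∃ P : MvPolynomial J 𝒪, ∀ z : Y, ((act t z : Y) : H₀) = s59t_polyAct ops hc P (z : H₀))
    (hYZ : ∀ P : MvPolynomial J 𝒪, (∀ z : Y, s59t_polyAct ops hc P (z : H₀) = 0) →
      s59t_polyAct opsZ hcZ P = 0) :
    ∃ jT : T →ₐ[𝒪] Module.End 𝒪 Z, ∀ (t : T) (P : MvPolynomial J 𝒪),
      (∀ z : Y, ((act t z : Y) : H₀) = s59t_polyAct ops hc P (z : H₀)) →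
        jT t = s59t_polyAct opsZ hcZ P := by
  classical
  choose P hP using hact
  -- independence of the polynomial
  have key : ∀ (t : T) (Q : MvPolynomial J 𝒪),
      (∀ z : Y, ((act t z : Y) : H₀) = s59t_polyAct ops hc Q (z : H₀)) →
        s59t_polyAct opsZ hcZ (P t) = s59t_polyAct opsZ hcZ Q := by
    intro t Q hQ
    have h1 : s59t_polyAct opsZ hcZ (P t - Q) = 0 := by
      apply hYZ
      intro z
      rw [map_sub, LinearMap.sub_apply, ← hP t z, ← hQ z, sub_self]
    rwa [map_sub, sub_eq_zero] at h1
  refine ⟨AlgHom.ofLinearMap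
    { toFun := fun t => s59t_polyAct opsZ hcZ (P t)
      map_add' := fun t t' => by
        rw [← map_add]
        refine key (t + t') (P t + P t') fun z => ?_
        rw [map_add, LinearMap.add_apply, Submodule.coe_add, hP t z, hP t' z, map_add,
          LinearMap.add_apply]
      map_smul' := fun r t => by
        rw [RingHom.id_apply, ← map_smul]
        refine key (r • t) (r • P t) fun z => ?_
        rw [map_smul, LinearMap.smul_apply, Submodule.coe_smul, hP t z, map_smul,
          LinearMap.smul_apply] } ?_ ?_, ?_⟩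
  · show s59t_polyAct opsZ hcZ (P 1) = 1
    rw [← map_one (s59t_polyAct opsZ hcZ)]
    refine key 1 1 fun z => ?_
    rw [map_one, map_one, Module.End.one_apply, Module.End.one_apply]
  · intro t t'
    show s59t_polyAct opsZ hcZ (P (t * t')) =
      s59t_polyAct opsZ hcZ (P t) * s59t_polyAct opsZ hcZ (P t')
    rw [← map_mul]
    refine key (t * t') (P t * P t') fun z => ?_
    rw [map_mul, Module.End.mul_apply, hP t (act t' z), hP t' z, map_mul, Module.End.mul_apply]
  · intro t Q hQ
    exact key t Q hQ

end Fermat.Agent.Lib.S59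

end
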