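/-
PROGRAMME R2 = S59, node [PT-c1] (helper1, prefix `s59pt_`): **THE OLD BASE POINT OF THE MAIN RUN (`k₀ = 0`), over the
(E-conc) interface of the `T`-side.**

Setting: `N' ∣ N` (e.g. `N = N' s`, `s` the spectator), `H₀ = H_par(Γ_⊤(N), 𝒪)`, a commuting family
`ops j = s59w_op ⊤ 𝒪 (idx j)` of `B`-anemic generators (`idx j = T_ℓ`, `ℓ ∉ B`, or a diamond), containing all the `T_ℓ`,
`ℓ ∉ B`; `e` an idempotent polynomial of the eigensystem `a` (`1 − e ∈ (𝔪, X_j − c_j)`); `Y ⊆ H₀` a submodule containing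
`range (e(ops))`; a local `𝒪`-algebra `T` acting on `Y` through polynomials in the `ops` ((E-conc)), with a representation
`ρT` whose Frobenius traces `tr ℓ` act on `Y` as `T_ℓ` (`ℓ ∉ B`).  If the eigensystem `a` occurs at the LOWER level `N'`
(`s44i_LevelOcc N' p a B`), then there is a characteristic zero point `x : T → 𝒪'` in the support of `Y` which satisfies
Ramanujan–Petersson at every prime `r ∤ N' p`:  `x(tr ρT(Frob_r))² ≠ (r + 1)²`.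

Proof: the module `Z = range (e(ops'))` of level `N'` is nonzero ([W6]), restriction `res : H_par(Γ_⊤(N')) → H₀` is
injective, equivariant and maps `Z` into `Y`; transport the action (`s59pt_transport`) and apply `s59pt_c1_point`.
-/
import Mathlib
import Fermat.Agent.Lib.S59.GPtRPop
import Fermat.Agent.Lib.S59.GPtTrans
import Fermat.Agent.Lib.S59.FEps2
import Fermat.Agent.Lib.S59.UW6Idem
import Fermat.Agent.Lib.S59.EHRel1

set_option autoImplicit false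
set_option linter.unusedSectionVars false
set_option linter.unusedVariables false
set_option linter.style.haveILetI false
set_option synthInstance.maxHeartbeats 400000
set_option maxHeartbeats 4000000

noncomputable section

namespace Fermat.Agent.Lib.S59

open Fermat.Agent.Lib.S29 Fermat.Agent.Lib.S30 Fermat.Agent.Lib.S48 Fermat.Agent.Lib.S41
  Fermat.Agent.Lib.S44
open IsLocalRing Polynomial CuspForm
open CongruenceSubgroup
open scoped MatrixGroups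

local notation "Qbar" => AlgebraicClosure ℚ
local notation "GQ" => (AlgebraicClosure ℚ ≃ₐ[ℚ] AlgebraicClosure ℚ)

/-- `Γ_⊤(N) ≤ Γ_⊤(N')` for `N' ∣ N`. -/
theorem s59pt_GammaH_top_le {N N' : ℕ} [NeZero N] [NeZero N'] (hN'N : N' ∣ N) :
    s48h_GammaH N (⊤ : Subgroup (ZMod N)ˣ) ≤ s48h_GammaH N' (⊤ : Subgroup (ZMod N')ˣ) :=
  fun g hg => s59t_mem_GammaH_top N' ⟨g, s59t_Gamma0_le_of_dvd hN'N hg.1⟩

/-- an element congruent to a non-element of `𝔪 • ⊤` modulo `𝔪 • ⊤` is not in `𝔪 • ⊤`. -/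
theorem s59pt_not_mem_of_sub_mem {𝒪 : Type*} [CommRing 𝒪] {Z : Type*} [AddCommGroup Z] [Module 𝒪 Z]
    (S : Submodule 𝒪 Z) {v w : Z} (hv : v ∉ S) (h : w - v ∈ S) : w ∉ S := by
  intro hw
  apply hv
  have : v = w - (w - v) := by abel
  rw [this]
  exact S.sub_mem hw h

variable (p : ℕ) [hpP : Fact p.Prime]

/-- **the transported action along an injective equivariant map, abstract form**: `Z ↪ H_par(Γ_⊤(N'), 𝒪)` a
Hecke-stable module of level `N'`, `f : H_par(Γ_⊤(N'), 𝒪) → H₀` an injective map intertwining the operators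
`s59w_op ⊤ 𝒪 (idx' j)` with a commuting family `ops j` on `H₀`, `f (Z) ⊆ Y`, and `T` acts on `Y` through polynomials in
the `ops`, the Frobenius traces `tr ℓ` acting as `ops j` with `idx' j = T_ℓ`.  Then `T` acts on `Z` (`jT`), through the
same polynomials, with the normal forms `hjTg`, `htr` of `s59pt_c1_point` / `s59pt_c1_all`. -/
theorem s59pt_jT_of_inj (N' : ℕ) [NeZero N']
    (𝒪 : Type) [CommRing 𝒪] (B : Finset ℕ)
    {Z : Type} [AddCommGroup Z] [Module 𝒪 Z]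
    (emb : Z →ₗ[𝒪] s48h_Hpar 𝒪 (s48h_GammaH N' (⊤ : Subgroup (ZMod N')ˣ)) 𝒪)
    (hemb : Function.Injective emb)
    (op : s59w_AIdx N' → Module.End 𝒪 Z)
    (hop : ∀ j z, emb (op j z) = s59w_op (⊤ : Subgroup (ZMod N')ˣ) 𝒪 j (emb z))
    -- the big module
    {H₀ : Type} [AddCommGroup H₀] [Module 𝒪 H₀] (Y : Submodule 𝒪 H₀)
    {J : Type} (ops : J → Module.End 𝒪 H₀) (hc : ∀ i j, ops i * ops j = ops j * ops i)
    (idx' : J → s59w_AIdx N')
    (f : s48h_Hpar 𝒪 (s48h_GammaH N' (⊤ : Subgroup (ZMod N')ˣ)) 𝒪 →ₗ[𝒪] H₀)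
    (hf : Function.Injective f)
    (hint : ∀ j y, f (s59w_op (⊤ : Subgroup (ZMod N')ˣ) 𝒪 (idx' j) y) = ops j (f y))
    (hfY : ∀ z : Z, f (emb z) ∈ Y)
    -- the Hecke ring
    (T : Type) [CommRing T] [Algebra 𝒪 T]
    (act : T →ₐ[𝒪] Module.End 𝒪 Y)
    (hact : ∀ t, ∃ P : MvPolynomial J 𝒪, ∀ z : Y, ((act t z : Y) : H₀) = s59t_polyAct ops hc P z)
    (tr : ℕ → T)
    (hacttr : ∀ i' : s59w_TIdx N', i'.ell ∉ B → ∃ (j : J) (i'' : s59w_TIdx N'),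
      idx' j = Sum.inl i'' ∧ i''.ell = i'.ell ∧
        ∀ z : Y, ((act (tr i'.ell) z : Y) : H₀) = ops j z) :
    ∃ jT : T →ₐ[𝒪] Module.End 𝒪 Z,
      (∀ (t : T) (P : MvPolynomial J 𝒪),
        (∀ z : Y, ((act t z : Y) : H₀) = s59t_polyAct ops hc P z) →
          ∀ z : Z, f (emb (jT t z)) = s59t_polyAct ops hc P (f (emb z))) ∧
      (∀ t, act t = 0 → jT t = 0) ∧
      (∀ t, jT t ∈ Algebra.adjoin 𝒪 (Set.range op)) ∧
      (∀ i : s59w_TIdx N', i.ell ∉ B →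
        jT (tr i.ell) = op (Sum.inr (s59e_tau i 0)) * op (Sum.inl i)) := by
  classical
  obtain ⟨opsZ, hopsZ⟩ : ∃ opsZ : J → Module.End 𝒪 Z, opsZ = fun j => op (idx' j) := ⟨_, rfl⟩
  have hopcomm : ∀ i j, op i * op j = op j * op i := by
    intro i j
    refine LinearMap.ext fun z => hemb ?_
    rw [Module.End.mul_apply, Module.End.mul_apply, hop, hop, hop, hop]
    have h1 := LinearMap.congr_fun (s59w_op_comm (⊤ : Subgroup (ZMod N')ˣ) 𝒪 i j) (emb z)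
    rwa [Module.End.mul_apply, Module.End.mul_apply] at h1
  have hcZ : ∀ i j, opsZ i * opsZ j = opsZ j * opsZ i := by
    intro i j
    rw [hopsZ]
    exact hopcomm _ _
  -- `f ∘ emb` intertwines the polynomial actions
  have hintZ : ∀ (P : MvPolynomial J 𝒪) (z : Z),
      f (emb (s59t_polyAct opsZ hcZ P z)) = s59t_polyAct ops hc P (f (emb z)) := by
    intro P z
    refine s59t_polyAct_intertwine opsZ hcZ ops hc (f ∘ₗ emb) ?_ P z
    intro j z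
    rw [hopsZ]
    show f (emb (op (idx' j) z)) = ops j (f (emb z))
    rw [hop, hint]
  -- transport of the action
  obtain ⟨jT, hjT⟩ := s59pt_transport (Z := Z) Y ops hc act opsZ hcZ hact (by
    intro P hP
    refine LinearMap.ext fun z => hemb (hf ?_)
    rw [hintZ, LinearMap.zero_apply, map_zero, map_zero]
    exact hP ⟨_, hfY z⟩)
  refine ⟨jT, ?_, ?_, ?_, ?_⟩
  · intro t P hP z
    rw [hjT t P hP, hintZ]
  · intro t ht
    rw [hjT t 0 (fun z => by rw [ht, LinearMap.zero_apply, map_zero, LinearMap.zero_apply]; rfl),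
      map_zero]
  · intro t
    obtain ⟨P, hP⟩ := hact t
    rw [hjT t P hP]
    refine Algebra.adjoin_mono ?_ (s59pt_polyAct_mem_adjoin opsZ hcZ P)
    rintro _ ⟨j, rfl⟩
    rw [hopsZ]
    exact ⟨_, rfl⟩
  · intro i' hi'
    obtain ⟨j, i'', hj, hell, hz⟩ := hacttr i' hi'
    have h1 : jT (tr i'.ell) = s59t_polyAct opsZ hcZ (MvPolynomial.X j) := by
      refine hjT _ _ fun z => ?_
      rw [s59t_polyAct_X]
      exact hz z
    rw [h1, s59t_polyAct_X, hopsZ]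
    show op (idx' j) = _
    rw [hj]
    have h2 : op (Sum.inr (s59e_tau i' 0)) = 1 := by
      refine LinearMap.ext fun z => hemb ?_
      rw [hop, s59pt_op_inr_top]
      rfl
    rw [h2, one_mul]
    refine LinearMap.ext fun z => hemb ?_
    rw [hop, hop, s59e_op_inl_congr (⊤ : Subgroup (ZMod N')ˣ) 𝒪 hell]

/-- **a point from an injective equivariant map, abstract form**: in the setting of `s59pt_jT_of_inj`, with `Z`
nonzero finite free: `T` has a characteristic zero point in the support of `Y` with [RP] at every `r ∤ N' p`. -/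
theorem s59pt_point_of_inj (hp2 : p ≠ 2) (N' : ℕ) [NeZero N']
    (𝒪 : Type) [CommRing 𝒪] [IsDomain 𝒪] [IsDiscreteValuationRing 𝒪]
    [IsAdicComplete (maximalIdeal 𝒪) 𝒪] [Finite (ResidueField 𝒪)] [CharZero 𝒪] [Algebra ℤ_[p] 𝒪]
    (hp𝒪 : (p : 𝒪) ∈ maximalIdeal 𝒪)
    (B : Finset ℕ) (hpB : p ∈ B) (hNB : ∀ q : ℕ, q.Prime → q ∣ N' → q ∈ B)
    {Z : Type} [AddCommGroup Z] [Module 𝒪 Z] [Module.Finite 𝒪 Z] [Module.Free 𝒪 Z] [Nontrivial Z]
    (emb : Z →ₗ[𝒪] s48h_Hpar 𝒪 (s48h_GammaH N' (⊤ : Subgroup (ZMod N')ˣ)) 𝒪)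
    (hemb : Function.Injective emb)
    (op : s59w_AIdx N' → Module.End 𝒪 Z)
    (hop : ∀ j z, emb (op j z) = s59w_op (⊤ : Subgroup (ZMod N')ˣ) 𝒪 j (emb z))
    -- the big module
    {H₀ : Type} [AddCommGroup H₀] [Module 𝒪 H₀] (Y : Submodule 𝒪 H₀)
    {J : Type} (ops : J → Module.End 𝒪 H₀) (hc : ∀ i j, ops i * ops j = ops j * ops i)
    (idx' : J → s59w_AIdx N')
    (f : s48h_Hpar 𝒪 (s48h_GammaH N' (⊤ : Subgroup (ZMod N')ˣ)) 𝒪 →ₗ[𝒪] H₀)
    (hf : Function.Injective f)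
    (hint : ∀ j y, f (s59w_op (⊤ : Subgroup (ZMod N')ˣ) 𝒪 (idx' j) y) = ops j (f y))
    (hfY : ∀ z : Z, f (emb z) ∈ Y)
    -- the Hecke ring
    (T : Type) [CommRing T] [IsLocalRing T] [Algebra 𝒪 T]
    (act : T →ₐ[𝒪] Module.End 𝒪 Y)
    (hact : ∀ t, ∃ P : MvPolynomial J 𝒪, ∀ z : Y, ((act t z : Y) : H₀) = s59t_polyAct ops hc P z)
    (ρT : GaloisRepAdic T) (tr : ℕ → T)
    (hfrob : ∀ ℓ : ℕ, ℓ.Prime → ℓ ∉ B → ∀ P' : ValuationSubring Qbar, P'.LiesOverPrime ℓ →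
      ∀ σ : GQ, P'.IsFrobeniusAt σ ℓ →
        LinearMap.charpoly (ρT.ρ σ) = X ^ 2 - C (tr ℓ) * X + C (ℓ : T))
    (hacttr : ∀ i' : s59w_TIdx N', i'.ell ∉ B → ∃ (j : J) (i'' : s59w_TIdx N'),
      idx' j = Sum.inl i'' ∧ i''.ell = i'.ell ∧
        ∀ z : Y, ((act (tr i'.ell) z : Y) : H₀) = ops j z) :
    ∃ (𝒪' : Type) (_ : CommRing 𝒪') (_ : IsDomain 𝒪') (_ : IsDiscreteValuationRing 𝒪')
      (_ : IsAdicComplete (maximalIdeal 𝒪') 𝒪') (_ : Finite (ResidueField 𝒪')) (_ : CharZero 𝒪')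
      (_ : Algebra 𝒪 𝒪') (_ : Module.Finite 𝒪 𝒪') (_ : IsLocalHom (algebraMap 𝒪 𝒪'))
      (x : T →ₐ[𝒪] 𝒪'),
      (∀ t, act t = 0 → x t = 0) ∧
      ∀ (r : ℕ), r.Prime → r ≠ p → ¬ r ∣ N' →
        ∀ (A : ValuationSubring Qbar), A.LiesOverPrime r → ∀ σ : GQ, A.IsFrobeniusAt σ r →
          x (s59i_cpTr ρT σ) * x (s59i_cpTr ρT σ) ≠ ((r : 𝒪') + 1) * ((r : 𝒪') + 1) := by
  classical
  obtain ⟨jT, -, hjT0, hjTg, htr⟩ := s59pt_jT_of_inj N' 𝒪 B emb hemb op hop Y ops hc idx' f hf hint hfY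
    T act hact tr hacttr
  obtain ⟨𝒪', i1, i2, i3, i4, i5, i6, i7, i8, i9, x, hx0, hxRP⟩ :=
    s59pt_c1_point p hp2 N' 𝒪 hp𝒪 B hpB hNB emb hemb op hop T jT hjTg ρT tr 0 htr hfrob
  exact ⟨𝒪', i1, i2, i3, i4, i5, i6, i7, i8, i9, x, fun t ht => hx0 t (hjT0 t ht), hxRP⟩

/-- **[PT-c1] over the (E-conc) interface: the old base point of the main run.** -/
theorem s59pt_base0 (hp2 : p ≠ 2) {N N' : ℕ} [NeZero N] [NeZero N'] (hN'N : N' ∣ N)
    (𝒪 : Type) [CommRing 𝒪] [IsDomain 𝒪] [IsDiscreteValuationRing 𝒪]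
    [IsAdicComplete (maximalIdeal 𝒪) 𝒪] [Finite (ResidueField 𝒪)] [CharZero 𝒪] [Algebra ℤ_[p] 𝒪]
    (hp𝒪 : (p : 𝒪) ∈ maximalIdeal 𝒪)
    (B : Finset ℕ) (hpB : p ∈ B) (hNB : ∀ q : ℕ, q.Prime → q ∣ N → q ∈ B)
    (a : ℕ → ℤ) (hocc : s44i_LevelOcc N' p a B)
    -- the dialect
    {J : Type} (idx : J → s59w_AIdx N)
    (hidx : ∀ j i, idx j = Sum.inl i → i.ell ∉ B)
    (hJ : ∀ i : s59w_TIdx N, i.ell ∉ B → ∃ j, idx j = Sum.inl i)
    (c : J → 𝒪) (hcT : ∀ j i, idx j = Sum.inl i → c j = ((a i.ell : ℤ) : 𝒪))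
    (hcD : ∀ j τ, idx j = Sum.inr τ → c j = 1)
    (e : MvPolynomial J 𝒪) (he : 1 - e ∈ s59t_evalIdeal c)
    -- the base module and its Hecke ring
    (Y : Submodule 𝒪 (s48h_Hpar 𝒪 (s48h_GammaH N (⊤ : Subgroup (ZMod N)ˣ)) 𝒪))
    (hεY : ∀ z, s59t_polyAct (fun j => s59w_op (⊤ : Subgroup (ZMod N)ˣ) 𝒪 (idx j))
      (fun i j => s59w_op_comm (⊤ : Subgroup (ZMod N)ˣ) 𝒪 _ _) e z ∈ Y)
    (T : Type) [CommRing T] [IsLocalRing T] [Algebra 𝒪 T]
    (act : T →ₐ[𝒪] Module.End 𝒪 Y)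
    (hact : ∀ t, ∃ P : MvPolynomial J 𝒪, ∀ z : Y,
      ((act t z : Y) : s48h_Hpar 𝒪 (s48h_GammaH N (⊤ : Subgroup (ZMod N)ˣ)) 𝒪) =
        s59t_polyAct (fun j => s59w_op (⊤ : Subgroup (ZMod N)ˣ) 𝒪 (idx j))
          (fun i j => s59w_op_comm (⊤ : Subgroup (ZMod N)ˣ) 𝒪 _ _) P z)
    (ρT : GaloisRepAdic T) (tr : ℕ → T)
    (hfrob : ∀ ℓ : ℕ, ℓ.Prime → ℓ ∉ B → ∀ P' : ValuationSubring Qbar, P'.LiesOverPrime ℓ →
      ∀ σ : GQ, P'.IsFrobeniusAt σ ℓ →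
        LinearMap.charpoly (ρT.ρ σ) = X ^ 2 - C (tr ℓ) * X + C (ℓ : T))
    (hacttr : ∀ i : s59w_TIdx N, i.ell ∉ B → ∀ z : Y,
      ((act (tr i.ell) z : Y) : s48h_Hpar 𝒪 (s48h_GammaH N (⊤ : Subgroup (ZMod N)ˣ)) 𝒪) =
        s59w_op (⊤ : Subgroup (ZMod N)ˣ) 𝒪 (Sum.inl i) z) :
    ∃ (𝒪' : Type) (_ : CommRing 𝒪') (_ : IsDomain 𝒪') (_ : IsDiscreteValuationRing 𝒪')
      (_ : IsAdicComplete (maximalIdeal 𝒪') 𝒪') (_ : Finite (ResidueField 𝒪')) (_ : CharZero 𝒪')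
      (_ : Algebra 𝒪 𝒪') (_ : Module.Finite 𝒪 𝒪') (_ : IsLocalHom (algebraMap 𝒪 𝒪'))
      (x : T →ₐ[𝒪] 𝒪'),
      (∀ t, act t = 0 → x t = 0) ∧
      ∀ (r : ℕ), r.Prime → r ≠ p → ¬ r ∣ N' →
        ∀ (A : ValuationSubring Qbar), A.LiesOverPrime r → ∀ σ : GQ, A.IsFrobeniusAt σ r →
          x (s59i_cpTr ρT σ) * x (s59i_cpTr ρT σ) ≠ ((r : 𝒪') + 1) * ((r : 𝒪') + 1) := by
  classical
  -- the two levels
  have hle := s59pt_GammaH_top_le hN'N
  haveI : Module.Finite 𝒪 (s48h_Hpar 𝒪 (s48h_GammaH N' (⊤ : Subgroup (ZMod N')ˣ)) 𝒪) :=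
    s59t_Hpar_finite 𝒪
  haveI : Module.Free 𝒪 (s48h_Hpar 𝒪 (s48h_GammaH N' (⊤ : Subgroup (ZMod N')ˣ)) 𝒪) :=
    s59t_Hpar_free 𝒪
  obtain ⟨res, hresdef⟩ : ∃ res : s48h_Hpar 𝒪 (s48h_GammaH N' (⊤ : Subgroup (ZMod N')ˣ)) 𝒪 →ₗ[𝒪]
      s48h_Hpar 𝒪 (s48h_GammaH N (⊤ : Subgroup (ZMod N)ˣ)) 𝒪, res = s59t_resGHpar hle 𝒪 𝒪 := ⟨_, rfl⟩
  have hresinj : Function.Injective res := by
    rw [hresdef]
    exact s59f_resGHpar_injective hle
  -- the operators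
  obtain ⟨ops, hops⟩ : ∃ ops : J → Module.End 𝒪 (s48h_Hpar 𝒪 (s48h_GammaH N (⊤ : Subgroup (ZMod N)ˣ)) 𝒪),
      ops = fun j => s59w_op (⊤ : Subgroup (ZMod N)ˣ) 𝒪 (idx j) := ⟨_, rfl⟩
  have hc : ∀ i j, ops i * ops j = ops j * ops i := by
    intro i j
    rw [hops]
    exact s59w_op_comm (⊤ : Subgroup (ZMod N)ˣ) 𝒪 _ _
  obtain ⟨ops', hops'⟩ : ∃ ops' : J → Module.End 𝒪 (s48h_Hpar 𝒪 (s48h_GammaH N' (⊤ : Subgroup (ZMod N')ˣ)) 𝒪),
      ops' = fun j => s59w_op (⊤ : Subgroup (ZMod N')ˣ) 𝒪 (s59t_AIdx_down hN'N (idx j)) := ⟨_, rfl⟩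
  have hc' : ∀ i j, ops' i * ops' j = ops' j * ops' i := by
    intro i j
    rw [hops']
    exact s59w_op_comm (⊤ : Subgroup (ZMod N')ˣ) 𝒪 _ _
  have hεY' : ∀ z, s59t_polyAct ops hc e z ∈ Y := by
    subst hops
    exact hεY
  have hact' : ∀ t, ∃ P : MvPolynomial J 𝒪, ∀ z : Y,
      ((act t z : Y) : s48h_Hpar 𝒪 (s48h_GammaH N (⊤ : Subgroup (ZMod N)ˣ)) 𝒪) =
        s59t_polyAct ops hc P z := by
    subst hops
    exact hact
  -- restriction intertwines the operators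
  have hint : ∀ j y, res (ops' j y) = ops j (res y) := by
    intro j y
    rw [hresdef, hops, hops']
    have h1 := s59t_opH_resG (N' := N) (fun _ => (0 : 𝒪)) hN'N (dvd_refl N)
      (⊤ : Subgroup (ZMod N')ˣ) (⊤ : Subgroup (ZMod N)ˣ) hle hN'N (Sum.inl (idx j))
      (fun q' h => by cases h) y
    rw [s59t_opH_inl, s59t_opH_inl, s59t_AIdx_down_self] at h1
    exact h1
  have hintP : ∀ (P : MvPolynomial J 𝒪) y,
      res (s59t_polyAct ops' hc' P y) = s59t_polyAct ops hc P (res y) :=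
    fun P y => s59t_polyAct_intertwine ops' hc' ops hc res hint P y
  -- the old module of level `N'`
  obtain ⟨Zs, hZs⟩ : ∃ Zs : Submodule 𝒪 (s48h_Hpar 𝒪 (s48h_GammaH N' (⊤ : Subgroup (ZMod N')ˣ)) 𝒪),
      Zs = LinearMap.range (s59t_polyAct ops' hc' e) := ⟨_, rfl⟩
  have hstab : ∀ (j : s59w_AIdx N'), ∀ z ∈ Zs,
      s59w_op (⊤ : Subgroup (ZMod N')ˣ) 𝒪 j z ∈ Zs := by
    intro j z hz
    rw [hZs] at hz ⊢
    obtain ⟨z₁, rfl⟩ := hz
    refine ⟨s59w_op (⊤ : Subgroup (ZMod N')ˣ) 𝒪 j z₁, ?_⟩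
    refine (s59t_polyAct_commute ops' hc' (s59w_op (⊤ : Subgroup (ZMod N')ˣ) 𝒪 j) ?_ e z₁).symm
    intro i z
    rw [hops']
    have h1 := LinearMap.congr_fun (s59w_op_comm (⊤ : Subgroup (ZMod N')ˣ) 𝒪 j
      (s59t_AIdx_down hN'N (idx i))) z
    rwa [Module.End.mul_apply, Module.End.mul_apply] at h1
  haveI : Module.Finite 𝒪 ↥Zs := Module.IsNoetherian.finite 𝒪 ↥Zs
  haveI : Module.IsTorsionFree 𝒪 ↥Zs := inferInstance
  haveI : Module.Free 𝒪 ↥Zs := Module.free_of_finite_type_torsion_free' (R := 𝒪) (M := ↥Zs)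
  -- it is nonzero: [W6] at the level `N'`
  haveI : Nontrivial ↥Zs := by
    obtain ⟨v, hv, hT, hD⟩ := s59u_W6 (L := N') (M := N') (dvd_refl N')
      (⊤ : Subgroup (ZMod N')ˣ) 𝒪 p hp𝒪 a B hocc
    have heig : ∀ j, ops' j v - c j • v ∈ (maximalIdeal 𝒪 • ⊤ :
        Submodule 𝒪 (s48h_Hpar 𝒪 (s48h_GammaH N' (⊤ : Subgroup (ZMod N')ˣ)) 𝒪)) := by
      intro j
      have h0 : ops' j = s59w_op (⊤ : Subgroup (ZMod N')ˣ) 𝒪 (s59t_AIdx_down hN'N (idx j)) := by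
        rw [hops']
      rw [h0]
      rcases hj : idx j with i | τ
      · rw [hcT j i hj]
        exact hT (s59t_TIdx_down hN'N i) (hidx j i hj)
      · rw [hcD j τ hj, one_smul]
        exact hD _
    have h1 := s59u_polyAct_eigen ops' hc' c v heig e
    have h2 : (1 : 𝒪) - MvPolynomial.eval c e ∈ maximalIdeal 𝒪 := by
      by_contra hne
      have h3 : IsUnit (MvPolynomial.eval c (1 - e)) := by
        rw [map_sub, map_one]
        by_contra h4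
        exact hne ((mem_maximalIdeal _).mpr h4)
      exact ((s59t_not_mem_evalIdeal c (1 - e)).mpr h3) he
    have h3 : s59t_polyAct ops' hc' e v - v ∈ (maximalIdeal 𝒪 • ⊤ :
        Submodule 𝒪 (s48h_Hpar 𝒪 (s48h_GammaH N' (⊤ : Subgroup (ZMod N')ˣ)) 𝒪)) := by
      have h4 : s59t_polyAct ops' hc' e v - v =
          (s59t_polyAct ops' hc' e v - MvPolynomial.eval c e • v) -
            ((1 : 𝒪) - MvPolynomial.eval c e) • v := by
        module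
      rw [h4]
      exact Submodule.sub_mem _ h1 (Submodule.smul_mem_smul h2 Submodule.mem_top)
    have h4 := s59pt_not_mem_of_sub_mem _ hv h3
    have h5 : s59t_polyAct ops' hc' e v ≠ 0 := fun h0 => h4 (h0 ▸ Submodule.zero_mem _)
    have hmem : s59t_polyAct ops' hc' e v ∈ Zs := by
      rw [hZs]
      exact ⟨v, rfl⟩
    exact ⟨⟨⟨_, hmem⟩, 0, fun h => h5 (congrArg Subtype.val h)⟩⟩
  -- `res` maps `Zs` into `Y`
  have hresY : ∀ z : ↥Zs, res (Zs.subtype z) ∈ Y := by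
    intro z
    have hz : (z : s48h_Hpar 𝒪 (s48h_GammaH N' (⊤ : Subgroup (ZMod N')ˣ)) 𝒪) ∈
        LinearMap.range (s59t_polyAct ops' hc' e) := by
      rw [← hZs]
      exact z.2
    obtain ⟨z₁, hz₁⟩ := hz
    have h1 : res (Zs.subtype z) = s59t_polyAct ops hc e (res z₁) := by
      rw [← hintP, hz₁]
      rfl
    rw [h1]
    exact hεY' _
  exact s59pt_point_of_inj p hp2 N' 𝒪 hp𝒪 B hpB
    (fun q hq hqN' => hNB q hq (dvd_trans hqN' hN'N))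
    (Z := ↥Zs) Zs.subtype Zs.injective_subtype
    (fun j => (s59w_op (⊤ : Subgroup (ZMod N')ˣ) 𝒪 j).restrict (hstab j)) (fun j z => rfl)
    Y ops hc (fun j => s59t_AIdx_down hN'N (idx j)) res hresinj
    (fun j y => by
      have := hint j y
      rw [hops'] at this
      exact this)
    hresY T act hact' ρT tr hfrob
    (by
      intro i' hi'
      -- an index of level `N` with the same prime
      have hℓN : ¬ i'.ell ∣ N := fun h => hi' (hNB _ i'.prime h)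
      have hcop : Nat.Coprime i'.ell N := (Nat.Prime.coprime_iff_not_dvd i'.prime).mpr hℓN
      obtain ⟨σ, hσ⟩ := s59w_exists_sig (ZMod.unitOfCoprime i'.ell hcop)
      have hσ11 : (((σ : SL(2, ℤ)) 1 1 : ℤ) : ZMod N) = (i'.ell : ZMod N) := by
        have h1 := congrArg (fun u : (ZMod N)ˣ => (u : ZMod N)) hσ
        simp only [s59w_lrUnit_coe, ZMod.coe_unitOfCoprime] at h1
        exact h1
      obtain ⟨j, hj⟩ := hJ ⟨i'.ell, i'.prime, hℓN, σ, σ.2, hσ11⟩ hi'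
      refine ⟨j, s59t_TIdx_down hN'N ⟨i'.ell, i'.prime, hℓN, σ, σ.2, hσ11⟩, ?_, rfl, fun z => ?_⟩
      · rw [hj]
        rfl
      · have h1 := hacttr ⟨i'.ell, i'.prime, hℓN, σ, σ.2, hσ11⟩ hi' z
        rw [hops]
        show _ = s59w_op (⊤ : Subgroup (ZMod N)ˣ) 𝒪 (idx j) z
        rw [hj]
        exact h1)

end Fermat.Agent.Lib.S59

end
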