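/-
PROGRAMME R2 = S59, case (P), the spectator fields, node [PT-P] (helper3, prefix `s59u_c2_`), file 3:
**THE `s`-OLD, `p`-NEW BASE POINT FROM THE EXPORT (E-conc-P)** — (P)-twin of helper1's `s59pt_econc_pt0` (GPtEConc.lean).

Levels `L` (prime to `p`), `N' = L p`, `N₀ = N' s` (`s` the spectator); the base ring `R` acts on (a module containing) the
`p`-kernel part of `range (E₀ e) ⊆ H_par(Γ_⊤(N₀), 𝒪)` ((E-conc-P), `s59u_c2_EConcP`); the `p`-kernel part of the level `N'` is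
NON-ZERO (`hker`; from `s59u_c2_kerBase_up0`).  Then `R` has a characteristic zero point with Ramanujan–Petersson at every prime
`r ∤ N'` (`r ≠ p`), in particular at `r = s`.

Proof: `Z' = range (E₀ e₂) ∩ ker cor_A ∩ ker cor_B` at the level `N'` is a non-zero Hecke-stable finite free module; the `s`-old
restriction `res : H_par(Γ_⊤(N')) → H_par(Γ_⊤(N₀))` is injective, intertwines the good operators, the base idempotents (helper4's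
`s59f_anemic_eq_E0` + `s59f_res_anemic`) and the `p`-packages (helper4's `s59f_oldN_hom`), so `res (Z') ⊆` the kernel part of the
level `N₀`; conclude by helper1's abstract `s59pt_point_of_inj` (GPtBase0.lean).
-/
import Mathlib
import Fermat.Agent.Lib.S59.UC2PA
import Fermat.Agent.Lib.S59.GPtBase0
import Fermat.Agent.Lib.S59.FEps2
import Fermat.Agent.Lib.S59.ETLvlOps

set_option autoImplicit false
set_option linter.unusedSectionVars false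
set_option linter.unusedVariables false
set_option linter.style.haveILetI false
set_option synthInstance.maxHeartbeats 400000
set_option maxHeartbeats 4000000

noncomputable section

namespace Fermat.Agent.Lib.S59

open Fermat.Agent.Lib.S29 Fermat.Agent.Lib.S30 Fermat.Agent.Lib.S48 Fermat.Agent.Lib.S41
  Fermat.Agent.Lib.S44
open IsLocalRing Polynomial CuspForm
open CongruenceSubgroup
open scoped MatrixGroups

local notation "Qbar" => AlgebraicClosure ℚ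
local notation "GQ" => (AlgebraicClosure ℚ ≃ₐ[ℚ] AlgebraicClosure ℚ)

variable (p : ℕ) [hpP : Fact p.Prime]

/-- **the `s`-OLD, `p`-NEW base point from (E-conc-P)** (`k₀ = 0`). -/
theorem s59u_c2_econcP_pt0 (hp2 : p ≠ 2) {N₀ N' L s : ℕ} [NeZero N₀] [NeZero N'] [NeZero L]
    (hpL : ¬ p ∣ L) (hN' : N' = L * p) (hN₀ : N₀ = N' * s)
    (𝒪 : Type) [CommRing 𝒪] [IsDomain 𝒪] [IsDiscreteValuationRing 𝒪]
    [IsAdicComplete (maximalIdeal 𝒪) 𝒪] [Finite (ResidueField 𝒪)] [CharZero 𝒪] [Algebra ℤ_[p] 𝒪]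
    (hp𝒪 : ((p : ℕ) : 𝒪) ∈ maximalIdeal 𝒪)
    (B : Finset ℕ) (hpB : p ∈ B) (hNB : ∀ q : ℕ, q.Prime → q ∣ N₀ → q ∈ B)
    (a : ℕ → ℤ)
    (hG₁ : s59f_IsG' L p (⊤ : Subgroup (ZMod L)ˣ) (s48h_GammaH N' (⊤ : Subgroup (ZMod N')ˣ)))
    (hker : ∀ (e₀ : SL(2, ℤ)) (he'b : e₀ ∈ Gamma0 N')
      (heeb : s59f_gW hpL * e₀ * e₀ ∈ s48h_GammaH N' (⊤ : Subgroup (ZMod N')ˣ)),
      ∃ e₂ : MvPolynomial ↥(s59t_goodB N' B) 𝒪,
        1 - e₂ ∈ s59t_evalIdeal (fun x : ↥(s59t_goodB N' B) =>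
          s59t_cB (𝒪 := 𝒪) N' a (x : s59w_AIdx N')) ∧
        s59t_E0 (⊤ : Subgroup (ZMod N')ˣ) B e₂ * s59t_E0 (⊤ : Subgroup (ZMod N')ˣ) B e₂ =
          s59t_E0 (⊤ : Subgroup (ZMod N')ˣ) B e₂ ∧
        (∀ x ∈ s59t_goodB N' B, ∃ n : ℕ,
          ∀ y : s48h_Hpar 𝒪 (s48h_GammaH N' (⊤ : Subgroup (ZMod N')ˣ)) 𝒪,
            ((s59w_op (⊤ : Subgroup (ZMod N')ˣ) 𝒪 x - s59t_cB (𝒪 := 𝒪) N' a x •
              (1 : Module.End 𝒪 (s48h_Hpar 𝒪 (s48h_GammaH N' (⊤ : Subgroup (ZMod N')ˣ)) 𝒪))) ^ n)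
              (s59t_E0 (⊤ : Subgroup (ZMod N')ˣ) B e₂ y) ∈
              (maximalIdeal 𝒪 • ⊤ :
                Submodule 𝒪 (s48h_Hpar 𝒪 (s48h_GammaH N' (⊤ : Subgroup (ZMod N')ˣ)) 𝒪))) ∧
        ∃ z : s48h_Hpar 𝒪 (s48h_GammaH N' (⊤ : Subgroup (ZMod N')ˣ)) 𝒪, z ≠ 0 ∧
          s59t_E0 (⊤ : Subgroup (ZMod N')ˣ) B e₂ z = z ∧
          (s59f_oldN hpL hN' hG₁ 𝒪 𝒪 e₀ he'b heeb).corA z = 0 ∧
          (s59f_oldN hpL hN' hG₁ 𝒪 𝒪 e₀ he'b heeb).corB z = 0)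
    (R : Type) [CommRing R] [IsLocalRing R] [Algebra 𝒪 R] (ρR : GaloisRepAdic R)
    (hE : s59u_c2_EConcP 𝒪 p N₀ B a R ρR) :
    ∃ (𝒪' : Type) (_ : CommRing 𝒪') (_ : IsDomain 𝒪') (_ : IsDiscreteValuationRing 𝒪')
      (_ : IsAdicComplete (maximalIdeal 𝒪') 𝒪') (_ : Finite (ResidueField 𝒪')) (_ : CharZero 𝒪')
      (_ : Algebra 𝒪 𝒪') (_ : Module.Finite 𝒪 𝒪') (_ : IsLocalHom (algebraMap 𝒪 𝒪'))
      (x : R →ₐ[𝒪] 𝒪'),
      ∀ (r : ℕ), r.Prime → r ≠ p → ¬ r ∣ N' →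
        ∀ (A : ValuationSubring Qbar), A.LiesOverPrime r → ∀ σ : GQ, A.IsFrobeniusAt σ r →
          x (s59i_cpTr ρR σ) * x (s59i_cpTr ρR σ) ≠ ((r : 𝒪') + 1) * ((r : 𝒪') + 1) := by
  classical
  have hE' := hE
  unfold s59u_c2_EConcP at hE'
  obtain ⟨L₀, hL₀Z, hpL₀, hN₀', hG', e₀, he', hee, e, Z, iZ1, iZ2, emb, act, tr, h1e, hid, hnil,
    hemb, hrange, hact, hfrobR, hacttr⟩ := hE'
  have hpPr : p.Prime := hpP.out
  -- the divisibilities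
  have hL₀ : L₀ = L * s := by
    have h1 : L₀ * p = L * s * p := by
      rw [← hN₀', hN₀, hN']
      ring
    exact Nat.eq_of_mul_eq_mul_right hpPr.pos h1
  have hLL₀ : L ∣ L₀ := hL₀ ▸ Dvd.intro s rfl
  have hN'N₀ : N' ∣ N₀ := hN₀ ▸ Dvd.intro s rfl
  have hLN' : L ∣ N' := hN' ▸ Dvd.intro p rfl
  have hle' := s59pt_GammaH_top_le hN'N₀
  have hle := s59pt_GammaH_top_le hLL₀
  have he'b : e₀ ∈ Gamma0 N' := s59t_Gamma0_le_of_dvd hN'N₀ he'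
  have hgW : s59f_gW hpL ∈ Gamma0 N' := by
    have h1 := s59f_gW_mem hpL
    rw [← hN'] at h1
    exact h1
  have heeb : s59f_gW hpL * e₀ * e₀ ∈ s48h_GammaH N' (⊤ : Subgroup (ZMod N')ˣ) :=
    s59t_mem_GammaH_top N' ⟨_, mul_mem (mul_mem hgW he'b) he'b⟩
  -- the kernel pair of the level `N'`
  have hk := hker e₀ he'b heeb
  obtain ⟨e₂, h1e₂, hid₂, hnil₂, z₀, hz₀, hz₀e, hz₀A, hz₀B⟩ := hk
  -- the morphism of `p`-packages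
  have hhom := s59f_oldN_hom hpL hpL₀ hLL₀ hN' hN₀' hG₁ hG' hle hle' 𝒪 𝒪 e₀ he'b he' heeb hee
  -- the two levels
  haveI : Module.Finite 𝒪 (s48h_Hpar 𝒪 (s48h_GammaH N' (⊤ : Subgroup (ZMod N')ˣ)) 𝒪) :=
    s59t_Hpar_finite 𝒪
  haveI : Module.Free 𝒪 (s48h_Hpar 𝒪 (s48h_GammaH N' (⊤ : Subgroup (ZMod N')ˣ)) 𝒪) :=
    s59t_Hpar_free 𝒪
  obtain ⟨res, hresdef⟩ : ∃ res : s48h_Hpar 𝒪 (s48h_GammaH N' (⊤ : Subgroup (ZMod N')ˣ)) 𝒪 →ₗ[𝒪]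
      s48h_Hpar 𝒪 (s48h_GammaH N₀ (⊤ : Subgroup (ZMod N₀)ˣ)) 𝒪, res = s59t_resGHpar hle' 𝒪 𝒪 :=
    ⟨_, rfl⟩
  have hresinj : Function.Injective res := by
    rw [hresdef]
    exact s59f_resGHpar_injective hle'
  -- the operators
  obtain ⟨ops, hops⟩ : ∃ ops : ↥(s59t_goodB N₀ B) →
      Module.End 𝒪 (s48h_Hpar 𝒪 (s48h_GammaH N₀ (⊤ : Subgroup (ZMod N₀)ˣ)) 𝒪),
      ops = fun j : ↥(s59t_goodB N₀ B) =>
        s59w_op (⊤ : Subgroup (ZMod N₀)ˣ) 𝒪 (j : s59w_AIdx N₀) := ⟨_, rfl⟩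
  have hc : ∀ i j, ops i * ops j = ops j * ops i := by
    intro i j
    rw [hops]
    exact s59w_op_comm (⊤ : Subgroup (ZMod N₀)ˣ) 𝒪 _ _
  have hE0 : ∀ P : MvPolynomial ↥(s59t_goodB N₀ B) 𝒪,
      s59t_E0 (⊤ : Subgroup (ZMod N₀)ˣ) B P = s59t_polyAct ops hc P := by
    intro P
    subst hops
    rfl
  -- restriction intertwines the operators
  have hint : ∀ (j : ↥(s59t_goodB N₀ B)) y,
      res (s59w_op (⊤ : Subgroup (ZMod N')ˣ) 𝒪 (s59t_AIdx_down hN'N₀ (j : s59w_AIdx N₀)) y) =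
        ops j (res y) := by
    intro j y
    rw [hresdef, hops]
    have h1 := s59t_opH_resG (N' := N₀) (fun _ => (0 : 𝒪)) hN'N₀ (dvd_refl N₀)
      (⊤ : Subgroup (ZMod N')ˣ) (⊤ : Subgroup (ZMod N₀)ˣ) hle' hN'N₀
      (Sum.inl (j : s59w_AIdx N₀)) (fun q' h => by cases h) y
    rw [s59t_opH_inl, s59t_opH_inl, s59t_AIdx_down_self] at h1
    exact h1
  -- the kernel module of the level `N'`
  obtain ⟨Zs, hZs⟩ : ∃ Zs : Submodule 𝒪 (s48h_Hpar 𝒪 (s48h_GammaH N' (⊤ : Subgroup (ZMod N')ˣ)) 𝒪),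
      Zs = LinearMap.range (s59t_E0 (⊤ : Subgroup (ZMod N')ˣ) B e₂) ⊓
        (LinearMap.ker (s59f_oldN hpL hN' hG₁ 𝒪 𝒪 e₀ he'b heeb).corA ⊓
          LinearMap.ker (s59f_oldN hpL hN' hG₁ 𝒪 𝒪 e₀ he'b heeb).corB) := ⟨_, rfl⟩
  have hmemZs : ∀ z, z ∈ Zs ↔ (s59t_E0 (⊤ : Subgroup (ZMod N')ˣ) B e₂ z = z ∧
      (s59f_oldN hpL hN' hG₁ 𝒪 𝒪 e₀ he'b heeb).corA z = 0 ∧
      (s59f_oldN hpL hN' hG₁ 𝒪 𝒪 e₀ he'b heeb).corB z = 0) := by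
    intro z
    rw [hZs, Submodule.mem_inf, Submodule.mem_inf, LinearMap.mem_ker, LinearMap.mem_ker]
    constructor
    · rintro ⟨⟨u, rfl⟩, hA, hB⟩
      refine ⟨?_, hA, hB⟩
      have h1 := LinearMap.congr_fun hid₂ u
      rwa [Module.End.mul_apply] at h1
    · rintro ⟨h1, hA, hB⟩
      exact ⟨⟨z, h1⟩, hA, hB⟩
  have hstab : ∀ (j : s59w_AIdx N'), ∀ z ∈ Zs,
      s59w_op (⊤ : Subgroup (ZMod N')ˣ) 𝒪 j z ∈ Zs := by
    intro j z hz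
    rw [hmemZs] at hz ⊢
    obtain ⟨h1, hA, hB⟩ := hz
    have hcw := s59f_oldN_compat_wop (R := 𝒪) hpL hN' hG₁ e₀ he'b heeb hLN' (dvd_refl N') j
    rw [s59t_AIdx_down_self] at hcw
    refine ⟨?_, ?_, ?_⟩
    · have h2 := LinearMap.congr_fun (s59e_E0_comm_op (⊤ : Subgroup (ZMod N')ˣ) B e₂ j) z
      rw [Module.End.mul_apply, Module.End.mul_apply] at h2
      rw [h2, h1]
    · rw [← hcw.corA, hA, map_zero]
    · rw [← hcw.corB, hB, map_zero]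
  haveI : Module.Finite 𝒪 ↥Zs := Module.IsNoetherian.finite 𝒪 ↥Zs
  haveI : Module.IsTorsionFree 𝒪 ↥Zs := inferInstance
  haveI : Module.Free 𝒪 ↥Zs := Module.free_of_finite_type_torsion_free' (R := 𝒪) (M := ↥Zs)
  haveI : Nontrivial ↥Zs := by
    have hmem : z₀ ∈ Zs := (hmemZs z₀).mpr ⟨hz₀e, hz₀A, hz₀B⟩
    exact ⟨⟨⟨z₀, hmem⟩, 0, fun h => hz₀ (congrArg Subtype.val h)⟩⟩
  -- the base module `Y = range emb` and the transported action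
  obtain ⟨Y, hY⟩ : ∃ Y : Submodule 𝒪 (s48h_Hpar 𝒪 (s48h_GammaH N₀ (⊤ : Subgroup (ZMod N₀)ˣ)) 𝒪),
      Y = LinearMap.range emb := ⟨_, rfl⟩
  subst hY
  obtain ⟨eqv, heqv⟩ : ∃ eqv : Z ≃ₗ[𝒪] ↥(LinearMap.range emb),
      eqv = LinearEquiv.ofInjective emb hemb := ⟨_, rfl⟩
  have heqv1 : ∀ z : Z, ((eqv z : ↥(LinearMap.range emb)) :
      s48h_Hpar 𝒪 (s48h_GammaH N₀ (⊤ : Subgroup (ZMod N₀)ˣ)) 𝒪) = emb z := by
    intro z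
    rw [heqv]
    rfl
  have heqv2 : ∀ y : ↥(LinearMap.range emb), emb (eqv.symm y) =
      (y : s48h_Hpar 𝒪 (s48h_GammaH N₀ (⊤ : Subgroup (ZMod N₀)ˣ)) 𝒪) := by
    intro y
    rw [heqv]
    exact LinearEquiv.ofInjective_symm_apply (f := emb) (h := hemb) y
  obtain ⟨act', hact'def⟩ : ∃ act' : R →ₐ[𝒪] Module.End 𝒪 ↥(LinearMap.range emb),
      ∀ t y, act' t y = eqv (act t (eqv.symm y)) :=
    ⟨((eqv.conjAlgEquiv 𝒪 : Module.End 𝒪 Z ≃ₐ[𝒪] Module.End 𝒪 ↥(LinearMap.range emb)) :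
      Module.End 𝒪 Z →ₐ[𝒪] Module.End 𝒪 ↥(LinearMap.range emb)).comp act, fun t y => rfl⟩
  have hact'coe : ∀ t (y : ↥(LinearMap.range emb)), ((act' t y : ↥(LinearMap.range emb)) :
      s48h_Hpar 𝒪 (s48h_GammaH N₀ (⊤ : Subgroup (ZMod N₀)ˣ)) 𝒪) = emb (act t (eqv.symm y)) := by
    intro t y
    rw [hact'def, heqv1]
  have hact' : ∀ t, ∃ P : MvPolynomial ↥(s59t_goodB N₀ B) 𝒪, ∀ y : ↥(LinearMap.range emb),
      ((act' t y : ↥(LinearMap.range emb)) :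
        s48h_Hpar 𝒪 (s48h_GammaH N₀ (⊤ : Subgroup (ZMod N₀)ˣ)) 𝒪) = s59t_polyAct ops hc P y := by
    intro t
    obtain ⟨P, hP⟩ := hact t
    refine ⟨P, fun y => ?_⟩
    rw [hact'coe, hP, heqv2, hE0]
  -- `res` maps the kernel module into `Y`
  have hBc : ∀ ℓ : ℕ, ℓ.Prime → ℓ ∣ N₀ → ¬ ℓ ∣ N' → ℓ ∈ B := fun ℓ hℓ h _ => hNB ℓ hℓ h
  have hanem := s59f_anemic_eq_E0 hN'N₀ (⊤ : Subgroup (ZMod N')ˣ) (⊤ : Subgroup (ZMod N₀)ˣ) hle' B a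
    (fun _ => (0 : 𝒪)) hBc e h1e hid hnil e₂ h1e₂ hid₂ hnil₂
  have hresY : ∀ z : ↥Zs, res (Zs.subtype z) ∈ LinearMap.range emb := by
    intro z
    obtain ⟨h1, hA, hB⟩ := (hmemZs _).mp z.2
    refine hrange _ ?_ ?_ ?_
    · rw [← s59t_actH_eq_E0 (⊤ : Subgroup (ZMod N₀)ˣ) B (fun _ => (0 : 𝒪)) e, hresdef]
      show _ = s59t_resGHpar hle' 𝒪 𝒪 (z : s48h_Hpar 𝒪 (s48h_GammaH N' (⊤ : Subgroup (ZMod N')ˣ)) 𝒪)
      have h2 := s59f_res_anemic hN'N₀ (⊤ : Subgroup (ZMod N')ˣ) (⊤ : Subgroup (ZMod N₀)ˣ) hle' B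
        (fun _ => (0 : 𝒪)) e (z : s48h_Hpar 𝒪 (s48h_GammaH N' (⊤ : Subgroup (ZMod N')ˣ)) 𝒪)
      rw [hanem, h1] at h2
      exact h2.symm
    · rw [hresdef]
      show (s59f_oldN hpL₀ hN₀' hG' 𝒪 𝒪 e₀ he' hee).corA (s59t_resGHpar hle' 𝒪 𝒪
        (z : s48h_Hpar 𝒪 (s48h_GammaH N' (⊤ : Subgroup (ZMod N')ˣ)) 𝒪)) = 0
      rw [← hhom.corA, hA, map_zero]
    · rw [hresdef]
      show (s59f_oldN hpL₀ hN₀' hG' 𝒪 𝒪 e₀ he' hee).corB (s59t_resGHpar hle' 𝒪 𝒪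
        (z : s48h_Hpar 𝒪 (s48h_GammaH N' (⊤ : Subgroup (ZMod N')ˣ)) 𝒪)) = 0
      rw [← hhom.corB, hB, map_zero]
  have hfrob : ∀ ℓ : ℕ, ℓ.Prime → ℓ ∉ B → ∀ P' : ValuationSubring Qbar, P'.LiesOverPrime ℓ →
      ∀ σ : GQ, P'.IsFrobeniusAt σ ℓ →
        LinearMap.charpoly (ρR.ρ σ) = X ^ 2 - C (tr ℓ) * X + C (ℓ : R) :=
    fun ℓ hℓ hℓB A hA σ hσ => hfrobR ℓ hℓ (fun h => hℓB (hNB ℓ hℓ h)) hℓB A hA σ hσ
  have hpt := s59pt_point_of_inj p hp2 N' 𝒪 hp𝒪 B hpB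
    (fun q hq hqN' => hNB q hq (dvd_trans hqN' hN'N₀))
    (Z := ↥Zs) Zs.subtype Zs.injective_subtype
    (fun j => (s59w_op (⊤ : Subgroup (ZMod N')ˣ) 𝒪 j).restrict (hstab j)) (fun j z => rfl)
    (LinearMap.range emb) ops hc
    (fun j : ↥(s59t_goodB N₀ B) => s59t_AIdx_down hN'N₀ (j : s59w_AIdx N₀)) res hresinj
    hint hresY R act' hact' ρR tr hfrob
    (by
      intro i' hi'
      -- an index of level `N₀` with the same prime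
      have hℓN : ¬ i'.ell ∣ N₀ := fun h => hi' (hNB _ i'.prime h)
      have hcop : Nat.Coprime i'.ell N₀ := (Nat.Prime.coprime_iff_not_dvd i'.prime).mpr hℓN
      obtain ⟨σ, hσ⟩ := s59w_exists_sig (ZMod.unitOfCoprime i'.ell hcop)
      have hσ11 : (((σ : SL(2, ℤ)) 1 1 : ℤ) : ZMod N₀) = (i'.ell : ZMod N₀) := by
        have h1 := congrArg (fun u : (ZMod N₀)ˣ => (u : ZMod N₀)) hσ
        simp only [s59w_lrUnit_coe, ZMod.coe_unitOfCoprime] at h1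
        exact h1
      refine ⟨⟨Sum.inl ⟨i'.ell, i'.prime, hℓN, σ, σ.2, hσ11⟩, ⟨_, rfl, hi'⟩⟩,
        s59t_TIdx_down hN'N₀ ⟨i'.ell, i'.prime, hℓN, σ, σ.2, hσ11⟩, rfl, rfl, fun y => ?_⟩
      rw [hact'coe, hacttr ⟨i'.ell, i'.prime, hℓN, σ, σ.2, hσ11⟩ hi', heqv2, hops])
  obtain ⟨𝒪', i1, i2, i3, i4, i5, i6, i7, i8, i9, x, -, hx⟩ := hpt
  exact ⟨𝒪', i1, i2, i3, i4, i5, i6, i7, i8, i9, x, hx⟩

end Fermat.Agent.Lib.S59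

end
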