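/-
PROGRAMME R2 = S59, case (P), the spectator fields, node [PT-P] (helper3, prefix `s59u_c2_`), file 4:
**THE BASE POINT OF THE SPECTATOR FIELDS IN CASE (P), FROM (E-conc-P) AND RESIDUAL MODULARITY OF THE LOWER LEVELS.**

`W` semistable, multiplicative at `p` (`p = 3` or `p ≥ 5`), `N₀` squarefree with `p ∣ N₀`, spectator `s ∣ N₀` (`s ≠ p`),
`L = N₀ / p / s` ODD, `2 ∈ B`, `ρ̄_W` modular of the levels `N₀ / s` and `L`.  If the base ring `R` has the concrete model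
(E-conc-P) on the `p`-kernel part of the level `N₀`, it has a characteristic zero point with Ramanujan–Petersson at every prime
`r ∤ N₀ / s`, `r ≠ p`.  (`s59u_c2_kerBase_up0` at `(N, q) = (L, 2)` + `s59u_c2_econcP_pt0`.)
-/
import Mathlib
import Fermat.Agent.Lib.S59.UC2PB
import Fermat.Agent.Lib.S59.UC2PC
import Fermat.Agent.Lib.S59.ELMin
import Fermat.Agent.Lib.S59.VMono
import Fermat.Agent.Lib.S59.E3Aux
import Fermat.Agent.Lib.S59.LFinW1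

set_option autoImplicit false
set_option linter.unusedSectionVars false
set_option linter.unusedVariables false
set_option linter.style.haveILetI false
set_option synthInstance.maxHeartbeats 400000
set_option maxHeartbeats 4000000

noncomputable section

namespace Fermat.Agent.Lib.S59

open Fermat.Agent.Lib.S29 Fermat.Agent.Lib.S30 Fermat.Agent.Lib.S48 Fermat.Agent.Lib.S41
  Fermat.Agent.Lib.S44 Fermat.Agent.Lib.S18
open IsLocalRing Polynomial CuspForm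
open CongruenceSubgroup
open scoped MatrixGroups

local notation "Qbar" => AlgebraicClosure ℚ
local notation "GQ" => (AlgebraicClosure ℚ ≃ₐ[ℚ] AlgebraicClosure ℚ)

/-- a prime divisor of a squarefree number does not divide the quotient. -/
theorem s59u_c2_not_dvd_div {N s : ℕ} (hsq : Squarefree N) (hs : s.Prime) (hsN : s ∣ N) :
    ¬ s ∣ N / s := by
  intro h
  have h1 : s * s ∣ N := by
    obtain ⟨c, hc⟩ := h
    refine ⟨c, ?_⟩
    have h2 := Nat.div_mul_cancel hsN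
    rw [hc] at h2
    rw [← h2]
    ring
  exact hs.one_lt.ne' (Nat.isUnit_iff.mp (hsq s h1))

/-- the arithmetic of the three levels `L = N₀ / p / s`, `N' = N₀ / s = L p`, `N₀ = N' s`. -/
theorem s59u_c2_levels {N₀ p s : ℕ} (hN0 : N₀ ≠ 0) (hsq : Squarefree N₀) (hp : p.Prime) (hs : s.Prime)
    (hsp : s ≠ p) (hpN₀ : p ∣ N₀) (hsN₀ : s ∣ N₀) :
    N₀ / p / s ≠ 0 ∧ N₀ / s ≠ 0 ∧ N₀ / s = N₀ / p / s * p ∧ N₀ = N₀ / s * s ∧ ¬ p ∣ N₀ / p / s ∧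
      N₀ / p = N₀ / p / s * s ∧ ¬ s ∣ N₀ / p / s := by
  have hcop : Nat.Coprime p s := (Nat.coprime_primes hp hs).mpr (Ne.symm hsp)
  have hps : p * s ∣ N₀ := Nat.Coprime.mul_dvd_of_dvd_of_dvd hcop hpN₀ hsN₀
  obtain ⟨L, rfl⟩ := hps
  have hL0 : L ≠ 0 := by
    rintro rfl
    exact hN0 (by ring)
  have e1 : p * s * L / p = s * L := by
    rw [mul_assoc]
    exact Nat.mul_div_cancel_left _ hp.pos
  have e2 : s * L / s = L := Nat.mul_div_cancel_left _ hs.pos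
  have e3 : p * s * L / s = p * L := by
    rw [mul_comm p s, mul_assoc]
    exact Nat.mul_div_cancel_left _ hs.pos
  rw [e1, e2, e3]
  refine ⟨hL0, ?_, by ring, by ring, ?_, by ring, ?_⟩
  · exact Nat.mul_ne_zero hp.ne_zero hL0
  · rintro ⟨c, rfl⟩
    have h1 : p * p ∣ p * s * (p * c) := ⟨s * c, by ring⟩
    exact hp.one_lt.ne' (Nat.isUnit_iff.mp (hsq p h1))
  · rintro ⟨c, rfl⟩
    have h1 : s * s ∣ p * s * (s * c) := ⟨p * c, by ring⟩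
    exact hs.one_lt.ne' (Nat.isUnit_iff.mp (hsq s h1))

variable (p : ℕ) [hpP : Fact p.Prime]

set_option maxHeartbeats 8000000 in
/-- **the base point of the spectator fields in case (P).** -/
theorem s59u_c2_pt_core (hp2 : p ≠ 2) (hp35 : p = 3 ∨ 5 ≤ p)
    (W : WeierstrassCurve ℤ) (hΔ : W.Δ ≠ 0) (hirr : W.ModRepIsIrreducible p)
    (hss : W.IsSemistableModel) (hbadp : (p : ℤ) ∣ W.Δ)
    (B : Finset ℕ) (hB2 : ∀ r : ℕ, r.Prime → ¬ W.IsGoodPrimeFor r → r ∈ B)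
    (𝒪 : Type) [CommRing 𝒪] [IsDomain 𝒪] [IsDiscreteValuationRing 𝒪]
    [IsAdicComplete (maximalIdeal 𝒪) 𝒪] [Finite (ResidueField 𝒪)] [CharZero 𝒪] [Algebra ℤ_[p] 𝒪]
    (hp𝒪 : ((p : ℕ) : 𝒪) ∈ maximalIdeal 𝒪)
    (habs : (s59i_rhobarW W p hΔ 𝒪 hp𝒪).IsAbsolutelyIrreducible)
    (N₀ : ℕ) [NeZero N₀] (hsq : Squarefree N₀) (hpN₀ : p ∣ N₀)
    (hNB : ∀ q : ℕ, q.Prime → q ∣ N₀ → q ∈ B) (h2B : 2 ∈ B)
    (s : ℕ) (hs : s.Prime) (hsp : s ≠ p) (hsN₀ : s ∣ N₀) (h2L : ¬ 2 ∣ N₀ / p / s)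
    (hold : W.IsResiduallyModularOfLevel p (N₀ / s))
    (hold' : W.IsResiduallyModularOfLevel p (N₀ / p / s))
    (R : Type) [CommRing R] [IsLocalRing R] [Algebra 𝒪 R] (ρR : GaloisRepAdic R)
    (hE : s59u_c2_EConcP 𝒪 p N₀ B (fun ℓ => W.apOfModel ℓ) R ρR) :
    ∃ (𝒪' : Type) (_ : CommRing 𝒪') (_ : IsDomain 𝒪') (_ : IsDiscreteValuationRing 𝒪')
      (_ : IsAdicComplete (maximalIdeal 𝒪') 𝒪') (_ : Finite (ResidueField 𝒪')) (_ : CharZero 𝒪')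
      (_ : Algebra 𝒪 𝒪') (_ : Module.Finite 𝒪 𝒪') (_ : IsLocalHom (algebraMap 𝒪 𝒪'))
      (x : R →ₐ[𝒪] 𝒪'),
      ∀ (r : ℕ), r.Prime → r ≠ p → ¬ r ∣ N₀ / s →
        ∀ (A : ValuationSubring Qbar), A.LiesOverPrime r → ∀ σ : GQ, A.IsFrobeniusAt σ r →
          x (s59i_cpTr ρR σ) * x (s59i_cpTr ρR σ) ≠ ((r : 𝒪') + 1) * ((r : 𝒪') + 1) := by
  classical
  have hpPr : p.Prime := hpP.out
  have hlv := s59u_c2_levels (NeZero.ne N₀) hsq hpPr hs hsp hpN₀ hsN₀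
  obtain ⟨hL0, hN'0, hN', hN₀, hpL, hLs, hsL⟩ := hlv
  haveI : NeZero (N₀ / p / s) := ⟨hL0⟩
  haveI : NeZero (N₀ / s) := ⟨hN'0⟩
  haveI : Fact (Nat.Prime 2) := ⟨Nat.prime_two⟩
  have hmult : ¬ W.IsGoodPrimeFor p := fun h => h hbadp
  have hpB : p ∈ B := hNB p hpPr hpN₀
  have hN'N₀ : N₀ / s ∣ N₀ := Nat.div_dvd_of_dvd hsN₀
  have hLN' : N₀ / p / s ∣ N₀ / s := ⟨p, hN'⟩
  have hLN₀ : N₀ / p / s ∣ N₀ := hLN'.trans hN'N₀
  have hNB' : ∀ q : ℕ, q.Prime → q ∣ N₀ / s → q ∈ B := fun q hq h => hNB q hq (h.trans hN'N₀)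
  have hNBL : ∀ q : ℕ, q.Prime → q ∣ N₀ / p / s → q ∈ B := fun q hq h => hNB q hq (h.trans hLN₀)
  have hsqN' : Squarefree (N₀ / s) := Squarefree.squarefree_of_dvd hN'N₀ hsq
  have hsqL : Squarefree (N₀ / p / s) := Squarefree.squarefree_of_dvd hLN₀ hsq
  have hL2Z : N₀ / p / s * 2 ≠ 0 := Nat.mul_ne_zero hL0 (by norm_num)
  haveI : NeZero (N₀ / p / s * 2) := ⟨hL2Z⟩
  have hcop2 : Nat.Coprime (N₀ / p / s) 2 :=
    (Nat.coprime_comm.mp ((Nat.Prime.coprime_iff_not_dvd Nat.prime_two).mpr h2L))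
  have hsqL2 : Squarefree (N₀ / p / s * 2) :=
    (Nat.squarefree_mul hcop2).mpr ⟨hsqL, Nat.prime_two.squarefree⟩
  have hp2' : ¬ p ∣ N₀ / p / s * 2 := by
    intro h
    rcases (Nat.Prime.dvd_mul hpPr).mp h with h | h
    · exact hpL h
    · exact hp2 ((Nat.prime_dvd_prime_iff_eq hpPr Nat.prime_two).mp h)
  have hgood' : s18_GoodLevel p (N₀ / p / s * 2) := by
    refine ⟨hp2', ?_⟩
    rcases hp35 with h3 | h5
    · exact Or.inr (Or.inl ⟨h3, Dvd.intro_left _ rfl⟩)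
    · exact Or.inl h5
  have hp12' : s59e_auxTors p (N₀ / p / s * 2) :=
    s59e3_auxTors_even hpPr hp2 (Dvd.intro_left _ rfl)
  -- the occurrences
  have hB1L : ∀ r : ℕ, r.Prime → r ∣ N₀ / p / s * p → r ∈ B := by
    intro r hr h
    rw [← hN'] at h
    exact hNB' r hr h
  have hocc₁ : s44i_LevelOcc (N₀ / p / s) p (fun ℓ => W.apOfModel ℓ) B :=
    s59e_Lmin_levelOcc W p (N₀ / p / s) B hB1L hB2 hold'
  have hB1N' : ∀ r : ℕ, r.Prime → r ∣ N₀ / s * p → r ∈ B := by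
    intro r hr h
    rcases (Nat.Prime.dvd_mul hr).mp h with h | h
    · exact hNB' r hr h
    · rw [(Nat.prime_dvd_prime_iff_eq hr hpPr).mp h]
      exact hpB
  have hocc₂ : s44i_LevelOcc (N₀ / s) p (fun ℓ => W.apOfModel ℓ) B :=
    s59e_Lmin_levelOcc W p (N₀ / s) B hB1N' hB2 hold
  have hBL2 : ∀ r : ℕ, r.Prime → r ∣ N₀ / p / s * 2 → r ∈ B := by
    intro r hr h
    rcases (Nat.Prime.dvd_mul hr).mp h with h | h
    · exact hNBL r hr h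
    · rw [(Nat.prime_dvd_prime_iff_eq hr Nat.prime_two).mp h]
      exact h2B
  have hocc' : s44i_LevelOcc (N₀ / p / s * 2) p (fun ℓ => W.apOfModel ℓ) B :=
    s59v_levelOcc_mono (Dvd.intro _ rfl) hsqL2 hBL2 hocc₁
  have hG₁ : s59f_IsG' (N₀ / p / s) p (⊤ : Subgroup (ZMod (N₀ / p / s))ˣ)
      (s48h_GammaH (N₀ / s) (⊤ : Subgroup (ZMod (N₀ / s))ˣ)) := s59u_c2_isG'_top hpL hN'
  refine s59u_c2_econcP_pt0 p hp2 hpL hN' hN₀ 𝒪 hp𝒪 B hpB hNB (fun ℓ => W.apOfModel ℓ) hG₁ ?_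
    R ρR hE
  intro e₀ he'b heeb
  have hk := s59u_c2_kerBase_up0 W hΔ p hp2 hirr hss hmult (N₀ / p / s) (N₀ / s) hN' hpL 2 h2L hp2
    hsqL2 hgood' B hpB h2B hNBL hB2 hocc₁ hocc₂ hocc' (𝒪 := 𝒪) hp𝒪 hp12' habs hG₁ e₀ he'b heeb
  obtain ⟨e₂, hB₂, z, hz, hze, hzA, hzB⟩ := hk
  unfold s59u_c2_BaseW0 at hB₂
  obtain ⟨h1e₂, hid₂, -, hnil₂⟩ := hB₂
  exact ⟨e₂, h1e₂, hid₂, hnil₂, z, hz, hze, hzA, hzB⟩

end Fermat.Agent.Lib.S59

end
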