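/-
PROGRAMME R2 = S59, case (P), the spectator fields, node [PT-P] (helper3, prefix `s59u_c2_`), file 5 (SCRIPTED from UWSpL.lean and
UC2D.lean by `gen_uc2pe.py`): **THE TWO SPECTATOR `T`-SIDE FINALS OF CASE (P) WITH THEIR BASE POINT, FROM THE EXTENDED FINAL
STATEMENTS `…X`** ((P)-twin of helper1's GPtFin.lean / helper8's `s59c3_TFinX`).

* `s59u_c2_w_TFinPtX p W hΔ s k₀` = `s59u_w_sp_TFinPt p W hΔ s k₀` (UWSpL.lean: EVEN levels) with ALL binders verbatim and the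
  base-point conjunct replaced by the two exports
    (E2)       `∀ a : Bs.R 0, (∀ mm : Bs.M 0, a • mm = 0) → a = 0`,
    (E-conc-P) `s59u_c2_EConcP 𝒪 p (N 0) B a_W (Bs.R 0) (Bs.ρR 0)` (UC2PA.lean);
* `s59u_c2_TFinPtX p W hΔ s k₀` = the same for `s59u_c2_TFinPt p W hΔ s k₀` (UC2D.lean: ODD base level, first raising prime `2`);
* **`s59u_c2_w_TFinPt_of_X : s59u_c2_w_TFinPtX p W hΔ 2 0 → s59u_w_sp_TFinPt p W hΔ 2 0`** (the field `HF0` of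
  `s59u_c2_LIFTThreeC1P_of'` / `s59u_c2_LIFTThreeC2P_of'`, UC2F.lean);
* **`s59u_c2_TFinPt_of_X : s59u_c2_TFinPtX p W hΔ s 0 → s59u_c2_TFinPt p W hΔ s 0`** (the field `HF2`).
The base point is `s`-old and `p`-new: `s59u_c2_pt_core` (UC2PD.lean).
-/
import Mathlib
import Fermat.Agent.Lib.S59.UC2PD
import Fermat.Agent.Lib.S59.UWSpL
import Fermat.Agent.Lib.S59.UC2D

set_option autoImplicit false
set_option linter.unusedSectionVars false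
set_option linter.unusedVariables false
set_option linter.style.haveILetI false
set_option synthInstance.maxHeartbeats 400000
set_option maxHeartbeats 4000000

noncomputable section

namespace Fermat.Agent.Lib.S59

open IsLocalRing Polynomial CuspForm ExtCitation
open Fermat.Agent.Lib.S53 (NormData exists_normData)
open Fermat.Agent.Lib.S56 Fermat.Agent.Lib.S44

local notation "Γℚ" => (AlgebraicClosure ℚ ≃ₐ[ℚ] AlgebraicClosure ℚ)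

/-- **the extended final STRICT `T`-side statement with one spectator, EVEN levels** (`s59u_w_sp_TFinPt` with the base-point conjunct
replaced by the exports (E2) and (E-conc-P)). -/
def s59u_c2_w_TFinPtX (p : ℕ) [Fact p.Prime] (W : WeierstrassCurve ℤ) (hΔ : W.Δ ≠ 0) (s k₀ : ℕ) : Prop :=
  ∀ (hp2 : p ≠ 2) (B : Finset ℕ) (hp35 : p = 3 ∨ p = 5) (hss : W.IsSemistableModel)
    (hirr : W.ModRepIsIrreducible p)
    (hbadp : (p : ℤ) ∣ W.Δ) (hc4p : ¬ (p : ℤ) ∣ W.c₄)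
    (hpeu : (W.map (Int.castRingHom ℚ)).IsPeuRamifieeAt p p)
    (hB2 : ∀ r : ℕ, r.Prime → ¬ W.IsGoodPrimeFor r → r ∈ B)
    (𝒪 : Type) [CommRing 𝒪] [IsDomain 𝒪] [IsDiscreteValuationRing 𝒪]
    [IsAdicComplete (maximalIdeal 𝒪) 𝒪] [Finite (ResidueField 𝒪)] [CharZero 𝒪]
    [Algebra ℤ_[p] 𝒪] [Module.Finite ℤ_[p] 𝒪]
    (hp𝒪 : ((p : ℕ) : 𝒪) ∈ maximalIdeal 𝒪)
    (hsplitℤ : ∀ a b : ℤ, ∃ α β : ResidueField 𝒪,
      α + β = (a : ResidueField 𝒪) ∧ α * β = (b : ResidueField 𝒪))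
    (habs : (s59i_rhobarW W p hΔ 𝒪 hp𝒪).IsAbsolutelyIrreducible)
    (Nd : NormData (s59i_rhobarW W p hΔ 𝒪 hp𝒪))
    -- the chain of levels
    (k : ℕ) (N : ℕ → ℕ) (qr : ℕ → ℕ) (hNZ : ∀ t, NeZero (N t))
    (hqr : ∀ t, t < k → (qr t).Prime)
    (hN : ∀ t, t < k → N (t + 1) = N t * qr t)
    (hfreeze : ∀ t, k ≤ t → N t = N k)
    (hsq : ∀ t, Squarefree (N t)) (hpN : ∀ t, p ∣ N t)
    (hB1 : ∀ t, ∀ r : ℕ, r.Prime → r ∣ N t * p → r ∈ B)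
    (hocc : ∀ t, Fermat.Agent.Lib.S44.s44i_LevelOcc (N t) p (fun ℓ => W.apOfModel ℓ) B)
    (h23 : ∀ t, 2 ∣ N t)
    -- residual modularity at the base level
    (hres0 : W.IsResiduallyModularOfLevel p (N 0))
    (hres0' : W.IsResiduallyModularOfLevel p (N 0 / p))
    -- Frobenius and inertia elements at the raising primes
    (φr σr : ℕ → Γℚ)
    (hφr : ∀ t, t < k → ∃ A : ValuationSubring (AlgebraicClosure ℚ),
      A.LiesOverPrime (qr t) ∧ A.IsFrobeniusAt (φr t) (qr t))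
    (hσr : ∀ t, t < k → ∃ A : ValuationSubring (AlgebraicClosure ℚ),
      A.LiesOverPrime (qr t) ∧ σr t ∈ A.inertiaSubgroupIn ℚ)
    -- the raising primes: `W` bad, `ρ̄` unramified, `ρ_W ⊗ 𝒪` ramified
    (hqrW : ∀ t, t < k → qr t ≠ p ∧ ¬ qr t ∣ N 0 ∧ ¬ W.IsGoodPrimeFor (qr t) ∧
      (s59i_rhobarW W p hΔ 𝒪 hp𝒪).IsUnramifiedAt (qr t) ∧
      ¬ (s59q_WRho W hΔ hp𝒪).IsUnramifiedAt (qr t))
    -- the deformation types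
    (Sg0 Su Smin Sgm : Finset ℕ) (hpSgm : p ∈ Sgm) (hSgm0 : Sgm ⊆ Sg0) (hSminSgm : Smin ⊆ Sgm)
    (hmin : ∀ q : ℕ, q.Prime → q ≠ p →
      (q ∈ Smin ↔ ¬ (s59i_rhobarW W p hΔ 𝒪 hp𝒪).IsUnramifiedAt q))
    (hSuB : Su ⊆ B)
    (hSgN : ∀ t, ∀ q : ℕ, q.Prime → q ∣ N t →
      q ∈ Sg0 ∨ s59e3q_E2Alt p (s59i_rhobarW W p hΔ 𝒪 hp𝒪) q)
    (hSgmN : ∀ q : ℕ, q.Prime → q ∣ N 0 →
      q ∈ Sgm ∨ s59e3q_E2Alt p (s59i_rhobarW W p hΔ 𝒪 hp𝒪) q)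
    (hqrSgm : ∀ t, t < k → qr t ∉ Sgm)
    -- the shape of the types: `Sgm ⊆ Σ_min ∪ {s}`, `Sg0 ⊆ Sgm ∪ {raising primes}`, `Su ⊇ Σ_min ∪ {raising primes}`
    (hSgmS : ∀ q ∈ Sgm, q ∈ Smin ∨ q = s)
    (hSg0qr : ∀ q ∈ Sg0, q ∈ Sgm ∨ ∃ t, t < k ∧ q = qr t)
    (hqrSu : ∀ t, t < k → qr t ∈ Su)
    (hWSminSu : s59q_WSmin W hΔ hp𝒪 ⊆ Su)
    -- the spectator
    (hs : s.Prime) (hsp : s ≠ p) (hsN : s ∣ N 0)
    (hold : W.IsResiduallyModularOfLevel p (N 0 / s))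
    (hold' : W.IsResiduallyModularOfLevel p (N 0 / p / s))
    (hsSgm : s ∈ Sgm) (hsSu : s ∈ Su)
    (hsU : (s59i_rhobarW W p hΔ 𝒪 hp𝒪).IsUnramifiedAt s)
    (φs σs : Γℚ)
    (hφs : ∃ A : ValuationSubring (AlgebraicClosure ℚ), A.LiesOverPrime s ∧ A.IsFrobeniusAt φs s)
    (hσs : ∃ A : ValuationSubring (AlgebraicClosure ℚ),
      A.LiesOverPrime s ∧ σs ∈ A.inertiaSubgroupIn ℚ)
    (εs : 𝒪) (hεs : εs = 1 ∨ εs = -1)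
    (hscp : LinearMap.charpoly ((s59i_rhobarW W p hΔ 𝒪 hp𝒪).ρ φs) =
      (X - C (residue 𝒪 (εs * ((s : ℕ) : 𝒪)))) * (X - C (residue 𝒪 εs)))
    (hk0 : k₀ = 0 → (s59q_WRho W hΔ hp𝒪).IsUnramifiedAt s)
    (hk1 : k₀ = 1 → ¬ (s59q_WRho W hΔ hp𝒪).IsUnramifiedAt s ∧
      s59i_cpTr (s59q_WRho W hΔ hp𝒪) φs = εs * (((s : ℕ) : 𝒪) + 1))
    -- the spectator at the standard place: `φs` a Frobenius, `σs` a TAME GENERATOR
    (hφsP : (primeLocalPlace ⟨s, hs⟩).IsFrobeniusAt φs s)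
    (hσsT : s59q_IsTameGen s (primeLocalPlace ⟨s, hs⟩) σs)
    (D0 : GaloisRep.DeformationRingData 𝒪 (s59i_rhobarW W p hΔ 𝒪 hp𝒪) (fun _A _ _ _ ρ =>
      GaloisRep.strictOrdinaryCondition 𝒪 p Sg0 ρ ∧
        ∀ q ∈ Su, q.Prime → q ≠ p → ρ.IsUnipotentOnInertiaAt q))
    (Dm : GaloisRep.DeformationRingData 𝒪 (s59i_rhobarW W p hΔ 𝒪 hp𝒪) (fun _A _ _ _ ρ =>
      GaloisRep.strictOrdinaryCondition 𝒪 p Sgm ρ ∧
        ∀ q ∈ Su, q.Prime → q ≠ p → ρ.IsUnipotentOnInertiaAt q))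
    (σ : Type) [DecidableEq σ] [Fintype σ],
    ∃ Bs : s59f_TBaseF 𝒪 k D0,
      s59e_HkFrobP (N k) (↑B : Set ℕ) (Bs.R k) (Bs.ρR k) ∧
      -- (E2): the base ring acts faithfully on the base module
      (∀ a : Bs.R 0, (∀ mm : Bs.M 0, a • mm = 0) → a = 0) ∧
      -- (E-conc-P): the concrete model of the base ring on the `p`-kernel part of the level `N 0`
      s59u_c2_EConcP 𝒪 p (N 0) B (fun ℓ => W.apOfModel ℓ) (Bs.R 0) (Bs.ρR 0) ∧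
      ∀ (r : ℕ) (n : ℕ) (qv : Fin r → ℕ), Function.Injective qv →
        (∀ i, (qv i).Prime ∧ qv i ∉ B ∧ p ^ (n + 1) ∣ qv i - 1) →
        (∀ i, ∀ A : ValuationSubring (AlgebraicClosure ℚ), A.LiesOverPrime (qv i) →
          ∀ φ : Γℚ, A.IsFrobeniusAt φ (qv i) →
            ∃ α β : ResidueField 𝒪, α ≠ β ∧
              LinearMap.charpoly ((s59i_rhobarW W p hΔ 𝒪 hp𝒪).ρ φ) = (X - C α) * (X - C β)) →
        ∀ (DQ : GaloisRep.DeformationRingData 𝒪 (s59i_rhobarW W p hΔ 𝒪 hp𝒪) (fun _A _ _ _ ρ =>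
          GaloisRep.strictOrdinaryCondition 𝒪 p (Sg0 ∪ Finset.univ.image qv) ρ ∧
            ∀ q ∈ Su, q.Prime → q ≠ p → ρ.IsUnipotentOnInertiaAt q))
          (Dsf : GaloisRep.DeformationRingData 𝒪 (s59i_rhobarW W p hΔ 𝒪 hp𝒪)
            (s59q_SfType 𝒪 p (Sg0 ∪ Finset.univ.image qv) Su))
          (κsf : DQ.R →ₐ[𝒪] Dsf.R), Function.Surjective κsf →
          (∀ g, κsf (s59i_cpTr DQ.ρ g) = s59i_cpTr Dsf.ρ g) →
          Nonempty (s59b_TLevelFW 𝒪 p n r σ k Bs qv qr φr σr DQ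
            (↑(RingHom.ker (κsf : DQ.R →+* Dsf.R)) : Set DQ.R))

/-- **the extended final STRICT `T`-side statement of plan [C2P], ODD base level, first raising prime `2`** (`s59u_c2_TFinPt` with the
base-point conjunct replaced by the exports (E2) and (E-conc-P)). -/
def s59u_c2_TFinPtX (p : ℕ) [Fact p.Prime] (W : WeierstrassCurve ℤ) (hΔ : W.Δ ≠ 0) (s k₀ : ℕ) : Prop :=
  ∀ (hp2 : p ≠ 2) (B : Finset ℕ) (hp35 : p = 3 ∨ p = 5) (hss : W.IsSemistableModel)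
    (hirr : W.ModRepIsIrreducible p)
    (hbadp : (p : ℤ) ∣ W.Δ) (hc4p : ¬ (p : ℤ) ∣ W.c₄)
    (hpeu : (W.map (Int.castRingHom ℚ)).IsPeuRamifieeAt p p)
    (hB2 : ∀ r : ℕ, r.Prime → ¬ W.IsGoodPrimeFor r → r ∈ B)
    (𝒪 : Type) [CommRing 𝒪] [IsDomain 𝒪] [IsDiscreteValuationRing 𝒪]
    [IsAdicComplete (maximalIdeal 𝒪) 𝒪] [Finite (ResidueField 𝒪)] [CharZero 𝒪]
    [Algebra ℤ_[p] 𝒪] [Module.Finite ℤ_[p] 𝒪]
    (hp𝒪 : ((p : ℕ) : 𝒪) ∈ maximalIdeal 𝒪)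
    (hsplitℤ : ∀ a b : ℤ, ∃ α β : ResidueField 𝒪,
      α + β = (a : ResidueField 𝒪) ∧ α * β = (b : ResidueField 𝒪))
    (habs : (s59i_rhobarW W p hΔ 𝒪 hp𝒪).IsAbsolutelyIrreducible)
    (Nd : NormData (s59i_rhobarW W p hΔ 𝒪 hp𝒪))
    -- the chain of levels
    (k : ℕ) (N : ℕ → ℕ) (qr : ℕ → ℕ) (hNZ : ∀ t, NeZero (N t))
    (hqr : ∀ t, t < k → (qr t).Prime)
    (hN : ∀ t, t < k → N (t + 1) = N t * qr t)
    (hfreeze : ∀ t, k ≤ t → N t = N k)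
    (hsq : ∀ t, Squarefree (N t)) (hpN : ∀ t, p ∣ N t)
    (hB1 : ∀ t, ∀ r : ℕ, r.Prime → r ∣ N t * p → r ∈ B)
    (hocc : ∀ t, Fermat.Agent.Lib.S44.s44i_LevelOcc (N t) p (fun ℓ => W.apOfModel ℓ) B)
    (h23 : ¬ 2 ∣ N 0 ∧ 0 < k ∧ qr 0 = 2)
    -- residual modularity at the base level
    (hres0 : W.IsResiduallyModularOfLevel p (N 0))
    (hres0' : W.IsResiduallyModularOfLevel p (N 0 / p))
    -- Frobenius and inertia elements at the raising primes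
    (φr σr : ℕ → Γℚ)
    (hφr : ∀ t, t < k → ∃ A : ValuationSubring (AlgebraicClosure ℚ),
      A.LiesOverPrime (qr t) ∧ A.IsFrobeniusAt (φr t) (qr t))
    (hσr : ∀ t, t < k → ∃ A : ValuationSubring (AlgebraicClosure ℚ),
      A.LiesOverPrime (qr t) ∧ σr t ∈ A.inertiaSubgroupIn ℚ)
    -- the raising primes: `W` bad, `ρ̄` unramified, `ρ_W ⊗ 𝒪` ramified
    (hqrW : ∀ t, t < k → qr t ≠ p ∧ ¬ qr t ∣ N 0 ∧ ¬ W.IsGoodPrimeFor (qr t) ∧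
      (s59i_rhobarW W p hΔ 𝒪 hp𝒪).IsUnramifiedAt (qr t) ∧
      ¬ (s59q_WRho W hΔ hp𝒪).IsUnramifiedAt (qr t))
    -- the deformation types
    (Sg0 Su Smin Sgm : Finset ℕ) (hpSgm : p ∈ Sgm) (hSgm0 : Sgm ⊆ Sg0) (hSminSgm : Smin ⊆ Sgm)
    (hmin : ∀ q : ℕ, q.Prime → q ≠ p →
      (q ∈ Smin ↔ ¬ (s59i_rhobarW W p hΔ 𝒪 hp𝒪).IsUnramifiedAt q))
    (hSuB : Su ⊆ B)
    (hSgN : ∀ t, ∀ q : ℕ, q.Prime → q ∣ N t →
      q ∈ Sg0 ∨ s59e3q_E2Alt p (s59i_rhobarW W p hΔ 𝒪 hp𝒪) q)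
    (hSgmN : ∀ q : ℕ, q.Prime → q ∣ N 0 →
      q ∈ Sgm ∨ s59e3q_E2Alt p (s59i_rhobarW W p hΔ 𝒪 hp𝒪) q)
    (hqrSgm : ∀ t, t < k → qr t ∉ Sgm)
    -- the shape of the types: `Sgm ⊆ Σ_min ∪ {s}`, `Sg0 ⊆ Sgm ∪ {raising primes}`, `Su ⊇ Σ_min ∪ {raising primes}`
    (hSgmS : ∀ q ∈ Sgm, q ∈ Smin ∨ q = s)
    (hSg0qr : ∀ q ∈ Sg0, q ∈ Sgm ∨ ∃ t, t < k ∧ q = qr t)
    (hqrSu : ∀ t, t < k → qr t ∈ Su)
    (hWSminSu : s59q_WSmin W hΔ hp𝒪 ⊆ Su)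
    -- the spectator
    (hs : s.Prime) (hsp : s ≠ p) (hsN : s ∣ N 0) (hstors : p = 3 → s % 3 = 2)
    (hold : W.IsResiduallyModularOfLevel p (N 0 / s))
    (hold' : W.IsResiduallyModularOfLevel p (N 0 / p / s))
    (hsSgm : s ∈ Sgm) (hsSu : s ∈ Su)
    (hsU : (s59i_rhobarW W p hΔ 𝒪 hp𝒪).IsUnramifiedAt s)
    (φs σs : Γℚ)
    (hφs : ∃ A : ValuationSubring (AlgebraicClosure ℚ), A.LiesOverPrime s ∧ A.IsFrobeniusAt φs s)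
    (hσs : ∃ A : ValuationSubring (AlgebraicClosure ℚ),
      A.LiesOverPrime s ∧ σs ∈ A.inertiaSubgroupIn ℚ)
    (εs : 𝒪) (hεs : εs = 1 ∨ εs = -1)
    (hscp : LinearMap.charpoly ((s59i_rhobarW W p hΔ 𝒪 hp𝒪).ρ φs) =
      (X - C (residue 𝒪 (εs * ((s : ℕ) : 𝒪)))) * (X - C (residue 𝒪 εs)))
    (hk0 : k₀ = 0 → (s59q_WRho W hΔ hp𝒪).IsUnramifiedAt s)
    (hk1 : k₀ = 1 → ¬ (s59q_WRho W hΔ hp𝒪).IsUnramifiedAt s ∧
      s59i_cpTr (s59q_WRho W hΔ hp𝒪) φs = εs * (((s : ℕ) : 𝒪) + 1))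
    -- the spectator at the standard place: `φs` a Frobenius, `σs` a TAME GENERATOR
    (hφsP : (primeLocalPlace ⟨s, hs⟩).IsFrobeniusAt φs s)
    (hσsT : s59q_IsTameGen s (primeLocalPlace ⟨s, hs⟩) σs)
    (D0 : GaloisRep.DeformationRingData 𝒪 (s59i_rhobarW W p hΔ 𝒪 hp𝒪) (fun _A _ _ _ ρ =>
      GaloisRep.strictOrdinaryCondition 𝒪 p Sg0 ρ ∧
        ∀ q ∈ Su, q.Prime → q ≠ p → ρ.IsUnipotentOnInertiaAt q))
    (Dm : GaloisRep.DeformationRingData 𝒪 (s59i_rhobarW W p hΔ 𝒪 hp𝒪) (fun _A _ _ _ ρ =>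
      GaloisRep.strictOrdinaryCondition 𝒪 p Sgm ρ ∧
        ∀ q ∈ Su, q.Prime → q ≠ p → ρ.IsUnipotentOnInertiaAt q))
    (σ : Type) [DecidableEq σ] [Fintype σ],
    ∃ Bs : s59f_TBaseF 𝒪 k D0,
      s59e_HkFrobP (N k) (↑B : Set ℕ) (Bs.R k) (Bs.ρR k) ∧
      -- (E2): the base ring acts faithfully on the base module
      (∀ a : Bs.R 0, (∀ mm : Bs.M 0, a • mm = 0) → a = 0) ∧
      -- (E-conc-P): the concrete model of the base ring on the `p`-kernel part of the level `N 0`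
      s59u_c2_EConcP 𝒪 p (N 0) B (fun ℓ => W.apOfModel ℓ) (Bs.R 0) (Bs.ρR 0) ∧
      ∀ (r : ℕ) (n : ℕ) (qv : Fin r → ℕ), Function.Injective qv →
        (∀ i, (qv i).Prime ∧ qv i ∉ B ∧ p ^ (n + 1) ∣ qv i - 1) →
        (∀ i, ∀ A : ValuationSubring (AlgebraicClosure ℚ), A.LiesOverPrime (qv i) →
          ∀ φ : Γℚ, A.IsFrobeniusAt φ (qv i) →
            ∃ α β : ResidueField 𝒪, α ≠ β ∧
              LinearMap.charpoly ((s59i_rhobarW W p hΔ 𝒪 hp𝒪).ρ φ) = (X - C α) * (X - C β)) →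
        ∀ (DQ : GaloisRep.DeformationRingData 𝒪 (s59i_rhobarW W p hΔ 𝒪 hp𝒪) (fun _A _ _ _ ρ =>
          GaloisRep.strictOrdinaryCondition 𝒪 p (Sg0 ∪ Finset.univ.image qv) ρ ∧
            ∀ q ∈ Su, q.Prime → q ≠ p → ρ.IsUnipotentOnInertiaAt q))
          (Dsf : GaloisRep.DeformationRingData 𝒪 (s59i_rhobarW W p hΔ 𝒪 hp𝒪)
            (s59q_SfType 𝒪 p (Sg0 ∪ Finset.univ.image qv) Su))
          (κsf : DQ.R →ₐ[𝒪] Dsf.R), Function.Surjective κsf →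
          (∀ g, κsf (s59i_cpTr DQ.ρ g) = s59i_cpTr Dsf.ρ g) →
          Nonempty (s59b_TLevelFW 𝒪 p n r σ k Bs qv qr φr σr DQ
            (↑(RingHom.ker (κsf : DQ.R →+* Dsf.R)) : Set DQ.R))

variable (p : ℕ) [hpP : Fact p.Prime]

/-- **the spectator final of case (P) with the `2`-OLD, `p`-NEW base point, EVEN levels** (`s = 2`, `k₀ = 0`). -/
theorem s59u_c2_w_TFinPt_of_X (W : WeierstrassCurve ℤ) (hΔ : W.Δ ≠ 0)
    (HX : s59u_c2_w_TFinPtX p W hΔ 2 0) : s59u_w_sp_TFinPt p W hΔ 2 0 := by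
  classical
  intro hp2 B hp35 hss hirr hbadp hc4p hpeu hB2 𝒪 _ _ _ _ _ _ _ _ hp𝒪 hsplitℤ habs Nd k N qr hNZ hqr hN hfreeze hsq
    hpN hB1 hocc h23 hres0 hres0' φr σr hφr hσr hqrW Sg0 Su Smin Sgm hpSgm hSgm0 hSminSgm hmin hSuB hSgN
    hSgmN hqrSgm hSgmS hSg0qr hqrSu hWSminSu hs hsp hsN hold hold' hsSgm hsSu hsU φs σs hφs hσs εs hεs
    hscp hk0 hk1 hφsP hσsT D0 Dm σ _ _
  have HX' := HX hp2 B hp35 hss hirr hbadp hc4p hpeu hB2 𝒪 hp𝒪 hsplitℤ habs Nd k N qr hNZ hqr hN hfreeze hsq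
    hpN hB1 hocc h23 hres0 hres0' φr σr hφr hσr hqrW Sg0 Su Smin Sgm hpSgm hSgm0 hSminSgm hmin hSuB hSgN
    hSgmN hqrSgm hSgmS hSg0qr hqrSu hWSminSu hs hsp hsN hold hold' hsSgm hsSu hsU φs σs hφs hσs εs hεs
    hscp hk0 hk1 hφsP hσsT D0 Dm σ
  obtain ⟨Bs, h1, hE2, hEc, hTW⟩ := HX'
  refine ⟨Bs, h1, ?_, hTW⟩
  haveI := hNZ 0
  have hpPr : p.Prime := hpP.out
  have hNB : ∀ q : ℕ, q.Prime → q ∣ N 0 → q ∈ B := fun q hq h =>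
    hB1 0 q hq (Dvd.dvd.mul_right h p)
  have hp35' : p = 3 ∨ 5 ≤ p := by
    rcases hp35 with h | h
    · exact Or.inl h
    · exact Or.inr (by omega)
  have hLdvd : N 0 / p / 2 ∣ N 0 :=
    (Nat.div_dvd_of_dvd (Nat.dvd_div_of_mul_dvd (Nat.Coprime.mul_dvd_of_dvd_of_dvd
      ((Nat.coprime_primes hpPr hs).mpr (Ne.symm hsp)) (hpN 0) hsN))).trans
      (Nat.div_dvd_of_dvd (hpN 0))
  have hlv := s59u_c2_levels (NeZero.ne (N 0)) (hsq 0) hpPr hs hsp (hpN 0) hsN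
  have h2L : ¬ 2 ∣ N 0 / p / 2 := hlv.2.2.2.2.2.2
  have h2B : 2 ∈ B := hNB 2 Nat.prime_two hsN
  have hpt := s59u_c2_pt_core p hp2 hp35' W hΔ hirr hss hbadp B hB2 𝒪 hp𝒪 habs (N 0) (hsq 0) (hpN 0)
    hNB h2B 2 hs hsp hsN h2L hold hold' (Bs.R 0) (Bs.ρR 0) hEc
  obtain ⟨𝒪', i1, i2, i3, i4, i5, i6, i7, i8, i9, x, hx⟩ := hpt
  refine ⟨𝒪', inferInstance, inferInstance,
    (x : Bs.R 0 →+* 𝒪').comp (Bs.ν 0 : D0.R →+* Bs.R 0), ?_, ?_, ?_, ?_, ?_⟩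
  · intro a ha
    show x (Bs.ν 0 a) = 0
    rw [hE2 _ ha, map_zero]
  · intro t ht
    obtain ⟨A, hA1, hA2⟩ := hφr t ht
    show x (Bs.ν 0 (s59i_cpTr D0.ρ (φr t))) * x (Bs.ν 0 (s59i_cpTr D0.ρ (φr t))) ≠ _
    rw [Bs.hν]
    exact hx (qr t) (hqr t ht) (hqrW t ht).1
      (fun h => (hqrW t ht).2.1 (h.trans (Nat.div_dvd_of_dvd hsN))) A hA1 (φr t) hA2
  · intro _
    obtain ⟨A, hA1, hA2⟩ := hφs
    show x (Bs.ν 0 (s59i_cpTr D0.ρ φs)) * x (Bs.ν 0 (s59i_cpTr D0.ρ φs)) ≠ _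
    rw [Bs.hν]
    exact hx 2 hs hsp (s59u_c2_not_dvd_div (hsq 0) hs hsN) A hA1 φs hA2
  · intro h
    exact absurd h (by norm_num)
  · intro h
    exact absurd h (by norm_num)

/-- **the spectator final of plan [C2P] with the `s`-OLD, `p`-NEW base point, ODD base level** (`k₀ = 0`). -/
theorem s59u_c2_TFinPt_of_X (W : WeierstrassCurve ℤ) (hΔ : W.Δ ≠ 0) (s : ℕ)
    (HX : s59u_c2_TFinPtX p W hΔ s 0) : s59u_c2_TFinPt p W hΔ s 0 := by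
  classical
  intro hp2 B hp35 hss hirr hbadp hc4p hpeu hB2 𝒪 _ _ _ _ _ _ _ _ hp𝒪 hsplitℤ habs Nd k N qr hNZ hqr hN hfreeze hsq
    hpN hB1 hocc h23 hres0 hres0' φr σr hφr hσr hqrW Sg0 Su Smin Sgm hpSgm hSgm0 hSminSgm hmin hSuB hSgN
    hSgmN hqrSgm hSgmS hSg0qr hqrSu hWSminSu hs hsp hsN hstors hold hold' hsSgm hsSu hsU φs σs hφs hσs εs hεs
    hscp hk0 hk1 hφsP hσsT D0 Dm σ _ _
  have HX' := HX hp2 B hp35 hss hirr hbadp hc4p hpeu hB2 𝒪 hp𝒪 hsplitℤ habs Nd k N qr hNZ hqr hN hfreeze hsq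
    hpN hB1 hocc h23 hres0 hres0' φr σr hφr hσr hqrW Sg0 Su Smin Sgm hpSgm hSgm0 hSminSgm hmin hSuB hSgN
    hSgmN hqrSgm hSgmS hSg0qr hqrSu hWSminSu hs hsp hsN hstors hold hold' hsSgm hsSu hsU φs σs hφs hσs εs hεs
    hscp hk0 hk1 hφsP hσsT D0 Dm σ
  obtain ⟨Bs, h1, hE2, hEc, hTW⟩ := HX'
  refine ⟨Bs, h1, ?_, hTW⟩
  haveI := hNZ 0
  have hpPr : p.Prime := hpP.out
  have hNB : ∀ q : ℕ, q.Prime → q ∣ N 0 → q ∈ B := fun q hq h =>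
    hB1 0 q hq (Dvd.dvd.mul_right h p)
  have hp35' : p = 3 ∨ 5 ≤ p := by
    rcases hp35 with h | h
    · exact Or.inl h
    · exact Or.inr (by omega)
  have hLdvd : N 0 / p / s ∣ N 0 :=
    (Nat.div_dvd_of_dvd (Nat.dvd_div_of_mul_dvd (Nat.Coprime.mul_dvd_of_dvd_of_dvd
      ((Nat.coprime_primes hpPr hs).mpr (Ne.symm hsp)) (hpN 0) hsN))).trans
      (Nat.div_dvd_of_dvd (hpN 0))
  have h2L : ¬ 2 ∣ N 0 / p / s := fun h => h23.1 (h.trans hLdvd)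
  have h2B : 2 ∈ B := by
    have h1 := hN 0 h23.2.1
    rw [h23.2.2, Nat.zero_add] at h1
    exact hB1 1 2 Nat.prime_two (Dvd.dvd.mul_right (h1 ▸ Dvd.intro_left _ rfl) p)
  have hpt := s59u_c2_pt_core p hp2 hp35' W hΔ hirr hss hbadp B hB2 𝒪 hp𝒪 habs (N 0) (hsq 0) (hpN 0)
    hNB h2B s hs hsp hsN h2L hold hold' (Bs.R 0) (Bs.ρR 0) hEc
  obtain ⟨𝒪', i1, i2, i3, i4, i5, i6, i7, i8, i9, x, hx⟩ := hpt
  refine ⟨𝒪', inferInstance, inferInstance,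
    (x : Bs.R 0 →+* 𝒪').comp (Bs.ν 0 : D0.R →+* Bs.R 0), ?_, ?_, ?_, ?_, ?_⟩
  · intro a ha
    show x (Bs.ν 0 a) = 0
    rw [hE2 _ ha, map_zero]
  · intro t ht
    obtain ⟨A, hA1, hA2⟩ := hφr t ht
    show x (Bs.ν 0 (s59i_cpTr D0.ρ (φr t))) * x (Bs.ν 0 (s59i_cpTr D0.ρ (φr t))) ≠ _
    rw [Bs.hν]
    exact hx (qr t) (hqr t ht) (hqrW t ht).1
      (fun h => (hqrW t ht).2.1 (h.trans (Nat.div_dvd_of_dvd hsN))) A hA1 (φr t) hA2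
  · intro _
    obtain ⟨A, hA1, hA2⟩ := hφs
    show x (Bs.ν 0 (s59i_cpTr D0.ρ φs)) * x (Bs.ν 0 (s59i_cpTr D0.ρ φs)) ≠ _
    rw [Bs.hν]
    exact hx s hs hsp (s59u_c2_not_dvd_div (hsq 0) hs hsN) A hA1 φs hA2
  · intro h
    exact absurd h (by norm_num)
  · intro h
    exact absurd h (by norm_num)

end Fermat.Agent.Lib.S59

end
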