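/-
PROGRAMME R2 = S59, case (P), the field `liftABp` (`s59g_LIFTThreeP`), node [W5]-top (helper3, prefix `s59u_p_`), file 1
(SCRIPTED from UC2PE.lean by `gen_up3a.py`): **THE MASTER FINAL STRICT `T`-SIDE STATEMENT OF CASE (P) AT EVEN LEVELS, WITHOUT
SPECTATOR** — `s59u_p_TFinX p W hΔ` = `s59u_c2_w_TFinPtX p W hΔ s k₀` (UC2PE.lean) MINUS the spectator block (`hs … hσsT`) and MINUS
`hSgmS`; same conclusion (`Bs`, Hecke map of the top level, (E2), (E-conc-P), the weak Taylor–Wiles records).  It is the (P)-twin of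
helper8's `s59c3_TFinX` (flat) and of helper6's `s59q_sf3_TFin` (très): `W` multiplicative at `p`, `ρ̄_W` PEU ramifié at `p`, `p`
divides every level (`N 0 = M p`, `p ∤ M`), the modules are the `p`-kernel parts.

* `s59u_p_TFinX p W hΔ` : the master statement (THE target of the [W4c] final at even levels);
* **`s59u_p_w_TFinPtX_of : s59u_p_TFinX p W hΔ → s59u_c2_w_TFinPtX p W hΔ s k₀`** (all `s`, `k₀`): the spectator statement of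
  `liftC1p`/`liftC2p` (field `HX0`) is a special case (it has MORE hypotheses and the same conclusion).
-/
import Mathlib
import Fermat.Agent.Lib.S59.UC2PE

set_option autoImplicit false
set_option linter.unusedSectionVars false
set_option linter.unusedVariables false
set_option linter.style.haveILetI false
set_option synthInstance.maxHeartbeats 400000
set_option maxHeartbeats 4000000

noncomputable section

namespace Fermat.Agent.Lib.S59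

open IsLocalRing Polynomial CuspForm ExtCitation
open Fermat.Agent.Lib.S53 (NormData exists_normData)
open Fermat.Agent.Lib.S56 Fermat.Agent.Lib.S44

local notation "Γℚ" => (AlgebraicClosure ℚ ≃ₐ[ℚ] AlgebraicClosure ℚ)

/-- **the MASTER final STRICT `T`-side statement of case (P), EVEN levels, no spectator** (`s59u_c2_w_TFinPtX` without the spectator
block and without `hSgmS`). -/
def s59u_p_TFinX (p : ℕ) [Fact p.Prime] (W : WeierstrassCurve ℤ) (hΔ : W.Δ ≠ 0) : Prop :=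
  ∀ (hp2 : p ≠ 2) (B : Finset ℕ) (hp35 : p = 3 ∨ p = 5) (hss : W.IsSemistableModel)
    (hirr : W.ModRepIsIrreducible p)
    (hbadp : (p : ℤ) ∣ W.Δ) (hc4p : ¬ (p : ℤ) ∣ W.c₄)
    (hpeu : (W.map (Int.castRingHom ℚ)).IsPeuRamifieeAt p p)
    (hB2 : ∀ r : ℕ, r.Prime → ¬ W.IsGoodPrimeFor r → r ∈ B)
    (𝒪 : Type) [CommRing 𝒪] [IsDomain 𝒪] [IsDiscreteValuationRing 𝒪]
    [IsAdicComplete (maximalIdeal 𝒪) 𝒪] [Finite (ResidueField 𝒪)] [CharZero 𝒪]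
    [Algebra ℤ_[p] 𝒪] [Module.Finite ℤ_[p] 𝒪]
    (hp𝒪 : ((p : ℕ) : 𝒪) ∈ maximalIdeal 𝒪)
    (hsplitℤ : ∀ a b : ℤ, ∃ α β : ResidueField 𝒪,
      α + β = (a : ResidueField 𝒪) ∧ α * β = (b : ResidueField 𝒪))
    (habs : (s59i_rhobarW W p hΔ 𝒪 hp𝒪).IsAbsolutelyIrreducible)
    (Nd : NormData (s59i_rhobarW W p hΔ 𝒪 hp𝒪))
    -- the chain of levels
    (k : ℕ) (N : ℕ → ℕ) (qr : ℕ → ℕ) (hNZ : ∀ t, NeZero (N t))
    (hqr : ∀ t, t < k → (qr t).Prime)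
    (hN : ∀ t, t < k → N (t + 1) = N t * qr t)
    (hfreeze : ∀ t, k ≤ t → N t = N k)
    (hsq : ∀ t, Squarefree (N t)) (hpN : ∀ t, p ∣ N t)
    (hB1 : ∀ t, ∀ r : ℕ, r.Prime → r ∣ N t * p → r ∈ B)
    (hocc : ∀ t, Fermat.Agent.Lib.S44.s44i_LevelOcc (N t) p (fun ℓ => W.apOfModel ℓ) B)
    (h23 : ∀ t, 2 ∣ N t)
    -- residual modularity at the base level
    (hres0 : W.IsResiduallyModularOfLevel p (N 0))
    (hres0' : W.IsResiduallyModularOfLevel p (N 0 / p))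
    -- Frobenius and inertia elements at the raising primes
    (φr σr : ℕ → Γℚ)
    (hφr : ∀ t, t < k → ∃ A : ValuationSubring (AlgebraicClosure ℚ),
      A.LiesOverPrime (qr t) ∧ A.IsFrobeniusAt (φr t) (qr t))
    (hσr : ∀ t, t < k → ∃ A : ValuationSubring (AlgebraicClosure ℚ),
      A.LiesOverPrime (qr t) ∧ σr t ∈ A.inertiaSubgroupIn ℚ)
    -- the raising primes: `W` bad, `ρ̄` unramified, `ρ_W ⊗ 𝒪` ramified
    (hqrW : ∀ t, t < k → qr t ≠ p ∧ ¬ qr t ∣ N 0 ∧ ¬ W.IsGoodPrimeFor (qr t) ∧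
      (s59i_rhobarW W p hΔ 𝒪 hp𝒪).IsUnramifiedAt (qr t) ∧
      ¬ (s59q_WRho W hΔ hp𝒪).IsUnramifiedAt (qr t))
    -- the deformation types
    (Sg0 Su Smin Sgm : Finset ℕ) (hpSgm : p ∈ Sgm) (hSgm0 : Sgm ⊆ Sg0) (hSminSgm : Smin ⊆ Sgm)
    (hmin : ∀ q : ℕ, q.Prime → q ≠ p →
      (q ∈ Smin ↔ ¬ (s59i_rhobarW W p hΔ 𝒪 hp𝒪).IsUnramifiedAt q))
    (hSuB : Su ⊆ B)
    (hSgN : ∀ t, ∀ q : ℕ, q.Prime → q ∣ N t →
      q ∈ Sg0 ∨ s59e3q_E2Alt p (s59i_rhobarW W p hΔ 𝒪 hp𝒪) q)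
    (hSgmN : ∀ q : ℕ, q.Prime → q ∣ N 0 →
      q ∈ Sgm ∨ s59e3q_E2Alt p (s59i_rhobarW W p hΔ 𝒪 hp𝒪) q)
    (hqrSgm : ∀ t, t < k → qr t ∉ Sgm)
    -- the shape of the types: `Sg0 ⊆ Sgm ∪ {raising primes}`, `Su ⊇ Σ_min ∪ {raising primes}`
    (hSg0qr : ∀ q ∈ Sg0, q ∈ Sgm ∨ ∃ t, t < k ∧ q = qr t)
    (hqrSu : ∀ t, t < k → qr t ∈ Su)
    (hWSminSu : s59q_WSmin W hΔ hp𝒪 ⊆ Su)
    (D0 : GaloisRep.DeformationRingData 𝒪 (s59i_rhobarW W p hΔ 𝒪 hp𝒪) (fun _A _ _ _ ρ =>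
      GaloisRep.strictOrdinaryCondition 𝒪 p Sg0 ρ ∧
        ∀ q ∈ Su, q.Prime → q ≠ p → ρ.IsUnipotentOnInertiaAt q))
    (Dm : GaloisRep.DeformationRingData 𝒪 (s59i_rhobarW W p hΔ 𝒪 hp𝒪) (fun _A _ _ _ ρ =>
      GaloisRep.strictOrdinaryCondition 𝒪 p Sgm ρ ∧
        ∀ q ∈ Su, q.Prime → q ≠ p → ρ.IsUnipotentOnInertiaAt q))
    (σ : Type) [DecidableEq σ] [Fintype σ],
    ∃ Bs : s59f_TBaseF 𝒪 k D0,
      s59e_HkFrobP (N k) (↑B : Set ℕ) (Bs.R k) (Bs.ρR k) ∧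
      -- (E2): the base ring acts faithfully on the base module
      (∀ a : Bs.R 0, (∀ mm : Bs.M 0, a • mm = 0) → a = 0) ∧
      -- (E-conc-P): the concrete model of the base ring on the `p`-kernel part of the level `N 0`
      s59u_c2_EConcP 𝒪 p (N 0) B (fun ℓ => W.apOfModel ℓ) (Bs.R 0) (Bs.ρR 0) ∧
      ∀ (r : ℕ) (n : ℕ) (qv : Fin r → ℕ), Function.Injective qv →
        (∀ i, (qv i).Prime ∧ qv i ∉ B ∧ p ^ (n + 1) ∣ qv i - 1) →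
        (∀ i, ∀ A : ValuationSubring (AlgebraicClosure ℚ), A.LiesOverPrime (qv i) →
          ∀ φ : Γℚ, A.IsFrobeniusAt φ (qv i) →
            ∃ α β : ResidueField 𝒪, α ≠ β ∧
              LinearMap.charpoly ((s59i_rhobarW W p hΔ 𝒪 hp𝒪).ρ φ) = (X - C α) * (X - C β)) →
        ∀ (DQ : GaloisRep.DeformationRingData 𝒪 (s59i_rhobarW W p hΔ 𝒪 hp𝒪) (fun _A _ _ _ ρ =>
          GaloisRep.strictOrdinaryCondition 𝒪 p (Sg0 ∪ Finset.univ.image qv) ρ ∧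
            ∀ q ∈ Su, q.Prime → q ≠ p → ρ.IsUnipotentOnInertiaAt q))
          (Dsf : GaloisRep.DeformationRingData 𝒪 (s59i_rhobarW W p hΔ 𝒪 hp𝒪)
            (s59q_SfType 𝒪 p (Sg0 ∪ Finset.univ.image qv) Su))
          (κsf : DQ.R →ₐ[𝒪] Dsf.R), Function.Surjective κsf →
          (∀ g, κsf (s59i_cpTr DQ.ρ g) = s59i_cpTr Dsf.ρ g) →
          Nonempty (s59b_TLevelFW 𝒪 p n r σ k Bs qv qr φr σr DQ
            (↑(RingHom.ker (κsf : DQ.R →+* Dsf.R)) : Set DQ.R))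

/-- **the spectator statement is a special case of the master statement.** -/
theorem s59u_p_w_TFinPtX_of (p : ℕ) [Fact p.Prime] (W : WeierstrassCurve ℤ) (hΔ : W.Δ ≠ 0)
    (H : s59u_p_TFinX p W hΔ) (s k₀ : ℕ) : s59u_c2_w_TFinPtX p W hΔ s k₀ := by
  intro hp2 B hp35 hss hirr hbadp hc4p hpeu hB2 𝒪 _ _ _ _ _ _ _ _ hp𝒪 hsplitℤ habs Nd k N qr hNZ hqr hN
    hfreeze hsq hpN hB1 hocc h23 hres0 hres0' φr σr hφr hσr hqrW Sg0 Su Smin Sgm hpSgm hSgm0 hSminSgm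
    hmin hSuB hSgN hSgmN hqrSgm hSgmS hSg0qr hqrSu hWSminSu hs hsp hsN hold hold' hsSgm hsSu hsU φs σs
    hφs hσs εs hεs hscp hk0 hk1 hφsP hσsT D0 Dm σ _ _
  exact H hp2 B hp35 hss hirr hbadp hc4p hpeu hB2 𝒪 hp𝒪 hsplitℤ habs Nd k N qr hNZ hqr hN
    hfreeze hsq hpN hB1 hocc h23 hres0 hres0' φr σr hφr hσr hqrW Sg0 Su Smin Sgm hpSgm hSgm0 hSminSgm
    hmin hSuB hSgN hSgmN hqrSgm hSg0qr hqrSu hWSminSu D0 Dm σ

end Fermat.Agent.Lib.S59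

end
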