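/-
PROGRAMME R2 = S59, case (P), node [W5]-top (helper3), file `UP5L` (SCRIPTED by `gen_up3l.py` from helper7's `NXFinS.lean`):
**THE LITERAL-LEVEL FORM `s59u_p5_TFinXL` OF THE MASTER FINAL STATEMENT `s59u_p5_TFinX`** = helper7's `s59x_TFinP` (NXFinS.lean: `N t` the `p`-FREE
parts, the levels are `N t * p`) with `(h2N : ∀ t, 2 ∣ N t)` ↦ `(hp5 : 5 ≤ p)` (NO parity) PLUS the two exports (E2) + (E-conc-P) of the base level
`N 0 * p` (one call each from the base package: `s59u_p_E2_Z`, `s59u_p_EConcP_Z`, UPExp.lean), **and the adapter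
`s59u_p5_TFinX_of_L : s59u_p5_TFinXL p W hΔ → s59u_p5_TFinX p W hΔ`** (transport `N t = (N t / p) * p`; `hordp` from `s59q_W_resOrd`, `hocc₁` at the
`p`-free levels from `hres0'` by `s59v_resMod_mono` + `s59e_Lmin_levelOcc`).  THE [W4c] FINAL SHOULD PROVE `s59u_p5_TFinXL`: every (P)-field is
then closed by `s59u_p5_TFinX_of_L` + UP3B–E / UP5B–D.
-/
import Mathlib
import Fermat.Agent.Lib.S59.UP5A
import Fermat.Agent.Lib.S59.NXFinS
import Fermat.Agent.Lib.S59.UP3L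
import Fermat.Agent.Lib.S59.QSTPkg5
import Fermat.Agent.Lib.S59.ELMin
import Fermat.Agent.Lib.S59.VMono
import Fermat.Agent.Lib.S59.E3E2c

set_option autoImplicit false
set_option linter.unusedSectionVars false
set_option linter.unusedVariables false
set_option linter.style.haveILetI false
set_option synthInstance.maxHeartbeats 400000
set_option maxHeartbeats 3200000

noncomputable section

namespace Fermat.Agent.Lib.S59

open IsLocalRing Polynomial CuspForm ExtCitation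
open Fermat.Agent.Lib.S53 (NormData exists_normData)
open Fermat.Agent.Lib.S56 Fermat.Agent.Lib.S44

local notation "Γℚ" => (AlgebraicClosure ℚ ≃ₐ[ℚ] AlgebraicClosure ℚ)

/-- **the literal-level master final statement of case (P)** (helper7's `s59x_TFinP` + (E2) + (E-conc-P)). -/
def s59u_p5_TFinXL (p : ℕ) [Fact p.Prime] (W : WeierstrassCurve ℤ) (hΔ : W.Δ ≠ 0) : Prop :=
  ∀ (hp2 : p ≠ 2) (B : Finset ℕ) (hss : W.IsSemistableModel) (hirr : W.ModRepIsIrreducible p)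
    (hmult : ¬ W.IsGoodPrimeFor p)
    (hB2 : ∀ r : ℕ, r.Prime → ¬ W.IsGoodPrimeFor r → r ∈ B)
    (𝒪 : Type) [CommRing 𝒪] [IsDomain 𝒪] [IsDiscreteValuationRing 𝒪]
    [IsAdicComplete (maximalIdeal 𝒪) 𝒪] [Finite (ResidueField 𝒪)] [CharZero 𝒪]
    [Algebra ℤ_[p] 𝒪] [Module.Finite ℤ_[p] 𝒪]
    (hp𝒪 : ((p : ℕ) : 𝒪) ∈ maximalIdeal 𝒪)
    (habs : (s59i_rhobarW W p hΔ 𝒪 hp𝒪).IsAbsolutelyIrreducible)
    (Nd : NormData (s59i_rhobarW W p hΔ 𝒪 hp𝒪))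
    (hordp : (GaloisRepAdic.ofResidualGaloisRep (s59i_rhobarW W p hΔ 𝒪 hp𝒪)).IsOrdinaryAt p)
    -- the chain of levels: the `p`-free parts `N t`, the levels are `N t * p`
    (k : ℕ) (N : ℕ → ℕ) (qr : ℕ → ℕ) (hNZ : ∀ t, NeZero (N t))
    (hqr : ∀ t, t < k → (qr t).Prime)
    (hN : ∀ t, t < k → N (t + 1) = N t * qr t)
    (hfreeze : ∀ t, k ≤ t → N t = N k)
    (hsq : ∀ t, Squarefree (N t * p)) (hpN : ∀ t, ¬ p ∣ N t) (hp5 : 5 ≤ p)
    (hB1 : ∀ t, ∀ r : ℕ, r.Prime → r ∣ N t * p → r ∈ B)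
    (hocc₁ : ∀ t, Fermat.Agent.Lib.S44.s44i_LevelOcc (N t) p (fun ℓ => W.apOfModel ℓ) B)
    (hocc₂ : ∀ t, Fermat.Agent.Lib.S44.s44i_LevelOcc (N t * p) p (fun ℓ => W.apOfModel ℓ) B)
    -- Frobenius and inertia elements at the raising primes
    (φr σr : ℕ → Γℚ)
    (hφr : ∀ t, t < k → ∃ A : ValuationSubring (AlgebraicClosure ℚ),
      A.LiesOverPrime (qr t) ∧ A.IsFrobeniusAt (φr t) (qr t))
    (hσr : ∀ t, t < k → ∃ A : ValuationSubring (AlgebraicClosure ℚ),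
      A.LiesOverPrime (qr t) ∧ σr t ∈ A.inertiaSubgroupIn ℚ)
    -- the deformation types
    (Sg0 Su Smin Sgm : Finset ℕ) (hpSgm : p ∈ Sgm) (hSgm0 : Sgm ⊆ Sg0) (hSminSgm : Smin ⊆ Sgm)
    (hmin : ∀ q : ℕ, q.Prime → q ≠ p →
      (q ∈ Smin ↔ ¬ (s59i_rhobarW W p hΔ 𝒪 hp𝒪).IsUnramifiedAt q))
    (hSuB : Su ⊆ B)
    (hSgN : ∀ t, ∀ q : ℕ, q.Prime → q ∣ N t →
      q ∈ Sg0 ∨ s59e3q_E2Alt p (s59i_rhobarW W p hΔ 𝒪 hp𝒪) q)
    (hSgmN : ∀ q : ℕ, q.Prime → q ∣ N 0 →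
      q ∈ Sgm ∨ s59e3q_E2Alt p (s59i_rhobarW W p hΔ 𝒪 hp𝒪) q)
    (hqrSgm : ∀ t, t < k → qr t ∉ Sgm)
    (D0 : GaloisRep.DeformationRingData 𝒪 (s59i_rhobarW W p hΔ 𝒪 hp𝒪) (fun _A _ _ _ ρ =>
      GaloisRep.strictOrdinaryCondition 𝒪 p Sg0 ρ ∧
        ∀ q ∈ Su, q.Prime → q ≠ p → ρ.IsUnipotentOnInertiaAt q))
    (Dm : GaloisRep.DeformationRingData 𝒪 (s59i_rhobarW W p hΔ 𝒪 hp𝒪) (fun _A _ _ _ ρ =>
      GaloisRep.strictOrdinaryCondition 𝒪 p Sgm ρ ∧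
        ∀ q ∈ Su, q.Prime → q ≠ p → ρ.IsUnipotentOnInertiaAt q))
    (σ : Type) [DecidableEq σ] [Fintype σ],
    ∃ Bs : s59f_TBaseF 𝒪 k D0,
      s59e_HkFrobP (N k * p) (↑B : Set ℕ) (Bs.R k) (Bs.ρR k) ∧
      -- (E2): the base ring acts faithfully on the base module
      (∀ a : Bs.R 0, (∀ mm : Bs.M 0, a • mm = 0) → a = 0) ∧
      -- (E-conc-P): the concrete model of the base ring on the `p`-kernel part of the level `N 0 * p`
      s59u_c2_EConcP 𝒪 p (N 0 * p) B (fun ℓ => W.apOfModel ℓ) (Bs.R 0) (Bs.ρR 0) ∧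
      ∀ (r : ℕ) (n : ℕ) (qv : Fin r → ℕ), Function.Injective qv →
        (∀ i, (qv i).Prime ∧ qv i ∉ B ∧ p ^ (n + 1) ∣ qv i - 1) →
        (∀ i, ∀ A : ValuationSubring (AlgebraicClosure ℚ), A.LiesOverPrime (qv i) →
          ∀ φ : Γℚ, A.IsFrobeniusAt φ (qv i) →
            ∃ α β : ResidueField 𝒪, α ≠ β ∧
              LinearMap.charpoly ((s59i_rhobarW W p hΔ 𝒪 hp𝒪).ρ φ) = (X - C α) * (X - C β)) →
        ∀ (DQ : GaloisRep.DeformationRingData 𝒪 (s59i_rhobarW W p hΔ 𝒪 hp𝒪) (fun _A _ _ _ ρ =>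
            GaloisRep.strictOrdinaryCondition 𝒪 p (Sg0 ∪ Finset.univ.image qv) ρ ∧
              ∀ q ∈ Su, q.Prime → q ≠ p → ρ.IsUnipotentOnInertiaAt q))
          (Dsf : GaloisRep.DeformationRingData 𝒪 (s59i_rhobarW W p hΔ 𝒪 hp𝒪)
            (s59q_SfType 𝒪 p (Sg0 ∪ Finset.univ.image qv) Su))
          (κsf : DQ.R →ₐ[𝒪] Dsf.R), Function.Surjective κsf →
          (∀ g, κsf (s59i_cpTr DQ.ρ g) = s59i_cpTr Dsf.ρ g) →
          Nonempty (s59b_TLevelFW 𝒪 p n r σ k Bs qv qr φr σr DQ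
            ((RingHom.ker (κsf : DQ.R →+* Dsf.R) : Ideal DQ.R) : Set DQ.R))

/-- **the adapter: the literal-level final statement (helper7's `s59x_TFinP` + the two exports) ⟹ the master statement.** -/
theorem s59u_p5_TFinX_of_L (p : ℕ) [hpF : Fact p.Prime] (W : WeierstrassCurve ℤ) (hΔ : W.Δ ≠ 0)
    (HL : s59u_p5_TFinXL p W hΔ) : s59u_p5_TFinX p W hΔ := by
  intro hp2 B hp35 hss hirr hbadp hc4p hpeu hB2 𝒪 _ _ _ _ _ _ _ _ hp𝒪 hsplitℤ habs Nd k N qr hNZ hqr hN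
    hfreeze hsq hpN hB1 hocc hp5 hres0 hres0' φr σr hφr hσr hqrW Sg0 Su Smin Sgm hpSgm hSgm0 hSminSgm
    hmin hSuB hSgN hSgmN hqrSgm hSg0qr hqrSu hWSminSu D0 Dm σ _ _
  classical
  have hpP : p.Prime := hpF.out
  haveI := hNZ
  have hNp : ∀ t, N t / p * p = N t := fun t => Nat.div_mul_cancel (hpN t)
  have hN'Z : ∀ t, NeZero (N t / p) := fun t =>
    ⟨fun h0 => (NeZero.ne (N t)) (by rw [← hNp t, h0, zero_mul])⟩
  have hN'dvd : ∀ t, N t / p ∣ N t := fun t => Dvd.intro _ (hNp t)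
  have hsq' : ∀ t, Squarefree (N t / p * p) := fun t => by rw [hNp t]; exact hsq t
  have hpN' : ∀ t, ¬ p ∣ N t / p := by
    intro t hd
    have h2 : p * p ∣ N t := by
      rw [← hNp t]
      exact Nat.mul_dvd_mul_right hd p
    exact hpP.one_lt.ne' (Nat.isUnit_iff.mp (hsq t p h2))
  have hmult : ¬ W.IsGoodPrimeFor p := fun hg => hg hbadp
  have hordp : (GaloisRepAdic.ofResidualGaloisRep (s59i_rhobarW W p hΔ 𝒪 hp𝒪)).IsOrdinaryAt p :=
    s59q_W_resOrd W p hΔ hp2 hirr 𝒪 hp𝒪 hbadp hc4p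
  have hqrp : ∀ t, t < k → qr t ≠ p := fun t ht => (hqrW t ht).1
  have hN' : ∀ t, t < k → N (t + 1) / p = N t / p * qr t := by
    intro t ht
    have h1 : N (t + 1) / p * p = N t / p * qr t * p := by
      rw [hNp (t + 1), hN t ht, mul_right_comm, hNp t]
    exact Nat.eq_of_mul_eq_mul_right hpP.pos h1
  have hfreeze' : ∀ t, k ≤ t → N t / p = N k / p := fun t ht => by rw [hfreeze t ht]
  have hmono0 : ∀ t, N 0 ∣ N t := by
    intro t
    induction t with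
    | zero => exact dvd_refl _
    | succ t ih =>
      by_cases ht : t < k
      · exact ih.trans (Dvd.intro _ (hN t ht).symm)
      · have e : N (t + 1) = N t := (hfreeze (t + 1) (by omega)).trans (hfreeze t (by omega)).symm
        rw [e]
        exact ih
  have hmono0' : ∀ t, N 0 / p ∣ N t / p := by
    intro t
    obtain ⟨c, hc⟩ := hmono0 t
    refine ⟨c, ?_⟩
    have h1 : N t / p * p = N 0 / p * c * p := by
      rw [hNp t, hc, mul_right_comm, hNp 0]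
    exact Nat.eq_of_mul_eq_mul_right hpP.pos h1
  have hsqf' : ∀ t, Squarefree (N t / p) := fun t => (hsq t).squarefree_of_dvd (hN'dvd t)
  have hB1' : ∀ t, ∀ r : ℕ, r.Prime → r ∣ N t / p * p → r ∈ B := fun t r hr hd =>
    hB1 t r hr (by rw [hNp t] at hd; exact Dvd.dvd.mul_right hd p)
  have hB1'' : ∀ t, ∀ r : ℕ, r.Prime → r ∣ N t / p * p → r ∈ B := hB1'
  have H := HL hp2 B hss hirr hmult hB2 𝒪 hp𝒪 habs Nd hordp k (fun t => N t / p) qr hN'Z hqr hN' hfreeze'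
    hsq' hpN' hp5 hB1'
    (fun t => s59e_Lmin_levelOcc W p _ B (hB1' t) hB2 (s59v_resMod_mono (hmono0' t) (hsqf' t) hres0'))
    (fun t => by
      show s44i_LevelOcc (N t / p * p) p (fun ℓ => W.apOfModel ℓ) B
      rw [hNp t]
      exact hocc t)
    φr σr hφr hσr Sg0 Su Smin Sgm hpSgm hSgm0 hSminSgm hmin hSuB
    (fun t q hq hd => hSgN t q hq (hd.trans (hN'dvd t)))
    (fun q hq hd => hSgmN q hq (hd.trans (hN'dvd 0))) hqrSgm D0 Dm σ
  choose Bs hHk hE2 hEC hTW using H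
  haveI : NeZero (N k / p * p) := ⟨by rw [hNp k]; exact NeZero.ne (N k)⟩
  haveI : NeZero (N 0 / p * p) := ⟨by rw [hNp 0]; exact NeZero.ne (N 0)⟩
  exact ⟨Bs, s59u_p_HkFrobP_congr (hNp k) _ _ _ hHk, hE2,
    s59u_p_EConcP_congr p (hNp 0) B _ _ _ hEC, hTW⟩

end Fermat.Agent.Lib.S59

end
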