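/-
PROGRAMME R2 = S59, case (P), `p = 5` WITHOUT PARITY (items `lift23p`/`cornerP`, the field `finP5X`), helper3, prefix `s59u_p5_`:
**ALL THE RECORD PROVIDERS OF A LEVEL WITHOUT PARITY HYPOTHESIS, `p ≥ 5`** — `Internal.s59u_p5_recProvAll : s59m_RecProvAll p W hΔ N B 𝒪 hp𝒪`
(helper9's `s59m_RecProvAll`, MKerRecProv.lean: the input `hrecAll` of `Internal.s59m_idx_std`), the twin of helper9's
`Internal.s59m_recProvAll_even` over `Internal.s59u_p5_levelZ_rec` (UP5KerH3r.lean): `5 ≤ p`, `1 < N` in place of `2 ∣ N`.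
The two giant-typed definitions are unfolded BEFORE anything is unified (the FunInfo trap of posts 4096/4097/4098).
-/
import Mathlib
import Fermat.Agent.Lib.S59.MKerRecProv
import Fermat.Agent.Lib.S59.UP5KerH3r

set_option autoImplicit false
set_option linter.unusedSectionVars false
set_option linter.unusedVariables false
set_option linter.style.haveILetI false
set_option maxHeartbeats 0
set_option synthInstance.maxHeartbeats 400000
set_option maxSynthPendingDepth 3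

noncomputable section

namespace Fermat.Agent.Lib.S59

open Matrix MatrixGroups CongruenceSubgroup IsLocalRing Polynomial CuspForm
open WeierstrassCurve WeierstrassCurve.Affine WeierstrassCurve.Affine.Point
open Fermat.Agent.Lib.S29 Fermat.Agent.Lib.S48 Fermat.Agent.Lib.S41 Fermat.Agent.Lib.S44
open Fermat.Agent.Lib.S58 Fermat.Agent.Lib.S18

local notation "Γℚ" => (AlgebraicClosure ℚ ≃ₐ[ℚ] AlgebraicClosure ℚ)

/-- **all the record providers of a level without parity hypothesis, `p ≥ 5`.** -/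
theorem Internal.s59u_p5_recProvAll (p : ℕ) [Fact p.Prime] (hp5 : 5 ≤ p) (W : WeierstrassCurve ℤ) (hΔ : W.Δ ≠ 0)
    (N : ℕ) [NeZero N] (B : Finset ℕ)
    (hirr : W.ModRepIsIrreducible p) (hsq : Squarefree N)
    (hNB : ∀ r : ℕ, r.Prime → r ∣ N → r ∈ B) (hpB : p ∈ B)
    (hB2 : ∀ r : ℕ, r.Prime → ¬ W.IsGoodPrimeFor r → r ∈ B)
    (hONE : 1 < N)
    (𝒪 : Type) [CommRing 𝒪] [IsDomain 𝒪] [IsDiscreteValuationRing 𝒪]
    [IsAdicComplete (maximalIdeal 𝒪) 𝒪] [Finite (ResidueField 𝒪)] [CharZero 𝒪]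
    [Algebra ℤ_[p] 𝒪] [Module.Finite ℤ_[p] 𝒪]
    (hp𝒪 : ((p : ℕ) : 𝒪) ∈ maximalIdeal 𝒪) :
    s59m_RecProvAll p W hΔ N B 𝒪 hp𝒪 := by
  delta s59m_RecProvAll
  intro r σ _ _ ε hεc hρ P hP d hd0 a₀ ha1₀ aZ₀ haZ₀ _ _ _ hRρ ρR hfrobR hgenR n qv _ _ _ hqinj hqv hTW 𝒟 DQ
  delta s59m_RecProv
  intro ε' hid' hεc' hP1 hρ' π₂ hιπ₂ P' hP' hPP' hZop b' hb' πK hπK h2 h3 h4 g hcard hgen hord hgloc
    a ha1 ha2 aZ haZ hlocA hlrZ θ hθ hfrobT hcong
  haveI := hlrZ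
  exact Internal.s59u_p5_levelZ_rec p hp5 W hΔ N B hirr hsq hNB hpB hB2 hONE 𝒪 hp𝒪 r σ ε hεc hρ P hP d hd0 a₀ ha1₀ aZ₀ haZ₀
    hRρ ρR hfrobR hgenR n qv hqinj hqv hTW ε' hid' hεc' hP1 hρ' π₂ hιπ₂ P' hP' hPP' hZop b' hb' πK hπK h2 h3 h4
    g hcard hgen hord hgloc DQ a ha1 ha2 aZ haZ hlocA θ hθ hfrobT hcong

export Internal (s59u_p5_recProvAll)

end Fermat.Agent.Lib.S59

end
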