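/-
S59 project, case (P), route (T5w), [W4c], the `p ≥ 5` instance (helper4, prefix `s59f_p5_`): **THE FINAL `T`-SIDE THEOREM OF CASE
(P) FOR `p ≥ 5`, NO PARITY** — `s59f_p5_finE : s59u_p5_TFinXL p W hΔ` (statement: helper3's UP5L.lean = helper7's `s59x_TFinP` with
`(h2N : ∀ t, 2 ∣ N t) ↦ (hp5 : 5 ≤ p)`), the `p ≥ 5` instance of helper9's abstract core `Internal.s59m_finCore` (MKerFin.lean): scripted
twin of his even instance `Internal.s59m_finE` (MKerFinE.lean) — per index the standard provider `Internal.s59m_idx_std` (MKerIdx.lean)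
with the inputs `s18_GoodLevel` (from `5 ≤ p`), `s59e_auxTors_of_five_le`, `1 < N s` (from `hocc₁`: `S₂(Γ₀(1)) = 0`), helper3's
`s59u_S37H_aux_pgroup_W`, the record providers `s59u_p5_recProvAll` (helper3's UP5RecProvAll.lean, from his `Internal.s59u_p5_levelZ_rec`), and the
base package `Internal.s59m_base_std` (helper2's `Internal.s59x_base_pkgZ`).  With helper3's adapter `s59u_p5_TFinX_of_L` this is the field
`finP5X : ∀ W hΔ, s59u_p5_TFinX 5 W hΔ` of the adapter.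
-/
import Mathlib
import Fermat.Agent.Lib.S59.UP5L
import Fermat.Agent.Lib.S59.MKerFin
import Fermat.Agent.Lib.S59.MKerIdx
import Fermat.Agent.Lib.S59.MKerBaseS
import Fermat.Agent.Lib.S59.UP5RecProvAll
import Fermat.Agent.Lib.S59.UHELMin
import Fermat.Agent.Lib.S59.UW37Cons
import Fermat.Agent.Lib.S59.E3Aux
import Fermat.Agent.Lib.S59.EAuxPF

set_option autoImplicit false
set_option linter.unusedSectionVars false
set_option linter.unusedVariables false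
set_option linter.style.haveILetI false
set_option maxHeartbeats 0
set_option synthInstance.maxHeartbeats 400000
set_option maxSynthPendingDepth 3

noncomputable section

namespace Fermat.Agent.Lib.S59

open IsLocalRing CuspForm Polynomial ExtCitation CongruenceSubgroup
open WeierstrassCurve WeierstrassCurve.Affine WeierstrassCurve.Affine.Point
open Fermat.Agent.Lib.S48 Fermat.Agent.Lib.S44 Fermat.Agent.Lib.S18
open Fermat.Agent.Lib.S53 (NormData)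
open scoped MatrixGroups

local notation "Γℚ" => (AlgebraicClosure ℚ ≃ₐ[ℚ] AlgebraicClosure ℚ)

/-- a level at which a normalised eigenform of weight `2` occurs is `> 1` (`S₂(Γ₀(1)) = 0`). -/
theorem s59f_p5_one_lt_of_levelOcc {M p : ℕ} [NeZero M] {a : ℕ → ℤ} {B : Finset ℕ}
    (h : s44i_LevelOcc M p a B) : 1 < M := by
  rcases Nat.lt_or_ge 1 M with h1 | h1
  · exact h1
  · have hM0 := Nat.pos_of_ne_zero (NeZero.ne M)
    have hM : M = 1 := by omega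
    subst hM
    obtain ⟨g, 𝔪, hg, -⟩ := h
    refine absurd (Fermat.Agent.Lib.Level.cuspForm_eq_zero_of_sturm_eq_zero ?_ g) hg.ne_zero
    rw [Fermat.Agent.Lib.Level.index_Gamma0_one]
    norm_num

/-- the raising primes are primes of `B` different from `p`, outside the minimal type. -/
theorem s59f_p5_Qr_props {p k : ℕ} (N qr : ℕ → ℕ) (B : Finset ℕ) (hqr : ∀ t, t < k → (qr t).Prime)
    (hN : ∀ t, t < k → N (t + 1) = N t * qr t) (hpN : ∀ t, ¬ p ∣ N t)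
    (hB1 : ∀ t, ∀ r : ℕ, r.Prime → r ∣ N t * p → r ∈ B) (Sgm : Finset ℕ) (hqrSgm : ∀ t, t < k → qr t ∉ Sgm)
    (Sgs : ℕ → Finset ℕ) (h0 : Sgs 0 = Sgm) (s : ℕ) :
    ∀ q ∈ {q : ℕ | s = 0 ∧ ∃ l, l < k ∧ q = qr l}, q.Prime ∧ q ≠ p ∧ q ∈ B ∧ q ∉ Sgs s := by
  rintro q ⟨rfl, l, hl, rfl⟩
  have hd : qr l ∣ N (l + 1) := Dvd.intro_left _ (hN l hl).symm
  refine ⟨hqr l hl, fun h => hpN (l + 1) (h ▸ hd), hB1 (l + 1) _ (hqr l hl) (Dvd.dvd.mul_right hd p), ?_⟩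
  rw [h0]
  exact hqrSgm l hl

/-- **the final `T`-side theorem of case (P) for `p ≥ 5`** (kernel pairs of the levels `N t * p`, weak trace clause; no parity). -/
theorem Internal.s59f_p5_finE (p : ℕ) [Fact p.Prime] (W : WeierstrassCurve ℤ) (hΔ : W.Δ ≠ 0) : s59u_p5_TFinXL p W hΔ := by
  classical
  intro hp2 B hss hirr hmult hB2 𝒪 _ _ _ _ _ _ _ _ hp𝒪 habs Nd hordp k N qr hNZ hqr hN hfreeze hsq hpN hp5 hB1 hocc₁ hocc₂
    φr σr hφr hσr Sg0 Su Smin Sgm hpSgm hSgm0 hSminSgm hmin hSuB hSgN hSgmN hqrSgm D0 Dm σ _ _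
  haveI := hNZ
  have hpP : p.Prime := Fact.out
  haveI hNZp : ∀ t, NeZero (N t * p) := fun t => ⟨Nat.mul_ne_zero (NeZero.ne (N t)) hpP.ne_zero⟩
  have hpB : p ∈ B := hB1 0 p hpP (Dvd.intro_left _ rfl)
  have hSgsex := s59m_exists_Sgs (P := fun q => s59e3q_E2Alt p (s59i_rhobarW W p hΔ 𝒪 hp𝒪) q) N Sg0 Sgm hSgm0 hSgN hSgmN
  choose Sgs hSgs0eq hSgmSgs hSgsSg0 hSgsN using hSgsex
  have hN1 : ∀ s, 1 < N s := fun s => s59f_p5_one_lt_of_levelOcc (hocc₁ s)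
  have hN1p : ∀ s, 1 < N s * p := fun s => lt_of_lt_of_le (hN1 s) (Nat.le_mul_of_pos_right _ hpP.pos)
  have htors : ∀ s, s59e_auxTors p (N s) := fun s => s59e_auxTors_of_five_le hpP hp5 (N s)
  have htors₂ : ∀ s, s59e_auxTors p (N s * p) := fun s => s59e_auxTors_mono (Dvd.intro _ rfl) (htors s)
  have hgood : ∀ s, s18_GoodLevel p (N s) := fun s => ⟨hpN s, Or.inl hp5⟩
  have hSgNp : ∀ s, ∀ q : ℕ, q.Prime → q ∣ N s * p → q ∈ Sg0 ∨ s59e3q_E2Alt p (s59i_rhobarW W p hΔ 𝒪 hp𝒪) q := fun s q hq h =>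
    ((Nat.Prime.dvd_mul hq).mp h).elim (hSgN s q hq)
      (fun h' => Or.inl (((Nat.prime_dvd_prime_iff_eq hq hpP).mp h').symm ▸ hSgm0 hpSgm))
  refine Internal.s59m_finCore p W hΔ hp2 B hirr hB2 𝒪 hp𝒪 habs Nd hordp k N qr hNZ hqr hN hfreeze hsq hpN hB1 hocc₁ hocc₂
    φr σr hφr hσr Sg0 Su Smin Sgm hpSgm hSgm0 hSminSgm hmin hSuB hSgN hSgmN hqrSgm D0 Dm σ (fun s hdt => ?_)
  exact Internal.s59m_idx_std p hp2 W hΔ hirr (N s) (hsq s) (hpN s) B (hB1 s) hB2 𝒪 hp𝒪 hordp habs Nd σ (hocc₁ s) (hocc₂ s)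
    (hgood s) (htors s) (hN1 s)
    (s59u_S37H_aux_pgroup_W (Squarefree.of_mul_left (hsq s)) (hN1 s) (Subgroup.mem_top _) (htors s)
      (fun u => ⟨0, Subgroup.mem_top _⟩))
    (htors₂ s)
    (s59u_S37H_aux_pgroup_W (hsq s) (hN1p s) (Subgroup.mem_top _) (htors₂ s) (fun u => ⟨0, Subgroup.mem_top _⟩))
    (s59u_p5_recProvAll p hp5 W hΔ (N s * p) B hirr (hsq s) (hB1 s) hpB hB2 (hN1p s) 𝒪 hp𝒪)
    Sg0 Su Smin Sgm (Sgs s) hpSgm (hSgmSgs s) (hSgsSg0 s) hSminSgm hmin hSuB (hSgN s) (hSgsN s) D0 Dm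
    {q : ℕ | s = 0 ∧ ∃ l, l < k ∧ q = qr l}
    (s59f_p5_Qr_props N qr B hqr hN hpN hB1 Sgm hqrSgm Sgs hSgs0eq s) (s ≠ 0) (N k) hdt
    (Internal.s59m_base_std p hp2 W hΔ (N s) B hirr hss hmult (hsq s) (hpN s) (hgood s) (htors s) (hB1 s) hB2
      (hocc₁ s) (hocc₂ s) 𝒪 hp𝒪 Sg0 Su Smin (hSgm0 hpSgm) (hSgNp s) hmin D0)

export Internal (s59f_p5_finE)

/-- **the master final statement of case (P), `p = 5`** (the field `finP5X` of the adapter). -/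
theorem s59f_p5_TFinX [Fact (Nat.Prime 5)] (W : WeierstrassCurve ℤ) (hΔ : W.Δ ≠ 0) : s59u_p5_TFinX 5 W hΔ :=
  s59u_p5_TFinX_of_L 5 W hΔ (Internal.s59f_p5_finE 5 W hΔ)

end Fermat.Agent.Lib.S59
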