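/-
PROGRAMME R2 = S59, leaf (c2-c) = [SPEC-T±] (helper4, prefix `s59f_sg_`), part 1: **THE `T`-SIDE CONTRACT WITH NO RAISING
PRIME (`k = 0`) FROM A MINIMAL-TYPE `T`-SIDE** (`s59e_TBaseL` + `s59e_TLevelL`, helper5's ELLvl.lean).

For `k = 0` the contract `s59f_TBaseF 𝒪 0 D0` / `s59f_TLevelF … 0 …` (FAsmPkg.lean) is a constant family: `R t = R`,
`M t = MQ t = M`, `ρ t = id`, one level `L0`, no step, no raising prime.
* `s59f_sg_baseF Bs`   : `s59e_TBaseL 𝒪 D0 → s59f_TBaseF 𝒪 0 D0` (every field is the corresponding field of `Bs`, by `rfl`);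
* `s59f_sg_levelF`     : `s59e_TLevelL … Bs.R Bs.M Bs.ρR Bs.d qv DQ`, with `T′` reduced and `𝒪`-torsion-free
                         ⟹ `Nonempty (s59f_TLevelF 𝒪 p n r σ 0 (s59f_sg_baseF Bs) qv qr φr σr DQ)` (any `qr φr σr`);
* `s59f_sg_reduced_of_equiv`, `s59f_sg_tf_of_equiv` : reducedness and torsion-freeness through `T′ ≃ₐ[𝒪] 𝒪[aM]`
                         (the field `eT'` of helper5's record `s59efl_RingRec`).
-/
import Mathlib
import Fermat.Agent.Lib.S59.FAsmPkg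
import Fermat.Agent.Lib.S59.ELLvlY

set_option autoImplicit false
set_option linter.unusedSectionVars false
set_option linter.unusedVariables false
set_option linter.style.haveILetI false
set_option maxHeartbeats 1600000
set_option synthInstance.maxHeartbeats 400000

noncomputable section

namespace Fermat.Agent.Lib.S59

open IsLocalRing MvPowerSeries

local notation "Γℚ" => (AlgebraicClosure ℚ ≃ₐ[ℚ] AlgebraicClosure ℚ)

section Conv

variable {𝒪 : Type} [CommRing 𝒪] [IsDomain 𝒪] [IsDiscreteValuationRing 𝒪]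
  [IsAdicComplete (maximalIdeal 𝒪) 𝒪]
  {ρbar : ResidualGaloisRep (ResidueField 𝒪)}
  {𝒟₀ : ∀ ⦃A : Type⦄ [CommRing A] [IsLocalRing A] [Algebra 𝒪 A], GaloisRepAdic A → Prop}
  {D0 : GaloisRep.DeformationRingData 𝒪 ρbar 𝒟₀}

/-- **the `T`-side base contract with no raising prime**, from a minimal-type base. -/
def s59f_sg_baseF (Bs : s59e_TBaseL 𝒪 D0) : s59f_TBaseF 𝒪 0 D0 where
  R := fun _ => Bs.R
  hRres := fun _ => Bs.hRres
  M := fun _ => Bs.M
  MQ := fun _ => Bs.M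
  ρ := fun _ => LinearMap.id
  hρ := fun _ => Function.surjective_id
  hρinj := fun _ _ => Function.injective_id
  ρR := fun _ => Bs.ρR
  hρR := fun _ => Bs.hρR
  hresR := fun _ => Bs.hresR
  ν := fun _ => Bs.ν
  hν := fun _ => Bs.hν
  hνs := fun _ => Bs.hνs
  d := fun _ => Bs.d

@[simp] theorem s59f_sg_baseF_R (Bs : s59e_TBaseL 𝒪 D0) (t : ℕ) : (s59f_sg_baseF Bs).R t = Bs.R := rfl

@[simp] theorem s59f_sg_baseF_M (Bs : s59e_TBaseL 𝒪 D0) (t : ℕ) : (s59f_sg_baseF Bs).M t = Bs.M := rfl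

theorem s59f_sg_baseF_nu (Bs : s59e_TBaseL 𝒪 D0) (t : ℕ) : (s59f_sg_baseF Bs).ν t = Bs.ν := rfl

theorem s59f_sg_baseF_rhoR (Bs : s59e_TBaseL 𝒪 D0) (t : ℕ) : (s59f_sg_baseF Bs).ρR t = Bs.ρR := rfl

variable {p n r : ℕ} {σ : Type} {qv : Fin r → ℕ}
  {𝒟 : ∀ ⦃A : Type⦄ [CommRing A] [IsLocalRing A] [Algebra 𝒪 A], GaloisRepAdic A → Prop}
  {DQ : GaloisRep.DeformationRingData 𝒪 ρbar 𝒟}

/-- a finite extension of local rings is local (on the maximal ideals). -/
theorem s59f_sg_hlocT (T' T : Type) [CommRing T'] [IsLocalRing T'] [CommRing T] [IsLocalRing T]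
    [Algebra T' T] [Module.Finite T' T] :
    ∀ a ∈ maximalIdeal T', algebraMap T' T a ∈ maximalIdeal T := by
  haveI : Algebra.IsIntegral T' T := Algebra.IsIntegral.of_finite T' T
  have hmax : ((maximalIdeal T).comap (algebraMap T' T)).IsMaximal :=
    Ideal.isMaximal_comap_of_isIntegral_of_isMaximal (maximalIdeal T)
  have heq : (maximalIdeal T).comap (algebraMap T' T) = maximalIdeal T' :=
    IsLocalRing.eq_maximalIdeal hmax
  intro a ha
  rw [← heq, Ideal.mem_comap] at ha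
  exact ha

/-- **the `T`-side level contract with no raising prime**, from a minimal-type level with reduced, torsion-free
trace ring. -/
theorem s59f_sg_levelF (Bs : s59e_TBaseL 𝒪 D0)
    (Lv : s59e_TLevelL 𝒪 p n r σ Bs.R Bs.M Bs.ρR Bs.d qv DQ) [IsReduced Lv.T']
    (htf : ∀ o : 𝒪, o ≠ 0 → ∀ x : Lv.T', algebraMap 𝒪 Lv.T' o * x = 0 → x = 0)
    (qr : ℕ → ℕ) (φr σr : ℕ → Γℚ) :
    Nonempty (s59f_TLevelF 𝒪 p n r σ 0 (s59f_sg_baseF Bs) qv qr φr σr DQ) :=
  ⟨{ T' := Lv.T'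
     htf := htf
     T := Lv.T
     hlocT := s59f_sg_hlocT Lv.T' Lv.T
     θ := Lv.θ
     hθ := Lv.hθ
     L0 := fun _ => Lv.L0
     hd := fun _ => Lv.hd
     std := Lv.std
     hstd := fun _ => Lv.hstd
     hψ𝒪 := fun _ => Lv.hψ𝒪
     uu := Lv.uu
     huu := Lv.huu
     hgen := Lv.hgen
     hstdX := Lv.hstdX
     hstdz := Lv.hstdz
     σQ := fun _ => Lv.σQ
     hσQ := fun _ => Lv.hσQ
     hC8 := fun _ _ => Lv.hC8
     hτ := fun _ => Lv.hτ
     hT := fun t ht => absurd ht (Nat.not_lt_zero t)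
     hunr0 := fun l hl => absurd hl (Nat.not_lt_zero l) }⟩

/-- reducedness through an isomorphism. -/
theorem s59f_sg_reduced_of_equiv {T' A : Type} [CommRing T'] [CommRing A] [Algebra 𝒪 T']
    [Algebra 𝒪 A] (e : T' ≃ₐ[𝒪] A) [IsReduced A] : IsReduced T' :=
  isReduced_of_injective (e : T' →+* A) e.injective

/-- torsion-freeness through an isomorphism. -/
theorem s59f_sg_tf_of_equiv {T' A : Type} [CommRing T'] [CommRing A] [Algebra 𝒪 T']
    [Algebra 𝒪 A] (e : T' ≃ₐ[𝒪] A)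
    (htf : ∀ o : 𝒪, o ≠ 0 → ∀ x : A, algebraMap 𝒪 A o * x = 0 → x = 0) :
    ∀ o : 𝒪, o ≠ 0 → ∀ x : T', algebraMap 𝒪 T' o * x = 0 → x = 0 := by
  intro o ho x hx
  have h1 : algebraMap 𝒪 A o * e x = 0 := by
    rw [← e.commutes o, ← map_mul, hx, map_zero]
  exact e.injective ((htf o ho (e x) h1).trans (map_zero e).symm)

end Conv

end Fermat.Agent.Lib.S59
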