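/-
PROGRAMME R2 = S59, leaf (c2-c) = [SPEC-T±] (helper4, prefix `s59f_sg_`), part 4a: **the Atkin–Lehner involution `w_q` of the
base level `Γ₀(N₀ q)` and the freeness of a part over a trivial diamond group.**

* `s59f_sg_u0 hqN R`   : `w_q` on `H_par(Γ₀(N₀ q), R)` (`= s59f_wN hqN (s59f_isG'_top hqN) R R`); it is helper2's
  `s59b_epm_u0 hqN hqL K R e he' hee` for EVERY Taylor–Wiles datum `(D, K, e)` (`s59f_sg_u0_eq`);
* `s59f_sg_u0_u0`, `s59f_sg_u0_rho`, `s59f_sg_u0_wop` : involution, commutes with the diamonds and the anemic generators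
  (through the datum `r = 0`, `D = ∏ ∅`, of helper2's B9EPm.lean);
* `s59f_sg_evalMap_bij` : over a trivial group `Δ` a basis of `V` gives a bijective `s59t_evalMap`.
-/
import Mathlib
import Fermat.Agent.Lib.S59.B9EPm

set_option autoImplicit false
set_option linter.unusedSectionVars false
set_option linter.unusedVariables false
set_option linter.style.haveILetI false

open scoped BigOperators

noncomputable section

namespace Fermat.Agent.Lib.S59

open Matrix MatrixGroups CongruenceSubgroup IsLocalRing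
open Fermat.Agent.Lib.S29 Fermat.Agent.Lib.S48 Fermat.Agent.Lib.S41

section U0

variable {N₀ q : ℕ} [NeZero N₀] [hq : Fact q.Prime] [NeZero (N₀ * q)] (hqN : ¬ q ∣ N₀)
  (R : Type*) [CommRing R]

/-- **the Atkin–Lehner involution `w_q` of the base level `Γ₀(N₀ q)`.** -/
def s59f_sg_u0 : Module.End R (s48h_Hpar R (s48h_GammaH (N₀ * q)
    (⊤ : Subgroup (ZMod (N₀ * q))ˣ)) R) :=
  s59f_wN hqN (s59f_isG'_top hqN) R R

/-- it is helper2's `u` of the base level for every Taylor–Wiles datum. -/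
theorem s59f_sg_u0_eq {D : ℕ} [NeZero (N₀ * D)] [NeZero (N₀ * q * D)] (hqL : ¬ q ∣ N₀ * D)
    (K : Subgroup (ZMod D)ˣ) (e : SL(2, ℤ)) (he' : e ∈ Gamma0 (N₀ * q * D))
    (hee : s59f_gW hqL * e * e ∈
      s48h_GammaH (N₀ * q * D) (s59t_Hmul (N₀ * q) D (⊤ : Subgroup (ZMod (N₀ * q))ˣ) K)) :
    s59b_epm_u0 hqN hqL K R e he' hee = s59f_sg_u0 hqN R :=
  LinearMap.ext fun z => s59b_epm_u0_eq hqN hqL K R e he' hee z

include hqN in
/-- a Taylor–Wiles datum with no prime. -/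
theorem s59f_sg_exists_datum :
    ∃ (D : ℕ) (_ : NeZero (N₀ * D)) (_ : NeZero (N₀ * q * D)) (hqL : ¬ q ∣ N₀ * D)
      (K : Subgroup (ZMod D)ˣ) (e : SL(2, ℤ)) (_ : e ∈ Gamma0 (N₀ * q * D)),
      s59f_gW hqL * e * e ∈
        s48h_GammaH (N₀ * q * D) (s59t_Hmul (N₀ * q) D (⊤ : Subgroup (ZMod (N₀ * q))ˣ) K) := by
  have h1 : (∏ j : Fin 0, (Fin.elim0 j : ℕ)) = 1 := by
    rw [Finset.univ_eq_empty, Finset.prod_empty]
  haveI i1 : NeZero (N₀ * ∏ j : Fin 0, (Fin.elim0 j : ℕ)) := by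
    rw [h1, mul_one]; infer_instance
  haveI i2 : NeZero (N₀ * q * ∏ j : Fin 0, (Fin.elim0 j : ℕ)) := by
    rw [h1, mul_one]; infer_instance
  have hqL : ¬ q ∣ N₀ * ∏ j : Fin 0, (Fin.elim0 j : ℕ) := by
    rw [h1, mul_one]; exact hqN
  obtain ⟨e, he', hee⟩ := s59b_epm_exists_e (N₀ := N₀) (q := q) (fun j : Fin 0 => (Fin.elim0 j : ℕ))
    hqL 1 odd_one
  exact ⟨_, i1, i2, hqL, _, e, he', hee⟩

theorem s59f_sg_u0_u0 (z) : s59f_sg_u0 hqN R (s59f_sg_u0 hqN R z) = z := by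
  obtain ⟨D, i1, i2, hqL, K, e, he', hee⟩ := s59f_sg_exists_datum (N₀ := N₀) (q := q) hqN
  rw [← s59f_sg_u0_eq hqN R hqL K e he' hee]
  exact s59b_epm_u0_u0 hqN hqL K R e he' hee z

theorem s59f_sg_u0_rho (δ : s59t_Delta (N₀ * q) (⊤ : Subgroup (ZMod (N₀ * q))ˣ)) (z) :
    s59f_sg_u0 hqN R (s59t_rho (N₀ * q) (⊤ : Subgroup (ZMod (N₀ * q))ˣ) R R δ z) =
      s59t_rho (N₀ * q) (⊤ : Subgroup (ZMod (N₀ * q))ˣ) R R δ (s59f_sg_u0 hqN R z) := by
  obtain ⟨D, i1, i2, hqL, K, e, he', hee⟩ := s59f_sg_exists_datum (N₀ := N₀) (q := q) hqN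
  rw [← s59f_sg_u0_eq hqN R hqL K e he' hee]
  exact s59b_epm_rho0 hqN hqL K R e he' hee δ z

theorem s59f_sg_u0_wop (x : s59w_AIdx (N₀ * q)) (z) :
    s59f_sg_u0 hqN R (s59w_op (⊤ : Subgroup (ZMod (N₀ * q))ˣ) R x z) =
      s59w_op (⊤ : Subgroup (ZMod (N₀ * q))ˣ) R x (s59f_sg_u0 hqN R z) := by
  obtain ⟨D, i1, i2, hqL, K, e, he', hee⟩ := s59f_sg_exists_datum (N₀ := N₀) (q := q) hqN
  rw [← s59f_sg_u0_eq hqN R hqL K e he' hee]
  exact s59b_epm_wop0 hqN hqL K R e he' hee x z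

end U0

section Triv

variable {Δ : Type*} [Group Δ] [Fintype Δ] [Subsingleton Δ]
  {k : Type*} [CommRing k] {V : Type*} [AddCommGroup V] [Module k V]

/-- over a trivial group a basis gives a bijective evaluation map. -/
theorem s59f_sg_evalMap_bij (ρ : Δ →* Module.End k V) {d : ℕ} (b : Module.Basis (Fin d) k V) :
    Function.Bijective (s59t_evalMap ρ b) := by
  have hform : ∀ c : Fin d → Δ → k, s59t_evalMap ρ b c = ∑ i, c i 1 • b i := by
    intro c
    rw [s59t_evalMap_apply]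
    refine Finset.sum_congr rfl fun i _ => ?_
    rw [Fintype.sum_subsingleton _ (1 : Δ), map_one, Module.End.one_apply]
  constructor
  · intro c c' h
    rw [hform, hform] at h
    have h' : b.equivFun.symm (fun i => c i 1) = b.equivFun.symm (fun i => c' i 1) := by
      rw [Module.Basis.equivFun_symm_apply, Module.Basis.equivFun_symm_apply]
      exact h
    have h2 := b.equivFun.symm.injective h'
    funext i δ
    rw [Subsingleton.elim δ 1]
    exact congrFun h2 i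
  · intro v
    refine ⟨fun i _ => b.repr v i, ?_⟩
    rw [hform]
    exact b.sum_repr v

end Triv

end Fermat.Agent.Lib.S59
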