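/-
PROGRAMME R2 = S59, leaf (c2-c) = [SPEC-T±] (helper4, prefix `s59f_sg_`), part 4b: **THE `T`-SIDE WITH NO RAISING PRIME FOR THE
SIGN CUT `ε₀ e_s` OF THE BASE IDEMPOTENT OF `W`** (`p ≠ 2`, EVEN level `N₀ q`, `q ∤ N₀` prime — `q = 2` in the application).

`ε₀ = s59t_E0 ⊤ B e` the base idempotent of `W` on `H_par(Γ₀(N₀ q), 𝒪)` (`e` with `1 - e ∈ s59t_evalIdeal …`, INPUT — feed the
`e` of the main run), `u₀ = s59f_sg_u0 hqN 𝒪 = w_q` the Atkin–Lehner involution, `e_s = s59b_sgnIdem u₀ s` (`s = ± 1`),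
`ε = ε₀ * e_s ≠ 0`.

* **`s59f_sg_cut_provider`** : the provider of Taylor–Wiles packages for the cut: for every Taylor–Wiles datum `(n, qv)` the
  idempotent `ε′ e_s′` of the level `(N₀ q ∏ qv, H′)` (`ε′` from helper5's `s59ex_W_level`, `e_s′` from helper2's B9EPm.lean,
  the commutation of `ε′` with `u′` from `s59f_oldN_compat_actH` + `s59f_supported_of_LvlX`) and the package
  `s59t_TWFull … (ε₀ e_s) (ε′ e_s′)` (helper2's `s59b_epm_TWFull_cut`);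
* **`s59f_sg_cut_TFin`** : `(Bs : s59f_TBaseF 𝒪 0 D0, HL)` for `ε = ε₀ e_s` in the contract shape of helper3's
  `s59u_sp_unr_pt`, with the exports (E2), (E-conc) of helper1's #3924 (= `s59f_sg_finF3` at the cut).
-/
import Mathlib
import Fermat.Agent.Lib.S59.FSgnT4a
import Fermat.Agent.Lib.S59.EXLvl
import Fermat.Agent.Lib.S59.E3Aux
import Fermat.Agent.Lib.S59.EAuxS37
import Fermat.Agent.Lib.S59.FEps6
import Fermat.Agent.Lib.S59.UWPkg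
import Fermat.Agent.Lib.S59.LFinW1

set_option autoImplicit false
set_option linter.unusedSectionVars false
set_option linter.unusedVariables false
set_option linter.style.haveILetI false
set_option maxHeartbeats 0
set_option synthInstance.maxHeartbeats 400000
set_option maxSynthPendingDepth 3

noncomputable section

namespace Fermat.Agent.Lib.S59

open IsLocalRing CuspForm Polynomial ExtCitation CongruenceSubgroup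
open WeierstrassCurve WeierstrassCurve.Affine WeierstrassCurve.Affine.Point
open Fermat.Agent.Lib.S48 Fermat.Agent.Lib.S44
open scoped MatrixGroups

local notation "Γℚ" => (AlgebraicClosure ℚ ≃ₐ[ℚ] AlgebraicClosure ℚ)

/-- **the provider of Taylor–Wiles packages for the sign cut.** -/
theorem Internal.s59f_sg_cut_provider (p : ℕ) [Fact p.Prime] (hp2 : p ≠ 2) (W : WeierstrassCurve ℤ) (hΔ : W.Δ ≠ 0)
    (N₀ q : ℕ) [NeZero N₀] [hq : Fact q.Prime] [NeZero (N₀ * q)] (hqN : ¬ q ∣ N₀) (B : Finset ℕ)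
    (hirr : W.ModRepIsIrreducible p) (hsq : Squarefree (N₀ * q))
    (hB1 : ∀ r : ℕ, r.Prime → r ∣ N₀ * q * p → r ∈ B)
    (hB2 : ∀ r : ℕ, r.Prime → ¬ W.IsGoodPrimeFor r → r ∈ B)
    (h23 : 2 ∣ N₀ * q)
    (hocc : s44i_LevelOcc (N₀ * q) p (fun ℓ => W.apOfModel ℓ) B)
    (𝒪 : Type) [CommRing 𝒪] [IsDomain 𝒪] [IsDiscreteValuationRing 𝒪]
    [IsAdicComplete (maximalIdeal 𝒪) 𝒪] [Finite (ResidueField 𝒪)] [CharZero 𝒪]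
    [Algebra ℤ_[p] 𝒪] [Module.Finite ℤ_[p] 𝒪] [Invertible (2 : 𝒪)]
    (hp𝒪 : ((p : ℕ) : 𝒪) ∈ maximalIdeal 𝒪)
    -- the base idempotent of `W`
    (e : MvPolynomial ↥(s59t_goodB (N₀ * q) B) 𝒪)
    (h1e : 1 - e ∈ s59t_evalIdeal (fun x : ↥(s59t_goodB (N₀ * q) B) =>
      s59t_cB (𝒪 := 𝒪) (N₀ * q) (fun ℓ => W.apOfModel ℓ) (x : s59w_AIdx (N₀ * q))))
    (hid : s59t_E0 (⊤ : Subgroup (ZMod (N₀ * q))ˣ) B e * s59t_E0 ⊤ B e = s59t_E0 ⊤ B e)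
    (hnil : ∀ x ∈ s59t_goodB (N₀ * q) B, ∃ k : ℕ,
      ∀ y : s48h_Hpar 𝒪 (s48h_GammaH (N₀ * q) (⊤ : Subgroup (ZMod (N₀ * q))ˣ)) 𝒪,
      ((s59w_op (⊤ : Subgroup (ZMod (N₀ * q))ˣ) 𝒪 x - s59t_cB (𝒪 := 𝒪) (N₀ * q) (fun ℓ => W.apOfModel ℓ) x •
        (1 : Module.End 𝒪 (s48h_Hpar 𝒪 (s48h_GammaH (N₀ * q) (⊤ : Subgroup (ZMod (N₀ * q))ˣ)) 𝒪))) ^ k)
        (s59t_E0 ⊤ B e y) ∈ (maximalIdeal 𝒪 • ⊤ :
          Submodule 𝒪 (s48h_Hpar 𝒪 (s48h_GammaH (N₀ * q) (⊤ : Subgroup (ZMod (N₀ * q))ˣ)) 𝒪)))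
    -- the sign
    (s : 𝒪) (hs : s * s = 1)
    (n r : ℕ) (qv : Fin r → ℕ) [NeZero (∏ j, qv j)] [NeZero (N₀ * q * ∏ j, qv j)]
    (hqinj : Function.Injective qv)
    (hqv : ∀ i, (qv i).Prime ∧ qv i ∉ B ∧ p ^ (n + 1) ∣ qv i - 1)
    (hTW : ∀ i, ∀ A : ValuationSubring (AlgebraicClosure ℚ), A.LiesOverPrime (qv i) →
      ∀ φ : Γℚ, A.IsFrobeniusAt φ (qv i) →
        ∃ α β : ResidueField 𝒪, α ≠ β ∧
          LinearMap.charpoly ((s59i_rhobarW W p hΔ 𝒪 hp𝒪).ρ φ) = (X - C α) * (X - C β)) :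
    ∃ ε' : Module.End 𝒪 (s48h_Hpar 𝒪 (s48h_GammaH (N₀ * q * ∏ j, qv j) (s59t_Hmul (N₀ * q) (∏ j, qv j) (⊤ : Subgroup (ZMod (N₀ * q))ˣ) (s59t_KQ (p ^ n) qv))) 𝒪),
      ε' * ε' = ε' ∧
      (∀ jdx : s59w_AIdx (N₀ * q * ∏ j, qv j), ε' * s59w_op (s59t_Hmul (N₀ * q) (∏ j, qv j) (⊤ : Subgroup (ZMod (N₀ * q))ˣ) (s59t_KQ (p ^ n) qv)) 𝒪 jdx = s59w_op (s59t_Hmul (N₀ * q) (∏ j, qv j) (⊤ : Subgroup (ZMod (N₀ * q))ˣ) (s59t_KQ (p ^ n) qv)) 𝒪 jdx * ε') ∧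
      (∀ x ∈ s59t_goodB (N₀ * q * ∏ j, qv j) B, ∃ k : ℕ,
        ∀ y : s48h_Hpar 𝒪 (s48h_GammaH (N₀ * q * ∏ j, qv j) (s59t_Hmul (N₀ * q) (∏ j, qv j) (⊤ : Subgroup (ZMod (N₀ * q))ˣ) (s59t_KQ (p ^ n) qv))) 𝒪,
        ((s59w_op (s59t_Hmul (N₀ * q) (∏ j, qv j) (⊤ : Subgroup (ZMod (N₀ * q))ˣ) (s59t_KQ (p ^ n) qv)) 𝒪 x -
          s59t_cB (𝒪 := 𝒪) (N₀ * q * ∏ j, qv j) (fun ℓ => W.apOfModel ℓ) x •
            (1 : Module.End 𝒪 (s48h_Hpar 𝒪 (s48h_GammaH (N₀ * q * ∏ j, qv j) (s59t_Hmul (N₀ * q) (∏ j, qv j) (⊤ : Subgroup (ZMod (N₀ * q))ˣ) (s59t_KQ (p ^ n) qv))) 𝒪))) ^ k)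
          (ε' y) ∈ (maximalIdeal 𝒪 • ⊤ :
            Submodule 𝒪 (s48h_Hpar 𝒪 (s48h_GammaH (N₀ * q * ∏ j, qv j) (s59t_Hmul (N₀ * q) (∏ j, qv j) (⊤ : Subgroup (ZMod (N₀ * q))ˣ) (s59t_KQ (p ^ n) qv))) 𝒪))) ∧
      s59t_TWFull (s59t_Gamma0_anti (s59t_dvd_mul_left' (N₀ * q) (∏ j, qv j)))
        (s59t_GammaHmul_le (N := N₀ * q) (D := ∏ j, qv j) (H := (⊤ : Subgroup (ZMod (N₀ * q))ˣ)) (K := s59t_KQ (p ^ n) qv))
        (s59t_BQ (N₀ * q) (∏ j, qv j) (⊤ : Subgroup (ZMod (N₀ * q))ˣ) (s59t_KQ (p ^ n) qv))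
        (s59t_CQ (N₀ * q) (∏ j, qv j) (⊤ : Subgroup (ZMod (N₀ * q))ˣ) (s59t_KQ (p ^ n) qv))
        (s59t_E0 (⊤ : Subgroup (ZMod (N₀ * q))ˣ) B e * s59b_sgnIdem (s59f_sg_u0 hqN 𝒪) s) ε' := by
  have hpP : p.Prime := Fact.out
  have hNB : ∀ q' : ℕ, q'.Prime → q' ∣ N₀ * q → q' ∈ B := fun q' hq' h =>
    hB1 q' hq' (Dvd.dvd.mul_right h p)
  have hpB : p ∈ B := hB1 p hpP (Dvd.intro_left (N₀ * q) rfl)
  have hgoodB : ∀ q' : ℕ, q'.Prime → q' ∉ B → W.IsGoodPrimeFor q' := by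
    intro q' hq' hqB
    by_contra hbad
    exact hqB (hB2 q' hq' hbad)
  have htors : s59e_auxTors p (N₀ * q) := s59e3_auxTors_even hpP hp2 h23
  have hN1 : 1 < N₀ * q := by
    have := Nat.le_of_dvd (Nat.pos_of_ne_zero (NeZero.ne (N₀ * q))) h23
    omega
  have hnegH : (-1 : (ZMod (N₀ * q))ˣ) ∈ (⊤ : Subgroup (ZMod (N₀ * q))ˣ) := Subgroup.mem_top _
  have hH : ∀ u : (ZMod (N₀ * q))ˣ, ∃ k : ℕ, u ^ (p ^ k) ∈ (⊤ : Subgroup (ZMod (N₀ * q))ˣ) :=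
    fun u => ⟨0, Subgroup.mem_top _⟩
  have S37 := s59e_aux_S37H_pgroup hsq hN1 hnegH (Or.inl h23) htors hH
  have hqvpr : ∀ i, (qv i).Prime := fun i => (hqv i).1
  haveI : NeZero (N₀ * ∏ j, qv j) := s59u_neZero_level qv N₀ hqvpr
  have hqB : q ∈ B := hNB q hq.out (Dvd.intro_left N₀ rfl)
  have hqne : ∀ i, q ≠ qv i := fun i h => (hqv i).2.1 (h ▸ hqB)
  have hqL : ¬ q ∣ N₀ * ∏ j, qv j := by
    intro h
    rcases (Nat.Prime.dvd_mul hq.out).mp h with h | h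
    · exact hqN h
    · obtain ⟨i, -, hi⟩ := (Prime.dvd_finsetProd_iff (Nat.prime_iff.mp hq.out) _).mp h
      exact hqne i ((Nat.prime_dvd_prime_iff_eq hq.out (hqvpr i)).mp hi)
  have hqLq : q ∉ List.ofFn qv := by
    rw [List.mem_ofFn]
    rintro ⟨i, hi⟩
    exact hqne i hi.symm
  -- the Taylor–Wiles level of `W`
  obtain ⟨aq, bq, harith, hcong⟩ :=
    s59u_W_TW_arith_fam W hΔ p hirr B hpB hgoodB (𝒪 := 𝒪) hp𝒪 n qv hp2 hqinj hqv hTW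
  obtain ⟨e₁, G, h1e₁, hunit', hid', hnil', hP1, hX⟩ :=
    s59ex_W_level W hΔ p hirr (N₀ * q) hsq B hpB hNB hgoodB hocc hp𝒪
      (⊤ : Subgroup (ZMod (N₀ * q))ˣ) hnegH hH n qv htors hN1 S37 hqinj hqv hTW e h1e hid hnil
      aq bq harith hcong
  -- the sign involutions
  obtain ⟨eW, heW', heeW⟩ := s59b_epm_exists_e (N₀ := N₀) (q := q) qv hqL (p ^ n)
    ((hpP.odd_of_ne_two hp2).pow)
  have hu0 := s59f_sg_u0_eq hqN 𝒪 hqL (s59t_KQ (p ^ n) qv) eW heW' heeW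
  -- `ε₀` commutes with `u₀`
  have huε : ∀ y, s59t_E0 (⊤ : Subgroup (ZMod (N₀ * q))ˣ) B e (s59f_sg_u0 hqN 𝒪 y) =
      s59f_sg_u0 hqN 𝒪 (s59t_E0 (⊤ : Subgroup (ZMod (N₀ * q))ˣ) B e y) := fun y =>
    (s59t_polyAct_commute
      (fun x : ↥(s59t_goodB (N₀ * q) B) =>
        s59w_op (⊤ : Subgroup (ZMod (N₀ * q))ˣ) 𝒪 (x : s59w_AIdx (N₀ * q)))
      (fun x y => s59w_op_comm (⊤ : Subgroup (ZMod (N₀ * q))ˣ) 𝒪 _ _) (s59f_sg_u0 hqN 𝒪)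
      (fun x z => s59f_sg_u0_wop hqN 𝒪 (x : s59w_AIdx (N₀ * q)) z) e y).symm
  -- `ε′` commutes with `u′`
  have hsupp := s59f_supported_of_LvlX (q := q) aq (List.ofFn qv) hqLq hX
  have huε' := (s59f_oldN_compat_actH (R := 𝒪) hqL s59f_hN'_TW
    (s59b_epm_isG' hqL (s59t_KQ (p ^ n) qv)) eW heW' heeW (s59f_dvd_TW (q := q))
    (dvd_refl (N₀ * q * ∏ j, qv j)) aq hsupp).w
  -- the diamond group of the level is a `p`-group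
  obtain ⟨hCB, g, hcard, hgen, hord, hgloc⟩ :=
    s59u_W_level_grp p (N₀ * q) hsq B hNB (⊤ : Subgroup (ZMod (N₀ * q))ˣ) n qv hqinj hqv
  have hΔ' : ∀ δ : s59t_Delta (N₀ * q * ∏ j, qv j)
      (s59t_Hmul (N₀ * q) (∏ j, qv j) (⊤ : Subgroup (ZMod (N₀ * q))ˣ) (s59t_KQ (p ^ n) qv)),
      ∃ m : ℕ, δ ^ (p ^ m) = 1 := by
    intro δ
    refine ⟨n * r, ?_⟩
    have hδB := s59f_BQ_top (N₀ * q) (∏ j, qv j) (s59t_KQ (p ^ n) qv) δ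
    have h1 : (⟨δ, hδB⟩ : s59t_BQ (N₀ * q) (∏ j, qv j) (⊤ : Subgroup (ZMod (N₀ * q))ˣ)
        (s59t_KQ (p ^ n) qv)) ^ Nat.card (s59t_BQ (N₀ * q) (∏ j, qv j)
          (⊤ : Subgroup (ZMod (N₀ * q))ˣ) (s59t_KQ (p ^ n) qv)) = 1 := pow_card_eq_one'
    rw [hcard, ← pow_mul] at h1
    have h2 := congrArg Subtype.val h1
    rwa [Subgroup.coe_pow] at h2
  -- the cut package
  have hcut := s59b_epm_TWFull_cut hqN hqL (s59t_KQ (p ^ n) qv) eW heW' heeW hp𝒪 hΔ'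
    (s59t_Gamma0_anti (s59t_dvd_mul_left' (N₀ * q) (∏ j, qv j)))
    (s59t_BQ (N₀ * q) (∏ j, qv j) (⊤ : Subgroup (ZMod (N₀ * q))ˣ) (s59t_KQ (p ^ n) qv))
    (s59t_CQ (N₀ * q) (∏ j, qv j) (⊤ : Subgroup (ZMod (N₀ * q))ˣ) (s59t_KQ (p ^ n) qv))
    (s59t_E0 (⊤ : Subgroup (ZMod (N₀ * q))ˣ) B e) _ hP1
    (by rw [hu0]; exact huε) huε' s hs
  rw [hu0] at hcut
  refine ⟨_, s59b_epm_cut_idem hqL (s59t_KQ (p ^ n) qv) eW heW' heeW _ hid' huε' s hs,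
    fun jdx => s59b_epm_cut_wop hqL (s59t_KQ (p ^ n) qv) eW heW' heeW _
      (fun jdx => s59t_actH_comm_op _ aq _ jdx) s jdx, ?_, hcut⟩
  intro x hx
  obtain ⟨k, hk⟩ := hnil' x hx
  exact ⟨k, fun y => hk _⟩

end Fermat.Agent.Lib.S59
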