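/-
PROGRAMME R2 = S59, leaf (c2-c) = [SPEC-T±], TRÈS/STRICT twin (helper4, prefix `s59f_sgs_`), part 4: **THE `T`-SIDE WITH NO RAISING
PRIME FOR THE SIGN CUT `ε₀ e_s` OF THE BASE IDEMPOTENT OF `W`, STRICT-ORDINARY TYPE, `p ∥ N₀ q`** (`p ≠ 2`, EVEN level `N₀ q`,
`q ∤ N₀` prime — `q = 2` in the application; `ρ̄_W` très ramifié at `p`): scripted twin of FSgnT4.lean (the provider of
Taylor–Wiles packages `Internal.s59f_sg_cut_provider`, FSgnT4b.lean, is independent of the type and of `p ∣ level`).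

* **`Internal.s59f_sgs_cut_TFin`** : the twin of `Internal.s59f_sg_cut_TFin`.
-/
import Mathlib
import Fermat.Agent.Lib.S59.FSgnS3
import Fermat.Agent.Lib.S59.FSgnT4a
import Fermat.Agent.Lib.S59.FSgnT4b
import Fermat.Agent.Lib.S59.EXLvl
import Fermat.Agent.Lib.S59.E3Aux
import Fermat.Agent.Lib.S59.EAuxS37
import Fermat.Agent.Lib.S59.FEps6

set_option autoImplicit false
set_option linter.unusedSectionVars false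
set_option linter.unusedVariables false
set_option linter.style.haveILetI false
set_option maxHeartbeats 0
set_option synthInstance.maxHeartbeats 400000
set_option maxSynthPendingDepth 3

noncomputable section

namespace Fermat.Agent.Lib.S59

open IsLocalRing CuspForm Polynomial ExtCitation CongruenceSubgroup
open WeierstrassCurve WeierstrassCurve.Affine WeierstrassCurve.Affine.Point
open Fermat.Agent.Lib.S48 Fermat.Agent.Lib.S44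
open scoped MatrixGroups

local notation "Γℚ" => (AlgebraicClosure ℚ ≃ₐ[ℚ] AlgebraicClosure ℚ)

/-- **[SPEC-T±], `k = 0`: the `T`-side with no raising prime for the sign cut `ε₀ e_s`**, in the contract shape of helper3's
`s59u_sp_unr_pt`, with the exports (E2), (E-conc) of helper1's #3924. -/
theorem Internal.s59f_sgs_cut_TFin (p : ℕ) [Fact p.Prime] (hp2 : p ≠ 2) (W : WeierstrassCurve ℤ) (hΔ : W.Δ ≠ 0)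
    (N₀ q : ℕ) [NeZero N₀] [hq : Fact q.Prime] [NeZero (N₀ * q)] (hqN : ¬ q ∣ N₀) (B : Finset ℕ)
    (hirr : W.ModRepIsIrreducible p) (hsq : Squarefree (N₀ * q)) (hpN : p ∣ N₀ * q)
    (hbadp : (p : ℤ) ∣ W.Δ) (hc4p : ¬ (p : ℤ) ∣ W.c₄)
    (hpeu : ¬ (W.map (Int.castRingHom ℚ)).IsPeuRamifieeAt p p)
    (hB1 : ∀ r : ℕ, r.Prime → r ∣ N₀ * q * p → r ∈ B)
    (hB2 : ∀ r : ℕ, r.Prime → ¬ W.IsGoodPrimeFor r → r ∈ B)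
    (h23 : 2 ∣ N₀ * q)
    (hocc : s44i_LevelOcc (N₀ * q) p (fun ℓ => W.apOfModel ℓ) B)
    (𝒪 : Type) [CommRing 𝒪] [IsDomain 𝒪] [IsDiscreteValuationRing 𝒪]
    [IsAdicComplete (maximalIdeal 𝒪) 𝒪] [Finite (ResidueField 𝒪)] [CharZero 𝒪]
    [Algebra ℤ_[p] 𝒪] [Module.Finite ℤ_[p] 𝒪] [Invertible (2 : 𝒪)]
    (hp𝒪 : ((p : ℕ) : 𝒪) ∈ maximalIdeal 𝒪)
    -- the type
    (Sg Su Smin : Finset ℕ) (hpSg : p ∈ Sg)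
    (hSg : ∀ q' : ℕ, q'.Prime → q' ∣ N₀ * q →
      q' ∈ Sg ∨ s59e3q_E2Alt p (s59i_rhobarW W p hΔ 𝒪 hp𝒪) q')
    (hmin : ∀ q' : ℕ, q'.Prime → q' ≠ p →
      (q' ∈ Smin ↔ ¬ (s59i_rhobarW W p hΔ 𝒪 hp𝒪).IsUnramifiedAt q'))
    (hSuB : ∀ q' ∈ Su, q' ∈ Smin ∨ q' ∈ B)
    (D0 : GaloisRep.DeformationRingData 𝒪 (s59i_rhobarW W p hΔ 𝒪 hp𝒪) (fun _A _ _ _ ρ =>
      GaloisRep.strictOrdinaryCondition 𝒪 p Sg ρ ∧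
        ∀ q' ∈ Su, q'.Prime → q' ≠ p → ρ.IsUnipotentOnInertiaAt q'))
    -- the base idempotent of `W`
    (e : MvPolynomial ↥(s59t_goodB (N₀ * q) B) 𝒪)
    (h1e : 1 - e ∈ s59t_evalIdeal (fun x : ↥(s59t_goodB (N₀ * q) B) =>
      s59t_cB (𝒪 := 𝒪) (N₀ * q) (fun ℓ => W.apOfModel ℓ) (x : s59w_AIdx (N₀ * q))))
    (hid : s59t_E0 (⊤ : Subgroup (ZMod (N₀ * q))ˣ) B e * s59t_E0 ⊤ B e = s59t_E0 ⊤ B e)
    (hnil : ∀ x ∈ s59t_goodB (N₀ * q) B, ∃ k : ℕ,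
      ∀ y : s48h_Hpar 𝒪 (s48h_GammaH (N₀ * q) (⊤ : Subgroup (ZMod (N₀ * q))ˣ)) 𝒪,
      ((s59w_op (⊤ : Subgroup (ZMod (N₀ * q))ˣ) 𝒪 x - s59t_cB (𝒪 := 𝒪) (N₀ * q) (fun ℓ => W.apOfModel ℓ) x •
        (1 : Module.End 𝒪 (s48h_Hpar 𝒪 (s48h_GammaH (N₀ * q) (⊤ : Subgroup (ZMod (N₀ * q))ˣ)) 𝒪))) ^ k)
        (s59t_E0 ⊤ B e y) ∈ (maximalIdeal 𝒪 • ⊤ :
          Submodule 𝒪 (s48h_Hpar 𝒪 (s48h_GammaH (N₀ * q) (⊤ : Subgroup (ZMod (N₀ * q))ˣ)) 𝒪)))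
    -- the sign
    (s : 𝒪) (hs : s * s = 1)
    (hne : s59t_E0 (⊤ : Subgroup (ZMod (N₀ * q))ˣ) B e * s59b_sgnIdem (s59f_sg_u0 hqN 𝒪) s ≠ 0)
    (qr : ℕ → ℕ) (φr σr : ℕ → Γℚ) :
    ∃ (Bs : s59f_TBaseF 𝒪 0 D0)
      (act : Bs.R 0 →ₐ[𝒪] Module.End 𝒪 (LinearMap.range
        (s59t_E0 (⊤ : Subgroup (ZMod (N₀ * q))ˣ) B e * s59b_sgnIdem (s59f_sg_u0 hqN 𝒪) s))),
      Function.Injective act ∧
      (∀ a : Bs.R 0, (∀ mm : Bs.M 0, a • mm = 0) → a = 0) ∧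
      (∀ t : Bs.R 0, ∃ P : MvPolynomial ↥(s59t_goodB (N₀ * q) B) 𝒪,
        ∀ z : LinearMap.range
          (s59t_E0 (⊤ : Subgroup (ZMod (N₀ * q))ˣ) B e * s59b_sgnIdem (s59f_sg_u0 hqN 𝒪) s),
          ((act t z : LinearMap.range
              (s59t_E0 (⊤ : Subgroup (ZMod (N₀ * q))ˣ) B e * s59b_sgnIdem (s59f_sg_u0 hqN 𝒪) s)) :
            s48h_Hpar 𝒪 (s48h_GammaH (N₀ * q) (⊤ : Subgroup (ZMod (N₀ * q))ˣ)) 𝒪) =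
            s59t_E0 (⊤ : Subgroup (ZMod (N₀ * q))ˣ) B P
              (z : s48h_Hpar 𝒪 (s48h_GammaH (N₀ * q) (⊤ : Subgroup (ZMod (N₀ * q))ˣ)) 𝒪)) ∧
      (∀ (ℓ : ℕ), ℓ.Prime → ℓ ∉ B →
        ∀ A : ValuationSubring (AlgebraicClosure ℚ), A.LiesOverPrime ℓ →
        ∀ g : Γℚ, A.IsFrobeniusAt g ℓ → ∀ i : s59w_TIdx (N₀ * q), i.ell = ℓ →
        ∀ z : LinearMap.range
          (s59t_E0 (⊤ : Subgroup (ZMod (N₀ * q))ˣ) B e * s59b_sgnIdem (s59f_sg_u0 hqN 𝒪) s),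
          ((act (s59i_cpTr (Bs.ρR 0) g) z : LinearMap.range
              (s59t_E0 (⊤ : Subgroup (ZMod (N₀ * q))ˣ) B e * s59b_sgnIdem (s59f_sg_u0 hqN 𝒪) s)) :
            s48h_Hpar 𝒪 (s48h_GammaH (N₀ * q) (⊤ : Subgroup (ZMod (N₀ * q))ˣ)) 𝒪) =
          s59w_op (⊤ : Subgroup (ZMod (N₀ * q))ˣ) 𝒪 (Sum.inl i)
            (z : s48h_Hpar 𝒪 (s48h_GammaH (N₀ * q) (⊤ : Subgroup (ZMod (N₀ * q))ˣ)) 𝒪)) ∧
      s59e_HkFrobP (N₀ * q) (↑B : Set ℕ) (Bs.R 0) (Bs.ρR 0) ∧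
      ∀ (r : ℕ) (σ : Type) [DecidableEq σ] [Fintype σ] (n : ℕ) (qv : Fin r → ℕ),
        Function.Injective qv →
        (∀ i, (qv i).Prime ∧ qv i ∉ B ∧ p ^ (n + 1) ∣ qv i - 1) →
        (∀ i, ∀ A : ValuationSubring (AlgebraicClosure ℚ), A.LiesOverPrime (qv i) →
          ∀ φ : Γℚ, A.IsFrobeniusAt φ (qv i) →
            ∃ α β : ResidueField 𝒪, α ≠ β ∧
              LinearMap.charpoly ((s59i_rhobarW W p hΔ 𝒪 hp𝒪).ρ φ) = (X - C α) * (X - C β)) →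
        ∀ DQ : GaloisRep.DeformationRingData 𝒪 (s59i_rhobarW W p hΔ 𝒪 hp𝒪) (fun _A _ _ _ ρ =>
          GaloisRep.strictOrdinaryCondition 𝒪 p (Sg ∪ Finset.univ.image qv) ρ ∧
            ∀ q' ∈ Su, q'.Prime → q' ≠ p → ρ.IsUnipotentOnInertiaAt q'),
          Nonempty (s59f_TLevelF 𝒪 p n r σ 0 Bs qv qr φr σr DQ) := by
  have hpP : p.Prime := Fact.out
  -- `ε₀` commutes with `u₀`
  have huε : ∀ y, s59t_E0 (⊤ : Subgroup (ZMod (N₀ * q))ˣ) B e (s59f_sg_u0 hqN 𝒪 y) =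
      s59f_sg_u0 hqN 𝒪 (s59t_E0 (⊤ : Subgroup (ZMod (N₀ * q))ˣ) B e y) := fun y =>
    (s59t_polyAct_commute
      (fun x : ↥(s59t_goodB (N₀ * q) B) =>
        s59w_op (⊤ : Subgroup (ZMod (N₀ * q))ˣ) 𝒪 (x : s59w_AIdx (N₀ * q)))
      (fun x y => s59w_op_comm (⊤ : Subgroup (ZMod (N₀ * q))ˣ) 𝒪 _ _) (s59f_sg_u0 hqN 𝒪)
      (fun x z => s59f_sg_u0_wop hqN 𝒪 (x : s59w_AIdx (N₀ * q)) z) e y).symm
  -- the cut idempotent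
  have hidε : (s59t_E0 (⊤ : Subgroup (ZMod (N₀ * q))ˣ) B e * s59b_sgnIdem (s59f_sg_u0 hqN 𝒪) s) *
      (s59t_E0 (⊤ : Subgroup (ZMod (N₀ * q))ˣ) B e * s59b_sgnIdem (s59f_sg_u0 hqN 𝒪) s) =
      s59t_E0 (⊤ : Subgroup (ZMod (N₀ * q))ˣ) B e * s59b_sgnIdem (s59f_sg_u0 hqN 𝒪) s :=
    s59b_cut_idem hid (s59b_sgnIdem_idem (s59f_sg_u0_u0 hqN 𝒪) hs)
      (s59b_sgnIdem_comm _ huε s)
  have hεc : ∀ jdx : s59w_AIdx (N₀ * q),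
      (s59t_E0 (⊤ : Subgroup (ZMod (N₀ * q))ˣ) B e * s59b_sgnIdem (s59f_sg_u0 hqN 𝒪) s) *
        s59w_op (⊤ : Subgroup (ZMod (N₀ * q))ˣ) 𝒪 jdx =
      s59w_op (⊤ : Subgroup (ZMod (N₀ * q))ˣ) 𝒪 jdx *
        (s59t_E0 (⊤ : Subgroup (ZMod (N₀ * q))ˣ) B e * s59b_sgnIdem (s59f_sg_u0 hqN 𝒪) s) :=
    fun jdx => s59b_cut_mul_comm (s59e_E0_comm_op _ B e jdx)
      (s59b_sgnIdem_mul_comm (fun z => (s59f_sg_u0_wop hqN 𝒪 jdx z).symm) s)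
  have hnilε : ∀ x ∈ s59t_goodB (N₀ * q) B, ∃ k : ℕ,
      ∀ y : s48h_Hpar 𝒪 (s48h_GammaH (N₀ * q) (⊤ : Subgroup (ZMod (N₀ * q))ˣ)) 𝒪,
      ((s59w_op (⊤ : Subgroup (ZMod (N₀ * q))ˣ) 𝒪 x - s59t_cB (𝒪 := 𝒪) (N₀ * q) (fun ℓ => W.apOfModel ℓ) x •
        (1 : Module.End 𝒪 (s48h_Hpar 𝒪 (s48h_GammaH (N₀ * q) (⊤ : Subgroup (ZMod (N₀ * q))ˣ)) 𝒪))) ^ k)
        ((s59t_E0 (⊤ : Subgroup (ZMod (N₀ * q))ˣ) B e * s59b_sgnIdem (s59f_sg_u0 hqN 𝒪) s) y) ∈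
        (maximalIdeal 𝒪 • ⊤ :
          Submodule 𝒪 (s48h_Hpar 𝒪 (s48h_GammaH (N₀ * q) (⊤ : Subgroup (ZMod (N₀ * q))ˣ)) 𝒪)) := by
    intro x hx
    obtain ⟨k, hk⟩ := hnil x hx
    exact ⟨k, fun y => hk _⟩
  have hρε : ∀ δ y, (s59t_E0 (⊤ : Subgroup (ZMod (N₀ * q))ˣ) B e * s59b_sgnIdem (s59f_sg_u0 hqN 𝒪) s)
      (s59t_rho (N₀ * q) (⊤ : Subgroup (ZMod (N₀ * q))ˣ) 𝒪 𝒪 δ y) =
      s59t_rho (N₀ * q) (⊤ : Subgroup (ZMod (N₀ * q))ˣ) 𝒪 𝒪 δ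
        ((s59t_E0 (⊤ : Subgroup (ZMod (N₀ * q))ˣ) B e * s59b_sgnIdem (s59f_sg_u0 hqN 𝒪) s) y) := by
    intro δ y
    rw [Subsingleton.elim δ 1, map_one]
    rfl
  -- a basis of the cut part
  let bZ₀ := Module.Free.chooseBasis ℤ (s48h_M (s48h_GammaH (N₀ * q) (⊤ : Subgroup (ZMod (N₀ * q))ˣ)))
  haveI : Module.Free 𝒪 (s48h_Hpar 𝒪 (s48h_GammaH (N₀ * q) (⊤ : Subgroup (ZMod (N₀ * q))ˣ)) 𝒪) :=
    Module.Free.of_basis (s59u_cB bZ₀ 𝒪)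
  haveI : Module.Finite 𝒪 (s48h_Hpar 𝒪 (s48h_GammaH (N₀ * q) (⊤ : Subgroup (ZMod (N₀ * q))ˣ)) 𝒪) :=
    Module.Finite.of_basis (s59u_cB bZ₀ 𝒪)
  haveI : Module.Finite 𝒪 (LinearMap.range
      (s59t_E0 (⊤ : Subgroup (ZMod (N₀ * q))ˣ) B e * s59b_sgnIdem (s59f_sg_u0 hqN 𝒪) s)) :=
    s59t_part_finite _
  haveI : Module.Free 𝒪 (LinearMap.range
      (s59t_E0 (⊤ : Subgroup (ZMod (N₀ * q))ˣ) B e * s59b_sgnIdem (s59f_sg_u0 hqN 𝒪) s)) :=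
    s59t_part_free hidε
  exact Internal.s59f_sgs_finF3 p hp2 W hΔ (N₀ * q) B hirr hsq hpN hbadp hc4p hpeu hB1 hB2 h23 𝒪 hp𝒪 Sg Su Smin hpSg hSg hmin
    hSuB D0 _ hidε hne hεc hnilε hρε _ _
    (s59f_sg_evalMap_bij (s59t_partRep (s59t_rho (N₀ * q) (⊤ : Subgroup (ZMod (N₀ * q))ˣ) 𝒪 𝒪) hρε)
      (Module.finBasis 𝒪 (LinearMap.range
        (s59t_E0 (⊤ : Subgroup (ZMod (N₀ * q))ˣ) B e * s59b_sgnIdem (s59f_sg_u0 hqN 𝒪) s))))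
    (fun n r qv _ _ hqinj hqv hTW =>
      Internal.s59f_sg_cut_provider p hp2 W hΔ N₀ q hqN B hirr hsq hB1 hB2 h23 hocc 𝒪 hp𝒪 e h1e hid hnil s hs
        n r qv hqinj hqv hTW)
    qr φr σr

end Fermat.Agent.Lib.S59
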