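/-
PROGRAMME R2 = S59, leaf (c2-c) = [SPEC-T±], TRÈS/STRICT twin (helper4, prefix `s59f_sgs_`), part 5: **THE FINAL STRICT `T`-SIDE
STATEMENT OF THE CUT RUN AT THE SPECTATOR `2`** = the body of helper6's `s59q_sp_TFinCut p W hΔ 2` (QSSpM.lean), with only the
hypotheses used.  Scripted twin of FSgnT5.lean.

Level `N₀` (even, squarefree, `p ∥ N₀`, `p ≠ 2`, `ρ̄_W` très ramifié at `p`), spectator `2 ∣ N₀`, `ρ̄` modular of level `N₀ / 2`,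
sign `εs = ± 1`; module `Y′ = ε₀ e_{w₂ = εs} H_par(Γ₀(N₀), 𝒪)`, NO raising (`k = 0`), type `Σ_min ∪ (∅ ∪ {2})`, strict-ordinary
at `p`.  Output:
* `Bss : s59f_TBaseF 𝒪 0 Ds` and ALL its Taylor–Wiles levels (`Internal.s59f_sgs_cut_TFin`, FSgnS4.lean);
* the `2`-old point of `Y′` off `St_±` and **(hnoT)** (helper1's `s59pt_cut_oldH`, GPtCutH.lean).
-/
import Mathlib
import Fermat.Agent.Lib.S59.FSgnS4
import Fermat.Agent.Lib.S59.FSgnT5a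
import Fermat.Agent.Lib.S59.ELMin
import Fermat.Agent.Lib.S59.EWPkg
import Fermat.Agent.Lib.S56.ZPre

set_option autoImplicit false
set_option linter.unusedSectionVars false
set_option linter.unusedVariables false
set_option linter.style.haveILetI false
set_option maxHeartbeats 0
set_option synthInstance.maxHeartbeats 400000
set_option maxSynthPendingDepth 3

noncomputable section

namespace Fermat.Agent.Lib.S59

open IsLocalRing CuspForm Polynomial ExtCitation CongruenceSubgroup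
open WeierstrassCurve WeierstrassCurve.Affine WeierstrassCurve.Affine.Point
open Fermat.Agent.Lib.S48 Fermat.Agent.Lib.S44
open scoped MatrixGroups

local notation "Γℚ" => (AlgebraicClosure ℚ ≃ₐ[ℚ] AlgebraicClosure ℚ)

/-- **[SPEC-T±] at the spectator `2`: the final `T`-side statement of the cut run.** -/
theorem Internal.s59f_sgs_TFinCut2 (p : ℕ) [Fact p.Prime] (W : WeierstrassCurve ℤ) (hΔ : W.Δ ≠ 0)
    (hp2 : p ≠ 2) (B : Finset ℕ) (hirr : W.ModRepIsIrreducible p)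
    (hbadp : (p : ℤ) ∣ W.Δ) (hc4p : ¬ (p : ℤ) ∣ W.c₄)
    (hpeu : ¬ (W.map (Int.castRingHom ℚ)).IsPeuRamifieeAt p p)
    (hB2 : ∀ r : ℕ, r.Prime → ¬ W.IsGoodPrimeFor r → r ∈ B)
    (𝒪 : Type) [CommRing 𝒪] [IsDomain 𝒪] [IsDiscreteValuationRing 𝒪]
    [IsAdicComplete (maximalIdeal 𝒪) 𝒪] [Finite (ResidueField 𝒪)] [CharZero 𝒪]
    [Algebra ℤ_[p] 𝒪] [Module.Finite ℤ_[p] 𝒪]
    (hp𝒪 : ((p : ℕ) : 𝒪) ∈ maximalIdeal 𝒪)
    -- the level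
    (N₀ : ℕ) (hNZ : NeZero N₀) (hsq : Squarefree N₀) (hpN : p ∣ N₀) (h2 : 2 ∣ N₀)
    (hB1 : ∀ r : ℕ, r.Prime → r ∣ N₀ * p → r ∈ B)
    (hocc : Fermat.Agent.Lib.S44.s44i_LevelOcc N₀ p (fun ℓ => W.apOfModel ℓ) B)
    -- the spectator
    (hs : (2 : ℕ).Prime)
    (hold : W.IsResiduallyModularOfLevel p (N₀ / 2))
    (φs σs : Γℚ)
    (hφs : (primeLocalPlace ⟨2, hs⟩).IsFrobeniusAt φs 2)
    (εs : 𝒪) (hεs : εs = 1 ∨ εs = -1)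
    -- the type `Σ_min ∪ (∅ ∪ {2})`
    (Smin : Finset ℕ) (hpSmin : p ∈ Smin)
    (hmin : ∀ q : ℕ, q.Prime → q ≠ p →
      (q ∈ Smin ↔ ¬ (s59i_rhobarW W p hΔ 𝒪 hp𝒪).IsUnramifiedAt q))
    (hNmin : ∀ q : ℕ, q.Prime → q ∣ N₀ → q ≠ 2 → q ∈ Smin)
    (Ds : GaloisRep.DeformationRingData 𝒪 (s59i_rhobarW W p hΔ 𝒪 hp𝒪) (fun _A _ _ _ ρ =>
      GaloisRep.strictOrdinaryCondition 𝒪 p (Smin ∪ ((∅ : Finset ℕ) ∪ {2})) ρ ∧
        ∀ q ∈ Smin ∪ ((∅ : Finset ℕ) ∪ {2}), q.Prime → q ≠ p → ρ.IsUnipotentOnInertiaAt q))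
    (σ : Type) [DecidableEq σ] [Fintype σ] :
    ∃ Bss : s59f_TBaseF 𝒪 0 Ds,
      -- all the Taylor–Wiles levels (no raising)
      (∀ (r : ℕ) (n : ℕ) (qv : Fin r → ℕ), Function.Injective qv →
        (∀ i, (qv i).Prime ∧ qv i ∉ B ∧ p ^ (n + 1) ∣ qv i - 1) →
        (∀ i, ∀ A : ValuationSubring (AlgebraicClosure ℚ), A.LiesOverPrime (qv i) →
          ∀ φ : Γℚ, A.IsFrobeniusAt φ (qv i) →
            ∃ α β : ResidueField 𝒪, α ≠ β ∧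
              LinearMap.charpoly ((s59i_rhobarW W p hΔ 𝒪 hp𝒪).ρ φ) = (X - C α) * (X - C β)) →
        ∀ DQ : GaloisRep.DeformationRingData 𝒪 (s59i_rhobarW W p hΔ 𝒪 hp𝒪) (fun _A _ _ _ ρ =>
          GaloisRep.strictOrdinaryCondition 𝒪 p
              (Smin ∪ ((∅ : Finset ℕ) ∪ {2}) ∪ Finset.univ.image qv) ρ ∧
            ∀ q ∈ Smin ∪ ((∅ : Finset ℕ) ∪ {2}), q.Prime → q ≠ p →
              ρ.IsUnipotentOnInertiaAt q),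
          Nonempty (s59f_TLevelF 𝒪 p n r σ 0 Bss qv (fun _ => 2) (fun _ => φs)
            (fun _ => σs) DQ)) ∧
      -- the `2`-old point of `Y′` (off `St_±`)
      (∃ (𝒪s : Type) (_ : CommRing 𝒪s) (_ : IsDomain 𝒪s) (xs₀ : Ds.R →+* 𝒪s),
        (∀ a : Ds.R, (∀ mm : Bss.M 0, Bss.ν 0 a • mm = 0) → xs₀ a = 0) ∧
        xs₀ (s59i_cpTr Ds.ρ φs) * xs₀ (s59i_cpTr Ds.ρ φs) ≠
          ((((2 : ℕ) : ℕ) : 𝒪s) + 1) * ((((2 : ℕ) : ℕ) : 𝒪s) + 1)) ∧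
      -- (hnoT): the eigensystems of `Y′` never have `tr ρ(φs) = εs (2 + 1)`
      ∀ (𝒪₀ : Type) [CommRing 𝒪₀] [IsDomain 𝒪₀] [CharZero 𝒪₀] (y : Bss.R 0 →+* 𝒪₀),
        y (s59i_cpTr (Bss.ρR 0) φs) ≠
          y (algebraMap 𝒪 (Bss.R 0) (εs * ((((2 : ℕ) : ℕ) : 𝒪) + 1))) := by
  classical
  have hpP : p.Prime := Fact.out
  obtain ⟨L, rfl⟩ : ∃ L, N₀ = L * 2 := ⟨N₀ / 2, (Nat.div_mul_cancel h2).symm⟩
  haveI : NeZero (L * 2) := hNZ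
  have hL0 : L ≠ 0 := by
    rintro rfl
    exact (NeZero.ne (0 * 2)) (zero_mul 2)
  haveI : NeZero L := ⟨hL0⟩
  have hdiv : L * 2 / 2 = L := Nat.mul_div_cancel L (by norm_num)
  rw [hdiv] at hold
  have hL2 : ¬ 2 ∣ L := by
    intro h
    have h4 : 2 * 2 ∣ L * 2 := Nat.mul_dvd_mul h (dvd_refl 2)
    exact absurd (hsq 2 h4) (by norm_num)
  haveI : Invertible (2 : 𝒪) := s59b_invertibleTwo hp𝒪 (hpP.odd_of_ne_two hp2)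
  have hpB : p ∈ B := hB1 p hpP (Dvd.intro_left _ rfl)
  have hNB : ∀ q : ℕ, q.Prime → q ∣ L * 2 → q ∈ B := fun q hq h =>
    hB1 q hq (Dvd.dvd.mul_right h p)
  have hoccL : s44i_LevelOcc L p (fun ℓ => W.apOfModel ℓ) B :=
    s59e_Lmin_levelOcc W p L B
      (fun r hr h => hB1 r hr (h.trans (Nat.mul_dvd_mul (Dvd.intro 2 rfl) (dvd_refl p)))) hB2 hold
  have hεε : εs * εs = 1 := by
    rcases hεs with h | h
    · rw [h, one_mul]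
    · rw [h, neg_mul_neg, one_mul]
  -- the base idempotent
  have htors : s59e_auxTors p (L * 2) := s59e3_auxTors_even hpP hp2 (Dvd.intro_left L rfl)
  obtain ⟨e, h1e, -, -, -, -, hid, -, hnil, -⟩ :=
    s59e_W_base_pkg W hΔ p hirr (L * 2) hsq B hocc (𝒪 := 𝒪) hp𝒪
      (⊤ : Subgroup (ZMod (L * 2))ˣ) (Subgroup.mem_top _) (fun u => ⟨0, Subgroup.mem_top _⟩) htors
  -- the cut is nonzero
  have hne := s59f_sg_cut_ne_zero p hp2 hL2 𝒪 hp𝒪 B (fun ℓ => W.apOfModel ℓ) hoccL e h1e εs hεε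
  -- the type
  have h2B : (2 : ℕ) ∈ B := hNB 2 hs (Dvd.intro_left L rfl)
  have hpSg : p ∈ Smin ∪ ((∅ : Finset ℕ) ∪ {2}) := Finset.mem_union_left _ hpSmin
  have hSg : ∀ q' : ℕ, q'.Prime → q' ∣ L * 2 →
      q' ∈ Smin ∪ ((∅ : Finset ℕ) ∪ {2}) ∨ s59e3q_E2Alt p (s59i_rhobarW W p hΔ 𝒪 hp𝒪) q' := by
    intro q' hq' hd
    left
    by_cases h : q' = 2
    · subst h
      exact Finset.mem_union_right _ (Finset.mem_union_right _ (Finset.mem_singleton_self 2))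
    · exact Finset.mem_union_left _ (hNmin q' hq' hd h)
  have hSuB : ∀ q' ∈ Smin ∪ ((∅ : Finset ℕ) ∪ {2}), q' ∈ Smin ∨ q' ∈ B := by
    intro q' hq'
    rcases Finset.mem_union.mp hq' with h | h
    · exact Or.inl h
    · rcases Finset.mem_union.mp h with h | h
      · exact absurd h (Finset.notMem_empty q')
      · rw [Finset.mem_singleton.mp h]
        exact Or.inr h2B
  -- the `T`-side of the cut
  obtain ⟨Bs, act, hinj, hE2, hX5, hX4, ⟨hk, hhk⟩, hlev⟩ :=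
    Internal.s59f_sgs_cut_TFin p hp2 W hΔ L 2 hL2 B hirr hsq hpN hbadp hc4p hpeu hB1 hB2 h2 hocc 𝒪 hp𝒪
      (Smin ∪ ((∅ : Finset ℕ) ∪ {2})) (Smin ∪ ((∅ : Finset ℕ) ∪ {2})) Smin hpSg hSg hmin hSuB Ds
      e h1e hid hnil εs hεε hne (fun _ => 2) (fun _ => φs) (fun _ => σs)
  -- the traces
  obtain ⟨tr, htr⟩ : ∃ tr : ℕ → Bs.R 0, ∀ (ℓ : ℕ) (hℓ : ℓ.Prime) (hℓN : ¬ ℓ ∣ L * 2)
      (hℓS : ℓ ∉ (↑B : Set ℕ)), tr ℓ = hk (heckeAlgebra.T hℓ hℓN hℓS) :=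
    ⟨fun ℓ => if h : ℓ.Prime ∧ ¬ ℓ ∣ L * 2 ∧ ℓ ∉ (↑B : Set ℕ) then
      hk (heckeAlgebra.T h.1 h.2.1 h.2.2) else 0,
      fun ℓ hℓ hℓN hℓS => dif_pos ⟨hℓ, hℓN, hℓS⟩⟩
  have hfrob : ∀ ℓ : ℕ, ℓ.Prime → ℓ ∉ B →
      ∀ P' : ValuationSubring (AlgebraicClosure ℚ), P'.LiesOverPrime ℓ →
      ∀ g : Γℚ, P'.IsFrobeniusAt g ℓ →
        LinearMap.charpoly ((Bs.ρR 0).ρ g) = X ^ 2 - C (tr ℓ) * X + C (ℓ : Bs.R 0) := by
    intro ℓ hℓ hℓB P' hP' g hg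
    have hℓN : ¬ ℓ ∣ L * 2 := fun h => hℓB (hNB ℓ hℓ h)
    have hℓS : ℓ ∉ (↑B : Set ℕ) := fun h => hℓB (Finset.mem_coe.mp h)
    rw [htr ℓ hℓ hℓN hℓS]
    exact hhk ℓ hℓ hℓN hℓS P' hP' g hg
  have hacttr : ∀ i : s59w_TIdx (L * 2), i.ell ∉ B →
      ∀ z : LinearMap.range
        (s59t_E0 (⊤ : Subgroup (ZMod (L * 2))ˣ) B e * s59b_sgnIdem (s59f_sg_u0 hL2 𝒪) εs),
        ((act (tr i.ell) z : LinearMap.range
            (s59t_E0 (⊤ : Subgroup (ZMod (L * 2))ˣ) B e * s59b_sgnIdem (s59f_sg_u0 hL2 𝒪) εs)) :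
          s48h_Hpar 𝒪 (s48h_GammaH (L * 2) (⊤ : Subgroup (ZMod (L * 2))ˣ)) 𝒪) =
        s59w_op (⊤ : Subgroup (ZMod (L * 2))ˣ) 𝒪 (Sum.inl i)
          (z : s48h_Hpar 𝒪 (s48h_GammaH (L * 2) (⊤ : Subgroup (ZMod (L * 2))ˣ)) 𝒪) := by
    intro i hi z
    obtain ⟨g, hg⟩ := Fermat.Agent.Lib.S56.s56z_exists_frob ⟨i.ell, i.prime⟩
    have hlo := Fermat.Agent.Lib.S56.s56z_place_liesOver ⟨i.ell, i.prime⟩
    have h1 := hX4 i.ell i.prime hi _ hlo g hg i rfl z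
    have h3 := s59i_cpTr_of_charpoly (Bs.ρR 0) g _ _ (hfrob i.ell i.prime hi _ hlo g hg)
    rw [h3] at h1
    exact h1
  -- `ε₀` commutes with `u₀`
  have huε : ∀ y, s59t_E0 (⊤ : Subgroup (ZMod (L * 2))ˣ) B e (s59f_sg_u0 hL2 𝒪 y) =
      s59f_sg_u0 hL2 𝒪 (s59t_E0 (⊤ : Subgroup (ZMod (L * 2))ˣ) B e y) := fun y =>
    (s59t_polyAct_commute
      (fun x : ↥(s59t_goodB (L * 2) B) =>
        s59w_op (⊤ : Subgroup (ZMod (L * 2))ˣ) 𝒪 (x : s59w_AIdx (L * 2)))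
      (fun x y => s59w_op_comm (⊤ : Subgroup (ZMod (L * 2))ˣ) 𝒪 _ _) (s59f_sg_u0 hL2 𝒪)
      (fun x z => s59f_sg_u0_wop hL2 𝒪 (x : s59w_AIdx (L * 2)) z) e y).symm
  -- helper1's cut run
  obtain ⟨hpt, hno⟩ := s59pt_cut_oldH p hp2 hL2 (s59f_isG'_top hL2) 𝒪 hp𝒪 B hpB hNB
    (fun ℓ => W.apOfModel ℓ) hoccL
    (fun j : ↥(s59t_goodB (L * 2) B) => (j : s59w_AIdx (L * 2)))
    (by
      intro j i hji
      obtain ⟨i', hi', hB⟩ := j.2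
      rw [hi'] at hji
      rw [← Sum.inl.inj hji]
      exact hB)
    (fun i hi => ⟨⟨Sum.inl i, ⟨i, rfl, hi⟩⟩, rfl⟩)
    (fun x : ↥(s59t_goodB (L * 2) B) =>
      s59t_cB (𝒪 := 𝒪) (L * 2) (fun ℓ => W.apOfModel ℓ) (x : s59w_AIdx (L * 2)))
    (by
      intro j i hji
      show s59t_cB (𝒪 := 𝒪) (L * 2) (fun ℓ => W.apOfModel ℓ) (j : s59w_AIdx (L * 2)) = _
      rw [hji]
      rfl)
    (by
      intro j τ hji
      show s59t_cB (𝒪 := 𝒪) (L * 2) (fun ℓ => W.apOfModel ℓ) (j : s59w_AIdx (L * 2)) = _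
      rw [hji]
      rfl)
    e h1e
    (fun z => by
      have h1 := LinearMap.congr_fun hid z
      rw [Module.End.mul_apply] at h1
      exact h1)
    εs hεs
    (LinearMap.range
      (s59t_E0 (⊤ : Subgroup (ZMod (L * 2))ˣ) B e * s59b_sgnIdem (s59f_sg_u0 hL2 𝒪) εs))
    (fun z => s59f_sg_mem_cut_iff (s59t_E0 (⊤ : Subgroup (ZMod (L * 2))ˣ) B e)
      (s59f_sg_u0 hL2 𝒪) hid (s59f_sg_u0_u0 hL2 𝒪) huε εs hεε z)
    (Bs.R 0) act hX5 (fun t ht => hinj (ht.trans (_root_.map_zero act).symm)) (Bs.ρR 0) tr hfrob hacttr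
  refine ⟨Bs, fun r n qv hqinj hqv hTW DQ => hlev r σ n qv hqinj hqv hTW DQ, ?_, ?_⟩
  · -- the old point
    obtain ⟨𝒪', i1, i2, i3, i4, i5, i6, i7, i8, i9, x, hx0, hxne⟩ := hpt
    refine ⟨𝒪', i1, i2, (x : Bs.R 0 →+* 𝒪').comp (Bs.ν 0 : Ds.R →+* Bs.R 0), ?_, ?_⟩
    · intro a ha
      have h0 : Bs.ν 0 a = 0 := hE2 _ ha
      show x (Bs.ν 0 a) = 0
      rw [h0, _root_.map_zero]
    · show x (Bs.ν 0 (s59i_cpTr Ds.ρ φs)) * x (Bs.ν 0 (s59i_cpTr Ds.ρ φs)) ≠ _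
      rw [Bs.hν]
      exact hxne 2 hs (fun h => hp2 h.symm) hL2 _
        (Fermat.Agent.Lib.S56.s56z_place_liesOver ⟨2, hs⟩) φs hφs
  · -- (hnoT)
    intro 𝒪₀ _ _ _ y
    have h1 := hno 𝒪₀ y _ (Fermat.Agent.Lib.S56.s56z_place_liesOver ⟨2, hs⟩) φs hφs
    have h3 : εs * ((((2 : ℕ) : ℕ) : 𝒪) + 1) = εs * 3 := by norm_num
    rw [h3]
    exact h1

end Fermat.Agent.Lib.S59
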