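/-
PROGRAMME (R2) = S59, [STRICT-p], the très halves of the type-(c) [LIFT] fields at `p = 3`, node [SPEC-R] (helper6, prefix `s59q_sp_`), part H:
**THE `W`-SPECIFIC `R`-SIDE OF THE LEVEL-RAISING PATCH WITH ONE SPECTATOR PRIME `s ∣ N₀` IN THE BASE LEVEL, AND THE `T`-SIDE CONTRACT,
STRICT-ORDINARY TYPE** — scripted twin of helper3's USpH.lean (`s59u_sp_FLR_W_absE`, `s59u_sp_TPkgFLR`, `s59u_sp_FLR_W_core`).
`W` semistable, MULTIPLICATIVE at `p` (`hmult`), base level `N₀` with `p ∣ N₀`.  Substitution: `flatCondition → strictOrdinaryCondition`,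
`hgoodp → hmult`, `¬ p ∣ N → p ∣ N`, `s59e_flat → s59e_bc_strictOrd … s59b_rhoW_strictOrd_of_semistable`, `s59q_exists_DQ_flat → _ord`,
`s59u_sp_FLR_R_pt → s59q_sp_FLR_R_pt_ord` (QSSpE.lean).

* `s59q_sp_FLR_W_absE_ord`;  `s59q_sp_TPkgFLR p W hΔ N₀ s k₀` (the strict `T`-side contract);  **`s59q_sp_FLR_W_core_ord`**.
-/
import Mathlib
import Fermat.Agent.Lib.S59.USpH
import Fermat.Agent.Lib.S59.QSSpE
import Fermat.Agent.Lib.S59.BOrdSS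

set_option autoImplicit false
set_option linter.unusedSectionVars false
set_option linter.unusedVariables false
set_option linter.style.haveILetI false
set_option maxHeartbeats 3200000
set_option synthInstance.maxHeartbeats 400000

noncomputable section

namespace Fermat.Agent.Lib.S59

open IsLocalRing Module CuspForm ExtCitation Fermat.Agent.Lib.S56 Fermat.Agent.Lib.S44
open Fermat.Agent.Lib.S53 (matOf matOfRes matOfRes_apply matOf_apply NormData exists_normData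
  exists_basis_baseChangeAlong exists_basis_of_isEquiv)
open Fermat.Agent.Lib.Deform (IsTestAlgebra)

local notation "Γℚ" => (AlgebraicClosure ℚ ≃ₐ[ℚ] AlgebraicClosure ℚ)

/-- **[PATCH-FLR], STRICT-ORDINARY type (`W` multiplicative at `p`), over an abstract `T`-side, spectators in the base level**
(twin of helper3's `s59u_sp_FLR_W_absE`). -/
theorem s59q_sp_FLR_W_absE_ord (p : ℕ) [Fact p.Prime] (hp2 : p ≠ 2) (W : WeierstrassCurve ℤ) (hΔ : W.Δ ≠ 0)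
    (N : ℕ) [NeZero N] (B : Finset ℕ)
    (hss : W.IsSemistableModel) (hirr : W.ModRepIsIrreducible p)
    (hpB : p ∈ B)
    (hB2 : ∀ r : ℕ, r.Prime → ¬ W.IsGoodPrimeFor r → r ∈ B)
    (hmult : ¬ W.IsGoodPrimeFor p)
    (𝒪 : Type) [CommRing 𝒪] [IsDomain 𝒪] [IsDiscreteValuationRing 𝒪]
    [IsAdicComplete (maximalIdeal 𝒪) 𝒪] [Finite (ResidueField 𝒪)] [CharZero 𝒪]
    [Algebra ℤ_[p] 𝒪] [Module.Finite ℤ_[p] 𝒪]
    (hp𝒪 : ((p : ℕ) : 𝒪) ∈ maximalIdeal 𝒪)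
    -- the binders of `s59f_FLR_R` for `ρ̄ = ρ̄_W`
    (habs : (s59i_rhobarW W p hΔ 𝒪 hp𝒪).IsAbsolutelyIrreducible)
    (hdet : (GaloisRepAdic.ofResidualGaloisRep (s59i_rhobarW W p hΔ 𝒪 hp𝒪)).DetIsCyclotomic p)
    (hsplit : ∀ σ : Γℚ, ∃ α β : ResidueField 𝒪,
      LinearMap.charpoly ((s59i_rhobarW W p hΔ 𝒪 hp𝒪).ρ σ) =
        (Polynomial.X - Polynomial.C α) * (Polynomial.X - Polynomial.C β))
    (hTW : ∀ (K : Type) [Field K] [Algebra (ResidueField 𝒪) K] (G : Subgroup Γℚ), G.index = 2 →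
      ∀ V : Submodule K ((s59i_rhobarW W p hΔ 𝒪 hp𝒪).baseChange K).V,
        (∀ σ ∈ G, ∀ x ∈ V, ((s59i_rhobarW W p hΔ 𝒪 hp𝒪).baseChange K).ρ σ x ∈ V) → V = ⊥ ∨ V = ⊤)
    (S Smin Bd Ed : Finset ℕ) (hpSmin : p ∈ Smin) (hSmin : Smin ⊆ S) (hBS : Bd ⊆ S) (hES : Ed ⊆ S)
    (hBprime : ∀ q ∈ Bd, q.Prime) (hEprime : ∀ q ∈ Ed, q.Prime)
    (hmin : ∀ q : ℕ, q.Prime → q ≠ p →
      (q ∈ Smin ↔ ¬ (s59i_rhobarW W p hΔ 𝒪 hp𝒪).IsUnramifiedAt q))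
    (hBunr : ∀ q ∈ Bd, q ≠ p ∧ (s59i_rhobarW W p hΔ 𝒪 hp𝒪).IsUnramifiedAt q)
    (hEunr : ∀ q ∈ Ed, q ≠ p ∧ (s59i_rhobarW W p hΔ 𝒪 hp𝒪).IsUnramifiedAt q)
    (hBE : Disjoint Bd Ed)
    (hcen : ∀ q : Nat.Primes, (q : ℕ) ∈ Bd → s59q_CentralAt (s59i_rhobarW W p hΔ 𝒪 hp𝒪) q)
    (Nd : NormData (s59i_rhobarW W p hΔ 𝒪 hp𝒪)) (m e : ℕ) (pr : Fin m ⊕ Fin e → Nat.Primes)
    (hprB : Finset.univ.image (fun j : Fin m => (pr (Sum.inl j) : ℕ)) = Bd)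
    (hprE : Finset.univ.image (fun l : Fin e => (pr (Sum.inr l) : ℕ)) = Ed)
    (hBinj : Function.Injective fun j : Fin m => (pr (Sum.inl j) : ℕ))
    (hEinj : Function.Injective fun l : Fin e => (pr (Sum.inr l) : ℕ))
    (σq φq : Fin m ⊕ Fin e → Γℚ)
    (hσq : ∀ t, s59q_IsTameGen (pr t) (primeLocalPlace (pr t)) (σq t))
    (hφq : ∀ t, (primeLocalPlace (pr t)).IsFrobeniusAt (φq t) (pr t))
    (i2 : 𝒪) (hi2 : 2 * i2 = 1)
    (P P' : Fin m ⊕ Fin e → Matrix (Fin 2) (Fin 2) 𝒪) (hPP' : ∀ t, P t * P' t = 1)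
    (hP'P : ∀ t, P' t * P t = 1)
    (L : Fin e → s59f_LocBr 𝒪 i2) (hLpt : ∀ l, s59u_sp_LocBrPt (L l))
    (ε4 : Fin m → 𝒪) (hε4 : ∀ i, ε4 i ^ 2 = 1)
    (hMres : ∀ l, (P' (Sum.inr l)).map (residue 𝒪) *
      matOfRes (s59i_rhobarW W p hΔ 𝒪 hp𝒪) Nd.b (φq (Sum.inr l)) *
      (P (Sum.inr l)).map (residue 𝒪) = ((L l).M0).map (residue 𝒪))
    (hφ4 : ∀ i, matOfRes (s59i_rhobarW W p hΔ 𝒪 hp𝒪) Nd.b (φq (Sum.inl i)) =
      residue 𝒪 (ε4 i) • (1 : Matrix (Fin 2) (Fin 2) (ResidueField 𝒪)))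
    (hqu : ∀ l, (L l).u = (((pr (Sum.inr l) : ℕ) : ℕ) : 𝒪))
    (hqB : ∀ j, (((pr (Sum.inl j) : ℕ) : ℕ) : 𝒪) - 1 ∈ maximalIdeal 𝒪)
    (step : ℕ → Fin e ⊕ Fin m) (k₀ k : ℕ) (hstep : ∀ t < k₀ + k, ∀ t' < t, step t' ≠ step t)
    (hvirt : ∀ t < k₀, ∃ l, step t = Sum.inl l)
    (hcover4 : ∀ j : Fin m, ∃ t < k₀ + k, step t = Sum.inr j)
    -- the position of `ρ_W`
    (hunrW : ∀ q : ℕ, q.Prime → q ∉ Smin ∪ (Bd ∪ Ed) → (s59q_WRho W hΔ hp𝒪).IsUnramifiedAt q)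
    (hram4W : ∀ j, (s59q_WRho W hΔ hp𝒪).ρ (σq (Sum.inl j)) ≠ 1)
    (hsmW : ∀ l, ((∃ t', t' < k₀ + k ∧ step t' = Sum.inl l) ∧
        (s59q_WRho W hΔ hp𝒪).ρ (σq (Sum.inr l)) ≠ 1 ∧
        s59i_cpTr (s59q_WRho W hΔ hp𝒪) (φq (Sum.inr l)) = (L l).tr0) ∨
      ((¬ ∃ t', t' < k₀ + k ∧ step t' = Sum.inl l) ∧
        (s59q_WRho W hΔ hp𝒪).ρ (σq (Sum.inr l)) = 1))
    -- the `T`-side
    (HT : ∀ (D0 : GaloisRep.DeformationRingData 𝒪 (s59i_rhobarW W p hΔ 𝒪 hp𝒪) (fun _A _ _ _ ρ =>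
        GaloisRep.strictOrdinaryCondition 𝒪 p (Smin ∪ (Bd ∪ Ed)) ρ ∧
          ∀ q ∈ Smin ∪ (Bd ∪ Ed), q.Prime → q ≠ p → ρ.IsUnipotentOnInertiaAt q)),
      ∃ Bs : s59f_TBaseF 𝒪 k D0,
        (∃ hk : heckeAlgebra N 2 (↑B : Set ℕ) →+* Bs.R k,
          ∀ (ℓ : ℕ) (hℓ : ℓ.Prime) (hℓN : ¬ ℓ ∣ N) (hℓB : ℓ ∉ (↑B : Set ℕ)),
          ∀ A : ValuationSubring (AlgebraicClosure ℚ), A.LiesOverPrime ℓ →
          ∀ g : Γℚ, A.IsFrobeniusAt g ℓ →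
            LinearMap.charpoly ((Bs.ρR k).ρ g) =
              Polynomial.X ^ 2 - Polynomial.C (hk (heckeAlgebra.T hℓ hℓN hℓB)) * Polynomial.X +
                Polynomial.C ((ℓ : Bs.R k))) ∧
        (∃ (𝒪₀ : Type) (_ : CommRing 𝒪₀) (_ : IsDomain 𝒪₀) (x₀ : D0.R →+* 𝒪₀),
          (∀ a : D0.R, (∀ mm : Bs.M 0, Bs.ν 0 a • mm = 0) → x₀ a = 0) ∧
          (∀ t : Fin m ⊕ Fin e,
            (∀ l, t = Sum.inr l → ¬ ∃ t', t' < k₀ ∧ step t' = Sum.inl l) →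
            x₀ (s59i_cpTr D0.ρ (φq t)) * x₀ (s59i_cpTr D0.ρ (φq t)) ≠
              ((((pr t : ℕ) : ℕ) : 𝒪₀) + 1) * ((((pr t : ℕ) : ℕ) : 𝒪₀) + 1)) ∧
          (∀ l, (∃ t', t' < k₀ ∧ step t' = Sum.inl l) →
            ∃ (f : Module.Dual D0.R D0.ρ.V) (v : D0.ρ.V),
              x₀ (f (D0.ρ.ρ (σq (Sum.inr l)) v - v)) ≠ 0) ∧
          (∀ l, (∃ t', t' < k₀ ∧ step t' = Sum.inl l) →
            x₀ (s59i_cpTr D0.ρ (φq (Sum.inr l))) + x₀ (algebraMap 𝒪 D0.R (L l).tr0) ≠ 0)) ∧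
        ∀ r : ℕ, 3 * m + e ≤ r → ∀ (n : ℕ) (qv : Fin r → ℕ), Function.Injective qv →
          (∀ i, (qv i).Prime ∧ qv i ∉ S ∧ p ^ (n + 1) ∣ qv i - 1) →
          (∀ i, ∀ A : ValuationSubring (AlgebraicClosure ℚ), A.LiesOverPrime (qv i) →
            ∀ φ : Γℚ, A.IsFrobeniusAt φ (qv i) →
              ∃ α β : ResidueField 𝒪, α ≠ β ∧
                LinearMap.charpoly ((s59i_rhobarW W p hΔ 𝒪 hp𝒪).ρ φ) =
                  (Polynomial.X - Polynomial.C α) * (Polynomial.X - Polynomial.C β)) →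
          ∀ DQ : GaloisRep.DeformationRingData 𝒪 (s59i_rhobarW W p hΔ 𝒪 hp𝒪) (fun _A _ _ _ ρ =>
            GaloisRep.strictOrdinaryCondition 𝒪 p (Smin ∪ (Bd ∪ Ed) ∪ Finset.univ.image qv) ρ ∧
              ∀ q ∈ Smin ∪ (Bd ∪ Ed), q.Prime → q ≠ p → ρ.IsUnipotentOnInertiaAt q),
            Nonempty (s59f_TLevelF 𝒪 p n r (s59q_ZIdx m e) k Bs qv
              (fun t => (pr (Sum.swap (step (k₀ + t))) : ℕ))
              (fun t => φq (Sum.swap (step (k₀ + t))))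
              (fun t => σq (Sum.swap (step (k₀ + t)))) DQ)) :
    ∃ χ : heckeAlgebra N 2 (↑B : Set ℕ) →+* 𝒪,
      ∀ (ℓ : ℕ) (hℓ : ℓ.Prime) (hℓN : ¬ ℓ ∣ N) (hℓB : ℓ ∉ (↑B : Set ℕ)),
        χ (heckeAlgebra.T hℓ hℓN hℓB) = ((W.apOfModel ℓ : ℤ) : 𝒪) := by
  classical
  have hpP : p.Prime := Fact.out
  haveI hlid : IsLocalHom (algebraMap 𝒪 𝒪) := ⟨fun a h => h⟩
  -- the type of `ρ_W ⊗ 𝒪`
  have h𝒟W : GaloisRep.strictOrdinaryCondition 𝒪 p (Smin ∪ (Bd ∪ Ed)) (s59q_WRho W hΔ hp𝒪) ∧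
      ∀ q ∈ Smin ∪ (Bd ∪ Ed), q.Prime → q ≠ p →
        (s59q_WRho W hΔ hp𝒪).IsUnipotentOnInertiaAt q := by
    refine ⟨⟨s59q_W_detCyc W hΔ hp𝒪 hp2 hirr,
      s59e_bc_strictOrd _ _ _ p (s59b_rhoW_strictOrd_of_semistable hΔ hp2 hirr hss hmult), hunrW⟩, ?_⟩
    intro q _ hq hqp
    exact s59e_bc_unip _ _ _ q (s59b_rhoW_unip hΔ hp2 hirr hss q hq hqp)
  have hfrobW : ∀ ℓ : ℕ, ℓ.Prime → ℓ ∉ B → ∀ Pl : ValuationSubring (AlgebraicClosure ℚ),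
      Pl.LiesOverPrime ℓ → ∀ σ : Γℚ, Pl.IsFrobeniusAt σ ℓ →
        LinearMap.charpoly ((s59q_WRho W hΔ hp𝒪).ρ σ) =
          Polynomial.X ^ 2 - Polynomial.C (((W.apOfModel ℓ : ℤ) : 𝒪)) * Polynomial.X +
            Polynomial.C ((ℓ : 𝒪)) := by
    intro ℓ hℓ hℓB Pl hP σ hσ
    have hℓp : ℓ ≠ p := fun h => hℓB (h ▸ hpB)
    have hgood : W.IsGoodPrimeFor ℓ := by
      by_contra hbad
      exact hℓB (hB2 ℓ hℓ hbad)
    rw [s59e_bc_charpoly, s59b_rhoW_charpoly hΔ hp2 hirr ℓ hℓ hgood hℓp Pl hP σ hσ]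
    simp
  have hresW : (s59q_WRho W hΔ hp𝒪).residual.IsEquiv
      ((s59i_rhobarW W p hΔ 𝒪 hp𝒪).baseChangeAlong (ResidueField.map (algebraMap 𝒪 𝒪))) :=
    s59b_hres_of_frob p hp2 hp𝒪 (s59q_WRho W hΔ hp𝒪) habs B
      (fun ℓ => ((W.apOfModel ℓ : ℤ) : 𝒪)) (fun ℓ => ((W.apOfModel ℓ : ℤ) : 𝒪)) hfrobW
      (fun ℓ _ _ => by
        show ((W.apOfModel ℓ : ℤ) : 𝒪) - ((W.apOfModel ℓ : ℤ) : 𝒪) ∈ maximalIdeal 𝒪
        rw [sub_self]
        exact Ideal.zero_mem _)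
      (s59i_rhobarW W p hΔ 𝒪 hp𝒪)
      (fun ℓ hℓ hℓS A hA σ hσ =>
        s59e_rhobarW_charpoly_frob hΔ hp2 hirr hp𝒪 B hpB hB2 ℓ hℓ hℓS A hA σ hσ)
  -- the base ring
  have hunrbar : ∀ q : ℕ, q.Prime → q ∉ Smin ∪ (Bd ∪ Ed) →
      (s59i_rhobarW W p hΔ 𝒪 hp𝒪).IsUnramifiedAt q := by
    intro q hq hqS
    have hqSmin : q ∉ Smin := fun h => hqS (Finset.mem_union_left _ h)
    have hne : q ≠ p := fun h => hqSmin (h ▸ hpSmin)
    by_contra hram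
    exact hqSmin ((hmin q hq hne).2 hram)
  obtain ⟨D0⟩ := s59q_exists_DQ_ord p hp2 hp𝒪 (s59i_rhobarW W p hΔ 𝒪 hp𝒪) habs
    (Smin ∪ (Bd ∪ Ed)) (Smin ∪ (Bd ∪ Ed)) (Smin ∪ (Bd ∪ Ed)) (Finset.Subset.refl _)
    (Finset.mem_union_left _ hpSmin) hunrbar hlid IsLocalRing.residue_surjective
    (s59q_WRho W hΔ hp𝒪) h𝒟W hresW
  obtain ⟨x, ⟨hx, ex⟩, -⟩ := D0.universal 𝒪 IsLocalRing.residue_surjective (s59q_WRho W hΔ hp𝒪)
    h𝒟W hresW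
  have hxtr : ∀ g, x (s59i_cpTr D0.ρ g) = s59i_cpTr (s59q_WRho W hΔ hp𝒪) g := fun g =>
    s59e_Lmin_point_trace D0 _ (x : D0.R →+* 𝒪) hx ex g
  obtain ⟨Bs, ⟨hk, hhk⟩, ⟨𝒪₀, i𝒪₀, j𝒪₀, x₀, hx₀M, hx₀δ, hx₀ram, hx₀tr⟩, HL⟩ := HT D0
  -- the point factors through the top Hecke ring
  have hker := s59q_sp_FLR_R_pt_ord p hp2 hp𝒪 (s59i_rhobarW W p hΔ 𝒪 hp𝒪) habs hdet hsplit hTW S Smin
    Bd Ed
    hpSmin hSmin hBS hES hBprime hEprime hmin hBunr hEunr hBE hcen Nd m e pr hprB hprE hBinj hEinj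
    σq φq hσq hφq i2 hi2 P P' hPP' hP'P L hLpt ε4 hε4 hMres hφ4 hqu hqB step k₀ k hstep hvirt
    hcover4 D0 Bs HL 𝒪₀ x₀ hx₀M hx₀δ hx₀ram hx₀tr
    𝒪 (x : D0.R →+* 𝒪)
    (fun a ha => by
      have hnu := (mem_maximalIdeal a).mp ha
      rw [mem_maximalIdeal, mem_nonunits_iff]
      intro hu
      exact hnu (hx.map_nonunit a hu))
    (by
      intro a b hab
      have h1 : x (algebraMap 𝒪 D0.R a) = a := x.commutes a
      have h2 : x (algebraMap 𝒪 D0.R b) = b := x.commutes b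
      simp only [RingHom.comp_apply, RingHom.coe_coe] at hab
      rw [h1, h2] at hab
      exact hab)
    (fun j => s59f_exists_dual_ne D0.ρ (s59q_WRho W hΔ hp𝒪) (x : D0.R →+* 𝒪) hx ex
      (σq (Sum.inl j)) (hram4W j))
    (fun l => by
      rcases hsmW l with ⟨hst, hram, htr⟩ | ⟨hnst, hone⟩
      · refine Or.inl ⟨hst, s59f_exists_dual_ne D0.ρ (s59q_WRho W hΔ hp𝒪) (x : D0.R →+* 𝒪) hx ex
          (σq (Sum.inr l)) hram, ?_⟩
        rw [RingHom.coe_coe, hxtr, htr]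
        exact (x.commutes _).symm
      · exact Or.inr ⟨hnst, fun f v => s59u_sp_dual_eq_zero D0.ρ (s59q_WRho W hΔ hp𝒪)
          (x : D0.R →+* 𝒪) hx ex (σq (Sum.inr l)) hone f v⟩)
  set χ₀ : Bs.R k →+* 𝒪 := RingHom.liftOfSurjective (Bs.ν k : D0.R →+* Bs.R k) (Bs.hνs k)
    ⟨(x : D0.R →+* 𝒪), hker⟩ with hχ₀
  have hχ : ∀ a : D0.R, χ₀ (Bs.ν k a) = x a := fun a =>
    RingHom.liftOfRightInverse_comp_apply (Bs.ν k : D0.R →+* Bs.R k) _ _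
      ⟨(x : D0.R →+* 𝒪), hker⟩ a
  refine ⟨χ₀.comp hk, fun ℓ hℓ hℓN hℓB => ?_⟩
  obtain ⟨A, g, hA, hg⟩ := Fermat.Agent.Lib.Frobenius.exists_isFrobeniusAt ℓ hℓ
  have h1 : s59i_cpTr (Bs.ρR k) g = hk (heckeAlgebra.T hℓ hℓN hℓB) :=
    s59i_cpTr_of_charpoly (Bs.ρR k) g _ _ (hhk ℓ hℓ hℓN hℓB A hA g hg)
  have h2 : s59i_cpTr (s59q_WRho W hΔ hp𝒪) g = ((W.apOfModel ℓ : ℤ) : 𝒪) :=
    s59i_cpTr_of_charpoly _ g _ _
      (hfrobW ℓ hℓ (fun h => hℓB (Finset.mem_coe.mpr h)) A hA g hg)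
  rw [RingHom.comp_apply, ← h1, ← Bs.hν k g, hχ, hxtr g, h2]


/-! ### The `T`-side contract -/

/-- **the `T`-side contract of [PATCH-FLR] (STRICT-ORDINARY type, `p ∣ N₀`) at the base level `N₀` with the spectator
`s ∣ N₀`** (`k₀ = 0`: never raised; `k₀ = 1`: raised virtually): for every coefficient ring `𝒪` and all
raising data `(m, e, pr, σq, φq, ls, εs, step, k)` with the properties guaranteed by the `R`-side
(`pr (inr ls) = s` is the spectator), the records `s59f_TBaseF` / `s59f_TLevelF` along the REAL steps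
`t ↦ step (k₀ + t)`, the Hecke map of the top base ring, and the modular base point. -/
def s59q_sp_TPkgFLR (p : ℕ) [Fact p.Prime] (W : WeierstrassCurve ℤ) (hΔ : W.Δ ≠ 0) (N₀ : ℕ)
    (s : ℕ) (k₀ : ℕ) : Prop :=
  ∀ (𝒪 : Type) [CommRing 𝒪] [IsDomain 𝒪] [IsDiscreteValuationRing 𝒪]
    [IsAdicComplete (maximalIdeal 𝒪) 𝒪] [Finite (ResidueField 𝒪)] [CharZero 𝒪]
    [Algebra ℤ_[p] 𝒪] [Module.Finite ℤ_[p] 𝒪]
    (hp𝒪 : ((p : ℕ) : 𝒪) ∈ maximalIdeal 𝒪)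
    (_hsplitℤ : ∀ a b : ℤ, ∃ α β : ResidueField 𝒪,
      α + β = (a : ResidueField 𝒪) ∧ α * β = (b : ResidueField 𝒪))
    (m e : ℕ) (pr : Fin m ⊕ Fin e → Nat.Primes) (σq φq : Fin m ⊕ Fin e → Γℚ)
    (ls : Fin e) (εs : 𝒪)
    (step : ℕ → Fin e ⊕ Fin m) (k : ℕ) (N : ℕ) [NeZero N] (B : Finset ℕ),
    Function.Injective (fun t => (pr t : ℕ)) →
    -- the spectator
    (pr (Sum.inr ls) : ℕ) = s →
    (s59i_rhobarW W p hΔ 𝒪 hp𝒪).IsUnramifiedAt s →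
    (εs = 1 ∨ εs = -1) →
    LinearMap.charpoly ((s59i_rhobarW W p hΔ 𝒪 hp𝒪).ρ (φq (Sum.inr ls))) =
      (Polynomial.X - Polynomial.C (residue 𝒪 (εs * ((s : ℕ) : 𝒪)))) *
        (Polynomial.X - Polynomial.C (residue 𝒪 εs)) →
    (k₀ = 0 → (s59q_WRho W hΔ hp𝒪).IsUnramifiedAt s) →
    (k₀ = 1 → ¬ (s59q_WRho W hΔ hp𝒪).IsUnramifiedAt s ∧
      s59i_cpTr (s59q_WRho W hΔ hp𝒪) (φq (Sum.inr ls)) = εs * (((s : ℕ) : 𝒪) + 1)) →
    -- the raising primes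
    (∀ t, t ≠ Sum.inr ls → (pr t : ℕ) ≠ p ∧ ¬ (pr t : ℕ) ∣ N₀ ∧ ¬ W.IsGoodPrimeFor (pr t) ∧
      (s59i_rhobarW W p hΔ 𝒪 hp𝒪).IsUnramifiedAt (pr t) ∧
      ¬ (s59q_WRho W hΔ hp𝒪).IsUnramifiedAt (pr t)) →
    (∀ t, s59q_IsTameGen (pr t) (primeLocalPlace (pr t)) (σq t)) →
    (∀ t, (primeLocalPlace (pr t)).IsFrobeniusAt (φq t) (pr t)) →
    (∀ t, t ≠ Sum.inr ls → ∃ ε : 𝒪, (ε = 1 ∨ ε = -1) ∧
      s59i_cpTr (s59q_WRho W hΔ hp𝒪) (φq t) = ε * ((((pr t : ℕ) : ℕ) : 𝒪) + 1)) →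
    -- the order of the steps: `k₀` virtual steps at the spectator, then `k` real steps
    (∀ t < k₀ + k, ∀ t' < t, step t' ≠ step t) →
    (∀ t < k₀, step t = Sum.inl ls) →
    (∀ t, k₀ ≤ t → t < k₀ + k → step t ≠ Sum.inl ls) →
    (∀ x : Fin e ⊕ Fin m, x ≠ Sum.inl ls → ∃ t, k₀ ≤ t ∧ t < k₀ + k ∧ step t = x) →
    -- the top level
    N = N₀ * ∏ t ∈ Finset.univ.erase (Sum.inr ls), (pr t : ℕ) → Squarefree N → p ∣ N →
    B = (N * p).primeFactors ∪ W.Δ.natAbs.primeFactors →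
    -- `ρ_W ⊗ 𝒪` is unramified outside `Σ_min ∪ {raising primes, s}`
    (∀ q : ℕ, q.Prime → q ∉ s59q_WSmin W hΔ hp𝒪 ∪
        (Finset.univ.image (fun j : Fin m => (pr (Sum.inl j) : ℕ)) ∪
          Finset.univ.image (fun l : Fin e => (pr (Sum.inr l) : ℕ))) →
      (s59q_WRho W hΔ hp𝒪).IsUnramifiedAt q) →
    -- a universal ring of the type of the BASE level exists
    Nonempty (GaloisRep.DeformationRingData 𝒪 (s59i_rhobarW W p hΔ 𝒪 hp𝒪) (fun _A _ _ _ ρ =>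
      GaloisRep.strictOrdinaryCondition 𝒪 p (s59q_WSmin W hΔ hp𝒪 ∪ {s}) ρ ∧
        ∀ q ∈ s59q_WSmin W hΔ hp𝒪 ∪
          (Finset.univ.image (fun j : Fin m => (pr (Sum.inl j) : ℕ)) ∪
            Finset.univ.image (fun l : Fin e => (pr (Sum.inr l) : ℕ))),
          q.Prime → q ≠ p → ρ.IsUnipotentOnInertiaAt q)) →
    ∀ (D0 : GaloisRep.DeformationRingData 𝒪 (s59i_rhobarW W p hΔ 𝒪 hp𝒪) (fun _A _ _ _ ρ =>
        GaloisRep.strictOrdinaryCondition 𝒪 p (s59q_WSmin W hΔ hp𝒪 ∪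
          (Finset.univ.image (fun j : Fin m => (pr (Sum.inl j) : ℕ)) ∪
            Finset.univ.image (fun l : Fin e => (pr (Sum.inr l) : ℕ)))) ρ ∧
          ∀ q ∈ s59q_WSmin W hΔ hp𝒪 ∪
            (Finset.univ.image (fun j : Fin m => (pr (Sum.inl j) : ℕ)) ∪
              Finset.univ.image (fun l : Fin e => (pr (Sum.inr l) : ℕ))),
            q.Prime → q ≠ p → ρ.IsUnipotentOnInertiaAt q)),
      ∃ Bs : s59f_TBaseF 𝒪 k D0,
        (∃ hk : heckeAlgebra N 2 (↑B : Set ℕ) →+* Bs.R k,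
          ∀ (ℓ : ℕ) (hℓ : ℓ.Prime) (hℓN : ¬ ℓ ∣ N) (hℓB : ℓ ∉ (↑B : Set ℕ)),
          ∀ A : ValuationSubring (AlgebraicClosure ℚ), A.LiesOverPrime ℓ →
          ∀ g : Γℚ, A.IsFrobeniusAt g ℓ →
            LinearMap.charpoly ((Bs.ρR k).ρ g) =
              Polynomial.X ^ 2 - Polynomial.C (hk (heckeAlgebra.T hℓ hℓN hℓB)) * Polynomial.X +
                Polynomial.C ((ℓ : Bs.R k))) ∧
        -- the modular base point of level `N₀`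
        (∃ (𝒪₀ : Type) (_ : CommRing 𝒪₀) (_ : IsDomain 𝒪₀) (x₀ : D0.R →+* 𝒪₀),
          (∀ a : D0.R, (∀ mm : Bs.M 0, Bs.ν 0 a • mm = 0) → x₀ a = 0) ∧
          (∀ t : Fin m ⊕ Fin e, (k₀ = 1 → t ≠ Sum.inr ls) →
            x₀ (s59i_cpTr D0.ρ (φq t)) * x₀ (s59i_cpTr D0.ρ (φq t)) ≠
              ((((pr t : ℕ) : ℕ) : 𝒪₀) + 1) * ((((pr t : ℕ) : ℕ) : 𝒪₀) + 1)) ∧
          (k₀ = 1 → ∃ (f : Module.Dual D0.R D0.ρ.V) (v : D0.ρ.V),
            x₀ (f (D0.ρ.ρ (σq (Sum.inr ls)) v - v)) ≠ 0) ∧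
          (k₀ = 1 → x₀ (s59i_cpTr D0.ρ (φq (Sum.inr ls))) +
            x₀ (algebraMap 𝒪 D0.R (εs * (((s : ℕ) : 𝒪) + 1))) ≠ 0)) ∧
        ∀ r : ℕ, 3 * m + e ≤ r → ∀ (n : ℕ) (qv : Fin r → ℕ), Function.Injective qv →
          (∀ i, (qv i).Prime ∧ qv i ∉ B ∧ p ^ (n + 1) ∣ qv i - 1) →
          (∀ i, ∀ A : ValuationSubring (AlgebraicClosure ℚ), A.LiesOverPrime (qv i) →
            ∀ φ : Γℚ, A.IsFrobeniusAt φ (qv i) →
              ∃ α β : ResidueField 𝒪, α ≠ β ∧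
                LinearMap.charpoly ((s59i_rhobarW W p hΔ 𝒪 hp𝒪).ρ φ) =
                  (Polynomial.X - Polynomial.C α) * (Polynomial.X - Polynomial.C β)) →
          ∀ DQ : GaloisRep.DeformationRingData 𝒪 (s59i_rhobarW W p hΔ 𝒪 hp𝒪) (fun _A _ _ _ ρ =>
            GaloisRep.strictOrdinaryCondition 𝒪 p (s59q_WSmin W hΔ hp𝒪 ∪
              (Finset.univ.image (fun j : Fin m => (pr (Sum.inl j) : ℕ)) ∪
                Finset.univ.image (fun l : Fin e => (pr (Sum.inr l) : ℕ))) ∪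
              Finset.univ.image qv) ρ ∧
              ∀ q ∈ s59q_WSmin W hΔ hp𝒪 ∪
                (Finset.univ.image (fun j : Fin m => (pr (Sum.inl j) : ℕ)) ∪
                  Finset.univ.image (fun l : Fin e => (pr (Sum.inr l) : ℕ))),
                q.Prime → q ≠ p → ρ.IsUnipotentOnInertiaAt q),
            Nonempty (s59f_TLevelF 𝒪 p n r (s59q_ZIdx m e) k Bs qv
              (fun t => (pr (Sum.swap (step (k₀ + t))) : ℕ))
              (fun t => φq (Sum.swap (step (k₀ + t))))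
              (fun t => σq (Sum.swap (step (k₀ + t)))) DQ)

/-! ### The assembly -/

/-- **[PATCH-FLR], STRICT-ORDINARY type (`W` multiplicative at `p`, `p ∣ N₀`), ONE SPECTATOR `s ∣ N₀` in the base level: the `W`-specific assembly over
the `T`-side contract** (`k₀ = 0`: `ρ_W ⊗ 𝒪` unramified at `s`, type (c1); `k₀ = 1`: ramified at `s` with
`tr ρ_W(Frob_s) = εs (s+1)`, type (c2)). The set `Rs` of the raising primes may be empty. -/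
theorem s59q_sp_FLR_W_core_ord (p : ℕ) [hpF : Fact p.Prime] (hp35 : p = 3 ∨ p = 5)
    (W : WeierstrassCurve ℤ)
    (hΔ : W.Δ ≠ 0) (hss : W.IsSemistableModel) (hirr : W.ModRepIsIrreducible p)
    (hmult : ¬ W.IsGoodPrimeFor p) (N₀ : ℕ) (hN₀ : N₀ ≠ 0) (hsq : Squarefree N₀) (hpN₀ : p ∣ N₀)
    (𝒪 : Type) [CommRing 𝒪] [IsDomain 𝒪] [IsDiscreteValuationRing 𝒪]
    [IsAdicComplete (maximalIdeal 𝒪) 𝒪] [Finite (ResidueField 𝒪)] [CharZero 𝒪]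
    [Algebra ℤ_[p] 𝒪] [Module.Finite ℤ_[p] 𝒪]
    (hp𝒪 : ((p : ℕ) : 𝒪) ∈ maximalIdeal 𝒪)
    (hsplitℤ : ∀ a b : ℤ, ∃ α β : ResidueField 𝒪,
      α + β = (a : ResidueField 𝒪) ∧ α * β = (b : ResidueField 𝒪))
    (Rs : Finset ℕ)
    (hRs : ∀ q ∈ Rs, q.Prime ∧ q ≠ p ∧ ¬ q ∣ N₀ ∧ ¬ W.IsGoodPrimeFor q ∧
      (s59q_WRhobar W hΔ hp𝒪).IsUnramifiedAt q ∧ ¬ (s59q_WRho W hΔ hp𝒪).IsUnramifiedAt q)
    -- the spectator
    (s : Nat.Primes) (hsp : (s : ℕ) ≠ p) (hsN₀ : (s : ℕ) ∣ N₀) (hsns : ¬ p ∣ (s : ℕ) - 1)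
    (hsU : (s59q_WRhobar W hΔ hp𝒪).IsUnramifiedAt s)
    (εs : 𝒪) (hεs : εs = 1 ∨ εs = -1)
    (φs : Γℚ) (hφs : (primeLocalPlace s).IsFrobeniusAt φs s)
    (hscp : LinearMap.charpoly ((s59q_WRhobar W hΔ hp𝒪).ρ φs) =
      (Polynomial.X - Polynomial.C (residue 𝒪 (εs * (((s : ℕ) : ℕ) : 𝒪)))) *
        (Polynomial.X - Polynomial.C (residue 𝒪 εs)))
    (k₀ : ℕ)
    (hspec : (k₀ = 0 ∧ (s59q_WRho W hΔ hp𝒪).IsUnramifiedAt s) ∨
      (k₀ = 1 ∧ ¬ (s59q_WRho W hΔ hp𝒪).IsUnramifiedAt s ∧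
        s59i_cpTr (s59q_WRho W hΔ hp𝒪) φs = εs * ((((s : ℕ) : ℕ) : 𝒪) + 1)))
    (hunrW : ∀ q : ℕ, q.Prime → q ∉ s59q_WSmin W hΔ hp𝒪 ∪ insert (s : ℕ) Rs →
      (s59q_WRho W hΔ hp𝒪).IsUnramifiedAt q)
    (hDm : Nonempty (GaloisRep.DeformationRingData 𝒪 (s59i_rhobarW W p hΔ 𝒪 hp𝒪)
      (fun _A _ _ _ ρ => GaloisRep.strictOrdinaryCondition 𝒪 p (s59q_WSmin W hΔ hp𝒪 ∪ {(s : ℕ)}) ρ ∧
        ∀ q ∈ s59q_WSmin W hΔ hp𝒪 ∪ insert (s : ℕ) Rs, q.Prime → q ≠ p →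
          ρ.IsUnipotentOnInertiaAt q)))
    (HT : s59q_sp_TPkgFLR p W hΔ N₀ s k₀) :
    ∃ (N : ℕ) (_ : NeZero N) (χ : heckeAlgebra N 2
        (↑((N * p).primeFactors ∪ W.Δ.natAbs.primeFactors) : Set ℕ) →+* 𝒪),
      N = N₀ * ∏ q ∈ Rs, q ∧ Squarefree N ∧ p ∣ N ∧
      ∀ (ℓ : ℕ) (hℓ : ℓ.Prime) (hℓN : ¬ ℓ ∣ N)
        (hℓB : ℓ ∉ (↑((N * p).primeFactors ∪ W.Δ.natAbs.primeFactors) : Set ℕ)),
        χ (heckeAlgebra.T hℓ hℓN hℓB) = ((W.apOfModel ℓ : ℤ) : 𝒪) := by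
  classical
  have hpP : p.Prime := hpF.out
  have hp2 : p ≠ 2 := s59q_W_p_ne_two hp35
  have habs := s59q_W_habs W hΔ hp𝒪 hp35 hss hirr
  obtain ⟨Nd⟩ := exists_normData (s59q_WRhobar W hΔ hp𝒪) habs
  obtain ⟨i2, hi2⟩ := s59q_two_inv p hp2 hp𝒪
  have hk₀ : k₀ ≤ 1 := by rcases hspec with ⟨h, -⟩ | ⟨h, -⟩ <;> omega
  have hsRs : (s : ℕ) ∉ Rs := fun h => (hRs _ h).2.2.1 hsN₀
  -- Frobenius elements and tame generators at all primes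
  have hfrob : ∀ q : Nat.Primes, ∃ φ : Γℚ, (primeLocalPlace q).IsFrobeniusAt φ q ∧
      (q = s → φ = φs) := by
    intro q
    by_cases hqs : q = s
    · subst hqs
      exact ⟨φs, hφs, fun _ => rfl⟩
    · obtain ⟨φ, hφ⟩ := s56z_exists_frob q
      exact ⟨φ, hφ, fun h => absurd h hqs⟩
  choose φall hφall hφalls using hfrob
  have hφs' : φall s = φs := hφalls s rfl
  choose σall hσall using fun q : Nat.Primes =>
    s59q_exists_isTameGen q.2 (s56z_place_liesOver q)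
  -- the signs
  have hsign : ∀ q : Nat.Primes, ∃ ε : 𝒪, (ε = 1 ∨ ε = -1) ∧ ((q : ℕ) ∈ Rs →
      s59i_cpTr (s59q_WRho W hΔ hp𝒪) (φall q) = ε * ((((q : ℕ) : ℕ) : 𝒪) + 1) ∧
      LinearMap.charpoly ((s59q_WRhobar W hΔ hp𝒪).ρ (φall q)) =
        (Polynomial.X - Polynomial.C (residue 𝒪 (ε * (((q : ℕ) : ℕ) : 𝒪)))) *
          (Polynomial.X - Polynomial.C (residue 𝒪 ε))) ∧ (q = s → ε = εs) := by
    intro q
    by_cases hq : (q : ℕ) ∈ Rs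
    · obtain ⟨-, hqp, -, -, hU, hram⟩ := hRs q hq
      obtain ⟨ε, hε, h1, h2⟩ := s59f_W_sign W hΔ hp𝒪 hp2 hss hirr q q.2 hqp hU hram
        (primeLocalPlace q) (s56z_place_liesOver q) (φall q) (hφall q)
      exact ⟨ε, hε, fun _ => ⟨h1, h2⟩, fun h => absurd (h ▸ hq) hsRs⟩
    · by_cases hqs : q = s
      · exact ⟨εs, hεs, fun h => absurd h hq, fun _ => rfl⟩
      · exact ⟨1, Or.inl rfl, fun h => absurd h hq, fun h => absurd h hqs⟩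
  choose εall hεall hεRs hεsp using hsign
  have hεs' : εall s = εs := hεsp s rfl
  -- the classification of the raising primes
  set isB : ℕ → Prop := fun q => p ∣ q - 1 ∧ ∃ hq : q.Prime,
    (s59q_WRhobar W hΔ hp𝒪).ρ (φall ⟨q, hq⟩) =
      residue 𝒪 (εall ⟨q, hq⟩) • (1 : Module.End (ResidueField 𝒪) (s59q_WRhobar W hΔ hp𝒪).V)
    with hisB
  set Bd : Finset ℕ := Rs.filter isB with hBd
  set Ed' : Finset ℕ := Rs.filter (fun q => ¬ isB q) with hEd'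
  set Ed : Finset ℕ := insert (s : ℕ) Ed' with hEd
  have hBdEd' : Bd ∪ Ed' = Rs := Finset.filter_union_filter_not_eq _ _
  have hBE' : Disjoint Bd Ed' := Finset.disjoint_filter_filter_not _ _ _
  have hBdRs : ∀ q ∈ Bd, q ∈ Rs := fun q hq => (Finset.mem_filter.mp hq).1
  have hEdRs' : ∀ q ∈ Ed', q ∈ Rs := fun q hq => (Finset.mem_filter.mp hq).1
  have hEdRs : ∀ q ∈ Ed, q ≠ (s : ℕ) → q ∈ Rs := fun q hq hqs =>
    hEdRs' q ((Finset.mem_insert.mp hq).resolve_left hqs)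
  have hBE : Disjoint Bd Ed :=
    Finset.disjoint_insert_right.mpr ⟨fun h => hsRs (hBdRs _ h), hBE'⟩
  have hsEd : (s : ℕ) ∈ Ed := Finset.mem_insert_self _ _
  have hBdEd : Bd ∪ Ed = insert (s : ℕ) Rs := by
    rw [hEd, Finset.union_insert, hBdEd']
  have hEdP : ∀ q ∈ Ed, q.Prime := by
    intro q hq
    by_cases hqs : q = (s : ℕ)
    · rw [hqs]; exact s.2
    · exact (hRs q (hEdRs q hq hqs)).1
  obtain ⟨prB, hBinj, hprB⟩ := s59q_exists_enum Bd (fun q hq => (hRs q (hBdRs q hq)).1)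
  obtain ⟨prE, hEinj, hprE⟩ := s59q_exists_enum Ed hEdP
  set pr : Fin Bd.card ⊕ Fin Ed.card → Nat.Primes := Sum.elim prB prE with hpr
  have hmemB : ∀ j, (prB j : ℕ) ∈ Bd := fun j => by
    rw [← hprB]; exact Finset.mem_image_of_mem _ (Finset.mem_univ j)
  have hmemE : ∀ l, (prE l : ℕ) ∈ Ed := fun l => by
    rw [← hprE]; exact Finset.mem_image_of_mem _ (Finset.mem_univ l)
  -- the index of the spectator
  obtain ⟨ls, hls⟩ : ∃ ls : Fin Ed.card, prE ls = s := by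
    have h := hsEd
    rw [← hprE] at h
    obtain ⟨l, -, hl⟩ := Finset.mem_image.mp h
    exact ⟨l, Subtype.ext hl⟩
  have hlsne : ∀ l, l ≠ ls → (prE l : ℕ) ≠ (s : ℕ) := by
    intro l hl h
    apply hl
    apply hEinj
    show (prE l : ℕ) = (prE ls : ℕ)
    rw [h, hls]
  have hmemRs : ∀ t, t ≠ Sum.inr ls → (pr t : ℕ) ∈ Rs := by
    rintro (j | l) ht
    · exact hBdRs _ (hmemB j)
    · exact hEdRs _ (hmemE l) (hlsne l fun h => ht (by rw [h]))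
  set σq : Fin Bd.card ⊕ Fin Ed.card → Γℚ := fun t => σall (pr t) with hσqdef
  set φq : Fin Bd.card ⊕ Fin Ed.card → Γℚ := fun t => φall (pr t) with hφqdef
  have hσq : ∀ t, s59q_IsTameGen (pr t) (primeLocalPlace (pr t)) (σq t) := fun t => hσall (pr t)
  have hφq : ∀ t, (primeLocalPlace (pr t)).IsFrobeniusAt (φq t) (pr t) := fun t => hφall (pr t)
  -- the primes of type (iv)
  have hBsc : ∀ j, p ∣ (prB j : ℕ) - 1 ∧ (s59q_WRhobar W hΔ hp𝒪).ρ (φall (prB j)) =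
      residue 𝒪 (εall (prB j)) •
        (1 : Module.End (ResidueField 𝒪) (s59q_WRhobar W hΔ hp𝒪).V) := by
    intro j
    obtain ⟨h1, hq, h2⟩ := (Finset.mem_filter.mp (hmemB j)).2
    exact ⟨h1, h2⟩
  -- the local models at the smooth primes
  have hloc : ∀ l : Fin Ed.card, ∃ (Pm P'm : Matrix (Fin 2) (Fin 2) 𝒪) (L : s59f_LocBr 𝒪 i2),
      Pm * P'm = 1 ∧ P'm * Pm = 1 ∧
      P'm.map (residue 𝒪) * matOfRes (s59q_WRhobar W hΔ hp𝒪) Nd.b (φall (prE l)) *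
        Pm.map (residue 𝒪) = L.M0.map (residue 𝒪) ∧
      L.u = (((prE l : ℕ) : ℕ) : 𝒪) ∧
      L.tr0 = εall (prE l) * ((((prE l : ℕ) : ℕ) : 𝒪) + 1) ∧ s59u_sp_LocBrPt L := by
    intro l
    by_cases hl : l = ls
    · have hpe : prE l = s := by rw [hl, hls]
      rw [hpe]
      refine s59u_sp_exists_locBr hp𝒪 (s59q_WRhobar W hΔ hp𝒪) Nd.b s s.2 hsp
        (φall s) (εall s) (hεall _) ?_ ?_ i2 hi2
      · rw [hεs', hφs']
        exact hscp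
      · intro hd
        exact absurd hd hsns
    · have hqRs : (prE l : ℕ) ∈ Rs := hEdRs _ (hmemE l) (hlsne l hl)
      have hR := hRs _ hqRs
      refine s59u_sp_exists_locBr hp𝒪 (s59q_WRhobar W hΔ hp𝒪) Nd.b (prE l) (prE l).2 hR.2.1
        (φall (prE l)) (εall (prE l)) (hεall _) (hεRs _ hqRs).2 ?_ i2 hi2
      intro hd hsc
      have hmem : (prE l : ℕ) ∈ Ed' := (Finset.mem_insert.mp (hmemE l)).resolve_left (hlsne l hl)
      exact (Finset.mem_filter.mp hmem).2 ⟨hd, (prE l).2, hsc⟩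
  choose PE P'E LE hPE1 hPE2 hPE3 hLu hLtr hLpt using hloc
  -- the order of the steps
  obtain ⟨step, k, -, hstep, hvirt, hreal, hcov⟩ :=
    s59u_sp_exists_step (Sum.inl ls : Fin Ed.card ⊕ Fin Bd.card) k₀ hk₀
  -- the top level
  have hinj : Function.Injective (fun t => (pr t : ℕ)) := by
    rintro (j | l) (j' | l') h
    · exact congrArg Sum.inl (hBinj h)
    · exact absurd (hmemE l') (Finset.disjoint_left.mp hBE (by
        have : (prB j : ℕ) = (prE l' : ℕ) := h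
        rw [← this]; exact hmemB j))
    · exact absurd (hmemE l) (Finset.disjoint_left.mp hBE (by
        have : (prE l : ℕ) = (prB j' : ℕ) := h
        rw [this]; exact hmemB j'))
    · exact congrArg Sum.inr (hEinj h)
  have hprs : (pr (Sum.inr ls) : ℕ) = (s : ℕ) := by
    show (prE ls : ℕ) = (s : ℕ)
    rw [hls]
  have himgRs : (Finset.univ.erase (Sum.inr ls : Fin Bd.card ⊕ Fin Ed.card)).image
      (fun t => (pr t : ℕ)) = Rs := by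
    ext q
    constructor
    · intro hq
      obtain ⟨t, ht, rfl⟩ := Finset.mem_image.mp hq
      exact hmemRs t (Finset.mem_erase.mp ht).1
    · intro hq
      have hq' : q ∈ Bd ∪ Ed' := by rw [hBdEd']; exact hq
      rcases Finset.mem_union.mp hq' with h | h
      · rw [← hprB] at h
        obtain ⟨j, -, hj⟩ := Finset.mem_image.mp h
        exact Finset.mem_image.mpr ⟨Sum.inl j, Finset.mem_erase.mpr ⟨by simp, Finset.mem_univ _⟩, hj⟩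
      · have h' : q ∈ Ed := Finset.mem_insert_of_mem h
        rw [← hprE] at h'
        obtain ⟨l, -, hl⟩ := Finset.mem_image.mp h'
        refine Finset.mem_image.mpr ⟨Sum.inr l, Finset.mem_erase.mpr ⟨?_, Finset.mem_univ _⟩, hl⟩
        intro hll
        have hll' : l = ls := Sum.inr_injective hll
        apply hsRs
        have : (s : ℕ) = q := by rw [← hl, hll', hls]
        rw [this]
        exact hq
  have hprod : ∏ t ∈ Finset.univ.erase (Sum.inr ls : Fin Bd.card ⊕ Fin Ed.card), (pr t : ℕ) =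
      ∏ q ∈ Rs, q := by
    rw [← himgRs, Finset.prod_image (fun a _ b _ h => hinj h)]
  have hRsP : ∀ q ∈ Rs, q.Prime := fun q hq => (hRs q hq).1
  have hN0 : N₀ * ∏ t ∈ Finset.univ.erase (Sum.inr ls : Fin Bd.card ⊕ Fin Ed.card), (pr t : ℕ) ≠ 0 :=
    Nat.mul_ne_zero hN₀ (Finset.prod_ne_zero_iff.mpr fun t _ => (pr t).2.ne_zero)
  have hNsq : Squarefree
      (N₀ * ∏ t ∈ Finset.univ.erase (Sum.inr ls : Fin Bd.card ⊕ Fin Ed.card), (pr t : ℕ)) := by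
    rw [hprod]
    exact s59f_squarefree_mul_prod N₀ hsq Rs fun q hq => ⟨(hRs q hq).1, (hRs q hq).2.2.1⟩
  have hpN : p ∣
      N₀ * ∏ t ∈ Finset.univ.erase (Sum.inr ls : Fin Bd.card ⊕ Fin Ed.card), (pr t : ℕ) :=
    Dvd.dvd.mul_right hpN₀ _
  refine ⟨N₀ * ∏ t ∈ Finset.univ.erase (Sum.inr ls : Fin Bd.card ⊕ Fin Ed.card), (pr t : ℕ),
    ⟨hN0⟩, ?_⟩
  haveI : NeZero
      (N₀ * ∏ t ∈ Finset.univ.erase (Sum.inr ls : Fin Bd.card ⊕ Fin Ed.card), (pr t : ℕ)) := ⟨hN0⟩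
  set N : ℕ := N₀ * ∏ t ∈ Finset.univ.erase (Sum.inr ls : Fin Bd.card ⊕ Fin Ed.card), (pr t : ℕ)
    with hNdef
  set B : Finset ℕ := (N * p).primeFactors ∪ W.Δ.natAbs.primeFactors with hBdef
  have hB1 : ∀ r : ℕ, r.Prime → r ∣ N * p → r ∈ B := fun r hr hd =>
    Finset.mem_union_left _ (Nat.mem_primeFactors.mpr ⟨hr, hd, Nat.mul_ne_zero hN0 hpP.ne_zero⟩)
  have hB2Δ : ∀ r : ℕ, r.Prime → (r : ℤ) ∣ W.Δ → r ∈ B := fun r hr hd =>
    Finset.mem_union_right _ (Nat.mem_primeFactors.mpr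
      ⟨hr, Int.natCast_dvd.mp hd, Int.natAbs_ne_zero.mpr hΔ⟩)
  have hB2 : ∀ r : ℕ, r.Prime → ¬ W.IsGoodPrimeFor r → r ∈ B := by
    intro r hr hbad'
    refine hB2Δ r hr ?_
    by_contra h
    exact hbad' h
  have hpB : p ∈ B := hB1 p hpP (Dvd.intro_left N rfl)
  have hsB : (s : ℕ) ∈ B :=
    hB1 s s.2 (Dvd.dvd.mul_right (Dvd.dvd.mul_right hsN₀ _) _)
  have hRsB : ∀ q ∈ Rs, q ∈ B := fun q hq => hB2 q (hRs q hq).1 (hRs q hq).2.2.2.1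
  have hEdB : ∀ q ∈ Ed, q ∈ B := by
    intro q hq
    by_cases hqs : q = (s : ℕ)
    · rw [hqs]; exact hsB
    · exact hRsB q (hEdRs q hq hqs)
  have hEdunr : ∀ q ∈ Ed, q ≠ p ∧ (s59q_WRhobar W hΔ hp𝒪).IsUnramifiedAt q := by
    intro q hq
    by_cases hqs : q = (s : ℕ)
    · rw [hqs]; exact ⟨hsp, hsU⟩
    · exact ⟨(hRs q (hEdRs q hq hqs)).2.1, (hRs q (hEdRs q hq hqs)).2.2.2.2.1⟩
  -- the sets of raising primes as images
  have himB : Finset.univ.image (fun j : Fin Bd.card => (pr (Sum.inl j) : ℕ)) = Bd := hprB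
  have himE : Finset.univ.image (fun l : Fin Ed.card => (pr (Sum.inr l) : ℕ)) = Ed := hprE
  have hunrW' : ∀ q : ℕ, q.Prime → q ∉ s59q_WSmin W hΔ hp𝒪 ∪
      (Finset.univ.image (fun j : Fin Bd.card => (pr (Sum.inl j) : ℕ)) ∪
        Finset.univ.image (fun l : Fin Ed.card => (pr (Sum.inr l) : ℕ))) →
      (s59q_WRho W hΔ hp𝒪).IsUnramifiedAt q := by
    intro q hq hqS
    refine hunrW q hq fun h => hqS ?_
    rw [himB, himE, hBdEd]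
    exact h
  have hsigns : ∀ t, t ≠ Sum.inr ls → ∃ ε : 𝒪, (ε = 1 ∨ ε = -1) ∧
      s59i_cpTr (s59q_WRho W hΔ hp𝒪) (φq t) = ε * ((((pr t : ℕ) : ℕ) : 𝒪) + 1) := fun t ht =>
    ⟨εall (pr t), hεall _, (hεRs _ (hmemRs t ht)).1⟩
  have hprops : ∀ t, t ≠ Sum.inr ls → (pr t : ℕ) ≠ p ∧ ¬ (pr t : ℕ) ∣ N₀ ∧
      ¬ W.IsGoodPrimeFor (pr t) ∧
      (s59i_rhobarW W p hΔ 𝒪 hp𝒪).IsUnramifiedAt (pr t) ∧
      ¬ (s59q_WRho W hΔ hp𝒪).IsUnramifiedAt (pr t) := fun t ht =>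
    (hRs _ (hmemRs t ht)).2
  have hDm' : Nonempty (GaloisRep.DeformationRingData 𝒪 (s59i_rhobarW W p hΔ 𝒪 hp𝒪)
      (fun _A _ _ _ ρ => GaloisRep.strictOrdinaryCondition 𝒪 p (s59q_WSmin W hΔ hp𝒪 ∪ {(s : ℕ)}) ρ ∧
        ∀ q ∈ s59q_WSmin W hΔ hp𝒪 ∪
          (Finset.univ.image (fun j : Fin Bd.card => (pr (Sum.inl j) : ℕ)) ∪
            Finset.univ.image (fun l : Fin Ed.card => (pr (Sum.inr l) : ℕ))),
          q.Prime → q ≠ p → ρ.IsUnipotentOnInertiaAt q)) := by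
    rw [himB, himE, hBdEd]
    exact hDm
  have hφs : φq (Sum.inr ls) = φall s := by
    show φall (prE ls) = φall s
    rw [hls]
  have hσs : σq (Sum.inr ls) = σall s := by
    show σall (prE ls) = σall s
    rw [hls]
  have HT' := HT 𝒪 hp𝒪 hsplitℤ Bd.card Ed.card pr σq φq ls εs step k N B hinj hprs hsU hεs
    (by rw [hφs, hφs']; exact hscp)
    (fun h0 => by
      rcases hspec with ⟨-, h⟩ | ⟨h, -⟩
      · exact h
      · omega)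
    (fun h1 => by
      rcases hspec with ⟨h, -⟩ | ⟨-, h, h'⟩
      · omega
      · exact ⟨h, by rw [hφs, hφs']; exact h'⟩)
    hprops hσq hφq hsigns hstep hvirt hreal hcov rfl hNsq hpN rfl hunrW' hDm'
  have hBmem : ∀ q, q ∈ Finset.univ.image (fun j : Fin Bd.card => (pr (Sum.inl j) : ℕ)) →
      q ∈ Bd := fun q hq => by rwa [himB] at hq
  have hEmem : ∀ q, q ∈ Finset.univ.image (fun l : Fin Ed.card => (pr (Sum.inr l) : ℕ)) →
      q ∈ Ed := fun q hq => by rwa [himE] at hq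
  -- the position of `ρ_W` at the tame generators
  have hramt : ∀ t, t ≠ Sum.inr ls → (s59q_WRho W hΔ hp𝒪).ρ (σq t) ≠ 1 := fun t ht =>
    s59f_tame_ne_one (s59q_WRho W hΔ hp𝒪) hpP hp𝒪 (pr t).2 (hprops t ht).1
      (hprops t ht).2.2.2.1 (hprops t ht).2.2.2.2 (primeLocalPlace (pr t))
      (s56z_place_liesOver (pr t)) (σq t) (hσq t)
  have hLtrs : (LE ls).tr0 = εs * ((((s : ℕ) : ℕ) : 𝒪) + 1) := by
    rw [hLtr ls, hls, hεs']
  obtain ⟨χ, hχ⟩ := s59q_sp_FLR_W_absE_ord p hp2 W hΔ N B hss hirr hpB hB2 hmult 𝒪 hp𝒪 habs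
    (s59q_W_hdet W hΔ hp𝒪 hp2 hirr) (s59q_W_hsplit W hΔ hp𝒪 hsplitℤ)
    (s59q_W_hTW W hΔ hp𝒪 hp35 hss hirr) B (s59q_WSmin W hΔ hp𝒪)
    (Finset.univ.image (fun j : Fin Bd.card => (pr (Sum.inl j) : ℕ)))
    (Finset.univ.image (fun l : Fin Ed.card => (pr (Sum.inr l) : ℕ)))
    (s59q_WSmin_p_mem W hΔ hp𝒪) (s59q_WSmin_subset W hΔ hp𝒪 B hpB hB2Δ)
    (fun q hq => hRsB q (hBdRs q (hBmem q hq))) (fun q hq => hEdB q (hEmem q hq))
    (fun q hq => (hRs q (hBdRs q (hBmem q hq))).1) (fun q hq => hEdP q (hEmem q hq))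
    (s59q_WSmin_hmin W hΔ hp𝒪 hp2)
    (fun q hq => ⟨(hRs q (hBdRs q (hBmem q hq))).2.1, (hRs q (hBdRs q (hBmem q hq))).2.2.2.2.1⟩)
    (fun q hq => hEdunr q (hEmem q hq))
    (Finset.disjoint_left.mpr fun q hq hq' =>
      Finset.disjoint_left.mp hBE (hBmem q hq) (hEmem q hq'))
    (fun q hq => by
      obtain ⟨-, hqP, hsc⟩ := (Finset.mem_filter.mp (hBmem q hq)).2
      exact s59f_central_of_scalar (s59q_WRhobar W hΔ hp𝒪) q
        (hRs q (hBdRs q (hBmem q hq))).2.2.2.2.1 (φall q) (hφall q) _ hsc)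
    Nd Bd.card Ed.card pr rfl rfl hBinj hEinj σq φq hσq hφq i2 hi2
    (Sum.elim (fun _ => 1) PE) (Sum.elim (fun _ => 1) P'E)
    (by
      rintro (j | l)
      · exact one_mul _
      · exact hPE1 l)
    (by
      rintro (j | l)
      · exact one_mul _
      · exact hPE2 l)
    LE hLpt (fun i => εall (prB i))
    (fun i => by rcases hεall (prB i) with h | h <;> rw [h] <;> ring)
    hPE3
    (fun i => by
      show matOfRes (s59q_WRhobar W hΔ hp𝒪) Nd.b (φall (prB i)) = _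
      rw [matOfRes_apply, (hBsc i).2, map_smul, LinearMap.toMatrix_one])
    hLu
    (fun j => s59q_W_sub_one_mem hp𝒪 _ (prB j).2 (hBsc j).1)
    step k₀ k hstep
    (fun t ht => ⟨ls, hvirt t ht⟩)
    (fun j => by
      obtain ⟨t, h1, h2, h3⟩ := hcov (Sum.inr j) (by simp)
      exact ⟨t, h2, h3⟩)
    hunrW'
    (fun j => hramt (Sum.inl j) (by simp))
    (fun l => by
      by_cases hl : l = ls
      · rw [hl]
        rcases hspec with ⟨h0, hun⟩ | ⟨h1, hram, htr⟩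
        · refine Or.inr ⟨?_, ?_⟩
          · rintro ⟨t', ht', hst⟩
            exact hreal t' (by omega) ht' hst
          · exact hun (primeLocalPlace s) (s56z_place_liesOver s) (σq (Sum.inr ls))
              (by rw [hσs]; exact (hσall s).1)
        · refine Or.inl ⟨⟨0, by omega, hvirt 0 (by omega)⟩, ?_, ?_⟩
          · rw [hσs]
            exact s59f_tame_ne_one (s59q_WRho W hΔ hp𝒪) hpP hp𝒪 s.2 hsp hsU hram
              (primeLocalPlace s) (s56z_place_liesOver s) (σall s) (hσall s)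
          · rw [hLtrs, hφs, hφs']
            exact htr
      · have hne : (Sum.inr l : Fin Bd.card ⊕ Fin Ed.card) ≠ Sum.inr ls := fun h =>
          hl (Sum.inr_injective h)
        refine Or.inl ⟨?_, hramt (Sum.inr l) hne, ?_⟩
        · obtain ⟨t, h1, h2, h3⟩ := hcov (Sum.inl l) (fun h => hl (Sum.inl_injective h))
          exact ⟨t, h2, h3⟩
        · show s59i_cpTr (s59q_WRho W hΔ hp𝒪) (φall (prE l)) = (LE l).tr0
          rw [hLtr l]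
          exact (hεRs _ (hmemRs (Sum.inr l) hne)).1)
    (fun D0 => by
      obtain ⟨Bs, hHk, ⟨𝒪₀, i𝒪₀, j𝒪₀, x₀, hx₀M, hx₀δ, hx₀ram, hx₀tr⟩, HL⟩ := HT' D0
      refine ⟨Bs, hHk, ⟨𝒪₀, i𝒪₀, j𝒪₀, x₀, hx₀M, ?_, ?_, ?_⟩, HL⟩
      · intro t ht
        refine hx₀δ t fun h1 hts => ?_
        exact ht ls hts ⟨0, by omega, hvirt 0 (by omega)⟩
      · rintro l ⟨t', ht', hst⟩
        have h1 : k₀ = 1 := by omega
        have hl : l = ls := by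
          have := hvirt t' ht'
          rw [hst] at this
          exact Sum.inl_injective this
        rw [hl]
        exact hx₀ram h1
      · rintro l ⟨t', ht', hst⟩
        have h1 : k₀ = 1 := by omega
        have hl : l = ls := by
          have := hvirt t' ht'
          rw [hst] at this
          exact Sum.inl_injective this
        rw [hl, hLtrs]
        exact hx₀tr h1)
  exact ⟨χ, congrArg (fun x => N₀ * x) hprod, hNsq, hpN, hχ⟩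

end Fermat.Agent.Lib.S59
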