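/-
PROGRAMME R2 = S59, leaf (c2-c) = [SPEC-T±] (helper4, prefix `s59f_sg_`), part 0: **small `p`-independent lemmas for the
export (E-conc) of the `T`-side with no raising prime.**

* `s59f_sg_op_inr_top`  : at `H = ⊤` every diamond generator `s59w_op ⊤ R (Sum.inr τ)` is the identity;
* `s59f_sg_Tp'_top`     : at `H = ⊤` the twisted Hecke operator `s59e_Tp' ⊤ R k i` is `s59w_op ⊤ R (Sum.inl i)`;
* `s59f_sg_poly_of_gen` : if a commutative `𝒪`-algebra `R` acts on the range of an endomorphism `ε` of `Z`, is generated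
  by a set `G` and every element of `G` acts as (the restriction of) one of the commuting operators `ops j` of `Z`,
  then every `t : R` acts as `s59t_polyAct ops hops P` for a polynomial `P`;
* `s59f_sg_faithful`    : faithfulness of the module from an injective action and a surjective equivariant map.
-/
import Mathlib
import Fermat.Agent.Lib.S59.TPolyAct
import Fermat.Agent.Lib.S59.TBase
import Fermat.Agent.Lib.S59.EHRel1

set_option autoImplicit false
set_option linter.unusedSectionVars false
set_option linter.unusedVariables false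

noncomputable section

namespace Fermat.Agent.Lib.S59

open Matrix MatrixGroups CongruenceSubgroup
open Fermat.Agent.Lib.S48

section Top

variable {N : ℕ} [NeZero N] (R : Type*) [CommRing R]

/-- at `H = ⊤` every diamond generator is the identity. -/
theorem s59f_sg_op_inr_top (τ : Gamma0 N) :
    s59w_op (⊤ : Subgroup (ZMod N)ˣ) R (Sum.inr τ) = 1 := by
  have e : s59w_op (⊤ : Subgroup (ZMod N)ˣ) R (Sum.inr τ) =
      s59t_rho N (⊤ : Subgroup (ZMod N)ˣ) R R
        ((QuotientGroup.mk τ : s59t_Delta N (⊤ : Subgroup (ZMod N)ˣ)))⁻¹ := by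
    refine LinearMap.ext fun χ => Subtype.ext ?_
    exact (s59t_rho_mk_inv N (⊤ : Subgroup (ZMod N)ˣ) R R τ χ).symm
  rw [e, Subsingleton.elim ((QuotientGroup.mk τ : s59t_Delta N (⊤ : Subgroup (ZMod N)ˣ)))⁻¹ 1,
    map_one]

/-- at `H = ⊤` the twisted Hecke operator is the plain one. -/
theorem s59f_sg_Tp'_top (k : ℕ) (i : s59w_TIdx N) :
    s59e_Tp' (⊤ : Subgroup (ZMod N)ˣ) R k i = s59w_op (⊤ : Subgroup (ZMod N)ˣ) R (Sum.inl i) := by
  unfold s59e_Tp'
  rw [s59f_sg_op_inr_top, one_mul]

end Top

section Poly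

variable {𝒪 : Type*} [CommRing 𝒪] {Z : Type*} [AddCommGroup Z] [Module 𝒪 Z]

/-- **polynomial form of a generated action on the range of an endomorphism.** -/
theorem s59f_sg_poly_of_gen {J : Type*} (ops : J → Module.End 𝒪 Z)
    (hops : ∀ i j, ops i * ops j = ops j * ops i) (ε : Module.End 𝒪 Z)
    {R : Type*} [CommRing R] [Algebra 𝒪 R]
    (act : R →ₐ[𝒪] Module.End 𝒪 (LinearMap.range ε)) (G : Set R)
    (hG : Algebra.adjoin 𝒪 G = ⊤)
    (hgen : ∀ x ∈ G, ∃ j : J, ∀ z : LinearMap.range ε,
      ((act x z : LinearMap.range ε) : Z) = ops j (z : Z))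
    (t : R) : ∃ P : MvPolynomial J 𝒪, ∀ z : LinearMap.range ε,
      ((act t z : LinearMap.range ε) : Z) = s59t_polyAct ops hops P (z : Z) := by
  have ht : t ∈ Algebra.adjoin 𝒪 G := hG ▸ Algebra.mem_top
  induction ht using Algebra.adjoin_induction with
  | mem x hx =>
    obtain ⟨j, hj⟩ := hgen x hx
    exact ⟨MvPolynomial.X j, fun z => by rw [hj z, s59t_polyAct_X]⟩
  | algebraMap o =>
    refine ⟨MvPolynomial.C o, fun z => ?_⟩
    rw [AlgHom.commutes, s59t_polyAct_C, Module.algebraMap_end_apply, LinearMap.smul_apply,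
      Module.End.one_apply, Submodule.coe_smul]
  | add x y _ _ ihx ihy =>
    obtain ⟨Px, hx'⟩ := ihx
    obtain ⟨Py, hy'⟩ := ihy
    refine ⟨Px + Py, fun z => ?_⟩
    rw [map_add, map_add, LinearMap.add_apply, LinearMap.add_apply, Submodule.coe_add, hx' z, hy' z]
  | mul x y _ _ ihx ihy =>
    obtain ⟨Px, hx'⟩ := ihx
    obtain ⟨Py, hy'⟩ := ihy
    refine ⟨Px * Py, fun z => ?_⟩
    rw [map_mul, map_mul, Module.End.mul_apply, Module.End.mul_apply, hx' (act y z), hy' z]

/-- faithfulness of a module from an injective action on a model and a surjective equivariant map to the model. -/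
theorem s59f_sg_faithful {R : Type*} [CommRing R] {M : Type*} [AddCommGroup M] [Module R M]
    {Y : Type*} [AddCommGroup Y] [Module 𝒪 Y]
    (act : R →+* Module.End 𝒪 Y) (hact : Function.Injective act)
    (emb : M →+ Y) (hemb : Function.Surjective emb)
    (hcompat : ∀ (t : R) (m : M), emb (t • m) = act t (emb m))
    (a : R) (ha : ∀ mm : M, a • mm = 0) : a = 0 := by
  apply hact
  rw [map_zero]
  refine LinearMap.ext fun y => ?_
  obtain ⟨m, rfl⟩ := hemb y
  rw [← hcompat, ha m, map_zero, LinearMap.zero_apply]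

end Poly

end Fermat.Agent.Lib.S59
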