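/-
PROGRAMME R2 = S59, leaf (c2-c) = [SPEC-T±] (helper4, prefix `s59f_sg_`), part 23: **ONE TAYLOR–WILES LEVEL OF THE `T`-SIDE FOR AN
ABSTRACT PAIR OF IDEMPOTENTS `(ε, ε′)`, INCLUDING THE (B2) STEP** (`p ≠ 2`, EVEN level `2 ∣ N`): helper5's (H3)/(B2) for a type with free finsets
(`s59efl_H3_free`, EFlrH3F.lean) at the level `(N ∏ qv, H′)`, then `s59c3_level_abs`, then the trace ring of the level is
reduced and `𝒪`-torsion-free (`s59efl_adj_reduced`, `s59efl_adj_torsionfree`, EFlrTr.lean).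

* **`s59f_sg_level3`** : `∃ Lv : s59e_TLevelL 𝒪 p n r σ 𝒪[aM₀] (ε H_par)[⊤ = 1] ρR d qv DQ, IsReduced Lv.T′ ∧ Lv.T′ torsion-free`
  — the inputs of `s59f_sg_levelF` (FSgnT1.lean).  The pair `(ε, ε′)` is ANY pair of idempotents commuting with the anemic
  generators, `ε′` generalised-eigen for the system of `W`, with a Taylor–Wiles package `s59t_TWFull … ε ε′` (in the
  application: the sign cuts `(ε₀ e_s, ε′ e_s′)` of helper2's B9EPm.lean).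
-/
import Mathlib
import Fermat.Agent.Lib.S59.C3FlrLvl
import Fermat.Agent.Lib.S59.EFlrH3F
import Fermat.Agent.Lib.S59.EFlrTr
import Fermat.Agent.Lib.S59.FSgnT1
import Fermat.Agent.Lib.S59.EFlrConcA

set_option autoImplicit false
set_option linter.unusedSectionVars false
set_option linter.unusedVariables false
set_option linter.style.haveILetI false
set_option maxHeartbeats 0
set_option synthInstance.maxHeartbeats 400000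
set_option maxSynthPendingDepth 3

noncomputable section

namespace Fermat.Agent.Lib.S59

open IsLocalRing CuspForm Polynomial ExtCitation CongruenceSubgroup
open WeierstrassCurve WeierstrassCurve.Affine WeierstrassCurve.Affine.Point
open Fermat.Agent.Lib.S48 Fermat.Agent.Lib.S44
open scoped MatrixGroups

local notation "Γℚ" => (AlgebraicClosure ℚ ≃ₐ[ℚ] AlgebraicClosure ℚ)

/-- **one Taylor–Wiles level of the `T`-side for an abstract pair of idempotents, with its (B2) step.** -/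
theorem Internal.s59f_sg_level3 (p : ℕ) [Fact p.Prime] (hp2 : p ≠ 2) (W : WeierstrassCurve ℤ) (hΔ : W.Δ ≠ 0)
    (N : ℕ) [NeZero N] (B : Finset ℕ)
    (hirr : W.ModRepIsIrreducible p) (hsq : Squarefree N) (hpN : ¬ p ∣ N)
    (hB1 : ∀ r : ℕ, r.Prime → r ∣ N * p → r ∈ B)
    (hB2 : ∀ r : ℕ, r.Prime → ¬ W.IsGoodPrimeFor r → r ∈ B)
    (h23 : 2 ∣ N)
    (𝒪 : Type) [CommRing 𝒪] [IsDomain 𝒪] [IsDiscreteValuationRing 𝒪]
    [IsAdicComplete (maximalIdeal 𝒪) 𝒪] [Finite (ResidueField 𝒪)] [CharZero 𝒪]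
    [Algebra ℤ_[p] 𝒪] [Module.Finite ℤ_[p] 𝒪]
    (hp𝒪 : ((p : ℕ) : 𝒪) ∈ maximalIdeal 𝒪)
    -- the type
    (Sg Su Smin : Finset ℕ) (hpSg : p ∈ Sg)
    (hSg : ∀ q : ℕ, q.Prime → q ∣ N → q ∈ Sg ∨ s59e3q_E2Alt p (s59i_rhobarW W p hΔ 𝒪 hp𝒪) q)
    (hmin : ∀ q : ℕ, q.Prime → q ≠ p →
      (q ∈ Smin ↔ ¬ (s59i_rhobarW W p hΔ 𝒪 hp𝒪).IsUnramifiedAt q))
    (hSuB : ∀ q ∈ Su, q ∈ Smin ∨ q ∈ B)
    (r : ℕ) (σ : Type) [DecidableEq σ] [Fintype σ]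
    -- the base data
    (ε : Module.End 𝒪 (s48h_Hpar 𝒪 (s48h_GammaH N (⊤ : Subgroup (ZMod N)ˣ)) 𝒪))
    (hεc : ∀ jdx : s59w_AIdx N, ε * s59w_op (⊤ : Subgroup (ZMod N)ˣ) 𝒪 jdx =
      s59w_op (⊤ : Subgroup (ZMod N)ˣ) 𝒪 jdx * ε)
    (hρ : ∀ δ y, ε (s59t_rho N (⊤ : Subgroup (ZMod N)ˣ) 𝒪 𝒪 δ y) = s59t_rho N (⊤ : Subgroup (ZMod N)ˣ) 𝒪 𝒪 δ (ε y))
    (d : ℕ) (hd0 : d ≠ 0)
    (b0 : Fin d → LinearMap.range ε)
    (hb0 : Function.Bijective (s59t_evalMap (s59t_partRep (s59t_rho N (⊤ : Subgroup (ZMod N)ˣ) 𝒪 𝒪) hρ) b0))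
    (a₀ : heckeAlgebra N 2 (↑B : Set ℕ) →+*
      Module.End 𝒪 (s48h_Hpar 𝒪 (s48h_GammaH N (⊤ : Subgroup (ZMod N)ˣ)) 𝒪))
    (ha1₀ : ∀ (ℓ : ℕ) (hℓ : ℓ.Prime) (hℓN : ¬ ℓ ∣ N) (hℓS : ℓ ∉ (↑B : Set ℕ)) (i : s59w_TIdx N),
      i.ell = ℓ → a₀ (heckeAlgebra.T hℓ hℓN hℓS) = s59e_Tp' (⊤ : Subgroup (ZMod N)ˣ) 𝒪 ((p ^ 0 - 1) * ((p ^ 0 + 1) / 2)) i)
    (aM₀ : heckeAlgebra N 2 (↑B : Set ℕ) →+* Module.End 𝒪 (LinearMap.range ε))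
    (haM₀ : ∀ t (z : LinearMap.range ε), ((aM₀ t z : LinearMap.range ε) :
      s48h_Hpar 𝒪 (s48h_GammaH N (⊤ : Subgroup (ZMod N)ˣ)) 𝒪) =
        a₀ t (z : s48h_Hpar 𝒪 (s48h_GammaH N (⊤ : Subgroup (ZMod N)ˣ)) 𝒪))
    [IsLocalRing (s59e_adj 𝒪 aM₀)] [IsNoetherianRing (s59e_adj 𝒪 aM₀)]
    [Module.Finite 𝒪 (s59e_adj 𝒪 aM₀)]
    (hRρ : ∀ (t : s59e_adj 𝒪 aM₀) (δ : s59t_Delta N (⊤ : Subgroup (ZMod N)ˣ)) (y : LinearMap.range ε),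
      t • (s59t_partRep (s59t_rho N (⊤ : Subgroup (ZMod N)ˣ) 𝒪 𝒪) hρ) δ y = (s59t_partRep (s59t_rho N (⊤ : Subgroup (ZMod N)ˣ) 𝒪 𝒪) hρ) δ (t • y))
    (ρR : GaloisRepAdic (s59e_adj 𝒪 aM₀))
    (hfrobR : ∀ (ℓ : ℕ), ℓ.Prime → ¬ ℓ ∣ N → ℓ ∉ (↑B : Set ℕ) →
      ∀ A : ValuationSubring (AlgebraicClosure ℚ), A.LiesOverPrime ℓ →
      ∀ g : Γℚ, A.IsFrobeniusAt g ℓ →
        LinearMap.charpoly (ρR.ρ g) =
          Polynomial.X ^ 2 - Polynomial.C (s59e_tOf (↑B : Set ℕ) aM₀ ℓ) * Polynomial.X +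
            Polynomial.C ((ℓ : s59e_adj 𝒪 aM₀)))
    (hgenR : Algebra.adjoin 𝒪 {x : s59e_adj 𝒪 aM₀ | ∃ ℓ : ℕ, ℓ.Prime ∧ ¬ ℓ ∣ N ∧
      ℓ ∉ (↑B : Set ℕ) ∧ x = s59e_tOf (↑B : Set ℕ) aM₀ ℓ} = ⊤)
    -- the level
    (n : ℕ) (qv : Fin r → ℕ) [NeZero (∏ j, qv j)] [NeZero (N * ∏ j, qv j)]
    (hqinj : Function.Injective qv)
    (hqv : ∀ i, (qv i).Prime ∧ qv i ∉ B ∧ p ^ (n + 1) ∣ qv i - 1)
    (hTW : ∀ i, ∀ A : ValuationSubring (AlgebraicClosure ℚ), A.LiesOverPrime (qv i) →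
      ∀ φ : Γℚ, A.IsFrobeniusAt φ (qv i) →
        ∃ α β : ResidueField 𝒪, α ≠ β ∧
          LinearMap.charpoly ((s59i_rhobarW W p hΔ 𝒪 hp𝒪).ρ φ) = (X - C α) * (X - C β))
    -- the idempotent of the level
    (ε' : Module.End 𝒪 (s48h_Hpar 𝒪 (s48h_GammaH (N * ∏ j, qv j) (s59t_Hmul N (∏ j, qv j) (⊤ : Subgroup (ZMod N)ˣ) (s59t_KQ (p ^ n) qv))) 𝒪))
    (hid' : ε' * ε' = ε')
    (hεc' : ∀ jdx : s59w_AIdx (N * ∏ j, qv j), ε' * s59w_op (s59t_Hmul N (∏ j, qv j) (⊤ : Subgroup (ZMod N)ˣ) (s59t_KQ (p ^ n) qv)) 𝒪 jdx = s59w_op (s59t_Hmul N (∏ j, qv j) (⊤ : Subgroup (ZMod N)ˣ) (s59t_KQ (p ^ n) qv)) 𝒪 jdx * ε')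
    (hnil' : ∀ x ∈ s59t_goodB (N * ∏ j, qv j) B, ∃ k : ℕ,
      ∀ y : s48h_Hpar 𝒪 (s48h_GammaH (N * ∏ j, qv j) (s59t_Hmul N (∏ j, qv j) (⊤ : Subgroup (ZMod N)ˣ) (s59t_KQ (p ^ n) qv))) 𝒪,
      ((s59w_op (s59t_Hmul N (∏ j, qv j) (⊤ : Subgroup (ZMod N)ˣ) (s59t_KQ (p ^ n) qv)) 𝒪 x -
        s59t_cB (𝒪 := 𝒪) (N * ∏ j, qv j) (fun ℓ => W.apOfModel ℓ) x •
          (1 : Module.End 𝒪 (s48h_Hpar 𝒪 (s48h_GammaH (N * ∏ j, qv j) (s59t_Hmul N (∏ j, qv j) (⊤ : Subgroup (ZMod N)ˣ) (s59t_KQ (p ^ n) qv))) 𝒪))) ^ k)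
        (ε' y) ∈ (maximalIdeal 𝒪 • ⊤ :
          Submodule 𝒪 (s48h_Hpar 𝒪 (s48h_GammaH (N * ∏ j, qv j) (s59t_Hmul N (∏ j, qv j) (⊤ : Subgroup (ZMod N)ˣ) (s59t_KQ (p ^ n) qv))) 𝒪)))
    (hP1 : s59t_TWFull (s59t_Gamma0_anti (s59t_dvd_mul_left' N (∏ j, qv j)))
      (s59t_GammaHmul_le (N := N) (D := ∏ j, qv j) (H := (⊤ : Subgroup (ZMod N)ˣ)) (K := s59t_KQ (p ^ n) qv))
      (s59t_BQ N (∏ j, qv j) (⊤ : Subgroup (ZMod N)ˣ) (s59t_KQ (p ^ n) qv))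
      (s59t_CQ N (∏ j, qv j) (⊤ : Subgroup (ZMod N)ˣ) (s59t_KQ (p ^ n) qv)) ε ε')
    (DQ : GaloisRep.DeformationRingData 𝒪 (s59i_rhobarW W p hΔ 𝒪 hp𝒪) (fun _A _ _ _ ρ =>
      GaloisRep.flatCondition 𝒪 p (Sg ∪ Finset.univ.image qv) ρ ∧
        ∀ q ∈ Su, q.Prime → q ≠ p → ρ.IsUnipotentOnInertiaAt q)) :
    ∃ Lv : s59e_TLevelL 𝒪 p n r σ (s59e_adj 𝒪 aM₀)
        (s59t_EigT (s59t_partRep (s59t_rho N (⊤ : Subgroup (ZMod N)ˣ) 𝒪 𝒪) hρ) ⊤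
          (1 : s59t_Delta N (⊤ : Subgroup (ZMod N)ˣ) →* 𝒪ˣ) hRρ) ρR d qv DQ,
      IsReduced Lv.T' ∧
      ∀ o : 𝒪, o ≠ 0 → ∀ x : Lv.T', algebraMap 𝒪 Lv.T' o * x = 0 → x = 0 := by
  classical
  have hpP : p.Prime := Fact.out
  have hp2' : p ≠ 2 := hp2
  have hNB : ∀ q : ℕ, q.Prime → q ∣ N → q ∈ B := fun q hq h => hB1 q hq (Dvd.dvd.mul_right h p)
  have hpB : p ∈ B := hB1 p hpP (Dvd.intro_left N rfl)
  have hgoodB : ∀ q : ℕ, q.Prime → q ∉ B → W.IsGoodPrimeFor q := by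
    intro q hq hqB
    by_contra hbad
    exact hqB (hB2 q hq hbad)
  have hEigB : ∀ ℓ : ℕ, ℓ.Prime → ℓ ∉ B →
      ∀ A : ValuationSubring (AlgebraicClosure ℚ), A.LiesOverPrime ℓ →
      ∀ σ : Γℚ, A.IsFrobeniusAt σ ℓ →
        LinearMap.charpoly ((s59i_rhobarW W p hΔ 𝒪 hp𝒪).ρ σ) =
          X ^ 2 - C (residue 𝒪 ((W.apOfModel ℓ : ℤ) : 𝒪)) * X +
            C ((ℓ : ResidueField 𝒪)) := fun ℓ hℓ hℓS A hA σ hσ =>
    s59e_rhobarW_charpoly_frob hΔ hp2 hirr hp𝒪 B hpB hB2 ℓ hℓ hℓS A hA σ hσ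
  have hqvpr : ∀ i, (qv i).Prime := fun i => (hqv i).1
  have hgrp := s59u_W_level_grp p N hsq B hNB (⊤ : Subgroup (ZMod N)ˣ) n qv hqinj hqv
  choose hCB g hcard hgen hord hgloc using hgrp
  -- the rank of the level part
  have hε'ne : ε' ≠ 0 := by
    obtain ⟨hρ1, hρ', dn, bn, bn', π, hbn, hbn', -⟩ := hP1
    have hdn : d = dn := (s59u_rank_unique _ bn hbn b0 hb0).symm
    subst hdn
    exact (s59t_part_ne_zero_iff _ bn' hbn').2 hd0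
  -- the numerology of the level
  have hqvN : ∀ i, ¬ qv i ∣ N := fun i h => (hqv i).2.1 (hNB _ (hqvpr i) h)
  have hMeq₂ := s59k_level_eq_top qv N hqinj
  have hD₂ : ∏ q ∈ Finset.univ.image qv, q ∣ N * ∏ i, qv i := Dvd.intro_left N hMeq₂.symm
  have hQ := s59k_hQ_top qv N hqvpr hqvN
  haveI : NeZero (N * ∏ q ∈ Finset.univ.image qv, q ^ 2) :=
    ⟨Nat.mul_ne_zero (NeZero.ne N) (Finset.prod_ne_zero_iff.mpr fun q hq =>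
      pow_ne_zero 2 (hQ q hq).1.ne_zero)⟩
  haveI : Fact (HasIntegralStructure (N * ∏ q ∈ Finset.univ.image qv, q ^ 2) 2) := ⟨Fermat.Agent.S23.result _⟩
  have hS₂ : ∀ q : ℕ, q.Prime → q ∣ (N * ∏ q ∈ Finset.univ.image qv, q ^ 2) → q ∈ (B ∪ Finset.univ.image qv) := by
    intro q hq hqM
    rcases (Nat.Prime.dvd_mul hq).mp hqM with h | h
    · exact Finset.mem_union_left _ (hNB q hq h)
    · obtain ⟨q', hq', hqq'⟩ := (Prime.dvd_finsetProd_iff (Nat.prime_iff.mp hq) _).mp h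
      obtain ⟨i, -, rfl⟩ := Finset.mem_image.mp hq'
      have hqe : q = qv i := (Nat.prime_dvd_prime_iff_eq hq (hqvpr i)).mp (hq.dvd_of_dvd_pow hqq')
      subst hqe
      exact Finset.mem_union_right _ (Finset.mem_image_of_mem qv (Finset.mem_univ i))
  have hpM' : ¬ p ∣ (N * ∏ q ∈ Finset.univ.image qv, q ^ 2) := by
    intro h
    rcases (Nat.Prime.dvd_mul hpP).mp h with h | h
    · exact hpN h
    · obtain ⟨q', hq', hqq'⟩ := (Prime.dvd_finsetProd_iff (Nat.prime_iff.mp hpP) _).mp h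
      obtain ⟨i, -, rfl⟩ := Finset.mem_image.mp hq'
      have hqe : p = qv i :=
        (Nat.prime_dvd_prime_iff_eq hpP (hqvpr i)).mp (hpP.dvd_of_dvd_pow hqq')
      exact (hqv i).2.1 (hqe ▸ hpB)
  have hnm := s59k_hnm_pow hpP hp2 (0 + n)
  have hn := s59k_ppow_mem_Hmul_top N qv p 0 n
  have hHker := s59k_hH_top qv N (p ^ n) hqinj rfl hD₂
  -- the Taylor–Wiles primes are unramified for `ρ̄` and outside `B`
  have hQu : ∀ q ∈ Finset.univ.image qv, (s59i_rhobarW W p hΔ 𝒪 hp𝒪).IsUnramifiedAt q := by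
    intro q hq
    obtain ⟨i, -, rfl⟩ := Finset.mem_image.mp hq
    exact s59e_rhobarW_unram_good hΔ hp2 hp𝒪 (qv i) (hqvpr i)
      (fun h => (hqv i).2.1 (h ▸ hpB)) (hgoodB _ (hqvpr i) (hqv i).2.1)
  have hSgM : ∀ q : ℕ, q.Prime → q ∣ (N * ∏ q ∈ Finset.univ.image qv, q ^ 2) →
      q ∈ Sg ∪ Finset.univ.image qv ∨ s59e3q_E2Alt p (s59i_rhobarW W p hΔ 𝒪 hp𝒪) q := by
    intro q hq hqM
    rcases Finset.mem_union.mp (hS₂ q hq hqM) with hqB | hqQ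
    · by_cases hqN : q ∣ N
      · exact (hSg q hq hqN).imp (fun h => Finset.mem_union_left _ h) id
      · exfalso
        rcases (Nat.Prime.dvd_mul hq).mp hqM with h | h
        · exact hqN h
        · obtain ⟨q', hq', hqq'⟩ := (Prime.dvd_finsetProd_iff (Nat.prime_iff.mp hq) _).mp h
          obtain ⟨i, -, rfl⟩ := Finset.mem_image.mp hq'
          have hqe : q = qv i :=
            (Nat.prime_dvd_prime_iff_eq hq (hqvpr i)).mp (hq.dvd_of_dvd_pow hqq')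
          exact (hqv i).2.1 (hqe ▸ hqB)
    · exact Or.inl (Finset.mem_union_right _ hqQ)
  have hSuQ : ∀ q ∈ Su, q ∈ Smin ∨ q ∉ Finset.univ.image qv := by
    intro q hq
    rcases hSuB q hq with h | h
    · exact Or.inl h
    · refine Or.inr fun hqQ => ?_
      obtain ⟨i, -, rfl⟩ := Finset.mem_image.mp hqQ
      exact (hqv i).2.1 h
  -- the module `Y' = ε' H_par` is finite free, nonzero and torsion-free
  let bZ := Module.Free.chooseBasis ℤ (s48h_M (s48h_GammaH (N * ∏ j, qv j) (s59t_Hmul N (∏ j, qv j) (⊤ : Subgroup (ZMod N)ˣ) (s59t_KQ (p ^ n) qv))))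
  haveI : Module.Free 𝒪 (s48h_Hpar 𝒪 (s48h_GammaH (N * ∏ j, qv j) (s59t_Hmul N (∏ j, qv j) (⊤ : Subgroup (ZMod N)ˣ) (s59t_KQ (p ^ n) qv))) 𝒪) :=
    Module.Free.of_basis (s59u_cB bZ 𝒪)
  haveI : Module.Finite 𝒪 (s48h_Hpar 𝒪 (s48h_GammaH (N * ∏ j, qv j) (s59t_Hmul N (∏ j, qv j) (⊤ : Subgroup (ZMod N)ˣ) (s59t_KQ (p ^ n) qv))) 𝒪) :=
    Module.Finite.of_basis (s59u_cB bZ 𝒪)
  haveI : Module.Finite 𝒪 (LinearMap.range ε') := s59t_part_finite _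
  haveI : Module.Free 𝒪 (LinearMap.range ε') := s59t_part_free hid'
  haveI : Nontrivial (LinearMap.range ε') := s59e_L_range_nontrivial _ hε'ne
  haveI : NoZeroSMulDivisors 𝒪 (LinearMap.range ε') :=
    ⟨fun {o y} h => by
      by_cases ho : o = 0
      · exact Or.inl ho
      · exact Or.inr (s59efl_part_torsionfree _ ε' o ho y h)⟩
  -- (B2) the Hecke ring at level `n`
  have hH3 := s59efl_H3_free (fun ℓ => W.apOfModel ℓ) hp2 hp𝒪 N (Finset.univ.image qv)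
    (s59t_Hmul N (∏ j, qv j) (⊤ : Subgroup (ZMod N)ˣ) (s59t_KQ (p ^ n) qv))
    (N * ∏ q ∈ Finset.univ.image qv, q ^ 2) (B ∪ Finset.univ.image qv)
    (Finset.mem_union_left _ hpB) Finset.subset_union_left hpM' hQ hMeq₂ rfl hD₂
    hHker (0 + n) hn rfl hS₂ hsq hQu (Sg ∪ Finset.univ.image qv) Su Smin
    (Finset.mem_union_left _ hpSg) hSgM hmin hSuQ
    ε' hid' hε'ne hεc' hnil'
    (fun ℓ hℓ hℓS => hEigB ℓ hℓ (fun h => hℓS (Finset.mem_union_left _ h))) DQ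
  have hB2c : s59e_B2Concl (s59t_Hmul N (∏ j, qv j) (⊤ : Subgroup (ZMod N)ˣ) (s59t_KQ (p ^ n) qv)) ε' (N * ∏ q ∈ Finset.univ.image qv, q ^ 2) (B ∪ Finset.univ.image qv) ((p ^ (0 + n) - 1) * ((p ^ (0 + n) + 1) / 2)) (fun ℓ => ((W.apOfModel ℓ : ℤ) : 𝒪)) DQ :=
    Exists.elim hH3 fun a' h' =>
      s59e_B2Concl_of_H3Out _ _ _ _ _ (fun ℓ => W.apOfModel ℓ) hS₂ DQ a' h'.1 h'.2.1 h'.2.2
  choose a aM ha1 ha2 haM hlocA hlr θ hθ hfrobT hcong using hB2c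
  haveI : IsLocalRing (s59e_adj 𝒪 aM) := hlr
  -- the level
  have hlev :=
    s59c3_level_abs p hp2 W hΔ N B hirr hsq hpN hB1 hB2 h23 𝒪 hp𝒪 r σ ε hεc hρ d hd0 b0 hb0
      a₀ ha1₀ aM₀ haM₀ hRρ ρR hfrobR hgenR n qv hqinj hqv hTW ε' hid' hεc' hP1 g hcard hgen hord hgloc
      DQ a ha1 ha2 aM haM hlocA θ hθ hfrobT hcong
  choose hρ' π hcomm hTρ h2 hlev1 hlev2 hRec using hlev
  -- the trace ring of the level is reduced and torsion-free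
  haveI hred : IsReduced (s59e_adj 𝒪 aM) :=
    s59efl_adj_reduced (s59t_Hmul N (∏ j, qv j) (⊤ : Subgroup (ZMod N)ˣ) (s59t_KQ (p ^ n) qv))
      (LinearMap.range ε').subtype Subtype.val_injective a
      ((p ^ (0 + n) - 1) * ((p ^ (0 + n) + 1) / 2)) ha2 aM haM N (Finset.univ.image qv) hMeq₂ hQ rfl
      hD₂ hHker hnm hn
  have htfA : ∀ o : 𝒪, o ≠ 0 → ∀ x : s59e_adj 𝒪 aM,
      algebraMap 𝒪 (s59e_adj 𝒪 aM) o * x = 0 → x = 0 :=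
    fun o ho x h => s59efl_adj_torsionfree aM o ho x h
  exact ⟨hRec.some.Lv, s59f_sg_reduced_of_equiv hRec.some.eT', s59f_sg_tf_of_equiv hRec.some.eT' htfA⟩

end Fermat.Agent.Lib.S59
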