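/-
PROGRAMME R2 = S59, leaf (c2-c) = [SPEC-T±] (helper4, prefix `s59f_sg_`), part 33: **THE `T`-SIDE WITH NO RAISING PRIME (`k = 0`) FOR AN
ABSTRACT BASE IDEMPOTENT `ε` OF `H_par(Γ₀(N), 𝒪)` AND A PROVIDER OF TAYLOR–WILES PACKAGES** (`p ≠ 2`, EVEN level `2 ∣ N`), for a deformation
type `flat(Sg) ∧ unip(Su)` with free finsets.

`ε` : any idempotent of `H_par(Γ₀(N), 𝒪)` commuting with the anemic generators, generalised-eigen for the system of `W`,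
`≠ 0`, with a basis of `ε H_par` over `𝒪[Δ(N, ⊤)]`; `HP` : for every Taylor–Wiles datum `(n, qv)` an idempotent `ε′` of the
level `(N ∏ qv, H′)` with the same properties and a package `s59t_TWFull … ε ε′`.  In the application `(ε, ε′)` are the
sign cuts `(ε₀ e_s, ε′ e_s′)` (helper2's B9EPm.lean) of the idempotents of `W`.

* **`s59f_sg_fin3`** : `∃ (Bs : s59e_TBaseL 𝒪 D0) (act : Bs.R →ₐ[𝒪] End_𝒪(ε H_par)) (emb : Bs.M →+ ε H_par)`, with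
  (X1) `act` injective, (X2) `emb` bijective, (X3) `emb (t • m) = act t (emb m)`,
  (E2) `Bs.R` acts FAITHFULLY on `Bs.M`,
  (X4) `act (Bs.ν (tr ρ^univ(Frob_ℓ))) = T_ℓ` and (X4′) `act (tr ρ_R(Frob_ℓ)) = T_ℓ` on `ε H_par` for `ℓ ∉ B`
       (`T_ℓ = s59w_op ⊤ 𝒪 (Sum.inl i)`, any index `i` with `i.ell = ℓ`),
  (X5) every `act t` is the restriction of `s59t_E0 ⊤ B P`, `P` a polynomial in the anemic generators `T_ℓ`, `ℓ ∉ B`,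
  (X6) `s59e_HkFrobP N ↑B Bs.R Bs.ρR`,
  and the levels: `∀ r σ n qv … DQ, ∃ Lv : s59e_TLevelL 𝒪 p n r σ Bs.R Bs.M Bs.ρR Bs.d qv DQ, IsReduced Lv.T′ ∧ Lv.T′ torsion-free`;
* **`s59f_sg_finF3`** : the same in the contract shape `(Bs : s59f_TBaseF 𝒪 0 D0, HL)` of helper3's `s59u_sp_unr_pt` /
  `s59u_sp_FLR_R_pt`, with the exports (E2), (E-conc) of helper1's #3924 for `ε`.
-/
import Mathlib
import Fermat.Agent.Lib.S59.FSgnT2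
import Fermat.Agent.Lib.S59.EFlrB2F
import Fermat.Agent.Lib.S59.FSgnT0
import Fermat.Agent.Lib.S59.ELPkgHb

set_option autoImplicit false
set_option linter.unusedSectionVars false
set_option linter.unusedVariables false
set_option linter.style.haveILetI false
set_option maxHeartbeats 0
set_option synthInstance.maxHeartbeats 400000
set_option maxSynthPendingDepth 3

noncomputable section

namespace Fermat.Agent.Lib.S59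

open IsLocalRing CuspForm Polynomial ExtCitation CongruenceSubgroup
open WeierstrassCurve WeierstrassCurve.Affine WeierstrassCurve.Affine.Point
open Fermat.Agent.Lib.S48 Fermat.Agent.Lib.S44
open scoped MatrixGroups

local notation "Γℚ" => (AlgebraicClosure ℚ ≃ₐ[ℚ] AlgebraicClosure ℚ)

/-- **the `T`-side with no raising prime for an abstract base idempotent and a provider of Taylor–Wiles packages.** -/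
theorem Internal.s59f_sg_fin3 (p : ℕ) [Fact p.Prime] (hp2 : p ≠ 2) (W : WeierstrassCurve ℤ) (hΔ : W.Δ ≠ 0)
    (N : ℕ) [NeZero N] (B : Finset ℕ)
    (hirr : W.ModRepIsIrreducible p) (hsq : Squarefree N) (hpN : ¬ p ∣ N)
    (hB1 : ∀ r : ℕ, r.Prime → r ∣ N * p → r ∈ B)
    (hB2 : ∀ r : ℕ, r.Prime → ¬ W.IsGoodPrimeFor r → r ∈ B)
    (h23 : 2 ∣ N)
    (𝒪 : Type) [CommRing 𝒪] [IsDomain 𝒪] [IsDiscreteValuationRing 𝒪]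
    [IsAdicComplete (maximalIdeal 𝒪) 𝒪] [Finite (ResidueField 𝒪)] [CharZero 𝒪]
    [Algebra ℤ_[p] 𝒪] [Module.Finite ℤ_[p] 𝒪]
    (hp𝒪 : ((p : ℕ) : 𝒪) ∈ maximalIdeal 𝒪)
    -- the type
    (Sg Su Smin : Finset ℕ) (hpSg : p ∈ Sg)
    (hSg : ∀ q : ℕ, q.Prime → q ∣ N → q ∈ Sg ∨ s59e3q_E2Alt p (s59i_rhobarW W p hΔ 𝒪 hp𝒪) q)
    (hmin : ∀ q : ℕ, q.Prime → q ≠ p →
      (q ∈ Smin ↔ ¬ (s59i_rhobarW W p hΔ 𝒪 hp𝒪).IsUnramifiedAt q))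
    (hSuB : ∀ q ∈ Su, q ∈ Smin ∨ q ∈ B)
    (D0 : GaloisRep.DeformationRingData 𝒪 (s59i_rhobarW W p hΔ 𝒪 hp𝒪) (fun _A _ _ _ ρ =>
      GaloisRep.flatCondition 𝒪 p Sg ρ ∧
        ∀ q ∈ Su, q.Prime → q ≠ p → ρ.IsUnipotentOnInertiaAt q))
    -- the base idempotent
    (ε : Module.End 𝒪 (s48h_Hpar 𝒪 (s48h_GammaH N (⊤ : Subgroup (ZMod N)ˣ)) 𝒪))
    (hid : ε * ε = ε) (hne : ε ≠ 0)
    (hεc : ∀ jdx : s59w_AIdx N, ε * s59w_op (⊤ : Subgroup (ZMod N)ˣ) 𝒪 jdx =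
      s59w_op (⊤ : Subgroup (ZMod N)ˣ) 𝒪 jdx * ε)
    (hnil : ∀ x ∈ s59t_goodB N B, ∃ k : ℕ,
      ∀ y : s48h_Hpar 𝒪 (s48h_GammaH N (⊤ : Subgroup (ZMod N)ˣ)) 𝒪,
      ((s59w_op (⊤ : Subgroup (ZMod N)ˣ) 𝒪 x - s59t_cB (𝒪 := 𝒪) N (fun ℓ => W.apOfModel ℓ) x •
        (1 : Module.End 𝒪 (s48h_Hpar 𝒪 (s48h_GammaH N (⊤ : Subgroup (ZMod N)ˣ)) 𝒪))) ^ k)
        (ε y) ∈ (maximalIdeal 𝒪 • ⊤ :
          Submodule 𝒪 (s48h_Hpar 𝒪 (s48h_GammaH N (⊤ : Subgroup (ZMod N)ˣ)) 𝒪)))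
    (hρ : ∀ δ y, ε (s59t_rho N (⊤ : Subgroup (ZMod N)ˣ) 𝒪 𝒪 δ y) = s59t_rho N (⊤ : Subgroup (ZMod N)ˣ) 𝒪 𝒪 δ (ε y))
    (d : ℕ) (b0 : Fin d → LinearMap.range ε)
    (hb0 : Function.Bijective (s59t_evalMap (s59t_partRep (s59t_rho N (⊤ : Subgroup (ZMod N)ˣ) 𝒪 𝒪) hρ) b0))
    -- the provider of Taylor–Wiles packages
    (HP : ∀ (n r : ℕ) (qv : Fin r → ℕ) [NeZero (∏ j, qv j)] [NeZero (N * ∏ j, qv j)],
      Function.Injective qv →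
      (∀ i, (qv i).Prime ∧ qv i ∉ B ∧ p ^ (n + 1) ∣ qv i - 1) →
      (∀ i, ∀ A : ValuationSubring (AlgebraicClosure ℚ), A.LiesOverPrime (qv i) →
        ∀ φ : Γℚ, A.IsFrobeniusAt φ (qv i) →
          ∃ α β : ResidueField 𝒪, α ≠ β ∧
            LinearMap.charpoly ((s59i_rhobarW W p hΔ 𝒪 hp𝒪).ρ φ) = (X - C α) * (X - C β)) →
      ∃ ε' : Module.End 𝒪 (s48h_Hpar 𝒪 (s48h_GammaH (N * ∏ j, qv j) (s59t_Hmul N (∏ j, qv j) (⊤ : Subgroup (ZMod N)ˣ) (s59t_KQ (p ^ n) qv))) 𝒪),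
        ε' * ε' = ε' ∧
        (∀ jdx : s59w_AIdx (N * ∏ j, qv j), ε' * s59w_op (s59t_Hmul N (∏ j, qv j) (⊤ : Subgroup (ZMod N)ˣ) (s59t_KQ (p ^ n) qv)) 𝒪 jdx = s59w_op (s59t_Hmul N (∏ j, qv j) (⊤ : Subgroup (ZMod N)ˣ) (s59t_KQ (p ^ n) qv)) 𝒪 jdx * ε') ∧
        (∀ x ∈ s59t_goodB (N * ∏ j, qv j) B, ∃ k : ℕ,
          ∀ y : s48h_Hpar 𝒪 (s48h_GammaH (N * ∏ j, qv j) (s59t_Hmul N (∏ j, qv j) (⊤ : Subgroup (ZMod N)ˣ) (s59t_KQ (p ^ n) qv))) 𝒪,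
          ((s59w_op (s59t_Hmul N (∏ j, qv j) (⊤ : Subgroup (ZMod N)ˣ) (s59t_KQ (p ^ n) qv)) 𝒪 x -
            s59t_cB (𝒪 := 𝒪) (N * ∏ j, qv j) (fun ℓ => W.apOfModel ℓ) x •
              (1 : Module.End 𝒪 (s48h_Hpar 𝒪 (s48h_GammaH (N * ∏ j, qv j) (s59t_Hmul N (∏ j, qv j) (⊤ : Subgroup (ZMod N)ˣ) (s59t_KQ (p ^ n) qv))) 𝒪))) ^ k)
            (ε' y) ∈ (maximalIdeal 𝒪 • ⊤ :
              Submodule 𝒪 (s48h_Hpar 𝒪 (s48h_GammaH (N * ∏ j, qv j) (s59t_Hmul N (∏ j, qv j) (⊤ : Subgroup (ZMod N)ˣ) (s59t_KQ (p ^ n) qv))) 𝒪))) ∧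
        s59t_TWFull (s59t_Gamma0_anti (s59t_dvd_mul_left' N (∏ j, qv j)))
          (s59t_GammaHmul_le (N := N) (D := ∏ j, qv j) (H := (⊤ : Subgroup (ZMod N)ˣ)) (K := s59t_KQ (p ^ n) qv))
          (s59t_BQ N (∏ j, qv j) (⊤ : Subgroup (ZMod N)ˣ) (s59t_KQ (p ^ n) qv))
          (s59t_CQ N (∏ j, qv j) (⊤ : Subgroup (ZMod N)ˣ) (s59t_KQ (p ^ n) qv)) ε ε') :
    ∃ (Bs : s59e_TBaseL 𝒪 D0)
      (act : Bs.R →ₐ[𝒪] Module.End 𝒪 (LinearMap.range ε))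
      (emb : Bs.M →+ LinearMap.range ε),
      Function.Injective act ∧ Function.Bijective emb ∧
      (∀ (t : Bs.R) (m : Bs.M), emb (t • m) = act t (emb m)) ∧
      (∀ a : Bs.R, (∀ mm : Bs.M, a • mm = 0) → a = 0) ∧
      (∀ (ℓ : ℕ), ℓ.Prime → ℓ ∉ B → ∀ i : s59w_TIdx N, i.ell = ℓ →
        ∀ A : ValuationSubring (AlgebraicClosure ℚ), A.LiesOverPrime ℓ →
        ∀ g : Γℚ, A.IsFrobeniusAt g ℓ → ∀ z : LinearMap.range ε,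
          ((act (Bs.ν (s59i_cpTr D0.ρ g)) z : LinearMap.range ε) :
            s48h_Hpar 𝒪 (s48h_GammaH N (⊤ : Subgroup (ZMod N)ˣ)) 𝒪) =
          s59w_op (⊤ : Subgroup (ZMod N)ˣ) 𝒪 (Sum.inl i)
            (z : s48h_Hpar 𝒪 (s48h_GammaH N (⊤ : Subgroup (ZMod N)ˣ)) 𝒪)) ∧
      (∀ (ℓ : ℕ), ℓ.Prime → ℓ ∉ B →
        ∀ A : ValuationSubring (AlgebraicClosure ℚ), A.LiesOverPrime ℓ →
        ∀ g : Γℚ, A.IsFrobeniusAt g ℓ → ∀ i : s59w_TIdx N, i.ell = ℓ → ∀ z : LinearMap.range ε,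
          ((act (s59i_cpTr Bs.ρR g) z : LinearMap.range ε) :
            s48h_Hpar 𝒪 (s48h_GammaH N (⊤ : Subgroup (ZMod N)ˣ)) 𝒪) =
          s59w_op (⊤ : Subgroup (ZMod N)ˣ) 𝒪 (Sum.inl i)
            (z : s48h_Hpar 𝒪 (s48h_GammaH N (⊤ : Subgroup (ZMod N)ˣ)) 𝒪)) ∧
      (∀ t : Bs.R, ∃ P : MvPolynomial ↥(s59t_goodB N B) 𝒪,
        ∀ z : LinearMap.range ε,
          ((act t z : LinearMap.range ε) : s48h_Hpar 𝒪 (s48h_GammaH N (⊤ : Subgroup (ZMod N)ˣ)) 𝒪) =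
            s59t_E0 (⊤ : Subgroup (ZMod N)ˣ) B P
              (z : s48h_Hpar 𝒪 (s48h_GammaH N (⊤ : Subgroup (ZMod N)ˣ)) 𝒪)) ∧
      s59e_HkFrobP N (↑B : Set ℕ) Bs.R Bs.ρR ∧
      ∀ (r : ℕ) (σ : Type) [DecidableEq σ] [Fintype σ] (n : ℕ) (qv : Fin r → ℕ),
        Function.Injective qv →
        (∀ i, (qv i).Prime ∧ qv i ∉ B ∧ p ^ (n + 1) ∣ qv i - 1) →
        (∀ i, ∀ A : ValuationSubring (AlgebraicClosure ℚ), A.LiesOverPrime (qv i) →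
          ∀ φ : Γℚ, A.IsFrobeniusAt φ (qv i) →
            ∃ α β : ResidueField 𝒪, α ≠ β ∧
              LinearMap.charpoly ((s59i_rhobarW W p hΔ 𝒪 hp𝒪).ρ φ) = (X - C α) * (X - C β)) →
        ∀ DQ : GaloisRep.DeformationRingData 𝒪 (s59i_rhobarW W p hΔ 𝒪 hp𝒪) (fun _A _ _ _ ρ =>
          GaloisRep.flatCondition 𝒪 p (Sg ∪ Finset.univ.image qv) ρ ∧
            ∀ q ∈ Su, q.Prime → q ≠ p → ρ.IsUnipotentOnInertiaAt q),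
          ∃ Lv : s59e_TLevelL 𝒪 p n r σ Bs.R Bs.M Bs.ρR Bs.d qv DQ,
            IsReduced Lv.T' ∧
            ∀ o : 𝒪, o ≠ 0 → ∀ x : Lv.T', algebraMap 𝒪 Lv.T' o * x = 0 → x = 0 := by
  classical
  have hpP : p.Prime := Fact.out
  have hp2' : p ≠ 2 := hp2
  have hNB : ∀ q : ℕ, q.Prime → q ∣ N → q ∈ B := fun q hq h => hB1 q hq (Dvd.dvd.mul_right h p)
  have hpB : p ∈ B := hB1 p hpP (Dvd.intro_left N rfl)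
  have hd0 : d ≠ 0 := (s59t_part_ne_zero_iff _ b0 hb0).1 hne
  -- (B2) at the base level
  have hB2₀ := s59efl_base_B2_free p hp2 W hΔ N B hirr hsq hpN hB1 hB2 𝒪 hp𝒪 Sg Su Smin hpSg hSg hmin
    D0 ε hid hne hεc hnil
  choose a₀ aM₀ ha1₀ ha2₀ haM₀ hlocA₀ hlr₀ θ₀ hθ₀ hfrob₀ hcong₀ using hB2₀
  haveI : IsLocalRing (s59e_adj 𝒪 aM₀) := hlr₀
  have hbf :=
    s59efl_base_facts p hp2 W hΔ N B hirr hB1 hB2 𝒪 hp𝒪 Sg Su D0 ε hid hne hρ d b0 hb0 a₀ aM₀ ha2₀ haM₀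
      hlocA₀ θ₀ hθ₀ hfrob₀ hcong₀
  choose hlh hθ₀l hRρ hRres hMfin hMnt hfrobR hgenR hresR hρR0 hνeq using hbf
  haveI := hlh
  -- freeness and finiteness of `Y`
  let bZ₀ := Module.Free.chooseBasis ℤ (s48h_M (s48h_GammaH N (⊤ : Subgroup (ZMod N)ˣ)))
  haveI : Module.Free 𝒪 (s48h_Hpar 𝒪 (s48h_GammaH N (⊤ : Subgroup (ZMod N)ˣ)) 𝒪) :=
    Module.Free.of_basis (s59u_cB bZ₀ 𝒪)
  haveI : Module.Finite 𝒪 (s48h_Hpar 𝒪 (s48h_GammaH N (⊤ : Subgroup (ZMod N)ˣ)) 𝒪) :=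
    Module.Finite.of_basis (s59u_cB bZ₀ 𝒪)
  haveI hfin₀ : Module.Finite 𝒪 (LinearMap.range ε) := s59t_part_finite _
  haveI hfree₀ : Module.Free 𝒪 (LinearMap.range ε) := s59t_part_free hid
  haveI hnoeth₀ : IsNoetherianRing (s59e_adj 𝒪 aM₀) := s59e_adj_noeth aM₀
  haveI hcompl₀ : IsAdicComplete (maximalIdeal (s59e_adj 𝒪 aM₀)) (s59e_adj 𝒪 aM₀) :=
    s59e_adj_complete aM₀
  haveI hfinR₀ : Module.Finite 𝒪 (s59e_adj 𝒪 aM₀) := s59e_adj_finite aM₀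
  -- `emb` is onto: the diamond group of `(N, ⊤)` is trivial
  have hsurj : Function.Surjective (s59t_EigT_val (s59t_partRep (s59t_rho N (⊤ : Subgroup (ZMod N)ˣ) 𝒪 𝒪) hρ) ⊤
      (1 : s59t_Delta N (⊤ : Subgroup (ZMod N)ˣ) →* 𝒪ˣ) hRρ).toAddMonoidHom := by
    intro y
    refine ⟨s59t_EigT_mk _ _ _ hRρ y ?_, rfl⟩
    intro β _
    rw [Subsingleton.elim β 1, map_one, map_one, Units.val_one, one_smul]
    rfl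
  refine ⟨{
    R := s59e_adj 𝒪 aM₀
    hRres := hRres
    M := s59t_EigT (s59t_partRep (s59t_rho N (⊤ : Subgroup (ZMod N)ˣ) 𝒪 𝒪) hρ) ⊤
      (1 : s59t_Delta N (⊤ : Subgroup (ZMod N)ˣ) →* 𝒪ˣ) hRρ
    iM3 := hMfin
    iM4 := hMnt
    ν := θ₀
    hνs := hθ₀
    ρR := D0.ρ.baseChangeAlong (θ₀ : D0.R →+* s59e_adj 𝒪 aM₀) hθ₀l
    hν := hνeq
    hρR := hρR0
    hresR := hresR
    d := d }, (s59e_adj 𝒪 aM₀).val,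
    (s59t_EigT_val (s59t_partRep (s59t_rho N (⊤ : Subgroup (ZMod N)ˣ) 𝒪 𝒪) hρ) ⊤
      (1 : s59t_Delta N (⊤ : Subgroup (ZMod N)ˣ) →* 𝒪ˣ) hRρ).toAddMonoidHom,
    Subtype.val_injective, ⟨s59t_EigT_val_injective _ _ _ hRρ, hsurj⟩, fun t m => rfl, ?_, ?_, ?_, ?_,
    ?_, ?_⟩
  · -- (E2)
    intro a ha
    exact s59f_sg_faithful ((s59e_adj 𝒪 aM₀).val : s59e_adj 𝒪 aM₀ →+* Module.End 𝒪 (LinearMap.range ε))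
      Subtype.val_injective
      (s59t_EigT_val (s59t_partRep (s59t_rho N (⊤ : Subgroup (ZMod N)ˣ) 𝒪 𝒪) hρ) ⊤
        (1 : s59t_Delta N (⊤ : Subgroup (ZMod N)ˣ) →* 𝒪ˣ) hRρ).toAddMonoidHom hsurj
      (fun t m => rfl) a ha
  · -- (X4)
    intro ℓ hℓ hℓB i hi A hA g hg z
    have hℓN : ¬ ℓ ∣ N := fun h => hℓB (hNB ℓ hℓ h)
    have hℓS : ℓ ∉ (↑B : Set ℕ) := fun h => hℓB (Finset.mem_coe.mp h)
    have h1 : θ₀ (s59i_cpTr D0.ρ g) = s59e_tOf (↑B : Set ℕ) aM₀ ℓ := by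
      rw [hνeq g]
      exact s59i_cpTr_of_charpoly _ g _ _ (hfrobR ℓ hℓ hℓN hℓS A hA g hg)
    show (((θ₀ (s59i_cpTr D0.ρ g) : s59e_adj 𝒪 aM₀) : Module.End 𝒪 (LinearMap.range ε)) z :
      s48h_Hpar 𝒪 (s48h_GammaH N (⊤ : Subgroup (ZMod N)ˣ)) 𝒪) = _
    rw [h1, s59e_tOf_coe (↑B : Set ℕ) aM₀ hℓ hℓN hℓS, haM₀, ha1₀ ℓ hℓ hℓN hℓS i hi, s59f_sg_Tp'_top]
  · -- (X4′)
    intro ℓ hℓ hℓB A hA g hg i hi z
    have hℓN : ¬ ℓ ∣ N := fun h => hℓB (hNB ℓ hℓ h)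
    have hℓS : ℓ ∉ (↑B : Set ℕ) := fun h => hℓB (Finset.mem_coe.mp h)
    have h1 : s59i_cpTr (D0.ρ.baseChangeAlong (θ₀ : D0.R →+* s59e_adj 𝒪 aM₀) hθ₀l) g =
        s59e_tOf (↑B : Set ℕ) aM₀ ℓ :=
      s59i_cpTr_of_charpoly _ g _ _ (hfrobR ℓ hℓ hℓN hℓS A hA g hg)
    show (((s59i_cpTr (D0.ρ.baseChangeAlong (θ₀ : D0.R →+* s59e_adj 𝒪 aM₀) hθ₀l) g : s59e_adj 𝒪 aM₀) :
      Module.End 𝒪 (LinearMap.range ε)) z :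
      s48h_Hpar 𝒪 (s48h_GammaH N (⊤ : Subgroup (ZMod N)ˣ)) 𝒪) = _
    rw [h1, s59e_tOf_coe (↑B : Set ℕ) aM₀ hℓ hℓN hℓS, haM₀, ha1₀ ℓ hℓ hℓN hℓS i hi, s59f_sg_Tp'_top]
  · -- (X5)
    intro t
    refine s59f_sg_poly_of_gen
      (fun x : ↥(s59t_goodB N B) => s59w_op (⊤ : Subgroup (ZMod N)ˣ) 𝒪 (x : s59w_AIdx N))
      (fun x y => s59w_op_comm (⊤ : Subgroup (ZMod N)ˣ) 𝒪 _ _) ε (s59e_adj 𝒪 aM₀).val _ hgenR ?_ t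
    rintro x ⟨ℓ, hℓ, hℓN, hℓS, rfl⟩
    obtain ⟨i, hi⟩ := s59e_exists_TIdx (M := N) hℓ hℓN
    have hiB : i.ell ∉ B := fun h => hℓS (Finset.mem_coe.mpr (hi ▸ h))
    refine ⟨⟨Sum.inl i, s59t_inl_mem_goodB B i hiB⟩, fun z => ?_⟩
    show (((s59e_tOf (↑B : Set ℕ) aM₀ ℓ : s59e_adj 𝒪 aM₀) : Module.End 𝒪 (LinearMap.range ε)) z :
      s48h_Hpar 𝒪 (s48h_GammaH N (⊤ : Subgroup (ZMod N)ˣ)) 𝒪) = _
    rw [s59e_tOf_coe (↑B : Set ℕ) aM₀ hℓ hℓN hℓS, haM₀, ha1₀ ℓ hℓ hℓN hℓS i hi, s59f_sg_Tp'_top]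
  · -- (X6)
    exact s59e_HkFrobP_adj (↑B : Set ℕ) aM₀ _ hfrobR
  · -- the levels
    intro r σ _ _ n qv hqinj hqv hTW DQ
    have hqvpr : ∀ i, (qv i).Prime := fun i => (hqv i).1
    haveI : NeZero (∏ j, qv j) := s59u_neZero_prod_qv qv hqvpr
    haveI : NeZero (N * ∏ j, qv j) := s59u_neZero_level qv N hqvpr
    have hHP := HP n r qv hqinj hqv hTW
    choose ε' hid' hεc' hnil' hP1 using hHP
    exact Internal.s59f_sg_level3 p hp2 W hΔ N B hirr hsq hpN hB1 hB2 h23 𝒪 hp𝒪 Sg Su Smin hpSg hSg hmin hSuB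
      r σ ε hεc hρ d hd0 b0 hb0 a₀ ha1₀ aM₀ haM₀ hRρ _ hfrobR hgenR n qv hqinj hqv hTW ε' hid' hεc'
      hnil' hP1 DQ

/-- **the `T`-side with no raising prime in the contract shape** of helper3's `s59u_sp_unr_pt`, with the exports (E2),
(E-conc) of helper1's #3924 for the abstract base idempotent `ε`. -/
theorem Internal.s59f_sg_finF3 (p : ℕ) [Fact p.Prime] (hp2 : p ≠ 2) (W : WeierstrassCurve ℤ) (hΔ : W.Δ ≠ 0)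
    (N : ℕ) [NeZero N] (B : Finset ℕ)
    (hirr : W.ModRepIsIrreducible p) (hsq : Squarefree N) (hpN : ¬ p ∣ N)
    (hB1 : ∀ r : ℕ, r.Prime → r ∣ N * p → r ∈ B)
    (hB2 : ∀ r : ℕ, r.Prime → ¬ W.IsGoodPrimeFor r → r ∈ B)
    (h23 : 2 ∣ N)
    (𝒪 : Type) [CommRing 𝒪] [IsDomain 𝒪] [IsDiscreteValuationRing 𝒪]
    [IsAdicComplete (maximalIdeal 𝒪) 𝒪] [Finite (ResidueField 𝒪)] [CharZero 𝒪]
    [Algebra ℤ_[p] 𝒪] [Module.Finite ℤ_[p] 𝒪]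
    (hp𝒪 : ((p : ℕ) : 𝒪) ∈ maximalIdeal 𝒪)
    -- the type
    (Sg Su Smin : Finset ℕ) (hpSg : p ∈ Sg)
    (hSg : ∀ q : ℕ, q.Prime → q ∣ N → q ∈ Sg ∨ s59e3q_E2Alt p (s59i_rhobarW W p hΔ 𝒪 hp𝒪) q)
    (hmin : ∀ q : ℕ, q.Prime → q ≠ p →
      (q ∈ Smin ↔ ¬ (s59i_rhobarW W p hΔ 𝒪 hp𝒪).IsUnramifiedAt q))
    (hSuB : ∀ q ∈ Su, q ∈ Smin ∨ q ∈ B)
    (D0 : GaloisRep.DeformationRingData 𝒪 (s59i_rhobarW W p hΔ 𝒪 hp𝒪) (fun _A _ _ _ ρ =>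
      GaloisRep.flatCondition 𝒪 p Sg ρ ∧
        ∀ q ∈ Su, q.Prime → q ≠ p → ρ.IsUnipotentOnInertiaAt q))
    -- the base idempotent
    (ε : Module.End 𝒪 (s48h_Hpar 𝒪 (s48h_GammaH N (⊤ : Subgroup (ZMod N)ˣ)) 𝒪))
    (hid : ε * ε = ε) (hne : ε ≠ 0)
    (hεc : ∀ jdx : s59w_AIdx N, ε * s59w_op (⊤ : Subgroup (ZMod N)ˣ) 𝒪 jdx =
      s59w_op (⊤ : Subgroup (ZMod N)ˣ) 𝒪 jdx * ε)
    (hnil : ∀ x ∈ s59t_goodB N B, ∃ k : ℕ,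
      ∀ y : s48h_Hpar 𝒪 (s48h_GammaH N (⊤ : Subgroup (ZMod N)ˣ)) 𝒪,
      ((s59w_op (⊤ : Subgroup (ZMod N)ˣ) 𝒪 x - s59t_cB (𝒪 := 𝒪) N (fun ℓ => W.apOfModel ℓ) x •
        (1 : Module.End 𝒪 (s48h_Hpar 𝒪 (s48h_GammaH N (⊤ : Subgroup (ZMod N)ˣ)) 𝒪))) ^ k)
        (ε y) ∈ (maximalIdeal 𝒪 • ⊤ :
          Submodule 𝒪 (s48h_Hpar 𝒪 (s48h_GammaH N (⊤ : Subgroup (ZMod N)ˣ)) 𝒪)))
    (hρ : ∀ δ y, ε (s59t_rho N (⊤ : Subgroup (ZMod N)ˣ) 𝒪 𝒪 δ y) = s59t_rho N (⊤ : Subgroup (ZMod N)ˣ) 𝒪 𝒪 δ (ε y))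
    (d : ℕ) (b0 : Fin d → LinearMap.range ε)
    (hb0 : Function.Bijective (s59t_evalMap (s59t_partRep (s59t_rho N (⊤ : Subgroup (ZMod N)ˣ) 𝒪 𝒪) hρ) b0))
    -- the provider of Taylor–Wiles packages
    (HP : ∀ (n r : ℕ) (qv : Fin r → ℕ) [NeZero (∏ j, qv j)] [NeZero (N * ∏ j, qv j)],
      Function.Injective qv →
      (∀ i, (qv i).Prime ∧ qv i ∉ B ∧ p ^ (n + 1) ∣ qv i - 1) →
      (∀ i, ∀ A : ValuationSubring (AlgebraicClosure ℚ), A.LiesOverPrime (qv i) →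
        ∀ φ : Γℚ, A.IsFrobeniusAt φ (qv i) →
          ∃ α β : ResidueField 𝒪, α ≠ β ∧
            LinearMap.charpoly ((s59i_rhobarW W p hΔ 𝒪 hp𝒪).ρ φ) = (X - C α) * (X - C β)) →
      ∃ ε' : Module.End 𝒪 (s48h_Hpar 𝒪 (s48h_GammaH (N * ∏ j, qv j) (s59t_Hmul N (∏ j, qv j) (⊤ : Subgroup (ZMod N)ˣ) (s59t_KQ (p ^ n) qv))) 𝒪),
        ε' * ε' = ε' ∧
        (∀ jdx : s59w_AIdx (N * ∏ j, qv j), ε' * s59w_op (s59t_Hmul N (∏ j, qv j) (⊤ : Subgroup (ZMod N)ˣ) (s59t_KQ (p ^ n) qv)) 𝒪 jdx = s59w_op (s59t_Hmul N (∏ j, qv j) (⊤ : Subgroup (ZMod N)ˣ) (s59t_KQ (p ^ n) qv)) 𝒪 jdx * ε') ∧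
        (∀ x ∈ s59t_goodB (N * ∏ j, qv j) B, ∃ k : ℕ,
          ∀ y : s48h_Hpar 𝒪 (s48h_GammaH (N * ∏ j, qv j) (s59t_Hmul N (∏ j, qv j) (⊤ : Subgroup (ZMod N)ˣ) (s59t_KQ (p ^ n) qv))) 𝒪,
          ((s59w_op (s59t_Hmul N (∏ j, qv j) (⊤ : Subgroup (ZMod N)ˣ) (s59t_KQ (p ^ n) qv)) 𝒪 x -
            s59t_cB (𝒪 := 𝒪) (N * ∏ j, qv j) (fun ℓ => W.apOfModel ℓ) x •
              (1 : Module.End 𝒪 (s48h_Hpar 𝒪 (s48h_GammaH (N * ∏ j, qv j) (s59t_Hmul N (∏ j, qv j) (⊤ : Subgroup (ZMod N)ˣ) (s59t_KQ (p ^ n) qv))) 𝒪))) ^ k)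
            (ε' y) ∈ (maximalIdeal 𝒪 • ⊤ :
              Submodule 𝒪 (s48h_Hpar 𝒪 (s48h_GammaH (N * ∏ j, qv j) (s59t_Hmul N (∏ j, qv j) (⊤ : Subgroup (ZMod N)ˣ) (s59t_KQ (p ^ n) qv))) 𝒪))) ∧
        s59t_TWFull (s59t_Gamma0_anti (s59t_dvd_mul_left' N (∏ j, qv j)))
          (s59t_GammaHmul_le (N := N) (D := ∏ j, qv j) (H := (⊤ : Subgroup (ZMod N)ˣ)) (K := s59t_KQ (p ^ n) qv))
          (s59t_BQ N (∏ j, qv j) (⊤ : Subgroup (ZMod N)ˣ) (s59t_KQ (p ^ n) qv))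
          (s59t_CQ N (∏ j, qv j) (⊤ : Subgroup (ZMod N)ˣ) (s59t_KQ (p ^ n) qv)) ε ε')
    (qr : ℕ → ℕ) (φr σr : ℕ → Γℚ) :
    ∃ (Bs : s59f_TBaseF 𝒪 0 D0) (act : Bs.R 0 →ₐ[𝒪] Module.End 𝒪 (LinearMap.range ε)),
      Function.Injective act ∧
      (∀ a : Bs.R 0, (∀ mm : Bs.M 0, a • mm = 0) → a = 0) ∧
      (∀ t : Bs.R 0, ∃ P : MvPolynomial ↥(s59t_goodB N B) 𝒪,
        ∀ z : LinearMap.range ε,
          ((act t z : LinearMap.range ε) : s48h_Hpar 𝒪 (s48h_GammaH N (⊤ : Subgroup (ZMod N)ˣ)) 𝒪) =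
            s59t_E0 (⊤ : Subgroup (ZMod N)ˣ) B P
              (z : s48h_Hpar 𝒪 (s48h_GammaH N (⊤ : Subgroup (ZMod N)ˣ)) 𝒪)) ∧
      (∀ (ℓ : ℕ), ℓ.Prime → ℓ ∉ B →
        ∀ A : ValuationSubring (AlgebraicClosure ℚ), A.LiesOverPrime ℓ →
        ∀ g : Γℚ, A.IsFrobeniusAt g ℓ → ∀ i : s59w_TIdx N, i.ell = ℓ → ∀ z : LinearMap.range ε,
          ((act (s59i_cpTr (Bs.ρR 0) g) z : LinearMap.range ε) :
            s48h_Hpar 𝒪 (s48h_GammaH N (⊤ : Subgroup (ZMod N)ˣ)) 𝒪) =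
          s59w_op (⊤ : Subgroup (ZMod N)ˣ) 𝒪 (Sum.inl i)
            (z : s48h_Hpar 𝒪 (s48h_GammaH N (⊤ : Subgroup (ZMod N)ˣ)) 𝒪)) ∧
      s59e_HkFrobP N (↑B : Set ℕ) (Bs.R 0) (Bs.ρR 0) ∧
      ∀ (r : ℕ) (σ : Type) [DecidableEq σ] [Fintype σ] (n : ℕ) (qv : Fin r → ℕ),
        Function.Injective qv →
        (∀ i, (qv i).Prime ∧ qv i ∉ B ∧ p ^ (n + 1) ∣ qv i - 1) →
        (∀ i, ∀ A : ValuationSubring (AlgebraicClosure ℚ), A.LiesOverPrime (qv i) →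
          ∀ φ : Γℚ, A.IsFrobeniusAt φ (qv i) →
            ∃ α β : ResidueField 𝒪, α ≠ β ∧
              LinearMap.charpoly ((s59i_rhobarW W p hΔ 𝒪 hp𝒪).ρ φ) = (X - C α) * (X - C β)) →
        ∀ DQ : GaloisRep.DeformationRingData 𝒪 (s59i_rhobarW W p hΔ 𝒪 hp𝒪) (fun _A _ _ _ ρ =>
          GaloisRep.flatCondition 𝒪 p (Sg ∪ Finset.univ.image qv) ρ ∧
            ∀ q ∈ Su, q.Prime → q ≠ p → ρ.IsUnipotentOnInertiaAt q),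
          Nonempty (s59f_TLevelF 𝒪 p n r σ 0 Bs qv qr φr σr DQ) := by
  have hfin :=
    Internal.s59f_sg_fin3 p hp2 W hΔ N B hirr hsq hpN hB1 hB2 h23 𝒪 hp𝒪 Sg Su Smin hpSg hSg hmin hSuB D0
      ε hid hne hεc hnil hρ d b0 hb0 HP
  choose Bs act emb hinj hbij hcompat hE2 hX4 hX4' hX5 hX6 hL using hfin
  refine ⟨s59f_sg_baseF Bs, act, hinj, hE2, hX5, hX4', hX6, ?_⟩
  intro r σ _ _ n qv hqinj hqv hTW DQ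
  have hLn := hL r σ n qv hqinj hqv hTW DQ
  choose Lv hred htf using hLn
  haveI := hred
  exact s59f_sg_levelF Bs Lv htf qr φr σr

end Fermat.Agent.Lib.S59
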