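/-
PROGRAMME R2 = S59, node [PT-c2] / [LGC-new 2] (helper1, prefix `s59pt_`): **THE CUT RUN, CONCRETE FORM**: `s59pt_cut`
instantiated at helper4's package `s59f_oldH hL2 hG' 𝒪 𝒪 1 · ·` between `H_par(Γ_⊤(L), 𝒪)` and `H_par(Γ_⊤(L·2), 𝒪)`.
The sign-cut base module is `Y′ = {z : ε₀ z = z, w_2 z = ε z}` with `w_2 = s59f_wL hL2 hG' 𝒪 𝒪` (the Atkin–Lehner operator).
-/
import Mathlib
import Fermat.Agent.Lib.S59.GPtCut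

set_option autoImplicit false
set_option linter.unusedSectionVars false
set_option linter.unusedVariables false
set_option linter.style.haveILetI false
set_option synthInstance.maxHeartbeats 400000
set_option maxHeartbeats 4000000

noncomputable section

namespace Fermat.Agent.Lib.S59

open Fermat.Agent.Lib.S29 Fermat.Agent.Lib.S30 Fermat.Agent.Lib.S48 Fermat.Agent.Lib.S41
  Fermat.Agent.Lib.S44
open IsLocalRing Polynomial CuspForm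
open CongruenceSubgroup
open scoped MatrixGroups

local notation "Qbar" => AlgebraicClosure ℚ
local notation "GQ" => (AlgebraicClosure ℚ ≃ₐ[ℚ] AlgebraicClosure ℚ)

variable (p : ℕ) [hpP : Fact p.Prime]

/-- **[PT-c2], the cut run, concrete form.** `Y′ = {ε₀ z = z, w₂ z = ε z} ⊆ H_par(Γ_⊤(L·2), 𝒪)`, `T` a local `𝒪`-algebra
acting faithfully on `Y′` through polynomials in the good operators, `ρT` with `tr ρT(Frob_ℓ) = T_ℓ`: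
* `T` has a point `x` in a finite DVR extension with [RP] at every `r ∤ L p` (INCLUDING `r = 2`);
* NO point of `T` in a domain of characteristic zero has `tr ρT(Frob₂) = 3ε`. -/
theorem s59pt_cut_oldH (hp2 : p ≠ 2) {L : ℕ} [NeZero L] [NeZero (L * 2)] (hL2 : ¬ 2 ∣ L)
    (hG' : s59f_IsG' L 2 (⊤ : Subgroup (ZMod L)ˣ)
      (s48h_GammaH (L * 2) (⊤ : Subgroup (ZMod (L * 2))ˣ)))
    (𝒪 : Type) [CommRing 𝒪] [IsDomain 𝒪] [IsDiscreteValuationRing 𝒪]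
    [IsAdicComplete (maximalIdeal 𝒪) 𝒪] [Finite (ResidueField 𝒪)] [CharZero 𝒪] [Algebra ℤ_[p] 𝒪]
    (hp𝒪 : (p : 𝒪) ∈ maximalIdeal 𝒪)
    (B : Finset ℕ) (hpB : p ∈ B) (hNB : ∀ q : ℕ, q.Prime → q ∣ L * 2 → q ∈ B)
    (a : ℕ → ℤ) (hocc : s44i_LevelOcc L p a B)
    -- the dialect
    {J : Type} (idx : J → s59w_AIdx (L * 2))
    (hidx : ∀ j i, idx j = Sum.inl i → i.ell ∉ B)
    (hJ : ∀ i : s59w_TIdx (L * 2), i.ell ∉ B → ∃ j, idx j = Sum.inl i)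
    (c : J → 𝒪) (hcT : ∀ j i, idx j = Sum.inl i → c j = ((a i.ell : ℤ) : 𝒪))
    (hcD : ∀ j τ, idx j = Sum.inr τ → c j = 1)
    (e : MvPolynomial J 𝒪) (he : 1 - e ∈ s59t_evalIdeal c)
    (hidem : ∀ z, s59t_polyAct (fun j => s59w_op (⊤ : Subgroup (ZMod (L * 2))ˣ) 𝒪 (idx j))
        (fun i j => s59w_op_comm (⊤ : Subgroup (ZMod (L * 2))ˣ) 𝒪 _ _) e
      (s59t_polyAct (fun j => s59w_op (⊤ : Subgroup (ZMod (L * 2))ˣ) 𝒪 (idx j))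
        (fun i j => s59w_op_comm (⊤ : Subgroup (ZMod (L * 2))ˣ) 𝒪 _ _) e z) =
      s59t_polyAct (fun j => s59w_op (⊤ : Subgroup (ZMod (L * 2))ˣ) 𝒪 (idx j))
        (fun i j => s59w_op_comm (⊤ : Subgroup (ZMod (L * 2))ˣ) 𝒪 _ _) e z)
    (ε : 𝒪) (hε : ε = 1 ∨ ε = -1)
    -- the cut module and its Hecke ring
    (Y' : Submodule 𝒪 (s48h_Hpar 𝒪 (s48h_GammaH (L * 2) (⊤ : Subgroup (ZMod (L * 2))ˣ)) 𝒪))
    (hY' : ∀ z, z ∈ Y' ↔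
      s59t_polyAct (fun j => s59w_op (⊤ : Subgroup (ZMod (L * 2))ˣ) 𝒪 (idx j))
        (fun i j => s59w_op_comm (⊤ : Subgroup (ZMod (L * 2))ˣ) 𝒪 _ _) e z = z ∧
      s59f_wL hL2 hG' 𝒪 𝒪 z = ε • z)
    (T : Type) [CommRing T] [IsLocalRing T] [Algebra 𝒪 T]
    (act : T →ₐ[𝒪] Module.End 𝒪 Y')
    (hact : ∀ t, ∃ P : MvPolynomial J 𝒪, ∀ z : Y',
      ((act t z : Y') : s48h_Hpar 𝒪 (s48h_GammaH (L * 2) (⊤ : Subgroup (ZMod (L * 2))ˣ)) 𝒪) =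
        s59t_polyAct (fun j => s59w_op (⊤ : Subgroup (ZMod (L * 2))ˣ) 𝒪 (idx j))
          (fun i j => s59w_op_comm (⊤ : Subgroup (ZMod (L * 2))ˣ) 𝒪 _ _) P z)
    (hfaith : ∀ t, act t = 0 → t = 0)
    (ρT : GaloisRepAdic T) (tr : ℕ → T)
    (hfrob : ∀ ℓ : ℕ, ℓ.Prime → ℓ ∉ B → ∀ P' : ValuationSubring Qbar, P'.LiesOverPrime ℓ →
      ∀ σ : GQ, P'.IsFrobeniusAt σ ℓ →
        LinearMap.charpoly (ρT.ρ σ) = X ^ 2 - C (tr ℓ) * X + C (ℓ : T))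
    (hacttr : ∀ i : s59w_TIdx (L * 2), i.ell ∉ B → ∀ z : Y',
      ((act (tr i.ell) z : Y') : s48h_Hpar 𝒪 (s48h_GammaH (L * 2) (⊤ : Subgroup (ZMod (L * 2))ˣ)) 𝒪) =
        s59w_op (⊤ : Subgroup (ZMod (L * 2))ˣ) 𝒪 (Sum.inl i) z) :
    (∃ (𝒪' : Type) (_ : CommRing 𝒪') (_ : IsDomain 𝒪') (_ : IsDiscreteValuationRing 𝒪')
      (_ : IsAdicComplete (maximalIdeal 𝒪') 𝒪') (_ : Finite (ResidueField 𝒪')) (_ : CharZero 𝒪')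
      (_ : Algebra 𝒪 𝒪') (_ : Module.Finite 𝒪 𝒪') (_ : IsLocalHom (algebraMap 𝒪 𝒪'))
      (x : T →ₐ[𝒪] 𝒪'),
      (∀ t, act t = 0 → x t = 0) ∧
      ∀ (r : ℕ), r.Prime → r ≠ p → ¬ r ∣ L →
        ∀ (A : ValuationSubring Qbar), A.LiesOverPrime r → ∀ σ : GQ, A.IsFrobeniusAt σ r →
          x (s59i_cpTr ρT σ) * x (s59i_cpTr ρT σ) ≠ ((r : 𝒪') + 1) * ((r : 𝒪') + 1)) ∧
    ∀ (𝒪₀ : Type) [CommRing 𝒪₀] [IsDomain 𝒪₀] [CharZero 𝒪₀] (y : T →+* 𝒪₀)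
      (A : ValuationSubring Qbar), A.LiesOverPrime 2 → ∀ σ : GQ, A.IsFrobeniusAt σ 2 →
        y (s59i_cpTr ρT σ) ≠ y (algebraMap 𝒪 T (ε * 3)) := by
  classical
  have hεε : ε * ε = 1 := by
    rcases hε with h | h
    · rw [h, one_mul]
    · rw [h, neg_mul_neg, one_mul]
  have he' : (1 : SL(2, ℤ)) ∈ Gamma0 (L * 2) := one_mem _
  have hee : s59f_gW hL2 * 1 * 1 ∈ s48h_GammaH (L * 2) (⊤ : Subgroup (ZMod (L * 2))ˣ) := by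
    rw [mul_one, mul_one]
    exact s59t_mem_GammaH_top (L * 2) ⟨_, s59f_gW_mem hL2⟩
  obtain ⟨D, hD⟩ : ∃ D : s59t_Old 𝒪 (s48h_Hpar 𝒪 (s48h_GammaH L (⊤ : Subgroup (ZMod L)ˣ)) 𝒪)
      (s48h_Hpar 𝒪 (s48h_GammaH (L * 2) (⊤ : Subgroup (ZMod (L * 2))ˣ)) 𝒪),
      D = s59f_oldH hL2 hG' 𝒪 𝒪 1 he' hee := ⟨_, rfl⟩
  have hDU : ∀ z, D.U z =
      (s59w_UqDatum (⊤ : Subgroup (ZMod (L * 2))ˣ) (dvd_mul_left 2 L)).heckeHpar 𝒪 z := by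
    intro z
    rw [hD, s59f_oldH_U hL2 hG' 1 he' hee (dvd_mul_left 2 L) z, s59pt_diaL_top]
    rfl
  have hDw : ∀ z, D.w z = s59f_wL hL2 hG' 𝒪 𝒪 z := by
    intro z
    rw [hD, s59f_oldH_w, s59f_wtL_apply, s59pt_diaL_top]
    rfl
  have hDqq : D.qq = ((2 : ℕ) : 𝒪) := by rw [hD, s59f_oldH_qq]
  have hRP : ∀ b, D.T b = (-(ε * (D.qq + 1))) • b → b = 0 := by
    intro b hb
    have he1 : (1 : SL(2, ℤ)) ∈ Gamma0 L := one_mem _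
    rw [hD, s59f_oldH_T hL2 hG' 1 he' hee he1 b, s59pt_diaL_top, ← hD, hDqq] at hb
    refine s59pt_T_sub_inj L 𝒪 ⟨2, Nat.prime_two, hL2, s59f_gW hL2, s59f_gW_mem_L hL2,
      s59f_gW_lr hL2⟩ (-(ε * (((2 : ℕ) : 𝒪) + 1))) ?_ b hb
    show -(ε * (((2 : ℕ) : 𝒪) + 1)) * -(ε * (((2 : ℕ) : 𝒪) + 1)) = _
    calc -(ε * (((2 : ℕ) : 𝒪) + 1)) * -(ε * (((2 : ℕ) : 𝒪) + 1))
        = (ε * ε) * ((((2 : ℕ) : 𝒪) + 1) * (((2 : ℕ) : 𝒪) + 1)) := by ring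
      _ = _ := by rw [hεε, one_mul]
  have hcompatAll : ∀ x : s59w_AIdx (L * 2),
      D.Compat (s59w_op (⊤ : Subgroup (ZMod L)ˣ) 𝒪 (s59t_AIdx_down (dvd_mul_right L 2) x))
        (s59w_op (⊤ : Subgroup (ZMod (L * 2))ˣ) 𝒪 x) := by
    intro x
    have h1 := s59f_oldH_compat_wop (R := 𝒪) hL2 hG' 1 he' hee (dvd_mul_right L 2)
      (dvd_refl (L * 2)) x
    rw [s59t_AIdx_down_self] at h1
    rw [hD]
    exact h1
  exact s59pt_cut p hp2 hL2 𝒪 hp𝒪 B hpB hNB a hocc idx hidx hJ c hcT hcD e he hidem D hDU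
    hcompatAll ε hε hRP Y' (fun z => by rw [hDw]; exact hY' z) T act hact hfaith ρT tr hfrob
    hacttr

end Fermat.Agent.Lib.S59

end
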