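/-
PROGRAMME R2 = S59, leaf (c2-c) = [SPEC-T±] (helper4, prefix `s59f_sg_`), part 5a: **the sign cut is the module
`Y′ = {ε₀ z = z, w z = s z}` and it is NONZERO when the residual representation occurs at the odd level `L`**
(spectator `2`, level `L · 2`).

* `s59f_sg_mem_cut_iff` : `z ∈ range (ε₀ e_s) ↔ ε₀ z = z ∧ u z = s z` (abstract);
* `s59f_sg_u0_eq_wL`    : `s59f_sg_u0 hqN R = s59f_wL hqN (s59f_isG'_top hqN) R R` (`rfl`);
* `s59f_sg_cut_ne_zero` : `ε₀ e_s ≠ 0` on `H_par(Γ₀(L·2), 𝒪)` from `s44i_LevelOcc L p a B` (helper1's `s59pt_old_ne_zero` and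
  `s59pt_one_add_w_resA_inj`, [RP] at `2` = `s59pt_T_sub_inj`).
-/
import Mathlib
import Fermat.Agent.Lib.S59.FSgnT4a
import Fermat.Agent.Lib.S59.GPtCutH

set_option autoImplicit false
set_option linter.unusedSectionVars false
set_option linter.unusedVariables false
set_option linter.style.haveILetI false
set_option maxHeartbeats 4000000
set_option synthInstance.maxHeartbeats 400000

noncomputable section

namespace Fermat.Agent.Lib.S59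

open Fermat.Agent.Lib.S29 Fermat.Agent.Lib.S30 Fermat.Agent.Lib.S48 Fermat.Agent.Lib.S41
  Fermat.Agent.Lib.S44
open IsLocalRing Polynomial CuspForm
open CongruenceSubgroup
open scoped MatrixGroups

/-- the range of the cut idempotent `ε₀ e_s`. -/
theorem s59f_sg_mem_cut_iff {R : Type*} [CommRing R] [Invertible (2 : R)] {Z : Type*} [AddCommGroup Z]
    [Module R Z] (ε₀ u : Module.End R Z) (hid : ε₀ * ε₀ = ε₀) (hu : ∀ z, u (u z) = z)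
    (hcomm : ∀ z, ε₀ (u z) = u (ε₀ z)) (s : R) (hs : s * s = 1) (z : Z) :
    z ∈ LinearMap.range (ε₀ * s59b_sgnIdem u s) ↔ ε₀ z = z ∧ u z = s • z := by
  constructor
  · rintro ⟨z', rfl⟩
    rw [Module.End.mul_apply]
    refine ⟨?_, ?_⟩
    · have h1 := LinearMap.congr_fun hid (s59b_sgnIdem u s z')
      rwa [Module.End.mul_apply] at h1
    · rw [← hcomm, s59b_sgnIdem_eigen hu hs, map_smul]
  · rintro ⟨h1, h2⟩
    exact ⟨z, by rw [Module.End.mul_apply, s59b_sgnIdem_fix hs h2, h1]⟩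

theorem s59f_sg_u0_eq_wL {N₀ q : ℕ} [NeZero N₀] [hq : Fact q.Prime] [NeZero (N₀ * q)] (hqN : ¬ q ∣ N₀)
    (R : Type*) [CommRing R] :
    s59f_sg_u0 hqN R = s59f_wL hqN (s59f_isG'_top hqN) R R := rfl

/-- **the sign cut is nonzero** when the eigensystem occurs at the odd level `L`. -/
theorem s59f_sg_cut_ne_zero (p : ℕ) [Fact p.Prime] (hp2 : p ≠ 2) {L : ℕ} [NeZero L] [NeZero (L * 2)]
    (hL2 : ¬ 2 ∣ L)
    (𝒪 : Type) [CommRing 𝒪] [IsDomain 𝒪] [IsDiscreteValuationRing 𝒪]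
    [IsAdicComplete (maximalIdeal 𝒪) 𝒪] [Finite (ResidueField 𝒪)] [CharZero 𝒪] [Invertible (2 : 𝒪)]
    (hp𝒪 : ((p : ℕ) : 𝒪) ∈ maximalIdeal 𝒪)
    (B : Finset ℕ) (a : ℕ → ℤ) (hoccL : s44i_LevelOcc L p a B)
    (e : MvPolynomial ↥(s59t_goodB (L * 2) B) 𝒪)
    (h1e : 1 - e ∈ s59t_evalIdeal (fun x : ↥(s59t_goodB (L * 2) B) =>
      s59t_cB (𝒪 := 𝒪) (L * 2) a (x : s59w_AIdx (L * 2))))
    (s : 𝒪) (hs : s * s = 1) :
    s59t_E0 (⊤ : Subgroup (ZMod (L * 2))ˣ) B e * s59b_sgnIdem (s59f_sg_u0 hL2 𝒪) s ≠ 0 := by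
  classical
  have hpP : p.Prime := Fact.out
  have hG' : s59f_IsG' L 2 (⊤ : Subgroup (ZMod L)ˣ)
      (s48h_GammaH (L * 2) (⊤ : Subgroup (ZMod (L * 2))ˣ)) := s59f_isG'_top hL2
  have he' : (1 : SL(2, ℤ)) ∈ Gamma0 (L * 2) := one_mem _
  have hee : s59f_gW hL2 * 1 * 1 ∈ s48h_GammaH (L * 2) (⊤ : Subgroup (ZMod (L * 2))ˣ) := by
    rw [mul_one, mul_one]
    exact s59t_mem_GammaH_top (L * 2) ⟨_, s59f_gW_mem hL2⟩
  obtain ⟨D, hD⟩ : ∃ D : s59t_Old 𝒪 (s48h_Hpar 𝒪 (s48h_GammaH L (⊤ : Subgroup (ZMod L)ˣ)) 𝒪)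
      (s48h_Hpar 𝒪 (s48h_GammaH (L * 2) (⊤ : Subgroup (ZMod (L * 2))ˣ)) 𝒪),
      D = s59f_oldH hL2 hG' 𝒪 𝒪 1 he' hee := ⟨_, rfl⟩
  have hDw : ∀ z, D.w z = s59f_sg_u0 hL2 𝒪 z := by
    intro z
    rw [hD, s59f_oldH_w, s59f_wtL_apply, s59pt_diaL_top]
    rfl
  have hDqq : D.qq = ((2 : ℕ) : 𝒪) := by rw [hD, s59f_oldH_qq]
  have hRP : ∀ b, D.T b = (-(s * (D.qq + 1))) • b → b = 0 := by
    intro b hb
    have he1 : (1 : SL(2, ℤ)) ∈ Gamma0 L := one_mem _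
    rw [hD, s59f_oldH_T hL2 hG' 1 he' hee he1 b, s59pt_diaL_top, ← hD, hDqq] at hb
    refine s59pt_T_sub_inj L 𝒪 ⟨2, Nat.prime_two, hL2, s59f_gW hL2, s59f_gW_mem_L hL2,
      s59f_gW_lr hL2⟩ (-(s * (((2 : ℕ) : 𝒪) + 1))) ?_ b hb
    show -(s * (((2 : ℕ) : 𝒪) + 1)) * -(s * (((2 : ℕ) : 𝒪) + 1)) = _
    calc -(s * (((2 : ℕ) : 𝒪) + 1)) * -(s * (((2 : ℕ) : 𝒪) + 1))
        = (s * s) * ((((2 : ℕ) : 𝒪) + 1) * (((2 : ℕ) : 𝒪) + 1)) := by ring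
      _ = _ := by rw [hs, one_mul]
  have hcompatAll : ∀ x : s59w_AIdx (L * 2),
      D.Compat (s59w_op (⊤ : Subgroup (ZMod L)ˣ) 𝒪 (s59t_AIdx_down (dvd_mul_right L 2) x))
        (s59w_op (⊤ : Subgroup (ZMod (L * 2))ˣ) 𝒪 x) := by
    intro x
    have h1 := s59f_oldH_compat_wop (R := 𝒪) hL2 hG' 1 he' hee (dvd_mul_right L 2)
      (dvd_refl (L * 2)) x
    rw [s59t_AIdx_down_self] at h1
    rw [hD]
    exact h1
  have hfinj := s59pt_one_add_w_resA_inj D s hs hRP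
  -- the operators at the two levels
  obtain ⟨ops', hops'⟩ : ∃ ops' : ↥(s59t_goodB (L * 2) B) → Module.End 𝒪
      (s48h_Hpar 𝒪 (s48h_GammaH L (⊤ : Subgroup (ZMod L)ˣ)) 𝒪),
      ops' = fun j : ↥(s59t_goodB (L * 2) B) => s59w_op (⊤ : Subgroup (ZMod L)ˣ) 𝒪
        (s59t_AIdx_down (dvd_mul_right L 2) (j : s59w_AIdx (L * 2))) := ⟨_, rfl⟩
  have hc' : ∀ i j, ops' i * ops' j = ops' j * ops' i := by
    intro i j
    rw [hops']
    exact s59w_op_comm (⊤ : Subgroup (ZMod L)ˣ) 𝒪 _ _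
  have hcompatP : D.Compat (s59t_polyAct ops' hc' e)
      (s59t_E0 (⊤ : Subgroup (ZMod (L * 2))ˣ) B e) := by
    refine s59f_compat_polyAct D ops' hc'
      (fun x : ↥(s59t_goodB (L * 2) B) =>
        s59w_op (⊤ : Subgroup (ZMod (L * 2))ˣ) 𝒪 (x : s59w_AIdx (L * 2)))
      (fun x y => s59w_op_comm (⊤ : Subgroup (ZMod (L * 2))ˣ) 𝒪 _ _) Set.univ (fun j _ => ?_) ?_
    · rw [hops']
      exact hcompatAll (j : s59w_AIdx (L * 2))
    · rw [MvPolynomial.supported_univ]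
      exact Algebra.mem_top
  -- the old vector
  obtain ⟨v, hv⟩ := s59pt_old_ne_zero p (dvd_mul_right L 2) 𝒪 hp𝒪 B a hoccL
    (fun j : ↥(s59t_goodB (L * 2) B) => (j : s59w_AIdx (L * 2)))
    (by
      intro j i hji
      obtain ⟨i', hi', hB⟩ := j.2
      rw [hi'] at hji
      rw [← Sum.inl.inj hji]
      exact hB)
    (fun x : ↥(s59t_goodB (L * 2) B) => s59t_cB (𝒪 := 𝒪) (L * 2) a (x : s59w_AIdx (L * 2)))
    (by
      intro j i hji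
      show s59t_cB (𝒪 := 𝒪) (L * 2) a (j : s59w_AIdx (L * 2)) = _
      rw [hji]
      rfl)
    (by
      intro j τ hji
      show s59t_cB (𝒪 := 𝒪) (L * 2) a (j : s59w_AIdx (L * 2)) = _
      rw [hji]
      rfl)
    e h1e ops' hops' hc'
  intro h0
  apply hv
  apply hfinj
  rw [map_zero]
  have h1 : (2 : 𝒪) • (s59t_E0 (⊤ : Subgroup (ZMod (L * 2))ˣ) B e *
        s59b_sgnIdem (s59f_sg_u0 hL2 𝒪) s) (D.resA v) =
      ((LinearMap.id + s • D.w) ∘ₗ D.resA) (s59t_polyAct ops' hc' e v) := by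
    rw [Module.End.mul_apply, ← map_smul, s59b_two_smul_sgnIdem, map_add, map_smul, ← hDw,
      hcompatP.w, hcompatP.resA]
    rfl
  rw [← h1, h0, LinearMap.zero_apply, smul_zero]

end Fermat.Agent.Lib.S59
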