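/-
PROGRAMME R2 = S59, leaf (c2-c) = [SPEC-T±] (helper4, prefix `s59f_sg_`), part 6: **helper3's `s59u_sp_TFinCut p W hΔ 2`
(USpL.lean v3) IS A THEOREM** (= `s59f_sg_TFinCut2`, FSgnT5.lean, in the packaged form).
-/
import Mathlib
import Fermat.Agent.Lib.S59.FSgnT5
import Fermat.Agent.Lib.S59.USpL

set_option autoImplicit false
set_option linter.unusedSectionVars false
set_option linter.unusedVariables false
set_option linter.style.haveILetI false
set_option maxHeartbeats 4000000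
set_option synthInstance.maxHeartbeats 400000

noncomputable section

namespace Fermat.Agent.Lib.S59

/-- **the final `T`-side statement of the cut run at the spectator `2`.** -/
theorem s59f_sg_TFinCut_sp (p : ℕ) [Fact p.Prime] (W : WeierstrassCurve ℤ) (hΔ : W.Δ ≠ 0) :
    s59u_sp_TFinCut p W hΔ 2 := by
  intro hp2 B hp35 hss hirr hB2 𝒪 _ _ _ _ _ _ _ _ hp𝒪 hsplitℤ habs Nd N₀ hNZ hsq hpN h2 hB1 hocc
    hres0 hs hsp hsN hsns hold hsU φs σs hφs hσs εs hεs hscp hsW htrW Smin hpSmin hmin hSminB hNmin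
    Ds σ _ _
  exact Internal.s59f_sg_TFinCut2 p W hΔ hp2 B hirr hB2 𝒪 hp𝒪 N₀ hNZ hsq hpN h2 hB1 hocc hs hold φs σs hφs
    εs hεs Smin hpSmin hmin hNmin Ds σ

end Fermat.Agent.Lib.S59
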