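/-
PROGRAMME (R2) = S59, [STRICT-p], the `p ∣ M` halves of the [LIFT] fields (GT), node [PATCH-FLR], `T`-side (helper6, prefix `s59q_efl_`):
**the STRICT-ORDINARY twin of helper2's `s59efl_exists_DQ0` (B9DQ0.lean; leaf (L-B) of helper5 #3859)**: the deformation ring `DQ⁰` of
the strict-ordinary type WITHOUT the raising primes and the canonical surjection `κ : DQ.R ↠ DQ⁰.R`.  Scripted:
`flatCondition → strictOrdinaryCondition`, `s59q_exists_DQ_flat → s59q_exists_DQ_ord`, `s56a_tangentStable_flat → s56a_tangentStable_ord`.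
-/
import Mathlib
import Fermat.Agent.Lib.S59.B9DQ0

set_option autoImplicit false
set_option linter.unusedSectionVars false
set_option linter.unusedVariables false
set_option linter.style.haveILetI false
set_option maxHeartbeats 1600000

noncomputable section

namespace Fermat.Agent.Lib.S59

open IsLocalRing GaloisRep
open Fermat.Agent.Lib.S53 (NormData)
open Fermat.Agent.Lib.S56

section DQ0

variable (p : ℕ) [Fact p.Prime] (hp2 : p ≠ 2)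
  {𝒪 : Type} [CommRing 𝒪] [IsDomain 𝒪] [IsDiscreteValuationRing 𝒪]
  [IsAdicComplete (maximalIdeal 𝒪) 𝒪] [Finite (ResidueField 𝒪)]
  (hp𝒪 : (p : 𝒪) ∈ maximalIdeal 𝒪)
  (ρbar : ResidualGaloisRep (ResidueField 𝒪)) (habs : ρbar.IsAbsolutelyIrreducible)
  (Nd : NormData ρbar)

include hp2 hp𝒪 habs Nd in
/-- **(L-B), STRICT-ORDINARY type: the ring `DQ⁰` without the raising primes and `κ : DQ.R ↠ DQ⁰.R`** (twin of `s59efl_exists_DQ0`). -/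
theorem s59q_efl_exists_DQ0_ord (Sgm Sg0 Su0 Sg Su : Finset ℕ) (hm0 : Sgm ⊆ Sg0) (h0 : Sg0 ⊆ Sg)
    (hpSg0 : p ∈ Sg0)
    (hunr : ∀ q : ℕ, q.Prime → q ∉ Sg0 → ρbar.IsUnramifiedAt q)
    (hSu : ∀ q ∈ Su, q ∈ Su0 ∨ q ∉ Sg0)
    (Dm : DeformationRingData 𝒪 ρbar (fun _A _ _ _ ρ =>
      strictOrdinaryCondition 𝒪 p Sgm ρ ∧ ∀ q ∈ Su0, q.Prime → q ≠ p → ρ.IsUnipotentOnInertiaAt q))
    (DQ : DeformationRingData 𝒪 ρbar (fun _A _ _ _ ρ =>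
      strictOrdinaryCondition 𝒪 p Sg ρ ∧ ∀ q ∈ Su, q.Prime → q ≠ p → ρ.IsUnipotentOnInertiaAt q)) :
    ∃ (DQ0 : DeformationRingData 𝒪 ρbar (fun _A _ _ _ ρ =>
        strictOrdinaryCondition 𝒪 p Sg0 ρ ∧ ∀ q ∈ Su0, q.Prime → q ≠ p → ρ.IsUnipotentOnInertiaAt q))
      (κ : DQ.R →ₐ[𝒪] DQ0.R), Function.Surjective κ ∧
      (∀ g, (LinearMap.charpoly (DQ.ρ.ρ g)).map (κ : DQ.R →+* DQ0.R) =
        LinearMap.charpoly (DQ0.ρ.ρ g)) ∧
      ∀ q : ℕ, q.Prime → q ≠ p → q ∉ Sg0 →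
        ∀ A : ValuationSubring (AlgebraicClosure ℚ), A.LiesOverPrime q →
        ∀ σ ∈ A.inertiaSubgroupIn ℚ, ∀ (f : Module.Dual DQ.R DQ.ρ.V) (v : DQ.ρ.V),
          κ (f (DQ.ρ.ρ σ v - v)) = 0 := by
  obtain ⟨DQ0⟩ := s59q_exists_DQ_ord p hp2 hp𝒪 ρbar habs Sgm Sg0 Su0 hm0 hpSg0 hunr inferInstance
    Dm.residue_surjective Dm.ρ Dm.isOfType Dm.residual_isEquiv
  -- `DQ0.ρ` is of the type of `DQ`
  have htype : strictOrdinaryCondition 𝒪 p Sg DQ0.ρ ∧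
      ∀ q ∈ Su, q.Prime → q ≠ p → DQ0.ρ.IsUnipotentOnInertiaAt q := by
    refine ⟨⟨DQ0.isOfType.1.1, DQ0.isOfType.1.2.1,
      fun q hq hqS => DQ0.isOfType.1.2.2 q hq fun h' => hqS (h0 h')⟩, fun q hqSu hq hqp => ?_⟩
    rcases hSu q hqSu with h | h
    · exact DQ0.isOfType.2 q h hq hqp
    · exact s59b_unip_of_unram_at DQ0.ρ q (DQ0.isOfType.1.2.2 q hq h)
  obtain ⟨κ, hκ, eκ⟩ := s59f_kappa_exists DQ0 DQ htype
  refine ⟨DQ0, κ, ?_, ?_, ?_⟩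
  · exact s59f_kappa_surjective DQ0 DQ Nd p (s56a_tangentStable_ord 𝒪 p _ _) κ hκ eκ
  · exact fun g => s59efl_kappa_charpoly DQ DQ0 κ hκ eκ g
  · intro q hq hqp hqS A hA σ hσ f v
    exact s59efl_kappa_unr DQ DQ0 κ hκ eκ σ (DQ0.isOfType.1.2.2 q hq hqS A hA σ hσ) f v

end DQ0

end Fermat.Agent.Lib.S59
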