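/-
PROGRAMME (R2) = S59, [STRICT-p], the `p ∣ M` halves of the [LIFT] fields (GT), node [PATCH-FLR], `T`-side (helper6, prefix `s59q_efl_`):
**the STRICT-ORDINARY twin of helper5's `s59efl_trace_facts` (EFlrTr.lean)**: the trace ring of a level is a test algebra carrying a
deformation of the (strict-ordinary) type of `DQ`.  Scripted: `s59x_locCond_flat p` → `s59x_locCond_ord p hp2` (XDefOrd.lean).
(`s59efl_adj_reduced`, `s59efl_adj_torsionfree` of EFlrTr.lean are type-independent.)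
-/
import Mathlib
import Fermat.Agent.Lib.S59.EFlrTr
import Fermat.Agent.Lib.S59.XDefOrd

set_option autoImplicit false
set_option linter.unusedSectionVars false
set_option linter.unusedVariables false
set_option linter.style.haveILetI false
set_option maxHeartbeats 0
set_option synthInstance.maxHeartbeats 400000
set_option maxSynthPendingDepth 3

noncomputable section

namespace Fermat.Agent.Lib.S59

open IsLocalRing CuspForm Polynomial ExtCitation CongruenceSubgroup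
open WeierstrassCurve WeierstrassCurve.Affine WeierstrassCurve.Affine.Point
open Fermat.Agent.Lib.S48 Fermat.Agent.Lib.S44
open scoped MatrixGroups

local notation "Γℚ" => (AlgebraicClosure ℚ ≃ₐ[ℚ] AlgebraicClosure ℚ)
/-- **the trace ring of a level is a test algebra carrying a deformation of the type of `DQ`.** -/
theorem s59q_efl_trace_facts_ord (p : ℕ) [Fact p.Prime] (hp2 : p ≠ 2) (W : WeierstrassCurve ℤ) (hΔ : W.Δ ≠ 0)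
    (B : Finset ℕ) (hirr : W.ModRepIsIrreducible p) (hpB : p ∈ B)
    (hB2 : ∀ r : ℕ, r.Prime → ¬ W.IsGoodPrimeFor r → r ∈ B)
    (𝒪 : Type) [CommRing 𝒪] [IsDomain 𝒪] [IsDiscreteValuationRing 𝒪]
    [IsAdicComplete (maximalIdeal 𝒪) 𝒪] [Finite (ResidueField 𝒪)] [CharZero 𝒪]
    [Algebra ℤ_[p] 𝒪] [Module.Finite ℤ_[p] 𝒪]
    (hp𝒪 : ((p : ℕ) : 𝒪) ∈ maximalIdeal 𝒪)
    (Sg Smin : Finset ℕ)
    (DQ : GaloisRep.DeformationRingData 𝒪 (s59i_rhobarW W p hΔ 𝒪 hp𝒪) (fun _A _ _ _ ρ =>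
      GaloisRep.strictOrdinaryCondition 𝒪 p Sg ρ ∧
        ∀ q ∈ Smin, q.Prime → q ≠ p → ρ.IsUnipotentOnInertiaAt q))
    {Lv : ℕ} [NeZero Lv] (H : Subgroup (ZMod Lv)ˣ)
    (ε' : Module.End 𝒪 (s48h_Hpar 𝒪 (s48h_GammaH Lv H) 𝒪)) (hid' : ε' * ε' = ε') (hne' : ε' ≠ 0)
    {A : Type} [CommRing A] (aM : A →+* Module.End 𝒪 (LinearMap.range ε'))
    (hlocA : ∀ x ∈ s59e_adj 𝒪 aM, ∃ d : 𝒪, s59e_IsLocScalar x d)
    [IsLocalRing (s59e_adj 𝒪 aM)]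
    (θ : DQ.R →ₐ[𝒪] s59e_adj 𝒪 aM) (hθ : Function.Surjective θ)
    (S : Finset ℕ) (hBS : B ⊆ S) (tT' : ℕ → s59e_adj 𝒪 aM)
    (hfrobT : ∀ ℓ : ℕ, ℓ.Prime → ℓ ∉ S →
      ∀ A' : ValuationSubring (AlgebraicClosure ℚ), A'.LiesOverPrime ℓ →
      ∀ τ : Γℚ, A'.IsFrobeniusAt τ ℓ →
        (LinearMap.charpoly (DQ.ρ.ρ τ)).map (θ : DQ.R →+* s59e_adj 𝒪 aM) =
          Polynomial.X ^ 2 - Polynomial.C (tT' ℓ) * Polynomial.X +
            Polynomial.C ((ℓ : s59e_adj 𝒪 aM)))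
    (hcong : ∀ ℓ : ℕ, ℓ.Prime → ℓ ∉ S →
      tT' ℓ - algebraMap 𝒪 (s59e_adj 𝒪 aM) (((W.apOfModel ℓ : ℤ) : 𝒪)) ∈
        maximalIdeal (s59e_adj 𝒪 aM)) :
    ∃ (hlh : IsLocalHom (algebraMap 𝒪 (s59e_adj 𝒪 aM)))
      (hθl : IsLocalHom (θ : DQ.R →+* s59e_adj 𝒪 aM)),
      IsNoetherianRing (s59e_adj 𝒪 aM) ∧
      IsAdicComplete (maximalIdeal (s59e_adj 𝒪 aM)) (s59e_adj 𝒪 aM) ∧
      Function.Surjective (residue (s59e_adj 𝒪 aM) ∘ algebraMap 𝒪 (s59e_adj 𝒪 aM)) ∧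
      ((DQ.ρ.baseChangeAlong (θ : DQ.R →+* s59e_adj 𝒪 aM) hθl).residual.IsEquiv
        ((s59i_rhobarW W p hΔ 𝒪 hp𝒪).baseChangeAlong
          (ResidueField.map (algebraMap 𝒪 (s59e_adj 𝒪 aM))))) ∧
      (GaloisRep.strictOrdinaryCondition 𝒪 p Sg
          (DQ.ρ.baseChangeAlong (θ : DQ.R →+* s59e_adj 𝒪 aM) hθl) ∧
        ∀ q ∈ Smin, q.Prime → q ≠ p →
          (DQ.ρ.baseChangeAlong (θ : DQ.R →+* s59e_adj 𝒪 aM) hθl).IsUnipotentOnInertiaAt q) := by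
  classical
  have hpP : p.Prime := Fact.out
  have hEigB : ∀ ℓ : ℕ, ℓ.Prime → ℓ ∉ S →
      ∀ A : ValuationSubring (AlgebraicClosure ℚ), A.LiesOverPrime ℓ →
      ∀ σ : Γℚ, A.IsFrobeniusAt σ ℓ →
        LinearMap.charpoly ((s59i_rhobarW W p hΔ 𝒪 hp𝒪).ρ σ) =
          X ^ 2 - C (residue 𝒪 ((W.apOfModel ℓ : ℤ) : 𝒪)) * X +
            C ((ℓ : ResidueField 𝒪)) := fun ℓ hℓ hℓS A hA σ hσ =>
    s59e_rhobarW_charpoly_frob hΔ hp2 hirr hp𝒪 B hpB hB2 ℓ hℓ (fun h => hℓS (hBS h)) A hA σ hσ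
  haveI hYnt : Nontrivial (LinearMap.range ε') := s59e_L_range_nontrivial _ hne'
  haveI hlh : IsLocalHom (algebraMap 𝒪 (s59e_adj 𝒪 aM)) := s59e_adj_isLocalHom aM hlocA
  let bZ := Module.Free.chooseBasis ℤ (s48h_M (s48h_GammaH Lv H))
  haveI : Module.Free 𝒪 (s48h_Hpar 𝒪 (s48h_GammaH Lv H) 𝒪) := Module.Free.of_basis (s59u_cB bZ 𝒪)
  haveI : Module.Finite 𝒪 (s48h_Hpar 𝒪 (s48h_GammaH Lv H) 𝒪) :=
    Module.Finite.of_basis (s59u_cB bZ 𝒪)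
  haveI hfin : Module.Finite 𝒪 (LinearMap.range ε') := s59t_part_finite _
  haveI hfree : Module.Free 𝒪 (LinearMap.range ε') := s59t_part_free hid'
  haveI hnoeth : IsNoetherianRing (s59e_adj 𝒪 aM) := s59e_adj_noeth aM
  haveI hcompl : IsAdicComplete (maximalIdeal (s59e_adj 𝒪 aM)) (s59e_adj 𝒪 aM) :=
    s59e_adj_complete aM
  haveI hfinR : Module.Finite 𝒪 (s59e_adj 𝒪 aM) := s59e_adj_finite aM
  have hT' : Fermat.Agent.Lib.Deform.IsTestAlgebra 𝒪 (s59e_adj 𝒪 aM) :=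
    s59e_testAlgebra aM AlgEquiv.refl hlocA
  have hθl : IsLocalHom (θ : DQ.R →+* s59e_adj 𝒪 aM) := IsLocalHom.of_surjective _ hθ
  have hfrobR : ∀ (ℓ : ℕ), ℓ.Prime → ℓ ∉ S →
      ∀ A : ValuationSubring (AlgebraicClosure ℚ), A.LiesOverPrime ℓ →
      ∀ g : Γℚ, A.IsFrobeniusAt g ℓ →
        LinearMap.charpoly ((DQ.ρ.baseChangeAlong (θ : DQ.R →+* s59e_adj 𝒪 aM) hθl).ρ g) =
          Polynomial.X ^ 2 - Polynomial.C (tT' ℓ) * Polynomial.X +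
            Polynomial.C ((ℓ : s59e_adj 𝒪 aM)) := by
    intro ℓ hℓ hℓS A hA g hg
    rw [s59e_bc_charpoly]
    exact hfrobT ℓ hℓ hℓS A hA g hg
  have hpR : ((p : ℕ) : s59e_adj 𝒪 aM) ∈ maximalIdeal (s59e_adj 𝒪 aM) := by
    have := map_nonunit (algebraMap 𝒪 (s59e_adj 𝒪 aM)) ((p : ℕ) : 𝒪) hp𝒪
    rwa [map_natCast] at this
  have hresR := s59b_hres_of_frob p hp2 hpR
    (DQ.ρ.baseChangeAlong (θ : DQ.R →+* s59e_adj 𝒪 aM) hθl)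
    (s59e_bc_absIrr (θ : DQ.R →+* s59e_adj 𝒪 aM) hθl DQ.ρ (s59b_DQ_residual_absIrr DQ)) S
    tT' (fun ℓ => ((W.apOfModel ℓ : ℤ) : 𝒪)) hfrobR hcong (s59i_rhobarW W p hΔ 𝒪 hp𝒪) hEigB
  have hρR0 : (GaloisRep.strictOrdinaryCondition 𝒪 p Sg
      (DQ.ρ.baseChangeAlong (θ : DQ.R →+* s59e_adj 𝒪 aM) hθl) ∧
      ∀ q ∈ Smin, q.Prime → q ≠ p →
        (DQ.ρ.baseChangeAlong (θ : DQ.R →+* s59e_adj 𝒪 aM) hθl).IsUnipotentOnInertiaAt q) := by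
    haveI : Finite (ResidueField (s59e_adj 𝒪 aM)) := hT'.finite_residueField
    exact s59x_twType_baseChange (𝒪 := 𝒪) (s59x_locCond_ord p hp2) _ Smin
      (θ : DQ.R →+* s59e_adj 𝒪 aM) hθl inferInstance DQ.ρ DQ.isOfType
  exact ⟨hlh, hθl, hnoeth, hcompl, hT'.residue_surjective, hresR, hρR0⟩
end Fermat.Agent.Lib.S59
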