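/-
Programme R2 (S59), node [PATCH-FLR] STRICT (très ramifiée / ordinary) half, `T`-side, with raising steps (helper4, prefix `s59f_st_`),
file 3L: **THE FINAL STRICT `T`-SIDE THEOREM WITH THE EXPORTS AT THE LEVEL `0`, FAST VERSION** — `s59f_st_finXL : s59f_st_TFinX p W hΔ`,
the same theorem as `s59f_st_finX` (FStrFin.lean) with the end of the proof (the assembly of the contract at one Taylor–Wiles level) done
by helper5's abstract lemma `s59efl_asm_lv` over `s59efl_mkBaseMin` (EFlrAsmL.lean): no unification of gigantic types is left in this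
file (≈ 10 min / 4 GB instead of ≈ 30 min / 5 GB).  Scripted from `FStrFin.lean`.
-/
import Mathlib
import Fermat.Agent.Lib.S59.FStrFinS
import Fermat.Agent.Lib.S59.FStrBaseP
import Fermat.Agent.Lib.S59.QStLvlP
import Fermat.Agent.Lib.S59.C3FlrExp
import Fermat.Agent.Lib.S59.C3FlrConcS
import Fermat.Agent.Lib.S59.C3FlrMk
import Fermat.Agent.Lib.S59.C3FlrAsmMk
import Fermat.Agent.Lib.S59.EFlrConc
import Fermat.Agent.Lib.S59.EFlrAsm
import Fermat.Agent.Lib.S59.EFlrAsmL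
import Fermat.Agent.Lib.S59.QSFlrDQ0

set_option autoImplicit false
set_option linter.unusedSectionVars false
set_option linter.unusedVariables false
set_option linter.style.haveILetI false
set_option maxHeartbeats 0
set_option synthInstance.maxHeartbeats 400000
set_option maxSynthPendingDepth 3
set_option backward.isDefEq.respectTransparency.types true

noncomputable section

namespace Fermat.Agent.Lib.S59

open IsLocalRing CuspForm Polynomial ExtCitation CongruenceSubgroup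
open WeierstrassCurve WeierstrassCurve.Affine WeierstrassCurve.Affine.Point
open Fermat.Agent.Lib.S48 Fermat.Agent.Lib.S44
open Fermat.Agent.Lib.S53 (NormData)
open scoped MatrixGroups

local notation "Γℚ" => (AlgebraicClosure ℚ ≃ₐ[ℚ] AlgebraicClosure ℚ)

/-- **the final STRICT `T`-side theorem of [PATCH-FLR], with the exports at the level `0`** (`p` odd, even levels, `p` divides every
level, `ρ̄_W` très ramifiée at `p`). -/
theorem s59f_st_finXL (p : ℕ) [Fact p.Prime] (W : WeierstrassCurve ℤ) (hΔ : W.Δ ≠ 0) : s59f_st_TFinX p W hΔ := by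
  classical
  intro hp2 B hss hirr hbadp hc4p hpeu hB2 𝒪 _ _ _ _ _ _ _ _ hp𝒪 habs Nd k N qr hNZ hqr hN hfreeze hsq hpN hB1 hocc h23 φr σr hφr hσr
    Sg0 Su Smin Sgm hpSgm hSgm0 hSminSgm hmin hSuB hSgN hSgmN hqrSgm D0 Dm σ _ _
  have hpP : p.Prime := Fact.out
  have hpB : p ∈ B := hB1 0 p hpP (Dvd.intro_left _ rfl)
  have hpSg0 : p ∈ Sg0 := hSgm0 hpSgm
  have hNB : ∀ t, ∀ q : ℕ, q.Prime → q ∣ N t → q ∈ B := fun t q hq h => hB1 t q hq (Dvd.dvd.mul_right h p)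
  have hgoodB : ∀ q : ℕ, q.Prime → q ∉ B → W.IsGoodPrimeFor q := by
    intro q hq hqB
    by_contra hbad
    exact hqB (hB2 q hq hbad)
  -- the numerology of the chain
  have hmin1 : ∀ t, t < k → min t k = t := fun t ht => Nat.min_eq_left ht.le
  have hmin2 : ∀ t, t < k → min (t + 1) k = t + 1 := fun t ht => Nat.min_eq_left ht
  have hmk : ∀ t, k ≤ t → min k k = min t k := fun t ht => by
    rw [Nat.min_self, Nat.min_eq_right ht]
  have hNs : ∀ s s' t : ℕ, t < k → s = t → s' = t + 1 → N s' = N s * qr t := by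
    rintro s s' t ht rfl rfl
    exact hN s ht
  have hmono : ∀ a b : ℕ, a ≤ b → N a ∣ N b := by
    intro a b hab
    induction b, hab using Nat.le_induction with
    | base => exact dvd_refl _
    | succ b hab ih =>
      refine ih.trans ?_
      by_cases hb : b < k
      · exact Dvd.intro _ (hN b hb).symm
      · exact dvd_of_eq ((hfreeze b (not_lt.mp hb)).trans
          (hfreeze (b + 1) ((not_lt.mp hb).trans (Nat.le_succ b))).symm)
  have hdvdk : ∀ s, N s ∣ N k := by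
    intro s
    by_cases hs : s ≤ k
    · exact hmono s k hs
    · exact dvd_of_eq (hfreeze s (not_le.mp hs).le)
  have hqrB : ∀ l, l < k → qr l ∈ B := fun l hl =>
    hNB (l + 1) (qr l) (hqr l hl) (Dvd.intro_left _ (hN l hl).symm)
  have hqrp : ∀ l, l < k → qr l ≠ p := fun l hl h => by
    have h1 : p * p ∣ N (l + 1) := by
      rw [hN l hl, h]
      exact Nat.mul_dvd_mul_right (hpN l) p
    exact hpP.one_lt.ne' (Nat.isUnit_iff.mp (hsq (l + 1) p h1))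
  -- the types without the raising primes
  obtain ⟨Sgs, hSgs0, hSgsm, hSgs1, hSgsN⟩ : ∃ Sgs : ℕ → Finset ℕ, Sgs 0 = Sgm ∧ (∀ s, Sgm ⊆ Sgs s) ∧
      (∀ s, Sgs s ⊆ Sg0) ∧ ∀ s, ∀ q : ℕ, q.Prime → q ∣ N s →
        q ∈ Sgs s ∨ s59e3q_E2Alt p (s59i_rhobarW W p hΔ 𝒪 hp𝒪) q := by
    refine ⟨fun s => if s = 0 then Sgm else Sg0, if_pos rfl, fun s => ?_, fun s => ?_, fun s => ?_⟩
    · show Sgm ⊆ if s = 0 then Sgm else Sg0
      split_ifs
      · exact Finset.Subset.refl _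
      · exact hSgm0
    · show (if s = 0 then Sgm else Sg0) ⊆ Sg0
      split_ifs
      · exact hSgm0
      · exact Finset.Subset.refl _
    · show ∀ q : ℕ, q.Prime → q ∣ N s →
        q ∈ (if s = 0 then Sgm else Sg0) ∨ s59e3q_E2Alt p (s59i_rhobarW W p hΔ 𝒪 hp𝒪) q
      split_ifs with hs
      · subst hs
        exact hSgmN
      · exact hSgN s
  have hunr0 : ∀ s, ∀ q : ℕ, q.Prime → q ∉ Sgs s →
      (s59i_rhobarW W p hΔ 𝒪 hp𝒪).IsUnramifiedAt q := by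
    intro s q hq hqS
    have hqS' : q ∉ Sgm := fun h => hqS (hSgsm s h)
    have hqp : q ≠ p := fun h => hqS' (h ▸ hpSgm)
    by_contra hram
    exact hqS' (hSminSgm ((hmin q hq hqp).mpr hram))
  -- the auxiliary rings of the base levels (without the raising primes at the level `0`)
  have hD0' := fun s => s59q_efl_exists_DQ0_ord p hp2 hp𝒪 (s59i_rhobarW W p hΔ 𝒪 hp𝒪) habs Nd Sgm
    (Sgs s) Su Sg0 Su (hSgsm s) (hSgs1 s) (hSgsm s hpSgm) (hunr0 s) (fun q hq => Or.inl hq) Dm D0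
  choose D0' κ0 hκ0s hκ0c hκ0unr using hD0'
  -- the base data of the levels
  have hbase := fun t => Internal.s59f_st_base_pkg p hp2 W hΔ (N t) B hirr (hsq t) (hpN t) hbadp hc4p hpeu (hB1 t) hB2 (hocc t) (h23 t) 𝒪 hp𝒪
    Sg0 Su D0 (Sgs t) Su Smin (hSgsm t hpSgm) (hSgsN t) hmin (D0' t) (κ0 t) (hκ0s t) (hκ0c t)
  choose e h1e hid hnil hρ d hd0 b0 hb0 a₀ ha1₀ aM₀ haM₀ hlr hnoeth hfinR hcompl hlh hRρ θ₀ hθ₀ hθ₀l hRres hMfin hMnt
    hfrobR hgenR hresR htype hν hθκ0 using hbase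
  -- the Frobenius elements at the raising primes
  choose Aφ hAφ1 hAφ2 using hφr
  -- the old submodules and the steps
  have hstep0 := fun (s s' t : ℕ) (ht : t < k) (hs : s = t) (hs' : s' = t + 1) =>
    Internal.s59efl_step_conc (hq := ⟨hqr t ht⟩) p hp2 W hΔ B hirr hB2 𝒪 hp𝒪 σ (N s) (qr t) (N s')
      (hNs s s' t ht hs hs') (Dvd.intro _ (hNs s s' t ht hs hs').symm) (hsq s') (hqrp t ht) (hB1 s')
      (e s) (h1e s) (hid s) (hnil s) (hρ s) (a₀ s) (ha1₀ s) (aM₀ s) (haM₀ s) (hRρ s) (D0.ρ.baseChangeAlong (θ₀ s : D0.R →+* (s59e_adj 𝒪 (aM₀ s))) (hθ₀l s)) (d s)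
      (e s') (h1e s') (hid s') (hnil s') (hρ s') (a₀ s') (ha1₀ s') (aM₀ s') (haM₀ s') (hRρ s') (D0.ρ.baseChangeAlong (θ₀ s' : D0.R →+* (s59e_adj 𝒪 (aM₀ s'))) (hθ₀l s')) (d s')
      (Aφ t ht) (hAφ1 t ht) (φr t) (hAφ2 t ht)
  choose OldSG hstepG using hstep0
  -- the base contract
  let Bs : s59f_TBaseF 𝒪 k D0 :=
    s59efl_mkBaseMin k D0 (fun s => (s59e_adj 𝒪 (aM₀ s))) hlr hnoeth hcompl hlh hRres
      (fun s => (s59t_EigT (s59t_partRep (s59t_rho (N s) (⊤ : Subgroup (ZMod (N s))ˣ) 𝒪 𝒪) (hρ s)) ⊤ (1 : (s59t_Delta (N s) (⊤ : Subgroup (ZMod (N s))ˣ)) →* 𝒪ˣ) (hRρ s))) hMfin hMnt OldSG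
      (fun s => (D0.ρ.baseChangeAlong (θ₀ s : D0.R →+* (s59e_adj 𝒪 (aM₀ s))) (hθ₀l s))) htype hresR θ₀ hν hθ₀ d
  refine ⟨Bs, ?_, ?_, ?_, ?_, ?_, ?_⟩
  · -- the Hecke map of the top base ring
    have key : ∀ a : ℕ, k = a → s59e_HkFrobP (N k) (↑B : Set ℕ) (s59e_adj 𝒪 (aM₀ a)) (D0.ρ.baseChangeAlong (θ₀ a : D0.R →+* (s59e_adj 𝒪 (aM₀ a))) (hθ₀l a)) := by
      intro a ha
      subst ha
      exact s59e_HkFrobP_adj (↑B : Set ℕ) (aM₀ k) _ (hfrobR k)
    exact key (min k k) (Nat.min_self k).symm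
  · -- (E1) the Hecke map of the base ring of the level `0`
    have key : ∀ a : ℕ, 0 = a → s59e_HkFrobP (N 0) (↑B : Set ℕ) (s59e_adj 𝒪 (aM₀ a)) (D0.ρ.baseChangeAlong (θ₀ a : D0.R →+* (s59e_adj 𝒪 (aM₀ a))) (hθ₀l a)) := by
      intro a ha
      subst ha
      exact s59e_HkFrobP_adj (↑B : Set ℕ) (aM₀ 0) _ (hfrobR 0)
    exact key (min 0 k) (Nat.zero_min k).symm
  · -- (E2) faithfulness of the base module of the level `0`
    have key : ∀ a : ℕ, 0 = a → ∀ x : s59e_adj 𝒪 (aM₀ a),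
        (∀ mm : (s59t_EigT (s59t_partRep (s59t_rho (N a) (⊤ : Subgroup (ZMod (N a))ˣ) 𝒪 𝒪) (hρ a)) ⊤ (1 : (s59t_Delta (N a) (⊤ : Subgroup (ZMod (N a))ˣ)) →* 𝒪ˣ) (hRρ a)), x • mm = 0) → x = 0 := by
      intro a ha
      subst ha
      exact fun x hx => Internal.s59c3_EigT_top_faithful (N 0) (hρ 0) (aM₀ 0) (hRρ 0) x hx
    exact key (min 0 k) (Nat.zero_min k).symm
  · -- (E-conc) the concrete model of the base ring of the level `0`
    have key : ∀ a : ℕ, 0 = a → s59c3_EConc 𝒪 (N 0) B (fun ℓ => W.apOfModel ℓ) (s59e_adj 𝒪 (aM₀ a)) (D0.ρ.baseChangeAlong (θ₀ a : D0.R →+* (s59e_adj 𝒪 (aM₀ a))) (hθ₀l a)) := by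
      intro a ha
      subst ha
      exact Internal.s59c3_EConc_adj p (N 0) B (fun ℓ => W.apOfModel ℓ) (e 0) (h1e 0) (a₀ 0) (ha1₀ 0) (aM₀ 0) (haM₀ 0) _ (hfrobR 0) (hgenR 0)
    exact key (min 0 k) (Nat.zero_min k).symm
  · -- (E5) the base ring of the level `0` is of the minimal type
    have key : ∀ a : ℕ, 0 = a → GaloisRep.strictOrdinaryCondition 𝒪 p Sgm (D0.ρ.baseChangeAlong (θ₀ a : D0.R →+* (s59e_adj 𝒪 (aM₀ a))) (hθ₀l a)) := by
      intro a ha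
      subst ha
      refine ⟨(htype 0).1.1, (htype 0).1.2.1, fun q hq hqS => ?_⟩
      have hqp : q ≠ p := fun h => hqS (h ▸ hpSgm)
      refine s59c3_bc_unram_of_kill _ _ _ q (fun P hP τ hτ f v => ?_)
      exact hθκ0 0 _ (hκ0unr 0 q hq hqp (by rw [hSgs0]; exact hqS) P hP τ hτ f v)
    exact key (min 0 k) (Nat.zero_min k).symm
  -- the Taylor–Wiles levels
  intro r n qv hqinj hqv hTW DQ
  have hqvpr : ∀ i, (qv i).Prime := fun i => (hqv i).1
  have hqvB : ∀ i, qv i ∉ B := fun i => (hqv i).2.1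
  haveI hNZq : NeZero (∏ j, qv j) := s59u_neZero_prod_qv qv hqvpr
  haveI hNZl : ∀ t, NeZero (N t * ∏ j, qv j) := fun t => s59u_neZero_level qv (N t) hqvpr
  haveI hNZ2 : ∀ t, NeZero (N t * ∏ q ∈ Finset.univ.image qv, q ^ 2) := fun t =>
    ⟨Nat.mul_ne_zero (NeZero.ne (N t)) (Finset.prod_ne_zero_iff.mpr fun q hq => by
      obtain ⟨i, -, rfl⟩ := Finset.mem_image.mp hq
      exact pow_ne_zero 2 (hqvpr i).ne_zero)⟩
  have himgB : ∀ q ∈ Finset.univ.image qv, q ∉ B := by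
    intro q hq
    obtain ⟨i, -, rfl⟩ := Finset.mem_image.mp hq
    exact hqvB i
  -- the arithmetic of the Taylor–Wiles primes
  obtain ⟨aq, bq, harith, hcongq⟩ :=
    s59u_W_TW_arith_fam W hΔ p hirr B hpB hgoodB (𝒪 := 𝒪) hp𝒪 n qv hp2 hqinj hqv hTW
  -- the generators of `B_Q`, pushed down from the top level
  obtain ⟨-, gk, -, hgenk, hordk, hglock⟩ :=
    s59u_W_level_grp p (N k) (hsq k) B (hNB k) (⊤ : Subgroup (ZMod (N k))ˣ) n qv hqinj hqv
  have hcardS : ∀ s, Nat.card (s59t_BQ (N s) (∏ j, qv j) (⊤ : Subgroup (ZMod (N s))ˣ) (s59t_KQ (p ^ n) qv)) = (p ^ n) ^ r := by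
    intro s
    obtain ⟨-, -, h, -⟩ :=
      s59u_W_level_grp p (N s) (hsq s) B (hNB s) (⊤ : Subgroup (ZMod (N s))ˣ) n qv hqinj hqv
    exact h
  obtain ⟨g, hgdef⟩ : ∃ g : ∀ s, Fin r → (s59t_BQ (N s) (∏ j, qv j) (⊤ : Subgroup (ZMod (N s))ˣ) (s59t_KQ (p ^ n) qv)),
      ∀ s, g s = s59efl_pushG (hdvdk s) (p ^ n) qv gk := ⟨fun s => s59efl_pushG (hdvdk s) (p ^ n) qv gk, fun s => rfl⟩
  have hgenS : ∀ s, ∀ x : (s59t_BQ (N s) (∏ j, qv j) (⊤ : Subgroup (ZMod (N s))ˣ) (s59t_KQ (p ^ n) qv)), ∃ a : Fin r → ℕ, x = ∏ i, g s i ^ a i := by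
    intro s
    rw [hgdef s]
    exact s59efl_pushG_gen (hdvdk s) (p ^ n) qv gk hgenk
  have hordS : ∀ s, ∀ i, g s i ^ (p ^ n) = 1 := by
    intro s
    rw [hgdef s]
    exact s59efl_pushG_ord (hdvdk s) (p ^ n) qv gk hordk
  have hglocS : ∀ s, ∀ i, ∃ τ : Gamma0 ((N s) * ∏ j, qv j),
      (QuotientGroup.mk τ : (s59t_Delta ((N s) * ∏ j, qv j) (s59t_Hmul (N s) (∏ j, qv j) (⊤ : Subgroup (ZMod (N s))ˣ) (s59t_KQ (p ^ n) qv)))) = (g s i : (s59t_Delta ((N s) * ∏ j, qv j) (s59t_Hmul (N s) (∏ j, qv j) (⊤ : Subgroup (ZMod (N s))ˣ) (s59t_KQ (p ^ n) qv)))) ∧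
      ZMod.unitsMap (Nat.div_dvd_of_dvd (s59t_qv_dvd_level qv (N s) i))
        (s59t_unitHom ((N s) * ∏ j, qv j) τ) = 1 := by
    intro s
    rw [hgdef s]
    exact s59efl_pushG_loc (hdvdk s) (p ^ n) qv gk hglock
  have hgS : ∀ (s s' : ℕ) (hd : N s ∣ N s'), ∀ i, g s i = s59efl_pushG hd (p ^ n) qv (g s') i := by
    intro s s' hd i
    rw [hgdef s, hgdef s']
    exact (s59efl_pushG_trans hd (hdvdk s') (p ^ n) qv gk i).symm
  -- the rings without the raising primes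
  have hunrS : ∀ s, ∀ q : ℕ, q.Prime → q ∉ Sgs s ∪ Finset.univ.image qv →
      (s59i_rhobarW W p hΔ 𝒪 hp𝒪).IsUnramifiedAt q := by
    intro s q hq hqS
    have hqS' : q ∉ Sgm := fun h => hqS (Finset.mem_union_left _ (hSgsm s h))
    have hqp : q ≠ p := fun h => hqS' (h ▸ hpSgm)
    by_contra hram
    exact hqS' (hSminSgm ((hmin q hq hqp).mpr hram))
  have hDQ' := fun s => s59q_efl_exists_DQ0_ord p hp2 hp𝒪 (s59i_rhobarW W p hΔ 𝒪 hp𝒪) habs Nd Sgm
    (Sgs s ∪ Finset.univ.image qv) Su (Sg0 ∪ Finset.univ.image qv) Su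
    ((hSgsm s).trans Finset.subset_union_left) (Finset.union_subset_union_left (hSgs1 s))
    (Finset.mem_union_left _ (hSgsm s hpSgm)) (hunrS s) (fun q hq => Or.inl hq) Dm DQ
  choose DQ' κ hκs hκc hκunr using hDQ'
  -- the Taylor–Wiles data of the levels
  have hSgQ : ∀ s, ∀ q : ℕ, q.Prime → q ∣ ((N s) * ∏ q ∈ Finset.univ.image qv, q ^ 2) →
      q ∈ Sgs s ∪ Finset.univ.image qv ∨ s59e3q_E2Alt p (s59i_rhobarW W p hΔ 𝒪 hp𝒪) q := by
    intro s q hq hqM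
    rcases (Nat.Prime.dvd_mul hq).mp hqM with h | h
    · rcases hSgsN s q hq h with h' | h'
      · exact Or.inl (Finset.mem_union_left _ h')
      · exact Or.inr h'
    · obtain ⟨q', hq', hqq'⟩ := (Prime.dvd_finsetProd_iff (Nat.prime_iff.mp hq) _).mp h
      obtain ⟨i, -, rfl⟩ := Finset.mem_image.mp hq'
      have hqe : q = qv i := (Nat.prime_dvd_prime_iff_eq hq (hqvpr i)).mp (hq.dvd_of_dvd_pow hqq')
      subst hqe
      exact Or.inl (Finset.mem_union_right _ (Finset.mem_image_of_mem qv (Finset.mem_univ i)))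
  have hSuQ : ∀ q ∈ Su, q ∈ Smin ∨ q ∉ Finset.univ.image qv := fun q hq =>
    Or.inr fun h => himgB q h (hSuB hq)
  have hlvl := fun s => Internal.s59q_st_lvl_pkg p hp2 W hΔ (N s) B hirr (hsq s) (hpN s) hbadp hc4p hpeu (hB1 s) hB2 (hocc s) (Or.inr (h23 s)) 𝒪 hp𝒪 r σ
    (e s) (h1e s) (hid s) (hnil s) (hρ s) (d s) (hd0 s) (b0 s) (hb0 s) (a₀ s) (ha1₀ s) (aM₀ s) (haM₀ s) (hRρ s)
    (D0.ρ.baseChangeAlong (θ₀ s : D0.R →+* (s59e_adj 𝒪 (aM₀ s))) (hθ₀l s)) (hfrobR s) (hgenR s) n qv hqinj hqv hTW aq bq harith hcongq (g s) (hcardS s) (hgenS s) (hordS s) (hglocS s)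
    (Sg0 ∪ Finset.univ.image qv) Su DQ (Sgs s ∪ Finset.univ.image qv) Su Smin
    (Finset.mem_union_left _ (hSgsm s hpSgm)) (hSgQ s) hmin hSuQ (DQ' s) (κ s) (hκs s) (hκc s)
  choose e₀ G hXl a ha1 ha2 aM haM hlrQ θ hθ hfrobT hρ' π hcomm hTρ h2 hιinj hιπ rec hnoethQ hcomplQ hlhQ hres𝒪 hθl h𝒟 hres
    hred htf hθκ using hlvl
  -- the steps
  have hst : ∀ (s s' t : ℕ) (ht : t < k) (hs : s = t) (hs' : s' = t + 1),
      s59efl_StepConclLv (rec s).Lv (rec s').Lv (OldSG s s' t ht hs hs') (qr t) (φr t) :=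
    fun s s' t ht hs hs' => hstepG s s' t ht hs hs' r n qv hqinj hqv aq DQ
      (e₀ s) (G s) (hXl s) (a s) (ha1 s) (ha2 s) (aM s) (haM s) (θ s) (hθ s) (hfrobT s) (hρ' s) (π s) (hcomm s) (hTρ s) (h2 s) (hιinj s) (hιπ s) (g s) (rec s) (hres𝒪 s) (hθl s) (h𝒟 s) (hres s)
      (e₀ s') (G s') (hXl s') (a s') (ha1 s') (ha2 s') (aM s') (haM s') (θ s') (hθ s') (hfrobT s') (hρ' s') (π s') (hcomm s') (hTρ s') (h2 s') (hιinj s') (hιπ s') (g s') (rec s')
      (hgS s s' _)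
  -- reducedness and torsion-freeness of the trace rings
  have hredT : ∀ s, IsReduced (rec s).Lv.T' := fun s =>
    haveI := hred s
    isReduced_of_injective (rec s).eT' (rec s).eT'.injective
  have htfT : ∀ s, ∀ o : 𝒪, o ≠ 0 → ∀ x : (rec s).Lv.T', algebraMap 𝒪 (rec s).Lv.T' o * x = 0 → x = 0 :=
    fun s o ho x hx => (rec s).eT'.injective ((htf s o ho ((rec s).eT' x)
      (((congrArg (fun y => y * (rec s).eT' x) (AlgEquiv.commutes (rec s).eT' o)).symm.trans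
        (_root_.map_mul (rec s).eT' _ x).symm).trans
        ((congrArg (rec s).eT' hx).trans (_root_.map_zero (rec s).eT')))).trans
      (_root_.map_zero (rec s).eT').symm)
  -- the level `0` is unramified at the raising primes
  have hκunrG : ∀ s, s = 0 → ∀ l, l < k → ∀ (f : Module.Dual DQ.R DQ.ρ.V) (v : DQ.ρ.V),
      κ s (f (DQ.ρ.ρ (σr l) v - v)) = 0 := by
    intro s hs l hl f v
    obtain ⟨A, hA, hσA⟩ := hσr l hl
    refine hκunr s (qr l) (hqr l hl) (hqrp l hl) ?_ A hA (σr l) hσA f v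
    rw [hs, hSgs0]
    intro h
    rcases Finset.mem_union.mp h with h | h
    · exact hqrSgm l hl h
    · exact himgB _ h (hqrB l hl)
  have hunrG : ∀ s, s = 0 → ∀ l, l < k → ∀ (f : Module.Dual DQ.R DQ.ρ.V) (v : DQ.ρ.V),
      (rec s).Lv.θ (f (DQ.ρ.ρ (σr l) v - v)) = 0 := fun s hs l hl f v =>
    (rec s).eT'.injective (((rec s).k2 _).trans
      ((hθκ s _ (hκunrG s hs l hl f v)).trans (_root_.map_zero (rec s).eT').symm))
  exact s59efl_asm_lv k D0 (fun s => (s59e_adj 𝒪 (aM₀ s))) hlr hnoeth hcompl hlh hRres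
    (fun s => (s59t_EigT (s59t_partRep (s59t_rho (N s) (⊤ : Subgroup (ZMod (N s))ˣ) 𝒪 𝒪) (hρ s)) ⊤ (1 : (s59t_Delta (N s) (⊤ : Subgroup (ZMod (N s))ˣ)) →* 𝒪ˣ) (hRρ s))) hMfin hMnt OldSG
    (fun s => (D0.ρ.baseChangeAlong (θ₀ s : D0.R →+* (s59e_adj 𝒪 (aM₀ s))) (hθ₀l s))) htype hresR θ₀ hν hθ₀ d
    (fun s => (rec s).Lv) qr φr σr hredT htfT hst hunrG

end Fermat.Agent.Lib.S59
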