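/-
PROGRAMME R2 = S59, node [PT-c2] (helper1, prefix `s59pt_`): **an eigenvector of `U_q` with eigenvalue `ε = ±1` is
`q`-new, as soon as `T_q b = ε(q+1) b ⟹ b = 0` at the lower level** ([RP] as an operator statement).

In helper8's package `s59t_Old R Y Z` (`Y` = level `L`, `Z` = level `L q`): if `U z = ε z`, `ε² = 1`, put `b = corB z`;
then `resA b = ε z + w z`, `resB b = w (resA b) = ε (resA b)`, hence `T b = corA (resB b) = ε (q+1) b`, so `b = 0`,
`w z = −ε z` and `corA z = −ε corB z = 0`.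
-/
import Mathlib
import Fermat.Agent.Lib.S59.TOld

set_option autoImplicit false
set_option linter.unusedSectionVars false
set_option linter.unusedVariables false

namespace Fermat.Agent.Lib.S59

variable {R : Type*} [CommRing R] {Y Z : Type*} [AddCommGroup Y] [Module R Y]
  [AddCommGroup Z] [Module R Z] (D : s59t_Old R Y Z)

/-- **`U z = ε z` ⟹ `z` is new and `w z = −ε z`.** -/
theorem s59pt_new_of_U_eigen (ε : R) (hε : ε * ε = 1) (z : Z) (hU : D.U z = ε • z)
    (hRP : ∀ b : Y, D.T b = (ε * (D.qq + 1)) • b → b = 0) :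
    D.corA z = 0 ∧ D.corB z = 0 ∧ D.w z = -(ε • z) := by
  have h1 : D.resA (D.corB z) = ε • z + D.w z := by rw [D.resA_corB, hU]
  have h2 : D.resB (D.corB z) = ε • D.resA (D.corB z) := by
    rw [D.resB_eq, h1, map_add, map_smul, D.w_w, smul_add, smul_smul, hε, one_smul, add_comm]
  have h3 : D.T (D.corB z) = (ε * (D.qq + 1)) • D.corB z := by
    rw [← D.corA_resB, h2, map_smul, D.corA_resA, smul_smul]
  have hb : D.corB z = 0 := hRP _ h3
  have hw : D.w z = -(ε • z) := by
    rw [hb, map_zero] at h1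
    exact eq_neg_of_add_eq_zero_right h1.symm
  refine ⟨?_, hb, hw⟩
  have h4 : D.corB z = -(ε • D.corA z) := by
    rw [D.corB_eq, hw, map_neg, map_smul]
  rw [hb] at h4
  have h5 : ε • D.corA z = 0 := by
    have := neg_eq_zero.mp h4.symm
    exact this
  have h6 : D.corA z = (ε * ε) • D.corA z := by rw [hε, one_smul]
  rw [h6, mul_smul, h5, smul_zero]

/-- **`(1 + ε w) ∘ resA` is injective** when `T b = −ε(q+1) b ⟹ b = 0`. -/
theorem s59pt_one_add_w_resA_inj (ε : R) (hε : ε * ε = 1)
    (hRP : ∀ b : Y, D.T b = (-(ε * (D.qq + 1))) • b → b = 0) :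
    Function.Injective ((LinearMap.id + ε • D.w) ∘ₗ D.resA) := by
  rw [← LinearMap.ker_eq_bot, LinearMap.ker_eq_bot']
  intro y hy
  rw [LinearMap.comp_apply, LinearMap.add_apply, LinearMap.id_apply, LinearMap.smul_apply] at hy
  have h1 := congrArg D.corA hy
  rw [map_add, map_smul, D.corA_resA, ← D.resB_eq, D.corA_resB, map_zero] at h1
  apply hRP
  have h2 : ε • ((D.qq + 1) • y + ε • D.T y) = 0 := by rw [h1, smul_zero]
  rw [smul_add, smul_smul, smul_smul, hε, one_smul] at h2
  rw [neg_smul]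
  exact eq_neg_of_add_eq_zero_right h2

/-- the image of `(1 + ε w) ∘ resA` lies in the `w = ε` part. -/
theorem s59pt_w_one_add_w (ε : R) (hε : ε * ε = 1) (z : Z) :
    D.w (z + ε • D.w z) = ε • (z + ε • D.w z) := by
  rw [map_add, map_smul, D.w_w, smul_add, smul_smul, hε, one_smul, add_comm]

/-- on the `w = ε` part, `corB = ε corA`, and the kernel of `corA` is new with `U = −ε`. -/
theorem s59pt_U_of_w_corA (ε : R) (z : Z) (hw : D.w z = ε • z) (hA : D.corA z = 0) :
    D.corB z = 0 ∧ D.U z = -(ε • z) := by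
  have hB : D.corB z = 0 := by rw [D.corB_eq, hw, map_smul, hA, smul_zero]
  refine ⟨hB, ?_⟩
  rw [D.U_eq, hB, map_zero, zero_sub, hw]

end Fermat.Agent.Lib.S59
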