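/-
PROGRAMME (R2) = S59 / [S35±] (sign of Frobenius at `r ∥ level` = `U_r`), part 8 (helper1, prefix `s59sw_`):
**[NEW-q±] IN FAMILY** — the SIGNED twin of helper4's `s59f_NEW_abs` (FNewFam2.lean), same binders, plus

* `tω : T` acting on `Z` as the Atkin–Lehner operator `w_r` (`hω`), and
* `tδ : T` acting on `Z` as the diamond `⟨r⟩^{(n-1)m}` (`hδ`; `τr ∈ Γ₀(L r)` with lower right entry `≡ r` mod `L`),

CONCLUSION: `tr ρT(σ_r) + tδ · tω · (r + 1) ∈ Iχ` for every Frobenius `σ_r` at `r` (signed NEW-WEIGHT contract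
`s59sw_NWSigned` as hypothesis `hNW`; discharged at `r = 2` by helper2's `s59b_NW_signed`).

* `s59sw_homBC_op`                       : operators natural in the coefficients pass through `s59e_homBC`;
* `s59sw_eigenclass_of_minimalPrime_abs` : `s59f_eigenclass_of_minimalPrime_abs` with the eigen-relation
                                           `(jT t) ⊗ 1 · v = x t • v` exposed;
* **`s59sw_NEW_abs`**                    : the signed family statement (general `r`, contract `hNW`);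
* `s59sw_usq_abs`                        : `(tδ tω)² − 1 ∈ Iχ` (from the signed and the unsigned statements);
* `s59sw_NEW_abs_sign`                   : `ε² = 1`, `ε − tδ tω` invertible mod `Iχ` ⟹ `tr ρT(σ_r) − ε (r + 1) ∈ Iχ`;
* **`s59sw_NEW_abs_two`, `s59sw_usq_abs_two`, `s59sw_NEW_abs_sign_two`** : `r = 2`, NO open hypothesis.
-/
import Mathlib
import Fermat.Agent.Lib.S59.FNewFam2
import Fermat.Agent.Lib.S59.GSwTwo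

set_option autoImplicit false
set_option linter.unusedSectionVars false
set_option linter.unusedVariables false
set_option linter.style.haveILetI false
set_option synthInstance.maxHeartbeats 400000
set_option maxHeartbeats 4000000

noncomputable section

namespace Fermat.Agent.Lib.S59

open Fermat.Agent.Lib.S29 Fermat.Agent.Lib.S30 Fermat.Agent.Lib.S48 Fermat.Agent.Lib.S41
open IsLocalRing TensorProduct Polynomial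
open CongruenceSubgroup ModularCurve.Period
open scoped MatrixGroups

local notation "Qbar" => AlgebraicClosure ℚ
local notation "GQ" => (AlgebraicClosure ℚ ≃ₐ[ℚ] AlgebraicClosure ℚ)

section Op

variable {𝒪 𝒪' : Type*} [CommRing 𝒪] [CommRing 𝒪'] [Algebra 𝒪 𝒪'] {G : Type*} [Group G]
  {Z : Type*} [AddCommGroup Z] [Module 𝒪 Z]

/-- an operator natural in the coefficients which acts on `emb Z` through `t` acts on `s59e_homBC emb` through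
`t ⊗ 1`. -/
theorem s59sw_homBC_op (emb : Z →ₗ[𝒪] (Additive G →+ 𝒪))
    (Ω : (Additive G →+ 𝒪) →+ (Additive G →+ 𝒪)) (Ω' : (Additive G →+ 𝒪') →+ (Additive G →+ 𝒪'))
    (hnat : ∀ χ, Ω' (s59e_post 𝒪 𝒪' G χ) = s59e_post 𝒪 𝒪' G (Ω χ))
    (hlin : ∀ (c : 𝒪') χ, Ω' (c • χ) = c • Ω' χ)
    (t : Module.End 𝒪 Z) (ht : ∀ z, Ω (emb z) = emb (t z)) (v : 𝒪' ⊗[𝒪] Z) :
    Ω' (s59e_homBC emb v) = s59e_homBC emb (t.baseChange 𝒪' v) := by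
  induction v using TensorProduct.induction_on with
  | zero => rw [map_zero, map_zero, map_zero, map_zero]
  | tmul c z =>
    rw [s59e_homBC_tmul, hlin, hnat, ht, LinearMap.baseChange_tmul, s59e_homBC_tmul]
  | add x y hx hy => rw [map_add, map_add, hx, hy, map_add, map_add]

end Op

section Concrete

variable {M : ℕ} [NeZero M] (H : Subgroup (ZMod M)ˣ)
  {𝒪 : Type} [CommRing 𝒪] [IsDomain 𝒪] [IsDiscreteValuationRing 𝒪]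
  [IsAdicComplete (maximalIdeal 𝒪) 𝒪] [Finite (ResidueField 𝒪)] [CharZero 𝒪]

/-- **the eigenclass attached to a minimal prime**, with the eigen-relation exposed. -/
theorem s59sw_eigenclass_of_minimalPrime_abs {n m : ℕ} (hnm : 2 * m = n + 1)
    (hn : ∀ u : (ZMod M)ˣ, u ^ n ∈ H)
    {Z : Type} [AddCommGroup Z] [Module 𝒪 Z] [Module.Finite 𝒪 Z] [Module.Free 𝒪 Z]
    (emb : Z →ₗ[𝒪] s48h_Hpar 𝒪 (s48h_GammaH M H) 𝒪) (hemb : Function.Injective emb)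
    (op : s59w_AIdx M → Module.End 𝒪 Z)
    (hop : ∀ j z, emb (op j z) = s59w_op H 𝒪 j (emb z))
    (T : Type) [CommRing T] [Algebra 𝒪 T] (jT : T →ₐ[𝒪] Module.End 𝒪 Z)
    (hjTg : ∀ t, jT t ∈ Algebra.adjoin 𝒪 (Set.range op))
    (𝔓 : Ideal T) (h𝔓 : 𝔓 ∈ (RingHom.ker jT).minimalPrimes) :
    ∃ (𝒪' : Type) (_ : CommRing 𝒪') (_ : IsDomain 𝒪') (_ : IsDiscreteValuationRing 𝒪')
      (_ : IsAdicComplete (maximalIdeal 𝒪') 𝒪') (_ : Finite (ResidueField 𝒪')) (_ : CharZero 𝒪')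
      (_ : Algebra 𝒪 𝒪') (_ : Module.Finite 𝒪 𝒪') (_ : IsLocalHom (algebraMap 𝒪 𝒪'))
      (x : T →ₐ[𝒪] 𝒪') (θ : (ZMod M)ˣ →* 𝒪'ˣ) (a : ℕ → 𝒪')
      (φ : Additive (s48h_GammaH M H) →+ 𝒪'),
      RingHom.ker x = 𝔓 ∧ φ ≠ 0 ∧ IsParabolicHom (s48h_GammaH M H) φ ∧
      (∀ d ∈ H, θ d = 1) ∧ (∀ d, θ d ^ n = 1) ∧
      (∀ (σ : SL(2, ℤ)) (hσ : σ ∈ Gamma0 M) (du : (ZMod M)ˣ),
        ((du : (ZMod M)ˣ) : ZMod M) = ((σ 1 1 : ℤ) : ZMod M) →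
        s48h_diamondH H σ hσ 𝒪' φ = (((θ du : 𝒪'ˣ) : 𝒪') ^ 2) • φ) ∧
      (∀ (ℓ : ℕ) [Fact ℓ.Prime] (hℓ : ¬ ℓ ∣ M) (σ : SL(2, ℤ)) (hσ : σ ∈ Gamma0 M)
        (hσ11 : ((σ 1 1 : ℤ) : ZMod M) = (ℓ : ZMod M)),
        s48h_TpH H hℓ σ hσ hσ11 𝒪' φ = a ℓ • φ) ∧
      (∀ (t : T) (i : s59w_TIdx M) (k : ℕ) (ℓu : (ZMod M)ˣ),
        ((ℓu : (ZMod M)ˣ) : ZMod M) = (i.ell : ZMod M) →
        jT t = op (Sum.inr (s59e_tau i k)) * op (Sum.inl i) →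
        x t = ((θ ℓu : 𝒪'ˣ) : 𝒪') ^ (2 * k) * a i.ell) ∧
      (∀ (t : T) (τ : Gamma0 M), jT t = op (Sum.inr τ) →
        x t = ((θ (s59w_lrUnit τ) : 𝒪'ˣ) : 𝒪') ^ 2) ∧
      ∃ v : 𝒪' ⊗[𝒪] Z, φ = s59e_homBC (𝒪' := 𝒪') (s59e_embH H emb) v ∧
        ∀ t : T, (jT t).baseChange 𝒪' v = x t • v := by
  classical
  -- the operators commute
  have hopc : ∀ i j, op i * op j = op j * op i := by
    intro i j
    refine LinearMap.ext fun z => hemb ?_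
    rw [Module.End.mul_apply, Module.End.mul_apply, hop, hop, hop, hop]
    exact LinearMap.congr_fun (s59w_op_comm H 𝒪 i j) (emb z)
  -- the faithful quotient
  set I : Ideal T := RingHom.ker jT with hI
  let jQ : (T ⧸ I) →ₐ[𝒪] Module.End 𝒪 Z := Ideal.Quotient.liftₐ I jT (fun t ht => ht)
  have hjQ : ∀ t : T, jQ (Ideal.Quotient.mk I t) = jT t := fun t => rfl
  have hjQinj : Function.Injective jQ := by
    rw [injective_iff_map_eq_zero]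
    intro z hz
    obtain ⟨t, rfl⟩ := Ideal.Quotient.mk_surjective z
    rw [hjQ] at hz
    exact Ideal.Quotient.eq_zero_iff_mem.mpr hz
  have hjQg : ∀ z, jQ z ∈ Algebra.adjoin 𝒪 (Set.range op) := by
    intro z
    obtain ⟨t, rfl⟩ := Ideal.Quotient.mk_surjective z
    rw [hjQ]
    exact hjTg t
  -- the minimal prime of the quotient
  rw [Ideal.minimalPrimes_eq_comap] at h𝔓
  obtain ⟨𝔭, h𝔭, rfl⟩ := h𝔓
  have hpt := s59e_point_family (𝒪 := 𝒪) (Z := Z) op hopc (T ⧸ I) jQ hjQinj hjQg 𝔭 h𝔭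
  obtain ⟨𝒪', i1, i2, i3, i4, i5, i6, i7, i8, i9, x', c, v, hx', hv0, hvc, hvT⟩ := hpt
  haveI : Module.Free 𝒪 𝒪' := s59e_free_of_finite_domain (𝒪 := 𝒪) 𝒪'
  have key0 := fun v hv0 c hvc =>
    s59f_eigenclass_of_joint H hnm hn (𝒪' := 𝒪') (Z := Z) emb hemb op hop v hv0 c hvc
  have key1 := key0 v
  have key2 := key1 hv0
  have key3 := key2 c
  obtain ⟨θ, a, φ, hφ0, hpar, hθH, hθn, hdia, heig, hprod, hpure, hφv⟩ := key3 hvc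
  refine ⟨𝒪', i1, i2, i3, i4, i5, i6, i7, i8, i9, x'.comp (Ideal.Quotient.mkₐ 𝒪 I), θ, a, φ, ?_,
    hφ0, hpar, hθH, hθn, hdia, heig, ?_, ?_, ⟨v, hφv, ?_⟩⟩
  · ext t
    rw [RingHom.mem_ker, Ideal.mem_comap, ← hx', RingHom.mem_ker]
    rfl
  · intro t i k ℓu hℓu hjt
    exact hprod (jT t) (x' (Ideal.Quotient.mk I t)) i k ℓu hℓu hjt (hvT (Ideal.Quotient.mk I t))
  · intro t τ hjt
    exact hpure (jT t) (x' (Ideal.Quotient.mk I t)) τ hjt (hvT (Ideal.Quotient.mk I t))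
  · intro t
    exact hvT (Ideal.Quotient.mk I t)

end Concrete

section NewFam

variable (p : ℕ) [hpP : Fact p.Prime] (N₁ : ℕ) [NeZero N₁] (r : ℕ) [NeZero r] [hr : Fact r.Prime]
  (Q : Finset ℕ)

/-- **[NEW-q±] in family** (signed twin of `s59f_NEW_abs`). -/
theorem s59sw_NEW_abs (hp2 : p ≠ 2) (hrp : r ≠ p) (hQ : ∀ q ∈ Q, q.Prime ∧ ¬ q ∣ N₁ * r)
    {L : ℕ} [NeZero L] (hL : L = N₁ * ∏ q ∈ Q, q) (hrL : ¬ r ∣ L)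
    (H : Subgroup (ZMod L)ˣ) (hD₁ : (∏ q ∈ Q, q) ∣ L)
    (hHker : s59u_ker L (∏ q ∈ Q, q) hD₁ ≤ H)
    (H' : Subgroup (ZMod (L * r))ˣ)
    (hH' : ∀ u : (ZMod (L * r))ˣ, u ∈ H' ↔ ZMod.unitsMap (dvd_mul_right L r) u ∈ H)
    {e m : ℕ} (hnm : 2 * m = p ^ e + 1) (hn : ∀ u : (ZMod (L * r))ˣ, u ^ (p ^ e) ∈ H')
    (𝒪 : Type) [CommRing 𝒪] [IsDomain 𝒪] [IsDiscreteValuationRing 𝒪]
    [IsAdicComplete (maximalIdeal 𝒪) 𝒪] [Finite (ResidueField 𝒪)] [CharZero 𝒪] [Algebra ℤ_[p] 𝒪]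
    (hp𝒪 : (p : 𝒪) ∈ maximalIdeal 𝒪)
    (S : Finset ℕ) (hpS : p ∈ S) (hMS : ∀ q : ℕ, q.Prime → q ∣ L * r → q ∈ S)
    -- the module
    {Z : Type} [AddCommGroup Z] [Module 𝒪 Z] [Module.Finite 𝒪 Z] [Module.Free 𝒪 Z]
    [NeZero (L * r)]
    (emb : Z →ₗ[𝒪] s48h_Hpar 𝒪 (s48h_GammaH (L * r) H') 𝒪) (hemb : Function.Injective emb)
    (op : s59w_AIdx (L * r) → Module.End 𝒪 Z)
    (hop : ∀ j z, emb (op j z) = s59w_op H' 𝒪 j (emb z))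
    -- kernel-newness
    (hnewA : ∀ z, s59f_corH hrL (s59f_isG_GammaH L H)
      (s59f_isG'_GammaH hrL rfl (dvd_mul_right L r) hH') 𝒪
      ((emb z : s48h_Hpar 𝒪 (s48h_GammaH (L * r) H') 𝒪) :
        Additive (s48h_GammaH (L * r) H') →+ 𝒪) = 0)
    (hnewB : ∀ z, s59f_corH hrL (s59f_isG_GammaH L H)
      (s59f_isG'_GammaH hrL rfl (dvd_mul_right L r) hH') 𝒪
      (s59f_wH hrL (s59f_isG'_GammaH hrL rfl (dvd_mul_right L r) hH') 𝒪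
        ((emb z : s48h_Hpar 𝒪 (s48h_GammaH (L * r) H') 𝒪) :
          Additive (s48h_GammaH (L * r) H') →+ 𝒪)) = 0)
    -- the rings
    (T' : Type) [CommRing T'] [IsLocalRing T'] [Algebra 𝒪 T']
    (T : Type) [CommRing T] [Algebra 𝒪 T] [Algebra T' T] [IsScalarTower 𝒪 T' T]
    (jT : T →ₐ[𝒪] Module.End 𝒪 Z)
    (hjTg : ∀ t, jT t ∈ Algebra.adjoin 𝒪 (Set.range op))
    (Iχ : Ideal T) (hIχ : ∀ t, t ∈ Iχ ↔ jT t = 0) (hrad : Iχ.IsRadical)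
    -- the Atkin–Lehner operator and the diamond `⟨r⟩^{(n-1)m}` in `T`
    (tω : T)
    (hω : ∀ z, s59f_wH hrL (s59f_isG'_GammaH hrL rfl (dvd_mul_right L r) hH') 𝒪
        ((emb z : s48h_Hpar 𝒪 (s48h_GammaH (L * r) H') 𝒪) :
          Additive (s48h_GammaH (L * r) H') →+ 𝒪) =
      ((emb (jT tω z) : s48h_Hpar 𝒪 (s48h_GammaH (L * r) H') 𝒪) :
          Additive (s48h_GammaH (L * r) H') →+ 𝒪))
    (τr : Gamma0 (L * r))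
    (hτr : ((ZMod.unitsMap (dvd_mul_right L r) (s59w_lrUnit τr) : (ZMod L)ˣ) : ZMod L) =
      ((r : ℕ) : ZMod L))
    (tδ : T) (hδ : jT tδ = op (Sum.inr (τr ^ ((p ^ e - 1) * m))))
    -- the Galois representation over `T'`
    (ρT : GaloisRepAdic T') (tr : ℕ → T')
    (htr : ∀ i : s59w_TIdx (L * r), i.ell ∉ S → jT (algebraMap T' T (tr i.ell)) =
      op (Sum.inr (s59e_tau i ((p ^ e - 1) * m))) * op (Sum.inl i))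
    (hfrob : ∀ ℓ : ℕ, ℓ.Prime → ℓ ∉ S → ∀ P' : ValuationSubring Qbar, P'.LiesOverPrime ℓ →
      ∀ σ : GQ, P'.IsFrobeniusAt σ ℓ →
        LinearMap.charpoly (ρT.ρ σ) = X ^ 2 - C (tr ℓ) * X + C (ℓ : T'))
    (A : ValuationSubring Qbar) (hA : A.LiesOverPrime r) (σ : GQ) (hσ : A.IsFrobeniusAt σ r)
    (hNW : ∀ (M' : ℕ) [NeZero M'] (hrM : ¬ r ∣ M') (n : ℕ),
      s59sw_NWSigned M' r hr.out hrM (p ^ n) σ) :
    algebraMap T' T (LinearMap.trace T' ρT.V (ρT.ρ σ)) + tδ * tω * ((r : T) + 1) ∈ Iχ := by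
  classical
  have hIeq : Iχ = RingHom.ker jT := Ideal.ext fun t => by rw [hIχ, RingHom.mem_ker]
  subst hIeq
  have hn0 : 0 < p ^ e := pow_pos hpP.out.pos e
  refine s59m_mem_of_minimalPrimes _ hrad _ fun 𝔓 h𝔓 => ?_
  -- the point
  obtain ⟨𝒪', i1, i2, i3, i4, i5, i6, i7, i8, i9, x, θ, a, φ, hker, hφ0, hpar, hθH, hθn, hdia, heig,
    hprod, hpure, v, hφv, hvT⟩ :=
    s59sw_eigenclass_of_minimalPrime_abs H' hnm hn emb hemb op hop T jT hjTg 𝔓 h𝔓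
  letI : Algebra ℤ_[p] 𝒪' := ((algebraMap 𝒪 𝒪').comp (algebraMap ℤ_[p] 𝒪)).toAlgebra
  haveI : IsScalarTower ℤ_[p] 𝒪 𝒪' := IsScalarTower.of_algebraMap_eq fun _ => rfl
  have hp𝒪' : (p : 𝒪') ∈ maximalIdeal 𝒪' := by
    have h1 := map_nonunit (algebraMap 𝒪 𝒪') _ hp𝒪
    rwa [map_natCast] at h1
  -- `θ ^ (2k) = θ⁻¹`
  have hθinv : ∀ d, ((θ d : 𝒪'ˣ) : 𝒪') ^ (2 * ((p ^ e - 1) * m)) = (((θ d)⁻¹ : 𝒪'ˣ) : 𝒪') := by
    intro d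
    rw [← Units.val_pow_eq_pow_val]
    congr 1
    refine eq_inv_of_mul_eq_one_left ?_
    rw [← pow_succ, s59m_exp_aux hn0 hnm, pow_mul, hθn, one_pow]
  -- the point of `T'`
  let y : T' →ₐ[𝒪] 𝒪' := x.comp (IsScalarTower.toAlgHom 𝒪 T' T)
  have hy : IsLocalHom (y : T' →+* 𝒪') := s59e_isLocalHom_of_finite T' 𝒪' y
  have hyx : ∀ t : T', y t = x (algebraMap T' T t) := fun t => rfl
  have hℓM : ∀ ℓ : ℕ, ℓ.Prime → ℓ ∉ S → ¬ ℓ ∣ L * r := fun ℓ hℓ hℓS hd => hℓS (hMS ℓ hℓ hd)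
  have hytr : ∀ ℓ : ℕ, ℓ.Prime → ℓ ∉ S → ∀ ℓu : (ZMod (L * r))ˣ,
      ((ℓu : (ZMod (L * r))ˣ) : ZMod (L * r)) = (ℓ : ZMod (L * r)) →
      y (tr ℓ) = (((θ ℓu)⁻¹ : 𝒪'ˣ) : 𝒪') * a ℓ := by
    intro ℓ hℓ hℓS ℓu hℓu
    let i : s59w_TIdx (L * r) := ⟨ℓ, hℓ, hℓM ℓ hℓ hℓS, (s59w_sig ℓu : SL(2, ℤ)), (s59w_sig ℓu).2, by
      rw [← s59w_lrUnit_coe, s59w_sig_spec, hℓu]⟩
    have h1 := hprod (algebraMap T' T (tr ℓ)) i ((p ^ e - 1) * m) ℓu hℓu (htr i hℓS)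
    rw [hyx, h1, hθinv]
  -- the representation at the point
  set ρ : GaloisRepAdic 𝒪' := ρT.baseChangeAlong (y : T' →+* 𝒪') hy with hρdef
  have hρ : ∀ ℓ : ℕ, ℓ.Prime → ℓ ∉ S → ∀ ℓu : (ZMod (L * r))ˣ,
      ((ℓu : (ZMod (L * r))ˣ) : ZMod (L * r)) = (ℓ : ZMod (L * r)) →
      ∀ P' : ValuationSubring Qbar, P'.LiesOverPrime ℓ → ∀ τ : GQ, P'.IsFrobeniusAt τ ℓ →
        (ρ.ρ τ).charpoly = X ^ 2 - C ((((θ ℓu)⁻¹ : 𝒪'ˣ) : 𝒪') * a ℓ) * X + C (ℓ : 𝒪') := by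
    intro ℓ hℓ hℓS ℓu hℓu P' hP' τ hτ
    rw [hρdef, s59e_bc_charpoly, hfrob ℓ hℓ hℓS P' hP' τ hτ, ← hytr ℓ hℓ hℓS ℓu hℓu]
    simp only [Polynomial.map_add, Polynomial.map_sub, Polynomial.map_mul, Polynomial.map_pow,
      Polynomial.map_X, Polynomial.map_C, map_natCast, Polynomial.map_natCast]
    rfl
  -- the roots of unity
  have hθμ : ∀ d, θ d ∈ s59b_muP p 𝒪' := fun d => ⟨e, hθn d⟩
  -- kernel-newness of `φ`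
  have hG := s59f_isG_GammaH L H
  have hG' := s59f_isG'_GammaH hrL rfl (dvd_mul_right L r) hH'
  have hnatA : ∀ χ : Additive (s48h_GammaH (L * r) H') →+ 𝒪,
      s59f_corH hrL hG hG' 𝒪' (s59e_post 𝒪 𝒪' _ χ) =
        s59e_post 𝒪 𝒪' _ (s59f_corH hrL hG hG' 𝒪 χ) := fun χ =>
    (s59f_famCorA hrL hG hG').op_natural (algebraMap 𝒪 𝒪' : 𝒪 →+ 𝒪') χ
  have hlinA : ∀ (c : 𝒪') (χ : Additive (s48h_GammaH (L * r) H') →+ 𝒪'),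
      s59f_corH hrL hG hG' 𝒪' (c • χ) = c • s59f_corH hrL hG hG' 𝒪' χ := fun c χ =>
    s59f_op_smul (s59f_famCorA hrL hG hG') c χ
  have hnatW : ∀ χ : Additive (s48h_GammaH (L * r) H') →+ 𝒪,
      s59f_wH hrL hG' 𝒪' (s59e_post 𝒪 𝒪' _ χ) = s59e_post 𝒪 𝒪' _ (s59f_wH hrL hG' 𝒪 χ) := fun χ =>
    s48h_MatDatum.heckeHom_comp _ (algebraMap 𝒪 𝒪' : 𝒪 →+ 𝒪') χ
  have hlinW : ∀ (c : 𝒪') (χ : Additive (s48h_GammaH (L * r) H') →+ 𝒪'),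
      s59f_wH hrL hG' 𝒪' (c • χ) = c • s59f_wH hrL hG' 𝒪' χ := fun c χ =>
    s48h_MatDatum.heckeHom_smul _ c χ
  have hφA : s59f_corH hrL hG hG' 𝒪' φ = 0 := by
    rw [hφv]
    exact s59f_homBC_kill (s59e_embH H' emb) (s59f_corH hrL hG hG' 𝒪) (s59f_corH hrL hG hG' 𝒪')
      hnatA hlinA (fun z => hnewA z) v
  have hφB : s59f_corH hrL hG hG' 𝒪' (s59f_wH hrL hG' 𝒪' φ) = 0 := by
    rw [hφv]
    exact s59f_homBC_kill (s59e_embH H' emb)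
      ((s59f_corH hrL hG hG' 𝒪).comp (s59f_wH hrL hG' 𝒪))
      ((s59f_corH hrL hG hG' 𝒪').comp (s59f_wH hrL hG' 𝒪'))
      (fun χ => by
        rw [AddMonoidHom.comp_apply, AddMonoidHom.comp_apply, hnatW, hnatA])
      (fun c χ => by
        rw [AddMonoidHom.comp_apply, AddMonoidHom.comp_apply, hlinW, hlinA])
      (fun z => hnewB z) v
  -- the Atkin–Lehner eigenvalue of `φ`
  have hφW : s59f_wH hrL hG' 𝒪' φ = x tω • φ := by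
    rw [hφv, s59sw_homBC_op (s59e_embH H' emb) (s59f_wH hrL hG' 𝒪) (s59f_wH hrL hG' 𝒪')
      hnatW hlinW (jT tω) (fun z => hω z) v, hvT tω, map_smul]
  -- the diamond factor
  have hxδ : x tδ = (((θ (s59w_lrUnit τr))⁻¹ : 𝒪'ˣ) : 𝒪') := by
    have h1 : s59w_lrUnit (τr ^ ((p ^ e - 1) * m)) = s59w_lrUnit τr ^ ((p ^ e - 1) * m) :=
      map_pow (s59w_lrHom (M := L * r)) τr _
    rw [hpure tδ _ hδ, h1, map_pow, Units.val_pow_eq_pow_val, ← pow_mul,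
      mul_comm ((p ^ e - 1) * m) 2, hθinv]
  -- [NEW-q±] at the point
  have key := s59sw_NEWpt p N₁ r Q hrp hQ hL hrL H hD₁ hHker H' hH' 𝒪' hp𝒪' θ hθH (s59b_muP p 𝒪')
    (s59b_muP_sq p 𝒪' hpP.out hp2) hθμ a φ hφ0 hpar hdia heig hφA hφB (x tω) hφW
    (s59w_lrUnit τr) hτr S hpS hMS ρ hρ A hA σ hσ hNW
  have htrace := s59f_trace_of_charpoly ρ σ _ _ key
  rw [hρdef, s59e_bc_trace] at htrace
  -- the values of the point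
  rw [← hker, RingHom.mem_ker, map_add, map_mul, map_mul, map_add, map_one, map_natCast, ← hyx,
    hxδ]
  show y (LinearMap.trace T' ρT.V (ρT.ρ σ)) + _ = 0
  rw [show ((y : T' →+* 𝒪') (LinearMap.trace T' ρT.V (ρT.ρ σ))) =
    y (LinearMap.trace T' ρT.V (ρT.ρ σ)) from rfl] at htrace
  rw [htrace]
  ring

/-- **`(tδ tω)² = 1` on `Z`**: the normalised Atkin–Lehner operator `⟨r⟩^{(n-1)m} w_r` is an involution on the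
kernel-new part (from the signed and the unsigned statements; `r + 1 ≠ 0` in `𝒪`). -/
theorem s59sw_usq_abs (hp2 : p ≠ 2) (hrp : r ≠ p) (hQ : ∀ q ∈ Q, q.Prime ∧ ¬ q ∣ N₁ * r)
    {L : ℕ} [NeZero L] (hL : L = N₁ * ∏ q ∈ Q, q) (hrL : ¬ r ∣ L)
    (H : Subgroup (ZMod L)ˣ) (hD₁ : (∏ q ∈ Q, q) ∣ L)
    (hHker : s59u_ker L (∏ q ∈ Q, q) hD₁ ≤ H)
    (H' : Subgroup (ZMod (L * r))ˣ)
    (hH' : ∀ u : (ZMod (L * r))ˣ, u ∈ H' ↔ ZMod.unitsMap (dvd_mul_right L r) u ∈ H)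
    {e m : ℕ} (hnm : 2 * m = p ^ e + 1) (hn : ∀ u : (ZMod (L * r))ˣ, u ^ (p ^ e) ∈ H')
    (𝒪 : Type) [CommRing 𝒪] [IsDomain 𝒪] [IsDiscreteValuationRing 𝒪]
    [IsAdicComplete (maximalIdeal 𝒪) 𝒪] [Finite (ResidueField 𝒪)] [CharZero 𝒪] [Algebra ℤ_[p] 𝒪]
    (hp𝒪 : (p : 𝒪) ∈ maximalIdeal 𝒪)
    (S : Finset ℕ) (hpS : p ∈ S) (hMS : ∀ q : ℕ, q.Prime → q ∣ L * r → q ∈ S)
    {Z : Type} [AddCommGroup Z] [Module 𝒪 Z] [Module.Finite 𝒪 Z] [Module.Free 𝒪 Z]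
    [NeZero (L * r)]
    (emb : Z →ₗ[𝒪] s48h_Hpar 𝒪 (s48h_GammaH (L * r) H') 𝒪) (hemb : Function.Injective emb)
    (op : s59w_AIdx (L * r) → Module.End 𝒪 Z)
    (hop : ∀ j z, emb (op j z) = s59w_op H' 𝒪 j (emb z))
    (hnewA : ∀ z, s59f_corH hrL (s59f_isG_GammaH L H)
      (s59f_isG'_GammaH hrL rfl (dvd_mul_right L r) hH') 𝒪
      ((emb z : s48h_Hpar 𝒪 (s48h_GammaH (L * r) H') 𝒪) :
        Additive (s48h_GammaH (L * r) H') →+ 𝒪) = 0)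
    (hnewB : ∀ z, s59f_corH hrL (s59f_isG_GammaH L H)
      (s59f_isG'_GammaH hrL rfl (dvd_mul_right L r) hH') 𝒪
      (s59f_wH hrL (s59f_isG'_GammaH hrL rfl (dvd_mul_right L r) hH') 𝒪
        ((emb z : s48h_Hpar 𝒪 (s48h_GammaH (L * r) H') 𝒪) :
          Additive (s48h_GammaH (L * r) H') →+ 𝒪)) = 0)
    (T' : Type) [CommRing T'] [IsLocalRing T'] [Algebra 𝒪 T']
    (T : Type) [CommRing T] [Algebra 𝒪 T] [Algebra T' T] [IsScalarTower 𝒪 T' T]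
    (jT : T →ₐ[𝒪] Module.End 𝒪 Z)
    (hjTg : ∀ t, jT t ∈ Algebra.adjoin 𝒪 (Set.range op))
    (Iχ : Ideal T) (hIχ : ∀ t, t ∈ Iχ ↔ jT t = 0) (hrad : Iχ.IsRadical)
    (tω : T)
    (hω : ∀ z, s59f_wH hrL (s59f_isG'_GammaH hrL rfl (dvd_mul_right L r) hH') 𝒪
        ((emb z : s48h_Hpar 𝒪 (s48h_GammaH (L * r) H') 𝒪) :
          Additive (s48h_GammaH (L * r) H') →+ 𝒪) =
      ((emb (jT tω z) : s48h_Hpar 𝒪 (s48h_GammaH (L * r) H') 𝒪) :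
          Additive (s48h_GammaH (L * r) H') →+ 𝒪))
    (τr : Gamma0 (L * r))
    (hτr : ((ZMod.unitsMap (dvd_mul_right L r) (s59w_lrUnit τr) : (ZMod L)ˣ) : ZMod L) =
      ((r : ℕ) : ZMod L))
    (tδ : T) (hδ : jT tδ = op (Sum.inr (τr ^ ((p ^ e - 1) * m))))
    (ρT : GaloisRepAdic T') (tr : ℕ → T')
    (htr : ∀ i : s59w_TIdx (L * r), i.ell ∉ S → jT (algebraMap T' T (tr i.ell)) =
      op (Sum.inr (s59e_tau i ((p ^ e - 1) * m))) * op (Sum.inl i))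
    (hfrob : ∀ ℓ : ℕ, ℓ.Prime → ℓ ∉ S → ∀ P' : ValuationSubring Qbar, P'.LiesOverPrime ℓ →
      ∀ σ : GQ, P'.IsFrobeniusAt σ ℓ →
        LinearMap.charpoly (ρT.ρ σ) = X ^ 2 - C (tr ℓ) * X + C (ℓ : T'))
    (A : ValuationSubring Qbar) (hA : A.LiesOverPrime r) (σ : GQ) (hσ : A.IsFrobeniusAt σ r)
    (hNW : ∀ (M' : ℕ) [NeZero M'] (hrM : ¬ r ∣ M') (n : ℕ),
      s59sw_NWSigned M' r hr.out hrM (p ^ n) σ) :
    (tδ * tω) ^ 2 - 1 ∈ Iχ := by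
  have h1 := s59f_NEW_abs p N₁ r Q hp2 hrp hQ hL hrL H hD₁ hHker H' hH' hnm hn 𝒪 hp𝒪 S hpS hMS emb hemb op hop hnewA hnewB T' T jT hjTg Iχ hIχ hrad ρT tr htr hfrob A hA σ hσ
  have h2 := s59sw_NEW_abs p N₁ r Q hp2 hrp hQ hL hrL H hD₁ hHker H' hH' hnm hn 𝒪 hp𝒪 S hpS hMS emb hemb op hop hnewA hnewB T' T jT hjTg Iχ hIχ hrad tω hω τr hτr tδ hδ ρT tr htr hfrob A hA σ hσ hNW
  set t0 : T := algebraMap T' T (LinearMap.trace T' ρT.V (ρT.ρ σ)) with ht0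
  set u : T := tδ * tω with hu
  have h3 : ((r : T) + 1) ^ 2 * (1 - u ^ 2) ∈ Iχ := by
    have h4 : ((r : T) + 1) ^ 2 * (1 - u ^ 2) =
        (((r : T) + 1) ^ 2 - t0 ^ 2) + (t0 + u * ((r : T) + 1)) * (t0 - u * ((r : T) + 1)) := by
      ring
    rw [h4]
    exact Iχ.add_mem h1 (Iχ.mul_mem_right _ h2)
  rw [hIχ] at h3 ⊢
  have h5 : ((r : T) + 1) ^ 2 = algebraMap 𝒪 T (((r : 𝒪) + 1) ^ 2) := by
    rw [map_pow, map_add, map_one, map_natCast]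
  rw [h5, map_mul, AlgHom.commutes, Algebra.algebraMap_eq_smul_one, smul_mul_assoc, one_mul] at h3
  have hr0 : (((r : 𝒪) + 1) ^ 2) ≠ 0 := by
    apply pow_ne_zero
    have : ((r + 1 : ℕ) : 𝒪) ≠ 0 := Nat.cast_ne_zero.mpr (Nat.succ_ne_zero r)
    rwa [Nat.cast_add, Nat.cast_one] at this
  have h6 : jT (1 - u ^ 2) = 0 := by
    refine LinearMap.ext fun z => ?_
    have h7 := LinearMap.congr_fun h3 z
    rw [LinearMap.smul_apply, LinearMap.zero_apply] at h7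
    rw [LinearMap.zero_apply]
    exact (smul_eq_zero.mp h7).resolve_left hr0
  have h8 : u ^ 2 - 1 = -(1 - u ^ 2) := by ring
  rw [h8, map_neg, h6, neg_zero]

/-- **[NEW-q±] in family, with a fixed sign**: if `ε² = 1` and `ε − tδ tω` is invertible modulo `Iχ` (e.g. `T`
local, `tδ tω ≡ −ε` modulo the maximal ideal, residue characteristic `≠ 2`), then `tr ρT(σ_r) = ε (r + 1)` on `Z`. -/
theorem s59sw_NEW_abs_sign (hp2 : p ≠ 2) (hrp : r ≠ p) (hQ : ∀ q ∈ Q, q.Prime ∧ ¬ q ∣ N₁ * r)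
    {L : ℕ} [NeZero L] (hL : L = N₁ * ∏ q ∈ Q, q) (hrL : ¬ r ∣ L)
    (H : Subgroup (ZMod L)ˣ) (hD₁ : (∏ q ∈ Q, q) ∣ L)
    (hHker : s59u_ker L (∏ q ∈ Q, q) hD₁ ≤ H)
    (H' : Subgroup (ZMod (L * r))ˣ)
    (hH' : ∀ u : (ZMod (L * r))ˣ, u ∈ H' ↔ ZMod.unitsMap (dvd_mul_right L r) u ∈ H)
    {e m : ℕ} (hnm : 2 * m = p ^ e + 1) (hn : ∀ u : (ZMod (L * r))ˣ, u ^ (p ^ e) ∈ H')
    (𝒪 : Type) [CommRing 𝒪] [IsDomain 𝒪] [IsDiscreteValuationRing 𝒪]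
    [IsAdicComplete (maximalIdeal 𝒪) 𝒪] [Finite (ResidueField 𝒪)] [CharZero 𝒪] [Algebra ℤ_[p] 𝒪]
    (hp𝒪 : (p : 𝒪) ∈ maximalIdeal 𝒪)
    (S : Finset ℕ) (hpS : p ∈ S) (hMS : ∀ q : ℕ, q.Prime → q ∣ L * r → q ∈ S)
    {Z : Type} [AddCommGroup Z] [Module 𝒪 Z] [Module.Finite 𝒪 Z] [Module.Free 𝒪 Z]
    [NeZero (L * r)]
    (emb : Z →ₗ[𝒪] s48h_Hpar 𝒪 (s48h_GammaH (L * r) H') 𝒪) (hemb : Function.Injective emb)
    (op : s59w_AIdx (L * r) → Module.End 𝒪 Z)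
    (hop : ∀ j z, emb (op j z) = s59w_op H' 𝒪 j (emb z))
    (hnewA : ∀ z, s59f_corH hrL (s59f_isG_GammaH L H)
      (s59f_isG'_GammaH hrL rfl (dvd_mul_right L r) hH') 𝒪
      ((emb z : s48h_Hpar 𝒪 (s48h_GammaH (L * r) H') 𝒪) :
        Additive (s48h_GammaH (L * r) H') →+ 𝒪) = 0)
    (hnewB : ∀ z, s59f_corH hrL (s59f_isG_GammaH L H)
      (s59f_isG'_GammaH hrL rfl (dvd_mul_right L r) hH') 𝒪
      (s59f_wH hrL (s59f_isG'_GammaH hrL rfl (dvd_mul_right L r) hH') 𝒪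
        ((emb z : s48h_Hpar 𝒪 (s48h_GammaH (L * r) H') 𝒪) :
          Additive (s48h_GammaH (L * r) H') →+ 𝒪)) = 0)
    (T' : Type) [CommRing T'] [IsLocalRing T'] [Algebra 𝒪 T']
    (T : Type) [CommRing T] [Algebra 𝒪 T] [Algebra T' T] [IsScalarTower 𝒪 T' T]
    (jT : T →ₐ[𝒪] Module.End 𝒪 Z)
    (hjTg : ∀ t, jT t ∈ Algebra.adjoin 𝒪 (Set.range op))
    (Iχ : Ideal T) (hIχ : ∀ t, t ∈ Iχ ↔ jT t = 0) (hrad : Iχ.IsRadical)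
    (tω : T)
    (hω : ∀ z, s59f_wH hrL (s59f_isG'_GammaH hrL rfl (dvd_mul_right L r) hH') 𝒪
        ((emb z : s48h_Hpar 𝒪 (s48h_GammaH (L * r) H') 𝒪) :
          Additive (s48h_GammaH (L * r) H') →+ 𝒪) =
      ((emb (jT tω z) : s48h_Hpar 𝒪 (s48h_GammaH (L * r) H') 𝒪) :
          Additive (s48h_GammaH (L * r) H') →+ 𝒪))
    (τr : Gamma0 (L * r))
    (hτr : ((ZMod.unitsMap (dvd_mul_right L r) (s59w_lrUnit τr) : (ZMod L)ˣ) : ZMod L) =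
      ((r : ℕ) : ZMod L))
    (tδ : T) (hδ : jT tδ = op (Sum.inr (τr ^ ((p ^ e - 1) * m))))
    (ρT : GaloisRepAdic T') (tr : ℕ → T')
    (htr : ∀ i : s59w_TIdx (L * r), i.ell ∉ S → jT (algebraMap T' T (tr i.ell)) =
      op (Sum.inr (s59e_tau i ((p ^ e - 1) * m))) * op (Sum.inl i))
    (hfrob : ∀ ℓ : ℕ, ℓ.Prime → ℓ ∉ S → ∀ P' : ValuationSubring Qbar, P'.LiesOverPrime ℓ →
      ∀ σ : GQ, P'.IsFrobeniusAt σ ℓ →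
        LinearMap.charpoly (ρT.ρ σ) = X ^ 2 - C (tr ℓ) * X + C (ℓ : T'))
    (A : ValuationSubring Qbar) (hA : A.LiesOverPrime r) (σ : GQ) (hσ : A.IsFrobeniusAt σ r)
    (hNW : ∀ (M' : ℕ) [NeZero M'] (hrM : ¬ r ∣ M') (n : ℕ),
      s59sw_NWSigned M' r hr.out hrM (p ^ n) σ)
    (ε : T) (hε : ε ^ 2 = 1) (hunit : ∃ t : T, t * (ε - tδ * tω) - 1 ∈ Iχ) :
    algebraMap T' T (LinearMap.trace T' ρT.V (ρT.ρ σ)) - ε * ((r : T) + 1) ∈ Iχ := by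
  have h1 := s59sw_usq_abs p N₁ r Q hp2 hrp hQ hL hrL H hD₁ hHker H' hH' hnm hn 𝒪 hp𝒪 S hpS hMS emb hemb op hop hnewA hnewB T' T jT hjTg Iχ hIχ hrad tω hω τr hτr tδ hδ ρT tr htr hfrob A hA σ hσ hNW
  have h2 := s59sw_NEW_abs p N₁ r Q hp2 hrp hQ hL hrL H hD₁ hHker H' hH' hnm hn 𝒪 hp𝒪 S hpS hMS emb hemb op hop hnewA hnewB T' T jT hjTg Iχ hIχ hrad tω hω τr hτr tδ hδ ρT tr htr hfrob A hA σ hσ hNW
  obtain ⟨t, ht⟩ := hunit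
  set t0 : T := algebraMap T' T (LinearMap.trace T' ρT.V (ρT.ρ σ)) with ht0
  set u : T := tδ * tω with hu
  have h3 : u + ε ∈ Iχ := by
    have h4 : u + ε = -(u + ε) * (t * (ε - u) - 1) + -t * (u ^ 2 - 1) := by
      linear_combination t * hε
    rw [h4]
    exact Iχ.add_mem (Iχ.mul_mem_left _ ht) (Iχ.mul_mem_left _ h1)
  have h5 : t0 - ε * ((r : T) + 1) = (t0 + u * ((r : T) + 1)) + -((r : T) + 1) * (u + ε) := by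
    ring
  rw [h5]
  exact Iχ.add_mem h2 (Iχ.mul_mem_left _ h3)

end NewFam

section Two

variable (p : ℕ) [hpP : Fact p.Prime] (N₁ : ℕ) [NeZero N₁] (Q : Finset ℕ)

/-- **[NEW-2±] in family**: no open hypothesis. -/
theorem s59sw_NEW_abs_two (hp2 : p ≠ 2) (hQ : ∀ q ∈ Q, q.Prime ∧ ¬ q ∣ N₁ * 2)
    {L : ℕ} [NeZero L] (hL : L = N₁ * ∏ q ∈ Q, q) (hrL : ¬ 2 ∣ L)
    (H : Subgroup (ZMod L)ˣ) (hD₁ : (∏ q ∈ Q, q) ∣ L)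
    (hHker : s59u_ker L (∏ q ∈ Q, q) hD₁ ≤ H)
    (H' : Subgroup (ZMod (L * 2))ˣ)
    (hH' : ∀ u : (ZMod (L * 2))ˣ, u ∈ H' ↔ ZMod.unitsMap (dvd_mul_right L 2) u ∈ H)
    {e m : ℕ} (hnm : 2 * m = p ^ e + 1) (hn : ∀ u : (ZMod (L * 2))ˣ, u ^ (p ^ e) ∈ H')
    (𝒪 : Type) [CommRing 𝒪] [IsDomain 𝒪] [IsDiscreteValuationRing 𝒪]
    [IsAdicComplete (maximalIdeal 𝒪) 𝒪] [Finite (ResidueField 𝒪)] [CharZero 𝒪] [Algebra ℤ_[p] 𝒪]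
    (hp𝒪 : (p : 𝒪) ∈ maximalIdeal 𝒪)
    (S : Finset ℕ) (hpS : p ∈ S) (hMS : ∀ q : ℕ, q.Prime → q ∣ L * 2 → q ∈ S)
    {Z : Type} [AddCommGroup Z] [Module 𝒪 Z] [Module.Finite 𝒪 Z] [Module.Free 𝒪 Z]
    [NeZero (L * 2)]
    (emb : Z →ₗ[𝒪] s48h_Hpar 𝒪 (s48h_GammaH (L * 2) H') 𝒪) (hemb : Function.Injective emb)
    (op : s59w_AIdx (L * 2) → Module.End 𝒪 Z)
    (hop : ∀ j z, emb (op j z) = s59w_op H' 𝒪 j (emb z))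
    (hnewA : ∀ z, s59f_corH hrL (s59f_isG_GammaH L H)
      (s59f_isG'_GammaH hrL rfl (dvd_mul_right L 2) hH') 𝒪
      ((emb z : s48h_Hpar 𝒪 (s48h_GammaH (L * 2) H') 𝒪) :
        Additive (s48h_GammaH (L * 2) H') →+ 𝒪) = 0)
    (hnewB : ∀ z, s59f_corH hrL (s59f_isG_GammaH L H)
      (s59f_isG'_GammaH hrL rfl (dvd_mul_right L 2) hH') 𝒪
      (s59f_wH hrL (s59f_isG'_GammaH hrL rfl (dvd_mul_right L 2) hH') 𝒪
        ((emb z : s48h_Hpar 𝒪 (s48h_GammaH (L * 2) H') 𝒪) :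
          Additive (s48h_GammaH (L * 2) H') →+ 𝒪)) = 0)
    (T' : Type) [CommRing T'] [IsLocalRing T'] [Algebra 𝒪 T']
    (T : Type) [CommRing T] [Algebra 𝒪 T] [Algebra T' T] [IsScalarTower 𝒪 T' T]
    (jT : T →ₐ[𝒪] Module.End 𝒪 Z)
    (hjTg : ∀ t, jT t ∈ Algebra.adjoin 𝒪 (Set.range op))
    (Iχ : Ideal T) (hIχ : ∀ t, t ∈ Iχ ↔ jT t = 0) (hrad : Iχ.IsRadical)
    (tω : T)
    (hω : ∀ z, s59f_wH hrL (s59f_isG'_GammaH hrL rfl (dvd_mul_right L 2) hH') 𝒪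
        ((emb z : s48h_Hpar 𝒪 (s48h_GammaH (L * 2) H') 𝒪) :
          Additive (s48h_GammaH (L * 2) H') →+ 𝒪) =
      ((emb (jT tω z) : s48h_Hpar 𝒪 (s48h_GammaH (L * 2) H') 𝒪) :
          Additive (s48h_GammaH (L * 2) H') →+ 𝒪))
    (τr : Gamma0 (L * 2))
    (hτr : ((ZMod.unitsMap (dvd_mul_right L 2) (s59w_lrUnit τr) : (ZMod L)ˣ) : ZMod L) =
      ((2 : ℕ) : ZMod L))
    (tδ : T) (hδ : jT tδ = op (Sum.inr (τr ^ ((p ^ e - 1) * m))))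
    (ρT : GaloisRepAdic T') (tr : ℕ → T')
    (htr : ∀ i : s59w_TIdx (L * 2), i.ell ∉ S → jT (algebraMap T' T (tr i.ell)) =
      op (Sum.inr (s59e_tau i ((p ^ e - 1) * m))) * op (Sum.inl i))
    (hfrob : ∀ ℓ : ℕ, ℓ.Prime → ℓ ∉ S → ∀ P' : ValuationSubring Qbar, P'.LiesOverPrime ℓ →
      ∀ σ : GQ, P'.IsFrobeniusAt σ ℓ →
        LinearMap.charpoly (ρT.ρ σ) = X ^ 2 - C (tr ℓ) * X + C (ℓ : T'))
    (A : ValuationSubring Qbar) (hA : A.LiesOverPrime 2) (σ : GQ) (hσ : A.IsFrobeniusAt σ 2) :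
    algebraMap T' T (LinearMap.trace T' ρT.V (ρT.ρ σ)) + tδ * tω * (((2 : ℕ) : T) + 1) ∈ Iχ :=
  s59sw_NEW_abs p N₁ 2 Q hp2 (fun h => hp2 h.symm) hQ hL hrL H hD₁ hHker H' hH' hnm hn 𝒪 hp𝒪 S hpS hMS emb hemb op hop hnewA hnewB T' T jT hjTg Iχ hIχ hrad tω hω τr hτr tδ hδ ρT tr htr hfrob A hA σ hσ
    (fun M' _ hrM n => s59sw_NWSigned_two M' hrM (p ^ n)
      (s59sw_not_two_dvd_pow hpP.out hp2 n) A hA σ hσ)

/-- `(tδ tω)² = 1` on `Z`, `r = 2`. -/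
theorem s59sw_usq_abs_two (hp2 : p ≠ 2) (hQ : ∀ q ∈ Q, q.Prime ∧ ¬ q ∣ N₁ * 2)
    {L : ℕ} [NeZero L] (hL : L = N₁ * ∏ q ∈ Q, q) (hrL : ¬ 2 ∣ L)
    (H : Subgroup (ZMod L)ˣ) (hD₁ : (∏ q ∈ Q, q) ∣ L)
    (hHker : s59u_ker L (∏ q ∈ Q, q) hD₁ ≤ H)
    (H' : Subgroup (ZMod (L * 2))ˣ)
    (hH' : ∀ u : (ZMod (L * 2))ˣ, u ∈ H' ↔ ZMod.unitsMap (dvd_mul_right L 2) u ∈ H)
    {e m : ℕ} (hnm : 2 * m = p ^ e + 1) (hn : ∀ u : (ZMod (L * 2))ˣ, u ^ (p ^ e) ∈ H')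
    (𝒪 : Type) [CommRing 𝒪] [IsDomain 𝒪] [IsDiscreteValuationRing 𝒪]
    [IsAdicComplete (maximalIdeal 𝒪) 𝒪] [Finite (ResidueField 𝒪)] [CharZero 𝒪] [Algebra ℤ_[p] 𝒪]
    (hp𝒪 : (p : 𝒪) ∈ maximalIdeal 𝒪)
    (S : Finset ℕ) (hpS : p ∈ S) (hMS : ∀ q : ℕ, q.Prime → q ∣ L * 2 → q ∈ S)
    {Z : Type} [AddCommGroup Z] [Module 𝒪 Z] [Module.Finite 𝒪 Z] [Module.Free 𝒪 Z]
    [NeZero (L * 2)]
    (emb : Z →ₗ[𝒪] s48h_Hpar 𝒪 (s48h_GammaH (L * 2) H') 𝒪) (hemb : Function.Injective emb)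
    (op : s59w_AIdx (L * 2) → Module.End 𝒪 Z)
    (hop : ∀ j z, emb (op j z) = s59w_op H' 𝒪 j (emb z))
    (hnewA : ∀ z, s59f_corH hrL (s59f_isG_GammaH L H)
      (s59f_isG'_GammaH hrL rfl (dvd_mul_right L 2) hH') 𝒪
      ((emb z : s48h_Hpar 𝒪 (s48h_GammaH (L * 2) H') 𝒪) :
        Additive (s48h_GammaH (L * 2) H') →+ 𝒪) = 0)
    (hnewB : ∀ z, s59f_corH hrL (s59f_isG_GammaH L H)
      (s59f_isG'_GammaH hrL rfl (dvd_mul_right L 2) hH') 𝒪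
      (s59f_wH hrL (s59f_isG'_GammaH hrL rfl (dvd_mul_right L 2) hH') 𝒪
        ((emb z : s48h_Hpar 𝒪 (s48h_GammaH (L * 2) H') 𝒪) :
          Additive (s48h_GammaH (L * 2) H') →+ 𝒪)) = 0)
    (T' : Type) [CommRing T'] [IsLocalRing T'] [Algebra 𝒪 T']
    (T : Type) [CommRing T] [Algebra 𝒪 T] [Algebra T' T] [IsScalarTower 𝒪 T' T]
    (jT : T →ₐ[𝒪] Module.End 𝒪 Z)
    (hjTg : ∀ t, jT t ∈ Algebra.adjoin 𝒪 (Set.range op))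
    (Iχ : Ideal T) (hIχ : ∀ t, t ∈ Iχ ↔ jT t = 0) (hrad : Iχ.IsRadical)
    (tω : T)
    (hω : ∀ z, s59f_wH hrL (s59f_isG'_GammaH hrL rfl (dvd_mul_right L 2) hH') 𝒪
        ((emb z : s48h_Hpar 𝒪 (s48h_GammaH (L * 2) H') 𝒪) :
          Additive (s48h_GammaH (L * 2) H') →+ 𝒪) =
      ((emb (jT tω z) : s48h_Hpar 𝒪 (s48h_GammaH (L * 2) H') 𝒪) :
          Additive (s48h_GammaH (L * 2) H') →+ 𝒪))
    (τr : Gamma0 (L * 2))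
    (hτr : ((ZMod.unitsMap (dvd_mul_right L 2) (s59w_lrUnit τr) : (ZMod L)ˣ) : ZMod L) =
      ((2 : ℕ) : ZMod L))
    (tδ : T) (hδ : jT tδ = op (Sum.inr (τr ^ ((p ^ e - 1) * m))))
    (ρT : GaloisRepAdic T') (tr : ℕ → T')
    (htr : ∀ i : s59w_TIdx (L * 2), i.ell ∉ S → jT (algebraMap T' T (tr i.ell)) =
      op (Sum.inr (s59e_tau i ((p ^ e - 1) * m))) * op (Sum.inl i))
    (hfrob : ∀ ℓ : ℕ, ℓ.Prime → ℓ ∉ S → ∀ P' : ValuationSubring Qbar, P'.LiesOverPrime ℓ →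
      ∀ σ : GQ, P'.IsFrobeniusAt σ ℓ →
        LinearMap.charpoly (ρT.ρ σ) = X ^ 2 - C (tr ℓ) * X + C (ℓ : T'))
    (A : ValuationSubring Qbar) (hA : A.LiesOverPrime 2) (σ : GQ) (hσ : A.IsFrobeniusAt σ 2) :
    (tδ * tω) ^ 2 - 1 ∈ Iχ :=
  s59sw_usq_abs p N₁ 2 Q hp2 (fun h => hp2 h.symm) hQ hL hrL H hD₁ hHker H' hH' hnm hn 𝒪 hp𝒪 S hpS hMS emb hemb op hop hnewA hnewB T' T jT hjTg Iχ hIχ hrad tω hω τr hτr tδ hδ ρT tr htr hfrob A hA σ hσ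
    (fun M' _ hrM n => s59sw_NWSigned_two M' hrM (p ^ n)
      (s59sw_not_two_dvd_pow hpP.out hp2 n) A hA σ hσ)

/-- **[NEW-2±] in family, fixed sign** (`St_ε` at `2`): `tr ρT(σ₂) = 3 ε` on `Z`. -/
theorem s59sw_NEW_abs_sign_two (hp2 : p ≠ 2) (hQ : ∀ q ∈ Q, q.Prime ∧ ¬ q ∣ N₁ * 2)
    {L : ℕ} [NeZero L] (hL : L = N₁ * ∏ q ∈ Q, q) (hrL : ¬ 2 ∣ L)
    (H : Subgroup (ZMod L)ˣ) (hD₁ : (∏ q ∈ Q, q) ∣ L)
    (hHker : s59u_ker L (∏ q ∈ Q, q) hD₁ ≤ H)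
    (H' : Subgroup (ZMod (L * 2))ˣ)
    (hH' : ∀ u : (ZMod (L * 2))ˣ, u ∈ H' ↔ ZMod.unitsMap (dvd_mul_right L 2) u ∈ H)
    {e m : ℕ} (hnm : 2 * m = p ^ e + 1) (hn : ∀ u : (ZMod (L * 2))ˣ, u ^ (p ^ e) ∈ H')
    (𝒪 : Type) [CommRing 𝒪] [IsDomain 𝒪] [IsDiscreteValuationRing 𝒪]
    [IsAdicComplete (maximalIdeal 𝒪) 𝒪] [Finite (ResidueField 𝒪)] [CharZero 𝒪] [Algebra ℤ_[p] 𝒪]
    (hp𝒪 : (p : 𝒪) ∈ maximalIdeal 𝒪)
    (S : Finset ℕ) (hpS : p ∈ S) (hMS : ∀ q : ℕ, q.Prime → q ∣ L * 2 → q ∈ S)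
    {Z : Type} [AddCommGroup Z] [Module 𝒪 Z] [Module.Finite 𝒪 Z] [Module.Free 𝒪 Z]
    [NeZero (L * 2)]
    (emb : Z →ₗ[𝒪] s48h_Hpar 𝒪 (s48h_GammaH (L * 2) H') 𝒪) (hemb : Function.Injective emb)
    (op : s59w_AIdx (L * 2) → Module.End 𝒪 Z)
    (hop : ∀ j z, emb (op j z) = s59w_op H' 𝒪 j (emb z))
    (hnewA : ∀ z, s59f_corH hrL (s59f_isG_GammaH L H)
      (s59f_isG'_GammaH hrL rfl (dvd_mul_right L 2) hH') 𝒪
      ((emb z : s48h_Hpar 𝒪 (s48h_GammaH (L * 2) H') 𝒪) :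
        Additive (s48h_GammaH (L * 2) H') →+ 𝒪) = 0)
    (hnewB : ∀ z, s59f_corH hrL (s59f_isG_GammaH L H)
      (s59f_isG'_GammaH hrL rfl (dvd_mul_right L 2) hH') 𝒪
      (s59f_wH hrL (s59f_isG'_GammaH hrL rfl (dvd_mul_right L 2) hH') 𝒪
        ((emb z : s48h_Hpar 𝒪 (s48h_GammaH (L * 2) H') 𝒪) :
          Additive (s48h_GammaH (L * 2) H') →+ 𝒪)) = 0)
    (T' : Type) [CommRing T'] [IsLocalRing T'] [Algebra 𝒪 T']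
    (T : Type) [CommRing T] [Algebra 𝒪 T] [Algebra T' T] [IsScalarTower 𝒪 T' T]
    (jT : T →ₐ[𝒪] Module.End 𝒪 Z)
    (hjTg : ∀ t, jT t ∈ Algebra.adjoin 𝒪 (Set.range op))
    (Iχ : Ideal T) (hIχ : ∀ t, t ∈ Iχ ↔ jT t = 0) (hrad : Iχ.IsRadical)
    (tω : T)
    (hω : ∀ z, s59f_wH hrL (s59f_isG'_GammaH hrL rfl (dvd_mul_right L 2) hH') 𝒪
        ((emb z : s48h_Hpar 𝒪 (s48h_GammaH (L * 2) H') 𝒪) :
          Additive (s48h_GammaH (L * 2) H') →+ 𝒪) =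
      ((emb (jT tω z) : s48h_Hpar 𝒪 (s48h_GammaH (L * 2) H') 𝒪) :
          Additive (s48h_GammaH (L * 2) H') →+ 𝒪))
    (τr : Gamma0 (L * 2))
    (hτr : ((ZMod.unitsMap (dvd_mul_right L 2) (s59w_lrUnit τr) : (ZMod L)ˣ) : ZMod L) =
      ((2 : ℕ) : ZMod L))
    (tδ : T) (hδ : jT tδ = op (Sum.inr (τr ^ ((p ^ e - 1) * m))))
    (ρT : GaloisRepAdic T') (tr : ℕ → T')
    (htr : ∀ i : s59w_TIdx (L * 2), i.ell ∉ S → jT (algebraMap T' T (tr i.ell)) =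
      op (Sum.inr (s59e_tau i ((p ^ e - 1) * m))) * op (Sum.inl i))
    (hfrob : ∀ ℓ : ℕ, ℓ.Prime → ℓ ∉ S → ∀ P' : ValuationSubring Qbar, P'.LiesOverPrime ℓ →
      ∀ σ : GQ, P'.IsFrobeniusAt σ ℓ →
        LinearMap.charpoly (ρT.ρ σ) = X ^ 2 - C (tr ℓ) * X + C (ℓ : T'))
    (A : ValuationSubring Qbar) (hA : A.LiesOverPrime 2) (σ : GQ) (hσ : A.IsFrobeniusAt σ 2)
    (ε : T) (hε : ε ^ 2 = 1) (hunit : ∃ t : T, t * (ε - tδ * tω) - 1 ∈ Iχ) :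
    algebraMap T' T (LinearMap.trace T' ρT.V (ρT.ρ σ)) - ε * (((2 : ℕ) : T) + 1) ∈ Iχ :=
  s59sw_NEW_abs_sign p N₁ 2 Q hp2 (fun h => hp2 h.symm) hQ hL hrL H hD₁ hHker H' hH' hnm hn 𝒪 hp𝒪 S hpS hMS emb hemb op hop hnewA hnewB T' T jT hjTg Iχ hIχ hrad tω hω τr hτr tδ hδ ρT tr htr hfrob A hA σ hσ
    (fun M' _ hrM n => s59sw_NWSigned_two M' hrM (p ^ n)
      (s59sw_not_two_dvd_pow hpP.out hp2 n) A hA σ hσ) ε hε hunit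

end Two

end Fermat.Agent.Lib.S59
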