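/-
PROGRAMME R2 = S59, node [PT-c2] (helper1, prefix `s59pt_`): **THE `2`-NEW BASE POINT WITH SIGN (`k₀ = 1`), abstract form.**

`Z ↪ H_par(Γ_⊤(L·2), 𝒪)` (`L` odd) a nonzero finite free Hecke-stable module on which `U₂ = ε` (`ε = ±1`); `T` a local
`𝒪`-algebra acting on `Z` through the anemic generators, with a representation `ρT` whose Frobenius traces act as
`T_ℓ` (`ℓ ∉ S`).  Then `Z` is `2`-new with `w₂ = −ε` (`s59pt_new_of_U_eigen` + [RP] `s59pt_T_sub_inj`), the Hecke ring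
acts through a reduced quotient (`s59u_adjoin_apply_eq_zero`), and [S35±] in family (`s59sw_NEW_abs_sign_two`, `Q = ∅`,
`H = H' = ⊤`, `e = 0`) gives `tr ρT(Frob₂) = 3 ε` on `Z`.  Hence every point of the support of `Z` has
`x(tr ρT(Frob₂)) = 3ε`, and `s59pt_c1_point` (level `L·2`) provides one with [RP] at every `r ∤ L·2·p`.
-/
import Mathlib
import Fermat.Agent.Lib.S59.GPtRPop
import Fermat.Agent.Lib.S59.GPtNewAbs
import Fermat.Agent.Lib.S59.GPtTrans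
import Fermat.Agent.Lib.S59.GSwFam
import Fermat.Agent.Lib.S59.UHrad
import Fermat.Agent.Lib.S59.FOldH9

set_option autoImplicit false
set_option linter.unusedSectionVars false
set_option linter.unusedVariables false
set_option linter.style.haveILetI false
set_option synthInstance.maxHeartbeats 400000
set_option maxHeartbeats 4000000

noncomputable section

namespace Fermat.Agent.Lib.S59

open Fermat.Agent.Lib.S29 Fermat.Agent.Lib.S30 Fermat.Agent.Lib.S48 Fermat.Agent.Lib.S41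
open IsLocalRing Polynomial CuspForm
open CongruenceSubgroup
open scoped MatrixGroups

local notation "Qbar" => AlgebraicClosure ℚ
local notation "GQ" => (AlgebraicClosure ℚ ≃ₐ[ℚ] AlgebraicClosure ℚ)

/-- `s59i_cpTr` is the trace. -/
theorem s59pt_cpTr_eq_trace {A : Type} [CommRing A] [IsLocalRing A] (ρ : GaloisRepAdic A) (g : GQ) :
    s59i_cpTr ρ g = LinearMap.trace A ρ.V (ρ.ρ g) := by
  have bs : Module.Basis (Fin 2) A ρ.V := Module.finBasisOfFinrankEq A ρ.V ρ.finrank_eq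
  unfold s59i_cpTr
  rw [← LinearMap.charpoly_toMatrix (ρ.ρ g) bs, Matrix.charpoly_fin_two,
    LinearMap.trace_eq_matrix_trace A bs]
  simp [coeff_X_pow]

/-- `2` is a unit of a local ring of odd residue characteristic. -/
theorem s59pt_isUnit_two {𝒪 : Type*} [CommRing 𝒪] [IsLocalRing 𝒪] {p : ℕ} (hp : p.Prime) (hp2 : p ≠ 2)
    (hpm : (p : 𝒪) ∈ maximalIdeal 𝒪) : IsUnit (2 : 𝒪) := by
  by_contra h
  have h2 : (2 : 𝒪) ∈ maximalIdeal 𝒪 := (IsLocalRing.mem_maximalIdeal _).mpr h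
  obtain ⟨k, hk⟩ := hp.odd_of_ne_two hp2
  have h1 : (1 : 𝒪) = (p : 𝒪) - 2 * (k : 𝒪) := by
    rw [hk]
    push_cast
    ring
  have h3 : (1 : 𝒪) ∈ maximalIdeal 𝒪 := by
    rw [h1]
    exact Ideal.sub_mem _ hpm (Ideal.mul_mem_right _ _ h2)
  exact (Ideal.ne_top_iff_one _).mp (IsLocalRing.maximalIdeal.isMaximal 𝒪).ne_top h3

/-- the diamond operators of `Γ₀(N')` are trivial on `H(Γ_⊤(N'), A)`. -/
theorem s59pt_diaL_top {N' : ℕ} [NeZero N'] (R : Type*) [CommRing R] (A : Type*) [AddCommGroup A]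
    [Module R A] (e : SL(2, ℤ)) (he' : e ∈ Gamma0 N') :
    s59f_diaL R A (⊤ : Subgroup (ZMod N')ˣ) e he' = LinearMap.id := by
  refine LinearMap.ext fun z => Subtype.ext ?_
  rw [s59f_diaL_coe]
  exact s48h_diamondH_of_mem
    ((s59t_mem_GammaH_iff_unit (H := (⊤ : Subgroup (ZMod N')ˣ)) ⟨e, he'⟩).mpr (Subgroup.mem_top _)) z.1

variable (p : ℕ) [hpP : Fact p.Prime]

/-- **[S35±] for a `U₂ = ε` module, kernel form**: `tr ρT(Frob₂) − 3ε` acts as `0` on `Z`. -/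
theorem s59pt_new2_ker (hp2 : p ≠ 2) {L : ℕ} [NeZero L] [NeZero (L * 2)] (hL2 : ¬ 2 ∣ L)
    (𝒪 : Type) [CommRing 𝒪] [IsDomain 𝒪] [IsDiscreteValuationRing 𝒪]
    [IsAdicComplete (maximalIdeal 𝒪) 𝒪] [Finite (ResidueField 𝒪)] [CharZero 𝒪] [Algebra ℤ_[p] 𝒪]
    (hp𝒪 : (p : 𝒪) ∈ maximalIdeal 𝒪)
    (S : Finset ℕ) (hpS : p ∈ S) (hMS : ∀ q : ℕ, q.Prime → q ∣ L * 2 → q ∈ S)
    {Z : Type} [AddCommGroup Z] [Module 𝒪 Z] [Module.Finite 𝒪 Z] [Module.Free 𝒪 Z]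
    (emb : Z →ₗ[𝒪] s48h_Hpar 𝒪 (s48h_GammaH (L * 2) (⊤ : Subgroup (ZMod (L * 2))ˣ)) 𝒪)
    (hemb : Function.Injective emb)
    (op : s59w_AIdx (L * 2) → Module.End 𝒪 Z)
    (hop : ∀ j z, emb (op j z) = s59w_op (⊤ : Subgroup (ZMod (L * 2))ˣ) 𝒪 j (emb z))
    (ε : 𝒪) (hε : ε = 1 ∨ ε = -1)
    (hUZ : ∀ z, (s59w_UqDatum (⊤ : Subgroup (ZMod (L * 2))ˣ) (dvd_mul_left 2 L)).heckeHpar 𝒪 (emb z) =
      ε • emb z)
    (T : Type) [CommRing T] [IsLocalRing T] [Algebra 𝒪 T]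
    (jT : T →ₐ[𝒪] Module.End 𝒪 Z)
    (hjTg : ∀ t, jT t ∈ Algebra.adjoin 𝒪 (Set.range op))
    (ρT : GaloisRepAdic T) (tr : ℕ → T)
    (htr : ∀ i : s59w_TIdx (L * 2), i.ell ∉ S →
      jT (tr i.ell) = op (Sum.inr (s59e_tau i 0)) * op (Sum.inl i))
    (hfrob : ∀ ℓ : ℕ, ℓ.Prime → ℓ ∉ S → ∀ P' : ValuationSubring Qbar, P'.LiesOverPrime ℓ →
      ∀ σ : GQ, P'.IsFrobeniusAt σ ℓ →
        LinearMap.charpoly (ρT.ρ σ) = X ^ 2 - C (tr ℓ) * X + C (ℓ : T))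
    (A : ValuationSubring Qbar) (hA : A.LiesOverPrime 2) (σ : GQ) (hσ : A.IsFrobeniusAt σ 2) :
    jT (s59i_cpTr ρT σ - algebraMap 𝒪 T (ε * 3)) = 0 := by
  classical
  have hεε : ε * ε = 1 := by
    rcases hε with h | h
    · rw [h, one_mul]
    · rw [h, neg_mul_neg, one_mul]
  -- the package at the level `(L·2, ⊤)`
  have hH' : ∀ u : (ZMod (L * 2))ˣ, u ∈ (⊤ : Subgroup (ZMod (L * 2))ˣ) ↔
      ZMod.unitsMap (dvd_mul_right L 2) u ∈ (⊤ : Subgroup (ZMod L)ˣ) :=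
    fun u => ⟨fun _ => Subgroup.mem_top _, fun _ => Subgroup.mem_top _⟩
  have hG' := s59f_isG'_GammaH (H := (⊤ : Subgroup (ZMod L)ˣ)) hL2 rfl (dvd_mul_right L 2) hH'
  have he' : (1 : SL(2, ℤ)) ∈ Gamma0 (L * 2) := one_mem _
  have hee : s59f_gW hL2 * 1 * 1 ∈ s48h_GammaH (L * 2) (⊤ : Subgroup (ZMod (L * 2))ˣ) := by
    rw [mul_one, mul_one]
    exact s59t_mem_GammaH_top (L * 2) ⟨_, s59f_gW_mem hL2⟩
  obtain ⟨D, hD⟩ : ∃ D : s59t_Old 𝒪 (s48h_Hpar 𝒪 (s48h_GammaH L (⊤ : Subgroup (ZMod L)ˣ)) 𝒪)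
      (s48h_Hpar 𝒪 (s48h_GammaH (L * 2) (⊤ : Subgroup (ZMod (L * 2))ˣ)) 𝒪),
      D = s59f_oldH hL2 hG' 𝒪 𝒪 1 he' hee := ⟨_, rfl⟩
  have hDU : ∀ z, D.U z =
      (s59w_UqDatum (⊤ : Subgroup (ZMod (L * 2))ˣ) (dvd_mul_left 2 L)).heckeHpar 𝒪 z := by
    intro z
    rw [hD, s59f_oldH_U hL2 hG' 1 he' hee (dvd_mul_left 2 L) z, s59pt_diaL_top]
    rfl
  have hDw : ∀ z, D.w z = s59f_wL hL2 hG' 𝒪 𝒪 z := by
    intro z
    rw [hD, s59f_oldH_w, s59f_wtL_apply, s59pt_diaL_top]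
    rfl
  have hDcorA : ∀ z, D.corA z = s59f_corL hL2 hG' 𝒪 𝒪 z := by
    intro z
    rw [hD, s59f_oldH_corA]
  have hDqq : D.qq = ((2 : ℕ) : 𝒪) := by rw [hD, s59f_oldH_qq]
  -- [RP] as an operator statement at the level `L`
  have hRP : ∀ b, D.T b = (ε * (D.qq + 1)) • b → b = 0 := by
    intro b hb
    have he1 : (1 : SL(2, ℤ)) ∈ Gamma0 L := one_mem _
    rw [hD, s59f_oldH_T hL2 hG' 1 he' hee he1 b, s59pt_diaL_top, ← hD, hDqq] at hb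
    refine s59pt_T_sub_inj L 𝒪 ⟨2, Nat.prime_two, hL2, s59f_gW hL2, s59f_gW_mem_L hL2,
      s59f_gW_lr hL2⟩ (ε * (((2 : ℕ) : 𝒪) + 1)) ?_ b hb
    show ε * (((2 : ℕ) : 𝒪) + 1) * (ε * (((2 : ℕ) : 𝒪) + 1)) = _
    calc ε * (((2 : ℕ) : 𝒪) + 1) * (ε * (((2 : ℕ) : 𝒪) + 1))
        = (ε * ε) * ((((2 : ℕ) : 𝒪) + 1) * (((2 : ℕ) : 𝒪) + 1)) := by ring
      _ = _ := by rw [hεε, one_mul]
  have hnew : ∀ z : Z, D.corA (emb z) = 0 ∧ D.corB (emb z) = 0 ∧ D.w (emb z) = -(ε • emb z) :=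
    fun z => s59pt_new_of_U_eigen D ε hεε (emb z) (by rw [hDU, hUZ]) hRP
  -- the reducedness
  have hrad : (RingHom.ker (jT : T →+* Module.End 𝒪 Z)).IsRadical := by
    intro t ht
    obtain ⟨k, hk⟩ := ht
    rw [RingHom.mem_ker] at hk ⊢
    have hk' : (jT t) ^ k = 0 := by
      have : (jT : T →+* Module.End 𝒪 Z) (t ^ k) = ((jT : T →+* Module.End 𝒪 Z) t) ^ k := map_pow _ _ _
      rw [hk] at this
      exact this.symm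
    refine LinearMap.ext fun z => ?_
    rw [LinearMap.zero_apply]
    refine s59u_adjoin_apply_eq_zero (L * 2) (∅ : Finset ℕ) (⊤ : Subgroup (ZMod (L * 2))ˣ) 𝒪
      (fun q hq => absurd hq (Finset.notMem_empty q))
      (by rw [Finset.prod_empty, mul_one]) (D := 1) (by rw [Finset.prod_empty]) (one_dvd _)
      le_top (n := 1) (m := 1) rfl (fun u => Subgroup.mem_top _) emb hemb (Set.range op) ?_
      (hjTg t) z k ?_
    · rintro _ ⟨j, rfl⟩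
      exact ⟨s59w_op (⊤ : Subgroup (ZMod (L * 2))ˣ) 𝒪 j, Algebra.subset_adjoin ⟨j, rfl⟩, hop j⟩
    · show ((jT t) ^ k) z = 0
      rw [hk', LinearMap.zero_apply]
  -- a diamond index at `2`
  have hcop : Nat.Coprime 2 L := (Nat.Prime.coprime_iff_not_dvd Nat.prime_two).mpr hL2
  obtain ⟨u', hu'⟩ := ZMod.unitsMap_surjective (dvd_mul_right L 2) (ZMod.unitOfCoprime 2 hcop)
  obtain ⟨τr, hτr⟩ := s59w_exists_sig u'
  have hτr' : ((ZMod.unitsMap (dvd_mul_right L 2) (s59w_lrUnit τr) : (ZMod L)ˣ) : ZMod L) =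
      ((2 : ℕ) : ZMod L) := by
    rw [hτr, hu', ZMod.coe_unitOfCoprime]
  have hopinr : ∀ τ : Gamma0 (L * 2), op (Sum.inr τ) = 1 := by
    intro τ
    refine LinearMap.ext fun z => hemb ?_
    rw [hop, s59pt_op_inr_top]
    rfl
  have hpow : (p ^ 0 - 1) * 1 = 0 := by norm_num
  -- [S35±]
  have hmain := s59sw_NEW_abs_sign_two p L (∅ : Finset ℕ) hp2
    (fun q hq => absurd hq (Finset.notMem_empty q))
    (by rw [Finset.prod_empty, mul_one]) hL2 (⊤ : Subgroup (ZMod L)ˣ)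
    (by rw [Finset.prod_empty]; exact one_dvd _) le_top (⊤ : Subgroup (ZMod (L * 2))ˣ) hH'
    (e := 0) (m := 1) (by norm_num) (fun u => Subgroup.mem_top _) 𝒪 hp𝒪 S hpS hMS emb hemb op hop
    (fun z => by
      have h1 := (hnew z).1
      rw [hDcorA] at h1
      have h2 := congrArg Subtype.val h1
      rw [s59f_corL_coe] at h2
      exact h2)
    (fun z => by
      have h1 := (hnew z).2.1
      rw [D.corB_eq, hDw, hDcorA] at h1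
      have h2 := congrArg Subtype.val h1
      rw [s59f_corL_coe, s59f_wL_coe] at h2
      exact h2)
    T T jT hjTg (RingHom.ker (jT : T →+* Module.End 𝒪 Z)) (fun t => RingHom.mem_ker) hrad
    (algebraMap 𝒪 T (-ε))
    (fun z => by
      have h1 := (hnew z).2.2
      rw [hDw] at h1
      have h2 := congrArg Subtype.val h1
      rw [s59f_wL_coe] at h2
      rw [h2, AlgHom.commutes, Module.algebraMap_end_apply, map_smul]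
      exact congrArg Subtype.val (neg_smul ε (emb z)).symm)
    τr hτr' 1
    (by rw [map_one, hopinr])
    ρT tr
    (fun i hi => by
      rw [hpow]
      exact htr i hi)
    hfrob A hA σ hσ (algebraMap 𝒪 T ε)
    (by rw [← map_pow, pow_two, hεε, map_one])
    (by
      obtain ⟨u2, hu2⟩ := s59pt_isUnit_two hpP.out hp2 hp𝒪
      refine ⟨algebraMap 𝒪 T (ε * ((u2⁻¹ : 𝒪ˣ) : 𝒪)), ?_⟩
      have h1 : algebraMap 𝒪 T (ε * ((u2⁻¹ : 𝒪ˣ) : 𝒪)) * (algebraMap 𝒪 T ε - 1 * algebraMap 𝒪 T (-ε)) - 1 =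
          0 := by
        rw [one_mul, ← map_sub, ← map_mul]
        have h2 : ε * ((u2⁻¹ : 𝒪ˣ) : 𝒪) * (ε - -ε) = 1 := by
          have h3 : ε * ((u2⁻¹ : 𝒪ˣ) : 𝒪) * (ε - -ε) = (ε * ε) * (((u2⁻¹ : 𝒪ˣ) : 𝒪) * 2) := by ring
          rw [h3, hεε, one_mul, ← hu2, Units.inv_mul]
        rw [h2, map_one, sub_self]
      rw [h1]
      exact Ideal.zero_mem _)
  have h1 := RingHom.mem_ker.mp hmain
  have h2 : algebraMap T T (LinearMap.trace T ρT.V (ρT.ρ σ)) = s59i_cpTr ρT σ :=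
    (s59pt_cpTr_eq_trace ρT σ).symm
  have h3 : algebraMap 𝒪 T ε * (((2 : ℕ) : T) + 1) = algebraMap 𝒪 T (ε * 3) := by
    rw [map_mul]
    congr 1
    rw [map_ofNat]
    norm_num
  rw [h2, h3] at h1
  exact h1

/-- **[PT-c2], abstract form: the `2`-new base point with sign.** -/
theorem s59pt_new2_abs (hp2 : p ≠ 2) {L : ℕ} [NeZero L] [NeZero (L * 2)] (hL2 : ¬ 2 ∣ L)
    (𝒪 : Type) [CommRing 𝒪] [IsDomain 𝒪] [IsDiscreteValuationRing 𝒪]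
    [IsAdicComplete (maximalIdeal 𝒪) 𝒪] [Finite (ResidueField 𝒪)] [CharZero 𝒪] [Algebra ℤ_[p] 𝒪]
    (hp𝒪 : (p : 𝒪) ∈ maximalIdeal 𝒪)
    (S : Finset ℕ) (hpS : p ∈ S) (hMS : ∀ q : ℕ, q.Prime → q ∣ L * 2 → q ∈ S)
    {Z : Type} [AddCommGroup Z] [Module 𝒪 Z] [Module.Finite 𝒪 Z] [Module.Free 𝒪 Z] [Nontrivial Z]
    (emb : Z →ₗ[𝒪] s48h_Hpar 𝒪 (s48h_GammaH (L * 2) (⊤ : Subgroup (ZMod (L * 2))ˣ)) 𝒪)
    (hemb : Function.Injective emb)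
    (op : s59w_AIdx (L * 2) → Module.End 𝒪 Z)
    (hop : ∀ j z, emb (op j z) = s59w_op (⊤ : Subgroup (ZMod (L * 2))ˣ) 𝒪 j (emb z))
    (ε : 𝒪) (hε : ε = 1 ∨ ε = -1)
    (hUZ : ∀ z, (s59w_UqDatum (⊤ : Subgroup (ZMod (L * 2))ˣ) (dvd_mul_left 2 L)).heckeHpar 𝒪 (emb z) =
      ε • emb z)
    (T : Type) [CommRing T] [IsLocalRing T] [Algebra 𝒪 T]
    (jT : T →ₐ[𝒪] Module.End 𝒪 Z)
    (hjTg : ∀ t, jT t ∈ Algebra.adjoin 𝒪 (Set.range op))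
    (ρT : GaloisRepAdic T) (tr : ℕ → T)
    (htr : ∀ i : s59w_TIdx (L * 2), i.ell ∉ S →
      jT (tr i.ell) = op (Sum.inr (s59e_tau i 0)) * op (Sum.inl i))
    (hfrob : ∀ ℓ : ℕ, ℓ.Prime → ℓ ∉ S → ∀ P' : ValuationSubring Qbar, P'.LiesOverPrime ℓ →
      ∀ σ : GQ, P'.IsFrobeniusAt σ ℓ →
        LinearMap.charpoly (ρT.ρ σ) = X ^ 2 - C (tr ℓ) * X + C (ℓ : T)) :
    ∃ (𝒪' : Type) (_ : CommRing 𝒪') (_ : IsDomain 𝒪') (_ : IsDiscreteValuationRing 𝒪')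
      (_ : IsAdicComplete (maximalIdeal 𝒪') 𝒪') (_ : Finite (ResidueField 𝒪')) (_ : CharZero 𝒪')
      (_ : Algebra 𝒪 𝒪') (_ : Module.Finite 𝒪 𝒪') (_ : IsLocalHom (algebraMap 𝒪 𝒪'))
      (x : T →ₐ[𝒪] 𝒪'),
      (∀ t, jT t = 0 → x t = 0) ∧
      (∀ (r : ℕ), r.Prime → r ≠ p → ¬ r ∣ L * 2 →
        ∀ (A : ValuationSubring Qbar), A.LiesOverPrime r → ∀ σ : GQ, A.IsFrobeniusAt σ r →
          x (s59i_cpTr ρT σ) * x (s59i_cpTr ρT σ) ≠ ((r : 𝒪') + 1) * ((r : 𝒪') + 1)) ∧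
      ∀ (A : ValuationSubring Qbar), A.LiesOverPrime 2 → ∀ σ : GQ, A.IsFrobeniusAt σ 2 →
        x (s59i_cpTr ρT σ) = algebraMap 𝒪 𝒪' (ε * 3) := by
  classical
  obtain ⟨𝒪', i1, i2, i3, i4, i5, i6, i7, i8, i9, x, hx0, hxRP⟩ :=
    s59pt_c1_point p hp2 (L * 2) 𝒪 hp𝒪 S hpS hMS emb hemb op hop T jT hjTg ρT tr 0 htr hfrob
  refine ⟨𝒪', i1, i2, i3, i4, i5, i6, i7, i8, i9, x, hx0, hxRP, ?_⟩
  intro A hA σ hσ
  have h1 := hx0 _ (s59pt_new2_ker p hp2 hL2 𝒪 hp𝒪 S hpS hMS emb hemb op hop ε hε hUZ T jT hjTg ρT tr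
    htr hfrob A hA σ hσ)
  rw [map_sub, sub_eq_zero, AlgHom.commutes] at h1
  exact h1

/-- auxiliary form of `s59pt_base1` with an abstract module `Z ↪ Y`. -/
theorem s59pt_base1_aux (hp2 : p ≠ 2) {L : ℕ} [NeZero L] [NeZero (L * 2)] (hL2 : ¬ 2 ∣ L)
    (𝒪 : Type) [CommRing 𝒪] [IsDomain 𝒪] [IsDiscreteValuationRing 𝒪]
    [IsAdicComplete (maximalIdeal 𝒪) 𝒪] [Finite (ResidueField 𝒪)] [CharZero 𝒪] [Algebra ℤ_[p] 𝒪]
    (hp𝒪 : (p : 𝒪) ∈ maximalIdeal 𝒪)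
    (B : Finset ℕ) (hpB : p ∈ B) (hNB : ∀ q : ℕ, q.Prime → q ∣ L * 2 → q ∈ B)
    {J : Type} (idx : J → s59w_AIdx (L * 2))
    (hJ : ∀ i : s59w_TIdx (L * 2), i.ell ∉ B → ∃ j, idx j = Sum.inl i)
    (Y : Submodule 𝒪 (s48h_Hpar 𝒪 (s48h_GammaH (L * 2) (⊤ : Subgroup (ZMod (L * 2))ˣ)) 𝒪))
    (T : Type) [CommRing T] [IsLocalRing T] [Algebra 𝒪 T]
    (act : T →ₐ[𝒪] Module.End 𝒪 Y)
    (ρT : GaloisRepAdic T) (tr : ℕ → T)
    (hfrob : ∀ ℓ : ℕ, ℓ.Prime → ℓ ∉ B → ∀ P' : ValuationSubring Qbar, P'.LiesOverPrime ℓ →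
      ∀ σ : GQ, P'.IsFrobeniusAt σ ℓ →
        LinearMap.charpoly (ρT.ρ σ) = X ^ 2 - C (tr ℓ) * X + C (ℓ : T))
    (hacttr : ∀ i : s59w_TIdx (L * 2), i.ell ∉ B → ∀ z : Y,
      ((act (tr i.ell) z : Y) : s48h_Hpar 𝒪 (s48h_GammaH (L * 2) (⊤ : Subgroup (ZMod (L * 2))ˣ)) 𝒪) =
        s59w_op (⊤ : Subgroup (ZMod (L * 2))ˣ) 𝒪 (Sum.inl i) z)
    (ε : 𝒪) (hε : ε = 1 ∨ ε = -1)
    {Z : Type} [AddCommGroup Z] [Module 𝒪 Z] [Module.Finite 𝒪 Z] [Module.Free 𝒪 Z] [Nontrivial Z]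
    (emb : Z →ₗ[𝒪] s48h_Hpar 𝒪 (s48h_GammaH (L * 2) (⊤ : Subgroup (ZMod (L * 2))ˣ)) 𝒪)
    (hemb : Function.Injective emb)
    (op : s59w_AIdx (L * 2) → Module.End 𝒪 Z)
    (hop : ∀ j z, emb (op j z) = s59w_op (⊤ : Subgroup (ZMod (L * 2))ˣ) 𝒪 j (emb z))
    (hUZ : ∀ z, (s59w_UqDatum (⊤ : Subgroup (ZMod (L * 2))ˣ) (dvd_mul_left 2 L)).heckeHpar 𝒪 (emb z) =
      ε • emb z)
    (hZY : ∀ z, emb z ∈ Y)
    (ops : J → Module.End 𝒪 (s48h_Hpar 𝒪 (s48h_GammaH (L * 2) (⊤ : Subgroup (ZMod (L * 2))ˣ)) 𝒪))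
    (hops : ops = fun j => s59w_op (⊤ : Subgroup (ZMod (L * 2))ˣ) 𝒪 (idx j))
    (hc : ∀ i j, ops i * ops j = ops j * ops i)
    (hact : ∀ t, ∃ P : MvPolynomial J 𝒪, ∀ z : Y,
      ((act t z : Y) : s48h_Hpar 𝒪 (s48h_GammaH (L * 2) (⊤ : Subgroup (ZMod (L * 2))ˣ)) 𝒪) =
        s59t_polyAct ops hc P z) :
    ∃ (𝒪' : Type) (_ : CommRing 𝒪') (_ : IsDomain 𝒪') (_ : IsDiscreteValuationRing 𝒪')
      (_ : IsAdicComplete (maximalIdeal 𝒪') 𝒪') (_ : Finite (ResidueField 𝒪')) (_ : CharZero 𝒪')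
      (_ : Algebra 𝒪 𝒪') (_ : Module.Finite 𝒪 𝒪') (_ : IsLocalHom (algebraMap 𝒪 𝒪'))
      (x : T →ₐ[𝒪] 𝒪'),
      (∀ t, act t = 0 → x t = 0) ∧
      (∀ (r : ℕ), r.Prime → r ≠ p → ¬ r ∣ L * 2 →
        ∀ (A : ValuationSubring Qbar), A.LiesOverPrime r → ∀ σ : GQ, A.IsFrobeniusAt σ r →
          x (s59i_cpTr ρT σ) * x (s59i_cpTr ρT σ) ≠ ((r : 𝒪') + 1) * ((r : 𝒪') + 1)) ∧
      ∀ (A : ValuationSubring Qbar), A.LiesOverPrime 2 → ∀ σ : GQ, A.IsFrobeniusAt σ 2 →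
        x (s59i_cpTr ρT σ) = algebraMap 𝒪 𝒪' (ε * 3) := by
  classical
  obtain ⟨opsZ, hopsZ⟩ : ∃ opsZ : J → Module.End 𝒪 Z, opsZ = fun j => op (idx j) := ⟨_, rfl⟩
  have hopcomm : ∀ i j, op i * op j = op j * op i := by
    intro i j
    refine LinearMap.ext fun z => hemb ?_
    rw [Module.End.mul_apply, Module.End.mul_apply, hop, hop, hop, hop]
    have h1 := LinearMap.congr_fun (s59w_op_comm (⊤ : Subgroup (ZMod (L * 2))ˣ) 𝒪 i j) (emb z)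
    rwa [Module.End.mul_apply, Module.End.mul_apply] at h1
  have hcZ : ∀ i j, opsZ i * opsZ j = opsZ j * opsZ i := by
    intro i j
    rw [hopsZ]
    exact hopcomm _ _
  have hintZ : ∀ (P : MvPolynomial J 𝒪) (z : Z),
      emb (s59t_polyAct opsZ hcZ P z) = s59t_polyAct ops hc P (emb z) := by
    intro P z
    refine s59t_polyAct_intertwine opsZ hcZ ops hc emb ?_ P z
    intro j z
    rw [hopsZ, hops]
    exact hop _ z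
  obtain ⟨jT, hjT⟩ := s59pt_transport (Z := Z) Y ops hc act opsZ hcZ hact (by
    intro P hP
    refine LinearMap.ext fun z => hemb ?_
    rw [hintZ, LinearMap.zero_apply, map_zero]
    exact hP ⟨_, hZY z⟩)
  have hjT0 : ∀ t, act t = 0 → jT t = 0 := by
    intro t ht
    rw [hjT t 0 (fun z => by rw [ht, LinearMap.zero_apply, map_zero, LinearMap.zero_apply]; rfl),
      map_zero]
  obtain ⟨𝒪', i1, i2, i3, i4, i5, i6, i7, i8, i9, x, hx0, hxRP, hx2⟩ :=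
    s59pt_new2_abs p hp2 hL2 𝒪 hp𝒪 B hpB hNB emb hemb op hop ε hε hUZ T jT
      (by
        intro t
        obtain ⟨P, hP⟩ := hact t
        rw [hjT t P hP]
        refine Algebra.adjoin_mono ?_ (s59pt_polyAct_mem_adjoin opsZ hcZ P)
        rintro _ ⟨j, rfl⟩
        rw [hopsZ]
        exact ⟨_, rfl⟩)
      ρT tr
      (by
        intro i hi
        obtain ⟨j, hj⟩ := hJ i hi
        have h1 : jT (tr i.ell) = s59t_polyAct opsZ hcZ (MvPolynomial.X j) := by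
          refine hjT _ _ fun z => ?_
          rw [s59t_polyAct_X, hops]
          show _ = s59w_op (⊤ : Subgroup (ZMod (L * 2))ˣ) 𝒪 (idx j) z
          rw [hj]
          exact hacttr i hi z
        rw [h1, s59t_polyAct_X, hopsZ]
        show op (idx j) = _
        rw [hj]
        have h2 : op (Sum.inr (s59e_tau i 0)) = 1 := by
          refine LinearMap.ext fun z => hemb ?_
          rw [hop, s59pt_op_inr_top]
          rfl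
        rw [h2, one_mul])
      hfrob
  exact ⟨𝒪', i1, i2, i3, i4, i5, i6, i7, i8, i9, x, fun t ht => hx0 t (hjT0 t ht), hxRP, hx2⟩

/-- **[PT-c2] over the (E-conc) interface: the `2`-new base point with sign of the main run.**  `Y ⊆ H_par(Γ_⊤(L·2), 𝒪)`
the base module (stable under the anemic generators), containing a nonzero `v` with `U₂ v = ε v`
([NEWCLASS±], helper3's `s59u_nc_main`). -/
theorem s59pt_base1 (hp2 : p ≠ 2) {L : ℕ} [NeZero L] [NeZero (L * 2)] (hL2 : ¬ 2 ∣ L)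
    (𝒪 : Type) [CommRing 𝒪] [IsDomain 𝒪] [IsDiscreteValuationRing 𝒪]
    [IsAdicComplete (maximalIdeal 𝒪) 𝒪] [Finite (ResidueField 𝒪)] [CharZero 𝒪] [Algebra ℤ_[p] 𝒪]
    (hp𝒪 : (p : 𝒪) ∈ maximalIdeal 𝒪)
    (B : Finset ℕ) (hpB : p ∈ B) (hNB : ∀ q : ℕ, q.Prime → q ∣ L * 2 → q ∈ B)
    -- the dialect
    {J : Type} (idx : J → s59w_AIdx (L * 2))
    (hJ : ∀ i : s59w_TIdx (L * 2), i.ell ∉ B → ∃ j, idx j = Sum.inl i)
    -- the base module and its Hecke ring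
    (Y : Submodule 𝒪 (s48h_Hpar 𝒪 (s48h_GammaH (L * 2) (⊤ : Subgroup (ZMod (L * 2))ˣ)) 𝒪))
    (hYstab : ∀ (j : s59w_AIdx (L * 2)), ∀ z ∈ Y,
      s59w_op (⊤ : Subgroup (ZMod (L * 2))ˣ) 𝒪 j z ∈ Y)
    (T : Type) [CommRing T] [IsLocalRing T] [Algebra 𝒪 T]
    (act : T →ₐ[𝒪] Module.End 𝒪 Y)
    (hact : ∀ t, ∃ P : MvPolynomial J 𝒪, ∀ z : Y,
      ((act t z : Y) : s48h_Hpar 𝒪 (s48h_GammaH (L * 2) (⊤ : Subgroup (ZMod (L * 2))ˣ)) 𝒪) =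
        s59t_polyAct (fun j => s59w_op (⊤ : Subgroup (ZMod (L * 2))ˣ) 𝒪 (idx j))
          (fun i j => s59w_op_comm (⊤ : Subgroup (ZMod (L * 2))ˣ) 𝒪 _ _) P z)
    (ρT : GaloisRepAdic T) (tr : ℕ → T)
    (hfrob : ∀ ℓ : ℕ, ℓ.Prime → ℓ ∉ B → ∀ P' : ValuationSubring Qbar, P'.LiesOverPrime ℓ →
      ∀ σ : GQ, P'.IsFrobeniusAt σ ℓ →
        LinearMap.charpoly (ρT.ρ σ) = X ^ 2 - C (tr ℓ) * X + C (ℓ : T))
    (hacttr : ∀ i : s59w_TIdx (L * 2), i.ell ∉ B → ∀ z : Y,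
      ((act (tr i.ell) z : Y) : s48h_Hpar 𝒪 (s48h_GammaH (L * 2) (⊤ : Subgroup (ZMod (L * 2))ˣ)) 𝒪) =
        s59w_op (⊤ : Subgroup (ZMod (L * 2))ˣ) 𝒪 (Sum.inl i) z)
    -- the new class with sign
    (ε : 𝒪) (hε : ε = 1 ∨ ε = -1)
    (v : s48h_Hpar 𝒪 (s48h_GammaH (L * 2) (⊤ : Subgroup (ZMod (L * 2))ˣ)) 𝒪) (hvY : v ∈ Y) (hv0 : v ≠ 0)
    (hUv : (s59w_UqDatum (⊤ : Subgroup (ZMod (L * 2))ˣ) (dvd_mul_left 2 L)).heckeHpar 𝒪 v = ε • v) :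
    ∃ (𝒪' : Type) (_ : CommRing 𝒪') (_ : IsDomain 𝒪') (_ : IsDiscreteValuationRing 𝒪')
      (_ : IsAdicComplete (maximalIdeal 𝒪') 𝒪') (_ : Finite (ResidueField 𝒪')) (_ : CharZero 𝒪')
      (_ : Algebra 𝒪 𝒪') (_ : Module.Finite 𝒪 𝒪') (_ : IsLocalHom (algebraMap 𝒪 𝒪'))
      (x : T →ₐ[𝒪] 𝒪'),
      (∀ t, act t = 0 → x t = 0) ∧
      (∀ (r : ℕ), r.Prime → r ≠ p → ¬ r ∣ L * 2 →
        ∀ (A : ValuationSubring Qbar), A.LiesOverPrime r → ∀ σ : GQ, A.IsFrobeniusAt σ r →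
          x (s59i_cpTr ρT σ) * x (s59i_cpTr ρT σ) ≠ ((r : 𝒪') + 1) * ((r : 𝒪') + 1)) ∧
      ∀ (A : ValuationSubring Qbar), A.LiesOverPrime 2 → ∀ σ : GQ, A.IsFrobeniusAt σ 2 →
        x (s59i_cpTr ρT σ) = algebraMap 𝒪 𝒪' (ε * 3) := by
  classical
  haveI : Module.Finite 𝒪 (s48h_Hpar 𝒪 (s48h_GammaH (L * 2) (⊤ : Subgroup (ZMod (L * 2))ˣ)) 𝒪) :=
    s59t_Hpar_finite 𝒪
  haveI : Module.Free 𝒪 (s48h_Hpar 𝒪 (s48h_GammaH (L * 2) (⊤ : Subgroup (ZMod (L * 2))ˣ)) 𝒪) :=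
    s59t_Hpar_free 𝒪
  obtain ⟨U2, hU2⟩ : ∃ U2 : Module.End 𝒪
      (s48h_Hpar 𝒪 (s48h_GammaH (L * 2) (⊤ : Subgroup (ZMod (L * 2))ˣ)) 𝒪),
      U2 = (s59w_UqDatum (⊤ : Subgroup (ZMod (L * 2))ˣ) (dvd_mul_left 2 L)).heckeHpar 𝒪 := ⟨_, rfl⟩
  rw [← hU2] at hUv
  have hUcomm : ∀ (j : s59w_AIdx (L * 2)) z,
      U2 (s59w_op (⊤ : Subgroup (ZMod (L * 2))ˣ) 𝒪 j z) =
        s59w_op (⊤ : Subgroup (ZMod (L * 2))ˣ) 𝒪 j (U2 z) := by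
    intro j z
    have h1 := LinearMap.congr_fun
      (s59t_Uq_op_comm (𝒪 := 𝒪) (⊤ : Subgroup (ZMod (L * 2))ˣ) (dvd_mul_left 2 L) j) z
    rw [Module.End.mul_apply, Module.End.mul_apply, ← hU2] at h1
    exact h1
  -- the operators
  obtain ⟨ops, hops⟩ : ∃ ops : J → Module.End 𝒪
      (s48h_Hpar 𝒪 (s48h_GammaH (L * 2) (⊤ : Subgroup (ZMod (L * 2))ˣ)) 𝒪),
      ops = fun j => s59w_op (⊤ : Subgroup (ZMod (L * 2))ˣ) 𝒪 (idx j) := ⟨_, rfl⟩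
  have hc : ∀ i j, ops i * ops j = ops j * ops i := by
    intro i j
    rw [hops]
    exact s59w_op_comm (⊤ : Subgroup (ZMod (L * 2))ˣ) 𝒪 _ _
  have hact' : ∀ t, ∃ P : MvPolynomial J 𝒪, ∀ z : Y,
      ((act t z : Y) : s48h_Hpar 𝒪 (s48h_GammaH (L * 2) (⊤ : Subgroup (ZMod (L * 2))ˣ)) 𝒪) =
        s59t_polyAct ops hc P z := by
    subst hops
    exact hact
  -- the `ε`-eigenspace of `U₂` in `Y`
  obtain ⟨Zs, hZs⟩ : ∃ Zs : Submodule 𝒪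
      (s48h_Hpar 𝒪 (s48h_GammaH (L * 2) (⊤ : Subgroup (ZMod (L * 2))ˣ)) 𝒪),
      Zs = Y ⊓ LinearMap.ker (U2 - ε • 1) := ⟨_, rfl⟩
  have hmemZ : ∀ z, z ∈ Zs ↔ z ∈ Y ∧ U2 z = ε • z := by
    intro z
    rw [hZs, Submodule.mem_inf, LinearMap.mem_ker, LinearMap.sub_apply, LinearMap.smul_apply,
      Module.End.one_apply, sub_eq_zero]
  have hstab : ∀ (j : s59w_AIdx (L * 2)), ∀ z ∈ Zs,
      s59w_op (⊤ : Subgroup (ZMod (L * 2))ˣ) 𝒪 j z ∈ Zs := by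
    intro j z hz
    rw [hmemZ] at hz ⊢
    exact ⟨hYstab j z hz.1, by rw [hUcomm, hz.2, map_smul]⟩
  haveI : Module.Finite 𝒪 ↥Zs := Module.IsNoetherian.finite 𝒪 ↥Zs
  haveI : Module.IsTorsionFree 𝒪 ↥Zs := inferInstance
  haveI : Module.Free 𝒪 ↥Zs := Module.free_of_finite_type_torsion_free' (R := 𝒪) (M := ↥Zs)
  have hvZ : v ∈ Zs := (hmemZ v).mpr ⟨hvY, hUv⟩
  haveI : Nontrivial ↥Zs := ⟨⟨⟨v, hvZ⟩, 0, fun h => hv0 (congrArg Subtype.val h)⟩⟩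
  exact s59pt_base1_aux p hp2 hL2 𝒪 hp𝒪 B hpB hNB idx hJ Y T act ρT tr hfrob hacttr ε hε
    (Z := ↥Zs) Zs.subtype Zs.injective_subtype
    (fun j => (s59w_op (⊤ : Subgroup (ZMod (L * 2))ˣ) 𝒪 j).restrict (hstab j)) (fun j z => rfl)
    (fun z => by
      have h1 := ((hmemZ z.1).mp z.2).2
      rw [hU2] at h1
      exact h1)
    (fun z => ((hmemZ z.1).mp z.2).1) ops hops hc hact'

end Fermat.Agent.Lib.S59

end
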