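/-
PROGRAMME (R2) = S59, leaf [RES-ES] (helper6, prefix `s59q_res_`): **THE CONGRUENCE AT A PRIME `q ∤ M p` WHERE `W` MAY BE BAD.**

For a normalised eigenform `f` of level `M` which is congruent to `W` modulo a maximal ideal `𝔪 ∋ p` of `ℤ̄` (at the good primes `ℓ ∤ M p` of
`W`), and ANY prime `q ∤ M p` (`W` possibly BAD at `q`), the coefficient `a_q(f)` is congruent modulo `𝔪` to the trace of `ρ̄_{W,p}` at a Frobenius
element at `q`:  `tr ρ̄_W(φ) = n̄`, `n ∈ ℤ` ⟹ `a_q(f) ≡ n (mod 𝔪)`.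

Proof (as in helper3's [CONG-ALL], UCongAll.lean): the residual representation `ρ̄_f` over `k = ℤ̄ / 𝔪` (`s29pk_two_dim`) and `ρ̄_W` over the residue
field of `𝒪` (embedded in `k`, which is algebraically closed) have the same characteristic polynomial at the Frobenius elements of the primes outside
a finite set; every element of a finite Galois level is a POWER of such a Frobenius (`s29d_frobDensity`), and in rank two `tr (A ^ j)` is the Lucas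
polynomial `V_j(tr A, det A)`; so the two trace functions agree on `G_ℚ`, in particular at `φ`; and `tr ρ̄_f(φ) = a_q(f) mod 𝔪` since `q ∤ M p`.

* `s59q_res_exists_rhoG`  : `ρ̄_f` over an abstract ALGEBRAICALLY CLOSED field of characteristic `p`;
* `s59q_res_exists_embed` : a finite field of characteristic `p` embeds in an algebraically closed field of characteristic `p`;
* `s59q_res_traces`       : the two trace functions agree on `G_ℚ`;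
* **`s59q_res_ES`**       : the congruence at `q`.
-/
import Mathlib
import Fermat.Agent.Lib.S59.UCongAll

set_option autoImplicit false
set_option linter.unusedSectionVars false
set_option linter.unusedVariables false
set_option linter.style.haveILetI false

open Polynomial IsLocalRing

noncomputable section

namespace Fermat.Agent.Lib.S59

open Fermat.Agent.Lib.S29 Fermat.Agent.Lib.S44

local notation "Zbar" => integralClosure ℤ ℂ
local notation "Qbar" => AlgebraicClosure ℚ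
local notation "Γℚ" => (AlgebraicClosure ℚ ≃ₐ[ℚ] AlgebraicClosure ℚ)

attribute [local instance] Ideal.Quotient.field in
/-- **the residual representation of an eigenform modulo `𝔪`**, over an abstract algebraically closed field. -/
theorem s59q_res_exists_rhoG {M : ℕ} [NeZero M] {g : CuspForm (CongruenceSubgroup.Gamma0 M) 2}
    (hg : g.IsNormalizedEigenform) (p : ℕ) [Fact p.Prime] (𝔪 : Ideal Zbar) (hmax : 𝔪.IsMaximal)
    (hp𝔪 : (p : Zbar) ∈ 𝔪) :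
    ∃ (k : Type) (_ : Field k) (_ : CharP k p) (_ : IsAlgClosed k) (φ : Zbar →+* k)
      (ρ' : Γℚ →* Module.End k (Fin 2 → k)),
      (∀ x : Zbar, φ x = 0 ↔ x ∈ 𝔪) ∧
      (∃ L : IntermediateField ℚ Qbar, FiniteDimensional ℚ L ∧
        ∀ σ : Γℚ, (∀ x ∈ L, σ x = x) → ρ' σ = 1) ∧
      (∀ ℓ : ℕ, ℓ.Prime → ¬ ℓ ∣ M * p →
        ∀ A : ValuationSubring Qbar, A.LiesOverPrime ℓ → ∀ σ : Γℚ, A.IsFrobeniusAt σ ℓ →
          ∃ a : Zbar, (a : ℂ) = ModularFormClass.qCoeff g ℓ ∧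
            LinearMap.charpoly (ρ' σ) = X ^ 2 - C (φ a) * X + C ((ℓ : k))) := by
  have := hmax
  have hchar : CharP (Zbar ⧸ 𝔪) p := s29pk_charP_quotient 𝔪 hp𝔪
  have hac : IsAlgClosed (Zbar ⧸ 𝔪) := s29pk_isAlgClosed 𝔪
  let _ : Algebra (ZMod p) (Zbar ⧸ 𝔪) := ZMod.algebra _ p
  obtain ⟨ρ', hL, hloc⟩ := s29pk_two_dim (s29g_GSOut s29a_eigenSupportFinal) hg (p := p)
    (Ideal.Quotient.mk 𝔪)
  refine ⟨Zbar ⧸ 𝔪, inferInstance, hchar, hac, Ideal.Quotient.mk 𝔪, ρ', ?_, hL, ?_⟩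
  · intro x
    exact Ideal.Quotient.eq_zero_iff_mem
  · intro ℓ hℓ hℓN A hA σ hσ
    exact (hloc ℓ hℓ hℓN A hA).2 σ hσ

/-- a finite field of characteristic `p` embeds in an algebraically closed field of characteristic `p`. -/
theorem s59q_res_exists_embed (p : ℕ) [Fact p.Prime] (F : Type) [Field F] [Finite F] [CharP F p]
    (k : Type) [Field k] [CharP k p] [IsAlgClosed k] : Nonempty (F →+* k) := by
  letI : Algebra (ZMod p) F := ZMod.algebra F p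
  letI : Algebra (ZMod p) k := ZMod.algebra k p
  haveI : Module.Finite (ZMod p) F := Module.Finite.of_finite
  haveI : Algebra.IsAlgebraic (ZMod p) F := Algebra.IsAlgebraic.of_finite (ZMod p) F
  exact ⟨(IsAlgClosed.lift : F →ₐ[ZMod p] k).toRingHom⟩

/-- **the two residual trace functions agree on `G_ℚ`.** -/
theorem s59q_res_traces (W : WeierstrassCurve ℤ) (hΔ : W.Δ ≠ 0) (p : ℕ) [Fact p.Prime]
    (hp2 : p ≠ 2) (hirr : W.ModRepIsIrreducible p) (M : ℕ) [NeZero M]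
    (f : CuspForm (CongruenceSubgroup.Gamma0 M) 2) (𝔪 : Ideal Zbar)
    (hf : f.IsNormalizedEigenform) (hmax : 𝔪.IsMaximal) (hpm : (p : Zbar) ∈ 𝔪)
    (hcong : ∀ ℓ : ℕ, ℓ.Prime → W.IsGoodPrimeFor ℓ → ¬ ℓ ∣ M → ℓ ≠ p →
      ∃ a : Zbar, (a : ℂ) = ModularFormClass.qCoeff f ℓ ∧
        a - ((W.apOfModel ℓ : ℤ) : Zbar) ∈ 𝔪)
    (𝒪 : Type) [CommRing 𝒪] [IsLocalRing 𝒪] [Algebra ℤ_[p] 𝒪] [Finite (ResidueField 𝒪)]
    (hp𝒪 : ((p : ℕ) : 𝒪) ∈ maximalIdeal 𝒪) :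
    ∃ (k : Type) (_ : Field k) (_ : CharP k p) (φ : Zbar →+* k) (ι : ResidueField 𝒪 →+* k)
      (ρ' : Γℚ →* Module.End k (Fin 2 → k)),
      (∀ x : Zbar, φ x = 0 ↔ x ∈ 𝔪) ∧
      (∀ ℓ : ℕ, ℓ.Prime → ¬ ℓ ∣ M * p →
        ∀ A : ValuationSubring Qbar, A.LiesOverPrime ℓ → ∀ σ : Γℚ, A.IsFrobeniusAt σ ℓ →
          ∃ a : Zbar, (a : ℂ) = ModularFormClass.qCoeff f ℓ ∧
            LinearMap.charpoly (ρ' σ) = X ^ 2 - C (φ a) * X + C ((ℓ : k))) ∧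
      ∀ g₀ : Γℚ, LinearMap.trace k (Fin 2 → k) (ρ' g₀) =
        ι (LinearMap.trace _ (s59i_rhobarW W p hΔ 𝒪 hp𝒪).V ((s59i_rhobarW W p hΔ 𝒪 hp𝒪).ρ g₀)) := by
  classical
  have hpp : p.Prime := Fact.out
  -- the two representations
  obtain ⟨k, ik, ichar, iac, φ, ρ', hφ, ⟨L₂, hL₂, hL₂σ⟩, hloc⟩ :=
    s59q_res_exists_rhoG hf p 𝔪 hmax hpm
  set ρW := s59i_rhobarW W p hΔ 𝒪 hp𝒪 with hρW
  obtain ⟨L₁, hL₁, hL₁σ⟩ := ρW.factorsThroughFiniteLevel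
  haveI : CharP (ResidueField 𝒪) p := s59e_charP_residue p hp𝒪
  obtain ⟨ι⟩ := s59q_res_exists_embed p (ResidueField 𝒪) k
  refine ⟨k, ik, ichar, φ, ι, ρ', hφ, hloc, ?_⟩
  -- a common Galois level
  obtain ⟨E, hE, hEn, h1E, h2E⟩ := s29pk_exists_galois_level L₁ L₂
  have hEst : ∀ σ : Γℚ, ∀ x ∈ E, σ x ∈ E := by
    intro σ x hx
    have := (IntermediateField.normal_iff_forall_map_le' (K := E)).mp hEn σ
    exact this ⟨x, hx, rfl⟩
  have h2k : Module.finrank k (Fin 2 → k) = 2 := by simp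
  -- the bad set
  set S : Finset ℕ := {p} ∪ M.primeFactors ∪ W.Δ.natAbs.primeFactors with hS
  -- Frobenius elements at the good primes
  have hfrob : ∀ ℓ : ℕ, ℓ.Prime → ℓ ≠ p → ¬ ℓ ∣ M → W.IsGoodPrimeFor ℓ →
      ∀ A : ValuationSubring Qbar, A.LiesOverPrime ℓ → ∀ σ : Γℚ, A.IsFrobeniusAt σ ℓ →
        LinearMap.trace k (Fin 2 → k) (ρ' σ) = ((W.apOfModel ℓ : ℤ) : k) ∧
          LinearMap.det (ρ' σ) = (ℓ : k) ∧
          ι (LinearMap.trace _ ρW.V (ρW.ρ σ)) = ((W.apOfModel ℓ : ℤ) : k) ∧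
          ι (LinearMap.det (ρW.ρ σ)) = (ℓ : k) := by
    intro ℓ hℓ hℓp hℓM hgood A hA σ hσ
    have hℓMp : ¬ ℓ ∣ M * p := by
      intro hd
      rcases hℓ.dvd_mul.mp hd with h | h
      · exact hℓM h
      · exact hℓp ((Nat.prime_dvd_prime_iff_eq hℓ hpp).mp h)
    obtain ⟨a, ha, hchar⟩ := hloc ℓ hℓ hℓMp A hA σ hσ
    obtain ⟨e1, e2⟩ := s59u_trdet_of_charpoly h2k (ρ' σ) _ _ hchar
    have hcharW := s59b_rhobar_charpoly_frob (𝒪 := 𝒪) (W := W) (p := p) hΔ hp2 hirr hp𝒪 ℓ hℓ hℓp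
      hgood A hA σ hσ
    obtain ⟨e3, e4⟩ := s59u_trdet_of_charpoly ρW.finrank_eq (ρW.ρ σ) _ _ hcharW
    obtain ⟨α, hα, hmem⟩ := hcong ℓ hℓ hgood hℓM hℓp
    have haα : a = α := Subtype.ext (ha.trans hα.symm)
    have h0 : φ (α - ((W.apOfModel ℓ : ℤ) : Zbar)) = 0 := (hφ _).mpr hmem
    rw [map_sub, map_intCast, sub_eq_zero] at h0
    refine ⟨?_, e2, ?_, ?_⟩
    · rw [e1, haα, h0]
    · rw [e3, map_intCast, map_intCast]
    · rw [e4, map_natCast, map_natCast]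
  intro g₀
  obtain ⟨ℓ, A, σ, j, hℓ, hℓS, hA, hσ, hσg⟩ := s29d_frobDensity E hE hEst S g₀
  have hℓp : ℓ ≠ p := fun h => hℓS (Finset.mem_union_left _ (Finset.mem_union_left _
    (by rw [h]; exact Finset.mem_singleton_self _)))
  have hℓM : ¬ ℓ ∣ M := fun h => hℓS (Finset.mem_union_left _ (Finset.mem_union_right _
    (Nat.mem_primeFactors.mpr ⟨hℓ, h, NeZero.ne M⟩)))
  have hgood : W.IsGoodPrimeFor ℓ := by
    intro hdvd
    apply hℓS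
    apply Finset.mem_union_right
    rw [Nat.mem_primeFactors]
    exact ⟨hℓ, Int.natCast_dvd.mp hdvd, Int.natAbs_ne_zero.mpr hΔ⟩
  obtain ⟨e1, e2, e3, e4⟩ := hfrob ℓ hℓ hℓp hℓM hgood A hA σ hσ
  have hA1 : ρ' g₀ = ρ' (σ ^ j) :=
    s59u_rep_eq_of_agree ρ' L₂ hL₂σ g₀ (σ ^ j) (fun x hx => (hσg x (h2E hx)).symm)
  have hA2 : ρW.ρ g₀ = ρW.ρ (σ ^ j) :=
    s59u_rep_eq_of_agree ρW.ρ L₁ hL₁σ g₀ (σ ^ j) (fun x hx => (hσg x (h1E hx)).symm)
  have hB1 := s59u_trace_rep_pow h2k ρ' (RingHom.id k) σ j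
  have hB2 := s59u_trace_rep_pow ρW.finrank_eq ρW.ρ ι σ j
  rw [hA1, hA2, hB2]
  have hB1' : LinearMap.trace k (Fin 2 → k) (ρ' (σ ^ j)) =
      s59u_lucasV (LinearMap.trace k (Fin 2 → k) (ρ' σ)) (LinearMap.det (ρ' σ)) j := hB1
  rw [hB1', e1, e2, e3, e4]

/-- **[RES-ES]: the congruence at a prime `q ∤ M p`, `W` possibly bad at `q`.** -/
theorem s59q_res_ES (W : WeierstrassCurve ℤ) (hΔ : W.Δ ≠ 0) (p : ℕ) [Fact p.Prime]
    (hp2 : p ≠ 2) (hirr : W.ModRepIsIrreducible p) (M : ℕ) [NeZero M]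
    (f : CuspForm (CongruenceSubgroup.Gamma0 M) 2) (𝔪 : Ideal Zbar)
    (hf : f.IsNormalizedEigenform) (hmax : 𝔪.IsMaximal) (hpm : (p : Zbar) ∈ 𝔪)
    (hcong : ∀ ℓ : ℕ, ℓ.Prime → W.IsGoodPrimeFor ℓ → ¬ ℓ ∣ M → ℓ ≠ p →
      ∃ a : Zbar, (a : ℂ) = ModularFormClass.qCoeff f ℓ ∧
        a - ((W.apOfModel ℓ : ℤ) : Zbar) ∈ 𝔪)
    (q : ℕ) (hq : q.Prime) (hqM : ¬ q ∣ M) (hqp : q ≠ p)
    (A : ValuationSubring Qbar) (hA : A.LiesOverPrime q) (φq : Γℚ) (hφq : A.IsFrobeniusAt φq q)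
    (𝒪 : Type) [CommRing 𝒪] [IsLocalRing 𝒪] [Algebra ℤ_[p] 𝒪] [Finite (ResidueField 𝒪)]
    (hp𝒪 : ((p : ℕ) : 𝒪) ∈ maximalIdeal 𝒪) (n : ℤ)
    (hn : LinearMap.trace _ (s59i_rhobarW W p hΔ 𝒪 hp𝒪).V ((s59i_rhobarW W p hΔ 𝒪 hp𝒪).ρ φq) =
      ((n : ℤ) : ResidueField 𝒪)) :
    ∃ a : Zbar, (a : ℂ) = ModularFormClass.qCoeff f q ∧ a - ((n : ℤ) : Zbar) ∈ 𝔪 := by
  have hpp : p.Prime := Fact.out
  obtain ⟨k, ik, ichar, φ, ι, ρ', hφ, hloc, hTT⟩ :=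
    s59q_res_traces W hΔ p hp2 hirr M f 𝔪 hf hmax hpm hcong 𝒪 hp𝒪
  have hqMp : ¬ q ∣ M * p := by
    intro hd
    rcases hq.dvd_mul.mp hd with h | h
    · exact hqM h
    · exact hqp ((Nat.prime_dvd_prime_iff_eq hq hpp).mp h)
  obtain ⟨a, ha, hchar⟩ := hloc q hq hqMp A hA φq hφq
  have h2k : Module.finrank k (Fin 2 → k) = 2 := by simp
  obtain ⟨e1, -⟩ := s59u_trdet_of_charpoly h2k (ρ' φq) _ _ hchar
  refine ⟨a, ha, ?_⟩
  apply (hφ _).mp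
  rw [map_sub, map_intCast, ← e1, hTT φq, hn, map_intCast, sub_self]

end Fermat.Agent.Lib.S59

end
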