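/-
PROGRAMME (R2) = S59, leaf [S41±] (helper1, prefix `s59sg_`), part 2: **the cohomological level raising WITH THE SIGN.**

`s59sg_coh` = `s41_coh_of_ihara2` (Lib/S41/GMain2.lean, helper5) where the sign `ε` (`ε² = 1`,
`e(q') = ε (q' + 1)`) is an INPUT, and the output also carries the matrix `tU` of `U_{q'}^H` on the new lattice
(`U = −w` there) with `(tU mod p) v = ε v`.  When `q' + 1 = 0` in `𝔽_p` (e.g. `(p, q') = (3, 2)`) BOTH signs are admissible.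
-/
import Mathlib
import Fermat.Agent.Lib.S41.GMain2
import Fermat.Agent.Lib.S59.GSgnAbs

set_option autoImplicit false
set_option linter.unusedSectionVars false
set_option linter.style.haveILetI false

open scoped CongruenceSubgroup TensorProduct

namespace Fermat.Agent.Lib.S59

open Fermat.Agent.Lib.S41 Fermat.Agent.Lib.S29 CongruenceSubgroup

noncomputable section

section Ops

variable (N q' : ℕ) [hq' : Fact q'.Prime] (hq'N : ¬ q' ∣ N) (p : ℕ)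

/-- `w : H(N q', ℤ) → H(N q', ℤ)`. -/
def s59sg_wZ : s29s_M (N * q') →ₗ[ℤ] s29s_M (N * q') :=
  ((s41l_w N q' hq'N ℤ).toIntLinearMap.comp (s29s_M (N * q')).subtype).codRestrict
    (s29s_M (N * q')) fun x => s41l_w_mem_Hpar N q' hq'N ℤ x.2

theorem s59sg_wZ_coe (x : s29s_M (N * q')) :
    ((s59sg_wZ N q' hq'N x : s29s_M (N * q')) : Additive (Gamma0 (N * q')) →+ ℤ) =
      s41l_w N q' hq'N ℤ (x : Additive (Gamma0 (N * q')) →+ ℤ) := rfl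

/-- `w : H(N q', 𝔽_p) → H(N q', 𝔽_p)`. -/
def s59sg_wp : s29h_Hp (N * q') p →ₗ[ZMod p] s29h_Hp (N * q') p :=
  (((s41l_w N q' hq'N (ZMod p)).toZModLinearMap p).comp
    (s29h_Hp (N * q') p).subtype).codRestrict
    (s29h_Hp (N * q') p) fun x => s41l_w_mem_Hpar N q' hq'N (ZMod p) x.2

theorem s59sg_wp_coe (x : s29h_Hp (N * q') p) :
    ((s59sg_wp N q' hq'N p x : s29h_Hp (N * q') p) : Additive (Gamma0 (N * q')) →+ ZMod p) =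
      s41l_w N q' hq'N (ZMod p) (x : Additive (Gamma0 (N * q')) →+ ZMod p) := rfl

/-- compatibility of `w` with the reductions. -/
theorem s59sg_wp_red (x : s29s_M (N * q')) :
    s59sg_wp N q' hq'N p (s41g_red (N * q') p x) = s41g_red (N * q') p (s59sg_wZ N q' hq'N x) :=
  Subtype.ext ((s41l_famW N q' hq'N).op_natural (Int.castAddHom (ZMod p)) _)

/-- `w` preserves `ker cor_A ∩ ker cor_B`. -/
theorem s59sg_wZ_ker (x : s29s_M (N * q'))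
    (hA : s41g_cAZ N q' hq'N x = 0) (hB : s41g_cBZ N q' hq'N x = 0) :
    s41g_cAZ N q' hq'N (s59sg_wZ N q' hq'N x) = 0 ∧
      s41g_cBZ N q' hq'N (s59sg_wZ N q' hq'N x) = 0 := by
  have hA' : s41l_corA N q' hq'N ℤ (x : Additive (Gamma0 (N * q')) →+ ℤ) = 0 :=
    congrArg (fun z : s29s_M N => (z : Additive (Gamma0 N) →+ ℤ)) hA
  have hB' : s41l_corB N q' hq'N ℤ (x : Additive (Gamma0 (N * q')) →+ ℤ) = 0 :=
    congrArg (fun z : s29s_M N => (z : Additive (Gamma0 N) →+ ℤ)) hB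
  refine ⟨Subtype.ext ?_, Subtype.ext ?_⟩
  · rw [s41g_cAZ_coe, s59sg_wZ_coe, s41l_corA_w, hB']
    rfl
  · rw [s41g_cBZ_coe, s59sg_wZ_coe, s41l_corB_w, hA']
    rfl

/-- `w ∘ res_A = res_B`. -/
theorem s59sg_wp_resAp (x : s29h_Hp N p) :
    s59sg_wp N q' hq'N p (s41g_resAp N q' p x) = s41g_resBp N q' hq'N p x := by
  apply Subtype.ext
  rw [s59sg_wp_coe, s41g_resAp_coe, s41g_resBp_coe, s41l_resB_eq]

/-- `w ∘ res_B = res_A`. -/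
theorem s59sg_wp_resBp (x : s29h_Hp N p) :
    s59sg_wp N q' hq'N p (s41g_resBp N q' hq'N p x) = s41g_resAp N q' p x := by
  apply Subtype.ext
  rw [s59sg_wp_coe, s41g_resAp_coe, s41g_resBp_coe, s41l_resB_eq, s41l_w_w]

end Ops

/-- The output of the cohomological level raising with the sign, in coordinates. -/
def s59sg_CohOut (N q' : ℕ) [Fact q'.Prime] [NeZero (N * q')] (p : ℕ) {k : Type} [Field k]
    [Algebra (ZMod p) k] (e : Nat.Primes → k) (ε : ZMod p) : Prop :=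
  ∃ (r : ℕ) (b : Fin r → (Additive (Gamma0 (N * q')) →+ ℤ))
    (t : Nat.Primes → Matrix (Fin r) (Fin r) ℤ) (tU : Matrix (Fin r) (Fin r) ℤ),
    LinearIndependent ℤ b ∧ (∀ j, b j ∈ s29s_M (N * q')) ∧
    (∀ ℓ : Nat.Primes, ¬ (ℓ : ℕ) ∣ N * q' → ∀ j, s41_TlZ (N * q') ℓ (b j) = ∑ i, t ℓ i j • b i) ∧
    (∀ j, s41l_U N q' ℤ (b j) = ∑ i, tU i j • b i) ∧
    (∀ j, s41l_U N q' ℤ (s41l_U N q' ℤ (b j)) = b j) ∧
    (∀ ℓ : Nat.Primes, ¬ (ℓ : ℕ) ∣ N * q' → ∀ j,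
      s41l_U N q' ℤ (s41_TlZ (N * q') ℓ (b j)) = s41_TlZ (N * q') ℓ (s41l_U N q' ℤ (b j))) ∧
    ∃ v : Fin r → k, v ≠ 0 ∧
      (∀ ℓ : Nat.Primes, ¬ (ℓ : ℕ) ∣ N * q' * p →
        ((t ℓ).map (Int.cast : ℤ → k)).mulVec v = e ℓ • v) ∧
      (tU.map (Int.cast : ℤ → k)).mulVec v = algebraMap (ZMod p) k ε • v

/-- from coordinates in `ker (cor_A, cor_B) ⊆ H(N q', ℤ)` to `s59sg_CohOut`. -/
theorem s59sg_coh_finish (N q' : ℕ) [Fact q'.Prime] (hq'N : ¬ q' ∣ N) [NeZero (N * q')]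
    {k : Type} [Field k] (p : ℕ) [Algebra (ZMod p) k] (e : Nat.Primes → k) (ε : ZMod p)
    (main : ∃ (n : ℕ) (b : Fin n → s29s_M (N * q')) (t : Nat.Primes → Matrix (Fin n) (Fin n) ℤ)
      (tw : Matrix (Fin n) (Fin n) ℤ),
      LinearIndependent ℤ b ∧
      (∀ j, s41g_cAZ N q' hq'N (b j) = 0 ∧ s41g_cBZ N q' hq'N (b j) = 0) ∧
      (∀ i j, s41g_TZ (N * q') i (b j) = ∑ i', t i i' j • b i') ∧
      (∀ j, s59sg_wZ N q' hq'N (b j) = ∑ i', tw i' j • b i') ∧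
      ∃ v : Fin n → k, v ≠ 0 ∧
        (∀ i : Nat.Primes, ¬ (i : ℕ) ∣ N * q' * p →
          ((t i).map (Int.cast : ℤ → k)).mulVec v = e i • v) ∧
        (tw.map (Int.cast : ℤ → k)).mulVec v = algebraMap (ZMod p) k (-ε) • v) :
    s59sg_CohOut N q' p e ε := by
  obtain ⟨n, b, t, tw, hb, hbK, hT, hW, v, hv, hvT, hvW⟩ := main
  have hA : ∀ j, s41l_corA N q' hq'N ℤ ((b j : s29s_M (N * q')) :
      Additive (Gamma0 (N * q')) →+ ℤ) = 0 := fun j =>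
    congrArg (fun z : s29s_M N => (z : Additive (Gamma0 N) →+ ℤ)) (hbK j).1
  have hB : ∀ j, s41l_corB N q' hq'N ℤ ((b j : s29s_M (N * q')) :
      Additive (Gamma0 (N * q')) →+ ℤ) = 0 := fun j =>
    congrArg (fun z : s29s_M N => (z : Additive (Gamma0 N) →+ ℤ)) (hbK j).2
  have hTcoe : ∀ (ℓ : Nat.Primes) (j : Fin n), s41_TlZ (N * q') ℓ
      ((b j : s29s_M (N * q')) : Additive (Gamma0 (N * q')) →+ ℤ) =
      ((s41g_TZ (N * q') ℓ (b j) : s29s_M (N * q')) : Additive (Gamma0 (N * q')) →+ ℤ) :=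
    fun ℓ j => rfl
  refine ⟨n, fun j => ((b j : s29s_M (N * q')) : Additive (Gamma0 (N * q')) →+ ℤ), t, -tw, ?_,
    fun j => (b j).2, ?_, ?_, ?_, ?_, v, hv, hvT, ?_⟩
  · exact hb.map' (s29s_M (N * q')).subtype (Submodule.ker_subtype _)
  · intro ℓ _ j
    have h1 := congrArg (fun z : s29s_M (N * q') => (z : Additive (Gamma0 (N * q')) →+ ℤ)) (hT ℓ j)
    simp only [Submodule.coe_sum, Submodule.coe_smul] at h1
    exact h1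
  · intro j
    rw [s41l_U_eq_neg_w N q' hq'N _ (hB j)]
    have h1 := congrArg (fun z : s29s_M (N * q') => (z : Additive (Gamma0 (N * q')) →+ ℤ)) (hW j)
    simp only [Submodule.coe_sum, Submodule.coe_smul] at h1
    rw [← s59sg_wZ_coe, h1, ← Finset.sum_neg_distrib]
    refine Finset.sum_congr rfl fun i _ => ?_
    rw [Matrix.neg_apply, neg_smul]
  · intro j
    exact s41l_U_U_of_ker N q' hq'N _ (hA j) (hB j)
  · intro ℓ hℓ j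
    haveI : Fact (ℓ : ℕ).Prime := ⟨ℓ.2⟩
    have hK := s41g_TZ_ker N q' hq'N ℓ (b j) (hbK j).1 (hbK j).2
    have hB' : s41l_corB N q' hq'N ℤ (s41_TlZ (N * q') ℓ
        ((b j : s29s_M (N * q')) : Additive (Gamma0 (N * q')) →+ ℤ)) = 0 := by
      rw [hTcoe]
      exact congrArg (fun z : s29s_M N => (z : Additive (Gamma0 N) →+ ℤ)) hK.2
    rw [s41l_U_eq_neg_w N q' hq'N _ hB', s41l_U_eq_neg_w N q' hq'N _ (hB j), map_neg]
    congr 1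
    exact s41l_w_hecke N q' hq'N (ℓ : ℕ) hℓ _
  · rw [Matrix.map_neg _ (fun a : ℤ => Int.cast_neg a), Matrix.neg_mulVec, hvW, map_neg, neg_smul,
      neg_neg]

/-- **Cohomological level raising with the sign, [K] route.** -/
theorem s59sg_coh (hI : s41_Ihara2) (N : ℕ) [NeZero N] (q' : ℕ) [hq'F : Fact q'.Prime]
    (hq'N : ¬ q' ∣ N) (p : ℕ) [Fact p.Prime] (hp2 : p ≠ 2) (hq'p : q' ≠ p)
    (k : Type) [Field k] [Algebra (ZMod p) k] (e : Nat.Primes → k)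
    (w : k ⊗[ZMod p] s29h_Hp N p) (hw0 : w ≠ 0)
    (heig : ∀ ℓ : Nat.Primes, ¬ (ℓ : ℕ) ∣ N * p → (s29h_Tl N p ℓ).baseChange k w = e ℓ • w)
    (ε : ZMod p) (hε : ε * ε = 1)
    (heq : e (s41g_qP q') = algebraMap (ZMod p) k (ε * (((q' + 1 : ℕ)) : ZMod p)))
    (hne : ∃ ℓ₀ : Nat.Primes, ¬ (ℓ₀ : ℕ) ∣ N * q' * p ∧ e ℓ₀ ^ 2 ≠ (((ℓ₀ : ℕ) : k) + 1) ^ 2)
    [NeZero (N * q')] : s59sg_CohOut N q' p e ε := by
  have hq' : q'.Prime := hq'F.out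
  obtain ⟨ℓ₀, hℓ₀, hne⟩ := hne
  haveI : Fact (ℓ₀ : ℕ).Prime := ⟨ℓ₀.2⟩
  have hp0 : (p : ℤ) ≠ 0 := by exact_mod_cast (Fact.out : p.Prime).ne_zero
  -- divisibility bookkeeping
  have hJq : ∀ ℓ : Nat.Primes, ¬ (ℓ : ℕ) ∣ N * q' * p → ¬ (ℓ : ℕ) ∣ N * q' :=
    fun ℓ h h' => h (Dvd.dvd.mul_right h' p)
  have hJp : ∀ ℓ : Nat.Primes, ¬ (ℓ : ℕ) ∣ N * q' * p → ¬ (ℓ : ℕ) ∣ N * p := by
    intro ℓ h h'
    apply h
    have : N * p ∣ N * q' * p := ⟨q', by ring⟩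
    exact h'.trans this
  have hqNp : ¬ ((s41g_qP q' : Nat.Primes) : ℕ) ∣ N * p := by
    show ¬ q' ∣ N * p
    intro h
    rcases (Nat.Prime.dvd_mul hq').mp h with h1 | h1
    · exact hq'N h1
    · exact hq'p ((Nat.prime_dvd_prime_iff_eq hq' (Fact.out : p.Prime)).mp h1)
  -- Ihara (weak form) at `ℓ₀`, and `θ`
  have hIh := hI N q' hq'N p hp2 hq'p (ℓ₀ : ℕ) hℓ₀
  have hℓ₀N : ¬ (ℓ₀ : ℕ) ∣ N := fun h => hℓ₀ ((h.mul_right q').mul_right p)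
  have hθ := s41g_theta2 N q' p (ℓ₀ : ℕ) hq'N hℓ₀N hp2 hIh
  -- the scalar `a = (ℓ₀ + 1)²` and the eigenvalue `lam = (e ℓ₀² - a)²`
  set a : ℤ := (((ℓ₀ : ℕ) : ℤ) + 1) ^ 2 with ha
  obtain ⟨aP, haP⟩ : ∃ aP : ZMod p, aP = ((a : ℤ) : ZMod p) := ⟨_, rfl⟩
  have haZ : aP = (((ℓ₀ : ℕ) : ZMod p) + 1) ^ 2 := by
    rw [haP, ha]
    push_cast
    rfl
  have hak : algebraMap (ZMod p) k aP = (((ℓ₀ : ℕ) : k) + 1) ^ 2 := by
    rw [haP, map_intCast, ha]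
    push_cast
    rfl
  have hμ : e ℓ₀ * e ℓ₀ - algebraMap (ZMod p) k aP ≠ 0 := by
    rw [hak, ← sq]
    exact sub_ne_zero.mpr hne
  obtain ⟨lam, hlamdef⟩ : ∃ lam : k, lam = (e ℓ₀ * e ℓ₀ - algebraMap (ZMod p) k aP) *
      (e ℓ₀ * e ℓ₀ - algebraMap (ZMod p) k aP) := ⟨_, rfl⟩
  have hlam : lam ≠ 0 := by
    rw [hlamdef]
    exact mul_ne_zero hμ hμ
  -- hypotheses of the abstract glue
  have htf : ∀ x : s29s_M N, (p : ℤ) • x = 0 → x = 0 := by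
    intro x hx
    rcases smul_eq_zero.mp hx with h | h
    · exact absurd h hp0
    · exact h
  have hIh' : ∀ x y : s29h_Hp N p, s41g_resAp N q' p x + s41g_resBp N q' hq'N p y = 0 →
      s41g_P (s29h_Tl N p ℓ₀) aP x = 0 := by
    intro x y hxy
    have h1 : s41l_resA N q' (ZMod p) (x : Additive (Gamma0 N) →+ ZMod p) +
        s41l_resB N q' hq'N (ZMod p) (y : Additive (Gamma0 N) →+ ZMod p) = 0 :=
      congrArg (fun z : s29h_Hp (N * q') p => (z : Additive (Gamma0 (N * q')) →+ ZMod p)) hxy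
    have h2 := hIh _ x.2 _ y.2 h1
    rw [s41g_P_expand]
    apply Subtype.ext
    have h3 : (((ℓ₀ : ℕ) : ZMod p) + 1) ^ 2 * (((ℓ₀ : ℕ) : ZMod p) + 1) ^ 2 =
        (((ℓ₀ : ℕ) : ZMod p) + 1) ^ 4 := by ring
    rw [haZ, h3]
    exact h2
  have hθ' : ∀ y₁ y₂ : s29s_M N, ∃ (z : s29s_M (N * q')) (y₁' y₂' : s29s_M N),
      s41g_P (s41g_TZ N ℓ₀) a y₁ = s41g_cAZ N q' hq'N z + p • y₁' ∧
      s41g_P (s41g_TZ N ℓ₀) a y₂ = s41g_cBZ N q' hq'N z + p • y₂' := by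
    intro y₁ y₂
    obtain ⟨z, hz, y₁', hy₁', y₂', hy₂', h1, h2⟩ := hθ y₁.1 y₁.2 y₂.1 y₂.2
    have h3 : a * a = (((ℓ₀ : ℕ) : ℤ) + 1) ^ 4 := by rw [ha]; ring
    refine ⟨⟨z, hz⟩, ⟨y₁', hy₁'⟩, ⟨y₂', hy₂'⟩, ?_, ?_⟩
    · rw [s41g_P_expand, h3, ← natCast_zsmul]
      exact Subtype.ext h1
    · rw [s41g_P_expand, h3, ← natCast_zsmul]
      exact Subtype.ext h2
  have hcAθ : ∀ x : s29s_M (N * q'),
      s41g_cAZ N q' hq'N (s41g_P (s41g_TZ (N * q') ℓ₀) a x) =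
        s41g_P (s41g_TZ N ℓ₀) a (s41g_cAZ N q' hq'N x) :=
    s41g_P_comm (s41g_cAZ N q' hq'N) (s41g_TZ (N * q') ℓ₀) (s41g_TZ N ℓ₀)
      (s41g_cAZ_TZ N q' hq'N ℓ₀ (hJq ℓ₀ hℓ₀)) a
  have hcBθ : ∀ x : s29s_M (N * q'),
      s41g_cBZ N q' hq'N (s41g_P (s41g_TZ (N * q') ℓ₀) a x) =
        s41g_P (s41g_TZ N ℓ₀) a (s41g_cBZ N q' hq'N x) :=
    s41g_P_comm (s41g_cBZ N q' hq'N) (s41g_TZ (N * q') ℓ₀) (s41g_TZ N ℓ₀)
      (s41g_cBZ_TZ N q' hq'N ℓ₀ (hJq ℓ₀ hℓ₀)) a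
  have hθbr : ∀ x : s29s_M (N * q'),
      s41g_P (s29h_Tl (N * q') p ℓ₀) aP (s41g_red (N * q') p x) =
        s41g_red (N * q') p (s41g_P (s41g_TZ (N * q') ℓ₀) a x) :=
    fun x => by
      rw [haP]
      exact s41g_P_red (s41g_red (N * q') p) (s41g_TZ (N * q') ℓ₀) (s29h_Tl (N * q') p ℓ₀)
        (s41g_Tl_red (N * q') p ℓ₀) a x
  have hθpw : (s41g_P (s29h_Tl N p ℓ₀) aP).baseChange k w = lam • w := by
    rw [hlamdef]
    exact s41g_bc_P (s29h_Tl N p ℓ₀) aP w (e ℓ₀) (heig ℓ₀ (hJp ℓ₀ hℓ₀))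
  have hθbu : ∀ u : k ⊗[ZMod p] s29h_Hp (N * q') p,
      (∀ ℓ : Nat.Primes, ¬ (ℓ : ℕ) ∣ N * q' * p →
        (s29h_Tl (N * q') p ℓ).baseChange k u = e ℓ • u) →
      (s41g_P (s29h_Tl (N * q') p ℓ₀) aP).baseChange k u = lam • u :=
    fun u hu => by
      rw [hlamdef]
      exact s41g_bc_P (s29h_Tl (N * q') p ℓ₀) aP u (e ℓ₀) (hu ℓ₀ hℓ₀)
  have main := s59sg_abs_main (p := p) (k := k) (L := s29s_M N) (L' := s29s_M (N * q'))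
    (V := s29h_Hp N p) (V' := s29h_Hp (N * q') p)
    (s41g_red N p) (s41g_red (N * q') p) (s41g_red_surjective (N * q') p)
    (s41g_red_ker N p) (s41g_red_ker (N * q') p) htf
    (s41g_cAZ N q' hq'N) (s41g_cBZ N q' hq'N) (s41g_cAp N q' hq'N p) (s41g_cBp N q' hq'N p)
    (s41g_cAp_red N q' hq'N p) (s41g_cBp_red N q' hq'N p)
    (s41g_resAp N q' p) (s41g_resBp N q' hq'N p)
    (I := Nat.Primes) (fun ℓ => ¬ (ℓ : ℕ) ∣ N * q' * p)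
    (s41g_TZ (N * q')) (s29h_Tl (N * q') p) (s29h_Tl N p)
    (s41g_Tl_red (N * q') p)
    (fun ℓ x hA hB => s41g_TZ_ker N q' hq'N ℓ x hA hB)
    (s41g_qP q')
    (((q' + 1 : ℕ)) : ZMod p)
    (s41g_cAp_resAp N q' hq'N p) (s41g_cBp_resAp N q' hq'N p)
    (s41g_cAp_resBp N q' hq'N p) (s41g_cBp_resBp N q' hq'N p)
    (fun ℓ hℓ => s41g_Tl_resAp N q' p ℓ (hJq ℓ hℓ))
    (fun ℓ hℓ => s41g_Tl_resBp N q' hq'N p ℓ (hJq ℓ hℓ))
    e w hw0 (fun ℓ hℓ => heig ℓ (hJp ℓ hℓ)) (heig (s41g_qP q') hqNp)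
    ε hε heq
    (s41g_P (s41g_TZ (N * q') ℓ₀) a) (s41g_P (s41g_TZ N ℓ₀) a)
    (s41g_P (s29h_Tl (N * q') p ℓ₀) aP)
    (s41g_P (s29h_Tl N p ℓ₀) aP)
    lam hlam hcAθ hcBθ hθbr hθpw hθbu hIh' hθ'
    (s59sg_wZ N q' hq'N) (s59sg_wp N q' hq'N p)
    (s59sg_wp_red N q' hq'N p) (s59sg_wZ_ker N q' hq'N)
    (s59sg_wp_resAp N q' hq'N p) (s59sg_wp_resBp N q' hq'N p)
  exact s59sg_coh_finish N q' hq'N p e ε main

end

end Fermat.Agent.Lib.S59
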