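/-
Programme (R2) = S59, leaf [NEWCLASS±] (helper3, prefix `s59u_nc_`), file A: **the abstract part.**

`𝒪` local, `H` an `𝒪`-module, `β : Fin r → H` linearly independent, `op : J → End_𝒪 H` a commuting family
which acts on the `β_j` through matrices `t j` (`op i (β j) = ∑ l, t i l j • β l`), `c : J → 𝒪`, and a
coordinate vector `y ∈ 𝒪^r`, not in `𝔪 𝒪^r`, with `(t i) y ≡ c i y (mod 𝔪)`.  Then for EVERY polynomial `e`
with `1 − e ∈ (𝔪, X_j − c_j)` the vector `e · (∑ y_j β_j)` is NON-ZERO (`s59u_nc_abs`).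

* `s59u_nc_sign` : `U (x₀ + s U x₀) = s (x₀ + s U x₀)` when `U (U x₀) = x₀`, `s² = 1`;
* `s59u_nc_lift` : from an `𝔽_p`-eigenvector of integer matrices `t i` (values `a i`) and of `tU` (value `s`,
  `s² = 1`, `p` odd) to the INTEGER vector `y = x + s (tU x)`: `p ∤ y`, `(t i) y ≡ a i y (mod p)`.
-/
import Mathlib
import Fermat.Agent.Lib.S59.TPolyAct
import Fermat.Agent.Lib.S59.UW6Idem

set_option autoImplicit false
set_option linter.unusedSectionVars false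
set_option linter.style.haveILetI false
set_option linter.unusedVariables false

noncomputable section

namespace Fermat.Agent.Lib.S59

open IsLocalRing Matrix

section Abs

variable {𝒪 : Type*} [CommRing 𝒪] [IsLocalRing 𝒪] {H : Type*} [AddCommGroup H] [Module 𝒪 H]
  {r : ℕ} (β : Fin r → H) (hβ : LinearIndependent 𝒪 β)
  {J : Type*} (op : J → Module.End 𝒪 H) (hc : ∀ i j, op i * op j = op j * op i)
  (t : J → Matrix (Fin r) (Fin r) 𝒪) (hT : ∀ i j, op i (β j) = ∑ l, t i l j • β l) (c : J → 𝒪)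

/-- the coordinate map `𝒪^r → H`. -/
def s59u_nc_Phi : (Fin r → 𝒪) →ₗ[𝒪] H := Fintype.linearCombination 𝒪 β

theorem s59u_nc_Phi_apply (y : Fin r → 𝒪) : s59u_nc_Phi β y = ∑ j, y j • β j := by
  rw [s59u_nc_Phi, Fintype.linearCombination_apply]

include hβ in
theorem s59u_nc_Phi_injective : Function.Injective (s59u_nc_Phi (𝒪 := 𝒪) β) := by
  rw [injective_iff_map_eq_zero]
  intro g hg
  rw [s59u_nc_Phi_apply] at hg
  exact funext (Fintype.linearIndependent_iff.mp hβ g hg)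

include hT in
/-- `op i ∘ Φ = Φ ∘ (t i)`. -/
theorem s59u_nc_Phi_op (i : J) (y : Fin r → 𝒪) :
    op i (s59u_nc_Phi β y) = s59u_nc_Phi β ((t i) *ᵥ y) := by
  rw [s59u_nc_Phi_apply, s59u_nc_Phi_apply, map_sum]
  simp_rw [map_smul, hT, Finset.smul_sum, smul_smul]
  rw [Finset.sum_comm]
  refine Finset.sum_congr rfl fun l _ => ?_
  rw [← Finset.sum_smul]
  congr 1
  simp only [Matrix.mulVec, dotProduct]
  refine Finset.sum_congr rfl fun j _ => ?_
  rw [mul_comm]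

include hβ hc hT in
/-- **[NEWCLASS, abstract]** -/
theorem s59u_nc_abs (y : Fin r → 𝒪) (hy0 : ∃ j, y j ∉ maximalIdeal 𝒪)
    (hyT : ∀ i j, ((t i) *ᵥ y) j - c i * y j ∈ maximalIdeal 𝒪)
    (e : MvPolynomial J 𝒪) (he : 1 - e ∈ s59t_evalIdeal c) :
    s59t_polyAct op hc e (∑ j, y j • β j) ≠ 0 := by
  classical
  have hinj := s59u_nc_Phi_injective β hβ
  -- the operators on `𝒪^r`
  let op' : J → Module.End 𝒪 (Fin r → 𝒪) := fun i => Matrix.mulVecLin (t i)
  have hop' : ∀ i z, s59u_nc_Phi β (op' i z) = op i (s59u_nc_Phi β z) := fun i z =>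
    (s59u_nc_Phi_op β op t hT i z).symm
  have hc' : ∀ i j, op' i * op' j = op' j * op' i := by
    intro i j
    refine LinearMap.ext fun z => hinj ?_
    rw [Module.End.mul_apply, Module.End.mul_apply, hop', hop', hop', hop',
      ← Module.End.mul_apply, ← Module.End.mul_apply, hc]
  -- `y ∉ 𝔪 𝒪^r`
  obtain ⟨j₀, hj₀⟩ := hy0
  have hy0' : y ∉ (maximalIdeal 𝒪 • ⊤ : Submodule 𝒪 (Fin r → 𝒪)) := fun hmem =>
    hj₀ (s59u_functional_mem (maximalIdeal 𝒪) (LinearMap.proj j₀) hmem)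
  -- eigen modulo `𝔪`
  have hmem : ∀ z : Fin r → 𝒪, (∀ j, z j ∈ maximalIdeal 𝒪) →
      z ∈ (maximalIdeal 𝒪 • ⊤ : Submodule 𝒪 (Fin r → 𝒪)) := fun z hz =>
    s59u_mem_of_coords (maximalIdeal 𝒪) (Pi.basisFun 𝒪 (Fin r)) (fun j => by
      rw [Pi.basisFun_repr]; exact hz j)
  have heig : ∀ i, op' i y - c i • y ∈ (maximalIdeal 𝒪 • ⊤ : Submodule 𝒪 (Fin r → 𝒪)) :=
    fun i => hmem _ fun j => hyT i j
  have h1 := s59u_polyAct_eigen op' hc' c y heig (1 - e)
  -- `eval c (1 - e) ∈ 𝔪`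
  have h2 : MvPolynomial.eval c (1 - e) ∈ maximalIdeal 𝒪 := by
    by_contra hcon
    have : IsUnit (MvPolynomial.eval c (1 - e)) := by
      rw [mem_maximalIdeal, mem_nonunits_iff, not_not] at hcon
      exact hcon
    exact ((s59t_not_mem_evalIdeal c (1 - e)).mpr this) he
  have h3 : s59t_polyAct op' hc' (1 - e) y ∈
      (maximalIdeal 𝒪 • ⊤ : Submodule 𝒪 (Fin r → 𝒪)) := by
    have h4 : MvPolynomial.eval c (1 - e) • y ∈
        (maximalIdeal 𝒪 • ⊤ : Submodule 𝒪 (Fin r → 𝒪)) :=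
      Submodule.smul_mem_smul h2 Submodule.mem_top
    have := Submodule.add_mem _ h1 h4
    rwa [sub_add_cancel] at this
  -- conclusion
  have h5 : s59t_polyAct op' hc' e y ≠ 0 := by
    intro h0
    rw [map_sub, map_one, LinearMap.sub_apply, Module.End.one_apply, h0, sub_zero] at h3
    exact hy0' h3
  have h6 := s59t_polyAct_intertwine op' hc' op hc (s59u_nc_Phi β) hop' e y
  rw [← s59u_nc_Phi_apply, ← h6]
  intro h0
  exact h5 (hinj (h0.trans (map_zero _).symm))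

end Abs

/-- the sign. -/
theorem s59u_nc_sign {𝒪 : Type*} [CommRing 𝒪] {H : Type*} [AddCommGroup H] [Module 𝒪 H]
    (U : Module.End 𝒪 H) (x₀ : H) (hUU : U (U x₀) = x₀) (s : 𝒪) (hs : s * s = 1) :
    U (x₀ + s • U x₀) = s • (x₀ + s • U x₀) := by
  rw [map_add, map_smul, hUU, smul_add, smul_smul, hs, one_smul, add_comm]

/-- **the integer vector.** -/
theorem s59u_nc_lift {r : ℕ} (p : ℕ) [Fact p.Prime] (hp2 : p ≠ 2) {I : Type*}
    (t : I → Matrix (Fin r) (Fin r) ℤ) (tU : Matrix (Fin r) (Fin r) ℤ) (a : I → ℤ) (s : ℤ)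
    (hs : s * s = 1) (x' : Fin r → ZMod p) (hx0 : x' ≠ 0)
    (hxT : ∀ i, (t i).map (Int.cast : ℤ → ZMod p) *ᵥ x' = ((a i : ℤ) : ZMod p) • x')
    (hxU : tU.map (Int.cast : ℤ → ZMod p) *ᵥ x' = ((s : ℤ) : ZMod p) • x') :
    ∃ x y : Fin r → ℤ, (∀ j, y j = x j + s * (tU *ᵥ x) j) ∧ (∃ j, ¬ (p : ℤ) ∣ y j) ∧
      ∀ i j, (p : ℤ) ∣ ((t i) *ᵥ y) j - a i * y j := by
  classical
  have hp : p.Prime := Fact.out
  have hlift : ∀ j, ∃ z : ℤ, (z : ZMod p) = x' j := fun j => ZMod.intCast_surjective (x' j)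
  choose x hx using hlift
  have hcast : ∀ (M : Matrix (Fin r) (Fin r) ℤ) (z : Fin r → ℤ) (j : Fin r),
      (((M *ᵥ z) j : ℤ) : ZMod p) =
        (M.map (Int.cast : ℤ → ZMod p) *ᵥ fun l => ((z l : ℤ) : ZMod p)) j := by
    intro M z j
    simp only [Matrix.mulVec, dotProduct, Matrix.map_apply]
    push_cast
    rfl
  have hxx : (fun l => ((x l : ℤ) : ZMod p)) = x' := funext hx
  have hs' : ((s : ℤ) : ZMod p) * ((s : ℤ) : ZMod p) = 1 := by
    rw [← Int.cast_mul, hs, Int.cast_one]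
  obtain ⟨y, hy⟩ : ∃ y : Fin r → ℤ, ∀ j, y j = x j + s * (tU *ᵥ x) j := ⟨_, fun j => rfl⟩
  have hycast : (fun l => ((y l : ℤ) : ZMod p)) = (2 : ZMod p) • x' := by
    funext j
    rw [hy j]
    push_cast
    rw [hcast, hxx, hxU, hx j, Pi.smul_apply, Pi.smul_apply, smul_eq_mul, smul_eq_mul,
      ← mul_assoc, hs']
    ring
  have h2 : (2 : ZMod p) ≠ 0 := by
    intro h
    have h3 : ((2 : ℕ) : ZMod p) = 0 := by exact_mod_cast h
    rw [ZMod.natCast_eq_zero_iff] at h3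
    exact hp2 ((Nat.prime_dvd_prime_iff_eq hp Nat.prime_two).mp h3)
  refine ⟨x, y, hy, ?_, fun i j => ?_⟩
  · obtain ⟨j, hj⟩ : ∃ j, x' j ≠ 0 := by
      by_contra hcon
      push Not at hcon
      exact hx0 (funext hcon)
    refine ⟨j, fun hdvd => ?_⟩
    have h3 : ((y j : ℤ) : ZMod p) = 0 := (ZMod.intCast_zmod_eq_zero_iff_dvd _ _).mpr hdvd
    have h4 := congrFun hycast j
    simp only [Pi.smul_apply, smul_eq_mul] at h4
    rw [h3] at h4
    rcases mul_eq_zero.mp h4.symm with h5 | h5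
    · exact h2 h5
    · exact hj h5
  · rw [← ZMod.intCast_zmod_eq_zero_iff_dvd]
    push_cast
    rw [hcast, hycast, Matrix.mulVec_smul, hxT i]
    have h4 : ((y j : ℤ) : ZMod p) = ((2 : ZMod p) • x') j := congrFun hycast j
    rw [h4]
    simp only [Pi.smul_apply, smul_eq_mul]
    ring

end Fermat.Agent.Lib.S59
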