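/-
Programme (R2) = S59, leaf [NEWCLASS±] (helper3, prefix `s59u_nc_`), file B: **the integral `q'`-new lattice with
the sign, and the integer coordinate vector.**

`s59u_nc_coh` : the hypotheses of helper1's `s59sg_main` (GSgnTop.lean; level raising with the sign `s` at `q'`)
give `r`, `b : Fin r → Hom(Γ₀(N q'), ℤ)` (`ℤ`-independent, in `H_par`), integer matrices `t ℓ` (of `T_ℓ`, `ℓ ∤ N q'`) and
`tU` (of `U_{q'}`, with `U² = 1` on the `b j`), and INTEGER vectors `x`, `y = x + s (tU x)` with `p ∤ y` and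
`(t ℓ) y ≡ a_ℓ(W) y (mod p)` at the good primes `ℓ ∤ N q' p` of `W`.
(first half of the proof of `s59sg_main` + `s59u_descend_vec` + `s59u_nc_lift`.)
-/
import Mathlib
import Fermat.Agent.Lib.S41.Top
import Fermat.Agent.Lib.S41.ANonEis
import Fermat.Agent.Lib.S41.KFinal
import Fermat.Agent.Lib.S59.GSgnMain
import Fermat.Agent.Lib.S59.UW6Lat
import Fermat.Agent.Lib.S59.UNewClA

set_option autoImplicit false
set_option linter.unusedSectionVars false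
set_option linter.style.haveILetI false
set_option linter.unusedVariables false

open WeierstrassCurve WeierstrassCurve.Affine WeierstrassCurve.Affine.Point
open scoped CongruenceSubgroup TensorProduct

namespace Fermat.Agent.Lib.S59

open Fermat.Agent.Lib.S41 Fermat.Agent.Lib.S29 CongruenceSubgroup ModularCurve ModularFormClass

noncomputable section

set_option synthInstance.maxHeartbeats 400000 in
set_option maxHeartbeats 1600000 in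
open scoped Matrix in

/-- **the integral `q'`-new lattice with the sign and the integer vector.** -/
theorem s59u_nc_coh
    (E : WeierstrassCurve ℚ) [E.IsElliptic] {W : WeierstrassCurve ℤ} (hW : W.IsIntegralModelOf E)
    {p N q' : ℕ} (hp : p.Prime) (hp2 : p ≠ 2) (hN : 0 < N) [hq'F : Fact q'.Prime] (hq'N : ¬ q' ∣ N)
    (hq'p : q' ≠ p)
    (hirr : GaloisRepIsIrreducible (K := AlgebraicClosure ℚ) ℚ E p)
    (f : CuspForm (CongruenceSubgroup.Gamma0 N) 2) (𝔪 : Ideal (integralClosure ℤ ℂ))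
    (hf : f.IsNormalizedEigenform) (hmax : 𝔪.IsMaximal) (hpm : (p : integralClosure ℤ ℂ) ∈ 𝔪)
    (hcong : ∀ ℓ : ℕ, ℓ.Prime → W.IsGoodPrimeFor ℓ → ¬ ℓ ∣ N → ℓ ≠ p →
      ∃ a : integralClosure ℤ ℂ, (a : ℂ) = ModularFormClass.qCoeff f ℓ ∧
        a - ((W.apOfModel ℓ : ℤ) : integralClosure ℤ ℂ) ∈ 𝔪)
    (s : ℤ) (hs : s = 1 ∨ s = -1)
    (hLR : ∃ a : integralClosure ℤ ℂ, (a : ℂ) = ModularFormClass.qCoeff f q' ∧
      a - ((s : ℤ) : integralClosure ℤ ℂ) * ((q' : integralClosure ℤ ℂ) + 1) ∈ 𝔪) :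
    ∃ (r : ℕ) (b : Fin r → (Additive (Gamma0 (N * q')) →+ ℤ))
      (t : Nat.Primes → Matrix (Fin r) (Fin r) ℤ) (tU : Matrix (Fin r) (Fin r) ℤ),
      LinearIndependent ℤ b ∧ (∀ j, b j ∈ s29s_M (N * q')) ∧
      (∀ ℓ : Nat.Primes, ¬ (ℓ : ℕ) ∣ N * q' → ∀ j,
        s41_TlZ (N * q') ℓ (b j) = ∑ i, t ℓ i j • b i) ∧
      (∀ j, s41l_U N q' ℤ (b j) = ∑ i, tU i j • b i) ∧
      (∀ j, s41l_U N q' ℤ (s41l_U N q' ℤ (b j)) = b j) ∧
      ∃ x y : Fin r → ℤ, (∀ j, y j = x j + s * (tU *ᵥ x) j) ∧ (∃ j, ¬ (p : ℤ) ∣ y j) ∧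
        ∀ ℓ : Nat.Primes, W.IsGoodPrimeFor ℓ → ¬ (ℓ : ℕ) ∣ N * q' → (ℓ : ℕ) ≠ p →
          ∀ j, (p : ℤ) ∣ ((t ℓ) *ᵥ y) j - W.apOfModel ℓ * y j := by
  classical
  have hq' : q'.Prime := hq'F.out
  have : NeZero N := ⟨hN.ne'⟩
  have : Fact p.Prime := ⟨hp⟩
  have hNq : NeZero (N * q') := ⟨Nat.mul_ne_zero hN.ne' hq'.ne_zero⟩
  -- the residue field
  let k : Type := integralClosure ℤ ℂ ⧸ 𝔪
  letI : Field k := Ideal.Quotient.field 𝔪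
  have hchar : CharP k p := s41_charP_quot 𝔪 hmax p hp hpm
  letI : Algebra (ZMod p) k := ZMod.algebra k p
  let φ : integralClosure ℤ ℂ →+* k := Ideal.Quotient.mk 𝔪
  have hφ0 : ∀ x : integralClosure ℤ ℂ, φ x = 0 ↔ x ∈ 𝔪 := fun x =>
    Ideal.Quotient.eq_zero_iff_mem
  have hint : ∀ n : ℤ, ((n : ℤ) : k) = 0 ↔ (p : ℤ) ∣ n := fun n =>
    CharP.intCast_eq_zero_iff k p n
  -- the level `N` class
  obtain ⟨w, hw0, hweig⟩ := s29s_dsCore N f hf p k φ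
  choose a ha hwa using hweig
  let e : Nat.Primes → k := fun ℓ => if h : ¬ (ℓ : ℕ) ∣ N * p then φ (a ℓ h) else 0
  have he : ∀ (ℓ : Nat.Primes) (h : ¬ (ℓ : ℕ) ∣ N * p), e ℓ = φ (a ℓ h) := fun ℓ h => dif_pos h
  have heig : ∀ ℓ : Nat.Primes, ¬ (ℓ : ℕ) ∣ N * p →
      (s29h_Tl N p ℓ).baseChange k w = e ℓ • w := fun ℓ h => by rw [he ℓ h]; exact hwa ℓ h
  have huniq : ∀ x y : integralClosure ℤ ℂ, (x : ℂ) = (y : ℂ) → x = y := fun x y h =>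
    Subtype.ext h
  have hndvd : ∀ ℓ : ℕ, ℓ.Prime → ¬ ℓ ∣ N → ℓ ≠ p → ¬ ℓ ∣ N * p := by
    intro ℓ hℓ hℓN hℓp h
    rcases (Nat.Prime.dvd_mul hℓ).mp h with h | h
    · exact hℓN h
    · exact hℓp ((Nat.prime_dvd_prime_iff_eq hℓ hp).mp h)
  -- `e` at the good primes of `W`
  have hegood : ∀ (ℓ : Nat.Primes), W.IsGoodPrimeFor ℓ → ¬ (ℓ : ℕ) ∣ N → (ℓ : ℕ) ≠ p →
      e ℓ = ((W.apOfModel ℓ : ℤ) : k) := by
    intro ℓ hgood hℓN hℓp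
    obtain ⟨a', ha', hmem⟩ := hcong ℓ ℓ.2 hgood hℓN hℓp
    have h1 := hndvd ℓ ℓ.2 hℓN hℓp
    have h2 : a ℓ h1 = a' := huniq _ _ ((ha ℓ h1).trans ha'.symm)
    rw [he ℓ h1, h2]
    have h3 := (hφ0 _).mpr hmem
    rw [map_sub, sub_eq_zero] at h3
    rw [h3, map_intCast]
  -- the level raising condition, with the sign
  have hq'Np : ¬ q' ∣ N * p := hndvd q' hq' hq'N hq'p
  obtain ⟨ε, hεdef⟩ : ∃ ε : ZMod p, ε = ((s : ℤ) : ZMod p) := ⟨_, rfl⟩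
  have hss : s * s = 1 := by
    rcases hs with h | h <;> rw [h] <;> ring
  have hε : ε * ε = 1 := by
    rw [hεdef, ← Int.cast_mul, hss, Int.cast_one]
  have hεk : algebraMap (ZMod p) k ε = ((s : ℤ) : k) := by
    rw [hεdef, map_intCast]
  have hLR' : e (s41g_qP q') =
      algebraMap (ZMod p) k (ε * (((q' + 1 : ℕ)) : ZMod p)) := by
    obtain ⟨a', ha', hmem⟩ := hLR
    have h2 : a ⟨q', hq'⟩ hq'Np = a' := huniq _ _ ((ha ⟨q', hq'⟩ hq'Np).trans ha'.symm)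
    have h4 : e (s41g_qP q') = φ (a ⟨q', hq'⟩ hq'Np) := he ⟨q', hq'⟩ hq'Np
    rw [h4, h2]
    have h3 := (hφ0 _).mpr hmem
    rw [map_sub, sub_eq_zero, map_mul, map_add, map_one, map_natCast, map_intCast] at h3
    rw [h3, map_mul, hεk, map_natCast]
    push_cast
    rfl
  -- the non-Eisenstein witness
  obtain ⟨ℓ₀, hℓ₀, hℓ₀B, hℓ₀good, hℓ₀ne⟩ :=
    s41a_nonEis E W hW p hp hp2 hirr (N * q' * p).primeFactors
  have hℓ₀ndvd : ¬ ℓ₀ ∣ N * q' * p := by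
    intro h
    exact hℓ₀B (Nat.mem_primeFactors.mpr ⟨hℓ₀, h,
      Nat.mul_ne_zero (Nat.mul_ne_zero hN.ne' hq'.ne_zero) hp.ne_zero⟩)
  have hℓ₀N : ¬ ℓ₀ ∣ N := fun h => hℓ₀ndvd (Dvd.dvd.mul_right (Dvd.dvd.mul_right h q') p)
  have hℓ₀p : ℓ₀ ≠ p := fun h => hℓ₀ndvd (h ▸ Dvd.intro_left (N * q') rfl)
  have hNE : ∃ ℓ₀ : Nat.Primes, ¬ (ℓ₀ : ℕ) ∣ N * q' * p ∧
      e ℓ₀ ^ 2 ≠ (((ℓ₀ : ℕ) : k) + 1) ^ 2 := by
    refine ⟨⟨ℓ₀, hℓ₀⟩, hℓ₀ndvd, fun h => hℓ₀ne ?_⟩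
    rw [hegood ⟨ℓ₀, hℓ₀⟩ hℓ₀good hℓ₀N hℓ₀p] at h
    rw [← hint]
    push_cast
    rw [sub_eq_zero]
    exact h
  -- cohomological level raising with the sign
  obtain ⟨r, b, t, tU, hbli, hbM, hbt, hbU, hbUU, hbUT, v, hv0, hveig, hvU⟩ :=
    s59sg_coh s41_ihara2 N q' hq'N p hp2 hq'p k e w hw0 heig ε hε hLR' hNE
  rw [hεk] at hvU
  refine ⟨r, b, t, tU, hbli, hbM, hbt, hbU, hbUU, ?_⟩
  -- descent to `𝔽_p`
  let I' : Type := Option {ℓ : Nat.Primes // W.IsGoodPrimeFor ℓ ∧ ¬ (ℓ : ℕ) ∣ N * q' ∧ (ℓ : ℕ) ≠ p}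
  let tI : I' → Matrix (Fin r) (Fin r) ℤ := fun i => i.elim tU (fun ℓ => t ℓ.1)
  let aI : I' → ℤ := fun i => i.elim s (fun ℓ => W.apOfModel ℓ.1)
  have hmat : ∀ M : Matrix (Fin r) (Fin r) ℤ,
      (M.map (Int.cast : ℤ → ZMod p)).map (algebraMap (ZMod p) k) = M.map (Int.cast : ℤ → k) := by
    intro M
    ext j l
    simp
  obtain ⟨xb, hxb0, hxb⟩ := s59u_descend_vec (F := ZMod p) (k := k) (I := I')
    (fun i => (tI i).map (Int.cast : ℤ → ZMod p)) (fun i => ((aI i : ℤ) : ZMod p)) v hv0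
    (fun i => by
      rw [hmat, map_intCast]
      rcases i with _ | ℓ
      · exact hvU
      · obtain ⟨ℓ, hgood, hℓNq, hℓp⟩ := ℓ
        have hℓN : ¬ (ℓ : ℕ) ∣ N := fun h => hℓNq (Dvd.dvd.mul_right h q')
        have h1 : ¬ (ℓ : ℕ) ∣ N * q' * p := by
          intro h
          rcases (Nat.Prime.dvd_mul ℓ.2).mp h with h | h
          · exact hℓNq h
          · exact hℓp ((Nat.prime_dvd_prime_iff_eq ℓ.2 hp).mp h)
        show (t ℓ).map (Int.cast : ℤ → k) *ᵥ v = ((W.apOfModel ℓ : ℤ) : k) • v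
        rw [hveig ℓ h1, hegood ℓ hgood hℓN hℓp])
  obtain ⟨x, y, hy, hy0, hyT⟩ := s59u_nc_lift p hp2 (fun i : {i : I' // i ≠ none} => tI i.1) tU
    (fun i => aI i.1) s hss xb hxb0 (fun i => hxb i.1) (hxb none)
  refine ⟨x, y, hy, hy0, fun ℓ hgood hℓNq hℓp j => ?_⟩
  exact hyT ⟨some ⟨ℓ, hgood, hℓNq, hℓp⟩, fun h => by cases h⟩ j

end

end Fermat.Agent.Lib.S59
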