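/-
Programme (R2) = S59, leaf [NEWCLASS±] (helper3, prefix `s59u_nc_`), file C: **`Z_ε ≠ 0`.**

* `s59u_nc_Psi M 𝒪 : H_par(Γ₀(M), ℤ) →ₗ[ℤ] H_par(Γ_⊤(M), 𝒪)`, `χ ↦ res (cast χ)`; it intertwines `T_ℓ`
  (`s59u_nc_Psi_T`) and, at `M = N q'`, `U_{q'}` (`s59u_nc_Psi_U`: `s41l_U N q' ℤ ↔ (s59w_UqDatum ⊤ _).heckeHpar 𝒪`);
  the diamonds are trivial on `H_par(Γ_⊤(M), 𝒪)` (`s59u_nc_dia`); `ℤ`-independent families go to `𝒪`-independent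
  families (`s59u_nc_Psi_li`).
* **`s59u_nc_main`** : under the hypotheses of helper1's `s59sg_main` (level raising with the sign `s` at `q'`,
  `q' ∤ N p`), for `𝒪` a local domain of characteristic zero with `p ∈ 𝔪_𝒪` and `B ∋ p` containing the bad primes of
  `W`: there is `v ∈ H_par(Γ_⊤(N q'), 𝒪)` with `U_{q'} v = s • v` (EXACT sign) and `e · v ≠ 0` for EVERY polynomial `e`
  in the `B`-anemic generators with `1 − e ∈ (𝔪, T_ℓ − a_ℓ(W), ⟨τ⟩ − 1)`.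
-/
import Mathlib
import Fermat.Agent.Lib.S59.TUq
import Fermat.Agent.Lib.S59.UW6G0
import Fermat.Agent.Lib.S59.UNewClB

set_option autoImplicit false
set_option linter.unusedSectionVars false
set_option linter.style.haveILetI false
set_option linter.unusedVariables false

open WeierstrassCurve WeierstrassCurve.Affine WeierstrassCurve.Affine.Point
open scoped CongruenceSubgroup TensorProduct

namespace Fermat.Agent.Lib.S59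

open Fermat.Agent.Lib.S41 Fermat.Agent.Lib.S29 Fermat.Agent.Lib.S30 Fermat.Agent.Lib.S48
open CongruenceSubgroup ModularCurve ModularFormClass IsLocalRing

noncomputable section

section Psi

variable (M : ℕ) [NeZero M] (𝒪 : Type*) [CommRing 𝒪]

/-- `χ ↦ res (cast χ)`, `H_par(Γ₀(M), ℤ) → H_par(Γ_⊤(M), 𝒪)`. -/
def s59u_nc_Psi :
    s29s_M M →ₗ[ℤ] s48h_Hpar 𝒪 (s48h_GammaH M (⊤ : Subgroup (ZMod M)ˣ)) 𝒪 where
  toFun χ := s59u_G0Equiv M 𝒪 𝒪 ⟨s29s_cast 𝒪 χ.1, s29s_cast_mem_Hpar 𝒪 𝒪 χ.2⟩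
  map_add' χ ψ := by
    have h : (⟨s29s_cast 𝒪 (χ + ψ).1, s29s_cast_mem_Hpar 𝒪 𝒪 (χ + ψ).2⟩ : s29h_Hpar 𝒪 M 𝒪) =
        ⟨s29s_cast 𝒪 χ.1, s29s_cast_mem_Hpar 𝒪 𝒪 χ.2⟩ +
          ⟨s29s_cast 𝒪 ψ.1, s29s_cast_mem_Hpar 𝒪 𝒪 ψ.2⟩ :=
      Subtype.ext (map_add (s29s_cast 𝒪) χ.1 ψ.1)
    rw [h, map_add]
  map_smul' n χ := by
    have h : (⟨s29s_cast 𝒪 (n • χ).1, s29s_cast_mem_Hpar 𝒪 𝒪 (n • χ).2⟩ : s29h_Hpar 𝒪 M 𝒪) =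
        ((n : ℤ) : 𝒪) • ⟨s29s_cast 𝒪 χ.1, s29s_cast_mem_Hpar 𝒪 𝒪 χ.2⟩ :=
      Subtype.ext (s29s_cast_zsmul 𝒪 n χ.1)
    rw [h, map_smul]
    exact Int.cast_smul_eq_zsmul 𝒪 n
      (s59u_G0Equiv M 𝒪 𝒪 ⟨s29s_cast 𝒪 χ.1, s29s_cast_mem_Hpar 𝒪 𝒪 χ.2⟩)

theorem s59u_nc_Psi_coe (χ : s29s_M M) :
    ((s59u_nc_Psi M 𝒪 χ : s48h_Hpar 𝒪 (s48h_GammaH M (⊤ : Subgroup (ZMod M)ˣ)) 𝒪) :
      Additive (s48h_GammaH M (⊤ : Subgroup (ZMod M)ˣ)) →+ 𝒪) =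
      s59t_res M (⊤ : Subgroup (ZMod M)ˣ) 𝒪 (s29s_cast 𝒪 χ.1) := rfl

/-- `Ψ` intertwines `T_ℓ`. -/
theorem s59u_nc_Psi_T (i : s59w_TIdx M) (χ : s29s_M M) :
    s59w_op (⊤ : Subgroup (ZMod M)ˣ) 𝒪 (Sum.inl i) (s59u_nc_Psi M 𝒪 χ) =
      s59u_nc_Psi M 𝒪 (s41g_TZ M ⟨i.ell, i.prime⟩ χ) := by
  haveI : Fact i.ell.Prime := ⟨i.prime⟩
  have h := s59u_G0Equiv_hecke 𝒪 i ⟨s29s_cast 𝒪 χ.1, s29s_cast_mem_Hpar 𝒪 𝒪 χ.2⟩
  show _ = s59u_G0Equiv M 𝒪 𝒪 _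
  rw [show s59u_nc_Psi M 𝒪 χ = s59u_G0Equiv M 𝒪 𝒪 ⟨s29s_cast 𝒪 χ.1,
    s29s_cast_mem_Hpar 𝒪 𝒪 χ.2⟩ from rfl, ← h]
  congr 1
  apply Subtype.ext
  exact s29s_heckeHom_cast 𝒪 i.ell χ.1

/-- the diamonds are trivial on `H_par(Γ_⊤(M), 𝒪)`. -/
theorem s59u_nc_dia (τ : Gamma0 M)
    (z : s48h_Hpar 𝒪 (s48h_GammaH M (⊤ : Subgroup (ZMod M)ˣ)) 𝒪) :
    s59w_op (⊤ : Subgroup (ZMod M)ˣ) 𝒪 (Sum.inr τ) z = z := by
  apply Subtype.ext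
  exact s48h_diamondH_of_mem (s59u_Gamma0_le_GammaH_top M τ.2) z.1

variable [IsDomain 𝒪] [CharZero 𝒪]

/-- `ℤ`-independent families go to `𝒪`-independent families. -/
theorem s59u_nc_Psi_li {r : ℕ} (b : Fin r → s29s_M M) (hb : LinearIndependent ℤ b) :
    LinearIndependent 𝒪 (fun j => s59u_nc_Psi M 𝒪 (b j)) := by
  let coeZ : (Additive (Gamma0 M) →+ ℤ) →ₗ[ℤ] (Additive (Gamma0 M) → ℤ) :=
    { toFun := fun χ => (χ : Additive (Gamma0 M) → ℤ)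
      map_add' := fun _ _ => rfl
      map_smul' := fun _ _ => rfl }
  let coeO : (Additive (Gamma0 M) →+ 𝒪) →ₗ[𝒪] (Additive (Gamma0 M) → 𝒪) :=
    { toFun := fun χ => (χ : Additive (Gamma0 M) → 𝒪)
      map_add' := fun _ _ => rfl
      map_smul' := fun _ _ => rfl }
  have h1 : LinearIndependent ℤ (fun (j : Fin r) (γ : Additive (Gamma0 M)) => (b j).1 γ) := by
    have h2 := hb.map' (coeZ.comp (s29s_M M).subtype) (by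
      rw [LinearMap.ker_eq_bot]
      intro χ ψ h
      apply Subtype.ext
      exact DFunLike.coe_injective h)
    exact h2
  have h3 := s30e_linearIndependent_domain_of_int 𝒪 _ h1
  have h4 : LinearIndependent 𝒪 (fun j : Fin r =>
      (⟨s29s_cast 𝒪 (b j).1, s29s_cast_mem_Hpar 𝒪 𝒪 (b j).2⟩ : s29h_Hpar 𝒪 M 𝒪)) := by
    refine LinearIndependent.of_comp (coeO.comp (s29h_Hpar 𝒪 M 𝒪).subtype) ?_
    exact h3
  exact h4.map' (s59u_G0Equiv M 𝒪 𝒪).toLinearMap (LinearEquiv.ker _)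

end Psi

section PsiU

variable (N q' : ℕ) [Fact q'.Prime] [NeZero (N * q')] (𝒪 : Type*) [CommRing 𝒪]

/-- `Ψ` intertwines `U_{q'}`. -/
theorem s59u_nc_Psi_U (χ : s29s_M (N * q')) :
    (s59w_UqDatum (⊤ : Subgroup (ZMod (N * q'))ˣ) (dvd_mul_left q' N)).heckeHpar 𝒪
        (s59u_nc_Psi (N * q') 𝒪 χ) =
      s59u_nc_Psi (N * q') 𝒪 ⟨s41l_U N q' ℤ χ.1, s41l_U_mem_Hpar N q' ℤ χ.2⟩ := by
  apply Subtype.ext
  rw [s48h_MatDatum.heckeHpar_coe, s59u_nc_Psi_coe, s59u_nc_Psi_coe]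
  have h1 := s59t_res_Uq (H := (⊤ : Subgroup (ZMod (N * q'))ˣ)) (A := 𝒪) (dvd_mul_left q' N)
    (s29s_cast 𝒪 χ.1)
  rw [s59t_Uq0_eq_s41l] at h1
  have h2 : s41l_U N q' 𝒪 (s29s_cast 𝒪 χ.1) = s29s_cast 𝒪 (s41l_U N q' ℤ χ.1) :=
    (s41l_famU N q').op_natural (Int.castAddHom 𝒪) χ.1
  rw [h2] at h1
  exact h1.symm

end PsiU

open Matrix in
/-- **[NEWCLASS±]: `Z_ε ≠ 0`.** -/
theorem s59u_nc_main
    (E : WeierstrassCurve ℚ) [E.IsElliptic] {W : WeierstrassCurve ℤ} (hW : W.IsIntegralModelOf E)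
    {p N q' : ℕ} (hp : p.Prime) (hp2 : p ≠ 2) (hN : 0 < N) [hq'F : Fact q'.Prime] (hq'N : ¬ q' ∣ N)
    (hq'p : q' ≠ p)
    (hirr : GaloisRepIsIrreducible (K := AlgebraicClosure ℚ) ℚ E p)
    (f : CuspForm (CongruenceSubgroup.Gamma0 N) 2) (𝔪 : Ideal (integralClosure ℤ ℂ))
    (hf : f.IsNormalizedEigenform) (hmax : 𝔪.IsMaximal) (hpm : (p : integralClosure ℤ ℂ) ∈ 𝔪)
    (hcong : ∀ ℓ : ℕ, ℓ.Prime → W.IsGoodPrimeFor ℓ → ¬ ℓ ∣ N → ℓ ≠ p →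
      ∃ a : integralClosure ℤ ℂ, (a : ℂ) = ModularFormClass.qCoeff f ℓ ∧
        a - ((W.apOfModel ℓ : ℤ) : integralClosure ℤ ℂ) ∈ 𝔪)
    (s : ℤ) (hs : s = 1 ∨ s = -1)
    (hLR : ∃ a : integralClosure ℤ ℂ, (a : ℂ) = ModularFormClass.qCoeff f q' ∧
      a - ((s : ℤ) : integralClosure ℤ ℂ) * ((q' : integralClosure ℤ ℂ) + 1) ∈ 𝔪)
    [NeZero (N * q')]
    (𝒪 : Type*) [CommRing 𝒪] [IsDomain 𝒪] [CharZero 𝒪] [IsLocalRing 𝒪]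
    (hp𝒪 : (p : 𝒪) ∈ maximalIdeal 𝒪)
    (B : Finset ℕ) (hpB : p ∈ B) (hWB : ∀ ℓ : ℕ, ℓ.Prime → ¬ W.IsGoodPrimeFor ℓ → ℓ ∈ B) :
    ∃ v : s48h_Hpar 𝒪 (s48h_GammaH (N * q') (⊤ : Subgroup (ZMod (N * q'))ˣ)) 𝒪,
      (s59w_UqDatum (⊤ : Subgroup (ZMod (N * q'))ˣ) (dvd_mul_left q' N)).heckeHpar 𝒪 v =
        ((s : ℤ) : 𝒪) • v ∧
      ∀ e : MvPolynomial (s59u_W6Idx (N * q') B) 𝒪,
        1 - e ∈ s59t_evalIdeal (s59u_W6c (N * q') B (fun ℓ => W.apOfModel ℓ) 𝒪) →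
        s59t_polyAct (s59u_W6op B (⊤ : Subgroup (ZMod (N * q'))ˣ) 𝒪)
          (s59u_W6op_comm B (⊤ : Subgroup (ZMod (N * q'))ˣ) 𝒪) e v ≠ 0 := by
  classical
  haveI : Fact p.Prime := ⟨hp⟩
  obtain ⟨r, b, t, tU, hbli, hbM, hbt, hbU, hbUU, x, y, hy, hy0, hyT⟩ :=
    s59u_nc_coh E hW hp hp2 hN hq'N hq'p hirr f 𝔪 hf hmax hpm hcong s hs hLR
  have hss : s * s = 1 := by
    rcases hs with h | h <;> rw [h] <;> ring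
  -- the lattice in `H_par(Γ_⊤(M), 𝒪)`
  let bM : Fin r → s29s_M (N * q') := fun j => ⟨b j, hbM j⟩
  have hbMli : LinearIndependent ℤ bM :=
    LinearIndependent.of_comp (s29s_M (N * q')).subtype hbli
  let β : Fin r → s48h_Hpar 𝒪 (s48h_GammaH (N * q') (⊤ : Subgroup (ZMod (N * q'))ˣ)) 𝒪 :=
    fun j => s59u_nc_Psi (N * q') 𝒪 (bM j)
  have hβ : LinearIndependent 𝒪 β := s59u_nc_Psi_li (N * q') 𝒪 bM hbMli
  have hsmul : ∀ (n : ℤ) (z : s48h_Hpar 𝒪 (s48h_GammaH (N * q') (⊤ : Subgroup (ZMod (N * q'))ˣ)) 𝒪),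
      n • z = ((n : ℤ) : 𝒪) • z := fun n z => (Int.cast_smul_eq_zsmul 𝒪 n z).symm
  -- the operators and their matrices
  let tJ : s59u_W6Idx (N * q') B → Matrix (Fin r) (Fin r) 𝒪 := fun j =>
    match j.1 with
    | Sum.inl i => (t ⟨i.ell, i.prime⟩).map (Int.cast : ℤ → 𝒪)
    | Sum.inr _ => 1
  have hT : ∀ (j : s59u_W6Idx (N * q') B) (l : Fin r),
      s59u_W6op B (⊤ : Subgroup (ZMod (N * q'))ˣ) 𝒪 j (β l) = ∑ m, tJ j m l • β m := by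
    rintro ⟨i | τ, hj⟩ l
    · show s59w_op (⊤ : Subgroup (ZMod (N * q'))ˣ) 𝒪 (Sum.inl i) (s59u_nc_Psi (N * q') 𝒪 (bM l)) =
        ∑ m, ((t ⟨i.ell, i.prime⟩).map (Int.cast : ℤ → 𝒪)) m l • β m
      rw [s59u_nc_Psi_T]
      have h1 : s41g_TZ (N * q') ⟨i.ell, i.prime⟩ (bM l) = ∑ m, t ⟨i.ell, i.prime⟩ m l • bM m := by
        apply Subtype.ext
        rw [s41g_TZ_coe, Submodule.coe_sum]
        simp only [Submodule.coe_smul]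
        exact hbt ⟨i.ell, i.prime⟩ i.ndvd l
      rw [h1, map_sum]
      refine Finset.sum_congr rfl fun m _ => ?_
      rw [map_smul, hsmul]
      rfl
    · show s59w_op (⊤ : Subgroup (ZMod (N * q'))ˣ) 𝒪 (Sum.inr τ) (β l) =
        ∑ m, (1 : Matrix (Fin r) (Fin r) 𝒪) m l • β m
      rw [s59u_nc_dia]
      simp [Matrix.one_apply]
  -- the coordinate vector
  let y𝒪 : Fin r → 𝒪 := fun j => ((y j : ℤ) : 𝒪)
  have hy0' : ∃ j, y𝒪 j ∉ maximalIdeal 𝒪 := by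
    obtain ⟨j, hj⟩ := hy0
    exact ⟨j, s59u_int_not_mem 𝒪 hp𝒪 hj⟩
  have hcastmul : ∀ (A : Matrix (Fin r) (Fin r) ℤ) (z : Fin r → ℤ) (l : Fin r),
      ((A.map (Int.cast : ℤ → 𝒪)) *ᵥ fun m => ((z m : ℤ) : 𝒪)) l = (((A *ᵥ z) l : ℤ) : 𝒪) := by
    intro A z l
    simp only [Matrix.mulVec, dotProduct, Matrix.map_apply]
    push_cast
    rfl
  have hyT' : ∀ (j : s59u_W6Idx (N * q') B) (l : Fin r),
      ((tJ j) *ᵥ y𝒪) l - s59u_W6c (N * q') B (fun ℓ => W.apOfModel ℓ) 𝒪 j * y𝒪 l ∈ maximalIdeal 𝒪 := by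
    rintro ⟨i | τ, hj⟩ l
    · have hiB : i.ell ∉ B := hj i rfl
      have hgood : W.IsGoodPrimeFor i.ell := by
        by_contra hcon
        exact hiB (hWB i.ell i.prime hcon)
      have hip : i.ell ≠ p := fun h => hiB (h ▸ hpB)
      have h1 := hyT ⟨i.ell, i.prime⟩ hgood i.ndvd hip l
      show (((t ⟨i.ell, i.prime⟩).map (Int.cast : ℤ → 𝒪)) *ᵥ y𝒪) l -
        ((W.apOfModel i.ell : ℤ) : 𝒪) * ((y l : ℤ) : 𝒪) ∈ maximalIdeal 𝒪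
      rw [hcastmul, ← Int.cast_mul, ← Int.cast_sub]
      exact s59u_int_mem_of_dvd 𝒪 hp𝒪 h1
    · show ((1 : Matrix (Fin r) (Fin r) 𝒪) *ᵥ y𝒪) l - 1 * y𝒪 l ∈ maximalIdeal 𝒪
      rw [Matrix.one_mulVec, one_mul, sub_self]
      exact Ideal.zero_mem _
  -- the vector
  refine ⟨∑ j, y𝒪 j • β j, ?_, fun e he => s59u_nc_abs β hβ
    (s59u_W6op B (⊤ : Subgroup (ZMod (N * q'))ˣ) 𝒪)
    (s59u_W6op_comm B (⊤ : Subgroup (ZMod (N * q'))ˣ) 𝒪) tJ hT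
    (s59u_W6c (N * q') B (fun ℓ => W.apOfModel ℓ) 𝒪) y𝒪 hy0' hyT' e he⟩
  -- the sign
  set Uop := (s59w_UqDatum (⊤ : Subgroup (ZMod (N * q'))ˣ) (dvd_mul_left q' N)).heckeHpar
    (A := 𝒪) 𝒪 with hUop
  have hUβ : ∀ l, Uop (β l) = ∑ m, (tU.map (Int.cast : ℤ → 𝒪)) m l • β m := by
    intro l
    show Uop (s59u_nc_Psi (N * q') 𝒪 (bM l)) = _
    rw [hUop, s59u_nc_Psi_U]
    have h1 : (⟨s41l_U N q' ℤ (bM l).1, s41l_U_mem_Hpar N q' ℤ (bM l).2⟩ : s29s_M (N * q')) =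
        ∑ m, tU m l • bM m := by
      apply Subtype.ext
      rw [Submodule.coe_sum]
      simp only [Submodule.coe_smul]
      exact hbU l
    rw [h1, map_sum]
    refine Finset.sum_congr rfl fun m _ => ?_
    rw [map_smul, hsmul]
    rfl
  have hUUβ : ∀ l, Uop (Uop (β l)) = β l := by
    intro l
    show Uop (Uop (s59u_nc_Psi (N * q') 𝒪 (bM l))) = s59u_nc_Psi (N * q') 𝒪 (bM l)
    rw [hUop, s59u_nc_Psi_U, s59u_nc_Psi_U]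
    congr 1
    apply Subtype.ext
    exact hbUU l
  let x𝒪 : Fin r → 𝒪 := fun j => ((x j : ℤ) : 𝒪)
  have hΦU : ∀ z : Fin r → 𝒪, Uop (s59u_nc_Phi β z) =
      s59u_nc_Phi β ((tU.map (Int.cast : ℤ → 𝒪)) *ᵥ z) :=
    fun z => s59u_nc_Phi_op β (fun _ : Unit => Uop) (fun _ => tU.map (Int.cast : ℤ → 𝒪))
      (fun _ l => hUβ l) () z
  have hx₀UU : Uop (Uop (s59u_nc_Phi β x𝒪)) = s59u_nc_Phi β x𝒪 := by
    rw [s59u_nc_Phi_apply, map_sum, map_sum]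
    refine Finset.sum_congr rfl fun l _ => ?_
    rw [map_smul, map_smul, hUUβ]
  have hyx : y𝒪 = x𝒪 + ((s : ℤ) : 𝒪) • ((tU.map (Int.cast : ℤ → 𝒪)) *ᵥ x𝒪) := by
    funext l
    show ((y l : ℤ) : 𝒪) = ((x l : ℤ) : 𝒪) + ((s : ℤ) : 𝒪) * _
    rw [hcastmul, hy l]
    push_cast
    rfl
  have hv : ∑ j, y𝒪 j • β j =
      s59u_nc_Phi β x𝒪 + ((s : ℤ) : 𝒪) • Uop (s59u_nc_Phi β x𝒪) := by
    rw [← s59u_nc_Phi_apply β y𝒪, hyx, map_add, map_smul, hΦU]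
  rw [hv]
  exact s59u_nc_sign Uop _ hx₀UU ((s : ℤ) : 𝒪) (by rw [← Int.cast_mul, hss, Int.cast_one])

end

end Fermat.Agent.Lib.S59
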