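/-
PROGRAMME R2 = S59, node [PT-c2] / [LGC-new 2] (helper1, prefix `s59pt_`): **THE `2`-NEW CLASS WITH SIGN, in any dialect.**

Input: `ρ̄_W` modular of the ODD level `L` (`hold`), `W[p]` irreducible, `p ≠ 2`, `tr (ρ_W ⊗ 𝒪)(Frob₂) = ε·3` with `ε = ±1`
(the position of `W` at the bad prime `2`, `hk1` of helper3's `s59u_sp_TFinPt`).
Output: `v ∈ H_par(Γ_⊤(L·2), 𝒪)` with `U₂ v = ε v` (EXACT sign) and `e · v ≠ 0` for every idempotent-type polynomial `e` of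
ANY dialect `idx : J → s59w_AIdx (L·2)` of good operators (`1 − e ∈ evalIdeal c`, `c = a_ℓ(W)` resp. `1`).
= helper6's `s59q_res_ES` (the congruence at `2`) + helper3's `s59u_nc_main` (the new class) + a change of index set.
-/
import Mathlib
import Fermat.Agent.Lib.S59.UNewClC
import Fermat.Agent.Lib.S59.QResES
import Fermat.Agent.Lib.S59.FAsmW4
import Fermat.Agent.Lib.S58.OLevel

set_option autoImplicit false
set_option linter.unusedSectionVars false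
set_option linter.unusedVariables false
set_option linter.style.haveILetI false
set_option synthInstance.maxHeartbeats 400000
set_option maxHeartbeats 4000000

noncomputable section

namespace Fermat.Agent.Lib.S59

open Fermat.Agent.Lib.S29 Fermat.Agent.Lib.S30 Fermat.Agent.Lib.S48 Fermat.Agent.Lib.S41
  Fermat.Agent.Lib.S44 Fermat.Agent.Lib.S58
open IsLocalRing Polynomial CuspForm
open CongruenceSubgroup
open scoped MatrixGroups

local notation "Qbar" => AlgebraicClosure ℚ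
local notation "GQ" => (AlgebraicClosure ℚ ≃ₐ[ℚ] AlgebraicClosure ℚ)

variable (p : ℕ) [hpP : Fact p.Prime]

/-- **the `2`-new class with the exact sign, in any dialect of good operators.** -/
theorem s59pt_newvec (W : WeierstrassCurve ℤ) (hΔ : W.Δ ≠ 0) (hp2 : p ≠ 2)
    (hirr : W.ModRepIsIrreducible p) {L : ℕ} [NeZero L] [NeZero (L * 2)] (hL2 : ¬ 2 ∣ L)
    (hold : W.IsResiduallyModularOfLevel p L)
    (𝒪 : Type) [CommRing 𝒪] [IsDomain 𝒪] [IsDiscreteValuationRing 𝒪]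
    [IsAdicComplete (maximalIdeal 𝒪) 𝒪] [Finite (ResidueField 𝒪)] [CharZero 𝒪] [Algebra ℤ_[p] 𝒪]
    (hp𝒪 : ((p : ℕ) : 𝒪) ∈ maximalIdeal 𝒪)
    (A : ValuationSubring Qbar) (hA : A.LiesOverPrime 2) (φs : GQ) (hφs : A.IsFrobeniusAt φs 2)
    (εs : 𝒪) (hεs : εs = 1 ∨ εs = -1)
    (htr : s59i_cpTr (s59q_WRho W hΔ hp𝒪) φs = εs * (((2 : ℕ) : 𝒪) + 1))
    (B : Finset ℕ) (hpB : p ∈ B) (hWB : ∀ ℓ : ℕ, ℓ.Prime → ¬ W.IsGoodPrimeFor ℓ → ℓ ∈ B)
    -- the dialect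
    {J : Type} (idx : J → s59w_AIdx (L * 2))
    (hidx : ∀ j i, idx j = Sum.inl i → i.ell ∉ B)
    (c : J → 𝒪) (hcT : ∀ j i, idx j = Sum.inl i → c j = ((W.apOfModel i.ell : ℤ) : 𝒪))
    (hcD : ∀ j τ, idx j = Sum.inr τ → c j = 1)
    (e : MvPolynomial J 𝒪) (he : 1 - e ∈ s59t_evalIdeal c) :
    ∃ v : s48h_Hpar 𝒪 (s48h_GammaH (L * 2) (⊤ : Subgroup (ZMod (L * 2))ˣ)) 𝒪,
      (s59w_UqDatum (⊤ : Subgroup (ZMod (L * 2))ˣ) (dvd_mul_left 2 L)).heckeHpar 𝒪 v = εs • v ∧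
      s59t_polyAct (fun j => s59w_op (⊤ : Subgroup (ZMod (L * 2))ˣ) 𝒪 (idx j))
        (fun i j => s59w_op_comm (⊤ : Subgroup (ZMod (L * 2))ˣ) 𝒪 _ _) e v ≠ 0 := by
  classical
  haveI := s58o_isElliptic W hΔ
  haveI : Fact (Nat.Prime 2) := ⟨Nat.prime_two⟩
  obtain ⟨f, 𝔪, hf, hmax, hpm, hcong⟩ := hold
  have hW : W.IsIntegralModelOf (W.map (Int.castRingHom ℚ)) := ⟨1, one_smul _ _⟩
  -- the sign as an integer
  obtain ⟨s, hs, hsε⟩ : ∃ s : ℤ, (s = 1 ∨ s = -1) ∧ εs = ((s : ℤ) : 𝒪) := by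
    rcases hεs with h | h
    · exact ⟨1, Or.inl rfl, by rw [h]; push_cast; rfl⟩
    · exact ⟨-1, Or.inr rfl, by rw [h]; push_cast; rfl⟩
  -- the congruence at `2`
  have hn : LinearMap.trace _ (s59i_rhobarW W p hΔ 𝒪 hp𝒪).V
      ((s59i_rhobarW W p hΔ 𝒪 hp𝒪).ρ φs) = (((s * ((2 : ℤ) + 1) : ℤ) : ℤ) : ResidueField 𝒪) := by
    have hres := s59f_residual_trace (s59q_WRho W hΔ hp𝒪) φs
    rw [htr] at hres
    refine hres.trans ?_
    rw [hsε, ← map_intCast (residue 𝒪)]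
    congr 1
    push_cast
    ring
  obtain ⟨a, ha, hmem⟩ := s59q_res_ES W hΔ p hp2 hirr L f 𝔪 hf hmax hpm hcong 2 Nat.prime_two hL2
    (Ne.symm hp2) A hA φs hφs 𝒪 hp𝒪 (s * ((2 : ℤ) + 1)) hn
  have hLR : ∃ a : integralClosure ℤ ℂ, (a : ℂ) = ModularFormClass.qCoeff f 2 ∧
      a - ((s : ℤ) : integralClosure ℤ ℂ) * (((2 : ℕ) : integralClosure ℤ ℂ) + 1) ∈ 𝔪 := by
    refine ⟨a, ha, ?_⟩
    have h1 : (((s * ((2 : ℤ) + 1) : ℤ) : ℤ) : integralClosure ℤ ℂ) =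
        ((s : ℤ) : integralClosure ℤ ℂ) * (((2 : ℕ) : integralClosure ℤ ℂ) + 1) := by
      push_cast
      ring
    rwa [h1] at hmem
  obtain ⟨v, hUv, hv⟩ := s59u_nc_main (W.map (Int.castRingHom ℚ)) hW hpP.out hp2
    (Nat.pos_of_ne_zero (NeZero.ne L)) hL2 (Ne.symm hp2) hirr f 𝔪 hf hmax hpm hcong s hs hLR 𝒪 hp𝒪
    B hpB hWB
  refine ⟨v, by rw [hUv, hsε], ?_⟩
  -- change of index set
  obtain ⟨g, hg⟩ : ∃ g : J → s59u_W6Idx (L * 2) B, ∀ j, (g j).1 = idx j :=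
    ⟨fun j => ⟨idx j, hidx j⟩, fun j => rfl⟩
  have h1 := hv (MvPolynomial.rename g e) (by
    have h2 : (1 : MvPolynomial (s59u_W6Idx (L * 2) B) 𝒪) - MvPolynomial.rename g e =
        MvPolynomial.rename g (1 - e) := by
      rw [map_sub, map_one]
    rw [h2, s59t_evalIdeal_rename]
    have h3 : (fun j => s59u_W6c (L * 2) B (fun ℓ => W.apOfModel ℓ) 𝒪 (g j)) = c := by
      funext j
      rcases hj : idx j with i | τ
      · rw [hcT j i hj]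
        unfold s59u_W6c
        simp only [hg j, hj]
      · rw [hcD j τ hj]
        unfold s59u_W6c
        simp only [hg j, hj]
    rw [h3]
    exact he)
  rw [s59t_polyAct_rename] at h1
  have h4 : s59t_polyAct (fun j => s59u_W6op B (⊤ : Subgroup (ZMod (L * 2))ˣ) 𝒪 (g j))
      (fun i j => s59u_W6op_comm B (⊤ : Subgroup (ZMod (L * 2))ˣ) 𝒪 (g i) (g j)) e =
      s59t_polyAct (fun j => s59w_op (⊤ : Subgroup (ZMod (L * 2))ˣ) 𝒪 (idx j))
        (fun i j => s59w_op_comm (⊤ : Subgroup (ZMod (L * 2))ˣ) 𝒪 _ _) e := by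
    refine s59t_polyAct_congr _ _ _ _ (fun j => ?_) e
    show s59w_op (⊤ : Subgroup (ZMod (L * 2))ˣ) 𝒪 (g j).1 = _
    rw [hg j]
  rw [h4] at h1
  exact h1

end Fermat.Agent.Lib.S59

end
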