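/-
PROGRAMME R2 = S59, node [PT-c2] / [LGC-new 2] (helper1, prefix `s59pt_`): **THE CUT RUN: the `2`-old point of the sign-cut
base module `Y′ = ε₀ e_{w=ε} H_par(Γ_⊤(L·2), 𝒪)` and the exclusion (hnoT) of the eigensystems with `tr ρ(Frob₂) = 3ε`.**

Abstract setting: helper8's package `D : s59t_Old 𝒪 H₁ H₀` between `H₁ = H_par(Γ_⊤(L), 𝒪)` and `H₀ = H_par(Γ_⊤(L·2), 𝒪)`
(`L` odd), compatible with all the anemic generators, `D.U = U₂`; `ε = ±1`; `Y′ = {z : ε₀ z = z, w z = ε z}`; a local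
`𝒪`-algebra `T` acting FAITHFULLY on `Y′` through polynomials in the good operators ((E-conc), (E2)).
* (i) `f = (1 + ε w) ∘ res` is injective ([RP], `s59pt_one_add_w_resA_inj`), equivariant, and maps the old module
  `Z₁ = range e(ops_L)` into `Y′`: `s59pt_point_of_inj` gives the `2`-old point of `Y′` ([RP] at `2` and at all `r ∤ L p`);
* (ii) `Z_new = Y′ ∩ ker corA` is `2`-new with `U₂ = −ε`, so `tr ρT(Frob₂) + 3ε` kills it (`s59pt_new2_ker`); every `a ∈ T` killing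
  `Z₁` maps `Y′` into `Z_new` (`corA (Y′) ⊆ Z₁`); hence `(tr + 3ε)·Ann(Z₁) = 0` in `T` and every point `y` of `T` in a domain of
  characteristic zero has `y(tr) = −3ε` or factors through the Hecke ring of `Z₁`, where `y(tr)² ≠ 9` (`s59pt_c1_all`): never
  `y(tr) = 3ε`.
-/
import Mathlib
import Fermat.Agent.Lib.S59.GPtBase0
import Fermat.Agent.Lib.S59.GPtBase1
import Fermat.Agent.Lib.S59.FEps4

set_option autoImplicit false
set_option linter.unusedSectionVars false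
set_option linter.unusedVariables false
set_option linter.style.haveILetI false
set_option synthInstance.maxHeartbeats 400000
set_option maxHeartbeats 4000000

noncomputable section

namespace Fermat.Agent.Lib.S59

open Fermat.Agent.Lib.S29 Fermat.Agent.Lib.S30 Fermat.Agent.Lib.S48 Fermat.Agent.Lib.S41
  Fermat.Agent.Lib.S44
open IsLocalRing Polynomial CuspForm
open CongruenceSubgroup
open scoped MatrixGroups

local notation "Qbar" => AlgebraicClosure ℚ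
local notation "GQ" => (AlgebraicClosure ℚ ≃ₐ[ℚ] AlgebraicClosure ℚ)

/-- **the old module of level `N'` is nonzero** ([W6] at the level `N'`). -/
theorem s59pt_old_ne_zero (p : ℕ) [Fact p.Prime] {N N' : ℕ} [NeZero N] [NeZero N'] (hN'N : N' ∣ N)
    (𝒪 : Type) [CommRing 𝒪] [IsDomain 𝒪] [CharZero 𝒪] [IsLocalRing 𝒪]
    (hp𝒪 : (p : 𝒪) ∈ maximalIdeal 𝒪) (B : Finset ℕ)
    (a : ℕ → ℤ) (hocc : s44i_LevelOcc N' p a B)
    {J : Type} (idx : J → s59w_AIdx N)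
    (hidx : ∀ j i, idx j = Sum.inl i → i.ell ∉ B)
    (c : J → 𝒪) (hcT : ∀ j i, idx j = Sum.inl i → c j = ((a i.ell : ℤ) : 𝒪))
    (hcD : ∀ j τ, idx j = Sum.inr τ → c j = 1)
    (e : MvPolynomial J 𝒪) (he : 1 - e ∈ s59t_evalIdeal c)
    (ops' : J → Module.End 𝒪 (s48h_Hpar 𝒪 (s48h_GammaH N' (⊤ : Subgroup (ZMod N')ˣ)) 𝒪))
    (hops' : ops' = fun j => s59w_op (⊤ : Subgroup (ZMod N')ˣ) 𝒪 (s59t_AIdx_down hN'N (idx j)))
    (hc' : ∀ i j, ops' i * ops' j = ops' j * ops' i) :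
    ∃ v, s59t_polyAct ops' hc' e v ≠ 0 := by
  classical
  obtain ⟨v, hv, hT, hD⟩ := s59u_W6 (L := N') (M := N') (dvd_refl N')
    (⊤ : Subgroup (ZMod N')ˣ) 𝒪 p hp𝒪 a B hocc
  have heig : ∀ j, ops' j v - c j • v ∈ (maximalIdeal 𝒪 • ⊤ :
      Submodule 𝒪 (s48h_Hpar 𝒪 (s48h_GammaH N' (⊤ : Subgroup (ZMod N')ˣ)) 𝒪)) := by
    intro j
    have h0 : ops' j = s59w_op (⊤ : Subgroup (ZMod N')ˣ) 𝒪 (s59t_AIdx_down hN'N (idx j)) := by
      rw [hops']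
    rw [h0]
    rcases hj : idx j with i | τ
    · rw [hcT j i hj]
      exact hT (s59t_TIdx_down hN'N i) (hidx j i hj)
    · rw [hcD j τ hj, one_smul]
      exact hD _
  have h1 := s59u_polyAct_eigen ops' hc' c v heig e
  have h2 : (1 : 𝒪) - MvPolynomial.eval c e ∈ maximalIdeal 𝒪 := by
    by_contra hne
    have h3 : IsUnit (MvPolynomial.eval c (1 - e)) := by
      rw [map_sub, map_one]
      by_contra h4
      exact hne ((mem_maximalIdeal _).mpr h4)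
    exact ((s59t_not_mem_evalIdeal c (1 - e)).mpr h3) he
  have h3 : s59t_polyAct ops' hc' e v - v ∈ (maximalIdeal 𝒪 • ⊤ :
      Submodule 𝒪 (s48h_Hpar 𝒪 (s48h_GammaH N' (⊤ : Subgroup (ZMod N')ˣ)) 𝒪)) := by
    have h4 : s59t_polyAct ops' hc' e v - v =
        (s59t_polyAct ops' hc' e v - MvPolynomial.eval c e • v) -
          ((1 : 𝒪) - MvPolynomial.eval c e) • v := by
      module
    rw [h4]
    exact Submodule.sub_mem _ h1 (Submodule.smul_mem_smul h2 Submodule.mem_top)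
  have h4 := s59pt_not_mem_of_sub_mem _ hv h3
  exact ⟨v, fun h0 => h4 (h0 ▸ Submodule.zero_mem _)⟩

/-- a ring homomorphism from a DVR of residue characteristic `p` to a domain of characteristic zero is injective. -/
theorem s59pt_injective_of_charZero {𝒪 : Type*} [CommRing 𝒪] [IsDomain 𝒪] [IsDiscreteValuationRing 𝒪]
    {p : ℕ} (hp0 : p ≠ 0) (hp𝒪 : (p : 𝒪) ∈ maximalIdeal 𝒪)
    {𝒪₀ : Type*} [CommRing 𝒪₀] [IsDomain 𝒪₀] [CharZero 𝒪₀] (g : 𝒪 →+* 𝒪₀) : Function.Injective g := by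
  rw [RingHom.injective_iff_ker_eq_bot]
  by_contra hne
  haveI : (RingHom.ker g).IsPrime := RingHom.ker_isPrime g
  have hmax : (RingHom.ker g).IsMaximal := Ideal.IsPrime.isMaximal inferInstance hne
  have heq : RingHom.ker g = maximalIdeal 𝒪 := IsLocalRing.eq_maximalIdeal hmax
  have h1 : (p : 𝒪) ∈ RingHom.ker g := by rw [heq]; exact hp𝒪
  rw [RingHom.mem_ker, map_natCast] at h1
  exact hp0 (Nat.cast_eq_zero.mp h1)

variable (p : ℕ) [hpP : Fact p.Prime]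

/-- **the cut run, core** (abstract modules `Z₁ ↪ H_par(Γ_⊤(L))`, `Zn ↪ H_par(Γ_⊤(L·2))`). -/
theorem s59pt_cut_core (hp2 : p ≠ 2) {L : ℕ} [NeZero L] [NeZero (L * 2)] (hL2 : ¬ 2 ∣ L)
    (𝒪 : Type) [CommRing 𝒪] [IsDomain 𝒪] [IsDiscreteValuationRing 𝒪]
    [IsAdicComplete (maximalIdeal 𝒪) 𝒪] [Finite (ResidueField 𝒪)] [CharZero 𝒪] [Algebra ℤ_[p] 𝒪]
    (hp𝒪 : (p : 𝒪) ∈ maximalIdeal 𝒪)
    (B : Finset ℕ) (hpB : p ∈ B) (hNB : ∀ q : ℕ, q.Prime → q ∣ L * 2 → q ∈ B)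
    {J : Type} (idx : J → s59w_AIdx (L * 2))
    (hJ : ∀ i : s59w_TIdx (L * 2), i.ell ∉ B → ∃ j, idx j = Sum.inl i)
    (ops : J → Module.End 𝒪 (s48h_Hpar 𝒪 (s48h_GammaH (L * 2) (⊤ : Subgroup (ZMod (L * 2))ˣ)) 𝒪))
    (hops : ops = fun j => s59w_op (⊤ : Subgroup (ZMod (L * 2))ˣ) 𝒪 (idx j))
    (hc : ∀ i j, ops i * ops j = ops j * ops i)
    (ops' : J → Module.End 𝒪 (s48h_Hpar 𝒪 (s48h_GammaH L (⊤ : Subgroup (ZMod L)ˣ)) 𝒪))
    (hops' : ops' = fun j => s59w_op (⊤ : Subgroup (ZMod L)ˣ) 𝒪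
      (s59t_AIdx_down (dvd_mul_right L 2) (idx j)))
    (hc' : ∀ i j, ops' i * ops' j = ops' j * ops' i)
    -- the package
    (D : s59t_Old 𝒪 (s48h_Hpar 𝒪 (s48h_GammaH L (⊤ : Subgroup (ZMod L)ˣ)) 𝒪)
      (s48h_Hpar 𝒪 (s48h_GammaH (L * 2) (⊤ : Subgroup (ZMod (L * 2))ˣ)) 𝒪))
    (hDU : ∀ z, D.U z =
      (s59w_UqDatum (⊤ : Subgroup (ZMod (L * 2))ˣ) (dvd_mul_left 2 L)).heckeHpar 𝒪 z)
    (hcompat : ∀ j, D.Compat (ops' j) (ops j))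
    (ε : 𝒪) (hε : ε = 1 ∨ ε = -1)
    (hfinj : Function.Injective ((LinearMap.id + ε • D.w) ∘ₗ D.resA))
    -- the cut module and its Hecke ring
    (Y' : Submodule 𝒪 (s48h_Hpar 𝒪 (s48h_GammaH (L * 2) (⊤ : Subgroup (ZMod (L * 2))ˣ)) 𝒪))
    (T : Type) [CommRing T] [IsLocalRing T] [Algebra 𝒪 T]
    (act : T →ₐ[𝒪] Module.End 𝒪 Y')
    (hact : ∀ t, ∃ P : MvPolynomial J 𝒪, ∀ z : Y',
      ((act t z : Y') : s48h_Hpar 𝒪 (s48h_GammaH (L * 2) (⊤ : Subgroup (ZMod (L * 2))ˣ)) 𝒪) =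
        s59t_polyAct ops hc P z)
    (hfaith : ∀ t, act t = 0 → t = 0)
    (ρT : GaloisRepAdic T) (tr : ℕ → T)
    (hfrob : ∀ ℓ : ℕ, ℓ.Prime → ℓ ∉ B → ∀ P' : ValuationSubring Qbar, P'.LiesOverPrime ℓ →
      ∀ σ : GQ, P'.IsFrobeniusAt σ ℓ →
        LinearMap.charpoly (ρT.ρ σ) = X ^ 2 - C (tr ℓ) * X + C (ℓ : T))
    (hacttr : ∀ i : s59w_TIdx (L * 2), i.ell ∉ B → ∀ z : Y',
      ((act (tr i.ell) z : Y') : s48h_Hpar 𝒪 (s48h_GammaH (L * 2) (⊤ : Subgroup (ZMod (L * 2))ˣ)) 𝒪) =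
        s59w_op (⊤ : Subgroup (ZMod (L * 2))ˣ) 𝒪 (Sum.inl i) z)
    -- the old module of level `L`
    {Z₁ : Type} [AddCommGroup Z₁] [Module 𝒪 Z₁] [Module.Finite 𝒪 Z₁] [Module.Free 𝒪 Z₁] [Nontrivial Z₁]
    (emb₁ : Z₁ →ₗ[𝒪] s48h_Hpar 𝒪 (s48h_GammaH L (⊤ : Subgroup (ZMod L)ˣ)) 𝒪)
    (hemb₁ : Function.Injective emb₁)
    (op₁ : s59w_AIdx L → Module.End 𝒪 Z₁)
    (hop₁ : ∀ j z, emb₁ (op₁ j z) = s59w_op (⊤ : Subgroup (ZMod L)ˣ) 𝒪 j (emb₁ z))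
    (hfY : ∀ z : Z₁, ((LinearMap.id + ε • D.w) ∘ₗ D.resA) (emb₁ z) ∈ Y')
    (hcorY : ∀ z ∈ Y', ∃ z₁ : Z₁, D.corA z = emb₁ z₁)
    -- the new part of `Y'`
    {Zn : Type} [AddCommGroup Zn] [Module 𝒪 Zn] [Module.Finite 𝒪 Zn] [Module.Free 𝒪 Zn]
    (embn : Zn →ₗ[𝒪] s48h_Hpar 𝒪 (s48h_GammaH (L * 2) (⊤ : Subgroup (ZMod (L * 2))ˣ)) 𝒪)
    (hembn : Function.Injective embn)
    (opn : s59w_AIdx (L * 2) → Module.End 𝒪 Zn)
    (hopn : ∀ j z, embn (opn j z) = s59w_op (⊤ : Subgroup (ZMod (L * 2))ˣ) 𝒪 j (embn z))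
    (hnY : ∀ z : Zn, embn z ∈ Y')
    (hnew : ∀ z ∈ Y', D.corA z = 0 → ∃ zn : Zn, embn zn = z)
    (hUn : ∀ z : Zn, D.U (embn z) = (-ε) • embn z) :
    (∃ (𝒪' : Type) (_ : CommRing 𝒪') (_ : IsDomain 𝒪') (_ : IsDiscreteValuationRing 𝒪')
      (_ : IsAdicComplete (maximalIdeal 𝒪') 𝒪') (_ : Finite (ResidueField 𝒪')) (_ : CharZero 𝒪')
      (_ : Algebra 𝒪 𝒪') (_ : Module.Finite 𝒪 𝒪') (_ : IsLocalHom (algebraMap 𝒪 𝒪'))
      (x : T →ₐ[𝒪] 𝒪'),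
      (∀ t, act t = 0 → x t = 0) ∧
      ∀ (r : ℕ), r.Prime → r ≠ p → ¬ r ∣ L →
        ∀ (A : ValuationSubring Qbar), A.LiesOverPrime r → ∀ σ : GQ, A.IsFrobeniusAt σ r →
          x (s59i_cpTr ρT σ) * x (s59i_cpTr ρT σ) ≠ ((r : 𝒪') + 1) * ((r : 𝒪') + 1)) ∧
    ∀ (𝒪₀ : Type) [CommRing 𝒪₀] [IsDomain 𝒪₀] [CharZero 𝒪₀] (y : T →+* 𝒪₀)
      (A : ValuationSubring Qbar), A.LiesOverPrime 2 → ∀ σ : GQ, A.IsFrobeniusAt σ 2 →
        y (s59i_cpTr ρT σ) ≠ y (algebraMap 𝒪 T (ε * 3)) := by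
  classical
  have hεε : ε * ε = 1 := by
    rcases hε with h | h
    · rw [h, one_mul]
    · rw [h, neg_mul_neg, one_mul]
  have hNB₁ : ∀ q : ℕ, q.Prime → q ∣ L → q ∈ B := fun q hq h => hNB q hq (Dvd.dvd.mul_right h 2)
  obtain ⟨f, hfdef⟩ : ∃ f : s48h_Hpar 𝒪 (s48h_GammaH L (⊤ : Subgroup (ZMod L)ˣ)) 𝒪 →ₗ[𝒪]
      s48h_Hpar 𝒪 (s48h_GammaH (L * 2) (⊤ : Subgroup (ZMod (L * 2))ˣ)) 𝒪,
      f = (LinearMap.id + ε • D.w) ∘ₗ D.resA := ⟨_, rfl⟩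
  rw [← hfdef] at hfinj hfY
  have hfapp : ∀ y, f y = D.resA y + ε • D.w (D.resA y) := by
    intro y
    rw [hfdef]
    rfl
  -- `f` intertwines the operators
  have hint : ∀ j y, f (ops' j y) = ops j (f y) := by
    intro j y
    rw [hfapp, hfapp, map_add, map_smul, (hcompat j).w, (hcompat j).resA]
  have hint' : ∀ j y, f (s59w_op (⊤ : Subgroup (ZMod L)ˣ) 𝒪
      (s59t_AIdx_down (dvd_mul_right L 2) (idx j)) y) = ops j (f y) := by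
    intro j y
    have := hint j y
    rw [hops'] at this
    exact this
  have hintP : ∀ (P : MvPolynomial J 𝒪) y,
      f (s59t_polyAct ops' hc' P y) = s59t_polyAct ops hc P (f y) :=
    fun P y => s59t_polyAct_intertwine ops' hc' ops hc f hint P y
  have hcorP : ∀ (P : MvPolynomial J 𝒪) z,
      D.corA (s59t_polyAct ops hc P z) = s59t_polyAct ops' hc' P (D.corA z) :=
    fun P z => s59t_polyAct_intertwine ops hc ops' hc' D.corA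
      (fun j z => ((hcompat j).corA z).symm) P z
  -- the Frobenius traces at the level `L`
  have hacttr' : ∀ i' : s59w_TIdx L, i'.ell ∉ B → ∃ (j : J) (i'' : s59w_TIdx L),
      s59t_AIdx_down (dvd_mul_right L 2) (idx j) = Sum.inl i'' ∧ i''.ell = i'.ell ∧
        ∀ z : Y', ((act (tr i'.ell) z : Y') :
          s48h_Hpar 𝒪 (s48h_GammaH (L * 2) (⊤ : Subgroup (ZMod (L * 2))ˣ)) 𝒪) = ops j z := by
    intro i' hi'
    have hℓN : ¬ i'.ell ∣ L * 2 := fun h => hi' (hNB _ i'.prime h)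
    have hcop : Nat.Coprime i'.ell (L * 2) := (Nat.Prime.coprime_iff_not_dvd i'.prime).mpr hℓN
    obtain ⟨σ, hσ⟩ := s59w_exists_sig (ZMod.unitOfCoprime i'.ell hcop)
    have hσ11 : (((σ : SL(2, ℤ)) 1 1 : ℤ) : ZMod (L * 2)) = (i'.ell : ZMod (L * 2)) := by
      have h1 := congrArg (fun u : (ZMod (L * 2))ˣ => (u : ZMod (L * 2))) hσ
      simp only [s59w_lrUnit_coe, ZMod.coe_unitOfCoprime] at h1
      exact h1
    obtain ⟨j, hj⟩ := hJ ⟨i'.ell, i'.prime, hℓN, σ, σ.2, hσ11⟩ hi'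
    refine ⟨j, s59t_TIdx_down (dvd_mul_right L 2) ⟨i'.ell, i'.prime, hℓN, σ, σ.2, hσ11⟩, ?_, rfl,
      fun z => ?_⟩
    · rw [hj]
      rfl
    · have h1 := hacttr ⟨i'.ell, i'.prime, hℓN, σ, σ.2, hσ11⟩ hi' z
      rw [hops]
      show _ = s59w_op (⊤ : Subgroup (ZMod (L * 2))ˣ) 𝒪 (idx j) z
      rw [hj]
      exact h1
  have hacttrn : ∀ i' : s59w_TIdx (L * 2), i'.ell ∉ B → ∃ (j : J) (i'' : s59w_TIdx (L * 2)),
      idx j = Sum.inl i'' ∧ i''.ell = i'.ell ∧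
        ∀ z : Y', ((act (tr i'.ell) z : Y') :
          s48h_Hpar 𝒪 (s48h_GammaH (L * 2) (⊤ : Subgroup (ZMod (L * 2))ˣ)) 𝒪) = ops j z := by
    intro i' hi'
    obtain ⟨j, hj⟩ := hJ i' hi'
    refine ⟨j, i', hj, rfl, fun z => ?_⟩
    rw [hops]
    show _ = s59w_op (⊤ : Subgroup (ZMod (L * 2))ˣ) 𝒪 (idx j) z
    rw [hj]
    exact hacttr i' hi' z
  refine ⟨?_, ?_⟩
  · -- (i) the old point
    exact s59pt_point_of_inj p hp2 L 𝒪 hp𝒪 B hpB hNB₁ emb₁ hemb₁ op₁ hop₁ Y' ops hc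
      (fun j => s59t_AIdx_down (dvd_mul_right L 2) (idx j)) f hfinj hint' hfY T act hact ρT tr hfrob
      hacttr'
  · -- (ii) the exclusion
    intro 𝒪₀ _ _ _ y A hA σ hσ heq
    obtain ⟨jT₁, h1, -, hjTg₁, htr₁⟩ := s59pt_jT_of_inj L 𝒪 B emb₁ hemb₁ op₁ hop₁ Y' ops hc
      (fun j => s59t_AIdx_down (dvd_mul_right L 2) (idx j)) f hfinj hint' hfY T act hact tr hacttr'
    obtain ⟨jTn, h1n, -, hjTgn, htrn⟩ := s59pt_jT_of_inj (L * 2) 𝒪 B embn hembn opn hopn Y' ops hc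
      idx LinearMap.id Function.injective_id
      (fun j y => by rw [hops]; rfl) (fun z => hnY z) T act hact tr hacttrn
    have hεn : (-ε) = 1 ∨ (-ε) = -1 := by
      rcases hε with h | h
      · right; rw [h]
      · left; rw [h, neg_neg]
    have hkern := s59pt_new2_ker p hp2 hL2 𝒪 hp𝒪 B hpB hNB embn hembn opn hopn (-ε) hεn
      (fun z => by rw [← hDU]; exact hUn z) T jTn hjTgn ρT tr htrn hfrob A hA σ hσ
    -- Claim A
    have hA' : ∀ a, jT₁ a = 0 → ∀ z : Y', D.corA ((act a z : Y') :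
        s48h_Hpar 𝒪 (s48h_GammaH (L * 2) (⊤ : Subgroup (ZMod (L * 2))ˣ)) 𝒪) = 0 := by
      intro a ha z
      obtain ⟨P, hP⟩ := hact a
      obtain ⟨z₁, hz₁⟩ := hcorY z.1 z.2
      rw [hP z, hcorP, hz₁]
      apply hfinj
      rw [hintP, ← h1 a P hP z₁, ha, LinearMap.zero_apply, map_zero, map_zero]
    -- Claim B
    have hB' : ∀ b, jTn b = 0 → ∀ z : Y', D.corA (z : s48h_Hpar 𝒪
        (s48h_GammaH (L * 2) (⊤ : Subgroup (ZMod (L * 2))ˣ)) 𝒪) = 0 → act b z = 0 := by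
      intro b hb z hz
      obtain ⟨P, hP⟩ := hact b
      obtain ⟨zn, hzn⟩ := hnew z.1 z.2 hz
      apply Subtype.ext
      rw [hP z, ← hzn]
      have h2 := h1n b P hP zn
      rw [LinearMap.id_apply, LinearMap.id_apply] at h2
      rw [← h2, hb, LinearMap.zero_apply, map_zero]
      rfl
    -- the product vanishes
    have hprod : ∀ a, jT₁ a = 0 →
        (s59i_cpTr ρT σ - algebraMap 𝒪 T (-ε * 3)) * a = 0 := by
      intro a ha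
      apply hfaith
      refine LinearMap.ext fun z => ?_
      rw [map_mul, Module.End.mul_apply, LinearMap.zero_apply]
      exact hB' _ hkern (act a z) (hA' a ha z)
    have hyε : y (algebraMap 𝒪 T ε) * y (algebraMap 𝒪 T ε) = 1 := by
      rw [← map_mul, ← map_mul, hεε, map_one, map_one]
    have h6 : (6 : 𝒪₀) ≠ 0 := by
      have h60 : ((6 : ℕ) : 𝒪₀) ≠ 0 := Nat.cast_ne_zero.mpr (by norm_num)
      have h61 : ((6 : ℕ) : 𝒪₀) = 6 := by norm_num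
      rwa [h61] at h60
    have hy3 : y (algebraMap 𝒪 T (ε * 3)) = y (algebraMap 𝒪 T ε) * 3 := by
      rw [map_mul, map_mul, map_ofNat, map_ofNat]
    have hy3n : y (algebraMap 𝒪 T (-ε * 3)) = -(y (algebraMap 𝒪 T ε) * 3) := by
      rw [neg_mul, map_neg, map_neg, hy3]
    by_cases hyb : y (s59i_cpTr ρT σ - algebraMap 𝒪 T (-ε * 3)) = 0
    · -- `y(tr) = −3ε`
      rw [map_sub, sub_eq_zero, heq, hy3, hy3n] at hyb
      have h7 : y (algebraMap 𝒪 T ε) * 6 = 0 := by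
        have : y (algebraMap 𝒪 T ε) * 6 =
            y (algebraMap 𝒪 T ε) * 3 + y (algebraMap 𝒪 T ε) * 3 := by ring
        rw [this]
        nth_rewrite 1 [hyb]
        ring
      rcases mul_eq_zero.mp h7 with h8 | h8
      · rw [h8, mul_zero] at hyε
        exact zero_ne_one hyε
      · exact h6 h8
    · -- `y` factors through the Hecke ring of `Z₁`
      have hykill : ∀ a, jT₁ a = 0 → y a = 0 := by
        intro a ha
        have h2 := congrArg y (hprod a ha)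
        rw [map_mul, map_zero] at h2
        rcases mul_eq_zero.mp h2 with h3 | h3
        · exact absurd h3 hyb
        · exact h3
      letI : Algebra 𝒪 𝒪₀ := (y.comp (algebraMap 𝒪 T)).toAlgebra
      have hinj : Function.Injective (algebraMap 𝒪 𝒪₀) :=
        s59pt_injective_of_charZero hpP.out.ne_zero hp𝒪 (y.comp (algebraMap 𝒪 T))
      let y' : T →ₐ[𝒪] 𝒪₀ := { y with commutes' := fun r => rfl }
      have hne := s59pt_c1_all p hp2 L 𝒪 hp𝒪 B hpB hNB₁ emb₁ hemb₁ op₁ hop₁ T jT₁ hjTg₁ ρT tr 0 htr₁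
        hfrob hinj y' (fun t ht => hykill t ht) 2 Nat.prime_two (fun h => hp2 h.symm) hL2 A hA σ hσ
      apply hne
      show y (s59i_cpTr ρT σ) * y (s59i_cpTr ρT σ) = _
      rw [heq, hy3]
      have : y (algebraMap 𝒪 T ε) * 3 * (y (algebraMap 𝒪 T ε) * 3) =
          (y (algebraMap 𝒪 T ε) * y (algebraMap 𝒪 T ε)) * 9 := by ring
      rw [this, hyε]
      norm_num

/-- **the cut run**: `Y′ = {z : ε₀ z = z, w z = ε z}`, abstract package `D`. -/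
theorem s59pt_cut (hp2 : p ≠ 2) {L : ℕ} [NeZero L] [NeZero (L * 2)] (hL2 : ¬ 2 ∣ L)
    (𝒪 : Type) [CommRing 𝒪] [IsDomain 𝒪] [IsDiscreteValuationRing 𝒪]
    [IsAdicComplete (maximalIdeal 𝒪) 𝒪] [Finite (ResidueField 𝒪)] [CharZero 𝒪] [Algebra ℤ_[p] 𝒪]
    (hp𝒪 : (p : 𝒪) ∈ maximalIdeal 𝒪)
    (B : Finset ℕ) (hpB : p ∈ B) (hNB : ∀ q : ℕ, q.Prime → q ∣ L * 2 → q ∈ B)
    (a : ℕ → ℤ) (hocc : s44i_LevelOcc L p a B)
    -- the dialect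
    {J : Type} (idx : J → s59w_AIdx (L * 2))
    (hidx : ∀ j i, idx j = Sum.inl i → i.ell ∉ B)
    (hJ : ∀ i : s59w_TIdx (L * 2), i.ell ∉ B → ∃ j, idx j = Sum.inl i)
    (c : J → 𝒪) (hcT : ∀ j i, idx j = Sum.inl i → c j = ((a i.ell : ℤ) : 𝒪))
    (hcD : ∀ j τ, idx j = Sum.inr τ → c j = 1)
    (e : MvPolynomial J 𝒪) (he : 1 - e ∈ s59t_evalIdeal c)
    (hidem : ∀ z, s59t_polyAct (fun j => s59w_op (⊤ : Subgroup (ZMod (L * 2))ˣ) 𝒪 (idx j))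
        (fun i j => s59w_op_comm (⊤ : Subgroup (ZMod (L * 2))ˣ) 𝒪 _ _) e
      (s59t_polyAct (fun j => s59w_op (⊤ : Subgroup (ZMod (L * 2))ˣ) 𝒪 (idx j))
        (fun i j => s59w_op_comm (⊤ : Subgroup (ZMod (L * 2))ˣ) 𝒪 _ _) e z) =
      s59t_polyAct (fun j => s59w_op (⊤ : Subgroup (ZMod (L * 2))ˣ) 𝒪 (idx j))
        (fun i j => s59w_op_comm (⊤ : Subgroup (ZMod (L * 2))ˣ) 𝒪 _ _) e z)
    -- the package
    (D : s59t_Old 𝒪 (s48h_Hpar 𝒪 (s48h_GammaH L (⊤ : Subgroup (ZMod L)ˣ)) 𝒪)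
      (s48h_Hpar 𝒪 (s48h_GammaH (L * 2) (⊤ : Subgroup (ZMod (L * 2))ˣ)) 𝒪))
    (hDU : ∀ z, D.U z =
      (s59w_UqDatum (⊤ : Subgroup (ZMod (L * 2))ˣ) (dvd_mul_left 2 L)).heckeHpar 𝒪 z)
    (hcompatAll : ∀ x : s59w_AIdx (L * 2),
      D.Compat (s59w_op (⊤ : Subgroup (ZMod L)ˣ) 𝒪 (s59t_AIdx_down (dvd_mul_right L 2) x))
        (s59w_op (⊤ : Subgroup (ZMod (L * 2))ˣ) 𝒪 x))
    (ε : 𝒪) (hε : ε = 1 ∨ ε = -1)
    (hRP : ∀ b, D.T b = (-(ε * (D.qq + 1))) • b → b = 0)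
    -- the cut module and its Hecke ring
    (Y' : Submodule 𝒪 (s48h_Hpar 𝒪 (s48h_GammaH (L * 2) (⊤ : Subgroup (ZMod (L * 2))ˣ)) 𝒪))
    (hY' : ∀ z, z ∈ Y' ↔
      s59t_polyAct (fun j => s59w_op (⊤ : Subgroup (ZMod (L * 2))ˣ) 𝒪 (idx j))
        (fun i j => s59w_op_comm (⊤ : Subgroup (ZMod (L * 2))ˣ) 𝒪 _ _) e z = z ∧ D.w z = ε • z)
    (T : Type) [CommRing T] [IsLocalRing T] [Algebra 𝒪 T]
    (act : T →ₐ[𝒪] Module.End 𝒪 Y')
    (hact : ∀ t, ∃ P : MvPolynomial J 𝒪, ∀ z : Y',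
      ((act t z : Y') : s48h_Hpar 𝒪 (s48h_GammaH (L * 2) (⊤ : Subgroup (ZMod (L * 2))ˣ)) 𝒪) =
        s59t_polyAct (fun j => s59w_op (⊤ : Subgroup (ZMod (L * 2))ˣ) 𝒪 (idx j))
          (fun i j => s59w_op_comm (⊤ : Subgroup (ZMod (L * 2))ˣ) 𝒪 _ _) P z)
    (hfaith : ∀ t, act t = 0 → t = 0)
    (ρT : GaloisRepAdic T) (tr : ℕ → T)
    (hfrob : ∀ ℓ : ℕ, ℓ.Prime → ℓ ∉ B → ∀ P' : ValuationSubring Qbar, P'.LiesOverPrime ℓ →
      ∀ σ : GQ, P'.IsFrobeniusAt σ ℓ →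
        LinearMap.charpoly (ρT.ρ σ) = X ^ 2 - C (tr ℓ) * X + C (ℓ : T))
    (hacttr : ∀ i : s59w_TIdx (L * 2), i.ell ∉ B → ∀ z : Y',
      ((act (tr i.ell) z : Y') : s48h_Hpar 𝒪 (s48h_GammaH (L * 2) (⊤ : Subgroup (ZMod (L * 2))ˣ)) 𝒪) =
        s59w_op (⊤ : Subgroup (ZMod (L * 2))ˣ) 𝒪 (Sum.inl i) z) :
    (∃ (𝒪' : Type) (_ : CommRing 𝒪') (_ : IsDomain 𝒪') (_ : IsDiscreteValuationRing 𝒪')
      (_ : IsAdicComplete (maximalIdeal 𝒪') 𝒪') (_ : Finite (ResidueField 𝒪')) (_ : CharZero 𝒪')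
      (_ : Algebra 𝒪 𝒪') (_ : Module.Finite 𝒪 𝒪') (_ : IsLocalHom (algebraMap 𝒪 𝒪'))
      (x : T →ₐ[𝒪] 𝒪'),
      (∀ t, act t = 0 → x t = 0) ∧
      ∀ (r : ℕ), r.Prime → r ≠ p → ¬ r ∣ L →
        ∀ (A : ValuationSubring Qbar), A.LiesOverPrime r → ∀ σ : GQ, A.IsFrobeniusAt σ r →
          x (s59i_cpTr ρT σ) * x (s59i_cpTr ρT σ) ≠ ((r : 𝒪') + 1) * ((r : 𝒪') + 1)) ∧
    ∀ (𝒪₀ : Type) [CommRing 𝒪₀] [IsDomain 𝒪₀] [CharZero 𝒪₀] (y : T →+* 𝒪₀)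
      (A : ValuationSubring Qbar), A.LiesOverPrime 2 → ∀ σ : GQ, A.IsFrobeniusAt σ 2 →
        y (s59i_cpTr ρT σ) ≠ y (algebraMap 𝒪 T (ε * 3)) := by
  classical
  have hεε : ε * ε = 1 := by
    rcases hε with h | h
    · rw [h, one_mul]
    · rw [h, neg_mul_neg, one_mul]
  haveI : Module.Finite 𝒪 (s48h_Hpar 𝒪 (s48h_GammaH L (⊤ : Subgroup (ZMod L)ˣ)) 𝒪) :=
    s59t_Hpar_finite 𝒪
  haveI : Module.Free 𝒪 (s48h_Hpar 𝒪 (s48h_GammaH L (⊤ : Subgroup (ZMod L)ˣ)) 𝒪) :=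
    s59t_Hpar_free 𝒪
  haveI : Module.Finite 𝒪 (s48h_Hpar 𝒪 (s48h_GammaH (L * 2) (⊤ : Subgroup (ZMod (L * 2))ˣ)) 𝒪) :=
    s59t_Hpar_finite 𝒪
  haveI : Module.Free 𝒪 (s48h_Hpar 𝒪 (s48h_GammaH (L * 2) (⊤ : Subgroup (ZMod (L * 2))ˣ)) 𝒪) :=
    s59t_Hpar_free 𝒪
  -- the operators
  obtain ⟨ops, hops⟩ : ∃ ops : J → Module.End 𝒪
      (s48h_Hpar 𝒪 (s48h_GammaH (L * 2) (⊤ : Subgroup (ZMod (L * 2))ˣ)) 𝒪),
      ops = fun j => s59w_op (⊤ : Subgroup (ZMod (L * 2))ˣ) 𝒪 (idx j) := ⟨_, rfl⟩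
  have hc : ∀ i j, ops i * ops j = ops j * ops i := by
    intro i j
    rw [hops]
    exact s59w_op_comm (⊤ : Subgroup (ZMod (L * 2))ˣ) 𝒪 _ _
  obtain ⟨ops', hops'⟩ : ∃ ops' : J → Module.End 𝒪
      (s48h_Hpar 𝒪 (s48h_GammaH L (⊤ : Subgroup (ZMod L)ˣ)) 𝒪),
      ops' = fun j => s59w_op (⊤ : Subgroup (ZMod L)ˣ) 𝒪
        (s59t_AIdx_down (dvd_mul_right L 2) (idx j)) := ⟨_, rfl⟩
  have hc' : ∀ i j, ops' i * ops' j = ops' j * ops' i := by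
    intro i j
    rw [hops']
    exact s59w_op_comm (⊤ : Subgroup (ZMod L)ˣ) 𝒪 _ _
  have hidem' : ∀ z, s59t_polyAct ops hc e (s59t_polyAct ops hc e z) = s59t_polyAct ops hc e z := by
    subst hops
    exact hidem
  have hY'' : ∀ z, z ∈ Y' ↔ s59t_polyAct ops hc e z = z ∧ D.w z = ε • z := by
    subst hops
    exact hY'
  have hact' : ∀ t, ∃ P : MvPolynomial J 𝒪, ∀ z : Y',
      ((act t z : Y') : s48h_Hpar 𝒪 (s48h_GammaH (L * 2) (⊤ : Subgroup (ZMod (L * 2))ˣ)) 𝒪) =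
        s59t_polyAct ops hc P z := by
    subst hops
    exact hact
  have hcompat : ∀ j, D.Compat (ops' j) (ops j) := by
    intro j
    rw [hops, hops']
    exact hcompatAll (idx j)
  have hcompatP : ∀ P : MvPolynomial J 𝒪,
      D.Compat (s59t_polyAct ops' hc' P) (s59t_polyAct ops hc P) := by
    intro P
    refine s59f_compat_polyAct D ops' hc' ops hc Set.univ (fun j _ => hcompat j) ?_
    rw [MvPolynomial.supported_univ]
    exact Algebra.mem_top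
  have hfinj := s59pt_one_add_w_resA_inj D ε hεε hRP
  -- the old module of level `L`
  obtain ⟨Z₁, hZ₁⟩ : ∃ Z₁ : Submodule 𝒪 (s48h_Hpar 𝒪 (s48h_GammaH L (⊤ : Subgroup (ZMod L)ˣ)) 𝒪),
      Z₁ = LinearMap.range (s59t_polyAct ops' hc' e) := ⟨_, rfl⟩
  have hstab₁ : ∀ (j : s59w_AIdx L), ∀ z ∈ Z₁, s59w_op (⊤ : Subgroup (ZMod L)ˣ) 𝒪 j z ∈ Z₁ := by
    intro j z hz
    rw [hZ₁] at hz ⊢
    obtain ⟨z₁, rfl⟩ := hz
    refine ⟨s59w_op (⊤ : Subgroup (ZMod L)ˣ) 𝒪 j z₁, ?_⟩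
    refine (s59t_polyAct_commute ops' hc' (s59w_op (⊤ : Subgroup (ZMod L)ˣ) 𝒪 j) ?_ e z₁).symm
    intro i z
    rw [hops']
    have h1 := LinearMap.congr_fun (s59w_op_comm (⊤ : Subgroup (ZMod L)ˣ) 𝒪 j
      (s59t_AIdx_down (dvd_mul_right L 2) (idx i))) z
    rwa [Module.End.mul_apply, Module.End.mul_apply] at h1
  haveI : Module.Finite 𝒪 ↥Z₁ := Module.IsNoetherian.finite 𝒪 ↥Z₁
  haveI : Module.IsTorsionFree 𝒪 ↥Z₁ := inferInstance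
  haveI : Module.Free 𝒪 ↥Z₁ := Module.free_of_finite_type_torsion_free' (R := 𝒪) (M := ↥Z₁)
  haveI : Nontrivial ↥Z₁ := by
    obtain ⟨v, hv⟩ := s59pt_old_ne_zero p (dvd_mul_right L 2) 𝒪 hp𝒪 B a hocc idx hidx c hcT hcD e he
      ops' hops' hc'
    have hmem : s59t_polyAct ops' hc' e v ∈ Z₁ := by
      rw [hZ₁]
      exact ⟨v, rfl⟩
    exact ⟨⟨⟨_, hmem⟩, 0, fun h => hv (congrArg Subtype.val h)⟩⟩
  -- the new part of `Y'`
  obtain ⟨Zn, hZn⟩ : ∃ Zn : Submodule 𝒪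
      (s48h_Hpar 𝒪 (s48h_GammaH (L * 2) (⊤ : Subgroup (ZMod (L * 2))ˣ)) 𝒪),
      Zn = Y' ⊓ LinearMap.ker D.corA := ⟨_, rfl⟩
  have hmemn : ∀ z, z ∈ Zn ↔ z ∈ Y' ∧ D.corA z = 0 := by
    intro z
    rw [hZn, Submodule.mem_inf, LinearMap.mem_ker]
  have hstabY : ∀ (x : s59w_AIdx (L * 2)), ∀ z ∈ Y',
      s59w_op (⊤ : Subgroup (ZMod (L * 2))ˣ) 𝒪 x z ∈ Y' := by
    intro x z hz
    rw [hY''] at hz ⊢
    refine ⟨?_, ?_⟩
    · have h1 := s59t_polyAct_commute ops hc (s59w_op (⊤ : Subgroup (ZMod (L * 2))ˣ) 𝒪 x) (by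
        intro i z
        rw [hops]
        have h1 := LinearMap.congr_fun (s59w_op_comm (⊤ : Subgroup (ZMod (L * 2))ˣ) 𝒪 x (idx i)) z
        rwa [Module.End.mul_apply, Module.End.mul_apply] at h1) e z
      rw [← h1, hz.1]
    · rw [← (hcompatAll x).w, hz.2, map_smul]
  have hstabn : ∀ (x : s59w_AIdx (L * 2)), ∀ z ∈ Zn,
      s59w_op (⊤ : Subgroup (ZMod (L * 2))ˣ) 𝒪 x z ∈ Zn := by
    intro x z hz
    rw [hmemn] at hz ⊢
    refine ⟨hstabY x z hz.1, ?_⟩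
    rw [← (hcompatAll x).corA, hz.2, map_zero]
  haveI : Module.Finite 𝒪 ↥Zn := Module.IsNoetherian.finite 𝒪 ↥Zn
  haveI : Module.IsTorsionFree 𝒪 ↥Zn := inferInstance
  haveI : Module.Free 𝒪 ↥Zn := Module.free_of_finite_type_torsion_free' (R := 𝒪) (M := ↥Zn)
  exact s59pt_cut_core p hp2 hL2 𝒪 hp𝒪 B hpB hNB idx hJ ops hops hc ops' hops' hc' D hDU hcompat ε hε
    hfinj Y' T act hact' hfaith ρT tr hfrob hacttr
    (Z₁ := ↥Z₁) Z₁.subtype Z₁.injective_subtype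
    (fun j => (s59w_op (⊤ : Subgroup (ZMod L)ˣ) 𝒪 j).restrict (hstab₁ j)) (fun j z => rfl)
    (by
      intro z
      have hz : (z : s48h_Hpar 𝒪 (s48h_GammaH L (⊤ : Subgroup (ZMod L)ˣ)) 𝒪) ∈
          LinearMap.range (s59t_polyAct ops' hc' e) := by
        rw [← hZ₁]
        exact z.2
      obtain ⟨u, hu⟩ := hz
      show ((LinearMap.id + ε • D.w) ∘ₗ D.resA) (z : s48h_Hpar 𝒪
        (s48h_GammaH L (⊤ : Subgroup (ZMod L)ˣ)) 𝒪) ∈ Y'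
      rw [hY'', LinearMap.comp_apply, LinearMap.add_apply, LinearMap.id_apply,
        LinearMap.smul_apply]
      refine ⟨?_, s59pt_w_one_add_w D ε hεε _⟩
      have hh : D.resA (s59t_polyAct ops' hc' e (s59t_polyAct ops' hc' e u)) =
          D.resA (s59t_polyAct ops' hc' e u) := by
        rw [← (hcompatP e).resA, ← (hcompatP e).resA, hidem']
      rw [← hu, map_add, map_smul, (hcompatP e).w, (hcompatP e).resA, hh])
    (by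
      intro z hz
      rw [hY''] at hz
      have h1 : D.corA z = s59t_polyAct ops' hc' e (D.corA z) := by
        rw [(hcompatP e).corA, hz.1]
      have h2 : D.corA z ∈ Z₁ := by
        rw [hZ₁, h1]
        exact ⟨_, rfl⟩
      exact ⟨⟨_, h2⟩, rfl⟩)
    (Zn := ↥Zn) Zn.subtype Zn.injective_subtype
    (fun j => (s59w_op (⊤ : Subgroup (ZMod (L * 2))ˣ) 𝒪 j).restrict (hstabn j)) (fun j z => rfl)
    (fun z => ((hmemn z.1).mp z.2).1)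
    (fun z hz hA => ⟨⟨z, (hmemn z).mpr ⟨hz, hA⟩⟩, rfl⟩)
    (by
      intro z
      have h1 := (hmemn z.1).mp z.2
      have h2 := ((hY'' z.1).mp h1.1).2
      have h3 := (s59pt_U_of_w_corA D ε z.1 h2 h1.2).2
      exact h3.trans (neg_smul ε _).symm)

end Fermat.Agent.Lib.S59

end
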