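/-
PROGRAMME R2 = S59, node [PT] (helper1, prefix `s59pt_`): **GLUE FOR THE BASE POINTS** (abstract, small statements).
* `s59pt_hact_of_gen`   : (generation) + (`tr ℓ` acts as `T_ℓ`) ⟹ every element of `T` acts through a polynomial in the dialect
  (superseded for the `p = 3` chain by helper8's `Internal.s59c3_EConc_adj`; kept for other dialects);
* `s59pt_x0_of_point`   : composition of a point `x : T →ₐ[𝒪] 𝒪'` of the Hecke ring with `θ₀ : R0 →ₐ[𝒪] T`.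
-/
import Mathlib
import Fermat.Agent.Lib.S59.GPtBase0
import Fermat.Agent.Lib.S59.GPtCut
import Fermat.Agent.Lib.S59.EHRel2

set_option autoImplicit false
set_option linter.unusedSectionVars false
set_option linter.unusedVariables false
set_option linter.style.haveILetI false
set_option synthInstance.maxHeartbeats 400000
set_option maxHeartbeats 4000000

noncomputable section

namespace Fermat.Agent.Lib.S59

open Fermat.Agent.Lib.S29 Fermat.Agent.Lib.S30 Fermat.Agent.Lib.S48 Fermat.Agent.Lib.S41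
  Fermat.Agent.Lib.S44
open IsLocalRing Polynomial CuspForm
open CongruenceSubgroup
open scoped MatrixGroups

local notation "Qbar" => AlgebraicClosure ℚ
local notation "GQ" => (AlgebraicClosure ℚ ≃ₐ[ℚ] AlgebraicClosure ℚ)

/-- **generation ⟹ polynomial action.** -/
theorem s59pt_hact_of_gen {N : ℕ} [NeZero N] (𝒪 : Type) [CommRing 𝒪] (B : Finset ℕ)
    {J : Type} (idx : J → s59w_AIdx N)
    (hJ : ∀ i : s59w_TIdx N, i.ell ∉ B → ∃ j, idx j = Sum.inl i)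
    (Y : Submodule 𝒪 (s48h_Hpar 𝒪 (s48h_GammaH N (⊤ : Subgroup (ZMod N)ˣ)) 𝒪))
    (T : Type) [CommRing T] [Algebra 𝒪 T] (act : T →ₐ[𝒪] Module.End 𝒪 Y) (tr : ℕ → T)
    (hgen : Algebra.adjoin 𝒪 {x : T | ∃ ℓ : ℕ, ℓ.Prime ∧ ¬ ℓ ∣ N ∧ ℓ ∉ (↑B : Set ℕ) ∧ x = tr ℓ} = ⊤)
    (hacttr : ∀ i : s59w_TIdx N, i.ell ∉ B → ∀ z : Y,
      ((act (tr i.ell) z : Y) : s48h_Hpar 𝒪 (s48h_GammaH N (⊤ : Subgroup (ZMod N)ˣ)) 𝒪) =
        s59w_op (⊤ : Subgroup (ZMod N)ˣ) 𝒪 (Sum.inl i) z) (t : T) :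
    ∃ P : MvPolynomial J 𝒪, ∀ z : Y,
      ((act t z : Y) : s48h_Hpar 𝒪 (s48h_GammaH N (⊤ : Subgroup (ZMod N)ˣ)) 𝒪) =
        s59t_polyAct (fun j => s59w_op (⊤ : Subgroup (ZMod N)ˣ) 𝒪 (idx j))
          (fun i j => s59w_op_comm (⊤ : Subgroup (ZMod N)ˣ) 𝒪 _ _) P z := by
  have ht : t ∈ Algebra.adjoin 𝒪
      {x : T | ∃ ℓ : ℕ, ℓ.Prime ∧ ¬ ℓ ∣ N ∧ ℓ ∉ (↑B : Set ℕ) ∧ x = tr ℓ} := by
    rw [hgen]
    exact Algebra.mem_top
  induction ht using Algebra.adjoin_induction with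
  | mem x hx =>
    obtain ⟨ℓ, hℓ, hℓN, hℓB, rfl⟩ := hx
    obtain ⟨i, hi⟩ := s59e_exists_TIdx (M := N) hℓ hℓN
    have hiB : i.ell ∉ B := by
      rw [hi]
      exact fun h => hℓB (Finset.mem_coe.mpr h)
    obtain ⟨j, hj⟩ := hJ i hiB
    refine ⟨MvPolynomial.X j, fun z => ?_⟩
    rw [s59t_polyAct_X, hj, ← hi]
    exact hacttr i hiB z
  | algebraMap r =>
    refine ⟨MvPolynomial.C r, fun z => ?_⟩
    rw [AlgHom.commutes, s59t_polyAct_C]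
    rfl
  | add x y _ _ hx hy =>
    obtain ⟨P, hP⟩ := hx
    obtain ⟨Q, hQ⟩ := hy
    refine ⟨P + Q, fun z => ?_⟩
    rw [map_add, map_add, LinearMap.add_apply, LinearMap.add_apply, Submodule.coe_add, hP, hQ]
  | mul x y _ _ hx hy =>
    obtain ⟨P, hP⟩ := hx
    obtain ⟨Q, hQ⟩ := hy
    refine ⟨P * Q, fun z => ?_⟩
    rw [map_mul, map_mul, Module.End.mul_apply, Module.End.mul_apply, hP, hQ]

/-- **composition of a point of the Hecke ring with `θ₀ : R0 → T`.** -/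
theorem s59pt_x0_of_point {p : ℕ} (hp0 : p ≠ 0)
    {𝒪 : Type} [CommRing 𝒪] [IsDomain 𝒪] [IsDiscreteValuationRing 𝒪]
    (hp𝒪 : ((p : ℕ) : 𝒪) ∈ maximalIdeal 𝒪)
    {T : Type} [CommRing T] [IsLocalRing T] [Algebra 𝒪 T]
    {R0 : Type} [CommRing R0] [IsLocalRing R0] [Algebra 𝒪 R0] (ρ0 : GaloisRepAdic R0)
    (θ₀ : R0 →ₐ[𝒪] T) (hθ₀l : IsLocalHom (θ₀ : R0 →+* T))
    (hν : ∀ g, θ₀ (s59i_cpTr ρ0 g) = s59i_cpTr (ρ0.baseChangeAlong (θ₀ : R0 →+* T) hθ₀l) g)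
    {𝒪' : Type} [CommRing 𝒪'] [IsDomain 𝒪'] [CharZero 𝒪'] [Algebra 𝒪 𝒪'] (x : T →ₐ[𝒪] 𝒪') :
    ∃ x₀ : R0 →+* 𝒪', (∀ a : R0, θ₀ a = 0 → x₀ a = 0) ∧
      Function.Injective (x₀.comp (algebraMap 𝒪 R0)) ∧
      (∀ g, x₀ (s59i_cpTr ρ0 g) = x (s59i_cpTr (ρ0.baseChangeAlong (θ₀ : R0 →+* T) hθ₀l) g)) ∧
      ∀ c : 𝒪, x₀ (algebraMap 𝒪 R0 c) = algebraMap 𝒪 𝒪' c := by
  refine ⟨(x : T →+* 𝒪').comp (θ₀ : R0 →+* T), ?_, ?_, ?_, ?_⟩
  · intro a ha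
    show x (θ₀ a) = 0
    rw [ha, map_zero]
  · exact s59pt_injective_of_charZero hp0 hp𝒪 _
  · intro g
    show x (θ₀ (s59i_cpTr ρ0 g)) = _
    rw [hν]
  · intro c
    show x (θ₀ (algebraMap 𝒪 R0 c)) = _
    rw [AlgHom.commutes, AlgHom.commutes]


end Fermat.Agent.Lib.S59

end
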