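/-
PROGRAMME R2 = S59, node [PT] (helper1, prefix `s59pt_`): **THE BASE POINTS FROM helper8's EXPORT (E-conc)** `s59c3_EConc 𝒪 N B a R ρR`
(C3FlrConcS.lean: the concrete model of a base ring `R` at the level `(N, ⊤)`: idempotent polynomial `e`, `Y = range (s59t_E0 ⊤ B e)`,
`act : R ↪ End_𝒪 Y` through polynomials in the good operators, `tr`, Frobenius polynomials).
* **`s59pt_econc_pt0`** : the OLD point (`k₀ = 0`): `x : R →ₐ[𝒪] 𝒪'` with [RP] at every prime `r ∤ N' p` (`N' ∣ N` a level of occurrence);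
* **`s59pt_econc_pt1`** : the `2`-NEW point with sign (`k₀ = 1`, `N = L·2`): [RP] at every `r ∤ N p` and `x(tr ρR(Frob₂)) = ε(2+1)` EXACTLY.
-/
import Mathlib
import Fermat.Agent.Lib.S59.GPtPkg
import Fermat.Agent.Lib.S59.GPtBase1
import Fermat.Agent.Lib.S59.GPtNewVec
import Fermat.Agent.Lib.S59.C3FlrConcS
import Fermat.Agent.Lib.S59.ETLvlOps

set_option autoImplicit false
set_option linter.unusedSectionVars false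
set_option linter.unusedVariables false
set_option linter.style.haveILetI false
set_option synthInstance.maxHeartbeats 400000
set_option maxHeartbeats 4000000

noncomputable section

namespace Fermat.Agent.Lib.S59

open Fermat.Agent.Lib.S29 Fermat.Agent.Lib.S30 Fermat.Agent.Lib.S48 Fermat.Agent.Lib.S41
  Fermat.Agent.Lib.S44
open IsLocalRing Polynomial CuspForm
open CongruenceSubgroup
open scoped MatrixGroups

local notation "Qbar" => AlgebraicClosure ℚ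
local notation "GQ" => (AlgebraicClosure ℚ ≃ₐ[ℚ] AlgebraicClosure ℚ)

variable (p : ℕ) [hpP : Fact p.Prime]

/-- **the OLD base point from (E-conc)** (`k₀ = 0`). -/
theorem s59pt_econc_pt0 (hp2 : p ≠ 2) {N N' : ℕ} [NeZero N] [NeZero N'] (hN'N : N' ∣ N)
    (𝒪 : Type) [CommRing 𝒪] [IsDomain 𝒪] [IsDiscreteValuationRing 𝒪]
    [IsAdicComplete (maximalIdeal 𝒪) 𝒪] [Finite (ResidueField 𝒪)] [CharZero 𝒪] [Algebra ℤ_[p] 𝒪]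
    (hp𝒪 : ((p : ℕ) : 𝒪) ∈ maximalIdeal 𝒪)
    (B : Finset ℕ) (hpB : p ∈ B) (hNB : ∀ q : ℕ, q.Prime → q ∣ N → q ∈ B)
    (a : ℕ → ℤ) (hocc : s44i_LevelOcc N' p a B)
    (R : Type) [CommRing R] [IsLocalRing R] [Algebra 𝒪 R] (ρR : GaloisRepAdic R)
    (hE : s59c3_EConc 𝒪 N B a R ρR) :
    ∃ (𝒪' : Type) (_ : CommRing 𝒪') (_ : IsDomain 𝒪') (_ : IsDiscreteValuationRing 𝒪')
      (_ : IsAdicComplete (maximalIdeal 𝒪') 𝒪') (_ : Finite (ResidueField 𝒪')) (_ : CharZero 𝒪')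
      (_ : Algebra 𝒪 𝒪') (_ : Module.Finite 𝒪 𝒪') (_ : IsLocalHom (algebraMap 𝒪 𝒪'))
      (x : R →ₐ[𝒪] 𝒪'),
      ∀ (r : ℕ), r.Prime → r ≠ p → ¬ r ∣ N' →
        ∀ (A : ValuationSubring Qbar), A.LiesOverPrime r → ∀ σ : GQ, A.IsFrobeniusAt σ r →
          x (s59i_cpTr ρR σ) * x (s59i_cpTr ρR σ) ≠ ((r : 𝒪') + 1) * ((r : 𝒪') + 1) := by
  classical
  obtain ⟨e, act, tr, h1e, hact, hfrobR, hacttr, hinj⟩ := hE
  have hJ : ∀ i : s59w_TIdx N, i.ell ∉ B →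
      ∃ j : ↥(s59t_goodB N B), (j : s59w_AIdx N) = Sum.inl i :=
    fun i hi => ⟨⟨Sum.inl i, i, rfl, hi⟩, rfl⟩
  have hidx : ∀ (j : ↥(s59t_goodB N B)) (i : s59w_TIdx N),
      (j : s59w_AIdx N) = Sum.inl i → i.ell ∉ B := by
    rintro ⟨_, i', rfl, hi'⟩ i h
    rw [← Sum.inl.inj h]
    exact hi'
  have hcT : ∀ (j : ↥(s59t_goodB N B)) (i : s59w_TIdx N), (j : s59w_AIdx N) = Sum.inl i →
      s59t_cB (𝒪 := 𝒪) N a (j : s59w_AIdx N) = ((a i.ell : ℤ) : 𝒪) := by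
    intro j i h
    rw [h]
    rfl
  have hcD : ∀ (j : ↥(s59t_goodB N B)) (τ : Gamma0 N), (j : s59w_AIdx N) = Sum.inr τ →
      s59t_cB (𝒪 := 𝒪) N a (j : s59w_AIdx N) = 1 := by
    intro j τ h
    rw [h]
    rfl
  have hεY : ∀ z, s59t_polyAct (fun j : ↥(s59t_goodB N B) =>
        s59w_op (⊤ : Subgroup (ZMod N)ˣ) 𝒪 (j : s59w_AIdx N))
      (fun i j => s59w_op_comm (⊤ : Subgroup (ZMod N)ˣ) 𝒪 _ _) e z ∈
      LinearMap.range (s59t_E0 (𝒪 := 𝒪) (⊤ : Subgroup (ZMod N)ˣ) B e) := fun z => ⟨z, rfl⟩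
  have hfrob : ∀ ℓ : ℕ, ℓ.Prime → ℓ ∉ B → ∀ P' : ValuationSubring Qbar, P'.LiesOverPrime ℓ →
      ∀ σ : GQ, P'.IsFrobeniusAt σ ℓ →
        LinearMap.charpoly (ρR.ρ σ) = X ^ 2 - C (tr ℓ) * X + C (ℓ : R) :=
    fun ℓ hℓ hℓB A hA σ hσ => hfrobR ℓ hℓ (fun h => hℓB (hNB ℓ hℓ h)) hℓB A hA σ hσ
  have h0 := s59pt_base0 p hp2 hN'N 𝒪 hp𝒪 B hpB hNB a hocc
      (fun x : ↥(s59t_goodB N B) => (x : s59w_AIdx N)) hidx hJ
      (fun x : ↥(s59t_goodB N B) => s59t_cB (𝒪 := 𝒪) N a (x : s59w_AIdx N)) hcT hcD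
      e h1e
      (LinearMap.range (s59t_E0 (𝒪 := 𝒪) (⊤ : Subgroup (ZMod N)ˣ) B e)) hεY
      R act hact ρR tr hfrob
  have h1 := h0 (by
    intro i hiB z
    exact hacttr i hiB z)
  obtain ⟨𝒪', i1, i2, i3, i4, i5, i6, i7, i8, i9, x, -, hx⟩ := h1
  exact ⟨𝒪', i1, i2, i3, i4, i5, i6, i7, i8, i9, x, hx⟩

/-- **the `2`-NEW base point with sign from (E-conc)** (`k₀ = 1`, `N = L·2`). -/
theorem s59pt_econc_pt1 (hp2 : p ≠ 2) {N L : ℕ} [NeZero N] [NeZero L] (hL2 : ¬ 2 ∣ L)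
    (hN : N = L * 2)
    (𝒪 : Type) [CommRing 𝒪] [IsDomain 𝒪] [IsDiscreteValuationRing 𝒪]
    [IsAdicComplete (maximalIdeal 𝒪) 𝒪] [Finite (ResidueField 𝒪)] [CharZero 𝒪] [Algebra ℤ_[p] 𝒪]
    (hp𝒪 : ((p : ℕ) : 𝒪) ∈ maximalIdeal 𝒪)
    (B : Finset ℕ) (hpB : p ∈ B) (hNB : ∀ q : ℕ, q.Prime → q ∣ N → q ∈ B)
    (W : WeierstrassCurve ℤ) (hΔ : W.Δ ≠ 0) (hirr : W.ModRepIsIrreducible p)
    (hold : W.IsResiduallyModularOfLevel p L)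
    (hWB : ∀ ℓ : ℕ, ℓ.Prime → ¬ W.IsGoodPrimeFor ℓ → ℓ ∈ B)
    (A₂ : ValuationSubring Qbar) (hA₂ : A₂.LiesOverPrime 2) (φs : GQ) (hφs : A₂.IsFrobeniusAt φs 2)
    (εs : 𝒪) (hεs : εs = 1 ∨ εs = -1)
    (htr : s59i_cpTr (s59q_WRho W hΔ hp𝒪) φs = εs * (((2 : ℕ) : 𝒪) + 1))
    (R : Type) [CommRing R] [IsLocalRing R] [Algebra 𝒪 R] (ρR : GaloisRepAdic R)
    (hE : s59c3_EConc 𝒪 N B (fun ℓ => W.apOfModel ℓ) R ρR) :
    ∃ (𝒪' : Type) (_ : CommRing 𝒪') (_ : IsDomain 𝒪') (_ : IsDiscreteValuationRing 𝒪')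
      (_ : IsAdicComplete (maximalIdeal 𝒪') 𝒪') (_ : Finite (ResidueField 𝒪')) (_ : CharZero 𝒪')
      (_ : Algebra 𝒪 𝒪') (_ : Module.Finite 𝒪 𝒪') (_ : IsLocalHom (algebraMap 𝒪 𝒪'))
      (x : R →ₐ[𝒪] 𝒪'),
      (∀ (r : ℕ), r.Prime → r ≠ p → ¬ r ∣ N →
        ∀ (A : ValuationSubring Qbar), A.LiesOverPrime r → ∀ σ : GQ, A.IsFrobeniusAt σ r →
          x (s59i_cpTr ρR σ) * x (s59i_cpTr ρR σ) ≠ ((r : 𝒪') + 1) * ((r : 𝒪') + 1)) ∧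
      ∀ (A : ValuationSubring Qbar), A.LiesOverPrime 2 → ∀ σ : GQ, A.IsFrobeniusAt σ 2 →
        x (s59i_cpTr ρR σ) = algebraMap 𝒪 𝒪' (εs * (((2 : ℕ) : 𝒪) + 1)) := by
  classical
  subst hN
  obtain ⟨e, act, tr, h1e, hact, hfrobR, hacttr, hinj⟩ := hE
  have hJ : ∀ i : s59w_TIdx (L * 2), i.ell ∉ B →
      ∃ j : ↥(s59t_goodB (L * 2) B), (j : s59w_AIdx (L * 2)) = Sum.inl i :=
    fun i hi => ⟨⟨Sum.inl i, i, rfl, hi⟩, rfl⟩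
  have hidx : ∀ (j : ↥(s59t_goodB (L * 2) B)) (i : s59w_TIdx (L * 2)),
      (j : s59w_AIdx (L * 2)) = Sum.inl i → i.ell ∉ B := by
    rintro ⟨_, i', rfl, hi'⟩ i h
    rw [← Sum.inl.inj h]
    exact hi'
  have hcT : ∀ (j : ↥(s59t_goodB (L * 2) B)) (i : s59w_TIdx (L * 2)),
      (j : s59w_AIdx (L * 2)) = Sum.inl i →
      s59t_cB (𝒪 := 𝒪) (L * 2) (fun ℓ => W.apOfModel ℓ) (j : s59w_AIdx (L * 2)) =
        ((W.apOfModel i.ell : ℤ) : 𝒪) := by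
    intro j i h
    rw [h]
    rfl
  have hcD : ∀ (j : ↥(s59t_goodB (L * 2) B)) (τ : Gamma0 (L * 2)),
      (j : s59w_AIdx (L * 2)) = Sum.inr τ →
      s59t_cB (𝒪 := 𝒪) (L * 2) (fun ℓ => W.apOfModel ℓ) (j : s59w_AIdx (L * 2)) = 1 := by
    intro j τ h
    rw [h]
    rfl
  have hfrob : ∀ ℓ : ℕ, ℓ.Prime → ℓ ∉ B → ∀ P' : ValuationSubring Qbar, P'.LiesOverPrime ℓ →
      ∀ σ : GQ, P'.IsFrobeniusAt σ ℓ →
        LinearMap.charpoly (ρR.ρ σ) = X ^ 2 - C (tr ℓ) * X + C (ℓ : R) :=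
    fun ℓ hℓ hℓB A hA σ hσ => hfrobR ℓ hℓ (fun h => hℓB (hNB ℓ hℓ h)) hℓB A hA σ hσ
  -- the new class
  have hnv := s59pt_newvec p W hΔ hp2 hirr hL2 hold 𝒪 hp𝒪 A₂ hA₂ φs hφs εs hεs htr
    B hpB hWB (fun x : ↥(s59t_goodB (L * 2) B) => (x : s59w_AIdx (L * 2))) hidx
    (fun x : ↥(s59t_goodB (L * 2) B) =>
      s59t_cB (𝒪 := 𝒪) (L * 2) (fun ℓ => W.apOfModel ℓ) (x : s59w_AIdx (L * 2))) hcT hcD e h1e
  obtain ⟨v', hUv', hev'⟩ := hnv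
  have hYstab : ∀ (j : s59w_AIdx (L * 2)),
      ∀ z ∈ LinearMap.range (s59t_E0 (𝒪 := 𝒪) (⊤ : Subgroup (ZMod (L * 2))ˣ) B e),
      s59w_op (⊤ : Subgroup (ZMod (L * 2))ˣ) 𝒪 j z ∈
        LinearMap.range (s59t_E0 (𝒪 := 𝒪) (⊤ : Subgroup (ZMod (L * 2))ˣ) B e) := by
    rintro j _ ⟨u, rfl⟩
    refine ⟨s59w_op (⊤ : Subgroup (ZMod (L * 2))ˣ) 𝒪 j u, ?_⟩
    have h1 := LinearMap.congr_fun
      (s59e_E0_comm_op (𝒪 := 𝒪) (⊤ : Subgroup (ZMod (L * 2))ˣ) B e j) u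
    rw [Module.End.mul_apply, Module.End.mul_apply] at h1
    exact h1
  have hvY : s59t_E0 (𝒪 := 𝒪) (⊤ : Subgroup (ZMod (L * 2))ˣ) B e v' ∈
      LinearMap.range (s59t_E0 (𝒪 := 𝒪) (⊤ : Subgroup (ZMod (L * 2))ˣ) B e) := ⟨v', rfl⟩
  have hv0 : s59t_E0 (𝒪 := 𝒪) (⊤ : Subgroup (ZMod (L * 2))ˣ) B e v' ≠ 0 := hev'
  have hUv : (s59w_UqDatum (⊤ : Subgroup (ZMod (L * 2))ˣ) (dvd_mul_left 2 L)).heckeHpar 𝒪
      (s59t_E0 (𝒪 := 𝒪) (⊤ : Subgroup (ZMod (L * 2))ˣ) B e v') =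
      εs • s59t_E0 (𝒪 := 𝒪) (⊤ : Subgroup (ZMod (L * 2))ˣ) B e v' := by
    have h1 := s59t_polyAct_commute
      (fun x : ↥(s59t_goodB (L * 2) B) =>
        s59w_op (⊤ : Subgroup (ZMod (L * 2))ˣ) 𝒪 (x : s59w_AIdx (L * 2)))
      (fun x y => s59w_op_comm (⊤ : Subgroup (ZMod (L * 2))ˣ) 𝒪 _ _)
      ((s59w_UqDatum (⊤ : Subgroup (ZMod (L * 2))ˣ) (dvd_mul_left 2 L)).heckeHpar 𝒪)
      (fun i z => by
        have h2 := LinearMap.congr_fun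
          (s59t_Uq_op_comm (𝒪 := 𝒪) (⊤ : Subgroup (ZMod (L * 2))ˣ) (dvd_mul_left 2 L)
            (i : s59w_AIdx (L * 2))) z
        rw [Module.End.mul_apply, Module.End.mul_apply] at h2
        exact h2) e v'
    show (s59w_UqDatum (⊤ : Subgroup (ZMod (L * 2))ˣ) (dvd_mul_left 2 L)).heckeHpar 𝒪
      (s59t_polyAct _ _ e v') = εs • s59t_polyAct _ _ e v'
    rw [h1, hUv', map_smul]
  have h0 := s59pt_base1 p hp2 hL2 𝒪 hp𝒪 B hpB hNB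
      (fun x : ↥(s59t_goodB (L * 2) B) => (x : s59w_AIdx (L * 2))) hJ
      (LinearMap.range (s59t_E0 (𝒪 := 𝒪) (⊤ : Subgroup (ZMod (L * 2))ˣ) B e)) hYstab
      R act hact ρR tr hfrob
  have h1 := h0 (by
    intro i hiB z
    exact hacttr i hiB z) εs hεs _ hvY hv0 hUv
  obtain ⟨𝒪', i1, i2, i3, i4, i5, i6, i7, i8, i9, x, -, hx, hx2⟩ := h1
  refine ⟨𝒪', i1, i2, i3, i4, i5, i6, i7, i8, i9, x, hx, ?_⟩
  intro A hA σ hσ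
  have e1 : εs * (((2 : ℕ) : 𝒪) + 1) = εs * 3 := by
    congr 1
    push_cast
    norm_num
  rw [e1]
  exact hx2 A hA σ hσ

end Fermat.Agent.Lib.S59

end
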