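/-
PROGRAMME R2 = S59, node [PT] (helper1, prefix `s59pt_`): **THE TWO SPECTATOR `T`-SIDE FINALS WITH BASE POINT AT THE SPECTATOR `s = 2`,
FROM helper8's EXTENDED FINAL STATEMENT** `s59c3_TFinX p W hΔ` (C3FlrFinXS.lean: `∃ Bs` + the exports (E1), (E2), (E-conc), (E5)):
* **`s59pt_TFinPt_two_zero`** : `s59c3_TFinX p W hΔ → s59u_sp_TFinPt p W hΔ 2 0` (the OLD base point: `ρ̄` modular of level `N 0 / 2`);
* **`s59pt_TFinPt_two_one`**  : `s59c3_TFinX p W hΔ → s59u_sp_TFinPt p W hΔ 2 1` (the `2`-NEW base point with the sign of `W` at `2`).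
-/
import Mathlib
import Fermat.Agent.Lib.S59.GPtEConc
import Fermat.Agent.Lib.S59.C3FlrFinXS
import Fermat.Agent.Lib.S59.USpL
import Fermat.Agent.Lib.S59.ELMin

set_option autoImplicit false
set_option linter.unusedSectionVars false
set_option linter.unusedVariables false
set_option linter.style.haveILetI false
set_option synthInstance.maxHeartbeats 400000
set_option maxHeartbeats 4000000

noncomputable section

namespace Fermat.Agent.Lib.S59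

open IsLocalRing Polynomial CuspForm ExtCitation
open Fermat.Agent.Lib.S53 (NormData)
open Fermat.Agent.Lib.S56 Fermat.Agent.Lib.S44

local notation "Γℚ" => (AlgebraicClosure ℚ ≃ₐ[ℚ] AlgebraicClosure ℚ)

/-- `N / 2` is nonzero and not divisible by `2` for `N` squarefree, even, nonzero. -/
theorem s59pt_half_level {N : ℕ} (hN0 : N ≠ 0) (hsq : Squarefree N) (h2 : 2 ∣ N) :
    N / 2 ≠ 0 ∧ ¬ 2 ∣ N / 2 ∧ N = N / 2 * 2 := by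
  obtain ⟨m, rfl⟩ := h2
  have hm : 2 * m / 2 = m := Nat.mul_div_cancel_left m (by norm_num)
  rw [hm]
  refine ⟨fun h => hN0 (by rw [h]), ?_, by ring⟩
  rintro ⟨c, rfl⟩
  have h4 : (2 : ℕ) * 2 ∣ 2 * (2 * c) := ⟨c, by ring⟩
  have := hsq 2 h4
  exact absurd (Nat.isUnit_iff.mp this) (by norm_num)

variable (p : ℕ) [hpP : Fact p.Prime]

/-- **the spectator final with the OLD base point** (`k₀ = 0`, `s = 2`). -/
theorem s59pt_TFinPt_two_zero (W : WeierstrassCurve ℤ) (hΔ : W.Δ ≠ 0)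
    (HX : s59c3_TFinX p W hΔ) : s59u_sp_TFinPt p W hΔ 2 0 := by
  classical
  intro hp2 B hp35 hss hirr hB2 𝒪 _ _ _ _ _ _ _ _ hp𝒪 hsplitℤ habs Nd k N qr hNZ hqr hN hfreeze hsq
    hpN hB1 hocc h23 hres0 φr σr hφr hσr hqrW Sg0 Su Smin Sgm hpSgm hSgm0 hSminSgm hmin hSuB hSgN
    hSgmN hqrSgm hSgmS hSg0qr hqrSu hWSminSu hs hsp hsN hold hsSgm hsSu hsU φs σs hφs hσs εs hεs
    hscp hk0 hk1 hφsP hσsT D0 Dm σ _ _
  have HX' := HX hp2 B hirr hB2 𝒪 hp𝒪 habs Nd k N qr hNZ hqr hN hfreeze hsq hpN hB1 hocc h23 φr σr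
    hφr hσr Sg0 Su Smin Sgm hpSgm hSgm0 hSminSgm hmin hSuB hSgN hSgmN hqrSgm D0 Dm σ
  obtain ⟨Bs, h1, hE1, hE2, hEc, hE5, hTW⟩ := HX'
  refine ⟨Bs, h1, ?_, hTW⟩
  haveI := hNZ 0
  have hpPr : p.Prime := hpP.out
  obtain ⟨hL0, hL2, hNL⟩ := s59pt_half_level (NeZero.ne (N 0)) (hsq 0) hsN
  haveI : NeZero (N 0 / 2) := ⟨hL0⟩
  have hpB : p ∈ B := hB1 0 p hpPr (Dvd.intro_left _ rfl)
  have hNB : ∀ q : ℕ, q.Prime → q ∣ N 0 → q ∈ B := fun q hq h =>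
    hB1 0 q hq (Dvd.dvd.mul_right h p)
  have hLN : N 0 / 2 ∣ N 0 := Nat.div_dvd_of_dvd hsN
  have hocc' : s44i_LevelOcc (N 0 / 2) p (fun ℓ => W.apOfModel ℓ) B :=
    s59e_Lmin_levelOcc W p (N 0 / 2) B
      (fun r hr h => hB1 0 r hr (h.trans (Nat.mul_dvd_mul_right hLN p))) hB2 hold
  obtain ⟨𝒪', i1, i2, i3, i4, i5, i6, i7, i8, i9, x, hx⟩ :=
    s59pt_econc_pt0 p hp2 hLN 𝒪 hp𝒪 B hpB hNB (fun ℓ => W.apOfModel ℓ) hocc' (Bs.R 0) (Bs.ρR 0) hEc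
  refine ⟨𝒪', inferInstance, inferInstance,
    (x : Bs.R 0 →+* 𝒪').comp (Bs.ν 0 : D0.R →+* Bs.R 0), ?_, ?_, ?_, ?_, ?_⟩
  · intro a ha
    show x (Bs.ν 0 a) = 0
    rw [hE2 _ ha, map_zero]
  · intro t ht
    obtain ⟨A, hA1, hA2⟩ := hφr t ht
    show x (Bs.ν 0 (s59i_cpTr D0.ρ (φr t))) * x (Bs.ν 0 (s59i_cpTr D0.ρ (φr t))) ≠ _
    rw [Bs.hν]
    exact hx (qr t) (hqr t ht) (hqrW t ht).1 (fun h => (hqrW t ht).2.1 (h.trans hLN)) A hA1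
      (φr t) hA2
  · intro _
    obtain ⟨A, hA1, hA2⟩ := hφs
    show x (Bs.ν 0 (s59i_cpTr D0.ρ φs)) * x (Bs.ν 0 (s59i_cpTr D0.ρ φs)) ≠ _
    rw [Bs.hν]
    exact hx 2 hs hsp hL2 A hA1 φs hA2
  · intro h
    exact absurd h (by norm_num)
  · intro h
    exact absurd h (by norm_num)

/-- **the spectator final with the `2`-NEW base point with sign** (`k₀ = 1`, `s = 2`). -/
theorem s59pt_TFinPt_two_one (W : WeierstrassCurve ℤ) (hΔ : W.Δ ≠ 0)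
    (HX : s59c3_TFinX p W hΔ) : s59u_sp_TFinPt p W hΔ 2 1 := by
  classical
  intro hp2 B hp35 hss hirr hB2 𝒪 _ _ _ _ _ _ _ _ hp𝒪 hsplitℤ habs Nd k N qr hNZ hqr hN hfreeze hsq
    hpN hB1 hocc h23 hres0 φr σr hφr hσr hqrW Sg0 Su Smin Sgm hpSgm hSgm0 hSminSgm hmin hSuB hSgN
    hSgmN hqrSgm hSgmS hSg0qr hqrSu hWSminSu hs hsp hsN hold hsSgm hsSu hsU φs σs hφs hσs εs hεs
    hscp hk0 hk1 hφsP hσsT D0 Dm σ _ _
  have HX' := HX hp2 B hirr hB2 𝒪 hp𝒪 habs Nd k N qr hNZ hqr hN hfreeze hsq hpN hB1 hocc h23 φr σr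
    hφr hσr Sg0 Su Smin Sgm hpSgm hSgm0 hSminSgm hmin hSuB hSgN hSgmN hqrSgm D0 Dm σ
  obtain ⟨Bs, h1, hE1, hE2, hEc, hE5, hTW⟩ := HX'
  refine ⟨Bs, h1, ?_, hTW⟩
  haveI := hNZ 0
  have hpPr : p.Prime := hpP.out
  obtain ⟨hL0, hL2, hNL⟩ := s59pt_half_level (NeZero.ne (N 0)) (hsq 0) hsN
  haveI : NeZero (N 0 / 2) := ⟨hL0⟩
  have hpB : p ∈ B := hB1 0 p hpPr (Dvd.intro_left _ rfl)
  have hNB : ∀ q : ℕ, q.Prime → q ∣ N 0 → q ∈ B := fun q hq h =>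
    hB1 0 q hq (Dvd.dvd.mul_right h p)
  obtain ⟨A₂, hA₂1, hA₂2⟩ := hφs
  obtain ⟨𝒪', i1, i2, i3, i4, i5, i6, i7, i8, i9, x, hx, hx2⟩ :=
    s59pt_econc_pt1 p hp2 hL2 hNL 𝒪 hp𝒪 B hpB hNB W hΔ hirr hold hB2 A₂ hA₂1 φs hA₂2 εs hεs
      (hk1 rfl).2 (Bs.R 0) (Bs.ρR 0) hEc
  refine ⟨𝒪', inferInstance, inferInstance,
    (x : Bs.R 0 →+* 𝒪').comp (Bs.ν 0 : D0.R →+* Bs.R 0), ?_, ?_, ?_, ?_, ?_⟩
  · intro a ha
    show x (Bs.ν 0 a) = 0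
    rw [hE2 _ ha, map_zero]
  · intro t ht
    obtain ⟨A, hA1, hA2⟩ := hφr t ht
    show x (Bs.ν 0 (s59i_cpTr D0.ρ (φr t))) * x (Bs.ν 0 (s59i_cpTr D0.ρ (φr t))) ≠ _
    rw [Bs.hν]
    exact hx (qr t) (hqr t ht) (hqrW t ht).1 (hqrW t ht).2.1 A hA1 (φr t) hA2
  · intro h
    exact absurd h (by norm_num)
  · intro _
    exact s59pt_injective_of_charZero hpPr.ne_zero hp𝒪 _
  · intro _
    show x (Bs.ν 0 (s59i_cpTr D0.ρ φs)) =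
      x (Bs.ν 0 (algebraMap 𝒪 D0.R (εs * (((2 : ℕ) : 𝒪) + 1))))
    rw [Bs.hν, hx2 A₂ hA₂1 φs hA₂2, AlgHom.commutes, AlgHom.commutes]

end Fermat.Agent.Lib.S59

end
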