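/-
PROGRAMME (R2) = S59, (T3) = THE STRICT `T`-SIDE AT `p ∥ N` FOR [IA′-core], `p = 3` PORT, part C (helper6, prefix `s59q_`):
**the STRICT twins of helper5's E3E2c.lean** (the (E2′)-primes of the level): hypotheses, `R`-side at the reduced level `N'`,
[EXIST-DQ] of the strict-ordinary type.

* `s59q_IAHypSE`       : `s59e3i_IAHypE` with `p ∣ N`, `¬ peu` instead of `¬ p ∣ N`;
* `s59q_RPkgSE`        : the `R`-side data at the reduced level `N' ∣ N` (twin of `s59e3q_RPkgW_E`);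
* `s59q_W_existDQ_SE`  : [EXIST-DQ] for `Rd : s59i_RData p N' …`, strict-ordinary type, from the base datum of level `N` + [STRICT-p].
-/
import Mathlib
import Fermat.Agent.Lib.S59.E3E2c
import Fermat.Agent.Lib.S59.QSHyp
import Fermat.Agent.Lib.S59.Q3SE2a

set_option autoImplicit false
set_option linter.style.haveILetI false
set_option linter.unusedSectionVars false
set_option linter.unusedVariables false
set_option synthInstance.maxHeartbeats 400000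
set_option maxHeartbeats 1600000

noncomputable section

namespace Fermat.Agent.Lib.S59

open IsLocalRing Module ExtCitation Polynomial Fermat.Agent.Lib.S56
open Fermat.Agent.Lib.S44

local notation "Kb" => AlgebraicClosure ℚ
local notation "Γℚ" => (AlgebraicClosure ℚ ≃ₐ[ℚ] AlgebraicClosure ℚ)

/-- **the hypotheses of [IA′-core] for `W` at a STRICT level, without the condition `hram`** on the other primes of the
level. -/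
structure s59q_IAHypSE (W : WeierstrassCurve ℤ) (p N : ℕ) (Bd B : Finset ℕ) : Prop where
  hss : W.IsSemistableModel
  hirr : W.ModRepIsIrreducible p
  hN0 : 0 < N
  hNsq : Squarefree N
  hpN : p ∣ N
  hpeu : ¬ (W.map (Int.castRingHom ℚ)).IsPeuRamifieeAt p p
  hne : Bd.Nonempty
  hBd : ∀ q ∈ Bd, q.Prime ∧ q ≠ p ∧ q ∣ N ∧ s59_Unr W p q ∧ p ∣ q - 1 ∧ s59_FrobScalar W p q
  hB1 : ∀ r : ℕ, r.Prime → r ∣ N * p → r ∈ B
  hB2 : ∀ r : ℕ, r.Prime → ¬ W.IsGoodPrimeFor r → r ∈ B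
  hocc : s44i_LevelOcc N p (fun ℓ => W.apOfModel ℓ) B

theorem s59q_IAHypSE_of {W : WeierstrassCurve ℤ} {p N : ℕ} {Bd B : Finset ℕ}
    (H : s59q_IAHypS W p N Bd B) : s59q_IAHypSE W p N Bd B :=
  ⟨H.hss, H.hirr, H.hN0, H.hNsq, H.hpN, H.hpeu, H.hne, H.hBd, H.hB1, H.hB2, H.hocc⟩

/-- très ramifié ⇒ bad reduction at `p`. -/
theorem s59q_IAHypSE.hbad {W : WeierstrassCurve ℤ} {p N : ℕ} {Bd B : Finset ℕ}
    (H : s59q_IAHypSE W p N Bd B) : (p : ℤ) ∣ W.Δ := by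
  by_contra hgood
  apply H.hpeu
  unfold WeierstrassCurve.IsPeuRamifieeAt
  rw [WeierstrassCurve.map_Δ]
  have h1 : padicValRat p ((Int.castRingHom ℚ) W.Δ) = padicValInt p W.Δ := by
    rw [eq_intCast]
    exact padicValRat.of_int
  rw [h1, padicValInt.eq_zero_of_not_dvd hgood]
  exact dvd_zero _

theorem s59q_IAHypSE.hmult {W : WeierstrassCurve ℤ} {p N : ℕ} {Bd B : Finset ℕ}
    (H : s59q_IAHypSE W p N Bd B) : ¬ W.IsGoodPrimeFor p := fun hg => hg H.hbad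

theorem s59q_IAHypSE.hc4 {W : WeierstrassCurve ℤ} {p N : ℕ} {Bd B : Finset ℕ}
    (H : s59q_IAHypSE W p N Bd B) (hp : p.Prime) : ¬ (p : ℤ) ∣ W.c₄ :=
  H.hss p hp H.hbad

section E2

variable (W : WeierstrassCurve ℤ) {p : ℕ} [hpP : Fact p.Prime] (hΔ : W.Δ ≠ 0)
  {𝒪 : Type} [CommRing 𝒪] [IsDomain 𝒪] [IsDiscreteValuationRing 𝒪]
  [IsAdicComplete (maximalIdeal 𝒪) 𝒪] [Algebra ℤ_[p] 𝒪]
  (hp𝒪 : ((p : ℕ) : 𝒪) ∈ maximalIdeal 𝒪)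

/-- **the `R`-side package at the reduced level `N' ∣ N`, STRICT level** (twin of helper5's `s59e3q_RPkgW_E`; the primes
`≠ p` of `N'` outside `Bd` are ramified or tolerated; `p` lies in `Smin`). -/
theorem s59q_RPkgSE (hp35 : p = 3 ∨ p = 5) (N N' : ℕ) (Bd B : Finset ℕ)
    (H : s59q_IAHypSE W p N Bd B) (hN'N : N' ∣ N)
    (hram : ∀ ℓ : ℕ, ℓ.Prime → ℓ ≠ p → ℓ ∣ N' → ℓ ∉ Bd → ¬ s59_Unr W p ℓ ∨ ¬ p ∣ ℓ ^ 2 - 1)
    (hsplitℤ : ∀ a b : ℤ, ∃ α β : ResidueField 𝒪,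
      α + β = (a : ResidueField 𝒪) ∧ α * β = (b : ResidueField 𝒪)) :
    Nonempty (s59i_RData p N' (s59i_rhobarW W p hΔ 𝒪 hp𝒪) B Bd) := by
  classical
  have hp2 : p ≠ 2 := s59q_W_p_ne_two hp35
  have hN'0 : N' ≠ 0 := fun h => H.hN0.ne' (Nat.eq_zero_of_zero_dvd (h ▸ hN'N))
  have hpB : p ∈ B := H.hB1 p hpP.out (Dvd.intro_left N rfl)
  have hB2 : ∀ r : ℕ, r.Prime → (r : ℤ) ∣ W.Δ → r ∈ B := fun r hr hd =>
    H.hB2 r hr (fun hg => hg hd)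
  have hmemEd : ∀ ℓ, ℓ ∈ s59q_WEd W hΔ hp𝒪 N' Bd ↔ (ℓ.Prime ∧ ℓ ∣ N') ∧ ℓ ≠ p ∧ ℓ ∉ Bd ∧
      (s59q_WRhobar W hΔ hp𝒪).IsUnramifiedAt ℓ ∧ ¬ p ∣ ℓ ^ 2 - 1 ∧ s59q_WE1At W hΔ hp𝒪 ℓ := by
    intro ℓ
    unfold s59q_WEd
    rw [Finset.mem_filter, Nat.mem_primeFactors]
    constructor
    · rintro ⟨⟨h1, h2, -⟩, h3⟩
      exact ⟨⟨h1, h2⟩, h3⟩
    · rintro ⟨⟨h1, h2⟩, h3⟩
      exact ⟨⟨h1, h2, hN'0⟩, h3⟩
  refine s59q_WR W hΔ hp𝒪 hp35 H.hss H.hirr hsplitℤ N' Bd B hpB hB2 ?_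
    (s59q_WEd W hΔ hp𝒪 N' Bd) ?_ ?_ ?_
  · intro q hq
    obtain ⟨h1, h2, h3, h4, h5, h6⟩ := H.hBd q hq
    exact ⟨h1, h2, H.hB1 q h1 (Dvd.dvd.mul_right h3 _), h4, h5, h6⟩
  · intro q hq
    obtain ⟨⟨h1, h2⟩, h3, h4, h5, h6, -⟩ := (hmemEd q).mp hq
    obtain ⟨h7, h8⟩ := s59q_W_not_dvd_of_sq h1.one_lt.le h6
    exact ⟨h1, h3, h4, H.hB1 q h1 (Dvd.dvd.mul_right (h2.trans hN'N) _), h5, h7, h8⟩
  · intro q hq
    obtain ⟨-, -, -, -, -, hℓ, φ, hφ, ε, hε, hcp⟩ := (hmemEd q).mp hq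
    exact ⟨φ, hφ, ε, hε, hcp⟩
  · intro q hq hqN
    by_cases hqp : q = p
    · subst hqp
      exact Or.inl (Finset.mem_union_left _ (s59q_WSmin_p_mem W hΔ hp𝒪))
    by_cases hqBd : q ∈ Bd
    · exact Or.inl (Finset.mem_union_right _ (Finset.mem_union_left _ hqBd))
    by_cases hunr : (s59q_WRhobar W hΔ hp𝒪).IsUnramifiedAt q
    · rcases hram q hq hqp hqN hqBd with h | h
      · exact absurd ((s59q_W_unram_iff W hΔ hp𝒪 q).mp hunr) h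
      · by_cases hE1 : s59q_WE1At W hΔ hp𝒪 q
        · exact Or.inl (Finset.mem_union_right _ (Finset.mem_union_right _
            ((hmemEd q).mpr ⟨⟨hq, hqN⟩, hqp, hqBd, hunr, h, hE1⟩)))
        · right
          obtain ⟨φ, hφ⟩ := s56z_exists_frob ⟨q, hq⟩
          refine ⟨hqp, hunr, s59q_W_sq_sub_one_ne hp𝒪 hq.one_lt.le h, primeLocalPlace ⟨q, hq⟩, φ,
            s56z_place_liesOver ⟨q, hq⟩, hφ, ?_⟩
          rcases s59q_W_E_dichotomy W hΔ hp𝒪 hp2 H.hirr q hq hqp _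
            (s56z_place_liesOver ⟨q, hq⟩) φ hφ with ⟨ε, hε, hcp⟩ | hne
          · exact absurd ⟨hq, φ, hφ, ε, hε, hcp⟩ hE1
          · exact hne
    · exact Or.inl (Finset.mem_union_left _ ((s59q_WSmin_hmin W hΔ hp𝒪 hp2 q hq hqp).mpr hunr))

end E2

section ExistDQ

open CuspForm CongruenceSubgroup Fermat.Agent.Lib.S48

variable (W : WeierstrassCurve ℤ) (p : ℕ) [Fact p.Prime] (hΔ : W.Δ ≠ 0) (hp2 : p ≠ 2)
  (hirr : W.ModRepIsIrreducible p) (N : ℕ) [NeZero N]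
  (B : Finset ℕ) (hB1 : ∀ r : ℕ, r.Prime → r ∣ N * p → r ∈ B)
  (hB2 : ∀ r : ℕ, r.Prime → ¬ W.IsGoodPrimeFor r → r ∈ B)
  (hocc : s44i_LevelOcc N p (fun ℓ => W.apOfModel ℓ) B)
  (𝒪 : Type) [CommRing 𝒪] [IsDomain 𝒪] [IsDiscreteValuationRing 𝒪]
  [IsAdicComplete (maximalIdeal 𝒪) 𝒪] [Finite (ResidueField 𝒪)] [CharZero 𝒪]
  [Algebra ℤ_[p] 𝒪] (hp𝒪 : ((p : ℕ) : 𝒪) ∈ maximalIdeal 𝒪)
  (habs : (s59i_rhobarW W p hΔ 𝒪 hp𝒪).IsAbsolutelyIrreducible)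

include hp2 hirr hB1 hB2 hocc habs in
/-- **[EXIST-DQ], STRICT-ORDINARY type, with (E2′)-primes in the level `N` of the base datum** (`p ∥ N`, très). -/
theorem s59q_W_existDQ_SE (hsq : Squarefree N) (hpN : p ∣ N)
    (hbad : (p : ℤ) ∣ W.Δ) (hc4 : ¬ (p : ℤ) ∣ W.c₄)
    (hpeu : ¬ (W.map (Int.castRingHom ℚ)).IsPeuRamifieeAt p p) (Bd : Finset ℕ) {N' : ℕ}
    (Rd : s59i_RData p N' (s59i_rhobarW W p hΔ 𝒪 hp𝒪) B Bd)
    (hE : ∀ q : ℕ, q.Prime → q ∣ N → q ∣ N' ∨ s59e3q_E2Alt p (s59i_rhobarW W p hΔ 𝒪 hp𝒪) q)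
    (r : ℕ) :
    ∀ qv : Fin r → ℕ, Nonempty (GaloisRep.DeformationRingData 𝒪 (s59i_rhobarW W p hΔ 𝒪 hp𝒪)
      (fun _A _ _ _ ρ =>
        GaloisRep.strictOrdinaryCondition 𝒪 p (Rd.Smin ∪ (Bd ∪ Rd.Ed) ∪ Finset.univ.image qv) ρ ∧
          ∀ q ∈ Rd.Smin, q.Prime → q ≠ p → ρ.IsUnipotentOnInertiaAt q)) := by
  classical
  intro qv
  haveI : Fact (HasIntegralStructure N 2) := ⟨Fermat.Agent.S23.result N⟩
  have hpP : p.Prime := Fact.out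
  have hpB : p ∈ B := hB1 p hpP (Dvd.intro_left N rfl)
  have hNB : ∀ q : ℕ, q.Prime → q ∣ N → q ∈ B := fun q hq hqN =>
    hB1 q hq (Dvd.dvd.mul_right hqN p)
  obtain ⟨θ, Hd, -, -, hres⟩ := s59e_W_base_datum W p hΔ hp2 hirr N B hB1 hB2 hocc 𝒪 hp𝒪 habs
  have hpN2 : ¬ p ^ 2 ∣ N := by
    intro h
    rw [pow_two] at h
    exact hpP.one_lt.ne' (Nat.isUnit_iff.mp (hsq p h))
  have hstr : Hd.ρ.IsStrictOrdinaryAt p :=
    s59q_hecke_strict_W Hd hp2 hp𝒪 ⟨hpN, hpN2⟩ hNB W hΔ hirr hbad hc4 hpeu hres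
  exact s59q_existDQ_ord_of_datum3 Rd hp2 hp𝒪 N B hpB hNB N (∅ : Finset ℕ)
    (by rw [Finset.prod_empty, mul_one]) hsq hE
    (fun q hq => absurd hq (Finset.notMem_empty q)) Hd hstr hres qv

end ExistDQ

end Fermat.Agent.Lib.S59

end
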