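/-
PROGRAMME (R2) = S59, the W-GENERAL R-SIDE, part C (helper6, prefix `s59q_W`): **[EXIST-DQ] for a semistable `W` WITHOUT any
Hecke–Galois datum — the lift of `ρ̄` used to build the universal ring is `ρ_W ⊗ 𝒪` itself** (`A := 𝒪`).  Both Taylor–Wiles
types of frozen S56: the FLAT one when `W` is good at `p`, the STRICT-ORDINARY one when `W` is multiplicative at `p`
(so no Hecke-side strict-ordinarity is needed for [EXIST-DQ]).  Condition: every bad prime `q ≠ p` of `W` lies in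
`Σ₀ = Smin ∪ (Bd ∪ Ed)` (this is what "`ρ_W` is a point of the deformation problem" means; it holds in [LIFT_W], where
the bad primes of `W` with `ρ̄` unramified are put into `Bd ∪ Ed`).  NEW names only.

* `s59q_isEquiv_bcAlong_self`, `s59q_W_resid_self` : `ρ̄` is its own base change along `ResidueField.map (algebraMap 𝒪 𝒪)`;
* `s59q_W_flatType`, `s59q_W_ordType` : `ρ_W ⊗ 𝒪` is of the flat / strict-ordinary TW type for every `Σ₀ ∋ p` containing the
  bad primes `≠ p` of `W`;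
* `s59q_W_existDQ_flat`, `s59q_W_existDQ_ord` : the universal deformation rings of type `Σ₀ ∪ image qv` exist, in the
  VERBATIM shape of the first conjunct of `s59i_TPkg` (flat) and of its strict-ordinary twin.
-/
import Fermat.Agent.Lib.S59.QWRA
import Fermat.Agent.Lib.S59.QExistDQ
import Fermat.Agent.Lib.S59.EFinal
import Fermat.Prelude.Def_GaloisRep_ResidualEquiv

set_option autoImplicit false
set_option linter.style.haveILetI false
set_option linter.unusedSectionVars false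
set_option linter.unusedVariables false

noncomputable section

namespace Fermat.Agent.Lib.S59

open IsLocalRing TensorProduct GaloisRep

local notation "Kb" => AlgebraicClosure ℚ
local notation "GQ" => (AlgebraicClosure ℚ ≃ₐ[ℚ] AlgebraicClosure ℚ)

/-- base change of a residual representation along the identity does nothing. -/
theorem s59q_isEquiv_bcAlong_self {k : Type} [Field k] (ρ : ResidualGaloisRep k) (ψ : k →+* k)
    (hψ : ψ = RingHom.id k) : ρ.IsEquiv (ρ.baseChangeAlong ψ) := by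
  subst hψ
  letI : Algebra k k := (RingHom.id k).toAlgebra
  let f : ρ.V →ₗ[k] k ⊗[k] ρ.V :=
    { toFun := fun v => (1 : k) ⊗ₜ[k] v
      map_add' := fun v w => TensorProduct.tmul_add _ _ _
      map_smul' := fun c v => by
        rw [RingHom.id_apply, TensorProduct.tmul_smul, TensorProduct.smul_tmul'] }
  have hsurj : Function.Surjective f := by
    intro x
    induction x using TensorProduct.induction_on with
    | zero => exact ⟨0, map_zero f⟩
    | tmul c v =>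
      refine ⟨c • v, ?_⟩
      show (1 : k) ⊗ₜ[k] (c • v) = c ⊗ₜ[k] v
      rw [TensorProduct.tmul_smul, TensorProduct.smul_tmul']
      congr 1
      exact mul_one c
    | add x y hx hy =>
      obtain ⟨a, ha⟩ := hx
      obtain ⟨b, hb⟩ := hy
      exact ⟨a + b, by rw [map_add, ha, hb]⟩
  have hfr : Module.finrank k ρ.V = Module.finrank k (k ⊗[k] ρ.V) := by
    rw [ρ.finrank_eq]
    exact ((ρ.baseChangeAlong (RingHom.id k)).finrank_eq).symm
  have hinj : Function.Injective f :=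
    (LinearMap.injective_iff_surjective_of_finrank_eq_finrank hfr).mpr hsurj
  exact ⟨{ toLinearEquiv := LinearEquiv.ofBijective f ⟨hinj, hsurj⟩
           map_apply := fun σ x => by
             show (1 : k) ⊗ₜ[k] (ρ.ρ σ x) = (ρ.ρ σ).baseChange k ((1 : k) ⊗ₜ[k] x)
             rw [LinearMap.baseChange_tmul] }⟩

variable (W : WeierstrassCurve ℤ) {p : ℕ} [hpP : Fact p.Prime] (hΔ : W.Δ ≠ 0)
  {𝒪 : Type} [CommRing 𝒪] [IsDomain 𝒪] [IsDiscreteValuationRing 𝒪]
  [IsAdicComplete (maximalIdeal 𝒪) 𝒪] [Finite (ResidueField 𝒪)] [Algebra ℤ_[p] 𝒪]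
  (hp𝒪 : (p : 𝒪) ∈ maximalIdeal 𝒪)

/-- `ρ_W ⊗ 𝒪`, as a lift of `ρ̄` over `A := 𝒪`. -/
theorem s59q_W_resid_self :
    (s59q_WRho W hΔ hp𝒪).residual.IsEquiv
      ((s59q_WRhobar W hΔ hp𝒪).baseChangeAlong (ResidueField.map (algebraMap 𝒪 𝒪))) :=
  s59q_isEquiv_bcAlong_self _ _ (ResidueField.map_id (R := 𝒪))

section Types

variable (hp2 : p ≠ 2) (hss : W.IsSemistableModel) (hirr : W.ModRepIsIrreducible p)
  (Sg Smin : Finset ℕ) (hpSg : p ∈ Sg)
  (hbad : ∀ q : ℕ, q.Prime → q ≠ p → ¬ W.IsGoodPrimeFor q → q ∈ Sg)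

include hp2 hss hirr hpSg hbad in
/-- **`ρ_W ⊗ 𝒪` is of the flat Taylor–Wiles type** when `W` is good at `p`. -/
theorem s59q_W_flatType (hgood : W.IsGoodPrimeFor p) :
    flatCondition 𝒪 p Sg (s59q_WRho W hΔ hp𝒪) ∧
      ∀ q ∈ Smin, q.Prime → q ≠ p → (s59q_WRho W hΔ hp𝒪).IsUnipotentOnInertiaAt q := by
  refine ⟨⟨s59q_W_detCyc W hΔ hp𝒪 hp2 hirr, s59e_flat hΔ hgood _ _, fun q hq hqSg => ?_⟩,
    fun q _ hq hqp => ?_⟩
  · have hqp : q ≠ p := fun h => hqSg (h ▸ hpSg)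
    have hg : W.IsGoodPrimeFor q := by
      by_contra hb
      exact hqSg (hbad q hq hqp hb)
    exact s59e_bc_unram _ _ _ q (s59b_rhoW_unram hΔ hp2 q hq hqp hg)
  · exact s59e_bc_unip _ _ _ q (s59b_rhoW_unip hΔ hp2 hirr hss q hq hqp)

include hp2 hss hirr hpSg hbad in
/-- **`ρ_W ⊗ 𝒪` is of the strict-ordinary Taylor–Wiles type** when `W` is not good (hence multiplicative) at `p`. -/
theorem s59q_W_ordType (hmult : ¬ W.IsGoodPrimeFor p) :
    strictOrdinaryCondition 𝒪 p Sg (s59q_WRho W hΔ hp𝒪) ∧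
      ∀ q ∈ Smin, q.Prime → q ≠ p → (s59q_WRho W hΔ hp𝒪).IsUnipotentOnInertiaAt q := by
  refine ⟨⟨s59q_W_detCyc W hΔ hp𝒪 hp2 hirr,
    s59e_bc_strictOrd _ _ _ p (s59b_rhoW_strictOrd_of_semistable hΔ hp2 hirr hss hmult),
    fun q hq hqSg => ?_⟩, fun q _ hq hqp => ?_⟩
  · have hqp : q ≠ p := fun h => hqSg (h ▸ hpSg)
    have hg : W.IsGoodPrimeFor q := by
      by_contra hb
      exact hqSg (hbad q hq hqp hb)
    exact s59e_bc_unram _ _ _ q (s59b_rhoW_unram hΔ hp2 q hq hqp hg)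
  · exact s59e_bc_unip _ _ _ q (s59b_rhoW_unip hΔ hp2 hirr hss q hq hqp)

end Types

section ExistDQ

variable (hp35 : p = 3 ∨ p = 5) (hss : W.IsSemistableModel) (hirr : W.ModRepIsIrreducible p)
  (Smin Bd Ed : Finset ℕ) (hpSmin : p ∈ Smin)
  (hmin : ∀ q : ℕ, q.Prime → q ≠ p →
    (q ∈ Smin ↔ ¬ (s59q_WRhobar W hΔ hp𝒪).IsUnramifiedAt q))
  (hbad : ∀ q : ℕ, q.Prime → q ≠ p → ¬ W.IsGoodPrimeFor q → q ∈ Smin ∪ (Bd ∪ Ed))

include hp35 hss hirr hpSmin hmin hbad in
/-- **[EXIST-DQ], flat type, for `W` good at `p`** (verbatim the shape of the first conjunct of `s59i_TPkg`). -/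
theorem s59q_W_existDQ_flat (hgood : W.IsGoodPrimeFor p) {r : ℕ} (qv : Fin r → ℕ) :
    Nonempty (DeformationRingData 𝒪 (s59q_WRhobar W hΔ hp𝒪) (fun _A _ _ _ ρ =>
      flatCondition 𝒪 p (Smin ∪ (Bd ∪ Ed) ∪ Finset.univ.image qv) ρ ∧
        ∀ q ∈ Smin, q.Prime → q ≠ p → ρ.IsUnipotentOnInertiaAt q)) := by
  have hp2 : p ≠ 2 := s59q_W_p_ne_two hp35
  have habs := s59q_W_habs W hΔ hp𝒪 hp35 hss hirr
  have hty := s59q_W_flatType W hΔ hp𝒪 hp2 hss hirr (Smin ∪ (Bd ∪ Ed)) Smin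
    (Finset.mem_union_left _ hpSmin) hbad hgood
  have hself := s59q_W_resid_self W hΔ hp𝒪
  have hsurj : Function.Surjective (IsLocalRing.residue 𝒪 ∘ algebraMap 𝒪 𝒪) :=
    IsLocalRing.residue_surjective
  exact s59q_exists_DQ_flat_TW p hp2 hp𝒪 (s59q_WRhobar W hΔ hp𝒪) habs Smin Bd Ed hpSmin hmin
    inferInstance hsurj (s59q_WRho W hΔ hp𝒪) hty hself qv

include hp35 hss hirr hpSmin hmin hbad in
/-- **[EXIST-DQ], strict-ordinary type, for `W` multiplicative at `p`.** -/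
theorem s59q_W_existDQ_ord (hmult : ¬ W.IsGoodPrimeFor p) {r : ℕ} (qv : Fin r → ℕ) :
    Nonempty (DeformationRingData 𝒪 (s59q_WRhobar W hΔ hp𝒪) (fun _A _ _ _ ρ =>
      strictOrdinaryCondition 𝒪 p (Smin ∪ (Bd ∪ Ed) ∪ Finset.univ.image qv) ρ ∧
        ∀ q ∈ Smin, q.Prime → q ≠ p → ρ.IsUnipotentOnInertiaAt q)) := by
  have hp2 : p ≠ 2 := s59q_W_p_ne_two hp35
  have habs := s59q_W_habs W hΔ hp𝒪 hp35 hss hirr
  have hty := s59q_W_ordType W hΔ hp𝒪 hp2 hss hirr (Smin ∪ (Bd ∪ Ed)) Smin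
    (Finset.mem_union_left _ hpSmin) hbad hmult
  have hself := s59q_W_resid_self W hΔ hp𝒪
  have hsurj : Function.Surjective (IsLocalRing.residue 𝒪 ∘ algebraMap 𝒪 𝒪) :=
    IsLocalRing.residue_surjective
  exact s59q_exists_DQ_ord_TW p hp2 hp𝒪 (s59q_WRhobar W hΔ hp𝒪) habs Smin Bd Ed hpSmin hmin
    inferInstance hsurj (s59q_WRho W hΔ hp𝒪) hty hself qv

end ExistDQ

end Fermat.Agent.Lib.S59
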