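/-
PROGRAMME (R2) = S59, [STRICT-p], node [PATCH-min] at `p = 3`, (E2′)-TOLERANT form (helper6, prefix `s59q_sl3e_`): **[PATCH-min] IN THE STRICT CASE,
EVEN LEVEL, `p ∈ {3, 5}`, WITH (E2′)-PRIMES IN THE LEVEL: THE NODE** — `s59q_sl3_Lmin_strict` / `s59q_sl3_Lmin_heckePt(_dvd)` (Q3SLMin.lean) with
the tolerated primes of the level in the form of helper1's `s59g_E2 W p q` (`W` good at `q`, `p ∤ q − 1`, `p ∤ a_q² − (q+1)²`; at `p = 3`,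
`q = 2`: case (b) of the graph).  The `R`-side datum lives at the reduced level `N' = ∏ {q ∣ N : q = p or ρ̄ ramified at q}`.
-/
import Mathlib
import Fermat.Agent.Lib.S59.ELMinA
import Fermat.Agent.Lib.S59.ELMinR
import Fermat.Agent.Lib.S59.ELPkgH
import Fermat.Agent.Lib.S59.VMono
import Fermat.Agent.Lib.S59.QOExtFin
import Fermat.Agent.Lib.S59.ELMin
import Fermat.Agent.Lib.S59.Q3SLPkgH
import Fermat.Agent.Lib.S59.QSLMinA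
import Fermat.Agent.Lib.S59.Q3SLEPkgH
import Fermat.Agent.Lib.S59.Q3SLEMinA
import Fermat.Agent.Lib.S59.E3E2c

set_option autoImplicit false
set_option linter.unusedSectionVars false
set_option linter.unusedVariables false
set_option linter.style.haveILetI false
set_option maxHeartbeats 1600000
set_option synthInstance.maxHeartbeats 400000

noncomputable section

namespace Fermat.Agent.Lib.S59

open IsLocalRing CuspForm Polynomial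
open Fermat.Agent.Lib.S44

local notation "Γℚ" => (AlgebraicClosure ℚ ≃ₐ[ℚ] AlgebraicClosure ℚ)

/-- **[PATCH-min], STRICT case, at an EVEN level `N` with `p ∥ N`, `p ∈ {3, 5}`** (`ρ̄_W` très ramifié at `p`, hence `W` multiplicative at `p`). -/
theorem s59q_sl3e_Lmin_strict (p : ℕ) [Fact p.Prime] (hp35 : p = 3 ∨ p = 5)
    (W : WeierstrassCurve ℤ) (hΔ : W.Δ ≠ 0) (hss : W.IsSemistableModel)
    (hirr : W.ModRepIsIrreducible p)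
    (N : ℕ) [NeZero N] (hsq : Squarefree N) (hpN : p ∣ N)
    (hpeu : ¬ (W.map (Int.castRingHom ℚ)).IsPeuRamifieeAt p p) (h23 : 2 ∣ N)
    (hres : W.IsResiduallyModularOfLevel p N)
    (hbad : ∀ q : ℕ, q.Prime → q ≠ p → ¬ W.IsGoodPrimeFor q → ¬ s59_Unr W p q)
    (hNtype : ∀ q : ℕ, q.Prime → q ≠ p → q ∣ N → ¬ s59_Unr W p q ∨
      (W.IsGoodPrimeFor q ∧ ¬ p ∣ q - 1 ∧
        ¬ (p : ℤ) ∣ (W.apOfModel q : ℤ) ^ 2 - ((q : ℤ) + 1) ^ 2)) :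
    ∃ (B : Finset ℕ) (𝒪 : Type) (_ : CommRing 𝒪) (_ : IsDomain 𝒪) (_ : CharZero 𝒪)
      (χ : heckeAlgebra N 2 (↑B : Set ℕ) →+* 𝒪),
      ∀ (ℓ : ℕ) (hℓ : ℓ.Prime) (hℓN : ¬ ℓ ∣ N) (hℓB : ℓ ∉ (↑B : Set ℕ)),
        χ (heckeAlgebra.T hℓ hℓN hℓB) = ((W.apOfModel ℓ : ℤ) : 𝒪) := by
  classical
  have hpp : p.Prime := Fact.out
  have hp2 : p ≠ 2 := by rcases hp35 with rfl | rfl <;> norm_num
  have hbadp : (p : ℤ) ∣ W.Δ := by
    by_contra hgood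
    apply hpeu
    unfold WeierstrassCurve.IsPeuRamifieeAt
    rw [WeierstrassCurve.map_Δ]
    have h1 : padicValRat p ((Int.castRingHom ℚ) W.Δ) = padicValInt p W.Δ := by
      rw [eq_intCast]
      exact padicValRat.of_int
    rw [h1, padicValInt.eq_zero_of_not_dvd hgood]
    exact dvd_zero _
  have hc4p : ¬ (p : ℤ) ∣ W.c₄ := hss p hpp hbadp
  have hN0 : N ≠ 0 := NeZero.ne N
  set B : Finset ℕ := (N * p).primeFactors ∪ W.Δ.natAbs.primeFactors with hB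
  have hB1 : ∀ r : ℕ, r.Prime → r ∣ N * p → r ∈ B := fun r hr hd =>
    Finset.mem_union_left _ (Nat.mem_primeFactors.mpr ⟨hr, hd, Nat.mul_ne_zero hN0 hpp.ne_zero⟩)
  have hB2Δ : ∀ r : ℕ, r.Prime → (r : ℤ) ∣ W.Δ → r ∈ B := fun r hr hd =>
    Finset.mem_union_right _ (Nat.mem_primeFactors.mpr
      ⟨hr, Int.natCast_dvd.mp hd, Int.natAbs_ne_zero.mpr hΔ⟩)
  have hB2 : ∀ r : ℕ, r.Prime → ¬ W.IsGoodPrimeFor r → r ∈ B := by
    intro r hr hbad'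
    refine hB2Δ r hr ?_
    by_contra h
    exact hbad' h
  have hpB : p ∈ B := hB1 p hpp (Dvd.intro_left N rfl)
  have hocc := s59e_Lmin_levelOcc W p N B hB1 hB2 hres
  -- the coefficient ring
  obtain ⟨𝒪, i1, i2, i3, i4, i5, i6, i7, i8, i9, hp𝒪, -, hsplit⟩ :=
    s59q_exists_coeffRing_padic p 1 one_pos
  -- the reduced level `N'`: `p` and the primes of `N` at which `ρ̄` is ramified
  set T : Finset ℕ := N.primeFactors.filter (fun ℓ => ℓ = p ∨ ¬ s59_Unr W p ℓ) with hT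
  set N' : ℕ := ∏ ℓ ∈ T, ℓ with hN'
  have hmemN' : ∀ ℓ : ℕ, ℓ.Prime → ℓ ∣ N' → ℓ ∈ T := by
    intro ℓ hℓ hd
    obtain ⟨q, hqT, hq⟩ := (Prime.dvd_finsetProd_iff (Nat.prime_iff.mp hℓ) _).mp hd
    have hqpr : q.Prime := Nat.prime_of_mem_primeFactors (Finset.mem_filter.mp hqT).1
    have : ℓ = q := (Nat.prime_dvd_prime_iff_eq hℓ hqpr).mp hq
    exact this ▸ hqT
  have hE : ∀ q : ℕ, q.Prime → q ∣ N → q ∣ N' ∨
      s59e3q_E2Alt p (s59i_rhobarW W p hΔ 𝒪 hp𝒪) q := by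
    intro q hq hqN
    by_cases hqp : q = p
    · exact Or.inl (Finset.dvd_prod_of_mem _ (Finset.mem_filter.mpr
        ⟨Nat.mem_primeFactors.mpr ⟨hq, hqN, hN0⟩, Or.inl hqp⟩))
    rcases hNtype q hq hqp hqN with h | ⟨hg, h1, h2⟩
    · exact Or.inl (Finset.dvd_prod_of_mem _ (Finset.mem_filter.mpr
        ⟨Nat.mem_primeFactors.mpr ⟨hq, hqN, hN0⟩, Or.inr h⟩))
    · exact Or.inr (s59e3q_E2Alt_of_good W hΔ hp𝒪 hp2 hirr q hq hqp hg h1 h2)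
  -- the `R`-side
  obtain ⟨Rd, hSmin, hm, he⟩ := s59e_Lmin_RData W hΔ hp𝒪 hp35 hss hirr hsplit N' B hpB hB2Δ
    (fun q hq hqN' => by
      have hqT := hmemN' q hq hqN'
      by_cases hqp : q = p
      · refine Or.inl ?_
        rw [hqp]
        exact s59q_WSmin_p_mem W hΔ hp𝒪
      rcases (Finset.mem_filter.mp hqT).2 with h | h
      · exact absurd h hqp
      · exact Or.inl ((s59q_WSmin_hmin W hΔ hp𝒪 hp2 q hq hqp).mpr fun hunr =>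
          h ((s59q_W_unram_iff W hΔ hp𝒪 q).mp hunr)))
  have hbadS : ∀ q : ℕ, q.Prime → q ≠ p → ¬ W.IsGoodPrimeFor q → q ∈ Rd.Smin := by
    intro q hq hqp hg
    rw [hSmin]
    exact (s59q_WSmin_hmin W hΔ hp𝒪 hp2 q hq hqp).mpr fun hunr =>
      hbad q hq hqp hg ((s59q_W_unram_iff W hΔ hp𝒪 q).mp hunr)
  -- the assembly
  obtain ⟨χ, hχ⟩ := s59q_sl3e_Lmin_abs p hp35 W hΔ N B hss hirr hB1 hB2 (fun hg => hg hbadp) 𝒪 hp𝒪 N' Rd hm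
    he hbadS (fun D0 r => s59q_sl3e_TPkgLH p hp2 W hΔ N (∅ : Finset ℕ) B hirr hsq hpN hbadp hc4p hpeu hB1 hB2 hocc h23
      𝒪 hp𝒪 N' Rd hE D0 r (s59q_ZIdx Rd.m Rd.e))
  exact ⟨B, 𝒪, inferInstance, inferInstance, inferInstance, χ, hχ⟩

/-- **[PATCH-min], STRICT case, in the shape of `s59g_HeckePt W p`, at an EVEN minimal level `M` with `p ∣ M`.** -/
theorem s59q_sl3e_Lmin_heckePt_dvd (p : ℕ) [Fact p.Prime] (hp35 : p = 3 ∨ p = 5)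
    (W : WeierstrassCurve ℤ) (hΔ : W.Δ ≠ 0) (hss : W.IsSemistableModel)
    (hirr : W.ModRepIsIrreducible p)
    (hpeu : ¬ (W.map (Int.castRingHom ℚ)).IsPeuRamifieeAt p p)
    (M : ℕ) (hM0 : 0 < M) (hsq : Squarefree M) (hpM : p ∣ M) (h2M : 2 ∣ M)
    (hram : ∀ q : ℕ, q.Prime → q ≠ p → q ∣ M → ¬ s59_Unr W p q ∨
      (W.IsGoodPrimeFor q ∧ ¬ p ∣ q - 1 ∧
        ¬ (p : ℤ) ∣ (W.apOfModel q : ℤ) ^ 2 - ((q : ℤ) + 1) ^ 2))
    (hbad : ∀ q : ℕ, q.Prime → q ≠ p → ¬ W.IsGoodPrimeFor q → ¬ s59_Unr W p q)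
    (hres : W.IsResiduallyModularOfLevel p M) :
    ∃ (N : ℕ) (_ : NeZero N) (B : Finset ℕ) (𝒪 : Type) (_ : CommRing 𝒪) (_ : IsDomain 𝒪)
      (_ : CharZero 𝒪) (χ : CuspForm.heckeAlgebra N 2 (↑B : Set ℕ) →+* 𝒪),
      ¬ p ^ 2 ∣ N ∧ (∀ q : ℕ, q.Prime → ¬ q ^ 3 ∣ N) ∧
      ∀ (ℓ : ℕ) (hℓ : ℓ.Prime) (hℓN : ¬ ℓ ∣ N) (hℓB : ℓ ∉ (↑B : Set ℕ)),
        χ (CuspForm.heckeAlgebra.T hℓ hℓN hℓB) = ((W.apOfModel ℓ : ℤ) : 𝒪) := by
  have hpp : p.Prime := Fact.out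
  haveI : NeZero M := ⟨hM0.ne'⟩
  obtain ⟨B, 𝒪, i1, i2, i3, χ, hχ⟩ := s59q_sl3e_Lmin_strict p hp35 W hΔ hss hirr M hsq hpM hpeu h2M
    hres hbad fun q hq hqp hqM => hram q hq hqp hqM
  refine ⟨M, inferInstance, B, 𝒪, i1, i2, i3, χ, ?_, ?_, hχ⟩
  · intro h
    rw [pow_two] at h
    exact hpp.one_lt.ne' (Nat.isUnit_iff.mp (hsq p h))
  · intro q hq h
    have h2 : q * q ∣ M := dvd_trans ⟨q, by ring⟩ h
    exact hq.not_isUnit (hsq q h2)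

/-- **[PATCH-min], STRICT case, in the shape of `s59g_HeckePt W p`, at ANY EVEN minimal level `M`** (`ρ̄_W` très ramifié at `p`): if
`p ∤ M` the level `M p` is used (`s59v_resMod_mono`). -/
theorem s59q_sl3e_Lmin_heckePt (p : ℕ) [Fact p.Prime] (hp35 : p = 3 ∨ p = 5)
    (W : WeierstrassCurve ℤ) (hΔ : W.Δ ≠ 0) (hss : W.IsSemistableModel)
    (hirr : W.ModRepIsIrreducible p)
    (hpeu : ¬ (W.map (Int.castRingHom ℚ)).IsPeuRamifieeAt p p)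
    (M : ℕ) (hM0 : 0 < M) (hsq : Squarefree M) (h2M : 2 ∣ M)
    (hram : ∀ q : ℕ, q.Prime → q ≠ p → q ∣ M → ¬ s59_Unr W p q ∨
      (W.IsGoodPrimeFor q ∧ ¬ p ∣ q - 1 ∧
        ¬ (p : ℤ) ∣ (W.apOfModel q : ℤ) ^ 2 - ((q : ℤ) + 1) ^ 2))
    (hbad : ∀ q : ℕ, q.Prime → q ≠ p → ¬ W.IsGoodPrimeFor q → ¬ s59_Unr W p q)
    (hres : W.IsResiduallyModularOfLevel p M) :
    ∃ (N : ℕ) (_ : NeZero N) (B : Finset ℕ) (𝒪 : Type) (_ : CommRing 𝒪) (_ : IsDomain 𝒪)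
      (_ : CharZero 𝒪) (χ : CuspForm.heckeAlgebra N 2 (↑B : Set ℕ) →+* 𝒪),
      ¬ p ^ 2 ∣ N ∧ (∀ q : ℕ, q.Prime → ¬ q ^ 3 ∣ N) ∧
      ∀ (ℓ : ℕ) (hℓ : ℓ.Prime) (hℓN : ¬ ℓ ∣ N) (hℓB : ℓ ∉ (↑B : Set ℕ)),
        χ (CuspForm.heckeAlgebra.T hℓ hℓN hℓB) = ((W.apOfModel ℓ : ℤ) : 𝒪) := by
  have hpp : p.Prime := Fact.out
  by_cases hpM : p ∣ M
  · exact s59q_sl3e_Lmin_heckePt_dvd p hp35 W hΔ hss hirr hpeu M hM0 hsq hpM h2M hram hbad hres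
  · have hcop : M.Coprime p := (Nat.Coprime.symm ((Nat.Prime.coprime_iff_not_dvd hpp).mpr hpM))
    have hNsq : Squarefree (M * p) := (Nat.squarefree_mul hcop).mpr ⟨hsq, hpp.squarefree⟩
    have hres' : W.IsResiduallyModularOfLevel p (M * p) :=
      s59v_resMod_mono (dvd_mul_right M p) hNsq hres
    refine s59q_sl3e_Lmin_heckePt_dvd p hp35 W hΔ hss hirr hpeu (M * p)
      (Nat.mul_pos hM0 hpp.pos) hNsq (dvd_mul_left p M) (Dvd.dvd.mul_right h2M p)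
      (fun q hq hqp hqN => ?_) hbad hres'
    rcases (Nat.Prime.dvd_mul hq).mp hqN with h | h
    · exact hram q hq hqp h
    · exact absurd ((Nat.prime_dvd_prime_iff_eq hq hpp).mp h) hqp

end Fermat.Agent.Lib.S59
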