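/-
PROGRAMME (R2) = S59, [STRICT-p], the `p ∣ M` halves of the [LIFT] fields (GT), node [PATCH-FLR] (helper6, prefix `s59q_`):
**THE ASSEMBLY `x_W ∈ Spec T_k(∅)` ⇒ A HECKE POINT OF THE TOP LEVEL WITH THE EIGENVALUES `a_ℓ(W)`, STRICT-ORDINARY TYPE**, over the
abstract `T`-side contract (`s59f_TBaseF`, `s59f_TLevelF` + the Hecke map `hk` of the top base ring) — scripted twin of helper4's
`s59f_FLR_W_abs` (FAsmW1.lean).  `W` is only assumed MULTIPLICATIVE at `p` (`hmult`; the point `ρ_W ⊗ 𝒪` is strict-ordinary by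
helper2's `s59b_rhoW_strictOrd_of_semistable`), so the same theorem serves (GT)-très and (P).
-/
import Mathlib
import Fermat.Agent.Lib.S59.FAsmW1
import Fermat.Agent.Lib.S59.QSFlrR
import Fermat.Agent.Lib.S59.BOrdSS

set_option autoImplicit false
set_option linter.unusedSectionVars false
set_option linter.unusedVariables false
set_option linter.style.haveILetI false
set_option maxHeartbeats 3200000
set_option synthInstance.maxHeartbeats 400000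

noncomputable section

namespace Fermat.Agent.Lib.S59

open IsLocalRing CuspForm ExtCitation
open Fermat.Agent.Lib.S53 (matOf matOfRes NormData matOf_apply matOfRes_apply
  exists_basis_baseChangeAlong exists_basis_of_isEquiv)
open Fermat.Agent.Lib.Deform (IsTestAlgebra)
open Fermat.Agent.Lib.S56 Fermat.Agent.Lib.S44

local notation "Γℚ" => (AlgebraicClosure ℚ ≃ₐ[ℚ] AlgebraicClosure ℚ)

/-- **[PATCH-FLR], STRICT-ORDINARY type (`W` multiplicative at `p`; no peu/très hypothesis), over an abstract `T`-side.** -/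
theorem s59q_FLR_W_abs_ord (p : ℕ) [Fact p.Prime] (hp2 : p ≠ 2) (W : WeierstrassCurve ℤ) (hΔ : W.Δ ≠ 0)
    (N : ℕ) [NeZero N] (B : Finset ℕ)
    (hss : W.IsSemistableModel) (hirr : W.ModRepIsIrreducible p)
    (hpB : p ∈ B)
    (hB2 : ∀ r : ℕ, r.Prime → ¬ W.IsGoodPrimeFor r → r ∈ B)
    (hmult : ¬ W.IsGoodPrimeFor p)
    (𝒪 : Type) [CommRing 𝒪] [IsDomain 𝒪] [IsDiscreteValuationRing 𝒪]
    [IsAdicComplete (maximalIdeal 𝒪) 𝒪] [Finite (ResidueField 𝒪)] [CharZero 𝒪]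
    [Algebra ℤ_[p] 𝒪] [Module.Finite ℤ_[p] 𝒪]
    (hp𝒪 : ((p : ℕ) : 𝒪) ∈ maximalIdeal 𝒪)
    -- the binders of `s59q_FLR_R_ord` for `ρ̄ = ρ̄_W`
    (habs : (s59i_rhobarW W p hΔ 𝒪 hp𝒪).IsAbsolutelyIrreducible)
    (hdet : (GaloisRepAdic.ofResidualGaloisRep (s59i_rhobarW W p hΔ 𝒪 hp𝒪)).DetIsCyclotomic p)
    (hsplit : ∀ σ : Γℚ, ∃ α β : ResidueField 𝒪,
      LinearMap.charpoly ((s59i_rhobarW W p hΔ 𝒪 hp𝒪).ρ σ) =
        (Polynomial.X - Polynomial.C α) * (Polynomial.X - Polynomial.C β))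
    (hTW : ∀ (K : Type) [Field K] [Algebra (ResidueField 𝒪) K] (G : Subgroup Γℚ), G.index = 2 →
      ∀ V : Submodule K ((s59i_rhobarW W p hΔ 𝒪 hp𝒪).baseChange K).V,
        (∀ σ ∈ G, ∀ x ∈ V, ((s59i_rhobarW W p hΔ 𝒪 hp𝒪).baseChange K).ρ σ x ∈ V) → V = ⊥ ∨ V = ⊤)
    (S Smin Bd Ed : Finset ℕ) (hpSmin : p ∈ Smin) (hSmin : Smin ⊆ S) (hBS : Bd ⊆ S) (hES : Ed ⊆ S)
    (hBprime : ∀ q ∈ Bd, q.Prime) (hEprime : ∀ q ∈ Ed, q.Prime)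
    (hmin : ∀ q : ℕ, q.Prime → q ≠ p →
      (q ∈ Smin ↔ ¬ (s59i_rhobarW W p hΔ 𝒪 hp𝒪).IsUnramifiedAt q))
    (hBunr : ∀ q ∈ Bd, q ≠ p ∧ (s59i_rhobarW W p hΔ 𝒪 hp𝒪).IsUnramifiedAt q)
    (hEunr : ∀ q ∈ Ed, q ≠ p ∧ (s59i_rhobarW W p hΔ 𝒪 hp𝒪).IsUnramifiedAt q)
    (hBE : Disjoint Bd Ed)
    (hcen : ∀ q : Nat.Primes, (q : ℕ) ∈ Bd → s59q_CentralAt (s59i_rhobarW W p hΔ 𝒪 hp𝒪) q)
    (Nd : NormData (s59i_rhobarW W p hΔ 𝒪 hp𝒪)) (m e : ℕ) (pr : Fin m ⊕ Fin e → Nat.Primes)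
    (hprB : Finset.univ.image (fun j : Fin m => (pr (Sum.inl j) : ℕ)) = Bd)
    (hprE : Finset.univ.image (fun l : Fin e => (pr (Sum.inr l) : ℕ)) = Ed)
    (hBinj : Function.Injective fun j : Fin m => (pr (Sum.inl j) : ℕ))
    (hEinj : Function.Injective fun l : Fin e => (pr (Sum.inr l) : ℕ))
    (σq φq : Fin m ⊕ Fin e → Γℚ)
    (hσq : ∀ t, s59q_IsTameGen (pr t) (primeLocalPlace (pr t)) (σq t))
    (hφq : ∀ t, (primeLocalPlace (pr t)).IsFrobeniusAt (φq t) (pr t))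
    (i2 : 𝒪) (hi2 : 2 * i2 = 1)
    (P P' : Fin m ⊕ Fin e → Matrix (Fin 2) (Fin 2) 𝒪) (hPP' : ∀ t, P t * P' t = 1)
    (hP'P : ∀ t, P' t * P t = 1)
    (L : Fin e → s59f_LocBr 𝒪 i2) (ε4 : Fin m → 𝒪) (hε4 : ∀ i, ε4 i ^ 2 = 1)
    (hMres : ∀ l, (P' (Sum.inr l)).map (residue 𝒪) *
      matOfRes (s59i_rhobarW W p hΔ 𝒪 hp𝒪) Nd.b (φq (Sum.inr l)) *
      (P (Sum.inr l)).map (residue 𝒪) = ((L l).M0).map (residue 𝒪))
    (hφ4 : ∀ i, matOfRes (s59i_rhobarW W p hΔ 𝒪 hp𝒪) Nd.b (φq (Sum.inl i)) =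
      residue 𝒪 (ε4 i) • (1 : Matrix (Fin 2) (Fin 2) (ResidueField 𝒪)))
    (hqu : ∀ l, (L l).u = (((pr (Sum.inr l) : ℕ) : ℕ) : 𝒪))
    (hqB : ∀ j, (((pr (Sum.inl j) : ℕ) : ℕ) : 𝒪) - 1 ∈ maximalIdeal 𝒪)
    (step : ℕ → Fin e ⊕ Fin m) (k : ℕ) (hstep : ∀ t < k, ∀ t' < t, step t' ≠ step t)
    (hcover : ∀ s : Fin e ⊕ Fin m, ∃ t < k, step t = s)
    -- the position of `ρ_W`
    (hunrW : ∀ q : ℕ, q.Prime → q ∉ Smin ∪ (Bd ∪ Ed) → (s59q_WRho W hΔ hp𝒪).IsUnramifiedAt q)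
    (hramW : ∀ t, (s59q_WRho W hΔ hp𝒪).ρ (σq t) ≠ 1)
    (htrW : ∀ l, s59i_cpTr (s59q_WRho W hΔ hp𝒪) (φq (Sum.inr l)) = (L l).tr0)
    -- the `T`-side
    (HT : ∀ (D0 : GaloisRep.DeformationRingData 𝒪 (s59i_rhobarW W p hΔ 𝒪 hp𝒪) (fun _A _ _ _ ρ =>
        GaloisRep.strictOrdinaryCondition 𝒪 p (Smin ∪ (Bd ∪ Ed)) ρ ∧
          ∀ q ∈ Smin ∪ (Bd ∪ Ed), q.Prime → q ≠ p → ρ.IsUnipotentOnInertiaAt q)),
      ∃ Bs : s59f_TBaseF 𝒪 k D0,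
        (∃ hk : heckeAlgebra N 2 (↑B : Set ℕ) →+* Bs.R k,
          ∀ (ℓ : ℕ) (hℓ : ℓ.Prime) (hℓN : ¬ ℓ ∣ N) (hℓB : ℓ ∉ (↑B : Set ℕ)),
          ∀ A : ValuationSubring (AlgebraicClosure ℚ), A.LiesOverPrime ℓ →
          ∀ g : Γℚ, A.IsFrobeniusAt g ℓ →
            LinearMap.charpoly ((Bs.ρR k).ρ g) =
              Polynomial.X ^ 2 - Polynomial.C (hk (heckeAlgebra.T hℓ hℓN hℓB)) * Polynomial.X +
                Polynomial.C ((ℓ : Bs.R k))) ∧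
        ∀ r : ℕ, 3 * m + e ≤ r → ∀ (n : ℕ) (qv : Fin r → ℕ), Function.Injective qv →
          (∀ i, (qv i).Prime ∧ qv i ∉ S ∧ p ^ (n + 1) ∣ qv i - 1) →
          (∀ i, ∀ A : ValuationSubring (AlgebraicClosure ℚ), A.LiesOverPrime (qv i) →
            ∀ φ : Γℚ, A.IsFrobeniusAt φ (qv i) →
              ∃ α β : ResidueField 𝒪, α ≠ β ∧
                LinearMap.charpoly ((s59i_rhobarW W p hΔ 𝒪 hp𝒪).ρ φ) =
                  (Polynomial.X - Polynomial.C α) * (Polynomial.X - Polynomial.C β)) →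
          ∀ DQ : GaloisRep.DeformationRingData 𝒪 (s59i_rhobarW W p hΔ 𝒪 hp𝒪) (fun _A _ _ _ ρ =>
            GaloisRep.strictOrdinaryCondition 𝒪 p (Smin ∪ (Bd ∪ Ed) ∪ Finset.univ.image qv) ρ ∧
              ∀ q ∈ Smin ∪ (Bd ∪ Ed), q.Prime → q ≠ p → ρ.IsUnipotentOnInertiaAt q),
            Nonempty (s59f_TLevelF 𝒪 p n r (s59q_ZIdx m e) k Bs qv
              (fun t => (pr (Sum.swap (step t)) : ℕ)) (fun t => φq (Sum.swap (step t)))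
              (fun t => σq (Sum.swap (step t))) DQ)) :
    ∃ χ : heckeAlgebra N 2 (↑B : Set ℕ) →+* 𝒪,
      ∀ (ℓ : ℕ) (hℓ : ℓ.Prime) (hℓN : ¬ ℓ ∣ N) (hℓB : ℓ ∉ (↑B : Set ℕ)),
        χ (heckeAlgebra.T hℓ hℓN hℓB) = ((W.apOfModel ℓ : ℤ) : 𝒪) := by
  classical
  have hpP : p.Prime := Fact.out
  haveI hlid : IsLocalHom (algebraMap 𝒪 𝒪) := ⟨fun a h => h⟩
  -- the type of `ρ_W ⊗ 𝒪`
  have h𝒟W : GaloisRep.strictOrdinaryCondition 𝒪 p (Smin ∪ (Bd ∪ Ed)) (s59q_WRho W hΔ hp𝒪) ∧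
      ∀ q ∈ Smin ∪ (Bd ∪ Ed), q.Prime → q ≠ p →
        (s59q_WRho W hΔ hp𝒪).IsUnipotentOnInertiaAt q := by
    refine ⟨⟨s59q_W_detCyc W hΔ hp𝒪 hp2 hirr,
      s59e_bc_strictOrd _ _ _ p (s59b_rhoW_strictOrd_of_semistable hΔ hp2 hirr hss hmult), hunrW⟩, ?_⟩
    intro q _ hq hqp
    exact s59e_bc_unip _ _ _ q (s59b_rhoW_unip hΔ hp2 hirr hss q hq hqp)
  have hfrobW : ∀ ℓ : ℕ, ℓ.Prime → ℓ ∉ B → ∀ Pl : ValuationSubring (AlgebraicClosure ℚ),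
      Pl.LiesOverPrime ℓ → ∀ σ : Γℚ, Pl.IsFrobeniusAt σ ℓ →
        LinearMap.charpoly ((s59q_WRho W hΔ hp𝒪).ρ σ) =
          Polynomial.X ^ 2 - Polynomial.C (((W.apOfModel ℓ : ℤ) : 𝒪)) * Polynomial.X +
            Polynomial.C ((ℓ : 𝒪)) := by
    intro ℓ hℓ hℓB Pl hP σ hσ
    have hℓp : ℓ ≠ p := fun h => hℓB (h ▸ hpB)
    have hgood : W.IsGoodPrimeFor ℓ := by
      by_contra hbad
      exact hℓB (hB2 ℓ hℓ hbad)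
    rw [s59e_bc_charpoly, s59b_rhoW_charpoly hΔ hp2 hirr ℓ hℓ hgood hℓp Pl hP σ hσ]
    simp
  have hresW : (s59q_WRho W hΔ hp𝒪).residual.IsEquiv
      ((s59i_rhobarW W p hΔ 𝒪 hp𝒪).baseChangeAlong (ResidueField.map (algebraMap 𝒪 𝒪))) :=
    s59b_hres_of_frob p hp2 hp𝒪 (s59q_WRho W hΔ hp𝒪) habs B
      (fun ℓ => ((W.apOfModel ℓ : ℤ) : 𝒪)) (fun ℓ => ((W.apOfModel ℓ : ℤ) : 𝒪)) hfrobW
      (fun ℓ _ _ => by
        show ((W.apOfModel ℓ : ℤ) : 𝒪) - ((W.apOfModel ℓ : ℤ) : 𝒪) ∈ maximalIdeal 𝒪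
        rw [sub_self]
        exact Ideal.zero_mem _)
      (s59i_rhobarW W p hΔ 𝒪 hp𝒪)
      (fun ℓ hℓ hℓS A hA σ hσ =>
        s59e_rhobarW_charpoly_frob hΔ hp2 hirr hp𝒪 B hpB hB2 ℓ hℓ hℓS A hA σ hσ)
  -- the base ring
  have hunrbar : ∀ q : ℕ, q.Prime → q ∉ Smin ∪ (Bd ∪ Ed) →
      (s59i_rhobarW W p hΔ 𝒪 hp𝒪).IsUnramifiedAt q := by
    intro q hq hqS
    have hqSmin : q ∉ Smin := fun h => hqS (Finset.mem_union_left _ h)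
    have hne : q ≠ p := fun h => hqSmin (h ▸ hpSmin)
    by_contra hram
    exact hqSmin ((hmin q hq hne).2 hram)
  obtain ⟨D0⟩ := s59q_exists_DQ_ord p hp2 hp𝒪 (s59i_rhobarW W p hΔ 𝒪 hp𝒪) habs
    (Smin ∪ (Bd ∪ Ed)) (Smin ∪ (Bd ∪ Ed)) (Smin ∪ (Bd ∪ Ed)) (Finset.Subset.refl _)
    (Finset.mem_union_left _ hpSmin) hunrbar hlid IsLocalRing.residue_surjective
    (s59q_WRho W hΔ hp𝒪) h𝒟W hresW
  obtain ⟨x, ⟨hx, ex⟩, -⟩ := D0.universal 𝒪 IsLocalRing.residue_surjective (s59q_WRho W hΔ hp𝒪)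
    h𝒟W hresW
  have hxtr : ∀ g, x (s59i_cpTr D0.ρ g) = s59i_cpTr (s59q_WRho W hΔ hp𝒪) g := fun g =>
    s59e_Lmin_point_trace D0 _ (x : D0.R →+* 𝒪) hx ex g
  obtain ⟨Bs, ⟨hk, hhk⟩, HL⟩ := HT D0
  -- the point factors through the top Hecke ring
  have hker := s59q_FLR_R_ord p hp2 hp𝒪 (s59i_rhobarW W p hΔ 𝒪 hp𝒪) habs hdet hsplit hTW S Smin Bd Ed
    hpSmin hSmin hBS hES hBprime hEprime hmin hBunr hEunr hBE hcen Nd m e pr hprB hprE hBinj hEinj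
    σq φq hσq hφq i2 hi2 P P' hPP' hP'P L ε4 hε4 hMres hφ4 hqu hqB step k hstep hcover D0 Bs HL
    𝒪 (x : D0.R →+* 𝒪)
    (fun a ha => by
      have hnu := (mem_maximalIdeal a).mp ha
      rw [mem_maximalIdeal, mem_nonunits_iff]
      intro hu
      exact hnu (hx.map_nonunit a hu))
    (by
      intro a b hab
      have h1 : x (algebraMap 𝒪 D0.R a) = a := x.commutes a
      have h2 : x (algebraMap 𝒪 D0.R b) = b := x.commutes b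
      simp only [RingHom.comp_apply, RingHom.coe_coe] at hab
      rw [h1, h2] at hab
      exact hab)
    (fun t => s59f_exists_dual_ne D0.ρ (s59q_WRho W hΔ hp𝒪) (x : D0.R →+* 𝒪) hx ex (σq t) (hramW t))
    (fun l => by
      rw [RingHom.coe_coe, hxtr, htrW l]
      exact (x.commutes _).symm)
  set χ₀ : Bs.R k →+* 𝒪 := RingHom.liftOfSurjective (Bs.ν k : D0.R →+* Bs.R k) (Bs.hνs k)
    ⟨(x : D0.R →+* 𝒪), hker⟩ with hχ₀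
  have hχ : ∀ a : D0.R, χ₀ (Bs.ν k a) = x a := fun a =>
    RingHom.liftOfRightInverse_comp_apply (Bs.ν k : D0.R →+* Bs.R k) _ _
      ⟨(x : D0.R →+* 𝒪), hker⟩ a
  refine ⟨χ₀.comp hk, fun ℓ hℓ hℓN hℓB => ?_⟩
  obtain ⟨A, g, hA, hg⟩ := Fermat.Agent.Lib.Frobenius.exists_isFrobeniusAt ℓ hℓ
  have h1 : s59i_cpTr (Bs.ρR k) g = hk (heckeAlgebra.T hℓ hℓN hℓB) :=
    s59i_cpTr_of_charpoly (Bs.ρR k) g _ _ (hhk ℓ hℓ hℓN hℓB A hA g hg)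
  have h2 : s59i_cpTr (s59q_WRho W hΔ hp𝒪) g = ((W.apOfModel ℓ : ℤ) : 𝒪) :=
    s59i_cpTr_of_charpoly _ g _ _
      (hfrobW ℓ hℓ (fun h => hℓB (Finset.mem_coe.mpr h)) A hA g hg)
  rw [RingHom.comp_apply, ← h1, ← Bs.hν k g, hχ, hxtr g, h2]

end Fermat.Agent.Lib.S59
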