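/-
PROGRAMME (R2) = S59, [STRICT-p], the `p ∣ M` halves of the [LIFT] fields (GT), node [PATCH-min], part D (helper6, prefix `s59q_sl_`):
**[PATCH-min] IN THE STRICT CASE, `p ≥ 5`: THE NODE** — scripted twin of helper3's `s59u_nh_e_Lmin_flat` / `s59u_nh_e_Lmin_heckePt`
(UHELMin.lean, the h23-free twins of helper5's `s59e_Lmin_flat` / `s59e_Lmin_heckePt`).

`s59q_sl_Lmin_strict`      : `W` semistable, `ρ̄_W` très ramifié at `p` (`p ∤ v_p(Δ_W)`, so `W` is multiplicative at `p`), `W[p]` irreducible;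
  `N` squarefree, `p ∣ N`, `1 < N`; `ρ̄_{W,p}` modular of level `N`; every bad prime `q ≠ p` of `W` is a RAMIFIED prime of `ρ̄`; every prime
  `q ≠ p` of `N` is a ramified prime of `ρ̄` or of type (E2′)  ⊢  a characteristic-zero point `χ : heckeAlgebra N 2 B →+* 𝒪` with
  `χ(T_ℓ) = a_ℓ(W)` for all `ℓ ∤ N`, `ℓ ∉ B`.
`s59q_sl_Lmin_heckePt_dvd` : the same in the shape of helper1's `s59g_HeckePt W p` at a minimal level `M` with `p ∣ M`;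
`s59q_sl_Lmin_heckePt`     : the same at ANY minimal level `M` (level `M p` if `p ∤ M`).
-/
import Mathlib
import Fermat.Agent.Lib.S59.ELMinA
import Fermat.Agent.Lib.S59.ELMinR
import Fermat.Agent.Lib.S59.ELPkgH
import Fermat.Agent.Lib.S59.VMono
import Fermat.Agent.Lib.S59.QOExtFin
import Fermat.Agent.Lib.S59.ELMin
import Fermat.Agent.Lib.S59.UW37Cons
import Fermat.Agent.Lib.Level.SmallLevel
import Fermat.Agent.Lib.S59.UHMG2Up
import Fermat.Agent.Lib.S59.UHMG2Frey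
import Fermat.Agent.Lib.S59.UHMG2FreyFin
import Fermat.Agent.Lib.S59.UHNG2Fin
import Fermat.Agent.Lib.S59.UHNKEnd
import Fermat.Agent.Lib.S59.UHNKFin
import Fermat.Agent.Lib.S59.UHEWC8a
import Fermat.Agent.Lib.S59.UHEWC8b
import Fermat.Agent.Lib.S59.UHEWC8c
import Fermat.Agent.Lib.S59.UHEWC8d
import Fermat.Agent.Lib.S59.UHELC8a
import Fermat.Agent.Lib.S59.UHELC8b
import Fermat.Agent.Lib.S59.UHELPkg
import Fermat.Agent.Lib.S59.UHELPkgH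
import Fermat.Agent.Lib.S59.UHELMin
import Fermat.Agent.Lib.S59.QSLPkgH
import Fermat.Agent.Lib.S59.QSLMinA

set_option autoImplicit false
set_option linter.unusedSectionVars false
set_option linter.unusedVariables false
set_option linter.style.haveILetI false
set_option maxHeartbeats 1600000
set_option synthInstance.maxHeartbeats 400000

noncomputable section

namespace Fermat.Agent.Lib.S59

open IsLocalRing CuspForm Polynomial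
open Fermat.Agent.Lib.S44

local notation "Γℚ" => (AlgebraicClosure ℚ ≃ₐ[ℚ] AlgebraicClosure ℚ)


/-- **[PATCH-min], STRICT case, at a level `N` with `p ∥ N`** (`p ≥ 5`; `ρ̄_W` très ramifié at `p`, hence `W` multiplicative at `p`). -/
theorem s59q_sl_Lmin_strict (p : ℕ) [Fact p.Prime] (hp35 : p = 3 ∨ p = 5) (hp5 : 5 ≤ p)
    (W : WeierstrassCurve ℤ) (hΔ : W.Δ ≠ 0) (hss : W.IsSemistableModel)
    (hirr : W.ModRepIsIrreducible p)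
    (N : ℕ) [NeZero N] (hsq : Squarefree N) (hpN : p ∣ N)
    (hpeu : ¬ (W.map (Int.castRingHom ℚ)).IsPeuRamifieeAt p p) (hONE : 1 < N)
    (hres : W.IsResiduallyModularOfLevel p N)
    (hbad : ∀ q : ℕ, q.Prime → q ≠ p → ¬ W.IsGoodPrimeFor q → ¬ s59_Unr W p q)
    (hNtype : ∀ q : ℕ, q.Prime → q ≠ p → q ∣ N → ¬ s59_Unr W p q ∨
      (W.IsGoodPrimeFor q ∧ ¬ p ∣ q ^ 2 - 1 ∧
        ¬ (p : ℤ) ∣ (W.apOfModel q : ℤ) ^ 2 - ((q : ℤ) + 1) ^ 2)) :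
    ∃ (B : Finset ℕ) (𝒪 : Type) (_ : CommRing 𝒪) (_ : IsDomain 𝒪) (_ : CharZero 𝒪)
      (χ : heckeAlgebra N 2 (↑B : Set ℕ) →+* 𝒪),
      ∀ (ℓ : ℕ) (hℓ : ℓ.Prime) (hℓN : ¬ ℓ ∣ N) (hℓB : ℓ ∉ (↑B : Set ℕ)),
        χ (heckeAlgebra.T hℓ hℓN hℓB) = ((W.apOfModel ℓ : ℤ) : 𝒪) := by
  classical
  have hpp : p.Prime := Fact.out
  have hp2 : p ≠ 2 := by omega
  have hbadp : (p : ℤ) ∣ W.Δ := by
    by_contra hgood
    apply hpeu
    unfold WeierstrassCurve.IsPeuRamifieeAt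
    rw [WeierstrassCurve.map_Δ]
    have h1 : padicValRat p ((Int.castRingHom ℚ) W.Δ) = padicValInt p W.Δ := by
      rw [eq_intCast]
      exact padicValRat.of_int
    rw [h1, padicValInt.eq_zero_of_not_dvd hgood]
    exact dvd_zero _
  have hc4p : ¬ (p : ℤ) ∣ W.c₄ := hss p hpp hbadp
  have hN0 : N ≠ 0 := NeZero.ne N
  set B : Finset ℕ := (N * p).primeFactors ∪ W.Δ.natAbs.primeFactors with hB
  have hB1 : ∀ r : ℕ, r.Prime → r ∣ N * p → r ∈ B := fun r hr hd =>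
    Finset.mem_union_left _ (Nat.mem_primeFactors.mpr ⟨hr, hd, Nat.mul_ne_zero hN0 hpp.ne_zero⟩)
  have hB2Δ : ∀ r : ℕ, r.Prime → (r : ℤ) ∣ W.Δ → r ∈ B := fun r hr hd =>
    Finset.mem_union_right _ (Nat.mem_primeFactors.mpr
      ⟨hr, Int.natCast_dvd.mp hd, Int.natAbs_ne_zero.mpr hΔ⟩)
  have hB2 : ∀ r : ℕ, r.Prime → ¬ W.IsGoodPrimeFor r → r ∈ B := by
    intro r hr hbad'
    refine hB2Δ r hr ?_
    by_contra h
    exact hbad' h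
  have hpB : p ∈ B := hB1 p hpp (Dvd.intro_left N rfl)
  have hocc := s59e_Lmin_levelOcc W p N B hB1 hB2 hres
  -- the coefficient ring
  obtain ⟨𝒪, i1, i2, i3, i4, i5, i6, i7, i8, i9, hp𝒪, -, hsplit⟩ :=
    s59q_exists_coeffRing_padic p 1 one_pos
  -- the `R`-side
  obtain ⟨Rd, hSmin, hm, he⟩ := s59e_Lmin_RData W hΔ hp𝒪 hp35 hss hirr hsplit N B hpB hB2Δ
    (fun q hq hqN => by
      by_cases hqp : q = p
      · subst hqp
        exact Or.inl (s59q_WSmin_p_mem W hΔ hp𝒪)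
      rcases hNtype q hq hqp hqN with h | ⟨hg, h1, h2⟩
      · exact Or.inl ((s59q_WSmin_hmin W hΔ hp𝒪 hp2 q hq hqp).mpr fun hunr =>
          h ((s59q_W_unram_iff W hΔ hp𝒪 q).mp hunr))
      · exact Or.inr (s59e_Lmin_E2 W hΔ hp𝒪 hp2 hirr q hq hqp hg h1 h2))
  have hbadS : ∀ q : ℕ, q.Prime → q ≠ p → ¬ W.IsGoodPrimeFor q → q ∈ Rd.Smin := by
    intro q hq hqp hg
    rw [hSmin]
    exact (s59q_WSmin_hmin W hΔ hp𝒪 hp2 q hq hqp).mpr fun hunr =>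
      hbad q hq hqp hg ((s59q_W_unram_iff W hΔ hp𝒪 q).mp hunr)
  -- the assembly
  obtain ⟨χ, hχ⟩ := s59q_sl_Lmin_abs p hp35 W hΔ N B hss hirr hB1 hB2 (fun hg => hg hbadp) 𝒪 hp𝒪 Rd hm
    he hbadS (fun D0 r => s59q_sl_TPkgLH p hp5 W hΔ N (∅ : Finset ℕ) B hirr hsq hpN hbadp hc4p hpeu hB1 hB2 hocc hONE
      𝒪 hp𝒪 Rd D0 r (s59q_ZIdx Rd.m Rd.e))
  exact ⟨B, 𝒪, inferInstance, inferInstance, inferInstance, χ, hχ⟩

/-- **[PATCH-min], STRICT case, in the shape of `s59g_HeckePt W p`, at a level `M` with `p ∣ M`** (`ρ̄_W` très ramifié at `p`). -/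
theorem s59q_sl_Lmin_heckePt_dvd (p : ℕ) [Fact p.Prime] (hp35 : p = 3 ∨ p = 5) (hp5 : 5 ≤ p)
    (W : WeierstrassCurve ℤ) (hΔ : W.Δ ≠ 0) (hss : W.IsSemistableModel)
    (hirr : W.ModRepIsIrreducible p)
    (hpeu : ¬ (W.map (Int.castRingHom ℚ)).IsPeuRamifieeAt p p)
    (M : ℕ) (hM0 : 0 < M) (hsq : Squarefree M) (hpM : p ∣ M)
    (hram : ∀ q : ℕ, q.Prime → q ≠ p → q ∣ M → ¬ s59_Unr W p q)
    (hbad : ∀ q : ℕ, q.Prime → q ≠ p → ¬ W.IsGoodPrimeFor q → ¬ s59_Unr W p q)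
    (hres : W.IsResiduallyModularOfLevel p M) :
    ∃ (N : ℕ) (_ : NeZero N) (B : Finset ℕ) (𝒪 : Type) (_ : CommRing 𝒪) (_ : IsDomain 𝒪)
      (_ : CharZero 𝒪) (χ : CuspForm.heckeAlgebra N 2 (↑B : Set ℕ) →+* 𝒪),
      ¬ p ^ 2 ∣ N ∧ (∀ q : ℕ, q.Prime → ¬ q ^ 3 ∣ N) ∧
      ∀ (ℓ : ℕ) (hℓ : ℓ.Prime) (hℓN : ¬ ℓ ∣ N) (hℓB : ℓ ∉ (↑B : Set ℕ)),
        χ (CuspForm.heckeAlgebra.T hℓ hℓN hℓB) = ((W.apOfModel ℓ : ℤ) : 𝒪) := by
  have hpp : p.Prime := Fact.out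
  have hONE : 1 < M := lt_of_lt_of_le hpp.one_lt (Nat.le_of_dvd hM0 hpM)
  haveI : NeZero M := ⟨hM0.ne'⟩
  obtain ⟨B, 𝒪, i1, i2, i3, χ, hχ⟩ := s59q_sl_Lmin_strict p hp35 hp5 W hΔ hss hirr M hsq hpM hpeu
    hONE hres hbad fun q hq hqp hqM => Or.inl (hram q hq hqp hqM)
  refine ⟨M, inferInstance, B, 𝒪, i1, i2, i3, χ, ?_, ?_, hχ⟩
  · intro h
    rw [pow_two] at h
    exact hpp.one_lt.ne' (Nat.isUnit_iff.mp (hsq p h))
  · intro q hq h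
    have h2 : q * q ∣ M := dvd_trans ⟨q, by ring⟩ h
    exact hq.not_isUnit (hsq q h2)

/-- **[PATCH-min], STRICT case, in the shape of `s59g_HeckePt W p`, at ANY minimal level `M`** (`ρ̄_W` très ramifié at `p`): if
`p ∤ M` the level `M p` is used (`s59v_resMod_mono`). -/
theorem s59q_sl_Lmin_heckePt (p : ℕ) [Fact p.Prime] (hp35 : p = 3 ∨ p = 5) (hp5 : 5 ≤ p)
    (W : WeierstrassCurve ℤ) (hΔ : W.Δ ≠ 0) (hss : W.IsSemistableModel)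
    (hirr : W.ModRepIsIrreducible p)
    (hpeu : ¬ (W.map (Int.castRingHom ℚ)).IsPeuRamifieeAt p p)
    (M : ℕ) (hM0 : 0 < M) (hsq : Squarefree M)
    (hram : ∀ q : ℕ, q.Prime → q ≠ p → q ∣ M → ¬ s59_Unr W p q)
    (hbad : ∀ q : ℕ, q.Prime → q ≠ p → ¬ W.IsGoodPrimeFor q → ¬ s59_Unr W p q)
    (hres : W.IsResiduallyModularOfLevel p M) :
    ∃ (N : ℕ) (_ : NeZero N) (B : Finset ℕ) (𝒪 : Type) (_ : CommRing 𝒪) (_ : IsDomain 𝒪)
      (_ : CharZero 𝒪) (χ : CuspForm.heckeAlgebra N 2 (↑B : Set ℕ) →+* 𝒪),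
      ¬ p ^ 2 ∣ N ∧ (∀ q : ℕ, q.Prime → ¬ q ^ 3 ∣ N) ∧
      ∀ (ℓ : ℕ) (hℓ : ℓ.Prime) (hℓN : ¬ ℓ ∣ N) (hℓB : ℓ ∉ (↑B : Set ℕ)),
        χ (CuspForm.heckeAlgebra.T hℓ hℓN hℓB) = ((W.apOfModel ℓ : ℤ) : 𝒪) := by
  have hpp : p.Prime := Fact.out
  by_cases hpM : p ∣ M
  · exact s59q_sl_Lmin_heckePt_dvd p hp35 hp5 W hΔ hss hirr hpeu M hM0 hsq hpM hram hbad hres
  · have hcop : M.Coprime p := (Nat.Coprime.symm ((Nat.Prime.coprime_iff_not_dvd hpp).mpr hpM))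
    have hNsq : Squarefree (M * p) := (Nat.squarefree_mul hcop).mpr ⟨hsq, hpp.squarefree⟩
    have hres' : W.IsResiduallyModularOfLevel p (M * p) :=
      s59v_resMod_mono (dvd_mul_right M p) hNsq hres
    refine s59q_sl_Lmin_heckePt_dvd p hp35 hp5 W hΔ hss hirr hpeu (M * p)
      (Nat.mul_pos hM0 hpp.pos) hNsq (dvd_mul_left p M) (fun q hq hqp hqN => ?_) hbad hres'
    rcases (Nat.Prime.dvd_mul hq).mp hqN with h | h
    · exact hram q hq hqp h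
    · exact absurd ((Nat.prime_dvd_prime_iff_eq hq hpp).mp h) hqp

end Fermat.Agent.Lib.S59
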