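/-
PROGRAMME (R2) = S59, [STRICT-p], the `p ∣ M` halves of the [LIFT] fields (GT), node [PATCH-FLR] (helper6, prefix `s59q_pf_`):
**THE TOP OF THE STRICT (très ramifié) LEVEL-RAISING PATCH** — scripted twin of helper4's FAsmW5.lean.  `W` semistable, `ρ̄_{W,p}`
irreducible, très ramifié at `p` (so `W` is multiplicative at `p`), modular of a squarefree level `N₀` with `p ∣ N₀` all of whose primes
`≠ p` are ramified primes of `ρ̄` or of type (E2′) — and NO hypothesis on the bad primes of `W`.  Raising primes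
`Rs = {q ≠ p : W bad at q, ρ̄ unramified at q, ρ_W ⊗ 𝒪 ramified at q}`:

* `Rs = ∅` : `s59q_pf_Lmin_abs_unr` (= `s59q_sl_Lmin_abs` with `hbadS` weakened to `hunrW`) over the strict minimal `T`-side
             `s59q_sl_TPkgLH` (QSLPkgH.lean; `h23`-free);
* `Rs ≠ ∅` : `s59q_pf_FLR_W_core` (QSFlrW4.lean) over the `T`-side contract `s59q_pf_TPkgFLR p W hΔ N₀`.

* **`s59q_pf_FLR_strict`**  : a Hecke point `χ` of a squarefree level `N`, `p ∣ N`, with `χ(T_ℓ) = a_ℓ(W)`;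
* **`s59q_pf_FLR_heckePt`** : the same in the shape of helper1's `s59g_HeckePt W p`, from ANY minimal level `M`.
-/
import Mathlib
import Fermat.Agent.Lib.S59.QSFlrW4
import Fermat.Agent.Lib.S59.FAsmW5
import Fermat.Agent.Lib.S59.FAsmHD
import Fermat.Agent.Lib.S59.QSLMin
import Fermat.Agent.Lib.S59.QSTPkg5
import Fermat.Agent.Lib.S59.QExistDQ
import Fermat.Agent.Lib.S59.QWExistDQ

set_option autoImplicit false
set_option linter.unusedSectionVars false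
set_option linter.unusedVariables false
set_option linter.style.haveILetI false
set_option maxHeartbeats 3200000
set_option synthInstance.maxHeartbeats 400000

noncomputable section

namespace Fermat.Agent.Lib.S59

open IsLocalRing CuspForm Polynomial
open Fermat.Agent.Lib.S53 (matOf matOfRes NormData)
open Fermat.Agent.Lib.Deform (IsTestAlgebra)
open Fermat.Agent.Lib.S56 Fermat.Agent.Lib.S44

local notation "Γℚ" => (AlgebraicClosure ℚ ≃ₐ[ℚ] AlgebraicClosure ℚ)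

/-- **[PATCH-min], STRICT-ORDINARY type, over an abstract `T`-side** — `s59q_sl_Lmin_abs` (QSLMinA.lean) with the hypothesis `hbadS`
(every bad prime `≠ p` of `W` is in `Σ_min`) weakened to `hunrW` (`ρ_W ⊗ 𝒪` is unramified at the bad primes outside `Σ_min`); twin of
helper4's `s59f_Lmin_abs_unr`. -/
theorem s59q_pf_Lmin_abs_unr (p : ℕ) [Fact p.Prime] (hp35 : p = 3 ∨ p = 5) (W : WeierstrassCurve ℤ) (hΔ : W.Δ ≠ 0)
    (N : ℕ) [NeZero N] (B : Finset ℕ)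
    (hss : W.IsSemistableModel) (hirr : W.ModRepIsIrreducible p)
    (hB1 : ∀ r : ℕ, r.Prime → r ∣ N * p → r ∈ B)
    (hB2 : ∀ r : ℕ, r.Prime → ¬ W.IsGoodPrimeFor r → r ∈ B)
    (hmult : ¬ W.IsGoodPrimeFor p)
    (𝒪 : Type) [CommRing 𝒪] [IsDomain 𝒪] [IsDiscreteValuationRing 𝒪]
    [IsAdicComplete (maximalIdeal 𝒪) 𝒪] [Finite (ResidueField 𝒪)] [CharZero 𝒪]
    [Algebra ℤ_[p] 𝒪] [Module.Finite ℤ_[p] 𝒪]
    (hp𝒪 : ((p : ℕ) : 𝒪) ∈ maximalIdeal 𝒪)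
    (Rd : s59i_RData p N (s59i_rhobarW W p hΔ 𝒪 hp𝒪) B (∅ : Finset ℕ))
    (hm : Rd.m = 0) (he : Rd.e = 0)
    (hunrW : ∀ q : ℕ, q.Prime → q ≠ p → ¬ W.IsGoodPrimeFor q → q ∉ Rd.Smin →
      (s59q_WRho W hΔ hp𝒪).IsUnramifiedAt q)
    (HT : ∀ (D0 : GaloisRep.DeformationRingData 𝒪 (s59i_rhobarW W p hΔ 𝒪 hp𝒪) (fun _A _ _ _ ρ =>
        GaloisRep.strictOrdinaryCondition 𝒪 p (Rd.Smin ∪ ((∅ : Finset ℕ) ∪ Rd.Ed) ∪ (∅ : Finset ℕ)) ρ ∧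
          ∀ q ∈ Rd.Smin, q.Prime → q ≠ p → ρ.IsUnipotentOnInertiaAt q)) (r : ℕ),
      ∃ Bs : s59e_TBaseL 𝒪 D0,
        (∃ hk : heckeAlgebra N 2 (↑B : Set ℕ) →+* Bs.R,
          ∀ (ℓ : ℕ) (hℓ : ℓ.Prime) (hℓN : ¬ ℓ ∣ N) (hℓB : ℓ ∉ (↑B : Set ℕ)),
          ∀ A : ValuationSubring (AlgebraicClosure ℚ), A.LiesOverPrime ℓ →
          ∀ g : Γℚ, A.IsFrobeniusAt g ℓ →
            LinearMap.charpoly (Bs.ρR.ρ g) =
              X ^ 2 - C (hk (heckeAlgebra.T hℓ hℓN hℓB)) * X + C ((ℓ : Bs.R))) ∧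
        ∀ (n : ℕ) (qv : Fin r → ℕ), Function.Injective qv →
          (∀ i, (qv i).Prime ∧ qv i ∉ B ∧ p ^ (n + 1) ∣ qv i - 1) →
          (∀ i, ∀ A : ValuationSubring (AlgebraicClosure ℚ), A.LiesOverPrime (qv i) →
            ∀ φ : Γℚ, A.IsFrobeniusAt φ (qv i) →
              ∃ α β : ResidueField 𝒪, α ≠ β ∧
                LinearMap.charpoly ((s59i_rhobarW W p hΔ 𝒪 hp𝒪).ρ φ) = (X - C α) * (X - C β)) →
          ∀ DQ : GaloisRep.DeformationRingData 𝒪 (s59i_rhobarW W p hΔ 𝒪 hp𝒪) (fun _A _ _ _ ρ =>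
            GaloisRep.strictOrdinaryCondition 𝒪 p
                (Rd.Smin ∪ ((∅ : Finset ℕ) ∪ Rd.Ed) ∪ Finset.univ.image qv) ρ ∧
              ∀ q ∈ Rd.Smin, q.Prime → q ≠ p → ρ.IsUnipotentOnInertiaAt q),
            Nonempty (s59e_TLevelL 𝒪 p n r (s59q_ZIdx Rd.m Rd.e) Bs.R Bs.M Bs.ρR Bs.d qv DQ)) :
    ∃ χ : heckeAlgebra N 2 (↑B : Set ℕ) →+* 𝒪,
      ∀ (ℓ : ℕ) (hℓ : ℓ.Prime) (hℓN : ¬ ℓ ∣ N) (hℓB : ℓ ∉ (↑B : Set ℕ)),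
        χ (heckeAlgebra.T hℓ hℓN hℓB) = ((W.apOfModel ℓ : ℤ) : 𝒪) := by
  classical
  have hpP : p.Prime := Fact.out
  have hp2 : p ≠ 2 := by rcases hp35 with rfl | rfl <;> norm_num
  have hty : ∀ (Sg : Finset ℕ), p ∈ Sg →
      (∀ q : ℕ, q.Prime → q ≠ p → ¬ W.IsGoodPrimeFor q → q ∉ Sg →
        (s59q_WRho W hΔ hp𝒪).IsUnramifiedAt q) →
      GaloisRep.strictOrdinaryCondition 𝒪 p Sg (s59q_WRho W hΔ hp𝒪) ∧
        ∀ q ∈ Rd.Smin, q.Prime → q ≠ p → (s59q_WRho W hΔ hp𝒪).IsUnipotentOnInertiaAt q := by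
    intro Sg hpSg hun
    refine ⟨⟨s59q_W_detCyc W hΔ hp𝒪 hp2 hirr,
      s59e_bc_strictOrd _ _ _ p (s59b_rhoW_strictOrd_of_semistable hΔ hp2 hirr hss hmult), ?_⟩, ?_⟩
    · intro q hq hqS
      have hqp : q ≠ p := fun h => hqS (h ▸ hpSg)
      by_cases hgood : W.IsGoodPrimeFor q
      · exact s59e_bc_unram _ _ _ q (s59b_rhoW_unram hΔ hp2 q hq hqp hgood)
      · exact hun q hq hqp hgood hqS
    · intro q _ hq hqp
      exact s59e_bc_unip _ _ _ q (s59b_rhoW_unip hΔ hp2 hirr hss q hq hqp)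
  have hEx : ∀ {r : ℕ} (qv : Fin r → ℕ),
      Nonempty (GaloisRep.DeformationRingData 𝒪 (s59i_rhobarW W p hΔ 𝒪 hp𝒪) (fun _A _ _ _ ρ =>
        GaloisRep.strictOrdinaryCondition 𝒪 p
            (Rd.Smin ∪ ((∅ : Finset ℕ) ∪ Rd.Ed) ∪ Finset.univ.image qv) ρ ∧
          ∀ q ∈ Rd.Smin, q.Prime → q ≠ p → ρ.IsUnipotentOnInertiaAt q)) := fun qv =>
    s59q_exists_DQ_ord_TW p hp2 hp𝒪 (s59q_WRhobar W hΔ hp𝒪) Rd.habs Rd.Smin (∅ : Finset ℕ) Rd.Ed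
      Rd.hpSmin Rd.hmin inferInstance IsLocalRing.residue_surjective (s59q_WRho W hΔ hp𝒪)
      (hty (Rd.Smin ∪ ((∅ : Finset ℕ) ∪ Rd.Ed)) (Finset.mem_union_left _ Rd.hpSmin)
        (fun q hq hqp hb hqS => hunrW q hq hqp hb fun h => hqS (Finset.mem_union_left _ h)))
      (s59q_W_resid_self W hΔ hp𝒪) qv
  have hpB : p ∈ B := hB1 p hpP (Dvd.intro_left N rfl)
  -- the `R`-side
  obtain ⟨r, hr, H⟩ := s59q_inst_ord p hp2 hp𝒪 (s59i_rhobarW W p hΔ 𝒪 hp𝒪) Rd.habs Rd.hdet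
    Rd.hsplit Rd.hTW B Rd.Smin (∅ : Finset ℕ) Rd.Ed Rd.hpSmin Rd.hSmin Rd.hBS Rd.hES Rd.hBprime
    Rd.hEprime Rd.hmin Rd.hBunr Rd.hEunr Rd.hBE Rd.hcen Rd.Nd Rd.m Rd.e Rd.pr Rd.hprB Rd.hprE
    Rd.hBinj Rd.hEinj Rd.σq Rd.φq Rd.hσq Rd.hφq Rd.D.i2 Rd.D.hi2 Rd.P Rd.P' Rd.hPP' Rd.hP'P
    Rd.αE Rd.βE Rd.hαβ Rd.hαβ' Rd.hdiag
  choose qv hqv1 hqv2 hqv3 hqv4 using H
  -- the universal rings
  obtain ⟨D0⟩ : Nonempty (GaloisRep.DeformationRingData 𝒪 (s59i_rhobarW W p hΔ 𝒪 hp𝒪)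
      (fun _A _ _ _ ρ =>
        GaloisRep.strictOrdinaryCondition 𝒪 p (Rd.Smin ∪ ((∅ : Finset ℕ) ∪ Rd.Ed) ∪ (∅ : Finset ℕ)) ρ ∧
          ∀ q ∈ Rd.Smin, q.Prime → q ≠ p → ρ.IsUnipotentOnInertiaAt q)) := by
    have h := hEx (r := 0) Fin.elim0
    simpa only [Finset.univ_eq_empty, Finset.image_empty] using h
  let 𝒟 : ℕ → ∀ ⦃A : Type⦄ [CommRing A] [IsLocalRing A] [Algebra 𝒪 A], GaloisRepAdic A → Prop :=
    fun n _A _ _ _ ρ =>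
      GaloisRep.strictOrdinaryCondition 𝒪 p
          (Rd.Smin ∪ ((∅ : Finset ℕ) ∪ Rd.Ed) ∪ Finset.univ.image (qv n)) ρ ∧
        ∀ q ∈ Rd.Smin, q.Prime → q ≠ p → ρ.IsUnipotentOnInertiaAt q
  let DQ : ∀ n, GaloisRep.DeformationRingData 𝒪 (s59i_rhobarW W p hΔ 𝒪 hp𝒪) (𝒟 n) := fun n =>
    (hEx (qv n)).some
  choose bR hbR using fun n => s56a_exists_basisR (DQ n) Rd.Nd
  -- monotonicity of the type
  have hmono : ∀ (n : ℕ) {A : Type} [CommRing A] [IsLocalRing A] [Algebra 𝒪 A]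
      (ρ : GaloisRepAdic A),
      (GaloisRep.strictOrdinaryCondition 𝒪 p (Rd.Smin ∪ ((∅ : Finset ℕ) ∪ Rd.Ed) ∪ (∅ : Finset ℕ)) ρ ∧
        ∀ q ∈ Rd.Smin, q.Prime → q ≠ p → ρ.IsUnipotentOnInertiaAt q) → 𝒟 n ρ := by
    intro n A _ _ _ ρ h
    refine ⟨⟨h.1.1, h.1.2.1, fun q hq hqS => h.1.2.2 q hq fun hmem => hqS ?_⟩, h.2⟩
    rcases Finset.mem_union.mp hmem with h' | h'
    · exact Finset.mem_union_left _ h'
    · exact absurd h' (Finset.notMem_empty q)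
  -- the `T`-side
  obtain ⟨Bs, ⟨hk, hhk⟩, HL⟩ := HT D0 r
  let TL : ∀ n, s59e_TLevelL 𝒪 p n r (s59q_ZIdx Rd.m Rd.e) Bs.R Bs.M Bs.ρR Bs.d (qv n) (DQ n) :=
    fun n => (HL n (qv n) (hqv1 n) (hqv2 n) (hqv3 n) (DQ n)).some
  -- the bridge
  have hγ := fun n => hqv4 n (DQ n) (bR n) (hbR n) (T := (DQ n).R) (s56a_isTestAlgebra_R (DQ n))
    (AlgHom.id 𝒪 (DQ n).R) Function.surjective_id
  choose γ hγs hγ1 hγ2 hγ3 hγ4 using hγ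
  -- dimensions
  have hcard : Fintype.card (s59q_GIdx Rd.m Rd.e (r + Rd.m + Rd.e)) = r := by
    simp only [Fintype.card_sum, Fintype.card_prod, Fintype.card_fin, hm, he]
    omega
  haveI : IsDomain (MvPowerSeries (s59q_GIdx Rd.m Rd.e (r + Rd.m + Rd.e)) 𝒪) :=
    NoZeroDivisors.to_isDomain _
  have hdim : ringKrullDim (MvPowerSeries (s59q_GIdx Rd.m Rd.e (r + Rd.m + Rd.e)) 𝒪) ≤
      ringKrullDim (MvPowerSeries (s59q_ZIdx Rd.m Rd.e) (MvPowerSeries (Fin r) 𝒪)) := by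
    rw [s59i_dim_mvPowerSeries 𝒪, s59i_dim_mvPowerSeries (MvPowerSeries (Fin r) 𝒪),
      s59p_pmdim 𝒪 r, hcard]
    exact le_add_of_nonneg_right (by exact_mod_cast Nat.zero_le _)
  -- the unramified traces at the Taylor–Wiles primes
  have hunrQ : ∀ n i, s59i_cpTr D0.ρ ((TL n).σQ i) = 2 := by
    intro n i
    obtain ⟨A, hA, hσ⟩ := (TL n).hσQ i
    have hq := hqv2 n i
    have hnot : qv n i ∉ Rd.Smin ∪ ((∅ : Finset ℕ) ∪ Rd.Ed) ∪ (∅ : Finset ℕ) := by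
      intro hmem
      rcases Finset.mem_union.mp hmem with h' | h'
      · rcases Finset.mem_union.mp h' with h'' | h''
        · exact hq.2.1 (Rd.hSmin h'')
        · rcases Finset.mem_union.mp h'' with h3 | h3
          · exact absurd h3 (Finset.notMem_empty _)
          · exact hq.2.1 (Rd.hES h3)
      · exact absurd h' (Finset.notMem_empty _)
    exact s59e_Lmin_cpTr_one D0.ρ _ (D0.isOfType.1.2.2 (qv n i) hq.1 hnot A hA _ hσ)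
  -- `ker ν` is nil
  have hnil := s59f_FINL_absA p Rd.D.i2 Rd.D.hi2 D0 DQ Rd.Nd
    (s56a_tangentStable_ord 𝒪 p _ Rd.Smin) (fun n => hmono n D0.ρ D0.isOfType) r
    (MvPowerSeries (s59q_GIdx Rd.m Rd.e (r + Rd.m + Rd.e)) 𝒪) hdim γ hγs
    Bs.R Bs.hRres Bs.M Bs.ρR (fun n => hmono n Bs.ρR Bs.hρR) Bs.hresR Bs.ν Bs.hν Bs.hνs
    (s59t_frameA (s59q_ZIdx Rd.m Rd.e) (RingHom.ker (MvPowerSeries.constantCoeff (σ := Fin r) (R := 𝒪))))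
    (s59e_L_frameA_CX (s59q_ZIdx Rd.m Rd.e)) (s59e_L_frameA_X (s59q_ZIdx Rd.m Rd.e))
    (s59e_L_frameA_le (s59q_ZIdx Rd.m Rd.e))
    (fun n => s59t_frameJ (s59q_ZIdx Rd.m Rd.e) (s59t_JH 𝒪 p n r))
    (fun n => s59t_frameJ_JH_le (s59q_ZIdx Rd.m Rd.e) hp2 hp𝒪 n r)
    (fun n => (TL n).T') (fun n => (TL n).T) (fun n => (TL n).θ) (fun n => (TL n).hθ)
    (fun n => (TL n).L0) Bs.d (fun n => (TL n).hd) (fun n => (TL n).std) (fun n => (TL n).hstd)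
    (fun n => (TL n).hψ𝒪) (fun n => (TL n).uu) (fun n => (TL n).huu) (fun n => (TL n).hgen)
    (fun n => (TL n).hstdX) (fun n => (TL n).hstdz) (fun n => (TL n).σQ) (fun n => (TL n).hC8)
    hunrQ (fun n => (TL n).hτ)
  -- the point of `ρ_W ⊗ 𝒪`
  haveI hlid : IsLocalHom (algebraMap 𝒪 𝒪) := ⟨fun a h => h⟩
  have h𝒟W : GaloisRep.strictOrdinaryCondition 𝒪 p
      (Rd.Smin ∪ ((∅ : Finset ℕ) ∪ Rd.Ed) ∪ (∅ : Finset ℕ)) (s59q_WRho W hΔ hp𝒪) ∧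
      ∀ q ∈ Rd.Smin, q.Prime → q ≠ p → (s59q_WRho W hΔ hp𝒪).IsUnipotentOnInertiaAt q := by
    refine ⟨⟨s59q_W_detCyc W hΔ hp𝒪 hp2 hirr,
      s59e_bc_strictOrd _ _ _ p (s59b_rhoW_strictOrd_of_semistable hΔ hp2 hirr hss hmult), ?_⟩, ?_⟩
    · intro q hq hqS
      have hqp : q ≠ p := by
        rintro rfl
        exact hqS (Finset.mem_union_left _ (Finset.mem_union_left _ Rd.hpSmin))
      by_cases hgood : W.IsGoodPrimeFor q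
      · exact s59e_bc_unram _ _ _ q (s59b_rhoW_unram hΔ hp2 q hq hqp hgood)
      · exact hunrW q hq hqp hgood fun h =>
          hqS (Finset.mem_union_left _ (Finset.mem_union_left _ h))
    · intro q _ hq hqp
      exact s59e_bc_unip _ _ _ q (s59b_rhoW_unip hΔ hp2 hirr hss q hq hqp)
  have hfrobW : ∀ ℓ : ℕ, ℓ.Prime → ℓ ∉ B → ∀ P : ValuationSubring (AlgebraicClosure ℚ),
      P.LiesOverPrime ℓ → ∀ σ : Γℚ, P.IsFrobeniusAt σ ℓ →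
        LinearMap.charpoly ((s59q_WRho W hΔ hp𝒪).ρ σ) =
          X ^ 2 - C (((W.apOfModel ℓ : ℤ) : 𝒪)) * X + C ((ℓ : 𝒪)) := by
    intro ℓ hℓ hℓB P hP σ hσ
    have hℓp : ℓ ≠ p := fun h => hℓB (h ▸ hpB)
    have hgood : W.IsGoodPrimeFor ℓ := by
      by_contra hbad
      exact hℓB (hB2 ℓ hℓ hbad)
    rw [s59e_bc_charpoly, s59b_rhoW_charpoly hΔ hp2 hirr ℓ hℓ hgood hℓp P hP σ hσ]
    simp
  have hresW : (s59q_WRho W hΔ hp𝒪).residual.IsEquiv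
      ((s59i_rhobarW W p hΔ 𝒪 hp𝒪).baseChangeAlong (ResidueField.map (algebraMap 𝒪 𝒪))) :=
    s59b_hres_of_frob p hp2 hp𝒪 (s59q_WRho W hΔ hp𝒪) Rd.habs B
      (fun ℓ => ((W.apOfModel ℓ : ℤ) : 𝒪)) (fun ℓ => ((W.apOfModel ℓ : ℤ) : 𝒪)) hfrobW
      (fun ℓ _ _ => by
        show ((W.apOfModel ℓ : ℤ) : 𝒪) - ((W.apOfModel ℓ : ℤ) : 𝒪) ∈ maximalIdeal 𝒪
        rw [sub_self]
        exact Ideal.zero_mem _)
      (s59i_rhobarW W p hΔ 𝒪 hp𝒪)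
      (fun ℓ hℓ hℓS A hA σ hσ =>
        s59e_rhobarW_charpoly_frob hΔ hp2 hirr hp𝒪 B hpB hB2 ℓ hℓ hℓS A hA σ hσ)
  obtain ⟨x, ⟨hx, ex⟩, -⟩ := D0.universal 𝒪 (IsLocalRing.residue_surjective) (s59q_WRho W hΔ hp𝒪)
    h𝒟W hresW
  have hxtr : ∀ g, x (s59i_cpTr D0.ρ g) = s59i_cpTr (s59q_WRho W hΔ hp𝒪) g := fun g =>
    s59e_Lmin_point_trace D0 _ (x : D0.R →+* 𝒪) hx ex g
  -- the point factors through `Bs.R`
  obtain ⟨χ, hχ⟩ := s59f_FINL_point (Bs.ν : D0.R →+* Bs.R) Bs.hνs hnil (x : D0.R →+* 𝒪)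
  refine ⟨χ.comp hk, fun ℓ hℓ hℓN hℓB => ?_⟩
  obtain ⟨A, g, hA, hg⟩ := Fermat.Agent.Lib.Frobenius.exists_isFrobeniusAt ℓ hℓ
  have h1 : s59i_cpTr Bs.ρR g = hk (heckeAlgebra.T hℓ hℓN hℓB) :=
    s59i_cpTr_of_charpoly Bs.ρR g _ _ (hhk ℓ hℓ hℓN hℓB A hA g hg)
  have h2 : s59i_cpTr (s59q_WRho W hΔ hp𝒪) g = ((W.apOfModel ℓ : ℤ) : 𝒪) :=
    s59i_cpTr_of_charpoly _ g _ _
      (hfrobW ℓ hℓ (fun h => hℓB (Finset.mem_coe.mpr h)) A hA g hg)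
  rw [RingHom.comp_apply, ← h1, ← Bs.hν g]
  have h3 := hχ (s59i_cpTr D0.ρ g)
  rw [RingHom.coe_coe] at h3
  rw [h3, RingHom.coe_coe, hxtr g, h2]

/-- **[PATCH-FLR], STRICT case (`ρ̄_W` très ramifié at `p`), at a base level `N₀` with `p ∣ N₀`** (no hypothesis on the bad
primes of `W`; twin of helper4's `s59f_FLR_flat`). -/
theorem s59q_pf_FLR_strict (p : ℕ) [Fact p.Prime] (hp35 : p = 3 ∨ p = 5) (hp5 : 5 ≤ p)
    (W : WeierstrassCurve ℤ) (hΔ : W.Δ ≠ 0) (hss : W.IsSemistableModel)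
    (hirr : W.ModRepIsIrreducible p)
    (hpeu : ¬ (W.map (Int.castRingHom ℚ)).IsPeuRamifieeAt p p)
    (N₀ : ℕ) [NeZero N₀] (hsq : Squarefree N₀) (hpN : p ∣ N₀)
    (hres : W.IsResiduallyModularOfLevel p N₀)
    (hNtype : ∀ q : ℕ, q.Prime → q ≠ p → q ∣ N₀ → ¬ s59_Unr W p q ∨
      (W.IsGoodPrimeFor q ∧ ¬ p ∣ q ^ 2 - 1 ∧
        ¬ (p : ℤ) ∣ (W.apOfModel q : ℤ) ^ 2 - ((q : ℤ) + 1) ^ 2))
    (HT : s59q_pf_TPkgFLR p W hΔ N₀) :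
    ∃ (N : ℕ) (_ : NeZero N) (B : Finset ℕ) (𝒪 : Type) (_ : CommRing 𝒪) (_ : IsDomain 𝒪)
      (_ : CharZero 𝒪) (χ : heckeAlgebra N 2 (↑B : Set ℕ) →+* 𝒪),
      Squarefree N ∧ p ∣ N ∧
      ∀ (ℓ : ℕ) (hℓ : ℓ.Prime) (hℓN : ¬ ℓ ∣ N) (hℓB : ℓ ∉ (↑B : Set ℕ)),
        χ (heckeAlgebra.T hℓ hℓN hℓB) = ((W.apOfModel ℓ : ℤ) : 𝒪) := by
  classical
  have hpp : p.Prime := Fact.out
  have hp2 : p ≠ 2 := by omega
  have hN0 : N₀ ≠ 0 := NeZero.ne N₀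
  have hONE : 1 < N₀ := lt_of_lt_of_le hpp.one_lt (Nat.le_of_dvd (Nat.pos_of_ne_zero hN0) hpN)
  have hbadp : (p : ℤ) ∣ W.Δ := by
    by_contra hgood
    apply hpeu
    unfold WeierstrassCurve.IsPeuRamifieeAt
    rw [WeierstrassCurve.map_Δ]
    have h1 : padicValRat p ((Int.castRingHom ℚ) W.Δ) = padicValInt p W.Δ := by
      rw [eq_intCast]
      exact padicValRat.of_int
    rw [h1, padicValInt.eq_zero_of_not_dvd hgood]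
    exact dvd_zero _
  have hc4p : ¬ (p : ℤ) ∣ W.c₄ := hss p hpp hbadp
  have hmult : ¬ W.IsGoodPrimeFor p := fun hg => hg hbadp
  -- the coefficient ring
  obtain ⟨𝒪, i1, i2, i3, i4, i5, i6, i7, i8, i9, hp𝒪, -, hsplit⟩ :=
    s59q_exists_coeffRing_padic p 1 one_pos
  -- the raising primes
  set Rs : Finset ℕ := W.Δ.natAbs.primeFactors.filter (fun q => q ≠ p ∧
    (s59q_WRhobar W hΔ hp𝒪).IsUnramifiedAt q ∧ ¬ (s59q_WRho W hΔ hp𝒪).IsUnramifiedAt q)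
    with hRsdef
  have hRs : ∀ q ∈ Rs, q.Prime ∧ q ≠ p ∧ ¬ q ∣ N₀ ∧ ¬ W.IsGoodPrimeFor q ∧
      (s59q_WRhobar W hΔ hp𝒪).IsUnramifiedAt q ∧
      ¬ (s59q_WRho W hΔ hp𝒪).IsUnramifiedAt q := by
    intro q hq
    obtain ⟨hqΔ, hqp, hU, hram⟩ := Finset.mem_filter.mp hq
    rw [Nat.mem_primeFactors] at hqΔ
    have hbadq : ¬ W.IsGoodPrimeFor q := fun hg => hg (Int.natCast_dvd.mpr hqΔ.2.1)
    refine ⟨hqΔ.1, hqp, ?_, hbadq, hU, hram⟩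
    intro hqN
    rcases hNtype q hqΔ.1 hqp hqN with h | ⟨hg, -, -⟩
    · exact h ((s59q_W_unram_iff W hΔ hp𝒪 q).mp hU)
    · exact hbadq hg
  have hunrW : ∀ q : ℕ, q.Prime → q ∉ s59q_WSmin W hΔ hp𝒪 ∪ Rs →
      (s59q_WRho W hΔ hp𝒪).IsUnramifiedAt q := by
    intro q hq hqS
    have hqSmin : q ∉ s59q_WSmin W hΔ hp𝒪 := fun h => hqS (Finset.mem_union_left _ h)
    have hqRs : q ∉ Rs := fun h => hqS (Finset.mem_union_right _ h)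
    have hqp : q ≠ p := fun h => hqSmin (h ▸ s59q_WSmin_p_mem W hΔ hp𝒪)
    by_cases hgood : W.IsGoodPrimeFor q
    · exact s59e_bc_unram _ _ _ q (s59b_rhoW_unram hΔ hp2 q hq hqp hgood)
    · by_contra hram
      apply hqRs
      refine Finset.mem_filter.mpr ⟨Nat.mem_primeFactors.mpr ⟨hq,
        Int.natCast_dvd.mp (s59q_W_dvd_disc_of_bad W q hq hgood), Int.natAbs_ne_zero.mpr hΔ⟩,
        hqp, ?_, hram⟩
      by_contra hU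
      exact hqSmin ((s59q_WSmin_hmin W hΔ hp𝒪 hp2 q hq hqp).mpr hU)
  -- the base level data
  set B : Finset ℕ := (N₀ * p).primeFactors ∪ W.Δ.natAbs.primeFactors with hB
  have hB1 : ∀ r : ℕ, r.Prime → r ∣ N₀ * p → r ∈ B := fun r hr hd =>
    Finset.mem_union_left _ (Nat.mem_primeFactors.mpr ⟨hr, hd, Nat.mul_ne_zero hN0 hpp.ne_zero⟩)
  have hB2Δ : ∀ r : ℕ, r.Prime → (r : ℤ) ∣ W.Δ → r ∈ B := fun r hr hd =>
    Finset.mem_union_right _ (Nat.mem_primeFactors.mpr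
      ⟨hr, Int.natCast_dvd.mp hd, Int.natAbs_ne_zero.mpr hΔ⟩)
  have hB2 : ∀ r : ℕ, r.Prime → ¬ W.IsGoodPrimeFor r → r ∈ B := by
    intro r hr hbad'
    refine hB2Δ r hr ?_
    by_contra h
    exact hbad' h
  have hpB : p ∈ B := hB1 p hpp (Dvd.intro_left N₀ rfl)
  have hocc := s59e_Lmin_levelOcc W p N₀ B hB1 hB2 hres
  obtain ⟨Rd, hSmin, hm, he⟩ := s59e_Lmin_RData W hΔ hp𝒪 hp35 hss hirr hsplit N₀ B hpB hB2Δ
    (fun q hq hqN => by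
      by_cases hqp : q = p
      · subst hqp
        exact Or.inl (s59q_WSmin_p_mem W hΔ hp𝒪)
      rcases hNtype q hq hqp hqN with h | ⟨hg, h1, h2⟩
      · exact Or.inl ((s59q_WSmin_hmin W hΔ hp𝒪 hp2 q hq hqp).mpr fun hunr =>
          h ((s59q_W_unram_iff W hΔ hp𝒪 q).mp hunr))
      · exact Or.inr (s59e_Lmin_E2 W hΔ hp𝒪 hp2 hirr q hq hqp hg h1 h2))
  by_cases hne : Rs.Nonempty
  · -- level raising: a universal ring of minimal type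
    obtain ⟨Dm₀⟩ := s59q_W_existDQ_S W p hΔ hp2 hirr N₀ B hB1 hB2 hocc 𝒪 hp𝒪 Rd.habs hsq hpN
      hbadp hc4p hpeu (∅ : Finset ℕ) Rd 0 Fin.elim0
    have hEd : Rd.Ed = ∅ := by
      haveI : IsEmpty (Fin Rd.e) := by rw [he]; infer_instance
      rw [← Rd.hprE, Finset.univ_eq_empty, Finset.image_empty]
    have hsub : Rd.Smin ∪ ((∅ : Finset ℕ) ∪ Rd.Ed) ∪ Finset.univ.image (Fin.elim0 : Fin 0 → ℕ) ⊆
        s59q_WSmin W hΔ hp𝒪 := by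
      rw [hEd, hSmin, Finset.univ_eq_empty, Finset.image_empty, Finset.union_empty,
        Finset.union_empty, Finset.union_empty]
    have hDm : Nonempty (GaloisRep.DeformationRingData 𝒪 (s59i_rhobarW W p hΔ 𝒪 hp𝒪)
        (fun _A _ _ _ ρ => GaloisRep.strictOrdinaryCondition 𝒪 p (s59q_WSmin W hΔ hp𝒪) ρ ∧
          ∀ q ∈ s59q_WSmin W hΔ hp𝒪 ∪ Rs, q.Prime → q ≠ p → ρ.IsUnipotentOnInertiaAt q)) := by
      refine s59q_exists_DQ_ord p hp2 hp𝒪 (s59i_rhobarW W p hΔ 𝒪 hp𝒪) Rd.habs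
        (s59q_WSmin W hΔ hp𝒪) (s59q_WSmin W hΔ hp𝒪) (s59q_WSmin W hΔ hp𝒪 ∪ Rs)
        (Finset.Subset.refl _) (s59q_WSmin_p_mem W hΔ hp𝒪) ?_ inferInstance
        Dm₀.residue_surjective Dm₀.ρ ⟨s59q_ordCondition_mono p hsub Dm₀.ρ Dm₀.isOfType.1, ?_⟩
        Dm₀.residual_isEquiv
      · intro q hq hqS
        have hqp : q ≠ p := fun h => hqS (h ▸ s59q_WSmin_p_mem W hΔ hp𝒪)
        by_contra hram
        exact hqS ((s59q_WSmin_hmin W hΔ hp𝒪 hp2 q hq hqp).mpr hram)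
      · intro q hq hqP hqp
        rcases Finset.mem_union.mp hq with h | h
        · exact Dm₀.isOfType.2 q (hSmin ▸ h) hqP hqp
        · refine s59f_unip_of_unram Dm₀.ρ q (Dm₀.isOfType.1.2.2 q hqP fun hmem => ?_)
          have h1 := hsub hmem
          exact ((s59q_WSmin_hmin W hΔ hp𝒪 hp2 q hqP hqp).mp h1) (hRs q h).2.2.2.2.1
    obtain ⟨N, iN, χ, h1, h2, h3⟩ := s59q_pf_FLR_W_core p hp35 W hΔ hss hirr hmult N₀ hN0 hsq hpN 𝒪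
      hp𝒪 hsplit Rs hne hRs hunrW hDm HT
    exact ⟨N, iN, _, 𝒪, inferInstance, inferInstance, inferInstance, χ, h1, h2, h3⟩
  · -- the minimal case
    rw [Finset.not_nonempty_iff_eq_empty] at hne
    obtain ⟨χ, hχ⟩ := s59q_pf_Lmin_abs_unr p hp35 W hΔ N₀ B hss hirr hB1 hB2 hmult 𝒪
      hp𝒪 Rd hm he
      (fun q hq hqp hbad hqS => hunrW q hq (by
        rw [hne, Finset.union_empty, ← hSmin]
        exact hqS))
      (fun D0 r => s59q_sl_TPkgLH p hp5 W hΔ N₀ (∅ : Finset ℕ) B hirr hsq hpN hbadp hc4p hpeu hB1 hB2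
        hocc hONE 𝒪 hp𝒪 Rd D0 r (s59q_ZIdx Rd.m Rd.e))
    exact ⟨N₀, inferInstance, B, 𝒪, inferInstance, inferInstance, inferInstance, χ, hsq, hpN, hχ⟩

/-- **[PATCH-FLR], STRICT case, in the shape of `s59g_HeckePt W p`** (`ρ̄_W` très ramifié at `p`; ANY squarefree minimal level `M`;
NO hypothesis on the bad primes of `W`), over the `T`-side contract at the base level `M` (if `p ∣ M`) or `M p` (if `p ∤ M`).
Twin of helper4's `s59f_FLR_heckePt`; no auxiliary prime is needed (the strict minimal `T`-side is `h23`-free). -/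
theorem s59q_pf_FLR_heckePt (p : ℕ) [Fact p.Prime] (hp35 : p = 3 ∨ p = 5) (hp5 : 5 ≤ p)
    (W : WeierstrassCurve ℤ) (hΔ : W.Δ ≠ 0) (hss : W.IsSemistableModel)
    (hirr : W.ModRepIsIrreducible p)
    (hpeu : ¬ (W.map (Int.castRingHom ℚ)).IsPeuRamifieeAt p p)
    (M : ℕ) (hM0 : 0 < M) (hsq : Squarefree M)
    (hram : ∀ q : ℕ, q.Prime → q ≠ p → q ∣ M → ¬ s59_Unr W p q)
    (hres : W.IsResiduallyModularOfLevel p M)
    (HT : ∀ N₀ : ℕ, M ∣ N₀ → Squarefree N₀ → p ∣ N₀ →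
      W.IsResiduallyModularOfLevel p N₀ →
      (∀ q : ℕ, q.Prime → q ≠ p → q ∣ N₀ → ¬ s59_Unr W p q ∨
        (W.IsGoodPrimeFor q ∧ ¬ p ∣ q ^ 2 - 1 ∧
          ¬ (p : ℤ) ∣ (W.apOfModel q : ℤ) ^ 2 - ((q : ℤ) + 1) ^ 2)) →
      s59q_pf_TPkgFLR p W hΔ N₀) :
    ∃ (N : ℕ) (_ : NeZero N) (B : Finset ℕ) (𝒪 : Type) (_ : CommRing 𝒪) (_ : IsDomain 𝒪)
      (_ : CharZero 𝒪) (χ : CuspForm.heckeAlgebra N 2 (↑B : Set ℕ) →+* 𝒪),
      ¬ p ^ 2 ∣ N ∧ (∀ q : ℕ, q.Prime → ¬ q ^ 3 ∣ N) ∧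
      ∀ (ℓ : ℕ) (hℓ : ℓ.Prime) (hℓN : ¬ ℓ ∣ N) (hℓB : ℓ ∉ (↑B : Set ℕ)),
        χ (CuspForm.heckeAlgebra.T hℓ hℓN hℓB) = ((W.apOfModel ℓ : ℤ) : 𝒪) := by
  have hpp : p.Prime := Fact.out
  -- the shape of the conclusion at a squarefree level
  have key : (∃ (N : ℕ) (_ : NeZero N) (B : Finset ℕ) (𝒪 : Type) (_ : CommRing 𝒪) (_ : IsDomain 𝒪)
        (_ : CharZero 𝒪) (χ : heckeAlgebra N 2 (↑B : Set ℕ) →+* 𝒪),
        Squarefree N ∧ p ∣ N ∧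
        ∀ (ℓ : ℕ) (hℓ : ℓ.Prime) (hℓN : ¬ ℓ ∣ N) (hℓB : ℓ ∉ (↑B : Set ℕ)),
          χ (heckeAlgebra.T hℓ hℓN hℓB) = ((W.apOfModel ℓ : ℤ) : 𝒪)) →
      ∃ (N : ℕ) (_ : NeZero N) (B : Finset ℕ) (𝒪 : Type) (_ : CommRing 𝒪) (_ : IsDomain 𝒪)
        (_ : CharZero 𝒪) (χ : CuspForm.heckeAlgebra N 2 (↑B : Set ℕ) →+* 𝒪),
        ¬ p ^ 2 ∣ N ∧ (∀ q : ℕ, q.Prime → ¬ q ^ 3 ∣ N) ∧
        ∀ (ℓ : ℕ) (hℓ : ℓ.Prime) (hℓN : ¬ ℓ ∣ N) (hℓB : ℓ ∉ (↑B : Set ℕ)),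
          χ (CuspForm.heckeAlgebra.T hℓ hℓN hℓB) = ((W.apOfModel ℓ : ℤ) : 𝒪) := by
    rintro ⟨N, iN, B, 𝒪, i1, i2, i3, χ, hNsq, hpN, hχ⟩
    refine ⟨N, iN, B, 𝒪, i1, i2, i3, χ, ?_, ?_, hχ⟩
    · intro h
      rw [pow_two] at h
      exact hpp.one_lt.ne' (Nat.isUnit_iff.mp (hNsq p h))
    · intro q hq h
      have h2 : q * q ∣ N := dvd_trans ⟨q, by ring⟩ h
      exact hq.not_isUnit (hNsq q h2)
  by_cases hpM : p ∣ M
  · haveI : NeZero M := ⟨hM0.ne'⟩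
    have hNtype : ∀ q : ℕ, q.Prime → q ≠ p → q ∣ M → ¬ s59_Unr W p q ∨
        (W.IsGoodPrimeFor q ∧ ¬ p ∣ q ^ 2 - 1 ∧
          ¬ (p : ℤ) ∣ (W.apOfModel q : ℤ) ^ 2 - ((q : ℤ) + 1) ^ 2) :=
      fun q hq hqp hqM => Or.inl (hram q hq hqp hqM)
    exact key (s59q_pf_FLR_strict p hp35 hp5 W hΔ hss hirr hpeu M hsq hpM hres hNtype
      (HT M dvd_rfl hsq hpM hres hNtype))
  · have hcop : M.Coprime p := (Nat.Coprime.symm ((Nat.Prime.coprime_iff_not_dvd hpp).mpr hpM))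
    have hNsq : Squarefree (M * p) := (Nat.squarefree_mul hcop).mpr ⟨hsq, hpp.squarefree⟩
    haveI : NeZero (M * p) := ⟨Nat.mul_ne_zero hM0.ne' hpp.ne_zero⟩
    have hres' : W.IsResiduallyModularOfLevel p (M * p) :=
      s59v_resMod_mono (dvd_mul_right M p) hNsq hres
    have hNtype : ∀ q : ℕ, q.Prime → q ≠ p → q ∣ M * p → ¬ s59_Unr W p q ∨
        (W.IsGoodPrimeFor q ∧ ¬ p ∣ q ^ 2 - 1 ∧
          ¬ (p : ℤ) ∣ (W.apOfModel q : ℤ) ^ 2 - ((q : ℤ) + 1) ^ 2) := by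
      intro q hq hqp hqN
      rcases (Nat.Prime.dvd_mul hq).mp hqN with h | h
      · exact Or.inl (hram q hq hqp h)
      · exact absurd ((Nat.prime_dvd_prime_iff_eq hq hpp).mp h) hqp
    exact key (s59q_pf_FLR_strict p hp35 hp5 W hΔ hss hirr hpeu (M * p) hNsq (dvd_mul_left p M)
      hres' hNtype (HT (M * p) (dvd_mul_right M p) hNsq (dvd_mul_left p M) hres' hNtype))

end Fermat.Agent.Lib.S59
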