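/-
PROGRAMME (R2) = S59, [STRICT-p], node [PATCH-FLR] at `p = 3` (helper6, prefix `s59q_sf3_`): **THE TOP OF THE STRICT (très ramifié)
LEVEL-RAISING PATCH AT AN EVEN LEVEL, `p ∈ {3, 5}`, (E2′)-TOLERANT** — scripted twin of QSFlrW5.lean (`s59q_pf_Lmin_abs_unr`,
`s59q_pf_FLR_strict`, `s59q_pf_FLR_heckePt`) with `5 ≤ p` replaced by `2 ∣ N₀`, the tolerated primes of the level in the form `s59g_E2 W p q`,
the `R`-side datum at the reduced level `N' = ∏ {q ∣ N₀ : q = p ∨ ρ̄ ramified at q}` (`hE`), [EXIST-DQ] by `s59q_W_existDQ_SE` (Q3SHyp.lean),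
and the strict minimal `T`-side `s59q_sl3e_TPkgLH` (Q3SLEPkgH.lean).  The strict contract `s59q_pf_TPkgFLR p W hΔ N₀` and the core
`s59q_pf_FLR_W_core` (QSFlrW4.lean) are used AS THEY ARE.

* `s59q_sf3_Lmin_abs_unr`, **`s59q_sf3_FLR_strict`**, **`s59q_sf3_FLR_heckePt`**.
-/
import Mathlib
import Fermat.Agent.Lib.S59.QSFlrW5
import Fermat.Agent.Lib.S59.Q3SLEMin
import Fermat.Agent.Lib.S59.Q3SHyp

set_option autoImplicit false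
set_option linter.unusedSectionVars false
set_option linter.unusedVariables false
set_option linter.style.haveILetI false
set_option maxHeartbeats 3200000
set_option synthInstance.maxHeartbeats 400000

noncomputable section

namespace Fermat.Agent.Lib.S59

open IsLocalRing CuspForm Polynomial
open Fermat.Agent.Lib.S53 (matOf matOfRes NormData)
open Fermat.Agent.Lib.Deform (IsTestAlgebra)
open Fermat.Agent.Lib.S56 Fermat.Agent.Lib.S44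

local notation "Γℚ" => (AlgebraicClosure ℚ ≃ₐ[ℚ] AlgebraicClosure ℚ)

/-- **[PATCH-min], STRICT-ORDINARY type, over an abstract `T`-side** — `s59q_sl_Lmin_abs` (QSLMinA.lean) with the hypothesis `hbadS`
(every bad prime `≠ p` of `W` is in `Σ_min`) weakened to `hunrW` (`ρ_W ⊗ 𝒪` is unramified at the bad primes outside `Σ_min`); twin of
helper4's `s59f_Lmin_abs_unr`; here the `R`-side datum `Rd` lives at an arbitrary level `N'` (the proof never uses it). -/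
theorem s59q_sf3_Lmin_abs_unr (p : ℕ) [Fact p.Prime] (hp35 : p = 3 ∨ p = 5) (W : WeierstrassCurve ℤ) (hΔ : W.Δ ≠ 0)
    (N : ℕ) [NeZero N] (B : Finset ℕ)
    (hss : W.IsSemistableModel) (hirr : W.ModRepIsIrreducible p)
    (hB1 : ∀ r : ℕ, r.Prime → r ∣ N * p → r ∈ B)
    (hB2 : ∀ r : ℕ, r.Prime → ¬ W.IsGoodPrimeFor r → r ∈ B)
    (hmult : ¬ W.IsGoodPrimeFor p)
    (𝒪 : Type) [CommRing 𝒪] [IsDomain 𝒪] [IsDiscreteValuationRing 𝒪]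
    [IsAdicComplete (maximalIdeal 𝒪) 𝒪] [Finite (ResidueField 𝒪)] [CharZero 𝒪]
    [Algebra ℤ_[p] 𝒪] [Module.Finite ℤ_[p] 𝒪]
    (hp𝒪 : ((p : ℕ) : 𝒪) ∈ maximalIdeal 𝒪)
    (N' : ℕ) (Rd : s59i_RData p N' (s59i_rhobarW W p hΔ 𝒪 hp𝒪) B (∅ : Finset ℕ))
    (hm : Rd.m = 0) (he : Rd.e = 0)
    (hunrW : ∀ q : ℕ, q.Prime → q ≠ p → ¬ W.IsGoodPrimeFor q → q ∉ Rd.Smin →
      (s59q_WRho W hΔ hp𝒪).IsUnramifiedAt q)
    (HT : ∀ (D0 : GaloisRep.DeformationRingData 𝒪 (s59i_rhobarW W p hΔ 𝒪 hp𝒪) (fun _A _ _ _ ρ =>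
        GaloisRep.strictOrdinaryCondition 𝒪 p (Rd.Smin ∪ ((∅ : Finset ℕ) ∪ Rd.Ed) ∪ (∅ : Finset ℕ)) ρ ∧
          ∀ q ∈ Rd.Smin, q.Prime → q ≠ p → ρ.IsUnipotentOnInertiaAt q)) (r : ℕ),
      ∃ Bs : s59e_TBaseL 𝒪 D0,
        (∃ hk : heckeAlgebra N 2 (↑B : Set ℕ) →+* Bs.R,
          ∀ (ℓ : ℕ) (hℓ : ℓ.Prime) (hℓN : ¬ ℓ ∣ N) (hℓB : ℓ ∉ (↑B : Set ℕ)),
          ∀ A : ValuationSubring (AlgebraicClosure ℚ), A.LiesOverPrime ℓ →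
          ∀ g : Γℚ, A.IsFrobeniusAt g ℓ →
            LinearMap.charpoly (Bs.ρR.ρ g) =
              X ^ 2 - C (hk (heckeAlgebra.T hℓ hℓN hℓB)) * X + C ((ℓ : Bs.R))) ∧
        ∀ (n : ℕ) (qv : Fin r → ℕ), Function.Injective qv →
          (∀ i, (qv i).Prime ∧ qv i ∉ B ∧ p ^ (n + 1) ∣ qv i - 1) →
          (∀ i, ∀ A : ValuationSubring (AlgebraicClosure ℚ), A.LiesOverPrime (qv i) →
            ∀ φ : Γℚ, A.IsFrobeniusAt φ (qv i) →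
              ∃ α β : ResidueField 𝒪, α ≠ β ∧
                LinearMap.charpoly ((s59i_rhobarW W p hΔ 𝒪 hp𝒪).ρ φ) = (X - C α) * (X - C β)) →
          ∀ DQ : GaloisRep.DeformationRingData 𝒪 (s59i_rhobarW W p hΔ 𝒪 hp𝒪) (fun _A _ _ _ ρ =>
            GaloisRep.strictOrdinaryCondition 𝒪 p
                (Rd.Smin ∪ ((∅ : Finset ℕ) ∪ Rd.Ed) ∪ Finset.univ.image qv) ρ ∧
              ∀ q ∈ Rd.Smin, q.Prime → q ≠ p → ρ.IsUnipotentOnInertiaAt q),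
            Nonempty (s59e_TLevelL 𝒪 p n r (s59q_ZIdx Rd.m Rd.e) Bs.R Bs.M Bs.ρR Bs.d qv DQ)) :
    ∃ χ : heckeAlgebra N 2 (↑B : Set ℕ) →+* 𝒪,
      ∀ (ℓ : ℕ) (hℓ : ℓ.Prime) (hℓN : ¬ ℓ ∣ N) (hℓB : ℓ ∉ (↑B : Set ℕ)),
        χ (heckeAlgebra.T hℓ hℓN hℓB) = ((W.apOfModel ℓ : ℤ) : 𝒪) := by
  classical
  have hpP : p.Prime := Fact.out
  have hp2 : p ≠ 2 := by rcases hp35 with rfl | rfl <;> norm_num
  have hty : ∀ (Sg : Finset ℕ), p ∈ Sg →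
      (∀ q : ℕ, q.Prime → q ≠ p → ¬ W.IsGoodPrimeFor q → q ∉ Sg →
        (s59q_WRho W hΔ hp𝒪).IsUnramifiedAt q) →
      GaloisRep.strictOrdinaryCondition 𝒪 p Sg (s59q_WRho W hΔ hp𝒪) ∧
        ∀ q ∈ Rd.Smin, q.Prime → q ≠ p → (s59q_WRho W hΔ hp𝒪).IsUnipotentOnInertiaAt q := by
    intro Sg hpSg hun
    refine ⟨⟨s59q_W_detCyc W hΔ hp𝒪 hp2 hirr,
      s59e_bc_strictOrd _ _ _ p (s59b_rhoW_strictOrd_of_semistable hΔ hp2 hirr hss hmult), ?_⟩, ?_⟩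
    · intro q hq hqS
      have hqp : q ≠ p := fun h => hqS (h ▸ hpSg)
      by_cases hgood : W.IsGoodPrimeFor q
      · exact s59e_bc_unram _ _ _ q (s59b_rhoW_unram hΔ hp2 q hq hqp hgood)
      · exact hun q hq hqp hgood hqS
    · intro q _ hq hqp
      exact s59e_bc_unip _ _ _ q (s59b_rhoW_unip hΔ hp2 hirr hss q hq hqp)
  have hEx : ∀ {r : ℕ} (qv : Fin r → ℕ),
      Nonempty (GaloisRep.DeformationRingData 𝒪 (s59i_rhobarW W p hΔ 𝒪 hp𝒪) (fun _A _ _ _ ρ =>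
        GaloisRep.strictOrdinaryCondition 𝒪 p
            (Rd.Smin ∪ ((∅ : Finset ℕ) ∪ Rd.Ed) ∪ Finset.univ.image qv) ρ ∧
          ∀ q ∈ Rd.Smin, q.Prime → q ≠ p → ρ.IsUnipotentOnInertiaAt q)) := fun qv =>
    s59q_exists_DQ_ord_TW p hp2 hp𝒪 (s59q_WRhobar W hΔ hp𝒪) Rd.habs Rd.Smin (∅ : Finset ℕ) Rd.Ed
      Rd.hpSmin Rd.hmin inferInstance IsLocalRing.residue_surjective (s59q_WRho W hΔ hp𝒪)
      (hty (Rd.Smin ∪ ((∅ : Finset ℕ) ∪ Rd.Ed)) (Finset.mem_union_left _ Rd.hpSmin)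
        (fun q hq hqp hb hqS => hunrW q hq hqp hb fun h => hqS (Finset.mem_union_left _ h)))
      (s59q_W_resid_self W hΔ hp𝒪) qv
  have hpB : p ∈ B := hB1 p hpP (Dvd.intro_left N rfl)
  -- the `R`-side
  obtain ⟨r, hr, H⟩ := s59q_inst_ord p hp2 hp𝒪 (s59i_rhobarW W p hΔ 𝒪 hp𝒪) Rd.habs Rd.hdet
    Rd.hsplit Rd.hTW B Rd.Smin (∅ : Finset ℕ) Rd.Ed Rd.hpSmin Rd.hSmin Rd.hBS Rd.hES Rd.hBprime
    Rd.hEprime Rd.hmin Rd.hBunr Rd.hEunr Rd.hBE Rd.hcen Rd.Nd Rd.m Rd.e Rd.pr Rd.hprB Rd.hprE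
    Rd.hBinj Rd.hEinj Rd.σq Rd.φq Rd.hσq Rd.hφq Rd.D.i2 Rd.D.hi2 Rd.P Rd.P' Rd.hPP' Rd.hP'P
    Rd.αE Rd.βE Rd.hαβ Rd.hαβ' Rd.hdiag
  choose qv hqv1 hqv2 hqv3 hqv4 using H
  -- the universal rings
  obtain ⟨D0⟩ : Nonempty (GaloisRep.DeformationRingData 𝒪 (s59i_rhobarW W p hΔ 𝒪 hp𝒪)
      (fun _A _ _ _ ρ =>
        GaloisRep.strictOrdinaryCondition 𝒪 p (Rd.Smin ∪ ((∅ : Finset ℕ) ∪ Rd.Ed) ∪ (∅ : Finset ℕ)) ρ ∧
          ∀ q ∈ Rd.Smin, q.Prime → q ≠ p → ρ.IsUnipotentOnInertiaAt q)) := by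
    have h := hEx (r := 0) Fin.elim0
    simpa only [Finset.univ_eq_empty, Finset.image_empty] using h
  let 𝒟 : ℕ → ∀ ⦃A : Type⦄ [CommRing A] [IsLocalRing A] [Algebra 𝒪 A], GaloisRepAdic A → Prop :=
    fun n _A _ _ _ ρ =>
      GaloisRep.strictOrdinaryCondition 𝒪 p
          (Rd.Smin ∪ ((∅ : Finset ℕ) ∪ Rd.Ed) ∪ Finset.univ.image (qv n)) ρ ∧
        ∀ q ∈ Rd.Smin, q.Prime → q ≠ p → ρ.IsUnipotentOnInertiaAt q
  let DQ : ∀ n, GaloisRep.DeformationRingData 𝒪 (s59i_rhobarW W p hΔ 𝒪 hp𝒪) (𝒟 n) := fun n =>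
    (hEx (qv n)).some
  choose bR hbR using fun n => s56a_exists_basisR (DQ n) Rd.Nd
  -- monotonicity of the type
  have hmono : ∀ (n : ℕ) {A : Type} [CommRing A] [IsLocalRing A] [Algebra 𝒪 A]
      (ρ : GaloisRepAdic A),
      (GaloisRep.strictOrdinaryCondition 𝒪 p (Rd.Smin ∪ ((∅ : Finset ℕ) ∪ Rd.Ed) ∪ (∅ : Finset ℕ)) ρ ∧
        ∀ q ∈ Rd.Smin, q.Prime → q ≠ p → ρ.IsUnipotentOnInertiaAt q) → 𝒟 n ρ := by
    intro n A _ _ _ ρ h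
    refine ⟨⟨h.1.1, h.1.2.1, fun q hq hqS => h.1.2.2 q hq fun hmem => hqS ?_⟩, h.2⟩
    rcases Finset.mem_union.mp hmem with h' | h'
    · exact Finset.mem_union_left _ h'
    · exact absurd h' (Finset.notMem_empty q)
  -- the `T`-side
  obtain ⟨Bs, ⟨hk, hhk⟩, HL⟩ := HT D0 r
  let TL : ∀ n, s59e_TLevelL 𝒪 p n r (s59q_ZIdx Rd.m Rd.e) Bs.R Bs.M Bs.ρR Bs.d (qv n) (DQ n) :=
    fun n => (HL n (qv n) (hqv1 n) (hqv2 n) (hqv3 n) (DQ n)).some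
  -- the bridge
  have hγ := fun n => hqv4 n (DQ n) (bR n) (hbR n) (T := (DQ n).R) (s56a_isTestAlgebra_R (DQ n))
    (AlgHom.id 𝒪 (DQ n).R) Function.surjective_id
  choose γ hγs hγ1 hγ2 hγ3 hγ4 using hγ
  -- dimensions
  have hcard : Fintype.card (s59q_GIdx Rd.m Rd.e (r + Rd.m + Rd.e)) = r := by
    simp only [Fintype.card_sum, Fintype.card_prod, Fintype.card_fin, hm, he]
    omega
  haveI : IsDomain (MvPowerSeries (s59q_GIdx Rd.m Rd.e (r + Rd.m + Rd.e)) 𝒪) :=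
    NoZeroDivisors.to_isDomain _
  have hdim : ringKrullDim (MvPowerSeries (s59q_GIdx Rd.m Rd.e (r + Rd.m + Rd.e)) 𝒪) ≤
      ringKrullDim (MvPowerSeries (s59q_ZIdx Rd.m Rd.e) (MvPowerSeries (Fin r) 𝒪)) := by
    rw [s59i_dim_mvPowerSeries 𝒪, s59i_dim_mvPowerSeries (MvPowerSeries (Fin r) 𝒪),
      s59p_pmdim 𝒪 r, hcard]
    exact le_add_of_nonneg_right (by exact_mod_cast Nat.zero_le _)
  -- the unramified traces at the Taylor–Wiles primes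
  have hunrQ : ∀ n i, s59i_cpTr D0.ρ ((TL n).σQ i) = 2 := by
    intro n i
    obtain ⟨A, hA, hσ⟩ := (TL n).hσQ i
    have hq := hqv2 n i
    have hnot : qv n i ∉ Rd.Smin ∪ ((∅ : Finset ℕ) ∪ Rd.Ed) ∪ (∅ : Finset ℕ) := by
      intro hmem
      rcases Finset.mem_union.mp hmem with h' | h'
      · rcases Finset.mem_union.mp h' with h'' | h''
        · exact hq.2.1 (Rd.hSmin h'')
        · rcases Finset.mem_union.mp h'' with h3 | h3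
          · exact absurd h3 (Finset.notMem_empty _)
          · exact hq.2.1 (Rd.hES h3)
      · exact absurd h' (Finset.notMem_empty _)
    exact s59e_Lmin_cpTr_one D0.ρ _ (D0.isOfType.1.2.2 (qv n i) hq.1 hnot A hA _ hσ)
  -- `ker ν` is nil
  have hnil := s59f_FINL_absA p Rd.D.i2 Rd.D.hi2 D0 DQ Rd.Nd
    (s56a_tangentStable_ord 𝒪 p _ Rd.Smin) (fun n => hmono n D0.ρ D0.isOfType) r
    (MvPowerSeries (s59q_GIdx Rd.m Rd.e (r + Rd.m + Rd.e)) 𝒪) hdim γ hγs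
    Bs.R Bs.hRres Bs.M Bs.ρR (fun n => hmono n Bs.ρR Bs.hρR) Bs.hresR Bs.ν Bs.hν Bs.hνs
    (s59t_frameA (s59q_ZIdx Rd.m Rd.e) (RingHom.ker (MvPowerSeries.constantCoeff (σ := Fin r) (R := 𝒪))))
    (s59e_L_frameA_CX (s59q_ZIdx Rd.m Rd.e)) (s59e_L_frameA_X (s59q_ZIdx Rd.m Rd.e))
    (s59e_L_frameA_le (s59q_ZIdx Rd.m Rd.e))
    (fun n => s59t_frameJ (s59q_ZIdx Rd.m Rd.e) (s59t_JH 𝒪 p n r))
    (fun n => s59t_frameJ_JH_le (s59q_ZIdx Rd.m Rd.e) hp2 hp𝒪 n r)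
    (fun n => (TL n).T') (fun n => (TL n).T) (fun n => (TL n).θ) (fun n => (TL n).hθ)
    (fun n => (TL n).L0) Bs.d (fun n => (TL n).hd) (fun n => (TL n).std) (fun n => (TL n).hstd)
    (fun n => (TL n).hψ𝒪) (fun n => (TL n).uu) (fun n => (TL n).huu) (fun n => (TL n).hgen)
    (fun n => (TL n).hstdX) (fun n => (TL n).hstdz) (fun n => (TL n).σQ) (fun n => (TL n).hC8)
    hunrQ (fun n => (TL n).hτ)
  -- the point of `ρ_W ⊗ 𝒪`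
  haveI hlid : IsLocalHom (algebraMap 𝒪 𝒪) := ⟨fun a h => h⟩
  have h𝒟W : GaloisRep.strictOrdinaryCondition 𝒪 p
      (Rd.Smin ∪ ((∅ : Finset ℕ) ∪ Rd.Ed) ∪ (∅ : Finset ℕ)) (s59q_WRho W hΔ hp𝒪) ∧
      ∀ q ∈ Rd.Smin, q.Prime → q ≠ p → (s59q_WRho W hΔ hp𝒪).IsUnipotentOnInertiaAt q := by
    refine ⟨⟨s59q_W_detCyc W hΔ hp𝒪 hp2 hirr,
      s59e_bc_strictOrd _ _ _ p (s59b_rhoW_strictOrd_of_semistable hΔ hp2 hirr hss hmult), ?_⟩, ?_⟩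
    · intro q hq hqS
      have hqp : q ≠ p := by
        rintro rfl
        exact hqS (Finset.mem_union_left _ (Finset.mem_union_left _ Rd.hpSmin))
      by_cases hgood : W.IsGoodPrimeFor q
      · exact s59e_bc_unram _ _ _ q (s59b_rhoW_unram hΔ hp2 q hq hqp hgood)
      · exact hunrW q hq hqp hgood fun h =>
          hqS (Finset.mem_union_left _ (Finset.mem_union_left _ h))
    · intro q _ hq hqp
      exact s59e_bc_unip _ _ _ q (s59b_rhoW_unip hΔ hp2 hirr hss q hq hqp)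
  have hfrobW : ∀ ℓ : ℕ, ℓ.Prime → ℓ ∉ B → ∀ P : ValuationSubring (AlgebraicClosure ℚ),
      P.LiesOverPrime ℓ → ∀ σ : Γℚ, P.IsFrobeniusAt σ ℓ →
        LinearMap.charpoly ((s59q_WRho W hΔ hp𝒪).ρ σ) =
          X ^ 2 - C (((W.apOfModel ℓ : ℤ) : 𝒪)) * X + C ((ℓ : 𝒪)) := by
    intro ℓ hℓ hℓB P hP σ hσ
    have hℓp : ℓ ≠ p := fun h => hℓB (h ▸ hpB)
    have hgood : W.IsGoodPrimeFor ℓ := by
      by_contra hbad
      exact hℓB (hB2 ℓ hℓ hbad)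
    rw [s59e_bc_charpoly, s59b_rhoW_charpoly hΔ hp2 hirr ℓ hℓ hgood hℓp P hP σ hσ]
    simp
  have hresW : (s59q_WRho W hΔ hp𝒪).residual.IsEquiv
      ((s59i_rhobarW W p hΔ 𝒪 hp𝒪).baseChangeAlong (ResidueField.map (algebraMap 𝒪 𝒪))) :=
    s59b_hres_of_frob p hp2 hp𝒪 (s59q_WRho W hΔ hp𝒪) Rd.habs B
      (fun ℓ => ((W.apOfModel ℓ : ℤ) : 𝒪)) (fun ℓ => ((W.apOfModel ℓ : ℤ) : 𝒪)) hfrobW
      (fun ℓ _ _ => by
        show ((W.apOfModel ℓ : ℤ) : 𝒪) - ((W.apOfModel ℓ : ℤ) : 𝒪) ∈ maximalIdeal 𝒪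
        rw [sub_self]
        exact Ideal.zero_mem _)
      (s59i_rhobarW W p hΔ 𝒪 hp𝒪)
      (fun ℓ hℓ hℓS A hA σ hσ =>
        s59e_rhobarW_charpoly_frob hΔ hp2 hirr hp𝒪 B hpB hB2 ℓ hℓ hℓS A hA σ hσ)
  obtain ⟨x, ⟨hx, ex⟩, -⟩ := D0.universal 𝒪 (IsLocalRing.residue_surjective) (s59q_WRho W hΔ hp𝒪)
    h𝒟W hresW
  have hxtr : ∀ g, x (s59i_cpTr D0.ρ g) = s59i_cpTr (s59q_WRho W hΔ hp𝒪) g := fun g =>
    s59e_Lmin_point_trace D0 _ (x : D0.R →+* 𝒪) hx ex g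
  -- the point factors through `Bs.R`
  obtain ⟨χ, hχ⟩ := s59f_FINL_point (Bs.ν : D0.R →+* Bs.R) Bs.hνs hnil (x : D0.R →+* 𝒪)
  refine ⟨χ.comp hk, fun ℓ hℓ hℓN hℓB => ?_⟩
  obtain ⟨A, g, hA, hg⟩ := Fermat.Agent.Lib.Frobenius.exists_isFrobeniusAt ℓ hℓ
  have h1 : s59i_cpTr Bs.ρR g = hk (heckeAlgebra.T hℓ hℓN hℓB) :=
    s59i_cpTr_of_charpoly Bs.ρR g _ _ (hhk ℓ hℓ hℓN hℓB A hA g hg)
  have h2 : s59i_cpTr (s59q_WRho W hΔ hp𝒪) g = ((W.apOfModel ℓ : ℤ) : 𝒪) :=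
    s59i_cpTr_of_charpoly _ g _ _
      (hfrobW ℓ hℓ (fun h => hℓB (Finset.mem_coe.mpr h)) A hA g hg)
  rw [RingHom.comp_apply, ← h1, ← Bs.hν g]
  have h3 := hχ (s59i_cpTr D0.ρ g)
  rw [RingHom.coe_coe] at h3
  rw [h3, RingHom.coe_coe, hxtr g, h2]

/-- **[PATCH-FLR], STRICT case (`ρ̄_W` très ramifié at `p`), `p ∈ {3, 5}`, at an EVEN base level `N₀` with `p ∣ N₀`** (no hypothesis on the
bad primes of `W`; the primes `≠ p` of `N₀` are ramified primes of `ρ̄` or of type (E2′) in the form `s59g_E2 W p q`). -/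
theorem s59q_sf3_FLR_strict (p : ℕ) [Fact p.Prime] (hp35 : p = 3 ∨ p = 5)
    (W : WeierstrassCurve ℤ) (hΔ : W.Δ ≠ 0) (hss : W.IsSemistableModel)
    (hirr : W.ModRepIsIrreducible p)
    (hpeu : ¬ (W.map (Int.castRingHom ℚ)).IsPeuRamifieeAt p p)
    (N₀ : ℕ) [NeZero N₀] (hsq : Squarefree N₀) (hpN : p ∣ N₀) (h23 : 2 ∣ N₀)
    (hres : W.IsResiduallyModularOfLevel p N₀)
    (hNtype : ∀ q : ℕ, q.Prime → q ≠ p → q ∣ N₀ → ¬ s59_Unr W p q ∨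
      (W.IsGoodPrimeFor q ∧ ¬ p ∣ q - 1 ∧
        ¬ (p : ℤ) ∣ (W.apOfModel q : ℤ) ^ 2 - ((q : ℤ) + 1) ^ 2))
    (HT : s59q_pf_TPkgFLR p W hΔ N₀) :
    ∃ (N : ℕ) (_ : NeZero N) (B : Finset ℕ) (𝒪 : Type) (_ : CommRing 𝒪) (_ : IsDomain 𝒪)
      (_ : CharZero 𝒪) (χ : heckeAlgebra N 2 (↑B : Set ℕ) →+* 𝒪),
      Squarefree N ∧ p ∣ N ∧
      ∀ (ℓ : ℕ) (hℓ : ℓ.Prime) (hℓN : ¬ ℓ ∣ N) (hℓB : ℓ ∉ (↑B : Set ℕ)),
        χ (heckeAlgebra.T hℓ hℓN hℓB) = ((W.apOfModel ℓ : ℤ) : 𝒪) := by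
  classical
  have hpp : p.Prime := Fact.out
  have hp2 : p ≠ 2 := by rcases hp35 with rfl | rfl <;> norm_num
  have hN0 : N₀ ≠ 0 := NeZero.ne N₀
  have hONE : 1 < N₀ := lt_of_lt_of_le hpp.one_lt (Nat.le_of_dvd (Nat.pos_of_ne_zero hN0) hpN)
  have hbadp : (p : ℤ) ∣ W.Δ := by
    by_contra hgood
    apply hpeu
    unfold WeierstrassCurve.IsPeuRamifieeAt
    rw [WeierstrassCurve.map_Δ]
    have h1 : padicValRat p ((Int.castRingHom ℚ) W.Δ) = padicValInt p W.Δ := by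
      rw [eq_intCast]
      exact padicValRat.of_int
    rw [h1, padicValInt.eq_zero_of_not_dvd hgood]
    exact dvd_zero _
  have hc4p : ¬ (p : ℤ) ∣ W.c₄ := hss p hpp hbadp
  have hmult : ¬ W.IsGoodPrimeFor p := fun hg => hg hbadp
  -- the coefficient ring
  obtain ⟨𝒪, i1, i2, i3, i4, i5, i6, i7, i8, i9, hp𝒪, -, hsplit⟩ :=
    s59q_exists_coeffRing_padic p 1 one_pos
  -- the raising primes
  set Rs : Finset ℕ := W.Δ.natAbs.primeFactors.filter (fun q => q ≠ p ∧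
    (s59q_WRhobar W hΔ hp𝒪).IsUnramifiedAt q ∧ ¬ (s59q_WRho W hΔ hp𝒪).IsUnramifiedAt q)
    with hRsdef
  have hRs : ∀ q ∈ Rs, q.Prime ∧ q ≠ p ∧ ¬ q ∣ N₀ ∧ ¬ W.IsGoodPrimeFor q ∧
      (s59q_WRhobar W hΔ hp𝒪).IsUnramifiedAt q ∧
      ¬ (s59q_WRho W hΔ hp𝒪).IsUnramifiedAt q := by
    intro q hq
    obtain ⟨hqΔ, hqp, hU, hram⟩ := Finset.mem_filter.mp hq
    rw [Nat.mem_primeFactors] at hqΔ
    have hbadq : ¬ W.IsGoodPrimeFor q := fun hg => hg (Int.natCast_dvd.mpr hqΔ.2.1)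
    refine ⟨hqΔ.1, hqp, ?_, hbadq, hU, hram⟩
    intro hqN
    rcases hNtype q hqΔ.1 hqp hqN with h | ⟨hg, -, -⟩
    · exact h ((s59q_W_unram_iff W hΔ hp𝒪 q).mp hU)
    · exact hbadq hg
  have hunrW : ∀ q : ℕ, q.Prime → q ∉ s59q_WSmin W hΔ hp𝒪 ∪ Rs →
      (s59q_WRho W hΔ hp𝒪).IsUnramifiedAt q := by
    intro q hq hqS
    have hqSmin : q ∉ s59q_WSmin W hΔ hp𝒪 := fun h => hqS (Finset.mem_union_left _ h)
    have hqRs : q ∉ Rs := fun h => hqS (Finset.mem_union_right _ h)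
    have hqp : q ≠ p := fun h => hqSmin (h ▸ s59q_WSmin_p_mem W hΔ hp𝒪)
    by_cases hgood : W.IsGoodPrimeFor q
    · exact s59e_bc_unram _ _ _ q (s59b_rhoW_unram hΔ hp2 q hq hqp hgood)
    · by_contra hram
      apply hqRs
      refine Finset.mem_filter.mpr ⟨Nat.mem_primeFactors.mpr ⟨hq,
        Int.natCast_dvd.mp (s59q_W_dvd_disc_of_bad W q hq hgood), Int.natAbs_ne_zero.mpr hΔ⟩,
        hqp, ?_, hram⟩
      by_contra hU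
      exact hqSmin ((s59q_WSmin_hmin W hΔ hp𝒪 hp2 q hq hqp).mpr hU)
  -- the base level data
  set B : Finset ℕ := (N₀ * p).primeFactors ∪ W.Δ.natAbs.primeFactors with hB
  have hB1 : ∀ r : ℕ, r.Prime → r ∣ N₀ * p → r ∈ B := fun r hr hd =>
    Finset.mem_union_left _ (Nat.mem_primeFactors.mpr ⟨hr, hd, Nat.mul_ne_zero hN0 hpp.ne_zero⟩)
  have hB2Δ : ∀ r : ℕ, r.Prime → (r : ℤ) ∣ W.Δ → r ∈ B := fun r hr hd =>
    Finset.mem_union_right _ (Nat.mem_primeFactors.mpr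
      ⟨hr, Int.natCast_dvd.mp hd, Int.natAbs_ne_zero.mpr hΔ⟩)
  have hB2 : ∀ r : ℕ, r.Prime → ¬ W.IsGoodPrimeFor r → r ∈ B := by
    intro r hr hbad'
    refine hB2Δ r hr ?_
    by_contra h
    exact hbad' h
  have hpB : p ∈ B := hB1 p hpp (Dvd.intro_left N₀ rfl)
  have hocc := s59e_Lmin_levelOcc W p N₀ B hB1 hB2 hres
  -- the reduced level `N'`: `p` and the primes of `N₀` at which `ρ̄` is ramified
  set T : Finset ℕ := N₀.primeFactors.filter (fun ℓ => ℓ = p ∨ ¬ s59_Unr W p ℓ) with hT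
  set N' : ℕ := ∏ ℓ ∈ T, ℓ with hN'
  have hmemN' : ∀ ℓ : ℕ, ℓ.Prime → ℓ ∣ N' → ℓ ∈ T := by
    intro ℓ hℓ hd
    obtain ⟨q, hqT, hq⟩ := (Prime.dvd_finsetProd_iff (Nat.prime_iff.mp hℓ) _).mp hd
    have hqpr : q.Prime := Nat.prime_of_mem_primeFactors (Finset.mem_filter.mp hqT).1
    have : ℓ = q := (Nat.prime_dvd_prime_iff_eq hℓ hqpr).mp hq
    exact this ▸ hqT
  have hE : ∀ q : ℕ, q.Prime → q ∣ N₀ → q ∣ N' ∨
      s59e3q_E2Alt p (s59i_rhobarW W p hΔ 𝒪 hp𝒪) q := by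
    intro q hq hqN
    by_cases hqp : q = p
    · exact Or.inl (Finset.dvd_prod_of_mem _ (Finset.mem_filter.mpr
        ⟨Nat.mem_primeFactors.mpr ⟨hq, hqN, hN0⟩, Or.inl hqp⟩))
    rcases hNtype q hq hqp hqN with h | ⟨hg, h1, h2⟩
    · exact Or.inl (Finset.dvd_prod_of_mem _ (Finset.mem_filter.mpr
        ⟨Nat.mem_primeFactors.mpr ⟨hq, hqN, hN0⟩, Or.inr h⟩))
    · exact Or.inr (s59e3q_E2Alt_of_good W hΔ hp𝒪 hp2 hirr q hq hqp hg h1 h2)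
  obtain ⟨Rd, hSmin, hm, he⟩ := s59e_Lmin_RData W hΔ hp𝒪 hp35 hss hirr hsplit N' B hpB hB2Δ
    (fun q hq hqN' => by
      have hqT := hmemN' q hq hqN'
      by_cases hqp : q = p
      · refine Or.inl ?_
        rw [hqp]
        exact s59q_WSmin_p_mem W hΔ hp𝒪
      rcases (Finset.mem_filter.mp hqT).2 with h | h
      · exact absurd h hqp
      · exact Or.inl ((s59q_WSmin_hmin W hΔ hp𝒪 hp2 q hq hqp).mpr fun hunr =>
          h ((s59q_W_unram_iff W hΔ hp𝒪 q).mp hunr)))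
  by_cases hne : Rs.Nonempty
  · -- level raising: a universal ring of minimal type
    obtain ⟨Dm₀⟩ := s59q_W_existDQ_SE W p hΔ hp2 hirr N₀ B hB1 hB2 hocc 𝒪 hp𝒪 Rd.habs hsq hpN
      hbadp hc4p hpeu (∅ : Finset ℕ) Rd hE 0 Fin.elim0
    have hEd : Rd.Ed = ∅ := by
      haveI : IsEmpty (Fin Rd.e) := by rw [he]; infer_instance
      rw [← Rd.hprE, Finset.univ_eq_empty, Finset.image_empty]
    have hsub : Rd.Smin ∪ ((∅ : Finset ℕ) ∪ Rd.Ed) ∪ Finset.univ.image (Fin.elim0 : Fin 0 → ℕ) ⊆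
        s59q_WSmin W hΔ hp𝒪 := by
      rw [hEd, hSmin, Finset.univ_eq_empty, Finset.image_empty, Finset.union_empty,
        Finset.union_empty, Finset.union_empty]
    have hDm : Nonempty (GaloisRep.DeformationRingData 𝒪 (s59i_rhobarW W p hΔ 𝒪 hp𝒪)
        (fun _A _ _ _ ρ => GaloisRep.strictOrdinaryCondition 𝒪 p (s59q_WSmin W hΔ hp𝒪) ρ ∧
          ∀ q ∈ s59q_WSmin W hΔ hp𝒪 ∪ Rs, q.Prime → q ≠ p → ρ.IsUnipotentOnInertiaAt q)) := by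
      refine s59q_exists_DQ_ord p hp2 hp𝒪 (s59i_rhobarW W p hΔ 𝒪 hp𝒪) Rd.habs
        (s59q_WSmin W hΔ hp𝒪) (s59q_WSmin W hΔ hp𝒪) (s59q_WSmin W hΔ hp𝒪 ∪ Rs)
        (Finset.Subset.refl _) (s59q_WSmin_p_mem W hΔ hp𝒪) ?_ inferInstance
        Dm₀.residue_surjective Dm₀.ρ ⟨s59q_ordCondition_mono p hsub Dm₀.ρ Dm₀.isOfType.1, ?_⟩
        Dm₀.residual_isEquiv
      · intro q hq hqS
        have hqp : q ≠ p := fun h => hqS (h ▸ s59q_WSmin_p_mem W hΔ hp𝒪)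
        by_contra hram
        exact hqS ((s59q_WSmin_hmin W hΔ hp𝒪 hp2 q hq hqp).mpr hram)
      · intro q hq hqP hqp
        rcases Finset.mem_union.mp hq with h | h
        · exact Dm₀.isOfType.2 q (hSmin ▸ h) hqP hqp
        · refine s59f_unip_of_unram Dm₀.ρ q (Dm₀.isOfType.1.2.2 q hqP fun hmem => ?_)
          have h1 := hsub hmem
          exact ((s59q_WSmin_hmin W hΔ hp𝒪 hp2 q hqP hqp).mp h1) (hRs q h).2.2.2.2.1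
    obtain ⟨N, iN, χ, h1, h2, h3⟩ := s59q_pf_FLR_W_core p hp35 W hΔ hss hirr hmult N₀ hN0 hsq hpN 𝒪
      hp𝒪 hsplit Rs hne hRs hunrW hDm HT
    exact ⟨N, iN, _, 𝒪, inferInstance, inferInstance, inferInstance, χ, h1, h2, h3⟩
  · -- the minimal case
    rw [Finset.not_nonempty_iff_eq_empty] at hne
    obtain ⟨χ, hχ⟩ := s59q_sf3_Lmin_abs_unr p hp35 W hΔ N₀ B hss hirr hB1 hB2 hmult 𝒪
      hp𝒪 N' Rd hm he
      (fun q hq hqp hbad hqS => hunrW q hq (by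
        rw [hne, Finset.union_empty, ← hSmin]
        exact hqS))
      (fun D0 r => s59q_sl3e_TPkgLH p hp2 W hΔ N₀ (∅ : Finset ℕ) B hirr hsq hpN hbadp hc4p hpeu hB1 hB2
        hocc h23 𝒪 hp𝒪 N' Rd hE D0 r (s59q_ZIdx Rd.m Rd.e))
    exact ⟨N₀, inferInstance, B, 𝒪, inferInstance, inferInstance, inferInstance, χ, hsq, hpN, hχ⟩

/-- **[PATCH-FLR], STRICT case, `p ∈ {3, 5}`, in the shape of `s59g_HeckePt W p`, at an EVEN minimal level `M`** (`ρ̄_W` très ramifié at `p`;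
the primes `≠ p` of `M` are ramified primes of `ρ̄` or of type (E2′); NO hypothesis on the bad primes of `W`), over the strict `T`-side contract
at the base level `M` (if `p ∣ M`) or `M p` (if `p ∤ M`). -/
theorem s59q_sf3_FLR_heckePt (p : ℕ) [Fact p.Prime] (hp35 : p = 3 ∨ p = 5)
    (W : WeierstrassCurve ℤ) (hΔ : W.Δ ≠ 0) (hss : W.IsSemistableModel)
    (hirr : W.ModRepIsIrreducible p)
    (hpeu : ¬ (W.map (Int.castRingHom ℚ)).IsPeuRamifieeAt p p)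
    (M : ℕ) (hM0 : 0 < M) (hsq : Squarefree M) (h2M : 2 ∣ M)
    (hram : ∀ q : ℕ, q.Prime → q ≠ p → q ∣ M → ¬ s59_Unr W p q ∨
      (W.IsGoodPrimeFor q ∧ ¬ p ∣ q - 1 ∧
        ¬ (p : ℤ) ∣ (W.apOfModel q : ℤ) ^ 2 - ((q : ℤ) + 1) ^ 2))
    (hres : W.IsResiduallyModularOfLevel p M)
    (HT : ∀ N₀ : ℕ, M ∣ N₀ → Squarefree N₀ → p ∣ N₀ → 2 ∣ N₀ →
      W.IsResiduallyModularOfLevel p N₀ →
      (∀ q : ℕ, q.Prime → q ≠ p → q ∣ N₀ → ¬ s59_Unr W p q ∨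
        (W.IsGoodPrimeFor q ∧ ¬ p ∣ q - 1 ∧
        ¬ (p : ℤ) ∣ (W.apOfModel q : ℤ) ^ 2 - ((q : ℤ) + 1) ^ 2)) →
      s59q_pf_TPkgFLR p W hΔ N₀) :
    ∃ (N : ℕ) (_ : NeZero N) (B : Finset ℕ) (𝒪 : Type) (_ : CommRing 𝒪) (_ : IsDomain 𝒪)
      (_ : CharZero 𝒪) (χ : CuspForm.heckeAlgebra N 2 (↑B : Set ℕ) →+* 𝒪),
      ¬ p ^ 2 ∣ N ∧ (∀ q : ℕ, q.Prime → ¬ q ^ 3 ∣ N) ∧
      ∀ (ℓ : ℕ) (hℓ : ℓ.Prime) (hℓN : ¬ ℓ ∣ N) (hℓB : ℓ ∉ (↑B : Set ℕ)),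
        χ (CuspForm.heckeAlgebra.T hℓ hℓN hℓB) = ((W.apOfModel ℓ : ℤ) : 𝒪) := by
  have hpp : p.Prime := Fact.out
  have key : (∃ (N : ℕ) (_ : NeZero N) (B : Finset ℕ) (𝒪 : Type) (_ : CommRing 𝒪) (_ : IsDomain 𝒪)
        (_ : CharZero 𝒪) (χ : heckeAlgebra N 2 (↑B : Set ℕ) →+* 𝒪),
        Squarefree N ∧ p ∣ N ∧
        ∀ (ℓ : ℕ) (hℓ : ℓ.Prime) (hℓN : ¬ ℓ ∣ N) (hℓB : ℓ ∉ (↑B : Set ℕ)),
          χ (heckeAlgebra.T hℓ hℓN hℓB) = ((W.apOfModel ℓ : ℤ) : 𝒪)) →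
      ∃ (N : ℕ) (_ : NeZero N) (B : Finset ℕ) (𝒪 : Type) (_ : CommRing 𝒪) (_ : IsDomain 𝒪)
        (_ : CharZero 𝒪) (χ : CuspForm.heckeAlgebra N 2 (↑B : Set ℕ) →+* 𝒪),
        ¬ p ^ 2 ∣ N ∧ (∀ q : ℕ, q.Prime → ¬ q ^ 3 ∣ N) ∧
        ∀ (ℓ : ℕ) (hℓ : ℓ.Prime) (hℓN : ¬ ℓ ∣ N) (hℓB : ℓ ∉ (↑B : Set ℕ)),
          χ (CuspForm.heckeAlgebra.T hℓ hℓN hℓB) = ((W.apOfModel ℓ : ℤ) : 𝒪) := by
    rintro ⟨N, iN, B, 𝒪, i1, i2, i3, χ, hNsq, hpN, hχ⟩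
    refine ⟨N, iN, B, 𝒪, i1, i2, i3, χ, ?_, ?_, hχ⟩
    · intro h
      rw [pow_two] at h
      exact hpp.one_lt.ne' (Nat.isUnit_iff.mp (hNsq p h))
    · intro q hq h
      have h2 : q * q ∣ N := dvd_trans ⟨q, by ring⟩ h
      exact hq.not_isUnit (hNsq q h2)
  by_cases hpM : p ∣ M
  · haveI : NeZero M := ⟨hM0.ne'⟩
    exact key (s59q_sf3_FLR_strict p hp35 W hΔ hss hirr hpeu M hsq hpM h2M hres hram
      (HT M dvd_rfl hsq hpM h2M hres hram))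
  · have hcop : M.Coprime p := (Nat.Coprime.symm ((Nat.Prime.coprime_iff_not_dvd hpp).mpr hpM))
    have hNsq : Squarefree (M * p) := (Nat.squarefree_mul hcop).mpr ⟨hsq, hpp.squarefree⟩
    haveI : NeZero (M * p) := ⟨Nat.mul_ne_zero hM0.ne' hpp.ne_zero⟩
    have hres' : W.IsResiduallyModularOfLevel p (M * p) :=
      s59v_resMod_mono (dvd_mul_right M p) hNsq hres
    have h2N : 2 ∣ M * p := Dvd.dvd.mul_right h2M p
    have hNtype : ∀ q : ℕ, q.Prime → q ≠ p → q ∣ M * p → ¬ s59_Unr W p q ∨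
        (W.IsGoodPrimeFor q ∧ ¬ p ∣ q - 1 ∧
        ¬ (p : ℤ) ∣ (W.apOfModel q : ℤ) ^ 2 - ((q : ℤ) + 1) ^ 2) := by
      intro q hq hqp hqN
      rcases (Nat.Prime.dvd_mul hq).mp hqN with h | h
      · exact hram q hq hqp h
      · exact absurd ((Nat.prime_dvd_prime_iff_eq hq hpp).mp h) hqp
    exact key (s59q_sf3_FLR_strict p hp35 W hΔ hss hirr hpeu (M * p) hNsq (dvd_mul_left p M) h2N
      hres' hNtype (HT (M * p) (dvd_mul_right M p) hNsq (dvd_mul_left p M) h2N hres' hNtype))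

end Fermat.Agent.Lib.S59
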