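/-
PROGRAMME R2 = S59, node [PT], STRICT (très ramifié) twin (helper6, prefix `s59q_`; lead #4014 items 5–6 = the fields `finS0`, `finS1`):
**THE TWO STRICT SPECTATOR `T`-SIDE FINALS WITH BASE POINT AT THE SPECTATOR `s = 2`, FROM THE EXTENDED STRICT FINAL STATEMENT**
`s59q_sf3_TFinX p W hΔ` = my `s59q_sf3_TFin` (Q3SFlrW6.lean) PLUS the exports at the level `0` of helper8's `s59c3_TFinX`
(C3FlrFinXS.lean): (E1) `HkFrobP (N 0)`, (E2) faithfulness of `Bs.M 0`, (E-conc) `s59c3_EConc 𝒪 (N 0) B a(W) (Bs.R 0) (Bs.ρR 0)`,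
(E5) `strictOrdinaryCondition 𝒪 p Sgm (Bs.ρR 0)`.  Scripted twin of helper1's GPtFin.lean (his proofs are agnostic of the deformation
type: only `Bs.hν`, (E2), (E-conc) are used; `s59pt_econc_pt0/1` have no hypothesis `¬ p ∣ N`).

* `s59q_sf3_TFinX`, `s59q_sf3_TFin_of_X : s59q_sf3_TFinX p W hΔ → s59q_sf3_TFin p W hΔ`;
* **`s59q_spx_TFinPt_two_zero`** : `s59q_sf3_TFinX p W hΔ → s59q_sp_TFinPt p W hΔ 2 0`;
* **`s59q_spx_TFinPt_two_one`**  : `s59q_sf3_TFinX p W hΔ → s59q_sp_TFinPt p W hΔ 2 1`.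
-/
import Mathlib
import Fermat.Agent.Lib.S59.GPtFin
import Fermat.Agent.Lib.S59.Q3SFlrW6
import Fermat.Agent.Lib.S59.QSSpM

set_option autoImplicit false
set_option linter.unusedSectionVars false
set_option linter.unusedVariables false
set_option linter.style.haveILetI false
set_option synthInstance.maxHeartbeats 400000
set_option maxHeartbeats 4000000
set_option maxSynthPendingDepth 3

noncomputable section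

namespace Fermat.Agent.Lib.S59

open IsLocalRing Polynomial CuspForm ExtCitation
open Fermat.Agent.Lib.S53 (NormData)
open Fermat.Agent.Lib.S56 Fermat.Agent.Lib.S44

local notation "Γℚ" => (AlgebraicClosure ℚ ≃ₐ[ℚ] AlgebraicClosure ℚ)

/-- **the final STRICT `T`-side statement of [PATCH-FLR], extended** (`p` odd, even levels, `ρ̄_W` très ramifié at `p`, `p` divides
every level): `s59q_sf3_TFin` with the exports (E1), (E2), (E-conc), (E5) at the level `0`. -/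
def s59q_sf3_TFinX (p : ℕ) [Fact p.Prime] (W : WeierstrassCurve ℤ) (hΔ : W.Δ ≠ 0) : Prop :=
  ∀ (hp2 : p ≠ 2) (B : Finset ℕ) (hss : W.IsSemistableModel) (hirr : W.ModRepIsIrreducible p)
    (hbadp : (p : ℤ) ∣ W.Δ) (hc4p : ¬ (p : ℤ) ∣ W.c₄)
    (hpeu : ¬ (W.map (Int.castRingHom ℚ)).IsPeuRamifieeAt p p)
    (hB2 : ∀ r : ℕ, r.Prime → ¬ W.IsGoodPrimeFor r → r ∈ B)
    (𝒪 : Type) [CommRing 𝒪] [IsDomain 𝒪] [IsDiscreteValuationRing 𝒪]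
    [IsAdicComplete (maximalIdeal 𝒪) 𝒪] [Finite (ResidueField 𝒪)] [CharZero 𝒪]
    [Algebra ℤ_[p] 𝒪] [Module.Finite ℤ_[p] 𝒪]
    (hp𝒪 : ((p : ℕ) : 𝒪) ∈ maximalIdeal 𝒪)
    (habs : (s59i_rhobarW W p hΔ 𝒪 hp𝒪).IsAbsolutelyIrreducible)
    (Nd : NormData (s59i_rhobarW W p hΔ 𝒪 hp𝒪))
    -- the chain of levels
    (k : ℕ) (N : ℕ → ℕ) (qr : ℕ → ℕ) (hNZ : ∀ t, NeZero (N t))
    (hqr : ∀ t, t < k → (qr t).Prime)
    (hN : ∀ t, t < k → N (t + 1) = N t * qr t)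
    (hfreeze : ∀ t, k ≤ t → N t = N k)
    (hsq : ∀ t, Squarefree (N t)) (hpN : ∀ t, p ∣ N t)
    (hB1 : ∀ t, ∀ r : ℕ, r.Prime → r ∣ N t * p → r ∈ B)
    (hocc : ∀ t, Fermat.Agent.Lib.S44.s44i_LevelOcc (N t) p (fun ℓ => W.apOfModel ℓ) B)
    (h23 : ∀ t, 2 ∣ N t)
    -- Frobenius and inertia elements at the raising primes
    (φr σr : ℕ → Γℚ)
    (hφr : ∀ t, t < k → ∃ A : ValuationSubring (AlgebraicClosure ℚ),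
      A.LiesOverPrime (qr t) ∧ A.IsFrobeniusAt (φr t) (qr t))
    (hσr : ∀ t, t < k → ∃ A : ValuationSubring (AlgebraicClosure ℚ),
      A.LiesOverPrime (qr t) ∧ σr t ∈ A.inertiaSubgroupIn ℚ)
    -- the deformation types
    (Sg0 Su Smin Sgm : Finset ℕ) (hpSgm : p ∈ Sgm) (hSgm0 : Sgm ⊆ Sg0) (hSminSgm : Smin ⊆ Sgm)
    (hmin : ∀ q : ℕ, q.Prime → q ≠ p →
      (q ∈ Smin ↔ ¬ (s59i_rhobarW W p hΔ 𝒪 hp𝒪).IsUnramifiedAt q))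
    (hSuB : Su ⊆ B)
    (hSgN : ∀ t, ∀ q : ℕ, q.Prime → q ∣ N t →
      q ∈ Sg0 ∨ s59e3q_E2Alt p (s59i_rhobarW W p hΔ 𝒪 hp𝒪) q)
    (hSgmN : ∀ q : ℕ, q.Prime → q ∣ N 0 →
      q ∈ Sgm ∨ s59e3q_E2Alt p (s59i_rhobarW W p hΔ 𝒪 hp𝒪) q)
    (hqrSgm : ∀ t, t < k → qr t ∉ Sgm)
    (D0 : GaloisRep.DeformationRingData 𝒪 (s59i_rhobarW W p hΔ 𝒪 hp𝒪) (fun _A _ _ _ ρ =>
      GaloisRep.strictOrdinaryCondition 𝒪 p Sg0 ρ ∧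
        ∀ q ∈ Su, q.Prime → q ≠ p → ρ.IsUnipotentOnInertiaAt q))
    (Dm : GaloisRep.DeformationRingData 𝒪 (s59i_rhobarW W p hΔ 𝒪 hp𝒪) (fun _A _ _ _ ρ =>
      GaloisRep.strictOrdinaryCondition 𝒪 p Sgm ρ ∧
        ∀ q ∈ Su, q.Prime → q ≠ p → ρ.IsUnipotentOnInertiaAt q))
    (σ : Type) [DecidableEq σ] [Fintype σ],
    ∃ Bs : s59f_TBaseF 𝒪 k D0,
      s59e_HkFrobP (N k) (↑B : Set ℕ) (Bs.R k) (Bs.ρR k) ∧
      s59e_HkFrobP (N 0) (↑B : Set ℕ) (Bs.R 0) (Bs.ρR 0) ∧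
      (∀ a : Bs.R 0, (∀ mm : Bs.M 0, a • mm = 0) → a = 0) ∧
      s59c3_EConc 𝒪 (N 0) B (fun ℓ => W.apOfModel ℓ) (Bs.R 0) (Bs.ρR 0) ∧
      GaloisRep.strictOrdinaryCondition 𝒪 p Sgm (Bs.ρR 0) ∧
      ∀ (r : ℕ) (n : ℕ) (qv : Fin r → ℕ), Function.Injective qv →
        (∀ i, (qv i).Prime ∧ qv i ∉ B ∧ p ^ (n + 1) ∣ qv i - 1) →
        (∀ i, ∀ A : ValuationSubring (AlgebraicClosure ℚ), A.LiesOverPrime (qv i) →
          ∀ φ : Γℚ, A.IsFrobeniusAt φ (qv i) →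
            ∃ α β : ResidueField 𝒪, α ≠ β ∧
              LinearMap.charpoly ((s59i_rhobarW W p hΔ 𝒪 hp𝒪).ρ φ) = (X - C α) * (X - C β)) →
        ∀ DQ : GaloisRep.DeformationRingData 𝒪 (s59i_rhobarW W p hΔ 𝒪 hp𝒪) (fun _A _ _ _ ρ =>
          GaloisRep.strictOrdinaryCondition 𝒪 p (Sg0 ∪ Finset.univ.image qv) ρ ∧
            ∀ q ∈ Su, q.Prime → q ≠ p → ρ.IsUnipotentOnInertiaAt q),
          Nonempty (s59f_TLevelF 𝒪 p n r σ k Bs qv qr φr σr DQ)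

/-- the extended strict statement gives the strict statement. -/
theorem s59q_sf3_TFin_of_X (p : ℕ) [Fact p.Prime] (W : WeierstrassCurve ℤ) (hΔ : W.Δ ≠ 0)
    (h : s59q_sf3_TFinX p W hΔ) : s59q_sf3_TFin p W hΔ := by
  intro hp2 B hss hirr hbadp hc4p hpeu hB2 𝒪 _ _ _ _ _ _ _ _ hp𝒪 habs Nd k N qr hNZ hqr hN hfreeze hsq
    hpN hB1 hocc h23 φr σr hφr hσr Sg0 Su Smin Sgm hpSgm hSgm0 hSminSgm hmin hSuB hSgN hSgmN hqrSgm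
    D0 Dm σ _ _
  have h' := h hp2 B hss hirr hbadp hc4p hpeu hB2 𝒪 hp𝒪 habs Nd k N qr hNZ hqr hN hfreeze hsq hpN
    hB1 hocc h23 φr σr hφr hσr Sg0 Su Smin Sgm hpSgm hSgm0 hSminSgm hmin hSuB hSgN hSgmN hqrSgm
    D0 Dm σ
  choose Bs hHk h1 h2 h3 h4 HL using h'
  exact ⟨Bs, hHk, HL⟩

variable (p : ℕ) [hpP : Fact p.Prime]

/-- **the spectator final with the OLD base point** (`k₀ = 0`, `s = 2`). -/
theorem s59q_spx_TFinPt_two_zero (W : WeierstrassCurve ℤ) (hΔ : W.Δ ≠ 0)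
    (HX : s59q_sf3_TFinX p W hΔ) : s59q_sp_TFinPt p W hΔ 2 0 := by
  classical
  intro hp2 B hp35 hss hirr hbadp hc4p hpeu hB2 𝒪 _ _ _ _ _ _ _ _ hp𝒪 hsplitℤ habs Nd k N qr hNZ hqr hN
    hfreeze hsq hpN hB1 hocc h23 hres0 φr σr hφr hσr hqrW Sg0 Su Smin Sgm hpSgm hSgm0 hSminSgm hmin hSuB
    hSgN hSgmN hqrSgm hSgmS hSg0qr hqrSu hWSminSu hs hsp hsN hold hsSgm hsSu hsU φs σs hφs hσs εs hεs
    hscp hk0 hk1 hφsP hσsT D0 Dm σ _ _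
  have HX' := HX hp2 B hss hirr hbadp hc4p hpeu hB2 𝒪 hp𝒪 habs Nd k N qr hNZ hqr hN hfreeze hsq hpN hB1
    hocc h23 φr σr hφr hσr Sg0 Su Smin Sgm hpSgm hSgm0 hSminSgm hmin hSuB hSgN hSgmN hqrSgm D0 Dm σ
  obtain ⟨Bs, h1, hE1, hE2, hEc, hE5, hTW⟩ := HX'
  refine ⟨Bs, h1, ?_, hTW⟩
  haveI := hNZ 0
  have hpPr : p.Prime := hpP.out
  obtain ⟨hL0, hL2, hNL⟩ := s59pt_half_level (NeZero.ne (N 0)) (hsq 0) hsN
  haveI : NeZero (N 0 / 2) := ⟨hL0⟩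
  have hpB : p ∈ B := hB1 0 p hpPr (Dvd.intro_left _ rfl)
  have hNB : ∀ q : ℕ, q.Prime → q ∣ N 0 → q ∈ B := fun q hq h =>
    hB1 0 q hq (Dvd.dvd.mul_right h p)
  have hLN : N 0 / 2 ∣ N 0 := Nat.div_dvd_of_dvd hsN
  have hocc' : s44i_LevelOcc (N 0 / 2) p (fun ℓ => W.apOfModel ℓ) B :=
    s59e_Lmin_levelOcc W p (N 0 / 2) B
      (fun r hr h => hB1 0 r hr (h.trans (Nat.mul_dvd_mul_right hLN p))) hB2 hold
  obtain ⟨𝒪', i1, i2, i3, i4, i5, i6, i7, i8, i9, x, hx⟩ :=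
    s59pt_econc_pt0 p hp2 hLN 𝒪 hp𝒪 B hpB hNB (fun ℓ => W.apOfModel ℓ) hocc' (Bs.R 0) (Bs.ρR 0) hEc
  refine ⟨𝒪', inferInstance, inferInstance,
    (x : Bs.R 0 →+* 𝒪').comp (Bs.ν 0 : D0.R →+* Bs.R 0), ?_, ?_, ?_, ?_, ?_⟩
  · intro a ha
    show x (Bs.ν 0 a) = 0
    rw [hE2 _ ha, map_zero]
  · intro t ht
    obtain ⟨A, hA1, hA2⟩ := hφr t ht
    show x (Bs.ν 0 (s59i_cpTr D0.ρ (φr t))) * x (Bs.ν 0 (s59i_cpTr D0.ρ (φr t))) ≠ _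
    rw [Bs.hν]
    exact hx (qr t) (hqr t ht) (hqrW t ht).1 (fun h => (hqrW t ht).2.1 (h.trans hLN)) A hA1
      (φr t) hA2
  · intro _
    obtain ⟨A, hA1, hA2⟩ := hφs
    show x (Bs.ν 0 (s59i_cpTr D0.ρ φs)) * x (Bs.ν 0 (s59i_cpTr D0.ρ φs)) ≠ _
    rw [Bs.hν]
    exact hx 2 hs hsp hL2 A hA1 φs hA2
  · intro h
    exact absurd h (by norm_num)
  · intro h
    exact absurd h (by norm_num)

/-- **the spectator final with the `2`-NEW base point with sign** (`k₀ = 1`, `s = 2`). -/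
theorem s59q_spx_TFinPt_two_one (W : WeierstrassCurve ℤ) (hΔ : W.Δ ≠ 0)
    (HX : s59q_sf3_TFinX p W hΔ) : s59q_sp_TFinPt p W hΔ 2 1 := by
  classical
  intro hp2 B hp35 hss hirr hbadp hc4p hpeu hB2 𝒪 _ _ _ _ _ _ _ _ hp𝒪 hsplitℤ habs Nd k N qr hNZ hqr hN
    hfreeze hsq hpN hB1 hocc h23 hres0 φr σr hφr hσr hqrW Sg0 Su Smin Sgm hpSgm hSgm0 hSminSgm hmin hSuB
    hSgN hSgmN hqrSgm hSgmS hSg0qr hqrSu hWSminSu hs hsp hsN hold hsSgm hsSu hsU φs σs hφs hσs εs hεs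
    hscp hk0 hk1 hφsP hσsT D0 Dm σ _ _
  have HX' := HX hp2 B hss hirr hbadp hc4p hpeu hB2 𝒪 hp𝒪 habs Nd k N qr hNZ hqr hN hfreeze hsq hpN hB1
    hocc h23 φr σr hφr hσr Sg0 Su Smin Sgm hpSgm hSgm0 hSminSgm hmin hSuB hSgN hSgmN hqrSgm D0 Dm σ
  obtain ⟨Bs, h1, hE1, hE2, hEc, hE5, hTW⟩ := HX'
  refine ⟨Bs, h1, ?_, hTW⟩
  haveI := hNZ 0
  have hpPr : p.Prime := hpP.out
  obtain ⟨hL0, hL2, hNL⟩ := s59pt_half_level (NeZero.ne (N 0)) (hsq 0) hsN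
  haveI : NeZero (N 0 / 2) := ⟨hL0⟩
  have hpB : p ∈ B := hB1 0 p hpPr (Dvd.intro_left _ rfl)
  have hNB : ∀ q : ℕ, q.Prime → q ∣ N 0 → q ∈ B := fun q hq h =>
    hB1 0 q hq (Dvd.dvd.mul_right h p)
  obtain ⟨A₂, hA₂1, hA₂2⟩ := hφs
  obtain ⟨𝒪', i1, i2, i3, i4, i5, i6, i7, i8, i9, x, hx, hx2⟩ :=
    s59pt_econc_pt1 p hp2 hL2 hNL 𝒪 hp𝒪 B hpB hNB W hΔ hirr hold hB2 A₂ hA₂1 φs hA₂2 εs hεs
      (hk1 rfl).2 (Bs.R 0) (Bs.ρR 0) hEc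
  refine ⟨𝒪', inferInstance, inferInstance,
    (x : Bs.R 0 →+* 𝒪').comp (Bs.ν 0 : D0.R →+* Bs.R 0), ?_, ?_, ?_, ?_, ?_⟩
  · intro a ha
    show x (Bs.ν 0 a) = 0
    rw [hE2 _ ha, map_zero]
  · intro t ht
    obtain ⟨A, hA1, hA2⟩ := hφr t ht
    show x (Bs.ν 0 (s59i_cpTr D0.ρ (φr t))) * x (Bs.ν 0 (s59i_cpTr D0.ρ (φr t))) ≠ _
    rw [Bs.hν]
    exact hx (qr t) (hqr t ht) (hqrW t ht).1 (hqrW t ht).2.1 A hA1 (φr t) hA2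
  · intro h
    exact absurd h (by norm_num)
  · intro _
    exact s59pt_injective_of_charZero hpPr.ne_zero hp𝒪 _
  · intro _
    show x (Bs.ν 0 (s59i_cpTr D0.ρ φs)) =
      x (Bs.ν 0 (algebraMap 𝒪 D0.R (εs * (((2 : ℕ) : 𝒪) + 1))))
    rw [Bs.hν, hx2 A₂ hA₂1 φs hA₂2, AlgHom.commutes, AlgHom.commutes]

end Fermat.Agent.Lib.S59

end
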