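/-
Programme R2 (S59), node [PATCH-FLR] STRICT (très ramifiée / ordinary) half, `T`-side, with raising steps (helper4, prefix `s59f_st_`),
file 4L (glue, FAST version): the same four statements as `FStrFinG.lean`, obtained from the fast proof `s59f_st_finXL` (FStrFinL.lean,
≈ 10 min instead of ≈ 30 min) — so that the slow file `FStrFin.lean` need not be in the closure of S59.  Helper6's extended strict final
statement `s59q_sf3_TFinX p W hΔ` (QSSpX.lean) is, word for word, `s59f_st_TFinX p W hΔ` (FStrFinS.lean).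
-/
import Mathlib
import Fermat.Agent.Lib.S59.FStrFinL
import Fermat.Agent.Lib.S59.QSSpX

set_option autoImplicit false

namespace Fermat.Agent.Lib.S59

/-- **helper6's extended strict final `T`-side statement of [PATCH-FLR]** (`p` odd, even levels, `p` divides every level, `ρ̄_W` très
ramifiée at `p`; exports (E1), (E2), (E-conc), (E5) at the level `0`). -/
theorem s59f_st_TFinXL_q (p : ℕ) [Fact p.Prime] (W : WeierstrassCurve ℤ) (hΔ : W.Δ ≠ 0) : s59q_sf3_TFinX p W hΔ :=
  s59f_st_finXL p W hΔ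

/-- the strict final `T`-side statement (helper6's `s59q_sf3_TFin`). -/
theorem s59f_st_TFinL_q (p : ℕ) [Fact p.Prime] (W : WeierstrassCurve ℤ) (hΔ : W.Δ ≠ 0) : s59q_sf3_TFin p W hΔ :=
  s59q_sf3_TFin_of_X p W hΔ (s59f_st_TFinXL_q p W hΔ)

/-- the strict spectator final with the old base point (`k₀ = 0`, `s = 2`). -/
theorem s59f_st_TFinPtL_two_zero (p : ℕ) [Fact p.Prime] (W : WeierstrassCurve ℤ) (hΔ : W.Δ ≠ 0) :
    s59q_sp_TFinPt p W hΔ 2 0 :=
  s59q_spx_TFinPt_two_zero p W hΔ (s59f_st_TFinXL_q p W hΔ)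

/-- the strict spectator final with the `2`-new base point with sign (`k₀ = 1`, `s = 2`). -/
theorem s59f_st_TFinPtL_two_one (p : ℕ) [Fact p.Prime] (W : WeierstrassCurve ℤ) (hΔ : W.Δ ≠ 0) :
    s59q_sp_TFinPt p W hΔ 2 1 :=
  s59q_spx_TFinPt_two_one p W hΔ (s59f_st_TFinXL_q p W hΔ)

end Fermat.Agent.Lib.S59
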