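/-
PROGRAMME (R2) = S59 — (X) POINTWISE (helper1): for ONE curve `W`, a characteristic-zero point of a Hecke algebra with the
eigenvalues `a_ℓ(W)` (`s59g_HeckePt W p`, the output of ANY variant of [PATCH]) gives `s59g_AlmostModular W p` (the conclusion
of every variant of the [LIFT] fields of the contract graph).  From `s59g_X_proved` (`GX.lean`).
-/
import Fermat.Agent.Lib.S59.GX

set_option autoImplicit false

open CongruenceSubgroup ModularFormClass

noncomputable section

namespace Fermat.Agent.Lib.S59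

/-- **(X), pointwise**: `s59g_HeckePt W p → s59g_AlmostModular W p`. -/
theorem s59g_almost_of_heckePt {W : WeierstrassCurve ℤ} {p : ℕ} (h : s59g_HeckePt W p) :
    s59g_AlmostModular W p := by
  obtain ⟨N, _, B, 𝒪, _, _, _, χ, hp2, h3, hχ⟩ := h
  obtain ⟨f, hf, hcoef⟩ := s59g_X_proved N B 𝒪 (fun ℓ => W.apOfModel ℓ) χ hχ
  exact ⟨N, B, f, Nat.pos_of_ne_zero (NeZero.ne N), hp2, h3, hf,
    fun ℓ hℓ _ hℓN hℓB => hcoef ℓ hℓ hℓN hℓB⟩

end Fermat.Agent.Lib.S59

end
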