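/-
PROGRAMME (R2) = S59 — CONTRACT GRAPH v3.8 (helper1): the `p = 3` fields [IA′-core]₃ and [LIFT]₃ of v3.7 SPLIT by the type of `2`.
NEW file, NEW names; imports `Graph3W.lean`; changes nothing there.

  type (a)/(b)  (`s59g_T2 W` : `ρ̄` ramified at `2`, or `2` an (E2′)-prime)  : the nodes of v3.6 `s59g_IAflatThree`,
                 `s59g_IAstrictThree`, `s59g_LIFTThree` (`Graph3V.lean`), verbatim  — IA flat ✓ helper5 `s59e3u_IAflat_even_E`;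
  type (c)      (`s59_Unr W 3 2 ∧ ¬ s59g_E2 W 3 2` : `2` level-raising)          : NEW nodes `s59g_IAflatThreeC`, `s59g_IAstrictThreeC`,
                 `s59g_LIFTThreeC`, with the `2`-old point `ResMod 3 (M/2)` as a hypothesis (supplied by [MP32]).

CHECKED: `s59g_NodesThreeW_ofX : s59g_NodesThreeX → s59g_NodesThreeW`, hence
`s59g_S59_X : s59g_NodesThreeX → s59g_NodesFiveW → <frozen S59 verbatim>`.
-/
import Fermat.Agent.Lib.S59.Graph3W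

set_option autoImplicit false

open CongruenceSubgroup ModularFormClass

noncomputable section

namespace Fermat.Agent.Lib.S59

/-- **[IA′-core]_W at `p = 3`, FLAT, EVEN level, `2` of type (c)** (level-raising), with a `2`-old point. -/
def s59g_IAflatThreeC : Prop :=
  ∀ (W : WeierstrassCurve ℤ), W.Δ ≠ 0 → W.IsSemistableModel →
    W.ModRepIsIrreducible 3 → ∀ (M : ℕ), 0 < M → Squarefree M → ¬ 3 ∣ M → 2 ∣ M →
    s59_Unr W 3 2 → ¬ s59g_E2 W 3 2 → W.IsResiduallyModularOfLevel 3 (M / 2) →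
    ∀ Bd : Finset ℕ, Bd.Nonempty →
    (∀ q ∈ Bd, q.Prime ∧ q ≠ 3 ∧ q ∣ M ∧ s59_Unr W 3 q ∧ s59g_Scalar W 3 q) →
    (∀ ℓ : ℕ, ℓ.Prime → ℓ ≠ 3 → ℓ ≠ 2 → ℓ ∣ M → ℓ ∉ Bd → ¬ s59_Unr W 3 ℓ) →
    W.IsResiduallyModularOfLevel 3 M → ∃ q ∈ Bd, W.IsResiduallyModularOfLevel 3 (M / q)

/-- **[IA′-core]_W at `p = 3`, STRICT (`3 ∣ M`, très), EVEN level, `2` of type (c).** -/
def s59g_IAstrictThreeC : Prop :=
  ∀ (W : WeierstrassCurve ℤ), W.Δ ≠ 0 → W.IsSemistableModel →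
    W.ModRepIsIrreducible 3 → ∀ (M : ℕ), 0 < M → Squarefree M → 3 ∣ M → ¬ s59g_Peu W 3 → 2 ∣ M →
    s59_Unr W 3 2 → ¬ s59g_E2 W 3 2 → W.IsResiduallyModularOfLevel 3 (M / 2) →
    ∀ Bd : Finset ℕ, Bd.Nonempty →
    (∀ q ∈ Bd, q.Prime ∧ q ≠ 3 ∧ q ∣ M ∧ s59_Unr W 3 q ∧ s59g_Scalar W 3 q) →
    (∀ ℓ : ℕ, ℓ.Prime → ℓ ≠ 3 → ℓ ≠ 2 → ℓ ∣ M → ℓ ∉ Bd → ¬ s59_Unr W 3 ℓ) →
    W.IsResiduallyModularOfLevel 3 M → ∃ q ∈ Bd, W.IsResiduallyModularOfLevel 3 (M / q)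

/-- **[LIFT_W] at `p = 3`, EVEN level, `2` of type (c)**, with a `2`-old point. -/
def s59g_LIFTThreeC : Prop :=
  ∀ (W : WeierstrassCurve ℤ), W.Δ ≠ 0 → W.IsSemistableModel →
    W.ModRepIsIrreducible 3 → ∀ (M : ℕ), s59g_Inv2T W 3 M → 2 ∣ M →
    s59_Unr W 3 2 → ¬ s59g_E2 W 3 2 → W.IsResiduallyModularOfLevel 3 (M / 2) →
    (∀ q : ℕ, q.Prime → q ≠ 3 → q ≠ 2 → q ∣ M → ¬ s59_Unr W 3 q) →
    W.IsResiduallyModularOfLevel 3 M → s59g_AlmostModular W 3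

/-- the type of `2` is (a)/(b) or (c). -/
theorem s59g_T2_or (W : WeierstrassCurve ℤ) :
    s59g_T2 W ∨ (s59_Unr W 3 2 ∧ ¬ s59g_E2 W 3 2) := by
  by_cases hunr : s59_Unr W 3 2
  · by_cases hE : s59g_E2 W 3 2
    · exact Or.inl (Or.inr hE)
    · exact Or.inr ⟨hunr, hE⟩
  · exact Or.inl (Or.inl hunr)

theorem s59g_IAflatThreeW_of (hab : s59g_IAflatThree) (hc : s59g_IAflatThreeC) :
    s59g_IAflatThreeW := by
  intro W hΔ hW hirr M h0 hsq h3M h2M h2old Bd hne hB hram hres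
  rcases s59g_T2_or W with hT | ⟨hunr, hE⟩
  · exact hab W hΔ hW hirr M h0 hsq h3M h2M hT Bd hne hB hram hres
  · exact hc W hΔ hW hirr M h0 hsq h3M h2M hunr hE (h2old hunr) Bd hne hB hram hres

theorem s59g_IAstrictThreeW_of (hab : s59g_IAstrictThree) (hc : s59g_IAstrictThreeC) :
    s59g_IAstrictThreeW := by
  intro W hΔ hW hirr M h0 hsq h3M hpeu h2M h2old Bd hne hB hram hres
  rcases s59g_T2_or W with hT | ⟨hunr, hE⟩
  · exact hab W hΔ hW hirr M h0 hsq h3M hpeu h2M hT Bd hne hB hram hres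
  · exact hc W hΔ hW hirr M h0 hsq h3M hpeu h2M hunr hE (h2old hunr) Bd hne hB hram hres

theorem s59g_LIFTThreeW_of (hab : s59g_LIFTThree) (hc : s59g_LIFTThreeC) : s59g_LIFTThreeW := by
  intro W hΔ hW hirr M hinv h2M h2old hram hres
  rcases s59g_T2_or W with hT | ⟨hunr, hE⟩
  · exact hab W hΔ hW hirr M hinv h2M hT hram hres
  · exact hc W hΔ hW hirr M hinv h2M hunr hE (h2old hunr) hram hres

structure s59g_NodesThreeX : Prop where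
  car : s59g_CARgoodAt 3
  mrp : s59g_MRPevenAt 3
  mrpMult : s59g_MRPmultEvenAt 3
  mpBig : s59g_MPbigAt 3
  mp32 : s59g_MP32
  iaFlatAB : s59g_IAflatThree
  iaFlatC : s59g_IAflatThreeC
  iaStrictAB : s59g_IAstrictThree
  iaStrictC : s59g_IAstrictThreeC
  liftAB : s59g_LIFTThree
  liftC : s59g_LIFTThreeC

theorem s59g_NodesThreeW_ofX (h : s59g_NodesThreeX) : s59g_NodesThreeW :=
  ⟨h.car, h.mrp, h.mrpMult, h.mpBig, h.mp32, s59g_IAflatThreeW_of h.iaFlatAB h.iaFlatC,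
    s59g_IAstrictThreeW_of h.iaStrictAB h.iaStrictC, s59g_LIFTThreeW_of h.liftAB h.liftC⟩

/-- **S59 from the nodes of v3.8** — the frozen statement, verbatim.  CHECKED. -/
theorem s59g_S59_X (h3 : s59g_NodesThreeX) (h5 : s59g_NodesFiveW)
    (p : ℕ) (hp : p = 3 ∨ p = 5)
    (W : WeierstrassCurve ℤ) (hΔ : W.Δ ≠ 0) (hW : W.IsSemistableModel)
    (hirr : W.ModRepIsIrreducible p)
    (M₀ : ℕ) [NeZero M₀] (hres₀ : W.IsResiduallyModularOfLevel p M₀)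
    (hM₀ : ¬ p ^ 2 ∣ M₀)
    (hM₀3 : ∀ q : ℕ, q.Prime → q ≠ p → ¬ q ^ 3 ∣ M₀) :
    Mlc1IsModularModelOfExactConductorLevel W :=
  s59g_S59_W (s59g_NodesThreeW_ofX h3) h5 p hp W hΔ hW hirr M₀ hres₀ hM₀ hM₀3

end Fermat.Agent.Lib.S59

end
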