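/-
PROGRAMME (R2) = S59 — CONTRACT GRAPH v3.9 (helper1): every [LIFT] field of v3.8 SPLIT by the type of `W` at `p`.
NEW file, NEW names; imports `Graph3X.lean`; changes nothing there.

  case (GT)  `W` good at `p`, or `ρ̄` très ramifié at `p`  (`s59g_GT W p`)       : the deformation type at `p` is the one of the
             level (`p ∤ M`: flat; `p ∣ M`: strict, every datum of level `p ∥ N` is strict by helper6's (T1)) — this is what
             [PATCH-min] + [PATCH-FLR] deliver;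
  case (P)   `W` multiplicative at `p` and `ρ̄` peu ramifié (`s59g_MultPeu W p`)  : then `p ∤ M` (invariant `s59g_Inv2T`), `ρ̄` is
             finite at `p` but `ρ_W` is not: (RAISE-p) + the `p`-NEW Hecke side (strict type on the kernel-new part of level
             `M p`) — helper6 #3659 §4, (P1)–(P3).  Its own fields, so that the owners of [PATCH] can close (GT) without it.

CHECKED: `s59g_NodesThreeX_ofY`, `s59g_NodesFiveW_ofY`, hence
`s59g_S59_Y : s59g_NodesThreeY → s59g_NodesFiveY → <frozen S59 verbatim>`.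
-/
import Fermat.Agent.Lib.S59.Graph3X

set_option autoImplicit false

open CongruenceSubgroup ModularFormClass

noncomputable section

namespace Fermat.Agent.Lib.S59

/-- case (P): `W` is bad (hence multiplicative) at `p` and `ρ̄` is peu ramifié at `p`. -/
def s59g_MultPeu (W : WeierstrassCurve ℤ) (p : ℕ) : Prop :=
  ¬ W.IsGoodPrimeFor p ∧ s59g_Peu W p

/-- case (GT): `W` is good at `p`, or `ρ̄` is très ramifié at `p`. -/
def s59g_GT (W : WeierstrassCurve ℤ) (p : ℕ) : Prop :=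
  W.IsGoodPrimeFor p ∨ ¬ s59g_Peu W p

theorem s59g_GT_or_P (W : WeierstrassCurve ℤ) (p : ℕ) : s59g_GT W p ∨ s59g_MultPeu W p := by
  by_cases hg : W.IsGoodPrimeFor p
  · exact Or.inl (Or.inl hg)
  · by_cases hpeu : s59g_Peu W p
    · exact Or.inr ⟨hg, hpeu⟩
    · exact Or.inl (Or.inr hpeu)

/-- in case (P) the invariant forces `p ∤ M`. -/
theorem s59g_not_dvd_of_multPeu {W : WeierstrassCurve ℤ} {p M : ℕ} (hinv : s59g_Inv2T W p M)
    (hP : s59g_MultPeu W p) : ¬ p ∣ M :=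
  fun h => hinv.2.2 h hP.2

/-! ### `p = 3` -/

/-- [LIFT_W] at `p = 3`, `2` of type (a)/(b), case (GT). -/
def s59g_LIFTThreeGT : Prop :=
  ∀ (W : WeierstrassCurve ℤ), W.Δ ≠ 0 → W.IsSemistableModel →
    W.ModRepIsIrreducible 3 → ∀ (M : ℕ), s59g_Inv2T W 3 M → s59g_GT W 3 → 2 ∣ M → s59g_T2 W →
    (∀ q : ℕ, q.Prime → q ≠ 3 → q ≠ 2 → q ∣ M → ¬ s59_Unr W 3 q) →
    W.IsResiduallyModularOfLevel 3 M → s59g_AlmostModular W 3

/-- [LIFT_W] at `p = 3`, `2` of type (a)/(b), case (P): `3 ∤ M`, `W` multiplicative and peu at `3`. -/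
def s59g_LIFTThreeP : Prop :=
  ∀ (W : WeierstrassCurve ℤ), W.Δ ≠ 0 → W.IsSemistableModel →
    W.ModRepIsIrreducible 3 → ∀ (M : ℕ), 0 < M → Squarefree M → ¬ 3 ∣ M → s59g_MultPeu W 3 →
    2 ∣ M → s59g_T2 W →
    (∀ q : ℕ, q.Prime → q ≠ 3 → q ≠ 2 → q ∣ M → ¬ s59_Unr W 3 q) →
    W.IsResiduallyModularOfLevel 3 M → s59g_AlmostModular W 3

/-- [LIFT_W] at `p = 3`, `2` of type (c), case (GT). -/
def s59g_LIFTThreeCGT : Prop :=
  ∀ (W : WeierstrassCurve ℤ), W.Δ ≠ 0 → W.IsSemistableModel →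
    W.ModRepIsIrreducible 3 → ∀ (M : ℕ), s59g_Inv2T W 3 M → s59g_GT W 3 → 2 ∣ M →
    s59_Unr W 3 2 → ¬ s59g_E2 W 3 2 → W.IsResiduallyModularOfLevel 3 (M / 2) →
    (∀ q : ℕ, q.Prime → q ≠ 3 → q ≠ 2 → q ∣ M → ¬ s59_Unr W 3 q) →
    W.IsResiduallyModularOfLevel 3 M → s59g_AlmostModular W 3

/-- [LIFT_W] at `p = 3`, `2` of type (c), case (P). -/
def s59g_LIFTThreeCP : Prop :=
  ∀ (W : WeierstrassCurve ℤ), W.Δ ≠ 0 → W.IsSemistableModel →
    W.ModRepIsIrreducible 3 → ∀ (M : ℕ), 0 < M → Squarefree M → ¬ 3 ∣ M → s59g_MultPeu W 3 →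
    2 ∣ M → s59_Unr W 3 2 → ¬ s59g_E2 W 3 2 → W.IsResiduallyModularOfLevel 3 (M / 2) →
    (∀ q : ℕ, q.Prime → q ≠ 3 → q ≠ 2 → q ∣ M → ¬ s59_Unr W 3 q) →
    W.IsResiduallyModularOfLevel 3 M → s59g_AlmostModular W 3

theorem s59g_LIFTThree_of (hGT : s59g_LIFTThreeGT) (hP : s59g_LIFTThreeP) : s59g_LIFTThree := by
  intro W hΔ hW hirr M hinv h2M hT hram hres
  rcases s59g_GT_or_P W 3 with h | h
  · exact hGT W hΔ hW hirr M hinv h h2M hT hram hres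
  · exact hP W hΔ hW hirr M hinv.1 hinv.2.1 (s59g_not_dvd_of_multPeu hinv h) h h2M hT hram hres

theorem s59g_LIFTThreeC_of (hGT : s59g_LIFTThreeCGT) (hP : s59g_LIFTThreeCP) :
    s59g_LIFTThreeC := by
  intro W hΔ hW hirr M hinv h2M hunr hE h2old hram hres
  rcases s59g_GT_or_P W 3 with h | h
  · exact hGT W hΔ hW hirr M hinv h h2M hunr hE h2old hram hres
  · exact hP W hΔ hW hirr M hinv.1 hinv.2.1 (s59g_not_dvd_of_multPeu hinv h) h h2M hunr hE h2old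
      hram hres

structure s59g_NodesThreeY : Prop where
  car : s59g_CARgoodAt 3
  mrp : s59g_MRPevenAt 3
  mrpMult : s59g_MRPmultEvenAt 3
  mpBig : s59g_MPbigAt 3
  mp32 : s59g_MP32
  iaFlatAB : s59g_IAflatThree
  iaFlatC : s59g_IAflatThreeC
  iaStrictAB : s59g_IAstrictThree
  iaStrictC : s59g_IAstrictThreeC
  liftABgt : s59g_LIFTThreeGT
  liftABp : s59g_LIFTThreeP
  liftCgt : s59g_LIFTThreeCGT
  liftCp : s59g_LIFTThreeCP

theorem s59g_NodesThreeX_ofY (h : s59g_NodesThreeY) : s59g_NodesThreeX :=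
  ⟨h.car, h.mrp, h.mrpMult, h.mpBig, h.mp32, h.iaFlatAB, h.iaFlatC, h.iaStrictAB, h.iaStrictC,
    s59g_LIFTThree_of h.liftABgt h.liftABp, s59g_LIFTThreeC_of h.liftCgt h.liftCp⟩

/-! ### `p = 5` -/

/-- [LIFT_W] at `p = 5` under `hT23`, case (GT). -/
def s59g_LIFTfive23GT : Prop :=
  ∀ (W : WeierstrassCurve ℤ), W.Δ ≠ 0 → W.IsSemistableModel →
    W.ModRepIsIrreducible 5 → ∀ (M : ℕ), s59g_Inv2T W 5 M → s59g_GT W 5 → s59g_T23 W M →
    (∀ q : ℕ, q.Prime → q ≠ 5 → q ∣ M → ¬ s59_Unr W 5 q) →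
    W.IsResiduallyModularOfLevel 5 M → s59g_AlmostModular W 5

/-- [LIFT_W] at `p = 5` under `hT23`, case (P). -/
def s59g_LIFTfive23P : Prop :=
  ∀ (W : WeierstrassCurve ℤ), W.Δ ≠ 0 → W.IsSemistableModel →
    W.ModRepIsIrreducible 5 → ∀ (M : ℕ), 0 < M → Squarefree M → ¬ 5 ∣ M → s59g_MultPeu W 5 →
    s59g_T23 W M →
    (∀ q : ℕ, q.Prime → q ≠ 5 → q ∣ M → ¬ s59_Unr W 5 q) →
    W.IsResiduallyModularOfLevel 5 M → s59g_AlmostModular W 5

/-- the corner at `p = 5`, case (GT). -/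
def s59g_Corner5GT : Prop :=
  ∀ (W : WeierstrassCurve ℤ), W.Δ ≠ 0 → W.IsSemistableModel →
    W.ModRepIsIrreducible 5 → ∀ (M : ℕ), s59g_Inv2T W 5 M → s59g_GT W 5 → ¬ s59g_T23 W M →
    (∀ q : ℕ, q.Prime → q ≠ 5 → q ∣ M → ¬ s59_Unr W 5 q) →
    W.IsResiduallyModularOfLevel 5 M → s59g_AlmostModular W 5

/-- the corner at `p = 5`, case (P). -/
def s59g_Corner5P : Prop :=
  ∀ (W : WeierstrassCurve ℤ), W.Δ ≠ 0 → W.IsSemistableModel →
    W.ModRepIsIrreducible 5 → ∀ (M : ℕ), 0 < M → Squarefree M → ¬ 5 ∣ M → s59g_MultPeu W 5 →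
    ¬ s59g_T23 W M →
    (∀ q : ℕ, q.Prime → q ≠ 5 → q ∣ M → ¬ s59_Unr W 5 q) →
    W.IsResiduallyModularOfLevel 5 M → s59g_AlmostModular W 5

theorem s59g_LIFTfive23_of (hGT : s59g_LIFTfive23GT) (hP : s59g_LIFTfive23P) :
    s59g_LIFTfive23 := by
  intro W hΔ hW hirr M hinv hT hram hres
  rcases s59g_GT_or_P W 5 with h | h
  · exact hGT W hΔ hW hirr M hinv h hT hram hres
  · exact hP W hΔ hW hirr M hinv.1 hinv.2.1 (s59g_not_dvd_of_multPeu hinv h) h hT hram hres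

theorem s59g_Corner5_of (hGT : s59g_Corner5GT) (hP : s59g_Corner5P) : s59g_Corner5 := by
  intro W hΔ hW hirr M hinv hT hram hres
  rcases s59g_GT_or_P W 5 with h | h
  · exact hGT W hΔ hW hirr M hinv h hT hram hres
  · exact hP W hΔ hW hirr M hinv.1 hinv.2.1 (s59g_not_dvd_of_multPeu hinv h) h hT hram hres

structure s59g_NodesFiveY : Prop where
  car : s59g_CARgoodAt 5
  mrp : s59g_MRPevenAt 5
  mrpMult : s59g_MRPmultEvenAt 5
  mpBig : s59g_MPbigAt 5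
  mpThree : s59g_MPthree
  mpTwo : s59g_MPtwoFive
  iaFlat : s59g_IAflatAt 5 true
  iaStrict : s59g_IAstrictTAt 5 true
  lift23gt : s59g_LIFTfive23GT
  lift23p : s59g_LIFTfive23P
  cornerGt : s59g_Corner5GT
  cornerP : s59g_Corner5P

theorem s59g_NodesFiveW_ofY (h : s59g_NodesFiveY) : s59g_NodesFiveW :=
  ⟨h.car, h.mrp, h.mrpMult, h.mpBig, h.mpThree, h.mpTwo, h.iaFlat, h.iaStrict,
    s59g_LIFTfive23_of h.lift23gt h.lift23p, s59g_Corner5_of h.cornerGt h.cornerP⟩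

/-- **S59 from the nodes of v3.9** — the frozen statement, verbatim.  CHECKED. -/
theorem s59g_S59_Y (h3 : s59g_NodesThreeY) (h5 : s59g_NodesFiveY)
    (p : ℕ) (hp : p = 3 ∨ p = 5)
    (W : WeierstrassCurve ℤ) (hΔ : W.Δ ≠ 0) (hW : W.IsSemistableModel)
    (hirr : W.ModRepIsIrreducible p)
    (M₀ : ℕ) [NeZero M₀] (hres₀ : W.IsResiduallyModularOfLevel p M₀)
    (hM₀ : ¬ p ^ 2 ∣ M₀)
    (hM₀3 : ∀ q : ℕ, q.Prime → q ≠ p → ¬ q ^ 3 ∣ M₀) :
    Mlc1IsModularModelOfExactConductorLevel W :=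
  s59g_S59_X (s59g_NodesThreeX_ofY h3) (s59g_NodesFiveW_ofY h5) p hp W hΔ hW hirr M₀ hres₀ hM₀ hM₀3

end Fermat.Agent.Lib.S59

end
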