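/-
PROGRAMME (R2) = S59 — CONTRACT GRAPH v3.10 (helper1): the type-(c) [LIFT] fields at `p = 3` SPLIT by the type of `W` at `2`.
NEW file, NEW names; imports `Graph3Y.lean`; changes nothing there.

  (c1)  `W` GOOD at `2`, `3 ∣ a₂(W)`            : `ρ_W` lies on the component `unr₂` of the spectator ring [LOC−] ONLY.  Base point =
        the 2-old point of the level-`M/2` form; it lies on `unr` only by the strict trivial bound [RP-2] = `s59rp_sq_ne`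
        (`GRPMain.lean`, PROVED).  So (c1) = [PATCH] wiring.
  (c2)  `W` MULTIPLICATIVE at `2`, `3 ∣ v₂(Δ)`  : `ρ_W` lies on `St_ε`, `ε = a₂(W)`.  Needs [S41±] (level raising at (3,2) with
        prescribed sign), [S35±] (sign of Frobenius = `U₂`) and [RP-2].

CHECKED: `s59g_NodesThreeY_ofZ`, hence `s59g_S59_Z : s59g_NodesThreeZ → s59g_NodesFiveY → <frozen S59 verbatim>`.
-/
import Fermat.Agent.Lib.S59.Graph3Y

set_option autoImplicit false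

open CongruenceSubgroup ModularFormClass

noncomputable section

namespace Fermat.Agent.Lib.S59

/-- in type (c), a curve which is good at `2` has `3 ∣ a₂`. -/
theorem s59g_three_dvd_a2 {W : WeierstrassCurve ℤ} (hgood : W.IsGoodPrimeFor 2)
    (hE : ¬ s59g_E2 W 3 2) : (3 : ℤ) ∣ W.apOfModel 2 := by
  unfold s59g_E2 at hE
  have h1 : ¬ (3 : ℕ) ∣ 2 - 1 := by norm_num
  have h2 : ((3 : ℕ) : ℤ) ∣ W.apOfModel 2 ^ 2 - (((2 : ℕ) : ℤ) + 1) ^ 2 := by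
    by_contra h
    exact hE ⟨hgood, h1, h⟩
  have h3 : (3 : ℤ) ∣ W.apOfModel 2 ^ 2 := by
    have h4 : (3 : ℤ) ∣ W.apOfModel 2 ^ 2 - 9 := by
      have : (((2 : ℕ) : ℤ) + 1) ^ 2 = 9 := by norm_num
      rw [this] at h2
      exact_mod_cast h2
    have : W.apOfModel 2 ^ 2 = (W.apOfModel 2 ^ 2 - 9) + 3 * 3 := by ring
    rw [this]
    exact dvd_add h4 (dvd_mul_right 3 3)
  exact Int.Prime.dvd_pow' Nat.prime_three h3

/-- [LIFT_W] at `p = 3`, `2` of type (c1) (`W` good at `2`), case (GT). -/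
def s59g_LIFTThreeC1GT : Prop :=
  ∀ (W : WeierstrassCurve ℤ), W.Δ ≠ 0 → W.IsSemistableModel →
    W.ModRepIsIrreducible 3 → ∀ (M : ℕ), s59g_Inv2T W 3 M → s59g_GT W 3 → 2 ∣ M →
    s59_Unr W 3 2 → W.IsGoodPrimeFor 2 → (3 : ℤ) ∣ W.apOfModel 2 →
    W.IsResiduallyModularOfLevel 3 (M / 2) →
    (∀ q : ℕ, q.Prime → q ≠ 3 → q ≠ 2 → q ∣ M → ¬ s59_Unr W 3 q) →
    W.IsResiduallyModularOfLevel 3 M → s59g_AlmostModular W 3

/-- [LIFT_W] at `p = 3`, `2` of type (c2) (`W` multiplicative at `2`), case (GT). -/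
def s59g_LIFTThreeC2GT : Prop :=
  ∀ (W : WeierstrassCurve ℤ), W.Δ ≠ 0 → W.IsSemistableModel →
    W.ModRepIsIrreducible 3 → ∀ (M : ℕ), s59g_Inv2T W 3 M → s59g_GT W 3 → 2 ∣ M →
    s59_Unr W 3 2 → ¬ W.IsGoodPrimeFor 2 →
    W.IsResiduallyModularOfLevel 3 (M / 2) →
    (∀ q : ℕ, q.Prime → q ≠ 3 → q ≠ 2 → q ∣ M → ¬ s59_Unr W 3 q) →
    W.IsResiduallyModularOfLevel 3 M → s59g_AlmostModular W 3

/-- [LIFT_W] at `p = 3`, `2` of type (c1), case (P). -/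
def s59g_LIFTThreeC1P : Prop :=
  ∀ (W : WeierstrassCurve ℤ), W.Δ ≠ 0 → W.IsSemistableModel →
    W.ModRepIsIrreducible 3 → ∀ (M : ℕ), 0 < M → Squarefree M → ¬ 3 ∣ M → s59g_MultPeu W 3 →
    2 ∣ M → s59_Unr W 3 2 → W.IsGoodPrimeFor 2 → (3 : ℤ) ∣ W.apOfModel 2 →
    W.IsResiduallyModularOfLevel 3 (M / 2) →
    (∀ q : ℕ, q.Prime → q ≠ 3 → q ≠ 2 → q ∣ M → ¬ s59_Unr W 3 q) →
    W.IsResiduallyModularOfLevel 3 M → s59g_AlmostModular W 3

/-- [LIFT_W] at `p = 3`, `2` of type (c2), case (P). -/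
def s59g_LIFTThreeC2P : Prop :=
  ∀ (W : WeierstrassCurve ℤ), W.Δ ≠ 0 → W.IsSemistableModel →
    W.ModRepIsIrreducible 3 → ∀ (M : ℕ), 0 < M → Squarefree M → ¬ 3 ∣ M → s59g_MultPeu W 3 →
    2 ∣ M → s59_Unr W 3 2 → ¬ W.IsGoodPrimeFor 2 →
    W.IsResiduallyModularOfLevel 3 (M / 2) →
    (∀ q : ℕ, q.Prime → q ≠ 3 → q ≠ 2 → q ∣ M → ¬ s59_Unr W 3 q) →
    W.IsResiduallyModularOfLevel 3 M → s59g_AlmostModular W 3

theorem s59g_LIFTThreeCGT_of (h1 : s59g_LIFTThreeC1GT) (h2 : s59g_LIFTThreeC2GT) :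
    s59g_LIFTThreeCGT := by
  intro W hΔ hW hirr M hinv hGT h2M hunr hE h2old hram hres
  by_cases hgood : W.IsGoodPrimeFor 2
  · exact h1 W hΔ hW hirr M hinv hGT h2M hunr hgood (s59g_three_dvd_a2 hgood hE) h2old hram hres
  · exact h2 W hΔ hW hirr M hinv hGT h2M hunr hgood h2old hram hres

theorem s59g_LIFTThreeCP_of (h1 : s59g_LIFTThreeC1P) (h2 : s59g_LIFTThreeC2P) :
    s59g_LIFTThreeCP := by
  intro W hΔ hW hirr M hM hsq h3M hP h2M hunr hE h2old hram hres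
  by_cases hgood : W.IsGoodPrimeFor 2
  · exact h1 W hΔ hW hirr M hM hsq h3M hP h2M hunr hgood (s59g_three_dvd_a2 hgood hE) h2old hram
      hres
  · exact h2 W hΔ hW hirr M hM hsq h3M hP h2M hunr hgood h2old hram hres

structure s59g_NodesThreeZ : Prop where
  car : s59g_CARgoodAt 3
  mrp : s59g_MRPevenAt 3
  mrpMult : s59g_MRPmultEvenAt 3
  mpBig : s59g_MPbigAt 3
  mp32 : s59g_MP32
  iaFlatAB : s59g_IAflatThree
  iaFlatC : s59g_IAflatThreeC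
  iaStrictAB : s59g_IAstrictThree
  iaStrictC : s59g_IAstrictThreeC
  liftABgt : s59g_LIFTThreeGT
  liftABp : s59g_LIFTThreeP
  liftC1gt : s59g_LIFTThreeC1GT
  liftC2gt : s59g_LIFTThreeC2GT
  liftC1p : s59g_LIFTThreeC1P
  liftC2p : s59g_LIFTThreeC2P

theorem s59g_NodesThreeY_ofZ (h : s59g_NodesThreeZ) : s59g_NodesThreeY :=
  ⟨h.car, h.mrp, h.mrpMult, h.mpBig, h.mp32, h.iaFlatAB, h.iaFlatC, h.iaStrictAB, h.iaStrictC,
    h.liftABgt, h.liftABp, s59g_LIFTThreeCGT_of h.liftC1gt h.liftC2gt,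
    s59g_LIFTThreeCP_of h.liftC1p h.liftC2p⟩

/-- **S59 from the nodes of v3.10** — the frozen statement, verbatim.  CHECKED. -/
theorem s59g_S59_Z (h3 : s59g_NodesThreeZ) (h5 : s59g_NodesFiveY)
    (p : ℕ) (hp : p = 3 ∨ p = 5)
    (W : WeierstrassCurve ℤ) (hΔ : W.Δ ≠ 0) (hW : W.IsSemistableModel)
    (hirr : W.ModRepIsIrreducible p)
    (M₀ : ℕ) [NeZero M₀] (hres₀ : W.IsResiduallyModularOfLevel p M₀)
    (hM₀ : ¬ p ^ 2 ∣ M₀)
    (hM₀3 : ∀ q : ℕ, q.Prime → q ≠ p → ¬ q ^ 3 ∣ M₀) :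
    Mlc1IsModularModelOfExactConductorLevel W :=
  s59g_S59_Y (s59g_NodesThreeY_ofZ h3) h5 p hp W hΔ hW hirr M₀ hres₀ hM₀ hM₀3

end Fermat.Agent.Lib.S59

end
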