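/-
PROGRAMME R2 = S59, node [PATCH-FLR] / [SPEC-R] (helper3, prefix `s59u_sp_`), part I:
**THE TOP OF THE FLAT LEVEL-RAISING PATCH WITH ONE SPECTATOR PRIME** — the twin of helper4's
`s59f_FLR_flat` (FAsmW5.lean) over `s59u_sp_FLR_W_core` (USpH.lean).

`W` semistable, good at `p`, `ρ̄_{W,p}` irreducible; `N₀` squarefree prime to `p`; `s ∣ N₀` the spectator
(`s ≠ p`, `p ∤ s − 1`, `ρ̄` unramified at `s`); every other prime of `N₀` is a ramified prime of `ρ̄`;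
`ρ̄` modular of level `N₀ / s` (this provides the universal ring of the type of the base level); NO
hypothesis on the bad primes of `W`: the raising primes are
`Rs = {q ≠ p, s : W bad at q, ρ̄ unramified at q, ρ_W ⊗ 𝒪 ramified at q}` (possibly empty).

* `s59u_sp_cp_good`     : at a good prime `s ≠ p` with `a_s(W) ≡ ε(s+1) mod p` the residual Frobenius
                          polynomial is `(X − ε̄s)(X − ε̄)`;
* `s59u_sp_FLR_flat_aux`: the assembly for a fixed coefficient ring `𝒪` and a fixed position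
                          (`k₀`, `εs`, `φs`) of `ρ_W ⊗ 𝒪` at `s`;
* **`s59u_sp_FLR_flat_c1`** : type (c1) — `W` GOOD at `s`, `a_s(W) ≡ ε(s+1) mod p` — over the contract
                          `s59u_sp_TPkgFLR p W hΔ N₀ s 0`;
* **`s59u_sp_FLR_flat_c2`** : type (c2) — `W` BAD at `s` — over the contract at `k₀ = 1` (if `ρ_W ⊗ 𝒪` is
                          ramified at `s`: the sign and the residual Frobenius polynomial come from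
                          helper4's `s59f_W_sign`) and, for the case `ρ_W ⊗ 𝒪` unramified at `s` (which
                          does not occur, but this is not in the library), the contract at `k₀ = 0` and
                          the residual Frobenius polynomial at `s`;
  both in the shape of helper1's `s59g_HeckePt W p` (Graph3.lean), unfolded.
-/
import Mathlib
import Fermat.Agent.Lib.S59.USpH
import Fermat.Agent.Lib.S59.ELMin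
import Fermat.Agent.Lib.S59.ELMinR
import Fermat.Agent.Lib.S59.FAsmHD

set_option autoImplicit false
set_option linter.unusedSectionVars false
set_option linter.unusedVariables false
set_option linter.style.haveILetI false
set_option maxHeartbeats 3200000
set_option synthInstance.maxHeartbeats 400000

noncomputable section

namespace Fermat.Agent.Lib.S59

open IsLocalRing CuspForm Polynomial ExtCitation
open Fermat.Agent.Lib.S53 (matOf matOfRes NormData)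
open Fermat.Agent.Lib.S56 Fermat.Agent.Lib.S44

local notation "Γℚ" => (AlgebraicClosure ℚ ≃ₐ[ℚ] AlgebraicClosure ℚ)

section CpGood

variable (W : WeierstrassCurve ℤ) {p : ℕ} [hpP : Fact p.Prime] (hΔ : W.Δ ≠ 0)
  {𝒪 : Type} [CommRing 𝒪] [IsLocalRing 𝒪] [Algebra ℤ_[p] 𝒪]
  (hp𝒪 : ((p : ℕ) : 𝒪) ∈ maximalIdeal 𝒪)

/-- **the residual Frobenius polynomial at a good prime `s ≠ p` with `a_s(W) ≡ ε(s+1) mod p`.** -/
theorem s59u_sp_cp_good (hp2 : p ≠ 2) (hirr : W.ModRepIsIrreducible p) (s : ℕ) (hs : s.Prime)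
    (hsp : s ≠ p) (hgood : W.IsGoodPrimeFor s) (εz : ℤ) (hεz : εz = 1 ∨ εz = -1)
    (hap : (p : ℤ) ∣ W.apOfModel s - εz * ((s : ℤ) + 1))
    (A : ValuationSubring (AlgebraicClosure ℚ)) (hA : A.LiesOverPrime s) (φ : Γℚ)
    (hφ : A.IsFrobeniusAt φ s) :
    LinearMap.charpoly ((s59i_rhobarW W p hΔ 𝒪 hp𝒪).ρ φ) =
      (X - C (residue 𝒪 (((εz : ℤ) : 𝒪) * ((s : ℕ) : 𝒪)))) * (X - C (residue 𝒪 ((εz : ℤ) : 𝒪))) := by
  classical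
  have hsB : s ∉ insert p W.Δ.natAbs.primeFactors := by
    intro h
    rcases Finset.mem_insert.mp h with h | h
    · exact hsp h
    · exact hgood (Int.natCast_dvd.mpr (Nat.mem_primeFactors.mp h).2.1)
  have h1 := s59e_rhobarW_charpoly_frob (𝒪 := 𝒪) hΔ hp2 hirr hp𝒪 (insert p W.Δ.natAbs.primeFactors)
    (Finset.mem_insert_self _ _)
    (fun r hr hbad => Finset.mem_insert_of_mem (Nat.mem_primeFactors.mpr
      ⟨hr, Int.natCast_dvd.mp (by by_contra h; exact hbad h), Int.natAbs_ne_zero.mpr hΔ⟩))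
    s hs hsB A hA φ hφ
  rw [h1]
  have hε2 : ((εz : ℤ) : 𝒪) * ((εz : ℤ) : 𝒪) = 1 := by
    rcases hεz with h | h <;> rw [h] <;> simp
  have hmem : ((W.apOfModel s : ℤ) : 𝒪) - ((εz : ℤ) : 𝒪) * (((s : ℕ) : 𝒪) + 1) ∈ maximalIdeal 𝒪 := by
    obtain ⟨c, hc⟩ := hap
    have h2 : ((W.apOfModel s : ℤ) : 𝒪) - ((εz : ℤ) : 𝒪) * (((s : ℕ) : 𝒪) + 1) =
        ((p : ℕ) : 𝒪) * ((c : ℤ) : 𝒪) := by
      have := congrArg (fun z : ℤ => ((z : ℤ) : 𝒪)) hc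
      simp only [Int.cast_sub, Int.cast_mul, Int.cast_add, Int.cast_natCast, Int.cast_one] at this
      exact this
    rw [h2]
    exact Ideal.mul_mem_right _ _ hp𝒪
  have hres := (residue_eq_zero_iff _).mpr hmem
  rw [map_sub, sub_eq_zero] at hres
  have e1 : residue 𝒪 ((W.apOfModel s : ℤ) : 𝒪) =
      residue 𝒪 (((εz : ℤ) : 𝒪) * ((s : ℕ) : 𝒪)) + residue 𝒪 ((εz : ℤ) : 𝒪) := by
    rw [hres, ← map_add]
    congr 1
    ring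
  have e2 : ((s : ℕ) : ResidueField 𝒪) =
      residue 𝒪 (((εz : ℤ) : 𝒪) * ((s : ℕ) : 𝒪)) * residue 𝒪 ((εz : ℤ) : 𝒪) := by
    rw [← map_mul, show ((εz : ℤ) : 𝒪) * ((s : ℕ) : 𝒪) * ((εz : ℤ) : 𝒪) =
      (((εz : ℤ) : 𝒪) * ((εz : ℤ) : 𝒪)) * ((s : ℕ) : 𝒪) by ring, hε2, one_mul, map_natCast]
  rw [e1, e2, C_add, C_mul]
  ring

end CpGood

/-! ### The assembly for a fixed coefficient ring -/

/-- **[PATCH-FLR], flat case, one spectator `s ∣ N₀`: the assembly for a fixed coefficient ring `𝒪` and a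
fixed position `(k₀, εs, φs)` of `ρ_W ⊗ 𝒪` at `s`.** The raising primes are
`Rs = {q ≠ p, s : W bad, ρ̄ unramified, ρ_W ⊗ 𝒪 ramified at q}`; the universal ring of the type of the base
level comes from the modularity of `ρ̄` at the level `N₀ / s`. -/
theorem s59u_sp_FLR_flat_aux (p : ℕ) [Fact p.Prime] (hp35 : p = 3 ∨ p = 5)
    (W : WeierstrassCurve ℤ) (hΔ : W.Δ ≠ 0) (hss : W.IsSemistableModel)
    (hirr : W.ModRepIsIrreducible p) (hgoodp : W.IsGoodPrimeFor p)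
    (N₀ : ℕ) [NeZero N₀] (hsq : Squarefree N₀) (hpN : ¬ p ∣ N₀)
    (s : Nat.Primes) (hsp : (s : ℕ) ≠ p) (hsN₀ : (s : ℕ) ∣ N₀) (hsns : ¬ p ∣ (s : ℕ) - 1)
    (hsU : s59_Unr W p s)
    (hres' : W.IsResiduallyModularOfLevel p (N₀ / s))
    (hNtype : ∀ q : ℕ, q.Prime → q ∣ N₀ → q ≠ (s : ℕ) → ¬ s59_Unr W p q)
    (𝒪 : Type) [CommRing 𝒪] [IsDomain 𝒪] [IsDiscreteValuationRing 𝒪]
    [IsAdicComplete (maximalIdeal 𝒪) 𝒪] [Finite (ResidueField 𝒪)] [CharZero 𝒪]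
    [Algebra ℤ_[p] 𝒪] [Module.Finite ℤ_[p] 𝒪]
    (hp𝒪 : ((p : ℕ) : 𝒪) ∈ maximalIdeal 𝒪)
    (hsplit : ∀ a b : ℤ, ∃ α β : ResidueField 𝒪,
      α + β = (a : ResidueField 𝒪) ∧ α * β = (b : ResidueField 𝒪))
    (εs : 𝒪) (hεs : εs = 1 ∨ εs = -1)
    (φs : Γℚ) (hφs : (primeLocalPlace s).IsFrobeniusAt φs s)
    (hscp : LinearMap.charpoly ((s59q_WRhobar W hΔ hp𝒪).ρ φs) =
      (X - C (residue 𝒪 (εs * (((s : ℕ) : ℕ) : 𝒪)))) * (X - C (residue 𝒪 εs)))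
    (k₀ : ℕ)
    (hspec : (k₀ = 0 ∧ (s59q_WRho W hΔ hp𝒪).IsUnramifiedAt s) ∨
      (k₀ = 1 ∧ ¬ (s59q_WRho W hΔ hp𝒪).IsUnramifiedAt s ∧
        s59i_cpTr (s59q_WRho W hΔ hp𝒪) φs = εs * ((((s : ℕ) : ℕ) : 𝒪) + 1)))
    (HT : s59u_sp_TPkgFLR p W hΔ N₀ s k₀) :
    ∃ (N : ℕ) (_ : NeZero N) (χ : heckeAlgebra N 2
        (↑((N * p).primeFactors ∪ W.Δ.natAbs.primeFactors) : Set ℕ) →+* 𝒪),
      Squarefree N ∧ ¬ p ∣ N ∧
      ∀ (ℓ : ℕ) (hℓ : ℓ.Prime) (hℓN : ¬ ℓ ∣ N)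
        (hℓB : ℓ ∉ (↑((N * p).primeFactors ∪ W.Δ.natAbs.primeFactors) : Set ℕ)),
        χ (heckeAlgebra.T hℓ hℓN hℓB) = ((W.apOfModel ℓ : ℤ) : 𝒪) := by
  classical
  have hpp : p.Prime := Fact.out
  have hp2 : p ≠ 2 := s59q_W_p_ne_two hp35
  have hN0 : N₀ ≠ 0 := NeZero.ne N₀
  -- the raising primes
  set Rs : Finset ℕ := W.Δ.natAbs.primeFactors.filter (fun q => q ≠ p ∧ q ≠ (s : ℕ) ∧
    (s59q_WRhobar W hΔ hp𝒪).IsUnramifiedAt q ∧ ¬ (s59q_WRho W hΔ hp𝒪).IsUnramifiedAt q)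
    with hRsdef
  have hRs : ∀ q ∈ Rs, q.Prime ∧ q ≠ p ∧ ¬ q ∣ N₀ ∧ ¬ W.IsGoodPrimeFor q ∧
      (s59q_WRhobar W hΔ hp𝒪).IsUnramifiedAt q ∧
      ¬ (s59q_WRho W hΔ hp𝒪).IsUnramifiedAt q := by
    intro q hq
    obtain ⟨hqΔ, hqp, hqs, hU, hram⟩ := Finset.mem_filter.mp hq
    rw [Nat.mem_primeFactors] at hqΔ
    have hbadq : ¬ W.IsGoodPrimeFor q := fun hg => hg (Int.natCast_dvd.mpr hqΔ.2.1)
    refine ⟨hqΔ.1, hqp, ?_, hbadq, hU, hram⟩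
    intro hqN
    exact hNtype q hqΔ.1 hqN hqs ((s59q_W_unram_iff W hΔ hp𝒪 q).mp hU)
  have hsU' : (s59q_WRhobar W hΔ hp𝒪).IsUnramifiedAt s :=
    (s59q_W_unram_iff W hΔ hp𝒪 s).mpr hsU
  have hsSmin : (s : ℕ) ∉ s59q_WSmin W hΔ hp𝒪 := fun h =>
    ((s59q_WSmin_hmin W hΔ hp𝒪 hp2 s s.2 hsp).mp h) hsU'
  have hunrW : ∀ q : ℕ, q.Prime → q ∉ s59q_WSmin W hΔ hp𝒪 ∪ insert (s : ℕ) Rs →
      (s59q_WRho W hΔ hp𝒪).IsUnramifiedAt q := by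
    intro q hq hqS
    have hqSmin : q ∉ s59q_WSmin W hΔ hp𝒪 := fun h => hqS (Finset.mem_union_left _ h)
    have hqs : q ≠ (s : ℕ) := fun h =>
      hqS (Finset.mem_union_right _ (h ▸ Finset.mem_insert_self _ _))
    have hqRs : q ∉ Rs := fun h => hqS (Finset.mem_union_right _ (Finset.mem_insert_of_mem h))
    have hqp : q ≠ p := fun h => hqSmin (h ▸ s59q_WSmin_p_mem W hΔ hp𝒪)
    by_cases hgood : W.IsGoodPrimeFor q
    · exact s59e_bc_unram _ _ _ q (s59b_rhoW_unram hΔ hp2 q hq hqp hgood)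
    · by_contra hram
      apply hqRs
      refine Finset.mem_filter.mpr ⟨Nat.mem_primeFactors.mpr ⟨hq,
        Int.natCast_dvd.mp (s59q_W_dvd_disc_of_bad W q hq hgood), Int.natAbs_ne_zero.mpr hΔ⟩,
        hqp, hqs, ?_, hram⟩
      by_contra hU
      exact hqSmin ((s59q_WSmin_hmin W hΔ hp𝒪 hp2 q hq hqp).mpr hU)
  -- the level `N₀ / s`
  obtain ⟨M', hM'⟩ := id hsN₀
  have hdiv : N₀ / (s : ℕ) = M' := by rw [hM']; exact Nat.mul_div_cancel_left M' s.2.pos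
  rw [hdiv] at hres'
  have hM'0 : M' ≠ 0 := by
    rintro rfl
    exact hN0 (by rw [hM', mul_zero])
  haveI : NeZero M' := ⟨hM'0⟩
  have hM'dvd : M' ∣ N₀ := ⟨(s : ℕ), by rw [hM', mul_comm]⟩
  have hsqM' : Squarefree M' := hsq.squarefree_of_dvd hM'dvd
  have hpM' : ¬ p ∣ M' := fun h => hpN (h.trans hM'dvd)
  have hsM' : ¬ (s : ℕ) ∣ M' := by
    intro h
    have h2 : (s : ℕ) * (s : ℕ) ∣ N₀ := by rw [hM']; exact Nat.mul_dvd_mul_left _ h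
    exact s.2.not_isUnit (hsq _ h2)
  set B' : Finset ℕ := (M' * p).primeFactors ∪ W.Δ.natAbs.primeFactors with hB'
  have hB1' : ∀ r : ℕ, r.Prime → r ∣ M' * p → r ∈ B' := fun r hr hd =>
    Finset.mem_union_left _ (Nat.mem_primeFactors.mpr ⟨hr, hd, Nat.mul_ne_zero hM'0 hpp.ne_zero⟩)
  have hB2Δ' : ∀ r : ℕ, r.Prime → (r : ℤ) ∣ W.Δ → r ∈ B' := fun r hr hd =>
    Finset.mem_union_right _ (Nat.mem_primeFactors.mpr
      ⟨hr, Int.natCast_dvd.mp hd, Int.natAbs_ne_zero.mpr hΔ⟩)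
  have hB2' : ∀ r : ℕ, r.Prime → ¬ W.IsGoodPrimeFor r → r ∈ B' := by
    intro r hr hbad'
    refine hB2Δ' r hr ?_
    by_contra h
    exact hbad' h
  have hpB' : p ∈ B' := hB1' p hpp (Dvd.intro_left M' rfl)
  have hocc' := s59e_Lmin_levelOcc W p M' B' hB1' hB2' hres'
  obtain ⟨Rd, hSmin, hm, he⟩ := s59e_Lmin_RData W hΔ hp𝒪 hp35 hss hirr hsplit M' B' hpB' hB2Δ'
    (fun q hq hqM => by
      have hqp : q ≠ p := fun h => hpM' (h ▸ hqM)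
      have hqs : q ≠ (s : ℕ) := fun h => hsM' (h ▸ hqM)
      exact Or.inl ((s59q_WSmin_hmin W hΔ hp𝒪 hp2 q hq hqp).mpr fun hunr =>
        hNtype q hq (hqM.trans hM'dvd) hqs ((s59q_W_unram_iff W hΔ hp𝒪 q).mp hunr)))
  obtain ⟨Dm₀⟩ := s59e_W_existDQ W p hΔ hp2 hirr M' B' hB1' hB2' hocc' 𝒪 hp𝒪 Rd.habs hsqM' hpM'
    (∅ : Finset ℕ) Rd 0 Fin.elim0
  have hEd : Rd.Ed = ∅ := by
    haveI : IsEmpty (Fin Rd.e) := by rw [he]; infer_instance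
    rw [← Rd.hprE, Finset.univ_eq_empty, Finset.image_empty]
  have hsub : Rd.Smin ∪ ((∅ : Finset ℕ) ∪ Rd.Ed) ∪ Finset.univ.image (Fin.elim0 : Fin 0 → ℕ) ⊆
      s59q_WSmin W hΔ hp𝒪 := by
    rw [hEd, hSmin, Finset.univ_eq_empty, Finset.image_empty, Finset.union_empty,
      Finset.union_empty, Finset.union_empty]
  have hDm : Nonempty (GaloisRep.DeformationRingData 𝒪 (s59i_rhobarW W p hΔ 𝒪 hp𝒪)
      (fun _A _ _ _ ρ => GaloisRep.flatCondition 𝒪 p (s59q_WSmin W hΔ hp𝒪 ∪ {(s : ℕ)}) ρ ∧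
        ∀ q ∈ s59q_WSmin W hΔ hp𝒪 ∪ insert (s : ℕ) Rs, q.Prime → q ≠ p →
          ρ.IsUnipotentOnInertiaAt q)) := by
    refine s59q_exists_DQ_flat p hp2 hp𝒪 (s59i_rhobarW W p hΔ 𝒪 hp𝒪) Rd.habs
      (s59q_WSmin W hΔ hp𝒪) (s59q_WSmin W hΔ hp𝒪 ∪ {(s : ℕ)})
      (s59q_WSmin W hΔ hp𝒪 ∪ insert (s : ℕ) Rs)
      Finset.subset_union_left (Finset.mem_union_left _ (s59q_WSmin_p_mem W hΔ hp𝒪)) ?_
      inferInstance
      Dm₀.residue_surjective Dm₀.ρ ⟨s59f_flatCondition_mono p hsub Dm₀.ρ Dm₀.isOfType.1, ?_⟩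
      Dm₀.residual_isEquiv
    · intro q hq hqS
      have hqSmin : q ∉ s59q_WSmin W hΔ hp𝒪 := fun h => hqS (Finset.mem_union_left _ h)
      have hqp : q ≠ p := fun h => hqSmin (h ▸ s59q_WSmin_p_mem W hΔ hp𝒪)
      by_contra hram
      exact hqSmin ((s59q_WSmin_hmin W hΔ hp𝒪 hp2 q hq hqp).mpr hram)
    · intro q hq hqP hqp
      rcases Finset.mem_union.mp hq with h | h
      · exact Dm₀.isOfType.2 q (hSmin ▸ h) hqP hqp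
      · refine s59f_unip_of_unram Dm₀.ρ q (Dm₀.isOfType.1.2.2 q hqP fun hmem => ?_)
        have h1 := hsub hmem
        rcases Finset.mem_insert.mp h with h' | h'
        · exact hsSmin (h' ▸ h1)
        · exact ((s59q_WSmin_hmin W hΔ hp𝒪 hp2 q hqP hqp).mp h1) (hRs q h').2.2.2.2.1
  obtain ⟨N, iN, χ, -, h1, h2, h3⟩ := s59u_sp_FLR_W_core p hp35 W hΔ hss hirr hgoodp N₀ hN0 hsq
    hpN 𝒪 hp𝒪 hsplit Rs hRs s hsp hsN₀ hsns hsU' εs hεs φs hφs hscp k₀ hspec hunrW hDm HT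
  exact ⟨N, iN, χ, h1, h2, h3⟩

/-! ### The top statements -/

/-- the shape of the conclusion: from a squarefree level prime to `p` to the body of `s59g_HeckePt`. -/
theorem s59u_sp_heckePt_shape (p : ℕ) [Fact p.Prime] (W : WeierstrassCurve ℤ)
    (h : ∃ (N : ℕ) (_ : NeZero N) (B : Finset ℕ) (𝒪 : Type) (_ : CommRing 𝒪) (_ : IsDomain 𝒪)
        (_ : CharZero 𝒪) (χ : heckeAlgebra N 2 (↑B : Set ℕ) →+* 𝒪),
        Squarefree N ∧ ¬ p ∣ N ∧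
        ∀ (ℓ : ℕ) (hℓ : ℓ.Prime) (hℓN : ¬ ℓ ∣ N) (hℓB : ℓ ∉ (↑B : Set ℕ)),
          χ (heckeAlgebra.T hℓ hℓN hℓB) = ((W.apOfModel ℓ : ℤ) : 𝒪)) :
    ∃ (N : ℕ) (_ : NeZero N) (B : Finset ℕ) (𝒪 : Type) (_ : CommRing 𝒪) (_ : IsDomain 𝒪)
      (_ : CharZero 𝒪) (χ : CuspForm.heckeAlgebra N 2 (↑B : Set ℕ) →+* 𝒪),
      ¬ p ^ 2 ∣ N ∧ (∀ q : ℕ, q.Prime → ¬ q ^ 3 ∣ N) ∧
      ∀ (ℓ : ℕ) (hℓ : ℓ.Prime) (hℓN : ¬ ℓ ∣ N) (hℓB : ℓ ∉ (↑B : Set ℕ)),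
        χ (CuspForm.heckeAlgebra.T hℓ hℓN hℓB) = ((W.apOfModel ℓ : ℤ) : 𝒪) := by
  obtain ⟨N, iN, B, 𝒪, i1, i2, i3, χ, hNsq, hpN, hχ⟩ := h
  refine ⟨N, iN, B, 𝒪, i1, i2, i3, χ, ?_, ?_, hχ⟩
  · exact fun h => hpN (dvd_trans (dvd_pow_self p two_ne_zero) h)
  · intro q hq h
    have h2 : q * q ∣ N := dvd_trans ⟨q, by ring⟩ h
    exact hq.not_isUnit (hNsq q h2)

/-- **[PATCH-FLR], flat case, with ONE SPECTATOR PRIME `s ∣ N₀`, in the shape of `s59g_HeckePt W p`**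
(helper1's Graph3.lean, unfolded): `W` semistable, good at `p`, `ρ̄` irreducible, unramified at `s`, ramified
at every other prime of `N₀`, modular of level `N₀ / s`; NO hypothesis on the reduction of `W` at `s`.
  * if `ρ_W ⊗ 𝒪` is RAMIFIED at `s` (then `W` is bad at `s`): the contract at `k₀ = 1` (`HT1`); the sign
    `εs` and the residual Frobenius polynomial at `s` come from helper4's `s59f_W_sign`;
  * if `ρ_W ⊗ 𝒪` is UNRAMIFIED at `s`: the contract at `k₀ = 0` (`HT0`) and the residual Frobenius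
    polynomial `(X − ε̄s)(X − ε̄)` at `s` (`hscp0`). -/
theorem s59u_sp_FLR_flat (p : ℕ) [Fact p.Prime] (hp35 : p = 3 ∨ p = 5)
    (W : WeierstrassCurve ℤ) (hΔ : W.Δ ≠ 0) (hss : W.IsSemistableModel)
    (hirr : W.ModRepIsIrreducible p) (hgoodp : W.IsGoodPrimeFor p)
    (N₀ : ℕ) [NeZero N₀] (hsq : Squarefree N₀) (hpN : ¬ p ∣ N₀)
    (s : Nat.Primes) (hsp : (s : ℕ) ≠ p) (hsN₀ : (s : ℕ) ∣ N₀) (hsns : ¬ p ∣ (s : ℕ) - 1)
    (hsU : s59_Unr W p s)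
    (hres' : W.IsResiduallyModularOfLevel p (N₀ / s))
    (hNtype : ∀ q : ℕ, q.Prime → q ∣ N₀ → q ≠ (s : ℕ) → ¬ s59_Unr W p q)
    (hscp0 : ∀ (𝒪 : Type) [CommRing 𝒪] [IsDomain 𝒪] [IsDiscreteValuationRing 𝒪]
      [IsAdicComplete (maximalIdeal 𝒪) 𝒪] [Finite (ResidueField 𝒪)] [CharZero 𝒪]
      [Algebra ℤ_[p] 𝒪] [Module.Finite ℤ_[p] 𝒪]
      (hp𝒪 : ((p : ℕ) : 𝒪) ∈ maximalIdeal 𝒪),
      (s59q_WRho W hΔ hp𝒪).IsUnramifiedAt s →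
      ∃ (εs : 𝒪) (φs : Γℚ), (εs = 1 ∨ εs = -1) ∧ (primeLocalPlace s).IsFrobeniusAt φs s ∧
        LinearMap.charpoly ((s59q_WRhobar W hΔ hp𝒪).ρ φs) =
          (X - C (residue 𝒪 (εs * (((s : ℕ) : ℕ) : 𝒪)))) * (X - C (residue 𝒪 εs)))
    (HT0 : (∀ (𝒪 : Type) [CommRing 𝒪] [IsDomain 𝒪] [IsDiscreteValuationRing 𝒪]
        [IsAdicComplete (maximalIdeal 𝒪) 𝒪] [Finite (ResidueField 𝒪)] [CharZero 𝒪]
        [Algebra ℤ_[p] 𝒪] [Module.Finite ℤ_[p] 𝒪]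
        (hp𝒪 : ((p : ℕ) : 𝒪) ∈ maximalIdeal 𝒪), ¬ (s59q_WRho W hΔ hp𝒪).IsUnramifiedAt s) ∨
      s59u_sp_TPkgFLR p W hΔ N₀ s 0)
    (HT1 : W.IsGoodPrimeFor s ∨ s59u_sp_TPkgFLR p W hΔ N₀ s 1) :
    ∃ (N : ℕ) (_ : NeZero N) (B : Finset ℕ) (𝒪 : Type) (_ : CommRing 𝒪) (_ : IsDomain 𝒪)
      (_ : CharZero 𝒪) (χ : CuspForm.heckeAlgebra N 2 (↑B : Set ℕ) →+* 𝒪),
      ¬ p ^ 2 ∣ N ∧ (∀ q : ℕ, q.Prime → ¬ q ^ 3 ∣ N) ∧
      ∀ (ℓ : ℕ) (hℓ : ℓ.Prime) (hℓN : ¬ ℓ ∣ N) (hℓB : ℓ ∉ (↑B : Set ℕ)),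
        χ (CuspForm.heckeAlgebra.T hℓ hℓN hℓB) = ((W.apOfModel ℓ : ℤ) : 𝒪) := by
  classical
  have hpp : p.Prime := Fact.out
  have hp2 : p ≠ 2 := s59q_W_p_ne_two hp35
  apply s59u_sp_heckePt_shape p W
  -- the coefficient ring
  obtain ⟨𝒪, i1, i2, i3, i4, i5, i6, i7, i8, i9, hp𝒪, -, hsplit⟩ :=
    s59q_exists_coeffRing_padic p 1 one_pos
  by_cases hun : (s59q_WRho W hΔ hp𝒪).IsUnramifiedAt s
  · -- `ρ_W ⊗ 𝒪` unramified at `s`: the spectator stays on `unr`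
    obtain ⟨εs, φs, hεs, hφs, hscp⟩ := hscp0 𝒪 hp𝒪 hun
    have HT : s59u_sp_TPkgFLR p W hΔ N₀ s 0 := by
      rcases HT0 with h | h
      · exact absurd hun (h 𝒪 hp𝒪)
      · exact h
    obtain ⟨N, iN, χ, h1, h2, h3⟩ := s59u_sp_FLR_flat_aux p hp35 W hΔ hss hirr hgoodp N₀ hsq hpN s
      hsp hsN₀ hsns hsU hres' hNtype 𝒪 hp𝒪 hsplit εs hεs φs hφs hscp 0 (Or.inl ⟨rfl, hun⟩) HT
    exact ⟨N, iN, _, 𝒪, inferInstance, inferInstance, inferInstance, χ, h1, h2, h3⟩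
  · -- `ρ_W ⊗ 𝒪` ramified at `s`: the spectator is raised virtually
    have hbad : ¬ W.IsGoodPrimeFor s := fun hg =>
      hun (s59e_bc_unram _ _ _ s (s59b_rhoW_unram hΔ hp2 s s.2 hsp hg))
    have HT : s59u_sp_TPkgFLR p W hΔ N₀ s 1 := HT1.resolve_left hbad
    obtain ⟨φs, hφs⟩ := s56z_exists_frob s
    have hsU' : (s59q_WRhobar W hΔ hp𝒪).IsUnramifiedAt s :=
      (s59q_W_unram_iff W hΔ hp𝒪 s).mpr hsU
    obtain ⟨εs, hεs, htr, hscp⟩ := s59f_W_sign W hΔ hp𝒪 hp2 hss hirr s s.2 hsp hsU' hun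
      (primeLocalPlace s) (s56z_place_liesOver s) φs hφs
    obtain ⟨N, iN, χ, h1, h2, h3⟩ := s59u_sp_FLR_flat_aux p hp35 W hΔ hss hirr hgoodp N₀ hsq hpN s
      hsp hsN₀ hsns hsU hres' hNtype 𝒪 hp𝒪 hsplit εs hεs φs hφs hscp 1
      (Or.inr ⟨rfl, hun, htr⟩) HT
    exact ⟨N, iN, _, 𝒪, inferInstance, inferInstance, inferInstance, χ, h1, h2, h3⟩

/-- **type (c1)**: `W` GOOD at the spectator `s`, `a_s(W) ≡ εz (s+1) mod p` (at `(p, s) = (3, 2)`: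
`3 ∣ a₂(W)`, `εz = 1`) — over the contract at `k₀ = 0` only. -/
theorem s59u_sp_FLR_flat_c1 (p : ℕ) [Fact p.Prime] (hp35 : p = 3 ∨ p = 5)
    (W : WeierstrassCurve ℤ) (hΔ : W.Δ ≠ 0) (hss : W.IsSemistableModel)
    (hirr : W.ModRepIsIrreducible p) (hgoodp : W.IsGoodPrimeFor p)
    (N₀ : ℕ) [NeZero N₀] (hsq : Squarefree N₀) (hpN : ¬ p ∣ N₀)
    (s : Nat.Primes) (hsp : (s : ℕ) ≠ p) (hsN₀ : (s : ℕ) ∣ N₀) (hsns : ¬ p ∣ (s : ℕ) - 1)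
    (hsU : s59_Unr W p s)
    (hres' : W.IsResiduallyModularOfLevel p (N₀ / s))
    (hNtype : ∀ q : ℕ, q.Prime → q ∣ N₀ → q ≠ (s : ℕ) → ¬ s59_Unr W p q)
    (hsgood : W.IsGoodPrimeFor s) (εz : ℤ) (hεz : εz = 1 ∨ εz = -1)
    (hap : (p : ℤ) ∣ W.apOfModel s - εz * ((((s : ℕ) : ℕ) : ℤ) + 1))
    (HT0 : s59u_sp_TPkgFLR p W hΔ N₀ s 0) :
    ∃ (N : ℕ) (_ : NeZero N) (B : Finset ℕ) (𝒪 : Type) (_ : CommRing 𝒪) (_ : IsDomain 𝒪)
      (_ : CharZero 𝒪) (χ : CuspForm.heckeAlgebra N 2 (↑B : Set ℕ) →+* 𝒪),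
      ¬ p ^ 2 ∣ N ∧ (∀ q : ℕ, q.Prime → ¬ q ^ 3 ∣ N) ∧
      ∀ (ℓ : ℕ) (hℓ : ℓ.Prime) (hℓN : ¬ ℓ ∣ N) (hℓB : ℓ ∉ (↑B : Set ℕ)),
        χ (CuspForm.heckeAlgebra.T hℓ hℓN hℓB) = ((W.apOfModel ℓ : ℤ) : 𝒪) := by
  have hp2 : p ≠ 2 := s59q_W_p_ne_two hp35
  refine s59u_sp_FLR_flat p hp35 W hΔ hss hirr hgoodp N₀ hsq hpN s hsp hsN₀ hsns hsU hres' hNtype
    ?_ (Or.inr HT0) (Or.inl hsgood)
  intro 𝒪 _ _ _ _ _ _ _ _ hp𝒪 _
  obtain ⟨φs, hφs⟩ := s56z_exists_frob s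
  refine ⟨((εz : ℤ) : 𝒪), φs, ?_, hφs, ?_⟩
  · rcases hεz with h | h <;> rw [h] <;> simp
  · exact s59u_sp_cp_good W hΔ hp𝒪 hp2 hirr s s.2 hsp hsgood εz hεz hap (primeLocalPlace s)
      (s56z_place_liesOver s) φs hφs

end Fermat.Agent.Lib.S59
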