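/-
PROGRAMME (R2) = S59, [STRICT-p], the très halves of the type-(c) [LIFT] fields at `p = 3`, node [SPEC-R] (helper6, prefix `s59q_sp_`), part K:
**THE TRÈS RAMIFIÉ HALVES OF helper1's FIELDS `liftC1gt` / `liftC2gt` (`s59g_LIFTThreeC1GT`, `s59g_LIFTThreeC2GT`, Graph3Z.lean) OVER THE
STRICT `T`-SIDE CONTRACTS `s59q_sp_TPkgFLR 3 W hΔ N₀ 2 k₀`** (QSSpH.lean), `N₀ = M` (if `3 ∣ M`) or `N₀ = 3 M` (if `3 ∤ M`).

* `s59q_sp_TPkgTres3 k₀`        : the strict contract at `(p, s) = (3, 2)` as a hypothesis with the premises available in the fields;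
* `s59q_sp_level3`              : the choice of the base level `N₀` (`3 ∣ N₀`, `2 ∣ N₀`, modular of the levels `N₀` and `N₀ / 2`);
* **`s59q_sp_LIFTThreeC1_tres`** : the très ramifié half of `s59g_LIFTThreeC1GT` from `s59q_sp_TPkgTres3 0`;
* **`s59q_sp_LIFTThreeC2_tres`** : the très ramifié half of `s59g_LIFTThreeC2GT` from `s59q_sp_TPkgTres3 0`, `s59q_sp_TPkgTres3 1` and the residual
                                  Frobenius polynomial at `2` in the (non-occurring) case `ρ_W ⊗ 𝒪` unramified at the bad prime `2`.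
-/
import Mathlib
import Fermat.Agent.Lib.S59.QSSpI
import Fermat.Agent.Lib.S59.Graph3Z
import Fermat.Agent.Lib.S59.GXpt
import Fermat.Agent.Lib.S59.VMono

set_option autoImplicit false
set_option linter.unusedSectionVars false
set_option linter.unusedVariables false
set_option linter.style.haveILetI false
set_option maxHeartbeats 1600000
set_option synthInstance.maxHeartbeats 400000

noncomputable section

namespace Fermat.Agent.Lib.S59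

open IsLocalRing CuspForm Polynomial ExtCitation

local notation "Γℚ" => (AlgebraicClosure ℚ ≃ₐ[ℚ] AlgebraicClosure ℚ)

/-- **the strict `T`-side contract at `(p, s) = (3, 2)`**, as a hypothesis with the premises available in the fields `liftC1gt`/`liftC2gt`
(très ramifié half): base level `N₀` squarefree, `3 ∣ N₀`, `2 ∣ N₀`, `ρ̄` unramified at `2`, modular of the levels `N₀ / 2` and `N₀`, ramified
at every prime `≠ 2, 3` of `N₀`. -/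
def s59q_sp_TPkgTres3 [Fact (Nat.Prime 3)] (k₀ : ℕ) : Prop :=
  ∀ (W : WeierstrassCurve ℤ) (hΔ : W.Δ ≠ 0), W.IsSemistableModel → W.ModRepIsIrreducible 3 →
    ¬ s59g_Peu W 3 → ∀ N₀ : ℕ, Squarefree N₀ → 3 ∣ N₀ → 2 ∣ N₀ → s59_Unr W 3 2 →
    W.IsResiduallyModularOfLevel 3 (N₀ / 2) → W.IsResiduallyModularOfLevel 3 N₀ →
    (∀ q : ℕ, q.Prime → q ≠ 3 → q ≠ 2 → q ∣ N₀ → ¬ s59_Unr W 3 q) →
    s59q_sp_TPkgFLR 3 W hΔ N₀ 2 k₀

/-- the choice of the base level: `M` if `3 ∣ M`, `3 M` otherwise. -/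
theorem s59q_sp_level3 (W : WeierstrassCurve ℤ) (M : ℕ) (hM0 : 0 < M) (hsq : Squarefree M)
    (h2M : 2 ∣ M) (h2old : W.IsResiduallyModularOfLevel 3 (M / 2))
    (hram : ∀ q : ℕ, q.Prime → q ≠ 3 → q ≠ 2 → q ∣ M → ¬ s59_Unr W 3 q)
    (hres : W.IsResiduallyModularOfLevel 3 M) :
    ∃ N₀ : ℕ, 0 < N₀ ∧ Squarefree N₀ ∧ 3 ∣ N₀ ∧ 2 ∣ N₀ ∧
      W.IsResiduallyModularOfLevel 3 (N₀ / 2) ∧ W.IsResiduallyModularOfLevel 3 N₀ ∧
      ∀ q : ℕ, q.Prime → q ≠ 3 → q ≠ 2 → q ∣ N₀ → ¬ s59_Unr W 3 q := by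
  by_cases h3M : 3 ∣ M
  · exact ⟨M, hM0, hsq, h3M, h2M, h2old, hres, hram⟩
  · have hcop : M.Coprime 3 :=
      (Nat.Coprime.symm ((Nat.Prime.coprime_iff_not_dvd Nat.prime_three).mpr h3M))
    have hNsq : Squarefree (M * 3) :=
      (Nat.squarefree_mul hcop).mpr ⟨hsq, Nat.prime_three.squarefree⟩
    have hdiv : M * 3 / 2 = M / 2 * 3 := by
      obtain ⟨m, rfl⟩ := h2M
      rw [mul_assoc, Nat.mul_div_cancel_left _ (by norm_num : 0 < 2),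
        Nat.mul_div_cancel_left _ (by norm_num : 0 < 2)]
    have hdvd2 : M / 2 * 3 ∣ M * 3 := Nat.mul_dvd_mul_right (Nat.div_dvd_of_dvd h2M) 3
    refine ⟨M * 3, Nat.mul_pos hM0 (by norm_num), hNsq, dvd_mul_left 3 M,
      Dvd.dvd.mul_right h2M 3, ?_, s59v_resMod_mono (dvd_mul_right M 3) hNsq hres, ?_⟩
    · rw [hdiv]
      exact s59v_resMod_mono (dvd_mul_right (M / 2) 3) (hNsq.squarefree_of_dvd hdvd2) h2old
    · intro q hq hq3 hq2 hqN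
      rcases (Nat.Prime.dvd_mul hq).mp hqN with h | h
      · exact hram q hq hq3 hq2 h
      · exact absurd ((Nat.prime_dvd_prime_iff_eq hq Nat.prime_three).mp h) hq3

/-- **the TRÈS RAMIFIÉ half of `s59g_LIFTThreeC1GT`** (`W` good at `2`, `3 ∣ a₂(W)`), over the strict contract at `k₀ = 0`. -/
theorem s59q_sp_LIFTThreeC1_tres [Fact (Nat.Prime 3)] (HT0 : s59q_sp_TPkgTres3 0)
    (W : WeierstrassCurve ℤ) (hΔ : W.Δ ≠ 0) (hss : W.IsSemistableModel)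
    (hirr : W.ModRepIsIrreducible 3) (M : ℕ) (hinv : s59g_Inv2T W 3 M)
    (hpeu : ¬ s59g_Peu W 3) (h2M : 2 ∣ M) (hunr2 : s59_Unr W 3 2)
    (hgood2 : W.IsGoodPrimeFor 2) (ha2 : (3 : ℤ) ∣ W.apOfModel 2)
    (h2old : W.IsResiduallyModularOfLevel 3 (M / 2))
    (hram : ∀ q : ℕ, q.Prime → q ≠ 3 → q ≠ 2 → q ∣ M → ¬ s59_Unr W 3 q)
    (hres : W.IsResiduallyModularOfLevel 3 M) : s59g_AlmostModular W 3 := by
  obtain ⟨N₀, hN0, hsq₀, h3N, h2N, hold₀, hres₀, hram₀⟩ :=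
    s59q_sp_level3 W M hinv.1 hinv.2.1 h2M h2old hram hres
  haveI : NeZero N₀ := ⟨hN0.ne'⟩
  refine s59g_almost_of_heckePt ?_
  refine s59q_sp_FLR_strict_c1 3 (Or.inl rfl) W hΔ hss hirr hpeu N₀ hsq₀ h3N
    (⟨2, Nat.prime_two⟩ : Nat.Primes) (by norm_num) h2N (by norm_num) hunr2 hold₀
    (fun q hq hq3 hqN hq2 => hram₀ q hq hq3 hq2 hqN) hgood2 1 (Or.inl rfl) ?_
    (HT0 W hΔ hss hirr hpeu N₀ hsq₀ h3N h2N hunr2 hold₀ hres₀ hram₀)
  have h1 : W.apOfModel 2 - 1 * ((((((⟨2, Nat.prime_two⟩ : Nat.Primes) : ℕ) : ℕ) : ℤ)) + 1) =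
      W.apOfModel 2 - 3 := by norm_num
  rw [h1]
  exact dvd_sub ha2 (dvd_refl _)

/-- **the TRÈS RAMIFIÉ half of `s59g_LIFTThreeC2GT`** (`W` multiplicative at `2`), over the strict contracts at `k₀ = 0, 1` and the residual
Frobenius polynomial at `2` in the case `ρ_W ⊗ 𝒪` unramified at `2`. -/
theorem s59q_sp_LIFTThreeC2_tres [Fact (Nat.Prime 3)] (HT0 : s59q_sp_TPkgTres3 0)
    (HT1 : s59q_sp_TPkgTres3 1)
    (W : WeierstrassCurve ℤ) (hΔ : W.Δ ≠ 0) (hss : W.IsSemistableModel)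
    (hirr : W.ModRepIsIrreducible 3) (M : ℕ) (hinv : s59g_Inv2T W 3 M)
    (hpeu : ¬ s59g_Peu W 3) (h2M : 2 ∣ M) (hunr2 : s59_Unr W 3 2)
    (hbad2 : ¬ W.IsGoodPrimeFor 2)
    (h2old : W.IsResiduallyModularOfLevel 3 (M / 2))
    (hram : ∀ q : ℕ, q.Prime → q ≠ 3 → q ≠ 2 → q ∣ M → ¬ s59_Unr W 3 q)
    (hres : W.IsResiduallyModularOfLevel 3 M)
    (hscp0 : ∀ (𝒪 : Type) [CommRing 𝒪] [IsDomain 𝒪] [IsDiscreteValuationRing 𝒪]
      [IsAdicComplete (maximalIdeal 𝒪) 𝒪] [Finite (ResidueField 𝒪)] [CharZero 𝒪]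
      [Algebra ℤ_[3] 𝒪] [Module.Finite ℤ_[3] 𝒪]
      (hp𝒪 : ((3 : ℕ) : 𝒪) ∈ maximalIdeal 𝒪),
      (s59q_WRho W hΔ hp𝒪).IsUnramifiedAt 2 →
      ∃ (εs : 𝒪) (φs : Γℚ), (εs = 1 ∨ εs = -1) ∧
        (primeLocalPlace (⟨2, Nat.prime_two⟩ : Nat.Primes)).IsFrobeniusAt φs 2 ∧
        LinearMap.charpoly ((s59q_WRhobar W hΔ hp𝒪).ρ φs) =
          (X - C (residue 𝒪 (εs * ((2 : ℕ) : 𝒪)))) * (X - C (residue 𝒪 εs))) :
    s59g_AlmostModular W 3 := by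
  obtain ⟨N₀, hN0, hsq₀, h3N, h2N, hold₀, hres₀, hram₀⟩ :=
    s59q_sp_level3 W M hinv.1 hinv.2.1 h2M h2old hram hres
  haveI : NeZero N₀ := ⟨hN0.ne'⟩
  refine s59g_almost_of_heckePt ?_
  exact s59q_sp_FLR_strict 3 (Or.inl rfl) W hΔ hss hirr hpeu N₀ hsq₀ h3N
    (⟨2, Nat.prime_two⟩ : Nat.Primes) (by norm_num) h2N (by norm_num) hunr2 hold₀
    (fun q hq hq3 hqN hq2 => hram₀ q hq hq3 hq2 hqN)
    (fun 𝒪 _ _ _ _ _ _ _ _ hp𝒪 hun => hscp0 𝒪 hp𝒪 hun)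
    (Or.inr (HT0 W hΔ hss hirr hpeu N₀ hsq₀ h3N h2N hunr2 hold₀ hres₀ hram₀))
    (Or.inr (HT1 W hΔ hss hirr hpeu N₀ hsq₀ h3N h2N hunr2 hold₀ hres₀ hram₀))

end Fermat.Agent.Lib.S59

end
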