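/-
PROGRAMME (R2) = S59, [STRICT-p], the très halves of the type-(c) [LIFT] fields at `p = 3`, node [SPEC-R] (helper6, prefix `s59q_sp_`), part L:
**THE TRÈS RAMIFIÉ HALF OF `liftC2gt` WITHOUT THE HYPOTHESIS `hscp0`**: the residual Frobenius polynomial at the bad prime `2` is helper4's
[W-MULT-TR] `s59f_mt_W_sign` (FMultTrD.lean; no hypothesis on the ramification of `ρ_W` at `2`).

* `s59q_sp_hscp0_of_bad`          : the hypothesis `hscp0` of `s59q_sp_FLR_strict` / `s59u_sp_FLR_flat` at a BAD spectator `s ≠ p` of a semistable `W`;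
* **`s59q_sp_LIFTThreeC2_tres_ok`** : the très ramifié half of `s59g_LIFTThreeC2GT` from the strict contracts `s59q_sp_TPkgTres3 0`, `s59q_sp_TPkgTres3 1`.
-/
import Mathlib
import Fermat.Agent.Lib.S59.QSSpK
import Fermat.Agent.Lib.S59.FMultTrD

set_option autoImplicit false
set_option linter.unusedSectionVars false
set_option linter.unusedVariables false
set_option linter.style.haveILetI false
set_option maxHeartbeats 1600000
set_option synthInstance.maxHeartbeats 400000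

noncomputable section

namespace Fermat.Agent.Lib.S59

open IsLocalRing CuspForm Polynomial ExtCitation Fermat.Agent.Lib.S56

local notation "Γℚ" => (AlgebraicClosure ℚ ≃ₐ[ℚ] AlgebraicClosure ℚ)

/-- **the hypothesis `hscp0` at a BAD spectator prime `s ≠ p`** of a semistable `W`: the residual Frobenius polynomial is
`(X − ε̄ s)(X − ε̄)`, `ε = ±1` (helper4's [W-MULT-TR]). -/
theorem s59q_sp_hscp0_of_bad (p : ℕ) [Fact p.Prime] (hp2 : p ≠ 2) (W : WeierstrassCurve ℤ)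
    (hΔ : W.Δ ≠ 0) (hss : W.IsSemistableModel) (hirr : W.ModRepIsIrreducible p)
    (s : Nat.Primes) (hsp : (s : ℕ) ≠ p) (hbad : ¬ W.IsGoodPrimeFor s)
    (𝒪 : Type) [CommRing 𝒪] [IsDomain 𝒪] [IsDiscreteValuationRing 𝒪]
    [IsAdicComplete (maximalIdeal 𝒪) 𝒪] [Finite (ResidueField 𝒪)] [CharZero 𝒪]
    [Algebra ℤ_[p] 𝒪] [Module.Finite ℤ_[p] 𝒪]
    (hp𝒪 : ((p : ℕ) : 𝒪) ∈ maximalIdeal 𝒪) :
    ∃ (εs : 𝒪) (φs : Γℚ), (εs = 1 ∨ εs = -1) ∧ (primeLocalPlace s).IsFrobeniusAt φs s ∧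
      LinearMap.charpoly ((s59q_WRhobar W hΔ hp𝒪).ρ φs) =
        (X - C (residue 𝒪 (εs * (((s : ℕ) : ℕ) : 𝒪)))) * (X - C (residue 𝒪 εs)) := by
  obtain ⟨φs, hφs⟩ := s56z_exists_frob s
  obtain ⟨ε, hε, -, hcp⟩ := s59f_mt_W_sign W hΔ hp𝒪 hp2 hss hirr s s.2 hsp hbad
    (primeLocalPlace s) (s56z_place_liesOver s) φs hφs
  exact ⟨ε, φs, hε, hφs, hcp⟩

/-- **the TRÈS RAMIFIÉ half of `s59g_LIFTThreeC2GT`** (`W` multiplicative at `2`), over the strict contracts at `k₀ = 0, 1` only. -/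
theorem s59q_sp_LIFTThreeC2_tres_ok [Fact (Nat.Prime 3)] (HT0 : s59q_sp_TPkgTres3 0)
    (HT1 : s59q_sp_TPkgTres3 1)
    (W : WeierstrassCurve ℤ) (hΔ : W.Δ ≠ 0) (hss : W.IsSemistableModel)
    (hirr : W.ModRepIsIrreducible 3) (M : ℕ) (hinv : s59g_Inv2T W 3 M)
    (hpeu : ¬ s59g_Peu W 3) (h2M : 2 ∣ M) (hunr2 : s59_Unr W 3 2)
    (hbad2 : ¬ W.IsGoodPrimeFor 2)
    (h2old : W.IsResiduallyModularOfLevel 3 (M / 2))
    (hram : ∀ q : ℕ, q.Prime → q ≠ 3 → q ≠ 2 → q ∣ M → ¬ s59_Unr W 3 q)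
    (hres : W.IsResiduallyModularOfLevel 3 M) : s59g_AlmostModular W 3 :=
  s59q_sp_LIFTThreeC2_tres HT0 HT1 W hΔ hss hirr M hinv hpeu h2M hunr2 hbad2 h2old hram hres
    (fun 𝒪 _ _ _ _ _ _ _ _ hp𝒪 _ =>
      s59q_sp_hscp0_of_bad 3 (by norm_num) W hΔ hss hirr (⟨2, Nat.prime_two⟩ : Nat.Primes)
        (by norm_num) hbad2 𝒪 hp𝒪)

end Fermat.Agent.Lib.S59

end
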