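/-
PROGRAMME R2 = S59, helper3 (prefix `s59u_sp_`), part M: **the FLAT halves of helper1's fields `liftC1gt`,
`liftC2gt` (`s59g_LIFTThreeC1GT`, `s59g_LIFTThreeC2GT`, Graph3Z.lean) over the final `T`-side statement
with the spectator `2` and the base point, `s59u_sp_TFinPt 3 W hΔ 2 k₀` (USpL.lean).**

* **`s59u_sp_LIFTThreeC1_flat`** : `W` semistable, GOOD at `3` and at `2`, `3 ∣ a₂(W)`, `ρ̄_{W,3}` irreducible,
  unramified at `2`, modular of the levels `M` (even) and `M / 2`, ramified at the other primes of `M`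
  ⟹ `s59g_AlmostModular W 3`, over `s59u_sp_TFinPt 3 W hΔ 2 0`;
* **`s59u_sp_LIFTThreeC2_flat`** : the same with `W` BAD at `2`, over `s59u_sp_TFinPt 3 W hΔ 2 1`,
  `s59u_sp_TFinPt 3 W hΔ 2 0` and the residual Frobenius polynomial at the multiplicative prime `2`
  ([W-MULT-TR], helper4 #3904, as the hypothesis `HMT`);
* `s59u_sp_LIFTThreeC1GT_of`, `s59u_sp_LIFTThreeC2GT_of` : the fields from their flat and très ramifié halves.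
-/
import Mathlib
import Fermat.Agent.Lib.S59.USpI
import Fermat.Agent.Lib.S59.USpL
import Fermat.Agent.Lib.S59.Graph3Z
import Fermat.Agent.Lib.S59.GX

set_option autoImplicit false
set_option linter.unusedSectionVars false
set_option linter.unusedVariables false
set_option linter.style.haveILetI false
set_option maxHeartbeats 1600000
set_option synthInstance.maxHeartbeats 400000

noncomputable section

namespace Fermat.Agent.Lib.S59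

open IsLocalRing Polynomial CuspForm ExtCitation

local notation "Γℚ" => (AlgebraicClosure ℚ ≃ₐ[ℚ] AlgebraicClosure ℚ)

/-- the prime `2`. -/
def s59u_sp_two : Nat.Primes := ⟨2, Nat.prime_two⟩

/-- **the FLAT half of `s59g_LIFTThreeC1GT`** (`W` good at `3`). -/
theorem s59u_sp_LIFTThreeC1_flat [Fact (Nat.Prime 3)]
    (HF : ∀ (W : WeierstrassCurve ℤ) (hΔ : W.Δ ≠ 0), s59u_sp_TFinPt 3 W hΔ 2 0)
    (W : WeierstrassCurve ℤ) (hΔ : W.Δ ≠ 0) (hss : W.IsSemistableModel)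
    (hirr : W.ModRepIsIrreducible 3) (M : ℕ) (hinv : s59g_Inv2T W 3 M)
    (hgood3 : W.IsGoodPrimeFor 3) (h2M : 2 ∣ M) (hunr : s59_Unr W 3 2)
    (hgood2 : W.IsGoodPrimeFor 2) (ha2 : (3 : ℤ) ∣ W.apOfModel 2)
    (h2old : W.IsResiduallyModularOfLevel 3 (M / 2))
    (hram : ∀ q : ℕ, q.Prime → q ≠ 3 → q ≠ 2 → q ∣ M → ¬ s59_Unr W 3 q)
    (hres : W.IsResiduallyModularOfLevel 3 M) : s59g_AlmostModular W 3 := by
  have hpM : ¬ 3 ∣ M := fun h => hinv.2.2 h (s59g_peu_of_good W 3 hgood3)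
  haveI : NeZero M := ⟨hinv.1.ne'⟩
  have hNtype : ∀ q : ℕ, q.Prime → q ∣ M → q ≠ 2 → ¬ s59_Unr W 3 q := fun q hq hqM hq2 =>
    hram q hq (fun h => hpM (h ▸ hqM)) hq2 hqM
  have HT0 : s59u_sp_TPkgFLR 3 W hΔ M 2 0 :=
    s59u_sp_TPkgFLR_of_TFinPt 3 (Or.inl rfl) W hΔ hss hirr M hinv.2.1 hpM h2M 2 h2M hres h2old (by norm_num)
      hNtype 0 (HF W hΔ) (fun h => absurd h (by norm_num))
  obtain ⟨N, _, B, 𝒪, _, _, _, χ, hp2, h3, hχ⟩ :=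
    s59u_sp_FLR_flat_c1 3 (Or.inl rfl) W hΔ hss hirr hgood3 M hinv.2.1 hpM s59u_sp_two
      (by norm_num [s59u_sp_two]) h2M (by norm_num [s59u_sp_two]) hunr h2old hNtype hgood2 1
      (Or.inl rfl)
      (by
        have h : (3 : ℤ) ∣ W.apOfModel 2 - 3 := dvd_sub ha2 (dvd_refl 3)
        simpa [s59u_sp_two] using h)
      HT0
  obtain ⟨f, hf, hcoef⟩ := s59g_X_proved N B 𝒪 (fun ℓ => W.apOfModel ℓ) χ hχ
  exact ⟨N, B, f, Nat.pos_of_ne_zero (NeZero.ne N), hp2, h3, hf,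
    fun ℓ hℓ _ hℓN hℓB => hcoef ℓ hℓ hℓN hℓB⟩

/-- **the FLAT half of `s59g_LIFTThreeC2GT`** (`W` good at `3`, bad at `2`). -/
theorem s59u_sp_LIFTThreeC2_flat [Fact (Nat.Prime 3)]
    (HF0 : ∀ (W : WeierstrassCurve ℤ) (hΔ : W.Δ ≠ 0), s59u_sp_TFinPt 3 W hΔ 2 0)
    (HF1 : ∀ (W : WeierstrassCurve ℤ) (hΔ : W.Δ ≠ 0), s59u_sp_TFinPt 3 W hΔ 2 1)
    (HC1 : ∀ (W : WeierstrassCurve ℤ) (hΔ : W.Δ ≠ 0), s59u_sp_TFinCut 3 W hΔ 2)
    (HMT : ∀ (W : WeierstrassCurve ℤ) (hΔ : W.Δ ≠ 0), W.IsSemistableModel →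
      W.ModRepIsIrreducible 3 → ¬ W.IsGoodPrimeFor 2 →
      ∀ (𝒪 : Type) [CommRing 𝒪] [IsDomain 𝒪] [IsDiscreteValuationRing 𝒪]
        [IsAdicComplete (maximalIdeal 𝒪) 𝒪] [Finite (ResidueField 𝒪)] [CharZero 𝒪]
        [Algebra ℤ_[3] 𝒪] [Module.Finite ℤ_[3] 𝒪]
        (hp𝒪 : ((3 : ℕ) : 𝒪) ∈ maximalIdeal 𝒪),
        ∃ (εs : 𝒪) (φs : Γℚ), (εs = 1 ∨ εs = -1) ∧
          (primeLocalPlace s59u_sp_two).IsFrobeniusAt φs (s59u_sp_two : ℕ) ∧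
          LinearMap.charpoly ((s59q_WRhobar W hΔ hp𝒪).ρ φs) =
            (X - C (residue 𝒪 (εs * ((((s59u_sp_two : Nat.Primes) : ℕ) : ℕ) : 𝒪)))) *
              (X - C (residue 𝒪 εs)))
    (W : WeierstrassCurve ℤ) (hΔ : W.Δ ≠ 0) (hss : W.IsSemistableModel)
    (hirr : W.ModRepIsIrreducible 3) (M : ℕ) (hinv : s59g_Inv2T W 3 M)
    (hgood3 : W.IsGoodPrimeFor 3) (h2M : 2 ∣ M) (hunr : s59_Unr W 3 2)
    (hbad2 : ¬ W.IsGoodPrimeFor 2)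
    (h2old : W.IsResiduallyModularOfLevel 3 (M / 2))
    (hram : ∀ q : ℕ, q.Prime → q ≠ 3 → q ≠ 2 → q ∣ M → ¬ s59_Unr W 3 q)
    (hres : W.IsResiduallyModularOfLevel 3 M) : s59g_AlmostModular W 3 := by
  have hpM : ¬ 3 ∣ M := fun h => hinv.2.2 h (s59g_peu_of_good W 3 hgood3)
  haveI : NeZero M := ⟨hinv.1.ne'⟩
  have hNtype : ∀ q : ℕ, q.Prime → q ∣ M → q ≠ 2 → ¬ s59_Unr W 3 q := fun q hq hqM hq2 =>
    hram q hq (fun h => hpM (h ▸ hqM)) hq2 hqM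
  have HT0 : s59u_sp_TPkgFLR 3 W hΔ M 2 0 :=
    s59u_sp_TPkgFLR_of_TFinPt 3 (Or.inl rfl) W hΔ hss hirr M hinv.2.1 hpM h2M 2 h2M hres h2old (by norm_num)
      hNtype 0 (HF0 W hΔ) (fun h => absurd h (by norm_num))
  have HT1 : s59u_sp_TPkgFLR 3 W hΔ M 2 1 :=
    s59u_sp_TPkgFLR_of_TFinPt 3 (Or.inl rfl) W hΔ hss hirr M hinv.2.1 hpM h2M 2 h2M hres h2old (by norm_num)
      hNtype 1 (HF1 W hΔ) (fun _ => HC1 W hΔ)
  obtain ⟨N, _, B, 𝒪, _, _, _, χ, hp2, h3, hχ⟩ :=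
    s59u_sp_FLR_flat 3 (Or.inl rfl) W hΔ hss hirr hgood3 M hinv.2.1 hpM s59u_sp_two
      (by norm_num [s59u_sp_two]) h2M (by norm_num [s59u_sp_two]) hunr h2old hNtype
      (fun 𝒪 _ _ _ _ _ _ _ _ hp𝒪 _ => HMT W hΔ hss hirr hbad2 𝒪 hp𝒪)
      (Or.inr HT0) (Or.inr HT1)
  obtain ⟨f, hf, hcoef⟩ := s59g_X_proved N B 𝒪 (fun ℓ => W.apOfModel ℓ) χ hχ
  exact ⟨N, B, f, Nat.pos_of_ne_zero (NeZero.ne N), hp2, h3, hf,
    fun ℓ hℓ _ hℓN hℓB => hcoef ℓ hℓ hℓN hℓB⟩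

/-- `s59g_LIFTThreeC1GT` from its flat half (`W` good at `3`) and its très ramifié half. -/
theorem s59u_sp_LIFTThreeC1GT_of
    (hflat : ∀ (W : WeierstrassCurve ℤ), W.Δ ≠ 0 → W.IsSemistableModel →
      W.ModRepIsIrreducible 3 → ∀ (M : ℕ), s59g_Inv2T W 3 M → W.IsGoodPrimeFor 3 → 2 ∣ M →
      s59_Unr W 3 2 → W.IsGoodPrimeFor 2 → (3 : ℤ) ∣ W.apOfModel 2 →
      W.IsResiduallyModularOfLevel 3 (M / 2) →
      (∀ q : ℕ, q.Prime → q ≠ 3 → q ≠ 2 → q ∣ M → ¬ s59_Unr W 3 q) →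
      W.IsResiduallyModularOfLevel 3 M → s59g_AlmostModular W 3)
    (htres : ∀ (W : WeierstrassCurve ℤ), W.Δ ≠ 0 → W.IsSemistableModel →
      W.ModRepIsIrreducible 3 → ∀ (M : ℕ), s59g_Inv2T W 3 M → ¬ W.IsGoodPrimeFor 3 →
      ¬ s59g_Peu W 3 → 2 ∣ M →
      s59_Unr W 3 2 → W.IsGoodPrimeFor 2 → (3 : ℤ) ∣ W.apOfModel 2 →
      W.IsResiduallyModularOfLevel 3 (M / 2) →
      (∀ q : ℕ, q.Prime → q ≠ 3 → q ≠ 2 → q ∣ M → ¬ s59_Unr W 3 q) →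
      W.IsResiduallyModularOfLevel 3 M → s59g_AlmostModular W 3) :
    s59g_LIFTThreeC1GT := by
  intro W hΔ hW hirr M hinv hGT h2M hunr hgood2 ha2 h2old hram hres
  by_cases hg : W.IsGoodPrimeFor 3
  · exact hflat W hΔ hW hirr M hinv hg h2M hunr hgood2 ha2 h2old hram hres
  · rcases hGT with h | h
    · exact absurd h hg
    · exact htres W hΔ hW hirr M hinv hg h h2M hunr hgood2 ha2 h2old hram hres

/-- `s59g_LIFTThreeC2GT` from its flat half (`W` good at `3`) and its très ramifié half. -/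
theorem s59u_sp_LIFTThreeC2GT_of
    (hflat : ∀ (W : WeierstrassCurve ℤ), W.Δ ≠ 0 → W.IsSemistableModel →
      W.ModRepIsIrreducible 3 → ∀ (M : ℕ), s59g_Inv2T W 3 M → W.IsGoodPrimeFor 3 → 2 ∣ M →
      s59_Unr W 3 2 → ¬ W.IsGoodPrimeFor 2 →
      W.IsResiduallyModularOfLevel 3 (M / 2) →
      (∀ q : ℕ, q.Prime → q ≠ 3 → q ≠ 2 → q ∣ M → ¬ s59_Unr W 3 q) →
      W.IsResiduallyModularOfLevel 3 M → s59g_AlmostModular W 3)
    (htres : ∀ (W : WeierstrassCurve ℤ), W.Δ ≠ 0 → W.IsSemistableModel →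
      W.ModRepIsIrreducible 3 → ∀ (M : ℕ), s59g_Inv2T W 3 M → ¬ W.IsGoodPrimeFor 3 →
      ¬ s59g_Peu W 3 → 2 ∣ M →
      s59_Unr W 3 2 → ¬ W.IsGoodPrimeFor 2 →
      W.IsResiduallyModularOfLevel 3 (M / 2) →
      (∀ q : ℕ, q.Prime → q ≠ 3 → q ≠ 2 → q ∣ M → ¬ s59_Unr W 3 q) →
      W.IsResiduallyModularOfLevel 3 M → s59g_AlmostModular W 3) :
    s59g_LIFTThreeC2GT := by
  intro W hΔ hW hirr M hinv hGT h2M hunr hbad2 h2old hram hres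
  by_cases hg : W.IsGoodPrimeFor 3
  · exact hflat W hΔ hW hirr M hinv hg h2M hunr hbad2 h2old hram hres
  · rcases hGT with h | h
    · exact absurd h hg
    · exact htres W hΔ hW hirr M hinv hg h h2M hunr hbad2 h2old hram hres

end Fermat.Agent.Lib.S59
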