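/-
PROGRAMME R2 = S59, (c2) flat half (helper3, prefix `s59u_sp_`), part N: **the hypothesis `HMT` of
`s59u_sp_LIFTThreeC2_flat` is a THEOREM** (helper4's [W-MULT-TR], `s59f_mt_W_sign`), and the general residual
sign hypothesis `hscp0` of `s59u_sp_FLR_flat` at a bad spectator prime.

* `s59u_sp_hscp_of_bad`      : for `W` semistable, bad at the prime `s ≠ p`: `∃ εs = ±1, ∃ φs` a Frobenius at
                               `primeLocalPlace s`, `charpoly ρ̄(φs) = (X − res(εs s))(X − res εs)`;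
* `s59u_sp_HMT`              : the hypothesis `HMT` of `s59u_sp_LIFTThreeC2_flat`, verbatim;
* `s59u_sp_LIFTThreeC2_flat'`: `s59u_sp_LIFTThreeC2_flat` without `HMT`.
-/
import Mathlib
import Fermat.Agent.Lib.S59.USpM
import Fermat.Agent.Lib.S59.FMultTrD

set_option autoImplicit false
set_option linter.unusedSectionVars false
set_option linter.unusedVariables false
set_option linter.style.haveILetI false
set_option maxHeartbeats 1600000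
set_option synthInstance.maxHeartbeats 400000

noncomputable section

namespace Fermat.Agent.Lib.S59

open IsLocalRing Polynomial CuspForm ExtCitation
open Fermat.Agent.Lib.S56

local notation "Γℚ" => (AlgebraicClosure ℚ ≃ₐ[ℚ] AlgebraicClosure ℚ)

/-- **the residual sign at a bad prime** `s ≠ p` of a semistable `W` (no hypothesis on the ramification of
`ρ_W` at `s`): the shape of the hypothesis `hscp0` of `s59u_sp_FLR_flat`. -/
theorem s59u_sp_hscp_of_bad (p : ℕ) [Fact p.Prime] (hp2 : p ≠ 2) (W : WeierstrassCurve ℤ)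
    (hΔ : W.Δ ≠ 0) (hss : W.IsSemistableModel) (hirr : W.ModRepIsIrreducible p)
    (s : Nat.Primes) (hsp : (s : ℕ) ≠ p) (hbad : ¬ W.IsGoodPrimeFor (s : ℕ))
    (𝒪 : Type) [CommRing 𝒪] [IsDomain 𝒪] [IsDiscreteValuationRing 𝒪]
    [IsAdicComplete (maximalIdeal 𝒪) 𝒪] [CharZero 𝒪] [Algebra ℤ_[p] 𝒪]
    (hp𝒪 : ((p : ℕ) : 𝒪) ∈ maximalIdeal 𝒪) :
    ∃ (εs : 𝒪) (φs : Γℚ), (εs = 1 ∨ εs = -1) ∧
      (primeLocalPlace s).IsFrobeniusAt φs (s : ℕ) ∧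
      LinearMap.charpoly ((s59q_WRhobar W hΔ hp𝒪).ρ φs) =
        (X - C (residue 𝒪 (εs * (((s : ℕ) : ℕ) : 𝒪)))) * (X - C (residue 𝒪 εs)) := by
  obtain ⟨φs, hφs⟩ := s56z_exists_frob s
  obtain ⟨ε, hε, -, hcp⟩ := s59f_mt_W_sign W hΔ hp𝒪 hp2 hss hirr (s : ℕ) s.2 hsp hbad
    (primeLocalPlace s) (s56z_place_liesOver s) φs hφs
  exact ⟨ε, φs, hε, hφs, hcp⟩

/-- **the hypothesis `HMT` of `s59u_sp_LIFTThreeC2_flat`** ([W-MULT-TR] at `q = 2`, `p = 3`). -/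
theorem s59u_sp_HMT [Fact (Nat.Prime 3)] :
    ∀ (W : WeierstrassCurve ℤ) (hΔ : W.Δ ≠ 0), W.IsSemistableModel →
      W.ModRepIsIrreducible 3 → ¬ W.IsGoodPrimeFor 2 →
      ∀ (𝒪 : Type) [CommRing 𝒪] [IsDomain 𝒪] [IsDiscreteValuationRing 𝒪]
        [IsAdicComplete (maximalIdeal 𝒪) 𝒪] [Finite (ResidueField 𝒪)] [CharZero 𝒪]
        [Algebra ℤ_[3] 𝒪] [Module.Finite ℤ_[3] 𝒪]
        (hp𝒪 : ((3 : ℕ) : 𝒪) ∈ maximalIdeal 𝒪),
        ∃ (εs : 𝒪) (φs : Γℚ), (εs = 1 ∨ εs = -1) ∧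
          (primeLocalPlace s59u_sp_two).IsFrobeniusAt φs (s59u_sp_two : ℕ) ∧
          LinearMap.charpoly ((s59q_WRhobar W hΔ hp𝒪).ρ φs) =
            (X - C (residue 𝒪 (εs * ((((s59u_sp_two : Nat.Primes) : ℕ) : ℕ) : 𝒪)))) *
              (X - C (residue 𝒪 εs)) := by
  intro W hΔ hss hirr hbad2 𝒪 _ _ _ _ _ _ _ _ hp𝒪
  exact s59u_sp_hscp_of_bad 3 (by norm_num) W hΔ hss hirr s59u_sp_two (by decide) hbad2 𝒪 hp𝒪

/-- **`s59u_sp_LIFTThreeC2_flat` with `HMT` discharged**: the flat half of the field `s59g_LIFTThreeC2GT`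
over the final T-side statements `s59u_sp_TFinPt 3 W hΔ 2 0`, `s59u_sp_TFinPt 3 W hΔ 2 1` and the cut run
`s59u_sp_TFinCut 3 W hΔ 2`. -/
theorem s59u_sp_LIFTThreeC2_flat' [Fact (Nat.Prime 3)]
    (HF0 : ∀ (W : WeierstrassCurve ℤ) (hΔ : W.Δ ≠ 0), s59u_sp_TFinPt 3 W hΔ 2 0)
    (HF1 : ∀ (W : WeierstrassCurve ℤ) (hΔ : W.Δ ≠ 0), s59u_sp_TFinPt 3 W hΔ 2 1)
    (HC1 : ∀ (W : WeierstrassCurve ℤ) (hΔ : W.Δ ≠ 0), s59u_sp_TFinCut 3 W hΔ 2)
    (W : WeierstrassCurve ℤ) (hΔ : W.Δ ≠ 0) (hss : W.IsSemistableModel)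
    (hirr : W.ModRepIsIrreducible 3) (M : ℕ) (hinv : s59g_Inv2T W 3 M)
    (hgood3 : W.IsGoodPrimeFor 3) (h2M : 2 ∣ M) (hunr : s59_Unr W 3 2)
    (hbad2 : ¬ W.IsGoodPrimeFor 2)
    (h2old : W.IsResiduallyModularOfLevel 3 (M / 2))
    (hram : ∀ q : ℕ, q.Prime → q ≠ 3 → q ≠ 2 → q ∣ M → ¬ s59_Unr W 3 q)
    (hres : W.IsResiduallyModularOfLevel 3 M) : s59g_AlmostModular W 3 :=
  s59u_sp_LIFTThreeC2_flat HF0 HF1 HC1 s59u_sp_HMT W hΔ hss hirr M hinv hgood3 h2M hunr hbad2 h2old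
    hram hres

end Fermat.Agent.Lib.S59
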