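/-
PROGRAMME (R2) = S59, [STRICT-p], the type-(c) [LIFT] fields at `p = 3` (helper6, prefix `s59q_sp_`), part N:
**helper1's FIELDS `liftC1gt`, `liftC2gt` (`s59g_LIFTThreeC1GT`, `s59g_LIFTThreeC2GT`, Graph3Z.lean) FROM THE FINAL `T`-SIDE STATEMENTS WITH THE
SPECTATOR `2` AND THE BASE POINT** — the flat ones `s59u_sp_TFinPt 3 W hΔ 2 k₀`, `s59u_sp_TFinCut 3 W hΔ 2` (helper3, USpL.lean v3) and the strict
ones `s59q_sp_TFinPt 3 W hΔ 2 k₀`, `s59q_sp_TFinCut 3 W hΔ 2` (QSSpM.lean), `k₀ = 0, 1`.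

* `s59q_sp_TPkgTres3_of_TFinPt`       : `s59q_sp_TFinPt 3 W hΔ 2 k₀` (+ the strict cut run if `k₀ = 1`) for every `W` ⟹ the strict contract
  `s59q_sp_TPkgTres3 k₀` (QSSpK.lean);
* **`s59q_sp_LIFTThreeC1_tres_fin`**, **`s59q_sp_LIFTThreeC2_tres_fin`** : the très ramifié halves over the strict final statements;
* **`s59q_sp_LIFTThreeC1GT_of_TFinPt`** : the field `liftC1gt` from `s59u_sp_TFinPt 3 · · 2 0` and `s59q_sp_TFinPt 3 · · 2 0`;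
* **`s59q_sp_LIFTThreeC2GT_of_TFinPt`** : the field `liftC2gt` from `s59u_sp_TFinPt 3 · · 2 k₀`, `s59q_sp_TFinPt 3 · · 2 k₀` (`k₀ = 0, 1`) and the two
  cut runs `s59u_sp_TFinCut 3 · · 2`, `s59q_sp_TFinCut 3 · · 2`.
-/
import Mathlib
import Fermat.Agent.Lib.S59.QSSpM
import Fermat.Agent.Lib.S59.QSSpL
import Fermat.Agent.Lib.S59.USpN

set_option autoImplicit false
set_option linter.unusedSectionVars false
set_option linter.unusedVariables false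
set_option linter.style.haveILetI false
set_option maxHeartbeats 1600000
set_option synthInstance.maxHeartbeats 400000

noncomputable section

namespace Fermat.Agent.Lib.S59

open IsLocalRing Polynomial CuspForm ExtCitation

local notation "Γℚ" => (AlgebraicClosure ℚ ≃ₐ[ℚ] AlgebraicClosure ℚ)

/-- **the strict contract `s59q_sp_TPkgTres3 k₀` from the final strict `T`-side statements with the spectator `2`.** -/
theorem s59q_sp_TPkgTres3_of_TFinPt [Fact (Nat.Prime 3)] (k₀ : ℕ)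
    (HF : ∀ (W : WeierstrassCurve ℤ) (hΔ : W.Δ ≠ 0), s59q_sp_TFinPt 3 W hΔ 2 k₀)
    (HC : k₀ = 1 → ∀ (W : WeierstrassCurve ℤ) (hΔ : W.Δ ≠ 0), s59q_sp_TFinCut 3 W hΔ 2) :
    s59q_sp_TPkgTres3 k₀ := by
  intro W hΔ hss hirr hpeu N₀ hsq h3N h2N hunr2 hold hres hram
  exact s59q_sp_TPkgFLR_of_TFinPt 3 (Or.inl rfl) W hΔ hss hirr hpeu N₀ hsq h3N h2N 2 (by norm_num) h2N
    hres hold (by norm_num) (fun q hq hq3 hqN hq2 => hram q hq hq3 hq2 hqN) k₀ (HF W hΔ)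
    (fun h => HC h W hΔ)

/-- **the TRÈS RAMIFIÉ half of `s59g_LIFTThreeC1GT`** over the strict final statement at `k₀ = 0`. -/
theorem s59q_sp_LIFTThreeC1_tres_fin [Fact (Nat.Prime 3)]
    (HS0 : ∀ (W : WeierstrassCurve ℤ) (hΔ : W.Δ ≠ 0), s59q_sp_TFinPt 3 W hΔ 2 0)
    (W : WeierstrassCurve ℤ) (hΔ : W.Δ ≠ 0) (hss : W.IsSemistableModel)
    (hirr : W.ModRepIsIrreducible 3) (M : ℕ) (hinv : s59g_Inv2T W 3 M)
    (hpeu : ¬ s59g_Peu W 3) (h2M : 2 ∣ M) (hunr2 : s59_Unr W 3 2)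
    (hgood2 : W.IsGoodPrimeFor 2) (ha2 : (3 : ℤ) ∣ W.apOfModel 2)
    (h2old : W.IsResiduallyModularOfLevel 3 (M / 2))
    (hram : ∀ q : ℕ, q.Prime → q ≠ 3 → q ≠ 2 → q ∣ M → ¬ s59_Unr W 3 q)
    (hres : W.IsResiduallyModularOfLevel 3 M) : s59g_AlmostModular W 3 :=
  s59q_sp_LIFTThreeC1_tres (s59q_sp_TPkgTres3_of_TFinPt 0 HS0 (fun h => absurd h (by norm_num)))
    W hΔ hss hirr M hinv hpeu h2M hunr2 hgood2 ha2 h2old hram hres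

/-- **the TRÈS RAMIFIÉ half of `s59g_LIFTThreeC2GT`** over the strict final statements at `k₀ = 0, 1` and the strict cut run. -/
theorem s59q_sp_LIFTThreeC2_tres_fin [Fact (Nat.Prime 3)]
    (HS0 : ∀ (W : WeierstrassCurve ℤ) (hΔ : W.Δ ≠ 0), s59q_sp_TFinPt 3 W hΔ 2 0)
    (HS1 : ∀ (W : WeierstrassCurve ℤ) (hΔ : W.Δ ≠ 0), s59q_sp_TFinPt 3 W hΔ 2 1)
    (HCS1 : ∀ (W : WeierstrassCurve ℤ) (hΔ : W.Δ ≠ 0), s59q_sp_TFinCut 3 W hΔ 2)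
    (W : WeierstrassCurve ℤ) (hΔ : W.Δ ≠ 0) (hss : W.IsSemistableModel)
    (hirr : W.ModRepIsIrreducible 3) (M : ℕ) (hinv : s59g_Inv2T W 3 M)
    (hpeu : ¬ s59g_Peu W 3) (h2M : 2 ∣ M) (hunr2 : s59_Unr W 3 2)
    (hbad2 : ¬ W.IsGoodPrimeFor 2)
    (h2old : W.IsResiduallyModularOfLevel 3 (M / 2))
    (hram : ∀ q : ℕ, q.Prime → q ≠ 3 → q ≠ 2 → q ∣ M → ¬ s59_Unr W 3 q)
    (hres : W.IsResiduallyModularOfLevel 3 M) : s59g_AlmostModular W 3 :=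
  s59q_sp_LIFTThreeC2_tres_ok (s59q_sp_TPkgTres3_of_TFinPt 0 HS0 (fun h => absurd h (by norm_num)))
    (s59q_sp_TPkgTres3_of_TFinPt 1 HS1 (fun _ => HCS1))
    W hΔ hss hirr M hinv hpeu h2M hunr2 hbad2 h2old hram hres

/-- **the field `liftC1gt`** from the flat and the strict final `T`-side statements with the spectator `2`, `k₀ = 0`. -/
theorem s59q_sp_LIFTThreeC1GT_of_TFinPt [Fact (Nat.Prime 3)]
    (HF0 : ∀ (W : WeierstrassCurve ℤ) (hΔ : W.Δ ≠ 0), s59u_sp_TFinPt 3 W hΔ 2 0)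
    (HS0 : ∀ (W : WeierstrassCurve ℤ) (hΔ : W.Δ ≠ 0), s59q_sp_TFinPt 3 W hΔ 2 0) :
    s59g_LIFTThreeC1GT :=
  s59u_sp_LIFTThreeC1GT_of
    (fun W hΔ hss hirr M hinv hg h2M hunr hgood2 ha2 h2old hram hres =>
      s59u_sp_LIFTThreeC1_flat HF0 W hΔ hss hirr M hinv hg h2M hunr hgood2 ha2 h2old hram hres)
    (fun W hΔ hss hirr M hinv _ hpeu h2M hunr hgood2 ha2 h2old hram hres =>
      s59q_sp_LIFTThreeC1_tres_fin HS0 W hΔ hss hirr M hinv hpeu h2M hunr hgood2 ha2 h2old hram hres)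

/-- **the field `liftC2gt`** from the flat and the strict final `T`-side statements with the spectator `2`, `k₀ = 0, 1`, and the two
cut runs. -/
theorem s59q_sp_LIFTThreeC2GT_of_TFinPt [Fact (Nat.Prime 3)]
    (HF0 : ∀ (W : WeierstrassCurve ℤ) (hΔ : W.Δ ≠ 0), s59u_sp_TFinPt 3 W hΔ 2 0)
    (HF1 : ∀ (W : WeierstrassCurve ℤ) (hΔ : W.Δ ≠ 0), s59u_sp_TFinPt 3 W hΔ 2 1)
    (HC1 : ∀ (W : WeierstrassCurve ℤ) (hΔ : W.Δ ≠ 0), s59u_sp_TFinCut 3 W hΔ 2)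
    (HS0 : ∀ (W : WeierstrassCurve ℤ) (hΔ : W.Δ ≠ 0), s59q_sp_TFinPt 3 W hΔ 2 0)
    (HS1 : ∀ (W : WeierstrassCurve ℤ) (hΔ : W.Δ ≠ 0), s59q_sp_TFinPt 3 W hΔ 2 1)
    (HCS1 : ∀ (W : WeierstrassCurve ℤ) (hΔ : W.Δ ≠ 0), s59q_sp_TFinCut 3 W hΔ 2) :
    s59g_LIFTThreeC2GT :=
  s59u_sp_LIFTThreeC2GT_of
    (fun W hΔ hss hirr M hinv hg h2M hunr hbad2 h2old hram hres =>
      s59u_sp_LIFTThreeC2_flat' HF0 HF1 HC1 W hΔ hss hirr M hinv hg h2M hunr hbad2 h2old hram hres)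
    (fun W hΔ hss hirr M hinv _ hpeu h2M hunr hbad2 h2old hram hres =>
      s59q_sp_LIFTThreeC2_tres_fin HS0 HS1 HCS1 W hΔ hss hirr M hinv hpeu h2M hunr hbad2 h2old hram hres)

end Fermat.Agent.Lib.S59

end
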