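/-
PROGRAMME (R), non-minimal case (P), route (T5w) (helper6, prefix `s59q_`): **the lift of type "strict AND flat" needed by
`s59q_FLR_R_w` (QSFlrRW.lean) / `s59q_exists_DQ_sf` (QSfType.lean) is `ρ̄` ITSELF over `k = 𝒪/𝔪`**, as soon as `ρ̄` has ONE
strict lift (e.g. the Tate module of `W`, or the universal strict ring `D0`) and ONE flat lift (e.g. a modular lift of level prime
to `p`, or the universal flat ring), possibly over DIFFERENT rings.

* `s59q_bc_resk_isEquiv`    : for a lift `ρA` of `ρ̄` over a test algebra `A`, `ρA ⊗_A k ≅ ρ̄` (`A → k` the canonical map `resk`);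
* `s59q_ofRes_residual`     : `ρ̄` over `k` is a lift of `ρ̄` (the hypothesis `hresid` of `s59q_exists_DQ*` for `A = k`);
* `s59q_sfType_residual`    : strict lift + flat lift ⟹ `ρ̄` over `k` is of type `s59q_SfType 𝒪 p Sg Su`;
* `s59q_exists_Dsf_of_lifts`: ⟹ the universal ring of type `s59q_SfType 𝒪 p Sg Su` exists.
-/
import Fermat.Agent.Lib.S59.QSfType

set_option autoImplicit false
set_option linter.style.haveILetI false
set_option linter.unusedSectionVars false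
set_option linter.unusedVariables false

noncomputable section

namespace Fermat.Agent.Lib.S59

open IsLocalRing Module GaloisRep Fermat.Agent.Lib.S56
open Fermat.Agent.Lib.S53 (matOf matOfRes NormData exists_normData exists_basis_res
  exists_basis_baseChangeAlong isEquiv_of_matOf_eq matOf_apply matOfRes_apply residueField_map_compat
  exists_basis_residual exists_basis_baseChange_res isEquiv_of_matOfRes_eq)
open Fermat.Agent.Lib.Deform (IsTestAlgebra resk resk_eq_iff resk_eq_zero_iff resk_surjective)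

local notation "Γℚ" => (AlgebraicClosure ℚ ≃ₐ[ℚ] AlgebraicClosure ℚ)

section Resk

variable {𝒪 : Type} [CommRing 𝒪] [IsLocalRing 𝒪]
  {ρbar : ResidualGaloisRep (ResidueField 𝒪)}

/-- a basis of `ρ̄` is a basis of `ρ̄` viewed as a representation over the local ring `k`, with the same matrices. -/
theorem s59q_exists_basis_ofRes (b : Basis (Fin 2) (ResidueField 𝒪) ρbar.V) :
    ∃ b' : Basis (Fin 2) (ResidueField 𝒪) (GaloisRepAdic.ofResidualGaloisRep ρbar).V,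
      ∀ σ : Γℚ, matOf (GaloisRepAdic.ofResidualGaloisRep ρbar) b' σ = matOfRes ρbar b σ :=
  ⟨b, fun _ => rfl⟩

/-- **the reduction to `k` of a lift of `ρ̄` over a test algebra is `ρ̄`.** -/
theorem s59q_bc_resk_isEquiv {A : Type} [CommRing A] [IsLocalRing A] [Algebra 𝒪 A]
    (hloc : IsLocalHom (algebraMap 𝒪 A))
    (hres : Function.Surjective (IsLocalRing.residue A ∘ algebraMap 𝒪 A))
    (N : NormData ρbar) (ρA : GaloisRepAdic A)
    (hresid : ρA.residual.IsEquiv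
      (ρbar.baseChangeAlong (IsLocalRing.ResidueField.map (algebraMap 𝒪 A))))
    (hπ : IsLocalHom ((resk (⟨hloc, hres⟩ : IsTestAlgebra 𝒪 A) : A →ₐ[𝒪] ResidueField 𝒪) :
      A →+* ResidueField 𝒪)) :
    (ρA.baseChangeAlong ((resk (⟨hloc, hres⟩ : IsTestAlgebra 𝒪 A) : A →ₐ[𝒪] ResidueField 𝒪) :
      A →+* ResidueField 𝒪) hπ).IsEquiv (GaloisRepAdic.ofResidualGaloisRep ρbar) := by
  classical
  set hA : IsTestAlgebra 𝒪 A := ⟨hloc, hres⟩ with hAdef
  obtain ⟨b, hb⟩ := @exists_basis_res 𝒪 _ _ ρbar N A _ _ _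
    (IsLocalRing.ResidueField.map (algebraMap 𝒪 A)).toAlgebra residueField_map_compat ρA hresid
  obtain ⟨b₁, hb₁⟩ := exists_basis_baseChangeAlong ρA b
    ((resk hA : A →ₐ[𝒪] ResidueField 𝒪) : A →+* ResidueField 𝒪) hπ
  obtain ⟨b₂, hb₂⟩ := s59q_exists_basis_ofRes (ρbar := ρbar) N.b
  refine isEquiv_of_matOf_eq b₁ b₂ fun σ => ?_
  rw [hb₁, hb₂, ← N.hMtil]
  refine Matrix.ext fun i j => ?_
  simp only [Matrix.map_apply]
  exact (resk_eq_iff hA _ _).2 (hb σ i j)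

/-- `resk` is a local homomorphism. -/
theorem s59q_resk_isLocalHom {A : Type} [CommRing A] [IsLocalRing A] [Algebra 𝒪 A]
    (hA : IsTestAlgebra 𝒪 A) :
    IsLocalHom ((resk hA : A →ₐ[𝒪] ResidueField 𝒪) : A →+* ResidueField 𝒪) :=
  IsLocalHom.of_surjective _ (resk_surjective hA)

end Resk

section OfRes

variable {𝒪 : Type} [CommRing 𝒪] [IsLocalRing 𝒪]
  (ρbar : ResidualGaloisRep (ResidueField 𝒪))

/-- `k` is a test algebra. -/
theorem s59q_isTestAlgebra_k : IsTestAlgebra 𝒪 (ResidueField 𝒪) := by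
  refine ⟨?_, fun x => ?_⟩
  · refine ⟨fun a ha => ?_⟩
    rw [IsLocalRing.ResidueField.algebraMap_eq] at ha
    exact (IsLocalRing.residue_ne_zero_iff_isUnit a).1 ha.ne_zero
  · obtain ⟨y, rfl⟩ := IsLocalRing.residue_surjective x
    obtain ⟨a, rfl⟩ := IsLocalRing.residue_surjective y
    exact ⟨a, rfl⟩

/-- **`ρ̄` over `k` is a lift of `ρ̄`.** -/
theorem s59q_ofRes_residual (hloc : IsLocalHom (algebraMap 𝒪 (ResidueField 𝒪))) :
    (GaloisRepAdic.ofResidualGaloisRep ρbar).residual.IsEquiv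
      (ρbar.baseChangeAlong (IsLocalRing.ResidueField.map (algebraMap 𝒪 (ResidueField 𝒪)))) := by
  classical
  set b : Basis (Fin 2) (ResidueField 𝒪) ρbar.V := Module.finBasisOfFinrankEq _ _ ρbar.finrank_eq
  obtain ⟨b', hb'⟩ := s59q_exists_basis_ofRes (ρbar := ρbar) b
  obtain ⟨b₁, hb₁⟩ := exists_basis_residual (GaloisRepAdic.ofResidualGaloisRep ρbar) b'
  letI : Algebra (ResidueField 𝒪) (ResidueField (ResidueField 𝒪)) :=
    (IsLocalRing.ResidueField.map (algebraMap 𝒪 (ResidueField 𝒪))).toAlgebra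
  obtain ⟨b₂, hb₂⟩ := exists_basis_baseChange_res (K := ResidueField (ResidueField 𝒪)) ρbar b
  refine isEquiv_of_matOfRes_eq b₁ b₂ fun σ => ?_
  refine ((matOfRes_apply _ b₁ σ).trans (hb₁ σ)).trans (Eq.trans ?_ (hb₂ σ).symm)
  rw [hb' σ]
  refine Matrix.ext fun i j => ?_
  simp only [Matrix.map_apply]
  obtain ⟨a, ha⟩ := IsLocalRing.residue_surjective (matOfRes ρbar b σ i j)
  rw [← ha, RingHom.algebraMap_toAlgebra, IsLocalRing.ResidueField.map_residue,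
    IsLocalRing.ResidueField.algebraMap_eq]

end OfRes

section Main

variable {𝒪 : Type} [CommRing 𝒪] [IsDomain 𝒪] [IsDiscreteValuationRing 𝒪]
  [IsAdicComplete (maximalIdeal 𝒪) 𝒪] [Finite (ResidueField 𝒪)]
  (p : ℕ) [Fact p.Prime]
  (ρbar : ResidualGaloisRep (ResidueField 𝒪))

/-- **strict lift + flat lift ⟹ `ρ̄` over `k` is of type "strict AND flat".** -/
theorem s59q_sfType_residual (N : NormData ρbar) (Sg Su : Finset ℕ)
    {A₁ : Type} [CommRing A₁] [IsLocalRing A₁] [Algebra 𝒪 A₁]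
    (hloc₁ : IsLocalHom (algebraMap 𝒪 A₁))
    (hres₁ : Function.Surjective (IsLocalRing.residue A₁ ∘ algebraMap 𝒪 A₁))
    (ρ₁ : GaloisRepAdic A₁)
    (h₁ : strictOrdinaryCondition 𝒪 p Sg ρ₁ ∧
      ∀ q ∈ Su, q.Prime → q ≠ p → ρ₁.IsUnipotentOnInertiaAt q)
    (hresid₁ : ρ₁.residual.IsEquiv
      (ρbar.baseChangeAlong (IsLocalRing.ResidueField.map (algebraMap 𝒪 A₁))))
    {A₂ : Type} [CommRing A₂] [IsLocalRing A₂] [Algebra 𝒪 A₂]
    (hloc₂ : IsLocalHom (algebraMap 𝒪 A₂))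
    (hres₂ : Function.Surjective (IsLocalRing.residue A₂ ∘ algebraMap 𝒪 A₂))
    (ρ₂ : GaloisRepAdic A₂) (h₂ : ρ₂.IsFlatAt p)
    (hresid₂ : ρ₂.residual.IsEquiv
      (ρbar.baseChangeAlong (IsLocalRing.ResidueField.map (algebraMap 𝒪 A₂)))) :
    s59q_SfType 𝒪 p Sg Su (GaloisRepAdic.ofResidualGaloisRep ρbar) := by
  classical
  have hA₁ : IsTestAlgebra 𝒪 A₁ := ⟨hloc₁, hres₁⟩
  have hA₂ : IsTestAlgebra 𝒪 A₂ := ⟨hloc₂, hres₂⟩
  have hπ₁ := s59q_resk_isLocalHom hA₁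
  have hπ₂ := s59q_resk_isLocalHom hA₂
  obtain ⟨e₁⟩ := s59q_bc_resk_isEquiv hloc₁ hres₁ N ρ₁ hresid₁ hπ₁
  obtain ⟨e₂⟩ := s59q_bc_resk_isEquiv hloc₂ hres₂ N ρ₂ hresid₂ hπ₂
  refine ⟨⟨?_, ⟨?_, ?_⟩, fun q hq hqS => ?_⟩, fun q hq hqp hne => ?_⟩
  · exact s56a_detIsCyclotomic_of_equiv e₁ (s56a_detIsCyclotomic_baseChange _ hπ₁ ρ₁ h₁.1.1)
  · exact s56a_isStrictOrdinaryAt_of_equiv e₁
      (s56a_isStrictOrdinaryAt_baseChange _ hπ₁ ρ₁ h₁.1.2.1)
  · exact s56a_isFlatAt_of_equiv e₂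
      (s56a_isFlatAt_baseChange _ hπ₂ (resk_surjective hA₂) ρ₂ h₂)
  · exact s56a_isUnramifiedAt_of_equiv e₁
      (s56a_isUnramifiedAt_baseChange _ hπ₁ ρ₁ (h₁.1.2.2 q hq hqS))
  · exact s56a_isUnipotentOnInertiaAt_of_equiv e₁
      (s56a_isUnipotentOnInertiaAt_baseChange _ hπ₁ ρ₁ (h₁.2 q hq hqp hne))

variable (hp2 : p ≠ 2) (hp𝒪 : (p : 𝒪) ∈ maximalIdeal 𝒪)

include hp2 hp𝒪 in
/-- **[EXIST-DQ], strict AND flat, from ONE strict lift and ONE flat lift** (of type `Σ₀ ⊆ Σ`). -/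
theorem s59q_exists_Dsf_of_lifts (habs : ρbar.IsAbsolutelyIrreducible)
    (Sg₀ Sg Su : Finset ℕ) (hS : Sg₀ ⊆ Sg) (hpSg : p ∈ Sg)
    (hunr : ∀ q : ℕ, q.Prime → q ∉ Sg → ρbar.IsUnramifiedAt q)
    {A₁ : Type} [CommRing A₁] [IsLocalRing A₁] [Algebra 𝒪 A₁]
    (hloc₁ : IsLocalHom (algebraMap 𝒪 A₁))
    (hres₁ : Function.Surjective (IsLocalRing.residue A₁ ∘ algebraMap 𝒪 A₁))
    (ρ₁ : GaloisRepAdic A₁)
    (h₁ : strictOrdinaryCondition 𝒪 p Sg₀ ρ₁ ∧
      ∀ q ∈ Su, q.Prime → q ≠ p → ρ₁.IsUnipotentOnInertiaAt q)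
    (hresid₁ : ρ₁.residual.IsEquiv
      (ρbar.baseChangeAlong (IsLocalRing.ResidueField.map (algebraMap 𝒪 A₁))))
    {A₂ : Type} [CommRing A₂] [IsLocalRing A₂] [Algebra 𝒪 A₂]
    (hloc₂ : IsLocalHom (algebraMap 𝒪 A₂))
    (hres₂ : Function.Surjective (IsLocalRing.residue A₂ ∘ algebraMap 𝒪 A₂))
    (ρ₂ : GaloisRepAdic A₂) (h₂ : ρ₂.IsFlatAt p)
    (hresid₂ : ρ₂.residual.IsEquiv
      (ρbar.baseChangeAlong (IsLocalRing.ResidueField.map (algebraMap 𝒪 A₂)))) :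
    Nonempty (DeformationRingData 𝒪 ρbar (s59q_SfType 𝒪 p Sg Su)) := by
  classical
  obtain ⟨N⟩ := exists_normData ρbar habs
  have hk : IsTestAlgebra 𝒪 (ResidueField 𝒪) := s59q_isTestAlgebra_k
  haveI : IsAdicComplete (maximalIdeal (ResidueField 𝒪)) (ResidueField 𝒪) :=
    Fermat.Agent.Lib.Deform.isAdicComplete_of_isArtinianRing _
  exact s59q_exists_DQ_sf p hp2 hp𝒪 ρbar habs Sg₀ Sg Su hS hpSg hunr hk.isLocalHom
    hk.residue_surjective (GaloisRepAdic.ofResidualGaloisRep ρbar)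
    (s59q_sfType_residual p ρbar N Sg₀ Su hloc₁ hres₁ ρ₁ h₁ hresid₁ hloc₂ hres₂ ρ₂ h₂ hresid₂)
    (s59q_ofRes_residual ρbar hk.isLocalHom)

end Main

end Fermat.Agent.Lib.S59
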