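/-
PROGRAMME R2 = S59, case (P) non-minimal, [W5] (helper3, prefix `s59u_w_sp_`), file 12: **THE TOP OF THE LEVEL-RAISING PATCH WITH
ONE SPECTATOR PRIME IN CASE (P)** (`W` MULTIPLICATIVE at `p`, `ρ̄_{W,p}` finite at `p`, base level `N₀ = M p`) — the (P)-twin of
helper6's QSSpI.lean (`s59q_sp_FLR_strict_aux`, `s59q_sp_FLR_strict`, `s59q_sp_FLR_strict_c1`) over the WEAK core
`s59u_w_sp_FLR_W_core_ord` (UWSpH.lean).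

`W` semistable, multiplicative at `p`, `ρ̄_{W,p}` irreducible; `N₀` squarefree, `p ∣ N₀`; `s ∣ N₀` the spectator (`s ≠ p`, `p ∤ s − 1`, `ρ̄`
unramified at `s`); every other prime `≠ p` of `N₀` is a ramified prime of `ρ̄`; NO hypothesis on the bad primes of `W`.
Differences with QSSpI: the hypothesis `très ramifié` is replaced by `hmult : ¬ W.IsGoodPrimeFor p`, and the two existence statements
which the très chain gets from (T1) — they are `T`-side facts of case (P) ((RAISE-p) + the `p`-new datum, resp. the common quotient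
`T_Ξ` of the `p`-new and the `p`-old Hecke rings) — are HYPOTHESES:
  * `hDm₀`  : a universal ring of the MINIMAL strict type `strict(Σ_min) ∧ unip(Σ_min)` exists;
  * `hDsf₀` : a universal ring of the MINIMAL "strict AND flat" type `s59q_SfType 𝒪 p Σ_min Σ_min` exists.

* `s59u_w_sp_FLR_P_aux`, `s59u_w_sp_heckePt_shape`, **`s59u_w_sp_FLR_P`**, **`s59u_w_sp_FLR_P_c1`** (body of `s59g_HeckePt W p`).
-/
import Mathlib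
import Fermat.Agent.Lib.S59.USpI
import Fermat.Agent.Lib.S59.UWSpH

set_option autoImplicit false
set_option linter.unusedSectionVars false
set_option linter.unusedVariables false
set_option linter.style.haveILetI false
set_option maxHeartbeats 3200000
set_option synthInstance.maxHeartbeats 400000

noncomputable section

namespace Fermat.Agent.Lib.S59

open IsLocalRing CuspForm Polynomial ExtCitation
open Fermat.Agent.Lib.S53 (matOf matOfRes NormData)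
open Fermat.Agent.Lib.S56 Fermat.Agent.Lib.S44

local notation "Γℚ" => (AlgebraicClosure ℚ ≃ₐ[ℚ] AlgebraicClosure ℚ)

/-! ### The assembly for a fixed coefficient ring -/

/-- **[PATCH-FLR], case (P) (`W` multiplicative at `p`, `p ∣ N₀`), one spectator `s ∣ N₀`: the assembly for a fixed coefficient ring
`𝒪` and a fixed position `(k₀, εs, φs)` of `ρ_W ⊗ 𝒪` at `s`.** The raising primes are
`Rs = {q ≠ p, s : W bad, ρ̄ unramified, ρ_W ⊗ 𝒪 ramified at q}`. -/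
theorem s59u_w_sp_FLR_P_aux (p : ℕ) [Fact p.Prime] (hp35 : p = 3 ∨ p = 5)
    (W : WeierstrassCurve ℤ) (hΔ : W.Δ ≠ 0) (hss : W.IsSemistableModel)
    (hirr : W.ModRepIsIrreducible p)
    (hmult : ¬ W.IsGoodPrimeFor p)
    (N₀ : ℕ) [NeZero N₀] (hsq : Squarefree N₀) (hpN : p ∣ N₀)
    (s : Nat.Primes) (hsp : (s : ℕ) ≠ p) (hsN₀ : (s : ℕ) ∣ N₀) (hsns : ¬ p ∣ (s : ℕ) - 1)
    (hsU : s59_Unr W p s)
    (hNtype : ∀ q : ℕ, q.Prime → q ≠ p → q ∣ N₀ → q ≠ (s : ℕ) → ¬ s59_Unr W p q)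
    (𝒪 : Type) [CommRing 𝒪] [IsDomain 𝒪] [IsDiscreteValuationRing 𝒪]
    [IsAdicComplete (maximalIdeal 𝒪) 𝒪] [Finite (ResidueField 𝒪)] [CharZero 𝒪]
    [Algebra ℤ_[p] 𝒪] [Module.Finite ℤ_[p] 𝒪]
    (hp𝒪 : ((p : ℕ) : 𝒪) ∈ maximalIdeal 𝒪)
    (hsplit : ∀ a b : ℤ, ∃ α β : ResidueField 𝒪,
      α + β = (a : ResidueField 𝒪) ∧ α * β = (b : ResidueField 𝒪))
    -- the two existence statements of case (P)
    (hDm₀ : Nonempty (GaloisRep.DeformationRingData 𝒪 (s59i_rhobarW W p hΔ 𝒪 hp𝒪)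
      (fun _A _ _ _ ρ => GaloisRep.strictOrdinaryCondition 𝒪 p (s59q_WSmin W hΔ hp𝒪) ρ ∧
        ∀ q ∈ s59q_WSmin W hΔ hp𝒪, q.Prime → q ≠ p → ρ.IsUnipotentOnInertiaAt q)))
    (hDsf₀ : Nonempty (GaloisRep.DeformationRingData 𝒪 (s59i_rhobarW W p hΔ 𝒪 hp𝒪)
      (s59q_SfType 𝒪 p (s59q_WSmin W hΔ hp𝒪) (s59q_WSmin W hΔ hp𝒪))))
    (εs : 𝒪) (hεs : εs = 1 ∨ εs = -1)
    (φs : Γℚ) (hφs : (primeLocalPlace s).IsFrobeniusAt φs s)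
    (hscp : LinearMap.charpoly ((s59q_WRhobar W hΔ hp𝒪).ρ φs) =
      (X - C (residue 𝒪 (εs * (((s : ℕ) : ℕ) : 𝒪)))) * (X - C (residue 𝒪 εs)))
    (k₀ : ℕ)
    (hspec : (k₀ = 0 ∧ (s59q_WRho W hΔ hp𝒪).IsUnramifiedAt s) ∨
      (k₀ = 1 ∧ ¬ (s59q_WRho W hΔ hp𝒪).IsUnramifiedAt s ∧
        s59i_cpTr (s59q_WRho W hΔ hp𝒪) φs = εs * ((((s : ℕ) : ℕ) : 𝒪) + 1)))
    (HT : s59u_w_sp_TPkgFLR p W hΔ N₀ s k₀) :
    ∃ (N : ℕ) (_ : NeZero N) (χ : heckeAlgebra N 2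
        (↑((N * p).primeFactors ∪ W.Δ.natAbs.primeFactors) : Set ℕ) →+* 𝒪),
      Squarefree N ∧ p ∣ N ∧
      ∀ (ℓ : ℕ) (hℓ : ℓ.Prime) (hℓN : ¬ ℓ ∣ N)
        (hℓB : ℓ ∉ (↑((N * p).primeFactors ∪ W.Δ.natAbs.primeFactors) : Set ℕ)),
        χ (heckeAlgebra.T hℓ hℓN hℓB) = ((W.apOfModel ℓ : ℤ) : 𝒪) := by
  classical
  have hpp : p.Prime := Fact.out
  have hp2 : p ≠ 2 := s59q_W_p_ne_two hp35
  have hN0 : N₀ ≠ 0 := NeZero.ne N₀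
  have habs := s59q_W_habs W hΔ hp𝒪 hp35 hss hirr
  -- the raising primes
  set Rs : Finset ℕ := W.Δ.natAbs.primeFactors.filter (fun q => q ≠ p ∧ q ≠ (s : ℕ) ∧
    (s59q_WRhobar W hΔ hp𝒪).IsUnramifiedAt q ∧ ¬ (s59q_WRho W hΔ hp𝒪).IsUnramifiedAt q)
    with hRsdef
  have hRs : ∀ q ∈ Rs, q.Prime ∧ q ≠ p ∧ ¬ q ∣ N₀ ∧ ¬ W.IsGoodPrimeFor q ∧
      (s59q_WRhobar W hΔ hp𝒪).IsUnramifiedAt q ∧
      ¬ (s59q_WRho W hΔ hp𝒪).IsUnramifiedAt q := by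
    intro q hq
    obtain ⟨hqΔ, hqp, hqs, hU, hram⟩ := Finset.mem_filter.mp hq
    rw [Nat.mem_primeFactors] at hqΔ
    have hbadq : ¬ W.IsGoodPrimeFor q := fun hg => hg (Int.natCast_dvd.mpr hqΔ.2.1)
    refine ⟨hqΔ.1, hqp, ?_, hbadq, hU, hram⟩
    intro hqN
    exact hNtype q hqΔ.1 hqp hqN hqs ((s59q_W_unram_iff W hΔ hp𝒪 q).mp hU)
  have hsU' : (s59q_WRhobar W hΔ hp𝒪).IsUnramifiedAt s :=
    (s59q_W_unram_iff W hΔ hp𝒪 s).mpr hsU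
  have hsSmin : (s : ℕ) ∉ s59q_WSmin W hΔ hp𝒪 := fun h =>
    ((s59q_WSmin_hmin W hΔ hp𝒪 hp2 s s.2 hsp).mp h) hsU'
  have hunrW : ∀ q : ℕ, q.Prime → q ∉ s59q_WSmin W hΔ hp𝒪 ∪ insert (s : ℕ) Rs →
      (s59q_WRho W hΔ hp𝒪).IsUnramifiedAt q := by
    intro q hq hqS
    have hqSmin : q ∉ s59q_WSmin W hΔ hp𝒪 := fun h => hqS (Finset.mem_union_left _ h)
    have hqs : q ≠ (s : ℕ) := fun h =>
      hqS (Finset.mem_union_right _ (h ▸ Finset.mem_insert_self _ _))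
    have hqRs : q ∉ Rs := fun h => hqS (Finset.mem_union_right _ (Finset.mem_insert_of_mem h))
    have hqp : q ≠ p := fun h => hqSmin (h ▸ s59q_WSmin_p_mem W hΔ hp𝒪)
    by_cases hgood : W.IsGoodPrimeFor q
    · exact s59e_bc_unram _ _ _ q (s59b_rhoW_unram hΔ hp2 q hq hqp hgood)
    · by_contra hram
      apply hqRs
      refine Finset.mem_filter.mpr ⟨Nat.mem_primeFactors.mpr ⟨hq,
        Int.natCast_dvd.mp (s59q_W_dvd_disc_of_bad W q hq hgood), Int.natAbs_ne_zero.mpr hΔ⟩,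
        hqp, hqs, ?_, hram⟩
      by_contra hU
      exact hqSmin ((s59q_WSmin_hmin W hΔ hp𝒪 hp2 q hq hqp).mpr hU)
  -- `ρ̄` is unramified outside `Σ_min`
  have hunrbar : ∀ (T : Finset ℕ) (q : ℕ), q.Prime → q ∉ s59q_WSmin W hΔ hp𝒪 ∪ T →
      (s59i_rhobarW W p hΔ 𝒪 hp𝒪).IsUnramifiedAt q := by
    intro T q hq hqS
    have hqSmin : q ∉ s59q_WSmin W hΔ hp𝒪 := fun h => hqS (Finset.mem_union_left _ h)
    have hqp : q ≠ p := fun h => hqSmin (h ▸ s59q_WSmin_p_mem W hΔ hp𝒪)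
    by_contra hram
    exact hqSmin ((s59q_WSmin_hmin W hΔ hp𝒪 hp2 q hq hqp).mpr hram)
  -- the minimal lifts are unipotent at `s` and at the raising primes (unramified there)
  have hnotSmin : ∀ q ∈ insert (s : ℕ) Rs, q ∉ s59q_WSmin W hΔ hp𝒪 := by
    intro q hq h1
    rcases Finset.mem_insert.mp hq with h' | h'
    · exact hsSmin (h' ▸ h1)
    · exact ((s59q_WSmin_hmin W hΔ hp𝒪 hp2 q (hRs q h').1 (hRs q h').2.1).mp h1)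
        (hRs q h').2.2.2.2.1
  obtain ⟨Dm₀⟩ := hDm₀
  have hDm : Nonempty (GaloisRep.DeformationRingData 𝒪 (s59i_rhobarW W p hΔ 𝒪 hp𝒪)
      (fun _A _ _ _ ρ => GaloisRep.strictOrdinaryCondition 𝒪 p (s59q_WSmin W hΔ hp𝒪 ∪ {(s : ℕ)}) ρ ∧
        ∀ q ∈ s59q_WSmin W hΔ hp𝒪 ∪ insert (s : ℕ) Rs, q.Prime → q ≠ p →
          ρ.IsUnipotentOnInertiaAt q)) := by
    refine s59q_exists_DQ_ord p hp2 hp𝒪 (s59i_rhobarW W p hΔ 𝒪 hp𝒪) habs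
      (s59q_WSmin W hΔ hp𝒪) (s59q_WSmin W hΔ hp𝒪 ∪ {(s : ℕ)})
      (s59q_WSmin W hΔ hp𝒪 ∪ insert (s : ℕ) Rs)
      Finset.subset_union_left (Finset.mem_union_left _ (s59q_WSmin_p_mem W hΔ hp𝒪))
      (hunrbar _) inferInstance
      Dm₀.residue_surjective Dm₀.ρ ⟨Dm₀.isOfType.1, ?_⟩
      Dm₀.residual_isEquiv
    intro q hq hqP hqp
    rcases Finset.mem_union.mp hq with h | h
    · exact Dm₀.isOfType.2 q h hqP hqp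
    · exact s59f_unip_of_unram Dm₀.ρ q (Dm₀.isOfType.1.2.2 q hqP (hnotSmin q h))
  obtain ⟨Dsf₀⟩ := hDsf₀
  have hDsf0 : Nonempty (GaloisRep.DeformationRingData 𝒪 (s59i_rhobarW W p hΔ 𝒪 hp𝒪)
      (s59q_SfType 𝒪 p (s59q_WSmin W hΔ hp𝒪 ∪ insert (s : ℕ) Rs)
        (s59q_WSmin W hΔ hp𝒪 ∪ insert (s : ℕ) Rs))) := by
    refine s59q_exists_DQ_sf p hp2 hp𝒪 (s59i_rhobarW W p hΔ 𝒪 hp𝒪) habs
      (s59q_WSmin W hΔ hp𝒪) (s59q_WSmin W hΔ hp𝒪 ∪ insert (s : ℕ) Rs)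
      (s59q_WSmin W hΔ hp𝒪 ∪ insert (s : ℕ) Rs)
      Finset.subset_union_left (Finset.mem_union_left _ (s59q_WSmin_p_mem W hΔ hp𝒪))
      (hunrbar _) inferInstance
      Dsf₀.residue_surjective Dsf₀.ρ ⟨Dsf₀.isOfType.1, ?_⟩
      Dsf₀.residual_isEquiv
    intro q hq hqP hqp
    rcases Finset.mem_union.mp hq with h | h
    · exact Dsf₀.isOfType.2 q h hqP hqp
    · exact s59f_unip_of_unram Dsf₀.ρ q (Dsf₀.isOfType.1.2.2 q hqP (hnotSmin q h))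
  obtain ⟨N, iN, χ, -, h1, h2, h3⟩ := s59u_w_sp_FLR_W_core_ord p hp35 W hΔ hss hirr hmult N₀ hN0 hsq
    hpN 𝒪 hp𝒪 hsplit Rs hRs s hsp hsN₀ hsns hsU' εs hεs φs hφs hscp k₀ hspec hunrW hDm hDsf0 HT
  exact ⟨N, iN, χ, h1, h2, h3⟩

/-! ### The top statements -/

/-- the shape of the conclusion: from a squarefree level divisible by `p` to the body of `s59g_HeckePt`. -/
theorem s59u_w_sp_heckePt_shape (p : ℕ) [Fact p.Prime] (W : WeierstrassCurve ℤ)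
    (h : ∃ (N : ℕ) (_ : NeZero N) (B : Finset ℕ) (𝒪 : Type) (_ : CommRing 𝒪) (_ : IsDomain 𝒪)
        (_ : CharZero 𝒪) (χ : heckeAlgebra N 2 (↑B : Set ℕ) →+* 𝒪),
        Squarefree N ∧ p ∣ N ∧
        ∀ (ℓ : ℕ) (hℓ : ℓ.Prime) (hℓN : ¬ ℓ ∣ N) (hℓB : ℓ ∉ (↑B : Set ℕ)),
          χ (heckeAlgebra.T hℓ hℓN hℓB) = ((W.apOfModel ℓ : ℤ) : 𝒪)) :
    ∃ (N : ℕ) (_ : NeZero N) (B : Finset ℕ) (𝒪 : Type) (_ : CommRing 𝒪) (_ : IsDomain 𝒪)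
      (_ : CharZero 𝒪) (χ : CuspForm.heckeAlgebra N 2 (↑B : Set ℕ) →+* 𝒪),
      ¬ p ^ 2 ∣ N ∧ (∀ q : ℕ, q.Prime → ¬ q ^ 3 ∣ N) ∧
      ∀ (ℓ : ℕ) (hℓ : ℓ.Prime) (hℓN : ¬ ℓ ∣ N) (hℓB : ℓ ∉ (↑B : Set ℕ)),
        χ (CuspForm.heckeAlgebra.T hℓ hℓN hℓB) = ((W.apOfModel ℓ : ℤ) : 𝒪) := by
  obtain ⟨N, iN, B, 𝒪, i1, i2, i3, χ, hNsq, hpN, hχ⟩ := h
  refine ⟨N, iN, B, 𝒪, i1, i2, i3, χ, ?_, ?_, hχ⟩
  · intro h
    rw [pow_two] at h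
    exact (Fact.out : p.Prime).one_lt.ne' (Nat.isUnit_iff.mp (hNsq p h))
  · intro q hq h
    have h2 : q * q ∣ N := dvd_trans ⟨q, by ring⟩ h
    exact hq.not_isUnit (hNsq q h2)

/-- the two existence statements of case (P), for every coefficient ring: universal rings of the MINIMAL strict type and of the
MINIMAL "strict AND flat" type exist. -/
def s59u_w_sp_ExMin (p : ℕ) [Fact p.Prime] (W : WeierstrassCurve ℤ) (hΔ : W.Δ ≠ 0) : Prop :=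
  ∀ (𝒪 : Type) [CommRing 𝒪] [IsDomain 𝒪] [IsDiscreteValuationRing 𝒪]
    [IsAdicComplete (maximalIdeal 𝒪) 𝒪] [Finite (ResidueField 𝒪)] [CharZero 𝒪]
    [Algebra ℤ_[p] 𝒪] [Module.Finite ℤ_[p] 𝒪]
    (hp𝒪 : ((p : ℕ) : 𝒪) ∈ maximalIdeal 𝒪)
    (_hsplit : ∀ a b : ℤ, ∃ α β : ResidueField 𝒪,
      α + β = (a : ResidueField 𝒪) ∧ α * β = (b : ResidueField 𝒪)),
    Nonempty (GaloisRep.DeformationRingData 𝒪 (s59i_rhobarW W p hΔ 𝒪 hp𝒪)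
      (fun _A _ _ _ ρ => GaloisRep.strictOrdinaryCondition 𝒪 p (s59q_WSmin W hΔ hp𝒪) ρ ∧
        ∀ q ∈ s59q_WSmin W hΔ hp𝒪, q.Prime → q ≠ p → ρ.IsUnipotentOnInertiaAt q)) ∧
    Nonempty (GaloisRep.DeformationRingData 𝒪 (s59i_rhobarW W p hΔ 𝒪 hp𝒪)
      (s59q_SfType 𝒪 p (s59q_WSmin W hΔ hp𝒪) (s59q_WSmin W hΔ hp𝒪)))

/-- **[PATCH-FLR], case (P) (`W` multiplicative at `p`, `p ∣ N₀`), with ONE SPECTATOR PRIME `s ∣ N₀`, in the shape of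
`s59g_HeckePt W p`**: `W` semistable, multiplicative at `p`, `ρ̄` irreducible, unramified at `s`, ramified at every other prime `≠ p`
of `N₀`; NO hypothesis on the reduction of `W` at `s`.
  * if `ρ_W ⊗ 𝒪` is RAMIFIED at `s` (then `W` is bad at `s`): the weak contract at `k₀ = 1` (`HT1`);
  * if `ρ_W ⊗ 𝒪` is UNRAMIFIED at `s`: the weak contract at `k₀ = 0` (`HT0`) and the residual Frobenius polynomial at `s`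
    (`hscp0`). -/
theorem s59u_w_sp_FLR_P (p : ℕ) [Fact p.Prime] (hp35 : p = 3 ∨ p = 5)
    (W : WeierstrassCurve ℤ) (hΔ : W.Δ ≠ 0) (hss : W.IsSemistableModel)
    (hirr : W.ModRepIsIrreducible p)
    (hmult : ¬ W.IsGoodPrimeFor p)
    (N₀ : ℕ) [NeZero N₀] (hsq : Squarefree N₀) (hpN : p ∣ N₀)
    (s : Nat.Primes) (hsp : (s : ℕ) ≠ p) (hsN₀ : (s : ℕ) ∣ N₀) (hsns : ¬ p ∣ (s : ℕ) - 1)
    (hsU : s59_Unr W p s)
    (hNtype : ∀ q : ℕ, q.Prime → q ≠ p → q ∣ N₀ → q ≠ (s : ℕ) → ¬ s59_Unr W p q)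
    (hEx : s59u_w_sp_ExMin p W hΔ)
    (hscp0 : ∀ (𝒪 : Type) [CommRing 𝒪] [IsDomain 𝒪] [IsDiscreteValuationRing 𝒪]
      [IsAdicComplete (maximalIdeal 𝒪) 𝒪] [Finite (ResidueField 𝒪)] [CharZero 𝒪]
      [Algebra ℤ_[p] 𝒪] [Module.Finite ℤ_[p] 𝒪]
      (hp𝒪 : ((p : ℕ) : 𝒪) ∈ maximalIdeal 𝒪),
      (s59q_WRho W hΔ hp𝒪).IsUnramifiedAt s →
      ∃ (εs : 𝒪) (φs : Γℚ), (εs = 1 ∨ εs = -1) ∧ (primeLocalPlace s).IsFrobeniusAt φs s ∧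
        LinearMap.charpoly ((s59q_WRhobar W hΔ hp𝒪).ρ φs) =
          (X - C (residue 𝒪 (εs * (((s : ℕ) : ℕ) : 𝒪)))) * (X - C (residue 𝒪 εs)))
    (HT0 : (∀ (𝒪 : Type) [CommRing 𝒪] [IsDomain 𝒪] [IsDiscreteValuationRing 𝒪]
        [IsAdicComplete (maximalIdeal 𝒪) 𝒪] [Finite (ResidueField 𝒪)] [CharZero 𝒪]
        [Algebra ℤ_[p] 𝒪] [Module.Finite ℤ_[p] 𝒪]
        (hp𝒪 : ((p : ℕ) : 𝒪) ∈ maximalIdeal 𝒪), ¬ (s59q_WRho W hΔ hp𝒪).IsUnramifiedAt s) ∨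
      s59u_w_sp_TPkgFLR p W hΔ N₀ s 0)
    (HT1 : W.IsGoodPrimeFor s ∨ s59u_w_sp_TPkgFLR p W hΔ N₀ s 1) :
    ∃ (N : ℕ) (_ : NeZero N) (B : Finset ℕ) (𝒪 : Type) (_ : CommRing 𝒪) (_ : IsDomain 𝒪)
      (_ : CharZero 𝒪) (χ : CuspForm.heckeAlgebra N 2 (↑B : Set ℕ) →+* 𝒪),
      ¬ p ^ 2 ∣ N ∧ (∀ q : ℕ, q.Prime → ¬ q ^ 3 ∣ N) ∧
      ∀ (ℓ : ℕ) (hℓ : ℓ.Prime) (hℓN : ¬ ℓ ∣ N) (hℓB : ℓ ∉ (↑B : Set ℕ)),
        χ (CuspForm.heckeAlgebra.T hℓ hℓN hℓB) = ((W.apOfModel ℓ : ℤ) : 𝒪) := by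
  classical
  have hpp : p.Prime := Fact.out
  have hp2 : p ≠ 2 := s59q_W_p_ne_two hp35
  apply s59u_w_sp_heckePt_shape p W
  -- the coefficient ring
  obtain ⟨𝒪, i1, i2, i3, i4, i5, i6, i7, i8, i9, hp𝒪, -, hsplit⟩ :=
    s59q_exists_coeffRing_padic p 1 one_pos
  obtain ⟨hDm₀, hDsf₀⟩ := hEx 𝒪 hp𝒪 hsplit
  by_cases hun : (s59q_WRho W hΔ hp𝒪).IsUnramifiedAt s
  · -- `ρ_W ⊗ 𝒪` unramified at `s`: the spectator stays on `unr`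
    obtain ⟨εs, φs, hεs, hφs, hscp⟩ := hscp0 𝒪 hp𝒪 hun
    have HT : s59u_w_sp_TPkgFLR p W hΔ N₀ s 0 := by
      rcases HT0 with h | h
      · exact absurd hun (h 𝒪 hp𝒪)
      · exact h
    obtain ⟨N, iN, χ, h1, h2, h3⟩ := s59u_w_sp_FLR_P_aux p hp35 W hΔ hss hirr hmult N₀ hsq hpN s
      hsp hsN₀ hsns hsU hNtype 𝒪 hp𝒪 hsplit hDm₀ hDsf₀ εs hεs φs hφs hscp 0 (Or.inl ⟨rfl, hun⟩) HT
    exact ⟨N, iN, _, 𝒪, inferInstance, inferInstance, inferInstance, χ, h1, h2, h3⟩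
  · -- `ρ_W ⊗ 𝒪` ramified at `s`: the spectator is raised virtually
    have hbad : ¬ W.IsGoodPrimeFor s := fun hg =>
      hun (s59e_bc_unram _ _ _ s (s59b_rhoW_unram hΔ hp2 s s.2 hsp hg))
    have HT : s59u_w_sp_TPkgFLR p W hΔ N₀ s 1 := HT1.resolve_left hbad
    obtain ⟨φs, hφs⟩ := s56z_exists_frob s
    have hsU' : (s59q_WRhobar W hΔ hp𝒪).IsUnramifiedAt s :=
      (s59q_W_unram_iff W hΔ hp𝒪 s).mpr hsU
    obtain ⟨εs, hεs, htr, hscp⟩ := s59f_W_sign W hΔ hp𝒪 hp2 hss hirr s s.2 hsp hsU' hun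
      (primeLocalPlace s) (s56z_place_liesOver s) φs hφs
    obtain ⟨N, iN, χ, h1, h2, h3⟩ := s59u_w_sp_FLR_P_aux p hp35 W hΔ hss hirr hmult N₀ hsq hpN s
      hsp hsN₀ hsns hsU hNtype 𝒪 hp𝒪 hsplit hDm₀ hDsf₀ εs hεs φs hφs hscp 1
      (Or.inr ⟨rfl, hun, htr⟩) HT
    exact ⟨N, iN, _, 𝒪, inferInstance, inferInstance, inferInstance, χ, h1, h2, h3⟩

/-- **type (c1), case (P)**: `W` GOOD at the spectator `s`, `a_s(W) ≡ εz (s+1) mod p` (at `(p, s) = (3, 2)`: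
`3 ∣ a₂(W)`, `εz = 1`) — over the weak contract at `k₀ = 0` only. -/
theorem s59u_w_sp_FLR_P_c1 (p : ℕ) [Fact p.Prime] (hp35 : p = 3 ∨ p = 5)
    (W : WeierstrassCurve ℤ) (hΔ : W.Δ ≠ 0) (hss : W.IsSemistableModel)
    (hirr : W.ModRepIsIrreducible p)
    (hmult : ¬ W.IsGoodPrimeFor p)
    (N₀ : ℕ) [NeZero N₀] (hsq : Squarefree N₀) (hpN : p ∣ N₀)
    (s : Nat.Primes) (hsp : (s : ℕ) ≠ p) (hsN₀ : (s : ℕ) ∣ N₀) (hsns : ¬ p ∣ (s : ℕ) - 1)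
    (hsU : s59_Unr W p s)
    (hNtype : ∀ q : ℕ, q.Prime → q ≠ p → q ∣ N₀ → q ≠ (s : ℕ) → ¬ s59_Unr W p q)
    (hEx : s59u_w_sp_ExMin p W hΔ)
    (hsgood : W.IsGoodPrimeFor s) (εz : ℤ) (hεz : εz = 1 ∨ εz = -1)
    (hap : (p : ℤ) ∣ W.apOfModel s - εz * ((((s : ℕ) : ℕ) : ℤ) + 1))
    (HT0 : s59u_w_sp_TPkgFLR p W hΔ N₀ s 0) :
    ∃ (N : ℕ) (_ : NeZero N) (B : Finset ℕ) (𝒪 : Type) (_ : CommRing 𝒪) (_ : IsDomain 𝒪)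
      (_ : CharZero 𝒪) (χ : CuspForm.heckeAlgebra N 2 (↑B : Set ℕ) →+* 𝒪),
      ¬ p ^ 2 ∣ N ∧ (∀ q : ℕ, q.Prime → ¬ q ^ 3 ∣ N) ∧
      ∀ (ℓ : ℕ) (hℓ : ℓ.Prime) (hℓN : ¬ ℓ ∣ N) (hℓB : ℓ ∉ (↑B : Set ℕ)),
        χ (CuspForm.heckeAlgebra.T hℓ hℓN hℓB) = ((W.apOfModel ℓ : ℤ) : 𝒪) := by
  have hp2 : p ≠ 2 := s59q_W_p_ne_two hp35
  refine s59u_w_sp_FLR_P p hp35 W hΔ hss hirr hmult N₀ hsq hpN s hsp hsN₀ hsns hsU hNtype hEx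
    ?_ (Or.inr HT0) (Or.inl hsgood)
  intro 𝒪 _ _ _ _ _ _ _ _ hp𝒪 _
  obtain ⟨φs, hφs⟩ := s56z_exists_frob s
  refine ⟨((εz : ℤ) : 𝒪), φs, ?_, hφs, ?_⟩
  · rcases hεz with h | h <;> rw [h] <;> simp
  · exact s59u_sp_cp_good W hΔ hp𝒪 hp2 hirr s s.2 hsp hsgood εz hεz hap (primeLocalPlace s)
      (s56z_place_liesOver s) φs hφs

end Fermat.Agent.Lib.S59

end
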