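/-
S59, plan [C2P] (helper3, prefix `s59u_c2_`), file C: **THE TOP OF THE LEVEL-RAISING PATCH IN CASE (P) WITH A GOOD SPECTATOR `s` AND THE
PRESCRIBED FIRST RAISING PRIME `q₀`** — scripted twin of my UWSpI.lean over the contract `s59u_c2_TPkgFLR` (UC2B.lean).

* `s59u_c2_FLR_P_aux` : twin of `s59u_w_sp_FLR_P_aux`; `q₀` is a prime `≠ p, s` where `W` is bad, `ρ̄` unramified and `ρ_W ⊗ 𝒪` RAMIFIED
  (so `q₀` is one of the raising primes), and the `T`-side contract is `s59u_c2_TPkgFLR p W hΔ N₀ s k₀ q₀`.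
* **`s59u_c2_FLR_P`** : the body of `s59g_HeckePt W p` from TWO `T`-side contracts, for a prime `q₀` with `W` bad and `ρ̄` unramified:
    - route A (`ρ_W ⊗ 𝒪` UNRAMIFIED at `q₀` — it never happens, but no proof of this is in the library): the weak contract
      `s59u_w_sp_TPkgFLR p W hΔ N₁ q₀ 0` at a base level `N₁ ∋ q₀` with the spectator `q₀` (the `T`-side of the field `liftC1p`);
    - route B (`ρ_W ⊗ 𝒪` RAMIFIED at `q₀`): the contract `s59u_c2_TPkgFLR p W hΔ N₀ s 0 q₀` at a base level `N₀` prime to `q₀` with a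
      GOOD spectator `s` (`a_s ≡ εz (s+1) mod p`) and the first raising prime `q₀`.
-/
import Mathlib
import Fermat.Agent.Lib.S59.USpI
import Fermat.Agent.Lib.S59.UWSpH
import Fermat.Agent.Lib.S59.UWSpI
import Fermat.Agent.Lib.S59.USpN
import Fermat.Agent.Lib.S59.UC2B

set_option autoImplicit false
set_option linter.unusedSectionVars false
set_option linter.unusedVariables false
set_option linter.style.haveILetI false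
set_option maxHeartbeats 3200000
set_option synthInstance.maxHeartbeats 400000

noncomputable section

namespace Fermat.Agent.Lib.S59

open IsLocalRing CuspForm Polynomial ExtCitation
open Fermat.Agent.Lib.S53 (matOf matOfRes NormData)
open Fermat.Agent.Lib.S56 Fermat.Agent.Lib.S44

local notation "Γℚ" => (AlgebraicClosure ℚ ≃ₐ[ℚ] AlgebraicClosure ℚ)

/-! ### The assembly for a fixed coefficient ring -/

/-- **[PATCH-FLR], case (P) (`W` multiplicative at `p`, `p ∣ N₀`), one spectator `s ∣ N₀`, first raising prime `q₀`: the assembly for a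
fixed coefficient ring `𝒪` and a fixed position `(k₀, εs, φs)` of `ρ_W ⊗ 𝒪` at `s`.** The raising primes are
`Rs = {q ≠ p, s : W bad, ρ̄ unramified, ρ_W ⊗ 𝒪 ramified at q}`. -/
theorem s59u_c2_FLR_P_aux (p : ℕ) [Fact p.Prime] (hp35 : p = 3 ∨ p = 5)
    (W : WeierstrassCurve ℤ) (hΔ : W.Δ ≠ 0) (hss : W.IsSemistableModel)
    (hirr : W.ModRepIsIrreducible p)
    (hmult : ¬ W.IsGoodPrimeFor p)
    (N₀ : ℕ) [NeZero N₀] (hsq : Squarefree N₀) (hpN : p ∣ N₀)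
    (s : Nat.Primes) (hsp : (s : ℕ) ≠ p) (hsN₀ : (s : ℕ) ∣ N₀) (hsns : ¬ p ∣ (s : ℕ) - 1)
    (hsU : s59_Unr W p s)
    (hNtype : ∀ q : ℕ, q.Prime → q ≠ p → q ∣ N₀ → q ≠ (s : ℕ) → ¬ s59_Unr W p q)
    (𝒪 : Type) [CommRing 𝒪] [IsDomain 𝒪] [IsDiscreteValuationRing 𝒪]
    [IsAdicComplete (maximalIdeal 𝒪) 𝒪] [Finite (ResidueField 𝒪)] [CharZero 𝒪]
    [Algebra ℤ_[p] 𝒪] [Module.Finite ℤ_[p] 𝒪]
    (hp𝒪 : ((p : ℕ) : 𝒪) ∈ maximalIdeal 𝒪)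
    (hsplit : ∀ a b : ℤ, ∃ α β : ResidueField 𝒪,
      α + β = (a : ResidueField 𝒪) ∧ α * β = (b : ResidueField 𝒪))
    -- the two existence statements of case (P)
    (hDm₀ : Nonempty (GaloisRep.DeformationRingData 𝒪 (s59i_rhobarW W p hΔ 𝒪 hp𝒪)
      (fun _A _ _ _ ρ => GaloisRep.strictOrdinaryCondition 𝒪 p (s59q_WSmin W hΔ hp𝒪) ρ ∧
        ∀ q ∈ s59q_WSmin W hΔ hp𝒪, q.Prime → q ≠ p → ρ.IsUnipotentOnInertiaAt q)))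
    (hDsf₀ : Nonempty (GaloisRep.DeformationRingData 𝒪 (s59i_rhobarW W p hΔ 𝒪 hp𝒪)
      (s59q_SfType 𝒪 p (s59q_WSmin W hΔ hp𝒪) (s59q_WSmin W hΔ hp𝒪))))
    (εs : 𝒪) (hεs : εs = 1 ∨ εs = -1)
    (φs : Γℚ) (hφs : (primeLocalPlace s).IsFrobeniusAt φs s)
    (hscp : LinearMap.charpoly ((s59q_WRhobar W hΔ hp𝒪).ρ φs) =
      (X - C (residue 𝒪 (εs * (((s : ℕ) : ℕ) : 𝒪)))) * (X - C (residue 𝒪 εs)))
    (k₀ : ℕ)
    (hspec : (k₀ = 0 ∧ (s59q_WRho W hΔ hp𝒪).IsUnramifiedAt s) ∨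
      (k₀ = 1 ∧ ¬ (s59q_WRho W hΔ hp𝒪).IsUnramifiedAt s ∧
        s59i_cpTr (s59q_WRho W hΔ hp𝒪) φs = εs * ((((s : ℕ) : ℕ) : 𝒪) + 1)))
    (q₀ : ℕ) (hq₀ : q₀.Prime) (hq₀p : q₀ ≠ p) (hq₀s : q₀ ≠ (s : ℕ)) (hq₀bad : ¬ W.IsGoodPrimeFor q₀)
    (hq₀U : s59_Unr W p q₀) (hq₀ram : ¬ (s59q_WRho W hΔ hp𝒪).IsUnramifiedAt q₀)
    (HT : s59u_c2_TPkgFLR p W hΔ N₀ s k₀ q₀) :
    ∃ (N : ℕ) (_ : NeZero N) (χ : heckeAlgebra N 2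
        (↑((N * p).primeFactors ∪ W.Δ.natAbs.primeFactors) : Set ℕ) →+* 𝒪),
      Squarefree N ∧ p ∣ N ∧
      ∀ (ℓ : ℕ) (hℓ : ℓ.Prime) (hℓN : ¬ ℓ ∣ N)
        (hℓB : ℓ ∉ (↑((N * p).primeFactors ∪ W.Δ.natAbs.primeFactors) : Set ℕ)),
        χ (heckeAlgebra.T hℓ hℓN hℓB) = ((W.apOfModel ℓ : ℤ) : 𝒪) := by
  classical
  have hpp : p.Prime := Fact.out
  have hp2 : p ≠ 2 := s59q_W_p_ne_two hp35
  have hN0 : N₀ ≠ 0 := NeZero.ne N₀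
  have habs := s59q_W_habs W hΔ hp𝒪 hp35 hss hirr
  -- the raising primes
  set Rs : Finset ℕ := W.Δ.natAbs.primeFactors.filter (fun q => q ≠ p ∧ q ≠ (s : ℕ) ∧
    (s59q_WRhobar W hΔ hp𝒪).IsUnramifiedAt q ∧ ¬ (s59q_WRho W hΔ hp𝒪).IsUnramifiedAt q)
    with hRsdef
  have hRs : ∀ q ∈ Rs, q.Prime ∧ q ≠ p ∧ ¬ q ∣ N₀ ∧ ¬ W.IsGoodPrimeFor q ∧
      (s59q_WRhobar W hΔ hp𝒪).IsUnramifiedAt q ∧
      ¬ (s59q_WRho W hΔ hp𝒪).IsUnramifiedAt q := by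
    intro q hq
    obtain ⟨hqΔ, hqp, hqs, hU, hram⟩ := Finset.mem_filter.mp hq
    rw [Nat.mem_primeFactors] at hqΔ
    have hbadq : ¬ W.IsGoodPrimeFor q := fun hg => hg (Int.natCast_dvd.mpr hqΔ.2.1)
    refine ⟨hqΔ.1, hqp, ?_, hbadq, hU, hram⟩
    intro hqN
    exact hNtype q hqΔ.1 hqp hqN hqs ((s59q_W_unram_iff W hΔ hp𝒪 q).mp hU)
  have hsU' : (s59q_WRhobar W hΔ hp𝒪).IsUnramifiedAt s :=
    (s59q_W_unram_iff W hΔ hp𝒪 s).mpr hsU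
  have hsSmin : (s : ℕ) ∉ s59q_WSmin W hΔ hp𝒪 := fun h =>
    ((s59q_WSmin_hmin W hΔ hp𝒪 hp2 s s.2 hsp).mp h) hsU'
  have hunrW : ∀ q : ℕ, q.Prime → q ∉ s59q_WSmin W hΔ hp𝒪 ∪ insert (s : ℕ) Rs →
      (s59q_WRho W hΔ hp𝒪).IsUnramifiedAt q := by
    intro q hq hqS
    have hqSmin : q ∉ s59q_WSmin W hΔ hp𝒪 := fun h => hqS (Finset.mem_union_left _ h)
    have hqs : q ≠ (s : ℕ) := fun h =>
      hqS (Finset.mem_union_right _ (h ▸ Finset.mem_insert_self _ _))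
    have hqRs : q ∉ Rs := fun h => hqS (Finset.mem_union_right _ (Finset.mem_insert_of_mem h))
    have hqp : q ≠ p := fun h => hqSmin (h ▸ s59q_WSmin_p_mem W hΔ hp𝒪)
    by_cases hgood : W.IsGoodPrimeFor q
    · exact s59e_bc_unram _ _ _ q (s59b_rhoW_unram hΔ hp2 q hq hqp hgood)
    · by_contra hram
      apply hqRs
      refine Finset.mem_filter.mpr ⟨Nat.mem_primeFactors.mpr ⟨hq,
        Int.natCast_dvd.mp (s59q_W_dvd_disc_of_bad W q hq hgood), Int.natAbs_ne_zero.mpr hΔ⟩,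
        hqp, hqs, ?_, hram⟩
      by_contra hU
      exact hqSmin ((s59q_WSmin_hmin W hΔ hp𝒪 hp2 q hq hqp).mpr hU)
  -- `ρ̄` is unramified outside `Σ_min`
  have hunrbar : ∀ (T : Finset ℕ) (q : ℕ), q.Prime → q ∉ s59q_WSmin W hΔ hp𝒪 ∪ T →
      (s59i_rhobarW W p hΔ 𝒪 hp𝒪).IsUnramifiedAt q := by
    intro T q hq hqS
    have hqSmin : q ∉ s59q_WSmin W hΔ hp𝒪 := fun h => hqS (Finset.mem_union_left _ h)
    have hqp : q ≠ p := fun h => hqSmin (h ▸ s59q_WSmin_p_mem W hΔ hp𝒪)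
    by_contra hram
    exact hqSmin ((s59q_WSmin_hmin W hΔ hp𝒪 hp2 q hq hqp).mpr hram)
  -- the minimal lifts are unipotent at `s` and at the raising primes (unramified there)
  have hnotSmin : ∀ q ∈ insert (s : ℕ) Rs, q ∉ s59q_WSmin W hΔ hp𝒪 := by
    intro q hq h1
    rcases Finset.mem_insert.mp hq with h' | h'
    · exact hsSmin (h' ▸ h1)
    · exact ((s59q_WSmin_hmin W hΔ hp𝒪 hp2 q (hRs q h').1 (hRs q h').2.1).mp h1)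
        (hRs q h').2.2.2.2.1
  obtain ⟨Dm₀⟩ := hDm₀
  have hDm : Nonempty (GaloisRep.DeformationRingData 𝒪 (s59i_rhobarW W p hΔ 𝒪 hp𝒪)
      (fun _A _ _ _ ρ => GaloisRep.strictOrdinaryCondition 𝒪 p (s59q_WSmin W hΔ hp𝒪 ∪ {(s : ℕ)}) ρ ∧
        ∀ q ∈ s59q_WSmin W hΔ hp𝒪 ∪ insert (s : ℕ) Rs, q.Prime → q ≠ p →
          ρ.IsUnipotentOnInertiaAt q)) := by
    refine s59q_exists_DQ_ord p hp2 hp𝒪 (s59i_rhobarW W p hΔ 𝒪 hp𝒪) habs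
      (s59q_WSmin W hΔ hp𝒪) (s59q_WSmin W hΔ hp𝒪 ∪ {(s : ℕ)})
      (s59q_WSmin W hΔ hp𝒪 ∪ insert (s : ℕ) Rs)
      Finset.subset_union_left (Finset.mem_union_left _ (s59q_WSmin_p_mem W hΔ hp𝒪))
      (hunrbar _) inferInstance
      Dm₀.residue_surjective Dm₀.ρ ⟨Dm₀.isOfType.1, ?_⟩
      Dm₀.residual_isEquiv
    intro q hq hqP hqp
    rcases Finset.mem_union.mp hq with h | h
    · exact Dm₀.isOfType.2 q h hqP hqp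
    · exact s59f_unip_of_unram Dm₀.ρ q (Dm₀.isOfType.1.2.2 q hqP (hnotSmin q h))
  obtain ⟨Dsf₀⟩ := hDsf₀
  have hDsf0 : Nonempty (GaloisRep.DeformationRingData 𝒪 (s59i_rhobarW W p hΔ 𝒪 hp𝒪)
      (s59q_SfType 𝒪 p (s59q_WSmin W hΔ hp𝒪 ∪ insert (s : ℕ) Rs)
        (s59q_WSmin W hΔ hp𝒪 ∪ insert (s : ℕ) Rs))) := by
    refine s59q_exists_DQ_sf p hp2 hp𝒪 (s59i_rhobarW W p hΔ 𝒪 hp𝒪) habs
      (s59q_WSmin W hΔ hp𝒪) (s59q_WSmin W hΔ hp𝒪 ∪ insert (s : ℕ) Rs)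
      (s59q_WSmin W hΔ hp𝒪 ∪ insert (s : ℕ) Rs)
      Finset.subset_union_left (Finset.mem_union_left _ (s59q_WSmin_p_mem W hΔ hp𝒪))
      (hunrbar _) inferInstance
      Dsf₀.residue_surjective Dsf₀.ρ ⟨Dsf₀.isOfType.1, ?_⟩
      Dsf₀.residual_isEquiv
    intro q hq hqP hqp
    rcases Finset.mem_union.mp hq with h | h
    · exact Dsf₀.isOfType.2 q h hqP hqp
    · exact s59f_unip_of_unram Dsf₀.ρ q (Dsf₀.isOfType.1.2.2 q hqP (hnotSmin q h))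
  have hq₀Rs : q₀ ∈ Rs := Finset.mem_filter.mpr ⟨Nat.mem_primeFactors.mpr ⟨hq₀,
    Int.natCast_dvd.mp (s59q_W_dvd_disc_of_bad W q₀ hq₀ hq₀bad), Int.natAbs_ne_zero.mpr hΔ⟩,
    hq₀p, hq₀s, (s59q_W_unram_iff W hΔ hp𝒪 q₀).mpr hq₀U, hq₀ram⟩
  obtain ⟨N, iN, χ, -, h1, h2, h3⟩ := s59u_c2_FLR_W_core_ord p hp35 W hΔ hss hirr hmult N₀ hN0 hsq
    hpN 𝒪 hp𝒪 hsplit Rs hRs s hsp hsN₀ hsns hsU' εs hεs φs hφs hscp k₀ hspec hunrW hDm hDsf0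
    q₀ hq₀Rs HT
  exact ⟨N, iN, χ, h1, h2, h3⟩

/-! ### The top statement -/

/-- **[PATCH-FLR], case (P), plan [C2P]: the body of `s59g_HeckePt W p` from two `T`-side contracts**, for a prime `q₀ ≠ p` with `W` BAD
and `ρ̄` unramified at `q₀`:
  * route A (`ρ_W ⊗ 𝒪` unramified at `q₀`): base level `N₁ ∋ q₀`, spectator `q₀`, never raised (`HT0`);
  * route B (`ρ_W ⊗ 𝒪` ramified at `q₀`): base level `N₀` prime to `q₀`, GOOD spectator `s ∣ N₀` with `a_s(W) ≡ εz (s+1) mod p`,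
    and `q₀` the FIRST raising prime (`HT2`). -/
theorem s59u_c2_FLR_P (p : ℕ) [Fact p.Prime] (hp35 : p = 3 ∨ p = 5)
    (W : WeierstrassCurve ℤ) (hΔ : W.Δ ≠ 0) (hss : W.IsSemistableModel)
    (hirr : W.ModRepIsIrreducible p)
    (hmult : ¬ W.IsGoodPrimeFor p)
    -- the prime `q₀`: `W` bad, `ρ̄` unramified
    (q₀ : Nat.Primes) (hq₀p : (q₀ : ℕ) ≠ p) (hq₀ns : ¬ p ∣ (q₀ : ℕ) - 1) (hq₀U : s59_Unr W p q₀)
    (hq₀bad : ¬ W.IsGoodPrimeFor q₀)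
    -- route A: the base level `N₁ ∋ q₀`
    (N₁ : ℕ) [NeZero N₁] (hsq₁ : Squarefree N₁) (hpN₁ : p ∣ N₁) (hq₀N₁ : (q₀ : ℕ) ∣ N₁)
    (hNtype₁ : ∀ q : ℕ, q.Prime → q ≠ p → q ∣ N₁ → q ≠ (q₀ : ℕ) → ¬ s59_Unr W p q)
    -- route B: the base level `N₀` with the good spectator `s`
    (N₀ : ℕ) [NeZero N₀] (hsq : Squarefree N₀) (hpN : p ∣ N₀)
    (s : Nat.Primes) (hsp : (s : ℕ) ≠ p) (hsN₀ : (s : ℕ) ∣ N₀) (hsns : ¬ p ∣ (s : ℕ) - 1)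
    (hsU : s59_Unr W p s)
    (hNtype : ∀ q : ℕ, q.Prime → q ≠ p → q ∣ N₀ → q ≠ (s : ℕ) → ¬ s59_Unr W p q)
    (hsgood : W.IsGoodPrimeFor s) (εz : ℤ) (hεz : εz = 1 ∨ εz = -1)
    (hap : (p : ℤ) ∣ W.apOfModel s - εz * ((((s : ℕ) : ℕ) : ℤ) + 1))
    (hEx : s59u_w_sp_ExMin p W hΔ)
    (HT0 : s59u_w_sp_TPkgFLR p W hΔ N₁ q₀ 0)
    (HT2 : s59u_c2_TPkgFLR p W hΔ N₀ s 0 q₀) :
    ∃ (N : ℕ) (_ : NeZero N) (B : Finset ℕ) (𝒪 : Type) (_ : CommRing 𝒪) (_ : IsDomain 𝒪)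
      (_ : CharZero 𝒪) (χ : CuspForm.heckeAlgebra N 2 (↑B : Set ℕ) →+* 𝒪),
      ¬ p ^ 2 ∣ N ∧ (∀ q : ℕ, q.Prime → ¬ q ^ 3 ∣ N) ∧
      ∀ (ℓ : ℕ) (hℓ : ℓ.Prime) (hℓN : ¬ ℓ ∣ N) (hℓB : ℓ ∉ (↑B : Set ℕ)),
        χ (CuspForm.heckeAlgebra.T hℓ hℓN hℓB) = ((W.apOfModel ℓ : ℤ) : 𝒪) := by
  classical
  have hpp : p.Prime := Fact.out
  have hp2 : p ≠ 2 := s59q_W_p_ne_two hp35
  apply s59u_w_sp_heckePt_shape p W
  -- the coefficient ring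
  obtain ⟨𝒪, i1, i2, i3, i4, i5, i6, i7, i8, i9, hp𝒪, -, hsplit⟩ :=
    s59q_exists_coeffRing_padic p 1 one_pos
  obtain ⟨hDm₀, hDsf₀⟩ := hEx 𝒪 hp𝒪 hsplit
  by_cases hun : (s59q_WRho W hΔ hp𝒪).IsUnramifiedAt q₀
  · -- route A: `ρ_W ⊗ 𝒪` unramified at `q₀`: the spectator `q₀` stays on `unr`
    obtain ⟨εs, φs, hεs, hφs, hscp⟩ := s59u_sp_hscp_of_bad p hp2 W hΔ hss hirr q₀ hq₀p hq₀bad 𝒪 hp𝒪
    obtain ⟨N, iN, χ, h1, h2, h3⟩ := s59u_w_sp_FLR_P_aux p hp35 W hΔ hss hirr hmult N₁ hsq₁ hpN₁ q₀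
      hq₀p hq₀N₁ hq₀ns hq₀U hNtype₁ 𝒪 hp𝒪 hsplit hDm₀ hDsf₀ εs hεs φs hφs hscp 0
      (Or.inl ⟨rfl, hun⟩) HT0
    exact ⟨N, iN, _, 𝒪, inferInstance, inferInstance, inferInstance, χ, h1, h2, h3⟩
  · -- route B: `ρ_W ⊗ 𝒪` ramified at `q₀`: the good spectator `s`, first raising prime `q₀`
    have hunS : (s59q_WRho W hΔ hp𝒪).IsUnramifiedAt s :=
      s59e_bc_unram _ _ _ s (s59b_rhoW_unram hΔ hp2 s s.2 hsp hsgood)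
    have hq₀s : (q₀ : ℕ) ≠ (s : ℕ) := fun h => hq₀bad (h ▸ hsgood)
    obtain ⟨φs, hφs⟩ := s56z_exists_frob s
    have hεs : (((εz : ℤ) : 𝒪) = 1 ∨ ((εz : ℤ) : 𝒪) = -1) := by
      rcases hεz with h | h <;> rw [h] <;> simp
    have hscp := s59u_sp_cp_good (𝒪 := 𝒪) W hΔ hp𝒪 hp2 hirr s s.2 hsp hsgood εz hεz hap
      (primeLocalPlace s) (s56z_place_liesOver s) φs hφs
    obtain ⟨N, iN, χ, h1, h2, h3⟩ := s59u_c2_FLR_P_aux p hp35 W hΔ hss hirr hmult N₀ hsq hpN s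
      hsp hsN₀ hsns hsU hNtype 𝒪 hp𝒪 hsplit hDm₀ hDsf₀ ((εz : ℤ) : 𝒪) hεs φs hφs hscp 0
      (Or.inl ⟨rfl, hunS⟩) q₀ q₀.2 hq₀p hq₀s hq₀bad hq₀U hun HT2
    exact ⟨N, iN, _, 𝒪, inferInstance, inferInstance, inferInstance, χ, h1, h2, h3⟩

end Fermat.Agent.Lib.S59

end
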