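/-
PROGRAMME R2 = S59, case (P) non-minimal, [W5] (helper3, prefix `s59u_w_sp_`), file 15: **IN CASE (P) THE MINIMAL "STRICT AND FLAT"
UNIVERSAL RING EXISTS AS SOON AS THE MINIMAL STRICT ONE DOES** — the flat lift is the flat universal ring of the minimal level
`M'` (prime to `p`, every prime a ramified prime of `ρ̄`; helper5's `s59e_W_existDQ`), the "strict AND flat" lift is `ρ̄` itself over
`k` (helper6's `s59q_exists_Dsf_of_lifts`, QSfLift.lean).  Hence the existence hypothesis `s59u_w_sp_ExMin` (UWSpI.lean) of the (P)-tops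
reduces to its FIRST half (the strict one = (RAISE-p) + the `p`-new datum).

* `s59u_w_sp_exSf_of_strict`, **`s59u_w_sp_exMin_of_strict`**.
-/
import Mathlib
import Fermat.Agent.Lib.S59.UWSpI
import Fermat.Agent.Lib.S59.QSfLift

set_option autoImplicit false
set_option linter.unusedSectionVars false
set_option linter.unusedVariables false
set_option linter.style.haveILetI false
set_option maxHeartbeats 1600000
set_option synthInstance.maxHeartbeats 400000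

noncomputable section

namespace Fermat.Agent.Lib.S59

open IsLocalRing CuspForm Polynomial ExtCitation
open Fermat.Agent.Lib.S56 Fermat.Agent.Lib.S44

local notation "Γℚ" => (AlgebraicClosure ℚ ≃ₐ[ℚ] AlgebraicClosure ℚ)

/-- **the minimal "strict AND flat" universal ring from the minimal strict one**, for a fixed coefficient ring: `ρ̄` is modular of a
squarefree level `M'` prime to `p` all of whose primes are ramified primes of `ρ̄`. -/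
theorem s59u_w_sp_exSf_of_strict (p : ℕ) [Fact p.Prime] (hp35 : p = 3 ∨ p = 5)
    (W : WeierstrassCurve ℤ) (hΔ : W.Δ ≠ 0) (hss : W.IsSemistableModel)
    (hirr : W.ModRepIsIrreducible p)
    (M' : ℕ) [NeZero M'] (hsqM' : Squarefree M') (hpM' : ¬ p ∣ M')
    (hres' : W.IsResiduallyModularOfLevel p M')
    (hram' : ∀ q : ℕ, q.Prime → q ∣ M' → ¬ s59_Unr W p q)
    (𝒪 : Type) [CommRing 𝒪] [IsDomain 𝒪] [IsDiscreteValuationRing 𝒪]
    [IsAdicComplete (maximalIdeal 𝒪) 𝒪] [Finite (ResidueField 𝒪)] [CharZero 𝒪]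
    [Algebra ℤ_[p] 𝒪] [Module.Finite ℤ_[p] 𝒪]
    (hp𝒪 : ((p : ℕ) : 𝒪) ∈ maximalIdeal 𝒪)
    (hsplit : ∀ a b : ℤ, ∃ α β : ResidueField 𝒪,
      α + β = (a : ResidueField 𝒪) ∧ α * β = (b : ResidueField 𝒪))
    (hDm₀ : Nonempty (GaloisRep.DeformationRingData 𝒪 (s59i_rhobarW W p hΔ 𝒪 hp𝒪)
      (fun _A _ _ _ ρ => GaloisRep.strictOrdinaryCondition 𝒪 p (s59q_WSmin W hΔ hp𝒪) ρ ∧
        ∀ q ∈ s59q_WSmin W hΔ hp𝒪, q.Prime → q ≠ p → ρ.IsUnipotentOnInertiaAt q))) :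
    Nonempty (GaloisRep.DeformationRingData 𝒪 (s59i_rhobarW W p hΔ 𝒪 hp𝒪)
      (s59q_SfType 𝒪 p (s59q_WSmin W hΔ hp𝒪) (s59q_WSmin W hΔ hp𝒪))) := by
  classical
  have hpp : p.Prime := Fact.out
  have hp2 : p ≠ 2 := s59q_W_p_ne_two hp35
  have hM'0 : M' ≠ 0 := NeZero.ne M'
  have habs := s59q_W_habs W hΔ hp𝒪 hp35 hss hirr
  set B' : Finset ℕ := (M' * p).primeFactors ∪ W.Δ.natAbs.primeFactors with hB'
  have hB1' : ∀ r : ℕ, r.Prime → r ∣ M' * p → r ∈ B' := fun r hr hd =>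
    Finset.mem_union_left _ (Nat.mem_primeFactors.mpr ⟨hr, hd, Nat.mul_ne_zero hM'0 hpp.ne_zero⟩)
  have hB2Δ' : ∀ r : ℕ, r.Prime → (r : ℤ) ∣ W.Δ → r ∈ B' := fun r hr hd =>
    Finset.mem_union_right _ (Nat.mem_primeFactors.mpr
      ⟨hr, Int.natCast_dvd.mp hd, Int.natAbs_ne_zero.mpr hΔ⟩)
  have hB2' : ∀ r : ℕ, r.Prime → ¬ W.IsGoodPrimeFor r → r ∈ B' := by
    intro r hr hbad'
    refine hB2Δ' r hr ?_
    by_contra h
    exact hbad' h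
  have hpB' : p ∈ B' := hB1' p hpp (Dvd.intro_left M' rfl)
  have hocc' := s59e_Lmin_levelOcc W p M' B' hB1' hB2' hres'
  obtain ⟨Rd, hSmin, hm, he⟩ := s59e_Lmin_RData W hΔ hp𝒪 hp35 hss hirr hsplit M' B' hpB' hB2Δ'
    (fun q hq hqM => by
      have hqp : q ≠ p := fun h => hpM' (h ▸ hqM)
      exact Or.inl ((s59q_WSmin_hmin W hΔ hp𝒪 hp2 q hq hqp).mpr fun hunr =>
        hram' q hq hqM ((s59q_W_unram_iff W hΔ hp𝒪 q).mp hunr)))
  obtain ⟨Dfl⟩ := s59e_W_existDQ W p hΔ hp2 hirr M' B' hB1' hB2' hocc' 𝒪 hp𝒪 Rd.habs hsqM' hpM'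
    (∅ : Finset ℕ) Rd 0 Fin.elim0
  obtain ⟨Dm₀⟩ := hDm₀
  refine s59q_exists_Dsf_of_lifts p (s59i_rhobarW W p hΔ 𝒪 hp𝒪) hp2 hp𝒪 habs
    (s59q_WSmin W hΔ hp𝒪) (s59q_WSmin W hΔ hp𝒪) (s59q_WSmin W hΔ hp𝒪) (Finset.Subset.refl _)
    (s59q_WSmin_p_mem W hΔ hp𝒪) ?_ inferInstance Dm₀.residue_surjective Dm₀.ρ Dm₀.isOfType
    Dm₀.residual_isEquiv inferInstance Dfl.residue_surjective Dfl.ρ Dfl.isOfType.1.2.1
    Dfl.residual_isEquiv
  intro q hq hqS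
  have hqp : q ≠ p := fun h => hqS (h ▸ s59q_WSmin_p_mem W hΔ hp𝒪)
  by_contra hram
  exact hqS ((s59q_WSmin_hmin W hΔ hp𝒪 hp2 q hq hqp).mpr hram)

/-- **the existence hypothesis of the (P)-tops from its strict half.** -/
theorem s59u_w_sp_exMin_of_strict (p : ℕ) [Fact p.Prime] (hp35 : p = 3 ∨ p = 5)
    (W : WeierstrassCurve ℤ) (hΔ : W.Δ ≠ 0) (hss : W.IsSemistableModel)
    (hirr : W.ModRepIsIrreducible p)
    (M' : ℕ) [NeZero M'] (hsqM' : Squarefree M') (hpM' : ¬ p ∣ M')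
    (hres' : W.IsResiduallyModularOfLevel p M')
    (hram' : ∀ q : ℕ, q.Prime → q ∣ M' → ¬ s59_Unr W p q)
    (hStr : ∀ (𝒪 : Type) [CommRing 𝒪] [IsDomain 𝒪] [IsDiscreteValuationRing 𝒪]
      [IsAdicComplete (maximalIdeal 𝒪) 𝒪] [Finite (ResidueField 𝒪)] [CharZero 𝒪]
      [Algebra ℤ_[p] 𝒪] [Module.Finite ℤ_[p] 𝒪]
      (hp𝒪 : ((p : ℕ) : 𝒪) ∈ maximalIdeal 𝒪)
      (_hsplit : ∀ a b : ℤ, ∃ α β : ResidueField 𝒪,
        α + β = (a : ResidueField 𝒪) ∧ α * β = (b : ResidueField 𝒪)),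
      Nonempty (GaloisRep.DeformationRingData 𝒪 (s59i_rhobarW W p hΔ 𝒪 hp𝒪)
        (fun _A _ _ _ ρ => GaloisRep.strictOrdinaryCondition 𝒪 p (s59q_WSmin W hΔ hp𝒪) ρ ∧
          ∀ q ∈ s59q_WSmin W hΔ hp𝒪, q.Prime → q ≠ p → ρ.IsUnipotentOnInertiaAt q))) :
    s59u_w_sp_ExMin p W hΔ := by
  intro 𝒪 _ _ _ _ _ _ _ _ hp𝒪 hsplit
  exact ⟨hStr 𝒪 hp𝒪 hsplit, s59u_w_sp_exSf_of_strict p hp35 W hΔ hss hirr M' hsqM' hpM' hres' hram'
    𝒪 hp𝒪 hsplit (hStr 𝒪 hp𝒪 hsplit)⟩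

end Fermat.Agent.Lib.S59

end
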