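/-
PROGRAMME R2 = S59, case (P) non-minimal, [W5] (helper3, prefix `s59u_w_sp_`), file 14: **helper1's FIELDS `liftC1p`, `liftC2p`
(`s59g_LIFTThreeC1P`, `s59g_LIFTThreeC2P`, Graph3Z.lean) FROM THE FINAL WEAK `T`-SIDE STATEMENTS OF CASE (P) WITH THE SPECTATOR `2`**
— the (P)-twin of my USpM/USpN (flat halves of `liftC1gt`/`liftC2gt`) and of helper6's QSSpK/L/N (très halves).

`W` semistable, MULTIPLICATIVE and PEU ramifié at `3`; `M` squarefree, even, prime to `3`; base level `N₀ = M * 3`.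
The `T`-side deliverables of case (P) for these two fields are exactly:
  * `s59u_w_sp_TFinPt 3 W hΔ 2 0`  (both fields), `s59u_w_sp_TFinPt 3 W hΔ 2 1` and `s59u_w_sp_TFinCut 3 W hΔ 2` (`liftC2p`) — UWSpL.lean;
  * `s59u_w_sp_ExStr3` : under the premises of the fields, the universal ring of the MINIMAL STRICT type
    `strict(Σ_min) ∧ unip(Σ_min)` exists, for every coefficient ring — (RAISE-p) + the `p`-new datum of the minimal level `(M/2)·3`.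
    (The minimal "strict AND flat" ring then exists by UWSpJ.lean: flat lift = helper5's `s59e_W_existDQ` at the level `M/2`,
    "strict AND flat" lift = `ρ̄` over `k`, helper6's `s59q_exists_Dsf_of_lifts`.)

* `s59u_w_sp_ExStr3`, `s59u_w_sp_exMin3`, `s59u_w_sp_level3P`, **`s59u_w_sp_LIFTThreeC1P_of`**, **`s59u_w_sp_LIFTThreeC2P_of`**.
-/
import Mathlib
import Fermat.Agent.Lib.S59.USpN
import Fermat.Agent.Lib.S59.UWSpJ
import Fermat.Agent.Lib.S59.UWSpL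
import Fermat.Agent.Lib.S59.VMono

set_option autoImplicit false
set_option linter.unusedSectionVars false
set_option linter.unusedVariables false
set_option linter.style.haveILetI false
set_option maxHeartbeats 1600000
set_option synthInstance.maxHeartbeats 400000

noncomputable section

namespace Fermat.Agent.Lib.S59

open IsLocalRing Polynomial CuspForm ExtCitation

local notation "Γℚ" => (AlgebraicClosure ℚ ≃ₐ[ℚ] AlgebraicClosure ℚ)

/-- **the existence statement of case (P) at `(p, s) = (3, 2)`**, as a hypothesis with the premises available in the fields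
`liftC1p`/`liftC2p`: for every coefficient ring the universal ring of the MINIMAL STRICT type exists ((RAISE-p) + the `p`-new datum). -/
def s59u_w_sp_ExStr3 [Fact (Nat.Prime 3)] : Prop :=
  ∀ (W : WeierstrassCurve ℤ) (hΔ : W.Δ ≠ 0), W.IsSemistableModel → W.ModRepIsIrreducible 3 →
    s59g_MultPeu W 3 → ∀ M : ℕ, 0 < M → Squarefree M → ¬ 3 ∣ M → 2 ∣ M → s59_Unr W 3 2 →
    W.IsResiduallyModularOfLevel 3 (M / 2) →
    (∀ q : ℕ, q.Prime → q ≠ 3 → q ≠ 2 → q ∣ M → ¬ s59_Unr W 3 q) →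
    W.IsResiduallyModularOfLevel 3 M →
    ∀ (𝒪 : Type) [CommRing 𝒪] [IsDomain 𝒪] [IsDiscreteValuationRing 𝒪]
      [IsAdicComplete (maximalIdeal 𝒪) 𝒪] [Finite (ResidueField 𝒪)] [CharZero 𝒪]
      [Algebra ℤ_[3] 𝒪] [Module.Finite ℤ_[3] 𝒪]
      (hp𝒪 : ((3 : ℕ) : 𝒪) ∈ maximalIdeal 𝒪)
      (_hsplit : ∀ a b : ℤ, ∃ α β : ResidueField 𝒪,
        α + β = (a : ResidueField 𝒪) ∧ α * β = (b : ResidueField 𝒪)),
      Nonempty (GaloisRep.DeformationRingData 𝒪 (s59i_rhobarW W 3 hΔ 𝒪 hp𝒪)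
        (fun _A _ _ _ ρ => GaloisRep.strictOrdinaryCondition 𝒪 3 (s59q_WSmin W hΔ hp𝒪) ρ ∧
          ∀ q ∈ s59q_WSmin W hΔ hp𝒪, q.Prime → q ≠ 3 → ρ.IsUnipotentOnInertiaAt q))

/-- the two existence statements `s59u_w_sp_ExMin 3 W hΔ` from the strict one, under the premises of the fields (flat lift at the level
`M / 2`). -/
theorem s59u_w_sp_exMin3 [Fact (Nat.Prime 3)] (HStr : s59u_w_sp_ExStr3)
    (W : WeierstrassCurve ℤ) (hΔ : W.Δ ≠ 0) (hss : W.IsSemistableModel)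
    (hirr : W.ModRepIsIrreducible 3) (hP : s59g_MultPeu W 3) (M : ℕ) (hM0 : 0 < M)
    (hsq : Squarefree M) (h3M : ¬ 3 ∣ M) (h2M : 2 ∣ M) (hunr : s59_Unr W 3 2)
    (h2old : W.IsResiduallyModularOfLevel 3 (M / 2))
    (hram : ∀ q : ℕ, q.Prime → q ≠ 3 → q ≠ 2 → q ∣ M → ¬ s59_Unr W 3 q)
    (hres : W.IsResiduallyModularOfLevel 3 M) : s59u_w_sp_ExMin 3 W hΔ := by
  have hdvd : M / 2 ∣ M := Nat.div_dvd_of_dvd h2M
  have hM'0 : M / 2 ≠ 0 := by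
    obtain ⟨m, rfl⟩ := h2M
    rw [Nat.mul_div_cancel_left _ (by norm_num : 0 < 2)]
    rintro rfl
    simp at hM0
  haveI : NeZero (M / 2) := ⟨hM'0⟩
  refine s59u_w_sp_exMin_of_strict 3 (Or.inl rfl) W hΔ hss hirr (M / 2)
    (hsq.squarefree_of_dvd hdvd) (fun h => h3M (h.trans hdvd)) h2old ?_
    (fun 𝒪 _ _ _ _ _ _ _ _ hp𝒪 hsplit =>
      HStr W hΔ hss hirr hP M hM0 hsq h3M h2M hunr h2old hram hres 𝒪 hp𝒪 hsplit)
  intro q hq hqM'
  have hq2 : q ≠ 2 := by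
    rintro rfl
    obtain ⟨m, rfl⟩ := h2M
    rw [Nat.mul_div_cancel_left _ (by norm_num : 0 < 2)] at hqM'
    have h4 : 2 * 2 ∣ 2 * m := Nat.mul_dvd_mul_left 2 hqM'
    exact Nat.prime_two.not_isUnit (hsq 2 h4)
  exact hram q hq (fun h => h3M (h ▸ hqM'.trans hdvd)) hq2 (hqM'.trans hdvd)

/-- the base level of case (P): `N₀ = M * 3`. -/
theorem s59u_w_sp_level3P (W : WeierstrassCurve ℤ) (M : ℕ) (hM0 : 0 < M) (hsq : Squarefree M)
    (h3M : ¬ 3 ∣ M) (h2M : 2 ∣ M) (h2old : W.IsResiduallyModularOfLevel 3 (M / 2))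
    (hram : ∀ q : ℕ, q.Prime → q ≠ 3 → q ≠ 2 → q ∣ M → ¬ s59_Unr W 3 q)
    (hres : W.IsResiduallyModularOfLevel 3 M) :
    0 < M * 3 ∧ Squarefree (M * 3) ∧ 3 ∣ M * 3 ∧ 2 ∣ M * 3 ∧
      W.IsResiduallyModularOfLevel 3 (M * 3 / 2) ∧ W.IsResiduallyModularOfLevel 3 (M * 3) ∧
      W.IsResiduallyModularOfLevel 3 (M * 3 / 3) ∧
      W.IsResiduallyModularOfLevel 3 (M * 3 / 3 / 2) ∧
      ∀ q : ℕ, q.Prime → q ≠ 3 → q ∣ M * 3 → q ≠ 2 → ¬ s59_Unr W 3 q := by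
  have hcop : M.Coprime 3 :=
    (Nat.Coprime.symm ((Nat.Prime.coprime_iff_not_dvd Nat.prime_three).mpr h3M))
  have hNsq : Squarefree (M * 3) :=
    (Nat.squarefree_mul hcop).mpr ⟨hsq, Nat.prime_three.squarefree⟩
  have hdiv : M * 3 / 2 = M / 2 * 3 := by
    obtain ⟨m, rfl⟩ := h2M
    rw [mul_assoc, Nat.mul_div_cancel_left _ (by norm_num : 0 < 2),
      Nat.mul_div_cancel_left _ (by norm_num : 0 < 2)]
  have hdiv3 : M * 3 / 3 = M := Nat.mul_div_cancel M (by norm_num)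
  have hdvd2 : M / 2 * 3 ∣ M * 3 := Nat.mul_dvd_mul_right (Nat.div_dvd_of_dvd h2M) 3
  refine ⟨Nat.mul_pos hM0 (by norm_num), hNsq, dvd_mul_left 3 M, Dvd.dvd.mul_right h2M 3, ?_,
    s59v_resMod_mono (dvd_mul_right M 3) hNsq hres, ?_, ?_, ?_⟩
  · rw [hdiv]
    exact s59v_resMod_mono (dvd_mul_right (M / 2) 3) (hNsq.squarefree_of_dvd hdvd2) h2old
  · rw [hdiv3]
    exact hres
  · rw [hdiv3]
    exact h2old
  · intro q hq hq3 hqN hq2
    rcases (Nat.Prime.dvd_mul hq).mp hqN with h | h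
    · exact hram q hq hq3 hq2 h
    · exact absurd ((Nat.prime_dvd_prime_iff_eq hq Nat.prime_three).mp h) hq3

/-- **the field `liftC1p`** (`W` multiplicative and peu at `3`, good at `2`, `3 ∣ a₂(W)`) from the final weak `T`-side statement of
case (P) with the spectator `2`, `k₀ = 0`, and the existence of the minimal strict ring. -/
theorem s59u_w_sp_LIFTThreeC1P_of [Fact (Nat.Prime 3)]
    (HF0 : ∀ (W : WeierstrassCurve ℤ) (hΔ : W.Δ ≠ 0), s59u_w_sp_TFinPt 3 W hΔ 2 0)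
    (HStr : s59u_w_sp_ExStr3) : s59g_LIFTThreeC1P := by
  intro W hΔ hss hirr M hM0 hsq h3M hP h2M hunr hgood2 ha2 h2old hram hres
  obtain ⟨hN0, hNsq, h3N, h2N, hold₀, hres₀, hresM, hresMS, hNtype⟩ :=
    s59u_w_sp_level3P W M hM0 hsq h3M h2M h2old hram hres
  haveI : NeZero (M * 3) := ⟨hN0.ne'⟩
  have HT0 : s59u_w_sp_TPkgFLR 3 W hΔ (M * 3) 2 0 :=
    s59u_w_sp_TPkgFLR_of_TFinPt 3 (Or.inl rfl) W hΔ hss hirr hP.1 hP.2 (M * 3) hNsq h3N h2N 2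
      (by norm_num) h2N hres₀ hold₀ hresM hresMS (by norm_num) hNtype 0 (HF0 W hΔ)
      (fun h => absurd h (by norm_num))
  obtain ⟨N, _, B, 𝒪, _, _, _, χ, hp2, h3, hχ⟩ :=
    s59u_w_sp_FLR_P_c1 3 (Or.inl rfl) W hΔ hss hirr hP.1 (M * 3) hNsq h3N s59u_sp_two
      (by norm_num [s59u_sp_two]) h2N (by norm_num [s59u_sp_two]) hunr hNtype
      (s59u_w_sp_exMin3 HStr W hΔ hss hirr hP M hM0 hsq h3M h2M hunr h2old hram hres) hgood2 1 (Or.inl rfl)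
      (by
        have h : (3 : ℤ) ∣ W.apOfModel 2 - 3 := dvd_sub ha2 (dvd_refl 3)
        simpa [s59u_sp_two] using h)
      HT0
  obtain ⟨f, hf, hcoef⟩ := s59g_X_proved N B 𝒪 (fun ℓ => W.apOfModel ℓ) χ hχ
  exact ⟨N, B, f, Nat.pos_of_ne_zero (NeZero.ne N), hp2, h3, hf,
    fun ℓ hℓ _ hℓN hℓB => hcoef ℓ hℓ hℓN hℓB⟩

/-- **the field `liftC2p`** (`W` multiplicative and peu at `3`, multiplicative at `2`) from the final weak `T`-side statements of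
case (P) with the spectator `2`, `k₀ = 0, 1`, the cut run, and the existence of the minimal strict ring. -/
theorem s59u_w_sp_LIFTThreeC2P_of [Fact (Nat.Prime 3)]
    (HF0 : ∀ (W : WeierstrassCurve ℤ) (hΔ : W.Δ ≠ 0), s59u_w_sp_TFinPt 3 W hΔ 2 0)
    (HF1 : ∀ (W : WeierstrassCurve ℤ) (hΔ : W.Δ ≠ 0), s59u_w_sp_TFinPt 3 W hΔ 2 1)
    (HC1 : ∀ (W : WeierstrassCurve ℤ) (hΔ : W.Δ ≠ 0), s59u_w_sp_TFinCut 3 W hΔ 2)
    (HStr : s59u_w_sp_ExStr3) : s59g_LIFTThreeC2P := by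
  intro W hΔ hss hirr M hM0 hsq h3M hP h2M hunr hbad2 h2old hram hres
  obtain ⟨hN0, hNsq, h3N, h2N, hold₀, hres₀, hresM, hresMS, hNtype⟩ :=
    s59u_w_sp_level3P W M hM0 hsq h3M h2M h2old hram hres
  haveI : NeZero (M * 3) := ⟨hN0.ne'⟩
  have HT0 : s59u_w_sp_TPkgFLR 3 W hΔ (M * 3) 2 0 :=
    s59u_w_sp_TPkgFLR_of_TFinPt 3 (Or.inl rfl) W hΔ hss hirr hP.1 hP.2 (M * 3) hNsq h3N h2N 2
      (by norm_num) h2N hres₀ hold₀ hresM hresMS (by norm_num) hNtype 0 (HF0 W hΔ)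
      (fun h => absurd h (by norm_num))
  have HT1 : s59u_w_sp_TPkgFLR 3 W hΔ (M * 3) 2 1 :=
    s59u_w_sp_TPkgFLR_of_TFinPt 3 (Or.inl rfl) W hΔ hss hirr hP.1 hP.2 (M * 3) hNsq h3N h2N 2
      (by norm_num) h2N hres₀ hold₀ hresM hresMS (by norm_num) hNtype 1 (HF1 W hΔ)
      (fun _ => HC1 W hΔ)
  obtain ⟨N, _, B, 𝒪, _, _, _, χ, hp2, h3, hχ⟩ :=
    s59u_w_sp_FLR_P 3 (Or.inl rfl) W hΔ hss hirr hP.1 (M * 3) hNsq h3N s59u_sp_two
      (by norm_num [s59u_sp_two]) h2N (by norm_num [s59u_sp_two]) hunr hNtype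
      (s59u_w_sp_exMin3 HStr W hΔ hss hirr hP M hM0 hsq h3M h2M hunr h2old hram hres)
      (fun 𝒪 _ _ _ _ _ _ _ _ hp𝒪 _ =>
        s59u_sp_hscp_of_bad 3 (by norm_num) W hΔ hss hirr s59u_sp_two
          (by norm_num [s59u_sp_two]) hbad2 𝒪 hp𝒪)
      (Or.inr HT0) (Or.inr HT1)
  obtain ⟨f, hf, hcoef⟩ := s59g_X_proved N B 𝒪 (fun ℓ => W.apOfModel ℓ) χ hχ
  exact ⟨N, B, f, Nat.pos_of_ne_zero (NeZero.ne N), hp2, h3, hf,
    fun ℓ hℓ _ hℓN hℓB => hcoef ℓ hℓ hℓN hℓB⟩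

end Fermat.Agent.Lib.S59

end
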