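/-
S59, plan [C2P] (helper3, prefix `s59u_c2_`), file E: **helper1's FIELD `liftC2p` (`s59g_LIFTThreeC2P`, Graph3Z.lean) FROM THE FINAL WEAK
`T`-SIDE STATEMENTS OF PLAN [C2P]** — the replacement of `s59u_w_sp_LIFTThreeC2P_of` (UWSpM.lean), whose hypotheses `HF1`/`HC1` (spectator
`2` raised virtually over the EVEN base level `M·3`) need a base point new at BOTH `2` and `3` (#3982).

`W` semistable, MULTIPLICATIVE and PEU ramifié at `3`, MULTIPLICATIVE at `2` with `ρ̄_{W,3}` unramified at `2`; `M` squarefree, even,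
prime to `3`; `L = M / 2` (odd), `ρ̄` modular of level `L`.  Choose by [r-EXISTS] (UC2R.lean) a prime `r ∤ 6·M·Δ_W`, `r ≡ 2 (mod 3)`, with
`ρ̄(Frob_r)` of characteristic polynomial `X² − 1`, `3 ∣ a_r(W)`.  For the coefficient ring `𝒪`:
  * route A (`ρ_W ⊗ 𝒪` UNRAMIFIED at `2` — it never happens, but no proof of this is in the library): base level `M·3`, spectator `2`,
    never raised: the `T`-side statement `s59u_w_sp_TFinPt 3 W hΔ 2 0` of the field `liftC1p` (`HF0`);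
  * route B (`ρ_W ⊗ 𝒪` RAMIFIED at `2`): ODD base level `N₀ = L·r·3`, GOOD spectator `r` (never raised), FIRST raising prime `2`:
    the `T`-side statement `s59u_c2_TFinPt 3 W hΔ r 0` (UC2D.lean; `HF2`).
The existence of the minimal strict ring is `s59u_w_sp_ExStr3` (UWSpM.lean), as for `liftC1p`.

* `s59u_c2_dvd_of_residue`, `s59u_c2_level3`, **`s59u_c2_LIFTThreeC2P_of`**.
-/
import Mathlib
import Fermat.Agent.Lib.S59.UWSpM
import Fermat.Agent.Lib.S59.UC2R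
import Fermat.Agent.Lib.S59.UC2C
import Fermat.Agent.Lib.S59.UC2D

set_option autoImplicit false
set_option linter.unusedSectionVars false
set_option linter.unusedVariables false
set_option linter.style.haveILetI false
set_option maxHeartbeats 1600000
set_option synthInstance.maxHeartbeats 400000

noncomputable section

namespace Fermat.Agent.Lib.S59

open IsLocalRing Polynomial CuspForm ExtCitation

local notation "Γℚ" => (AlgebraicClosure ℚ ≃ₐ[ℚ] AlgebraicClosure ℚ)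

/-- an integer which vanishes in the residue field of a local ring of residue characteristic `p` is divisible by `p`. -/
theorem s59u_c2_dvd_of_residue (p : ℕ) [hpF : Fact p.Prime] {𝒪 : Type} [CommRing 𝒪] [IsLocalRing 𝒪]
    (hp𝒪 : ((p : ℕ) : 𝒪) ∈ maximalIdeal 𝒪) (a : ℤ) (ha : residue 𝒪 ((a : ℤ) : 𝒪) = 0) :
    (p : ℤ) ∣ a := by
  by_contra hnd
  have hpr : Prime (p : ℤ) := Nat.prime_iff_prime_int.mp hpF.out
  obtain ⟨u, v, huv⟩ : IsCoprime (p : ℤ) a := (Prime.coprime_iff_not_dvd hpr).mpr hnd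
  have h1 : residue 𝒪 (((u * (p : ℤ) + v * a : ℤ) : ℤ) : 𝒪) = 1 := by
    rw [huv]
    simp
  have hp0 : residue 𝒪 (((p : ℤ) : ℤ) : 𝒪) = 0 := by
    rw [Int.cast_natCast]
    exact (residue_eq_zero_iff _).mpr hp𝒪
  rw [Int.cast_add, Int.cast_mul, Int.cast_mul, map_add, map_mul, map_mul, hp0, ha, mul_zero,
    mul_zero, add_zero] at h1
  exact zero_ne_one h1

/-- the odd base level of plan [C2P]: `N₀ = L·r·3` with `L = M / 2`. -/
theorem s59u_c2_level3 (W : WeierstrassCurve ℤ) (M : ℕ) (hM0 : 0 < M) (hsq : Squarefree M)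
    (h3M : ¬ 3 ∣ M) (h2M : 2 ∣ M) (h2old : W.IsResiduallyModularOfLevel 3 (M / 2))
    (hram : ∀ q : ℕ, q.Prime → q ≠ 3 → q ≠ 2 → q ∣ M → ¬ s59_Unr W 3 q)
    (r : ℕ) (hr : r.Prime) (hr2 : r ≠ 2) (hr3 : r ≠ 3) (hrM : ¬ r ∣ M) :
    0 < M / 2 * r * 3 ∧ Squarefree (M / 2 * r * 3) ∧ 3 ∣ M / 2 * r * 3 ∧ ¬ 2 ∣ M / 2 * r * 3 ∧
      r ∣ M / 2 * r * 3 ∧
      W.IsResiduallyModularOfLevel 3 (M / 2 * r * 3) ∧
      W.IsResiduallyModularOfLevel 3 (M / 2 * r * 3 / r) ∧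
      W.IsResiduallyModularOfLevel 3 (M / 2 * r * 3 / 3) ∧
      W.IsResiduallyModularOfLevel 3 (M / 2 * r * 3 / 3 / r) ∧
      ∀ q : ℕ, q.Prime → q ≠ 3 → q ∣ M / 2 * r * 3 → q ≠ r → ¬ s59_Unr W 3 q := by
  obtain ⟨L, rfl⟩ := h2M
  have hL : 2 * L / 2 = L := Nat.mul_div_cancel_left _ (by norm_num)
  rw [hL] at h2old ⊢
  have hL0 : 0 < L := by omega
  have hLsq : Squarefree L := hsq.squarefree_of_dvd (dvd_mul_left L 2)
  have h2L : ¬ 2 ∣ L := fun h => Nat.prime_two.not_isUnit (hsq 2 (Nat.mul_dvd_mul_left 2 h))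
  have h3L : ¬ 3 ∣ L := fun h => h3M (h.trans (dvd_mul_left L 2))
  have hrL : ¬ r ∣ L := fun h => hrM (h.trans (dvd_mul_left L 2))
  have hcopLr : L.Coprime r := (Nat.Coprime.symm ((Nat.Prime.coprime_iff_not_dvd hr).mpr hrL))
  have hLrsq : Squarefree (L * r) := (Nat.squarefree_mul hcopLr).mpr ⟨hLsq, hr.squarefree⟩
  have h3Lr : ¬ 3 ∣ L * r := by
    intro h
    rcases (Nat.Prime.dvd_mul Nat.prime_three).mp h with h | h
    · exact h3L h
    · exact hr3 ((Nat.prime_dvd_prime_iff_eq Nat.prime_three hr).mp h).symm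
  have hcop3 : (L * r).Coprime 3 :=
    (Nat.Coprime.symm ((Nat.Prime.coprime_iff_not_dvd Nat.prime_three).mpr h3Lr))
  have hNsq : Squarefree (L * r * 3) :=
    (Nat.squarefree_mul hcop3).mpr ⟨hLrsq, Nat.prime_three.squarefree⟩
  have hcopL3 : L.Coprime 3 :=
    (Nat.Coprime.symm ((Nat.Prime.coprime_iff_not_dvd Nat.prime_three).mpr h3L))
  have hL3sq : Squarefree (L * 3) :=
    (Nat.squarefree_mul hcopL3).mpr ⟨hLsq, Nat.prime_three.squarefree⟩
  have hdivr : L * r * 3 / r = L * 3 := by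
    have : L * r * 3 = L * 3 * r := by ring
    rw [this, Nat.mul_div_cancel _ hr.pos]
  have hdiv3 : L * r * 3 / 3 = L * r := Nat.mul_div_cancel _ (by norm_num)
  have hdiv3r : L * r / r = L := Nat.mul_div_cancel _ hr.pos
  refine ⟨Nat.mul_pos (Nat.mul_pos hL0 hr.pos) (by norm_num), hNsq, dvd_mul_left 3 _, ?_,
    Dvd.dvd.mul_right (dvd_mul_left r L) 3, ?_, ?_, ?_, ?_, ?_⟩
  · intro h
    rcases (Nat.Prime.dvd_mul Nat.prime_two).mp h with h | h
    · rcases (Nat.Prime.dvd_mul Nat.prime_two).mp h with h | h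
      · exact h2L h
      · exact hr2 ((Nat.prime_dvd_prime_iff_eq Nat.prime_two hr).mp h).symm
    · exact absurd h (by norm_num)
  · exact s59v_resMod_mono (Dvd.dvd.mul_right (dvd_mul_right L r) 3) hNsq h2old
  · rw [hdivr]
    exact s59v_resMod_mono (dvd_mul_right L 3) hL3sq h2old
  · rw [hdiv3]
    exact s59v_resMod_mono (dvd_mul_right L r) hLrsq h2old
  · rw [hdiv3, hdiv3r]
    exact h2old
  · intro q hq hq3 hqN hqr
    rcases (Nat.Prime.dvd_mul hq).mp hqN with h | h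
    · rcases (Nat.Prime.dvd_mul hq).mp h with h | h
      · have hq2 : q ≠ 2 := fun h2 => h2L (h2 ▸ h)
        exact hram q hq hq3 hq2 (h.trans (dvd_mul_left L 2))
      · exact absurd ((Nat.prime_dvd_prime_iff_eq hq hr).mp h) hqr
    · exact absurd ((Nat.prime_dvd_prime_iff_eq hq Nat.prime_three).mp h) hq3

/-- **the field `liftC2p`** (`W` multiplicative and peu at `3`, multiplicative at `2`, `ρ̄` unramified at `2`) from the final weak `T`-side
statements of plan [C2P]: `HF0` (the `T`-side of `liftC1p`: even base level `M·3`, spectator `2` never raised) and `HF2` (odd base level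
`(M/2)·r·3`, good spectator `r ≡ 2 mod 3` never raised, first raising prime `2`), and the existence of the minimal strict ring. -/
theorem s59u_c2_LIFTThreeC2P_of [Fact (Nat.Prime 3)]
    (HF0 : ∀ (W : WeierstrassCurve ℤ) (hΔ : W.Δ ≠ 0), s59u_w_sp_TFinPt 3 W hΔ 2 0)
    (HF2 : ∀ (W : WeierstrassCurve ℤ) (hΔ : W.Δ ≠ 0) (r : ℕ), s59u_c2_TFinPt 3 W hΔ r 0)
    (HStr : s59u_w_sp_ExStr3) : s59g_LIFTThreeC2P := by
  intro W hΔ hss hirr M hM0 hsq h3M hP h2M hunr hbad2 h2old hram hres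
  classical
  -- route A: the even base level `M * 3` with the spectator `2`
  obtain ⟨hN0, hNsq, h3N, h2N, hold₀, hres₀, hresM, hresMS, hNtype⟩ :=
    s59u_w_sp_level3P W M hM0 hsq h3M h2M h2old hram hres
  haveI : NeZero (M * 3) := ⟨hN0.ne'⟩
  have HT0 : s59u_w_sp_TPkgFLR 3 W hΔ (M * 3) 2 0 :=
    s59u_w_sp_TPkgFLR_of_TFinPt 3 (Or.inl rfl) W hΔ hss hirr hP.1 hP.2 (M * 3) hNsq h3N h2N 2
      (by norm_num) h2N hres₀ hold₀ hresM hresMS (by norm_num) hNtype 0 (HF0 W hΔ)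
      (fun h => absurd h (by norm_num))
  -- the auxiliary prime `r`
  obtain ⟨𝒪, i1, i2, i3, i4, i5, i6, i7, i8, i9, hp𝒪, -, hsplit⟩ :=
    s59q_exists_coeffRing_padic 3 1 one_pos
  obtain ⟨r, hr, hrB, hr32, hrgood, -, har⟩ := s59u_c2_exists_r_three (W := W) hΔ hirr (𝒪 := 𝒪) hp𝒪
    (insert 3 (insert 2 (M.primeFactors ∪ W.Δ.natAbs.primeFactors)))
    (Finset.mem_insert_self _ _)
    (fun q hq hbad => Finset.mem_insert_of_mem (Finset.mem_insert_of_mem (Finset.mem_union_right _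
      (Nat.mem_primeFactors.mpr ⟨hq, Int.natCast_dvd.mp (by by_contra h; exact hbad h),
        Int.natAbs_ne_zero.mpr hΔ⟩))))
  have hr3 : r ≠ 3 := fun h => hrB (h ▸ Finset.mem_insert_self _ _)
  have hr2 : r ≠ 2 := fun h =>
    hrB (h ▸ Finset.mem_insert_of_mem (Finset.mem_insert_self _ _))
  have hrM : ¬ r ∣ M := fun h => hrB (Finset.mem_insert_of_mem (Finset.mem_insert_of_mem
    (Finset.mem_union_left _ (Nat.mem_primeFactors.mpr ⟨hr, h, hM0.ne'⟩))))
  have h3ar : (3 : ℤ) ∣ W.apOfModel r := by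
    have := s59u_c2_dvd_of_residue 3 hp𝒪 (W.apOfModel r) har
    exact_mod_cast this
  -- route B: the odd base level `M / 2 * r * 3` with the good spectator `r`
  obtain ⟨hN0', hNsq', h3N', h2N', hrN', hres', hresS', hresM', hresMS', hNtype'⟩ :=
    s59u_c2_level3 W M hM0 hsq h3M h2M h2old hram r hr hr2 hr3 hrM
  haveI : NeZero (M / 2 * r * 3) := ⟨hN0'.ne'⟩
  have hsns : ¬ 3 ∣ r - 1 := by omega
  have HT2 : s59u_c2_TPkgFLR 3 W hΔ (M / 2 * r * 3) r 0 2 :=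
    s59u_c2_TPkgFLR_of_TFinPt 3 (Or.inl rfl) W hΔ hss hirr hP.1 hP.2 (M / 2 * r * 3) hNsq' h3N'
      h2N' r hr3 hrN' (fun _ => hr32) hres' hresS' hresM' hresMS' hsns hNtype' 0 rfl (HF2 W hΔ r)
  have hrU : s59_Unr W 3 r := s59g_unr_of_good 3 Nat.prime_three (by norm_num) W r hr hr3 hrgood
  have hap : ((3 : ℕ) : ℤ) ∣ W.apOfModel r - 1 * ((((r : ℕ) : ℕ) : ℤ) + 1) := by
    have h1 : (3 : ℤ) ∣ ((r : ℤ) + 1) := by
      have : (3 : ℕ) ∣ r + 1 := by omega
      exact_mod_cast this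
    rw [one_mul]
    exact_mod_cast dvd_sub h3ar h1
  obtain ⟨N, _, B, 𝒪', _, _, _, χ, hp2, h3, hχ⟩ :=
    s59u_c2_FLR_P 3 (Or.inl rfl) W hΔ hss hirr hP.1 s59u_sp_two (by norm_num [s59u_sp_two])
      (by norm_num [s59u_sp_two]) hunr hbad2 (M * 3) hNsq h3N h2N hNtype
      (M / 2 * r * 3) hNsq' h3N' ⟨r, hr⟩ hr3 hrN' hsns hrU hNtype' hrgood 1 (Or.inl rfl) hap
      (s59u_w_sp_exMin3 HStr W hΔ hss hirr hP M hM0 hsq h3M h2M hunr h2old hram hres) HT0 HT2
  obtain ⟨f, hf, hcoef⟩ := s59g_X_proved N B 𝒪' (fun ℓ => W.apOfModel ℓ) χ hχ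
  exact ⟨N, B, f, Nat.pos_of_ne_zero (NeZero.ne N), hp2, h3, hf,
    fun ℓ hℓ _ hℓN hℓB => hcoef ℓ hℓ hℓN hℓB⟩

end Fermat.Agent.Lib.S59

end
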