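/-
S59, plan [C2P] (helper3, prefix `s59u_c2_`), file F: **IN CASE (P) THE MINIMAL STRICT UNIVERSAL RING EXISTS UNCONDITIONALLY** — the
existence hypothesis `s59u_w_sp_ExStr3` (UWSpM.lean) of the fields `liftC1p`, `liftC2p` is a THEOREM of the `R`-side: the lift of
minimal strict type is `ρ̄` ITSELF over `k = 𝒪/𝔪` (the device of helper6's `s59q_exists_Dsf_of_lifts`, QSfLift.lean):
  * `det ρ̄ = ε̄`, `ρ̄` strict-ordinary at `p`, `ρ̄` unipotent on every inertia group `I_q`, `q ≠ p`: reduction of `ρ_W ⊗ 𝒪` (`W` semistable,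
    multiplicative at `p`: `s59b_rhoW_strictOrd_of_semistable`, `s59b_rhoW_unip`);
  * `ρ̄` is unramified outside `Σ_min` by the definition of `Σ_min = s59q_WSmin W hΔ hp𝒪`.
So NO `T`-side input ((RAISE-p) at the odd minimal level `(M/2)·3`, `p`-new datum) is needed for the existence statements.

* **`s59u_c2_exStr`**, `s59u_c2_exMin`, **`s59u_c2_ExStr3_proved`**, `s59u_c2_LIFTThreeC1P_of'`, `s59u_c2_LIFTThreeC2P_of'`.
-/
import Mathlib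
import Fermat.Agent.Lib.S59.QSfLift
import Fermat.Agent.Lib.S59.UWSpM
import Fermat.Agent.Lib.S59.UC2E

set_option autoImplicit false
set_option linter.unusedSectionVars false
set_option linter.unusedVariables false
set_option linter.style.haveILetI false
set_option maxHeartbeats 1600000
set_option synthInstance.maxHeartbeats 400000

noncomputable section

namespace Fermat.Agent.Lib.S59

open IsLocalRing Module Polynomial CuspForm ExtCitation GaloisRep Fermat.Agent.Lib.S56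
open Fermat.Agent.Lib.S53 (NormData exists_normData)
open Fermat.Agent.Lib.Deform (IsTestAlgebra resk resk_surjective)

local notation "Γℚ" => (AlgebraicClosure ℚ ≃ₐ[ℚ] AlgebraicClosure ℚ)

/-- **the minimal STRICT universal ring of `ρ̄_{W,p}` exists** (`W` semistable, multiplicative at `p`, `ρ̄` irreducible): the lift is
`ρ̄` itself over `k`. -/
theorem s59u_c2_exStr (p : ℕ) [Fact p.Prime] (hp35 : p = 3 ∨ p = 5)
    (W : WeierstrassCurve ℤ) (hΔ : W.Δ ≠ 0) (hss : W.IsSemistableModel)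
    (hirr : W.ModRepIsIrreducible p) (hmult : ¬ W.IsGoodPrimeFor p)
    (𝒪 : Type) [CommRing 𝒪] [IsDomain 𝒪] [IsDiscreteValuationRing 𝒪]
    [IsAdicComplete (maximalIdeal 𝒪) 𝒪] [Finite (ResidueField 𝒪)] [CharZero 𝒪]
    [Algebra ℤ_[p] 𝒪] [Module.Finite ℤ_[p] 𝒪]
    (hp𝒪 : ((p : ℕ) : 𝒪) ∈ maximalIdeal 𝒪) :
    Nonempty (GaloisRep.DeformationRingData 𝒪 (s59i_rhobarW W p hΔ 𝒪 hp𝒪)
      (fun _A _ _ _ ρ => GaloisRep.strictOrdinaryCondition 𝒪 p (s59q_WSmin W hΔ hp𝒪) ρ ∧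
        ∀ q ∈ s59q_WSmin W hΔ hp𝒪, q.Prime → q ≠ p → ρ.IsUnipotentOnInertiaAt q)) := by
  classical
  have hpP : p.Prime := Fact.out
  have hp2 : p ≠ 2 := s59q_W_p_ne_two hp35
  have habs := s59q_W_habs W hΔ hp𝒪 hp35 hss hirr
  obtain ⟨Nd⟩ := exists_normData (s59q_WRhobar W hΔ hp𝒪) habs
  haveI hlid : IsLocalHom (algebraMap 𝒪 𝒪) := ⟨fun a h => h⟩
  set B : Finset ℕ := insert p W.Δ.natAbs.primeFactors with hBdef
  have hpB : p ∈ B := Finset.mem_insert_self _ _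
  have hB2 : ∀ r : ℕ, r.Prime → ¬ W.IsGoodPrimeFor r → r ∈ B := fun r hr hbad =>
    Finset.mem_insert_of_mem (Nat.mem_primeFactors.mpr
      ⟨hr, Int.natCast_dvd.mp (by by_contra h; exact hbad h), Int.natAbs_ne_zero.mpr hΔ⟩)
  -- `ρ_W ⊗ 𝒪` is a lift of `ρ̄`
  have hfrobW : ∀ ℓ : ℕ, ℓ.Prime → ℓ ∉ B → ∀ Pl : ValuationSubring (AlgebraicClosure ℚ),
      Pl.LiesOverPrime ℓ → ∀ σ : Γℚ, Pl.IsFrobeniusAt σ ℓ →
        LinearMap.charpoly ((s59q_WRho W hΔ hp𝒪).ρ σ) =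
          Polynomial.X ^ 2 - Polynomial.C (((W.apOfModel ℓ : ℤ) : 𝒪)) * Polynomial.X +
            Polynomial.C ((ℓ : 𝒪)) := by
    intro ℓ hℓ hℓB Pl hP σ hσ
    have hℓp : ℓ ≠ p := fun h => hℓB (h ▸ hpB)
    have hgood : W.IsGoodPrimeFor ℓ := by
      by_contra hbad
      exact hℓB (hB2 ℓ hℓ hbad)
    rw [s59e_bc_charpoly, s59b_rhoW_charpoly hΔ hp2 hirr ℓ hℓ hgood hℓp Pl hP σ hσ]
    simp
  have hresW : (s59q_WRho W hΔ hp𝒪).residual.IsEquiv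
      ((s59i_rhobarW W p hΔ 𝒪 hp𝒪).baseChangeAlong (ResidueField.map (algebraMap 𝒪 𝒪))) :=
    s59b_hres_of_frob p hp2 hp𝒪 (s59q_WRho W hΔ hp𝒪) habs B
      (fun ℓ => ((W.apOfModel ℓ : ℤ) : 𝒪)) (fun ℓ => ((W.apOfModel ℓ : ℤ) : 𝒪)) hfrobW
      (fun ℓ _ _ => by
        show ((W.apOfModel ℓ : ℤ) : 𝒪) - ((W.apOfModel ℓ : ℤ) : 𝒪) ∈ maximalIdeal 𝒪
        rw [sub_self]
        exact Ideal.zero_mem _)
      (s59i_rhobarW W p hΔ 𝒪 hp𝒪)
      (fun ℓ hℓ hℓS A hA σ hσ =>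
        s59e_rhobarW_charpoly_frob hΔ hp2 hirr hp𝒪 B hpB hB2 ℓ hℓ hℓS A hA σ hσ)
  -- its reduction to `k` is `ρ̄` over `k`
  have hA₁ : IsTestAlgebra 𝒪 𝒪 := ⟨hlid, IsLocalRing.residue_surjective⟩
  have hπ₁ := s59q_resk_isLocalHom hA₁
  obtain ⟨e₁⟩ := s59q_bc_resk_isEquiv hlid IsLocalRing.residue_surjective Nd
    (s59q_WRho W hΔ hp𝒪) hresW hπ₁
  have hk : IsTestAlgebra 𝒪 (ResidueField 𝒪) := s59q_isTestAlgebra_k
  haveI : IsAdicComplete (maximalIdeal (ResidueField 𝒪)) (ResidueField 𝒪) :=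
    Fermat.Agent.Lib.Deform.isAdicComplete_of_isArtinianRing _
  have hunrbar : ∀ q : ℕ, q.Prime → q ∉ s59q_WSmin W hΔ hp𝒪 →
      (s59i_rhobarW W p hΔ 𝒪 hp𝒪).IsUnramifiedAt q := by
    intro q hq hqS
    have hqp : q ≠ p := fun h => hqS (h ▸ s59q_WSmin_p_mem W hΔ hp𝒪)
    by_contra hram
    exact hqS ((s59q_WSmin_hmin W hΔ hp𝒪 hp2 q hq hqp).mpr hram)
  refine s59q_exists_DQ_ord p hp2 hp𝒪 (s59i_rhobarW W p hΔ 𝒪 hp𝒪) habs
    (s59q_WSmin W hΔ hp𝒪) (s59q_WSmin W hΔ hp𝒪) (s59q_WSmin W hΔ hp𝒪) (Finset.Subset.refl _)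
    (s59q_WSmin_p_mem W hΔ hp𝒪) hunrbar hk.isLocalHom hk.residue_surjective
    (GaloisRepAdic.ofResidualGaloisRep (s59i_rhobarW W p hΔ 𝒪 hp𝒪))
    ⟨⟨?_, ?_, ?_⟩, ?_⟩ (s59q_ofRes_residual _ hk.isLocalHom)
  · exact s56a_detIsCyclotomic_of_equiv e₁
      (s56a_detIsCyclotomic_baseChange _ hπ₁ _ (s59q_W_detCyc W hΔ hp𝒪 hp2 hirr))
  · exact s56a_isStrictOrdinaryAt_of_equiv e₁
      (s56a_isStrictOrdinaryAt_baseChange _ hπ₁ _
        (s59e_bc_strictOrd _ _ _ p (s59b_rhoW_strictOrd_of_semistable hΔ hp2 hirr hss hmult)))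
  · intro q hq hqS P hP σ hσ
    exact hunrbar q hq hqS P hP σ hσ
  · intro q _ hqP hqp
    exact s56a_isUnipotentOnInertiaAt_of_equiv e₁
      (s56a_isUnipotentOnInertiaAt_baseChange _ hπ₁ _
        (s59e_bc_unip _ _ _ q (s59b_rhoW_unip hΔ hp2 hirr hss q hqP hqp)))

/-- **the existence hypothesis `s59u_w_sp_ExMin p W hΔ` of the (P)-tops (UWSpI.lean) holds** as soon as `ρ̄` is modular of a squarefree
level `M'` prime to `p` all of whose primes are ramified primes of `ρ̄` (the flat lift: helper5's `s59e_W_existDQ`). -/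
theorem s59u_c2_exMin (p : ℕ) [Fact p.Prime] (hp35 : p = 3 ∨ p = 5)
    (W : WeierstrassCurve ℤ) (hΔ : W.Δ ≠ 0) (hss : W.IsSemistableModel)
    (hirr : W.ModRepIsIrreducible p) (hmult : ¬ W.IsGoodPrimeFor p)
    (M' : ℕ) [NeZero M'] (hsqM' : Squarefree M') (hpM' : ¬ p ∣ M')
    (hres' : W.IsResiduallyModularOfLevel p M')
    (hram' : ∀ q : ℕ, q.Prime → q ∣ M' → ¬ s59_Unr W p q) : s59u_w_sp_ExMin p W hΔ :=
  s59u_w_sp_exMin_of_strict p hp35 W hΔ hss hirr M' hsqM' hpM' hres' hram'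
    (fun 𝒪 _ _ _ _ _ _ _ _ hp𝒪 _ => s59u_c2_exStr p hp35 W hΔ hss hirr hmult 𝒪 hp𝒪)

/-- **the existence hypothesis `s59u_w_sp_ExStr3` of the fields `liftC1p`, `liftC2p` holds.** -/
theorem s59u_c2_ExStr3_proved [Fact (Nat.Prime 3)] : s59u_w_sp_ExStr3 := by
  intro W hΔ hss hirr hP M hM0 hsq h3M h2M hunr h2old hram hres 𝒪 _ _ _ _ _ _ _ _ hp𝒪 _
  exact s59u_c2_exStr 3 (Or.inl rfl) W hΔ hss hirr hP.1 𝒪 hp𝒪

/-- **the field `liftC1p`** from the final weak `T`-side statement of case (P) with the spectator `2`, `k₀ = 0`, ALONE. -/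
theorem s59u_c2_LIFTThreeC1P_of' [Fact (Nat.Prime 3)]
    (HF0 : ∀ (W : WeierstrassCurve ℤ) (hΔ : W.Δ ≠ 0), s59u_w_sp_TFinPt 3 W hΔ 2 0) :
    s59g_LIFTThreeC1P :=
  s59u_w_sp_LIFTThreeC1P_of HF0 s59u_c2_ExStr3_proved

/-- **the field `liftC2p`** from the two final weak `T`-side statements `HF0` (even base level `M·3`, spectator `2` never raised) and `HF2`
(odd base level `(M/2)·r·3`, good spectator `r ≡ 2 mod 3` never raised, first raising prime `2`), ALONE. -/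
theorem s59u_c2_LIFTThreeC2P_of' [Fact (Nat.Prime 3)]
    (HF0 : ∀ (W : WeierstrassCurve ℤ) (hΔ : W.Δ ≠ 0), s59u_w_sp_TFinPt 3 W hΔ 2 0)
    (HF2 : ∀ (W : WeierstrassCurve ℤ) (hΔ : W.Δ ≠ 0) (r : ℕ), s59u_c2_TFinPt 3 W hΔ r 0) :
    s59g_LIFTThreeC2P :=
  s59u_c2_LIFTThreeC2P_of HF0 HF2 s59u_c2_ExStr3_proved

end Fermat.Agent.Lib.S59

end
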