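/-
PROGRAMME (R2) = S59 — ADAPTER v3.16 (helper1): `GLeavesZd.lean` with the FOUR SPECTATOR FIELDS (`liftC1gt`, `liftC2gt`, `liftC1p`,
`liftC2p`) REPLACED BY THE FINAL `T`-SIDE STATEMENTS THEY NOW DEPEND ON (v3.15 = `GLeavesZe.lean` minus the flat cut run, which is
CLOSED by helper4's `s59f_sg_TFinCut_sp`, FSgnT6.lean):
* flat   : `s59c3_TFinX 3 W hΔ` (helper8, C3FlrFinXS) — through `s59pt_TFinPt_two_zero/_two_one` (helper1, GPtFin) and helper3's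
           `s59u_sp_LIFTThreeC*_flat`; the cut run `s59u_sp_TFinCut 3 W hΔ 2` is helper4's theorem;
* très   : helper6's strict `s59q_sp_TFinPt 3 W hΔ 2 0/1`, `s59q_sp_TFinCut 3 W hΔ 2` (QSSpM/N);
* (P)    : helper3's weak `s59u_w_sp_TFinPt 3 W hΔ 2 0` (UWSpL) and `s59u_c2_TFinPt 3 W hΔ r 0` (UC2D); `s59u_w_sp_ExStr3` is proved (UC2F).
NEW file, NEW names.  `s59g_S59_openZf : s59g_OpenThreeZf → s59g_OpenFiveZb → <frozen S59 verbatim>`.
-/
import Fermat.Agent.Lib.S59.GLeavesZd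
import Fermat.Agent.Lib.S59.GPtFin
import Fermat.Agent.Lib.S59.FSgnT6
import Fermat.Agent.Lib.S59.QSSpN
import Fermat.Agent.Lib.S59.UC2F

set_option autoImplicit false

open CongruenceSubgroup ModularFormClass

noncomputable section

namespace Fermat.Agent.Lib.S59

/-- the OPEN fields at `p = 3` (v3.16): the two non-spectator lifting fields and the SIX final `T`-side statements of the spectator
fields. -/
structure s59g_OpenThreeZf : Prop where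
  liftABgt : s59g_LIFTThreeGT
  liftABp : s59g_LIFTThreeP
  /-- flat chain with exports, helper8 -/
  finX : ∀ (W : WeierstrassCurve ℤ) (hΔ : W.Δ ≠ 0), s59c3_TFinX 3 W hΔ
  /-- strict (très ramifié) chain with base point, `k₀ = 0, 1`, and its cut run -/
  finS0 : ∀ (W : WeierstrassCurve ℤ) (hΔ : W.Δ ≠ 0), s59q_sp_TFinPt 3 W hΔ 2 0
  finS1 : ∀ (W : WeierstrassCurve ℤ) (hΔ : W.Δ ≠ 0), s59q_sp_TFinPt 3 W hΔ 2 1
  finSCut : ∀ (W : WeierstrassCurve ℤ) (hΔ : W.Δ ≠ 0), s59q_sp_TFinCut 3 W hΔ 2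
  /-- weak chain of case (P): even base level with the spectator `2`, and odd base level with first raising prime `2` -/
  finP0 : ∀ (W : WeierstrassCurve ℤ) (hΔ : W.Δ ≠ 0), s59u_w_sp_TFinPt 3 W hΔ 2 0
  finP2 : ∀ (W : WeierstrassCurve ℤ) (hΔ : W.Δ ≠ 0) (r : ℕ), s59u_c2_TFinPt 3 W hΔ r 0

theorem s59g_openThreeZd_ofZf (h : s59g_OpenThreeZf) : s59g_OpenThreeZd where
  liftABgt := h.liftABgt
  liftABp := h.liftABp
  liftC1gt := s59q_sp_LIFTThreeC1GT_of_TFinPt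
    (fun W hΔ => s59pt_TFinPt_two_zero 3 W hΔ (h.finX W hΔ)) h.finS0
  liftC2gt := s59q_sp_LIFTThreeC2GT_of_TFinPt
    (fun W hΔ => s59pt_TFinPt_two_zero 3 W hΔ (h.finX W hΔ))
    (fun W hΔ => s59pt_TFinPt_two_one 3 W hΔ (h.finX W hΔ))
    (fun W hΔ => s59f_sg_TFinCut_sp 3 W hΔ)
    h.finS0 h.finS1 h.finSCut
  liftC1p := s59u_c2_LIFTThreeC1P_of' h.finP0
  liftC2p := s59u_c2_LIFTThreeC2P_of' h.finP0 h.finP2

/-- **S59 from the OPEN fields of v3.16** — the frozen statement, verbatim. -/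
theorem s59g_S59_openZf (h3 : s59g_OpenThreeZf) (h5 : s59g_OpenFiveZb)
    (p : ℕ) (hp : p = 3 ∨ p = 5)
    (W : WeierstrassCurve ℤ) (hΔ : W.Δ ≠ 0) (hW : W.IsSemistableModel)
    (hirr : W.ModRepIsIrreducible p)
    (M₀ : ℕ) [NeZero M₀] (hres₀ : W.IsResiduallyModularOfLevel p M₀)
    (hM₀ : ¬ p ^ 2 ∣ M₀)
    (hM₀3 : ∀ q : ℕ, q.Prime → q ≠ p → ¬ q ^ 3 ∣ M₀) :
    Mlc1IsModularModelOfExactConductorLevel W :=
  s59g_S59_openZd (s59g_openThreeZd_ofZf h3) h5 p hp W hΔ hW hirr M₀ hres₀ hM₀ hM₀3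

end Fermat.Agent.Lib.S59

end
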