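/-
PROGRAMME (R2-bg) = S59 — CONTRACT GRAPH v3.1 (helper1): **the EVEN-LEVEL induction for step 2 of [LOWER]**
(helper7's request #3632 (a)).  NEW file, NEW names; imports `Graph3.lean` (v3) and changes nothing there.

helper7's `s59n_MP_even` (origin/helper7) proves Mazur's principle for EVERY odd `p` (in particular `p = 3`), every
`q ≥ 5`, `q ≠ p`, at every squarefree EVEN level (modular unit `η₂` of weight 4 on `Γ₀(2)`, `δ = −4e`).  The induction below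
uses [MP] at the odd primes only at even levels:

  step 2b′, phase A: raise `2` into the level if necessary (free: oldforms, `s59g_resmod_raise`), then remove every odd
            prime `q ≠ p` of the level with `ρ̄` unramified at `q` which is NOT scalar (`s59g_MPodd`, even levels only);
            the level stays even;
  phase B:  if `ρ̄` is unramified at `2`, remove `2` (`s59g_MPtwo` — THE remaining wall at `p = 3`; a chart port at `p = 5`);
  phase C:  all remaining unramified primes `q ≠ p` are scalar with `q ≡ 1 mod p`: Ihara avoidance (`s59g_IAdiv`,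
            the shape of the landed `s59i_IAcoreSsp`), until `ρ̄` is ramified at every prime `q ≠ p` of the level.

All conclusions are "a PROPER DIVISOR of the level" (`M / q`, "∃ q ∈ Bd, M / q" qualify), so the invariants pass along.
CHECKED: `s59g_S59_E : s59g_CARW → s59g_MPbig → s59g_MPthree → s59g_MPtwo → s59g_IAdiv → s59g_MRPW → s59g_LIFTW →
<frozen S59>`.
-/
import Fermat.Agent.Lib.S59.Graph3

set_option autoImplicit false

open CongruenceSubgroup ModularFormClass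

noncomputable section

namespace Fermat.Agent.Lib.S59

/-- the scalar alternative of Mazur's principle at `q`. -/
def s59g_Scalar (W : WeierstrassCurve ℤ) (p q : ℕ) : Prop :=
  p ∣ q - 1 ∧ s59_FrobScalar W p q

/-! ### Raising the level by oldforms (proved) -/

/-- `ρ̄` modular of level `M` ⇒ modular of level `M * r` (`r` a prime not dividing `M`). -/
theorem s59g_resmod_raise (W : WeierstrassCurve ℤ) (p M r : ℕ) (hM : M ≠ 0) (hr : r.Prime)
    (hrM : ¬ r ∣ M) (hres : W.IsResiduallyModularOfLevel p M) :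
    W.IsResiduallyModularOfLevel p (M * r) := by
  obtain ⟨f, 𝔪, hf, hmax, hpm, hcong⟩ := hres
  obtain ⟨g, hg, hcoef⟩ := s59g_lift_aux r M (M * r) rfl hM hr.prime.squarefree
    ((Nat.Prime.coprime_iff_not_dvd hr).mpr hrM).symm f hf
  refine ⟨g, 𝔪, hg, hmax, hpm, fun ℓ hℓ hgood hℓM hℓp => ?_⟩
  have hℓr : ¬ ℓ ∣ r := fun hd => hℓM (hd.trans (dvd_mul_left r M))
  have hℓM' : ¬ ℓ ∣ M := fun hd => hℓM (hd.trans (dvd_mul_right M r))
  obtain ⟨a, ha, ham⟩ := hcong ℓ hℓ hgood hℓM' hℓp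
  exact ⟨a, by rw [ha, hcoef ℓ hℓ hℓr], ham⟩

/-- the invariants of step 2 pass to divisors. -/
theorem s59g_Inv2_of_dvd {W : WeierstrassCurve ℤ} {p M M' : ℕ} (hinv : s59g_Inv2 W p M)
    (hd : M' ∣ M) : s59g_Inv2 W p M' :=
  ⟨Nat.pos_of_dvd_of_pos hd hinv.1, hinv.2.1.squarefree_of_dvd hd, fun h => hinv.2.2 (h.trans hd)⟩

/-! ### The nodes of v3.1 -/

/-- **[MP-big]** (helper7: PROVED on origin/helper7 as `s59n_MP_even`, every odd `p`) Mazur's
principle at `q ≥ 5` at an EVEN squarefree level. -/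
def s59g_MPbig : Prop :=
  ∀ (p : ℕ), p = 3 ∨ p = 5 → ∀ (W : WeierstrassCurve ℤ), W.Δ ≠ 0 → W.IsSemistableModel →
    W.ModRepIsIrreducible p → ∀ (M q : ℕ), Squarefree M → 2 ∣ M → q.Prime → 5 ≤ q → q ≠ p →
    q ∣ M → s59_Unr W p q → W.IsResiduallyModularOfLevel p M →
    W.IsResiduallyModularOfLevel p (M / q) ∨ s59g_Scalar W p q

/-- **[MP-three]** (helper7: chart port) Mazur's principle at `q = 3`, `p = 5`, at an EVEN
squarefree level (`5 ∤ 3 − 1`: no scalar alternative). -/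
def s59g_MPthree : Prop :=
  ∀ (W : WeierstrassCurve ℤ), W.Δ ≠ 0 → W.IsSemistableModel →
    W.ModRepIsIrreducible 5 → ∀ (M : ℕ), Squarefree M → 2 ∣ M → 3 ∣ M →
    (5 ∣ M → ¬ W.IsGoodPrimeFor 5) →
    s59_Unr W 5 3 → W.IsResiduallyModularOfLevel 5 M → W.IsResiduallyModularOfLevel 5 (M / 3)

/-- **[MP-two]** Mazur's principle at `q = 2` (`p ∤ 2 − 1`: no scalar alternative): the level is
even, every odd prime `q ≠ p` of the level with `ρ̄` unramified at `q` is scalar ⇒ some divisor of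
the level which is odd.  (THE wall at `p = 3`; the mirror chart port at `p = 5`.) -/
def s59g_MPtwo : Prop :=
  ∀ (p : ℕ), p = 3 ∨ p = 5 → ∀ (W : WeierstrassCurve ℤ), W.Δ ≠ 0 → W.IsSemistableModel →
    W.ModRepIsIrreducible p → ∀ (M : ℕ), s59g_Inv2 W p M → 2 ∣ M → s59_Unr W p 2 →
    (∀ q : ℕ, q.Prime → q ≠ p → q ≠ 2 → q ∣ M → s59_Unr W p q → s59g_Scalar W p q) →
    W.IsResiduallyModularOfLevel p M →
    ∃ M' : ℕ, M' ∣ M ∧ ¬ 2 ∣ M' ∧ W.IsResiduallyModularOfLevel p M'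

/-- **[IA-div]** Ihara avoidance in the shape of the landed `s59i_IAcoreSsp`, conclusion "a proper
divisor of the level". -/
def s59g_IAdiv : Prop :=
  ∀ (p : ℕ), p = 3 ∨ p = 5 → ∀ (W : WeierstrassCurve ℤ), W.Δ ≠ 0 → W.IsSemistableModel →
    W.ModRepIsIrreducible p → ∀ (M : ℕ), s59g_Inv2 W p M → ∀ Bd : Finset ℕ, Bd.Nonempty →
    (∀ q ∈ Bd, q.Prime ∧ q ≠ p ∧ q ∣ M ∧ s59_Unr W p q ∧ s59g_Scalar W p q) →
    (∀ ℓ : ℕ, ℓ.Prime → ℓ ≠ p → ℓ ∣ M → ℓ ∉ Bd → ¬ s59_Unr W p ℓ) →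
    W.IsResiduallyModularOfLevel p M →
    ∃ M' : ℕ, M' ∣ M ∧ M' < M ∧ W.IsResiduallyModularOfLevel p M'

/-- Mazur's principle at an odd prime `q ≠ p` at an even level ⇐ [MP-big] + [MP-three]. -/
theorem s59g_MPodd (hB : s59g_MPbig) (h3 : s59g_MPthree) (p : ℕ) (hp : p = 3 ∨ p = 5)
    (W : WeierstrassCurve ℤ) (hΔ : W.Δ ≠ 0) (hW : W.IsSemistableModel)
    (hirr : W.ModRepIsIrreducible p) (M q : ℕ) (hinv : s59g_Inv2 W p M) (h2M : 2 ∣ M)
    (hq : q.Prime) (hqp : q ≠ p) (hq2 : q ≠ 2) (hqM : q ∣ M) (hunr : s59_Unr W p q)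
    (hres : W.IsResiduallyModularOfLevel p M) :
    (∃ M' : ℕ, M' ∣ M ∧ M' < M ∧ 2 ∣ M' ∧ W.IsResiduallyModularOfLevel p M') ∨
      s59g_Scalar W p q := by
  have hdvd : M / q ∣ M := Nat.div_dvd_of_dvd hqM
  have hlt : M / q < M := Nat.div_lt_self hinv.1 hq.one_lt
  have h2 : 2 ∣ M / q := by
    have h2' : 2 ∣ q * (M / q) := by rwa [Nat.mul_div_cancel' hqM]
    rcases (Nat.Prime.dvd_mul Nat.prime_two).mp h2' with h | h
    · exact absurd ((Nat.prime_dvd_prime_iff_eq Nat.prime_two hq).mp h).symm hq2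
    · exact h
  by_cases h5q : 5 ≤ q
  · rcases hB p hp W hΔ hW hirr M q hinv.2.1 h2M hq h5q hqp hqM hunr hres with h | h
    · exact Or.inl ⟨M / q, hdvd, hlt, h2, h⟩
    · exact Or.inr h
  · have hq3 : q = 3 := by
      have h2le := hq.two_le
      have h4 : q ≠ 4 := by
        rintro rfl
        exact absurd hq (by norm_num)
      omega
    subst hq3
    have hp5 : p = 5 := by
      rcases hp with rfl | rfl
      · exact absurd rfl hqp
      · rfl
    subst hp5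
    exact Or.inl ⟨M / 3, hdvd, hlt, h2, h3 W hΔ hW hirr M hinv.2.1 h2M hqM hinv.2.2 hunr hres⟩

/-! ### Step 2b′ -/

section Step

variable (hB : s59g_MPbig) (h3 : s59g_MPthree) (h2 : s59g_MPtwo) (hIA : s59g_IAdiv)
  (p : ℕ) (hp : p = 3 ∨ p = 5) (W : WeierstrassCurve ℤ) (hΔ : W.Δ ≠ 0)
  (hW : W.IsSemistableModel) (hirr : W.ModRepIsIrreducible p)

include hB h3 hp hΔ hW hirr in
/-- phase A: at even levels, remove the odd unramified non-scalar primes. -/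
theorem s59g_phaseA :
    ∀ M : ℕ, s59g_Inv2 W p M → 2 ∣ M → W.IsResiduallyModularOfLevel p M →
      ∃ M' : ℕ, s59g_Inv2 W p M' ∧ 2 ∣ M' ∧
        (∀ q : ℕ, q.Prime → q ≠ p → q ≠ 2 → q ∣ M' → s59_Unr W p q → s59g_Scalar W p q) ∧
        W.IsResiduallyModularOfLevel p M' := by
  intro M
  induction M using Nat.strong_induction_on with
  | _ M ih =>
    intro hinv h2M hres
    by_cases hall : ∀ q : ℕ, q.Prime → q ≠ p → q ≠ 2 → q ∣ M → s59_Unr W p q →
        s59g_Scalar W p q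
    · exact ⟨M, hinv, h2M, hall, hres⟩
    · push Not at hall
      obtain ⟨q, hq, hqp, hq2, hqM, hunr, hns⟩ := hall
      rcases s59g_MPodd hB h3 p hp W hΔ hW hirr M q hinv h2M hq hqp hq2 hqM hunr hres with
        ⟨M', hd, hlt, h2M', hres'⟩ | h
      · exact ih M' hlt (s59g_Inv2_of_dvd hinv hd) h2M' hres'
      · exact absurd h hns

include hIA hp hΔ hW hirr in
/-- phase C: all unramified primes `q ≠ p` of the level are scalar: Ihara avoidance. -/
theorem s59g_phaseC :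
    ∀ M : ℕ, s59g_Inv2 W p M →
      (∀ q : ℕ, q.Prime → q ≠ p → q ∣ M → s59_Unr W p q → s59g_Scalar W p q) →
      W.IsResiduallyModularOfLevel p M →
      ∃ M' : ℕ, s59g_Inv2 W p M' ∧ (∀ q : ℕ, q.Prime → q ≠ p → q ∣ M' → ¬ s59_Unr W p q) ∧
        W.IsResiduallyModularOfLevel p M' := by
  classical
  intro M
  induction M using Nat.strong_induction_on with
  | _ M ih =>
    intro hinv hsc hres
    by_cases hall : ∀ q : ℕ, q.Prime → q ≠ p → q ∣ M → ¬ s59_Unr W p q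
    · exact ⟨M, hinv, hall, hres⟩
    · push Not at hall
      obtain ⟨q₀, hq₀, hq₀p, hq₀M, hunr₀⟩ := hall
      set Bd : Finset ℕ := M.primeFactors.filter (fun q => q ≠ p ∧ s59_Unr W p q) with hBd
      have hmem : ∀ q : ℕ, q ∈ Bd ↔ q.Prime ∧ q ∣ M ∧ q ≠ p ∧ s59_Unr W p q := by
        intro q
        rw [hBd, Finset.mem_filter, Nat.mem_primeFactors]
        constructor
        · rintro ⟨⟨h1, h2, -⟩, h3, h4⟩
          exact ⟨h1, h2, h3, h4⟩
        · rintro ⟨h1, h2, h3, h4⟩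
          exact ⟨⟨h1, h2, hinv.1.ne'⟩, h3, h4⟩
      obtain ⟨M', hd, hlt, hres'⟩ := hIA p hp W hΔ hW hirr M hinv Bd
        ⟨q₀, (hmem q₀).mpr ⟨hq₀, hq₀M, hq₀p, hunr₀⟩⟩
        (fun q hqB => by
          obtain ⟨hq, hqM, hqp, hunr⟩ := (hmem q).mp hqB
          exact ⟨hq, hqp, hqM, hunr, hsc q hq hqp hqM hunr⟩)
        (fun ℓ hℓ hℓp hℓM hℓB hunr => hℓB ((hmem ℓ).mpr ⟨hℓ, hℓM, hℓp, hunr⟩)) hres
      exact ih M' hlt (s59g_Inv2_of_dvd hinv hd)
        (fun q hq hqp hqM' hunr => hsc q hq hqp (hqM'.trans hd) hunr) hres'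

include hB h3 h2 hIA hp hΔ hW hirr in
/-- step 2b′ = phases A, B, C. -/
theorem s59g_lower2bE :
    ∀ M : ℕ, s59g_Inv2 W p M → W.IsResiduallyModularOfLevel p M →
      ∃ M' : ℕ, s59g_Inv2 W p M' ∧ (∀ q : ℕ, q.Prime → q ≠ p → q ∣ M' → ¬ s59_Unr W p q) ∧
        W.IsResiduallyModularOfLevel p M' := by
  intro M hinv hres
  have hp2 : p ≠ 2 := by rcases hp with rfl | rfl <;> norm_num
  -- raise `2` into the level
  obtain ⟨M₁, hinv₁, h2M₁, hres₁⟩ : ∃ M₁ : ℕ, s59g_Inv2 W p M₁ ∧ 2 ∣ M₁ ∧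
      W.IsResiduallyModularOfLevel p M₁ := by
    by_cases h2M : 2 ∣ M
    · exact ⟨M, hinv, h2M, hres⟩
    · refine ⟨M * 2, ⟨Nat.mul_pos hinv.1 two_pos, ?_, ?_⟩, dvd_mul_left 2 M,
        s59g_resmod_raise W p M 2 hinv.1.ne' Nat.prime_two h2M hres⟩
      · exact (Nat.squarefree_mul_iff).mpr
          ⟨(Nat.Prime.coprime_iff_not_dvd Nat.prime_two).mpr h2M |>.symm, hinv.2.1,
            Nat.prime_two.prime.squarefree⟩
      · intro hpM
        have hpp : p.Prime := by rcases hp with rfl | rfl <;> norm_num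
        rcases (Nat.Prime.dvd_mul hpp).mp hpM with h | h
        · exact hinv.2.2 h
        · exact absurd ((Nat.prime_dvd_prime_iff_eq hpp Nat.prime_two).mp h) hp2
  -- phase A
  obtain ⟨M₂, hinv₂, h2M₂, hsc₂, hres₂⟩ :=
    s59g_phaseA hB h3 p hp W hΔ hW hirr M₁ hinv₁ h2M₁ hres₁
  -- phase B
  obtain ⟨M₃, hinv₃, hsc₃, hres₃⟩ : ∃ M₃ : ℕ, s59g_Inv2 W p M₃ ∧
      (∀ q : ℕ, q.Prime → q ≠ p → q ∣ M₃ → s59_Unr W p q → s59g_Scalar W p q) ∧
      W.IsResiduallyModularOfLevel p M₃ := by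
    by_cases hunr2 : s59_Unr W p 2
    · obtain ⟨M', hd, h2M', hres'⟩ := h2 p hp W hΔ hW hirr M₂ hinv₂ h2M₂ hunr2 hsc₂ hres₂
      refine ⟨M', s59g_Inv2_of_dvd hinv₂ hd, fun q hq hqp hqM' hunr => ?_, hres'⟩
      have hq2 : q ≠ 2 := by
        rintro rfl
        exact h2M' hqM'
      exact hsc₂ q hq hqp hq2 (hqM'.trans hd) hunr
    · refine ⟨M₂, hinv₂, fun q hq hqp hqM hunr => ?_, hres₂⟩
      have hq2 : q ≠ 2 := by
        rintro rfl
        exact hunr2 hunr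
      exact hsc₂ q hq hqp hq2 hqM hunr
  -- phase C
  exact s59g_phaseC hIA p hp W hΔ hW hirr M₃ hinv₃ hsc₃ hres₃

end Step

/-- [LOWER_W] ⇐ [CAR_W] + [MP-big] + [MP-three] + [MP-two] + [IA-div] + [MRP_W], checked. -/
theorem s59g_LOWERW_of_E (hC : s59g_CARW) (hB : s59g_MPbig) (h3 : s59g_MPthree)
    (h2 : s59g_MPtwo) (hIA : s59g_IAdiv) (hP : s59g_MRPW) : s59g_LOWERW := by
  intro p hp W hΔ hW hirr M₀ hinv hres
  obtain ⟨M₁, h0, hsq, hres₁⟩ := s59g_lower1 hC p hp W hΔ hW hirr M₀ hinv hres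
  obtain ⟨M₂, hinv₂, hres₂⟩ : ∃ M₂ : ℕ, s59g_Inv2 W p M₂ ∧
      W.IsResiduallyModularOfLevel p M₂ := by
    by_cases hpg : p ∣ M₁ ∧ W.IsGoodPrimeFor p
    · obtain ⟨M', h0', hsq', hpM', hres'⟩ := hP p hp W hΔ hW hirr M₁ h0 hsq hpg.1 hpg.2 hres₁
      exact ⟨M', ⟨h0', hsq', fun h => absurd h hpM'⟩, hres'⟩
    · exact ⟨M₁, ⟨h0, hsq, fun h hg => hpg ⟨h, hg⟩⟩, hres₁⟩
  exact s59g_lower2bE hB h3 h2 hIA p hp W hΔ hW hirr M₂ hinv₂ hres₂

/-- **S59 from the nodes of v3.1** — the frozen statement, verbatim.  CHECKED. -/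
theorem s59g_S59_E (hC : s59g_CARW) (hB : s59g_MPbig) (h3 : s59g_MPthree) (h2 : s59g_MPtwo)
    (hIA : s59g_IAdiv) (hP : s59g_MRPW) (hT : s59g_LIFTW)
    (p : ℕ) (hp : p = 3 ∨ p = 5)
    (W : WeierstrassCurve ℤ) (hΔ : W.Δ ≠ 0) (hW : W.IsSemistableModel)
    (hirr : W.ModRepIsIrreducible p)
    (M₀ : ℕ) [NeZero M₀] (hres₀ : W.IsResiduallyModularOfLevel p M₀)
    (hM₀ : ¬ p ^ 2 ∣ M₀)
    (hM₀3 : ∀ q : ℕ, q.Prime → q ≠ p → ¬ q ^ 3 ∣ M₀) :
    Mlc1IsModularModelOfExactConductorLevel W := by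
  refine s59_of_R0 ?_ p hp W hΔ hW hirr M₀ hres₀ hM₀ hM₀3
  intro p hp W hΔ hW hirr M₀ _ hres hp2 h3'
  have hpp : p.Prime := by rcases hp with rfl | rfl <;> norm_num
  obtain ⟨M, hinv, hram, hresM⟩ := s59g_LOWERW_of_E hC hB h3 h2 hIA hP p hp W hΔ hW hirr M₀
    ⟨Nat.pos_of_ne_zero (NeZero.ne M₀), hp2, h3'⟩ hres
  exact s59g_modular_of_almost p hpp W hΔ (hT p hp W hΔ hW hirr M hinv hram hresM)

/-- [IA-div] from the rigid v2.3 node `s59_IA'`. -/
theorem s59g_IAdiv_of (h : s59_IA') : s59g_IAdiv := by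
  intro p hp W hΔ hW hirr M hinv Bd hne hBd _ hres
  have hpp : p.Prime := by rcases hp with rfl | rfl <;> norm_num
  have hp2 : p ≠ 2 := by rcases hp with rfl | rfl <;> norm_num
  obtain ⟨q, hqB⟩ := hne
  obtain ⟨hq, hqp, hqM, hunr, h1, hsc⟩ := hBd q hqB
  exact ⟨M / q, Nat.div_dvd_of_dvd hqM, Nat.div_lt_self hinv.1 hq.one_lt,
    h p hpp hp2 W hΔ hW hirr M q hinv.2.1 hq hqp hqM hunr h1 hsc hres⟩

end Fermat.Agent.Lib.S59

end
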