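/-
PROGRAMME (R2) = S59 — CONTRACT GRAPH v3.3 (helper1): **the nodes SPLIT BY `p`** (the states at `p = 5` and `p = 3` differ, and so
does the best ORDER of the phases of step 2 of [LOWER]).  NEW file, NEW names; imports `Graph3E.lean`; changes nothing there.

Every node is now a clause "at `p`" without the hypothesis `p = 3 ∨ p = 5`, in the RIGID shape its owners actually prove:

  `s59g_CARat p`      [CAR_W] at `p`                       (= the `s59g_CARW` clause)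
  `s59g_MRPat p`      [MRP_W] at `p`                       (= helper2's `s59b_MRPat p` shape; p = 5 ✓ `s59b_MRPat_five`)
  `s59g_MPbigAt p`    Mazur at `q ≥ 5`, EVEN level         (✓ both `p`: helper7's `s59n_MP_even`)
  `s59g_MPthree`      Mazur at `(5, 3)`, even level        (from `Graph3E.lean`)
  `s59g_MPtwoThree`   Mazur at `(3, 2)`                    hypotheses: every odd unramified prime `q ≠ 3` of the level is scalar
  `s59g_MPtwoFive`    Mazur at `(5, 2)`                    hypotheses: `ρ̄` RAMIFIED at every odd prime `q ≠ 5` of the level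
  `s59g_IAflatAt p`   [IA′-core]_W, `p ∤ M`, TOLERANT form (= helper4's `s59i_IAHypW` shape; p = 5 ✓ helper3 `s59u_IAdiv_flat` with `2 ∣ M`)
  `s59g_IAstrictAt p` [IA′-core]_W, `p ∣ M` (`W` multiplicative at `p`: [STRICT-p])
  `s59g_LIFTat p`     [LIFT_W] at `p`                      (⇐ [PATCH_W] + (X) ✓, `Graph3.lean` / `GX.lean`)

ORDER of step 2b (after `p` has been removed by [MRP_W] when `W` is good at `p`), the level being made EVEN first (free):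
  `p = 3`:  A (odd non-scalar primes, `s59g_MPbigAt 3`)  →  B (`q = 2`, `s59g_MPtwoThree`)  →  C (Ihara avoidance; `2` is NOT
            tolerated at `p = 3`, so it must be gone or ramified before)
  `p = 5`:  A (`s59g_MPbigAt 5` + `s59g_MPthree`)  →  C (Ihara avoidance at EVEN level: `2` is tolerated, and `2 ∣ M` is the
            `h23` of the T-side)  →  B (`q = 2`, `s59g_MPtwoFive`, LAST: every odd prime `≠ 5` of the level is ramified).

CHECKED: `s59g_S59_S` = the frozen S59 statement verbatim from the per-`p` nodes.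
-/
import Fermat.Agent.Lib.S59.Graph3E

set_option autoImplicit false

open CongruenceSubgroup ModularFormClass

noncomputable section

namespace Fermat.Agent.Lib.S59

/-- `ℓ` is TOLERATED at `p`: `ℓ² ≢ 1 mod p` (helper4's `s59i_IAHypW.hram`). -/
def s59g_Tol (p ℓ : ℕ) : Prop := ¬ p ∣ ℓ ^ 2 - 1

/-! ### The nodes at `p` -/

/-- **[CAR_W] at `p`.** -/
def s59g_CARat (p : ℕ) : Prop :=
  ∀ (W : WeierstrassCurve ℤ), W.Δ ≠ 0 → W.IsSemistableModel →
    W.ModRepIsIrreducible p → ∀ (M q : ℕ), s59g_Inv1 p M → q.Prime → q ≠ p → q ^ 2 ∣ M →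
    W.IsResiduallyModularOfLevel p M → s59g_Drop1 W p M

/-- **[MRP_W] at `p`** (rigid: level `M / p`). -/
def s59g_MRPat (p : ℕ) : Prop :=
  ∀ (W : WeierstrassCurve ℤ), W.Δ ≠ 0 → W.IsSemistableModel →
    W.ModRepIsIrreducible p → ∀ (M : ℕ), Squarefree M → p ∣ M → W.IsGoodPrimeFor p →
    W.IsResiduallyModularOfLevel p M → W.IsResiduallyModularOfLevel p (M / p)

/-- **[MP-big] at `p`**: Mazur's principle at `q ≥ 5`, even squarefree level. -/
def s59g_MPbigAt (p : ℕ) : Prop :=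
  ∀ (W : WeierstrassCurve ℤ), W.Δ ≠ 0 → W.IsSemistableModel →
    W.ModRepIsIrreducible p → ∀ (M q : ℕ), Squarefree M → 2 ∣ M → q.Prime → 5 ≤ q → q ≠ p →
    q ∣ M → s59_Unr W p q → W.IsResiduallyModularOfLevel p M →
    W.IsResiduallyModularOfLevel p (M / q) ∨ s59g_Scalar W p q

/-- Mazur's principle at the odd primes `q ≠ p`, even level, at `p`. -/
def s59g_MPoddAt (p : ℕ) : Prop :=
  ∀ (W : WeierstrassCurve ℤ), W.Δ ≠ 0 → W.IsSemistableModel →
    W.ModRepIsIrreducible p → ∀ (M q : ℕ), s59g_Inv2 W p M → 2 ∣ M → q.Prime → q ≠ p → q ≠ 2 →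
    q ∣ M → s59_Unr W p q → W.IsResiduallyModularOfLevel p M →
    W.IsResiduallyModularOfLevel p (M / q) ∨ s59g_Scalar W p q

/-- **[MP-two] at `p = 3`**: the level is even, `ρ̄` unramified at `2`, every odd prime `q ≠ 3` of
the level with `ρ̄` unramified at `q` is scalar (`q ≡ 1 mod 3`). -/
def s59g_MPtwoThree : Prop :=
  ∀ (W : WeierstrassCurve ℤ), W.Δ ≠ 0 → W.IsSemistableModel →
    W.ModRepIsIrreducible 3 → ∀ (M : ℕ), s59g_Inv2 W 3 M → 2 ∣ M → s59_Unr W 3 2 →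
    (∀ q : ℕ, q.Prime → q ≠ 3 → q ≠ 2 → q ∣ M → s59_Unr W 3 q → s59g_Scalar W 3 q) →
    W.IsResiduallyModularOfLevel 3 M → W.IsResiduallyModularOfLevel 3 (M / 2)

/-- **[MP-two] at `p = 5`**: the level is even, `ρ̄` unramified at `2`, and `ρ̄` is RAMIFIED at
every odd prime `q ≠ 5` of the level (in particular `3 ∤ M` or `ρ̄` is ramified at `3`). -/
def s59g_MPtwoFive : Prop :=
  ∀ (W : WeierstrassCurve ℤ), W.Δ ≠ 0 → W.IsSemistableModel →
    W.ModRepIsIrreducible 5 → ∀ (M : ℕ), s59g_Inv2 W 5 M → 2 ∣ M → s59_Unr W 5 2 →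
    (∀ q : ℕ, q.Prime → q ≠ 5 → q ≠ 2 → q ∣ M → ¬ s59_Unr W 5 q) →
    W.IsResiduallyModularOfLevel 5 M → W.IsResiduallyModularOfLevel 5 (M / 2)

/-- **[IA′-core]_W at `p`**, tolerant form: `Bd ≠ ∅` scalar primes of the level; every other prime
`ℓ ≠ p` of the level is a ramified prime of `ρ̄` or is tolerated; conclusion `∃ q ∈ Bd`, level
`M / q`.  `ev = true` adds the hypothesis `2 ∣ M`. -/
def s59g_IAat (p : ℕ) (ev : Bool) : Prop :=
  ∀ (W : WeierstrassCurve ℤ), W.Δ ≠ 0 → W.IsSemistableModel →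
    W.ModRepIsIrreducible p → ∀ (M : ℕ), s59g_Inv2 W p M → (ev = true → 2 ∣ M) →
    ∀ Bd : Finset ℕ, Bd.Nonempty →
    (∀ q ∈ Bd, q.Prime ∧ q ≠ p ∧ q ∣ M ∧ s59_Unr W p q ∧ s59g_Scalar W p q) →
    (∀ ℓ : ℕ, ℓ.Prime → ℓ ≠ p → ℓ ∣ M → ℓ ∉ Bd → ¬ s59_Unr W p ℓ ∨ s59g_Tol p ℓ) →
    W.IsResiduallyModularOfLevel p M → ∃ q ∈ Bd, W.IsResiduallyModularOfLevel p (M / q)

/-- **[IA′-core]_W at `p`, FLAT levels** (`p ∤ M`). -/
def s59g_IAflatAt (p : ℕ) (ev : Bool) : Prop :=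
  ∀ (W : WeierstrassCurve ℤ), W.Δ ≠ 0 → W.IsSemistableModel →
    W.ModRepIsIrreducible p → ∀ (M : ℕ), 0 < M → Squarefree M → ¬ p ∣ M → (ev = true → 2 ∣ M) →
    ∀ Bd : Finset ℕ, Bd.Nonempty →
    (∀ q ∈ Bd, q.Prime ∧ q ≠ p ∧ q ∣ M ∧ s59_Unr W p q ∧ s59g_Scalar W p q) →
    (∀ ℓ : ℕ, ℓ.Prime → ℓ ≠ p → ℓ ∣ M → ℓ ∉ Bd → ¬ s59_Unr W p ℓ ∨ s59g_Tol p ℓ) →
    W.IsResiduallyModularOfLevel p M → ∃ q ∈ Bd, W.IsResiduallyModularOfLevel p (M / q)

/-- **[IA′-core]_W at `p`, STRICT levels** (`p ∣ M`, `W` bad at `p`): [STRICT-p]. -/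
def s59g_IAstrictAt (p : ℕ) (ev : Bool) : Prop :=
  ∀ (W : WeierstrassCurve ℤ), W.Δ ≠ 0 → W.IsSemistableModel →
    W.ModRepIsIrreducible p → ∀ (M : ℕ), 0 < M → Squarefree M → p ∣ M → ¬ W.IsGoodPrimeFor p →
    (ev = true → 2 ∣ M) → ∀ Bd : Finset ℕ, Bd.Nonempty →
    (∀ q ∈ Bd, q.Prime ∧ q ≠ p ∧ q ∣ M ∧ s59_Unr W p q ∧ s59g_Scalar W p q) →
    (∀ ℓ : ℕ, ℓ.Prime → ℓ ≠ p → ℓ ∣ M → ℓ ∉ Bd → ¬ s59_Unr W p ℓ ∨ s59g_Tol p ℓ) →
    W.IsResiduallyModularOfLevel p M → ∃ q ∈ Bd, W.IsResiduallyModularOfLevel p (M / q)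

theorem s59g_IAat_of_flat_strict {p : ℕ} {ev : Bool} (hf : s59g_IAflatAt p ev)
    (hs : s59g_IAstrictAt p ev) : s59g_IAat p ev := by
  intro W hΔ hW hirr M hinv hev Bd hne hBd hram hres
  by_cases hpM : p ∣ M
  · exact hs W hΔ hW hirr M hinv.1 hinv.2.1 hpM (hinv.2.2 hpM) hev Bd hne hBd hram hres
  · exact hf W hΔ hW hirr M hinv.1 hinv.2.1 hpM hev Bd hne hBd hram hres

/-- **[LIFT_W] at `p`.** -/
def s59g_LIFTat (p : ℕ) : Prop :=
  ∀ (W : WeierstrassCurve ℤ), W.Δ ≠ 0 → W.IsSemistableModel →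
    W.ModRepIsIrreducible p → ∀ (M : ℕ), s59g_Inv2 W p M →
    (∀ q : ℕ, q.Prime → q ≠ p → q ∣ M → ¬ s59_Unr W p q) →
    W.IsResiduallyModularOfLevel p M → s59g_AlmostModular W p

/-! ### Elementary facts -/

theorem s59g_two_dvd_div {M q : ℕ} (h2M : 2 ∣ M) (hq : q.Prime) (hq2 : q ≠ 2) (hqM : q ∣ M) :
    2 ∣ M / q := by
  have h2' : 2 ∣ q * (M / q) := by rwa [Nat.mul_div_cancel' hqM]
  rcases (Nat.Prime.dvd_mul Nat.prime_two).mp h2' with h | h
  · exact absurd ((Nat.prime_dvd_prime_iff_eq Nat.prime_two hq).mp h).symm hq2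
  · exact h

/-- a scalar prime is odd (`p ∣ q − 1` with `p ≥ 2`). -/
theorem s59g_scalar_ne_two {W : WeierstrassCurve ℤ} {p q : ℕ} (hp : p.Prime)
    (h : s59g_Scalar W p q) : q ≠ 2 := by
  rintro rfl
  have h1 : p ∣ 1 := h.1
  exact hp.one_lt.ne' (Nat.dvd_one.mp h1)

/-- a scalar prime is not tolerated. -/
theorem s59g_not_tol_of_scalar {W : WeierstrassCurve ℤ} {p q : ℕ} (hq : q.Prime)
    (h : s59g_Scalar W p q) : ¬ s59g_Tol p q := by
  intro ht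
  apply ht
  have h1 : q ^ 2 - 1 = (q - 1) * (q + 1) := by
    have := hq.one_le
    obtain ⟨k, rfl⟩ : ∃ k, q = k + 1 := ⟨q - 1, by omega⟩
    simp only [Nat.add_sub_cancel]
    ring_nf
    omega
  rw [h1]
  exact h.1.mul_right _

/-- no prime `ℓ ≠ 3` is tolerated at `p = 3`. -/
theorem s59g_not_tol_three {ℓ : ℕ} (hℓ : ℓ.Prime) (hℓ3 : ℓ ≠ 3) : ¬ s59g_Tol 3 ℓ := by
  intro ht
  apply ht
  have h3 : ¬ 3 ∣ ℓ := fun h => hℓ3 ((Nat.prime_dvd_prime_iff_eq Nat.prime_three hℓ).mp h).symm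
  have hmod : ℓ % 3 = 1 ∨ ℓ % 3 = 2 := by omega
  have hsq : ℓ ^ 2 % 3 = 1 := by
    rw [Nat.pow_mod]
    rcases hmod with h | h <;> rw [h]
  have h1 : 1 ≤ ℓ ^ 2 := Nat.one_le_pow _ _ hℓ.pos
  omega

/-- `2` is tolerated at `p = 5`. -/
theorem s59g_tol_five_two : s59g_Tol 5 2 := by
  unfold s59g_Tol
  norm_num

/-! ### The phases, generic in `p` -/

section Phases

variable (p : ℕ) (hpp : p.Prime) (hp2 : p ≠ 2) (W : WeierstrassCurve ℤ) (hΔ : W.Δ ≠ 0)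
  (hW : W.IsSemistableModel) (hirr : W.ModRepIsIrreducible p)

include hpp hp2 in
/-- raising `2` into the level. -/
theorem s59g_raise_two (M : ℕ) (hinv : s59g_Inv2 W p M)
    (hres : W.IsResiduallyModularOfLevel p M) :
    ∃ M₁ : ℕ, s59g_Inv2 W p M₁ ∧ 2 ∣ M₁ ∧ W.IsResiduallyModularOfLevel p M₁ := by
  by_cases h2M : 2 ∣ M
  · exact ⟨M, hinv, h2M, hres⟩
  · refine ⟨M * 2, ⟨Nat.mul_pos hinv.1 two_pos, ?_, ?_⟩, dvd_mul_left 2 M,
      s59g_resmod_raise W p M 2 hinv.1.ne' Nat.prime_two h2M hres⟩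
    · exact (Nat.squarefree_mul_iff).mpr
        ⟨(Nat.Prime.coprime_iff_not_dvd Nat.prime_two).mpr h2M |>.symm, hinv.2.1,
          Nat.prime_two.prime.squarefree⟩
    · intro hpM
      rcases (Nat.Prime.dvd_mul hpp).mp hpM with h | h
      · exact hinv.2.2 h
      · exact absurd ((Nat.prime_dvd_prime_iff_eq hpp Nat.prime_two).mp h) hp2

include hΔ hW hirr in
/-- phase A: at even levels, remove the odd unramified non-scalar primes. -/
theorem s59g_phaseA' (hodd : s59g_MPoddAt p) :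
    ∀ M : ℕ, s59g_Inv2 W p M → 2 ∣ M → W.IsResiduallyModularOfLevel p M →
      ∃ M' : ℕ, s59g_Inv2 W p M' ∧ 2 ∣ M' ∧
        (∀ q : ℕ, q.Prime → q ≠ p → q ≠ 2 → q ∣ M' → s59_Unr W p q → s59g_Scalar W p q) ∧
        W.IsResiduallyModularOfLevel p M' := by
  intro M
  induction M using Nat.strong_induction_on with
  | _ M ih =>
    intro hinv h2M hres
    by_cases hall : ∀ q : ℕ, q.Prime → q ≠ p → q ≠ 2 → q ∣ M → s59_Unr W p q →
        s59g_Scalar W p q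
    · exact ⟨M, hinv, h2M, hall, hres⟩
    · push Not at hall
      obtain ⟨q, hq, hqp, hq2, hqM, hunr, hns⟩ := hall
      rcases hodd W hΔ hW hirr M q hinv h2M hq hqp hq2 hqM hunr hres with hres' | h
      · exact ih (M / q) (Nat.div_lt_self hinv.1 hq.one_lt)
          (s59g_Inv2_of_dvd hinv (Nat.div_dvd_of_dvd hqM)) (s59g_two_dvd_div h2M hq hq2 hqM) hres'
      · exact absurd h hns

include hpp hΔ hW hirr in
/-- phase C, tolerant: Ihara avoidance until every unramified prime `q ≠ p` of the level is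
tolerated (hence not scalar).  The parity of the level is preserved. -/
theorem s59g_phaseC' (ev : Bool) (hIA : s59g_IAat p ev) :
    ∀ M : ℕ, s59g_Inv2 W p M → (ev = true → 2 ∣ M) →
      (∀ q : ℕ, q.Prime → q ≠ p → q ∣ M → s59_Unr W p q → s59g_Scalar W p q ∨ s59g_Tol p q) →
      W.IsResiduallyModularOfLevel p M →
      ∃ M' : ℕ, M' ∣ M ∧ s59g_Inv2 W p M' ∧ (2 ∣ M → 2 ∣ M') ∧
        (∀ q : ℕ, q.Prime → q ≠ p → q ∣ M' → s59_Unr W p q → s59g_Tol p q) ∧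
        W.IsResiduallyModularOfLevel p M' := by
  classical
  intro M
  induction M using Nat.strong_induction_on with
  | _ M ih =>
    intro hinv hev hsc hres
    by_cases hall : ∀ q : ℕ, q.Prime → q ≠ p → q ∣ M → s59_Unr W p q → s59g_Tol p q
    · exact ⟨M, dvd_rfl, hinv, fun h => h, hall, hres⟩
    · push Not at hall
      obtain ⟨q₀, hq₀, hq₀p, hq₀M, hunr₀, hnt₀⟩ := hall
      set Bd : Finset ℕ :=
        M.primeFactors.filter (fun q => q ≠ p ∧ s59_Unr W p q ∧ s59g_Scalar W p q) with hBd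
      have hmem : ∀ q : ℕ, q ∈ Bd ↔
          q.Prime ∧ q ∣ M ∧ q ≠ p ∧ s59_Unr W p q ∧ s59g_Scalar W p q := by
        intro q
        rw [hBd, Finset.mem_filter, Nat.mem_primeFactors]
        constructor
        · rintro ⟨⟨h1, h2, -⟩, h3, h4, h5⟩
          exact ⟨h1, h2, h3, h4, h5⟩
        · rintro ⟨h1, h2, h3, h4, h5⟩
          exact ⟨⟨h1, h2, hinv.1.ne'⟩, h3, h4, h5⟩
      have hsc₀ : s59g_Scalar W p q₀ := by
        rcases hsc q₀ hq₀ hq₀p hq₀M hunr₀ with h | h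
        · exact h
        · exact absurd h hnt₀
      obtain ⟨q, hqB, hres'⟩ := hIA W hΔ hW hirr M hinv hev Bd
        ⟨q₀, (hmem q₀).mpr ⟨hq₀, hq₀M, hq₀p, hunr₀, hsc₀⟩⟩
        (fun q hqB => by
          obtain ⟨hq, hqM, hqp, hunr, hs⟩ := (hmem q).mp hqB
          exact ⟨hq, hqp, hqM, hunr, hs⟩)
        (fun ℓ hℓ hℓp hℓM hℓB => by
          by_cases hunr : s59_Unr W p ℓ
          · rcases hsc ℓ hℓ hℓp hℓM hunr with h | h
            · exact absurd ((hmem ℓ).mpr ⟨hℓ, hℓM, hℓp, hunr, h⟩) hℓB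
            · exact Or.inr h
          · exact Or.inl hunr) hres
      obtain ⟨hq, hqM, hqp, hunr, hs⟩ := (hmem q).mp hqB
      have hq2 : q ≠ 2 := s59g_scalar_ne_two hpp hs
      have hd : M / q ∣ M := Nat.div_dvd_of_dvd hqM
      obtain ⟨M', hd', hinv', h2', hall', hres''⟩ :=
        ih (M / q) (Nat.div_lt_self hinv.1 hq.one_lt) (s59g_Inv2_of_dvd hinv hd)
          (fun h => s59g_two_dvd_div (hev h) hq hq2 hqM)
          (fun q' hq' hq'p hq'M hunr' => hsc q' hq' hq'p (hq'M.trans hd) hunr') hres'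
      exact ⟨M', hd'.trans hd, hinv', fun h => h2' (s59g_two_dvd_div h hq hq2 hqM), hall', hres''⟩

end Phases

/-! ### Step 2b at `p = 3` and at `p = 5` -/

/-- the target of step 2b. -/
def s59g_Lowered (W : WeierstrassCurve ℤ) (p : ℕ) : Prop :=
  ∃ M' : ℕ, s59g_Inv2 W p M' ∧ (∀ q : ℕ, q.Prime → q ≠ p → q ∣ M' → ¬ s59_Unr W p q) ∧
    W.IsResiduallyModularOfLevel p M'

theorem s59g_MPoddAt_three (hB : s59g_MPbigAt 3) : s59g_MPoddAt 3 := by
  intro W hΔ hW hirr M q hinv h2M hq hqp hq2 hqM hunr hres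
  have h5q : 5 ≤ q := by
    have h2le := hq.two_le
    have h4 : q ≠ 4 := by
      rintro rfl
      exact absurd hq (by norm_num)
    omega
  exact hB W hΔ hW hirr M q hinv.2.1 h2M hq h5q hqp hqM hunr hres

theorem s59g_MPoddAt_five (hB : s59g_MPbigAt 5) (h3 : s59g_MPthree) : s59g_MPoddAt 5 := by
  intro W hΔ hW hirr M q hinv h2M hq hqp hq2 hqM hunr hres
  by_cases h5q : 5 ≤ q
  · exact hB W hΔ hW hirr M q hinv.2.1 h2M hq h5q hqp hqM hunr hres
  · have hq3 : q = 3 := by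
      have h2le := hq.two_le
      have h4 : q ≠ 4 := by
        rintro rfl
        exact absurd hq (by norm_num)
      omega
    subst hq3
    exact Or.inl (h3 W hΔ hW hirr M hinv.2.1 h2M hqM hinv.2.2 hunr hres)

/-- step 2b at `p = 3`: A → B → C. -/
theorem s59g_lower2b_three (hB : s59g_MPbigAt 3) (h2 : s59g_MPtwoThree) (hIA : s59g_IAat 3 false)
    (W : WeierstrassCurve ℤ) (hΔ : W.Δ ≠ 0) (hW : W.IsSemistableModel)
    (hirr : W.ModRepIsIrreducible 3) (M : ℕ) (hinv : s59g_Inv2 W 3 M)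
    (hres : W.IsResiduallyModularOfLevel 3 M) : s59g_Lowered W 3 := by
  obtain ⟨M₁, hinv₁, h2M₁, hres₁⟩ :=
    s59g_raise_two 3 Nat.prime_three (by norm_num) W M hinv hres
  obtain ⟨M₂, hinv₂, h2M₂, hsc₂, hres₂⟩ :=
    s59g_phaseA' 3 W hΔ hW hirr (s59g_MPoddAt_three hB) M₁ hinv₁ h2M₁ hres₁
  -- phase B
  obtain ⟨M₃, hinv₃, hsc₃, hres₃⟩ : ∃ M₃ : ℕ, s59g_Inv2 W 3 M₃ ∧
      (∀ q : ℕ, q.Prime → q ≠ 3 → q ∣ M₃ → s59_Unr W 3 q → s59g_Scalar W 3 q) ∧
      W.IsResiduallyModularOfLevel 3 M₃ := by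
    by_cases hunr2 : s59_Unr W 3 2
    · have hd : M₂ / 2 ∣ M₂ := Nat.div_dvd_of_dvd h2M₂
      refine ⟨M₂ / 2, s59g_Inv2_of_dvd hinv₂ hd, fun q hq hqp hqM' hunr => ?_,
        h2 W hΔ hW hirr M₂ hinv₂ h2M₂ hunr2 hsc₂ hres₂⟩
      have hq2 : q ≠ 2 := by
        rintro rfl
        obtain ⟨c, hc⟩ := hqM'
        have hM : M₂ = 2 * (2 * c) := by
          rw [← hc]
          exact (Nat.mul_div_cancel' h2M₂).symm
        have h22 : 2 * 2 ∣ M₂ := ⟨c, by rw [hM]; ring⟩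
        exact Nat.prime_two.one_lt.ne' (Nat.isUnit_iff.mp (hinv₂.2.1 2 h22))
      exact hsc₂ q hq hqp hq2 (hqM'.trans hd) hunr
    · refine ⟨M₂, hinv₂, fun q hq hqp hqM hunr => ?_, hres₂⟩
      have hq2 : q ≠ 2 := by
        rintro rfl
        exact hunr2 hunr
      exact hsc₂ q hq hqp hq2 hqM hunr
  -- phase C
  obtain ⟨M₄, -, hinv₄, -, hall₄, hres₄⟩ :=
    s59g_phaseC' 3 Nat.prime_three W hΔ hW hirr false hIA M₃ hinv₃ (fun h => by simp at h)
      (fun q hq hqp hqM hunr => Or.inl (hsc₃ q hq hqp hqM hunr)) hres₃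
  exact ⟨M₄, hinv₄, fun q hq hqp hqM hunr =>
    s59g_not_tol_three hq hqp (hall₄ q hq hqp hqM hunr), hres₄⟩

/-- step 2b at `p = 5`: A → C (even level, `2` tolerated) → B. -/
theorem s59g_lower2b_five (hB : s59g_MPbigAt 5) (h3 : s59g_MPthree) (h2 : s59g_MPtwoFive)
    (hIA : s59g_IAat 5 true)
    (W : WeierstrassCurve ℤ) (hΔ : W.Δ ≠ 0) (hW : W.IsSemistableModel)
    (hirr : W.ModRepIsIrreducible 5) (M : ℕ) (hinv : s59g_Inv2 W 5 M)
    (hres : W.IsResiduallyModularOfLevel 5 M) : s59g_Lowered W 5 := by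
  have hp5 : Nat.Prime 5 := by norm_num
  obtain ⟨M₁, hinv₁, h2M₁, hres₁⟩ := s59g_raise_two 5 hp5 (by norm_num) W M hinv hres
  obtain ⟨M₂, hinv₂, h2M₂, hsc₂, hres₂⟩ :=
    s59g_phaseA' 5 W hΔ hW hirr (s59g_MPoddAt_five hB h3) M₁ hinv₁ h2M₁ hres₁
  -- phase C at even level
  obtain ⟨M₃, hd₃, hinv₃, h2M₃, hall₃, hres₃⟩ :=
    s59g_phaseC' 5 hp5 W hΔ hW hirr true hIA M₂ hinv₂ (fun _ => h2M₂)
      (fun q hq hqp hqM hunr => by
        by_cases hq2 : q = 2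
        · subst hq2
          exact Or.inr s59g_tol_five_two
        · exact Or.inl (hsc₂ q hq hqp hq2 hqM hunr)) hres₂
  -- now every odd prime `≠ 5` of the level is ramified
  have hodd₃ : ∀ q : ℕ, q.Prime → q ≠ 5 → q ≠ 2 → q ∣ M₃ → ¬ s59_Unr W 5 q := by
    intro q hq hqp hq2 hqM hunr
    exact s59g_not_tol_of_scalar hq (hsc₂ q hq hqp hq2 (hqM.trans hd₃) hunr)
      (hall₃ q hq hqp hqM hunr)
  have h2M₃' : 2 ∣ M₃ := h2M₃ h2M₂
  -- phase B
  by_cases hunr2 : s59_Unr W 5 2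
  · have hd : M₃ / 2 ∣ M₃ := Nat.div_dvd_of_dvd h2M₃'
    refine ⟨M₃ / 2, s59g_Inv2_of_dvd hinv₃ hd, fun q hq hqp hqM' => ?_,
      h2 W hΔ hW hirr M₃ hinv₃ h2M₃' hunr2 hodd₃ hres₃⟩
    have hq2 : q ≠ 2 := by
      rintro rfl
      obtain ⟨c, hc⟩ := hqM'
      have hM : M₃ = 2 * (2 * c) := by
        rw [← hc]
        exact (Nat.mul_div_cancel' h2M₃').symm
      have h22 : 2 * 2 ∣ M₃ := ⟨c, by rw [hM]; ring⟩
      exact Nat.prime_two.one_lt.ne' (Nat.isUnit_iff.mp (hinv₃.2.1 2 h22))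
    exact hodd₃ q hq hqp hq2 (hqM'.trans hd)
  · refine ⟨M₃, hinv₃, fun q hq hqp hqM => ?_, hres₃⟩
    by_cases hq2 : q = 2
    · subst hq2
      exact hunr2
    · exact hodd₃ q hq hqp hq2 hqM

/-! ### The top -/

/-- the per-`p` package of nodes. -/
structure s59g_NodesThree : Prop where
  car : s59g_CARat 3
  mrp : s59g_MRPat 3
  mpBig : s59g_MPbigAt 3
  mpTwo : s59g_MPtwoThree
  iaFlat : s59g_IAflatAt 3 false
  iaStrict : s59g_IAstrictAt 3 false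
  lift : s59g_LIFTat 3

structure s59g_NodesFive : Prop where
  car : s59g_CARat 5
  mrp : s59g_MRPat 5
  mpBig : s59g_MPbigAt 5
  mpThree : s59g_MPthree
  mpTwo : s59g_MPtwoFive
  iaFlat : s59g_IAflatAt 5 true
  iaStrict : s59g_IAstrictAt 5 true
  lift : s59g_LIFTat 5

/-- steps 1, 2a at `p` (generic), then a given step 2b, then [LIFT] and stabilisation. -/
theorem s59g_R0_at (p : ℕ) (hp : p = 3 ∨ p = 5) (hC : s59g_CARat p) (hP : s59g_MRPat p)
    (hT : s59g_LIFTat p)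
    (h2b : ∀ (W : WeierstrassCurve ℤ), W.Δ ≠ 0 → W.IsSemistableModel →
      W.ModRepIsIrreducible p → ∀ M : ℕ, s59g_Inv2 W p M →
      W.IsResiduallyModularOfLevel p M → s59g_Lowered W p)
    (W : WeierstrassCurve ℤ) (hΔ : W.Δ ≠ 0) (hW : W.IsSemistableModel)
    (hirr : W.ModRepIsIrreducible p) (M₀ : ℕ) (hinv : s59g_Inv1 p M₀)
    (hres : W.IsResiduallyModularOfLevel p M₀) :
    ∃ N : ℕ, ¬ p ^ 2 ∣ N ∧ W.IsModularModelOfLevel N ∧
      (∀ ℓ : ℕ, ℓ.Prime → (ℓ : ℤ) ∣ W.Δ → ℓ ∣ N) ∧ ∀ q : ℕ, q.Prime → ¬ q ^ 3 ∣ N := by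
  have hpp : p.Prime := by rcases hp with rfl | rfl <;> norm_num
  -- step 1
  obtain ⟨M₁, h0, hsq, hres₁⟩ : ∃ M' : ℕ, 0 < M' ∧ Squarefree M' ∧
      W.IsResiduallyModularOfLevel p M' := by
    revert hinv hres
    induction M₀ using Nat.strong_induction_on with
    | _ M ih =>
      intro hinv hres
      by_cases hsq : Squarefree M
      · exact ⟨M, hinv.1, hsq, hres⟩
      · rw [Nat.squarefree_iff_prime_squarefree] at hsq
        push Not at hsq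
        obtain ⟨q, hq, hqq⟩ := hsq
        have hq2 : q ^ 2 ∣ M := by rwa [pow_two]
        have hqp : q ≠ p := by
          rintro rfl
          exact hinv.2.1 hq2
        obtain ⟨M', hlt, hinv', hres'⟩ := hC W hΔ hW hirr M q hinv hq hqp hq2 hres
        exact ih M' hlt hinv' hres'
  -- step 2a
  obtain ⟨M₂, hinv₂, hres₂⟩ : ∃ M₂ : ℕ, s59g_Inv2 W p M₂ ∧
      W.IsResiduallyModularOfLevel p M₂ := by
    by_cases hpg : p ∣ M₁ ∧ W.IsGoodPrimeFor p
    · have hd : M₁ / p ∣ M₁ := Nat.div_dvd_of_dvd hpg.1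
      refine ⟨M₁ / p, ⟨Nat.pos_of_dvd_of_pos hd h0, hsq.squarefree_of_dvd hd, fun h => ?_⟩,
        hP W hΔ hW hirr M₁ hsq hpg.1 hpg.2 hres₁⟩
      obtain ⟨c, hc⟩ := h
      have hM : M₁ = p * (p * c) := by
        rw [← hc]
        exact (Nat.mul_div_cancel' hpg.1).symm
      have hpp2 : p * p ∣ M₁ := ⟨c, by rw [hM]; ring⟩
      exact absurd (Nat.isUnit_iff.mp (hsq p hpp2)) hpp.one_lt.ne'
    · exact ⟨M₁, ⟨h0, hsq, fun h hg => hpg ⟨h, hg⟩⟩, hres₁⟩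
  -- step 2b, [LIFT], stabilisation
  obtain ⟨M, hinvM, hram, hresM⟩ := h2b W hΔ hW hirr M₂ hinv₂ hres₂
  exact s59g_modular_of_almost p hpp W hΔ (hT W hΔ hW hirr M hinvM hram hresM)

/-- **S59 from the per-`p` nodes** — the frozen statement, verbatim.  CHECKED. -/
theorem s59g_S59_S (h3 : s59g_NodesThree) (h5 : s59g_NodesFive)
    (p : ℕ) (hp : p = 3 ∨ p = 5)
    (W : WeierstrassCurve ℤ) (hΔ : W.Δ ≠ 0) (hW : W.IsSemistableModel)
    (hirr : W.ModRepIsIrreducible p)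
    (M₀ : ℕ) [NeZero M₀] (hres₀ : W.IsResiduallyModularOfLevel p M₀)
    (hM₀ : ¬ p ^ 2 ∣ M₀)
    (hM₀3 : ∀ q : ℕ, q.Prime → q ≠ p → ¬ q ^ 3 ∣ M₀) :
    Mlc1IsModularModelOfExactConductorLevel W := by
  refine s59_of_R0 ?_ p hp W hΔ hW hirr M₀ hres₀ hM₀ hM₀3
  intro p hp W hΔ hW hirr M₀ _ hres hp2 h3'
  have hinv : s59g_Inv1 p M₀ := ⟨Nat.pos_of_ne_zero (NeZero.ne M₀), hp2, h3'⟩
  rcases hp with rfl | rfl
  · exact s59g_R0_at 3 (Or.inl rfl) h3.car h3.mrp h3.lift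
      (fun W hΔ hW hirr M hinv hres => s59g_lower2b_three h3.mpBig h3.mpTwo
        (s59g_IAat_of_flat_strict h3.iaFlat h3.iaStrict) W hΔ hW hirr M hinv hres)
      W hΔ hW hirr M₀ hinv hres
  · exact s59g_R0_at 5 (Or.inr rfl) h5.car h5.mrp h5.lift
      (fun W hΔ hW hirr M hinv hres => s59g_lower2b_five h5.mpBig h5.mpThree h5.mpTwo
        (s59g_IAat_of_flat_strict h5.iaFlat h5.iaStrict) W hΔ hW hirr M hinv hres)
      W hΔ hW hirr M₀ hinv hres

end Fermat.Agent.Lib.S59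

end
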