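/-
PROGRAMME (R2) = S59 — CONTRACT GRAPH v3.4 (helper1): **the PEU/TRÈS invariant at `p`** (helper6's #3659 §3, §5).
NEW file, NEW names (suffix `T`); imports `Graph3S.lean`; SUPERSEDES its top theorem `s59g_S59_S`, changes nothing there.

`s59g_Peu W p` := the Prelude's `(W.map (Int.castRingHom ℚ)).IsPeuRamifieeAt p p` (`p ∣ v_p(Δ_W)`; the hypothesis of frozen S39).
`W` good at `p` ⇒ peu (`s59g_peu_of_good`).  Step 2a now removes `p` from the level whenever `ρ̄` is PEU ramifié at `p`: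
  `W` good at `p`               : `s59g_MRPat p`       (p = 5 ✓ helper2 `s59b_MRPat_five`)
  `W` multiplicative, peu       : `s59g_MRPmultAt p`   (helper6 `s59q_MRP_mult`: S44's `p ∣ abc` argument for general `W`)
so that afterwards  **`p ∣ M → ρ̄ is TRÈS ramifié at `p`** (`s59g_Inv2T`), and this invariant is handed to
  `s59g_IAstrictTAt p`  ([IA′-core]_W at `p ∣ M`: only the très case is left = helper6's CHEAP half (T1)–(T3)),
  `s59g_LIFTTat p`      ([LIFT_W]: `p ∣ M → très`; the case "`W` multiplicative and peu, `p ∤ M`" is (RAISE-p) inside [PATCH-FLR]).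
All other nodes are those of `Graph3S.lean`, verbatim.

CHECKED: `s59g_S59_T : s59g_NodesThreeT → s59g_NodesFiveT → <frozen S59 verbatim>`.
-/
import Fermat.Agent.Lib.S59.Graph3S
import Fermat.Prelude.Def_WeierstrassCurve_PeuRamifiee

set_option autoImplicit false

open CongruenceSubgroup ModularFormClass

noncomputable section

namespace Fermat.Agent.Lib.S59

/-- `ρ̄ = W[p]` is peu ramifié at `p` (the Prelude's predicate of frozen S39): `p ∣ v_p(Δ_W)`. -/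
def s59g_Peu (W : WeierstrassCurve ℤ) (p : ℕ) : Prop :=
  (W.map (Int.castRingHom ℚ)).IsPeuRamifieeAt p p

/-- good reduction at `p` ⇒ peu ramifié. -/
theorem s59g_peu_of_good (W : WeierstrassCurve ℤ) (p : ℕ) (hgood : W.IsGoodPrimeFor p) :
    s59g_Peu W p := by
  unfold s59g_Peu WeierstrassCurve.IsPeuRamifieeAt
  rw [WeierstrassCurve.map_Δ]
  have h1 : padicValRat p ((Int.castRingHom ℚ) W.Δ) = padicValInt p W.Δ := by
    rw [eq_intCast]
    exact padicValRat.of_int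
  rw [h1, padicValInt.eq_zero_of_not_dvd hgood]
  exact dvd_zero _

/-- the invariant of step 2b and of [LIFT]: `p` divides the level only if `ρ̄` is très ramifié. -/
def s59g_Inv2T (W : WeierstrassCurve ℤ) (p M : ℕ) : Prop :=
  0 < M ∧ Squarefree M ∧ (p ∣ M → ¬ s59g_Peu W p)

theorem s59g_Inv2_of_T {W : WeierstrassCurve ℤ} {p M : ℕ} (h : s59g_Inv2T W p M) :
    s59g_Inv2 W p M :=
  ⟨h.1, h.2.1, fun hpM hgood => h.2.2 hpM (s59g_peu_of_good W p hgood)⟩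

theorem s59g_Inv2T_of_dvd {W : WeierstrassCurve ℤ} {p M M' : ℕ} (hinv : s59g_Inv2T W p M)
    (hd : M' ∣ M) : s59g_Inv2T W p M' :=
  ⟨Nat.pos_of_dvd_of_pos hd hinv.1, hinv.2.1.squarefree_of_dvd hd, fun h => hinv.2.2 (h.trans hd)⟩

/-! ### The new nodes -/

/-- **[MRP-mult] at `p`** (helper6): Mazur–Ribet at `p` for `W` multiplicative at `p` with `ρ̄`
peu ramifié (`p ∣ v_p(Δ_W)`); with `s59g_MRPat p` this is frozen S39's shape for semistable `W`. -/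
def s59g_MRPmultAt (p : ℕ) : Prop :=
  ∀ (W : WeierstrassCurve ℤ), W.Δ ≠ 0 → W.IsSemistableModel →
    W.ModRepIsIrreducible p → ∀ (M : ℕ), Squarefree M → p ∣ M → ¬ W.IsGoodPrimeFor p →
    s59g_Peu W p → W.IsResiduallyModularOfLevel p M → W.IsResiduallyModularOfLevel p (M / p)

/-- **[IA′-core]_W at `p`, STRICT levels, très ramifié** (`p ∣ M`, `p ∤ v_p(Δ_W)`). -/
def s59g_IAstrictTAt (p : ℕ) (ev : Bool) : Prop :=
  ∀ (W : WeierstrassCurve ℤ), W.Δ ≠ 0 → W.IsSemistableModel →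
    W.ModRepIsIrreducible p → ∀ (M : ℕ), 0 < M → Squarefree M → p ∣ M → ¬ s59g_Peu W p →
    (ev = true → 2 ∣ M) → ∀ Bd : Finset ℕ, Bd.Nonempty →
    (∀ q ∈ Bd, q.Prime ∧ q ≠ p ∧ q ∣ M ∧ s59_Unr W p q ∧ s59g_Scalar W p q) →
    (∀ ℓ : ℕ, ℓ.Prime → ℓ ≠ p → ℓ ∣ M → ℓ ∉ Bd → ¬ s59_Unr W p ℓ ∨ s59g_Tol p ℓ) →
    W.IsResiduallyModularOfLevel p M → ∃ q ∈ Bd, W.IsResiduallyModularOfLevel p (M / q)

/-- **[LIFT_W] at `p`** with the invariant `p ∣ M → très`. -/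
def s59g_LIFTTat (p : ℕ) : Prop :=
  ∀ (W : WeierstrassCurve ℤ), W.Δ ≠ 0 → W.IsSemistableModel →
    W.ModRepIsIrreducible p → ∀ (M : ℕ), s59g_Inv2T W p M →
    (∀ q : ℕ, q.Prime → q ≠ p → q ∣ M → ¬ s59_Unr W p q) →
    W.IsResiduallyModularOfLevel p M → s59g_AlmostModular W p

/-- the [IA′-core] clause for ONE curve `W`, with the invariant. -/
def s59g_IAatW (p : ℕ) (ev : Bool) (W : WeierstrassCurve ℤ) : Prop :=
  ∀ (M : ℕ), s59g_Inv2T W p M → (ev = true → 2 ∣ M) →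
    ∀ Bd : Finset ℕ, Bd.Nonempty →
    (∀ q ∈ Bd, q.Prime ∧ q ≠ p ∧ q ∣ M ∧ s59_Unr W p q ∧ s59g_Scalar W p q) →
    (∀ ℓ : ℕ, ℓ.Prime → ℓ ≠ p → ℓ ∣ M → ℓ ∉ Bd → ¬ s59_Unr W p ℓ ∨ s59g_Tol p ℓ) →
    W.IsResiduallyModularOfLevel p M → ∃ q ∈ Bd, W.IsResiduallyModularOfLevel p (M / q)

theorem s59g_IAatW_of {p : ℕ} {ev : Bool} (hf : s59g_IAflatAt p ev) (hs : s59g_IAstrictTAt p ev)
    (W : WeierstrassCurve ℤ) (hΔ : W.Δ ≠ 0) (hW : W.IsSemistableModel)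
    (hirr : W.ModRepIsIrreducible p) : s59g_IAatW p ev W := by
  intro M hinv hev Bd hne hBd hram hres
  by_cases hpM : p ∣ M
  · exact hs W hΔ hW hirr M hinv.1 hinv.2.1 hpM (hinv.2.2 hpM) hev Bd hne hBd hram hres
  · exact hf W hΔ hW hirr M hinv.1 hinv.2.1 hpM hev Bd hne hBd hram hres

/-! ### The phases with the invariant -/

section PhasesT

variable (p : ℕ) (hpp : p.Prime) (hp2 : p ≠ 2) (W : WeierstrassCurve ℤ) (hΔ : W.Δ ≠ 0)
  (hW : W.IsSemistableModel) (hirr : W.ModRepIsIrreducible p)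

include hpp hp2 in
theorem s59g_raise_twoT (M : ℕ) (hinv : s59g_Inv2T W p M)
    (hres : W.IsResiduallyModularOfLevel p M) :
    ∃ M₁ : ℕ, s59g_Inv2T W p M₁ ∧ 2 ∣ M₁ ∧ W.IsResiduallyModularOfLevel p M₁ := by
  by_cases h2M : 2 ∣ M
  · exact ⟨M, hinv, h2M, hres⟩
  · refine ⟨M * 2, ⟨Nat.mul_pos hinv.1 two_pos, ?_, ?_⟩, dvd_mul_left 2 M,
      s59g_resmod_raise W p M 2 hinv.1.ne' Nat.prime_two h2M hres⟩
    · exact (Nat.squarefree_mul_iff).mpr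
        ⟨(Nat.Prime.coprime_iff_not_dvd Nat.prime_two).mpr h2M |>.symm, hinv.2.1,
          Nat.prime_two.prime.squarefree⟩
    · intro hpM
      rcases (Nat.Prime.dvd_mul hpp).mp hpM with h | h
      · exact hinv.2.2 h
      · exact absurd ((Nat.prime_dvd_prime_iff_eq hpp Nat.prime_two).mp h) hp2

include hΔ hW hirr in
theorem s59g_phaseAT (hodd : s59g_MPoddAt p) :
    ∀ M : ℕ, s59g_Inv2T W p M → 2 ∣ M → W.IsResiduallyModularOfLevel p M →
      ∃ M' : ℕ, s59g_Inv2T W p M' ∧ 2 ∣ M' ∧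
        (∀ q : ℕ, q.Prime → q ≠ p → q ≠ 2 → q ∣ M' → s59_Unr W p q → s59g_Scalar W p q) ∧
        W.IsResiduallyModularOfLevel p M' := by
  intro M
  induction M using Nat.strong_induction_on with
  | _ M ih =>
    intro hinv h2M hres
    by_cases hall : ∀ q : ℕ, q.Prime → q ≠ p → q ≠ 2 → q ∣ M → s59_Unr W p q →
        s59g_Scalar W p q
    · exact ⟨M, hinv, h2M, hall, hres⟩
    · push Not at hall
      obtain ⟨q, hq, hqp, hq2, hqM, hunr, hns⟩ := hall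
      rcases hodd W hΔ hW hirr M q (s59g_Inv2_of_T hinv) h2M hq hqp hq2 hqM hunr hres with
        hres' | h
      · exact ih (M / q) (Nat.div_lt_self hinv.1 hq.one_lt)
          (s59g_Inv2T_of_dvd hinv (Nat.div_dvd_of_dvd hqM)) (s59g_two_dvd_div h2M hq hq2 hqM) hres'
      · exact absurd h hns

include hpp in
theorem s59g_phaseCT (ev : Bool) (hIA : s59g_IAatW p ev W) :
    ∀ M : ℕ, s59g_Inv2T W p M → (ev = true → 2 ∣ M) →
      (∀ q : ℕ, q.Prime → q ≠ p → q ∣ M → s59_Unr W p q → s59g_Scalar W p q ∨ s59g_Tol p q) →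
      W.IsResiduallyModularOfLevel p M →
      ∃ M' : ℕ, M' ∣ M ∧ s59g_Inv2T W p M' ∧ (2 ∣ M → 2 ∣ M') ∧
        (∀ q : ℕ, q.Prime → q ≠ p → q ∣ M' → s59_Unr W p q → s59g_Tol p q) ∧
        W.IsResiduallyModularOfLevel p M' := by
  classical
  intro M
  induction M using Nat.strong_induction_on with
  | _ M ih =>
    intro hinv hev hsc hres
    by_cases hall : ∀ q : ℕ, q.Prime → q ≠ p → q ∣ M → s59_Unr W p q → s59g_Tol p q
    · exact ⟨M, dvd_rfl, hinv, fun h => h, hall, hres⟩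
    · push Not at hall
      obtain ⟨q₀, hq₀, hq₀p, hq₀M, hunr₀, hnt₀⟩ := hall
      set Bd : Finset ℕ :=
        M.primeFactors.filter (fun q => q ≠ p ∧ s59_Unr W p q ∧ s59g_Scalar W p q) with hBd
      have hmem : ∀ q : ℕ, q ∈ Bd ↔
          q.Prime ∧ q ∣ M ∧ q ≠ p ∧ s59_Unr W p q ∧ s59g_Scalar W p q := by
        intro q
        rw [hBd, Finset.mem_filter, Nat.mem_primeFactors]
        constructor
        · rintro ⟨⟨h1, h2, -⟩, h3, h4, h5⟩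
          exact ⟨h1, h2, h3, h4, h5⟩
        · rintro ⟨h1, h2, h3, h4, h5⟩
          exact ⟨⟨h1, h2, hinv.1.ne'⟩, h3, h4, h5⟩
      have hsc₀ : s59g_Scalar W p q₀ := by
        rcases hsc q₀ hq₀ hq₀p hq₀M hunr₀ with h | h
        · exact h
        · exact absurd h hnt₀
      obtain ⟨q, hqB, hres'⟩ := hIA M hinv hev Bd
        ⟨q₀, (hmem q₀).mpr ⟨hq₀, hq₀M, hq₀p, hunr₀, hsc₀⟩⟩
        (fun q hqB => by
          obtain ⟨hq, hqM, hqp, hunr, hs⟩ := (hmem q).mp hqB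
          exact ⟨hq, hqp, hqM, hunr, hs⟩)
        (fun ℓ hℓ hℓp hℓM hℓB => by
          by_cases hunr : s59_Unr W p ℓ
          · rcases hsc ℓ hℓ hℓp hℓM hunr with h | h
            · exact absurd ((hmem ℓ).mpr ⟨hℓ, hℓM, hℓp, hunr, h⟩) hℓB
            · exact Or.inr h
          · exact Or.inl hunr) hres
      obtain ⟨hq, hqM, hqp, hunr, hs⟩ := (hmem q).mp hqB
      have hq2 : q ≠ 2 := s59g_scalar_ne_two hpp hs
      have hd : M / q ∣ M := Nat.div_dvd_of_dvd hqM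
      obtain ⟨M', hd', hinv', h2', hall', hres''⟩ :=
        ih (M / q) (Nat.div_lt_self hinv.1 hq.one_lt) (s59g_Inv2T_of_dvd hinv hd)
          (fun h => s59g_two_dvd_div (hev h) hq hq2 hqM)
          (fun q' hq' hq'p hq'M hunr' => hsc q' hq' hq'p (hq'M.trans hd) hunr') hres'
      exact ⟨M', hd'.trans hd, hinv', fun h => h2' (s59g_two_dvd_div h hq hq2 hqM), hall', hres''⟩

end PhasesT

/-- the target of step 2b, with the invariant. -/
def s59g_LoweredT (W : WeierstrassCurve ℤ) (p : ℕ) : Prop :=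
  ∃ M' : ℕ, s59g_Inv2T W p M' ∧ (∀ q : ℕ, q.Prime → q ≠ p → q ∣ M' → ¬ s59_Unr W p q) ∧
    W.IsResiduallyModularOfLevel p M'

theorem s59g_not_four_dvd_of_squarefree {M c : ℕ} (hsq : Squarefree M) (h2M : 2 ∣ M)
    (hc : M / 2 = 2 * c) : False := by
  have hM : M = 2 * (2 * c) := by
    rw [← hc]
    exact (Nat.mul_div_cancel' h2M).symm
  have h22 : 2 * 2 ∣ M := ⟨c, by rw [hM]; ring⟩
  exact Nat.prime_two.one_lt.ne' (Nat.isUnit_iff.mp (hsq 2 h22))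

/-- step 2b at `p = 3`: A → B → C. -/
theorem s59g_lower2b_threeT (hB : s59g_MPbigAt 3) (h2 : s59g_MPtwoThree)
    (W : WeierstrassCurve ℤ) (hΔ : W.Δ ≠ 0) (hW : W.IsSemistableModel)
    (hirr : W.ModRepIsIrreducible 3) (hIA : s59g_IAatW 3 false W) (M : ℕ)
    (hinv : s59g_Inv2T W 3 M) (hres : W.IsResiduallyModularOfLevel 3 M) : s59g_LoweredT W 3 := by
  obtain ⟨M₁, hinv₁, h2M₁, hres₁⟩ :=
    s59g_raise_twoT 3 Nat.prime_three (by norm_num) W M hinv hres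
  obtain ⟨M₂, hinv₂, h2M₂, hsc₂, hres₂⟩ :=
    s59g_phaseAT 3 W hΔ hW hirr (s59g_MPoddAt_three hB) M₁ hinv₁ h2M₁ hres₁
  obtain ⟨M₃, hinv₃, hsc₃, hres₃⟩ : ∃ M₃ : ℕ, s59g_Inv2T W 3 M₃ ∧
      (∀ q : ℕ, q.Prime → q ≠ 3 → q ∣ M₃ → s59_Unr W 3 q → s59g_Scalar W 3 q) ∧
      W.IsResiduallyModularOfLevel 3 M₃ := by
    by_cases hunr2 : s59_Unr W 3 2
    · have hd : M₂ / 2 ∣ M₂ := Nat.div_dvd_of_dvd h2M₂
      refine ⟨M₂ / 2, s59g_Inv2T_of_dvd hinv₂ hd, fun q hq hqp hqM' hunr => ?_,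
        h2 W hΔ hW hirr M₂ (s59g_Inv2_of_T hinv₂) h2M₂ hunr2 hsc₂ hres₂⟩
      have hq2 : q ≠ 2 := by
        rintro rfl
        obtain ⟨c, hc⟩ := hqM'
        exact s59g_not_four_dvd_of_squarefree hinv₂.2.1 h2M₂ hc
      exact hsc₂ q hq hqp hq2 (hqM'.trans hd) hunr
    · refine ⟨M₂, hinv₂, fun q hq hqp hqM hunr => ?_, hres₂⟩
      have hq2 : q ≠ 2 := by
        rintro rfl
        exact hunr2 hunr
      exact hsc₂ q hq hqp hq2 hqM hunr
  obtain ⟨M₄, -, hinv₄, -, hall₄, hres₄⟩ :=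
    s59g_phaseCT 3 Nat.prime_three W false hIA M₃ hinv₃ (fun h => by simp at h)
      (fun q hq hqp hqM hunr => Or.inl (hsc₃ q hq hqp hqM hunr)) hres₃
  exact ⟨M₄, hinv₄, fun q hq hqp hqM hunr =>
    s59g_not_tol_three hq hqp (hall₄ q hq hqp hqM hunr), hres₄⟩

/-- step 2b at `p = 5`: A → C (even level, `2` tolerated) → B. -/
theorem s59g_lower2b_fiveT (hB : s59g_MPbigAt 5) (h3 : s59g_MPthree) (h2 : s59g_MPtwoFive)
    (W : WeierstrassCurve ℤ) (hΔ : W.Δ ≠ 0) (hW : W.IsSemistableModel)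
    (hirr : W.ModRepIsIrreducible 5) (hIA : s59g_IAatW 5 true W) (M : ℕ)
    (hinv : s59g_Inv2T W 5 M) (hres : W.IsResiduallyModularOfLevel 5 M) : s59g_LoweredT W 5 := by
  have hp5 : Nat.Prime 5 := by norm_num
  obtain ⟨M₁, hinv₁, h2M₁, hres₁⟩ := s59g_raise_twoT 5 hp5 (by norm_num) W M hinv hres
  obtain ⟨M₂, hinv₂, h2M₂, hsc₂, hres₂⟩ :=
    s59g_phaseAT 5 W hΔ hW hirr (s59g_MPoddAt_five hB h3) M₁ hinv₁ h2M₁ hres₁
  obtain ⟨M₃, hd₃, hinv₃, h2M₃, hall₃, hres₃⟩ :=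
    s59g_phaseCT 5 hp5 W true hIA M₂ hinv₂ (fun _ => h2M₂)
      (fun q hq hqp hqM hunr => by
        by_cases hq2 : q = 2
        · subst hq2
          exact Or.inr s59g_tol_five_two
        · exact Or.inl (hsc₂ q hq hqp hq2 hqM hunr)) hres₂
  have hodd₃ : ∀ q : ℕ, q.Prime → q ≠ 5 → q ≠ 2 → q ∣ M₃ → ¬ s59_Unr W 5 q := by
    intro q hq hqp hq2 hqM hunr
    exact s59g_not_tol_of_scalar hq (hsc₂ q hq hqp hq2 (hqM.trans hd₃) hunr)
      (hall₃ q hq hqp hqM hunr)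
  have h2M₃' : 2 ∣ M₃ := h2M₃ h2M₂
  by_cases hunr2 : s59_Unr W 5 2
  · have hd : M₃ / 2 ∣ M₃ := Nat.div_dvd_of_dvd h2M₃'
    refine ⟨M₃ / 2, s59g_Inv2T_of_dvd hinv₃ hd, fun q hq hqp hqM' => ?_,
      h2 W hΔ hW hirr M₃ (s59g_Inv2_of_T hinv₃) h2M₃' hunr2 hodd₃ hres₃⟩
    have hq2 : q ≠ 2 := by
      rintro rfl
      obtain ⟨c, hc⟩ := hqM'
      exact s59g_not_four_dvd_of_squarefree hinv₃.2.1 h2M₃' hc
    exact hodd₃ q hq hqp hq2 (hqM'.trans hd)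
  · refine ⟨M₃, hinv₃, fun q hq hqp hqM => ?_, hres₃⟩
    by_cases hq2 : q = 2
    · subst hq2
      exact hunr2
    · exact hodd₃ q hq hqp hq2 hqM

/-! ### The top -/

structure s59g_NodesThreeT : Prop where
  car : s59g_CARat 3
  mrp : s59g_MRPat 3
  mrpMult : s59g_MRPmultAt 3
  mpBig : s59g_MPbigAt 3
  mpTwo : s59g_MPtwoThree
  iaFlat : s59g_IAflatAt 3 false
  iaStrict : s59g_IAstrictTAt 3 false
  lift : s59g_LIFTTat 3

structure s59g_NodesFiveT : Prop where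
  car : s59g_CARat 5
  mrp : s59g_MRPat 5
  mrpMult : s59g_MRPmultAt 5
  mpBig : s59g_MPbigAt 5
  mpThree : s59g_MPthree
  mpTwo : s59g_MPtwoFive
  iaFlat : s59g_IAflatAt 5 true
  iaStrict : s59g_IAstrictTAt 5 true
  lift : s59g_LIFTTat 5

/-- steps 1, 2a (`p` is removed whenever `ρ̄` is peu ramifié), a given step 2b, [LIFT],
stabilisation. -/
theorem s59g_R0_atT (p : ℕ) (hp : p = 3 ∨ p = 5) (hC : s59g_CARat p) (hP : s59g_MRPat p)
    (hPm : s59g_MRPmultAt p) (hT : s59g_LIFTTat p)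
    (h2b : ∀ (W : WeierstrassCurve ℤ), W.Δ ≠ 0 → W.IsSemistableModel →
      W.ModRepIsIrreducible p → ∀ M : ℕ, s59g_Inv2T W p M →
      W.IsResiduallyModularOfLevel p M → s59g_LoweredT W p)
    (W : WeierstrassCurve ℤ) (hΔ : W.Δ ≠ 0) (hW : W.IsSemistableModel)
    (hirr : W.ModRepIsIrreducible p) (M₀ : ℕ) (hinv : s59g_Inv1 p M₀)
    (hres : W.IsResiduallyModularOfLevel p M₀) :
    ∃ N : ℕ, ¬ p ^ 2 ∣ N ∧ W.IsModularModelOfLevel N ∧
      (∀ ℓ : ℕ, ℓ.Prime → (ℓ : ℤ) ∣ W.Δ → ℓ ∣ N) ∧ ∀ q : ℕ, q.Prime → ¬ q ^ 3 ∣ N := by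
  have hpp : p.Prime := by rcases hp with rfl | rfl <;> norm_num
  -- step 1
  obtain ⟨M₁, h0, hsq, hres₁⟩ : ∃ M' : ℕ, 0 < M' ∧ Squarefree M' ∧
      W.IsResiduallyModularOfLevel p M' := by
    revert hinv hres
    induction M₀ using Nat.strong_induction_on with
    | _ M ih =>
      intro hinv hres
      by_cases hsq : Squarefree M
      · exact ⟨M, hinv.1, hsq, hres⟩
      · rw [Nat.squarefree_iff_prime_squarefree] at hsq
        push Not at hsq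
        obtain ⟨q, hq, hqq⟩ := hsq
        have hq2 : q ^ 2 ∣ M := by rwa [pow_two]
        have hqp : q ≠ p := by
          rintro rfl
          exact hinv.2.1 hq2
        obtain ⟨M', hlt, hinv', hres'⟩ := hC W hΔ hW hirr M q hinv hq hqp hq2 hres
        exact ih M' hlt hinv' hres'
  -- step 2a
  obtain ⟨M₂, hinv₂, hres₂⟩ : ∃ M₂ : ℕ, s59g_Inv2T W p M₂ ∧
      W.IsResiduallyModularOfLevel p M₂ := by
    by_cases hpg : p ∣ M₁ ∧ s59g_Peu W p
    · have hd : M₁ / p ∣ M₁ := Nat.div_dvd_of_dvd hpg.1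
      have hres' : W.IsResiduallyModularOfLevel p (M₁ / p) := by
        by_cases hgood : W.IsGoodPrimeFor p
        · exact hP W hΔ hW hirr M₁ hsq hpg.1 hgood hres₁
        · exact hPm W hΔ hW hirr M₁ hsq hpg.1 hgood hpg.2 hres₁
      refine ⟨M₁ / p, ⟨Nat.pos_of_dvd_of_pos hd h0, hsq.squarefree_of_dvd hd, fun h => ?_⟩, hres'⟩
      obtain ⟨c, hc⟩ := h
      have hM : M₁ = p * (p * c) := by
        rw [← hc]
        exact (Nat.mul_div_cancel' hpg.1).symm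
      have hpp2 : p * p ∣ M₁ := ⟨c, by rw [hM]; ring⟩
      exact absurd (Nat.isUnit_iff.mp (hsq p hpp2)) hpp.one_lt.ne'
    · exact ⟨M₁, ⟨h0, hsq, fun h hg => hpg ⟨h, hg⟩⟩, hres₁⟩
  obtain ⟨M, hinvM, hram, hresM⟩ := h2b W hΔ hW hirr M₂ hinv₂ hres₂
  exact s59g_modular_of_almost p hpp W hΔ (hT W hΔ hW hirr M hinvM hram hresM)

/-- **S59 from the per-`p` nodes of v3.4** — the frozen statement, verbatim.  CHECKED. -/
theorem s59g_S59_T (h3 : s59g_NodesThreeT) (h5 : s59g_NodesFiveT)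
    (p : ℕ) (hp : p = 3 ∨ p = 5)
    (W : WeierstrassCurve ℤ) (hΔ : W.Δ ≠ 0) (hW : W.IsSemistableModel)
    (hirr : W.ModRepIsIrreducible p)
    (M₀ : ℕ) [NeZero M₀] (hres₀ : W.IsResiduallyModularOfLevel p M₀)
    (hM₀ : ¬ p ^ 2 ∣ M₀)
    (hM₀3 : ∀ q : ℕ, q.Prime → q ≠ p → ¬ q ^ 3 ∣ M₀) :
    Mlc1IsModularModelOfExactConductorLevel W := by
  refine s59_of_R0 ?_ p hp W hΔ hW hirr M₀ hres₀ hM₀ hM₀3
  intro p hp W hΔ hW hirr M₀ _ hres hp2 h3'
  have hinv : s59g_Inv1 p M₀ := ⟨Nat.pos_of_ne_zero (NeZero.ne M₀), hp2, h3'⟩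
  rcases hp with rfl | rfl
  · exact s59g_R0_atT 3 (Or.inl rfl) h3.car h3.mrp h3.mrpMult h3.lift
      (fun W hΔ hW hirr M hinv hres => s59g_lower2b_threeT h3.mpBig h3.mpTwo W hΔ hW hirr
        (s59g_IAatW_of h3.iaFlat h3.iaStrict W hΔ hW hirr) M hinv hres)
      W hΔ hW hirr M₀ hinv hres
  · exact s59g_R0_atT 5 (Or.inr rfl) h5.car h5.mrp h5.mrpMult h5.lift
      (fun W hΔ hW hirr M hinv hres => s59g_lower2b_fiveT h5.mpBig h5.mpThree h5.mpTwo W hΔ hW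
        hirr (s59g_IAatW_of h5.iaFlat h5.iaStrict W hΔ hW hirr) M hinv hres)
      W hΔ hW hirr M₀ hinv hres

end Fermat.Agent.Lib.S59

end
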