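/-
PROGRAMME (R2) = S59 — CONTRACT GRAPH v3.5 (helper1): **[MRP_W] at EVEN level** (helper2's #3661: at `p = 3` the S44 method
needs `2 ∣ M`; [L2] and the modular unit `η₂`).  NEW file, NEW names (suffix `U`); imports `Graph3T.lean`; SUPERSEDES its top
theorem `s59g_S59_T`, changes nothing there.

The ORDER of the steps is now:  1 ([CAR_W]: squarefree)  →  raise `2` into the level (free, `s59g_resmod_raise`)  →
2a (remove `p` when `ρ̄` is peu ramifié at `p`: `s59g_MRPevenAt p` for `W` good at `p`, `s59g_MRPmultEvenAt p` for `W`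
multiplicative and peu; BOTH only at EVEN squarefree levels)  →  2b (`Graph3T.lean`, which starts with an even level anyway)  →
[LIFT_W]  →  stabilisation.

  `s59g_MRPevenAt p`      ⇐ `s59g_MRPat p`       (`s59g_MRPevenAt_of`; so p = 5 ✓ by helper2's `s59b_MRPat_five`)
  `s59g_MRPmultEvenAt p`  ⇐ `s59g_MRPmultAt p`   (`s59g_MRPmultEvenAt_of`)
All other nodes are those of `Graph3T.lean` / `Graph3S.lean`, verbatim.

CHECKED: `s59g_S59_U : s59g_NodesThreeU → s59g_NodesFiveU → <frozen S59 verbatim>`.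
-/
import Fermat.Agent.Lib.S59.Graph3T

set_option autoImplicit false

open CongruenceSubgroup ModularFormClass

noncomputable section

namespace Fermat.Agent.Lib.S59

/-- **[MRP_W] at `p`, EVEN level**, `W` good at `p`. -/
def s59g_MRPevenAt (p : ℕ) : Prop :=
  ∀ (W : WeierstrassCurve ℤ), W.Δ ≠ 0 → W.IsSemistableModel →
    W.ModRepIsIrreducible p → ∀ (M : ℕ), Squarefree M → 2 ∣ M → p ∣ M → W.IsGoodPrimeFor p →
    W.IsResiduallyModularOfLevel p M → W.IsResiduallyModularOfLevel p (M / p)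

/-- **[MRP-mult] at `p`, EVEN level**, `W` multiplicative at `p` and `ρ̄` peu ramifié. -/
def s59g_MRPmultEvenAt (p : ℕ) : Prop :=
  ∀ (W : WeierstrassCurve ℤ), W.Δ ≠ 0 → W.IsSemistableModel →
    W.ModRepIsIrreducible p → ∀ (M : ℕ), Squarefree M → 2 ∣ M → p ∣ M → ¬ W.IsGoodPrimeFor p →
    s59g_Peu W p → W.IsResiduallyModularOfLevel p M → W.IsResiduallyModularOfLevel p (M / p)

theorem s59g_MRPevenAt_of {p : ℕ} (h : s59g_MRPat p) : s59g_MRPevenAt p :=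
  fun W hΔ hW hirr M hsq _ hpM hgood hres => h W hΔ hW hirr M hsq hpM hgood hres

theorem s59g_MRPmultEvenAt_of {p : ℕ} (h : s59g_MRPmultAt p) : s59g_MRPmultEvenAt p :=
  fun W hΔ hW hirr M hsq _ hpM hgood hpeu hres => h W hΔ hW hirr M hsq hpM hgood hpeu hres

/-- raising `2` into a squarefree level (no invariant at `p`). -/
theorem s59g_raise_two_sq (p : ℕ) (W : WeierstrassCurve ℤ) (M : ℕ) (h0 : 0 < M)
    (hsq : Squarefree M) (hres : W.IsResiduallyModularOfLevel p M) :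
    ∃ M₁ : ℕ, 0 < M₁ ∧ Squarefree M₁ ∧ 2 ∣ M₁ ∧ W.IsResiduallyModularOfLevel p M₁ := by
  by_cases h2M : 2 ∣ M
  · exact ⟨M, h0, hsq, h2M, hres⟩
  · refine ⟨M * 2, Nat.mul_pos h0 two_pos, ?_, dvd_mul_left 2 M,
      s59g_resmod_raise W p M 2 h0.ne' Nat.prime_two h2M hres⟩
    exact (Nat.squarefree_mul_iff).mpr
      ⟨(Nat.Prime.coprime_iff_not_dvd Nat.prime_two).mpr h2M |>.symm, hsq,
        Nat.prime_two.prime.squarefree⟩

structure s59g_NodesThreeU : Prop where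
  car : s59g_CARat 3
  mrp : s59g_MRPevenAt 3
  mrpMult : s59g_MRPmultEvenAt 3
  mpBig : s59g_MPbigAt 3
  mpTwo : s59g_MPtwoThree
  iaFlat : s59g_IAflatAt 3 false
  iaStrict : s59g_IAstrictTAt 3 false
  lift : s59g_LIFTTat 3

structure s59g_NodesFiveU : Prop where
  car : s59g_CARat 5
  mrp : s59g_MRPevenAt 5
  mrpMult : s59g_MRPmultEvenAt 5
  mpBig : s59g_MPbigAt 5
  mpThree : s59g_MPthree
  mpTwo : s59g_MPtwoFive
  iaFlat : s59g_IAflatAt 5 true
  iaStrict : s59g_IAstrictTAt 5 true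
  lift : s59g_LIFTTat 5

/-- steps 1, raise `2`, 2a at even level, a given step 2b, [LIFT], stabilisation. -/
theorem s59g_R0_atU (p : ℕ) (hp : p = 3 ∨ p = 5) (hC : s59g_CARat p) (hP : s59g_MRPevenAt p)
    (hPm : s59g_MRPmultEvenAt p) (hT : s59g_LIFTTat p)
    (h2b : ∀ (W : WeierstrassCurve ℤ), W.Δ ≠ 0 → W.IsSemistableModel →
      W.ModRepIsIrreducible p → ∀ M : ℕ, s59g_Inv2T W p M →
      W.IsResiduallyModularOfLevel p M → s59g_LoweredT W p)
    (W : WeierstrassCurve ℤ) (hΔ : W.Δ ≠ 0) (hW : W.IsSemistableModel)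
    (hirr : W.ModRepIsIrreducible p) (M₀ : ℕ) (hinv : s59g_Inv1 p M₀)
    (hres : W.IsResiduallyModularOfLevel p M₀) :
    ∃ N : ℕ, ¬ p ^ 2 ∣ N ∧ W.IsModularModelOfLevel N ∧
      (∀ ℓ : ℕ, ℓ.Prime → (ℓ : ℤ) ∣ W.Δ → ℓ ∣ N) ∧ ∀ q : ℕ, q.Prime → ¬ q ^ 3 ∣ N := by
  have hpp : p.Prime := by rcases hp with rfl | rfl <;> norm_num
  -- step 1
  obtain ⟨M₀', h0', hsq', hres₀'⟩ : ∃ M' : ℕ, 0 < M' ∧ Squarefree M' ∧
      W.IsResiduallyModularOfLevel p M' := by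
    revert hinv hres
    induction M₀ using Nat.strong_induction_on with
    | _ M ih =>
      intro hinv hres
      by_cases hsq : Squarefree M
      · exact ⟨M, hinv.1, hsq, hres⟩
      · rw [Nat.squarefree_iff_prime_squarefree] at hsq
        push Not at hsq
        obtain ⟨q, hq, hqq⟩ := hsq
        have hq2 : q ^ 2 ∣ M := by rwa [pow_two]
        have hqp : q ≠ p := by
          rintro rfl
          exact hinv.2.1 hq2
        obtain ⟨M', hlt, hinv', hres'⟩ := hC W hΔ hW hirr M q hinv hq hqp hq2 hres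
        exact ih M' hlt hinv' hres'
  -- raise `2`
  obtain ⟨M₁, h0, hsq, h2M₁, hres₁⟩ := s59g_raise_two_sq p W M₀' h0' hsq' hres₀'
  -- step 2a at even level
  obtain ⟨M₂, hinv₂, hres₂⟩ : ∃ M₂ : ℕ, s59g_Inv2T W p M₂ ∧
      W.IsResiduallyModularOfLevel p M₂ := by
    by_cases hpg : p ∣ M₁ ∧ s59g_Peu W p
    · have hd : M₁ / p ∣ M₁ := Nat.div_dvd_of_dvd hpg.1
      have hres' : W.IsResiduallyModularOfLevel p (M₁ / p) := by
        by_cases hgood : W.IsGoodPrimeFor p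
        · exact hP W hΔ hW hirr M₁ hsq h2M₁ hpg.1 hgood hres₁
        · exact hPm W hΔ hW hirr M₁ hsq h2M₁ hpg.1 hgood hpg.2 hres₁
      refine ⟨M₁ / p, ⟨Nat.pos_of_dvd_of_pos hd h0, hsq.squarefree_of_dvd hd, fun h => ?_⟩, hres'⟩
      obtain ⟨c, hc⟩ := h
      have hM : M₁ = p * (p * c) := by
        rw [← hc]
        exact (Nat.mul_div_cancel' hpg.1).symm
      have hpp2 : p * p ∣ M₁ := ⟨c, by rw [hM]; ring⟩
      exact absurd (Nat.isUnit_iff.mp (hsq p hpp2)) hpp.one_lt.ne'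
    · exact ⟨M₁, ⟨h0, hsq, fun h hg => hpg ⟨h, hg⟩⟩, hres₁⟩
  obtain ⟨M, hinvM, hram, hresM⟩ := h2b W hΔ hW hirr M₂ hinv₂ hres₂
  exact s59g_modular_of_almost p hpp W hΔ (hT W hΔ hW hirr M hinvM hram hresM)

/-- **S59 from the per-`p` nodes of v3.5** — the frozen statement, verbatim.  CHECKED. -/
theorem s59g_S59_U (h3 : s59g_NodesThreeU) (h5 : s59g_NodesFiveU)
    (p : ℕ) (hp : p = 3 ∨ p = 5)
    (W : WeierstrassCurve ℤ) (hΔ : W.Δ ≠ 0) (hW : W.IsSemistableModel)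
    (hirr : W.ModRepIsIrreducible p)
    (M₀ : ℕ) [NeZero M₀] (hres₀ : W.IsResiduallyModularOfLevel p M₀)
    (hM₀ : ¬ p ^ 2 ∣ M₀)
    (hM₀3 : ∀ q : ℕ, q.Prime → q ≠ p → ¬ q ^ 3 ∣ M₀) :
    Mlc1IsModularModelOfExactConductorLevel W := by
  refine s59_of_R0 ?_ p hp W hΔ hW hirr M₀ hres₀ hM₀ hM₀3
  intro p hp W hΔ hW hirr M₀ _ hres hp2 h3'
  have hinv : s59g_Inv1 p M₀ := ⟨Nat.pos_of_ne_zero (NeZero.ne M₀), hp2, h3'⟩
  rcases hp with rfl | rfl
  · exact s59g_R0_atU 3 (Or.inl rfl) h3.car h3.mrp h3.mrpMult h3.lift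
      (fun W hΔ hW hirr M hinv hres => s59g_lower2b_threeT h3.mpBig h3.mpTwo W hΔ hW hirr
        (s59g_IAatW_of h3.iaFlat h3.iaStrict W hΔ hW hirr) M hinv hres)
      W hΔ hW hirr M₀ hinv hres
  · exact s59g_R0_atU 5 (Or.inr rfl) h5.car h5.mrp h5.mrpMult h5.lift
      (fun W hΔ hW hirr M hinv hres => s59g_lower2b_fiveT h5.mpBig h5.mpThree h5.mpTwo W hΔ hW
        hirr (s59g_IAatW_of h5.iaFlat h5.iaStrict W hΔ hW hirr) M hinv hres)
      W hΔ hW hirr M₀ hinv hres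

end Fermat.Agent.Lib.S59

end
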