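/-
PROGRAMME (R2) = S59 — CONTRACT GRAPH v3.6 (helper1): **`p = 3`: THE LEVEL STAYS EVEN TO THE END.**
NEW file, NEW names (suffix `V`); imports `Graph3U.lean`; SUPERSEDES its top theorem `s59g_S59_U`, changes nothing there.  The
`p = 5` side is that of `Graph3U.lean`, verbatim (`s59g_NodesFiveU`).

WHY (helper5 #3604 caveat, helper7 #3644): at the exponent `p = 3` EVERY leaf lives at an EVEN level — the modular unit `η₂`
(`3 ∤ δ`) and S18's good-reduction geometry in characteristic `3` need level-`2` structure; this holds for the T-side of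
[IA′-core] and of [LIFT] as well.  So phase B of `Graph3S/T` ("remove `2`", `s59g_MPtwoThree`) is USELESS at `p = 3`: after it
nothing could run.  Instead `2` STAYS in the level and is handled by its local type at `2`:
  (a) `ρ̄` ramified at `2`                                  : `2` is a genuine prime of the minimal level;
  (b) `W` good at `2` and `3 ∤ a₂(W)`   (`s59g_E2 W 3 2`)  : `2` is an (E2′)-prime (helper5 `EAuxUnr`: `2 ≢ 1` and the Frobenius ratio is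
                                                            not `2^{±1}`, so EVERY lift of `ρ̄` is unramified at `2`): invisible on the R-side,
                                                            harmless on the T-side; [IA′-core] and [LIFT] run with it in the level;
  (c) `ρ̄` unramified at `2` and `3 ∣ tr ρ̄(Frob₂)`          : (`W` good at `2` with `a₂(W) = 0`, or multiplicative at `2` with `3 ∣ v₂(Δ)`):
                                                            `2` is a LEVEL-RAISING prime for `ρ̄` and is not tolerated (`2² ≡ 1 mod 3`):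
                                                            **`s59g_Wall32c`** — ONE node, no route (needs Mazur's principle at
                                                            `(p, q) = (3, 2)`, i.e. the `3`-part of the component group at `2`).
ORDER at `p = 3`:  1 [CAR]  →  raise `2`  →  2a [MRP] (even)  →  A [MP-big] (even)  →  case (c): `s59g_Wall32c`;
                   cases (a), (b):  C [IA′-core] at even level with `s59g_T2`  →  [LIFT] at even level with `s59g_T2`.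

CHECKED: `s59g_S59_V : s59g_NodesThreeV → s59g_NodesFiveU → <frozen S59 verbatim>`.
-/
import Fermat.Agent.Lib.S59.Graph3U

set_option autoImplicit false

open CongruenceSubgroup ModularFormClass

noncomputable section

namespace Fermat.Agent.Lib.S59

/-- `q` is an (E2′)-prime for `(W, p)`: `W` is good at `q`, `q ≢ 1 mod p`, and `q` is not a level-raising prime
(`a_q(W)² ≢ (q + 1)² mod p`).  Then every lift of `ρ̄` is unramified at `q`. -/
def s59g_E2 (W : WeierstrassCurve ℤ) (p q : ℕ) : Prop :=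
  W.IsGoodPrimeFor q ∧ ¬ p ∣ q - 1 ∧ ¬ (p : ℤ) ∣ W.apOfModel q ^ 2 - ((q : ℤ) + 1) ^ 2

/-- the type of `2` at `p = 3` in the cases (a), (b). -/
def s59g_T2 (W : WeierstrassCurve ℤ) : Prop :=
  ¬ s59_Unr W 3 2 ∨ s59g_E2 W 3 2

/-- **[IA′-core]_W at `p = 3`, FLAT, EVEN level**, `2` of type (a) or (b); every other prime `ℓ ≠ 3` of the level
outside `Bd` is a ramified prime of `ρ̄`. -/
def s59g_IAflatThree : Prop :=
  ∀ (W : WeierstrassCurve ℤ), W.Δ ≠ 0 → W.IsSemistableModel →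
    W.ModRepIsIrreducible 3 → ∀ (M : ℕ), 0 < M → Squarefree M → ¬ 3 ∣ M → 2 ∣ M → s59g_T2 W →
    ∀ Bd : Finset ℕ, Bd.Nonempty →
    (∀ q ∈ Bd, q.Prime ∧ q ≠ 3 ∧ q ∣ M ∧ s59_Unr W 3 q ∧ s59g_Scalar W 3 q) →
    (∀ ℓ : ℕ, ℓ.Prime → ℓ ≠ 3 → ℓ ≠ 2 → ℓ ∣ M → ℓ ∉ Bd → ¬ s59_Unr W 3 ℓ) →
    W.IsResiduallyModularOfLevel 3 M → ∃ q ∈ Bd, W.IsResiduallyModularOfLevel 3 (M / q)

/-- **[IA′-core]_W at `p = 3`, STRICT (`3 ∣ M`, très), EVEN level.** -/
def s59g_IAstrictThree : Prop :=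
  ∀ (W : WeierstrassCurve ℤ), W.Δ ≠ 0 → W.IsSemistableModel →
    W.ModRepIsIrreducible 3 → ∀ (M : ℕ), 0 < M → Squarefree M → 3 ∣ M → ¬ s59g_Peu W 3 → 2 ∣ M →
    s59g_T2 W → ∀ Bd : Finset ℕ, Bd.Nonempty →
    (∀ q ∈ Bd, q.Prime ∧ q ≠ 3 ∧ q ∣ M ∧ s59_Unr W 3 q ∧ s59g_Scalar W 3 q) →
    (∀ ℓ : ℕ, ℓ.Prime → ℓ ≠ 3 → ℓ ≠ 2 → ℓ ∣ M → ℓ ∉ Bd → ¬ s59_Unr W 3 ℓ) →
    W.IsResiduallyModularOfLevel 3 M → ∃ q ∈ Bd, W.IsResiduallyModularOfLevel 3 (M / q)

/-- **[LIFT_W] at `p = 3`, EVEN level**, `2` of type (a) or (b), every odd prime `≠ 3` of the level ramified. -/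
def s59g_LIFTThree : Prop :=
  ∀ (W : WeierstrassCurve ℤ), W.Δ ≠ 0 → W.IsSemistableModel →
    W.ModRepIsIrreducible 3 → ∀ (M : ℕ), s59g_Inv2T W 3 M → 2 ∣ M → s59g_T2 W →
    (∀ q : ℕ, q.Prime → q ≠ 3 → q ≠ 2 → q ∣ M → ¬ s59_Unr W 3 q) →
    W.IsResiduallyModularOfLevel 3 M → s59g_AlmostModular W 3

/-- **THE WALL at `(3, 2)`, case (c)**: `ρ̄` unramified at `2`, `2` level-raising; even level, every odd unramified
prime `≠ 3` of the level scalar.  (Everything that remains of the proof in this case.) -/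
def s59g_Wall32c : Prop :=
  ∀ (W : WeierstrassCurve ℤ), W.Δ ≠ 0 → W.IsSemistableModel →
    W.ModRepIsIrreducible 3 → ∀ (M : ℕ), s59g_Inv2T W 3 M → 2 ∣ M → s59_Unr W 3 2 →
    ¬ s59g_E2 W 3 2 →
    (∀ q : ℕ, q.Prime → q ≠ 3 → q ≠ 2 → q ∣ M → s59_Unr W 3 q → s59g_Scalar W 3 q) →
    W.IsResiduallyModularOfLevel 3 M → s59g_AlmostModular W 3

/-- phase C at `p = 3`, even level, `2` of type (a) or (b). -/
theorem s59g_phaseC_three (hf : s59g_IAflatThree) (hs : s59g_IAstrictThree)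
    (W : WeierstrassCurve ℤ) (hΔ : W.Δ ≠ 0) (hW : W.IsSemistableModel)
    (hirr : W.ModRepIsIrreducible 3) (hT2 : s59g_T2 W) :
    ∀ M : ℕ, s59g_Inv2T W 3 M → 2 ∣ M →
      (∀ q : ℕ, q.Prime → q ≠ 3 → q ≠ 2 → q ∣ M → s59_Unr W 3 q → s59g_Scalar W 3 q) →
      W.IsResiduallyModularOfLevel 3 M →
      ∃ M' : ℕ, s59g_Inv2T W 3 M' ∧ 2 ∣ M' ∧
        (∀ q : ℕ, q.Prime → q ≠ 3 → q ≠ 2 → q ∣ M' → ¬ s59_Unr W 3 q) ∧
        W.IsResiduallyModularOfLevel 3 M' := by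
  classical
  intro M
  induction M using Nat.strong_induction_on with
  | _ M ih =>
    intro hinv h2M hsc hres
    by_cases hall : ∀ q : ℕ, q.Prime → q ≠ 3 → q ≠ 2 → q ∣ M → ¬ s59_Unr W 3 q
    · exact ⟨M, hinv, h2M, hall, hres⟩
    · push Not at hall
      obtain ⟨q₀, hq₀, hq₀p, hq₀2, hq₀M, hunr₀⟩ := hall
      set Bd : Finset ℕ :=
        M.primeFactors.filter (fun q => q ≠ 3 ∧ s59_Unr W 3 q ∧ s59g_Scalar W 3 q) with hBd
      have hmem : ∀ q : ℕ, q ∈ Bd ↔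
          q.Prime ∧ q ∣ M ∧ q ≠ 3 ∧ s59_Unr W 3 q ∧ s59g_Scalar W 3 q := by
        intro q
        rw [hBd, Finset.mem_filter, Nat.mem_primeFactors]
        constructor
        · rintro ⟨⟨h1, h2, -⟩, h3, h4, h5⟩
          exact ⟨h1, h2, h3, h4, h5⟩
        · rintro ⟨h1, h2, h3, h4, h5⟩
          exact ⟨⟨h1, h2, hinv.1.ne'⟩, h3, h4, h5⟩
      have hne : Bd.Nonempty :=
        ⟨q₀, (hmem q₀).mpr ⟨hq₀, hq₀M, hq₀p, hunr₀, hsc q₀ hq₀ hq₀p hq₀2 hq₀M hunr₀⟩⟩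
      have hB : ∀ q ∈ Bd, q.Prime ∧ q ≠ 3 ∧ q ∣ M ∧ s59_Unr W 3 q ∧ s59g_Scalar W 3 q := by
        intro q hqB
        obtain ⟨hq, hqM, hqp, hunr, hs⟩ := (hmem q).mp hqB
        exact ⟨hq, hqp, hqM, hunr, hs⟩
      have hram : ∀ ℓ : ℕ, ℓ.Prime → ℓ ≠ 3 → ℓ ≠ 2 → ℓ ∣ M → ℓ ∉ Bd → ¬ s59_Unr W 3 ℓ := by
        intro ℓ hℓ hℓp hℓ2 hℓM hℓB hunr
        exact hℓB ((hmem ℓ).mpr ⟨hℓ, hℓM, hℓp, hunr, hsc ℓ hℓ hℓp hℓ2 hℓM hunr⟩)
      obtain ⟨q, hqB, hres'⟩ : ∃ q ∈ Bd, W.IsResiduallyModularOfLevel 3 (M / q) := by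
        by_cases h3M : 3 ∣ M
        · exact hs W hΔ hW hirr M hinv.1 hinv.2.1 h3M (hinv.2.2 h3M) h2M hT2 Bd hne hB hram hres
        · exact hf W hΔ hW hirr M hinv.1 hinv.2.1 h3M h2M hT2 Bd hne hB hram hres
      obtain ⟨hq, hqM, hqp, hunr, hsq⟩ := (hmem q).mp hqB
      have hq2 : q ≠ 2 := s59g_scalar_ne_two Nat.prime_three hsq
      have hd : M / q ∣ M := Nat.div_dvd_of_dvd hqM
      exact ih (M / q) (Nat.div_lt_self hinv.1 hq.one_lt) (s59g_Inv2T_of_dvd hinv hd)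
        (s59g_two_dvd_div h2M hq hq2 hqM)
        (fun q' hq' hq'p hq'2 hq'M hunr' => hsc q' hq' hq'p hq'2 (hq'M.trans hd) hunr') hres'

structure s59g_NodesThreeV : Prop where
  car : s59g_CARat 3
  mrp : s59g_MRPevenAt 3
  mrpMult : s59g_MRPmultEvenAt 3
  mpBig : s59g_MPbigAt 3
  iaFlat : s59g_IAflatThree
  iaStrict : s59g_IAstrictThree
  lift : s59g_LIFTThree
  wall : s59g_Wall32c

/-- steps 1, raise `2`, 2a, A, then (c) the wall or (a), (b): C and [LIFT]; stabilisation. -/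
theorem s59g_R0_threeV (h : s59g_NodesThreeV)
    (W : WeierstrassCurve ℤ) (hΔ : W.Δ ≠ 0) (hW : W.IsSemistableModel)
    (hirr : W.ModRepIsIrreducible 3) (M₀ : ℕ) (hinv : s59g_Inv1 3 M₀)
    (hres : W.IsResiduallyModularOfLevel 3 M₀) :
    ∃ N : ℕ, ¬ 3 ^ 2 ∣ N ∧ W.IsModularModelOfLevel N ∧
      (∀ ℓ : ℕ, ℓ.Prime → (ℓ : ℤ) ∣ W.Δ → ℓ ∣ N) ∧ ∀ q : ℕ, q.Prime → ¬ q ^ 3 ∣ N := by
  have hpp : Nat.Prime 3 := Nat.prime_three
  -- step 1
  obtain ⟨M₀', h0', hsq', hres₀'⟩ : ∃ M' : ℕ, 0 < M' ∧ Squarefree M' ∧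
      W.IsResiduallyModularOfLevel 3 M' := by
    revert hinv hres
    induction M₀ using Nat.strong_induction_on with
    | _ M ih =>
      intro hinv hres
      by_cases hsq : Squarefree M
      · exact ⟨M, hinv.1, hsq, hres⟩
      · rw [Nat.squarefree_iff_prime_squarefree] at hsq
        push Not at hsq
        obtain ⟨q, hq, hqq⟩ := hsq
        have hq2 : q ^ 2 ∣ M := by rwa [pow_two]
        have hqp : q ≠ 3 := by
          rintro rfl
          exact hinv.2.1 hq2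
        obtain ⟨M', hlt, hinv', hres'⟩ := h.car W hΔ hW hirr M q hinv hq hqp hq2 hres
        exact ih M' hlt hinv' hres'
  -- raise `2`
  obtain ⟨M₁, h0, hsq, h2M₁, hres₁⟩ := s59g_raise_two_sq 3 W M₀' h0' hsq' hres₀'
  -- step 2a at even level
  obtain ⟨M₂, hinv₂, h2M₂, hres₂⟩ : ∃ M₂ : ℕ, s59g_Inv2T W 3 M₂ ∧ 2 ∣ M₂ ∧
      W.IsResiduallyModularOfLevel 3 M₂ := by
    by_cases hpg : 3 ∣ M₁ ∧ s59g_Peu W 3
    · have hd : M₁ / 3 ∣ M₁ := Nat.div_dvd_of_dvd hpg.1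
      have hres' : W.IsResiduallyModularOfLevel 3 (M₁ / 3) := by
        by_cases hgood : W.IsGoodPrimeFor 3
        · exact h.mrp W hΔ hW hirr M₁ hsq h2M₁ hpg.1 hgood hres₁
        · exact h.mrpMult W hΔ hW hirr M₁ hsq h2M₁ hpg.1 hgood hpg.2 hres₁
      refine ⟨M₁ / 3, ⟨Nat.pos_of_dvd_of_pos hd h0, hsq.squarefree_of_dvd hd, fun h3 => ?_⟩,
        s59g_two_dvd_div h2M₁ hpp (by norm_num) hpg.1, hres'⟩
      obtain ⟨c, hc⟩ := h3
      have hM : M₁ = 3 * (3 * c) := by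
        rw [← hc]
        exact (Nat.mul_div_cancel' hpg.1).symm
      have hpp2 : 3 * 3 ∣ M₁ := ⟨c, by rw [hM]; ring⟩
      exact absurd (Nat.isUnit_iff.mp (hsq 3 hpp2)) (by norm_num)
    · exact ⟨M₁, ⟨h0, hsq, fun h3 hg => hpg ⟨h3, hg⟩⟩, h2M₁, hres₁⟩
  -- phase A
  obtain ⟨M₃, hinv₃, h2M₃, hsc₃, hres₃⟩ :=
    s59g_phaseAT 3 W hΔ hW hirr (s59g_MPoddAt_three h.mpBig) M₂ hinv₂ h2M₂ hres₂
  -- the type of `2`
  have hAM : s59g_AlmostModular W 3 := by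
    by_cases hc : s59_Unr W 3 2 ∧ ¬ s59g_E2 W 3 2
    · exact h.wall W hΔ hW hirr M₃ hinv₃ h2M₃ hc.1 hc.2 hsc₃ hres₃
    · have hT2 : s59g_T2 W := by
        by_cases hunr : s59_Unr W 3 2
        · exact Or.inr (by_contra fun hE => hc ⟨hunr, hE⟩)
        · exact Or.inl hunr
      obtain ⟨M₄, hinv₄, h2M₄, hram₄, hres₄⟩ :=
        s59g_phaseC_three h.iaFlat h.iaStrict W hΔ hW hirr hT2 M₃ hinv₃ h2M₃ hsc₃ hres₃
      exact h.lift W hΔ hW hirr M₄ hinv₄ h2M₄ hT2 hram₄ hres₄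
  exact s59g_modular_of_almost 3 hpp W hΔ hAM

/-- **S59 from the nodes of v3.6** — the frozen statement, verbatim.  CHECKED. -/
theorem s59g_S59_V (h3 : s59g_NodesThreeV) (h5 : s59g_NodesFiveU)
    (p : ℕ) (hp : p = 3 ∨ p = 5)
    (W : WeierstrassCurve ℤ) (hΔ : W.Δ ≠ 0) (hW : W.IsSemistableModel)
    (hirr : W.ModRepIsIrreducible p)
    (M₀ : ℕ) [NeZero M₀] (hres₀ : W.IsResiduallyModularOfLevel p M₀)
    (hM₀ : ¬ p ^ 2 ∣ M₀)
    (hM₀3 : ∀ q : ℕ, q.Prime → q ≠ p → ¬ q ^ 3 ∣ M₀) :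
    Mlc1IsModularModelOfExactConductorLevel W := by
  refine s59_of_R0 ?_ p hp W hΔ hW hirr M₀ hres₀ hM₀ hM₀3
  intro p hp W hΔ hW hirr M₀ _ hres hp2 h3'
  have hinv : s59g_Inv1 p M₀ := ⟨Nat.pos_of_ne_zero (NeZero.ne M₀), hp2, h3'⟩
  rcases hp with rfl | rfl
  · exact s59g_R0_threeV h3 W hΔ hW hirr M₀ hinv hres
  · exact s59g_R0_atU 5 (Or.inr rfl) h5.car h5.mrp h5.mrpMult h5.lift
      (fun W hΔ hW hirr M hinv hres => s59g_lower2b_fiveT h5.mpBig h5.mpThree h5.mpTwo W hΔ hW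
        hirr (s59g_IAatW_of h5.iaFlat h5.iaStrict W hΔ hW hirr) M hinv hres)
      W hΔ hW hirr M₀ hinv hres

end Fermat.Agent.Lib.S59

end
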