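/-
PROGRAMME (R2) = S59 — adapter (helper1): the field `iaFlatAB : s59g_IAflatThree` of the contract graph v3.8 (`Graph3X.lean`)
([IA′-core]_W at `p = 3`, flat, EVEN level, `2` of type (a) ramified / (b) (E2′)) is CLOSED
(helper5 `s59e3u_IAflat_even_E`, `E3IAflatE.lean`).
-/
import Fermat.Agent.Lib.S59.Graph3V
import Fermat.Agent.Lib.S59.E3IAflatE

set_option autoImplicit false

noncomputable section

namespace Fermat.Agent.Lib.S59

/-- [IA′-core]_W at `p = 3`, flat, even level, `2` of type (a)/(b) (helper5). -/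
theorem s59g_iaFlatThree_ok : s59g_IAflatThree := by
  intro W hΔ hW hirr M h0 hsq h3M h2M hT2 Bd hne hB hram hres
  haveI : Fact (Nat.Prime 3) := ⟨Nat.prime_three⟩
  refine s59e3u_IAflat_even_E 3 (Or.inl rfl) W hΔ hW hirr M h0 hsq h3M h2M Bd hne hB
    (fun ℓ hℓ hℓ3 hℓM hℓB => ?_) hres
  by_cases hℓ2 : ℓ = 2
  · subst hℓ2
    rcases hT2 with h | h
    · exact Or.inl h
    · exact Or.inr (Or.inr h)
  · exact Or.inl (hram ℓ hℓ hℓ3 hℓ2 hℓM hℓB)

end Fermat.Agent.Lib.S59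

end
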