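/-
PROGRAMME (R2) = S59 — adapter (helper1): the field `mpTwo : s59g_MPtwoFive` of the contract graph v3.7 is CLOSED
(helper7 `s59nt_MPtwoFive`, `NZMP2.lean`).
-/
import Fermat.Agent.Lib.S59.Graph3S
import Fermat.Agent.Lib.S59.NZMP2

set_option autoImplicit false

noncomputable section

namespace Fermat.Agent.Lib.S59

/-- [MP-two] at `p = 5` (helper7). -/
theorem s59g_mpTwoFive_ok : s59g_MPtwoFive :=
  fun W hΔ hW hirr M hinv h2M hunr hram hres => s59nt_MPtwoFive W hΔ hW hirr M hinv h2M hunr hram hres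

end Fermat.Agent.Lib.S59

end
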