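/-
PROGRAMME (R2) = S59 — CONTRACT GRAPH v3.7 (helper1), after lead's decisions #3703.
NEW file, NEW names (suffix `W`); imports `Graph3V.lean`; SUPERSEDES its top theorem `s59g_S59_V`, changes nothing there.

(1) **[CAR_W] only at GOOD levels** (helper9 #3681): node `s59g_CARgoodAt p`: level `M q²` with main's `s36g_GoodLevel q M`
    (`q ∤ M`, `ν₂(M) = ν₃(M) = 0`, and `5 ≤ q ∨ (q = 3 ∧ 2 ∣ M) ∨ (q = 2 ∧ 3 ∣ M)`), the level even  ⊢  level `M q`.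
    The graph supplies the good level: step 1 FIRST raises `2`, an auxiliary prime `r ≡ 11 (12)` (Dirichlet, main's
    `s36g_exists_aux_prime`) and, if `4` divides the level, `3` — all free (`s59g_resmod_raise`) — and then runs the [CAR] loop;
    `r` (and the raised `3` at `p = 5`) are removed later by phases A / C like every other unramified prime.
(2) **`p = 3`: the (3,2) wall is replaced by [MP32]** (helper2 #3698, GO): `s59g_MP32`: even level, `ρ̄` unramified at `2`  ⊢  level `M/2`.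
    The level still stays EVEN to the end (all `p = 3` leaves need it); [MP32] is used to hand a `2`-OLD point to [IA′-core]₃ and to
    [LIFT]₃: their new hypothesis is `h2old : s59_Unr W 3 2 → ResMod 3 (M/2)`.  Inside, the owners split: (a) `ρ̄` ramified at `2`,
    (b) `2` an (E2′)-prime, (c) `2` level-raising: spectator of type [LOC−] (helper4 `s59r_modelM`) + base-by-point on the unr
    component (helper4 `FBasePt`), sub-case `W` multiplicative at `2`: + S41 at `2` with the sign.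
    `s59g_Wall32c` is now a CONSEQUENCE (not needed any more).
(3) **`p = 5`: [LIFT]₅ under `hT23`** (helper5 #3694): `s59g_LIFTfive23` = `s59g_LIFTTat 5` with the extra hypothesis
    `2 ∣ M ∨ 3 ∣ M ∨ s59g_E2 W 5 2 ∨ s59g_E2 W 5 3`; the rest is the node `s59g_Corner5` (dies when helper3's H-version of the
    [R23] transfer removes `h23` from the T-side).

CHECKED: `s59g_S59_W : s59g_NodesThreeW → s59g_NodesFiveW → <frozen S59 verbatim>`.
-/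
import Fermat.Agent.Lib.S59.Graph3V
import Fermat.Agent.Lib.S36.GeoContracts

set_option autoImplicit false

open CongruenceSubgroup ModularFormClass Fermat.Agent.Lib.S36

noncomputable section

namespace Fermat.Agent.Lib.S59

/-! ### (1) [CAR_W] at good levels and the new step 1 -/

/-- **[CAR_W] at `p`, GOOD levels.** -/
def s59g_CARgoodAt (p : ℕ) : Prop :=
  ∀ (W : WeierstrassCurve ℤ), W.Δ ≠ 0 → W.IsSemistableModel →
    W.ModRepIsIrreducible p → ∀ (M q : ℕ), s59g_Inv1 p (M * q ^ 2) → q.Prime → q ≠ p →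
    s36g_GoodLevel q M → 2 ∣ M * q →
    W.IsResiduallyModularOfLevel p (M * q ^ 2) → W.IsResiduallyModularOfLevel p (M * q)

/-- raising a prime `s ∤ L` preserves the invariant of step 1. -/
theorem s59g_inv1_raise {p L s : ℕ} (hpp : p.Prime) (hinv : s59g_Inv1 p L) (hs : s.Prime)
    (hsL : ¬ s ∣ L) : s59g_Inv1 p (L * s) := by
  refine ⟨Nat.mul_pos hinv.1 hs.pos, fun h => ?_, fun q hq hqp h => ?_⟩
  · by_cases hps : p = s
    · subst hps
      rw [pow_two] at h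
      exact hsL ((Nat.mul_dvd_mul_iff_right hpp.pos).mp h)
    · have hc : Nat.Coprime (p ^ 2) s := Nat.Coprime.pow_left 2 ((Nat.coprime_primes hpp hs).mpr hps)
      exact hinv.2.1 (hc.dvd_of_dvd_mul_right h)
  · by_cases hqs : q = s
    · subst hqs
      have h' : q ^ 2 * q ∣ L * q := by
        rw [← pow_succ]
        exact h
      have h2 : q ^ 2 ∣ L := (Nat.mul_dvd_mul_iff_right hq.pos).mp h'
      exact hsL ((dvd_pow_self q two_ne_zero).trans h2)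
    · have hc : Nat.Coprime (q ^ 3) s := Nat.Coprime.pow_left 3 ((Nat.coprime_primes hq hs).mpr hqs)
      exact hinv.2.2 q hq hqp (hc.dvd_of_dvd_mul_right h)

/-- the invariant of the [CAR] loop. -/
def s59g_InvCar (p L : ℕ) : Prop :=
  s59g_Inv1 p L ∧ 2 ∣ L ∧ (∃ r : ℕ, r.Prime ∧ r % 12 = 11 ∧ r ∣ L ∧ ¬ r ^ 2 ∣ L) ∧ (4 ∣ L → 3 ∣ L)

/-- one free raising step. -/
theorem s59g_raise_one (p : ℕ) (hpp : p.Prime) (W : WeierstrassCurve ℤ) (L s : ℕ)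
    (hinv : s59g_Inv1 p L) (hs : s.Prime) (hres : W.IsResiduallyModularOfLevel p L) :
    ∃ L' : ℕ, s59g_Inv1 p L' ∧ s ∣ L' ∧ L ∣ L' ∧ (L' = L ∨ L' = L * s) ∧
      W.IsResiduallyModularOfLevel p L' := by
  by_cases hsL : s ∣ L
  · exact ⟨L, hinv, hsL, dvd_rfl, Or.inl rfl, hres⟩
  · exact ⟨L * s, s59g_inv1_raise hpp hinv hs hsL, dvd_mul_left s L, dvd_mul_right L s, Or.inr rfl,
      s59g_resmod_raise W p L s hinv.1.ne' hs hsL hres⟩

/-- the [CAR] loop at good levels. -/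
theorem s59g_car_loop (p : ℕ) (hC : s59g_CARgoodAt p)
    (W : WeierstrassCurve ℤ) (hΔ : W.Δ ≠ 0) (hW : W.IsSemistableModel)
    (hirr : W.ModRepIsIrreducible p) :
    ∀ L : ℕ, s59g_InvCar p L → W.IsResiduallyModularOfLevel p L →
      ∃ M : ℕ, 0 < M ∧ Squarefree M ∧ 2 ∣ M ∧ W.IsResiduallyModularOfLevel p M := by
  intro L
  induction L using Nat.strong_induction_on with
  | _ L ih =>
    intro hI hres
    obtain ⟨hinv, h2L, ⟨r, hr, hr12, hrL, hr2L⟩, h43⟩ := hI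
    by_cases hsq : Squarefree L
    · exact ⟨L, hinv.1, hsq, h2L, hres⟩
    · rw [Nat.squarefree_iff_prime_squarefree] at hsq
      push Not at hsq
      obtain ⟨q, hq, hqq⟩ := hsq
      have hq2 : q ^ 2 ∣ L := by rwa [pow_two]
      have hqp : q ≠ p := by
        rintro rfl
        exact hinv.2.1 hq2
      obtain ⟨M, hM⟩ := hq2
      have hLM : L = M * q ^ 2 := by rw [hM, mul_comm]
      have hM0 : 0 < M := by
        rcases Nat.eq_zero_or_pos M with h | h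
        · rw [h, zero_mul] at hLM
          exact absurd hLM hinv.1.ne'
        · exact h
      haveI : NeZero M := ⟨hM0.ne'⟩
      have hqM : ¬ q ∣ M := by
        rintro ⟨c, rfl⟩
        apply hinv.2.2 q hq hqp
        rw [hLM]
        exact ⟨c, by ring⟩
      have hrq : r ≠ q := by
        rintro rfl
        exact hr2L (by rw [hLM]; exact dvd_mul_left _ _)
      have hrM : r ∣ M := by
        have hc : Nat.Coprime r (q ^ 2) := Nat.Coprime.pow_right 2 ((Nat.coprime_primes hr hq).mpr hrq)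
        rw [hLM] at hrL
        exact hc.dvd_of_dvd_mul_right hrL
      have h2Mq : 2 ∣ M * q := by
        by_cases hq2' : q = 2
        · rw [hq2']
          exact dvd_mul_left 2 M
        · have hc : Nat.Coprime 2 (q ^ 2) :=
            Nat.Coprime.pow_right 2 ((Nat.coprime_primes Nat.prime_two hq).mpr (Ne.symm hq2'))
          rw [hLM] at h2L
          exact (hc.dvd_of_dvd_mul_right h2L).mul_right q
      have hbr : 5 ≤ q ∨ (q = 3 ∧ 2 ∣ M) ∨ (q = 2 ∧ 3 ∣ M) := by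
        by_cases hq2' : q = 2
        · refine Or.inr (Or.inr ⟨hq2', ?_⟩)
          have h4 : 4 ∣ L := by
            rw [hLM, hq2']
            exact dvd_mul_left _ _
          have h3L := h43 h4
          rw [hLM, hq2'] at h3L
          have hc : Nat.Coprime 3 (2 ^ 2) := by norm_num
          exact hc.dvd_of_dvd_mul_right h3L
        · by_cases hq3 : q = 3
          · refine Or.inr (Or.inl ⟨hq3, ?_⟩)
            have hc : Nat.Coprime 2 (q ^ 2) :=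
              Nat.Coprime.pow_right 2 ((Nat.coprime_primes Nat.prime_two hq).mpr (Ne.symm hq2'))
            rw [hLM] at h2L
            exact hc.dvd_of_dvd_mul_right h2L
          · left
            have h2le := hq.two_le
            have h4 : q ≠ 4 := by
              rintro rfl
              exact absurd hq (by norm_num)
            omega
      have hgood : s36g_GoodLevel q M := s36g_goodLevel_of_prime q M r hqM hr hr12 hrM hbr
      have hres' : W.IsResiduallyModularOfLevel p (M * q) :=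
        hC W hΔ hW hirr M q (hLM ▸ hinv) hq hqp hgood h2Mq (hLM ▸ hres)
      have hdvd : M * q ∣ L := by
        rw [hLM, pow_two, ← mul_assoc]
        exact dvd_mul_right _ _
      have hlt : M * q < L := by
        rw [hLM, pow_two, ← mul_assoc]
        exact lt_mul_of_one_lt_right (Nat.mul_pos hM0 hq.pos) hq.one_lt
      refine ih (M * q) hlt ⟨⟨Nat.mul_pos hM0 hq.pos, fun h => hinv.2.1 (h.trans hdvd),
        fun q' hq' hq'p h => hinv.2.2 q' hq' hq'p (h.trans hdvd)⟩, h2Mq,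
        ⟨r, hr, hr12, hrM.mul_right q, fun h => hr2L (h.trans hdvd)⟩, fun h4 => ?_⟩ hres'
      have h3L := h43 (h4.trans hdvd)
      rw [hLM] at h3L
      rcases (Nat.Prime.dvd_mul Nat.prime_three).mp h3L with h | h
      · exact h.mul_right q
      · exact (Nat.prime_three.dvd_of_dvd_pow h).mul_left M

/-- **step 1 of v3.7**: raise `2`, `r ≡ 11 (12)`, (`3`), then the [CAR] loop: an EVEN squarefree level. -/
theorem s59g_step1W (p : ℕ) (hpp : p.Prime) (hC : s59g_CARgoodAt p)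
    (W : WeierstrassCurve ℤ) (hΔ : W.Δ ≠ 0) (hW : W.IsSemistableModel)
    (hirr : W.ModRepIsIrreducible p) (M₀ : ℕ) (hinv : s59g_Inv1 p M₀)
    (hres : W.IsResiduallyModularOfLevel p M₀) :
    ∃ M : ℕ, 0 < M ∧ Squarefree M ∧ 2 ∣ M ∧ W.IsResiduallyModularOfLevel p M := by
  -- raise `2`
  obtain ⟨L₁, hinv₁, h2L₁, hd₁, hL₁, hres₁⟩ := s59g_raise_one p hpp W M₀ 2 hinv Nat.prime_two hres
  -- the auxiliary prime
  obtain ⟨r, hr, hr12, hrn⟩ := s36g_exists_aux_prime L₁ hinv₁.1.ne'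
  have hres₂ : W.IsResiduallyModularOfLevel p (L₁ * r) :=
    s59g_resmod_raise W p L₁ r hinv₁.1.ne' hr hrn hres₁
  have hinv₂ : s59g_Inv1 p (L₁ * r) := s59g_inv1_raise hpp hinv₁ hr hrn
  have hr2 : ¬ r ^ 2 ∣ L₁ * r := by
    intro h
    rw [pow_two] at h
    exact hrn ((Nat.mul_dvd_mul_iff_right hr.pos).mp h)
  -- raise `3`
  obtain ⟨L₃, hinv₃, h3L₃, hd₃, hL₃, hres₃⟩ :=
    s59g_raise_one p hpp W (L₁ * r) 3 hinv₂ Nat.prime_three hres₂
  have hr3 : r ≠ 3 := by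
    rintro rfl
    omega
  refine s59g_car_loop p hC W hΔ hW hirr L₃ ⟨hinv₃, (h2L₁.mul_right r).trans hd₃,
    ⟨r, hr, hr12, (dvd_mul_left r L₁).trans hd₃, fun h => ?_⟩, fun _ => h3L₃⟩ hres₃
  rcases hL₃ with h' | h'
  · rw [h'] at h
    exact hr2 h
  · rw [h'] at h
    have hc : Nat.Coprime (r ^ 2) 3 := Nat.Coprime.pow_left 2 ((Nat.coprime_primes hr Nat.prime_three).mpr hr3)
    exact hr2 (hc.dvd_of_dvd_mul_right h)

/-- **step 2a** at an even squarefree level. -/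
theorem s59g_step2aW (p : ℕ) (hpp : p.Prime) (hp2 : p ≠ 2) (hP : s59g_MRPevenAt p)
    (hPm : s59g_MRPmultEvenAt p)
    (W : WeierstrassCurve ℤ) (hΔ : W.Δ ≠ 0) (hW : W.IsSemistableModel)
    (hirr : W.ModRepIsIrreducible p) (M₁ : ℕ) (h0 : 0 < M₁) (hsq : Squarefree M₁) (h2M₁ : 2 ∣ M₁)
    (hres₁ : W.IsResiduallyModularOfLevel p M₁) :
    ∃ M₂ : ℕ, s59g_Inv2T W p M₂ ∧ 2 ∣ M₂ ∧ W.IsResiduallyModularOfLevel p M₂ := by
  by_cases hpg : p ∣ M₁ ∧ s59g_Peu W p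
  · have hd : M₁ / p ∣ M₁ := Nat.div_dvd_of_dvd hpg.1
    have hres' : W.IsResiduallyModularOfLevel p (M₁ / p) := by
      by_cases hgood : W.IsGoodPrimeFor p
      · exact hP W hΔ hW hirr M₁ hsq h2M₁ hpg.1 hgood hres₁
      · exact hPm W hΔ hW hirr M₁ hsq h2M₁ hpg.1 hgood hpg.2 hres₁
    refine ⟨M₁ / p, ⟨Nat.pos_of_dvd_of_pos hd h0, hsq.squarefree_of_dvd hd, fun h3 => ?_⟩,
      s59g_two_dvd_div h2M₁ hpp hp2 hpg.1, hres'⟩
    obtain ⟨c, hc⟩ := h3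
    have hM : M₁ = p * (p * c) := by
      rw [← hc]
      exact (Nat.mul_div_cancel' hpg.1).symm
    have hpp2 : p * p ∣ M₁ := ⟨c, by rw [hM]; ring⟩
    exact absurd (Nat.isUnit_iff.mp (hsq p hpp2)) hpp.one_lt.ne'
  · exact ⟨M₁, ⟨h0, hsq, fun h3 hg => hpg ⟨h3, hg⟩⟩, h2M₁, hres₁⟩

/-! ### (2) `p = 3` -/

/-- **[MP32]** (helper2 + helper7): Mazur's principle at `(p, q) = (3, 2)`. -/
def s59g_MP32 : Prop :=
  ∀ (W : WeierstrassCurve ℤ), W.Δ ≠ 0 → W.IsSemistableModel →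
    W.ModRepIsIrreducible 3 → ∀ (M : ℕ), s59g_Inv2T W 3 M → 2 ∣ M → s59_Unr W 3 2 →
    W.IsResiduallyModularOfLevel 3 M → W.IsResiduallyModularOfLevel 3 (M / 2)

/-- **[IA′-core]_W at `p = 3`, FLAT, EVEN level, with a `2`-old point.** -/
def s59g_IAflatThreeW : Prop :=
  ∀ (W : WeierstrassCurve ℤ), W.Δ ≠ 0 → W.IsSemistableModel →
    W.ModRepIsIrreducible 3 → ∀ (M : ℕ), 0 < M → Squarefree M → ¬ 3 ∣ M → 2 ∣ M →
    (s59_Unr W 3 2 → W.IsResiduallyModularOfLevel 3 (M / 2)) →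
    ∀ Bd : Finset ℕ, Bd.Nonempty →
    (∀ q ∈ Bd, q.Prime ∧ q ≠ 3 ∧ q ∣ M ∧ s59_Unr W 3 q ∧ s59g_Scalar W 3 q) →
    (∀ ℓ : ℕ, ℓ.Prime → ℓ ≠ 3 → ℓ ≠ 2 → ℓ ∣ M → ℓ ∉ Bd → ¬ s59_Unr W 3 ℓ) →
    W.IsResiduallyModularOfLevel 3 M → ∃ q ∈ Bd, W.IsResiduallyModularOfLevel 3 (M / q)

/-- **[IA′-core]_W at `p = 3`, STRICT (`3 ∣ M`, très), EVEN level, with a `2`-old point.** -/
def s59g_IAstrictThreeW : Prop :=
  ∀ (W : WeierstrassCurve ℤ), W.Δ ≠ 0 → W.IsSemistableModel →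
    W.ModRepIsIrreducible 3 → ∀ (M : ℕ), 0 < M → Squarefree M → 3 ∣ M → ¬ s59g_Peu W 3 → 2 ∣ M →
    (s59_Unr W 3 2 → W.IsResiduallyModularOfLevel 3 (M / 2)) →
    ∀ Bd : Finset ℕ, Bd.Nonempty →
    (∀ q ∈ Bd, q.Prime ∧ q ≠ 3 ∧ q ∣ M ∧ s59_Unr W 3 q ∧ s59g_Scalar W 3 q) →
    (∀ ℓ : ℕ, ℓ.Prime → ℓ ≠ 3 → ℓ ≠ 2 → ℓ ∣ M → ℓ ∉ Bd → ¬ s59_Unr W 3 ℓ) →
    W.IsResiduallyModularOfLevel 3 M → ∃ q ∈ Bd, W.IsResiduallyModularOfLevel 3 (M / q)

/-- **[LIFT_W] at `p = 3`, EVEN level, with a `2`-old point**; every odd prime `≠ 3` of the level ramified. -/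
def s59g_LIFTThreeW : Prop :=
  ∀ (W : WeierstrassCurve ℤ), W.Δ ≠ 0 → W.IsSemistableModel →
    W.ModRepIsIrreducible 3 → ∀ (M : ℕ), s59g_Inv2T W 3 M → 2 ∣ M →
    (s59_Unr W 3 2 → W.IsResiduallyModularOfLevel 3 (M / 2)) →
    (∀ q : ℕ, q.Prime → q ≠ 3 → q ≠ 2 → q ∣ M → ¬ s59_Unr W 3 q) →
    W.IsResiduallyModularOfLevel 3 M → s59g_AlmostModular W 3

/-- phase C at `p = 3`, even level, the `2`-old point supplied by [MP32] at every step. -/
theorem s59g_phaseC_threeW (h32 : s59g_MP32) (hf : s59g_IAflatThreeW) (hs : s59g_IAstrictThreeW)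
    (W : WeierstrassCurve ℤ) (hΔ : W.Δ ≠ 0) (hW : W.IsSemistableModel)
    (hirr : W.ModRepIsIrreducible 3) :
    ∀ M : ℕ, s59g_Inv2T W 3 M → 2 ∣ M →
      (∀ q : ℕ, q.Prime → q ≠ 3 → q ≠ 2 → q ∣ M → s59_Unr W 3 q → s59g_Scalar W 3 q) →
      W.IsResiduallyModularOfLevel 3 M →
      ∃ M' : ℕ, s59g_Inv2T W 3 M' ∧ 2 ∣ M' ∧
        (∀ q : ℕ, q.Prime → q ≠ 3 → q ≠ 2 → q ∣ M' → ¬ s59_Unr W 3 q) ∧
        W.IsResiduallyModularOfLevel 3 M' := by
  classical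
  intro M
  induction M using Nat.strong_induction_on with
  | _ M ih =>
    intro hinv h2M hsc hres
    by_cases hall : ∀ q : ℕ, q.Prime → q ≠ 3 → q ≠ 2 → q ∣ M → ¬ s59_Unr W 3 q
    · exact ⟨M, hinv, h2M, hall, hres⟩
    · push Not at hall
      obtain ⟨q₀, hq₀, hq₀p, hq₀2, hq₀M, hunr₀⟩ := hall
      set Bd : Finset ℕ :=
        M.primeFactors.filter (fun q => q ≠ 3 ∧ s59_Unr W 3 q ∧ s59g_Scalar W 3 q) with hBd
      have hmem : ∀ q : ℕ, q ∈ Bd ↔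
          q.Prime ∧ q ∣ M ∧ q ≠ 3 ∧ s59_Unr W 3 q ∧ s59g_Scalar W 3 q := by
        intro q
        rw [hBd, Finset.mem_filter, Nat.mem_primeFactors]
        constructor
        · rintro ⟨⟨h1, h2, -⟩, h3, h4, h5⟩
          exact ⟨h1, h2, h3, h4, h5⟩
        · rintro ⟨h1, h2, h3, h4, h5⟩
          exact ⟨⟨h1, h2, hinv.1.ne'⟩, h3, h4, h5⟩
      have hne : Bd.Nonempty :=
        ⟨q₀, (hmem q₀).mpr ⟨hq₀, hq₀M, hq₀p, hunr₀, hsc q₀ hq₀ hq₀p hq₀2 hq₀M hunr₀⟩⟩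
      have hB : ∀ q ∈ Bd, q.Prime ∧ q ≠ 3 ∧ q ∣ M ∧ s59_Unr W 3 q ∧ s59g_Scalar W 3 q := by
        intro q hqB
        obtain ⟨hq, hqM, hqp, hunr, hs⟩ := (hmem q).mp hqB
        exact ⟨hq, hqp, hqM, hunr, hs⟩
      have hram : ∀ ℓ : ℕ, ℓ.Prime → ℓ ≠ 3 → ℓ ≠ 2 → ℓ ∣ M → ℓ ∉ Bd → ¬ s59_Unr W 3 ℓ := by
        intro ℓ hℓ hℓp hℓ2 hℓM hℓB hunr
        exact hℓB ((hmem ℓ).mpr ⟨hℓ, hℓM, hℓp, hunr, hsc ℓ hℓ hℓp hℓ2 hℓM hunr⟩)
      have h2old : s59_Unr W 3 2 → W.IsResiduallyModularOfLevel 3 (M / 2) :=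
        fun hunr2 => h32 W hΔ hW hirr M hinv h2M hunr2 hres
      obtain ⟨q, hqB, hres'⟩ : ∃ q ∈ Bd, W.IsResiduallyModularOfLevel 3 (M / q) := by
        by_cases h3M : 3 ∣ M
        · exact hs W hΔ hW hirr M hinv.1 hinv.2.1 h3M (hinv.2.2 h3M) h2M h2old Bd hne hB hram hres
        · exact hf W hΔ hW hirr M hinv.1 hinv.2.1 h3M h2M h2old Bd hne hB hram hres
      obtain ⟨hq, hqM, hqp, hunr, hsq⟩ := (hmem q).mp hqB
      have hq2 : q ≠ 2 := s59g_scalar_ne_two Nat.prime_three hsq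
      have hd : M / q ∣ M := Nat.div_dvd_of_dvd hqM
      exact ih (M / q) (Nat.div_lt_self hinv.1 hq.one_lt) (s59g_Inv2T_of_dvd hinv hd)
        (s59g_two_dvd_div h2M hq hq2 hqM)
        (fun q' hq' hq'p hq'2 hq'M hunr' => hsc q' hq' hq'p hq'2 (hq'M.trans hd) hunr') hres'

structure s59g_NodesThreeW : Prop where
  car : s59g_CARgoodAt 3
  mrp : s59g_MRPevenAt 3
  mrpMult : s59g_MRPmultEvenAt 3
  mpBig : s59g_MPbigAt 3
  mp32 : s59g_MP32
  iaFlat : s59g_IAflatThreeW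
  iaStrict : s59g_IAstrictThreeW
  lift : s59g_LIFTThreeW

theorem s59g_R0_threeW (h : s59g_NodesThreeW)
    (W : WeierstrassCurve ℤ) (hΔ : W.Δ ≠ 0) (hW : W.IsSemistableModel)
    (hirr : W.ModRepIsIrreducible 3) (M₀ : ℕ) (hinv : s59g_Inv1 3 M₀)
    (hres : W.IsResiduallyModularOfLevel 3 M₀) :
    ∃ N : ℕ, ¬ 3 ^ 2 ∣ N ∧ W.IsModularModelOfLevel N ∧
      (∀ ℓ : ℕ, ℓ.Prime → (ℓ : ℤ) ∣ W.Δ → ℓ ∣ N) ∧ ∀ q : ℕ, q.Prime → ¬ q ^ 3 ∣ N := by
  have hpp : Nat.Prime 3 := Nat.prime_three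
  obtain ⟨M₁, h0, hsq, h2M₁, hres₁⟩ := s59g_step1W 3 hpp h.car W hΔ hW hirr M₀ hinv hres
  obtain ⟨M₂, hinv₂, h2M₂, hres₂⟩ :=
    s59g_step2aW 3 hpp (by norm_num) h.mrp h.mrpMult W hΔ hW hirr M₁ h0 hsq h2M₁ hres₁
  obtain ⟨M₃, hinv₃, h2M₃, hsc₃, hres₃⟩ :=
    s59g_phaseAT 3 W hΔ hW hirr (s59g_MPoddAt_three h.mpBig) M₂ hinv₂ h2M₂ hres₂
  obtain ⟨M₄, hinv₄, h2M₄, hram₄, hres₄⟩ :=
    s59g_phaseC_threeW h.mp32 h.iaFlat h.iaStrict W hΔ hW hirr M₃ hinv₃ h2M₃ hsc₃ hres₃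
  exact s59g_modular_of_almost 3 hpp W hΔ
    (h.lift W hΔ hW hirr M₄ hinv₄ h2M₄
      (fun hunr2 => h.mp32 W hΔ hW hirr M₄ hinv₄ h2M₄ hunr2 hres₄) hram₄ hres₄)

/-! ### (3) `p = 5` -/

/-- helper5's T-side condition at `p = 5`. -/
def s59g_T23 (W : WeierstrassCurve ℤ) (M : ℕ) : Prop :=
  2 ∣ M ∨ 3 ∣ M ∨ s59g_E2 W 5 2 ∨ s59g_E2 W 5 3

/-- **[LIFT_W] at `p = 5` under `hT23`** (helper5 + helper4 + helper6). -/
def s59g_LIFTfive23 : Prop :=
  ∀ (W : WeierstrassCurve ℤ), W.Δ ≠ 0 → W.IsSemistableModel →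
    W.ModRepIsIrreducible 5 → ∀ (M : ℕ), s59g_Inv2T W 5 M → s59g_T23 W M →
    (∀ q : ℕ, q.Prime → q ≠ 5 → q ∣ M → ¬ s59_Unr W 5 q) →
    W.IsResiduallyModularOfLevel 5 M → s59g_AlmostModular W 5

/-- **the corner at `p = 5`**: the level is prime to `6` and `2`, `3` are both level-raising (or bad) for `(W, 5)`. -/
def s59g_Corner5 : Prop :=
  ∀ (W : WeierstrassCurve ℤ), W.Δ ≠ 0 → W.IsSemistableModel →
    W.ModRepIsIrreducible 5 → ∀ (M : ℕ), s59g_Inv2T W 5 M → ¬ s59g_T23 W M →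
    (∀ q : ℕ, q.Prime → q ≠ 5 → q ∣ M → ¬ s59_Unr W 5 q) →
    W.IsResiduallyModularOfLevel 5 M → s59g_AlmostModular W 5

theorem s59g_LIFTTat_five_of (h23 : s59g_LIFTfive23) (hc : s59g_Corner5) : s59g_LIFTTat 5 := by
  intro W hΔ hW hirr M hinv hram hres
  by_cases hT : s59g_T23 W M
  · exact h23 W hΔ hW hirr M hinv hT hram hres
  · exact hc W hΔ hW hirr M hinv hT hram hres

structure s59g_NodesFiveW : Prop where
  car : s59g_CARgoodAt 5
  mrp : s59g_MRPevenAt 5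
  mrpMult : s59g_MRPmultEvenAt 5
  mpBig : s59g_MPbigAt 5
  mpThree : s59g_MPthree
  mpTwo : s59g_MPtwoFive
  iaFlat : s59g_IAflatAt 5 true
  iaStrict : s59g_IAstrictTAt 5 true
  lift23 : s59g_LIFTfive23
  corner : s59g_Corner5

theorem s59g_R0_fiveW (h : s59g_NodesFiveW)
    (W : WeierstrassCurve ℤ) (hΔ : W.Δ ≠ 0) (hW : W.IsSemistableModel)
    (hirr : W.ModRepIsIrreducible 5) (M₀ : ℕ) (hinv : s59g_Inv1 5 M₀)
    (hres : W.IsResiduallyModularOfLevel 5 M₀) :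
    ∃ N : ℕ, ¬ 5 ^ 2 ∣ N ∧ W.IsModularModelOfLevel N ∧
      (∀ ℓ : ℕ, ℓ.Prime → (ℓ : ℤ) ∣ W.Δ → ℓ ∣ N) ∧ ∀ q : ℕ, q.Prime → ¬ q ^ 3 ∣ N := by
  have hpp : Nat.Prime 5 := by norm_num
  obtain ⟨M₁, h0, hsq, h2M₁, hres₁⟩ := s59g_step1W 5 hpp h.car W hΔ hW hirr M₀ hinv hres
  obtain ⟨M₂, hinv₂, -, hres₂⟩ :=
    s59g_step2aW 5 hpp (by norm_num) h.mrp h.mrpMult W hΔ hW hirr M₁ h0 hsq h2M₁ hres₁
  obtain ⟨M, hinvM, hram, hresM⟩ :=
    s59g_lower2b_fiveT h.mpBig h.mpThree h.mpTwo W hΔ hW hirr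
      (s59g_IAatW_of h.iaFlat h.iaStrict W hΔ hW hirr) M₂ hinv₂ hres₂
  exact s59g_modular_of_almost 5 hpp W hΔ
    (s59g_LIFTTat_five_of h.lift23 h.corner W hΔ hW hirr M hinvM hram hresM)

/-- **S59 from the nodes of v3.7** — the frozen statement, verbatim.  CHECKED. -/
theorem s59g_S59_W (h3 : s59g_NodesThreeW) (h5 : s59g_NodesFiveW)
    (p : ℕ) (hp : p = 3 ∨ p = 5)
    (W : WeierstrassCurve ℤ) (hΔ : W.Δ ≠ 0) (hW : W.IsSemistableModel)
    (hirr : W.ModRepIsIrreducible p)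
    (M₀ : ℕ) [NeZero M₀] (hres₀ : W.IsResiduallyModularOfLevel p M₀)
    (hM₀ : ¬ p ^ 2 ∣ M₀)
    (hM₀3 : ∀ q : ℕ, q.Prime → q ≠ p → ¬ q ^ 3 ∣ M₀) :
    Mlc1IsModularModelOfExactConductorLevel W := by
  refine s59_of_R0 ?_ p hp W hΔ hW hirr M₀ hres₀ hM₀ hM₀3
  intro p hp W hΔ hW hirr M₀ _ hres hp2 h3'
  have hinv : s59g_Inv1 p M₀ := ⟨Nat.pos_of_ne_zero (NeZero.ne M₀), hp2, h3'⟩
  rcases hp with rfl | rfl
  · exact s59g_R0_threeW h3 W hΔ hW hirr M₀ hinv hres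
  · exact s59g_R0_fiveW h5 W hΔ hW hirr M₀ hinv hres

end Fermat.Agent.Lib.S59

end
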