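/-
PROGRAMME (R2) = S59 — adapter (helper1): the field `mp32 : s59g_MP32` of the contract graph v3.7/v3.8 (Mazur's principle at
`(p, q) = (3, 2)`, the former WALL) is CLOSED (helper2 `s59b_MP32`, `B2MP32.lean`; with helper7's `NZ*` and helper3's `UCar*`).
-/
import Fermat.Agent.Lib.S59.Graph3W
import Fermat.Agent.Lib.S59.B2MP32

set_option autoImplicit false

noncomputable section

namespace Fermat.Agent.Lib.S59

/-- [MP32] (helper2). -/
theorem s59g_mp32_ok : s59g_MP32 :=
  fun W hΔ hss hirr M hinv h2M hunr hres => s59b_MP32 W hΔ hss hirr M hinv h2M hunr hres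

end Fermat.Agent.Lib.S59

end
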