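/-
PROGRAMME (R2) = S59, node [MRP-mult] (helper6, prefix `s59q_`): **the W-side leaf at a prime of
MULTIPLICATIVE reduction with `ρ̄` peu ramifié** (`p ∣ v_p(Δ_W)`), `p ∈ {3, 5}`:
for `W / ℤ` with `p ∣ Δ`, `p ∤ c₄`, `p ∣ v_p(Δ)` and a place `A ∣ p` of `ℚ̄`, the field
`L = s59b_L W p = ℚ(W[p], μ_p)` is sub-critically ramified at `A` (`s44i_SubCrit`).

Route: helper2's frame `s59b_subCrit_of` (every inertia element `τ` of order `p` on `L` moves some
integral `g₁ ∈ L` by at most `1/(p−1)`) on the Legendre-type model `s59b_Model` of `BOrdModel`: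
`τ R − R` lies in the kernel of reduction (`s59b_twist_plus`), has `v x ≥ −2/(p−1)`
(`s59b_tors_x_ge`), and the displacement lemma `s59q_disp_leg` gives the witness
`g₁ ∈ {x, Y, Y / p^a}`, `Y = y + (a₁ x + a₃)/2`, where `a = v X(R)` is the level of `R`, an INTEGER
because `p · a ∈ v_p(Δ) ℤ` (unsigned level law) and `p ∣ v_p(Δ)`.
-/
import Fermat.Agent.Lib.S59.QMultDisp
import Fermat.Agent.Lib.S59.BOrdTrans
import Fermat.Agent.Lib.S59.BWSide

set_option autoImplicit false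
set_option linter.unusedSectionVars false
set_option linter.style.haveILetI false
set_option synthInstance.maxHeartbeats 400000

namespace Fermat.Agent.Lib.S59

open WeierstrassCurve WeierstrassCurve.Affine WeierstrassCurve.Affine.Point IsLocalRing
  Fermat.Agent.Lib.Frey Fermat.Agent.Lib.S33 Fermat.Agent.Lib.S41 Fermat.Agent.Lib.S44
  Fermat.Agent.Lib.S58 Fermat.Agent.Lib.EN

local notation "Kb" => AlgebraicClosure ℚ
local notation "Γℚ" => (AlgebraicClosure ℚ ≃ₐ[ℚ] AlgebraicClosure ℚ)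

noncomputable section

variable {W : WeierstrassCurve ℤ} {A : ValuationSubring Kb} {p : ℕ} {hp : p.Prime}
  {hA : A.LiesOverPrime p}

/-- `2 m = v_p(Δ_W)` on the Legendre-type model. -/
theorem s59q_model_two_m (M : s59b_Model W A hp hA) (hΔ : W.Δ ≠ 0) :
    2 * M.m = ((padicValInt p W.Δ : ℕ) : ℚ) := by
  set v := s59b_v hp hA with hv
  have H := M.leg
  have hΔeq : (fl_curve (M.δ : Kb) (M.ε : Kb)).Δ = ((W.Δ : ℤ) : Kb) := by
    rw [← M.hC, variableChange_Δ, s59b_C_u, inv_one, Units.val_one, one_pow, one_mul, s59b_EQb_Δ]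
  have h1 : v ((W.Δ : ℤ) : Kb) = (((padicValInt p W.Δ : ℕ) : ℚ) : WithTop ℚ) :=
    ford_vQ_intCast hp hA hΔ
  have hε' : v (M.ε : Kb) = ((0 : ℚ) : WithTop ℚ) := by rw [H.hε]; rfl
  have h2' : v (2 : Kb) = ((0 : ℚ) : WithTop ℚ) := by rw [H.h2]; rfl
  have h16 : v (16 : Kb) = ((0 : ℚ) : WithTop ℚ) := by
    have e : (16 : Kb) = 2 * 2 * (2 * 2) := by norm_num
    rw [e, fuc_ex_mul v (fuc_ex_mul v h2' h2') (fuc_ex_mul v h2' h2')]; congr 1; ring
  have hδε : v ((M.δ : Kb) - (M.ε : Kb)) = ((0 : ℚ) : WithTop ℚ) :=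
    fuc_ex_sub' v hε' H.hδ.ge H.hm
  have h3 : v ((fl_curve (M.δ : Kb) (M.ε : Kb)).Δ) = ((0 + 2 * M.m + 2 * 0 + 2 * 0 : ℚ) : WithTop ℚ) := by
    rw [ent_fl_curve_Δ]
    exact fuc_ex_mul v (fuc_ex_mul v (fuc_ex_mul v h16 (fuc_ex_sq v H.hδ)) (fuc_ex_sq v hε'))
      (fuc_ex_sq v hδε)
  rw [hΔeq, h1, WithTop.coe_eq_coe] at h3
  linarith

/-- integrality of `Y` on the Legendre-type model. -/
theorem s59q_leg_Y_int {K : Type*} [Field K] (v : AddValuation K (WithTop ℚ)) {δ ε X Y : K}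
    (hδ : 0 ≤ v δ) (hε : 0 ≤ v ε) (hX : 0 ≤ v X) (heq : Y ^ 2 = X * (X - δ) * (X - ε)) :
    0 ≤ v Y := by
  by_contra hcon
  rw [not_le] at hcon
  have hY0 : Y ≠ 0 := (s59b_v_inv_pos v hcon).1
  obtain ⟨s, hs⟩ := fuc_exists_ex v hY0
  have hs0 : s < 0 := by
    rw [hs] at hcon; exact_mod_cast hcon
  have h3 := fuc_ex_sq v hs
  rw [heq] at h3
  have h4 : 0 ≤ v (X * (X - δ) * (X - ε)) :=
    s59b_v_mul_ge v (s59b_v_mul_ge v hX (s59b_v_sub_ge v hX hδ)) (s59b_v_sub_ge v hX hε)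
  rw [h3] at h4
  have : (0 : ℚ) ≤ 2 * s := by exact_mod_cast h4
  linarith

/-- **the integral case**: an inertia element of order `p` on `L` which moves an integral `p`-torsion
point moves some integral element of `L` by at most `1/(p−1)`. -/
theorem s59q_mult_int (hp35 : p = 3 ∨ p = 5) (hp2 : p ≠ 2) (hΔ : W.Δ ≠ 0)
    (M : s59b_Model W A hp hA) (hpeu : p ∣ padicValInt p W.Δ) (τ : Γℚ)
    (hτ : τ ∈ A.inertiaSubgroupIn ℚ) (hτp : ∀ a ∈ s59b_L W p, (τ ^ p) a = a) {x y : Kb}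
    (h : ((W.map (Int.castRingHom ℚ))⁄Kb).Nonsingular x y)
    (h' : ((W.map (Int.castRingHom ℚ))⁄Kb).Nonsingular (τ x) (τ y))
    (htor : p • (Point.some x y h : s58_Pt W) = 0)
    (hσR : τ • (Point.some x y h : s58_Pt W) = Point.some (τ x) (τ y) h')
    (hne : (Point.some (τ x) (τ y) h' : s58_Pt W) ≠ Point.some x y h)
    (hneg : (Point.some (τ x) (τ y) h' : s58_Pt W) ≠ -Point.some x y h)
    (hxint : 0 ≤ s59b_v hp hA x) :
    ∃ g₁ ∈ s59b_L W p, g₁ ∈ A ∧ τ g₁ ≠ g₁ ∧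
      s59b_v hp hA (τ g₁ - g₁) ≤ (((1 : ℚ) / ((p : ℚ) - 1) : ℚ) : WithTop ℚ) := by
  classical
  haveI : IsAlgClosed (ResidueField A) := s41a_isAlgClosed_residueField A
  haveI : CharP (ResidueField A) p := s41a_charP_residueField A hp hA
  set v := s59b_v hp hA with hv
  have H := M.leg
  set φ := s59b_phi M with hφ
  obtain ⟨hτv, hτres⟩ := ford_vQ_inertia hp hA τ hτ
  have hτD := (ford_inertia_spec A τ hτ).1
  obtain ⟨hxL, hyL⟩ := s59b_coord_mem W p h htor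
  have hp1 : (0 : ℚ) < (p : ℚ) - 1 := by
    rcases hp35 with rfl | rfl <;> norm_num
  have hvp : v ((p : ℕ) : Kb) = 1 := ford_vQ_q hp hA
  have hpv : 0 < v ((p : ℕ) : Kb) := lt_of_lt_of_eq zero_lt_one hvp.symm
  have hδ0 : 0 ≤ v (M.δ : Kb) := by
    rw [H.hδ]; exact_mod_cast H.hm.le
  -- the Legendre coordinates
  rcases hQ : φ.symm (Point.some x y h) with _ | ⟨X, Y, hXY⟩
  · exfalso
    have h0 : φ.symm (Point.some x y h) = 0 := hQ
    have h1 : (Point.some x y h : s58_Pt W) = 0 := by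
      rw [← φ.apply_symm_apply (Point.some x y h), h0, _root_.map_zero]
    exact Point.some_ne_zero _ h1
  have hP : (Point.some x y h : s58_Pt W) = φ (Point.some X Y hXY) := by
    rw [← hQ, φ.apply_symm_apply]
  have hPsome := s59b_phi_some M hXY
  rw [← hφ, ← hP] at hPsome
  obtain ⟨hcx, hcy⟩ := Point.some.inj hPsome
  have hxX : x = X + M.e₁ := by
    rw [hcx]; simp [fvc_X]
  have hyY : Y = y + (((W.a₁ : ℤ) : Kb) * x + ((W.a₃ : ℤ) : Kb)) / 2 := by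
    rw [hcy, hxX]
    simp only [fvc_Y, s59b_C_u, s59b_C_s, s59b_C_t, Units.val_one, one_pow, one_mul,
      s59b_EQb_a₁, s59b_EQb_a₃]
    ring
  obtain ⟨hXY', he⟩ := s59b_smul_phi_some M τ hXY
  rw [← hφ] at he
  set η := τ M.e₁ - M.e₁ with hη
  have hXYl : (fl_curve (M.δ : Kb) (M.ε : Kb)).toAffine.Nonsingular X Y := hXY
  have hXYl' : (fl_curve (M.δ : Kb) (M.ε : Kb)).toAffine.Nonsingular (τ X + η) (τ Y) := hXY'
  have hτP : (Point.some (τ x) (τ y) h' : s58_Pt W) = φ (Point.some (τ X + η) (τ Y) hXY') := by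
    rw [← hσR, hP, he]
  have htorP : p • (Point.some X Y hXY : s59b_PtK A M.δ M.ε) = 0 := by
    apply φ.injective
    rw [map_nsmul, ← hP, htor, _root_.map_zero]
  have htorP' : p • (Point.some (τ X + η) (τ Y) hXY' : s59b_PtK A M.δ M.ε) = 0 := by
    apply φ.injective
    rw [map_nsmul, ← hτP, ← hσR, ← s59b_smul_nsmul, htor, _root_.map_zero]
    exact smul_zero (A := s58_Pt W) τ
  have hneP : (Point.some (τ X + η) (τ Y) hXY' : s59b_PtK A M.δ M.ε) ≠ Point.some X Y hXY :=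
    fun e => hne (by rw [hτP, hP, e])
  have hnegP : (Point.some (τ X + η) (τ Y) hXY' : s59b_PtK A M.δ M.ε) ≠ -Point.some X Y hXY :=
    fun e => hneg (by rw [hτP, hP, e, map_neg])
  have hxx : τ X + η ≠ X := fun e =>
    (s59b_eq_or_neg (fl_curve (M.δ : Kb) (M.ε : Kb)).toAffine hXYl hXYl' e).elim hneP hnegP
  have hdxe : τ x - x = τ X + η - X := by
    rw [hxX, map_add, hη]; ring
  have hXint : 0 ≤ v X := by
    have e : X = x - M.e₁ := by rw [hxX]; ring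
    rw [e]; exact s59b_v_sub_ge v hxint M.he₁
  have heqn := fuc_leg_eqn hXYl
  have hYint : 0 ≤ v Y := s59q_leg_Y_int v hδ0 H.hε.ge hXint heqn
  have hYL : Y ∈ s59b_L W p := by
    rw [hyY]
    refine (s59b_L W p).add_mem hyL ((s59b_L W p).div_mem ?_ ?_)
    · exact (s59b_L W p).add_mem ((s59b_L W p).mul_mem (intCast_mem _ _) hxL) (intCast_mem _ _)
    · exact ofNat_mem _ 2
  have hdx : 0 < v (τ X + η - X) := by
    rw [← hdxe]; exact hτres x hxint
  have hdy0 : 0 < v (τ Y - Y) := hτres Y hYint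
  have hτpY : (⇑(τ : Kb →+* Kb))^[p] Y = Y := by
    have h0 := hτp Y hYL
    rw [AlgEquiv.coe_pow] at h0
    exact h0
  have hdy : Y ≠ 0 → v Y < v (τ Y - Y) := fun hY0 =>
    s59b_theta v (τ : Kb →+* Kb) p hp hp2 hpv hτv hτres Y hY0 hτpY
  -- the level of the point
  have hlaw := fuc_level_nsmul H.hm (fuc_lvl_nonneg v H.hm) (fuc_lvl_le v H.hm) (s59b_law H)
    (Point.some X Y hXY) p
  rw [htorP, fuc_lvl_zero] at hlaw
  obtain ⟨z, hz⟩ := hlaw
  have h2m := s59q_model_two_m M hΔ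
  obtain ⟨k, hk⟩ := hpeu
  have hkq : ((padicValInt p W.Δ : ℕ) : ℚ) = (p : ℚ) * (k : ℚ) := by rw [hk]; push_cast; ring
  have hp0 : (p : ℚ) ≠ 0 := Nat.cast_ne_zero.mpr hp.ne_zero
  set lv := fuc_lvl v M.m (Point.some X Y hXY : s59b_PtK A M.δ M.ε) with hlv
  have hlvint : ∃ j : ℤ, lv = (j : ℚ) := by
    rcases hz with hz | hz
    · refine ⟨-(z * k), ?_⟩
      have : (p : ℚ) * lv = (p : ℚ) * (-(z * k)) := by rw [h2m, hkq] at hz; linarith
      have := mul_left_cancel₀ hp0 this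
      rw [this]; push_cast; ring
    · refine ⟨z * k, ?_⟩
      have : (p : ℚ) * lv = (p : ℚ) * (z * k) := by rw [h2m, hkq] at hz; linarith
      have := mul_left_cancel₀ hp0 this
      rw [this]; push_cast; ring
  have hlvm : lv ≠ M.m := by
    intro e
    have hm0 : M.m ≠ 0 := H.hm.ne'
    obtain ⟨t, ht⟩ := hp.odd_of_ne_two hp2
    rcases hz with hz | hz
    · rw [e] at hz
      have h5 : ((p : ℚ) + 2 * z) * M.m = 0 := by linarith
      have h6 : (p : ℚ) + 2 * z = 0 := (mul_eq_zero.mp h5).resolve_right hm0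
      have h7 : (p : ℤ) + 2 * z = 0 := by exact_mod_cast h6
      omega
    · rw [e] at hz
      have h5 : ((p : ℚ) - 2 * z) * M.m = 0 := by linarith
      have h6 : (p : ℚ) - 2 * z = 0 := (mul_eq_zero.mp h5).resolve_right hm0
      have h7 : (p : ℤ) - 2 * z = 0 := by exact_mod_cast h6
      omega
  have hspec : fuc_IsLvl v M.m X lv := fuc_lvl_some_spec v M.m hXY
  have hXm : v X < (M.m : WithTop ℚ) := by
    rcases hspec with ⟨hx, -⟩ | ⟨s, hx, -, hsm, -⟩ | ⟨-, ht⟩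
    · exact lt_of_le_of_lt hx (by exact_mod_cast H.hm)
    · rw [hx]; exact_mod_cast hsm
    · exact absurd ht hlvm
  -- the difference lies in the kernel of reduction
  have hE1 := s59b_twist_plus H hp hp2 (σ := (τ : Kb →+* Kb)) hτv hτres (M.hD τ hτD) hXY hXY' 1
    (by rw [pow_one]; exact htorP) (by rw [pow_one]; exact htorP')
  have hΔl : (fl_curve (M.δ : Kb) (M.ε : Kb)).toAffine.Δ ≠ 0 := s59b_Δ_ne_zero H
  have hQ : ∀ (xq yq : Kb) (hq : (fl_curve (M.δ : Kb) (M.ε : Kb)).toAffine.Nonsingular xq yq),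
      Affine.Point.some (τ X + η) (τ Y) hXYl' - Affine.Point.some X Y hXYl =
        Affine.Point.some xq yq hq →
      v xq < 0 ∧ ((-(2 * ((1 : ℚ) / ((p : ℚ) - 1))) : ℚ) : WithTop ℚ) ≤ v xq := by
    intro xq yq hq hsub
    have hE1' : fl_InE1 v (Affine.Point.some xq yq hq) := by
      rw [← hsub]; exact hE1
    have hxq : v xq < 0 := by
      rcases hE1' with h0 | ⟨x₁, y₁, h₁, he₁, hx₁⟩
      · exact absurd h0 (Point.some_ne_zero _)
      · rw [(Point.some.inj he₁).1]; exact hx₁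
    refine ⟨hxq, ?_⟩
    have htorQ : p • Affine.Point.some xq yq hq = 0 := by
      rw [← hsub, nsmul_sub]
      have e1 : p • Affine.Point.some (τ X + η) (τ Y) hXYl' = 0 := htorP'
      have e2 : p • Affine.Point.some X Y hXYl = 0 := htorP
      rw [e1, e2, sub_zero]
    have h1 : 0 ≤ v (fl_curve (M.δ : Kb) (M.ε : Kb)).toAffine.a₁ := by
      show 0 ≤ v (0 : Kb)
      rw [v.map_zero]; exact le_top
    have h2 : 0 ≤ v (fl_curve (M.δ : Kb) (M.ε : Kb)).toAffine.a₂ := by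
      show 0 ≤ v (-((M.δ : Kb) + (M.ε : Kb)))
      rw [v.map_neg]; exact s59b_v_add_ge v hδ0 H.hε.ge
    have h3 : 0 ≤ v (fl_curve (M.δ : Kb) (M.ε : Kb)).toAffine.a₃ := h1
    have h4 : 0 ≤ v (fl_curve (M.δ : Kb) (M.ε : Kb)).toAffine.a₄ := by
      show 0 ≤ v ((M.δ : Kb) * (M.ε : Kb))
      exact s59b_v_mul_ge v hδ0 H.hε.ge
    have h6 : 0 ≤ v (fl_curve (M.δ : Kb) (M.ε : Kb)).toAffine.a₆ := h1
    have := s59b_tors_x_ge v (fl_curve (M.δ : Kb) (M.ε : Kb)).toAffine hΔl h1 h2 h3 h4 h6 p hp35 hvp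
      hq htorQ hxq
    have e : (-(2 * ((1 : ℚ) / ((p : ℚ) - 1))) : ℚ) = (-2 : ℚ) / ((p : ℚ) - 1) := by ring
    rw [e]; exact this
  rcases s59q_disp_leg v H.hm H.hδ H.hε H.h2 hXYl hXYl' hxx hXint hXm hdx hdy0 hdy hQ with
    hb | ⟨-, hYne, hb⟩ | ⟨a, ha0, haX, haY, hYne, hb⟩
  · -- witness `x`
    refine ⟨x, hxL, (ford_vQ_nonneg_iff hp hA x).mp hxint, ?_, ?_⟩
    · intro e
      apply hxx
      have : τ X + η - X = 0 := by rw [← hdxe, e, sub_self]
      exact sub_eq_zero.mp this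
    · rw [hdxe]; exact hb
  · -- witness `Y`
    exact ⟨Y, hYL, (ford_vQ_nonneg_iff hp hA Y).mp hYint, hYne, hb⟩
  · -- the node case: witness `Y / p ^ a`
    have hlva : lv = a := by
      have hXm' : a < M.m := by
        rw [haX] at hXm; exact_mod_cast hXm
      exact fuc_isLvl_unique v H.hm hspec (Or.inr (Or.inl ⟨a, haX, ha0, hXm', rfl⟩))
    obtain ⟨j, hj⟩ := hlvint
    rw [hlva] at hj
    have hj0 : 0 < j := by
      have : (0 : ℚ) < (j : ℚ) := by rw [← hj]; exact ha0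
      exact_mod_cast this
    obtain ⟨n, hn⟩ : ∃ n : ℕ, j = (n : ℤ) := ⟨j.toNat, (Int.toNat_of_nonneg hj0.le).symm⟩
    have han : a = (n : ℚ) := by rw [hj, hn]; push_cast; rfl
    have hpn0 : ((p : ℕ) : Kb) ^ n ≠ 0 := pow_ne_zero _ (Nat.cast_ne_zero.mpr hp.ne_zero)
    have hvpn : v (((p : ℕ) : Kb) ^ n) = ((n : ℚ) : WithTop ℚ) := by
      rw [v.map_pow, hvp, ← WithTop.coe_one, ← WithTop.coe_nsmul, nsmul_eq_mul, mul_one]
    have hτpn : τ (((p : ℕ) : Kb) ^ n) = ((p : ℕ) : Kb) ^ n := by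
      rw [map_pow, map_natCast]
    refine ⟨Y / ((p : ℕ) : Kb) ^ n, (s59b_L W p).div_mem hYL (pow_mem (natCast_mem _ p) n), ?_, ?_, ?_⟩
    · rw [← ford_vQ_nonneg_iff hp hA, v.map_div, haY, hvpn, han]
      rw [← WithTop.LinearOrderedAddCommGroup.coe_sub, sub_self]; rfl
    · rw [map_div₀, hτpn]
      intro e
      exact hYne ((div_left_inj' hpn0).mp e)
    · have e : τ (Y / ((p : ℕ) : Kb) ^ n) - Y / ((p : ℕ) : Kb) ^ n = (τ Y - Y) / ((p : ℕ) : Kb) ^ n := by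
        rw [map_div₀, hτpn, sub_div]
      have hD0 : τ Y - Y ≠ 0 := sub_ne_zero.mpr hYne
      obtain ⟨t, ht⟩ := fuc_exists_ex v hD0
      rw [ht, WithTop.coe_le_coe] at hb
      rw [e, v.map_div, ht, hvpn, ← WithTop.LinearOrderedAddCommGroup.coe_sub, WithTop.coe_le_coe]
      rw [han] at hb
      linarith

/-- **[L6_W] at a multiplicative prime, `ρ̄` peu ramifié, `p ∈ {3, 5}`.** -/
theorem s59q_wSideMult (p : ℕ) (hp35 : p = 3 ∨ p = 5) (hp : p.Prime) (W : WeierstrassCurve ℤ)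
    (hΔ : W.Δ ≠ 0) (hbad : (p : ℤ) ∣ W.Δ) (hc4 : ¬ (p : ℤ) ∣ W.c₄)
    (hpeu : p ∣ padicValInt p W.Δ) (A : ValuationSubring Kb) (hA : A.LiesOverPrime p) :
    ∃ L : IntermediateField ℚ Kb, FiniteDimensional ℚ ↥L ∧ Normal ℚ ↥L ∧ s59b_SplitsW W p L ∧
      s44i_SubCrit p hp A hA L := by
  have hp2 : p ≠ 2 := by
    rcases hp35 with rfl | rfl <;> decide
  haveI : Fact p.Prime := ⟨hp⟩
  have hfin := s59b_L_finite W hΔ p hp
  have hnorm := s59b_L_normal W p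
  refine ⟨s59b_L W p, hfin, hnorm, s59b_L_splits W p, ?_⟩
  refine s59b_subCrit_of p hp hp2 A hA _ hfin hnorm (s59b_not_sq_dvd_finrank_L W p hΔ hp2) ?_
  intro τ hτ hτp hτne
  obtain ⟨hτv, hτres⟩ := ford_vQ_inertia hp hA τ hτ
  obtain ⟨M⟩ := s59b_exists_model (hp := hp) (hA := hA) W hp2 hΔ hbad hc4
  -- `τ` fixes `μ_p`, hence moves a coordinate of a `p`-torsion point
  have hmu : ∀ ζ : Kb, ζ ^ p = 1 → τ ζ = ζ :=
    s59b_tau_fix_mu p τ (fun ζ hζ => hτp ζ (s59b_zeta_mem W p hζ))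
  obtain ⟨a, ha, hane⟩ := s59b_moves_gen W p τ hτne
  rcases ha with ⟨X, Y, h, htor, haXY⟩ | ha
  swap
  · exact absurd (hmu a ha) hane
  obtain ⟨h', hσR⟩ := s59b_smul_some W τ h
  have htor' : p • (Point.some (τ X) (τ Y) h' : s58_Pt W) = 0 := by
    rw [← hσR, ← s59b_smul_nsmul, htor]
    exact smul_zero (A := s58_Pt W) τ
  have hne : (Point.some (τ X) (τ Y) h' : s58_Pt W) ≠ Point.some X Y h := by
    intro e
    have h0 := Point.some.inj e
    rcases haXY with rfl | rfl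
    · exact hane h0.1
    · exact hane h0.2
  have hneg : (Point.some (τ X) (τ Y) h' : s58_Pt W) ≠ -Point.some X Y h := by
    intro e
    apply hne
    rw [← hσR] at e ⊢
    exact s59b_not_neg W p hp hp2 τ hτp _ htor e
  obtain ⟨hXL, hYL⟩ := s59b_coord_mem W p h htor
  obtain ⟨h1, h2, h3, h4, h6⟩ := s59b_curve_int W p hp A hA
  have hΔ0 : ((W.map (Int.castRingHom ℚ))⁄Kb).Δ ≠ 0 := by
    have e : ((W.map (Int.castRingHom ℚ))⁄Kb).Δ = ((W.Δ : ℤ) : Kb) := by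
      simp [WeierstrassCurve.baseChange]
    rw [e]
    exact Int.cast_ne_zero.mpr hΔ
  have hvp : ford_vQ A hp hA ((p : ℕ) : Kb) = 1 := ford_vQ_q hp hA
  have hpv : 0 < ford_vQ A hp hA ((p : ℕ) : Kb) := lt_of_lt_of_eq zero_lt_one hvp.symm
  by_cases hXint : 0 ≤ ford_vQ A hp hA X
  · -- the integral case
    obtain ⟨g₁, hgL, hgA, hgne, hb⟩ := s59q_mult_int hp35 hp2 hΔ M hpeu τ hτ hτp h h' htor hσR hne
      hneg hXint
    exact ⟨g₁, hgL, hgA, hgne, Or.inl hb⟩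
  · -- the case `v X < 0` (no hypothesis on the reduction is needed here)
    rw [not_le] at hXint
    obtain ⟨hX0, hUpos⟩ := s59b_v_inv_pos (ford_vQ A hp hA) hXint
    obtain ⟨r, hr⟩ := s59b_v_coe (ford_vQ A hp hA) hX0
    have hr0 : r < 0 := by
      rw [hr] at hXint
      exact_mod_cast hXint
    have hr' : ford_vQ A hp hA (τ X) = (r : WithTop ℚ) := by rw [hτv, hr]
    have hvY := s59b_v_y (ford_vQ A hp hA) _ h1 h2 h3 h4 h6 hr hr0 h.1
    have hY0 : Y ≠ 0 := by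
      rintro rfl
      rw [AddValuation.map_zero] at hvY
      exact WithTop.top_ne_coe hvY
    have hτpY : (⇑(τ : Kb →+* Kb))^[p] Y = Y := by
      have h0 := hτp Y hYL
      rw [AlgEquiv.coe_pow] at h0
      exact h0
    have hdy : ford_vQ A hp hA Y < ford_vQ A hp hA (τ Y - Y) :=
      s59b_theta (ford_vQ A hp hA) (τ : Kb →+* Kb) p hp hp2 hpv hτv hτres Y hY0 hτpY
    have hv2 : ford_vQ A hp hA (2 : Kb) = 0 := s59b_v_two hp hA hp2
    obtain ⟨hxx, hb⟩ := s59b_disp_E1 (ford_vQ A hp hA) ((W.map (Int.castRingHom ℚ))⁄Kb) hΔ0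
      h1 h2 h3 h4 h6 p hp35 hvp hv2 h h' htor htor' hne hneg hr hr0 hr' hdy
    have hτX0 : τ X ≠ 0 := (map_ne_zero τ).mpr hX0
    have hdx0 : τ X - X ≠ 0 := sub_ne_zero.mpr hxx
    obtain ⟨d, hd⟩ := s59b_v_coe (ford_vQ A hp hA) hdx0
    rw [hd, WithTop.coe_lt_coe] at hb
    refine ⟨X⁻¹, (s59b_L W p).inv_mem hXL, (ford_vQ_nonneg_iff hp hA _).mp hUpos.le, ?_, Or.inr ?_⟩
    · rw [map_inv₀]
      intro e
      exact hxx (inv_injective e)
    · have e : τ X⁻¹ - X⁻¹ = -(τ X - X) / (τ X * X) := by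
        rw [map_inv₀]
        field_simp
        ring
      rw [e, AddValuation.map_div, AddValuation.map_neg, AddValuation.map_mul, hd, hr', hr,
        AddValuation.map_inv, hr, ← WithTop.coe_add, ← WithTop.LinearOrderedAddCommGroup.coe_sub,
        ← WithTop.LinearOrderedAddCommGroup.coe_neg, ← WithTop.coe_add, WithTop.coe_lt_coe]
      linarith

end

end Fermat.Agent.Lib.S59
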