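/-
PROGRAMME (R2) = S59 — ADAPTER (helper1): the fields `mrpMult` of the contract graph are CLOSED, at `p = 3` and at `p = 5`.
`s59g_MRPmultEvenAt p` ⇐ helper6's W-side leaf `s59q_wSideMult` (`QMultSide.lean`: `ℚ(W[p], μ_p)` is sub-critically ramified
at a multiplicative peu prime) + helper2's tops `s59b_MRP_three_of_wside` / `s59b_MRP_five_of_wside` (`B3TopW.lean`).
Imports byte copies of the owners' files; proves nothing new.
-/
import Fermat.Agent.Lib.S59.Graph3U
import Fermat.Agent.Lib.S59.B3TopW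
import Fermat.Agent.Lib.S59.QMultSide

set_option autoImplicit false

open CongruenceSubgroup ModularFormClass

noncomputable section

namespace Fermat.Agent.Lib.S59

/-- `s59g_Peu W p` in the form consumed by helper6: `p ∣ v_p(Δ_W)` with the integer valuation. -/
theorem s59g_peu_padicValInt {W : WeierstrassCurve ℤ} {p : ℕ} (hpeu : s59g_Peu W p) :
    p ∣ padicValInt p W.Δ := by
  unfold s59g_Peu WeierstrassCurve.IsPeuRamifieeAt at hpeu
  rw [WeierstrassCurve.map_Δ] at hpeu
  have h1 : padicValRat p ((Int.castRingHom ℚ) W.Δ) = padicValInt p W.Δ := by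
    rw [eq_intCast]
    exact padicValRat.of_int
  rw [h1] at hpeu
  exact Int.natCast_dvd_natCast.mp hpeu

/-- the W-side at a multiplicative peu prime `p ∈ {3, 5}` of a semistable `W` (helper6). -/
theorem s59g_wSideAt_of_multPeu (p : ℕ) (hp35 : p = 3 ∨ p = 5) (W : WeierstrassCurve ℤ)
    (hΔ : W.Δ ≠ 0) (hW : W.IsSemistableModel) (hbad : ¬ W.IsGoodPrimeFor p)
    (hpeu : s59g_Peu W p) : s59b_WSideAt W p := by
  intro hp A hA
  have hdvd : (p : ℤ) ∣ W.Δ := not_not.mp hbad
  exact s59q_wSideMult p hp35 hp W hΔ hdvd (hW p hp hdvd) (s59g_peu_padicValInt hpeu) A hA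

/-- **[MRP-mult] at `p = 3`, even level** (helper6 + helper2). -/
theorem s59g_mrpMult_three_ok : s59g_MRPmultEvenAt 3 := by
  intro W hΔ hW hirr M hsq h2M h3M hbad hpeu hres
  exact s59b_MRP_three_of_wside 3 rfl Nat.prime_three (by norm_num) W hΔ hirr M hsq h3M h2M
    (s59g_wSideAt_of_multPeu 3 (Or.inl rfl) W hΔ hW hbad hpeu) hres

/-- **[MRP-mult] at `p = 5`** (helper6 + helper2). -/
theorem s59g_mrpMult_five_ok : s59g_MRPmultEvenAt 5 := by
  intro W hΔ hW hirr M hsq _ h5M hbad hpeu hres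
  exact s59b_MRP_five_of_wside 5 le_rfl (by norm_num) (by norm_num) W hΔ hirr M hsq h5M
    (s59g_wSideAt_of_multPeu 5 (Or.inr rfl) W hΔ hW hbad hpeu) hres

end Fermat.Agent.Lib.S59

end
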