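/-
PROGRAMME R2 = S59, background track (helper3, prefix `s59u_`): **THE AUXILIARY PRIME AT THE LEVEL.**

* `s59u_LevelOcc_stab`   : `s44i_LevelOcc N p a B → s44i_LevelOcc (N * r) p a (insert r B)` for a prime `r ∤ N`
                           (the `r`-stabilisation `g − β · V_r g` of S58, `s58q_stab`; no condition on `p`);
* `s59u_LevelOcc_mono`   : `s44i_LevelOcc` is monotone in `B`;
* `s59u_IAHypW_aux`      : `s59i_IAHypW W p N Bd B → s59i_IAHypW W p (N * r) Bd (insert r B)` for a prime `r ≠ p`, `r ∤ N`,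
                           which is TOLERATED (`¬ p ∣ r ^ 2 - 1`);
* `s59u_IAHypW_aux3`     : the case `r = 3`, `5 ≤ p` (`p ∤ 8`): the good-level condition `2 ∣ N ∨ 3 ∣ N` of the `T`-side
                           package (`s59e_TPkgW`) can always be forced.
-/
import Mathlib
import Fermat.Agent.Lib.S59.LFinW1
import Fermat.Agent.Lib.S58.QStabForm

set_option autoImplicit false
set_option linter.unusedSectionVars false
set_option linter.unusedVariables false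
set_option linter.style.haveILetI false

noncomputable section

namespace Fermat.Agent.Lib.S59

open CuspForm
open Fermat.Agent.Lib.S44 Fermat.Agent.Lib.S58

/-- `s44i_LevelOcc` is monotone in the exceptional set. -/
theorem s59u_LevelOcc_mono (N p : ℕ) (a : ℕ → ℤ) (B B' : Finset ℕ) (hBB' : B ⊆ B')
    (h : s44i_LevelOcc N p a B) : s44i_LevelOcc N p a B' := by
  obtain ⟨g, 𝔪, hg, hmax, hp, hcong⟩ := h
  exact ⟨g, 𝔪, hg, hmax, hp, fun ℓ hℓ hℓB => hcong ℓ hℓ (fun h => hℓB (hBB' h))⟩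

/-- **the auxiliary prime at the level**: the `r`-stabilisation of the eigenform. -/
theorem s59u_LevelOcc_stab (N p r : ℕ) [NeZero N] (hr : r.Prime) (hrN : ¬ r ∣ N) (a : ℕ → ℤ)
    (B : Finset ℕ) (h : s44i_LevelOcc N p a B) : s44i_LevelOcc (N * r) p a (insert r B) := by
  obtain ⟨g, 𝔪, hg, hmax, hp, hcong⟩ := h
  haveI : NeZero r := ⟨hr.ne_zero⟩
  obtain ⟨β, hβ⟩ := s58q_exists_root (ModularFormClass.qCoeff g r) (r : ℂ)
  obtain ⟨h1, h2⟩ := s58q_stab hr hrN g hg β hβ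
  refine ⟨s58q_stabForm N r g β, 𝔪, h1, hmax, hp, fun ℓ hℓ hℓB => ?_⟩
  have hℓr : ℓ ≠ r := fun h => hℓB (h ▸ Finset.mem_insert_self _ _)
  have hℓB' : ℓ ∉ B := fun h => hℓB (Finset.mem_insert_of_mem h)
  obtain ⟨α, hα, hmem⟩ := hcong ℓ hℓ hℓB'
  exact ⟨α, by rw [hα, h2 ℓ hℓ hℓr], hmem⟩

/-- **the hypotheses of [IA′-core] survive the addition of a tolerated auxiliary prime to the level.** -/
theorem s59u_IAHypW_aux (W : WeierstrassCurve ℤ) (p N r : ℕ) [Fact p.Prime] (Bd B : Finset ℕ)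
    (hr : r.Prime) (hrp : r ≠ p) (hrN : ¬ r ∣ N) (htol : ¬ p ∣ r ^ 2 - 1)
    (H : s59i_IAHypW W p N Bd B) : s59i_IAHypW W p (N * r) Bd (insert r B) := by
  have hpp : p.Prime := Fact.out
  haveI : NeZero N := ⟨H.hN0.ne'⟩
  refine ⟨H.hss, H.hirr, Nat.mul_pos H.hN0 hr.pos, ?_, ?_, H.hne, ?_, ?_, ?_, ?_, ?_⟩
  · -- squarefree
    have hcop : N.Coprime r := (Nat.Coprime.symm ((Nat.Prime.coprime_iff_not_dvd hr).mpr hrN))
    exact (Nat.squarefree_mul hcop).mpr ⟨H.hNsq, hr.squarefree⟩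
  · -- `p ∤ N r`
    intro hd
    rcases hpp.dvd_mul.mp hd with h | h
    · exact H.hpN h
    · exact hrp ((Nat.prime_dvd_prime_iff_eq hpp hr).mp h).symm
  · intro q hq
    obtain ⟨h1, h2, h3, h4, h5, h6⟩ := H.hBd q hq
    exact ⟨h1, h2, Dvd.dvd.mul_right h3 r, h4, h5, h6⟩
  · intro ℓ hℓ hℓp hℓN hℓBd
    rcases hℓ.dvd_mul.mp hℓN with h | h
    · exact H.hram ℓ hℓ hℓp h hℓBd
    · have : ℓ = r := (Nat.prime_dvd_prime_iff_eq hℓ hr).mp h
      subst this
      exact Or.inr htol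
  · intro s hs hsd
    rcases hs.dvd_mul.mp hsd with h | h
    · rcases hs.dvd_mul.mp h with h' | h'
      · exact Finset.mem_insert_of_mem (H.hB1 s hs (Dvd.dvd.mul_right h' p))
      · have : s = r := (Nat.prime_dvd_prime_iff_eq hs hr).mp h'
        subst this
        exact Finset.mem_insert_self _ _
    · exact Finset.mem_insert_of_mem (H.hB1 s hs (Dvd.dvd.mul_left h N))
  · intro s hs hsbad
    exact Finset.mem_insert_of_mem (H.hB2 s hs hsbad)
  · exact s59u_LevelOcc_stab N p r hr hrN _ B H.hocc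

/-- **the auxiliary prime `3`** (`p ≥ 5`, `3 ∤ N`): `3` is tolerated since `p ∤ 8`. -/
theorem s59u_IAHypW_aux3 (W : WeierstrassCurve ℤ) (p N : ℕ) [Fact p.Prime] (hp5 : 5 ≤ p)
    (Bd B : Finset ℕ) (h3N : ¬ 3 ∣ N) (H : s59i_IAHypW W p N Bd B) :
    s59i_IAHypW W p (N * 3) Bd (insert 3 B) ∧ (2 ∣ N * 3 ∨ 3 ∣ N * 3) := by
  have hpp : p.Prime := Fact.out
  refine ⟨s59u_IAHypW_aux W p N 3 Bd B Nat.prime_three (by omega) h3N ?_ H,
    Or.inr (dvd_mul_left 3 N)⟩
  intro hd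
  have h8 : p ∣ 2 ^ 3 := by simpa using hd
  have h2 : p ∣ 2 := hpp.dvd_of_dvd_pow h8
  have := Nat.le_of_dvd (by norm_num) h2
  omega

end Fermat.Agent.Lib.S59
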