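/-
PROGRAMME R2 = S59, background track (helper3, prefix `s59u_`): **INTEGRATION TEST — [IA′-core] FOR A GENERAL SEMISTABLE `W`
AT `p = 5` AS ONE CHECKED THEOREM.**

helper4's pointwise assembly `s59i_IAcoreW_pt` (LFinW2) fed with
* the `R`-side package `s59q_RPkgW` (helper6, QWRPkg; `p = 3 ∨ p = 5`),
* the `T`-side package `s59e_TPkgW` (helper5, ETPkgW; `5 ≤ p`, `2 ∣ N ∨ 3 ∣ N`),
* FIN-B for `W`, `s59u_W_FinB` (UWFinB; `5 ≤ p`).

* `s59u_IAcoreW_of_five_le` : `p = 3 ∨ p = 5`, `5 ≤ p`, `s59i_IAHypW W p N Bd B`, `2 ∣ N ∨ 3 ∣ N`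
                              ⊢ `∃ q ∈ Bd, s44i_LevelOcc (N / q) p a_W B`;
* `s59u_IAcoreW_aux3`       : the same WITHOUT the condition `2 ∣ N ∨ 3 ∣ N`, at the price of the auxiliary prime `3` in the level:
                              `∃ q ∈ Bd, s44i_LevelOcc (N * 3 / q) p a_W (insert 3 B)`;
* `s59u_IAcoreW_five`       : the case `p = 5` spelled out.
-/
import Mathlib
import Fermat.Agent.Lib.S59.LFinW2
import Fermat.Agent.Lib.S59.QWRPkg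
import Fermat.Agent.Lib.S59.ETPkgW
import Fermat.Agent.Lib.S59.UWFinB
import Fermat.Agent.Lib.S59.UAuxStab

set_option autoImplicit false
set_option linter.unusedSectionVars false
set_option linter.unusedVariables false
set_option linter.style.haveILetI false

noncomputable section

namespace Fermat.Agent.Lib.S59

open IsLocalRing
open Fermat.Agent.Lib.S44

/-- **[IA′-core] for a general semistable `W` at `p = 5`** (stated for `p` with `p = 3 ∨ p = 5` and `5 ≤ p`). -/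
theorem s59u_IAcoreW_of_five_le (p : ℕ) [Fact p.Prime] (hp35 : p = 3 ∨ p = 5) (hp5 : 5 ≤ p)
    (W : WeierstrassCurve ℤ) (hΔ : W.Δ ≠ 0) (N : ℕ) [NeZero N] (Bd B : Finset ℕ)
    (H : s59i_IAHypW W p N Bd B) (h23 : 2 ∣ N ∨ 3 ∣ N) :
    ∃ q ∈ Bd, s44i_LevelOcc (N / q) p (fun ℓ => W.apOfModel ℓ) B :=
  s59i_IAcoreW_pt p (by omega) W hΔ N Bd B H
    (fun 𝒪 _ _ _ _ _ _ _ _ hp𝒪 hs => s59q_RPkgW W hΔ hp𝒪 hp35 N Bd B H hs)
    (fun 𝒪 _ _ _ _ _ _ _ _ hp𝒪 hs v hv hζ Rd =>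
      s59e_TPkgW p hp5 W hΔ N Bd B H h23 𝒪 hp𝒪 hs v hv hζ Rd)
    (s59u_W_FinB W hΔ p hp5 N Bd B H)

/-- **the same without the good-level condition**, with the auxiliary prime `3` in the level when needed. -/
theorem s59u_IAcoreW_aux3 (p : ℕ) [Fact p.Prime] (hp35 : p = 3 ∨ p = 5) (hp5 : 5 ≤ p)
    (W : WeierstrassCurve ℤ) (hΔ : W.Δ ≠ 0) (N : ℕ) [NeZero N] (Bd B : Finset ℕ)
    (H : s59i_IAHypW W p N Bd B) (h3N : ¬ 3 ∣ N) :
    ∃ q ∈ Bd, s44i_LevelOcc (N * 3 / q) p (fun ℓ => W.apOfModel ℓ) (insert 3 B) := by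
  obtain ⟨H', h23⟩ := s59u_IAHypW_aux3 W p N hp5 Bd B h3N H
  haveI : NeZero (N * 3) := ⟨Nat.mul_ne_zero (NeZero.ne N) (by norm_num)⟩
  exact s59u_IAcoreW_of_five_le p hp35 hp5 W hΔ (N * 3) Bd (insert 3 B) H' h23

/-- **[IA′-core] for a general semistable `W` at `p = 5`.** -/
theorem s59u_IAcoreW_five [Fact (Nat.Prime 5)] (W : WeierstrassCurve ℤ) (hΔ : W.Δ ≠ 0) (N : ℕ)
    [NeZero N] (Bd B : Finset ℕ) (H : s59i_IAHypW W 5 N Bd B) (h23 : 2 ∣ N ∨ 3 ∣ N) :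
    ∃ q ∈ Bd, s44i_LevelOcc (N / q) 5 (fun ℓ => W.apOfModel ℓ) B :=
  s59u_IAcoreW_of_five_le 5 (Or.inr rfl) le_rfl W hΔ N Bd B H h23

end Fermat.Agent.Lib.S59
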