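/-
PROGRAMME R2 = S59, background track (helper3, prefix `s59u_`): **THE NODE [IA-div] OF GRAPH v3.1 AT `p = 5`, FLAT CASE** —
from `W.IsResiduallyModularOfLevel` to `W.IsResiduallyModularOfLevel`, in helper1's vocabulary (`Graph3.lean`, `Graph3E.lean`).

`s59u_IAcoreW_of_five_le` (UIAW5: helper4's assembly + helper6's `R`-side + helper5's `T`-side + FIN-B for `W`) between
`s59u_levelOcc_of_resMod` (restriction to the primes outside `B`) and `s59u_cong_all` ([CONG-ALL], UCongAll).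

* `s59u_levelOcc_of_resMod` : `W.IsResiduallyModularOfLevel p M → s44i_LevelOcc M p a_W B` (`B ⊇` primes of `M p`, bad primes);
* `s59u_IAdiv_flat`  : `p = 3 ∨ p = 5`, `5 ≤ p`, `M` squarefree, `p ∤ M`, `2 ∣ M ∨ 3 ∣ M`, `Bd ≠ ∅` scalar primes, every other prime
                       `ℓ ≠ p` of `M` ramified OR TOLERATED (`¬ p ∣ ℓ² − 1`) ⊢ `∃ M' ∣ M, M' < M, ρ̄ modular of level M'`
                       (= the conclusion of `s59g_IAdiv`; the tolerance clause lets the architect run phase C at an EVEN level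
                       before phase B when `p = 5`);
* `s59u_IAdrop_flat` : the same without `2 ∣ M ∨ 3 ∣ M`, conclusion `s59g_Drop2 W p M` (the auxiliary prime `3` may enter the level);
* `s59u_IAdiv_five`  : `s59g_IAdiv` verbatim at `p = 5` for the levels with `5 ∤ M`, `2 ∣ M ∨ 3 ∣ M`.
-/
import Mathlib
import Fermat.Agent.Lib.S59.UIAW5
import Fermat.Agent.Lib.S59.UCongAll
import Fermat.Agent.Lib.S59.Graph3E

set_option autoImplicit false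
set_option linter.unusedSectionVars false
set_option linter.unusedVariables false
set_option linter.style.haveILetI false

noncomputable section

namespace Fermat.Agent.Lib.S59

open Fermat.Agent.Lib.S44

/-- restriction of the congruences to the primes outside `B`. -/
theorem s59u_levelOcc_of_resMod (W : WeierstrassCurve ℤ) (p M : ℕ) (B : Finset ℕ)
    (hB1 : ∀ r : ℕ, r.Prime → r ∣ M * p → r ∈ B)
    (hB2 : ∀ r : ℕ, r.Prime → ¬ W.IsGoodPrimeFor r → r ∈ B)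
    (hres : W.IsResiduallyModularOfLevel p M) :
    s44i_LevelOcc M p (fun ℓ => W.apOfModel ℓ) B := by
  obtain ⟨f, 𝔪, hf, hmax, hpm, hcong⟩ := hres
  refine ⟨f, 𝔪, hf, hmax, hpm, fun ℓ hℓ hℓB => ?_⟩
  have hgood : W.IsGoodPrimeFor ℓ := by
    by_contra hbad
    exact hℓB (hB2 ℓ hℓ hbad)
  have hℓM : ¬ ℓ ∣ M := fun hd => hℓB (hB1 ℓ hℓ (hd.mul_right p))
  have hℓp : ℓ ≠ p := by
    rintro rfl
    exact hℓB (hB1 ℓ hℓ (dvd_mul_left ℓ M))
  exact hcong ℓ hℓ hgood hℓM hℓp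

section Flat

variable (p : ℕ) [Fact p.Prime] (hp35 : p = 3 ∨ p = 5) (hp5 : 5 ≤ p)
  (W : WeierstrassCurve ℤ) (hΔ : W.Δ ≠ 0) (hW : W.IsSemistableModel)
  (hirr : W.ModRepIsIrreducible p) (M : ℕ) (hM0 : 0 < M) (hMsq : Squarefree M) (hpM : ¬ p ∣ M)
  (Bd : Finset ℕ) (hne : Bd.Nonempty)
  (hBd : ∀ q ∈ Bd, q.Prime ∧ q ≠ p ∧ q ∣ M ∧ s59_Unr W p q ∧ s59g_Scalar W p q)
  (hram : ∀ ℓ : ℕ, ℓ.Prime → ℓ ≠ p → ℓ ∣ M → ℓ ∉ Bd → ¬ s59_Unr W p ℓ ∨ ¬ p ∣ ℓ ^ 2 - 1)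
  (hres : W.IsResiduallyModularOfLevel p M)

include hΔ hW hirr hM0 hMsq hpM hne hBd hram hres in
/-- the hypotheses of [IA′-core] from the hypotheses of the node. -/
theorem s59u_IAHypW_of_node :
    s59i_IAHypW W p M Bd ((M * p).primeFactors ∪ W.Δ.natAbs.primeFactors) := by
  have hpp : p.Prime := Fact.out
  have hB1 : ∀ r : ℕ, r.Prime → r ∣ M * p →
      r ∈ (M * p).primeFactors ∪ W.Δ.natAbs.primeFactors := fun r hr hd =>
    Finset.mem_union_left _ (Nat.mem_primeFactors.mpr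
      ⟨hr, hd, Nat.mul_ne_zero hM0.ne' hpp.ne_zero⟩)
  have hB2 : ∀ r : ℕ, r.Prime → ¬ W.IsGoodPrimeFor r →
      r ∈ (M * p).primeFactors ∪ W.Δ.natAbs.primeFactors := by
    intro r hr hbad
    have hd : (r : ℤ) ∣ W.Δ := by
      by_contra h
      exact hbad h
    have hΔ0 : W.Δ ≠ 0 := hΔ
    exact Finset.mem_union_right _ (Nat.mem_primeFactors.mpr
      ⟨hr, Int.natCast_dvd.mp hd, Int.natAbs_ne_zero.mpr hΔ0⟩)
  exact
    { hss := hW
      hirr := hirr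
      hN0 := hM0
      hNsq := hMsq
      hpN := hpM
      hne := hne
      hBd := fun q hq => by
        obtain ⟨h1, h2, h3, h4, h5, h6⟩ := hBd q hq
        exact ⟨h1, h2, h3, h4, h5, h6⟩
      hram := hram
      hB1 := hB1
      hB2 := hB2
      hocc := s59u_levelOcc_of_resMod W p M _ hB1 hB2 hres }

include hp35 hp5 hΔ hW hirr hM0 hMsq hpM hne hBd hram hres in
/-- **[IA-div] at `p = 5`, flat case, good level.** -/
theorem s59u_IAdiv_flat (h23 : 2 ∣ M ∨ 3 ∣ M) :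
    ∃ M' : ℕ, M' ∣ M ∧ M' < M ∧ W.IsResiduallyModularOfLevel p M' := by
  have hp2 : p ≠ 2 := by omega
  haveI : NeZero M := ⟨hM0.ne'⟩
  have H := s59u_IAHypW_of_node p W hΔ hW hirr M hM0 hMsq hpM Bd hne hBd hram hres
  obtain ⟨q, hqBd, hocc⟩ := s59u_IAcoreW_of_five_le p hp35 hp5 W hΔ M Bd _ H h23
  obtain ⟨hq, -, hqM, -, -⟩ := hBd q hqBd
  have hdvd : M / q ∣ M := Nat.div_dvd_of_dvd hqM
  have hlt : M / q < M := Nat.div_lt_self hM0 hq.one_lt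
  haveI : NeZero (M / q) := ⟨(Nat.pos_of_dvd_of_pos hdvd hM0).ne'⟩
  exact ⟨M / q, hdvd, hlt, s59u_cong_all W hΔ p hp2 hirr (M / q) _ hocc⟩

include hp35 hp5 hΔ hW hirr hM0 hMsq hpM hne hBd hram hres in
/-- **[IA] at `p = 5`, flat case, any level**: a strictly smaller squarefree level prime to `p` (the auxiliary prime `3` may
enter the level). -/
theorem s59u_IAdrop_flat' :
    ∃ M' : ℕ, M' < M ∧ 0 < M' ∧ Squarefree M' ∧ ¬ p ∣ M' ∧
      (∀ ℓ : ℕ, ℓ.Prime → ℓ ∣ M' → ℓ ∣ M ∨ ℓ = 3) ∧ W.IsResiduallyModularOfLevel p M' := by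
  have hp2 : p ≠ 2 := by omega
  have hpp : p.Prime := Fact.out
  by_cases h23 : 2 ∣ M ∨ 3 ∣ M
  · obtain ⟨M', hd, hlt, hres'⟩ :=
      s59u_IAdiv_flat p hp35 hp5 W hΔ hW hirr M hM0 hMsq hpM Bd hne hBd hram hres h23
    exact ⟨M', hlt, Nat.pos_of_dvd_of_pos hd hM0, hMsq.squarefree_of_dvd hd,
      fun h => absurd (h.trans hd) hpM, fun ℓ _ hℓ => Or.inl (hℓ.trans hd), hres'⟩
  · have h3M : ¬ 3 ∣ M := fun h => h23 (Or.inr h)
    haveI : NeZero M := ⟨hM0.ne'⟩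
    have H := s59u_IAHypW_of_node p W hΔ hW hirr M hM0 hMsq hpM Bd hne hBd hram hres
    obtain ⟨q, hqBd, hocc⟩ := s59u_IAcoreW_aux3 p hp35 hp5 W hΔ M Bd _ H h3M
    obtain ⟨hq, hqp, hqM, -, hsc⟩ := hBd q hqBd
    obtain ⟨M₁, rfl⟩ : ∃ M₁, M = M₁ * q := ⟨M / q, (Nat.div_mul_cancel hqM).symm⟩
    have hq6 : 6 ≤ q := by
      have h2 := hq.two_le
      have h1 : p ≤ q - 1 := Nat.le_of_dvd (by omega) hsc.1
      omega
    have hM₁0 : 0 < M₁ := Nat.pos_of_mul_pos_right hM0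
    have e : M₁ * q * 3 / q = M₁ * 3 := by
      rw [mul_right_comm, Nat.mul_div_cancel _ hq.pos]
    rw [e] at hocc
    have h3M₁ : ¬ 3 ∣ M₁ := fun h => h3M (h.mul_right q)
    have hsq₁ : Squarefree M₁ := hMsq.squarefree_of_dvd (Dvd.intro _ rfl)
    have hsq : Squarefree (M₁ * 3) := by
      have hcop : M₁.Coprime 3 :=
        (Nat.Coprime.symm ((Nat.Prime.coprime_iff_not_dvd Nat.prime_three).mpr h3M₁))
      exact (Nat.squarefree_mul hcop).mpr ⟨hsq₁, Nat.prime_three.squarefree⟩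
    haveI : NeZero (M₁ * 3) := ⟨Nat.mul_ne_zero hM₁0.ne' (by norm_num)⟩
    refine ⟨M₁ * 3, by nlinarith, Nat.mul_pos hM₁0 (by norm_num), hsq, fun h => ?_, ?_,
      s59u_cong_all W hΔ p hp2 hirr (M₁ * 3) _ hocc⟩
    · rcases hpp.dvd_mul.mp h with h' | h'
      · exact hpM (h'.mul_right q)
      · have := Nat.le_of_dvd (by norm_num) h'
        omega
    · intro ℓ hℓ hd
      rcases hℓ.dvd_mul.mp hd with h' | h'
      · exact Or.inl (h'.mul_right q)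
      · exact Or.inr ((Nat.prime_dvd_prime_iff_eq hℓ Nat.prime_three).mp h')

include hp35 hp5 hΔ hW hirr hM0 hMsq hpM hne hBd hram hres in
/-- the same in helper1's vocabulary. -/
theorem s59u_IAdrop_flat : s59g_Drop2 W p M := by
  obtain ⟨M', hlt, h0, hsq, hpM', -, hres'⟩ :=
    s59u_IAdrop_flat' p hp35 hp5 W hΔ hW hirr M hM0 hMsq hpM Bd hne hBd hram hres
  exact ⟨M', hlt, ⟨h0, hsq, fun h => absurd h hpM'⟩, hres'⟩

end Flat

/-- **the node `s59g_IAdiv` of Graph v3.1 at `p = 5`, for the levels prime to `5` with `2 ∣ M ∨ 3 ∣ M`** (verbatim otherwise). -/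
theorem s59u_IAdiv_five [Fact (Nat.Prime 5)] (W : WeierstrassCurve ℤ) (hΔ : W.Δ ≠ 0)
    (hW : W.IsSemistableModel) (hirr : W.ModRepIsIrreducible 5) (M : ℕ)
    (hinv : s59g_Inv2 W 5 M) (h5M : ¬ 5 ∣ M) (h23 : 2 ∣ M ∨ 3 ∣ M) (Bd : Finset ℕ)
    (hne : Bd.Nonempty)
    (hBd : ∀ q ∈ Bd, q.Prime ∧ q ≠ 5 ∧ q ∣ M ∧ s59_Unr W 5 q ∧ s59g_Scalar W 5 q)
    (hram : ∀ ℓ : ℕ, ℓ.Prime → ℓ ≠ 5 → ℓ ∣ M → ℓ ∉ Bd → ¬ s59_Unr W 5 ℓ)
    (hres : W.IsResiduallyModularOfLevel 5 M) :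
    ∃ M' : ℕ, M' ∣ M ∧ M' < M ∧ W.IsResiduallyModularOfLevel 5 M' :=
  s59u_IAdiv_flat 5 (Or.inr rfl) le_rfl W hΔ hW hirr M hinv.1 hinv.2.1 h5M Bd hne hBd
    (fun ℓ hℓ hℓp hℓM hℓB => Or.inl (hram ℓ hℓ hℓp hℓM hℓB)) hres h23

end Fermat.Agent.Lib.S59
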