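/-
Programme (R2) = S59, Graph v3.3–v3.5 (helper1), field `iaFlat` at `p = 5` (helper3, prefix `s59u_`):

* `s59u_IAflat_five : s59g_IAflatAt 5 true` — helper1's node VERBATIM (`Graph3S.lean`): [IA′-core]_W at `p = 5`, flat
  levels (`5 ∤ M`), EVEN squarefree level, tolerant `hram` (`¬ Unr ∨ Tol`), rigid conclusion `∃ q ∈ Bd, ResMod 5 (M / q)`.
  Same proof as `s59u_IAdiv_flat` (`UIAdiv5.lean`): `s59u_IAHypW_of_node` + `s59u_IAcoreW_of_five_le` + `s59u_cong_all`.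
* `s59u_IAflat_five_aux` — the same with `2 ∣ M ∨ 3 ∣ M` instead of `2 ∣ M` (not a graph node; for the record).
-/
import Mathlib
import Fermat.Agent.Lib.S59.Graph3S
import Fermat.Agent.Lib.S59.UIAdiv5

set_option autoImplicit false
set_option linter.unusedSectionVars false
set_option linter.unusedVariables false
set_option linter.style.haveILetI false

namespace Fermat.Agent.Lib.S59

open Fermat.Agent.Lib.S44

/-- the rigid form of `s59u_IAdiv_flat` at `p = 5`: the level drops to `M / q` for some `q ∈ Bd`. -/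
theorem s59u_IAflat_five_aux (W : WeierstrassCurve ℤ) (hΔ : W.Δ ≠ 0) (hW : W.IsSemistableModel)
    (hirr : W.ModRepIsIrreducible 5) (M : ℕ) (hM0 : 0 < M) (hMsq : Squarefree M) (h5M : ¬ 5 ∣ M)
    (h23 : 2 ∣ M ∨ 3 ∣ M) (Bd : Finset ℕ) (hne : Bd.Nonempty)
    (hBd : ∀ q ∈ Bd, q.Prime ∧ q ≠ 5 ∧ q ∣ M ∧ s59_Unr W 5 q ∧ s59g_Scalar W 5 q)
    (hram : ∀ ℓ : ℕ, ℓ.Prime → ℓ ≠ 5 → ℓ ∣ M → ℓ ∉ Bd → ¬ s59_Unr W 5 ℓ ∨ s59g_Tol 5 ℓ)
    (hres : W.IsResiduallyModularOfLevel 5 M) :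
    ∃ q ∈ Bd, W.IsResiduallyModularOfLevel 5 (M / q) := by
  haveI : Fact (Nat.Prime 5) := ⟨by norm_num⟩
  haveI : NeZero M := ⟨hM0.ne'⟩
  have H := s59u_IAHypW_of_node 5 W hΔ hW hirr M hM0 hMsq h5M Bd hne hBd hram hres
  obtain ⟨q, hqBd, hocc⟩ := s59u_IAcoreW_of_five_le 5 (Or.inr rfl) le_rfl W hΔ M Bd _ H h23
  obtain ⟨hq, -, hqM, -, -⟩ := hBd q hqBd
  have hdvd : M / q ∣ M := Nat.div_dvd_of_dvd hqM
  haveI : NeZero (M / q) := ⟨(Nat.pos_of_dvd_of_pos hdvd hM0).ne'⟩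
  exact ⟨q, hqBd, s59u_cong_all W hΔ 5 (by norm_num) hirr (M / q) _ hocc⟩

/-- **helper1's node `s59g_IAflatAt 5 true`, verbatim.** -/
theorem s59u_IAflat_five : s59g_IAflatAt 5 true := by
  intro W hΔ hW hirr M hM0 hMsq h5M hev Bd hne hBd hram hres
  exact s59u_IAflat_five_aux W hΔ hW hirr M hM0 hMsq h5M (Or.inl (hev rfl)) Bd hne hBd hram hres

end Fermat.Agent.Lib.S59
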