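/-
PROGRAMME (R2) = S59 — THE ADAPTER FILE (helper1): the CLOSED leaves of the owners, stated as the FIELDS of the contract
graph v3.5/v3.6 (`Graph3U.lean`, `Graph3V.lean`).  Imports the owners' files (byte copies of their branches); proves nothing new.

CLOSED so far:
  `s59g_mpBig_at`      : `s59g_MPbigAt p` for every odd prime `p`   (helper7 `s59n_MP_even`, `NMPEven.lean`)
  `s59g_mpThree_ok`    : `s59g_MPthree`                              (helper7 `s59nt_MPthree`, `NXGeo3.lean`)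
  `s59g_mrp_five`      : `s59g_MRPevenAt 5`                          (helper2 `s59b_MRPat_five`, `BWSide.lean`)
  `s59g_iaFlat_five`   : `s59g_IAflatAt 5 true`                      (helper3 `s59u_IAflat_five`, `UIAflat5.lean`)
and the reductions of S59 to the fields that are still OPEN:
  `s59g_S59_open : s59g_OpenThree → s59g_OpenFive → <frozen S59 verbatim>`.
-/
import Fermat.Agent.Lib.S59.Graph3V
import Fermat.Agent.Lib.S59.NMPEven
import Fermat.Agent.Lib.S59.NXGeo3
import Fermat.Agent.Lib.S59.BWSide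
import Fermat.Agent.Lib.S59.UIAflat5

set_option autoImplicit false

open CongruenceSubgroup ModularFormClass

noncomputable section

namespace Fermat.Agent.Lib.S59

/-- [MP-big] at every odd prime `p` (helper7). -/
theorem s59g_mpBig_at (p : ℕ) (hp : p.Prime) (hp2 : p ≠ 2) : s59g_MPbigAt p :=
  fun W hΔ _ hirr M q hsq h2M hq h5q hqp hqM hunr hres =>
    s59n_MP_even p hp hp2 W hΔ hirr M q hsq hq h5q hqp hqM h2M hunr hres

/-- [MP-three] (helper7). -/
theorem s59g_mpThree_ok : s59g_MPthree := s59nt_MPthree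

/-- [MRP_W] at `p = 5` (helper2). -/
theorem s59g_mrp_five : s59g_MRPevenAt 5 :=
  s59g_MRPevenAt_of (s59b_MRPat_five (by norm_num) (by norm_num))

/-- [IA′-core]_W at `p = 5`, flat levels (helper3, with helper4/5/6's packages). -/
theorem s59g_iaFlat_five : s59g_IAflatAt 5 true := s59u_IAflat_five

/-- the OPEN fields at `p = 3`. -/
structure s59g_OpenThree : Prop where
  car : s59g_CARat 3
  mrp : s59g_MRPevenAt 3
  mrpMult : s59g_MRPmultEvenAt 3
  iaFlat : s59g_IAflatThree
  iaStrict : s59g_IAstrictThree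
  lift : s59g_LIFTThree
  wall : s59g_Wall32c

/-- the OPEN fields at `p = 5`. -/
structure s59g_OpenFive : Prop where
  car : s59g_CARat 5
  mrpMult : s59g_MRPmultEvenAt 5
  mpTwo : s59g_MPtwoFive
  iaStrict : s59g_IAstrictTAt 5 true
  lift : s59g_LIFTTat 5

theorem s59g_nodesThreeV_of (h : s59g_OpenThree) : s59g_NodesThreeV :=
  ⟨h.car, h.mrp, h.mrpMult, s59g_mpBig_at 3 Nat.prime_three (by norm_num), h.iaFlat, h.iaStrict,
    h.lift, h.wall⟩

theorem s59g_nodesFiveU_of (h : s59g_OpenFive) : s59g_NodesFiveU :=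
  ⟨h.car, s59g_mrp_five, h.mrpMult, s59g_mpBig_at 5 (by norm_num) (by norm_num), s59g_mpThree_ok,
    h.mpTwo, s59g_iaFlat_five, h.iaStrict, h.lift⟩

/-- **S59 from the OPEN fields** — the frozen statement, verbatim. -/
theorem s59g_S59_open (h3 : s59g_OpenThree) (h5 : s59g_OpenFive)
    (p : ℕ) (hp : p = 3 ∨ p = 5)
    (W : WeierstrassCurve ℤ) (hΔ : W.Δ ≠ 0) (hW : W.IsSemistableModel)
    (hirr : W.ModRepIsIrreducible p)
    (M₀ : ℕ) [NeZero M₀] (hres₀ : W.IsResiduallyModularOfLevel p M₀)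
    (hM₀ : ¬ p ^ 2 ∣ M₀)
    (hM₀3 : ∀ q : ℕ, q.Prime → q ≠ p → ¬ q ^ 3 ∣ M₀) :
    Mlc1IsModularModelOfExactConductorLevel W :=
  s59g_S59_V (s59g_nodesThreeV_of h3) (s59g_nodesFiveU_of h5) p hp W hΔ hW hirr M₀ hres₀ hM₀ hM₀3

end Fermat.Agent.Lib.S59

end
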