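/-
PROGRAMME (R2) = S59 — THE ADAPTER FILE for the contract graph v3.7 (`Graph3W.lean`) (helper1): the CLOSED leaves of the owners
as FIELDS of the graph.  Imports the owners' files (byte copies of their branches); proves nothing new.

CLOSED (via `GLeaves.lean`): `s59g_mpBig_at` (helper7), `s59g_mpThree_ok` (helper7), `s59g_mrp_five` (helper2),
`s59g_iaFlat_five` (helper3);  NEW here: `s59g_mrp_three : s59g_MRPevenAt 3` (helper2 `s59b_MRPevenAt_three`, `B3Final.lean`).
`s59g_S59_openW : s59g_OpenThreeW → s59g_OpenFiveW → <frozen S59 verbatim>` = S59 from the fields that are still OPEN.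
-/
import Fermat.Agent.Lib.S59.Graph3W
import Fermat.Agent.Lib.S59.GLeaves
import Fermat.Agent.Lib.S59.B3Final

set_option autoImplicit false

open CongruenceSubgroup ModularFormClass

noncomputable section

namespace Fermat.Agent.Lib.S59

/-- [MRP_W] at `p = 3`, even level (helper2). -/
theorem s59g_mrp_three : s59g_MRPevenAt 3 := s59b_MRPevenAt_three

/-- the OPEN fields at `p = 3` (v3.7). -/
structure s59g_OpenThreeW : Prop where
  car : s59g_CARgoodAt 3
  mrpMult : s59g_MRPmultEvenAt 3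
  mp32 : s59g_MP32
  iaFlat : s59g_IAflatThreeW
  iaStrict : s59g_IAstrictThreeW
  lift : s59g_LIFTThreeW

/-- the OPEN fields at `p = 5` (v3.7). -/
structure s59g_OpenFiveW : Prop where
  car : s59g_CARgoodAt 5
  mrpMult : s59g_MRPmultEvenAt 5
  mpTwo : s59g_MPtwoFive
  iaStrict : s59g_IAstrictTAt 5 true
  lift23 : s59g_LIFTfive23
  corner : s59g_Corner5

theorem s59g_nodesThreeW_of (h : s59g_OpenThreeW) : s59g_NodesThreeW :=
  ⟨h.car, s59g_mrp_three, h.mrpMult, s59g_mpBig_at 3 Nat.prime_three (by norm_num), h.mp32,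
    h.iaFlat, h.iaStrict, h.lift⟩

theorem s59g_nodesFiveW_of (h : s59g_OpenFiveW) : s59g_NodesFiveW :=
  ⟨h.car, s59g_mrp_five, h.mrpMult, s59g_mpBig_at 5 (by norm_num) (by norm_num), s59g_mpThree_ok,
    h.mpTwo, s59g_iaFlat_five, h.iaStrict, h.lift23, h.corner⟩

/-- **S59 from the OPEN fields of v3.7** — the frozen statement, verbatim. -/
theorem s59g_S59_openW (h3 : s59g_OpenThreeW) (h5 : s59g_OpenFiveW)
    (p : ℕ) (hp : p = 3 ∨ p = 5)
    (W : WeierstrassCurve ℤ) (hΔ : W.Δ ≠ 0) (hW : W.IsSemistableModel)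
    (hirr : W.ModRepIsIrreducible p)
    (M₀ : ℕ) [NeZero M₀] (hres₀ : W.IsResiduallyModularOfLevel p M₀)
    (hM₀ : ¬ p ^ 2 ∣ M₀)
    (hM₀3 : ∀ q : ℕ, q.Prime → q ≠ p → ¬ q ^ 3 ∣ M₀) :
    Mlc1IsModularModelOfExactConductorLevel W :=
  s59g_S59_W (s59g_nodesThreeW_of h3) (s59g_nodesFiveW_of h5) p hp W hΔ hW hirr M₀ hres₀ hM₀ hM₀3

end Fermat.Agent.Lib.S59

end
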