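/-
PROGRAMME (R2) = S59 — THE ADAPTER FILE for the contract graph v3.9 (`Graph3Y.lean`) (helper1): ALL the closed leaves of the owners
plugged in; what remains is `s59g_OpenThreeY`, `s59g_OpenFiveY` = THE WHOLE REMAINING SURFACE of S59.

CLOSED at `p = 3`: `mrp` (helper2), `mrpMult` (helper6 + helper2), `mpBig` (helper7), `mp32` (helper2 + helper7), `iaFlatAB` (helper5).
CLOSED at `p = 5`: `mrp` (helper2), `mrpMult` (helper6 + helper2), `mpBig`, `mpThree`, `mpTwo` (helper7), `iaFlat` (helper3).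
`s59g_S59_openY : s59g_OpenThreeY → s59g_OpenFiveY → <frozen S59 verbatim>`.
-/
import Fermat.Agent.Lib.S59.Graph3Y
import Fermat.Agent.Lib.S59.GLeavesW
import Fermat.Agent.Lib.S59.GLeafMP2
import Fermat.Agent.Lib.S59.GLeafIA3
import Fermat.Agent.Lib.S59.GLeafMP32
import Fermat.Agent.Lib.S59.GLeafMult

set_option autoImplicit false

open CongruenceSubgroup ModularFormClass

noncomputable section

namespace Fermat.Agent.Lib.S59

/-- the OPEN fields at `p = 3` (v3.9). -/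
structure s59g_OpenThreeY : Prop where
  car : s59g_CARgoodAt 3
  iaFlatC : s59g_IAflatThreeC
  iaStrictAB : s59g_IAstrictThree
  iaStrictC : s59g_IAstrictThreeC
  liftABgt : s59g_LIFTThreeGT
  liftABp : s59g_LIFTThreeP
  liftCgt : s59g_LIFTThreeCGT
  liftCp : s59g_LIFTThreeCP

/-- the OPEN fields at `p = 5` (v3.9). -/
structure s59g_OpenFiveY : Prop where
  car : s59g_CARgoodAt 5
  iaStrict : s59g_IAstrictTAt 5 true
  lift23gt : s59g_LIFTfive23GT
  lift23p : s59g_LIFTfive23P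
  cornerGt : s59g_Corner5GT
  cornerP : s59g_Corner5P

theorem s59g_nodesThreeY_of (h : s59g_OpenThreeY) : s59g_NodesThreeY :=
  ⟨h.car, s59g_mrp_three, s59g_mrpMult_three_ok, s59g_mpBig_at 3 Nat.prime_three (by norm_num),
    s59g_mp32_ok, s59g_iaFlatThree_ok, h.iaFlatC, h.iaStrictAB, h.iaStrictC, h.liftABgt,
    h.liftABp, h.liftCgt, h.liftCp⟩

theorem s59g_nodesFiveY_of (h : s59g_OpenFiveY) : s59g_NodesFiveY :=
  ⟨h.car, s59g_mrp_five, s59g_mrpMult_five_ok, s59g_mpBig_at 5 (by norm_num) (by norm_num),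
    s59g_mpThree_ok, s59g_mpTwoFive_ok, s59g_iaFlat_five, h.iaStrict, h.lift23gt, h.lift23p,
    h.cornerGt, h.cornerP⟩

/-- **S59 from the OPEN fields of v3.9** — the frozen statement, verbatim. -/
theorem s59g_S59_openY (h3 : s59g_OpenThreeY) (h5 : s59g_OpenFiveY)
    (p : ℕ) (hp : p = 3 ∨ p = 5)
    (W : WeierstrassCurve ℤ) (hΔ : W.Δ ≠ 0) (hW : W.IsSemistableModel)
    (hirr : W.ModRepIsIrreducible p)
    (M₀ : ℕ) [NeZero M₀] (hres₀ : W.IsResiduallyModularOfLevel p M₀)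
    (hM₀ : ¬ p ^ 2 ∣ M₀)
    (hM₀3 : ∀ q : ℕ, q.Prime → q ≠ p → ¬ q ^ 3 ∣ M₀) :
    Mlc1IsModularModelOfExactConductorLevel W :=
  s59g_S59_Y (s59g_nodesThreeY_of h3) (s59g_nodesFiveY_of h5) p hp W hΔ hW hirr M₀ hres₀ hM₀ hM₀3

end Fermat.Agent.Lib.S59

end
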