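/-
Programme (R2) / node **[CAR]**, route R-DS′, W5 = the level `M q²` leaf (helper9, prefix `s59m_`): the TYPED CONTRACT of leaf
**[L2-5 LEFT]** (owner: helper7).

Setting: `q ≥ 5`, `q ∤ M`, a place `P ∣ q`, a finite base field `L₀ ⊂ ℚ̄` fixed by the inertia group of `P`,
`κ₀ = ResidueField (s18q_A0 P L₀)`, `Fb = modularFunctionFieldFullC κ₀ M` (the function field of `X₀(M)` over `κ₀`),
`Z = s59m_ZU M q hqM h5 P hP L₀ hunr` the canonical Σ-datum of level `M q` (`MCarTop.lean`), `τ_ℓ = s59u_tauD (M q) ℓ _ L₀`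
helper3's Kummer-side Hecke operator (`UCarTauD.lean`).

**`s59m_LeftLeaf M q p hqM h5 hpq`** (`p ≠ q` primes) : let `ρ ∈ Fbˣ` with
* `p ∣ ord_v ρ` at every place `v` of `Fb / κ₀`,
* `ρ ∉ κ₀ˣ · Fbˣᵖ`,
* for every prime `ℓ ∉ B` there is SOME Hecke correspondence `H : s59m_HeckeOn Z` with `H.T = τ_ℓ` (so that
  `H.Ti (red_∞ y) = red_∞ (τ_ℓ y)` for the units `y` of `V_∞`, field `red_i`; `red_∞ = Z.Ci.red` is surjective, hence
  `H.Ti` is determined on `Fbˣ` by `H.T`) with `H.Ti ρ = c · γ ^ p · ρ ^ (a ℓ)`, `c ∈ κ₀ˣ`, `γ ∈ Fbˣ`.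
Then there is a non-zero eigen-point `y ∈ J₀(M)[p]` with the eigenvalues `a ℓ` (`ℓ ∉ B`).

(Where it is used: `ρ = r₁ h` is the residue on the MIDDLE component of level `M q²` of the normalised Kummer generator `h` of
the eigen-point `x ∈ J₀(M q²)[p]`, in the case `p ∣ q - 1` when it is not a constant times a `p`-th power.  Proof plan:
`coeffMap (s37r_resMap P L₀) (H.Ti ρ) = N̄_ℓ (coeffMap … ρ)` as in helper3's `s59u_redInf_tauD_eq_one`; then the second half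
of `s59m_core` (`MRedTop.lean`): `s59m_liftK` + injectivity of the reduction on `J₀(M)[p]`; descent `κ̄ → κ₀` of
"`ρ` is a constant times a `p`-th power" by Hilbert 90.)
-/
import Fermat.Agent.Lib.S59.MCarTop
import Fermat.Agent.Lib.S59.UCarTauD
import Fermat.Agent.Lib.S44.Iface

set_option autoImplicit false
set_option linter.style.haveILetI false
set_option linter.unusedSectionVars false
set_option linter.unusedVariables false
set_option synthInstance.maxHeartbeats 400000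

noncomputable section

namespace Fermat.Agent.Lib.S59

open ModularCurve HahnSeries AlgebraicCurve Fermat.Agent.Lib.FF Fermat.Agent.Lib.S18
  Fermat.Agent.Lib.S28 Fermat.Agent.Lib.S29 Fermat.Agent.Lib.S37 Fermat.Agent.Lib.S34
  Fermat.Agent.Lib.S35 Fermat.Agent.Lib.S33 Fermat.Agent.Lib.S44

local notation "Kb" => AlgebraicClosure ℚ

/-- **The typed contract of leaf [L2-5 LEFT]** (see the header). -/
def s59m_LeftLeaf (M q p : ℕ) [NeZero M] [hq : Fact q.Prime] [hp : Fact p.Prime] (hqM : ¬ q ∣ M)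
    (h5 : 5 ≤ q) (hpq : p ≠ q) : Prop :=
  ∀ (P : ValuationSubring Kb) (hP : P.LiesOverPrime q) (L₀ : IntermediateField ℚ Kb)
    [FiniteDimensional ℚ ↥L₀] [CharP (IsLocalRing.ResidueField ↥(s18q_A0 P L₀)) q]
    [PerfectField (IsLocalRing.ResidueField ↥(s18q_A0 P L₀))]
    (hunr : ∀ τ ∈ P.inertiaSubgroupIn ℚ, ∀ a ∈ L₀, τ a = a)
    (a : ℕ → ℤ) (B : Finset ℕ), (∀ r : ℕ, r.Prime → r ∣ M * q * p → r ∈ B) →
    ∀ ρ : ↥(modularFunctionFieldFullC (IsLocalRing.ResidueField ↥(s18q_A0 P L₀)) M), ρ ≠ 0 →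
      (∀ v : Place (IsLocalRing.ResidueField ↥(s18q_A0 P L₀))
        ↥(modularFunctionFieldFullC (IsLocalRing.ResidueField ↥(s18q_A0 P L₀)) M), (p : ℤ) ∣ v.ord ρ) →
      (¬ ∃ (c : IsLocalRing.ResidueField ↥(s18q_A0 P L₀))
          (w : ↥(modularFunctionFieldFullC (IsLocalRing.ResidueField ↥(s18q_A0 P L₀)) M)),
          c ≠ 0 ∧ w ≠ 0 ∧ ρ = algebraMap (IsLocalRing.ResidueField ↥(s18q_A0 P L₀))
            ↥(modularFunctionFieldFullC (IsLocalRing.ResidueField ↥(s18q_A0 P L₀)) M) c * w ^ p) →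
      (∀ (ℓ : ℕ) [hℓ : Fact ℓ.Prime], ℓ ∉ B → ∃ (hℓN : ¬ ℓ ∣ M * q)
        (H : s59m_HeckeOn (s59m_ZU M q hqM h5 P hP L₀ hunr)),
        H.T = s59u_tauD (M * q) ℓ hℓN L₀ ∧
        ∃ (c : IsLocalRing.ResidueField ↥(s18q_A0 P L₀))
          (γ : ↥(modularFunctionFieldFullC (IsLocalRing.ResidueField ↥(s18q_A0 P L₀)) M)),
          c ≠ 0 ∧ γ ≠ 0 ∧ H.Ti ρ = algebraMap (IsLocalRing.ResidueField ↥(s18q_A0 P L₀))
            ↥(modularFunctionFieldFullC (IsLocalRing.ResidueField ↥(s18q_A0 P L₀)) M) c * γ ^ p *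
              ρ ^ (a ℓ)) →
      ∃ y : JZero M, y ≠ 0 ∧ s44i_Eig M p a B y

end Fermat.Agent.Lib.S59
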