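/-
Programme (R2) / node **[CAR]**, route R-DS′, W5 = the level `M q²` leaf (helper9, prefix `s59m_`): leaf **[L2-4a] NORM**.

A Kummer generator `h` over `L₀` (exponent `m`) of a point `x ∈ J₀(M q²)` with `α_* x = 0` (resp. `β_* x = 0`) has norm
`Nm_α h = c · H ^ m` (resp. `Nm_β h = c · H ^ m`) over `L₀`: S36's layer (D) (`s36v_norm_alpha_of_push`,
`s36v_norm_descent`, `s36v_norm_alpha_iota`) specialised to `g = 1`.
-/
import Fermat.Agent.Lib.S59.MCarFrame
import Fermat.Agent.Lib.S36.VDesc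

set_option autoImplicit false
set_option linter.style.haveILetI false
set_option linter.unusedSectionVars false
set_option linter.unusedVariables false

noncomputable section

namespace Fermat.Agent.Lib.S59

open ModularCurve AlgebraicCurve Fermat.Agent.Lib.FF Fermat.Agent.Lib.S18 Fermat.Agent.Lib.S33
  Fermat.Agent.Lib.S34 Fermat.Agent.Lib.S35 Fermat.Agent.Lib.S36

local notation "Kb" => AlgebraicClosure ℚ

variable (N q m : ℕ) [NeZero N] [NeZero q] (L₀ : IntermediateField ℚ Kb) [FiniteDimensional ℚ ↥L₀]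

/-- **[L2-4a], `α`**: `α_* x = 0` ⇒ the norm along `α` of a generator over `L₀` is a constant times an `m`-th power. -/
theorem s59m_norm_alpha_of_push (hm : m ≠ 0) {x : JZero (N * q)} {h : s34m_F ↥L₀ (N * q)}
    (hgen : s59m_genC (N * q) m L₀ x h) (hα : s36w_alphaPush N q x = 0) :
    ∃ (c₀ : ↥L₀) (H₀ : s34m_F ↥L₀ N),
      s35r_normAlong (heckeAlphaBar ↥L₀ N q) h = algebraMap ↥L₀ (s34m_F ↥L₀ N) c₀ * H₀ ^ m := by
  obtain ⟨hf0, D, hD, hfD⟩ := hgen
  subst hD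
  refine s36v_norm_descent N (N * q) L₀ (heckeAlphaBar ↥L₀ N q) (heckeAlphaBar Kb N q)
    (fun y => s36v_norm_alpha_iota (algebraMap ↥L₀ Kb) N q y) m hm h
    (s18q_incl (N * q) L₀ h) 1 (by rw [one_pow, mul_one])
    (s36v_norm_alpha_of_push N q m D hf0 (fun v => (hfD v).symm) hα)

/-- **[L2-4a], `β`**. -/
theorem s59m_norm_beta_of_push (hm : m ≠ 0) {x : JZero (N * q)} {h : s34m_F ↥L₀ (N * q)}
    (hgen : s59m_genC (N * q) m L₀ x h) (hβ : s36w_betaPush N q x = 0) :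
    ∃ (c₀ : ↥L₀) (H₀ : s34m_F ↥L₀ N),
      s35r_normAlong (heckeBetaBar ↥L₀ N q) h = algebraMap ↥L₀ (s34m_F ↥L₀ N) c₀ * H₀ ^ m := by
  obtain ⟨hf0, D, hD, hfD⟩ := hgen
  subst hD
  refine s36v_norm_descent N (N * q) L₀ (heckeBetaBar ↥L₀ N q) (heckeBetaBar Kb N q)
    (fun y => s36v_norm_beta_iota (algebraMap ↥L₀ Kb) N q y) m hm h
    (s18q_incl (N * q) L₀ h) 1 (by rw [one_pow, mul_one])
    (s36v_norm_beta_of_push N q m D hf0 (fun v => (hfD v).symm) hβ)

end Fermat.Agent.Lib.S59
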