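/-
Programme (R2) / node **[CAR]**, route R-DS′, W5 = the level `M q²` leaf (helper9, prefix `s59m_`): leaf **[L2-4b]**,
**THE NORM CONDITION (N-C), SHARP FORM** (abstract: Mathlib + S36's `GRootFrame`/`GRootAbs`).

In the frame `s36g_RootFrame A₀ q V V' α β Nα Nβ` (three valuation rings of level `M q²` over two of level `M q`), for a
function `g`, unit at the three rings, whose norms along `α` and `β` are constants times `m`-th powers (`m` prime to `q`):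

* on `V 0` and `V 2` (where one of the two maps is purely inseparable) `g` ITSELF is congruent to a constant times an
  `m`-th power (`s59m_rootNC_zero`, `s59m_rootNC_two`: the steps `key0`, `key2` of lead's `s36g_rootNC`);
* on `V 1` only `g ^ (q - 1)` is (`s36g_rootNC`); if `m` is prime to `q - 1` then `g` itself is
  (`s59m_rootNC_one_of_coprime`).
-/
import Fermat.Agent.Lib.S36.GRootAbs

set_option autoImplicit false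
set_option linter.unusedSectionVars false
set_option linter.unusedVariables false

namespace Fermat.Agent.Lib.S59

open Fermat.Agent.Lib.S36

variable {K₀ 𝓕 𝓕' : Type*} [Field K₀] [Field 𝓕] [Field 𝓕'] [Algebra K₀ 𝓕] [Algebra K₀ 𝓕']
  {A₀ : ValuationSubring K₀} {q : ℕ} {V : Fin 3 → ValuationSubring 𝓕}
  {V' : Fin 2 → ValuationSubring 𝓕'} {α β : 𝓕' →ₐ[K₀] 𝓕} {Nα Nβ : 𝓕 →* 𝓕'}
  (F : s36g_RootFrame A₀ q V V' α β Nα Nβ)

include F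

/-- **(N-C) on `V 2`** (through `α`, purely inseparable over `V' 1`). -/
theorem s59m_rootNC_two (hq : 0 < q) (m : ℕ) (hm : m ≠ 0) (hcop : Nat.Coprime q m) (g : 𝓕)
    (hg : ∀ i, (V i).valuation g = 1) (Cα : K₀) (Hα : 𝓕')
    (hNα : Nα g = algebraMap K₀ 𝓕' Cα * Hα ^ m) :
    ∃ (c₂ : K₀) (g₂ : 𝓕), A₀.valuation c₂ = 1 ∧ (V 2).valuation g₂ = 1 ∧
      g - algebraMap K₀ 𝓕 c₂ * g₂ ^ m ∈ (V 2).nonunits := by
  obtain ⟨a, b, hab⟩ := s36g_bezout hq hm hcop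
  obtain ⟨hα0, hα1⟩ := s36g_normα_unit F g hg
  obtain ⟨cα, zα, hcα, hzα0, hzα1, hNα'⟩ := s36g_normalise F hm (Nα g) hα0 hα1 Cα Hα hNα
  obtain ⟨r₂, hr₂, h₂⟩ := F.resα2 g (s36g_unit_mem (hg 2))
  have hN := F.normBα g r₂ (s36g_unit_mem (hg 2)) hr₂ h₂
  have h3 : s36t_Cong (V 2) (α (Nα g)) (α r₂) := (s36g_comap_cong _ F.comapα2).mp hN
  have h4 : s36t_Cong (V 2) (g ^ q) (α (Nα g)) := s36t_Cong.trans h₂ h3.symm
  have e : α (Nα g) = algebraMap K₀ 𝓕 cα * (α zα) ^ m := by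
    rw [hNα', map_mul, map_pow, AlgHom.commutes]
  rw [e] at h4
  have hαz : (V 2).valuation (α zα) = 1 := (s36g_comap_unit _ F.comapα2).mp hzα1
  obtain ⟨hu, hc⟩ := s36g_root_of_pow (V 2) (s36g_cstV_comap F 2) hab g (hg 2) cα hcα (α zα)
    hαz h4
  exact ⟨cα ^ a, _, by rw [map_pow, hcα, one_pow], hu, hc⟩

/-- **(N-C) on `V 0`** (through `β`, purely inseparable over `V' 0`). -/
theorem s59m_rootNC_zero (hq : 0 < q) (m : ℕ) (hm : m ≠ 0) (hcop : Nat.Coprime q m) (g : 𝓕)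
    (hg : ∀ i, (V i).valuation g = 1) (Cβ : K₀) (Hβ : 𝓕')
    (hNβ : Nβ g = algebraMap K₀ 𝓕' Cβ * Hβ ^ m) :
    ∃ (c₀ : K₀) (g₀ : 𝓕), A₀.valuation c₀ = 1 ∧ (V 0).valuation g₀ = 1 ∧
      g - algebraMap K₀ 𝓕 c₀ * g₀ ^ m ∈ (V 0).nonunits := by
  obtain ⟨a, b, hab⟩ := s36g_bezout hq hm hcop
  obtain ⟨hβ0, hβ1⟩ := s36g_normβ_unit F g hg
  obtain ⟨cβ, zβ, hcβ, hzβ0, hzβ1, hNβ'⟩ := s36g_normalise F hm (Nβ g) hβ0 hβ1 Cβ Hβ hNβ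
  obtain ⟨r₀, hr₀, h₀⟩ := F.resβ0 g (s36g_unit_mem (hg 0))
  have hN := F.normBβ g r₀ (s36g_unit_mem (hg 0)) hr₀ h₀
  have h3 : s36t_Cong (V 0) (β (Nβ g)) (β r₀) := (s36g_comap_cong _ F.comapβ0).mp hN
  have h4 : s36t_Cong (V 0) (g ^ q) (β (Nβ g)) := s36t_Cong.trans h₀ h3.symm
  have e : β (Nβ g) = algebraMap K₀ 𝓕 cβ * (β zβ) ^ m := by
    rw [hNβ', map_mul, map_pow, AlgHom.commutes]
  rw [e] at h4
  have hβz : (V 0).valuation (β zβ) = 1 := (s36g_comap_unit _ F.comapβ0).mp hzβ0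
  obtain ⟨hu, hc⟩ := s36g_root_of_pow (V 0) (s36g_cstV_comap F 0) hab g (hg 0) cβ hcβ (β zβ)
    hβz h4
  exact ⟨cβ ^ a, _, by rw [map_pow, hcβ, one_pow], hu, hc⟩

/-- **(N-C) on `V 1`** for `g ^ (q - 1)` (lead's `s36g_rootNC`). -/
theorem s59m_rootNC_one (hq : 0 < q) (m : ℕ) (hm : m ≠ 0) (hcop : Nat.Coprime q m) (g : 𝓕)
    (hg : ∀ i, (V i).valuation g = 1) (Cα Cβ : K₀) (Hα Hβ : 𝓕')
    (hNα : Nα g = algebraMap K₀ 𝓕' Cα * Hα ^ m) (hNβ : Nβ g = algebraMap K₀ 𝓕' Cβ * Hβ ^ m) :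
    ∃ (c₁ : K₀) (g₁ : 𝓕), A₀.valuation c₁ = 1 ∧ (V 1).valuation g₁ = 1 ∧
      g ^ (q - 1) - algebraMap K₀ 𝓕 c₁ * g₁ ^ m ∈ (V 1).nonunits :=
  s36g_rootNC F hq m hm hcop g hg Cα Cβ Hα Hβ hNα hNβ 1

/-- **(N-C) on `V 1` for `g` itself when `m` is prime to `q - 1`.** -/
theorem s59m_rootNC_one_of_coprime (hq : 1 < q) (m : ℕ) (hm : m ≠ 0) (hcop : Nat.Coprime q m)
    (hcop1 : Nat.Coprime (q - 1) m) (g : 𝓕)
    (hg : ∀ i, (V i).valuation g = 1) (Cα Cβ : K₀) (Hα Hβ : 𝓕')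
    (hNα : Nα g = algebraMap K₀ 𝓕' Cα * Hα ^ m) (hNβ : Nβ g = algebraMap K₀ 𝓕' Cβ * Hβ ^ m) :
    ∃ (c₁ : K₀) (g₁ : 𝓕), A₀.valuation c₁ = 1 ∧ (V 1).valuation g₁ = 1 ∧
      g - algebraMap K₀ 𝓕 c₁ * g₁ ^ m ∈ (V 1).nonunits := by
  obtain ⟨c₁, g₁, hc₁, hg₁, hcong⟩ :=
    s59m_rootNC_one F (by omega) m hm hcop g hg Cα Cβ Hα Hβ hNα hNβ
  obtain ⟨a, b, hab⟩ := s36g_bezout (q := q - 1) (by omega) hm hcop1
  obtain ⟨hu, hc⟩ := s36g_root_of_pow (V 1) (s36g_cstV_comap F 1) hab g (hg 1) c₁ hc₁ g₁ hg₁ hcong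
  exact ⟨c₁ ^ a, _, by rw [map_pow, hc₁, one_pow], hu, hc⟩

end Fermat.Agent.Lib.S59
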