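/-
Programme (R2) / node **[CAR]**, route R-DS′, W5 = the level `M q²` leaf (helper9, prefix `s59m_`): leaf **[L2-4 RED3]**,
**THE RESIDUES OF A GENERATOR ARE CONSTANTS TIMES `p`-TH POWERS** (concrete form over `D : s59m_L2Data …`).

* `D.rootFrame` : S36's root frame `s36g_RootFrame A₀ q D.V ![V'_∞, V'_0] α' β' Nm_α Nm_β` for the valuation data `D`
  (`s36n_frame_pkg`);
* **`D.red3 h5 p hpq hgen hα hβ hu`** : for a Kummer generator `h` over `L₀` (exponent `p ≠ q`) of a point `x` of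
  `J₀(M q²)` with `α_* x = 0 = β_* x`, unit at the three rings: there are constants `c j ≠ 0` of `κ₀` and functions
  `b j ≠ 0` of `Fb` with `rb 0 h = c 0 · (b 0) ^ p`, `rb 2 h = c 2 · (b 2) ^ p`, `(rb 1 h) ^ (q - 1) = c 1 · (b 1) ^ p`
  ([L2-4a] `s59m_norm_alpha_of_push`/`_beta_` + [L2-4b] `s59m_rootNC_zero/_one/_two`);
* `D.red3_one` : if `p` is prime to `q - 1`, also `rb 1 h = c · b ^ p`.
-/
import Fermat.Agent.Lib.S59.MCarL2F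
import Fermat.Agent.Lib.S59.MCarL2N
import Fermat.Agent.Lib.S59.MCarRootNC
import Fermat.Agent.Lib.S36.NormPkg

set_option autoImplicit false
set_option linter.style.haveILetI false
set_option linter.unusedSectionVars false
set_option linter.unusedVariables false
set_option synthInstance.maxHeartbeats 400000

noncomputable section

namespace Fermat.Agent.Lib.S59

open ModularCurve HahnSeries AlgebraicCurve Fermat.Agent.Lib.FF Fermat.Agent.Lib.S18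
  Fermat.Agent.Lib.S28 Fermat.Agent.Lib.S29 Fermat.Agent.Lib.S37 Fermat.Agent.Lib.S34
  Fermat.Agent.Lib.S35 Fermat.Agent.Lib.S33 Fermat.Agent.Lib.S44 Fermat.Agent.Lib.S36

local notation "Kb" => AlgebraicClosure ℚ

variable {M q : ℕ} [NeZero M] [hq : Fact q.Prime] {hqM : ¬ q ∣ M}
  {P : ValuationSubring Kb} {hP : P.LiesOverPrime q}
  {L₀ : IntermediateField ℚ Kb} [FiniteDimensional ℚ ↥L₀]
  {hunr : ∀ τ ∈ P.inertiaSubgroupIn ℚ, ∀ a ∈ L₀, τ a = a}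

/-- the two Gauss valuation rings of level `M q`. -/
def s59m_V2 (M q : ℕ) [NeZero M] [hq : Fact q.Prime] (hqM : ¬ q ∣ M)
    (P : ValuationSubring Kb) (hP : P.LiesOverPrime q)
    (L₀ : IntermediateField ℚ Kb) [FiniteDimensional ℚ ↥L₀]
    (hunr : ∀ τ ∈ P.inertiaSubgroupIn ℚ, ∀ a ∈ L₀, τ a = a) :
    Fin 2 → ValuationSubring (s34m_F ↥L₀ (M * q)) :=
  ![s34m_Vinf (s59m_GU q P hP L₀ hunr) (M * q),
    s34m_Vzero (s59m_GU q P hP L₀ hunr) (algebraMap ↥L₀ Kb) M q hq.out hqM]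

/-- **S36's root frame for the valuation data `D`.** -/
theorem s59m_L2Data.rootFrame (D : s59m_L2Data M q hqM P hP L₀ hunr) :
    haveI : NeZero q := ⟨hq.out.ne_zero⟩
    s36g_RootFrame (s59m_GU q P hP L₀ hunr).A q D.V (s59m_V2 M q hqM P hP L₀ hunr)
      (heckeAlphaBar ↥L₀ (M * q) q) (heckeBetaBar ↥L₀ (M * q) q)
      (s36n_normHom (heckeAlphaBar ↥L₀ (M * q) q)) (s36n_normHom (heckeBetaBar ↥L₀ (M * q) q)) := by
  haveI : NeZero q := ⟨hq.out.ne_zero⟩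
  exact s36n_frame_pkg (s59m_GU q P hP L₀ hunr) (algebraMap ↥L₀ Kb) M q hq.out hqM D.V
    (s59m_V2 M q hqM P hP L₀ hunr) IsLocalRing.residue_surjective (s59m_GU_unr q P hP L₀ hunr) D.pkg rfl rfl

variable (h5 : 5 ≤ q) [CharP (IsLocalRing.ResidueField ↥(s18q_A0 P L₀)) q]
  [PerfectField (IsLocalRing.ResidueField ↥(s18q_A0 P L₀))]

/-- the residue of a function congruent to a unit constant times an `m`-th power of a unit. -/
theorem s59m_L2Data.rb_of_cong (D : s59m_L2Data M q hqM P hP L₀ hunr) (j : Fin 3)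
    {y g : s34m_F ↥L₀ (M * q * q)} {c : ↥L₀} (m : ℕ) (hy : y ∈ D.V j)
    (hc : (s59m_GU q P hP L₀ hunr).A.valuation c = 1) (hg : (D.V j).valuation g = 1)
    (hcong : y - algebraMap ↥L₀ (s34m_F ↥L₀ (M * q * q)) c * g ^ m ∈ (D.V j).nonunits) :
    ∃ (c' : IsLocalRing.ResidueField ↥(s18q_A0 P L₀))
      (b : ↥(modularFunctionFieldFullC (IsLocalRing.ResidueField ↥(s18q_A0 P L₀)) M)),
      c' ≠ 0 ∧ b ≠ 0 ∧ D.rb h5 j ⟨y, hy⟩ =
        algebraMap (IsLocalRing.ResidueField ↥(s18q_A0 P L₀))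
          ↥(modularFunctionFieldFullC (IsLocalRing.ResidueField ↥(s18q_A0 P L₀)) M) c' * b ^ m := by
  obtain ⟨hcA, hcA', hc0⟩ := s36g_val_one_iff.mp hc
  obtain ⟨hgV, hgV', hg0⟩ := s36g_val_one_iff.mp hg
  set cA : (s59m_GU q P hP L₀ hunr).A := ⟨c, hcA⟩ with hcAdef
  set cA' : (s59m_GU q P hP L₀ hunr).A := ⟨c⁻¹, hcA'⟩ with hcA'def
  have hcc : cA * cA' = 1 := Subtype.ext (mul_inv_cancel₀ hc0)
  have hπ : (s59m_GU q P hP L₀ hunr).π cA * (s59m_GU q P hP L₀ hunr).π cA' = 1 := by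
    rw [← map_mul, hcc, map_one]
  have hgg : (⟨g, hgV⟩ : D.V j) * ⟨g⁻¹, hgV'⟩ = 1 := Subtype.ext (mul_inv_cancel₀ hg0)
  have hb : D.rb h5 j ⟨g, hgV⟩ * D.rb h5 j ⟨g⁻¹, hgV'⟩ = 1 := by
    rw [← map_mul, hgg, map_one]
  have hz : algebraMap ↥L₀ (s34m_F ↥L₀ (M * q * q)) c * g ^ m ∈ D.V j :=
    mul_mem (D.const_mem j c hcA) (pow_mem hgV m)
  refine ⟨(s59m_GU q P hP L₀ hunr).π cA, D.rb h5 j ⟨g, hgV⟩, left_ne_zero_of_mul_eq_one hπ,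
    left_ne_zero_of_mul_eq_one hb, ?_⟩
  have h0 : D.rb h5 j (⟨y, hy⟩ - ⟨_, hz⟩) = 0 := (D.rb_eq_zero_iff h5 j _).mpr hcong
  rw [map_sub, sub_eq_zero] at h0
  rw [h0]
  have e : (⟨algebraMap ↥L₀ (s34m_F ↥L₀ (M * q * q)) c * g ^ m, hz⟩ : D.V j) =
      ⟨algebraMap ↥L₀ (s34m_F ↥L₀ (M * q * q)) (cA : ↥L₀), D.const_mem j cA cA.2⟩ * ⟨g, hgV⟩ ^ m :=
    Subtype.ext rfl
  rw [e, map_mul, map_pow, D.rb_const h5 j cA]

variable (p : ℕ)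

/-- **[L2-4 RED3]** (see the header). -/
theorem s59m_L2Data.red3 (D : s59m_L2Data M q hqM P hP L₀ hunr) (hp : p ≠ 0) (hqp : Nat.Coprime q p)
    {x : JZero (M * q * q)} {h : s34m_F ↥L₀ (M * q * q)}
    (hgen : haveI : NeZero q := ⟨hq.out.ne_zero⟩; s59m_genC (M * q * q) p L₀ x h)
    (hα : haveI : NeZero q := ⟨hq.out.ne_zero⟩; s36w_alphaPush (M * q) q x = 0)
    (hβ : haveI : NeZero q := ⟨hq.out.ne_zero⟩; s36w_betaPush (M * q) q x = 0)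
    (hu : ∀ j, h ∈ D.V j ∧ h⁻¹ ∈ D.V j) :
    ∃ (c : Fin 3 → IsLocalRing.ResidueField ↥(s18q_A0 P L₀))
      (b : Fin 3 → ↥(modularFunctionFieldFullC (IsLocalRing.ResidueField ↥(s18q_A0 P L₀)) M)),
      (∀ j, c j ≠ 0) ∧ (∀ j, b j ≠ 0) ∧
      D.rb h5 0 ⟨h, (hu 0).1⟩ = algebraMap (IsLocalRing.ResidueField ↥(s18q_A0 P L₀))
        ↥(modularFunctionFieldFullC (IsLocalRing.ResidueField ↥(s18q_A0 P L₀)) M) (c 0) * b 0 ^ p ∧
      D.rb h5 1 ⟨h, (hu 1).1⟩ ^ (q - 1) = algebraMap (IsLocalRing.ResidueField ↥(s18q_A0 P L₀))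
        ↥(modularFunctionFieldFullC (IsLocalRing.ResidueField ↥(s18q_A0 P L₀)) M) (c 1) * b 1 ^ p ∧
      D.rb h5 2 ⟨h, (hu 2).1⟩ = algebraMap (IsLocalRing.ResidueField ↥(s18q_A0 P L₀))
        ↥(modularFunctionFieldFullC (IsLocalRing.ResidueField ↥(s18q_A0 P L₀)) M) (c 2) * b 2 ^ p := by
  haveI : NeZero q := ⟨hq.out.ne_zero⟩
  have hh0 : h ≠ 0 := by
    rintro rfl
    exact hgen.1 (map_zero _)
  have hg : ∀ i, (D.V i).valuation h = 1 := fun i =>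
    s36g_val_one_iff.mpr ⟨(hu i).1, (hu i).2, hh0⟩
  obtain ⟨Cα, Hα, hNα⟩ := s59m_norm_alpha_of_push (M * q) q p L₀ hp hgen hα
  obtain ⟨Cβ, Hβ, hNβ⟩ := s59m_norm_beta_of_push (M * q) q p L₀ hp hgen hβ
  have F := D.rootFrame
  obtain ⟨c₀, g₀, hc₀, hg₀, hcong₀⟩ :=
    s59m_rootNC_zero F hq.out.pos p hp hqp h hg Cβ Hβ hNβ
  obtain ⟨c₂, g₂, hc₂, hg₂, hcong₂⟩ :=
    s59m_rootNC_two F hq.out.pos p hp hqp h hg Cα Hα hNα
  obtain ⟨c₁, g₁, hc₁, hg₁, hcong₁⟩ :=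
    s59m_rootNC_one F hq.out.pos p hp hqp h hg Cα Cβ Hα Hβ hNα hNβ
  obtain ⟨c0', b0, hc0', hb0, e0⟩ := D.rb_of_cong h5 0 p (hu 0).1 hc₀ hg₀ hcong₀
  obtain ⟨c2', b2, hc2', hb2, e2⟩ := D.rb_of_cong h5 2 p (hu 2).1 hc₂ hg₂ hcong₂
  obtain ⟨c1', b1, hc1', hb1, e1⟩ := D.rb_of_cong h5 1 p (pow_mem (hu 1).1 (q - 1)) hc₁ hg₁ hcong₁
  refine ⟨![c0', c1', c2'], ![b0, b1, b2], ?_, ?_, e0, ?_, e2⟩
  · intro j; fin_cases j <;> assumption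
  · intro j; fin_cases j <;> assumption
  · have e : (⟨h ^ (q - 1), pow_mem (hu 1).1 (q - 1)⟩ : D.V 1) = ⟨h, (hu 1).1⟩ ^ (q - 1) :=
      Subtype.ext rfl
    rw [← map_pow, ← e]
    exact e1

/-- if `p` is prime to `q - 1`, the middle residue itself is a constant times a `p`-th power. -/
theorem s59m_L2Data.red3_one (D : s59m_L2Data M q hqM P hP L₀ hunr) (hp : p ≠ 0) (hqp : Nat.Coprime q p)
    (hqp1 : Nat.Coprime (q - 1) p)
    {x : JZero (M * q * q)} {h : s34m_F ↥L₀ (M * q * q)}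
    (hgen : haveI : NeZero q := ⟨hq.out.ne_zero⟩; s59m_genC (M * q * q) p L₀ x h)
    (hα : haveI : NeZero q := ⟨hq.out.ne_zero⟩; s36w_alphaPush (M * q) q x = 0)
    (hβ : haveI : NeZero q := ⟨hq.out.ne_zero⟩; s36w_betaPush (M * q) q x = 0)
    (hu : ∀ j, h ∈ D.V j ∧ h⁻¹ ∈ D.V j) :
    ∃ (c : IsLocalRing.ResidueField ↥(s18q_A0 P L₀))
      (b : ↥(modularFunctionFieldFullC (IsLocalRing.ResidueField ↥(s18q_A0 P L₀)) M)),
      c ≠ 0 ∧ b ≠ 0 ∧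
      D.rb h5 1 ⟨h, (hu 1).1⟩ = algebraMap (IsLocalRing.ResidueField ↥(s18q_A0 P L₀))
        ↥(modularFunctionFieldFullC (IsLocalRing.ResidueField ↥(s18q_A0 P L₀)) M) c * b ^ p := by
  haveI : NeZero q := ⟨hq.out.ne_zero⟩
  have hh0 : h ≠ 0 := by
    rintro rfl
    exact hgen.1 (map_zero _)
  have hg : ∀ i, (D.V i).valuation h = 1 := fun i =>
    s36g_val_one_iff.mpr ⟨(hu i).1, (hu i).2, hh0⟩
  obtain ⟨Cα, Hα, hNα⟩ := s59m_norm_alpha_of_push (M * q) q p L₀ hp hgen hα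
  obtain ⟨Cβ, Hβ, hNβ⟩ := s59m_norm_beta_of_push (M * q) q p L₀ hp hgen hβ
  have F := D.rootFrame
  obtain ⟨c₁, g₁, hc₁, hg₁, hcong₁⟩ :=
    s59m_rootNC_one_of_coprime F hq.out.one_lt p hp hqp hqp1 h hg Cα Cβ Hα Hβ hNα hNβ
  exact D.rb_of_cong h5 1 p (hu 1).1 hc₁ hg₁ hcong₁

end Fermat.Agent.Lib.S59
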