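/-
Programme (R2) / node **[CAR]**, route R-DS′, W5 = the level `M q²` leaf (helper9, prefix `s59m_`): leaf **[L2-3]**,
**NF₃: A FUNCTION WHOSE DIVISOR IS DIVISIBLE BY `m`, UNIT AT THE VERTICAL COMPONENTS, IS MADE PRIME TO THE MULTIPLE POINTS BY
AN `m`-TH POWER** (abstract: S34 X″ / S36 vocabulary, no modular curve).

Frame of `Lib/S36/XLocLift.lean`: `O : ι' → ValuationSubring 𝓕` finitely many vertical valuation rings, chart `S`,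
`B = s34x_ring (s34x_infRing O) S`, `𝔫` a prime of `B`, `R = B_𝔫 ⊂ 𝓕` (`ι_R = s34f_iota`).

* **`s59m_exists_gen_unit`** : the UNIT twin of helper3's `s36y_exists_gen_lifts` (there `f ≡ 1`; here `f` is only a unit of
  the components through `𝔫`): from the f-independent local package `s36p_LocalReg` (local equations + branch
  uniformisers; the normality part is not used), `m ∣ ord_Q f` at the places through `𝔫` ⇒ a generator `Γ` of `div f / m`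
  at `𝔫`, unit at the components through `𝔫`, and `f = ι_R u · Γ ^ m` with `u ∈ Rˣ`;
* **`s59m_res_gen`** : consequently, for a ring homomorphism `r : O i → Fb` (the reduction of a component through `𝔫`)
  and a valuation ring `W` of `Fb` centred at `𝔫` (`r (ι_R z) ∈ W` for `z ∈ R`): `r f = ε · (r Γ) ^ m` with `ε ∈ Wˣ`
  (so `m ∣ ord_W (r f)`: the divisor of the residue is divisible by `m` — leaf [L2-5 (a)]);
* **`s59m_exists_nf3`** : finitely many multiple points `𝔫 s` (`s59m_IsMulti`) ⇒ `∃ g`, unit of every `O i`, with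
  `ord_Q f = m · ord_Q g` at every place through one of the `𝔫 s` (via `s59m_glob_G`): `f / g ^ m` is prime to the
  multiple points — leaf [L2-3].
-/
import Fermat.Agent.Lib.S59.MCarGlob3
import Fermat.Agent.Lib.S36.PCase

set_option autoImplicit false
set_option linter.unusedSectionVars false
set_option linter.unusedVariables false
set_option linter.style.haveILetI false
set_option synthInstance.maxHeartbeats 400000

noncomputable section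

namespace Fermat.Agent.Lib.S59

open AlgebraicCurve Fermat.Agent.Lib.FF Fermat.Agent.Lib.S18 Fermat.Agent.Lib.S34
  Fermat.Agent.Lib.S33 Fermat.Agent.Lib.S36 Fermat.Agent.Lib.S44 IsLocalRing

variable {L₀ 𝓕 : Type*} [Field L₀] [Field 𝓕] [Algebra L₀ 𝓕]
variable {ι' : Type*} [Fintype ι'] (O : ι' → ValuationSubring 𝓕) (S : Set (Place L₀ 𝓕))

section Local

variable (𝔫 : Ideal (s34x_ring (s34x_infRing O) S)) [h𝔫 : 𝔫.IsPrime]

/-- **The local generator of `div f / m` at `𝔫` for a UNIT `f`** (see the header). -/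
theorem s59m_exists_gen_unit (hA : s36q_Arch O)
    (F3 : ∀ y : 𝓕, y ≠ 0 → {Q : Place L₀ 𝓕 | Q ∈ S ∧ Q.ord y ≠ 0}.Finite)
    (f : 𝓕) (hf0 : f ≠ 0) (m : ℕ) (hm0 : m ≠ 0)
    (hdiv : ∀ Q ∈ S, s34f_through (s34x_infRing O) S 𝔫 Q → (m : ℤ) ∣ Q.ord f)
    (hfu : ∀ i, s36q_compThrough O S 𝔫 i → f ∈ O i ∧ f⁻¹ ∈ O i)
    (hReg : s36p_LocalReg O S 𝔫 m) :
    ∃ Γ : 𝓕, Γ ≠ 0 ∧
      (∀ Q ∈ S, s34f_through (s34x_infRing O) S 𝔫 Q → Q.ord Γ = s18_E f m Q) ∧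
      (∀ i, s36q_compThrough O S 𝔫 i → Γ ∈ O i ∧ Γ⁻¹ ∈ O i) ∧
      ∃ u : Localization.AtPrime 𝔫, IsUnit u ∧
        f = s34f_iota (s34x_infRing O) S 𝔫 u * Γ ^ m := by
  classical
  obtain ⟨hLE, hℓ, -⟩ := hReg
  -- the generator of `div f / m` from the local equations
  obtain ⟨Φ, hΦ0, hΦ⟩ := s36g_exists_gen_div (s34x_infRing O) S 𝔫 f m (F3 f hf0)
    (fun Q hQ hth _ => hLE Q hQ hth)
  -- corrected to a unit at the components through `𝔫`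
  obtain ⟨Γ, hΓ0, hΓQ, hΓT⟩ := s36y_exists_unit_comps O S 𝔫 (s36q_compThrough O S 𝔫) hℓ Φ hΦ0
    (Finset.univ.filter fun i => s36q_compThrough O S 𝔫 i) (fun i hi => (Finset.mem_filter.mp hi).2)
  have hΓv : ∀ i, s36q_compThrough O S 𝔫 i → (O i).valuation Γ = 1 := fun i hi =>
    hΓT i (Finset.mem_filter.mpr ⟨Finset.mem_univ _, hi⟩)
  have hΓord : ∀ Q ∈ S, s34f_through (s34x_infRing O) S 𝔫 Q → Q.ord Γ = s18_E f m Q :=
    fun Q hQS hth => (hΓQ Q hQS hth).trans (hΦ Q hQS hth)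
  have hΓm0 : Γ ^ m ≠ 0 := pow_ne_zero _ hΓ0
  -- the unit `u₀ = f / Γ ^ m`
  set u₀ : 𝓕 := f * (Γ ^ m)⁻¹ with hu₀
  have hu₀0 : u₀ ≠ 0 := mul_ne_zero hf0 (inv_ne_zero hΓm0)
  have hfv : ∀ i, s36q_compThrough O S 𝔫 i → (O i).valuation f = 1 := fun i hi =>
    s36y_val_eq_one_of_mem _ hf0 (hfu i hi).1 (hfu i hi).2
  have hu₀v : ∀ i, s36q_compThrough O S 𝔫 i → (O i).valuation u₀ = 1 := by
    intro i hi
    rw [hu₀, map_mul, map_inv₀, map_pow, hfv i hi, hΓv i hi, one_pow, inv_one, mul_one]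
  have hu₀Q : ∀ Q ∈ S, s34f_through (s34x_infRing O) S 𝔫 Q → Q.ord u₀ = 0 := by
    intro Q hQS hth
    rw [hu₀, Q.ord_mul hf0 (inv_ne_zero hΓm0), Q.ord_inv, s18i_ord_pow, hΓord Q hQS hth]
    have : (m : ℤ) * s18_E f m Q = Q.ord f := Int.mul_ediv_cancel' (hdiv Q hQS hth)
    rw [this]; ring
  obtain ⟨u, huu, hu⟩ := s36q_exists_unit_iota_eq O S 𝔫 hA u₀ hu₀0
    (fun i hi => s36y_mem_of_val_eq_one _ (hu₀v i hi)) hu₀Q (F3 u₀ hu₀0)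
  refine ⟨Γ, hΓ0, hΓord, fun i hi => s36y_mem_of_val_eq_one _ (hΓv i hi), u, huu, ?_⟩
  rw [hu, hu₀]
  field_simp

/-- **The residue of `f` on a component through `𝔫` is a unit of the centre times an `m`-th power** (see the header). -/
theorem s59m_res_gen (hA : s36q_Arch O)
    (F3 : ∀ y : 𝓕, y ≠ 0 → {Q : Place L₀ 𝓕 | Q ∈ S ∧ Q.ord y ≠ 0}.Finite)
    (f : 𝓕) (hf0 : f ≠ 0) (m : ℕ) (hm0 : m ≠ 0)
    (hdiv : ∀ Q ∈ S, s34f_through (s34x_infRing O) S 𝔫 Q → (m : ℤ) ∣ Q.ord f)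
    (hfu : ∀ i, s36q_compThrough O S 𝔫 i → f ∈ O i ∧ f⁻¹ ∈ O i)
    (hReg : s36p_LocalReg O S 𝔫 m)
    {Fb : Type*} [Field Fb] (i : ι') (hi : s36q_compThrough O S 𝔫 i) (r : O i →+* Fb)
    (W : ValuationSubring Fb)
    (hW : ∀ z : Localization.AtPrime 𝔫,
      r ⟨s34f_iota (s34x_infRing O) S 𝔫 z, s36q_iota_mem_comp O S 𝔫 i hi z⟩ ∈ W) :
    ∃ (ε γ : Fb), ε ∈ W ∧ ε⁻¹ ∈ W ∧ ε ≠ 0 ∧ γ ≠ 0 ∧ r ⟨f, (hfu i hi).1⟩ = ε * γ ^ m := by
  obtain ⟨Γ, hΓ0, -, hΓu, u, huu, hfΓ⟩ := s59m_exists_gen_unit O S 𝔫 hA F3 f hf0 m hm0 hdiv hfu hReg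
  obtain ⟨w, hw⟩ := huu.exists_right_inv
  set ιR := s34f_iota (s34x_infRing O) S 𝔫 with hιR
  have hmem : ∀ z : Localization.AtPrime 𝔫, ιR z ∈ O i := fun z => s36q_iota_mem_comp O S 𝔫 i hi z
  have h1 : (⟨ιR u, hmem u⟩ : O i) * ⟨ιR w, hmem w⟩ = 1 := by
    apply Subtype.ext
    show ιR u * ιR w = 1
    rw [← map_mul, hw, map_one]
  have h2 : r ⟨ιR u, hmem u⟩ * r ⟨ιR w, hmem w⟩ = 1 := by rw [← map_mul, h1, map_one]
  have h3 : (⟨Γ, (hΓu i hi).1⟩ : O i) * ⟨Γ⁻¹, (hΓu i hi).2⟩ = 1 :=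
    Subtype.ext (mul_inv_cancel₀ hΓ0)
  have h4 : r ⟨Γ, (hΓu i hi).1⟩ * r ⟨Γ⁻¹, (hΓu i hi).2⟩ = 1 := by rw [← map_mul, h3, map_one]
  refine ⟨r ⟨ιR u, hmem u⟩, r ⟨Γ, (hΓu i hi).1⟩, hW u, ?_, left_ne_zero_of_mul_eq_one h2,
    left_ne_zero_of_mul_eq_one h4, ?_⟩
  · rw [eq_inv_of_mul_eq_one_right h2 |>.symm]
    exact hW w
  · rw [← map_pow, ← map_mul]
    exact congrArg r (Subtype.ext hfΓ)

end Local

section Global

/-- **NF₃** (see the header): a function with `m ∣ ord_Q f` at the places through finitely many multiple points, unit of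
every component, is `g ^ m` times a function prime to the multiple points, `g` a unit of every component. -/
theorem s59m_exists_nf3 (hA : s36q_Arch O)
    (F3 : ∀ y : 𝓕, y ≠ 0 → {Q : Place L₀ 𝓕 | Q ∈ S ∧ Q.ord y ≠ 0}.Finite)
    {ι : Type*} [Fintype ι] (𝔫 : ι → Ideal (s34x_ring (s34x_infRing O) S))
    (h𝔫 : ∀ s, s59m_IsMulti O S (𝔫 s)) (hinj : Function.Injective 𝔫)
    (f : 𝓕) (hf0 : f ≠ 0) (m : ℕ) (hm0 : m ≠ 0)
    (hdiv : ∀ s, ∀ Q ∈ S, s34f_through (s34x_infRing O) S (𝔫 s) Q → (m : ℤ) ∣ Q.ord f)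
    (hfu : ∀ i, f ∈ O i ∧ f⁻¹ ∈ O i)
    (hReg : ∀ s, s36p_LocalReg O S (𝔫 s) (h𝔫 := (h𝔫 s).1.isPrime) m) :
    ∃ g : 𝓕, g ≠ 0 ∧ (∀ i, g ∈ O i ∧ g⁻¹ ∈ O i) ∧
      ∀ s, ∀ Q ∈ S, s34f_through (s34x_infRing O) S (𝔫 s) Q → Q.ord f = (m : ℤ) * Q.ord g := by
  classical
  by_cases hne : Nonempty ι
  · have key : ∀ s, ∃ Γ : 𝓕, Γ ≠ 0 ∧
        (∀ Q ∈ S, s34f_through (s34x_infRing O) S (𝔫 s) Q → Q.ord Γ = s18_E f m Q) ∧
        (∀ i, Γ ∈ O i ∧ Γ⁻¹ ∈ O i) := by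
      intro s
      haveI := (h𝔫 s).1.isPrime
      obtain ⟨Γ, hΓ0, hΓQ, hΓu, -⟩ := s59m_exists_gen_unit O S (𝔫 s) hA F3 f hf0 m hm0 (hdiv s)
        (fun i _ => hfu i) (hReg s)
      exact ⟨Γ, hΓ0, hΓQ, fun i => hΓu i ((h𝔫 s).2 i)⟩
    choose Γ hΓ0 hΓQ hΓu using key
    obtain ⟨G, hG⟩ := s59m_glob_G O S F3 𝔫 h𝔫 hinj Γ hΓ0
      (fun s s' i => (O i).mul_mem _ _ (hΓu s i).1 (hΓu s' i).2)
      (fun s s' Q hQ hth hth' => by rw [hΓQ s Q hQ hth, hΓQ s' Q hQ hth'])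
    obtain ⟨s₀⟩ := hne
    have hGeq : ∀ s, G = G * (Γ s)⁻¹ * Γ s := fun s => by
      rw [mul_assoc, inv_mul_cancel₀ (hΓ0 s), mul_one]
    have hG0 : G ≠ 0 := by
      rw [hGeq s₀]
      exact mul_ne_zero (hG s₀).1 (hΓ0 s₀)
    refine ⟨G, hG0, fun i => ⟨?_, ?_⟩, fun s Q hQ hth => ?_⟩
    · rw [hGeq s₀]
      exact (O i).mul_mem _ _ ((hG s₀).2.1 i).1 (hΓu s₀ i).1
    · rw [hGeq s₀, mul_inv]
      exact (O i).mul_mem _ _ ((hG s₀).2.1 i).2 (hΓu s₀ i).2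
    · have h1 : Q.ord G = Q.ord (Γ s) := by
        rw [hGeq s, Q.ord_mul (hG s).1 (hΓ0 s), (hG s).2.2 Q hQ hth, zero_add]
      rw [h1, hΓQ s Q hQ hth]
      exact (Int.mul_ediv_cancel' (hdiv s Q hQ hth)).symm
  · refine ⟨1, one_ne_zero, fun i => ⟨(O i).one_mem, by rw [inv_one]; exact (O i).one_mem⟩,
      fun s => absurd ⟨s⟩ hne⟩

end Global

end Fermat.Agent.Lib.S59
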