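/-
Programme (R2) / node [CAR], W5 = the level `M q²` leaf, leaf **[CENTRE]** (helper7, prefix `s59nt_`), concrete part:
**THE DIVISOR OF THE RESIDUE ON THE MIDDLE COMPONENT OF A KUMMER GENERATOR OF LEVEL `M q²` IS DIVISIBLE BY `p`** ([L2-5 (a)]).

Setting (S36): good level `s36g_GoodLevel q M`, `K₀` a number field, `G` a Gauss datum of `K₀` with uniformiser `q` and perfect
residue field `κ` of characteristic `q`, `V : Fin 3 → ValuationSubring F₂` (`F₂ = s34m_F K₀ (M q²)`) with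
`hP : s36g_ValPkg G φ M q hq hqM V (s36m_t M q)`, the base function `w = α'(α x)` of `s36g_BaseFull`, and ANY reduction
`R : V 1 →+* Fb`, `Fb = modularFunctionFieldFullC κ M`, which kills the non-units of `V 1`, is `π` on the constants and sends
`w` to a good coordinate `xb` of `Fb` (`s37b_Coord κ q xb`: `j̄`, `t̄₂`, `t̄₃`).

* `s59nt_geoReg` : S36's f-independent local packages `s36g_GeoReg1 m ∧ s36g_GeoReg2 m` (`s36p_LocalReg` at EVERY closed
  point `𝔫 ∋ q` of chart 1 and at every polar closed point of chart 2), from the proved leaves;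
* **`s59nt_centre_dvd`** : `h ∈ F₂ˣ`, `p ∣ ord_Q h` at every place `Q` of `F₂ / K₀`, `h` a unit of `V 0, V 1, V 2`,
  `p⁻¹ ∈ A` ⇒ `p ∣ ord_v (R h)` at EVERY place `v` of `Fb / κ`.

Proof: `s59nt_centre_abs` (the place `v` is centred at a closed point `𝔫 ∋ q` of chart 1 if `xb ∈ O_v`, at a polar closed point
of chart 2 otherwise, and the middle component passes through `𝔫`) + helper9's `s59m_res_gen` (`R h = ε γ ^ p`, `ε ∈ O_vˣ`).
-/
import Fermat.Agent.Lib.S59.NWCentre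
import Fermat.Agent.Lib.S59.MCarNF3
import Fermat.Agent.Lib.S36.KMidFinal
import Fermat.Agent.Lib.S36.MLeafFinal
import Fermat.Agent.Lib.S37.BConc

set_option autoImplicit false
set_option linter.style.haveILetI false
set_option linter.unusedSectionVars false
set_option linter.unusedVariables false
set_option synthInstance.maxHeartbeats 400000

noncomputable section

namespace Fermat.Agent.Lib.S59

open Polynomial ModularCurve AlgebraicCurve HahnSeries Fermat.Agent.Lib.FF Fermat.Agent.Lib.S18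
  Fermat.Agent.Lib.S37 Fermat.Agent.Lib.S34 Fermat.Agent.Lib.S35 Fermat.Agent.Lib.S36 Fermat.Agent.Lib.S44

local notation "Kb" => AlgebraicClosure ℚ

variable (M q : ℕ) [NeZero M] [NeZero q] (hq : q.Prime) (hqM : ¬ q ∣ M)

/-- **S36's f-independent local packages at every closed point of the two charts**, from the proved leaves. -/
theorem s59nt_geoReg (hgood : s36g_GoodLevel q M)
    (K₀ : Type) [Field K₀] [NumberField K₀] (φ : K₀ →+* Kb)
    (κ : Type) [Field κ] [CharP κ q] [PerfectField κ]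
    (G : s18g_GaussData K₀ κ) [IsDiscreteValuationRing G.A] (hπ : Function.Surjective G.π)
    (hϖ : ((G.ϖ : G.A) : K₀) = (q : K₀))
    (V : Fin 3 → ValuationSubring (s34m_F K₀ (M * q * q)))
    (hP : s36g_ValPkg G φ M q hq hqM V (s36m_t M q))
    (x : s34m_F K₀ M) (hx : x ∈ s34m_Vinf G M) (hBF : s36g_BaseFull G φ M q hq hqM x hx)
    (m : ℕ) (hm0 : m ≠ 0) (hmA : ((m : K₀))⁻¹ ∈ G.A) :
    s36g_GeoReg1 G φ M q hq hqM hP.1 (heckeAlphaBar K₀ M q x) m ∧
      s36g_GeoReg2 G φ M q hq hqM hP.1 (heckeAlphaBar K₀ M q x) m := by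
  obtain ⟨hB, hsat, hfrob, hreg, -, -, -⟩ := id hBF
  have hX' := s36b_leafCross_good M q hq hqM hgood K₀ φ κ G hπ hϖ x hx hBF
  have hFib := s36g_geoFib_of_crossReg G φ M q hq hqM hπ hP _ hB hsat hX'
  have hOne2 := s36g_geoOne2_of_base G φ M q hq hqM hP x hx hB hfrob hreg
  obtain ⟨hT, hO, hO2⟩ := s36m_leafReg_of_mid M q hq hqM hgood.2.1 hgood.2.2.1
    (s36k_leafMid_good M q hq hqM hgood) K₀ φ κ G hπ hϖ V hP x hx hBF hX' m hm0 hmA
  exact ⟨s36g_geoReg1_of_cases G φ M q hq hqM _ hP hB hsat hFib m hT hO,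
    s36g_geoReg2_of_cases G φ M q hq hqM _ hP hB hOne2 m hO2⟩

/-- `ε` a unit of `O_v` ⇒ `p ∣ ord_v (ε γ ^ p)`. -/
theorem s59nt_dvd_ord_unit_mul_pow {κ Fb : Type*} [Field κ] [Field Fb] [Algebra κ Fb] (v : Place κ Fb) (p : ℕ)
    (ε γ : Fb) (hε : ε ∈ v.toValuationSubring) (hε' : ε⁻¹ ∈ v.toValuationSubring) (hε0 : ε ≠ 0) (hγ0 : γ ≠ 0) :
    (p : ℤ) ∣ v.ord (ε * γ ^ p) := by
  have h1 : v.ord ε = 0 := by
    have a := (ff_mem_iff_ord_nonneg v hε0).mp hε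
    have b := (ff_mem_iff_ord_nonneg v (inv_ne_zero hε0)).mp hε'
    rw [v.ord_inv] at b
    omega
  rw [v.ord_mul hε0 (pow_ne_zero p hγ0), h1, zero_add, ← zpow_natCast, v.ord_zpow]
  exact dvd_mul_right _ _

set_option maxHeartbeats 1600000 in
/-- **[L2-5 (a)]: the divisor of the residue on the middle component of a Kummer generator of level `M q²` is divisible by
`p`** (see the header). -/
theorem s59nt_centre_dvd (hgood : s36g_GoodLevel q M)
    (K₀ : Type) [Field K₀] [NumberField K₀] (φ : K₀ →+* Kb)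
    (κ : Type) [Field κ] [CharP κ q] [PerfectField κ]
    (G : s18g_GaussData K₀ κ) [IsDiscreteValuationRing G.A] (hπ : Function.Surjective G.π)
    (hϖ : ((G.ϖ : G.A) : K₀) = (q : K₀))
    (V : Fin 3 → ValuationSubring (s34m_F K₀ (M * q * q)))
    (hP : s36g_ValPkg G φ M q hq hqM V (s36m_t M q))
    (x : s34m_F K₀ M) (hx : x ∈ s34m_Vinf G M) (hBF : s36g_BaseFull G φ M q hq hqM x hx)
    (R : V 1 →+* ↥(modularFunctionFieldFullC κ M))
    (hRker : ∀ y : V 1, (y : s34m_F K₀ (M * q * q)) ∈ (V 1).nonunits → R y = 0)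
    (hRc : ∀ a : G.A, R ⟨algebraMap K₀ (s34m_F K₀ (M * q * q)) (a : K₀),
      s36b_const_mem G φ M q hq hqM hP.1 1 a⟩ = algebraMap κ ↥(modularFunctionFieldFullC κ M) (G.π a))
    (hw : s36g_alpha M q (heckeAlphaBar K₀ M q x) ∈ V 1)
    (xb : ↥(modularFunctionFieldFullC κ M)) (hxb : s37b_Coord κ q (xb : LaurentSeries κ))
    (hRw : R ⟨s36g_alpha M q (heckeAlphaBar K₀ M q x), hw⟩ = xb)
    (p : ℕ) (hp0 : p ≠ 0) (hpA : ((p : K₀))⁻¹ ∈ G.A)
    (h : s34m_F K₀ (M * q * q)) (h0 : h ≠ 0)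
    (hdiv : ∀ Q : Place K₀ (s34m_F K₀ (M * q * q)), (p : ℤ) ∣ Q.ord h)
    (hu : ∀ j, h ∈ V j ∧ h⁻¹ ∈ V j)
    (v : Place κ ↥(modularFunctionFieldFullC κ M)) :
    (p : ℤ) ∣ v.ord (R ⟨h, (hu 1).1⟩) := by
  classical
  haveI : Fact q.Prime := ⟨hq⟩
  obtain ⟨hB, hsat, -⟩ := id hBF
  have hP' := hP
  obtain ⟨hC, hU, -, hCompl, hI, -, -⟩ := hP'
  have hB₂ := s36b_baseData₂_of_base G φ M q hq hqM hC hCompl hI (heckeAlphaBar K₀ M q x) hB
  obtain ⟨hw0, hgen, hwO, hwO', -, hα, hα'⟩ := id hB₂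
  obtain ⟨hReg1, hReg2⟩ := s59nt_geoReg M q hq hqM hgood K₀ φ κ G hπ hϖ V hP x hx hBF p hp0 hpA
  have hArch : s36q_Arch V := s36b_arch G M q hq hU
  haveI := hgen
  by_cases hcase : xb ∈ v.toValuationSubring
  · -- chart 1
    letI algX : Algebra κ[X] ↥(modularFunctionFieldFullC κ M) := (Polynomial.aeval xb).toRingHom.toAlgebra
    have hA : ∀ P : κ[X], algebraMap κ[X] ↥(modularFunctionFieldFullC κ M) P = Polynomial.aeval xb P :=
      fun P => rfl
    obtain ⟨hDed, hFrac⟩ := s37b_dedekind_of_coord κ q M xb hxb hA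
    haveI := hDed
    haveI := hFrac
    have hRw' : R ⟨s36g_alpha M q (heckeAlphaBar K₀ M q x), hwO 1⟩ = xb := hRw
    obtain ⟨𝔫, h𝔫, hchar, hthru, hW⟩ := s59nt_centre_abs G
      (laurentBaseChange K₀ (modularFunctionFieldFull (M * q * q)))
      (s36g_alpha M q (heckeAlphaBar K₀ M q x)) V hπ (s36b_const_mem G φ M q hq hqM hC) hwO hα
      1 R hRker hRc (by rw [hRw']; exact hA) v (by rw [hRw']; exact hcase)
    haveI := h𝔫.isPrime
    have hϖ𝔫 : s34x_const (s34x_infRing V)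
        (s18_chart1 (L₀ := K₀) (s36g_alpha M q (heckeAlphaBar K₀ M q x))) ((G.ϖ : G.A) : K₀)
        (s34x_inf_const_mem V G.A (s36b_const_mem G φ M q hq hqM hC) G.ϖ) ∈ 𝔫 := by
      refine hchar _ (s36b_const_mem G φ M q hq hqM hC 1 G.ϖ) (Or.inl ?_)
      have := hRc G.ϖ
      rw [s18g_pi_unif, map_zero] at this
      exact this
    have hLR := hReg1 𝔫 h𝔫 hϖ𝔫
    obtain ⟨ε, γ, hε, hε', hε0, hγ0, e⟩ := s59m_res_gen V
      (s18_chart1 (L₀ := K₀) (s36g_alpha M q (heckeAlphaBar K₀ M q x))) 𝔫 hArch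
      (s36b_dict₁ G φ M q hq hqM hC hU _ hB₂).2.2.2 h h0 p hp0 (fun Q _ _ => hdiv Q)
      (fun i _ => hu i) hLR 1 hthru R v.toValuationSubring (fun z => hW z _)
    have e' : R ⟨h, (hu 1).1⟩ = ε * γ ^ p := e
    rw [e']
    exact s59nt_dvd_ord_unit_mul_pow v p ε γ hε hε' hε0 hγ0
  · -- chart 2
    have hxb0 : xb ≠ 0 := by
      rintro rfl
      exact hcase v.toValuationSubring.zero_mem
    have hxbinv : xb⁻¹ ∈ v.toValuationSubring :=
      (v.toValuationSubring.mem_or_inv_mem xb).resolve_left hcase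
    letI algX : Algebra κ[X] ↥(modularFunctionFieldFullC κ M) := (Polynomial.aeval xb⁻¹).toRingHom.toAlgebra
    have hA : ∀ P : κ[X], algebraMap κ[X] ↥(modularFunctionFieldFullC κ M) P = Polynomial.aeval xb⁻¹ P :=
      fun P => rfl
    have hxb' : s37b_Coord κ q ((xb⁻¹ : ↥(modularFunctionFieldFullC κ M)) : LaurentSeries κ) :=
      s37b_coord_inv hxb
    obtain ⟨hDed, hFrac⟩ := s37b_dedekind_of_coord κ q M xb⁻¹ hxb' hA
    haveI := hDed
    haveI := hFrac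
    haveI : FFGen K₀ (s36g_alpha M q (heckeAlphaBar K₀ M q x))⁻¹ := ff_gen_inv
    have hRw' : R ⟨(s36g_alpha M q (heckeAlphaBar K₀ M q x))⁻¹, hwO' 1⟩ = xb⁻¹ := by
      have h1 : (⟨s36g_alpha M q (heckeAlphaBar K₀ M q x), hw⟩ : V 1) *
          ⟨(s36g_alpha M q (heckeAlphaBar K₀ M q x))⁻¹, hwO' 1⟩ = 1 :=
        Subtype.ext (mul_inv_cancel₀ hw0)
      have h2 := congrArg R h1
      rw [map_mul, map_one, hRw] at h2
      exact eq_inv_of_mul_eq_one_right h2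
    obtain ⟨𝔫, h𝔫, hchar, hthru, hW⟩ := s59nt_centre_abs G
      (laurentBaseChange K₀ (modularFunctionFieldFull (M * q * q)))
      (s36g_alpha M q (heckeAlphaBar K₀ M q x))⁻¹ V hπ (s36b_const_mem G φ M q hq hqM hC) hwO' hα'
      1 R hRker hRc (by rw [hRw']; exact hA) v (by rw [hRw']; exact hxbinv)
    haveI := h𝔫.isPrime
    have hϖ𝔫 : s34x_const (s34x_infRing V)
        (s18_chart2 (L₀ := K₀) (s36g_alpha M q (heckeAlphaBar K₀ M q x))) ((G.ϖ : G.A) : K₀)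
        (s34x_inf_const_mem V G.A (s36b_const_mem G φ M q hq hqM hC) G.ϖ) ∈ 𝔫 := by
      refine hchar _ (s36b_const_mem G φ M q hq hqM hC 1 G.ϖ) (Or.inl ?_)
      have := hRc G.ϖ
      rw [s18g_pi_unif, map_zero] at this
      exact this
    have hpol : ∃ b ∈ 𝔫, (b : s34m_F K₀ (M * q * q)) = (s36g_alpha M q (heckeAlphaBar K₀ M q x))⁻¹ := by
      have hmem : (s36g_alpha M q (heckeAlphaBar K₀ M q x))⁻¹ ∈
          s34x_ring (L₀ := K₀) (s34x_infRing V)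
            (s18_chart1 (L₀ := K₀) (s36g_alpha M q (heckeAlphaBar K₀ M q x))⁻¹) :=
        ⟨(s34x_mem_infRing V _).mpr hwO', fun Q hQ => hQ⟩
      refine ⟨⟨_, hmem⟩, hchar ⟨_, hmem⟩ (hwO' 1) (Or.inr ?_), rfl⟩
      rw [hRw', inv_inv]
      exact hcase
    have hLR := hReg2 𝔫 h𝔫 hϖ𝔫 hpol
    obtain ⟨ε, γ, hε, hε', hε0, hγ0, e⟩ := s59m_res_gen V
      (s18_chart1 (L₀ := K₀) (s36g_alpha M q (heckeAlphaBar K₀ M q x))⁻¹) 𝔫 hArch
      (s36b_dict₂ G φ M q hq hqM hC hU _ hB₂).2.2.2 h h0 p hp0 (fun Q _ _ => hdiv Q)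
      (fun i _ => hu i) hLR 1 hthru R v.toValuationSubring (fun z => hW z _)
    have e' : R ⟨h, (hu 1).1⟩ = ε * γ ^ p := e
    rw [e']
    exact s59nt_dvd_ord_unit_mul_pow v p ε γ hε hε' hε0 hγ0

/-- **[L2-5 (a)] at `q ≥ 5`**: the base coordinate is `j`, the hypothesis on the reduction reads `R j = j̄`. -/
theorem s59nt_centre_dvd_five (hgood : s36g_GoodLevel q M) (h5 : 5 ≤ q)
    (K₀ : Type) [Field K₀] [NumberField K₀] (φ : K₀ →+* Kb)
    (κ : Type) [Field κ] [CharP κ q] [PerfectField κ]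
    (G : s18g_GaussData K₀ κ) [IsDiscreteValuationRing G.A] (hπ : Function.Surjective G.π)
    (hϖ : ((G.ϖ : G.A) : K₀) = (q : K₀))
    (V : Fin 3 → ValuationSubring (s34m_F K₀ (M * q * q)))
    (hP : s36g_ValPkg G φ M q hq hqM V (s36m_t M q))
    (R : V 1 →+* ↥(modularFunctionFieldFullC κ M))
    (hRker : ∀ y : V 1, (y : s34m_F K₀ (M * q * q)) ∈ (V 1).nonunits → R y = 0)
    (hRc : ∀ a : G.A, R ⟨algebraMap K₀ (s34m_F K₀ (M * q * q)) (a : K₀),
      s36b_const_mem G φ M q hq hqM hP.1 1 a⟩ = algebraMap κ ↥(modularFunctionFieldFullC κ M) (G.π a))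
    (hj : s18g_jF (K := K₀) (M * q * q) ∈ V 1)
    (hRj : R ⟨s18g_jF (K := K₀) (M * q * q), hj⟩ = ⟨jqModC κ, jqModC_mem_full κ M⟩)
    (p : ℕ) (hp0 : p ≠ 0) (hpA : ((p : K₀))⁻¹ ∈ G.A)
    (h : s34m_F K₀ (M * q * q)) (h0 : h ≠ 0)
    (hdiv : ∀ Q : Place K₀ (s34m_F K₀ (M * q * q)), (p : ℤ) ∣ Q.ord h)
    (hu : ∀ j, h ∈ V j ∧ h⁻¹ ∈ V j)
    (v : Place κ ↥(modularFunctionFieldFullC κ M)) :
    (p : ℤ) ∣ v.ord (R ⟨h, (hu 1).1⟩) := by
  haveI : Fact q.Prime := ⟨hq⟩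
  obtain ⟨x, hx, hBF⟩ := s36g_base_full K₀ φ M q hq hqM hgood.2.2.2 κ G hπ
  have hxj : x = s18g_jF (K := K₀) M := by
    rcases hBF.2.2.2.2.2.1 with h1 | h1 | h1
    · exact h1.2
    · exact absurd h1.1 (by omega)
    · exact absurd h1.1 (by omega)
  subst hxj
  have e : s36g_alpha M q (heckeAlphaBar K₀ M q (s18g_jF (K := K₀) M)) =
      s18g_jF (K := K₀) (M * q * q) := by
    rw [s34d2_alpha_j M q]
    exact s34d2_alpha_j (M * q) q
  have hw : s36g_alpha M q (heckeAlphaBar K₀ M q (s18g_jF (K := K₀) M)) ∈ V 1 := by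
    rw [e]; exact hj
  have hRw : R ⟨s36g_alpha M q (heckeAlphaBar K₀ M q (s18g_jF (K := K₀) M)), hw⟩ =
      ⟨jqModC κ, jqModC_mem_full κ M⟩ := by
    rw [← hRj]
    exact congrArg R (Subtype.ext e)
  exact s59nt_centre_dvd M q hq hqM hgood K₀ φ κ G hπ hϖ V hP _ hx hBF R hRker hRc hw
    ⟨jqModC κ, jqModC_mem_full κ M⟩ (s37b_coord_jq κ q) hRw p hp0 hpA h h0 hdiv hu v

end Fermat.Agent.Lib.S59
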