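/-
Programme (R2) / node [CAR], W5 = the level `M q²` leaf, leaf **[CENTRE]** = [L2-5 (a)] (helper7, prefix `s59nt_`), instance over
helper9's concrete frame `s59m_L2Data` (`MCarL2F.lean`):

**`s59nt_rb1_dvd`** : `q ≥ 5`, `q ∤ M`, `nuTwo M = nuThree M = 0`, `D : s59m_L2Data M q hqM P hP L₀ hunr`, `p ≠ q` prime,
`h ∈ F₂ˣ` with `p ∣ ord_Q h` at every place `Q` of `F₂ / L₀` (e.g. a Kummer generator of exponent `p`), `h` a unit of the three
rings `D.V j` ⇒ `p ∣ ord_v (D.rb h5 1 h)` at EVERY place `v` of `Fb = modularFunctionFieldFullC κ₀ M` over `κ₀`: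
the divisor of the residue `ρ₁ = rb 1 h` on the middle component is divisible by `p` — the second hypothesis of the contract
`s59m_LeftLeaf` (`MCarL2Left.lean`, proved in `NWLeft.lean`).
-/
import Fermat.Agent.Lib.S59.NWCentreC
import Fermat.Agent.Lib.S59.MCarL2F

set_option autoImplicit false
set_option linter.style.haveILetI false
set_option linter.unusedSectionVars false
set_option linter.unusedVariables false
set_option synthInstance.maxHeartbeats 400000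

noncomputable section

namespace Fermat.Agent.Lib.S59

open ModularCurve HahnSeries AlgebraicCurve Fermat.Agent.Lib.FF Fermat.Agent.Lib.S18
  Fermat.Agent.Lib.S28 Fermat.Agent.Lib.S29 Fermat.Agent.Lib.S37 Fermat.Agent.Lib.S34
  Fermat.Agent.Lib.S35 Fermat.Agent.Lib.S33 Fermat.Agent.Lib.S44 Fermat.Agent.Lib.S36

local notation "Kb" => AlgebraicClosure ℚ

variable (M q : ℕ) [NeZero M] [hq : Fact q.Prime] (hqM : ¬ q ∣ M) (h5 : 5 ≤ q)
  (P : ValuationSubring Kb) (hP : P.LiesOverPrime q)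
  (L₀ : IntermediateField ℚ Kb) [FiniteDimensional ℚ ↥L₀]
  (hunr : ∀ τ ∈ P.inertiaSubgroupIn ℚ, ∀ a ∈ L₀, τ a = a)

set_option maxHeartbeats 1600000 in
/-- **[L2-5 (a)] over the concrete frame**: the divisor of the residue on the middle component is divisible by `p`. -/
theorem s59nt_rb1_dvd [CharP (IsLocalRing.ResidueField ↥(s18q_A0 P L₀)) q]
    [PerfectField (IsLocalRing.ResidueField ↥(s18q_A0 P L₀))]
    (D : s59m_L2Data M q hqM P hP L₀ hunr) (h2 : nuTwo M = 0) (h3 : nuThree M = 0)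
    (p : ℕ) [hp : Fact p.Prime] (hpq : p ≠ q)
    (h : s34m_F ↥L₀ (M * q * q)) (h0 : h ≠ 0)
    (hdiv : ∀ Q : Place ↥L₀ (s34m_F ↥L₀ (M * q * q)), (p : ℤ) ∣ Q.ord h)
    (hu : ∀ j, h ∈ D.V j ∧ h⁻¹ ∈ D.V j)
    (v : Place (IsLocalRing.ResidueField ↥(s18q_A0 P L₀))
      ↥(modularFunctionFieldFullC (IsLocalRing.ResidueField ↥(s18q_A0 P L₀)) M)) :
    (p : ℤ) ∣ v.ord (D.rb h5 1 ⟨h, (hu 1).1⟩) := by
  classical
  haveI : NeZero q := ⟨hq.out.ne_zero⟩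
  haveI : NumberField ↥L₀ := ⟨⟩
  haveI hdvr : IsDiscreteValuationRing ↥(s18q_A0 P L₀) := s18q_A0_dvr P L₀ hP
  haveI : IsDiscreteValuationRing ↥(s59m_GU q P hP L₀ hunr).A := hdvr
  have hπ : Function.Surjective (s59m_GU q P hP L₀ hunr).π := IsLocalRing.residue_surjective
  have hgood : s36g_GoodLevel q M := ⟨hqM, h2, h3, Or.inl h5⟩
  have hqp : ¬ q ∣ p := fun hd => hpq ((Nat.prime_dvd_prime_iff_eq hq.out hp.out).mp hd).symm
  have hpA : ((p : ↥L₀))⁻¹ ∈ (s59m_GU q P hP L₀ hunr).A :=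
    s34f_natCast_inv_mem (s18q_A0 P L₀) hq.out (s37rl_nonunit P hP L₀) p hqp
  have hϖ : (((s59m_GU q P hP L₀ hunr).ϖ : (s59m_GU q P hP L₀ hunr).A) : ↥L₀) = (q : ↥L₀) := rfl
  -- the coordinate
  have hjV : s18g_jF (K := ↥L₀) (M * q) ∈ s34m_Vinf (s59m_GU q P hP L₀ hunr) (M * q) :=
    s34m_jF_mem_Vinf (s59m_GU q P hP L₀ hunr) (M * q)
  have e : s36g_alpha M q (s18g_jF (K := ↥L₀) (M * q)) = s18g_jF (K := ↥L₀) (M * q * q) :=
    s34d2_alpha_j (M * q) q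
  have hj : s18g_jF (K := ↥L₀) (M * q * q) ∈ D.V 1 := by
    rw [← e]
    exact ((s36b_alpha_mem_iff (s59m_GU q P hP L₀ hunr) (algebraMap ↥L₀ Kb) M q hq.out hqM D.pkg.1
      _).2.1).mpr hjV
  have hj' : s36g_alpha M q (s18g_jF (K := ↥L₀) (M * q)) ∈ D.V 1 := by rw [e]; exact hj
  have hRj : D.rb h5 1 ⟨s18g_jF (K := ↥L₀) (M * q * q), hj⟩ =
      ⟨jqModC (IsLocalRing.ResidueField ↥(s18q_A0 P L₀)),
        jqModC_mem_full (IsLocalRing.ResidueField ↥(s18q_A0 P L₀)) M⟩ := by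
    have e1 : (⟨s18g_jF (K := ↥L₀) (M * q * q), hj⟩ : D.V 1) = ⟨_, hj'⟩ := Subtype.ext e.symm
    rw [e1]
    apply Subtype.ext
    show D.r 1 ⟨_, hj'⟩ = _
    rw [D.r1α ⟨_, hjV⟩ hj']
    exact s34m_redInf_jF (s59m_GU q P hP L₀ hunr) (M * q)
  exact s59nt_centre_dvd_five M q hq.out hqM hgood h5 ↥L₀ (algebraMap ↥L₀ Kb)
    (IsLocalRing.ResidueField ↥(s18q_A0 P L₀)) (s59m_GU q P hP L₀ hunr) hπ hϖ D.V D.pkg
    (D.rb h5 1) (fun y hy => (D.rb_eq_zero_iff h5 1 y).mpr hy) (fun a => D.rb_const h5 1 a)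
    hj hRj p hp.out.ne_zero hpA h h0 hdiv hu v

end Fermat.Agent.Lib.S59
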