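/-
Programme (R2) / node [CAR], W5 = the level `M q²` leaf, input of leaf [L2-3] (helper7, prefix `s59nt_`):
**THE TRIPLE POINTS OF THE CHART OF LEVEL `M q²` ARE FINITE IN NUMBER.**

Setting (S36): `V : Fin 3 → ValuationSubring F₂` with `hP : s36g_ValPkg …`, a base function `w₁` of level `M q`
(`s35g_BaseData`, Hecke-saturated chart `hsat`), `B₁ = s34x_ring (⨅ VV) (chart1 w₁)`, `B₂ = s34x_ring (⨅ V) (chart1 (α' w₁))`.

* `s59nt_multi_unif_mem`  : a multiple point of `B₂` contains `ϖ`;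
* `s59nt_multi_pt_isNode` : the image `α'⁻¹ 𝔫` of a multiple point `𝔫` of `B₂` is a NODE of `B₁` (`s33s_IsNode`);
* **`s59nt_finite_multi`** : (FIB) `s36g_GeoFib` + finitely many nodes of `B₁` ⇒ finitely many multiple points of `B₂`
  (`𝔫 ↦ α'⁻¹ 𝔫` is injective on them);
* **`s59nt_finite_multi_U`** : for helper9's concrete data `D : s59m_L2Data …` (`q ≥ 5`, `nuTwo M = nuThree M = 0`):
  `Finite {𝔫 // s59m_IsMulti D.V (s59m_S2 M q L₀) 𝔫}`.
-/
import Fermat.Agent.Lib.S59.MCarL2F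
import Fermat.Agent.Lib.S36.XLeafCross
import Fermat.Agent.Lib.S36.GGeoInst
import Fermat.Agent.Lib.S36.REllAbs
import Fermat.Agent.Lib.S36.RFinType
import Fermat.Agent.Lib.S44.EGlobInst

set_option autoImplicit false
set_option linter.style.haveILetI false
set_option linter.unusedSectionVars false
set_option linter.unusedVariables false
set_option synthInstance.maxHeartbeats 400000

noncomputable section

namespace Fermat.Agent.Lib.S59

open ModularCurve HahnSeries AlgebraicCurve Fermat.Agent.Lib.FF Fermat.Agent.Lib.S18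
  Fermat.Agent.Lib.S28 Fermat.Agent.Lib.S29 Fermat.Agent.Lib.S37 Fermat.Agent.Lib.S34
  Fermat.Agent.Lib.S35 Fermat.Agent.Lib.S33 Fermat.Agent.Lib.S44 Fermat.Agent.Lib.S36

local notation "Kb" => AlgebraicClosure ℚ

section Gen

variable {K₀ : Type} [Field K₀] [Algebra ℚ K₀] [CharZero K₀] {κ : Type} [Field κ]
  (G : s18g_GaussData K₀ κ) [IsDiscreteValuationRing G.A]
  (φ : K₀ →+* Kb) (M q : ℕ) [NeZero M] [NeZero q] (hq : q.Prime) (hqM : ¬ q ∣ M)
  {V : Fin 3 → ValuationSubring (s34m_F K₀ (M * q * q))}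
  (hP : s36g_ValPkg G φ M q hq hqM V (s36m_t M q)) (w₁ : s34m_F K₀ (M * q))
  (hB : s35g_BaseData G φ M q hq hqM w₁)

/-- a multiple point of the chart of level `M q²` contains `ϖ`. -/
theorem s59nt_multi_unif_mem
    (𝔫 : Ideal (s34x_ring (L₀ := K₀) (s34x_infRing V) (s18_chart1 (s36g_alpha M q w₁))))
    (h𝔫 : s59m_IsMulti V (s18_chart1 (L₀ := K₀) (s36g_alpha M q w₁)) 𝔫) :
    s34x_const (s34x_infRing V) (s18_chart1 (L₀ := K₀) (s36g_alpha M q w₁)) ((G.ϖ : G.A) : K₀)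
      (s34x_inf_const_mem V G.A (s36b_const_mem G φ M q hq hqM hP.1) G.ϖ) ∈ 𝔫 :=
  h𝔫.2 0 _ (hP.2.1.1 0)

set_option maxHeartbeats 800000 in
/-- **the image under `α'` of a multiple point of level `M q²` is a node of level `M q`.** -/
theorem s59nt_multi_pt_isNode (hπ : Function.Surjective G.π)
    (𝔫 : Ideal (s34x_ring (L₀ := K₀) (s34x_infRing V) (s18_chart1 (s36g_alpha M q w₁))))
    (h𝔫 : s59m_IsMulti V (s18_chart1 (L₀ := K₀) (s36g_alpha M q w₁)) 𝔫) :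
    haveI := h𝔫.1.isPrime
    s33s_IsNode (s34m_VV G φ M q hq hqM) (s34m_unif G (M * q)) (s18_chart1 (L₀ := K₀) w₁)
      (s36q_pt (s34m_VV G φ M q hq hqM) V (s18_chart1 (L₀ := K₀) w₁)
        (s18_chart1 (L₀ := K₀) (s36g_alpha M q w₁)) (s36g_alpha M q)
        (s36p_chart1_alpha G φ M q hq hqM hP.1 w₁ hB) 𝔫) := by
  haveI := h𝔫.1.isPrime
  haveI := h𝔫.1
  have hP' := hP
  obtain ⟨hC, hU, -, hCompl, hI, -, -⟩ := hP'
  have hB₂ := s36b_baseData₂_of_base G φ M q hq hqM hC hCompl hI w₁ hB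
  obtain ⟨-, hgen, hwO, -, -, hα, -⟩ := id hB₂
  haveI := hgen
  have hαi := fun x => s36b_alpha_mem_iff G φ M q hq hqM hC x
  have hthT : s36q_compThrough (s34m_VV G φ M q hq hqM) (s18_chart1 (L₀ := K₀) w₁)
      (s36q_pt (s34m_VV G φ M q hq hqM) V (s18_chart1 (L₀ := K₀) w₁)
        (s18_chart1 (L₀ := K₀) (s36g_alpha M q w₁)) (s36g_alpha M q)
        (s36p_chart1_alpha G φ M q hq hqM hC w₁ hB) 𝔫) true :=
    s36q_compThrough_comap (s34m_VV G φ M q hq hqM) V _ _ (s36g_alpha M q) _ 𝔫 true 0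
      (fun x => (hαi x).1) (h𝔫.2 0)
  have hthF : s36q_compThrough (s34m_VV G φ M q hq hqM) (s18_chart1 (L₀ := K₀) w₁)
      (s36q_pt (s34m_VV G φ M q hq hqM) V (s18_chart1 (L₀ := K₀) w₁)
        (s18_chart1 (L₀ := K₀) (s36g_alpha M q w₁)) (s36g_alpha M q)
        (s36p_chart1_alpha G φ M q hq hqM hC w₁ hB) 𝔫) false :=
    s36q_compThrough_comap (s34m_VV G φ M q hq hqM) V _ _ (s36g_alpha M q) _ 𝔫 false 2
      (fun x => (hαi x).2.2) (h𝔫.2 2)
  have hcomp : ∀ i : Bool, s36q_compThrough (s34m_VV G φ M q hq hqM) (s18_chart1 (L₀ := K₀) w₁)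
      (s36q_pt (s34m_VV G φ M q hq hqM) V (s18_chart1 (L₀ := K₀) w₁)
        (s18_chart1 (L₀ := K₀) (s36g_alpha M q w₁)) (s36g_alpha M q)
        (s36p_chart1_alpha G φ M q hq hqM hC w₁ hB) 𝔫) i →
      s33s_comp (s34m_VV G φ M q hq hqM) (s34m_unif G (M * q)) (s18_chart1 (L₀ := K₀) w₁) i ≤
        s36q_pt (s34m_VV G φ M q hq hqM) V (s18_chart1 (L₀ := K₀) w₁)
          (s18_chart1 (L₀ := K₀) (s36g_alpha M q w₁)) (s36g_alpha M q)
          (s36p_chart1_alpha G φ M q hq hqM hC w₁ hB) 𝔫 := by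
    intro i hi b hb
    obtain ⟨z, hz, e⟩ := hb
    apply hi b
    rw [e, ValuationSubring.mem_nonunits_iff_or]
    by_cases h0 : s34m_unif G (M * q) * z = 0
    · exact Or.inl h0
    right
    intro hinv
    apply s34f_unif_not_unit_VV G φ M q hq hqM i
    refine ⟨z * (s34m_unif G (M * q) * z)⁻¹,
      (s34m_VV G φ M q hq hqM i).mul_mem _ _ hz hinv, ?_⟩
    have hu0 : s34m_unif G (M * q) ≠ 0 := s34m_unif_ne_zero G (M * q)
    have hz0 : z ≠ 0 := right_ne_zero_of_mul h0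
    show (1 : s34m_F K₀ (M * q)) = s34m_unif G (M * q) * (z * (s34m_unif G (M * q) * z)⁻¹)
    field_simp
  refine ⟨?_, hcomp true hthT, hcomp false hthF⟩
  -- maximality
  letI alg₁ : Algebra G.A (s34x_ring (s34x_infRing (s34m_VV G φ M q hq hqM))
      (s18_chart1 (L₀ := K₀) w₁)) :=
    (s34f_constHom G.A (s34x_infRing (s34m_VV G φ M q hq hqM))
      (s34x_inf_const_mem (s34m_VV G φ M q hq hqM) G.A (s34c_const_mem_VV G φ M q hq hqM))
      (s18_chart1 (L₀ := K₀) w₁)).toAlgebra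
  letI alg₂ : Algebra G.A (s34x_ring (s34x_infRing V)
      (s18_chart1 (L₀ := K₀) (s36g_alpha M q w₁))) :=
    (s34f_constHom G.A (s34x_infRing V)
      (s34x_inf_const_mem V G.A (s36b_const_mem G φ M q hq hqM hC))
      (s18_chart1 (L₀ := K₀) (s36g_alpha M q w₁))).toAlgebra
  haveI hFT₂ : Algebra.FiniteType G.A (s34x_ring (s34x_infRing V)
      (s18_chart1 (L₀ := K₀) (s36g_alpha M q w₁))) :=
    s36r_finiteType_of_integral G (laurentBaseChange K₀ (modularFunctionFieldFull (M * q * q)))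
      (s36g_alpha M q w₁) (s34x_ring (s34x_infRing V) (s18_chart1 (L₀ := K₀) (s36g_alpha M q w₁)))
      (s34x_mem_ring_iff G (laurentBaseChange K₀ (modularFunctionFieldFull (M * q * q)))
        (s36g_alpha M q w₁) V (s36b_const_mem G φ M q hq hqM hC) hwO hα) _ (fun _ => rfl)
  refine s36el_comap_isMaximal G.π hπ (s36q_chartMap (s34m_VV G φ M q hq hqM) V
    (s18_chart1 (L₀ := K₀) w₁) (s18_chart1 (L₀ := K₀) (s36g_alpha M q w₁)) (s36g_alpha M q)
    (s36p_chart1_alpha G φ M q hq hqM hC w₁ hB)) (fun a => ?_) 𝔫 (fun a ha => ?_)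
  · apply Subtype.ext
    show s36g_alpha M q (algebraMap K₀ (s34m_F K₀ (M * q)) (a : K₀)) =
      algebraMap K₀ (s34m_F K₀ (M * q * q)) (a : K₀)
    exact (heckeAlphaBar K₀ (M * q) q).commutes _
  · obtain ⟨c, rfl⟩ := (G.π_eq_zero_iff a).mp ha
    rw [map_mul]
    exact 𝔫.mul_mem_right _ (s59nt_multi_unif_mem G φ M q hq hqM hP w₁ 𝔫 h𝔫)

set_option maxHeartbeats 800000 in
/-- **(FIB) + finitely many nodes of level `M q` ⇒ finitely many multiple points of level `M q²`.** -/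
theorem s59nt_finite_multi (hπ : Function.Surjective G.π)
    (hsat : ∀ Q : Place K₀ (s34m_F K₀ (M * q * q)),
      s36g_alpha M q w₁ ∈ Q.toValuationSubring ↔ s36g_beta M q w₁ ∈ Q.toValuationSubring)
    (hFib : s36g_GeoFib G φ M q hq hqM hP.1 w₁ hB hsat)
    [hfin : Finite (s33s_Node (s34m_VV G φ M q hq hqM) (s34m_unif G (M * q))
      (s18_chart1 (L₀ := K₀) w₁))] :
    Finite {𝔫 : Ideal (s34x_ring (L₀ := K₀) (s34x_infRing V) (s18_chart1 (s36g_alpha M q w₁))) //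
      s59m_IsMulti V (s18_chart1 (L₀ := K₀) (s36g_alpha M q w₁)) 𝔫} := by
  classical
  have hαi := fun x => s36b_alpha_mem_iff G φ M q hq hqM hP.1 x
  let Φ : {𝔫 : Ideal (s34x_ring (L₀ := K₀) (s34x_infRing V) (s18_chart1 (s36g_alpha M q w₁))) //
      s59m_IsMulti V (s18_chart1 (L₀ := K₀) (s36g_alpha M q w₁)) 𝔫} →
      s33s_Node (s34m_VV G φ M q hq hqM) (s34m_unif G (M * q)) (s18_chart1 (L₀ := K₀) w₁) :=
    fun 𝔫 => ⟨_, s59nt_multi_pt_isNode G φ M q hq hqM hP w₁ hB hπ 𝔫.1 𝔫.2⟩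
  refine Finite.of_injective Φ ?_
  rintro ⟨𝔫, h𝔫⟩ ⟨𝔫', h𝔫'⟩ hΦ
  haveI := h𝔫.1.isPrime
  haveI := h𝔫'.1.isPrime
  have e : s36q_pt (s34m_VV G φ M q hq hqM) V (s18_chart1 (L₀ := K₀) w₁)
        (s18_chart1 (L₀ := K₀) (s36g_alpha M q w₁)) (s36g_alpha M q)
        (s36p_chart1_alpha G φ M q hq hqM hP.1 w₁ hB) 𝔫 =
      s36q_pt (s34m_VV G φ M q hq hqM) V (s18_chart1 (L₀ := K₀) w₁)
        (s18_chart1 (L₀ := K₀) (s36g_alpha M q w₁)) (s36g_alpha M q)
        (s36p_chart1_alpha G φ M q hq hqM hP.1 w₁ hB) 𝔫' := congrArg Subtype.val hΦ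
  apply Subtype.ext
  show 𝔫 = 𝔫'
  have hthT : s36q_compThrough (s34m_VV G φ M q hq hqM) (s18_chart1 (L₀ := K₀) w₁)
      (s36q_pt (s34m_VV G φ M q hq hqM) V (s18_chart1 (L₀ := K₀) w₁)
        (s18_chart1 (L₀ := K₀) (s36g_alpha M q w₁)) (s36g_alpha M q)
        (s36p_chart1_alpha G φ M q hq hqM hP.1 w₁ hB) 𝔫') true :=
    s36q_compThrough_comap (s34m_VV G φ M q hq hqM) V _ _ (s36g_alpha M q) _ 𝔫' true 0
      (fun x => (hαi x).1) (h𝔫'.2 0)
  have hthF : s36q_compThrough (s34m_VV G φ M q hq hqM) (s18_chart1 (L₀ := K₀) w₁)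
      (s36q_pt (s34m_VV G φ M q hq hqM) V (s18_chart1 (L₀ := K₀) w₁)
        (s18_chart1 (L₀ := K₀) (s36g_alpha M q w₁)) (s36g_alpha M q)
        (s36p_chart1_alpha G φ M q hq hqM hP.1 w₁ hB) 𝔫') false :=
    s36q_compThrough_comap (s34m_VV G φ M q hq hqM) V _ _ (s36g_alpha M q) _ 𝔫' false 2
      (fun x => (hαi x).2.2) (h𝔫'.2 2)
  exact (hFib 𝔫' h𝔫'.1 (s59nt_multi_unif_mem G φ M q hq hqM hP w₁ 𝔫' h𝔫')).1 hthT hthF 𝔫
    inferInstance e

end Gen

section Good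

variable (M q : ℕ) [NeZero M] [NeZero q] (hq : q.Prime) (hqM : ¬ q ∣ M)

/-- finitely many multiple points at a good level, for the base function `w₁ = α x` of `s36g_BaseFull`. -/
theorem s59nt_finite_multi_of_baseFull (hgood : s36g_GoodLevel q M)
    (K₀ : Type) [Field K₀] [NumberField K₀] (φ : K₀ →+* Kb)
    (κ : Type) [Field κ] [CharP κ q] [PerfectField κ]
    (G : s18g_GaussData K₀ κ) [IsDiscreteValuationRing G.A] (hπ : Function.Surjective G.π)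
    (hϖ : ((G.ϖ : G.A) : K₀) = (q : K₀))
    (V : Fin 3 → ValuationSubring (s34m_F K₀ (M * q * q)))
    (hP : s36g_ValPkg G φ M q hq hqM V (s36m_t M q))
    (x : s34m_F K₀ M) (hx : x ∈ s34m_Vinf G M) (hBF : s36g_BaseFull G φ M q hq hqM x hx)
    (w₁ : s34m_F K₀ (M * q)) (hw : w₁ = heckeAlphaBar K₀ M q x)
    [hfin : Finite (s33s_Node (s34m_VV G φ M q hq hqM) (s34m_unif G (M * q))
      (s18_chart1 (L₀ := K₀) w₁))] :
    Finite {𝔫 : Ideal (s34x_ring (L₀ := K₀) (s34x_infRing V) (s18_chart1 (s36g_alpha M q w₁))) //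
      s59m_IsMulti V (s18_chart1 (L₀ := K₀) (s36g_alpha M q w₁)) 𝔫} := by
  subst hw
  obtain ⟨hB, hsat, -⟩ := id hBF
  have hX' := s36b_leafCross_good M q hq hqM hgood K₀ φ κ G hπ hϖ x hx hBF
  have hFib := s36g_geoFib_of_crossReg G φ M q hq hqM hπ hP _ hB hsat hX'
  exact s59nt_finite_multi G φ M q hq hqM hP _ hB hπ hsat hFib

end Good

section U

variable (M q : ℕ) [NeZero M] [hq : Fact q.Prime] (hqM : ¬ q ∣ M) (h5 : 5 ≤ q)
  (P : ValuationSubring Kb) (hP : P.LiesOverPrime q)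
  (L₀ : IntermediateField ℚ Kb) [FiniteDimensional ℚ ↥L₀]
  (hunr : ∀ τ ∈ P.inertiaSubgroupIn ℚ, ∀ a ∈ L₀, τ a = a)

include h5 in
set_option maxHeartbeats 800000 in
/-- **the triple points of helper9's concrete chart of level `M q²` are finite in number.** -/
theorem s59nt_finite_multi_U [CharP (IsLocalRing.ResidueField ↥(s18q_A0 P L₀)) q]
    [PerfectField (IsLocalRing.ResidueField ↥(s18q_A0 P L₀))]
    (D : s59m_L2Data M q hqM P hP L₀ hunr) (h2 : nuTwo M = 0) (h3 : nuThree M = 0) :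
    Finite {𝔫 : Ideal (s34x_ring (L₀ := ↥L₀) (s34x_infRing D.V) (s59m_S2 M q L₀)) //
      s59m_IsMulti D.V (s59m_S2 M q L₀) 𝔫} := by
  classical
  haveI : NeZero q := ⟨hq.out.ne_zero⟩
  haveI : NumberField ↥L₀ := ⟨⟩
  haveI hdvr : IsDiscreteValuationRing ↥(s18q_A0 P L₀) := s18q_A0_dvr P L₀ hP
  haveI : IsDiscreteValuationRing ↥(s59m_GU q P hP L₀ hunr).A := hdvr
  have hπ : Function.Surjective (s59m_GU q P hP L₀ hunr).π := IsLocalRing.residue_surjective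
  have hgood : s36g_GoodLevel q M := ⟨hqM, h2, h3, Or.inl h5⟩
  have hϖ : (((s59m_GU q P hP L₀ hunr).ϖ : (s59m_GU q P hP L₀ hunr).A) : ↥L₀) = (q : ↥L₀) := rfl
  obtain ⟨x, hx, hBF⟩ := s36g_base_full ↥L₀ (algebraMap ↥L₀ Kb) M q hq.out hqM hgood.2.2.2
    (IsLocalRing.ResidueField ↥(s18q_A0 P L₀)) (s59m_GU q P hP L₀ hunr) hπ
  have hxj : x = s18g_jF (K := ↥L₀) M := by
    rcases hBF.2.2.2.2.2.1 with h1 | h1 | h1
    · exact h1.2
    · exact absurd h1.1 (by omega)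
    · exact absurd h1.1 (by omega)
  subst hxj
  haveI hfinι : Finite (s33s_Node (s34m_VV (s59m_GU q P hP L₀ hunr) (algebraMap ↥L₀ Kb) M q hq.out hqM)
      (s34m_unif (s59m_GU q P hP L₀ hunr) (M * q))
      (s18_chart1 (L₀ := ↥L₀) (s18g_jF (K := ↥L₀) (M * q)))) :=
    s44e_finite_node_five M q hqM h5 ↥L₀ (algebraMap ↥L₀ Kb) _ (s59m_GU q P hP L₀ hunr)
      (s59m_hdeg_U M q hqM L₀) (s59m_hT_U M q P L₀ hqM)
      (fun n b hb hn => s18g_exists_relation M (algebraMap ↥L₀ Kb) hn b hb) hπ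
  exact s59nt_finite_multi_of_baseFull M q hq.out hqM hgood ↥L₀ (algebraMap ↥L₀ Kb)
    (IsLocalRing.ResidueField ↥(s18q_A0 P L₀)) (s59m_GU q P hP L₀ hunr) hπ hϖ D.V D.pkg _ hx hBF
    (s18g_jF (K := ↥L₀) (M * q)) (s34d2_alpha_j M q).symm

end U

end Fermat.Agent.Lib.S59
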