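/-
Programme (R2) / node [CAR], W5 = the level `M q²` leaf, leaf **[L2-3] NF₃ over the concrete frame** (helper7, prefix `s59nt_`):
**A KUMMER GENERATOR WHICH IS A UNIT AT THE THREE RINGS IS `g ^ p` TIMES A FUNCTION AVOIDING THE TRIPLE POINTS.**

* `s59nt_geoReg_w` : `s59nt_geoReg` for a base function given up to a propositional equality `w₁ = α x`;
* **`s59nt_nf3_U`** : for helper9's `D : s59m_L2Data …` (`q ≥ 5`, `nuTwo M = nuThree M = 0`), `p ≠ q` prime, `h ≠ 0` with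
  `p ∣ ord_Q h` everywhere and `h` a unit of `D.V 0, D.V 1, D.V 2`: `∃ g ≠ 0`, unit of the three rings, with
  `ord_Q h = p · ord_Q g` at every `Q ∈ D.N₃`; **`s59nt_nf3_U'`** : the quotient `h * (g ^ p)⁻¹` is a unit of the three rings of
  order `0` along `D.N₃` (= `X.U3 ∧ X.NF3` for `X = s59m_frame3C h5 D hglue`).

Inputs: helper9's `s59m_exists_nf3` (MCarNF3.lean), `s59nt_finite_multi_U` (NWTripleFin.lean), `s59nt_geoReg` (NWCentreC.lean).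
-/
import Fermat.Agent.Lib.S59.NWTripleFin
import Fermat.Agent.Lib.S59.NWCentreC

set_option autoImplicit false
set_option linter.style.haveILetI false
set_option linter.unusedSectionVars false
set_option linter.unusedVariables false
set_option synthInstance.maxHeartbeats 400000

noncomputable section

namespace Fermat.Agent.Lib.S59

open ModularCurve HahnSeries AlgebraicCurve Fermat.Agent.Lib.FF Fermat.Agent.Lib.S18
  Fermat.Agent.Lib.S28 Fermat.Agent.Lib.S29 Fermat.Agent.Lib.S37 Fermat.Agent.Lib.S34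
  Fermat.Agent.Lib.S35 Fermat.Agent.Lib.S33 Fermat.Agent.Lib.S44 Fermat.Agent.Lib.S36

local notation "Kb" => AlgebraicClosure ℚ

section Good

variable (M q : ℕ) [NeZero M] [NeZero q] (hq : q.Prime) (hqM : ¬ q ∣ M)

/-- `s59nt_geoReg` for a base function given up to a propositional equality. -/
theorem s59nt_geoReg_w (hgood : s36g_GoodLevel q M)
    (K₀ : Type) [Field K₀] [NumberField K₀] (φ : K₀ →+* Kb)
    (κ : Type) [Field κ] [CharP κ q] [PerfectField κ]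
    (G : s18g_GaussData K₀ κ) [IsDiscreteValuationRing G.A] (hπ : Function.Surjective G.π)
    (hϖ : ((G.ϖ : G.A) : K₀) = (q : K₀))
    (V : Fin 3 → ValuationSubring (s34m_F K₀ (M * q * q)))
    (hP : s36g_ValPkg G φ M q hq hqM V (s36m_t M q))
    (x : s34m_F K₀ M) (hx : x ∈ s34m_Vinf G M) (hBF : s36g_BaseFull G φ M q hq hqM x hx)
    (w₁ : s34m_F K₀ (M * q)) (hw : w₁ = heckeAlphaBar K₀ M q x)
    (m : ℕ) (hm0 : m ≠ 0) (hmA : ((m : K₀))⁻¹ ∈ G.A) :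
    s36g_GeoReg1 G φ M q hq hqM hP.1 w₁ m ∧ s36g_GeoReg2 G φ M q hq hqM hP.1 w₁ m := by
  subst hw
  exact s59nt_geoReg M q hq hqM hgood K₀ φ κ G hπ hϖ V hP x hx hBF m hm0 hmA

end Good

section U

variable (M q : ℕ) [NeZero M] [hq : Fact q.Prime] (hqM : ¬ q ∣ M) (h5 : 5 ≤ q)
  (P : ValuationSubring Kb) (hP : P.LiesOverPrime q)
  (L₀ : IntermediateField ℚ Kb) [FiniteDimensional ℚ ↥L₀]
  (hunr : ∀ τ ∈ P.inertiaSubgroupIn ℚ, ∀ a ∈ L₀, τ a = a)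

include h5 in
set_option maxHeartbeats 1600000 in
/-- **[L2-3] NF₃ over the concrete frame** (see the header). -/
theorem s59nt_nf3_U [CharP (IsLocalRing.ResidueField ↥(s18q_A0 P L₀)) q]
    [PerfectField (IsLocalRing.ResidueField ↥(s18q_A0 P L₀))]
    (D : s59m_L2Data M q hqM P hP L₀ hunr) (h2 : nuTwo M = 0) (h3 : nuThree M = 0)
    (p : ℕ) [hp : Fact p.Prime] (hpq : p ≠ q)
    (h : s34m_F ↥L₀ (M * q * q)) (h0 : h ≠ 0)
    (hdiv : ∀ Q : Place ↥L₀ (s34m_F ↥L₀ (M * q * q)), (p : ℤ) ∣ Q.ord h)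
    (hu : ∀ j, h ∈ D.V j ∧ h⁻¹ ∈ D.V j) :
    ∃ g : s34m_F ↥L₀ (M * q * q), g ≠ 0 ∧ (∀ j, g ∈ D.V j ∧ g⁻¹ ∈ D.V j) ∧
      ∀ Q ∈ D.N₃, Q.ord h = (p : ℤ) * Q.ord g := by
  classical
  haveI : NeZero q := ⟨hq.out.ne_zero⟩
  haveI : NumberField ↥L₀ := ⟨⟩
  haveI hdvr : IsDiscreteValuationRing ↥(s18q_A0 P L₀) := s18q_A0_dvr P L₀ hP
  haveI : IsDiscreteValuationRing ↥(s59m_GU q P hP L₀ hunr).A := hdvr
  have hπ : Function.Surjective (s59m_GU q P hP L₀ hunr).π := IsLocalRing.residue_surjective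
  have hgood : s36g_GoodLevel q M := ⟨hqM, h2, h3, Or.inl h5⟩
  have hqp : ¬ q ∣ p := fun hd => hpq ((Nat.prime_dvd_prime_iff_eq hq.out hp.out).mp hd).symm
  have hpA : ((p : ↥L₀))⁻¹ ∈ (s59m_GU q P hP L₀ hunr).A :=
    s34f_natCast_inv_mem (s18q_A0 P L₀) hq.out (s37rl_nonunit P hP L₀) p hqp
  have hϖ : (((s59m_GU q P hP L₀ hunr).ϖ : (s59m_GU q P hP L₀ hunr).A) : ↥L₀) = (q : ↥L₀) := rfl
  obtain ⟨x, hx, hBF⟩ := s36g_base_full ↥L₀ (algebraMap ↥L₀ Kb) M q hq.out hqM hgood.2.2.2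
    (IsLocalRing.ResidueField ↥(s18q_A0 P L₀)) (s59m_GU q P hP L₀ hunr) hπ
  have hxj : x = s18g_jF (K := ↥L₀) M := by
    rcases hBF.2.2.2.2.2.1 with h1 | h1 | h1
    · exact h1.2
    · exact absurd h1.1 (by omega)
    · exact absurd h1.1 (by omega)
  subst hxj
  have hw : s18g_jF (K := ↥L₀) (M * q) = heckeAlphaBar ↥L₀ M q (s18g_jF (K := ↥L₀) M) :=
    (s34d2_alpha_j M q).symm
  obtain ⟨hReg1, -⟩ := s59nt_geoReg_w M q hq.out hqM hgood ↥L₀ (algebraMap ↥L₀ Kb)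
    (IsLocalRing.ResidueField ↥(s18q_A0 P L₀)) (s59m_GU q P hP L₀ hunr) hπ hϖ D.V D.pkg _ hx hBF
    (s18g_jF (K := ↥L₀) (M * q)) hw p hp.out.ne_zero hpA
  have hB : s35g_BaseData (s59m_GU q P hP L₀ hunr) (algebraMap ↥L₀ Kb) M q hq.out hqM
      (s18g_jF (K := ↥L₀) (M * q)) := by
    rw [hw]; exact hBF.1
  have hPk := D.pkg
  obtain ⟨hC, hU, -, hCompl, hI, -, -⟩ := hPk
  have hB₂ := s36b_baseData₂_of_base (s59m_GU q P hP L₀ hunr) (algebraMap ↥L₀ Kb) M q hq.out hqM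
    hC hCompl hI _ hB
  haveI := s59nt_finite_multi_U M q hqM h5 P hP L₀ hunr D h2 h3
  haveI : Fintype {𝔫 : Ideal (s34x_ring (L₀ := ↥L₀) (s34x_infRing D.V) (s59m_S2 M q L₀)) //
      s59m_IsMulti D.V (s59m_S2 M q L₀) 𝔫} := Fintype.ofFinite _
  obtain ⟨g, hg0, hgu, hg⟩ := s59m_exists_nf3 D.V (s59m_S2 M q L₀)
    (s36b_arch (s59m_GU q P hP L₀ hunr) M q hq.out hU)
    (s36b_dict₁ (s59m_GU q P hP L₀ hunr) (algebraMap ↥L₀ Kb) M q hq.out hqM hC hU _ hB₂).2.2.2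
    (fun s : {𝔫 : Ideal (s34x_ring (L₀ := ↥L₀) (s34x_infRing D.V) (s59m_S2 M q L₀)) //
      s59m_IsMulti D.V (s59m_S2 M q L₀) 𝔫} => s.1) (fun s => s.2) Subtype.val_injective
    h h0 p hp.out.ne_zero (fun s Q _ _ => hdiv Q) hu
    (fun s => hReg1 s.1 s.2.1
      (s59nt_multi_unif_mem (s59m_GU q P hP L₀ hunr) (algebraMap ↥L₀ Kb) M q hq.out hqM D.pkg
        (s18g_jF (K := ↥L₀) (M * q)) s.1 s.2))
  refine ⟨g, hg0, hgu, ?_⟩
  rintro Q ⟨hQS, 𝔫, h𝔫, hth⟩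
  exact hg ⟨𝔫, h𝔫⟩ Q hQS hth

include h5 in
/-- **[L2-3]**, quotient form: `h * (g ^ p)⁻¹` is a unit of the three rings and has order `0` along `D.N₃`. -/
theorem s59nt_nf3_U' [CharP (IsLocalRing.ResidueField ↥(s18q_A0 P L₀)) q]
    [PerfectField (IsLocalRing.ResidueField ↥(s18q_A0 P L₀))]
    (D : s59m_L2Data M q hqM P hP L₀ hunr) (h2 : nuTwo M = 0) (h3 : nuThree M = 0)
    (p : ℕ) [hp : Fact p.Prime] (hpq : p ≠ q)
    (h : s34m_F ↥L₀ (M * q * q)) (h0 : h ≠ 0)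
    (hdiv : ∀ Q : Place ↥L₀ (s34m_F ↥L₀ (M * q * q)), (p : ℤ) ∣ Q.ord h)
    (hu : ∀ j, h ∈ D.V j ∧ h⁻¹ ∈ D.V j) :
    ∃ g : s34m_F ↥L₀ (M * q * q), g ≠ 0 ∧ (∀ j, g ∈ D.V j ∧ g⁻¹ ∈ D.V j) ∧
      h * (g ^ p)⁻¹ ≠ 0 ∧ (∀ j, h * (g ^ p)⁻¹ ∈ D.V j ∧ (h * (g ^ p)⁻¹)⁻¹ ∈ D.V j) ∧
      ∀ Q ∈ D.N₃, Q.ord (h * (g ^ p)⁻¹) = 0 := by
  obtain ⟨g, hg0, hgu, hg⟩ := s59nt_nf3_U M q hqM h5 P hP L₀ hunr D h2 h3 p hpq h h0 hdiv hu
  have hgp0 : g ^ p ≠ 0 := pow_ne_zero p hg0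
  refine ⟨g, hg0, hgu, mul_ne_zero h0 (inv_ne_zero hgp0), fun j => ⟨?_, ?_⟩, fun Q hQ => ?_⟩
  · rw [← inv_pow]
    exact (D.V j).mul_mem _ _ (hu j).1 (pow_mem (hgu j).2 p)
  · rw [mul_inv, inv_inv]
    exact (D.V j).mul_mem _ _ (hu j).2 (pow_mem (hgu j).1 p)
  · rw [Q.ord_mul h0 (inv_ne_zero hgp0), Q.ord_inv, ← zpow_natCast, Q.ord_zpow, hg Q hQ]
    ring

end U

end Fermat.Agent.Lib.S59
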