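/-
Programme (R2) / node **[CAR]**, route R-DS′, W5 = the level `M q²` leaf (helper9, prefix `s59m_`):
**THE WIRING OF `hlvl2`** — the leaf `s59u_Lvl2` of the top assembly from the W5 leaves.

* `s59m_HeckeFrame3.res_rel` (abstract) : for a generator `h` (unit at the three rings) of a `T_ℓ`-eigen-point,
  `H.Ti (r j h) = c · γ ^ p · (r j h) ^ a` with `c ∈ κˣ`, `γ ∈ Fbˣ`;
* `s59m_gen_mul_const_pow` : `c · g ^ m · h` is a Kummer generator of the same point;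
* **`s59m_lvl2C`** : `s59u_Lvl2 M q p P (s59m_kumFrameU …) HF` for Hecke frames `HF` with `H.T = τ_ℓ` (`s59u_tauD`), from
  `D : s59m_L2Data`, [L2-6] `hglue : s59m_Glue3C h5 D`, [L2-8] `hinj : s59m_Inj3C h5 p D`, [L2-7] Hecke frames `HF3` of level
  `M q²` over `s59m_kumFrame3C`, and [L2-5] `s59m_LeftLeaf`.  Chain: [L2-1] `s44e_qdiv` (generator over `L₀`, rationality from
  `hB.rat2`) → [L2-2] `D.exists_u3` (unit at the three rings; uses the non-Eisenstein prime) → [L2-3] helper7's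
  `s59nt_nf3_U'` (avoid the triple points) → [L2-4] `D.red3` (residues on `V 0`, `V 2` are constants times `p`-th powers)
  → case split on the MIDDLE residue `ρ = rb 1 h`: if `ρ ∈ κ₀ˣ · Fbˣᵖ`, the abstract `s59m_lvl2_abs_add` gives the toric
  alternative; otherwise [L2-5] gives an eigen-point of level `M` (`p ∣ div ρ` is helper7's `s59nt_rb1_dvd`, the
  eigen-relations are `res_rel` at `j = 1`).
-/
import Fermat.Agent.Lib.S59.MCarL2K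
import Fermat.Agent.Lib.S59.MCarL2R
import Fermat.Agent.Lib.S59.MCarL2G
import Fermat.Agent.Lib.S59.MCarL2Left
import Fermat.Agent.Lib.S59.NWTripleNF
import Fermat.Agent.Lib.S59.NWCentreU
import Fermat.Agent.Lib.S44.EDiv

set_option autoImplicit false
set_option linter.style.haveILetI false
set_option linter.unusedSectionVars false
set_option linter.unusedVariables false
set_option synthInstance.maxHeartbeats 400000

noncomputable section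

namespace Fermat.Agent.Lib.S59

open ModularCurve HahnSeries AlgebraicCurve Fermat.Agent.Lib.FF Fermat.Agent.Lib.S18
  Fermat.Agent.Lib.S28 Fermat.Agent.Lib.S29 Fermat.Agent.Lib.S37 Fermat.Agent.Lib.S34
  Fermat.Agent.Lib.S35 Fermat.Agent.Lib.S33 Fermat.Agent.Lib.S44 Fermat.Agent.Lib.S36

local notation "Kb" => AlgebraicClosure ℚ
local notation "Γℚ" => (AlgebraicClosure ℚ ≃ₐ[ℚ] AlgebraicClosure ℚ)

section Abs

variable {L₀ 𝓕' κ Fb : Type*} [Field L₀] [Field 𝓕'] [Algebra L₀ 𝓕'] [Field κ] [Field Fb] [Algebra κ Fb]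
variable {D' : s33f_Datum L₀ 𝓕' κ Fb} {𝓕 : Type*} [Field 𝓕] [Algebra L₀ 𝓕]
variable {ι : Type*} {k : ι → Type*} [∀ s, Field (k s)] [∀ s, Algebra κ (k s)]
variable {Z : s33z_Datum D' 𝓕 ι k} {𝓕₂ : Type*} [Field 𝓕₂] [Algebra L₀ 𝓕₂]
variable {N₂ p : ℕ} [NeZero N₂] {X : s59m_Frame3 Z 𝓕₂}

/-- **the Hecke relation of a residue**: for a generator `h` (unit at the three rings) of a point `x` with
`T_ℓ x = a • x`: `H.Ti (r j h) = c · γ ^ p · (r j h) ^ a`. -/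
theorem s59m_HeckeFrame3.res_rel {G : s59m_KumFrame3 N₂ p X} {H : s59m_HeckeOn Z} {ℓ : Nat.Primes}
    (E : s59m_HeckeFrame3 G H ℓ) {x : JZero N₂} {h : 𝓕₂} (hgen : G.gen x h) (hu : X.U3 h) (a : ℤ)
    (hx : heckeOperatorBar N₂ ℓ x = a • x) (j : Fin 3) :
    ∃ (c : κ) (γ : Fb), c ≠ 0 ∧ γ ≠ 0 ∧
      H.Ti (X.r j ⟨h, (hu.2 j).1⟩) = algebraMap κ Fb c * γ ^ p * (X.r j ⟨h, (hu.2 j).1⟩) ^ a := by
  have g1 : G.gen (a • x) (E.T h) := by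
    have := E.gen_hecke hgen
    rwa [hx] at this
  have g2 : G.gen (a • x) (h ^ a) := G.gen_zsmul hgen _
  obtain ⟨c, g, hc, hg, e⟩ := G.gen_congr g2 g1
  have hTu : X.U3 (E.T h) := E.u3 hu
  have hau : X.U3 (h ^ a) := s59m_Frame3.U3.zpow X hu _
  have hw : X.U3 (E.T h * (h ^ a)⁻¹) := s59m_Frame3.U3.mul X hTu (s59m_Frame3.U3.inv X hau)
  have ew : E.T h * (h ^ a)⁻¹ = algebraMap L₀ 𝓕₂ c * g ^ p := by
    rw [e, mul_assoc, mul_inv_cancel₀ hau.1, mul_one]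
  obtain ⟨c', g', hc'1, hc'2, hc'0, hg'u, e'⟩ := G.norm c g _ hc hg hw ew
  have eT : E.T h = algebraMap L₀ 𝓕₂ c' * g' ^ p * h ^ a := by
    rw [← e', mul_assoc, inv_mul_cancel₀ hau.1, mul_one]
  have hcb : D'.resA ⟨c', hc'1⟩ ≠ 0 := by
    have h1 : (⟨c', hc'1⟩ : D'.A₀) * ⟨c'⁻¹, hc'2⟩ = 1 := Subtype.ext (mul_inv_cancel₀ hc'0)
    have h2 := congrArg D'.resA h1
    rw [map_mul, map_one] at h2
    exact left_ne_zero_of_mul_eq_one h2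
  have E1 : (⟨E.T h, E.mem j h (hu.2 j).1⟩ : X.V j) =
      ⟨algebraMap L₀ 𝓕₂ c', X.const_mem j c' hc'1⟩ * (⟨g', (hg'u.2 j).1⟩ : X.V j) ^ p *
        ⟨h ^ a, (hau.2 j).1⟩ := Subtype.ext eT
  refine ⟨D'.resA ⟨c', hc'1⟩, X.r j ⟨g', (hg'u.2 j).1⟩, hcb, X.r_ne_zero hg'u j, ?_⟩
  rw [← E.red j h (hu.2 j).1 (hu.2 j).2, E1, map_mul, map_mul, map_pow, X.r_zpow hu j a]
  congr 2
  exact X.r_const j ⟨c', hc'1⟩

end Abs

/-- `c · g ^ m · h` is a Kummer generator of the same point as `h`. -/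
theorem s59m_gen_mul_const_pow (N : ℕ) [NeZero N] (m : ℕ) (L₀ : IntermediateField ℚ Kb)
    {x : JZero N} {h : s34m_F ↥L₀ N} (hx : s33d_IsKumGen m x (s18q_incl N L₀ h))
    {c : ↥L₀} (hc : c ≠ 0) {g : s34m_F ↥L₀ N} (hg : g ≠ 0) :
    s33d_IsKumGen m x (s18q_incl N L₀ (algebraMap ↥L₀ (s34m_F ↥L₀ N) c * g ^ m * h)) := by
  have hcK : ((c : ↥L₀) : Kb) ≠ 0 := fun h0 => hc (Subtype.ext h0)
  have hgK : s18q_incl N L₀ g ≠ 0 := (_root_.map_ne_zero _).mpr hg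
  have := s33d_kumGen_mul hx hcK hgK
  rw [map_mul, map_mul, map_pow, s18q_incl_algebraMap]
  exact this

/-- the orders of a Kummer generator over `L₀` are divisible by the exponent. -/
theorem s59m_gen_dvd_ord (N : ℕ) [NeZero N] (m : ℕ) (L₀ : IntermediateField ℚ Kb)
    {x : JZero N} {h : s34m_F ↥L₀ N} (hx : s33d_IsKumGen m x (s18q_incl N L₀ h))
    (Q : Place ↥L₀ (s34m_F ↥L₀ N)) : (m : ℤ) ∣ Q.ord h := by
  refine s18q_dvd_ord_descend N L₀ (m : ℤ) h (fun P => ?_) Q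
  obtain ⟨-, Dv, -, hD⟩ := hx
  exact ⟨_, hD P⟩

section Conc

variable (M q p : ℕ) [NeZero M] [hq : Fact q.Prime] [hp : Fact p.Prime] (hqM : ¬ q ∣ M)
  (h5 : 5 ≤ q) (hpq : p ≠ q)

include hpq h5 in
set_option maxHeartbeats 1600000 in
/-- **[L2-1] + [L2-2] + [L2-3]**: an `L₀`-rational `p`-torsion point of `J₀(M q²)` which is a non-Eisenstein eigen-vector of
one `T_ℓ` (`ℓ ∤ M q`) has a Kummer generator over `L₀` which is a unit of the three rings and avoids the triple points. -/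
theorem s59m_exists_gen3 (h2 : nuTwo M = 0) (h3 : nuThree M = 0)
    (P : ValuationSubring Kb) (hP : P.LiesOverPrime q)
    (L₀ : IntermediateField ℚ Kb) [FiniteDimensional ℚ ↥L₀]
    [CharP (IsLocalRing.ResidueField ↥(s18q_A0 P L₀)) q]
    [PerfectField (IsLocalRing.ResidueField ↥(s18q_A0 P L₀))]
    (hunr : ∀ τ ∈ P.inertiaSubgroupIn ℚ, ∀ a ∈ L₀, τ a = a)
    (D : s59m_L2Data M q hqM P hP L₀ hunr)
    (l : ℕ) [hl : Fact l.Prime] (hl2 : ¬ l ∣ M * q * q) (a : ℤ) (hna : ¬ (p : ℤ) ∣ a - (l + 1))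
    (x : JZero (M * q * q)) (hpx : p • x = 0)
    (hrat : ∀ σ : Γℚ, (∀ b ∈ L₀, σ b = b) → σ • x = x)
    (hx : heckeOperatorBar (M * q * q) ⟨l, hl.out⟩ x = a • x) :
    ∃ h : s34m_F ↥L₀ (M * q * q), s33d_IsKumGen p x (s18q_incl (M * q * q) L₀ h) ∧ h ≠ 0 ∧
      (∀ j, h ∈ D.V j ∧ h⁻¹ ∈ D.V j) ∧ ∀ Q ∈ D.N₃, Q.ord h = 0 := by
  haveI : NeZero q := ⟨hq.out.ne_zero⟩
  haveI : NeZero p := ⟨hp.out.ne_zero⟩
  -- [L2-1] the generator over `L₀`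
  obtain ⟨h₀, hgen₀⟩ := s44e_qdiv (M * q * q) p L₀ x hpx hrat
  -- [L2-2] unit at the three rings
  have hql : q ≠ l := by
    rintro rfl
    exact hl2 (dvd_mul_left q (M * q))
  obtain ⟨u, g₁, hg₁, hu₁⟩ := D.exists_u3 p l hl2 hql a hna hgen₀ hx
  have hq0 : ((q : ℕ) : ↥L₀) ^ u ≠ 0 := zpow_ne_zero _ (Nat.cast_ne_zero.mpr hq.out.ne_zero)
  have hgen₁ : s33d_IsKumGen p x (s18q_incl (M * q * q) L₀
      (h₀ * algebraMap ↥L₀ (s34m_F ↥L₀ (M * q * q)) ((q : ℕ) : ↥L₀) ^ u * (g₁ ^ p)⁻¹)) := by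
    have := s59m_gen_mul_const_pow (M * q * q) p L₀ hgen₀ hq0 (inv_ne_zero hg₁)
    have e : algebraMap ↥L₀ (s34m_F ↥L₀ (M * q * q)) (((q : ℕ) : ↥L₀) ^ u) * g₁⁻¹ ^ p * h₀ =
        h₀ * algebraMap ↥L₀ (s34m_F ↥L₀ (M * q * q)) ((q : ℕ) : ↥L₀) ^ u * (g₁ ^ p)⁻¹ := by
      rw [map_zpow₀, inv_pow]; ring
    rwa [e] at this
  obtain ⟨h₁, hh₁⟩ : ∃ h₁ : s34m_F ↥L₀ (M * q * q), h₁ =
    h₀ * algebraMap ↥L₀ (s34m_F ↥L₀ (M * q * q)) ((q : ℕ) : ↥L₀) ^ u * (g₁ ^ p)⁻¹ := ⟨_, rfl⟩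
  rw [← hh₁] at hgen₁ hu₁
  have hh₁0 : h₁ ≠ 0 := by
    intro h
    apply hgen₁.1
    rw [h, map_zero]
  -- [L2-3] avoid the triple points
  obtain ⟨g₂, hg₂, hg₂u, hh₂0, hu₂, hnf₂⟩ := s59nt_nf3_U' M q hqM h5 P hP L₀ hunr D h2 h3 p hpq
    h₁ hh₁0 (s59m_gen_dvd_ord (M * q * q) p L₀ hgen₁) hu₁
  have hgen₂ : s33d_IsKumGen p x (s18q_incl (M * q * q) L₀ (h₁ * (g₂ ^ p)⁻¹)) := by
    have := s59m_gen_mul_const_pow (M * q * q) p L₀ hgen₁ (one_ne_zero (α := ↥L₀)) (inv_ne_zero hg₂)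
    have e : algebraMap ↥L₀ (s34m_F ↥L₀ (M * q * q)) (1 : ↥L₀) * g₂⁻¹ ^ p * h₁ = h₁ * (g₂ ^ p)⁻¹ := by
      rw [map_one, one_mul, inv_pow, mul_comm h₁]
    rwa [e] at this
  exact ⟨h₁ * (g₂ ^ p)⁻¹, hgen₂, hh₂0, hu₂, hnf₂⟩

include hpq in
set_option maxHeartbeats 12800000 in
/-- **THE LEAF `hlvl2`** from the W5 leaves (see the header). -/
theorem s59m_lvl2C (h2 : nuTwo M = 0) (h3 : nuThree M = 0)
    (P : ValuationSubring Kb) (hP : P.LiesOverPrime q) (K : ℕ)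
    (L₀ : IntermediateField ℚ Kb) [FiniteDimensional ℚ ↥L₀]
    [CharP (IsLocalRing.ResidueField ↥(s18q_A0 P L₀)) q]
    [PerfectField (IsLocalRing.ResidueField ↥(s18q_A0 P L₀))]
    (hB : haveI : NeZero q := ⟨hq.out.ne_zero⟩; s59m_Base M q p K P L₀)
    (HF : ∀ ℓ : Nat.Primes, ¬ (ℓ : ℕ) ∣ M * q * p →
      s59m_HeckeFrame (s59m_kumFrameU M q hqM h5 P hP L₀ hB.unr (p ^ K) (s59m_pK_ne p K)
        (s59m_q_ndvd_pK q p hpq K)) ℓ)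
    (hHFT : ∀ (ℓ : ℕ) [hℓ : Fact ℓ.Prime] (hℓ' : ¬ ℓ ∣ M * q * p), ∃ hℓN : ¬ ℓ ∣ M * q,
      (HF ⟨ℓ, hℓ.out⟩ hℓ').H.T = s59u_tauD (M * q) ℓ hℓN L₀)
    (D : s59m_L2Data M q hqM P hP L₀ hB.unr) (hglue : s59m_Glue3C h5 D)
    (hinj : s59m_Inj3C h5 p D)
    (HF3 : ∀ (ℓ : Nat.Primes) (hℓ : ¬ (ℓ : ℕ) ∣ M * q * p),
      s59m_HeckeFrame3 (s59m_kumFrame3C h5 p D hglue hinj) (HF ℓ hℓ).H ℓ)
    (hleft : s59m_LeftLeaf M q p hqM h5 hpq) :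
    haveI : NeZero q := ⟨hq.out.ne_zero⟩
    s59u_Lvl2 M q p P (s59m_kumFrameU M q hqM h5 P hP L₀ hB.unr (p ^ K) (s59m_pK_ne p K)
      (s59m_q_ndvd_pK q p hpq K)) HF := by
  haveI : NeZero q := ⟨hq.out.ne_zero⟩
  haveI : NeZero p := ⟨hp.out.ne_zero⟩
  intro a B hB' hne L _ _ x hx0 hEig hratL hin hα hβ
  obtain ⟨⟨l, hl⟩, hℓ₀B, hℓ₀⟩ := hne
  obtain ⟨hpx, heig⟩ := hEig
  haveI : Fact l.Prime := ⟨hl⟩
  have hlMqp : ¬ l ∣ M * q * p := fun hd => hℓ₀B (hB' l hl hd)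
  have hl2 : ¬ l ∣ M * q * q := by
    intro hd
    apply hlMqp
    rcases (Nat.Prime.dvd_mul hl).mp hd with h | h
    · exact h.trans (dvd_mul_right _ _)
    · exact (h.trans (dvd_mul_left q M)).trans (dvd_mul_right _ _)
  obtain ⟨h₂, hgen₂, hh₂0, hu₂, hnf₂⟩ := s59m_exists_gen3 M q p hqM h5 hpq h2 h3 P hP L₀ hB.unr D l hl2
    (a l) hℓ₀ x hpx (hB.rat2 x hpx hin) (heig ⟨l, hl⟩ hℓ₀B)
  -- [L2-4] the residues
  have hqp : Nat.Coprime q p := (Nat.coprime_primes hq.out hp.out).mpr hpq.symm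
  obtain ⟨c, b, hc, hb, e0, e1, e2⟩ := D.red3 h5 p hp.out.ne_zero hqp hgen₂ hα hβ hu₂
  have hU : (s59m_frame3C h5 D hglue).U3 h₂ := ⟨hh₂0, hu₂⟩
  have hNF : (s59m_frame3C h5 D hglue).NF3 h₂ := ⟨hh₂0, hnf₂⟩
  by_cases hcase : ∃ (c' : IsLocalRing.ResidueField ↥(s18q_A0 P L₀))
      (w : ↥(modularFunctionFieldFullC (IsLocalRing.ResidueField ↥(s18q_A0 P L₀)) M)),
      c' ≠ 0 ∧ w ≠ 0 ∧ D.rb h5 1 ⟨h₂, (hu₂ 1).1⟩ =
        algebraMap (IsLocalRing.ResidueField ↥(s18q_A0 P L₀))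
          ↥(modularFunctionFieldFullC (IsLocalRing.ResidueField ↥(s18q_A0 P L₀)) M) c' * w ^ p
  · -- the toric alternative
    right
    obtain ⟨c', w, hc', hw, ew⟩ := hcase
    have R : s59m_Res3 (s59m_frame3C h5 D hglue) p h₂ :=
      { hu := hU
        hnf := hNF
        c := ![c 0, c', c 2]
        α := ![b 0, w, b 2]
        c_ne := by
          intro j
          fin_cases j
          · exact hc 0
          · exact hc'
          · exact hc 2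
        e := by
          intro j
          fin_cases j
          · exact e0
          · exact ew
          · exact e2 }
    have hrc : s59m_RootConst (IsLocalRing.ResidueField ↥(s18q_A0 P L₀))
        ↥(modularFunctionFieldFullC (IsLocalRing.ResidueField ↥(s18q_A0 P L₀)) M) p := by
      refine s59u_rootConst _ p ?_
      rw [Ne, CharP.cast_eq_zero_iff (IsLocalRing.ResidueField ↥(s18q_A0 P L₀)) q]
      exact fun hd => hpq ((Nat.prime_dvd_prime_iff_eq hq.out hp.out).mp hd).symm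
    exact s59m_lvl2_abs_add hp.out.ne_zero hrc
      (s59m_kumFrameU M q hqM h5 P hP L₀ hB.unr (p ^ K) (s59m_pK_ne p K) (s59m_q_ndvd_pK q p hpq K))
      (s59m_kumFrame3C h5 p D hglue hinj) (M * q * p) HF HF3 a B hx0 heig hgen₂ R
  · -- the eigen-point of level `M`
    left
    refine hleft P hP L₀ hB.unr a B hB' (D.rb h5 1 ⟨h₂, (hu₂ 1).1⟩)
      ((s59m_frame3C h5 D hglue).r_ne_zero hU 1)
      (fun v => s59nt_rb1_dvd M q hqM h5 P hP L₀ hB.unr D h2 h3 p hpq h₂ hh₂0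
        (s59m_gen_dvd_ord (M * q * q) p L₀ hgen₂) hu₂ v) hcase ?_
    intro ℓ hℓ hℓB
    have hℓ' : ¬ ℓ ∣ M * q * p := fun hd => hℓB (hB' ℓ hℓ.out hd)
    obtain ⟨hℓN, hT⟩ := hHFT ℓ hℓ'
    have E := HF3 ⟨ℓ, hℓ.out⟩ hℓ'
    have hg : (s59m_kumFrame3C h5 p D hglue hinj).gen x h₂ := hgen₂
    have hxe : heckeOperatorBar (M * q * q) ⟨ℓ, hℓ.out⟩ x = a ℓ • x := heig ⟨ℓ, hℓ.out⟩ hℓB
    have key := s59m_HeckeFrame3.res_rel E hg hU (a ℓ) hxe 1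
    obtain ⟨c₁, γ₁, hc₁, hγ₁, e₁⟩ := key
    exact ⟨hℓN, (HF ⟨ℓ, hℓ.out⟩ hℓ').H, hT, c₁, γ₁, hc₁, hγ₁, e₁⟩

end Conc

end Fermat.Agent.Lib.S59
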