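/-
Programme (R2) / node [CAR], leaf [L2-5 LEFT] (helper7, prefix `s59nt_`), part (c1):
**LIFTING AN EIGEN KUMMER CLASS OF THE SPECIAL FIBRE `X₀(M) / F̄_q` TO AN EIGEN-POINT OF `J₀(M)[p]`, TOP LEVEL** (`ℚ̄`, the
Gauss valuation ring of `P ∣ q`, `κ̄` the residue field of `P`, `F̄_M = modularFunctionFieldFullC κ̄ M`).

`s59nt_lift_eig_top` : let `ū ∈ F̄_M`, `ū ≠ 0`, with `p ∣ div ū`, and with, for every prime `ℓ ∉ B`, a relation
`N̄_ℓ ū = c̄ · ū ^ (a ℓ) · U ^ p` (`c̄ ∈ κ̄ˣ`, `U ∈ F̄_Mˣ`).  Then EITHER there is a non-zero eigen-point at level `M`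
(`s44i_Eig M p a B y`), OR `ū = c · w ^ p`.

This is helper9's `s59m_core` (`MRedTop.lean`) with the level-`M q` point `x` and its generator `H` removed: only the
reduced function and its reduced Hecke relations are used.
-/
import Fermat.Agent.Lib.S59.MRedTop

set_option autoImplicit false
set_option linter.style.haveILetI false
set_option linter.unusedSectionVars false
set_option linter.unusedVariables false
set_option synthInstance.maxHeartbeats 400000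

namespace Fermat.Agent.Lib.S59

open ModularCurve HahnSeries AlgebraicCurve Fermat.Agent.Lib.FF Fermat.Agent.Lib.S18
  Fermat.Agent.Lib.S28 Fermat.Agent.Lib.S29 Fermat.Agent.Lib.S37 Fermat.Agent.Lib.S34
  Fermat.Agent.Lib.S33 Fermat.Agent.Lib.S44 Fermat.Agent.Lib.S19 Fermat.Agent.Lib.S17
  Fermat.Agent.Lib.S15

noncomputable section

local notation "Kb" => AlgebraicClosure ℚ

section Core

variable (M q : ℕ) [NeZero M] [hq : Fact q.Prime] (hqM : ¬ q ∣ M) (h5 : 5 ≤ q)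
  (p : ℕ) [hp : Fact p.Prime] (hpq : p ≠ q)
  (P : ValuationSubring Kb) (hP : P.LiesOverPrime q)

set_option maxHeartbeats 1600000 in
include hqM h5 hpq hP in
/-- **LIFTING AN EIGEN KUMMER CLASS OF THE SPECIAL FIBRE, top level.** -/
theorem s59nt_lift_eig_top (a : ℕ → ℤ) (B : Finset ℕ) (hB : ∀ r : ℕ, r.Prime → r ∣ M * q * p → r ∈ B)
    (ū : ↥(modularFunctionFieldFullC (IsLocalRing.ResidueField ↥P) M)) (hū0 : ū ≠ 0)
    (hdiv : ∀ v : Place (IsLocalRing.ResidueField ↥P)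
      ↥(modularFunctionFieldFullC (IsLocalRing.ResidueField ↥P) M), (p : ℤ) ∣ v.ord ū)
    (hN : ∀ ℓ : Nat.Primes, (ℓ : ℕ) ∉ B →
      haveI : NeZero (ℓ : ℕ) := ⟨ℓ.2.ne_zero⟩
      ∃ (ζ : Kbˣ) (hζ : IsPrimitiveRoot (ζ : Kb) (ℓ : ℕ)) (cb : IsLocalRing.ResidueField ↥P)
        (U : ↥(modularFunctionFieldFullC (IsLocalRing.ResidueField ↥P) M)), cb ≠ 0 ∧ U ≠ 0 ∧
        s33t_N (ℓ : ℕ) (s44h_zetaTK P (IsLocalRing.residue ↥P) (ℓ : ℕ) ζ hζ)
            (ū : LaurentSeries (IsLocalRing.ResidueField ↥P)) =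
          HahnSeries.C cb * (ū : LaurentSeries (IsLocalRing.ResidueField ↥P)) ^ (a ℓ) *
            (U : LaurentSeries (IsLocalRing.ResidueField ↥P)) ^ p) :
    (∃ y : JZero M, y ≠ 0 ∧ s44i_Eig M p a B y) ∨
      ∃ (c : IsLocalRing.ResidueField ↥P)
        (w : ↥(modularFunctionFieldFullC (IsLocalRing.ResidueField ↥P) M)), c ≠ 0 ∧ w ≠ 0 ∧
        ū = algebraMap (IsLocalRing.ResidueField ↥P)
          ↥(modularFunctionFieldFullC (IsLocalRing.ResidueField ↥P) M) c * w ^ p := by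
  classical
  have hgood : s18_GoodLevel q M := ⟨hqM, Or.inl h5⟩
  haveI : FFGen Kb (ffd_jBar M) := s18r_ffGen M
  obtain ⟨r, l, g, hr, hl, hC⟩ :=
    (s19m_curveExists s19_gauss_final s19_rr_final s19e_baseA) M q hgood P hP
  obtain ⟨abv, hna, hAabv⟩ := s17z_abv_exists P hq.out hP
  have hconst : s33d_ConstOfOrdZero (IsLocalRing.ResidueField ↥P)
      ↥(modularFunctionFieldFullC (IsLocalRing.ResidueField ↥P) M) :=
    s18n_constFk_residueField (N := M) P hq.out hP hqM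
  have hp0 : p ≠ 0 := hp.out.ne_zero
  have hpA := s59m_isUnit_p q p hpq P hP
  obtain ⟨z, G, hGO, hgenG, hG'O, c₁, w₁, hc₁, hw₁, hredG⟩ :=
    s59m_liftK hC abv hna hAabv hconst p hp0 hpA ū hū0 hdiv
  have hG0 : G ≠ 0 := hgenG.1
  -- the reduction of `G` as a series
  have hredGs : s37r_redV P M hP ⟨G, hGO⟩ =
      HahnSeries.C c₁ * (ū : LaurentSeries (IsLocalRing.ResidueField ↥P)) *
        (w₁ : LaurentSeries (IsLocalRing.ResidueField ↥P)) ^ p := by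
    have := congrArg (fun y : ↥(modularFunctionFieldFullC (IsLocalRing.ResidueField ↥P) M) =>
      (y : LaurentSeries (IsLocalRing.ResidueField ↥P))) hredG
    simp only [s37r_coe_redF, MulMemClass.coe_mul, SubmonoidClass.coe_pow,
      s59m_coe_algebraMap_fullC] at this
    exact this
  by_cases hz : z = 0
  · -- `z = 0`: `ū` is a constant times a `p`-th power
    right
    obtain ⟨c₂, w₂, hc₂, hw₂, hGeq⟩ :=
      (s33d_kumGen_zero_iff (s33d_constOfOrdZero_bar M) hp0 hgenG).mp hz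
    obtain ⟨cb, u, hu, hcb, hu0, hrel⟩ := s59m_gauss_rel M P hP p 0 1 G one_ne_zero
      (s37r_OF P M hP).one_mem (by rw [inv_one]; exact (s37r_OF P M hP).one_mem) hGO hG'O
      c₂ w₂ hc₂ hw₂ (by rw [hGeq, zpow_zero, mul_one])
    rw [zpow_zero, mul_one] at hrel
    refine ⟨cb * c₁⁻¹, s37r_redF P M hP hqM ⟨u, hu⟩ * w₁⁻¹, mul_ne_zero hcb (inv_ne_zero hc₁),
      mul_ne_zero (fun h0 => hu0 (congrArg Subtype.val h0)) (inv_ne_zero hw₁), ?_⟩
    apply Subtype.ext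
    have hw₁s : (w₁ : LaurentSeries (IsLocalRing.ResidueField ↥P)) ≠ 0 :=
      fun h0 => hw₁ (Subtype.ext h0)
    have hC0 : (HahnSeries.C c₁ : LaurentSeries (IsLocalRing.ResidueField ↥P)) ≠ 0 := by
      rw [Ne, ← map_zero (HahnSeries.C : (IsLocalRing.ResidueField ↥P) →+* LaurentSeries _)]
      exact fun h => hc₁ (HahnSeries.C_injective h)
    have e1 : HahnSeries.C c₁ * (ū : LaurentSeries (IsLocalRing.ResidueField ↥P)) *
        (w₁ : LaurentSeries (IsLocalRing.ResidueField ↥P)) ^ p =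
        HahnSeries.C cb * (s37r_redV P M hP ⟨u, hu⟩) ^ p := by rw [← hredGs, hrel]
    simp only [MulMemClass.coe_mul, SubmonoidClass.coe_pow, s59m_coe_algebraMap_fullC,
      s37r_coe_redF, IntermediateField.coe_inv, map_mul, map_inv₀, mul_pow, inv_pow]
    have hwp : (w₁ : LaurentSeries (IsLocalRing.ResidueField ↥P)) ^ p ≠ 0 := pow_ne_zero p hw₁s
    field_simp
    rw [← e1]
    ring
  · -- `z ≠ 0`: an eigen-point at level `M`
    left
    refine ⟨z, hz, s33d_kumGen_tors hgenG, ?_⟩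
    intro ℓ hℓB
    haveI hℓF : Fact (ℓ : ℕ).Prime := ⟨ℓ.2⟩
    haveI : NeZero (ℓ : ℕ) := ⟨ℓ.2.ne_zero⟩
    have hℓN : ¬ (ℓ : ℕ) ∣ M * q * p := fun hd => hℓB (hB ℓ ℓ.2 hd)
    have hℓMq : ¬ (ℓ : ℕ) ∣ M * q := fun hd => hℓN (Dvd.dvd.mul_right hd p)
    have hℓM : ¬ (ℓ : ℕ) ∣ M := fun hd => hℓMq (Dvd.dvd.mul_right hd q)
    have hℓq : (ℓ : ℕ) ≠ q := by
      intro h0
      exact hℓMq (h0 ▸ dvd_mul_left _ _)
    obtain ⟨ζ, hζ, cb, U, hcb, hU0, hN'⟩ := hN ℓ hℓB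
    have hζκ := s59m_zetaTK_prim (ℓ : ℕ) hℓq P hP ζ hζ
    -- level `M`
    obtain ⟨hGa1, hGa2, hredGa⟩ := s44h_redV_zpow M q P hP G hGO hG'O hG0 (a ℓ)
    have hτG : s37e_normAlpha M (ℓ : ℕ) (heckeBetaBar Kb M (ℓ : ℕ) G) ∈ s37r_OF P M hP :=
      s59m_tauBar_mem_OF M (ℓ : ℕ) hℓM P hP ζ hζ hGO
    set G' : ffi_F M := s37e_normAlpha M (ℓ : ℕ) (heckeBetaBar Kb M (ℓ : ℕ) G) * (G ^ (a ℓ))⁻¹
      with hG'
    have hgen' : s33d_IsKumGen p (heckeOperatorBar M ⟨(ℓ : ℕ), hℓF.out⟩ z + -(a ℓ • z)) G' :=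
      s33d_kumGen_prod (s44c_isKumGen_hecke M (ℓ : ℕ) hℓM p z G hgenG)
        (s33d_kumGen_inv (s44c_isKumGen_zpow M p hgenG (a ℓ)))
    have hG'mem : G' ∈ s37r_OF P M hP := (s37r_OF P M hP).mul_mem _ _ hτG hGa2
    have hredinv : s37r_redV P M hP ⟨(G ^ (a ℓ))⁻¹, hGa2⟩ =
        ((s37r_redV P M hP ⟨G, hGO⟩) ^ (a ℓ))⁻¹ := by
      have h1 : (⟨G ^ (a ℓ), hGa1⟩ : ↥(s37r_OF P M hP)) * ⟨(G ^ (a ℓ))⁻¹, hGa2⟩ = 1 :=
        Subtype.ext (mul_inv_cancel₀ (zpow_ne_zero _ hG0))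
      have := congrArg (s37r_redV P M hP) h1
      rw [map_mul, map_one, hredGa] at this
      exact eq_inv_of_mul_eq_one_right this
    have hredG' : s37r_redV P M hP ⟨G', hG'mem⟩ =
        s33t_N (ℓ : ℕ) (s44h_zetaTK P (IsLocalRing.residue ↥P) (ℓ : ℕ) ζ hζ)
            (s37r_redV P M hP ⟨G, hGO⟩) * ((s37r_redV P M hP ⟨G, hGO⟩) ^ (a ℓ))⁻¹ := by
      have e' : (⟨G', hG'mem⟩ : ↥(s37r_OF P M hP)) =
          ⟨_, hτG⟩ * ⟨(G ^ (a ℓ))⁻¹, hGa2⟩ := Subtype.ext rfl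
      rw [e', map_mul, hredinv, s59m_redV_tauBar M (ℓ : ℕ) hℓM hℓq P hP ζ hζ hGO]
    have hūs : (ū : LaurentSeries (IsLocalRing.ResidueField ↥P)) ≠ 0 :=
      fun h0 => hū0 (Subtype.ext h0)
    have hw₁s : (w₁ : LaurentSeries (IsLocalRing.ResidueField ↥P)) ≠ 0 :=
      fun h0 => hw₁ (Subtype.ext h0)
    have hcomp := s59m_field_comp (ℓ : ℕ) _ hζκ p (a ℓ) c₁ cb hc₁ _ _ _ _ hūs hw₁s hredGs hN'
    rw [← hredG'] at hcomp
    -- the elements of `F̄_M`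
    have hNw := s59m_Nbar_mem_fullC M q hqM P hP (ℓ : ℕ) hℓM hℓq ζ hζ w₁
    set w'' : ↥(modularFunctionFieldFullC (IsLocalRing.ResidueField ↥P) M) :=
      U * ⟨_, hNw⟩ * (w₁ ^ (a ℓ))⁻¹ with hw''
    have hw''0 : w'' ≠ 0 := by
      refine mul_ne_zero (mul_ne_zero hU0 ?_) (inv_ne_zero (zpow_ne_zero _ hw₁))
      intro h0
      exact s59m_N_ne_zero (ℓ : ℕ) _ hζκ hw₁s (congrArg Subtype.val h0)
    have hcc : c₁ ^ ((ℓ : ℕ) + 1) * cb * (c₁ ^ (a ℓ))⁻¹ ≠ 0 :=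
      mul_ne_zero (mul_ne_zero (pow_ne_zero _ hc₁) hcb) (inv_ne_zero (zpow_ne_zero _ hc₁))
    have hfin : s37r_redF P M hP hqM ⟨G', hG'mem⟩ =
        algebraMap (IsLocalRing.ResidueField ↥P)
          ↥(modularFunctionFieldFullC (IsLocalRing.ResidueField ↥P) M)
          (c₁ ^ ((ℓ : ℕ) + 1) * cb * (c₁ ^ (a ℓ))⁻¹) * w'' ^ p := by
      apply Subtype.ext
      rw [s37r_coe_redF, hcomp]
      have hzp : ((w₁ ^ (a ℓ) : ↥(modularFunctionFieldFullC (IsLocalRing.ResidueField ↥P) M)) :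
          LaurentSeries (IsLocalRing.ResidueField ↥P)) =
          (w₁ : LaurentSeries (IsLocalRing.ResidueField ↥P)) ^ (a ℓ) :=
        map_zpow₀ (modularFunctionFieldFullC (IsLocalRing.ResidueField ↥P) M).val w₁ (a ℓ)
      simp only [MulMemClass.coe_mul, SubmonoidClass.coe_pow, s59m_coe_algebraMap_fullC, hw'',
        IntermediateField.coe_inv, hzp]
    have hzero := s59m_injK hC p hp0 hpA _ G' hgen' hG'mem _ hcc w'' hw''0 hfin
    exact add_neg_eq_zero.mp hzero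

end Core

end

end Fermat.Agent.Lib.S59
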