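/-
Programme (R2) / node [CAR], leaf [L2-5 LEFT] (helper7, prefix `s59nt_`), part (c2):
**LIFTING AN EIGEN KUMMER CLASS OF THE SPECIAL FIBRE `X₀(M) / κ₀` TO AN EIGEN-POINT OF `J₀(M)[p]`, OVER THE RESIDUE FIELD
`κ₀` OF A FINITE LEVEL `L₀`** (`κ₀ = ResidueField (s18q_A0 P L₀)`, `F₀ = modularFunctionFieldFullC κ₀ M`).

`s59nt_lift_eig_level` : let `ρ ∈ F₀`, `ρ ≠ 0`, with `p ∣ ord_v ρ` at every place `v` of `F₀ / κ₀`, and with, for every prime
`ℓ ∉ B`, a relation `N̄_ℓ ρ̄ = c̄ · ρ̄ ^ (a ℓ) · U ^ p` after the base change `ρ̄ = ρ ⊗ κ̄` (`c̄ ∈ κ̄ˣ`, `U ∈ F̄_Mˣ`).  Then EITHER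
there is a non-zero eigen-point at level `M`, OR `ρ = c · a₀ ^ p` with `c ∈ κ₀ˣ`, `a₀ ∈ F₀`.

Base change + descent as in helper9's `s59m_level_comp` (`MRedAsm.lean`): `s59m_up`, `s59m_dvd_ord_up`, `s59m_descent`.
-/
import Fermat.Agent.Lib.S59.NWLift
import Fermat.Agent.Lib.S59.MRedAsm

set_option autoImplicit false
set_option linter.style.haveILetI false
set_option linter.unusedSectionVars false
set_option linter.unusedVariables false
set_option synthInstance.maxHeartbeats 400000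

namespace Fermat.Agent.Lib.S59

open ModularCurve HahnSeries AlgebraicCurve Fermat.Agent.Lib.FF Fermat.Agent.Lib.S18
  Fermat.Agent.Lib.S28 Fermat.Agent.Lib.S29 Fermat.Agent.Lib.S37 Fermat.Agent.Lib.S34
  Fermat.Agent.Lib.S33 Fermat.Agent.Lib.S44

noncomputable section

local notation "Kb" => AlgebraicClosure ℚ

section Level

variable (M q : ℕ) [NeZero M] [hq : Fact q.Prime] (hqM : ¬ q ∣ M) (h5 : 5 ≤ q)
  (p : ℕ) [hp : Fact p.Prime] (hpq : p ≠ q)
  (P : ValuationSubring Kb) (hP : P.LiesOverPrime q)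
  (a : ℕ → ℤ) (B : Finset ℕ) (hB : ∀ r : ℕ, r.Prime → r ∣ M * q * p → r ∈ B)
  (L₀ : IntermediateField ℚ Kb) [FiniteDimensional ℚ ↥L₀]

set_option maxHeartbeats 1600000 in
include hqM h5 hpq hP hB in
/-- **LIFTING AN EIGEN KUMMER CLASS OF THE SPECIAL FIBRE, over the residue field of a finite level.** -/
theorem s59nt_lift_eig_level
    (ρ : ↥(modularFunctionFieldFullC (IsLocalRing.ResidueField ↥(s18q_A0 P L₀)) M)) (hρ0 : ρ ≠ 0)
    (hdiv : ∀ v₀ : Place (IsLocalRing.ResidueField ↥(s18q_A0 P L₀))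
      ↥(modularFunctionFieldFullC (IsLocalRing.ResidueField ↥(s18q_A0 P L₀)) M),
      (p : ℤ) ∣ v₀.ord ρ)
    (hN : ∀ ℓ : Nat.Primes, (ℓ : ℕ) ∉ B →
      haveI : NeZero (ℓ : ℕ) := ⟨ℓ.2.ne_zero⟩
      ∃ (ζ : Kbˣ) (hζ : IsPrimitiveRoot (ζ : Kb) (ℓ : ℕ)) (cb : IsLocalRing.ResidueField ↥P)
        (U : ↥(modularFunctionFieldFullC (IsLocalRing.ResidueField ↥P) M)), cb ≠ 0 ∧ U ≠ 0 ∧
        s33t_N (ℓ : ℕ) (s44h_zetaTK P (IsLocalRing.residue ↥P) (ℓ : ℕ) ζ hζ)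
            (coeffMap (s37r_resMap P L₀)
              (ρ : LaurentSeries (IsLocalRing.ResidueField ↥(s18q_A0 P L₀)))) =
          HahnSeries.C cb * (coeffMap (s37r_resMap P L₀)
              (ρ : LaurentSeries (IsLocalRing.ResidueField ↥(s18q_A0 P L₀)))) ^ (a ℓ) *
            (U : LaurentSeries (IsLocalRing.ResidueField ↥P)) ^ p) :
    (∃ y : JZero M, y ≠ 0 ∧ s44i_Eig M p a B y) ∨
      ∃ (c : IsLocalRing.ResidueField ↥(s18q_A0 P L₀))
        (a₀ : LaurentSeries (IsLocalRing.ResidueField ↥(s18q_A0 P L₀))), c ≠ 0 ∧ a₀ ≠ 0 ∧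
        a₀ ∈ modularFunctionFieldFullC (IsLocalRing.ResidueField ↥(s18q_A0 P L₀)) M ∧
        (ρ : LaurentSeries (IsLocalRing.ResidueField ↥(s18q_A0 P L₀))) = HahnSeries.C c * a₀ ^ p := by
  classical
  haveI : NeZero p := ⟨hp.out.ne_zero⟩
  haveI : IsDiscreteValuationRing ↥(s18q_A0 P L₀) := s18q_A0_dvr P L₀ hP
  letI alg : Algebra (IsLocalRing.ResidueField ↥(s18q_A0 P L₀)) (IsLocalRing.ResidueField ↥P) :=
    (s37r_resMap P L₀).toAlgebra
  haveI : Algebra.IsAlgebraic (IsLocalRing.ResidueField ↥(s18q_A0 P L₀))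
      (IsLocalRing.ResidueField ↥P) := s33d_resMap_isAlgebraic P hP L₀
  haveI : IsGalois (IsLocalRing.ResidueField ↥(s18q_A0 P L₀)) (IsLocalRing.ResidueField ↥P) :=
    s59m_isGalois_res P hP L₀
  have hρs : (ρ : LaurentSeries (IsLocalRing.ResidueField ↥(s18q_A0 P L₀))) ≠ 0 :=
    fun h0 => hρ0 (Subtype.ext h0)
  have hup0 : s59m_up (k := IsLocalRing.ResidueField ↥P) M ρ ≠ 0 :=
    (_root_.map_ne_zero _).mpr hρ0
  have hdiv' : ∀ v : Place (IsLocalRing.ResidueField ↥P)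
      ↥(modularFunctionFieldFullC (IsLocalRing.ResidueField ↥P) M),
      (p : ℤ) ∣ v.ord (s59m_up (k := IsLocalRing.ResidueField ↥P) M ρ) :=
    fun v => s59m_dvd_ord_up M (p : ℤ) ρ hρ0 hdiv v
  rcases s59nt_lift_eig_top M q hqM h5 p hpq P hP a B hB
    (s59m_up (k := IsLocalRing.ResidueField ↥P) M ρ) hup0 hdiv'
    (fun ℓ hℓB => hN ℓ hℓB) with hy | ⟨c, w, hc, hw, hcw⟩
  · exact Or.inl hy
  · right
    obtain ⟨ζ₀, hζ₀⟩ := s37e_exists_zeta p
    haveI hchar : CharP (IsLocalRing.ResidueField ↥P) q := s18n_charP_residueField P hq.out hP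
    have hpk : ((p : ℕ) : IsLocalRing.ResidueField ↥P) ≠ 0 := by
      intro h0
      have := (CharP.cast_eq_zero_iff (IsLocalRing.ResidueField ↥P) q p).mp h0
      exact hpq ((Nat.prime_dvd_prime_iff_eq hq.out hp.out).mp this).symm
    have hζb := s59m_zetaBar_prim P (IsLocalRing.residue ↥P) p ζ₀ hp.out hpk hζ₀
    have hx : coeffMap (algebraMap (IsLocalRing.ResidueField ↥(s18q_A0 P L₀))
        (IsLocalRing.ResidueField ↥P))
        (ρ : LaurentSeries (IsLocalRing.ResidueField ↥(s18q_A0 P L₀))) =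
        HahnSeries.C c * (w : LaurentSeries (IsLocalRing.ResidueField ↥P)) ^ p := by
      have := congrArg (fun y : ↥(modularFunctionFieldFullC (IsLocalRing.ResidueField ↥P) M) =>
        (y : LaurentSeries (IsLocalRing.ResidueField ↥P))) hcw
      simp only [s59m_up_coe, MulMemClass.coe_mul, SubmonoidClass.coe_pow,
        s59m_coe_algebraMap_fullC] at this
      exact this
    obtain ⟨a₀, v₀, hv₀, ha₀, hv₀0, hx₀⟩ := s59m_descent M p _ hζb
      (ρ : LaurentSeries (IsLocalRing.ResidueField ↥(s18q_A0 P L₀))) ρ.2 hρs c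
      (w : LaurentSeries (IsLocalRing.ResidueField ↥P)) w.2 hx
    exact ⟨a₀, v₀, ha₀, hv₀0, hv₀, hx₀⟩

end Level

end

end Fermat.Agent.Lib.S59
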