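/-
Programme (R2) / node [CAR], leaf [L2-5 LEFT] (helper7, prefix `s59nt_`), part (b0):
**THE REDUCTION OF helper3's DESCENDED KUMMER-SIDE HECKE OPERATOR `τ_ℓ = s59u_tauD`** (`UCarTauD.lean`) at the Gauss
valuation `V_∞` of a place `P ∣ q` of `ℚ̄`, `ℓ ≠ q`, level `N` arbitrary:

  `(red_∞ (τ_ℓ y)) ⊗ κ̄ = N̄_ℓ ((red_∞ y) ⊗ κ̄)`      (`y ∈ V_∞`),

`N̄_ℓ = s33t_N ℓ ζ̄` on `κ̄((T))`, `ζ̄` the reduction of ANY primitive `ℓ`-th root of unity of `ℚ̄`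
(general form of helper3's `s59u_redInf_tauD_eq_one`).
-/
import Fermat.Agent.Lib.S59.UCarTauD

set_option autoImplicit false
set_option linter.style.haveILetI false
set_option linter.unusedSectionVars false
set_option linter.unusedVariables false
set_option synthInstance.maxHeartbeats 400000

noncomputable section

namespace Fermat.Agent.Lib.S59

open ModularCurve HahnSeries AlgebraicCurve Fermat.Agent.Lib.FF Fermat.Agent.Lib.S18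
  Fermat.Agent.Lib.S28 Fermat.Agent.Lib.S29 Fermat.Agent.Lib.S37 Fermat.Agent.Lib.S34
  Fermat.Agent.Lib.S33 Fermat.Agent.Lib.S44

local notation "Kb" => AlgebraicClosure ℚ

section Gauss

variable (N : ℕ) [NeZero N] (ℓ : ℕ) [hℓ : Fact ℓ.Prime] (hℓN : ¬ ℓ ∣ N)
  {q : ℕ} [hq : Fact q.Prime] (hℓq : ℓ ≠ q)
  (P : ValuationSubring Kb) (hP : P.LiesOverPrime q)
  (L₀ : IntermediateField ℚ Kb) [IsDiscreteValuationRing ↥(s18q_A0 P L₀)]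
  (ϖ : ↥(s18q_A0 P L₀)) (hϖ : Irreducible ϖ)

include hP hℓq in
/-- **`(red_∞ (τ_ℓ y)) ⊗ κ̄ = N̄_ℓ ((red_∞ y) ⊗ κ̄)`.** -/
theorem s59nt_redInf_tauD (ζ : Kbˣ) (hζ : IsPrimitiveRoot (ζ : Kb) ℓ)
    {y : s34m_F ↥L₀ N} (hy : y ∈ s34m_Vinf (s37r_G P L₀ ϖ hϖ) N) :
    haveI : NeZero ℓ := ⟨hℓ.out.ne_zero⟩
    coeffMap (s37r_resMap P L₀) (s34m_redInf (s37r_G P L₀ ϖ hϖ) N
      ⟨s59u_tauD N ℓ hℓN L₀ y, s59u_tauD_mem_Vinf N ℓ hℓN P hP L₀ ϖ hϖ hy⟩) =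
      s33t_N ℓ (s44h_zetaTK P (IsLocalRing.residue ↥P) ℓ ζ hζ)
        (coeffMap (s37r_resMap P L₀) (s34m_redInf (s37r_G P L₀ ϖ hϖ) N ⟨y, hy⟩)) := by
  haveI : NeZero ℓ := ⟨hℓ.out.ne_zero⟩
  have h1 : s18q_incl N L₀ y ∈ s37r_OF P N hP := (s37r_incl_mem_OF_iff P N hP L₀ ϖ hϖ y).mpr hy
  have hτV := s59u_tauD_mem_Vinf N ℓ hℓN P hP L₀ ϖ hϖ hy
  have h2 : s18q_incl N L₀ (s59u_tauD N ℓ hℓN L₀ y) ∈ s37r_OF P N hP :=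
    (s37r_incl_mem_OF_iff P N hP L₀ ϖ hϖ _).mpr hτV
  have e1 := s37r_redV_incl P N hP L₀ ϖ hϖ y hy h1
  have e2 := s37r_redV_incl P N hP L₀ ϖ hϖ (s59u_tauD N ℓ hℓN L₀ y) hτV h2
  have e3 := s59m_redV_tauBar N ℓ hℓN hℓq P hP ζ hζ h1
  have hcongr : (⟨s18q_incl N L₀ (s59u_tauD N ℓ hℓN L₀ y), h2⟩ : ↥(s37r_OF P N hP)) =
      ⟨s37e_normAlpha N ℓ (heckeBetaBar Kb N ℓ (s18q_incl N L₀ y)),
        s59m_tauBar_mem_OF N ℓ hℓN P hP ζ hζ h1⟩ := Subtype.ext (s59u_incl_tauD N ℓ hℓN L₀ y)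
  rw [hcongr, e3, e1] at e2
  exact e2.symm

end Gauss

end Fermat.Agent.Lib.S59
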