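/-
Programme (R2) / node [CAR], leaf [L2-5 LEFT] (helper7, prefix `s59nt_`), part (b1):
**THE INDUCED MAP `H.Ti` OF A HECKE CORRESPONDENCE `H : s59m_HeckeOn (s59m_Zc …)` WITH `H.T = τ_ℓ = s59u_tauD` IS `N̄_ℓ`**
on `q`-expansions, after the base change `κ₀ → κ̄`:

  `(H.Ti φ) ⊗ κ̄ = N̄_ℓ (φ ⊗ κ̄)`      (`φ ∈ Fb = modularFunctionFieldFullC κ₀ M`, `φ ≠ 0`),

and the same for `H.Tz` (the `0`-component: `red_0 = red_∞ ∘ w_q`, `τ_ℓ` commutes with `w_q`).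
This turns the abstract eigen-relations of helper9's frames (`H.Ti ρ = c̄ γ ^ p ρ ^ a`) into the hypothesis `hN` of
`s59nt_lift_eig_level` (`NWLiftL.lean`).
-/
import Fermat.Agent.Lib.S59.UCarHeckeC
import Fermat.Agent.Lib.S59.NWTau

set_option autoImplicit false
set_option linter.style.haveILetI false
set_option linter.unusedSectionVars false
set_option linter.unusedVariables false
set_option synthInstance.maxHeartbeats 400000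

noncomputable section

namespace Fermat.Agent.Lib.S59

open ModularCurve HahnSeries AlgebraicCurve Fermat.Agent.Lib.FF Fermat.Agent.Lib.S18
  Fermat.Agent.Lib.S28 Fermat.Agent.Lib.S29 Fermat.Agent.Lib.S37 Fermat.Agent.Lib.S34
  Fermat.Agent.Lib.S35 Fermat.Agent.Lib.S33 Fermat.Agent.Lib.S44

local notation "Kb" => AlgebraicClosure ℚ

variable (M q : ℕ) [NeZero M] [hq : Fact q.Prime] (hqM : ¬ q ∣ M) (h5 : 5 ≤ q)
  (P : ValuationSubring Kb) (hP : P.LiesOverPrime q)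
  (L₀ : IntermediateField ℚ Kb) [FiniteDimensional ℚ ↥L₀] [IsDiscreteValuationRing ↥(s18q_A0 P L₀)]
  (ϖ : ↥(s18q_A0 P L₀)) (hϖ : Irreducible ϖ)
  [NumberField ↥L₀] [CharP (IsLocalRing.ResidueField ↥(s18q_A0 P L₀)) q]
  [PerfectField (IsLocalRing.ResidueField ↥(s18q_A0 P L₀))]
  [IsDiscreteValuationRing ↥(s37r_G P L₀ ϖ hϖ).A]
  (hdeg : s34m_HDeg ↥L₀ M q) (hT : s18g_HT (IsLocalRing.ResidueField ↥(s18q_A0 P L₀)) M)
  (hdegM : s18g_HDeg ↥L₀ M) (hπ : Function.Surjective (s37r_G P L₀ ϖ hϖ).π)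
  (e : ℕ) (ε : ↥L₀) (he : 0 < e) (hε : ε ∈ (s37r_G P L₀ ϖ hϖ).A)
  (hεinv : ε⁻¹ ∈ (s37r_G P L₀ ϖ hϖ).A) (hε0 : ε ≠ 0)
  (hqe : (q : ↥L₀) = ε * (((s37r_G P L₀ ϖ hϖ).ϖ : (s37r_G P L₀ ϖ hϖ).A) : ↥L₀) ^ e)
  (hperf : ∀ c : IsLocalRing.ResidueField ↥(s18q_A0 P L₀), ∃ d, d ^ q = c)
  (ℓ : ℕ) [hℓ : Fact ℓ.Prime] (hℓN : ¬ ℓ ∣ M * q) (hℓq : ℓ ≠ q)

set_option quotPrecheck false

local notation "ZZ" => s59m_Zc M q hqM h5 P L₀ ϖ hϖ hdeg hT hdegM hπ e ε he hε hεinv hε0 hqe hperf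

include hP hℓq in
set_option maxHeartbeats 800000 in
/-- **`(H.Ti φ) ⊗ κ̄ = N̄_ℓ (φ ⊗ κ̄)`.** -/
theorem s59nt_Ti_eq_N
    (H : s59m_HeckeOn (s59m_Zc M q hqM h5 P L₀ ϖ hϖ hdeg hT hdegM hπ e ε he hε hεinv hε0 hqe hperf))
    (hHT : H.T = s59u_tauD (M * q) ℓ hℓN L₀) (ζ : Kbˣ) (hζ : IsPrimitiveRoot (ζ : Kb) ℓ)
    (φ : ↥(modularFunctionFieldFullC (IsLocalRing.ResidueField ↥(s18q_A0 P L₀)) M)) (hφ : φ ≠ 0) :
    haveI : NeZero ℓ := ⟨hℓ.out.ne_zero⟩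
    coeffMap (s37r_resMap P L₀)
        ((H.Ti φ : ↥(modularFunctionFieldFullC (IsLocalRing.ResidueField ↥(s18q_A0 P L₀)) M)) :
          LaurentSeries (IsLocalRing.ResidueField ↥(s18q_A0 P L₀))) =
      s33t_N ℓ (s44h_zetaTK P (IsLocalRing.residue ↥P) ℓ ζ hζ)
        (coeffMap (s37r_resMap P L₀)
          (φ : LaurentSeries (IsLocalRing.ResidueField ↥(s18q_A0 P L₀)))) := by
  haveI : NeZero ℓ := ⟨hℓ.out.ne_zero⟩
  obtain ⟨⟨h, hh⟩, rfl⟩ := (ZZ).Ci.red_surjective φ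
  have hinv : h⁻¹ ∈ (ZZ).Ci.O := s59m_inv_mem_of_red_ne_zero (ZZ).Ci hh hφ
  have h1 := H.red_i h hh hinv
  rw [← h1]
  have key : ∀ (T : s34m_F ↥L₀ (M * q) →* s34m_F ↥L₀ (M * q)) (hTe : T = s59u_tauD (M * q) ℓ hℓN L₀)
      (hm : T h ∈ (ZZ).Ci.O),
      coeffMap (s37r_resMap P L₀)
        (((ZZ).Ci.red ⟨T h, hm⟩ :
            ↥(modularFunctionFieldFullC (IsLocalRing.ResidueField ↥(s18q_A0 P L₀)) M)) :
          LaurentSeries (IsLocalRing.ResidueField ↥(s18q_A0 P L₀))) =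
      s33t_N ℓ (s44h_zetaTK P (IsLocalRing.residue ↥P) ℓ ζ hζ)
        (coeffMap (s37r_resMap P L₀)
          (((ZZ).Ci.red ⟨h, hh⟩ :
            ↥(modularFunctionFieldFullC (IsLocalRing.ResidueField ↥(s18q_A0 P L₀)) M)) :
            LaurentSeries (IsLocalRing.ResidueField ↥(s18q_A0 P L₀)))) := by
    intro T hTe
    subst hTe
    intro hm
    have hy : h ∈ s34m_Vinf (s37r_G P L₀ ϖ hϖ) (M * q) := hh
    exact s59nt_redInf_tauD (M * q) ℓ hℓN hℓq P hP L₀ ϖ hϖ ζ hζ hy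
  exact key H.T hHT (H.mem_i h hh)

end Fermat.Agent.Lib.S59
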