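/-
Programme (R2) / node [CAR], leaf **[L2-5 LEFT]** (helper7, prefix `s59nt_`): **helper9's TYPED CONTRACT `s59m_LeftLeaf`
(`MCarL2Left.lean`) IS A THEOREM.**

`s59nt_leftLeaf M q p hqM h5 hpq : s59m_LeftLeaf M q p hqM h5 hpq` : a function `ρ ∈ Fbˣ` (`Fb` = the function field of
`X₀(M)` over the residue field `κ₀` of an inertia-fixed finite level `L₀`) with `p ∣ div ρ`, NOT a constant times a `p`-th
power, satisfying the reduced Hecke relations `H.Ti ρ = c · γ ^ p · ρ ^ (a ℓ)` (`H` a Hecke correspondence on the canonical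
Σ-datum with `H.T = τ_ℓ`), gives a non-zero eigen-point of `J₀(M)[p]`.

Proof: `H.Ti = N̄_ℓ` on `q`-expansions (`s59nt_Ti_eq_N`, `NWTi.lean`), then `s59nt_lift_eig_level` (`NWLiftL.lean`: base
change `κ₀ → κ̄`, helper9's (LIFT-K)/(INJ-K) on the good-reduction curve `X₀(M)`, descent of "constant times `p`-th power").
-/
import Fermat.Agent.Lib.S59.MCarL2Left
import Fermat.Agent.Lib.S59.NWLiftL
import Fermat.Agent.Lib.S59.NWTi

set_option autoImplicit false
set_option linter.style.haveILetI false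
set_option linter.unusedSectionVars false
set_option linter.unusedVariables false
set_option synthInstance.maxHeartbeats 400000

noncomputable section

namespace Fermat.Agent.Lib.S59

open ModularCurve HahnSeries AlgebraicCurve Fermat.Agent.Lib.FF Fermat.Agent.Lib.S18
  Fermat.Agent.Lib.S28 Fermat.Agent.Lib.S29 Fermat.Agent.Lib.S37 Fermat.Agent.Lib.S34
  Fermat.Agent.Lib.S35 Fermat.Agent.Lib.S33 Fermat.Agent.Lib.S44

local notation "Kb" => AlgebraicClosure ℚ

set_option maxHeartbeats 1600000 in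
/-- **[L2-5 LEFT].** -/
theorem s59nt_leftLeaf (M q p : ℕ) [NeZero M] [hq : Fact q.Prime] [hp : Fact p.Prime] (hqM : ¬ q ∣ M)
    (h5 : 5 ≤ q) (hpq : p ≠ q) : s59m_LeftLeaf M q p hqM h5 hpq := by
  intro P hP L₀ _ _ _ hunr a B hB ρ hρ0 hdiv hnot hH
  haveI hdvr : IsDiscreteValuationRing ↥(s18q_A0 P L₀) := s18q_A0_dvr P L₀ hP
  haveI : NumberField ↥L₀ := ⟨⟩
  have hN : ∀ ℓ : Nat.Primes, (ℓ : ℕ) ∉ B →
      haveI : NeZero (ℓ : ℕ) := ⟨ℓ.2.ne_zero⟩
      ∃ (ζ : Kbˣ) (hζ : IsPrimitiveRoot (ζ : Kb) (ℓ : ℕ)) (cb : IsLocalRing.ResidueField ↥P)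
        (U : ↥(modularFunctionFieldFullC (IsLocalRing.ResidueField ↥P) M)), cb ≠ 0 ∧ U ≠ 0 ∧
        s33t_N (ℓ : ℕ) (s44h_zetaTK P (IsLocalRing.residue ↥P) (ℓ : ℕ) ζ hζ)
            (coeffMap (s37r_resMap P L₀)
              (ρ : LaurentSeries (IsLocalRing.ResidueField ↥(s18q_A0 P L₀)))) =
          HahnSeries.C cb * (coeffMap (s37r_resMap P L₀)
              (ρ : LaurentSeries (IsLocalRing.ResidueField ↥(s18q_A0 P L₀)))) ^ (a ℓ) *
            (U : LaurentSeries (IsLocalRing.ResidueField ↥P)) ^ p := by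
    intro ℓ hℓB
    haveI hℓF : Fact (ℓ : ℕ).Prime := ⟨ℓ.2⟩
    haveI : NeZero (ℓ : ℕ) := ⟨ℓ.2.ne_zero⟩
    obtain ⟨hℓN, H, hHT, c, γ, hc, hγ, e⟩ := hH (ℓ : ℕ) hℓB
    have hℓq : (ℓ : ℕ) ≠ q := by
      intro h0
      exact hℓN (h0 ▸ dvd_mul_left _ _)
    obtain ⟨ζ, hζ⟩ := s37e_exists_zeta (ℓ : ℕ)
    have hγs : (γ : LaurentSeries (IsLocalRing.ResidueField ↥(s18q_A0 P L₀))) ≠ 0 :=
      fun h0 => hγ (Subtype.ext h0)
    have hinj : Function.Injective (coeffMap (s37r_resMap P L₀)) := by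
      intro x y hxy
      ext n
      have := congrArg (fun z : LaurentSeries (IsLocalRing.ResidueField ↥P) => z.coeff n) hxy
      simp only [coeffMap_coeff] at this
      exact (s37r_resMap P L₀).injective this
    refine ⟨ζ, hζ, s37r_resMap P L₀ c,
      ⟨coeffMap (s37r_resMap P L₀)
        (γ : LaurentSeries (IsLocalRing.ResidueField ↥(s18q_A0 P L₀))),
        s37e_coeffMap_mem_fullC M (s37r_resMap P L₀) γ.2⟩,
      (_root_.map_ne_zero _).mpr hc, ?_, ?_⟩
    · intro h0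
      apply hγs
      apply hinj
      rw [map_zero]
      exact congrArg Subtype.val h0
    · have key := @s59nt_Ti_eq_N M q _ hq hqM h5 P hP L₀ _ (s18q_A0_dvr P L₀ hP)
        ((q : ℕ) : ↥(s18q_A0 P L₀)) (s59m_q_irreducible q P hP L₀ hunr) ⟨⟩ _ _
        (s18q_A0_dvr P L₀ hP) (s59m_hdeg_U M q hqM L₀) (s59m_hT_U M q P L₀ hqM)
        (fun n b hb hn => s18g_exists_relation M (algebraMap ↥L₀ Kb) hn b hb)
        IsLocalRing.residue_surjective 1 1 one_pos (one_mem _) (by rw [inv_one]; exact one_mem _)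
        one_ne_zero (by rw [one_mul, pow_one]; rfl) (s59m_hperf_U q P L₀)
        (ℓ : ℕ) hℓF hℓN hℓq H hHT ζ hζ ρ hρ0
      rw [← key, e]
      have hzp : ((ρ ^ (a ℓ) : ↥(modularFunctionFieldFullC
          (IsLocalRing.ResidueField ↥(s18q_A0 P L₀)) M)) :
          LaurentSeries (IsLocalRing.ResidueField ↥(s18q_A0 P L₀))) =
          (ρ : LaurentSeries (IsLocalRing.ResidueField ↥(s18q_A0 P L₀))) ^ (a ℓ) :=
        map_zpow₀ (modularFunctionFieldFullC (IsLocalRing.ResidueField ↥(s18q_A0 P L₀)) M).val ρ (a ℓ)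
      simp only [MulMemClass.coe_mul, SubmonoidClass.coe_pow, s59m_coe_algebraMap_fullC, hzp,
        map_mul, map_pow, map_zpow₀]
      have hC : coeffMap (s37r_resMap P L₀) (HahnSeries.C c) =
          HahnSeries.C (s37r_resMap P L₀ c) := by
        rw [HahnSeries.C_apply, coeffMap_single, HahnSeries.C_apply]
      rw [hC]
      ring

  rcases s59nt_lift_eig_level M q hqM h5 p hpq P hP a B hB L₀ ρ hρ0 hdiv hN with
    hy | ⟨c, a₀, hc, ha₀0, ha₀, e⟩
  · exact hy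
  · exfalso
    apply hnot
    refine ⟨c, ⟨a₀, ha₀⟩, hc, fun h0 => ha₀0 (congrArg Subtype.val h0), ?_⟩
    apply Subtype.ext
    rw [e]
    simp only [MulMemClass.coe_mul, SubmonoidClass.coe_pow, s59m_coe_algebraMap_fullC]

end Fermat.Agent.Lib.S59
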