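/-
Programme (R2), node **[CAR]**, leaf **[L-c]** (helper3, prefix `s59u_`), final form: **THE LEAF `hHF` OF helper9's TOP ASSEMBLY
`s59m_pkgEAt_of_leaves` (MCarTop.lean) IS A THEOREM.**

For every place `P ∣ q`, every inertia-fixed finite base field `L₀`, every exponent `p ^ K` (`p ≠ q`) and every prime
`ℓ ∤ M q p` the canonical Kummer frame `s59m_kumFrameU` carries a Hecke frame at `ℓ` (with `T = τ_ℓ = s59u_tauD (M q) ℓ _ L₀`):
`s59u_heckeFrameC` + [T-NODE] `s59u_tnodeC`.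
-/
import Fermat.Agent.Lib.S59.MCarTop
import Fermat.Agent.Lib.S59.UCarTNodeW

set_option autoImplicit false
set_option linter.style.haveILetI false
set_option linter.unusedSectionVars false
set_option linter.unusedVariables false
set_option synthInstance.maxHeartbeats 400000

noncomputable section

namespace Fermat.Agent.Lib.S59

open ModularCurve HahnSeries AlgebraicCurve Fermat.Agent.Lib.FF Fermat.Agent.Lib.S18
  Fermat.Agent.Lib.S28 Fermat.Agent.Lib.S29 Fermat.Agent.Lib.S37 Fermat.Agent.Lib.S34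
  Fermat.Agent.Lib.S35 Fermat.Agent.Lib.S33 Fermat.Agent.Lib.S44

local notation "Kb" => AlgebraicClosure ℚ

variable (M q p : ℕ) [NeZero M] [hq : Fact q.Prime] [hp : Fact p.Prime] (hqM : ¬ q ∣ M)
  (h5 : 5 ≤ q) (hpq : p ≠ q)

/-- the Hecke frame of the canonical Kummer frame at a prime `ℓ ∤ M q`, `ℓ ≠ q`. -/
def s59u_heckeFrameU (P : ValuationSubring Kb) (hP : P.LiesOverPrime q)
    (L₀ : IntermediateField ℚ Kb)
    [FiniteDimensional ℚ ↥L₀] [CharP (IsLocalRing.ResidueField ↥(s18q_A0 P L₀)) q]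
    [PerfectField (IsLocalRing.ResidueField ↥(s18q_A0 P L₀))]
    (hunr : ∀ τ ∈ P.inertiaSubgroupIn ℚ, ∀ a ∈ L₀, τ a = a) (m : ℕ) (hm0 : m ≠ 0) (hqm : ¬ q ∣ m)
    (ℓ : ℕ) [hℓ : Fact ℓ.Prime] (hℓN : ¬ ℓ ∣ M * q) (hℓq : ℓ ≠ q) :
    s59m_HeckeFrame (s59m_kumFrameU M q hqM h5 P hP L₀ hunr m hm0 hqm) ⟨ℓ, hℓ.out⟩ :=
  haveI : IsDiscreteValuationRing ↥(s18q_A0 P L₀) := s18q_A0_dvr P L₀ hP
  haveI : NumberField ↥L₀ := ⟨⟩
  haveI : IsDiscreteValuationRing ↥(s37r_G P L₀ ((q : ℕ) : ↥(s18q_A0 P L₀))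
      (s59m_q_irreducible q P hP L₀ hunr)).A := s18q_A0_dvr P L₀ hP
  s59u_heckeFrameC M q hqM h5 m hm0 hqm P hP L₀ ((q : ℕ) : ↥(s18q_A0 P L₀))
    (s59m_q_irreducible q P hP L₀ hunr) (s59m_hdeg_U M q hqM L₀) (s59m_hT_U M q P L₀ hqM)
    (fun n b hb hn => s18g_exists_relation M (algebraMap ↥L₀ Kb) hn b hb)
    IsLocalRing.residue_surjective 1 1 one_pos (one_mem _) (by rw [inv_one]; exact one_mem _)
    one_ne_zero (by rw [one_mul, pow_one]; rfl) (s59m_hperf_U q P L₀) ℓ hℓN hℓq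
    (s59u_tnodeC M q hqM h5 P L₀ ((q : ℕ) : ↥(s18q_A0 P L₀))
      (s59m_q_irreducible q P hP L₀ hunr) (s59m_hdeg_U M q hqM L₀) (s59m_hT_U M q P L₀ hqM)
      (fun n b hb hn => s18g_exists_relation M (algebraMap ↥L₀ Kb) hn b hb)
      IsLocalRing.residue_surjective 1 1 one_pos (one_mem _) (by rw [inv_one]; exact one_mem _)
      one_ne_zero (by rw [one_mul, pow_one]; rfl) (s59m_hperf_U q P L₀) ℓ hℓN)

include hpq in
/-- **[L-c] = the leaf `hHF` of `s59m_pkgEAt_of_leaves`.** -/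
theorem s59u_hHF_leaf :
    ∀ (P : ValuationSubring Kb) (hP : P.LiesOverPrime q) (L₀ : IntermediateField ℚ Kb)
      [FiniteDimensional ℚ ↥L₀] [CharP (IsLocalRing.ResidueField ↥(s18q_A0 P L₀)) q]
      [PerfectField (IsLocalRing.ResidueField ↥(s18q_A0 P L₀))]
      (hunr : ∀ τ ∈ P.inertiaSubgroupIn ℚ, ∀ a ∈ L₀, τ a = a) (K : ℕ) (ℓ : Nat.Primes),
      ¬ (ℓ : ℕ) ∣ M * q * p →
      Nonempty (s59m_HeckeFrame (s59m_kumFrameU M q hqM h5 P hP L₀ hunr (p ^ K) (s59m_pK_ne p K)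
        (s59m_q_ndvd_pK q p hpq K)) ℓ) := by
  intro P hP L₀ _ _ _ hunr K ℓ hℓ
  obtain ⟨l, hl⟩ := ℓ
  haveI : Fact l.Prime := ⟨hl⟩
  have hℓN : ¬ l ∣ M * q := fun h => hℓ (h.trans (dvd_mul_right _ _))
  have hℓq : l ≠ q := fun h => hℓN (h ▸ dvd_mul_left l M)
  exact ⟨s59u_heckeFrameU M q hqM h5 P hP L₀ hunr (p ^ K) (s59m_pK_ne p K)
    (s59m_q_ndvd_pK q p hpq K) l hℓN hℓq⟩

end Fermat.Agent.Lib.S59
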