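/-
Programme (R2) / node **[CAR]**, route R-DS′ (helper9, prefix `s59m_`): **THE TOP ASSEMBLY, SECOND FORM** —
`s59m_CarPkgEAt p M q` (`q ≥ 5`, `q ∤ M`, `p ≠ q`, `ν₂(M) = ν₃(M) = 0`) FROM THE THREE OPEN W5 LEAVES ONLY:

* `hglue` = **[L2-6 GLUE₃]**, local form `s59m_Glue3Loc h5 D` (`MCarL2G.lean`);
* `hinj`  = **[L2-8 Σ-INJ₃]** `s59m_Inj3C h5 p D` (`MCarL2K.lean`), from `s59m_Glue3Loc`;
* `hHF3`  = **[L2-7 HECKE₃]** : for every Hecke correspondence `H` on the Σ-datum of level `M q` with `H.T = τ_ℓ`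
  (`s59u_tauD (M q) ℓ _ L₀`) a Hecke frame of level `M q²` over the concrete Kummer frame `s59m_kumFrame3C`.

Everything else is plugged in: the CONCRETE Hecke frames `s59u_heckeFrameU` of level `M q` (helper3; `H.T = τ_ℓ` by
`s59u_heckeFrameC_T`), node rationality `s59c_hrat` and the count data `s59c_hcount` (helper8), [L2-5] `s59nt_leftLeaf`
(helper7), the admissible base fields with (Q4) `s59m_exists_base_q4`, the valuation data `s59m_exists_L2Data`, and the wiring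
`s59m_lvl2C` (`MCarL2C.lean`).
-/
import Fermat.Agent.Lib.S59.MCarL2C
import Fermat.Agent.Lib.S59.UCarHFLeaf
import Fermat.Agent.Lib.S59.CNodeLeaves
import Fermat.Agent.Lib.S59.NWLeft

set_option autoImplicit false
set_option linter.style.haveILetI false
set_option linter.unusedSectionVars false
set_option linter.unusedVariables false
set_option synthInstance.maxHeartbeats 400000

noncomputable section

namespace Fermat.Agent.Lib.S59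

open ModularCurve HahnSeries AlgebraicCurve Fermat.Agent.Lib.FF Fermat.Agent.Lib.S18
  Fermat.Agent.Lib.S28 Fermat.Agent.Lib.S29 Fermat.Agent.Lib.S37 Fermat.Agent.Lib.S34
  Fermat.Agent.Lib.S35 Fermat.Agent.Lib.S33 Fermat.Agent.Lib.S44 Fermat.Agent.Lib.S36

local notation "Kb" => AlgebraicClosure ℚ
local notation "Γℚ" => (AlgebraicClosure ℚ ≃ₐ[ℚ] AlgebraicClosure ℚ)

variable (M q p : ℕ) [NeZero M] [hq : Fact q.Prime] [hp : Fact p.Prime] (hqM : ¬ q ∣ M)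
  (h5 : 5 ≤ q) (hpq : p ≠ q)

/-- `H.T = τ_ℓ` for helper3's concrete Hecke frames of level `M q`. -/
theorem s59m_heckeFrameU_T (P : ValuationSubring Kb) (hP : P.LiesOverPrime q)
    (L₀ : IntermediateField ℚ Kb)
    [FiniteDimensional ℚ ↥L₀] [CharP (IsLocalRing.ResidueField ↥(s18q_A0 P L₀)) q]
    [PerfectField (IsLocalRing.ResidueField ↥(s18q_A0 P L₀))]
    (hunr : ∀ τ ∈ P.inertiaSubgroupIn ℚ, ∀ a ∈ L₀, τ a = a) (m : ℕ) (hm0 : m ≠ 0) (hqm : ¬ q ∣ m)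
    (ℓ : ℕ) [hℓ : Fact ℓ.Prime] (hℓN : ¬ ℓ ∣ M * q) (hℓq : ℓ ≠ q) :
    (s59u_heckeFrameU M q hqM h5 P hP L₀ hunr m hm0 hqm ℓ hℓN hℓq).H.T =
      s59u_tauD (M * q) ℓ hℓN L₀ := by
  haveI : IsDiscreteValuationRing ↥(s18q_A0 P L₀) := s18q_A0_dvr P L₀ hP
  haveI : NumberField ↥L₀ := ⟨⟩
  haveI : IsDiscreteValuationRing ↥(s37r_G P L₀ ((q : ℕ) : ↥(s18q_A0 P L₀))
      (s59m_q_irreducible q P hP L₀ hunr)).A := s18q_A0_dvr P L₀ hP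
  exact s59u_heckeFrameC_T M q hqM h5 m hm0 hqm P hP L₀ ((q : ℕ) : ↥(s18q_A0 P L₀))
    (s59m_q_irreducible q P hP L₀ hunr) (s59m_hdeg_U M q hqM L₀) (s59m_hT_U M q P L₀ hqM)
    (fun n b hb hn => s18g_exists_relation M (algebraMap ↥L₀ Kb) hn b hb)
    IsLocalRing.residue_surjective 1 1 one_pos (one_mem _) (by rw [inv_one]; exact one_mem _)
    one_ne_zero (by rw [one_mul, pow_one]; rfl) (s59m_hperf_U q P L₀) ℓ hℓN hℓq _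

include hpq in
set_option maxHeartbeats 3200000 in
/-- **THE TOP ASSEMBLY, SECOND FORM**: `s59m_CarPkgEAt p M q` from the three W5 leaves [L2-6], [L2-8], [L2-7]. -/
theorem s59m_pkgEAt_of_W5 (h2 : nuTwo M = 0) (h3 : nuThree M = 0)
    (hglue : ∀ (P : ValuationSubring Kb) (hP : P.LiesOverPrime q) (L₀ : IntermediateField ℚ Kb)
      [FiniteDimensional ℚ ↥L₀] [CharP (IsLocalRing.ResidueField ↥(s18q_A0 P L₀)) q]
      [PerfectField (IsLocalRing.ResidueField ↥(s18q_A0 P L₀))]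
      (hunr : ∀ τ ∈ P.inertiaSubgroupIn ℚ, ∀ a ∈ L₀, τ a = a)
      (D : s59m_L2Data M q hqM P hP L₀ hunr), s59m_Glue3Loc h5 D)
    (hinj : ∀ (P : ValuationSubring Kb) (hP : P.LiesOverPrime q) (L₀ : IntermediateField ℚ Kb)
      [FiniteDimensional ℚ ↥L₀] [CharP (IsLocalRing.ResidueField ↥(s18q_A0 P L₀)) q]
      [PerfectField (IsLocalRing.ResidueField ↥(s18q_A0 P L₀))]
      (hunr : ∀ τ ∈ P.inertiaSubgroupIn ℚ, ∀ a ∈ L₀, τ a = a)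
      (D : s59m_L2Data M q hqM P hP L₀ hunr), s59m_Glue3Loc h5 D → s59m_Inj3C h5 p D)
    (hHF3 : ∀ (P : ValuationSubring Kb) (hP : P.LiesOverPrime q) (L₀ : IntermediateField ℚ Kb)
      [FiniteDimensional ℚ ↥L₀] [CharP (IsLocalRing.ResidueField ↥(s18q_A0 P L₀)) q]
      [PerfectField (IsLocalRing.ResidueField ↥(s18q_A0 P L₀))]
      (hunr : ∀ τ ∈ P.inertiaSubgroupIn ℚ, ∀ a ∈ L₀, τ a = a)
      (D : s59m_L2Data M q hqM P hP L₀ hunr) (hgl : s59m_Glue3C h5 D) (hin : s59m_Inj3C h5 p D)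
      (ℓ : ℕ) [hℓ : Fact ℓ.Prime] (hℓN : ¬ ℓ ∣ M * q) (hℓq : ℓ ≠ q)
      (H : s59m_HeckeOn (s59m_ZU M q hqM h5 P hP L₀ hunr)), H.T = s59u_tauD (M * q) ℓ hℓN L₀ →
      Nonempty (s59m_HeckeFrame3 (s59m_kumFrame3C h5 p D hgl hin) H ⟨ℓ, hℓ.out⟩)) :
    haveI : NeZero q := ⟨hq.out.ne_zero⟩
    s59m_CarPkgEAt p M q := by
  haveI : NeZero q := ⟨hq.out.ne_zero⟩
  refine s59u_pkgEAt_of ?_
  intro A hA
  obtain ⟨C, hC⟩ := s59c_hcount M q p hqM h5 hpq h2 h3 (s59c_hrat M q hqM h5) A hA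
  refine ⟨C, fun K => ?_⟩
  obtain ⟨L₀, hfd, hB, hQ⟩ := s59m_exists_base_q4 M q p K hqM h5 hpq A hA
  haveI := hfd
  haveI : NumberField ↥L₀ := ⟨⟩
  haveI hdvr : IsDiscreteValuationRing ↥(s18q_A0 A L₀) := s18q_A0_dvr A L₀ hA
  haveI hchar : CharP (IsLocalRing.ResidueField ↥(s18q_A0 A L₀)) q := s37rl_charP A hA L₀
  haveI hperf : PerfectField (IsLocalRing.ResidueField ↥(s18q_A0 A L₀)) :=
    s37rl_perfectField A hA L₀
  haveI hfinκ : Finite (IsLocalRing.ResidueField ↥(s18q_A0 A L₀)) := s59m_residue_finite q A hA L₀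
  haveI hfinι : Finite (s59m_NodeU M q hqM A hA L₀ hB.unr) := by
    haveI : IsDiscreteValuationRing ↥(s37r_G A L₀ ((q : ℕ) : ↥(s18q_A0 A L₀))
        (s59m_q_irreducible q A hA L₀ hB.unr)).A := hdvr
    exact Fermat.Agent.Lib.S44.s44e_finite_node_five M q hqM h5 ↥L₀ (algebraMap ↥L₀ Kb) _
      (s37r_G A L₀ ((q : ℕ) : ↥(s18q_A0 A L₀)) (s59m_q_irreducible q A hA L₀ hB.unr))
      (s59m_hdeg_U M q hqM L₀) (s59m_hT_U M q A L₀ hqM)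
      (fun n b hb hn => s18g_exists_relation M (algebraMap ↥L₀ Kb) hn b hb)
      IsLocalRing.residue_surjective
  -- the concrete Hecke frames of level `M q`
  have hℓN : ∀ ℓ : ℕ, ¬ ℓ ∣ M * q * p → ¬ ℓ ∣ M * q :=
    fun ℓ h hd => h (hd.trans (dvd_mul_right _ _))
  have hℓq : ∀ ℓ : ℕ, ¬ ℓ ∣ M * q * p → ℓ ≠ q :=
    fun ℓ h e => hℓN ℓ h (e ▸ dvd_mul_left ℓ M)
  let HF : ∀ ℓ : Nat.Primes, ¬ (ℓ : ℕ) ∣ M * q * p →
      s59m_HeckeFrame (s59m_kumFrameU M q hqM h5 A hA L₀ hB.unr (p ^ K) (s59m_pK_ne p K)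
        (s59m_q_ndvd_pK q p hpq K)) ℓ := fun ℓ hℓ =>
    @s59u_heckeFrameU M q _ hq hqM h5 A hA L₀ _ _ _ hB.unr (p ^ K) (s59m_pK_ne p K)
      (s59m_q_ndvd_pK q p hpq K) (ℓ : ℕ) ⟨ℓ.2⟩ (hℓN ℓ hℓ) (hℓq ℓ hℓ)
  have hHFT : ∀ (ℓ : ℕ) [hℓ : Fact ℓ.Prime] (hℓ' : ¬ ℓ ∣ M * q * p), ∃ hℓN' : ¬ ℓ ∣ M * q,
      (HF ⟨ℓ, hℓ.out⟩ hℓ').H.T = s59u_tauD (M * q) ℓ hℓN' L₀ := fun ℓ hℓ hℓ' =>
    ⟨hℓN ℓ hℓ', s59m_heckeFrameU_T M q hqM h5 A hA L₀ hB.unr (p ^ K) (s59m_pK_ne p K)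
      (s59m_q_ndvd_pK q p hpq K) ℓ (hℓN ℓ hℓ') (hℓq ℓ hℓ')⟩
  -- the level `M q²`
  obtain ⟨D⟩ := s59m_exists_L2Data M q hqM A hA L₀ hB.unr
  have hloc := hglue A hA L₀ hB.unr D
  have hgl : s59m_Glue3C h5 D := s59m_glue3C_of_loc h5 D hloc
  have hin : s59m_Inj3C h5 p D := hinj A hA L₀ hB.unr D hloc
  have HF3 : ∀ (ℓ : Nat.Primes) (hℓ : ¬ (ℓ : ℕ) ∣ M * q * p),
      s59m_HeckeFrame3 (s59m_kumFrame3C h5 p D hgl hin) (HF ℓ hℓ).H ℓ := fun ℓ hℓ =>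
    (@hHF3 A hA L₀ _ _ _ hB.unr D hgl hin (ℓ : ℕ) ⟨ℓ.2⟩ (hℓN ℓ hℓ) (hℓq ℓ hℓ) (HF ℓ hℓ).H
      (@s59m_heckeFrameU_T M q _ hq hqM h5 A hA L₀ _ _ _ hB.unr (p ^ K) (s59m_pK_ne p K)
        (s59m_q_ndvd_pK q p hpq K) (ℓ : ℕ) ⟨ℓ.2⟩ (hℓN ℓ hℓ) (hℓq ℓ hℓ))).some
  have hlvl2 := s59m_lvl2C M q p hqM h5 hpq h2 h3 A hA K L₀ hB HF hHFT D hgl hin HF3
    (s59nt_leftLeaf M q p hqM h5 hpq)
  have hK : p ^ K ∣ Nat.card (IsLocalRing.ResidueField ↥(s18q_A0 A L₀))ˣ := by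
    obtain ⟨ζ, hζL, hζ⟩ := hB.zeta
    exact s59m_dvd_card_units q A hA L₀ (s59m_pK_ne p K)
      (Nat.Coprime.pow_left K ((Nat.coprime_primes hp.out hq.out).mpr hpq)) hζL hζ
  have hrc : s59m_RootConst (IsLocalRing.ResidueField ↥(s18q_A0 A L₀))
      ↥(modularFunctionFieldFullC (IsLocalRing.ResidueField ↥(s18q_A0 A L₀)) M) (p ^ K) := by
    refine s59u_rootConst _ (p ^ K) ?_
    rw [Ne, CharP.cast_eq_zero_iff (IsLocalRing.ResidueField ↥(s18q_A0 A L₀)) q]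
    exact s59m_q_ndvd_pK q p hpq K
  exact ⟨_, _, _, _, _, _, _, _, _, _, _, _, _, _, _, _, _, _, hfinι, hfinκ,
    s59m_ZU M q hqM h5 A hA L₀ hB.unr,
    s59m_kumFrameU M q hqM h5 A hA L₀ hB.unr (p ^ K) (s59m_pK_ne p K) (s59m_q_ndvd_pK q p hpq K), HF,
    s59c_hrat M q hqM h5 A hA L₀ hB.unr hB.zeta2, hK, hrc, hC K L₀ hB hQ, hlvl2⟩

end Fermat.Agent.Lib.S59
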