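/-
Programme (R2) / node [CAR], W5 = the level `M q²` leaf, leaf **[L2-8 Σ-INJ₃]** (helper7, prefix `s59nt_`): helper9's typed
contract `s59m_Inj3C` (`MCarL2K.lean`) from `s59nt_inj3_U` (`NWInj3.lean`).
-/
import Fermat.Agent.Lib.S59.NWInj3
import Fermat.Agent.Lib.S59.MCarL2K

set_option autoImplicit false
set_option linter.style.haveILetI false
set_option linter.unusedSectionVars false
set_option linter.unusedVariables false
set_option synthInstance.maxHeartbeats 400000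

noncomputable section

namespace Fermat.Agent.Lib.S59

open ModularCurve HahnSeries AlgebraicCurve Fermat.Agent.Lib.FF Fermat.Agent.Lib.S18
  Fermat.Agent.Lib.S28 Fermat.Agent.Lib.S29 Fermat.Agent.Lib.S37 Fermat.Agent.Lib.S34
  Fermat.Agent.Lib.S35 Fermat.Agent.Lib.S33 Fermat.Agent.Lib.S44 Fermat.Agent.Lib.S36

local notation "Kb" => AlgebraicClosure ℚ

variable {M q : ℕ} [NeZero M] [hq : Fact q.Prime] {hqM : ¬ q ∣ M} (h5 : 5 ≤ q)
  {P : ValuationSubring Kb} {hP : P.LiesOverPrime q}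
  {L₀ : IntermediateField ℚ Kb} [FiniteDimensional ℚ ↥L₀]
  {hunr : ∀ τ ∈ P.inertiaSubgroupIn ℚ, ∀ a ∈ L₀, τ a = a}
  [CharP (IsLocalRing.ResidueField ↥(s18q_A0 P L₀)) q]
  [PerfectField (IsLocalRing.ResidueField ↥(s18q_A0 P L₀))]
  (p : ℕ) [hp : Fact p.Prime]

/-- **The typed contract [L2-8 Σ-INJ₃]** from the local form of GLUE₃. -/
theorem s59nt_inj3C (hpq : p ≠ q) (h2 : nuTwo M = 0) (h3 : nuThree M = 0)
    (D : s59m_L2Data M q hqM P hP L₀ hunr) (hloc : s59m_Glue3Loc h5 D) : s59m_Inj3C h5 p D :=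
  fun hgen hu hN c b hc hb hres hglued =>
    s59nt_inj3_U M q hqM h5 P hP L₀ hunr D h2 h3 hloc p hpq hgen hu hN c b hc hb hres hglued

end Fermat.Agent.Lib.S59
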