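/-
Programme (R2), node **[CAR]**, work package **W4** (helper3, prefix `s59u_`): the PURE COMMUTATIVE ALGEBRA
that turns "an eigen-datum on `X / p X`" plus "a Hecke-equivariant comparison map with bounded cokernel
`Q ⊆ J₀(N)[p^k] → Hom(X, ℤ/p^k)`" into a non-zero eigen-point of `J₀(N)[p]`, hence (`s59b_old`) into
`s44i_LevelOcc N p a B`.  No geometry; everything is stated against ABSTRACT inputs.

* `s59u_exists_ann_transfer` : finite module `Q` over a commutative ring, `K ≤ Q`, `x₀ ∉ K` ⇒ a non-zero `y`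
  killed by every `a` with `a • x₀ ∈ K` (stabilisation of `I^j Q` + Nakayama; no localisation);
* `s59u_eigen_transfer_sub`, `s59u_eigen_transfer` : the same for a COMMUTING family of endomorphisms of a finite
  abelian group: an eigen-class in a QUOTIENT `Q / K` (resp. in the image of an equivariant `δ : Q → Y`) gives a
  non-zero eigen-ELEMENT of `Q` with the same eigenvalues and the same torsion exponent (`δ` need NOT be injective,
  no commutativity on `Y`);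
* `s59u_zmodEmb`, `s59u_hom_zmod_div` : `ZMod p ↪ ZMod (p^(k+1))`, `1 ↦ p^k`; for `X` free, the image of
  `u : X →+ ZMod p` is `p^c`-divisible in `Hom(X, ZMod (p^(k+1)))` for every `c ≤ k`;
* `s59u_hecke_comm_tors` : `T_ℓ T_ℓ' = T_ℓ' T_ℓ` on `J₀(N)(ℚ̄)[p^k]` for `ℓ ∤ N p` (Eichler–Shimura + Galois
  equivariance; the global commutativity of `heckeOperatorBar` is not on main);
* `s59u_car_point`, `s59u_car_W4_point`, `s59u_car_W4` : the W4 statement at level `N`;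
* `s59u_cok_bound` : `δ` injective, `Y` a finite `p`-group, `|Y| ≤ p^c |Q|` ⇒ `p^c Y ⊆ δ(Q)` (how the COUNT (R1)
  feeds the bounded-cokernel hypothesis);
* `s59u_datum_of_prod`, `s59u_datum_of_pi` : a non-zero eigen-datum on `X × X` / `κ → X` gives one on `X`.
-/
import Mathlib
import Fermat.Agent.Lib.S30.TateLevel
import Fermat.Agent.Lib.Frobenius.Exists
import Fermat.Agent.Lib.S59.BOld

set_option autoImplicit false
set_option linter.unusedSectionVars false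
set_option linter.unusedVariables false
set_option linter.style.haveILetI false

namespace Fermat.Agent.Lib.S59

open ModularCurve AlgebraicCurve Fermat.Agent.Lib.S29 Fermat.Agent.Lib.S30 Fermat.Agent.Lib.S44

/-! ### Annihilator transfer -/

/-- **Annihilator transfer** (finite module over a commutative ring): if `x₀ ∉ K`, there is a non-zero `y`
killed by every `a` with `a • x₀ ∈ K`. -/
theorem s59u_exists_ann_transfer {A : Type*} [CommRing A] {Q : Type*} [AddCommGroup Q] [Module A Q]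
    [Finite Q] (K : Submodule A Q) (x₀ : Q) (hx₀ : x₀ ∉ K) :
    ∃ y : Q, y ≠ 0 ∧ ∀ a : A, a • x₀ ∈ K → a • y = 0 := by
  classical
  by_contra hcon
  push Not at hcon
  set I : Ideal A := Submodule.comap (LinearMap.toSpanSingleton A Q x₀) K with hIdef
  have hI : ∀ a : A, a ∈ I ↔ a • x₀ ∈ K := fun a => by
    rw [hIdef, Submodule.mem_comap, LinearMap.toSpanSingleton_apply]
  have hann : ∀ j : ℕ, ∀ y : Q, (∀ a ∈ I ^ j, a • y = 0) → y = 0 := by
    intro j
    induction j with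
    | zero =>
      intro y h
      have := h 1 (by rw [pow_zero, Ideal.one_eq_top]; exact Submodule.mem_top)
      rwa [one_smul] at this
    | succ j ih =>
      intro y h
      apply ih
      intro m hm
      by_contra hne
      obtain ⟨a, ha, hay⟩ := hcon (m • y) hne
      apply hay
      rw [smul_smul]
      exact h (a * m) (by rw [pow_succ']; exact Ideal.mul_mem_mul ((hI a).mpr ha) hm)
  -- stabilisation of the chain `I ^ j • ⊤`
  have hanti : Antitone fun j : ℕ => I ^ j • (⊤ : Submodule A Q) := by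
    refine antitone_nat_of_succ_le fun j => ?_
    rw [pow_succ', mul_smul]
    exact Submodule.smul_le_right
  obtain ⟨i, hi⟩ := IsArtinian.monotone_stabilizes
    (⟨fun j => OrderDual.toDual (I ^ j • (⊤ : Submodule A Q)), fun _ _ h => hanti h⟩ :
      ℕ →o (Submodule A Q)ᵒᵈ)
  have hst : I ^ i • (⊤ : Submodule A Q) ≤ I • (I ^ i • (⊤ : Submodule A Q)) := by
    have h1 := hi (i + 1) (Nat.le_succ i)
    have h2 : I ^ i • (⊤ : Submodule A Q) = I ^ (i + 1) • (⊤ : Submodule A Q) :=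
      congrArg OrderDual.ofDual h1
    rw [← mul_smul, ← pow_succ']
    exact h2.le
  have hfg : (I ^ i • (⊤ : Submodule A Q)).FG := by
    haveI : Module.Finite A ↥(I ^ i • (⊤ : Submodule A Q)) := Module.Finite.of_finite
    exact Submodule.FG.of_finite
  obtain ⟨r, hr1, hr0⟩ := Submodule.exists_sub_one_mem_and_smul_eq_zero_of_fg_of_le_smul I
    (I ^ i • (⊤ : Submodule A Q)) hfg hst
  have h1 : r • x₀ = 0 := hann i _ fun a ha => by
    rw [smul_comm]
    exact hr0 _ (Submodule.smul_mem_smul ha Submodule.mem_top)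
  apply hx₀
  have h2 : (r - 1) • x₀ ∈ K := (hI _).mp hr1
  rw [sub_smul, one_smul, h1, zero_sub] at h2
  exact (Submodule.neg_mem_iff K).mp h2

/-! ### Eigen-transfer for a commuting family -/

open scoped IsMulCommutative in
/-- **Eigen-transfer, quotient form**: `Q` a finite abelian group with a COMMUTING family `TQ`, `K` a stable
subgroup, `x₀ ∉ K` an eigen-class modulo `K` killed by `n` modulo `K`.  Then `Q` contains a non-zero
eigen-ELEMENT with the same eigenvalues, killed by `n`. -/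
theorem s59u_eigen_transfer_sub {ι Q : Type*} [AddCommGroup Q] [Finite Q]
    (TQ : ι → Q →+ Q) (hcomm : ∀ i j x, TQ i (TQ j x) = TQ j (TQ i x))
    (K : AddSubgroup Q) (hK : ∀ i, ∀ x ∈ K, TQ i x ∈ K)
    (n : ℤ) (a : ι → ℤ) (x₀ : Q) (hx₀ : x₀ ∉ K) (hn : n • x₀ ∈ K)
    (heig : ∀ i, TQ i x₀ - a i • x₀ ∈ K) :
    ∃ y : Q, y ≠ 0 ∧ n • y = 0 ∧ ∀ i, TQ i y = a i • y := by
  classical
  set t : ι → Module.End ℤ Q := fun i => (TQ i).toIntLinearMap with ht
  set S : Subalgebra ℤ (Module.End ℤ Q) := Algebra.adjoin ℤ (Set.range t) with hS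
  haveI : IsMulCommutative S := Algebra.isMulCommutative_adjoin ℤ (by
    rintro _ ⟨i, rfl⟩ _ ⟨j, rfl⟩
    refine LinearMap.ext fun x => ?_
    exact hcomm i j x)
  have hmem : ∀ i, t i ∈ S := fun i => Algebra.subset_adjoin (Set.mem_range_self i)
  have hKS : ∀ s ∈ S, ∀ x ∈ K, s x ∈ K := by
    intro s hs
    induction hs using Algebra.adjoin_induction with
    | mem s hs =>
      obtain ⟨i, rfl⟩ := hs
      exact fun x hx => hK i x hx
    | algebraMap r =>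
      intro x hx
      rw [Module.algebraMap_end_apply]
      exact K.zsmul_mem hx r
    | add y z _ _ hy hz =>
      intro x hx
      rw [LinearMap.add_apply]
      exact K.add_mem (hy x hx) (hz x hx)
    | mul y z _ _ hy hz =>
      intro x hx
      rw [Module.End.mul_apply]
      exact hy _ (hz x hx)
  let K' : Submodule ↥S Q :=
    { carrier := K
      add_mem' := K.add_mem
      zero_mem' := K.zero_mem
      smul_mem' := fun s x hx => hKS s.1 s.2 x hx }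
  obtain ⟨y, hy0, hy⟩ := s59u_exists_ann_transfer (A := ↥S) K' x₀ hx₀
  refine ⟨y, hy0, ?_, fun i => ?_⟩
  · have h1 := hy (algebraMap ℤ ↥S n) (by
      show ((algebraMap ℤ ↥S n : ↥S) : Module.End ℤ Q) x₀ ∈ K
      rw [Subalgebra.coe_algebraMap, Module.algebraMap_end_apply]
      exact hn)
    have h2 : ((algebraMap ℤ ↥S n : ↥S) : Module.End ℤ Q) y = 0 := h1
    rwa [Subalgebra.coe_algebraMap, Module.algebraMap_end_apply] at h2
  · have h1 := hy (⟨t i, hmem i⟩ - algebraMap ℤ ↥S (a i)) (by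
      show ((⟨t i, hmem i⟩ - algebraMap ℤ ↥S (a i) : ↥S) : Module.End ℤ Q) x₀ ∈ K
      rw [Subalgebra.coe_sub, Subalgebra.coe_algebraMap, LinearMap.sub_apply,
        Module.algebraMap_end_apply]
      exact heig i)
    have h2 : ((⟨t i, hmem i⟩ - algebraMap ℤ ↥S (a i) : ↥S) : Module.End ℤ Q) y = 0 := h1
    rw [Subalgebra.coe_sub, Subalgebra.coe_algebraMap, LinearMap.sub_apply,
      Module.algebraMap_end_apply, sub_eq_zero] at h2
    exact h2

/-- **Eigen-transfer, map form**: `δ : Q → Y` equivariant (NOT necessarily injective; no commutativity on `Y`),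
`u ∈ δ(Q)` a non-zero eigen-element of `Y` killed by `n`.  Then `Q` contains a non-zero eigen-element with the same
eigenvalues, killed by `n`. -/
theorem s59u_eigen_transfer {ι Q Y : Type*} [AddCommGroup Q] [Finite Q] [AddCommGroup Y]
    (TQ : ι → Q →+ Q) (hcomm : ∀ i j x, TQ i (TQ j x) = TQ j (TQ i x))
    (TY : ι → Y →+ Y) (δ : Q →+ Y) (hδ : ∀ i x, δ (TQ i x) = TY i (δ x))
    (n : ℤ) (a : ι → ℤ) (u : Y) (hu0 : u ≠ 0) (hnu : n • u = 0)
    (hu : ∀ i, TY i u = a i • u) (hur : ∃ x₀ : Q, δ x₀ = u) :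
    ∃ y : Q, y ≠ 0 ∧ n • y = 0 ∧ ∀ i, TQ i y = a i • y := by
  obtain ⟨x₀, rfl⟩ := hur
  refine s59u_eigen_transfer_sub TQ hcomm δ.ker (fun i x hx => ?_) n a x₀ hu0 ?_ fun i => ?_
  · rw [AddMonoidHom.mem_ker] at hx ⊢
    rw [hδ, hx, map_zero]
  · rw [AddMonoidHom.mem_ker, map_zsmul]
    exact hnu
  · rw [AddMonoidHom.mem_ker, map_sub, map_zsmul, hδ, hu, sub_self]

/-! ### `ZMod p ↪ ZMod (p^(k+1))` and divisibility in `Hom(X, ZMod (p^(k+1)))` -/

/-- the additive embedding `ZMod p ↪ ZMod (p ^ (k+1))`, `1 ↦ p ^ k`. -/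
noncomputable def s59u_zmodEmb (p k : ℕ) : ZMod p →+ ZMod (p ^ (k + 1)) :=
  ZMod.lift p ⟨zmultiplesHom (ZMod (p ^ (k + 1))) ((p : ZMod (p ^ (k + 1))) ^ k), by
    rw [zmultiplesHom_apply, natCast_zsmul, nsmul_eq_mul, ← pow_succ', ← Nat.cast_pow]
    exact ZMod.natCast_self _⟩

theorem s59u_zmodEmb_intCast (p k : ℕ) (m : ℤ) :
    s59u_zmodEmb p k (m : ZMod p) = m • ((p : ZMod (p ^ (k + 1))) ^ k) := by
  rw [s59u_zmodEmb, ZMod.lift_coe]
  rfl

theorem s59u_zmodEmb_injective (p k : ℕ) (hp : p.Prime) : Function.Injective (s59u_zmodEmb p k) := by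
  rw [s59u_zmodEmb, ZMod.lift_injective]
  intro m hm
  change (zmultiplesHom (ZMod (p ^ (k + 1))) ((p : ZMod (p ^ (k + 1))) ^ k)) m = 0 at hm
  rw [zmultiplesHom_apply, zsmul_eq_mul, ← Nat.cast_pow] at hm
  have h1 : ((m * ((p ^ k : ℕ) : ℤ) : ℤ) : ZMod (p ^ (k + 1))) = 0 := by
    push_cast
    push_cast at hm
    exact hm
  rw [ZMod.intCast_zmod_eq_zero_iff_dvd] at h1
  rw [ZMod.intCast_zmod_eq_zero_iff_dvd]
  have h2 : ((p ^ (k + 1) : ℕ) : ℤ) = (p : ℤ) * ((p ^ k : ℕ) : ℤ) := by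
    push_cast
    ring
  rw [h2] at h1
  have h3 : ((p ^ k : ℕ) : ℤ) ≠ 0 := by
    exact_mod_cast (pow_pos hp.pos k).ne'
  exact (mul_dvd_mul_iff_right h3).mp h1


/-- for `X` free, the image of `u : X →+ ZMod p` in `Hom(X, ZMod (p^(k+1)))` is divisible by `p ^ c`, `c ≤ k`. -/
theorem s59u_hom_zmod_div {X : Type*} [AddCommGroup X] [Module.Free ℤ X] (p k : ℕ) [NeZero p]
    (u : X →+ ZMod p) (c : ℕ) (hc : c ≤ k) :
    ∃ w : X →+ ZMod (p ^ (k + 1)), (s59u_zmodEmb p k).comp u = (p ^ c) • w := by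
  classical
  set b := Module.Free.chooseBasis ℤ X with hb
  set ut : X →ₗ[ℤ] ZMod (p ^ (k + 1)) :=
    b.constr ℤ (fun j => (((u (b j)).val : ℕ) : ZMod (p ^ (k + 1)))) with hut
  refine ⟨(p ^ (k - c)) • ut.toAddMonoidHom, ?_⟩
  rw [smul_smul, ← pow_add, Nat.add_sub_cancel' hc]
  have key : ((s59u_zmodEmb p k).comp u).toIntLinearMap = (p ^ k) • ut := by
    refine b.ext fun j => ?_
    rw [AddMonoidHom.coe_toIntLinearMap, AddMonoidHom.comp_apply, LinearMap.smul_apply, hut,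
      Module.Basis.constr_basis]
    have h1 : u (b j) = (((u (b j)).val : ℤ) : ZMod p) := by
      rw [Int.cast_natCast, ZMod.natCast_zmod_val]
    rw [h1, s59u_zmodEmb_intCast, ← h1, natCast_zsmul, nsmul_eq_mul, nsmul_eq_mul, Nat.cast_pow,
      mul_comm]
  refine AddMonoidHom.ext fun x => ?_
  have h2 := LinearMap.congr_fun key x
  rw [AddMonoidHom.coe_toIntLinearMap, LinearMap.smul_apply] at h2
  rw [h2, AddMonoidHom.smul_apply]
  rfl


/-! ### Commutativity of the Hecke operators on `p`-power torsion -/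


/-- **Eichler–Shimura, solved for `T_ℓ`**, on `p`-power torsion: `T_ℓ x = σ x + ℓ σ⁻¹ x` for a Frobenius `σ` at
`ℓ ∤ N p`. -/
theorem s59u_hecke_eq_frob (N : ℕ) [NeZero N] (p : ℕ) (ℓ : Nat.Primes) (hℓ : ¬ (ℓ : ℕ) ∣ N * p)
    (A : ValuationSubring (AlgebraicClosure ℚ)) (hA : A.LiesOverPrime ℓ) (σ : s29k_G)
    (hσ : A.IsFrobeniusAt σ ℓ) (k : ℕ) (x : JZero N) (hx : ((p ^ k : ℕ) : ℤ) • x = 0) :
    heckeOperatorBar N ℓ x = σ • x + ((ℓ : ℕ) : ℤ) • σ⁻¹ • x := by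
  have h1 : ((p ^ k : ℕ) : ℤ) • (σ⁻¹ • x) = 0 := by
    rw [smul_comm, hx]
    exact smul_zero (A := JZero N) (σ⁻¹ : s29k_G)
  have h2 := s30a_pt_frobQuad N p ℓ hℓ A hA σ hσ k (σ⁻¹ • x) h1
  rw [smul_inv_smul] at h2
  rw [← sub_eq_zero, ← neg_eq_zero, ← h2]
  abel

/-- **The Hecke operators `T_ℓ` (`ℓ ∤ N p`) commute with every `T_ℓ'` on `J₀(N)(ℚ̄)[p^k]`.** -/
theorem s59u_hecke_comm_tors (N : ℕ) [NeZero N] (p : ℕ) (ℓ ℓ' : Nat.Primes) (hℓ : ¬ (ℓ : ℕ) ∣ N * p)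
    (k : ℕ) (x : JZero N) (hx : ((p ^ k : ℕ) : ℤ) • x = 0) :
    heckeOperatorBar N ℓ (heckeOperatorBar N ℓ' x) =
      heckeOperatorBar N ℓ' (heckeOperatorBar N ℓ x) := by
  obtain ⟨A, σ, hA, hσ⟩ := Fermat.Agent.Lib.Frobenius.exists_isFrobeniusAt (ℓ : ℕ) ℓ.2
  have hx' : ((p ^ k : ℕ) : ℤ) • heckeOperatorBar N ℓ' x = 0 := by
    rw [← map_zsmul, hx, map_zero]
  rw [s59u_hecke_eq_frob N p ℓ hℓ A hA σ hσ k _ hx', s59u_hecke_eq_frob N p ℓ hℓ A hA σ hσ k x hx,
    map_add, map_zsmul, s30a_pt_comm, s30a_pt_comm]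


/-! ### W4 at level `N` -/

/-- **W4, point form** (abstract target `Y`): a Hecke-stable subgroup `Q ⊆ J₀(N)[p^k]`, an equivariant map
`δ : Q → Y`, a non-zero eigen-element `u ∈ δ(Q)` killed by `p` ⇒ a non-zero eigen-point of `J₀(N)[p]`. -/
theorem s59u_car_point {N p : ℕ} [NeZero N] [hpF : Fact p.Prime] (a : ℕ → ℤ) (B : Finset ℕ)
    (hB : ∀ r : ℕ, r.Prime → r ∣ N * p → r ∈ B)
    (k : ℕ) (Q : AddSubgroup (JZero N)) (hQk : ∀ x ∈ Q, ((p ^ k : ℕ) : ℤ) • x = 0)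
    (hQT : ∀ ℓ : Nat.Primes, (ℓ : ℕ) ∉ B → ∀ x ∈ Q, heckeOperatorBar N ℓ x ∈ Q)
    {Y : Type*} [AddCommGroup Y] (TY : Nat.Primes → Y →+ Y) (δ : Q →+ Y)
    (hδ : ∀ ℓ : Nat.Primes, (ℓ : ℕ) ∉ B → ∀ x x' : Q,
      (x' : JZero N) = heckeOperatorBar N ℓ x → δ x' = TY ℓ (δ x))
    (u : Y) (hu0 : u ≠ 0) (hpu : p • u = 0)
    (hu : ∀ ℓ : Nat.Primes, (ℓ : ℕ) ∉ B → TY ℓ u = a ℓ • u) (hur : ∃ x₀ : Q, δ x₀ = u) :
    ∃ y : JZero N, y ≠ 0 ∧ s44i_Eig N p a B y := by
  classical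
  have hp : p.Prime := hpF.out
  haveI : NeZero (p ^ k) := ⟨(pow_pos hp.pos k).ne'⟩
  haveI : Finite ↥Q := by
    haveI := s30a_finite_torsion (N := N) (p ^ k)
    refine Finite.of_injective
      (fun y : ↥Q => (⟨(y : JZero N), by
        rw [AlgebraicCurve.Pic0.mem_torsion]; exact hQk y y.2⟩ : s29k_Jp N (p ^ k))) ?_
    intro y y' h
    exact Subtype.ext (congrArg (fun z : s29k_Jp N (p ^ k) => (z : JZero N)) h)
  have hout : ∀ ℓ : Nat.Primes, (ℓ : ℕ) ∉ B → ¬ (ℓ : ℕ) ∣ N * p := fun ℓ hℓ hd => hℓ (hB ℓ ℓ.2 hd)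
  set TQ : {ℓ : Nat.Primes // (ℓ : ℕ) ∉ B} → ↥Q →+ ↥Q := fun i =>
    { toFun := fun x => ⟨heckeOperatorBar N i.1 x, hQT i.1 i.2 x x.2⟩
      map_zero' := Subtype.ext (by simp)
      map_add' := fun x y => Subtype.ext (by simp) } with hTQ
  obtain ⟨y, hy0, hpy, hy⟩ := s59u_eigen_transfer (ι := {ℓ : Nat.Primes // (ℓ : ℕ) ∉ B}) TQ
    (fun i j x => Subtype.ext
      (s59u_hecke_comm_tors N p i.1 j.1 (hout i.1 i.2) k x (hQk x x.2)))
    (fun i => TY i.1) δ (fun i x => hδ i.1 i.2 x _ rfl) (p : ℤ) (fun i => a i.1) u hu0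
    (by rw [natCast_zsmul]; exact hpu) (fun i => hu i.1 i.2) hur
  refine ⟨(y : JZero N), fun h => hy0 (Subtype.ext h), ?_, fun ℓ hℓ => ?_⟩
  · have h1 := congrArg (fun z : ↥Q => (z : JZero N)) hpy
    simp only [natCast_zsmul, AddSubgroup.coe_zero] at h1
    exact h1
  · have h1 := congrArg (fun z : ↥Q => (z : JZero N)) (hy ⟨ℓ, hℓ⟩)
    simp only [AddSubgroup.coe_zsmul] at h1
    exact h1


/-- **W4** (helper8's form (a)): `X` free, `BX` the (Brandt) operators on `X`, `u : X → ℤ/p` a non-zero eigen-datum;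
`Q ⊆ J₀(N)[p^(k+1)]` Hecke-stable with an equivariant comparison map `δ : Q → Hom(X, ℤ/p^(k+1))` whose cokernel is
killed by `p^c`, `c ≤ k`.  Then the system `a` has a non-zero eigen-point in `J₀(N)[p]`. -/
theorem s59u_car_W4_point {N p : ℕ} [NeZero N] [hpF : Fact p.Prime] (a : ℕ → ℤ) (B : Finset ℕ)
    (hB : ∀ r : ℕ, r.Prime → r ∣ N * p → r ∈ B)
    {X : Type*} [AddCommGroup X] [Module.Free ℤ X] (BX : Nat.Primes → X →+ X)
    (u : X →+ ZMod p) (hu0 : u ≠ 0)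
    (hu : ∀ ℓ : Nat.Primes, (ℓ : ℕ) ∉ B → u.comp (BX ℓ) = a ℓ • u)
    (k c : ℕ) (hck : c ≤ k)
    (Q : AddSubgroup (JZero N)) (hQk : ∀ x ∈ Q, ((p ^ (k + 1) : ℕ) : ℤ) • x = 0)
    (hQT : ∀ ℓ : Nat.Primes, (ℓ : ℕ) ∉ B → ∀ x ∈ Q, heckeOperatorBar N ℓ x ∈ Q)
    (δ : Q →+ (X →+ ZMod (p ^ (k + 1))))
    (hδ : ∀ ℓ : Nat.Primes, (ℓ : ℕ) ∉ B → ∀ x x' : Q,
      (x' : JZero N) = heckeOperatorBar N ℓ x → δ x' = (δ x).comp (BX ℓ))
    (hcok : ∀ w : X →+ ZMod (p ^ (k + 1)), ∃ x : Q, δ x = (p ^ c) • w) :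
    ∃ y : JZero N, y ≠ 0 ∧ s44i_Eig N p a B y := by
  classical
  have hp : p.Prime := hpF.out
  haveI : NeZero p := ⟨hp.ne_zero⟩
  obtain ⟨w, hw⟩ := s59u_hom_zmod_div p k u c hck
  refine s59u_car_point a B hB (k + 1) Q hQk hQT
    (fun ℓ => AddMonoidHom.compHom' (BX ℓ)) δ (fun ℓ h x x' hx' => ?_)
    ((s59u_zmodEmb p k).comp u) (fun h => hu0 ?_) ?_ (fun ℓ hℓ => ?_) ?_
  · rw [hδ ℓ h x x' hx']
    rfl
  · refine AddMonoidHom.ext fun x => s59u_zmodEmb_injective p k hp ?_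
    have h1 := DFunLike.congr_fun h x
    rw [AddMonoidHom.comp_apply] at h1
    rw [h1, AddMonoidHom.zero_apply, AddMonoidHom.zero_apply, map_zero]
  · refine AddMonoidHom.ext fun x => ?_
    rw [AddMonoidHom.smul_apply, AddMonoidHom.comp_apply, ← map_nsmul]
    have h1 : p • u x = 0 := by
      rw [nsmul_eq_mul, ZMod.natCast_self, zero_mul]
    rw [h1, map_zero, AddMonoidHom.zero_apply]
  · refine AddMonoidHom.ext fun x => ?_
    show (s59u_zmodEmb p k) (u (BX ℓ x)) = (a ℓ • (s59u_zmodEmb p k).comp u) x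
    have h1 := DFunLike.congr_fun (hu ℓ hℓ) x
    rw [AddMonoidHom.comp_apply] at h1
    rw [h1, AddMonoidHom.smul_apply, AddMonoidHom.smul_apply, map_zsmul, AddMonoidHom.comp_apply]
  · rw [hw]
    exact hcok w

/-- **W4, `LevelOcc` form.** -/
theorem s59u_car_W4 {N p : ℕ} [NeZero N] [hpF : Fact p.Prime] (hp2 : p ≠ 2) (a : ℕ → ℤ) (B : Finset ℕ)
    (hB : ∀ r : ℕ, r.Prime → r ∣ N * p → r ∈ B)
    {X : Type*} [AddCommGroup X] [Module.Free ℤ X] (BX : Nat.Primes → X →+ X)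
    (u : X →+ ZMod p) (hu0 : u ≠ 0)
    (hu : ∀ ℓ : Nat.Primes, (ℓ : ℕ) ∉ B → u.comp (BX ℓ) = a ℓ • u)
    (k c : ℕ) (hck : c ≤ k)
    (Q : AddSubgroup (JZero N)) (hQk : ∀ x ∈ Q, ((p ^ (k + 1) : ℕ) : ℤ) • x = 0)
    (hQT : ∀ ℓ : Nat.Primes, (ℓ : ℕ) ∉ B → ∀ x ∈ Q, heckeOperatorBar N ℓ x ∈ Q)
    (δ : Q →+ (X →+ ZMod (p ^ (k + 1))))
    (hδ : ∀ ℓ : Nat.Primes, (ℓ : ℕ) ∉ B → ∀ x x' : Q,
      (x' : JZero N) = heckeOperatorBar N ℓ x → δ x' = (δ x).comp (BX ℓ))
    (hcok : ∀ w : X →+ ZMod (p ^ (k + 1)), ∃ x : Q, δ x = (p ^ c) • w) :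
    s44i_LevelOcc N p a B := by
  obtain ⟨y, hy0, hy⟩ := s59u_car_W4_point a B hB BX u hu0 hu k c hck Q hQk hQT δ hδ hcok
  exact s59b_old N p hpF.out hp2 a B hB y hy0 hy


/-! ### Book-keeping: bounded cokernel from a count; data on products -/

/-- **Bounded cokernel from a count**: `δ : Q → Y` injective, `Y` a finite `p`-group with
`|Y| ≤ p^c |Q|` ⇒ `p^c Y ⊆ δ(Q)`. -/
theorem s59u_cok_bound {Q Y : Type*} [AddCommGroup Q] [AddCommGroup Y] [Finite Y] (δ : Q →+ Y)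
    (hinj : Function.Injective δ) (p m c : ℕ) [hpF : Fact p.Prime] (hY : ∀ y : Y, p ^ m • y = 0)
    (hcard : Nat.card Y ≤ p ^ c * Nat.card Q) : ∀ w : Y, ∃ x : Q, δ x = p ^ c • w := by
  classical
  have hp : p.Prime := hpF.out
  haveI : Finite Q := Finite.of_injective δ hinj
  have hQpos : 0 < Nat.card Q := Nat.card_pos
  have h1 : Nat.card ↥δ.range = Nat.card Q :=
    (Nat.card_congr (AddMonoidHom.ofInjective hinj).toEquiv).symm
  have h2 := AddSubgroup.card_eq_card_quotient_mul_card_addSubgroup δ.range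
  rw [h1] at h2
  have h3 : Nat.card (Y ⧸ δ.range) ≤ p ^ c := by
    rw [h2] at hcard
    exact Nat.le_of_mul_le_mul_right hcard hQpos
  have hGpos : 0 < Nat.card (Y ⧸ δ.range) := Nat.card_pos
  intro w
  have h4 : p ^ c • (QuotientAddGroup.mk w : Y ⧸ δ.range) = 0 := by
    set g : Y ⧸ δ.range := QuotientAddGroup.mk w with hg
    have h5 : addOrderOf g ∣ p ^ m := by
      refine addOrderOf_dvd_of_nsmul_eq_zero ?_
      rw [hg, ← QuotientAddGroup.mk_nsmul, hY, QuotientAddGroup.mk_zero]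
    obtain ⟨j, hjm, hj⟩ := (Nat.dvd_prime_pow hp).mp h5
    have h6 : addOrderOf g ≤ p ^ c :=
      (Nat.le_of_dvd hGpos (addOrderOf_dvd_natCard g)).trans h3
    rw [hj] at h6
    have h7 : j ≤ c := (Nat.pow_le_pow_iff_right hp.one_lt).mp h6
    refine addOrderOf_dvd_iff_nsmul_eq_zero.mp ?_
    rw [hj]
    exact pow_dvd_pow p h7
  rw [← QuotientAddGroup.mk_nsmul, QuotientAddGroup.eq_zero_iff] at h4
  obtain ⟨x, hx⟩ := h4
  exact ⟨x, hx⟩

/-- a non-zero eigen-datum on `X × X` (diagonal action) gives one on `X`. -/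
theorem s59u_datum_of_prod {X : Type*} [AddCommGroup X] {ι : Type*} (BX : ι → X →+ X) (p : ℕ)
    (a : ι → ℤ) (u : X × X →+ ZMod p) (hu0 : u ≠ 0)
    (hu : ∀ i, u.comp ((BX i).prodMap (BX i)) = a i • u) :
    ∃ v : X →+ ZMod p, v ≠ 0 ∧ ∀ i, v.comp (BX i) = a i • v := by
  by_cases h1 : u.comp (AddMonoidHom.inl X X) = 0
  · refine ⟨u.comp (AddMonoidHom.inr X X), fun h2 => hu0 ?_, fun i => ?_⟩
    · refine AddMonoidHom.ext fun z => ?_
      have h3 : z = AddMonoidHom.inl X X z.1 + AddMonoidHom.inr X X z.2 := by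
        simp
      rw [h3, map_add]
      have h4 := DFunLike.congr_fun h1 z.1
      have h5 := DFunLike.congr_fun h2 z.2
      rw [AddMonoidHom.comp_apply] at h4 h5
      rw [h4, h5]
      simp
    · refine AddMonoidHom.ext fun x => ?_
      have h3 := DFunLike.congr_fun (hu i) (AddMonoidHom.inr X X x)
      simpa using h3
  · refine ⟨u.comp (AddMonoidHom.inl X X), h1, fun i => ?_⟩
    refine AddMonoidHom.ext fun x => ?_
    have h3 := DFunLike.congr_fun (hu i) (AddMonoidHom.inl X X x)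
    simpa using h3


/-- a non-zero eigen-datum on `κ → X` (`κ` finite, diagonal action) gives one on `X`. -/
theorem s59u_datum_of_pi {X : Type*} [AddCommGroup X] {ι κ : Type*} [Finite κ] (BX : ι → X →+ X)
    (p : ℕ) (a : ι → ℤ) (u : (κ → X) →+ ZMod p) (hu0 : u ≠ 0)
    (hu : ∀ (i : ι) (f : κ → X), u (fun j => BX i (f j)) = a i • u f) :
    ∃ v : X →+ ZMod p, v ≠ 0 ∧ ∀ i, v.comp (BX i) = a i • v := by
  classical
  haveI := Fintype.ofFinite κ
  by_contra hcon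
  push Not at hcon
  have hz : ∀ j : κ, u.comp (AddMonoidHom.single (fun _ : κ => X) j) = 0 := by
    intro j
    by_contra hne
    obtain ⟨i, hi⟩ := hcon _ hne
    apply hi
    refine AddMonoidHom.ext fun x => ?_
    rw [AddMonoidHom.comp_apply, AddMonoidHom.comp_apply, AddMonoidHom.smul_apply,
      AddMonoidHom.comp_apply, ← hu i]
    congr 1
    funext j'
    show (Pi.single j (BX i x) : κ → X) j' = BX i ((Pi.single j x : κ → X) j')
    by_cases hjj : j' = j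
    · subst hjj
      rw [Pi.single_eq_same, Pi.single_eq_same]
    · rw [Pi.single_eq_of_ne hjj, Pi.single_eq_of_ne hjj, map_zero]
  apply hu0
  refine AddMonoidHom.ext fun f => ?_
  rw [← Finset.univ_sum_single f, map_sum, AddMonoidHom.zero_apply]
  refine Finset.sum_eq_zero fun j _ => ?_
  exact DFunLike.congr_fun (hz j) (f j)


end Fermat.Agent.Lib.S59
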