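/-
Programme (R2), node **[CAR]**, route R-DS′: helper9's two ALGEBRA contracts of `MCarIface.lean`, PROVED
(helper3, prefix `s59u_`):

* `s59u_CarAlg : s59m_CarAlg`     — the gluing-torus packages give helper8's geometric leaf `s59c_GeoAt`;
* `s59u_CarCount : s59m_CarCount` — the count: `#J₀(M q)[p^K] = p^{2 g K}`, `#J₀(M)[p^K] = p^{2 g' K}` and the data
  `s59m_CountData` give `p^{K(n-1)} ≤ C · #Tor`;
* `s59u_CAR_of_pkg` — [CAR] from the packages alone (`s59m_CAR_of` with `s59u_CarAlg` plugged in).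

[CAR-ALG]: if `α_* x ≠ 0` or `β_* x ≠ 0` this is an eigen-point of level `M q` (Galois-equivariant maps commute
with `T_ℓ` on `p`-torsion: main's `s33l_hecke_pt`).  Otherwise `lvl2` at depth `K = C + 1` gives `u ∈ Y[p]`;
`count`, `card_tors`, `D_inj` give `p^C · Y[p^K] ⊆ D(Tor)` (`s59u_cok_bound`), `div_tors` gives `u ∈ p^(K-1) Y[p^K]`,
so `u = D x₀`, and `x₀` is a non-zero eigen-point because `D` is injective and equivariant.
-/
import Mathlib
import Fermat.Agent.Lib.S59.MCarIface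
import Fermat.Agent.Lib.S59.UCarAlg
import Fermat.Agent.Lib.S33.LInj

set_option autoImplicit false
set_option linter.unusedSectionVars false
set_option linter.unusedVariables false
set_option linter.style.haveILetI false

namespace Fermat.Agent.Lib.S59

open ModularCurve AlgebraicCurve Fermat.Agent.Lib.FF Fermat.Agent.Lib.S29 Fermat.Agent.Lib.S30
  Fermat.Agent.Lib.S33 Fermat.Agent.Lib.S44 Fermat.Agent.Lib.S36

noncomputable section

local notation "Kb" => AlgebraicClosure ℚ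
local notation "Γℚ" => (AlgebraicClosure ℚ ≃ₐ[ℚ] AlgebraicClosure ℚ)

/-- a Galois-equivariant map `J₀(A) → J₀(B)` sends eigen-points to eigen-points. -/
theorem s59u_eig_map {A B : ℕ} [NeZero A] [NeZero B] (p : ℕ) (f : JZero A →+ JZero B)
    (hf : ∀ (σ : Γℚ) (x : JZero A), f (σ • x) = σ • f x) (a : ℕ → ℤ) (Bs : Finset ℕ)
    (hA : ∀ r : ℕ, r.Prime → r ∣ A * p → r ∈ Bs) (hB : ∀ r : ℕ, r.Prime → r ∣ B * p → r ∈ Bs)
    (x : JZero A) (hx : s44i_Eig A p a Bs x) : s44i_Eig B p a Bs (f x) := by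
  refine ⟨by rw [← map_nsmul, hx.1, map_zero], fun ℓ hℓ => ?_⟩
  rw [← s33l_hecke_pt p f hf ℓ (fun hd => hℓ (hA ℓ ℓ.2 hd)) (fun hd => hℓ (hB ℓ ℓ.2 hd)) x hx.1,
    hx.2 ℓ hℓ, map_zsmul]

/-- iterating `div_tors`: a `p`-torsion element of `Y` is `p^j`-divisible inside `Y[p^(j+1)]`, `j + 1 ≤ K`. -/
theorem s59u_div_iter {Y : Type*} [AddCommGroup Y] (p K : ℕ)
    (hdiv : ∀ k : ℕ, k < K → ∀ y : Y, (p ^ k) • y = 0 →
      ∃ y' : Y, (p ^ (k + 1)) • y' = 0 ∧ p • y' = y)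
    (u : Y) (hu : p • u = 0) (j : ℕ) (hj : j + 1 ≤ K) :
    ∃ v : Y, (p ^ (j + 1)) • v = 0 ∧ (p ^ j) • v = u := by
  induction j with
  | zero => exact ⟨u, by rw [zero_add, pow_one]; exact hu, by rw [pow_zero, one_smul]⟩
  | succ j ih =>
    obtain ⟨v, hv1, hv2⟩ := ih (by omega)
    obtain ⟨y', hy1, hy2⟩ := hdiv (j + 1) (by omega) v hv1
    refine ⟨y', hy1, ?_⟩
    rw [pow_succ, mul_smul, hy2, hv2]

/-- **[CAR-ALG]** (helper9's contract `s59m_CarAlg`), proved. -/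
theorem s59u_CarAlg : s59m_CarAlg := by
  intro p hpF hp2 M _ q _ hq hqM hqp hPkg a B hB hne A hA L _ _ x hx0 hxE hxL hxI
  classical
  have hp : p.Prime := hpF.out
  have hBq : ∀ r : ℕ, r.Prime → r ∣ M * q * q * p → r ∈ B := by
    intro r hr hd
    rcases (Nat.Prime.dvd_mul hr).mp hd with h | h
    · rcases (Nat.Prime.dvd_mul hr).mp h with h' | h'
      · exact hB r hr (h'.mul_right p)
      · exact hB r hr ((h'.mul_left M).mul_right p)
    · exact hB r hr (h.mul_left _)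
  -- the old branches
  by_cases hα : s36w_alphaPush (M * q) q x = 0
  swap
  · exact Or.inr ⟨_, hα, s59u_eig_map p (s36w_alphaPush (M * q) q)
      (s36w_alphaPush_smul (M * q) q) a B hBq hB x hxE⟩
  by_cases hβ : s36w_betaPush (M * q) q x = 0
  swap
  · exact Or.inr ⟨_, hβ, s59u_eig_map p (s36w_betaPush (M * q) q)
      (s36w_betaPush_smul (M * q) q) a B hBq hB x hxE⟩
  -- the new branch
  obtain ⟨C, hC⟩ := hPkg A hA
  obtain ⟨P⟩ := hC (C + 1)
  rcases P.lvl2 a B hB hne L x hx0 hxE hxL hxI hα hβ with h | ⟨u, hu0, hpu, hu⟩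
  · exact Or.inl h
  right
  -- `u = p^C • v`, `v ∈ Y[p^(C+1)]`
  obtain ⟨v, hv1, hv2⟩ := s59u_div_iter p (C + 1) P.div_tors u hpu C le_rfl
  -- the datum map into `G = Y[p^(C+1)]`
  let G : AddSubgroup P.Y :=
    { carrier := {y | (p ^ (C + 1)) • y = 0}
      zero_mem' := smul_zero _
      add_mem' := fun {y y'} hy hy' => by
        show (p ^ (C + 1)) • (y + y') = 0
        rw [smul_add, hy, hy', add_zero]
      neg_mem' := fun {y} hy => by
        show (p ^ (C + 1)) • (-y) = 0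
        rw [smul_neg, hy, neg_zero] }
  have hDG : ∀ x : P.Tor, P.D x ∈ G := fun x => by
    show (p ^ (C + 1)) • P.D x = 0
    rw [← map_nsmul]
    have h1 : (p ^ (C + 1)) • x = 0 := Subtype.ext (P.tor_exp x x.2)
    rw [h1, map_zero]
  let D' : P.Tor →+ G := P.D.codRestrict G hDG
  haveI : Finite ↥G := P.fin_tors (C + 1) le_rfl
  have hcardG : Nat.card ↥G = p ^ ((C + 1) * (P.n - 1)) := P.card_tors (C + 1) le_rfl
  have hCp : C ≤ p ^ C := (Nat.lt_pow_self hp.one_lt).le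
  have hcok := s59u_cok_bound D' (fun x y h => P.D_inj (congrArg (fun z : ↥G => (z : P.Y)) h)) p
    (C + 1) C (fun y => Subtype.ext y.2)
    (by rw [hcardG]; exact P.count.trans (Nat.mul_le_mul_right _ hCp))
  obtain ⟨x₀, hx₀⟩ := hcok ⟨v, hv1⟩
  have hDx₀ : P.D x₀ = u := by
    have h1 := congrArg (fun z : ↥G => (z : P.Y)) hx₀
    simp only [AddSubgroup.coe_nsmul] at h1
    rw [← hv2]
    exact h1
  have hout : ∀ ℓ : Nat.Primes, (ℓ : ℕ) ∉ B → ¬ (ℓ : ℕ) ∣ M * q * p :=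
    fun ℓ hℓ hd => hℓ (hB ℓ ℓ.2 hd)
  refine ⟨(x₀ : JZero (M * q)), fun h => hu0 ?_, ?_, fun ℓ hℓ => ?_⟩
  · have h1 : x₀ = 0 := Subtype.ext h
    rw [← hDx₀, h1, map_zero]
  · have h1 : p • x₀ = 0 := P.D_inj (by rw [map_nsmul, hDx₀, hpu, map_zero])
    exact congrArg (fun z : ↥P.Tor => (z : JZero (M * q))) h1
  · have h1 : (⟨heckeOperatorBar (M * q) ℓ (x₀ : JZero (M * q)),
        P.tor_hecke ℓ (hout ℓ hℓ) x₀ x₀.2⟩ : ↥P.Tor) = a ℓ • x₀ :=
      P.D_inj (by rw [P.D_hecke ℓ (hout ℓ hℓ) x₀, hDx₀, hu ℓ hℓ, map_zsmul, hDx₀])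
    exact congrArg (fun z : ↥P.Tor => (z : JZero (M * q))) h1

/-! ### [CAR-COUNT] -/

/-- **The abstract count**: `#JK ≤ C · #Tor² · #HK`. -/
theorem s59u_count_abs {G H : Type*} [AddCommGroup G] [AddCommGroup H]
    (JK Tor Fin : AddSubgroup G) [Finite JK] (HK : AddSubgroup H) [Finite HK]
    (hTF : Tor ≤ Fin) (hFJ : Fin ≤ JK)
    (red : Fin →+ H) (hredK : ∀ x, red x ∈ HK) (hredker : ∀ x : Fin, red x = 0 → (x : G) ∈ Tor)
    (N : G →+ G) (hN : ∀ x ∈ JK, N x ∈ Tor)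
    (C : ℕ) (R : Finset G) (hR : R.card ≤ C)
    (hRk : ∀ x ∈ JK, N x = 0 → ∃ r ∈ R, x - r ∈ Fin) :
    Nat.card JK ≤ C * Nat.card Tor * Nat.card Tor * Nat.card HK := by
  classical
  haveI : Finite Fin := Finite.of_injective (AddSubgroup.inclusion hFJ)
    (AddSubgroup.inclusion_injective hFJ)
  haveI : Finite Tor := Finite.of_injective (AddSubgroup.inclusion hTF)
    (AddSubgroup.inclusion_injective hTF)
  -- (i)
  let NK : JK →+ Tor := (N.comp JK.subtype).codRestrict Tor (fun x => hN x x.2)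
  have h1 : Nat.card JK = Nat.card (JK ⧸ NK.ker) * Nat.card NK.ker :=
    AddSubgroup.card_eq_card_quotient_mul_card_addSubgroup _
  have h2 : Nat.card (JK ⧸ NK.ker) ≤ Nat.card Tor :=
    Nat.card_le_card_of_injective _ (QuotientAddGroup.kerLift_injective NK)
  -- (ii)
  have h3 : Nat.card NK.ker ≤ C * Nat.card Fin := by
    have hch : ∀ x : NK.ker, ∃ r ∈ R, ((x : JK) : G) - r ∈ Fin := fun x => by
      refine hRk _ x.1.2 ?_
      have h := x.2
      rw [AddMonoidHom.mem_ker] at h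
      exact congrArg (fun z : Tor => (z : G)) h
    choose r hrR hrF using hch
    let f : NK.ker → {g : G // g ∈ R} × Fin := fun x =>
      ((⟨r x, hrR x⟩ : {g : G // g ∈ R}), (⟨((x : JK) : G) - r x, hrF x⟩ : Fin))
    have hf : Function.Injective f := by
      intro x y hxy
      have e1 : r x = r y := congrArg (fun z : {g : G // g ∈ R} × Fin => (z.1 : G)) hxy
      have e2 : ((x : JK) : G) - r x = ((y : JK) : G) - r y :=
        congrArg (fun z : {g : G // g ∈ R} × Fin => (z.2 : G)) hxy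
      rw [e1] at e2
      exact Subtype.ext (Subtype.ext (sub_left_injective e2))
    calc Nat.card NK.ker ≤ Nat.card ({g : G // g ∈ R} × Fin) :=
          Nat.card_le_card_of_injective f hf
      _ = R.card * Nat.card Fin := by
        rw [Nat.card_prod, Nat.card_eq_fintype_card, Fintype.card_coe]
      _ ≤ C * Nat.card Fin := Nat.mul_le_mul_right _ hR
  -- (iii)
  have h4 : Nat.card Fin ≤ Nat.card HK * Nat.card Tor := by
    have h5 : Nat.card Fin = Nat.card (Fin ⧸ red.ker) * Nat.card red.ker :=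
      AddSubgroup.card_eq_card_quotient_mul_card_addSubgroup _
    have h6 : Nat.card (Fin ⧸ red.ker) ≤ Nat.card HK := by
      refine Nat.card_le_card_of_injective
        (fun z => (⟨QuotientAddGroup.kerLift red z, ?_⟩ : HK)) ?_
      · induction z using QuotientAddGroup.induction_on with
        | H z => exact hredK z
      · intro z z' hzz
        exact QuotientAddGroup.kerLift_injective red (congrArg (fun w : HK => (w : H)) hzz)
    have h7 : Nat.card red.ker ≤ Nat.card Tor := by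
      refine Nat.card_le_card_of_injective
        (fun x => (⟨((x : Fin) : G), hredker x ((AddMonoidHom.mem_ker).mp x.2)⟩ : Tor)) ?_
      intro x y hxy
      exact Subtype.ext (Subtype.ext (congrArg (fun w : Tor => (w : G)) hxy))
    rw [h5]
    exact Nat.mul_le_mul h6 h7
  calc Nat.card JK = Nat.card (JK ⧸ NK.ker) * Nat.card NK.ker := h1
    _ ≤ Nat.card Tor * (C * (Nat.card HK * Nat.card Tor)) :=
      Nat.mul_le_mul h2 (h3.trans (Nat.mul_le_mul_left _ h4))
    _ = C * Nat.card Tor * Nat.card Tor * Nat.card HK := by ring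


/-- the numerical end of the count. -/
theorem s59u_count_num (P C t n g g' : ℕ) (hP : 0 < P) (hC : 1 ≤ C)
    (h : P ^ (2 * g) ≤ C * t * t * (P ^ (2 * g') * P ^ (2 * g')))
    (r1 : (n - 1) + 2 * g' ≤ g) : P ^ (n - 1) ≤ C * t := by
  have h1 : P ^ (2 * (n - 1)) * (P ^ (2 * g') * P ^ (2 * g')) ≤ P ^ (2 * g) := by
    rw [← pow_add, ← pow_add]
    exact Nat.pow_le_pow_right hP (by omega)
  have h2 : P ^ (2 * (n - 1)) ≤ C * t * t :=
    Nat.le_of_mul_le_mul_right (h1.trans h) (by positivity)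
  have h3 : (P ^ (n - 1)) ^ 2 ≤ (C * t) ^ 2 := by
    calc (P ^ (n - 1)) ^ 2 = P ^ (2 * (n - 1)) := by rw [← pow_mul, mul_comm]
      _ ≤ C * t * t := h2
      _ = 1 * (C * t * t) := (one_mul _).symm
      _ ≤ C * (C * t * t) := Nat.mul_le_mul_right _ hC
      _ = (C * t) ^ 2 := by ring
  exact (Nat.pow_le_pow_iff_left (by norm_num)).mp h3

/-- **[CAR-COUNT]** (helper9's contract `s59m_CarCount`), proved. -/
theorem s59u_CarCount : s59m_CarCount := by
  intro p hpF M _ q _ K C n Tor hTor Dt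
  classical
  have hp : p.Prime := hpF.out
  haveI : NeZero (p ^ K) := ⟨(pow_pos hp.pos K).ne'⟩
  set JK : AddSubgroup (JZero (M * q)) :=
    Pic0.torsion Kb (modularFunctionFieldBar (M * q)) (p ^ K) with hJK
  set J' : AddSubgroup (JZero M) := Pic0.torsion Kb (modularFunctionFieldBar M) (p ^ K) with hJ'
  have hmemJK : ∀ x : JZero (M * q), x ∈ JK ↔ (p ^ K) • x = 0 := fun x => by
    rw [hJK, Pic0.mem_torsion, natCast_zsmul]
  have hmemJ' : ∀ x : JZero M, x ∈ J' ↔ (p ^ K) • x = 0 := fun x => by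
    rw [hJ', Pic0.mem_torsion, natCast_zsmul]
  haveI : Finite ↥JK := s30a_finite_torsion (M * q) (p ^ K)
  haveI : Finite ↥J' := s30a_finite_torsion M (p ^ K)
  haveI : Finite ↥(J'.prod J') := Finite.of_equiv _ (AddSubgroup.prodEquiv J' J').symm.toEquiv
  have hcJK : Nat.card ↥JK = p ^ (2 * genusFF Kb (ffi_F (M * q)) * K) := Fermat.Agent.Lib.S15.m15k_card_Jp (M * q) p K
  have hcJ' : Nat.card ↥J' = p ^ (2 * genusFF Kb (ffi_F M) * K) := Fermat.Agent.Lib.S15.m15k_card_Jp M p K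
  have hcH : Nat.card ↥(J'.prod J') = Nat.card ↥J' * Nat.card ↥J' := by
    rw [Nat.card_congr (AddSubgroup.prodEquiv J' J').toEquiv, Nat.card_prod]
  obtain ⟨R, hRC, hRk⟩ := Dt.N_ker
  have hC1 : 1 ≤ C := by
    obtain ⟨r, hr, -⟩ := hRk 0 (smul_zero _) (map_zero _)
    exact (Finset.card_pos.mpr ⟨r, hr⟩).trans_le hRC
  have hmain := s59u_count_abs JK Tor Dt.Fin (J'.prod J') Dt.tor_le
    (fun x hx => (hmemJK x).mpr (Dt.fin_exp x hx)) Dt.red
    (fun x => AddSubgroup.mem_prod.mpr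
      ⟨(hmemJ' _).mpr (Dt.red_exp x).1, (hmemJ' _).mpr (Dt.red_exp x).2⟩)
    Dt.red_ker Dt.N (fun x hx => Dt.N_mem x ((hmemJK x).mp hx)) C R hRC
    (fun x hx hN => hRk x ((hmemJK x).mp hx) hN)
  rw [hcJK, hcH, hcJ'] at hmain
  have h1 : ∀ g : ℕ, p ^ (2 * g * K) = (p ^ K) ^ (2 * g) := fun g => by
    rw [← pow_mul, mul_comm]
  rw [h1, h1] at hmain
  have h2 : p ^ (K * (n - 1)) = (p ^ K) ^ (n - 1) := by rw [← pow_mul]
  rw [h2]
  exact s59u_count_num (p ^ K) C (Nat.card ↥Tor) n _ _ (pow_pos hp.pos K) hC1 hmain Dt.r1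

/-- **[CAR] from the packages** (`s59m_CAR_of` with [CAR-ALG] plugged in). -/
theorem s59u_CAR_of_pkg
    (hPkg : ∀ (p : ℕ) [Fact p.Prime], p ≠ 2 → ∀ (M : ℕ) [NeZero M] (q : ℕ) [NeZero q], q.Prime →
      ¬ q ∣ M → q ≠ p → s59m_CarPkgAt p M q) : s59_CAR :=
  s59m_CAR_of s59u_CarAlg hPkg

end

end Fermat.Agent.Lib.S59
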