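/-
Programme (R2), node **[CAR]**, route R-DS′: helper9's contract **[CAR-ALG] v2** of `MCarIfaceE.lean`, PROVED
(helper3, prefix `s59u_`):

* `s59u_range_of_count` : the abstract core — `Y` with `#Y[p^K] = p^{K r} ≤ C · #Q`, `Y[p^k] = p · Y[p^(k+1)]` (`k < K`),
  `D : Q →+ Y` injective with `p^K Q = 0`, `K = C + 1` ⇒ every `u ∈ Y[p]` is in `D(Q)`;
* `s59u_CarAlgE : s59m_CarAlgE`;
* `s59u_CAR_of_pkgE` : [CAR] from the v2 packages alone.
-/
import Mathlib
import Fermat.Agent.Lib.S59.MCarIfaceE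
import Fermat.Agent.Lib.S59.UCarM

set_option autoImplicit false
set_option linter.unusedSectionVars false
set_option linter.unusedVariables false
set_option linter.style.haveILetI false

namespace Fermat.Agent.Lib.S59

open ModularCurve AlgebraicCurve Fermat.Agent.Lib.FF Fermat.Agent.Lib.S29 Fermat.Agent.Lib.S30
  Fermat.Agent.Lib.S33 Fermat.Agent.Lib.S44 Fermat.Agent.Lib.S36

noncomputable section

local notation "Kb" => AlgebraicClosure ℚ
local notation "Γℚ" => (AlgebraicClosure ℚ ≃ₐ[ℚ] AlgebraicClosure ℚ)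

/-- **The abstract core of [CAR-ALG]**: at depth `C + 1` every `p`-torsion element of `Y` is a datum. -/
theorem s59u_range_of_count {Y Q : Type*} [AddCommGroup Y] [AddCommGroup Q] (p C r : ℕ)
    [hpF : Fact p.Prime]
    (hfin : Finite {y : Y // (p ^ (C + 1)) • y = 0})
    (hcard : Nat.card {y : Y // (p ^ (C + 1)) • y = 0} = p ^ ((C + 1) * r))
    (hdiv : ∀ k : ℕ, k < C + 1 → ∀ y : Y, (p ^ k) • y = 0 →
      ∃ y' : Y, (p ^ (k + 1)) • y' = 0 ∧ p • y' = y)
    (D : Q →+ Y) (hinj : Function.Injective D) (hQ : ∀ x : Q, (p ^ (C + 1)) • x = 0)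
    (hcount : p ^ ((C + 1) * r) ≤ C * Nat.card Q)
    (u : Y) (hpu : p • u = 0) : ∃ x₀ : Q, D x₀ = u := by
  classical
  have hp : p.Prime := hpF.out
  obtain ⟨v, hv1, hv2⟩ := s59u_div_iter p (C + 1) hdiv u hpu C le_rfl
  let G : AddSubgroup Y :=
    { carrier := {y | (p ^ (C + 1)) • y = 0}
      zero_mem' := smul_zero _
      add_mem' := fun {y y'} hy hy' => by
        show (p ^ (C + 1)) • (y + y') = 0
        rw [smul_add, hy, hy', add_zero]
      neg_mem' := fun {y} hy => by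
        show (p ^ (C + 1)) • (-y) = 0
        rw [smul_neg, hy, neg_zero] }
  have hDG : ∀ x : Q, D x ∈ G := fun x => by
    show (p ^ (C + 1)) • D x = 0
    rw [← map_nsmul, hQ x, map_zero]
  let D' : Q →+ G := D.codRestrict G hDG
  haveI : Finite ↥G := hfin
  have hcardG : Nat.card ↥G = p ^ ((C + 1) * r) := hcard
  have hCp : C ≤ p ^ C := (Nat.lt_pow_self hp.one_lt).le
  have hcok := s59u_cok_bound D' (fun x y h => hinj (congrArg (fun z : ↥G => (z : Y)) h)) p
    (C + 1) C (fun y => Subtype.ext y.2)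
    (by rw [hcardG]; exact hcount.trans (Nat.mul_le_mul_right _ hCp))
  obtain ⟨x₀, hx₀⟩ := hcok ⟨v, hv1⟩
  refine ⟨x₀, ?_⟩
  have h1 := congrArg (fun z : ↥G => (z : Y)) hx₀
  simp only [AddSubgroup.coe_nsmul] at h1
  rw [← hv2]
  exact h1

/-- **[CAR-ALG] v2** (helper9's contract `s59m_CarAlgE`), proved. -/
theorem s59u_CarAlgE : s59m_CarAlgE := by
  intro p hpF hp2 M _ q _ hq hqM hqp hPkg a B hB hne A hA L _ _ x hx0 hxE hxL hxI
  classical
  have hp : p.Prime := hpF.out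
  have hBq : ∀ r : ℕ, r.Prime → r ∣ M * q * q * p → r ∈ B := by
    intro r hr hd
    rcases (Nat.Prime.dvd_mul hr).mp hd with h | h
    · rcases (Nat.Prime.dvd_mul hr).mp h with h' | h'
      · exact hB r hr (h'.mul_right p)
      · exact hB r hr ((h'.mul_left M).mul_right p)
    · exact hB r hr (h.mul_left _)
  -- the old branches
  by_cases hα : s36w_alphaPush (M * q) q x = 0
  swap
  · exact Or.inr ⟨_, hα, s59u_eig_map p (s36w_alphaPush (M * q) q)
      (s36w_alphaPush_smul (M * q) q) a B hBq hB x hxE⟩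
  by_cases hβ : s36w_betaPush (M * q) q x = 0
  swap
  · exact Or.inr ⟨_, hβ, s59u_eig_map p (s36w_betaPush (M * q) q)
      (s36w_betaPush_smul (M * q) q) a B hBq hB x hxE⟩
  -- the new branch
  obtain ⟨C, hC⟩ := hPkg A hA
  obtain ⟨P⟩ := hC (C + 1)
  rcases P.lvl2 a B hB hne L x hx0 hxE hxL hxI hα hβ with h | ⟨u, hu0, hpu, hu⟩
  · exact Or.inl h
  right
  obtain ⟨x₀, hDx₀⟩ := s59u_range_of_count p C (P.n - 1) (P.fin_tors (C + 1) le_rfl)
    (P.card_tors (C + 1) le_rfl) P.div_tors P.D P.D_inj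
    (fun x => Subtype.ext (P.tor_exp x x.2)) P.count u hpu
  refine ⟨(x₀ : JZero (M * q)), fun h => hu0 ?_, ?_, fun ℓ hℓ => ?_⟩
  · have h1 : x₀ = 0 := Subtype.ext h
    rw [← hDx₀, h1, map_zero]
  · have h1 : p • x₀ = 0 := P.D_inj (by rw [map_nsmul, hDx₀, hpu, map_zero])
    exact congrArg (fun z : ↥P.Tor => (z : JZero (M * q))) h1
  · exact P.eig_tor a B hB x₀ (by rw [hDx₀]; exact hu) ℓ hℓ

/-- **[CAR] from the v2 packages** (`s59m_CAR_of_E` with [CAR-ALG] v2 plugged in). -/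
theorem s59u_CAR_of_pkgE
    (hPkg : ∀ (p : ℕ) [Fact p.Prime], p ≠ 2 → ∀ (M : ℕ) [NeZero M] (q : ℕ) [NeZero q], q.Prime →
      ¬ q ∣ M → q ≠ p → s59m_CarPkgEAt p M q) : s59_CAR :=
  s59m_CAR_of_E s59u_CarAlgE hPkg

end

end Fermat.Agent.Lib.S59
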