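/-
Programme (R2) / node **[CAR]**, route R-DS′ (helper9, prefix `s59m_`): **[CAR] AT THE GOOD LEVELS WITH `5 ≤ q` IS A THEOREM.**

* **`s59m_pkgEAt_five`** : the gluing-torus package `s59m_CarPkgEAt p M q` for `q ≥ 5` prime, `q ∤ M`, `p ≠ q` prime,
  `ν₂(M) = ν₃(M) = 0` — the top assembly `s59m_pkgEAt_of_W5` (`MCarTop2.lean`) with the three W5 leaves plugged in:
  [L2-6] `s59c_glue3Loc` (helper8), [L2-8] `s59nt_inj3C` (helper7), [L2-7] `s59u_heckeFrame3C` (helper3);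
* **`s59m_geoAt_five`** : helper8's geometric leaf `s59c_GeoAt p M q` (`p` odd) by helper3's [CAR-ALG] `s59u_CarAlgE`;
* **`s59m_CAR_five`** : the `W`-form — `ρ̄_{W,p}` modular of level `M q²` ⇒ modular of level `M q` (`s59c_CAR_at`);
  `s59m_CAR_five'` the same with the level written `M * q ^ 2`.
-/
import Fermat.Agent.Lib.S59.MCarTop2
import Fermat.Agent.Lib.S59.CGlue3D
import Fermat.Agent.Lib.S59.NWInj3C
import Fermat.Agent.Lib.S59.UCarHecke3F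
import Fermat.Agent.Lib.S59.UCarME

set_option autoImplicit false
set_option linter.style.haveILetI false
set_option linter.unusedSectionVars false
set_option linter.unusedVariables false
set_option synthInstance.maxHeartbeats 400000

noncomputable section

namespace Fermat.Agent.Lib.S59

open ModularCurve HahnSeries AlgebraicCurve Fermat.Agent.Lib.FF Fermat.Agent.Lib.S18
  Fermat.Agent.Lib.S28 Fermat.Agent.Lib.S29 Fermat.Agent.Lib.S37 Fermat.Agent.Lib.S34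
  Fermat.Agent.Lib.S35 Fermat.Agent.Lib.S33 Fermat.Agent.Lib.S44 Fermat.Agent.Lib.S36

local notation "Kb" => AlgebraicClosure ℚ

/-- **THE PACKAGE at `(p, M, q)`, `q ≥ 5`, `ν₂(M) = ν₃(M) = 0`.** -/
theorem s59m_pkgEAt_five (M q p : ℕ) [NeZero M] [hq : Fact q.Prime] [hp : Fact p.Prime]
    (hqM : ¬ q ∣ M) (h5 : 5 ≤ q) (hpq : p ≠ q) (h2 : nuTwo M = 0) (h3 : nuThree M = 0) :
    haveI : NeZero q := ⟨hq.out.ne_zero⟩
    s59m_CarPkgEAt p M q := by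
  haveI : NeZero q := ⟨hq.out.ne_zero⟩
  refine s59m_pkgEAt_of_W5 M q p hqM h5 hpq h2 h3 ?_ ?_ ?_
  · intro P hP L₀ _ _ _ hunr D
    exact s59c_glue3Loc h5 h2 h3 D
  · intro P hP L₀ _ _ _ hunr D hloc
    exact s59nt_inj3C h5 p hpq h2 h3 D hloc
  · intro P hP L₀ _ _ _ hunr D hgl hin ℓ hℓ hℓN hℓq H hHT
    have hℓ2 : ¬ ℓ ∣ M * q * q := by
      intro hd
      rcases (Nat.Prime.dvd_mul hℓ.out).mp hd with h | h
      · exact hℓN h
      · exact hℓq ((Nat.prime_dvd_prime_iff_eq hℓ.out hq.out).mp h)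
    exact ⟨s59u_heckeFrame3C M q hqM h5 P hP L₀ hunr p D hgl hin ℓ hℓN hℓ2 (Ne.symm hℓq) h2 h3 H hHT⟩

/-- **[CAR-GEO] at `(p, M, q)`**, `p` odd, `q ≥ 5`, `ν₂(M) = ν₃(M) = 0`. -/
theorem s59m_geoAt_five (p : ℕ) [hp : Fact p.Prime] (hp2 : p ≠ 2) (M q : ℕ) [NeZero M] [NeZero q]
    (hq : q.Prime) (hqM : ¬ q ∣ M) (hqp : q ≠ p) (h5 : 5 ≤ q) (h2 : nuTwo M = 0) (h3 : nuThree M = 0) :
    s59c_GeoAt p M q hq hqM := by
  haveI : Fact q.Prime := ⟨hq⟩
  exact s59u_CarAlgE p hp2 M q hq hqM hqp (s59m_pkgEAt_five M q p hqM h5 (Ne.symm hqp) h2 h3)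

/-- **[CAR] at the good levels with `5 ≤ q`, `W`-form.** -/
theorem s59m_CAR_five {p : ℕ} [hp : Fact p.Prime] (hp2 : p ≠ 2)
    (W : WeierstrassCurve ℤ) (hΔ : W.Δ ≠ 0) (hss : W.IsSemistableModel)
    (hirr : W.ModRepIsIrreducible p)
    (M q : ℕ) [NeZero M] [NeZero q] (hq : q.Prime) (hqM : ¬ q ∣ M) (hqp : q ≠ p)
    (h5 : 5 ≤ q) (h2 : nuTwo M = 0) (h3 : nuThree M = 0)
    (hres : W.IsResiduallyModularOfLevel p (M * q * q)) :
    W.IsResiduallyModularOfLevel p (M * q) :=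
  s59c_CAR_at hp2 W hΔ hss hirr M q hq hqM hqp (s59m_geoAt_five p hp2 M q hq hqM hqp h5 h2 h3) hres

/-- the same with the level written `M * q ^ 2`, without instance arguments. -/
theorem s59m_CAR_five' (p : ℕ) (hp : p.Prime) (hp2 : p ≠ 2)
    (W : WeierstrassCurve ℤ) (hΔ : W.Δ ≠ 0) (hss : W.IsSemistableModel)
    (hirr : W.ModRepIsIrreducible p)
    (M q : ℕ) (hM : M ≠ 0) (hq : q.Prime) (hqM : ¬ q ∣ M) (hqp : q ≠ p)
    (h5 : 5 ≤ q) (h2 : nuTwo M = 0) (h3 : nuThree M = 0)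
    (hres : W.IsResiduallyModularOfLevel p (M * q ^ 2)) :
    W.IsResiduallyModularOfLevel p (M * q) := by
  haveI : Fact p.Prime := ⟨hp⟩
  haveI : NeZero M := ⟨hM⟩
  haveI : NeZero q := ⟨hq.ne_zero⟩
  have e : M * q ^ 2 = M * q * q := by ring
  rw [e] at hres
  exact s59m_CAR_five hp2 W hΔ hss hirr M q hq hqM hqp h5 h2 h3 hres

end Fermat.Agent.Lib.S59
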