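/-
Programme (R2) / node **[CAR]**, the ports to `q ∈ {2, 3}` — W5 over a CHART (helper9, prefix `s59m_`, suffix `W`):
**[CAR] AT THE GOOD LEVELS WITH `q = 3` (`2 ∣ M`) AND `q = 2` (`3 ∣ M`), FROM THE FIVE PENDING LEAVES OVER CHARTS.**

* `s59m_LeavesW M q p hqM hpq τ` : the five leaves over the charts with `q`-expansion `τ`, in the shapes of the top assembly
  `s59m_pkgEAt_of_W5W` (`MCarTop2W.lean`): `hrat`, `hcount` (helper8), `hglue` = [L2-6] (helper8), `hinj` = [L2-8],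
  `hHF3` = [L2-7] (helper2);
* `s59m_chartOK_t2`, `s59m_chartOK_t3` : every chart of `t₂` (`q = 3`, `2 ∣ M`) / `t₃` (`q = 2`, `3 ∣ M`) has `s59m_ChartOK`;
* **`s59m_pkgEAt_three`**, **`s59m_pkgEAt_two`** : the gluing-torus package `s59m_CarPkgEAt p M q` from `s59m_LeavesW`;
* `s59m_geoAt_three/_two`, **`s59m_CAR_three'`**, **`s59m_CAR_two'`** : the `W`-forms — `ρ̄_{W,p}` modular of level `M q²` ⇒
  modular of level `M q`.
-/
import Fermat.Agent.Lib.S59.MCarTop2W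
import Fermat.Agent.Lib.S59.B4Geo
import Fermat.Agent.Lib.S59.UCarME

set_option autoImplicit false
set_option linter.style.haveILetI false
set_option linter.unusedSectionVars false
set_option linter.unusedVariables false
set_option synthInstance.maxHeartbeats 400000

noncomputable section

namespace Fermat.Agent.Lib.S59

open ModularCurve HahnSeries AlgebraicCurve Fermat.Agent.Lib.FF Fermat.Agent.Lib.S18
  Fermat.Agent.Lib.S28 Fermat.Agent.Lib.S29 Fermat.Agent.Lib.S37 Fermat.Agent.Lib.S34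
  Fermat.Agent.Lib.S35 Fermat.Agent.Lib.S33 Fermat.Agent.Lib.S44 Fermat.Agent.Lib.S36

local notation "Kb" => AlgebraicClosure ℚ

/-- **the five leaves over the charts with `q`-expansion `τ`** (see the header). -/
structure s59m_LeavesW (M q p : ℕ) [NeZero M] [hq : Fact q.Prime] [hp : Fact p.Prime] (hqM : ¬ q ∣ M)
    (hpq : p ≠ q) (τ : ∀ (K : Type) [Field K], LaurentSeries K) : Prop where
  hrat : ∀ (P : ValuationSubring Kb) (hP : P.LiesOverPrime q) (L₀ : IntermediateField ℚ Kb)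
      [FiniteDimensional ℚ ↥L₀] [CharP (IsLocalRing.ResidueField ↥(s18q_A0 P L₀)) q]
      [PerfectField (IsLocalRing.ResidueField ↥(s18q_A0 P L₀))]
      (hunr : ∀ σ ∈ P.inertiaSubgroupIn ℚ, ∀ a ∈ L₀, σ a = a)
      (C : s59b_ChartU M q hqM P hP L₀ hunr) (hC : s59b_ChartAt M q hqM P hP L₀ hunr C τ),
      (∃ ζ : Kb, ζ ∈ L₀ ∧ IsPrimitiveRoot ζ (q ^ 2 - 1)) →
      ∀ s : s59b_NodeUW M q hqM P hP L₀ hunr C,
        Function.Bijective (algebraMap (IsLocalRing.ResidueField ↥(s18q_A0 P L₀))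
          (s33s_kG (@s37r_G P L₀ (s18q_A0_dvr P L₀ hP) ((q : ℕ) : ↥(s18q_A0 P L₀))
            (s59m_q_irreducible q P hP L₀ hunr)) (algebraMap ↥L₀ Kb) M q hqM
            (s18_chart1 (L₀ := ↥L₀) C.wN) IsLocalRing.residue_surjective s))
  hcount : ∀ (P : ValuationSubring Kb) (hP : P.LiesOverPrime q), ∃ C₀ : ℕ, ∀ (K : ℕ)
      (L₀ : IntermediateField ℚ Kb) [FiniteDimensional ℚ ↥L₀]
      [CharP (IsLocalRing.ResidueField ↥(s18q_A0 P L₀)) q]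
      [PerfectField (IsLocalRing.ResidueField ↥(s18q_A0 P L₀))]
      (hB : haveI : NeZero q := ⟨hq.out.ne_zero⟩; s59m_Base M q p K P L₀)
      (hQ : s59b_BaseQ4W M q p K hqM P L₀ τ)
      (C : s59b_ChartU M q hqM P hP L₀ hB.unr) (hC : s59b_ChartAt M q hqM P hP L₀ hB.unr C τ),
      haveI : NeZero q := ⟨hq.out.ne_zero⟩
      Nonempty (s59m_CountData M q p K C₀ (Nat.card (s59b_NodeUW M q hqM P hP L₀ hB.unr C))
        (s59b_kumFrameUW M q hqM P hP L₀ hB.unr C hC.geo (p ^ K) (s59m_pK_ne p K)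
          (s59m_q_ndvd_pK q p hpq K)).Tor)
  hglue : ∀ (P : ValuationSubring Kb) (hP : P.LiesOverPrime q) (L₀ : IntermediateField ℚ Kb)
      [FiniteDimensional ℚ ↥L₀] [CharP (IsLocalRing.ResidueField ↥(s18q_A0 P L₀)) q]
      [PerfectField (IsLocalRing.ResidueField ↥(s18q_A0 P L₀))]
      (hunr : ∀ τ ∈ P.inertiaSubgroupIn ℚ, ∀ a ∈ L₀, τ a = a)
      (C : s59b_ChartU M q hqM P hP L₀ hunr), s59m_ChartOK C →
      ∀ D : s59m_L2Data M q hqM P hP L₀ hunr, s59m_Glue3LocW C D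
  hinj : ∀ (P : ValuationSubring Kb) (hP : P.LiesOverPrime q) (L₀ : IntermediateField ℚ Kb)
      [FiniteDimensional ℚ ↥L₀] [CharP (IsLocalRing.ResidueField ↥(s18q_A0 P L₀)) q]
      [PerfectField (IsLocalRing.ResidueField ↥(s18q_A0 P L₀))]
      (hunr : ∀ τ ∈ P.inertiaSubgroupIn ℚ, ∀ a ∈ L₀, τ a = a)
      (C : s59b_ChartU M q hqM P hP L₀ hunr), s59m_ChartOK C →
      ∀ D : s59m_L2Data M q hqM P hP L₀ hunr, s59m_Glue3LocW C D → s59m_Inj3CW C p D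
  hHF3 : ∀ (P : ValuationSubring Kb) (hP : P.LiesOverPrime q) (L₀ : IntermediateField ℚ Kb)
      [FiniteDimensional ℚ ↥L₀] [CharP (IsLocalRing.ResidueField ↥(s18q_A0 P L₀)) q]
      [PerfectField (IsLocalRing.ResidueField ↥(s18q_A0 P L₀))]
      (hunr : ∀ τ ∈ P.inertiaSubgroupIn ℚ, ∀ a ∈ L₀, τ a = a)
      (C : s59b_ChartU M q hqM P hP L₀ hunr), s59m_ChartOK C →
      ∀ (D : s59m_L2Data M q hqM P hP L₀ hunr) (hgl : s59m_Glue3CW C D) (hin : s59m_Inj3CW C p D)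
      (ℓ : ℕ) [hℓ : Fact ℓ.Prime] (hℓN : ¬ ℓ ∣ M * q) (hℓq : ℓ ≠ q)
      (H : s59m_HeckeOn (s59b_ZUW M q hqM P hP L₀ hunr C)), H.T = s59u_tauD (M * q) ℓ hℓN L₀ →
      Nonempty (s59m_HeckeFrame3 (s59m_kumFrame3CW C p D hgl hin) H ⟨ℓ, hℓ.out⟩)

section Inst

variable (M q p : ℕ) [NeZero M] [hq : Fact q.Prime] [hp : Fact p.Prime] (hqM : ¬ q ∣ M)
  (hpq : p ≠ q)

/-- every chart of `t₂` has `s59m_ChartOK` (`q = 3`, `2 ∣ M`). -/
theorem s59m_chartOK_t2 (hq3 : q = 3) (h2M : 2 ∣ M)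
    (P : ValuationSubring Kb) (hP : P.LiesOverPrime q) (L₀ : IntermediateField ℚ Kb)
    [FiniteDimensional ℚ ↥L₀] [CharP (IsLocalRing.ResidueField ↥(s18q_A0 P L₀)) q]
    [PerfectField (IsLocalRing.ResidueField ↥(s18q_A0 P L₀))]
    (hunr : ∀ σ ∈ P.inertiaSubgroupIn ℚ, ∀ a ∈ L₀, σ a = a)
    (C : s59b_ChartU M q hqM P hP L₀ hunr)
    (hC : s59b_ChartAt M q hqM P hP L₀ hunr C (fun K _ => s18u_t2 K)) : s59m_ChartOK C :=
  ⟨hC.geo, s59m_baseFullW_t2 C hq3 h2M hC,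
    s59b_nodePlaces_eq_j_t2 M q hqM (by omega) P hP L₀ hunr C hC⟩

/-- every chart of `t₃` has `s59m_ChartOK` (`q = 2`, `3 ∣ M`). -/
theorem s59m_chartOK_t3 (hq2 : q = 2) (h3M : 3 ∣ M)
    (P : ValuationSubring Kb) (hP : P.LiesOverPrime q) (L₀ : IntermediateField ℚ Kb)
    [FiniteDimensional ℚ ↥L₀] [CharP (IsLocalRing.ResidueField ↥(s18q_A0 P L₀)) q]
    [PerfectField (IsLocalRing.ResidueField ↥(s18q_A0 P L₀))]
    (hunr : ∀ σ ∈ P.inertiaSubgroupIn ℚ, ∀ a ∈ L₀, σ a = a)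
    (C : s59b_ChartU M q hqM P hP L₀ hunr)
    (hC : s59b_ChartAt M q hqM P hP L₀ hunr C (fun K _ => s18u_t3 K)) : s59m_ChartOK C :=
  ⟨hC.geo, s59m_baseFullW_t3 C hq2 h3M hC,
    s59b_nodePlaces_eq_j_t3 M q hqM (by omega) P hP L₀ hunr C hC⟩

include hpq in
/-- **THE PACKAGE at `(p, M, 3)`, `2 ∣ M`, `ν₂(M) = ν₃(M) = 0`**, from the five leaves over the charts of `t₂`. -/
theorem s59m_pkgEAt_three (hq3 : q = 3) (h2M : 2 ∣ M) (h2 : nuTwo M = 0) (h3 : nuThree M = 0)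
    (L : s59m_LeavesW M q p hqM hpq (fun K _ => s18u_t2 K)) :
    haveI : NeZero q := ⟨hq.out.ne_zero⟩
    s59m_CarPkgEAt p M q := by
  haveI : NeZero q := ⟨hq.out.ne_zero⟩
  exact s59m_pkgEAt_of_W5W M q p hqM hpq (fun K _ => s18u_t2 K) h2 h3 (Or.inr (Or.inl ⟨hq3, h2M⟩))
    (s59b_q4nZ_t2 M q hqM hq3 h2M)
    (fun P hP L₀ _ _ _ hunr => s59b_exists_chartAt_t2 M q hqM P hP L₀ hunr hq3 h2M)
    (fun P hP L₀ _ _ _ hunr C hC => s59m_chartOK_t2 M q hqM hq3 h2M P hP L₀ hunr C hC)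
    L.hrat L.hcount L.hglue L.hinj L.hHF3

include hpq in
/-- **THE PACKAGE at `(p, M, 2)`, `3 ∣ M`, `ν₂(M) = ν₃(M) = 0`**, from the five leaves over the charts of `t₃`. -/
theorem s59m_pkgEAt_two (hq2 : q = 2) (h3M : 3 ∣ M) (h2 : nuTwo M = 0) (h3 : nuThree M = 0)
    (L : s59m_LeavesW M q p hqM hpq (fun K _ => s18u_t3 K)) :
    haveI : NeZero q := ⟨hq.out.ne_zero⟩
    s59m_CarPkgEAt p M q := by
  haveI : NeZero q := ⟨hq.out.ne_zero⟩
  exact s59m_pkgEAt_of_W5W M q p hqM hpq (fun K _ => s18u_t3 K) h2 h3 (Or.inr (Or.inr ⟨hq2, h3M⟩))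
    (s59b_q4nZ_t3 M q hqM hq2 h3M)
    (fun P hP L₀ _ _ _ hunr => s59b_exists_chartAt_t3 M q hqM P hP L₀ hunr hq2 h3M)
    (fun P hP L₀ _ _ _ hunr C hC => s59m_chartOK_t3 M q hqM hq2 h3M P hP L₀ hunr C hC)
    L.hrat L.hcount L.hglue L.hinj L.hHF3

end Inst

/-- **[CAR] at `q = 3`, `2 ∣ M`, `W`-form** (level written `M * q ^ 2`, no instance arguments), from the five leaves. -/
theorem s59m_CAR_three' (p : ℕ) (hp : p.Prime) (hp2 : p ≠ 2)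
    (W : WeierstrassCurve ℤ) (hΔ : W.Δ ≠ 0) (hss : W.IsSemistableModel)
    (hirr : W.ModRepIsIrreducible p)
    (M q : ℕ) (hM : M ≠ 0) (hq : q.Prime) (hqM : ¬ q ∣ M) (hqp : q ≠ p)
    (hq3 : q = 3) (h2M : 2 ∣ M) (h2 : nuTwo M = 0) (h3 : nuThree M = 0)
    (L : haveI : Fact p.Prime := ⟨hp⟩; haveI : NeZero M := ⟨hM⟩; haveI : Fact q.Prime := ⟨hq⟩
      s59m_LeavesW M q p hqM (Ne.symm hqp) (fun K _ => s18u_t2 K))
    (hres : W.IsResiduallyModularOfLevel p (M * q ^ 2)) :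
    W.IsResiduallyModularOfLevel p (M * q) := by
  haveI : Fact p.Prime := ⟨hp⟩
  haveI : NeZero M := ⟨hM⟩
  haveI : NeZero q := ⟨hq.ne_zero⟩
  haveI : Fact q.Prime := ⟨hq⟩
  have e : M * q ^ 2 = M * q * q := by ring
  rw [e] at hres
  have hGeo : s59c_GeoAt p M q hq hqM :=
    s59u_CarAlgE p hp2 M q hq hqM hqp (s59m_pkgEAt_three M q p hqM (Ne.symm hqp) hq3 h2M h2 h3 L)
  exact s59c_CAR_at hp2 W hΔ hss hirr M q hq hqM hqp hGeo hres

/-- **[CAR] at `q = 2`, `3 ∣ M`, `W`-form** (level written `M * q ^ 2`, no instance arguments), from the five leaves. -/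
theorem s59m_CAR_two' (p : ℕ) (hp : p.Prime) (hp2 : p ≠ 2)
    (W : WeierstrassCurve ℤ) (hΔ : W.Δ ≠ 0) (hss : W.IsSemistableModel)
    (hirr : W.ModRepIsIrreducible p)
    (M q : ℕ) (hM : M ≠ 0) (hq : q.Prime) (hqM : ¬ q ∣ M) (hqp : q ≠ p)
    (hq2 : q = 2) (h3M : 3 ∣ M) (h2 : nuTwo M = 0) (h3 : nuThree M = 0)
    (L : haveI : Fact p.Prime := ⟨hp⟩; haveI : NeZero M := ⟨hM⟩; haveI : Fact q.Prime := ⟨hq⟩
      s59m_LeavesW M q p hqM (Ne.symm hqp) (fun K _ => s18u_t3 K))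
    (hres : W.IsResiduallyModularOfLevel p (M * q ^ 2)) :
    W.IsResiduallyModularOfLevel p (M * q) := by
  haveI : Fact p.Prime := ⟨hp⟩
  haveI : NeZero M := ⟨hM⟩
  haveI : NeZero q := ⟨hq.ne_zero⟩
  haveI : Fact q.Prime := ⟨hq⟩
  have e : M * q ^ 2 = M * q * q := by ring
  rw [e] at hres
  have hGeo : s59c_GeoAt p M q hq hqM :=
    s59u_CarAlgE p hp2 M q hq hqM hqp (s59m_pkgEAt_two M q p hqM (Ne.symm hqp) hq2 h3M h2 h3 L)
  exact s59c_CAR_at hp2 W hΔ hss hirr M q hq hqM hqp hGeo hres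

end Fermat.Agent.Lib.S59
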