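/-
Programme (R2) / node **[CAR]**, the ports to `q ∈ {2, 3}` — W5 over a CHART (helper9, prefix `s59m_`, suffix `W`):
**[CAR] AT `q = 3` (`2 ∣ M`) AND `q = 2` (`3 ∣ M`) FROM THE TWO LEAVES [L2-6 GLUE₃] AND [L2-8 Σ-INJ₃] OVER CHARTS** —
`MCarFinW.lean` with helper8's `s59c_hratW`, `s59c_hcountW_t2/_t3` (`CRatW.lean`, `CHcountW.lean`) and helper2's [L2-7]
`s59b_heckeFrame3CW` (`B5Hecke3F.lean`) plugged in.

* `s59m_hHF3_W` : [L2-7] in the shape of the field `hHF3`;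
* **`s59m_leavesW_t2`**, **`s59m_leavesW_t3`** : `s59m_LeavesW M q p hqM hpq t₂ / t₃` from `hglue`, `hinj` (then
  `s59m_pkgEAt_three/_two`, `s59m_CAR_three'/_two'` of `MCarFinW.lean` apply).
-/
import Fermat.Agent.Lib.S59.MCarFinW
import Fermat.Agent.Lib.S59.CHcountW
import Fermat.Agent.Lib.S59.CRatW
import Fermat.Agent.Lib.S59.B5Hecke3F

set_option autoImplicit false
set_option linter.style.haveILetI false
set_option linter.unusedSectionVars false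
set_option linter.unusedVariables false
set_option synthInstance.maxHeartbeats 400000

noncomputable section

namespace Fermat.Agent.Lib.S59

open ModularCurve HahnSeries AlgebraicCurve Fermat.Agent.Lib.FF Fermat.Agent.Lib.S18
  Fermat.Agent.Lib.S28 Fermat.Agent.Lib.S29 Fermat.Agent.Lib.S37 Fermat.Agent.Lib.S34
  Fermat.Agent.Lib.S35 Fermat.Agent.Lib.S33 Fermat.Agent.Lib.S44 Fermat.Agent.Lib.S36

local notation "Kb" => AlgebraicClosure ℚ

section Inst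

variable (M q p : ℕ) [NeZero M] [hq : Fact q.Prime] [hp : Fact p.Prime] (hqM : ¬ q ∣ M)
  (hpq : p ≠ q)

/-- [L2-7] in the shape of the field `hHF3` of `s59m_LeavesW`. -/
theorem s59m_hHF3_W (h2 : nuTwo M = 0) (h3 : nuThree M = 0) :
    ∀ (P : ValuationSubring Kb) (hP : P.LiesOverPrime q) (L₀ : IntermediateField ℚ Kb)
      [FiniteDimensional ℚ ↥L₀] [CharP (IsLocalRing.ResidueField ↥(s18q_A0 P L₀)) q]
      [PerfectField (IsLocalRing.ResidueField ↥(s18q_A0 P L₀))]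
      (hunr : ∀ τ ∈ P.inertiaSubgroupIn ℚ, ∀ a ∈ L₀, τ a = a)
      (C : s59b_ChartU M q hqM P hP L₀ hunr), s59m_ChartOK C →
      ∀ (D : s59m_L2Data M q hqM P hP L₀ hunr) (hgl : s59m_Glue3CW C D) (hin : s59m_Inj3CW C p D)
      (ℓ : ℕ) [hℓ : Fact ℓ.Prime] (hℓN : ¬ ℓ ∣ M * q) (hℓq : ℓ ≠ q)
      (H : s59m_HeckeOn (s59b_ZUW M q hqM P hP L₀ hunr C)), H.T = s59u_tauD (M * q) ℓ hℓN L₀ →
      Nonempty (s59m_HeckeFrame3 (s59m_kumFrame3CW C p D hgl hin) H ⟨ℓ, hℓ.out⟩) := by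
  intro P hP L₀ _ _ _ hunr C hOK D hgl hin ℓ hℓ hℓN hℓq H hHT
  have hℓ2 : ¬ ℓ ∣ M * q * q := by
    intro hd
    rcases (Nat.Prime.dvd_mul hℓ.out).mp hd with h | h
    · exact hℓN h
    · exact hℓq ((Nat.prime_dvd_prime_iff_eq hℓ.out hq.out).mp h)
  exact ⟨s59b_heckeFrame3CW M q hqM P hP L₀ hunr C hOK p D hgl hin ℓ hℓN hℓ2 (Ne.symm hℓq) h2 h3 H hHT⟩

include hpq in
/-- the five leaves over the charts of `t₂` from [L2-6] and [L2-8]. -/
theorem s59m_leavesW_t2 (hq3 : q = 3) (h2M : 2 ∣ M) (h2 : nuTwo M = 0) (h3 : nuThree M = 0)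
    (hglue : ∀ (P : ValuationSubring Kb) (hP : P.LiesOverPrime q) (L₀ : IntermediateField ℚ Kb)
      [FiniteDimensional ℚ ↥L₀] [CharP (IsLocalRing.ResidueField ↥(s18q_A0 P L₀)) q]
      [PerfectField (IsLocalRing.ResidueField ↥(s18q_A0 P L₀))]
      (hunr : ∀ τ ∈ P.inertiaSubgroupIn ℚ, ∀ a ∈ L₀, τ a = a)
      (C : s59b_ChartU M q hqM P hP L₀ hunr), s59m_ChartOK C →
      ∀ D : s59m_L2Data M q hqM P hP L₀ hunr, s59m_Glue3LocW C D)
    (hinj : ∀ (P : ValuationSubring Kb) (hP : P.LiesOverPrime q) (L₀ : IntermediateField ℚ Kb)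
      [FiniteDimensional ℚ ↥L₀] [CharP (IsLocalRing.ResidueField ↥(s18q_A0 P L₀)) q]
      [PerfectField (IsLocalRing.ResidueField ↥(s18q_A0 P L₀))]
      (hunr : ∀ τ ∈ P.inertiaSubgroupIn ℚ, ∀ a ∈ L₀, τ a = a)
      (C : s59b_ChartU M q hqM P hP L₀ hunr), s59m_ChartOK C →
      ∀ D : s59m_L2Data M q hqM P hP L₀ hunr, s59m_Glue3LocW C D → s59m_Inj3CW C p D) :
    s59m_LeavesW M q p hqM hpq (fun K _ => s18u_t2 K) :=
  ⟨s59c_hratW M q hqM _, s59c_hcountW_t2 M q p hqM hpq hq3 h2M h2 h3, hglue, hinj,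
    s59m_hHF3_W M q p hqM h2 h3⟩

include hpq in
/-- the five leaves over the charts of `t₃` from [L2-6] and [L2-8]. -/
theorem s59m_leavesW_t3 (hq2 : q = 2) (h3M : 3 ∣ M) (h2 : nuTwo M = 0) (h3 : nuThree M = 0)
    (hglue : ∀ (P : ValuationSubring Kb) (hP : P.LiesOverPrime q) (L₀ : IntermediateField ℚ Kb)
      [FiniteDimensional ℚ ↥L₀] [CharP (IsLocalRing.ResidueField ↥(s18q_A0 P L₀)) q]
      [PerfectField (IsLocalRing.ResidueField ↥(s18q_A0 P L₀))]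
      (hunr : ∀ τ ∈ P.inertiaSubgroupIn ℚ, ∀ a ∈ L₀, τ a = a)
      (C : s59b_ChartU M q hqM P hP L₀ hunr), s59m_ChartOK C →
      ∀ D : s59m_L2Data M q hqM P hP L₀ hunr, s59m_Glue3LocW C D)
    (hinj : ∀ (P : ValuationSubring Kb) (hP : P.LiesOverPrime q) (L₀ : IntermediateField ℚ Kb)
      [FiniteDimensional ℚ ↥L₀] [CharP (IsLocalRing.ResidueField ↥(s18q_A0 P L₀)) q]
      [PerfectField (IsLocalRing.ResidueField ↥(s18q_A0 P L₀))]
      (hunr : ∀ τ ∈ P.inertiaSubgroupIn ℚ, ∀ a ∈ L₀, τ a = a)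
      (C : s59b_ChartU M q hqM P hP L₀ hunr), s59m_ChartOK C →
      ∀ D : s59m_L2Data M q hqM P hP L₀ hunr, s59m_Glue3LocW C D → s59m_Inj3CW C p D) :
    s59m_LeavesW M q p hqM hpq (fun K _ => s18u_t3 K) :=
  ⟨s59c_hratW M q hqM _, s59c_hcountW_t3 M q p hqM hpq hq2 h3M h2 h3, hglue, hinj,
    s59m_hHF3_W M q p hqM h2 h3⟩

end Inst

end Fermat.Agent.Lib.S59
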