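/-
Programme (R2) / node **[CAR]** (helper9, prefix `s59m_`): **[CAR] AT ALL THE GOOD LEVELS IS A THEOREM** — the ports to
`q = 3` (`2 ∣ M`) and `q = 2` (`3 ∣ M`) closed: `MCarFinW2.lean` with the last two leaves plugged in, [L2-6] GLUE₃ over charts
`s59c_glue3LocW` (helper8, `CGlue3W.lean`) and [L2-8] Σ-INJ₃ over charts `s59b_inj3CW` (helper2, `B5Inj3.lean`).

* `s59m_leavesW_three`, `s59m_leavesW_two` : the five leaves `s59m_LeavesW` over the charts of `t₂` / `t₃`;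
* **`s59m_pkgEAt_three_final`**, **`s59m_pkgEAt_two_final`** : the gluing-torus package `s59m_CarPkgEAt p M q`;
* **`s59m_CAR_three`**, **`s59m_CAR_two`** : the `W`-forms, `ρ̄_{W,p}` modular of level `M q²` ⇒ modular of level `M q`;
* **`s59m_CAR_good`** : the same at EVERY good level `s36g_GoodLevel q M` (`5 ≤ q`: `s59m_CAR_five'`, `MCarFin.lean`).
-/
import Fermat.Agent.Lib.S59.MCarFinW2
import Fermat.Agent.Lib.S59.MCarFin
import Fermat.Agent.Lib.S59.CGlue3W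
import Fermat.Agent.Lib.S59.B5Inj3

set_option autoImplicit false
set_option linter.style.haveILetI false
set_option linter.unusedSectionVars false
set_option linter.unusedVariables false
set_option synthInstance.maxHeartbeats 400000

noncomputable section

namespace Fermat.Agent.Lib.S59

open ModularCurve HahnSeries AlgebraicCurve Fermat.Agent.Lib.FF Fermat.Agent.Lib.S18
  Fermat.Agent.Lib.S28 Fermat.Agent.Lib.S29 Fermat.Agent.Lib.S37 Fermat.Agent.Lib.S34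
  Fermat.Agent.Lib.S35 Fermat.Agent.Lib.S33 Fermat.Agent.Lib.S44 Fermat.Agent.Lib.S36

local notation "Kb" => AlgebraicClosure ℚ

section Inst

variable (M q p : ℕ) [NeZero M] [hq : Fact q.Prime] [hp : Fact p.Prime] (hqM : ¬ q ∣ M)
  (hpq : p ≠ q)

include hpq in
/-- the five leaves over the charts of `t₂` (`q = 3`, `2 ∣ M`, `ν₂(M) = ν₃(M) = 0`). -/
theorem s59m_leavesW_three (hq3 : q = 3) (h2M : 2 ∣ M) (h2 : nuTwo M = 0) (h3 : nuThree M = 0) :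
    s59m_LeavesW M q p hqM hpq (fun K _ => s18u_t2 K) :=
  s59m_leavesW_t2 M q p hqM hpq hq3 h2M h2 h3
    (fun P hP L₀ _ _ _ hunr C hOK D => s59c_glue3LocW C hOK.full h2 h3 D)
    (fun P hP L₀ _ _ _ hunr C hOK D hloc =>
      s59b_inj3CW M q hqM P hP L₀ hunr C hOK p hpq h2 h3 D hloc)

include hpq in
/-- the five leaves over the charts of `t₃` (`q = 2`, `3 ∣ M`, `ν₂(M) = ν₃(M) = 0`). -/
theorem s59m_leavesW_two (hq2 : q = 2) (h3M : 3 ∣ M) (h2 : nuTwo M = 0) (h3 : nuThree M = 0) :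
    s59m_LeavesW M q p hqM hpq (fun K _ => s18u_t3 K) :=
  s59m_leavesW_t3 M q p hqM hpq hq2 h3M h2 h3
    (fun P hP L₀ _ _ _ hunr C hOK D => s59c_glue3LocW C hOK.full h2 h3 D)
    (fun P hP L₀ _ _ _ hunr C hOK D hloc =>
      s59b_inj3CW M q hqM P hP L₀ hunr C hOK p hpq h2 h3 D hloc)

include hpq hqM in
/-- **THE PACKAGE at `(p, M, 3)`, `2 ∣ M`, `ν₂(M) = ν₃(M) = 0`.** -/
theorem s59m_pkgEAt_three_final (hq3 : q = 3) (h2M : 2 ∣ M) (h2 : nuTwo M = 0)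
    (h3 : nuThree M = 0) :
    haveI : NeZero q := ⟨hq.out.ne_zero⟩
    s59m_CarPkgEAt p M q :=
  s59m_pkgEAt_three M q p hqM hpq hq3 h2M h2 h3 (s59m_leavesW_three M q p hqM hpq hq3 h2M h2 h3)

include hpq hqM in
/-- **THE PACKAGE at `(p, M, 2)`, `3 ∣ M`, `ν₂(M) = ν₃(M) = 0`.** -/
theorem s59m_pkgEAt_two_final (hq2 : q = 2) (h3M : 3 ∣ M) (h2 : nuTwo M = 0)
    (h3 : nuThree M = 0) :
    haveI : NeZero q := ⟨hq.out.ne_zero⟩
    s59m_CarPkgEAt p M q :=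
  s59m_pkgEAt_two M q p hqM hpq hq2 h3M h2 h3 (s59m_leavesW_two M q p hqM hpq hq2 h3M h2 h3)

end Inst

/-- **[CAR] at `q = 3`, `2 ∣ M`, `ν₂(M) = ν₃(M) = 0`, `W`-form.** -/
theorem s59m_CAR_three (p : ℕ) (hp : p.Prime) (hp2 : p ≠ 2)
    (W : WeierstrassCurve ℤ) (hΔ : W.Δ ≠ 0) (hss : W.IsSemistableModel)
    (hirr : W.ModRepIsIrreducible p)
    (M q : ℕ) (hM : M ≠ 0) (hq : q.Prime) (hqM : ¬ q ∣ M) (hqp : q ≠ p)
    (hq3 : q = 3) (h2M : 2 ∣ M) (h2 : nuTwo M = 0) (h3 : nuThree M = 0)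
    (hres : W.IsResiduallyModularOfLevel p (M * q ^ 2)) :
    W.IsResiduallyModularOfLevel p (M * q) := by
  haveI : Fact p.Prime := ⟨hp⟩
  haveI : NeZero M := ⟨hM⟩
  haveI : Fact q.Prime := ⟨hq⟩
  exact s59m_CAR_three' p hp hp2 W hΔ hss hirr M q hM hq hqM hqp hq3 h2M h2 h3
    (s59m_leavesW_three M q p hqM (Ne.symm hqp) hq3 h2M h2 h3) hres

/-- **[CAR] at `q = 2`, `3 ∣ M`, `ν₂(M) = ν₃(M) = 0`, `W`-form.** -/
theorem s59m_CAR_two (p : ℕ) (hp : p.Prime) (hp2 : p ≠ 2)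
    (W : WeierstrassCurve ℤ) (hΔ : W.Δ ≠ 0) (hss : W.IsSemistableModel)
    (hirr : W.ModRepIsIrreducible p)
    (M q : ℕ) (hM : M ≠ 0) (hq : q.Prime) (hqM : ¬ q ∣ M) (hqp : q ≠ p)
    (hq2 : q = 2) (h3M : 3 ∣ M) (h2 : nuTwo M = 0) (h3 : nuThree M = 0)
    (hres : W.IsResiduallyModularOfLevel p (M * q ^ 2)) :
    W.IsResiduallyModularOfLevel p (M * q) := by
  haveI : Fact p.Prime := ⟨hp⟩
  haveI : NeZero M := ⟨hM⟩
  haveI : Fact q.Prime := ⟨hq⟩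
  exact s59m_CAR_two' p hp hp2 W hΔ hss hirr M q hM hq hqM hqp hq2 h3M h2 h3
    (s59m_leavesW_two M q p hqM (Ne.symm hqp) hq2 h3M h2 h3) hres

/-- **[CAR] AT EVERY GOOD LEVEL, `W`-form**: for `p` odd, `q ≠ p` prime and `s36g_GoodLevel q M`
(`q ∤ M`, `ν₂(M) = ν₃(M) = 0`, and `5 ≤ q` or `q = 3 ∧ 2 ∣ M` or `q = 2 ∧ 3 ∣ M`): `ρ̄_{W,p}` modular of level `M q²` ⇒
modular of level `M q`. -/
theorem s59m_CAR_good (p : ℕ) (hp : p.Prime) (hp2 : p ≠ 2)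
    (W : WeierstrassCurve ℤ) (hΔ : W.Δ ≠ 0) (hss : W.IsSemistableModel)
    (hirr : W.ModRepIsIrreducible p)
    (M q : ℕ) (hM : M ≠ 0) (hq : q.Prime) (hqp : q ≠ p) (hgood : s36g_GoodLevel q M)
    (hres : W.IsResiduallyModularOfLevel p (M * q ^ 2)) :
    W.IsResiduallyModularOfLevel p (M * q) := by
  obtain ⟨hqM, h2, h3, h5 | ⟨hq3, h2M⟩ | ⟨hq2, h3M⟩⟩ := hgood
  · exact s59m_CAR_five' p hp hp2 W hΔ hss hirr M q hM hq hqM hqp h5 h2 h3 hres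
  · exact s59m_CAR_three p hp hp2 W hΔ hss hirr M q hM hq hqM hqp hq3 h2M h2 h3 hres
  · exact s59m_CAR_two p hp hp2 W hΔ hss hirr M q hM hq hqM hqp hq2 h3M h2 h3 hres

end Fermat.Agent.Lib.S59
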