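/-
PROGRAMME (R2) = S59 — THE ADAPTER FILE for the contract graph v3.10 (`Graph3Z.lean`) (helper1): ALL the closed leaves of the
owners plugged in; what remains is `s59g_OpenThreeZ`, `s59g_OpenFiveZ` = THE WHOLE REMAINING SURFACE of S59.

NEW w.r.t. `GLeavesY.lean`: [CAR] at ALL the good levels is CLOSED (helper9 `s59m_CAR_good`, `MCarFinW3.lean`: `5 ≤ q`, and the
chart branches `q = 3 ∧ 2 ∣ M` (t₂), `q = 2 ∧ 3 ∣ M` (t₃), with the ports of helper2, helper7, helper8), so the `car` fields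
disappear; the type-(c) [LIFT] fields at `p = 3` are split into (c1)/(c2) (`Graph3Z.lean`).
`s59g_S59_openZ : s59g_OpenThreeZ → s59g_OpenFiveZ → <frozen S59 verbatim>`.
-/
import Fermat.Agent.Lib.S59.Graph3Z
import Fermat.Agent.Lib.S59.GLeavesY
import Fermat.Agent.Lib.S59.MCarFinW3

set_option autoImplicit false

open CongruenceSubgroup ModularFormClass

noncomputable section

namespace Fermat.Agent.Lib.S59

/-- **[CAR] at the good levels is a THEOREM** (helper9's `s59m_CAR_good`). -/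
theorem s59g_CARgoodAt_all (p : ℕ) (hp : p.Prime) (hp2 : p ≠ 2) : s59g_CARgoodAt p := by
  intro W hΔ hss hirr M q hinv hq hqp hgood _ hres
  have hM : M ≠ 0 := by
    rintro rfl
    have := hinv.1
    simp at this
  exact s59m_CAR_good p hp hp2 W hΔ hss hirr M q hM hq hqp hgood hres

/-- the OPEN fields at `p = 3` (v3.10). -/
structure s59g_OpenThreeZ : Prop where
  iaFlatC : s59g_IAflatThreeC
  iaStrictAB : s59g_IAstrictThree
  iaStrictC : s59g_IAstrictThreeC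
  liftABgt : s59g_LIFTThreeGT
  liftABp : s59g_LIFTThreeP
  liftC1gt : s59g_LIFTThreeC1GT
  liftC2gt : s59g_LIFTThreeC2GT
  liftC1p : s59g_LIFTThreeC1P
  liftC2p : s59g_LIFTThreeC2P

/-- the OPEN fields at `p = 5` (v3.10). -/
structure s59g_OpenFiveZ : Prop where
  iaStrict : s59g_IAstrictTAt 5 true
  lift23gt : s59g_LIFTfive23GT
  lift23p : s59g_LIFTfive23P
  cornerGt : s59g_Corner5GT
  cornerP : s59g_Corner5P

theorem s59g_openThreeY_ofZ (h : s59g_OpenThreeZ) : s59g_OpenThreeY :=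
  ⟨s59g_CARgoodAt_all 3 Nat.prime_three (by norm_num), h.iaFlatC, h.iaStrictAB,
    h.iaStrictC, h.liftABgt, h.liftABp, s59g_LIFTThreeCGT_of h.liftC1gt h.liftC2gt,
    s59g_LIFTThreeCP_of h.liftC1p h.liftC2p⟩

theorem s59g_openFiveY_ofZ (h : s59g_OpenFiveZ) : s59g_OpenFiveY :=
  ⟨s59g_CARgoodAt_all 5 (by norm_num) (by norm_num), h.iaStrict, h.lift23gt,
    h.lift23p, h.cornerGt, h.cornerP⟩

/-- **S59 from the OPEN fields of v3.10** — the frozen statement, verbatim. -/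
theorem s59g_S59_openZ (h3 : s59g_OpenThreeZ) (h5 : s59g_OpenFiveZ)
    (p : ℕ) (hp : p = 3 ∨ p = 5)
    (W : WeierstrassCurve ℤ) (hΔ : W.Δ ≠ 0) (hW : W.IsSemistableModel)
    (hirr : W.ModRepIsIrreducible p)
    (M₀ : ℕ) [NeZero M₀] (hres₀ : W.IsResiduallyModularOfLevel p M₀)
    (hM₀ : ¬ p ^ 2 ∣ M₀)
    (hM₀3 : ∀ q : ℕ, q.Prime → q ≠ p → ¬ q ^ 3 ∣ M₀) :
    Mlc1IsModularModelOfExactConductorLevel W :=
  s59g_S59_openY (s59g_openThreeY_ofZ h3) (s59g_openFiveY_ofZ h5) p hp W hΔ hW hirr M₀ hres₀ hM₀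
    hM₀3

end Fermat.Agent.Lib.S59

end
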