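/-
PROGRAMME (R2) = S59, (T3) = THE STRICT `T`-SIDE AT `p ∥ N` FOR [IA′-core], `p = 3` PORT, part D (helper6, prefix `s59q_`):
**THE STRICT `T`-SIDE PACKAGE FOR `W`, EVEN LEVEL, ANY ODD `p`, WITH (E2′)-PRIMES IN THE LEVEL** — the twin of helper5's
`s59e3e_TPkgW_E` (E3TPkgWE.lean) at the levels `N` with `p ∥ N`, `ρ̄_W` très ramifié at `p`, for deformation rings of the
STRICT-ORDINARY type.  Scripted copy; the two uses of `p ∤ N` are replaced: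

  `s59e3e_W_existDQ_E`  →  `s59q_W_existDQ_SE`  (Q3SHyp.lean);     `s59e3q_TB2`  →  `s59q_TB2_ord3`  (Q3STB2.lean).
-/
import Mathlib
import Fermat.Agent.Lib.S59.E3TPkgWE
import Fermat.Agent.Lib.S59.QSTPkg5
import Fermat.Agent.Lib.S59.Q3SHyp
import Fermat.Agent.Lib.S59.Q3STB2

set_option autoImplicit false
set_option linter.unusedSectionVars false
set_option linter.unusedVariables false
set_option linter.style.haveILetI false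
set_option maxHeartbeats 0
set_option synthInstance.maxHeartbeats 400000
set_option maxSynthPendingDepth 3

noncomputable section

namespace Fermat.Agent.Lib.S59

open IsLocalRing CuspForm Polynomial ExtCitation CongruenceSubgroup
open WeierstrassCurve WeierstrassCurve.Affine WeierstrassCurve.Affine.Point
open Fermat.Agent.Lib.S48 Fermat.Agent.Lib.S44
open scoped MatrixGroups

local notation "Γℚ" => (AlgebraicClosure ℚ ≃ₐ[ℚ] AlgebraicClosure ℚ)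

/-- **the STRICT `T`-side package for a general semistable `W`, EVEN level, any odd `p`, with (E2′)-primes in the level**
(`p ∥ N`, `ρ̄_W` très ramifié at `p`): twin of helper5's `s59e3e_TPkgW_E` for the strict-ordinary type. -/
theorem s59q_TPkgSE (p : ℕ) [Fact p.Prime] (hp2 : p ≠ 2) (W : WeierstrassCurve ℤ) (hΔ : W.Δ ≠ 0)
    (N : ℕ) [NeZero N] (Bd B : Finset ℕ) (H : s59q_IAHypSE W p N Bd B) (h23 : 2 ∣ N)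
    (𝒪 : Type) [CommRing 𝒪] [IsDomain 𝒪] [IsDiscreteValuationRing 𝒪]
    [IsAdicComplete (maximalIdeal 𝒪) 𝒪] [Finite (ResidueField 𝒪)] [CharZero 𝒪]
    [Algebra ℤ_[p] 𝒪] [Module.Finite ℤ_[p] 𝒪]
    (hp𝒪 : ((p : ℕ) : 𝒪) ∈ maximalIdeal 𝒪)
    (hsplit : ∀ a b : ℤ, ∃ α β : ResidueField 𝒪,
      α + β = (a : ResidueField 𝒪) ∧ α * β = (b : ResidueField 𝒪))
    (v : ℕ) (hv : ∀ q ∈ Bd, ¬ p ^ (v + 1) ∣ q - 1) (hζex : ∃ ζ : 𝒪, IsPrimitiveRoot ζ (p ^ v))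
    (N' : ℕ) (Rd : s59i_RData p N' (s59i_rhobarW W p hΔ 𝒪 hp𝒪) B Bd)
    (hE : ∀ q : ℕ, q.Prime → q ∣ N → q ∣ N' ∨ s59e3q_E2Alt p (s59i_rhobarW W p hΔ 𝒪 hp𝒪) q) :
  ∀ r : ℕ, 3 * Rd.m + Rd.e ≤ r →
    (∀ qv : Fin r → ℕ, Nonempty (GaloisRep.DeformationRingData 𝒪 (s59i_rhobarW W p hΔ 𝒪 hp𝒪)
      (fun _A _ _ _ ρ =>
        GaloisRep.strictOrdinaryCondition 𝒪 p (Rd.Smin ∪ (Bd ∪ Rd.Ed) ∪ Finset.univ.image qv) ρ ∧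
          ∀ q ∈ Rd.Smin, q.Prime → q ≠ p → ρ.IsUnipotentOnInertiaAt q))) ∧
    ∃ Bs : s59i_TBase 𝒪 N B (fun ℓ => W.apOfModel ℓ) Rd.m r (s59q_ZIdx Rd.m Rd.e)
        (s59i_rhobarW W p hΔ 𝒪 hp𝒪) (fun j => (Rd.pr (Sum.inl j) : ℕ)),
      ∀ (n : ℕ) (qv : Fin r → ℕ), Function.Injective qv →
        (∀ i, (qv i).Prime ∧ qv i ∉ B ∧ p ^ (n + 1) ∣ qv i - 1) →
        (∀ i, ∀ A : ValuationSubring (AlgebraicClosure ℚ), A.LiesOverPrime (qv i) →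
          ∀ φ : Γℚ, A.IsFrobeniusAt φ (qv i) →
            ∃ α β : ResidueField 𝒪, α ≠ β ∧
              LinearMap.charpoly ((s59i_rhobarW W p hΔ 𝒪 hp𝒪).ρ φ) = (X - C α) * (X - C β)) →
        ∀ DQ : GaloisRep.DeformationRingData 𝒪 (s59i_rhobarW W p hΔ 𝒪 hp𝒪) (fun _A _ _ _ ρ =>
          GaloisRep.strictOrdinaryCondition 𝒪 p (Rd.Smin ∪ (Bd ∪ Rd.Ed) ∪ Finset.univ.image qv) ρ ∧
            ∀ q ∈ Rd.Smin, q.Prime → q ≠ p → ρ.IsUnipotentOnInertiaAt q),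
          Nonempty (s59i_TLevel Bs (fun j => Rd.σq (Sum.inl j)) DQ n) := by
  intro r hr
  classical
  have hpP : p.Prime := Fact.out
  have hp2 : p ≠ 2 := by omega
  have hss := H.hss
  have hirr := H.hirr
  have hsq : Squarefree N := H.hNsq
  have hpN := H.hpN
  have hbadp : (p : ℤ) ∣ W.Δ := H.hbad
  have hc4p : ¬ (p : ℤ) ∣ W.c₄ := H.hc4 hpP
  have hpeu := H.hpeu
  have hordρ : (GaloisRepAdic.ofResidualGaloisRep (s59i_rhobarW W p hΔ 𝒪 hp𝒪)).IsOrdinaryAt p :=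
    s59q_W_resOrd W p hΔ hp2 hirr 𝒪 hp𝒪 hbadp hc4p
  have htresρ : s59q_Tres (s59i_rhobarW W p hΔ 𝒪 hp𝒪) p (Fact.out : p.Prime) :=
    s59q_W_tres hp2 hΔ hbadp hc4p hpeu 𝒪 hp𝒪
  have hBdne := H.hne
  have hBd := H.hBd
  have hB1 := H.hB1
  have hB2 := H.hB2
  have hocc := H.hocc
  have htors : s59e_auxTors p N := s59e3_auxTors_even hpP hp2 h23
  have hN1 : 1 < N := by
    have := Nat.le_of_dvd (Nat.pos_of_ne_zero (NeZero.ne N)) h23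
    omega
  have hgoodB : ∀ q : ℕ, q.Prime → q ∉ B → W.IsGoodPrimeFor q := by
    intro q hq hqB
    by_contra hbad
    exact hqB (hB2 q hq hbad)
  have hNB : ∀ q : ℕ, q.Prime → q ∣ N → q ∈ B := fun q hq h => hB1 q hq (Dvd.dvd.mul_right h p)
  obtain ⟨ζ, hζ⟩ := hζex
  -- the primes `qB`
  have hqBmem : ∀ j : Fin Rd.m, ((Rd.pr (Sum.inl j) : ℕ)) ∈ Bd := fun j => by
    have h := Finset.mem_image_of_mem (fun j : Fin Rd.m => (Rd.pr (Sum.inl j) : ℕ))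
      (Finset.mem_univ j)
    rwa [Rd.hprB] at h
  have hqBinj : Function.Injective fun j : Fin Rd.m => (Rd.pr (Sum.inl j) : ℕ) := Rd.hBinj
  have hqBpr : ∀ j : Fin Rd.m, ((Rd.pr (Sum.inl j) : ℕ)).Prime := fun j => (Rd.pr (Sum.inl j)).2
  have hqBN : ∀ j : Fin Rd.m, ((Rd.pr (Sum.inl j) : ℕ)) ∣ N := fun j => (hBd _ (hqBmem j)).2.2.1
  have hqBp : ∀ j : Fin Rd.m, p ∣ ((Rd.pr (Sum.inl j) : ℕ)) - 1 := fun j =>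
    (hBd _ (hqBmem j)).2.2.2.2.1
  have hdvd : ∏ j : Fin Rd.m, ((Rd.pr (Sum.inl j) : ℕ)) ∣ N := by
    have h := Finset.prod_primes_dvd (s := Finset.univ.image
      (fun j : Fin Rd.m => (Rd.pr (Sum.inl j) : ℕ))) N
      (fun q hq => by
        obtain ⟨j, -, rfl⟩ := Finset.mem_image.mp hq
        exact Nat.prime_iff.mp (hqBpr j))
      (fun q hq => by
        obtain ⟨j, -, rfl⟩ := Finset.mem_image.mp hq
        exact hqBN j)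
    rwa [Finset.prod_image (fun x _ y _ hxy => hqBinj hxy)] at h
  have hv1 : 1 ≤ v := by
    obtain ⟨q, hq⟩ := hBdne
    by_contra h0
    have hv0 : v = 0 := by omega
    exact hv q hq (by rw [hv0, zero_add, pow_one]; exact (hBd q hq).2.2.2.2.1)
  -- the group `H₀` and the base package
  have hnegH : (-1 : (ZMod N)ˣ) ∈ s59k_H0 (p ^ v) (fun j : Fin Rd.m => (Rd.pr (Sum.inl j) : ℕ))
      N hdvd := s59k_neg_one_mem_H0 _ _ _ _ (s59k_odd_pow hpP hp2 v)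
  have hH : ∀ u : (ZMod N)ˣ, ∃ k : ℕ, u ^ (p ^ k) ∈
      s59k_H0 (p ^ v) (fun j : Fin Rd.m => (Rd.pr (Sum.inl j) : ℕ)) N hdvd :=
    s59k_H0_pgroup _ N hdvd p v
  obtain ⟨e, h1e, hunit, hid, hne, hnil, hid0, hne0, hnil0, hP3⟩ :=
    s59e_W_base_pkg W hΔ p hirr N hsq B hocc (𝒪 := 𝒪) hp𝒪
      (s59k_H0 (p ^ v) (fun j : Fin Rd.m => (Rd.pr (Sum.inl j) : ℕ)) N hdvd) hnegH hH htors
  obtain ⟨ψu, χ, hχmk, hψH, hψζ, hχζ, hχϖ, hu, hτχ⟩ :=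
    s59k_exists_chi hpP v hv1 (fun j : Fin Rd.m => (Rd.pr (Sum.inl j) : ℕ)) hqBpr hqBinj hqBp N hsq
      hdvd ζ hζ
  have hP3' := hP3
  obtain ⟨hρ00, hρ, d, b00, b0, π0, hb00, hb0, hι0inj, hι0surj, hι0π, hπ0surj, hπ0ker, hπ0dia,
    hπ0eq, hT1, hTχ⟩ := hP3
  have hd0 : d ≠ 0 := (s59t_part_ne_zero_iff _ b0 hb0).1 hne
  -- (B1) the Hecke data at the base level
  obtain ⟨Wb, hWM, hWk⟩ : ∃ Wb : s59e_BaseH B (fun ℓ => W.apOfModel ℓ)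
      (s59i_rhobarW W p hΔ 𝒪 hp𝒪) (fun j : Fin Rd.m => (Rd.pr (Sum.inl j) : ℕ))
      (s59t_rho N (s59k_H0 (p ^ v) (fun j : Fin Rd.m => (Rd.pr (Sum.inl j) : ℕ)) N hdvd) 𝒪 𝒪)
      (s59t_E0 (s59k_H0 (p ^ v) (fun j : Fin Rd.m => (Rd.pr (Sum.inl j) : ℕ)) N hdvd) B e) hρ
      (s59w_op (s59k_H0 (p ^ v) (fun j : Fin Rd.m => (Rd.pr (Sum.inl j) : ℕ)) N hdvd) 𝒪),
      Wb.M₁ = N / (∏ j : Fin Rd.m, ((Rd.pr (Sum.inl j) : ℕ))) *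
        ∏ q ∈ Finset.univ.image (fun j : Fin Rd.m => (Rd.pr (Sum.inl j) : ℕ)), q ^ 2 ∧
      Wb.k₀ = (p ^ v - 1) * ((p ^ v + 1) / 2) :=
    s59e_W_baseH W p hΔ hp2 hirr N B hB1 hB2 𝒪 hp𝒪 Rd.habs hsq
      (fun j : Fin Rd.m => (Rd.pr (Sum.inl j) : ℕ)) hqBinj hqBpr (fun j => (hBd _ (hqBmem j)).2.1) v hdvd e hid hne hnil hid0 hne0 hnil0 hP3' hρ
  have hM'nt := s59u_EigT_top_nontrivial _ b0 hb0 hd0 χ Wb.hRρ
  have hM'fin : Module.Finite (s59e_adj 𝒪 Wb.aM₁) (s59t_EigT _ ⊤ χ Wb.hRρ) := by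
    haveI := Wb.hfin
    haveI : IsNoetherian 𝒪 (LinearMap.range (s59t_E0 (s59k_H0 (p ^ v)
      (fun j : Fin Rd.m => (Rd.pr (Sum.inl j) : ℕ)) N hdvd) B e)) :=
      isNoetherian_of_isNoetherianRing_of_finite 𝒪 _
    haveI : Module.Finite 𝒪 (s59t_EigT _ ⊤ χ Wb.hRρ) :=
      Module.Finite.of_injective (s59t_EigT_val _ ⊤ χ Wb.hRρ) (s59t_EigT_val_injective _ ⊤ χ Wb.hRρ)
    exact Module.Finite.of_restrictScalars_finite 𝒪 _ _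
  have hϖ : ζ - 1 ∈ maximalIdeal 𝒪 := by
    haveI : CharP (ResidueField 𝒪) p := s59e_charP_residue p hp𝒪
    rw [← residue_eq_zero_iff, map_sub, map_one]
    have h1 : (residue 𝒪 ζ - 1) ^ (p ^ v) = 0 := by
      rw [sub_pow_char_pow, one_pow, ← map_pow, hζ.pow_eq_one, map_one, sub_self]
    exact (pow_eq_zero_iff (pow_ne_zero v hpP.ne_zero)).mp h1
  have hpB : p ∈ B := hB1 p hpP (Dvd.intro_left N rfl)
  have hEigB : ∀ ℓ : ℕ, ℓ.Prime → ℓ ∉ B →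
      ∀ A : ValuationSubring (AlgebraicClosure ℚ), A.LiesOverPrime ℓ →
      ∀ σ : Γℚ, A.IsFrobeniusAt σ ℓ →
        LinearMap.charpoly ((s59i_rhobarW W p hΔ 𝒪 hp𝒪).ρ σ) =
          X ^ 2 - C (residue 𝒪 ((W.apOfModel ℓ : ℤ) : 𝒪)) * X +
            C ((ℓ : ResidueField 𝒪)) := fun ℓ hℓ hℓS A hA σ hσ =>
    s59e_rhobarW_charpoly_frob hΔ hp2 hirr hp𝒪 B hpB hB2 ℓ hℓ hℓS A hA σ hσ
  refine ⟨s59q_W_existDQ_SE W p hΔ hp2 hirr N B hB1 hB2 hocc 𝒪 hp𝒪 Rd.habs hsq hpN hbadp hc4p hpeu Bd Rd hE r, ?_⟩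
  refine ⟨(Wb.toBaseD (ζ - 1) hϖ χ hχϖ hM'fin hM'nt d
    (s59b_chiIdx p v (fun j : Fin Rd.m => (Rd.pr (Sum.inl j) : ℕ)) ζ)
    (fun I j => s59b_chiZ I j) (fun I j => s59b_chiZ' I j)
    (s59b_chiZ_mul hζ.pow_eq_one) s59b_chiZ_pow (s59b_chiZ_ne hpP hp2 hζ)
    (s59b_chiZ_sub_mem hp𝒪 hζ.pow_eq_one)).toTBase r (s59q_ZIdx Rd.m Rd.e) hp2 hp𝒪, ?_⟩
  intro n qv hqinj hqv hTW DQ
  have hqvpr : ∀ i, (qv i).Prime := fun i => (hqv i).1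
  haveI : NeZero (∏ j, qv j) := s59u_neZero_prod_qv qv hqvpr
  haveI : NeZero (N * ∏ j, qv j) := s59u_neZero_level qv N hqvpr
  obtain ⟨aq, bq, harith, haqbq, e₀, G, h1e₀, hunit', hid', hnil', hP1, hid2, hnil2, hP2⟩ :=
    s59e_W_level_pkg W hΔ p hirr N hsq B hpB hNB hgoodB hocc hp𝒪
      (s59k_H0 (p ^ v) (fun j : Fin Rd.m => (Rd.pr (Sum.inl j) : ℕ)) N hdvd) hnegH hH n qv htors hN1
      (s59e_aux_S37H_pgroup hsq hN1 hnegH (Or.inl h23) htors hH) hqinj hqv hTW e h1e hid hnil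
  obtain ⟨hCB, g, hcard, hgen, hord, hgloc⟩ :=
    s59u_W_level_grp p N hsq B hNB
      (s59k_H0 (p ^ v) (fun j : Fin Rd.m => (Rd.pr (Sum.inl j) : ℕ)) N hdvd) n qv hqinj hqv
  -- the module side (P1)
  obtain ⟨hρ1, hρ', dn, bn, bn', π, hbn, hbn', hιinj, hιsurj, hιπ, hπsurj, hπker, hπdia, hπeq,
    ⟨h2, h3, h4⟩, hχall⟩ := hP1
  have hdn : dn = d := s59u_rank_unique _ bn hbn b0 hb0
  subst hdn
  obtain ⟨k2, k3, k4⟩ := hχall χ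
  -- the module `Y' = ε' H_par` is finite free and nonzero
  let bZ := Module.Free.chooseBasis ℤ (s48h_M (s48h_GammaH (N * ∏ j, qv j)
    (s59t_Hmul N (∏ j, qv j) (s59k_H0 (p ^ v)
      (fun j : Fin Rd.m => (Rd.pr (Sum.inl j) : ℕ)) N hdvd) (s59t_KQ (p ^ n) qv))))
  haveI : Module.Free 𝒪 (s48h_Hpar 𝒪 (s48h_GammaH (N * ∏ j, qv j)
    (s59t_Hmul N (∏ j, qv j) (s59k_H0 (p ^ v)
      (fun j : Fin Rd.m => (Rd.pr (Sum.inl j) : ℕ)) N hdvd) (s59t_KQ (p ^ n) qv))) 𝒪) :=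
    Module.Free.of_basis (s59u_cB bZ 𝒪)
  haveI : Module.Finite 𝒪 (s48h_Hpar 𝒪 (s48h_GammaH (N * ∏ j, qv j)
    (s59t_Hmul N (∏ j, qv j) (s59k_H0 (p ^ v)
      (fun j : Fin Rd.m => (Rd.pr (Sum.inl j) : ℕ)) N hdvd) (s59t_KQ (p ^ n) qv))) 𝒪) :=
    Module.Finite.of_basis (s59u_cB bZ 𝒪)
  haveI : Module.Finite 𝒪 (LinearMap.range (s59t_actH (N * ∏ j, qv j) aq (dvd_refl _)
      (s59t_Hmul N (∏ j, qv j) (s59k_H0 (p ^ v)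
        (fun j : Fin Rd.m => (Rd.pr (Sum.inl j) : ℕ)) N hdvd) (s59t_KQ (p ^ n) qv))
      (G * s59t_jG 𝒪 (s59t_goodB (N * ∏ j, qv j) B) e₀))) := s59t_part_finite _
  haveI : Module.Free 𝒪 (LinearMap.range (s59t_actH (N * ∏ j, qv j) aq (dvd_refl _)
      (s59t_Hmul N (∏ j, qv j) (s59k_H0 (p ^ v)
        (fun j : Fin Rd.m => (Rd.pr (Sum.inl j) : ℕ)) N hdvd) (s59t_KQ (p ^ n) qv))
      (G * s59t_jG 𝒪 (s59t_goodB (N * ∏ j, qv j) B) e₀))) := s59t_part_free hid'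
  have hε'ne := (s59t_part_ne_zero_iff _ bn' hbn').2 hd0
  haveI : Nontrivial (LinearMap.range (s59t_actH (N * ∏ j, qv j) aq (dvd_refl _)
      (s59t_Hmul N (∏ j, qv j) (s59k_H0 (p ^ v)
        (fun j : Fin Rd.m => (Rd.pr (Sum.inl j) : ℕ)) N hdvd) (s59t_KQ (p ^ n) qv))
      (G * s59t_jG 𝒪 (s59t_goodB (N * ∏ j, qv j) B) e₀))) := by
    by_contra hnt
    rw [not_nontrivial_iff_subsingleton] at hnt
    apply hε'ne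
    refine LinearMap.ext fun y => ?_
    have h0 : (⟨_, ⟨y, rfl⟩⟩ : LinearMap.range (s59t_actH (N * ∏ j, qv j) aq (dvd_refl _)
      (s59t_Hmul N (∏ j, qv j) (s59k_H0 (p ^ v)
        (fun j : Fin Rd.m => (Rd.pr (Sum.inl j) : ℕ)) N hdvd) (s59t_KQ (p ^ n) qv))
      (G * s59t_jG 𝒪 (s59t_goodB (N * ∏ j, qv j) B) e₀))) = 0 := Subsingleton.elim _ _
    exact congrArg Subtype.val h0
  -- the numerology of the level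
  have hqvN : ∀ i, ¬ qv i ∣ N := fun i h => (hqv i).2.1 (hNB _ (hqvpr i) h)
  have hdisj : ∀ j i, ((Rd.pr (Sum.inl j) : ℕ)) ≠ qv i := fun j i h => hqvN i (h ▸ hqBN j)
  haveI : NeZero (N / (∏ j : Fin Rd.m, ((Rd.pr (Sum.inl j) : ℕ)))) :=
    ⟨fun h => NeZero.ne N (by rw [← Nat.div_mul_cancel hdvd, h, zero_mul])⟩
  have hMeq := s59k_level_eq (fun j : Fin Rd.m => (Rd.pr (Sum.inl j) : ℕ)) qv N hdvd hqBinj hqinj hdisj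
  have hQ := s59k_hQ (fun j : Fin Rd.m => (Rd.pr (Sum.inl j) : ℕ)) qv N hdvd hsq hqBpr hqvpr hqvN
  haveI : NeZero (N / (∏ j : Fin Rd.m, ((Rd.pr (Sum.inl j) : ℕ))) * ∏ q ∈ s59k_Q (fun j : Fin Rd.m => (Rd.pr (Sum.inl j) : ℕ)) qv, q ^ 2) :=
    ⟨Nat.mul_ne_zero (NeZero.ne _) (Finset.prod_ne_zero_iff.mpr fun q hq =>
      pow_ne_zero 2 (hQ q hq).1.ne_zero)⟩
  have hDdvd : ∏ q ∈ s59k_Q (fun j : Fin Rd.m => (Rd.pr (Sum.inl j) : ℕ)) qv, q ∣ N * ∏ i, qv i := Dvd.intro_left _ hMeq.symm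
  have hHker := s59k_hH (fun j : Fin Rd.m => (Rd.pr (Sum.inl j) : ℕ)) qv N hdvd (p ^ v) (p ^ n) hqBinj hqinj hdisj rfl hDdvd
  have hnm := s59k_hnm_pow hpP hp2 (v + n)
  have hn := s59k_ppow_mem_Hmul (fun j : Fin Rd.m => (Rd.pr (Sum.inl j) : ℕ)) N hdvd qv p v n
  have hSn : ∀ q : ℕ, q.Prime → q ∣ (N / (∏ j : Fin Rd.m, ((Rd.pr (Sum.inl j) : ℕ))) * ∏ q ∈ s59k_Q (fun j : Fin Rd.m => (Rd.pr (Sum.inl j) : ℕ)) qv, q ^ 2) → q ∈ (B ∪ Finset.univ.image qv) := by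
    intro q hq hqM
    rcases (Nat.Prime.dvd_mul hq).mp hqM with h | h
    · exact Finset.mem_union_left _ (hNB q hq (h.trans (Nat.div_dvd_of_dvd hdvd)))
    · obtain ⟨q', hq', hqq'⟩ := (Prime.dvd_finsetProd_iff (Nat.prime_iff.mp hq) _).mp h
      have hqe : q = q' :=
        (Nat.prime_dvd_prime_iff_eq hq (hQ q' hq').1).mp (hq.dvd_of_dvd_pow hqq')
      subst hqe
      rcases (s59k_mem_Q _ qv).mp hq' with ⟨j, rfl⟩ | ⟨i, rfl⟩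
      · exact Finset.mem_union_left _ (hNB _ (hqBpr j) (hqBN j))
      · exact Finset.mem_union_right _ (Finset.mem_image_of_mem qv (Finset.mem_univ i))
  have hMS : ∀ q : ℕ, q.Prime → q ∣ N * ∏ j, qv j → q ∈ (B ∪ Finset.univ.image qv) := by
    intro q hq hqM
    rcases (Nat.Prime.dvd_mul hq).mp hqM with h | h
    · exact Finset.mem_union_left _ (hNB q hq h)
    · obtain ⟨i, -, hi⟩ := (Prime.dvd_finsetProd_iff (Nat.prime_iff.mp hq) _).mp h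
      have hqe : q = qv i := (Nat.prime_dvd_prime_iff_eq hq (hqvpr i)).mp hi
      subst hqe
      exact Finset.mem_union_right _ (Finset.mem_image_of_mem qv (Finset.mem_univ i))
  -- `ε'` commutes with the anemic generators
  have hεc' : ∀ jdx : s59w_AIdx (N * ∏ j, qv j),
      (s59t_actH (N * ∏ j, qv j) aq (dvd_refl _) (s59t_Hmul N (∏ j, qv j) (s59k_H0 (p ^ v) (fun j : Fin Rd.m => (Rd.pr (Sum.inl j) : ℕ)) N hdvd) (s59t_KQ (p ^ n) qv)) (G * s59t_jG 𝒪 (s59t_goodB (N * ∏ j, qv j) B) e₀)) * s59w_op (s59t_Hmul N (∏ j, qv j) (s59k_H0 (p ^ v) (fun j : Fin Rd.m => (Rd.pr (Sum.inl j) : ℕ)) N hdvd) (s59t_KQ (p ^ n) qv)) 𝒪 jdx = s59w_op (s59t_Hmul N (∏ j, qv j) (s59k_H0 (p ^ v) (fun j : Fin Rd.m => (Rd.pr (Sum.inl j) : ℕ)) N hdvd) (s59t_KQ (p ^ n) qv)) 𝒪 jdx * (s59t_actH (N * ∏ j, qv j) aq (dvd_refl _) (s59t_Hmul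 N (∏ j, qv j) (s59k_H0 (p ^ v) (fun j : Fin Rd.m => (Rd.pr (Sum.inl j) : ℕ)) N hdvd) (s59t_KQ (p ^ n) qv)) (G * s59t_jG 𝒪 (s59t_goodB (N * ∏ j, qv j) B) e₀)) :=
    fun jdx => s59t_actH_comm_op _ aq _ jdx
  -- (B2) the Hecke ring at level `n`
  haveI : Fact (HasIntegralStructure (N / (∏ j : Fin Rd.m, ((Rd.pr (Sum.inl j) : ℕ))) * ∏ q ∈ s59k_Q (fun j : Fin Rd.m => (Rd.pr (Sum.inl j) : ℕ)) qv, q ^ 2) 2) := ⟨Fermat.Agent.S23.result _⟩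
  have hTB2 := s59q_TB2_ord3 Rd (fun ℓ => W.apOfModel ℓ) (fun j : Fin Rd.m => (Rd.pr (Sum.inl j) : ℕ)) hdvd qv hp2 hp𝒪 hordρ htresρ hsq hE hpN hpB
    hNB hqBinj Rd.hprB hqinj hqvpr (fun i => (hqv i).2.1) (s59t_Hmul N (∏ j, qv j) (s59k_H0 (p ^ v) (fun j : Fin Rd.m => (Rd.pr (Sum.inl j) : ℕ)) N hdvd) (s59t_KQ (p ^ n) qv))
    (s59k_ker_le_Hmul' (p ^ v) (fun j : Fin Rd.m => (Rd.pr (Sum.inl j) : ℕ)) N hdvd (p ^ n) qv) (v + n) hn (N / (∏ j : Fin Rd.m, ((Rd.pr (Sum.inl j) : ℕ))) * ∏ q ∈ s59k_Q (fun j : Fin Rd.m => (Rd.pr (Sum.inl j) : ℕ)) qv, q ^ 2)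
    (s59e3q_lvl_M' (fun j : Fin Rd.m => (Rd.pr (Sum.inl j) : ℕ)) hdvd qv hqBinj hqinj hdisj).symm (s59t_actH (N * ∏ j, qv j) aq (dvd_refl _) (s59t_Hmul N (∏ j, qv j) (s59k_H0 (p ^ v) (fun j : Fin Rd.m => (Rd.pr (Sum.inl j) : ℕ)) N hdvd) (s59t_KQ (p ^ n) qv)) (G * s59t_jG 𝒪 (s59t_goodB (N * ∏ j, qv j) B) e₀)) hid' hε'ne hεc' hnil'
    (fun ℓ hℓ hℓS => hEigB ℓ hℓ (fun h => hℓS (Finset.mem_union_left _ h))) DQ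
  have hB2 : s59e_B2Concl (s59t_Hmul N (∏ j, qv j) (s59k_H0 (p ^ v) (fun j : Fin Rd.m => (Rd.pr (Sum.inl j) : ℕ)) N hdvd) (s59t_KQ (p ^ n) qv)) (s59t_actH (N * ∏ j, qv j) aq (dvd_refl _) (s59t_Hmul N (∏ j, qv j) (s59k_H0 (p ^ v) (fun j : Fin Rd.m => (Rd.pr (Sum.inl j) : ℕ)) N hdvd) (s59t_KQ (p ^ n) qv)) (G * s59t_jG 𝒪 (s59t_goodB (N * ∏ j, qv j) B) e₀)) (N / (∏ j : Fin Rd.m, ((Rd.pr (Sum.inl j) : ℕ))) * ∏ q ∈ s59k_Q (fun j : Fin Rd.m => (Rd.pr (Sum.inl j) : ℕ)) qv, q ^ 2) (B ∪ Finset.univ.image qv) ((p ^ (v + n) - 1) * ((p ^ (v + n) + 1) / 2))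
      (fun ℓ => ((W.apOfModel ℓ : ℤ) : 𝒪)) DQ :=
    Exists.elim hTB2 fun a₀ h₀ =>
      s59e_B2Concl_of_H3Out _ _ _ _ _ (fun ℓ => W.apOfModel ℓ) hSn DQ a₀
        h₀.1 h₀.2.1 h₀.2.2
  obtain ⟨a, aM, ha1, ha2, haM, hlocA, hlr, θ, hθ, hfrobT, hcong⟩ := hB2
  have hFa : ∀ t δ, Commute (aM t) (s59t_partRep (s59t_rho (N * ∏ j, qv j) _ 𝒪 𝒪) hρ' δ) :=
    s59e_hFa_part _ _ hρ' a _ ha2 aM haM
  have hcomm : ∀ (t : heckeAlgebra (N / (∏ j : Fin Rd.m, ((Rd.pr (Sum.inl j) : ℕ))) * ∏ q ∈ s59k_Q (fun j : Fin Rd.m => (Rd.pr (Sum.inl j) : ℕ)) qv, q ^ 2) 2 (↑(B ∪ Finset.univ.image qv) : Set ℕ))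
      (β : s59t_BQ N (∏ j, qv j) (s59k_H0 (p ^ v) (fun j : Fin Rd.m => (Rd.pr (Sum.inl j) : ℕ)) N hdvd) (s59t_KQ (p ^ n) qv)),
      Commute (aM t) (((s59t_partRep (s59t_rho (N * ∏ j, qv j) _ 𝒪 𝒪) hρ').comp
        (s59t_BQ N (∏ j, qv j) (s59k_H0 (p ^ v) (fun j : Fin Rd.m => (Rd.pr (Sum.inl j) : ℕ)) N hdvd) (s59t_KQ (p ^ n) qv)).subtype) β) :=
    fun t β => hFa t β
  haveI : IsLocalRing (s59e_adj 𝒪 aM) := hlr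
  have hTρ : ∀ (t : s59e_adj 𝒪 (s59e_aB aM _ hcomm)) δ y,
      t • s59t_partRep (s59t_rho (N * ∏ j, qv j) _ 𝒪 𝒪) hρ' δ y =
        s59t_partRep (s59t_rho (N * ∏ j, qv j) _ 𝒪 𝒪) hρ' δ (t • y) := fun t δ y =>
    s59e_hTρ aM _ hcomm (s59t_partRep (s59t_rho (N * ∏ j, qv j) _ 𝒪 𝒪) hρ' δ)
      (fun s => hFa s δ) (fun β => (Commute.all (β : s59t_Delta (N * ∏ j, qv j) _) δ).map
        (s59t_partRep (s59t_rho (N * ∏ j, qv j) _ 𝒪 𝒪) hρ')) t y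
  -- (B3) the descent
  have hkmod : ((p ^ (v + n) - 1) * ((p ^ (v + n) + 1) / 2)) ≡ Wb.k₀ [MOD p ^ v] := by
    rw [hWk]
    exact s59n_twist_exp_modEq (s59k_odd_pow hpP hp2 v) (pow_dvd_pow p (Nat.le_add_right v n))
      (s59k_hnm_pow hpP hp2 v) hnm
  have hM₀ : Wb.M₁ ∣ (N / (∏ j : Fin Rd.m, ((Rd.pr (Sum.inl j) : ℕ))) * ∏ q ∈ s59k_Q (fun j : Fin Rd.m => (Rd.pr (Sum.inl j) : ℕ)) qv, q ^ 2) := by
    rw [hWM]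
    refine Nat.mul_dvd_mul_left _ (Finset.prod_dvd_prod_of_subset _ _ _ ?_)
    exact Finset.subset_union_left
  have hB3 := s59n_descent_lvl (s59t_dvd_mul_left' N (∏ j, qv j))
    (s59t_Gamma0_anti (s59t_dvd_mul_left' N (∏ j, qv j)))
    (s59t_GammaHmul_le (N := N) (D := ∏ j, qv j) (H := (s59k_H0 (p ^ v) (fun j : Fin Rd.m => (Rd.pr (Sum.inl j) : ℕ)) N hdvd)) (K := s59t_KQ (p ^ n) qv))
    (s59t_E0 (s59k_H0 (p ^ v) (fun j : Fin Rd.m => (Rd.pr (Sum.inl j) : ℕ)) N hdvd) B e) (s59t_actH (N * ∏ j, qv j) aq (dvd_refl _) (s59t_Hmul N (∏ j, qv j) (s59k_H0 (p ^ v) (fun j : Fin Rd.m => (Rd.pr (Sum.inl j) : ℕ)) N hdvd) (s59t_KQ (p ^ n) qv)) (G * s59t_jG 𝒪 (s59t_goodB (N * ∏ j, qv j) B) e₀))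
    (fun jdx => s59e_E0_comm_op _ B e jdx) hεc' hρ hρ' π hπsurj hπdia hπeq
    (N / (∏ j : Fin Rd.m, ((Rd.pr (Sum.inl j) : ℕ))) * ∏ q ∈ s59k_Q (fun j : Fin Rd.m => (Rd.pr (Sum.inl j) : ℕ)) qv, q ^ 2) (B ∪ Finset.univ.image qv) (hMeq ▸ Nat.mul_dvd_mul_left _ (Finset.prod_dvd_prod_of_dvd _ _ fun q _ =>
      Dvd.intro _ (pow_two q).symm))
    a ((p ^ (v + n) - 1) * ((p ^ (v + n) + 1) / 2)) ha1 aM haM Wb.M₁ B Wb.a₁ Wb.k₀ Wb.ha₁ Wb.aM₁ Wb.haM₁ (p ^ v)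
    (fun u => s59k_pow_mem_H0 (p ^ v) (fun j : Fin Rd.m => (Rd.pr (Sum.inl j) : ℕ)) N hdvd u) hkmod hSn hM₀ Finset.subset_union_left
    (s59t_BQ N (∏ j, qv j) (s59k_H0 (p ^ v) (fun j : Fin Rd.m => (Rd.pr (Sum.inl j) : ℕ)) N hdvd) (s59t_KQ (p ^ n) qv)) (fun β hβ => MonoidHom.mem_ker.mp hβ)
    hcomm
  obtain ⟨ψ, hπψ, hψd, hψt0⟩ := hB3
  have hψt : ∀ ℓ : ℕ, ℓ.Prime → ℓ ∉ (B ∪ Finset.univ.image qv) →
      ψ (s59e_incl aM _ hcomm (s59e_tOf _ aM ℓ)) = s59e_tOf (↑B : Set ℕ) Wb.aM₁ ℓ := by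
    intro ℓ hℓ hℓS
    have h1 : ¬ ℓ ∣ (N / (∏ j : Fin Rd.m, ((Rd.pr (Sum.inl j) : ℕ))) * ∏ q ∈ s59k_Q (fun j : Fin Rd.m => (Rd.pr (Sum.inl j) : ℕ)) qv, q ^ 2) := fun h => hℓS (hSn ℓ hℓ h)
    have h2 : ℓ ∉ (↑(B ∪ Finset.univ.image qv) : Set ℕ) := fun h => hℓS (Finset.mem_coe.mp h)
    have h4 : ℓ ∉ (↑B : Set ℕ) := fun h => hℓS (Finset.mem_union_left _ (Finset.mem_coe.mp h))
    have h3 : ¬ ℓ ∣ Wb.M₁ := fun h => h4 (Finset.mem_coe.mpr (Wb.hM₁ ℓ hℓ h))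
    exact (congrArg (fun x => ψ (s59e_incl aM _ hcomm x)) (s59e_tOf_eq _ aM hℓ h1 h2)).trans
      ((hψt0 ℓ hℓ h1 h2 h3 h4).trans (s59e_tOf_eq _ Wb.aM₁ hℓ h3 h4).symm)
  -- `hrad`
  have hrad := s59u_hrad_final (N / (∏ j : Fin Rd.m, ((Rd.pr (Sum.inl j) : ℕ))))
    (s59k_Q (fun j : Fin Rd.m => (Rd.pr (Sum.inl j) : ℕ)) qv) (s59t_Hmul N (∏ j, qv j) (s59k_H0 (p ^ v) (fun j : Fin Rd.m => (Rd.pr (Sum.inl j) : ℕ)) N hdvd) (s59t_KQ (p ^ n) qv)) 𝒪 (LinearMap.range (s59t_actH (N * ∏ j, qv j) aq (dvd_refl _) (s59t_Hmul N (∏ j, qv j) (s59k_H0 (p ^ v) (fun j : Fin Rd.m => (Rd.pr (Sum.inl j) : ℕ)) N hdvd) (s59t_KQ (p ^ n) qv)) (G * s59t_jG 𝒪 (s59t_goodB (N * ∏ j, qv j) B) e₀))).subtype a ((p ^ (v + n) - 1) * ((p ^ (v + n) + 1) / 2)) ha2 aM haM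
    ((s59t_partRep (s59t_rho (N * ∏ j, qv j) _ 𝒪 𝒪) hρ').comp
      (s59t_BQ N (∏ j, qv j) (s59k_H0 (p ^ v) (fun j : Fin Rd.m => (Rd.pr (Sum.inl j) : ℕ)) N hdvd) (s59t_KQ (p ^ n) qv)).subtype)
    (s59e_partRep_hρB _ _ hρ' _) hcomm
    (s59t_partRep (s59t_rho (N * ∏ j, qv j) _ 𝒪 𝒪) hρ')
    (s59t_CQ N (∏ j, qv j) (s59k_H0 (p ^ v) (fun j : Fin Rd.m => (Rd.pr (Sum.inl j) : ℕ)) N hdvd) (s59t_KQ (p ^ n) qv))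
    (χ.comp (s59t_phiN N (∏ j, qv j) (s59k_H0 (p ^ v) (fun j : Fin Rd.m => (Rd.pr (Sum.inl j) : ℕ)) N hdvd) (s59t_KQ (p ^ n) qv))) hTρ
    (Submodule.injective_subtype _) hQ hMeq rfl hDdvd hHker hnm hn
  -- `hχ`
  have hcop : N.Coprime (∏ j, qv j) :=
    Nat.Coprime.prod_right fun i _ => ((hqvpr i).coprime_iff_not_dvd.mpr (hqvN i)).symm
  have hloc := s59b_hloc_level hcop (s59k_H0 (p ^ v) (fun j : Fin Rd.m => (Rd.pr (Sum.inl j) : ℕ)) N hdvd) (s59t_KQ (p ^ n) qv)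
    (s59e_opPart (s59t_Hmul N (∏ j, qv j) (s59k_H0 (p ^ v) (fun j : Fin Rd.m => (Rd.pr (Sum.inl j) : ℕ)) N hdvd) (s59t_KQ (p ^ n) qv)) (s59t_actH (N * ∏ j, qv j) aq (dvd_refl _) (s59t_Hmul N (∏ j, qv j) (s59k_H0 (p ^ v) (fun j : Fin Rd.m => (Rd.pr (Sum.inl j) : ℕ)) N hdvd) (s59t_KQ (p ^ n) qv)) (G * s59t_jG 𝒪 (s59t_goodB (N * ∏ j, qv j) B) e₀)) hεc')
    (s59t_partRep (s59t_rho (N * ∏ j, qv j) _ 𝒪 𝒪) hρ') (fun τ => rfl) ψu χ hχmk (fun j : Fin Rd.m => (Rd.pr (Sum.inl j) : ℕ)) hdvd hu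
  have hχ := s59b_hchi_TPkg (s59t_Hmul N (∏ j, qv j) (s59k_H0 (p ^ v) (fun j : Fin Rd.m => (Rd.pr (Sum.inl j) : ℕ)) N hdvd) (s59t_KQ (p ^ n) qv)) (LinearMap.range (s59t_actH (N * ∏ j, qv j) aq (dvd_refl _) (s59t_Hmul N (∏ j, qv j) (s59k_H0 (p ^ v) (fun j : Fin Rd.m => (Rd.pr (Sum.inl j) : ℕ)) N hdvd) (s59t_KQ (p ^ n) qv)) (G * s59t_jG 𝒪 (s59t_goodB (N * ∏ j, qv j) B) e₀))).subtype (Submodule.injective_subtype _)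
    (s59e_opPart (s59t_Hmul N (∏ j, qv j) (s59k_H0 (p ^ v) (fun j : Fin Rd.m => (Rd.pr (Sum.inl j) : ℕ)) N hdvd) (s59t_KQ (p ^ n) qv)) (s59t_actH (N * ∏ j, qv j) aq (dvd_refl _) (s59t_Hmul N (∏ j, qv j) (s59k_H0 (p ^ v) (fun j : Fin Rd.m => (Rd.pr (Sum.inl j) : ℕ)) N hdvd) (s59t_KQ (p ^ n) qv)) (G * s59t_jG 𝒪 (s59t_goodB (N * ∏ j, qv j) B) e₀)) hεc') (fun jdx y => rfl) a ((p ^ (v + n) - 1) * ((p ^ (v + n) + 1) / 2)) ha2 aM haM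
    (s59t_partRep (s59t_rho (N * ∏ j, qv j) _ 𝒪 𝒪) hρ') (s59e_partRep_exists _ _ hεc' hρ')
    (s59t_BQ N (∏ j, qv j) (s59k_H0 (p ^ v) (fun j : Fin Rd.m => (Rd.pr (Sum.inl j) : ℕ)) N hdvd) (s59t_KQ (p ^ n) qv))
    (s59t_CQ N (∏ j, qv j) (s59k_H0 (p ^ v) (fun j : Fin Rd.m => (Rd.pr (Sum.inl j) : ℕ)) N hdvd) (s59t_KQ (p ^ n) qv))
    (χ.comp (s59t_phiN N (∏ j, qv j) (s59k_H0 (p ^ v) (fun j : Fin Rd.m => (Rd.pr (Sum.inl j) : ℕ)) N hdvd) (s59t_KQ (p ^ n) qv))) hcomm hTρ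
    (N / (∏ j : Fin Rd.m, ((Rd.pr (Sum.inl j) : ℕ)))) (s59k_Q (fun j : Fin Rd.m => (Rd.pr (Sum.inl j) : ℕ)) qv) hMeq hQ
    (s59k_hH_int hDdvd hHker) p hp2 hnm hn rfl hp𝒪 (B ∪ Finset.univ.image qv)
    (Finset.mem_union_left _ hpB) hMS (s59e_tOf _ aM)
    (s59e_htT'_part _ _ _ a _ ha1 aM haM hSn) Rd DQ θ hθ hfrobT
    (fun q hq => by
      rw [← Rd.hprB] at hq
      obtain ⟨j, -, rfl⟩ := Finset.mem_image.mp hq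
      exact (s59k_mem_Q _ qv).mpr (Or.inl ⟨j, rfl⟩))
    (fun q hq => (hBd q hq).2.2.2.2.1) v hv ζ hζ hloc
  -- `hC8`
  have hC8 := s59e3e_W_hC8_level (s59t_Hmul N (∏ j, qv j) (s59k_H0 (p ^ v) (fun j : Fin Rd.m => (Rd.pr (Sum.inl j) : ℕ)) N hdvd) (s59t_KQ (p ^ n) qv)) (s59t_actH (N * ∏ j, qv j) aq (dvd_refl _) (s59t_Hmul N (∏ j, qv j) (s59k_H0 (p ^ v) (fun j : Fin Rd.m => (Rd.pr (Sum.inl j) : ℕ)) N hdvd) (s59t_KQ (p ^ n) qv)) (G * s59t_jG 𝒪 (s59t_goodB (N * ∏ j, qv j) B) e₀)) (fun x y => LinearMap.congr_fun (hεc' x) y) hρ' a ((p ^ (v + n) - 1) * ((p ^ (v + n) + 1) / 2)) ha2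
    aM haM (s59t_BQ N (∏ j, qv j) (s59k_H0 (p ^ v) (fun j : Fin Rd.m => (Rd.pr (Sum.inl j) : ℕ)) N hdvd) (s59t_KQ (p ^ n) qv))
    (s59t_CQ N (∏ j, qv j) (s59k_H0 (p ^ v) (fun j : Fin Rd.m => (Rd.pr (Sum.inl j) : ℕ)) N hdvd) (s59t_KQ (p ^ n) qv))
    (χ.comp (s59t_phiN N (∏ j, qv j) (s59k_H0 (p ^ v) (fun j : Fin Rd.m => (Rd.pr (Sum.inl j) : ℕ)) N hdvd) (s59t_KQ (p ^ n) qv))) hcomm hTρ
    p hp2 W hΔ hirr B hpB hB2 (N / (∏ j : Fin Rd.m, ((Rd.pr (Sum.inl j) : ℕ)))) (s59k_Q (fun j : Fin Rd.m => (Rd.pr (Sum.inl j) : ℕ)) qv)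
    hMeq hQ rfl hDdvd hHker
    (s59u_squarefree_level qv hsq hNB hqvpr (fun i => (hqv i).2.1) hqinj)
    (Dvd.dvd.mul_right h23 _)
    (s59k_neg_one_mem_Hmul (p ^ v) (fun j : Fin Rd.m => (Rd.pr (Sum.inl j) : ℕ)) N hdvd (p ^ n) qv (s59k_odd_pow hpP hp2 v)
      (s59k_odd_pow hpP hp2 n))
    hnm hn rfl hp𝒪 (B ∪ Finset.univ.image qv) Finset.subset_union_left hMS DQ θ hθ (s59e_tOf _ aM)
    (s59e_htT'_part _ _ _ a _ ha1 aM haM hSn) hfrobT hcong n qv hqv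
    (fun i => (s59k_mem_Q _ qv).mpr (Or.inr ⟨i, rfl⟩)) hTW (s59t_qv_dvd_level qv N) g hgloc
  -- type 1
  have hθl : IsLocalHom (θ : DQ.R →+* s59e_adj 𝒪 aM) := IsLocalHom.of_surjective _ hθ
  obtain ⟨hρ2, hρ'2, d2, b2, b2', π2, hb2, hb2', hinj₂, hsurj₂, -⟩ := hP2
  have hd2 : d2 = dn := s59u_rank_unique _ b2' hb2' bn' hbn'
  have hε0₂ : (s59t_actH (N * ∏ j, qv j) aq (dvd_refl _) (s59t_Hmul N (∏ j, qv j) (⊤ : Subgroup (ZMod N)ˣ) (s59t_KQ (p ^ n) qv)) (G * s59t_jG 𝒪 (s59t_goodB (N * ∏ j, qv j) B) e₀)) ≠ 0 := (s59t_part_ne_zero_iff _ b2 hb2).2 (hd2 ▸ hd0)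
  have hMeq₂ := s59k_level_eq_top qv N hqinj
  have hD₂ : ∏ q ∈ Finset.univ.image qv, q ∣ N * ∏ i, qv i := Dvd.intro_left N hMeq₂.symm
  haveI : NeZero (N * ∏ q ∈ Finset.univ.image qv, q ^ 2) :=
    ⟨Nat.mul_ne_zero (NeZero.ne N) (Finset.prod_ne_zero_iff.mpr fun q hq =>
      pow_ne_zero 2 ((s59k_hQ_top qv N hqvpr hqvN) q hq).1.ne_zero)⟩
  haveI : Fact (HasIntegralStructure (N * ∏ q ∈ Finset.univ.image qv, q ^ 2) 2) := ⟨Fermat.Agent.S23.result _⟩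
  have hS₂ : ∀ q : ℕ, q.Prime → q ∣ (N * ∏ q ∈ Finset.univ.image qv, q ^ 2) → q ∈ (B ∪ Finset.univ.image qv) := by
    intro q hq hqM
    rcases (Nat.Prime.dvd_mul hq).mp hqM with h | h
    · exact Finset.mem_union_left _ (hNB q hq h)
    · obtain ⟨q', hq', hqq'⟩ := (Prime.dvd_finsetProd_iff (Nat.prime_iff.mp hq) _).mp h
      obtain ⟨i, -, rfl⟩ := Finset.mem_image.mp hq'
      have hqe : q = qv i := (Nat.prime_dvd_prime_iff_eq hq (hqvpr i)).mp (hq.dvd_of_dvd_pow hqq')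
      subst hqe
      exact Finset.mem_union_right _ (Finset.mem_image_of_mem qv (Finset.mem_univ i))
  have hq2 : ∀ j : Fin Rd.m, ¬ ((Rd.pr (Sum.inl j) : ℕ)) ^ 2 ∣ (N * ∏ q ∈ Finset.univ.image qv, q ^ 2) := by
    intro j h
    have hc : Nat.Coprime (((Rd.pr (Sum.inl j) : ℕ)) ^ 2) (∏ q ∈ Finset.univ.image qv, q ^ 2) := by
      refine Nat.Coprime.prod_right fun q hq => ?_
      obtain ⟨i, -, rfl⟩ := Finset.mem_image.mp hq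
      exact Nat.Coprime.pow _ _ ((Nat.coprime_primes (hqBpr j) (hqvpr i)).mpr (hdisj j i))
    have h1 : ((Rd.pr (Sum.inl j) : ℕ)) ^ 2 ∣ N := hc.dvd_of_dvd_mul_right h
    rw [pow_two] at h1
    exact (hqBpr j).one_lt.ne' (Nat.isUnit_iff.mp (hsq _ h1))
  have h1both : ∀ j : Fin Rd.m, _ ∧ _ := fun j =>
    s59e_type1_pkg (p := p) (s59t_Hmul N (∏ j, qv j) (s59k_H0 (p ^ v) (fun j : Fin Rd.m => (Rd.pr (Sum.inl j) : ℕ)) N hdvd) (s59t_KQ (p ^ n) qv)) (s59t_Hmul N (∏ j, qv j) (⊤ : Subgroup (ZMod N)ˣ) (s59t_KQ (p ^ n) qv)) (B ∪ Finset.univ.image qv) B Finset.subset_union_left hp2 hp𝒪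
      (Finset.mem_union_left _ hpB)
      (s59t_GammaH_mono (s59t_Hmul_le_top (N := N) (D := ∏ j, qv j) (H := (s59k_H0 (p ^ v) (fun j : Fin Rd.m => (Rd.pr (Sum.inl j) : ℕ)) N hdvd))
        (K := s59t_KQ (p ^ n) qv))) hnm (N / (∏ j : Fin Rd.m, ((Rd.pr (Sum.inl j) : ℕ))) * ∏ q ∈ s59k_Q (fun j : Fin Rd.m => (Rd.pr (Sum.inl j) : ℕ)) qv, q ^ 2) hSn a ha1 (s59t_actH (N * ∏ j, qv j) aq (dvd_refl _) (s59t_Hmul N (∏ j, qv j) (s59k_H0 (p ^ v) (fun j : Fin Rd.m => (Rd.pr (Sum.inl j) : ℕ)) N hdvd) (s59t_KQ (p ^ n) qv)) (G * s59t_jG 𝒪 (s59t_goodB (N * ∏ j, qv j) B) e₀)) hid' hεc' aM haM DQ.ρ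
      (θ : DQ.R →+* s59e_adj 𝒪 aM) hθl hfrobT
      N (Finset.univ.image qv) (N * ∏ q ∈ Finset.univ.image qv, q ^ 2) (s59k_hQ_top qv N hqvpr hqvN) hMeq₂ rfl hD₂
      (s59k_hH_top qv N (p ^ n) hqinj rfl hD₂) (s59k_ppow_mem_Hmul_top N qv p v n) rfl hS₂
      (s59t_actH (N * ∏ j, qv j) aq (dvd_refl _) (s59t_Hmul N (∏ j, qv j) (⊤ : Subgroup (ZMod N)ˣ) (s59t_KQ (p ^ n) qv)) (G * s59t_jG 𝒪 (s59t_goodB (N * ∏ j, qv j) B) e₀)) hid2 hε0₂ (fun jdx => s59t_actH_comm_op _ aq _ jdx)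
      (fun ℓ => W.apOfModel ℓ)
      (fun u => ⟨v + n, s59k_ppow_mem_Hmul_top N qv p v n u⟩) hnil2
      (s59i_rhobarW W p hΔ 𝒪 hp𝒪) Rd.habs
      (fun ℓ hℓ hℓS => hEigB ℓ hℓ (fun h => hℓS (Finset.mem_union_left _ h))) hinj₂
      (s59t_partRep (s59t_rho (N * ∏ j, qv j) _ 𝒪 𝒪) hρ')
      (s59t_BQ N (∏ j, qv j) (s59k_H0 (p ^ v) (fun j : Fin Rd.m => (Rd.pr (Sum.inl j) : ℕ)) N hdvd) (s59t_KQ (p ^ n) qv))
      (s59t_CQ N (∏ j, qv j) (s59k_H0 (p ^ v) (fun j : Fin Rd.m => (Rd.pr (Sum.inl j) : ℕ)) N hdvd) (s59t_KQ (p ^ n) qv)) hcomm hTρ hsurj₂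
      ((Rd.pr (Sum.inl j) : ℕ)) (hqBpr j) (hBd _ (hqBmem j)).2.1
      (Dvd.dvd.mul_right (hqBN j) _) (hq2 j) (primeLocalPlace (Rd.pr (Sum.inl j)))
      (Fermat.Agent.Lib.S56.s56z_place_liesOver (Rd.pr (Sum.inl j))) (Rd.σq (Sum.inl j))
      (Rd.hσq (Sum.inl j)).1
  haveI : Module.Finite 𝒪 (s59e_adj 𝒪 Wb.aM₁) := by
    haveI := Wb.hfin
    haveI := Wb.hfree
    exact s59e_adj_finite Wb.aM₁
  exact s59e_TLevel_ring' _ r (s59q_ZIdx Rd.m Rd.e) hp2 hp𝒪 (fun j => Rd.σq (Sum.inl j)) DQ n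
    (s59t_partRep (s59t_rho (N * ∏ j, qv j) _ 𝒪 𝒪) hρ') _ _ hCB bn' hbn' π aM hcomm hFa hlocA hTρ
    h2 h3 h4 _ k2 k3 k4 (fun γ _ => hχϖ _) ψ hψd hπψ g hcard hgen hord θ hθ
    (B ∪ Finset.univ.image qv) (fun ℓ hℓ hℓS => ⟨fun h => hℓS (Finset.mem_union_left _ (hNB ℓ hℓ h)),
      fun h => hℓS (Finset.mem_union_left _ (by exact_mod_cast h))⟩)
    (s59e_tOf _ aM) hfrobT hψt (fun j => (h1both j).1) (fun j => (h1both j).2) hrad hχ hC8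
    inferInstance

end Fermat.Agent.Lib.S59

end
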