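/-
PROGRAMME (R2) = S59, (T3) = THE STRICT `T`-SIDE AT `p ∥ N` FOR [IA′-core], `p = 3` PORT, part E (helper6, prefix `s59q_`):
**[IA′-core]_W, STRICT, EVEN LEVEL, `p ∈ {3, 5}`, WITH (E2′)-PRIMES IN THE LEVEL — helper1's node `s59g_IAstrictThree`
(field `iaStrictAB` of the graph) CLOSED.**  Twins of helper5's E3FinBE.lean / E3IAflatE.lean and of helper1's GLeafIA3.lean.

* `s59q_FinBSE`            : FIN-B under `s59q_IAHypSE`;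
* `s59q_IAcoreS_pt_E`      : the pointwise assembly with `s59q_FINA4_ord`, `R`-side at `N'`, `T`-side at `N`;
* `s59q_IAcoreS_even_E`    : `R`-side `s59q_RPkgSE`, `T`-side `s59q_TPkgSE`, FIN-B `s59q_FinBSE`;
* `s59q_IAstrict_even_E`   : the node form (`p ∣ M`, `¬ peu`, `2 ∣ M`, tolerant `hram` with (E2′));
* **`s59q_IAstrictThree_ok : s59g_IAstrictThree`**.
-/
import Mathlib
import Fermat.Agent.Lib.S59.E3IAflatE
import Fermat.Agent.Lib.S59.Graph3V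
import Fermat.Agent.Lib.S59.QSFinA
import Fermat.Agent.Lib.S59.Q3STPkg

set_option autoImplicit false
set_option linter.unusedSectionVars false
set_option linter.unusedVariables false
set_option linter.style.haveILetI false
set_option maxHeartbeats 1600000

noncomputable section

namespace Fermat.Agent.Lib.S59

open IsLocalRing CuspForm Polynomial ExtCitation
open WeierstrassCurve WeierstrassCurve.Affine WeierstrassCurve.Affine.Point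
open Fermat.Agent.Lib.S53 (matOf matOfRes NormData)
open Fermat.Agent.Lib.S44

local notation "Γℚ" => (AlgebraicClosure ℚ ≃ₐ[ℚ] AlgebraicClosure ℚ)

section FinB

open FreyPackage ModularCurve AlgebraicCurve TensorProduct
open Fermat.Agent.Lib.S12 Fermat.Agent.Lib.S58 Fermat.Agent.Lib.S41
  Fermat.Agent.Lib.S33 Fermat.Agent.Lib.S30 Fermat.Agent.Lib.S29

/-- **FIN-B for `W` at a strict even level, any odd `p`** (twin of `s59e3u_W_FinB_E`). -/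
theorem s59q_FinBSE (W : WeierstrassCurve ℤ) (hΔ : W.Δ ≠ 0) (p : ℕ) [hpF : Fact p.Prime]
    (hp2 : p ≠ 2) (N : ℕ) [hN : NeZero N] (Bd B : Finset ℕ) (H : s59q_IAHypSE W p N Bd B) (h2N : 2 ∣ N)
    (hU : ∃ q ∈ Bd, s59i_UnrPt p N B (fun ℓ => W.apOfModel ℓ) q) :
    ∃ q ∈ Bd, s44i_LevelOcc (N / q) p (fun ℓ => W.apOfModel ℓ) B := by
  obtain ⟨q, hqBd, hUq⟩ := hU
  obtain ⟨hq, hqp, hqN, -, hpq1, -⟩ := H.hBd q hqBd
  refine ⟨q, hqBd, ?_⟩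
  have hq5 : 5 ≤ q := by
    have h2 := hq.two_le
    have h1 : p ≤ q - 1 := Nat.le_of_dvd (by omega) hpq1
    have h3 : 3 ≤ p := by have := hpF.out.two_le; omega
    by_contra hlt
    have h4 : q = 4 := by omega
    rw [h4] at hq
    exact absurd hq (by norm_num)
  have hsq := H.hNsq
  have hB1 := H.hB1
  obtain ⟨M, rfl⟩ : ∃ M, N = M * q := ⟨N / q, (Nat.div_mul_cancel hqN).symm⟩
  rw [Nat.mul_div_cancel M hq.pos]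
  haveI : NeZero M := ⟨fun h => hN.out (by rw [h, zero_mul])⟩
  haveI : Fact q.Prime := ⟨hq⟩
  have hqM : ¬ q ∣ M := by
    rintro ⟨k, rfl⟩
    have hdvd : q * q ∣ q * k * q := ⟨k, by ring⟩
    exact hq.one_lt.ne' (Nat.isUnit_iff.mp (hsq q hdvd))
  exact s59e3u_W_levelOcc_of_unrPt W hΔ p hp2 H.hirr M q hqM hq5 (s59e3_two_dvd_left hq hq5 h2N) hqp B hB1 H.hB2 hUq

end FinB

/-- **[IA′-core] for `W` at ONE tuple, STRICT level, `R`-side datum at the level `N'`, `T`-side at the level `N`.** -/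
theorem s59q_IAcoreS_pt_E (p : ℕ) [Fact p.Prime] (hp2 : p ≠ 2) (W : WeierstrassCurve ℤ) (hΔ : W.Δ ≠ 0)
    (N N' : ℕ) [NeZero N] (Bd B : Finset ℕ) (H : s59q_IAHypSE W p N Bd B)
    (HR : ∀ (𝒪 : Type) [CommRing 𝒪] [IsDomain 𝒪] [IsDiscreteValuationRing 𝒪]
      [IsAdicComplete (maximalIdeal 𝒪) 𝒪] [Finite (ResidueField 𝒪)] [CharZero 𝒪]
      [Algebra ℤ_[p] 𝒪] [Module.Finite ℤ_[p] 𝒪]
      (hp𝒪 : ((p : ℕ) : 𝒪) ∈ maximalIdeal 𝒪)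
      (_ : ∀ a b : ℤ, ∃ α β : ResidueField 𝒪,
        α + β = (a : ResidueField 𝒪) ∧ α * β = (b : ResidueField 𝒪)),
      Nonempty (s59i_RData p N' (s59i_rhobarW W p hΔ 𝒪 hp𝒪) B Bd))
    (HT : ∀ (𝒪 : Type) [CommRing 𝒪] [IsDomain 𝒪] [IsDiscreteValuationRing 𝒪]
      [IsAdicComplete (maximalIdeal 𝒪) 𝒪] [Finite (ResidueField 𝒪)] [CharZero 𝒪]
      [Algebra ℤ_[p] 𝒪] [Module.Finite ℤ_[p] 𝒪]
      (hp𝒪 : ((p : ℕ) : 𝒪) ∈ maximalIdeal 𝒪)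
      (_ : ∀ a b : ℤ, ∃ α β : ResidueField 𝒪,
        α + β = (a : ResidueField 𝒪) ∧ α * β = (b : ResidueField 𝒪))
      (v : ℕ) (_ : ∀ q ∈ Bd, ¬ p ^ (v + 1) ∣ q - 1) (_ : ∃ ζ : 𝒪, IsPrimitiveRoot ζ (p ^ v))
      (Rd : s59i_RData p N' (s59i_rhobarW W p hΔ 𝒪 hp𝒪) B Bd),
      ∀ r : ℕ, 3 * Rd.m + Rd.e ≤ r →
        (∀ qv : Fin r → ℕ, Nonempty (GaloisRep.DeformationRingData 𝒪 (s59i_rhobarW W p hΔ 𝒪 hp𝒪)
          (fun _A _ _ _ ρ =>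
            GaloisRep.strictOrdinaryCondition 𝒪 p (Rd.Smin ∪ (Bd ∪ Rd.Ed) ∪ Finset.univ.image qv) ρ ∧
              ∀ q ∈ Rd.Smin, q.Prime → q ≠ p → ρ.IsUnipotentOnInertiaAt q))) ∧
        ∃ Bs : s59i_TBase 𝒪 N B (fun ℓ => W.apOfModel ℓ) Rd.m r (s59q_ZIdx Rd.m Rd.e)
            (s59i_rhobarW W p hΔ 𝒪 hp𝒪) (fun j => (Rd.pr (Sum.inl j) : ℕ)),
          ∀ (n : ℕ) (qv : Fin r → ℕ), Function.Injective qv →
            (∀ i, (qv i).Prime ∧ qv i ∉ B ∧ p ^ (n + 1) ∣ qv i - 1) →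
            (∀ i, ∀ A : ValuationSubring (AlgebraicClosure ℚ), A.LiesOverPrime (qv i) →
              ∀ φ : Γℚ, A.IsFrobeniusAt φ (qv i) →
                ∃ α β : ResidueField 𝒪, α ≠ β ∧
                  LinearMap.charpoly ((s59i_rhobarW W p hΔ 𝒪 hp𝒪).ρ φ) = (X - C α) * (X - C β)) →
            ∀ DQ : GaloisRep.DeformationRingData 𝒪 (s59i_rhobarW W p hΔ 𝒪 hp𝒪) (fun _A _ _ _ ρ =>
              GaloisRep.strictOrdinaryCondition 𝒪 p (Rd.Smin ∪ (Bd ∪ Rd.Ed) ∪ Finset.univ.image qv) ρ ∧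
                ∀ q ∈ Rd.Smin, q.Prime → q ≠ p → ρ.IsUnipotentOnInertiaAt q),
              Nonempty (s59i_TLevel Bs (fun j => Rd.σq (Sum.inl j)) DQ n))
    (HB : (∃ q ∈ Bd, s59i_UnrPt p N B (fun ℓ => W.apOfModel ℓ) q) →
      ∃ q ∈ Bd, s44i_LevelOcc (N / q) p (fun ℓ => W.apOfModel ℓ) B) :
    ∃ q ∈ Bd, s44i_LevelOcc (N / q) p (fun ℓ => W.apOfModel ℓ) B := by
  classical
  have hpp : p.Prime := (inferInstance : Fact p.Prime).out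
  -- the exponent of the roots of unity
  set v : ℕ := Bd.sup id with hv
  have hvq : ∀ q ∈ Bd, ¬ p ^ (v + 1) ∣ q - 1 := by
    intro q hq hd
    have hqv : q ≤ v := Finset.le_sup (f := id) hq
    have hq2 := (H.hBd q hq).1.two_le
    have h1 : p ^ (v + 1) ≤ q - 1 := Nat.le_of_dvd (by omega) hd
    have h2 : v + 1 < p ^ (v + 1) := Nat.lt_pow_self hpp.one_lt
    omega
  -- the coefficient ring
  obtain ⟨𝒪, i1, i2, i3, i4, i5, i6, i7, i8, i9, hp𝒪, hζ, hsplit⟩ :=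
    s59q_exists_coeffRing_padic p (p ^ v) (pow_pos hpp.pos v)
  -- the two packages
  obtain ⟨Rd⟩ := HR 𝒪 hp𝒪 hsplit
  have HT' := HT 𝒪 hp𝒪 hsplit v hvq hζ Rd
  -- an index in `Bd`
  have hm : 0 < Rd.m := by
    obtain ⟨q, hq⟩ := H.hne
    have hq' : q ∈ Finset.univ.image (fun j : Fin Rd.m => (Rd.pr (Sum.inl j) : ℕ)) :=
      (Finset.ext_iff.mp Rd.hprB _).mpr hq
    rw [Finset.mem_image] at hq'
    obtain ⟨j, -, -⟩ := hq'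
    exact j.pos
  have hU := s59q_FINA4_ord p hp2 N B (fun ℓ => W.apOfModel ℓ) hp𝒪
    (s59i_rhobarW W p hΔ 𝒪 hp𝒪) Rd.habs Rd.hdet Rd.hsplit Rd.hTW B Rd.Smin Bd Rd.Ed Rd.hpSmin
    Rd.hSmin Rd.hBS Rd.hES Rd.hBprime Rd.hEprime Rd.hmin Rd.hBunr Rd.hEunr Rd.hBE Rd.hcen Rd.Nd
    Rd.m Rd.e Rd.pr Rd.hprB Rd.hprE Rd.hBinj Rd.hEinj Rd.σq Rd.φq Rd.hσq Rd.hφq Rd.D Rd.P Rd.P'
    Rd.hPP' Rd.hP'P Rd.αE Rd.βE Rd.hαβ Rd.hαβ' Rd.hdiag Rd.hαE Rd.hβE Rd.hDu Rd.hqB HT' ⟨0, hm⟩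
  have hmem : ((Rd.pr (Sum.inl ⟨0, hm⟩) : ℕ)) ∈ Bd := by
    have h1 : ((Rd.pr (Sum.inl ⟨0, hm⟩) : ℕ)) ∈
        Finset.univ.image (fun j : Fin Rd.m => (Rd.pr (Sum.inl j) : ℕ)) :=
      Finset.mem_image_of_mem (fun j : Fin Rd.m => (Rd.pr (Sum.inl j) : ℕ))
        (Finset.mem_univ (⟨0, hm⟩ : Fin Rd.m))
    exact (Finset.ext_iff.mp Rd.hprB _).mp h1
  exact HB ⟨_, hmem, hU⟩

/-- **[IA′-core] for a general semistable `W`, STRICT even level, `p ∈ {3, 5}`, with (E2′)-primes in the level.** -/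
theorem s59q_IAcoreS_even_E (p : ℕ) [Fact p.Prime] (hp35 : p = 3 ∨ p = 5)
    (W : WeierstrassCurve ℤ) (hΔ : W.Δ ≠ 0) (N N' : ℕ) [NeZero N] (Bd B : Finset ℕ)
    (H : s59q_IAHypSE W p N Bd B) (h2N : 2 ∣ N) (hN'N : N' ∣ N)
    (hram : ∀ ℓ : ℕ, ℓ.Prime → ℓ ≠ p → ℓ ∣ N' → ℓ ∉ Bd → ¬ s59_Unr W p ℓ ∨ ¬ p ∣ ℓ ^ 2 - 1)
    (hEW : ∀ q : ℕ, q.Prime → q ∣ N → q ∣ N' ∨
      (W.IsGoodPrimeFor q ∧ ¬ p ∣ q - 1 ∧
        ¬ (p : ℤ) ∣ (W.apOfModel q : ℤ) ^ 2 - ((q : ℤ) + 1) ^ 2)) :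
    ∃ q ∈ Bd, s44i_LevelOcc (N / q) p (fun ℓ => W.apOfModel ℓ) B := by
  have hp2 : p ≠ 2 := by omega
  have hE : ∀ (𝒪 : Type) [CommRing 𝒪] [IsDomain 𝒪] [IsDiscreteValuationRing 𝒪]
      [IsAdicComplete (maximalIdeal 𝒪) 𝒪] [Algebra ℤ_[p] 𝒪]
      (hp𝒪 : ((p : ℕ) : 𝒪) ∈ maximalIdeal 𝒪),
      ∀ q : ℕ, q.Prime → q ∣ N → q ∣ N' ∨ s59e3q_E2Alt p (s59i_rhobarW W p hΔ 𝒪 hp𝒪) q := by
    intro 𝒪 _ _ _ _ _ hp𝒪 q hq hqN
    rcases hEW q hq hqN with h | ⟨hg, h1, h2⟩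
    · exact Or.inl h
    · have hqp : q ≠ p := fun h => H.hmult (h ▸ hg)
      exact Or.inr (s59e3q_E2Alt_of_good W hΔ hp𝒪 hp2 H.hirr q hq hqp hg h1 h2)
  exact s59q_IAcoreS_pt_E p hp2 W hΔ N N' Bd B H
    (fun 𝒪 _ _ _ _ _ _ _ _ hp𝒪 hs => s59q_RPkgSE W hΔ hp𝒪 hp35 N N' Bd B H hN'N hram hs)
    (fun 𝒪 _ _ _ _ _ _ _ _ hp𝒪 hs v hv hζ Rd =>
      s59q_TPkgSE p hp2 W hΔ N Bd B H h2N 𝒪 hp𝒪 hs v hv hζ N' Rd (hE 𝒪 hp𝒪))
    (s59q_FinBSE W hΔ p hp2 N Bd B H h2N)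

open Classical in
/-- **[IA′-core]_W, STRICT (`p ∣ M`, très), even level, node form with (E2′)-primes** (`p ∈ {3, 5}`). -/
theorem s59q_IAstrict_even_E (p : ℕ) [Fact p.Prime] (hp35 : p = 3 ∨ p = 5)
    (W : WeierstrassCurve ℤ) (hΔ : W.Δ ≠ 0) (hW : W.IsSemistableModel)
    (hirr : W.ModRepIsIrreducible p) (M : ℕ) (hM0 : 0 < M) (hMsq : Squarefree M) (hpM : p ∣ M)
    (hpeu : ¬ (W.map (Int.castRingHom ℚ)).IsPeuRamifieeAt p p) (h2M : 2 ∣ M) (Bd : Finset ℕ) (hne : Bd.Nonempty)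
    (hBd : ∀ q ∈ Bd, q.Prime ∧ q ≠ p ∧ q ∣ M ∧ s59_Unr W p q ∧ p ∣ q - 1 ∧ s59_FrobScalar W p q)
    (hram : ∀ ℓ : ℕ, ℓ.Prime → ℓ ≠ p → ℓ ∣ M → ℓ ∉ Bd →
      ¬ s59_Unr W p ℓ ∨ ¬ p ∣ ℓ ^ 2 - 1 ∨
        (W.IsGoodPrimeFor ℓ ∧ ¬ p ∣ ℓ - 1 ∧
          ¬ (p : ℤ) ∣ (W.apOfModel ℓ : ℤ) ^ 2 - ((ℓ : ℤ) + 1) ^ 2))
    (hres : W.IsResiduallyModularOfLevel p M) :
    ∃ q ∈ Bd, W.IsResiduallyModularOfLevel p (M / q) := by
  have hpp : p.Prime := Fact.out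
  have hp2 : p ≠ 2 := by omega
  haveI : NeZero M := ⟨hM0.ne'⟩
  have hB1 : ∀ r : ℕ, r.Prime → r ∣ M * p →
      r ∈ (M * p).primeFactors ∪ W.Δ.natAbs.primeFactors := fun r hr hd =>
    Finset.mem_union_left _ (Nat.mem_primeFactors.mpr
      ⟨hr, hd, Nat.mul_ne_zero hM0.ne' hpp.ne_zero⟩)
  have hB2 : ∀ r : ℕ, r.Prime → ¬ W.IsGoodPrimeFor r →
      r ∈ (M * p).primeFactors ∪ W.Δ.natAbs.primeFactors := by
    intro r hr hbad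
    have hd : (r : ℤ) ∣ W.Δ := by
      by_contra h
      exact hbad h
    exact Finset.mem_union_right _ (Nat.mem_primeFactors.mpr
      ⟨hr, Int.natCast_dvd.mp hd, Int.natAbs_ne_zero.mpr hΔ⟩)
  have hocc : s44i_LevelOcc M p (fun ℓ => W.apOfModel ℓ)
      ((M * p).primeFactors ∪ W.Δ.natAbs.primeFactors) := by
    obtain ⟨f, 𝔪, hf, hmax, hpm, hcong⟩ := hres
    refine ⟨f, 𝔪, hf, hmax, hpm, fun ℓ hℓ hℓB => ?_⟩
    have hgood : W.IsGoodPrimeFor ℓ := by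
      by_contra hbad
      exact hℓB (hB2 ℓ hℓ hbad)
    have hℓM : ¬ ℓ ∣ M := fun hd => hℓB (hB1 ℓ hℓ (hd.mul_right p))
    have hℓp : ℓ ≠ p := by
      rintro rfl
      exact hℓB (hB1 ℓ hℓ (dvd_mul_left ℓ M))
    exact hcong ℓ hℓ hgood hℓM hℓp
  have H : s59q_IAHypSE W p M Bd ((M * p).primeFactors ∪ W.Δ.natAbs.primeFactors) :=
    { hss := hW
      hirr := hirr
      hN0 := hM0
      hNsq := hMsq
      hpN := hpM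
      hpeu := hpeu
      hne := hne
      hBd := hBd
      hB1 := hB1
      hB2 := hB2
      hocc := hocc }
  -- the reduced level: the primes of `M` of the old types
  set T : Finset ℕ := M.primeFactors.filter
    (fun ℓ => ℓ ∈ Bd ∨ ¬ s59_Unr W p ℓ ∨ ¬ p ∣ ℓ ^ 2 - 1) with hT
  set N' : ℕ := ∏ ℓ ∈ T, ℓ with hN'
  have hTpr : ∀ ℓ ∈ T, Prime ℓ := fun ℓ hℓ =>
    Nat.prime_iff.mp (Nat.prime_of_mem_primeFactors (Finset.mem_filter.mp hℓ).1)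
  have hN'M : N' ∣ M :=
    Finset.prod_primes_dvd M hTpr (fun ℓ hℓ => Nat.dvd_of_mem_primeFactors (Finset.mem_filter.mp hℓ).1)
  have hmemN' : ∀ ℓ : ℕ, ℓ.Prime → ℓ ∣ N' → ℓ ∈ T := by
    intro ℓ hℓ hd
    obtain ⟨q, hqT, hq⟩ := (Prime.dvd_finsetProd_iff (Nat.prime_iff.mp hℓ) _).mp hd
    have hqpr : q.Prime := Nat.prime_of_mem_primeFactors (Finset.mem_filter.mp hqT).1
    have : ℓ = q := (Nat.prime_dvd_prime_iff_eq hℓ hqpr).mp hq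
    exact this ▸ hqT
  have hram' : ∀ ℓ : ℕ, ℓ.Prime → ℓ ≠ p → ℓ ∣ N' → ℓ ∉ Bd →
      ¬ s59_Unr W p ℓ ∨ ¬ p ∣ ℓ ^ 2 - 1 := by
    intro ℓ hℓ hℓp hd hℓBd
    rcases (Finset.mem_filter.mp (hmemN' ℓ hℓ hd)).2 with h | h
    · exact absurd h hℓBd
    · exact h
  have hEW : ∀ q : ℕ, q.Prime → q ∣ M → q ∣ N' ∨
      (W.IsGoodPrimeFor q ∧ ¬ p ∣ q - 1 ∧
        ¬ (p : ℤ) ∣ (W.apOfModel q : ℤ) ^ 2 - ((q : ℤ) + 1) ^ 2) := by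
    intro q hq hqM
    have hqpf : q ∈ M.primeFactors := Nat.mem_primeFactors.mpr ⟨hq, hqM, hM0.ne'⟩
    by_cases hqp : q = p
    · subst hqp
      refine Or.inl (Finset.dvd_prod_of_mem _ (Finset.mem_filter.mpr ⟨hqpf, Or.inr (Or.inr ?_)⟩))
      intro hd
      have h1 : 1 ≤ q ^ 2 := Nat.one_le_pow _ _ hq.pos
      have h2 : q ∣ q ^ 2 := Dvd.intro_left (q ^ 1) (by ring)
      have h3 : q ∣ q ^ 2 - (q ^ 2 - 1) := Nat.dvd_sub h2 hd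
      have h4 : q ^ 2 - (q ^ 2 - 1) = 1 := by omega
      rw [h4] at h3
      exact hq.one_lt.ne' (Nat.dvd_one.mp h3)
    by_cases hqBd : q ∈ Bd
    · exact Or.inl (Finset.dvd_prod_of_mem _ (Finset.mem_filter.mpr ⟨hqpf, Or.inl hqBd⟩))
    rcases hram q hq hqp hqM hqBd with h | h | h
    · exact Or.inl (Finset.dvd_prod_of_mem _ (Finset.mem_filter.mpr ⟨hqpf, Or.inr (Or.inl h)⟩))
    · exact Or.inl (Finset.dvd_prod_of_mem _ (Finset.mem_filter.mpr ⟨hqpf, Or.inr (Or.inr h)⟩))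
    · exact Or.inr h
  obtain ⟨q, hqBd, hoccq⟩ := s59q_IAcoreS_even_E p hp35 W hΔ M N' Bd _ H h2M hN'M hram' hEW
  obtain ⟨hq, -, hqM, -, -⟩ := hBd q hqBd
  have hdvd : M / q ∣ M := Nat.div_dvd_of_dvd hqM
  haveI : NeZero (M / q) := ⟨(Nat.pos_of_dvd_of_pos hdvd hM0).ne'⟩
  exact ⟨q, hqBd, s59u_cong_all W hΔ p hp2 hirr (M / q) _ hoccq⟩


/-- **helper1's node `s59g_IAstrictThree`, verbatim** (field `iaStrictAB`): [IA′-core]_W at `p = 3`, strict (`3 ∣ M`, très),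
even level, `2` of type (a) ramified / (b) (E2′). -/
theorem s59q_IAstrictThree_ok : s59g_IAstrictThree := by
  intro W hΔ hW hirr M h0 hsq h3M hpeu h2M hT2 Bd hne hB hram hres
  haveI : Fact (Nat.Prime 3) := ⟨Nat.prime_three⟩
  refine s59q_IAstrict_even_E 3 (Or.inl rfl) W hΔ hW hirr M h0 hsq h3M hpeu h2M Bd hne hB
    (fun ℓ hℓ hℓ3 hℓM hℓB => ?_) hres
  by_cases hℓ2 : ℓ = 2
  · subst hℓ2
    rcases hT2 with h | h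
    · exact Or.inl h
    · exact Or.inr (Or.inr h)
  · exact Or.inl (hram ℓ hℓ hℓ3 hℓ2 hℓM hℓB)

end Fermat.Agent.Lib.S59

end
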