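/-
PROGRAMME (R2) = S59, (T3) = THE STRICT `T`-SIDE AT `p ∥ N` FOR [IA′-core], part E (helper6, prefix `s59q_`):
**[IA′-core] AT THE STRICT LEVELS FOR `p = 5` — helper1's node `s59g_IAstrictTAt 5 true` (field `iaStrict` of the graph) CLOSED.**

* `s59q_FinBS`            : FIN-B under `s59q_IAHypS` (twin of helper3's `s59u_W_FinB`);
* `s59q_IAcoreS_pt`       : the pointwise assembly (twin of helper4's `s59i_IAcoreW_pt`, with `s59q_FINA4_ord`);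
* `s59q_IAcoreS_five_le`  : `p = 3 ∨ p = 5`, `5 ≤ p`, `s59q_IAHypS W p N Bd B`, `2 ∣ N ∨ 3 ∣ N` ⊢ `∃ q ∈ Bd, s44i_LevelOcc (N / q) p a_W B`;
* `s59q_IAHypS_of_node`   : the hypotheses from the hypotheses of the node;
* `s59q_IAstrict_five_aux`, **`s59q_IAstrict_five : s59g_IAstrictTAt 5 true`**.
-/
import Mathlib
import Fermat.Agent.Lib.S59.LFinW2
import Fermat.Agent.Lib.S59.UWFinB
import Fermat.Agent.Lib.S59.UIAdiv5
import Fermat.Agent.Lib.S59.Graph3T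
import Fermat.Agent.Lib.S59.QSFinA
import Fermat.Agent.Lib.S59.QSTPkg5

set_option autoImplicit false
set_option linter.unusedSectionVars false
set_option linter.unusedVariables false
set_option linter.style.haveILetI false
set_option maxHeartbeats 1600000

noncomputable section

namespace Fermat.Agent.Lib.S59

open IsLocalRing CuspForm Polynomial ExtCitation
open WeierstrassCurve WeierstrassCurve.Affine WeierstrassCurve.Affine.Point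
open Fermat.Agent.Lib.S53 (matOf matOfRes NormData)
open Fermat.Agent.Lib.S44

local notation "Γℚ" => (AlgebraicClosure ℚ ≃ₐ[ℚ] AlgebraicClosure ℚ)

/-- **FIN-B for `W` at a strict level** (`p ≥ 5`), in the `HB` shape of `s59q_IAcoreS_pt`. -/
theorem s59q_FinBS (W : WeierstrassCurve ℤ) (hΔ : W.Δ ≠ 0) (p : ℕ) [hpF : Fact p.Prime]
    (hp5 : 5 ≤ p) (N : ℕ) [hN : NeZero N] (Bd B : Finset ℕ) (H : s59q_IAHypS W p N Bd B)
    (hU : ∃ q ∈ Bd, s59i_UnrPt p N B (fun ℓ => W.apOfModel ℓ) q) :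
    ∃ q ∈ Bd, s44i_LevelOcc (N / q) p (fun ℓ => W.apOfModel ℓ) B := by
  obtain ⟨q, hqBd, hUq⟩ := hU
  obtain ⟨hq, hqp, hqN, -, hpq1, -⟩ := H.hBd q hqBd
  refine ⟨q, hqBd, ?_⟩
  have hq5 : 5 ≤ q := by
    have h2 := hq.two_le
    have h1 : p ≤ q - 1 := Nat.le_of_dvd (by omega) hpq1
    omega
  have hsq := H.hNsq
  have hB1 := H.hB1
  obtain ⟨M, rfl⟩ : ∃ M, N = M * q := ⟨N / q, (Nat.div_mul_cancel hqN).symm⟩
  rw [Nat.mul_div_cancel M hq.pos]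
  haveI : NeZero M := ⟨fun h => hN.out (by rw [h, zero_mul])⟩
  haveI : Fact q.Prime := ⟨hq⟩
  have hqM : ¬ q ∣ M := by
    rintro ⟨k, rfl⟩
    have hdvd : q * q ∣ q * k * q := ⟨k, by ring⟩
    exact hq.one_lt.ne' (Nat.isUnit_iff.mp (hsq q hdvd))
  exact s59u_W_levelOcc_of_unrPt W hΔ p hp5 H.hirr M q hqM hq5 hqp B hB1 H.hB2 hUq

/-- **[IA′-core] for `W` at ONE tuple `(p, W, N, Bd, B)`, STRICT level, from the two packages and FIN-B at this tuple**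
(twin of `s59i_IAcoreW_pt`). -/
theorem s59q_IAcoreS_pt (p : ℕ) [Fact p.Prime] (hp2 : p ≠ 2) (W : WeierstrassCurve ℤ) (hΔ : W.Δ ≠ 0)
    (N : ℕ) [NeZero N] (Bd B : Finset ℕ) (H : s59q_IAHypS W p N Bd B)
    (HR : ∀ (𝒪 : Type) [CommRing 𝒪] [IsDomain 𝒪] [IsDiscreteValuationRing 𝒪]
      [IsAdicComplete (maximalIdeal 𝒪) 𝒪] [Finite (ResidueField 𝒪)] [CharZero 𝒪]
      [Algebra ℤ_[p] 𝒪] [Module.Finite ℤ_[p] 𝒪]
      (hp𝒪 : ((p : ℕ) : 𝒪) ∈ maximalIdeal 𝒪)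
      (_ : ∀ a b : ℤ, ∃ α β : ResidueField 𝒪,
        α + β = (a : ResidueField 𝒪) ∧ α * β = (b : ResidueField 𝒪)),
      Nonempty (s59i_RData p N (s59i_rhobarW W p hΔ 𝒪 hp𝒪) B Bd))
    (HT : ∀ (𝒪 : Type) [CommRing 𝒪] [IsDomain 𝒪] [IsDiscreteValuationRing 𝒪]
      [IsAdicComplete (maximalIdeal 𝒪) 𝒪] [Finite (ResidueField 𝒪)] [CharZero 𝒪]
      [Algebra ℤ_[p] 𝒪] [Module.Finite ℤ_[p] 𝒪]
      (hp𝒪 : ((p : ℕ) : 𝒪) ∈ maximalIdeal 𝒪)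
      (_ : ∀ a b : ℤ, ∃ α β : ResidueField 𝒪,
        α + β = (a : ResidueField 𝒪) ∧ α * β = (b : ResidueField 𝒪))
      (v : ℕ) (_ : ∀ q ∈ Bd, ¬ p ^ (v + 1) ∣ q - 1) (_ : ∃ ζ : 𝒪, IsPrimitiveRoot ζ (p ^ v))
      (Rd : s59i_RData p N (s59i_rhobarW W p hΔ 𝒪 hp𝒪) B Bd),
      ∀ r : ℕ, 3 * Rd.m + Rd.e ≤ r →
        (∀ qv : Fin r → ℕ, Nonempty (GaloisRep.DeformationRingData 𝒪 (s59i_rhobarW W p hΔ 𝒪 hp𝒪)
          (fun _A _ _ _ ρ =>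
            GaloisRep.strictOrdinaryCondition 𝒪 p (Rd.Smin ∪ (Bd ∪ Rd.Ed) ∪ Finset.univ.image qv) ρ ∧
              ∀ q ∈ Rd.Smin, q.Prime → q ≠ p → ρ.IsUnipotentOnInertiaAt q))) ∧
        ∃ Bs : s59i_TBase 𝒪 N B (fun ℓ => W.apOfModel ℓ) Rd.m r (s59q_ZIdx Rd.m Rd.e)
            (s59i_rhobarW W p hΔ 𝒪 hp𝒪) (fun j => (Rd.pr (Sum.inl j) : ℕ)),
          ∀ (n : ℕ) (qv : Fin r → ℕ), Function.Injective qv →
            (∀ i, (qv i).Prime ∧ qv i ∉ B ∧ p ^ (n + 1) ∣ qv i - 1) →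
            (∀ i, ∀ A : ValuationSubring (AlgebraicClosure ℚ), A.LiesOverPrime (qv i) →
              ∀ φ : Γℚ, A.IsFrobeniusAt φ (qv i) →
                ∃ α β : ResidueField 𝒪, α ≠ β ∧
                  LinearMap.charpoly ((s59i_rhobarW W p hΔ 𝒪 hp𝒪).ρ φ) = (X - C α) * (X - C β)) →
            ∀ DQ : GaloisRep.DeformationRingData 𝒪 (s59i_rhobarW W p hΔ 𝒪 hp𝒪) (fun _A _ _ _ ρ =>
              GaloisRep.strictOrdinaryCondition 𝒪 p (Rd.Smin ∪ (Bd ∪ Rd.Ed) ∪ Finset.univ.image qv) ρ ∧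
                ∀ q ∈ Rd.Smin, q.Prime → q ≠ p → ρ.IsUnipotentOnInertiaAt q),
              Nonempty (s59i_TLevel Bs (fun j => Rd.σq (Sum.inl j)) DQ n))
    (HB : (∃ q ∈ Bd, s59i_UnrPt p N B (fun ℓ => W.apOfModel ℓ) q) →
      ∃ q ∈ Bd, s44i_LevelOcc (N / q) p (fun ℓ => W.apOfModel ℓ) B) :
    ∃ q ∈ Bd, s44i_LevelOcc (N / q) p (fun ℓ => W.apOfModel ℓ) B := by
  classical
  have hpp : p.Prime := (inferInstance : Fact p.Prime).out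
  -- the exponent of the roots of unity
  set v : ℕ := Bd.sup id with hv
  have hvq : ∀ q ∈ Bd, ¬ p ^ (v + 1) ∣ q - 1 := by
    intro q hq hd
    have hqv : q ≤ v := Finset.le_sup (f := id) hq
    have hq2 := (H.hBd q hq).1.two_le
    have h1 : p ^ (v + 1) ≤ q - 1 := Nat.le_of_dvd (by omega) hd
    have h2 : v + 1 < p ^ (v + 1) := Nat.lt_pow_self hpp.one_lt
    omega
  -- the coefficient ring
  obtain ⟨𝒪, i1, i2, i3, i4, i5, i6, i7, i8, i9, hp𝒪, hζ, hsplit⟩ :=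
    s59q_exists_coeffRing_padic p (p ^ v) (pow_pos hpp.pos v)
  -- the two packages
  obtain ⟨Rd⟩ := HR 𝒪 hp𝒪 hsplit
  have HT' := HT 𝒪 hp𝒪 hsplit v hvq hζ Rd
  -- an index in `Bd`
  have hm : 0 < Rd.m := by
    obtain ⟨q, hq⟩ := H.hne
    have hq' : q ∈ Finset.univ.image (fun j : Fin Rd.m => (Rd.pr (Sum.inl j) : ℕ)) :=
      (Finset.ext_iff.mp Rd.hprB _).mpr hq
    rw [Finset.mem_image] at hq'
    obtain ⟨j, -, -⟩ := hq'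
    exact j.pos
  have hU := s59q_FINA4_ord p hp2 N B (fun ℓ => W.apOfModel ℓ) hp𝒪
    (s59i_rhobarW W p hΔ 𝒪 hp𝒪) Rd.habs Rd.hdet Rd.hsplit Rd.hTW B Rd.Smin Bd Rd.Ed Rd.hpSmin
    Rd.hSmin Rd.hBS Rd.hES Rd.hBprime Rd.hEprime Rd.hmin Rd.hBunr Rd.hEunr Rd.hBE Rd.hcen Rd.Nd
    Rd.m Rd.e Rd.pr Rd.hprB Rd.hprE Rd.hBinj Rd.hEinj Rd.σq Rd.φq Rd.hσq Rd.hφq Rd.D Rd.P Rd.P'
    Rd.hPP' Rd.hP'P Rd.αE Rd.βE Rd.hαβ Rd.hαβ' Rd.hdiag Rd.hαE Rd.hβE Rd.hDu Rd.hqB HT' ⟨0, hm⟩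
  have hmem : ((Rd.pr (Sum.inl ⟨0, hm⟩) : ℕ)) ∈ Bd := by
    have h1 : ((Rd.pr (Sum.inl ⟨0, hm⟩) : ℕ)) ∈
        Finset.univ.image (fun j : Fin Rd.m => (Rd.pr (Sum.inl j) : ℕ)) :=
      Finset.mem_image_of_mem (fun j : Fin Rd.m => (Rd.pr (Sum.inl j) : ℕ))
        (Finset.mem_univ (⟨0, hm⟩ : Fin Rd.m))
    exact (Finset.ext_iff.mp Rd.hprB _).mp h1
  exact HB ⟨_, hmem, hU⟩


/-- **[IA′-core] for a general semistable `W` at a STRICT level, `p = 5`** (stated for `p` with `p = 3 ∨ p = 5` and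
`5 ≤ p`). -/
theorem s59q_IAcoreS_five_le (p : ℕ) [Fact p.Prime] (hp35 : p = 3 ∨ p = 5) (hp5 : 5 ≤ p)
    (W : WeierstrassCurve ℤ) (hΔ : W.Δ ≠ 0) (N : ℕ) [NeZero N] (Bd B : Finset ℕ)
    (H : s59q_IAHypS W p N Bd B) (h23 : 2 ∣ N ∨ 3 ∣ N) :
    ∃ q ∈ Bd, s44i_LevelOcc (N / q) p (fun ℓ => W.apOfModel ℓ) B :=
  s59q_IAcoreS_pt p (by omega) W hΔ N Bd B H
    (fun 𝒪 _ _ _ _ _ _ _ _ hp𝒪 hs => s59q_RPkgS W hΔ hp𝒪 hp35 N Bd B H hs)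
    (fun 𝒪 _ _ _ _ _ _ _ _ hp𝒪 hs v hv hζ Rd =>
      s59q_TPkgS p hp5 W hΔ N Bd B H h23 𝒪 hp𝒪 hs v hv hζ Rd)
    (s59q_FinBS W hΔ p hp5 N Bd B H)

section Node

variable (p : ℕ) [Fact p.Prime]
  (W : WeierstrassCurve ℤ) (hΔ : W.Δ ≠ 0) (hW : W.IsSemistableModel)
  (hirr : W.ModRepIsIrreducible p) (M : ℕ) (hM0 : 0 < M) (hMsq : Squarefree M) (hpM : p ∣ M)
  (hpeu : ¬ s59g_Peu W p)
  (Bd : Finset ℕ) (hne : Bd.Nonempty)
  (hBd : ∀ q ∈ Bd, q.Prime ∧ q ≠ p ∧ q ∣ M ∧ s59_Unr W p q ∧ s59g_Scalar W p q)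
  (hram : ∀ ℓ : ℕ, ℓ.Prime → ℓ ≠ p → ℓ ∣ M → ℓ ∉ Bd → ¬ s59_Unr W p ℓ ∨ ¬ p ∣ ℓ ^ 2 - 1)
  (hres : W.IsResiduallyModularOfLevel p M)

include hΔ hW hirr hM0 hMsq hpM hpeu hne hBd hram hres in
/-- the hypotheses of [IA′-core] at a strict level from the hypotheses of the node. -/
theorem s59q_IAHypS_of_node :
    s59q_IAHypS W p M Bd ((M * p).primeFactors ∪ W.Δ.natAbs.primeFactors) := by
  have hpp : p.Prime := Fact.out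
  have hB1 : ∀ r : ℕ, r.Prime → r ∣ M * p →
      r ∈ (M * p).primeFactors ∪ W.Δ.natAbs.primeFactors := fun r hr hd =>
    Finset.mem_union_left _ (Nat.mem_primeFactors.mpr
      ⟨hr, hd, Nat.mul_ne_zero hM0.ne' hpp.ne_zero⟩)
  have hB2 : ∀ r : ℕ, r.Prime → ¬ W.IsGoodPrimeFor r →
      r ∈ (M * p).primeFactors ∪ W.Δ.natAbs.primeFactors := by
    intro r hr hbad
    have hd : (r : ℤ) ∣ W.Δ := by
      by_contra h
      exact hbad h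
    have hΔ0 : W.Δ ≠ 0 := hΔ
    exact Finset.mem_union_right _ (Nat.mem_primeFactors.mpr
      ⟨hr, Int.natCast_dvd.mp hd, Int.natAbs_ne_zero.mpr hΔ0⟩)
  exact
    { hss := hW
      hirr := hirr
      hN0 := hM0
      hNsq := hMsq
      hpN := hpM
      hpeu := hpeu
      hne := hne
      hBd := fun q hq => by
        obtain ⟨h1, h2, h3, h4, h5, h6⟩ := hBd q hq
        exact ⟨h1, h2, h3, h4, h5, h6⟩
      hram := hram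
      hB1 := hB1
      hB2 := hB2
      hocc := s59u_levelOcc_of_resMod W p M _ hB1 hB2 hres }

end Node

/-- the rigid form at `p = 5`, strict level: the level drops to `M / q` for some `q ∈ Bd`. -/
theorem s59q_IAstrict_five_aux (W : WeierstrassCurve ℤ) (hΔ : W.Δ ≠ 0) (hW : W.IsSemistableModel)
    (hirr : W.ModRepIsIrreducible 5) (M : ℕ) (hM0 : 0 < M) (hMsq : Squarefree M) (h5M : 5 ∣ M)
    (hpeu : ¬ s59g_Peu W 5)
    (h23 : 2 ∣ M ∨ 3 ∣ M) (Bd : Finset ℕ) (hne : Bd.Nonempty)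
    (hBd : ∀ q ∈ Bd, q.Prime ∧ q ≠ 5 ∧ q ∣ M ∧ s59_Unr W 5 q ∧ s59g_Scalar W 5 q)
    (hram : ∀ ℓ : ℕ, ℓ.Prime → ℓ ≠ 5 → ℓ ∣ M → ℓ ∉ Bd → ¬ s59_Unr W 5 ℓ ∨ s59g_Tol 5 ℓ)
    (hres : W.IsResiduallyModularOfLevel 5 M) :
    ∃ q ∈ Bd, W.IsResiduallyModularOfLevel 5 (M / q) := by
  haveI : Fact (Nat.Prime 5) := ⟨by norm_num⟩
  haveI : NeZero M := ⟨hM0.ne'⟩
  have H := s59q_IAHypS_of_node 5 W hΔ hW hirr M hM0 hMsq h5M hpeu Bd hne hBd hram hres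
  obtain ⟨q, hqBd, hocc⟩ := s59q_IAcoreS_five_le 5 (Or.inr rfl) le_rfl W hΔ M Bd _ H h23
  obtain ⟨hq, -, hqM, -, -⟩ := hBd q hqBd
  have hdvd : M / q ∣ M := Nat.div_dvd_of_dvd hqM
  haveI : NeZero (M / q) := ⟨(Nat.pos_of_dvd_of_pos hdvd hM0).ne'⟩
  exact ⟨q, hqBd, s59u_cong_all W hΔ 5 (by norm_num) hirr (M / q) _ hocc⟩

/-- **helper1's node `s59g_IAstrictTAt 5 true`, verbatim** (field `iaStrict` of `s59g_OpenFiveY`). -/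
theorem s59q_IAstrict_five : s59g_IAstrictTAt 5 true := by
  intro W hΔ hW hirr M hM0 hMsq h5M hpeu hev Bd hne hBd hram hres
  exact s59q_IAstrict_five_aux W hΔ hW hirr M hM0 hMsq h5M hpeu (Or.inl (hev rfl)) Bd hne hBd
    hram hres

end Fermat.Agent.Lib.S59

end
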