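/-
PROGRAMME (R2) = S59 — ADAPTER v3.11 (helper1): `GLeavesZ.lean` + the fields `iaStrict` (p = 5) and `iaStrictAB`
(p = 3) CLOSED by helper6 (`s59q_IAstrict_five`, `QSCore5.lean`; `s59q_IAstrictThree_ok`, `Q3SCore.lean`).
NEW file, NEW names.
`s59g_S59_openZa : s59g_OpenThreeZa → s59g_OpenFiveZa → <frozen S59 verbatim>`.
-/
import Fermat.Agent.Lib.S59.GLeavesZ
import Fermat.Agent.Lib.S59.QSCore5
import Fermat.Agent.Lib.S59.Q3SCore

set_option autoImplicit false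

open CongruenceSubgroup ModularFormClass

noncomputable section

namespace Fermat.Agent.Lib.S59

/-- the OPEN fields at `p = 3` (v3.11). -/
structure s59g_OpenThreeZa : Prop where
  iaFlatC : s59g_IAflatThreeC
  iaStrictC : s59g_IAstrictThreeC
  liftABgt : s59g_LIFTThreeGT
  liftABp : s59g_LIFTThreeP
  liftC1gt : s59g_LIFTThreeC1GT
  liftC2gt : s59g_LIFTThreeC2GT
  liftC1p : s59g_LIFTThreeC1P
  liftC2p : s59g_LIFTThreeC2P

/-- the OPEN fields at `p = 5` (v3.11). -/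
structure s59g_OpenFiveZa : Prop where
  lift23gt : s59g_LIFTfive23GT
  lift23p : s59g_LIFTfive23P
  cornerGt : s59g_Corner5GT
  cornerP : s59g_Corner5P

theorem s59g_openThreeZ_ofZa (h : s59g_OpenThreeZa) : s59g_OpenThreeZ :=
  ⟨h.iaFlatC, s59q_IAstrictThree_ok, h.iaStrictC, h.liftABgt, h.liftABp, h.liftC1gt, h.liftC2gt,
    h.liftC1p, h.liftC2p⟩

theorem s59g_openFiveZ_ofZa (h : s59g_OpenFiveZa) : s59g_OpenFiveZ :=
  ⟨s59q_IAstrict_five, h.lift23gt, h.lift23p, h.cornerGt, h.cornerP⟩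

/-- **S59 from the OPEN fields of v3.11** — the frozen statement, verbatim. -/
theorem s59g_S59_openZa (h3 : s59g_OpenThreeZa) (h5 : s59g_OpenFiveZa)
    (p : ℕ) (hp : p = 3 ∨ p = 5)
    (W : WeierstrassCurve ℤ) (hΔ : W.Δ ≠ 0) (hW : W.IsSemistableModel)
    (hirr : W.ModRepIsIrreducible p)
    (M₀ : ℕ) [NeZero M₀] (hres₀ : W.IsResiduallyModularOfLevel p M₀)
    (hM₀ : ¬ p ^ 2 ∣ M₀)
    (hM₀3 : ∀ q : ℕ, q.Prime → q ≠ p → ¬ q ^ 3 ∣ M₀) :
    Mlc1IsModularModelOfExactConductorLevel W :=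
  s59g_S59_openZ (s59g_openThreeZ_ofZa h3) (s59g_openFiveZ_ofZa h5) p hp W hΔ hW hirr M₀ hres₀ hM₀
    hM₀3

end Fermat.Agent.Lib.S59

end
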