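/-
PROGRAMME (R2) = S59 — ADAPTER v3.12 (helper1): the two (GT) fields at `p = 5` (`lift23gt`, `cornerGt`) reduced to
TYPED [PATCH] CONTRACTS in the shape of helper3's `s59u_nh_e_Lmin_heckePt` (UHELMin.lean, h23-free):

* flat, minimal     : CLOSED (`s59u_nh_e_Lmin_heckePt`);
* `s59g_PatchFlrFlat5` : flat, NON-minimal ([PATCH-FLR], flat) — the only difference with the closed case is
                          `∃ q ≠ 5, W bad at q ∧ ρ̄ unramified at q` instead of `hbad`;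
* `s59g_PatchTres5`    : `ρ̄` très ramifié at `5` (minimal and non-minimal; [STRICT-p]).

`s59g_S59_openZb : s59g_OpenThreeZa → s59g_OpenFiveZb → <frozen S59 verbatim>`. NEW file, NEW names.
-/
import Fermat.Agent.Lib.S59.GLeavesZa
import Fermat.Agent.Lib.S59.UHELMin
import Fermat.Agent.Lib.S59.GXpt

set_option autoImplicit false

open CongruenceSubgroup ModularFormClass

noncomputable section

namespace Fermat.Agent.Lib.S59

/-- **[PATCH-FLR], flat, `p = 5`**: `W` good at `5`, `ρ̄` modular of a squarefree level `M` prime to `5`, ramified at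
every prime of `M`; SOME bad prime `q ≠ 5` of `W` is an unramified prime of `ρ̄` (non-minimal situation). -/
def s59g_PatchFlrFlat5 : Prop :=
  ∀ (W : WeierstrassCurve ℤ), W.Δ ≠ 0 → W.IsSemistableModel → W.ModRepIsIrreducible 5 →
    W.IsGoodPrimeFor 5 → ∀ (M : ℕ), 0 < M → Squarefree M → ¬ 5 ∣ M →
    (∀ q : ℕ, q.Prime → q ≠ 5 → q ∣ M → ¬ s59_Unr W 5 q) →
    (∃ q : ℕ, q.Prime ∧ q ≠ 5 ∧ ¬ W.IsGoodPrimeFor q ∧ s59_Unr W 5 q) →
    W.IsResiduallyModularOfLevel 5 M → s59g_HeckePt W 5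

/-- **[PATCH], `ρ̄` très ramifié at `p = 5`** (minimal and non-minimal): `ρ̄` modular of a squarefree level `M`
(`5 ∣ M` or not), ramified at every prime `q ≠ 5` of `M`. -/
def s59g_PatchTres5 : Prop :=
  ∀ (W : WeierstrassCurve ℤ), W.Δ ≠ 0 → W.IsSemistableModel → W.ModRepIsIrreducible 5 →
    ¬ s59g_Peu W 5 → ∀ (M : ℕ), 0 < M → Squarefree M →
    (∀ q : ℕ, q.Prime → q ≠ 5 → q ∣ M → ¬ s59_Unr W 5 q) →
    W.IsResiduallyModularOfLevel 5 M → s59g_HeckePt W 5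

/-- **[LIFT_W] at `p = 5`, case (GT), NO `hT23`** — from the two contracts and helper3's h23-free [PATCH-min]. -/
theorem s59g_liftGT5_of (hF : s59g_PatchFlrFlat5) (hT : s59g_PatchTres5)
    (W : WeierstrassCurve ℤ) (hΔ : W.Δ ≠ 0) (hW : W.IsSemistableModel)
    (hirr : W.ModRepIsIrreducible 5) (M : ℕ) (hinv : s59g_Inv2T W 5 M) (hGT : s59g_GT W 5)
    (hram : ∀ q : ℕ, q.Prime → q ≠ 5 → q ∣ M → ¬ s59_Unr W 5 q)
    (hres : W.IsResiduallyModularOfLevel 5 M) : s59g_AlmostModular W 5 := by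
  have : Fact (Nat.Prime 5) := ⟨by norm_num⟩
  refine s59g_almost_of_heckePt ?_
  by_cases hpeu : s59g_Peu W 5
  · -- `W` is good at `5`
    have hgood : W.IsGoodPrimeFor 5 := by
      rcases hGT with h | h
      · exact h
      · exact absurd hpeu h
    have hpM : ¬ 5 ∣ M := fun h => hinv.2.2 h hpeu
    by_cases hmin : ∀ q : ℕ, q.Prime → q ≠ 5 → ¬ W.IsGoodPrimeFor q → ¬ s59_Unr W 5 q
    · exact s59u_nh_e_Lmin_heckePt 5 (Or.inr rfl) (le_refl 5) W hΔ hW hirr hgood M hinv.1 hinv.2.1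
        hpM hram hmin hres
    · push Not at hmin
      obtain ⟨q, hq, hq5, hbad, hunr⟩ := hmin
      exact hF W hΔ hW hirr hgood M hinv.1 hinv.2.1 hpM hram ⟨q, hq, hq5, hbad, hunr⟩ hres
  · exact hT W hΔ hW hirr hpeu M hinv.1 hinv.2.1 hram hres

/-- the OPEN fields at `p = 5` (v3.12). -/
structure s59g_OpenFiveZb : Prop where
  patchFlrFlat : s59g_PatchFlrFlat5
  patchTres : s59g_PatchTres5
  lift23p : s59g_LIFTfive23P
  cornerP : s59g_Corner5P

theorem s59g_openFiveZa_ofZb (h : s59g_OpenFiveZb) : s59g_OpenFiveZa :=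
  ⟨fun W hΔ hW hirr M hinv hGT _ hram hres =>
      s59g_liftGT5_of h.patchFlrFlat h.patchTres W hΔ hW hirr M hinv hGT hram hres,
    h.lift23p,
    fun W hΔ hW hirr M hinv hGT _ hram hres =>
      s59g_liftGT5_of h.patchFlrFlat h.patchTres W hΔ hW hirr M hinv hGT hram hres,
    h.cornerP⟩

/-- **S59 from the OPEN fields of v3.12** — the frozen statement, verbatim. -/
theorem s59g_S59_openZb (h3 : s59g_OpenThreeZa) (h5 : s59g_OpenFiveZb)
    (p : ℕ) (hp : p = 3 ∨ p = 5)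
    (W : WeierstrassCurve ℤ) (hΔ : W.Δ ≠ 0) (hW : W.IsSemistableModel)
    (hirr : W.ModRepIsIrreducible p)
    (M₀ : ℕ) [NeZero M₀] (hres₀ : W.IsResiduallyModularOfLevel p M₀)
    (hM₀ : ¬ p ^ 2 ∣ M₀)
    (hM₀3 : ∀ q : ℕ, q.Prime → q ≠ p → ¬ q ^ 3 ∣ M₀) :
    Mlc1IsModularModelOfExactConductorLevel W :=
  s59g_S59_openZa h3 (s59g_openFiveZa_ofZb h5) p hp W hΔ hW hirr M₀ hres₀ hM₀ hM₀3

end Fermat.Agent.Lib.S59

end
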