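/-
PROGRAMME (R2) = S59, node [PATCH-FLR] (flat case), the CORNER `¬ T23` at `p = 5` (helper1, prefix `s59g_nh_`):
**THE h23-FREE FINAL `T`-SIDE STATEMENT `s59g_nh_TFin p W hΔ`** (a `Prop`; light imports = those of helper5's EFlrFinS.lean).

* `s59g_nh_TFin`     : helper5's `s59efl_TFin` (EFlrFinS.lean) VERBATIM, `(h23 : ∀ t, 2 ∣ N t ∨ 3 ∣ N t) ↦ (hONE : ∀ t, 1 < N t)`;
* `s59g_nh_TFin_efl` : `s59g_nh_TFin p W hΔ → s59efl_TFin p W hΔ` (so ONE `T`-side proof serves both).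
-/
import Mathlib
import Fermat.Agent.Lib.S59.EFlrFinS

set_option autoImplicit false
set_option linter.unusedSectionVars false
set_option linter.unusedVariables false
set_option linter.style.haveILetI false
set_option synthInstance.maxHeartbeats 400000
set_option maxHeartbeats 1600000

noncomputable section

namespace Fermat.Agent.Lib.S59

open IsLocalRing Polynomial
open Fermat.Agent.Lib.S53 (NormData)

local notation "Γℚ" => (AlgebraicClosure ℚ ≃ₐ[ℚ] AlgebraicClosure ℚ)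

/-- **the final `T`-side statement of [PATCH-FLR], h23-FREE** (`p ≥ 5`, flat at `p`): helper5's `s59efl_TFin`
(EFlrFinS.lean) VERBATIM with the ONE binder `(h23 : ∀ t, 2 ∣ N t ∨ 3 ∣ N t)` replaced by `(hONE : ∀ t, 1 < N t)`. -/
def s59g_nh_TFin (p : ℕ) [Fact p.Prime] (W : WeierstrassCurve ℤ) (hΔ : W.Δ ≠ 0) : Prop :=
  ∀ (hp5 : 5 ≤ p) (B : Finset ℕ) (hirr : W.ModRepIsIrreducible p)
    (hB2 : ∀ r : ℕ, r.Prime → ¬ W.IsGoodPrimeFor r → r ∈ B)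
    (𝒪 : Type) [CommRing 𝒪] [IsDomain 𝒪] [IsDiscreteValuationRing 𝒪]
    [IsAdicComplete (maximalIdeal 𝒪) 𝒪] [Finite (ResidueField 𝒪)] [CharZero 𝒪]
    [Algebra ℤ_[p] 𝒪] [Module.Finite ℤ_[p] 𝒪]
    (hp𝒪 : ((p : ℕ) : 𝒪) ∈ maximalIdeal 𝒪)
    (habs : (s59i_rhobarW W p hΔ 𝒪 hp𝒪).IsAbsolutelyIrreducible)
    (Nd : NormData (s59i_rhobarW W p hΔ 𝒪 hp𝒪))
    -- the chain of levels
    (k : ℕ) (N : ℕ → ℕ) (qr : ℕ → ℕ) (hNZ : ∀ t, NeZero (N t))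
    (hqr : ∀ t, t < k → (qr t).Prime)
    (hN : ∀ t, t < k → N (t + 1) = N t * qr t)
    (hfreeze : ∀ t, k ≤ t → N t = N k)
    (hsq : ∀ t, Squarefree (N t)) (hpN : ∀ t, ¬ p ∣ N t)
    (hB1 : ∀ t, ∀ r : ℕ, r.Prime → r ∣ N t * p → r ∈ B)
    (hocc : ∀ t, Fermat.Agent.Lib.S44.s44i_LevelOcc (N t) p (fun ℓ => W.apOfModel ℓ) B)
    (hONE : ∀ t, 1 < N t)
    -- Frobenius and inertia elements at the raising primes
    (φr σr : ℕ → Γℚ)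
    (hφr : ∀ t, t < k → ∃ A : ValuationSubring (AlgebraicClosure ℚ),
      A.LiesOverPrime (qr t) ∧ A.IsFrobeniusAt (φr t) (qr t))
    (hσr : ∀ t, t < k → ∃ A : ValuationSubring (AlgebraicClosure ℚ),
      A.LiesOverPrime (qr t) ∧ σr t ∈ A.inertiaSubgroupIn ℚ)
    -- the deformation types
    (Sg0 Su Smin Sgm : Finset ℕ) (hpSgm : p ∈ Sgm) (hSgm0 : Sgm ⊆ Sg0) (hSminSgm : Smin ⊆ Sgm)
    (hmin : ∀ q : ℕ, q.Prime → q ≠ p →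
      (q ∈ Smin ↔ ¬ (s59i_rhobarW W p hΔ 𝒪 hp𝒪).IsUnramifiedAt q))
    (hSuB : Su ⊆ B)
    (hSgN : ∀ t, ∀ q : ℕ, q.Prime → q ∣ N t →
      q ∈ Sg0 ∨ s59e3q_E2Alt p (s59i_rhobarW W p hΔ 𝒪 hp𝒪) q)
    (hSgmN : ∀ q : ℕ, q.Prime → q ∣ N 0 →
      q ∈ Sgm ∨ s59e3q_E2Alt p (s59i_rhobarW W p hΔ 𝒪 hp𝒪) q)
    (hqrSgm : ∀ t, t < k → qr t ∉ Sgm)
    (D0 : GaloisRep.DeformationRingData 𝒪 (s59i_rhobarW W p hΔ 𝒪 hp𝒪) (fun _A _ _ _ ρ =>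
      GaloisRep.flatCondition 𝒪 p Sg0 ρ ∧
        ∀ q ∈ Su, q.Prime → q ≠ p → ρ.IsUnipotentOnInertiaAt q))
    (Dm : GaloisRep.DeformationRingData 𝒪 (s59i_rhobarW W p hΔ 𝒪 hp𝒪) (fun _A _ _ _ ρ =>
      GaloisRep.flatCondition 𝒪 p Sgm ρ ∧
        ∀ q ∈ Su, q.Prime → q ≠ p → ρ.IsUnipotentOnInertiaAt q))
    (σ : Type) [DecidableEq σ] [Fintype σ],
    ∃ Bs : s59f_TBaseF 𝒪 k D0,
      s59e_HkFrobP (N k) (↑B : Set ℕ) (Bs.R k) (Bs.ρR k) ∧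
      ∀ (r : ℕ) (n : ℕ) (qv : Fin r → ℕ), Function.Injective qv →
        (∀ i, (qv i).Prime ∧ qv i ∉ B ∧ p ^ (n + 1) ∣ qv i - 1) →
        (∀ i, ∀ A : ValuationSubring (AlgebraicClosure ℚ), A.LiesOverPrime (qv i) →
          ∀ φ : Γℚ, A.IsFrobeniusAt φ (qv i) →
            ∃ α β : ResidueField 𝒪, α ≠ β ∧
              LinearMap.charpoly ((s59i_rhobarW W p hΔ 𝒪 hp𝒪).ρ φ) = (X - C α) * (X - C β)) →
        ∀ DQ : GaloisRep.DeformationRingData 𝒪 (s59i_rhobarW W p hΔ 𝒪 hp𝒪) (fun _A _ _ _ ρ =>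
          GaloisRep.flatCondition 𝒪 p (Sg0 ∪ Finset.univ.image qv) ρ ∧
            ∀ q ∈ Su, q.Prime → q ≠ p → ρ.IsUnipotentOnInertiaAt q),
          Nonempty (s59f_TLevelF 𝒪 p n r σ k Bs qv qr φr σr DQ)

/-- the h23-free statement implies helper5's statement (`2 ∣ N t ∨ 3 ∣ N t` gives `1 < N t`). -/
theorem s59g_nh_TFin_efl (p : ℕ) [Fact p.Prime] (W : WeierstrassCurve ℤ) (hΔ : W.Δ ≠ 0)
    (h : s59g_nh_TFin p W hΔ) : s59efl_TFin p W hΔ := by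
  intro hp5 B hirr hB2 𝒪 _ _ _ _ _ _ _ _ hp𝒪 habs Nd k N qr hNZ hqr hN hfreeze hsq hpN hB1 hocc h23
  refine h hp5 B hirr hB2 𝒪 hp𝒪 habs Nd k N qr hNZ hqr hN hfreeze hsq hpN hB1 hocc ?_
  intro t
  have h0 : 0 < N t := Nat.pos_of_ne_zero (NeZero.ne (N t))
  rcases h23 t with h2 | h3
  · exact lt_of_lt_of_le (by norm_num) (Nat.le_of_dvd h0 h2)
  · exact lt_of_lt_of_le (by norm_num) (Nat.le_of_dvd h0 h3)

end Fermat.Agent.Lib.S59
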