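/-
PROGRAMME (R2) = S59, node [PATCH-FLR] (flat case), the CORNER `¬ T23` at `p = 5` (helper1, prefix `s59g_nh_`):
**h23-FREE TWINS of helper4's `s59f_FLR_flat` / `s59f_FLR_heckePt` (FAsmW5.lean)** — GENERATED from FAsmW5.lean
(same proofs; `(h23 : 2 ∣ N₀ ∨ 3 ∣ N₀) ↦ (hONE : 1 < N₀)`, the minimal branch calls helper3's `s59u_nh_e_TPkgLH`
instead of helper5's `s59e_TPkgLH`; `s59f_FLR_W_core` and the contract `s59f_TPkgFLR` are h23-free already).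

* `s59g_nh_FLR_flat`    : a Hecke point of a squarefree level prime to `p` from the contract at a base level `N₀ > 1`;
* `s59g_nh_FLR_heckePt` : the shape `s59g_HeckePt W p` from the contract at the minimal level `M` itself, NO `hT23`
                          (`M ≠ 1` by helper3's `s59u_nh_not_resMod_one`).
-/
import Mathlib
import Fermat.Agent.Lib.S59.FAsmW5
import Fermat.Agent.Lib.S59.UHELMin

set_option autoImplicit false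
set_option linter.unusedSectionVars false
set_option linter.unusedVariables false
set_option linter.style.haveILetI false
set_option maxHeartbeats 3200000
set_option synthInstance.maxHeartbeats 400000

noncomputable section

namespace Fermat.Agent.Lib.S59

open IsLocalRing CuspForm Polynomial
open Fermat.Agent.Lib.S53 (matOf matOfRes NormData)
open Fermat.Agent.Lib.Deform (IsTestAlgebra)
open Fermat.Agent.Lib.S56 Fermat.Agent.Lib.S44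

local notation "Γℚ" => (AlgebraicClosure ℚ ≃ₐ[ℚ] AlgebraicClosure ℚ)

/-- **[PATCH-FLR], flat case, at a base level `N₀ > 1`** — helper4's `s59f_FLR_flat` WITHOUT `h23` (no hypothesis
on the bad primes of `W`). -/
theorem s59g_nh_FLR_flat (p : ℕ) [Fact p.Prime] (hp35 : p = 3 ∨ p = 5) (hp5 : 5 ≤ p)
    (W : WeierstrassCurve ℤ) (hΔ : W.Δ ≠ 0) (hss : W.IsSemistableModel)
    (hirr : W.ModRepIsIrreducible p) (hgoodp : W.IsGoodPrimeFor p)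
    (N₀ : ℕ) [NeZero N₀] (hsq : Squarefree N₀) (hpN : ¬ p ∣ N₀) (hONE : 1 < N₀)
    (hres : W.IsResiduallyModularOfLevel p N₀)
    (hNtype : ∀ q : ℕ, q.Prime → q ∣ N₀ → ¬ s59_Unr W p q ∨
      (W.IsGoodPrimeFor q ∧ ¬ p ∣ q ^ 2 - 1 ∧
        ¬ (p : ℤ) ∣ (W.apOfModel q : ℤ) ^ 2 - ((q : ℤ) + 1) ^ 2))
    (HT : s59f_TPkgFLR p W hΔ N₀) :
    ∃ (N : ℕ) (_ : NeZero N) (B : Finset ℕ) (𝒪 : Type) (_ : CommRing 𝒪) (_ : IsDomain 𝒪)
      (_ : CharZero 𝒪) (χ : heckeAlgebra N 2 (↑B : Set ℕ) →+* 𝒪),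
      Squarefree N ∧ ¬ p ∣ N ∧
      ∀ (ℓ : ℕ) (hℓ : ℓ.Prime) (hℓN : ¬ ℓ ∣ N) (hℓB : ℓ ∉ (↑B : Set ℕ)),
        χ (heckeAlgebra.T hℓ hℓN hℓB) = ((W.apOfModel ℓ : ℤ) : 𝒪) := by
  classical
  have hpp : p.Prime := Fact.out
  have hp2 : p ≠ 2 := by omega
  have hN0 : N₀ ≠ 0 := NeZero.ne N₀
  -- the coefficient ring
  obtain ⟨𝒪, i1, i2, i3, i4, i5, i6, i7, i8, i9, hp𝒪, -, hsplit⟩ :=
    s59q_exists_coeffRing_padic p 1 one_pos
  -- the raising primes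
  set Rs : Finset ℕ := W.Δ.natAbs.primeFactors.filter (fun q => q ≠ p ∧
    (s59q_WRhobar W hΔ hp𝒪).IsUnramifiedAt q ∧ ¬ (s59q_WRho W hΔ hp𝒪).IsUnramifiedAt q)
    with hRsdef
  have hRs : ∀ q ∈ Rs, q.Prime ∧ q ≠ p ∧ ¬ q ∣ N₀ ∧ ¬ W.IsGoodPrimeFor q ∧
      (s59q_WRhobar W hΔ hp𝒪).IsUnramifiedAt q ∧
      ¬ (s59q_WRho W hΔ hp𝒪).IsUnramifiedAt q := by
    intro q hq
    obtain ⟨hqΔ, hqp, hU, hram⟩ := Finset.mem_filter.mp hq
    rw [Nat.mem_primeFactors] at hqΔ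
    have hbadq : ¬ W.IsGoodPrimeFor q := fun hg => hg (Int.natCast_dvd.mpr hqΔ.2.1)
    refine ⟨hqΔ.1, hqp, ?_, hbadq, hU, hram⟩
    intro hqN
    rcases hNtype q hqΔ.1 hqN with h | ⟨hg, -, -⟩
    · exact h ((s59q_W_unram_iff W hΔ hp𝒪 q).mp hU)
    · exact hbadq hg
  have hunrW : ∀ q : ℕ, q.Prime → q ∉ s59q_WSmin W hΔ hp𝒪 ∪ Rs →
      (s59q_WRho W hΔ hp𝒪).IsUnramifiedAt q := by
    intro q hq hqS
    have hqSmin : q ∉ s59q_WSmin W hΔ hp𝒪 := fun h => hqS (Finset.mem_union_left _ h)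
    have hqRs : q ∉ Rs := fun h => hqS (Finset.mem_union_right _ h)
    have hqp : q ≠ p := fun h => hqSmin (h ▸ s59q_WSmin_p_mem W hΔ hp𝒪)
    by_cases hgood : W.IsGoodPrimeFor q
    · exact s59e_bc_unram _ _ _ q (s59b_rhoW_unram hΔ hp2 q hq hqp hgood)
    · by_contra hram
      apply hqRs
      refine Finset.mem_filter.mpr ⟨Nat.mem_primeFactors.mpr ⟨hq,
        Int.natCast_dvd.mp (s59q_W_dvd_disc_of_bad W q hq hgood), Int.natAbs_ne_zero.mpr hΔ⟩,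
        hqp, ?_, hram⟩
      by_contra hU
      exact hqSmin ((s59q_WSmin_hmin W hΔ hp𝒪 hp2 q hq hqp).mpr hU)
  -- the base level data
  set B : Finset ℕ := (N₀ * p).primeFactors ∪ W.Δ.natAbs.primeFactors with hB
  have hB1 : ∀ r : ℕ, r.Prime → r ∣ N₀ * p → r ∈ B := fun r hr hd =>
    Finset.mem_union_left _ (Nat.mem_primeFactors.mpr ⟨hr, hd, Nat.mul_ne_zero hN0 hpp.ne_zero⟩)
  have hB2Δ : ∀ r : ℕ, r.Prime → (r : ℤ) ∣ W.Δ → r ∈ B := fun r hr hd =>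
    Finset.mem_union_right _ (Nat.mem_primeFactors.mpr
      ⟨hr, Int.natCast_dvd.mp hd, Int.natAbs_ne_zero.mpr hΔ⟩)
  have hB2 : ∀ r : ℕ, r.Prime → ¬ W.IsGoodPrimeFor r → r ∈ B := by
    intro r hr hbad'
    refine hB2Δ r hr ?_
    by_contra h
    exact hbad' h
  have hpB : p ∈ B := hB1 p hpp (Dvd.intro_left N₀ rfl)
  have hocc := s59e_Lmin_levelOcc W p N₀ B hB1 hB2 hres
  obtain ⟨Rd, hSmin, hm, he⟩ := s59e_Lmin_RData W hΔ hp𝒪 hp35 hss hirr hsplit N₀ B hpB hB2Δ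
    (fun q hq hqN => by
      have hqp : q ≠ p := fun h => hpN (h ▸ hqN)
      rcases hNtype q hq hqN with h | ⟨hg, h1, h2⟩
      · exact Or.inl ((s59q_WSmin_hmin W hΔ hp𝒪 hp2 q hq hqp).mpr fun hunr =>
          h ((s59q_W_unram_iff W hΔ hp𝒪 q).mp hunr))
      · exact Or.inr (s59e_Lmin_E2 W hΔ hp𝒪 hp2 hirr q hq hqp hg h1 h2))
  by_cases hne : Rs.Nonempty
  · -- level raising: a universal ring of minimal type
    obtain ⟨Dm₀⟩ := s59e_W_existDQ W p hΔ hp2 hirr N₀ B hB1 hB2 hocc 𝒪 hp𝒪 Rd.habs hsq hpN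
      (∅ : Finset ℕ) Rd 0 Fin.elim0
    have hEd : Rd.Ed = ∅ := by
      haveI : IsEmpty (Fin Rd.e) := by rw [he]; infer_instance
      rw [← Rd.hprE, Finset.univ_eq_empty, Finset.image_empty]
    have hsub : Rd.Smin ∪ ((∅ : Finset ℕ) ∪ Rd.Ed) ∪ Finset.univ.image (Fin.elim0 : Fin 0 → ℕ) ⊆
        s59q_WSmin W hΔ hp𝒪 := by
      rw [hEd, hSmin, Finset.univ_eq_empty, Finset.image_empty, Finset.union_empty,
        Finset.union_empty, Finset.union_empty]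
    have hDm : Nonempty (GaloisRep.DeformationRingData 𝒪 (s59i_rhobarW W p hΔ 𝒪 hp𝒪)
        (fun _A _ _ _ ρ => GaloisRep.flatCondition 𝒪 p (s59q_WSmin W hΔ hp𝒪) ρ ∧
          ∀ q ∈ s59q_WSmin W hΔ hp𝒪 ∪ Rs, q.Prime → q ≠ p → ρ.IsUnipotentOnInertiaAt q)) := by
      refine s59q_exists_DQ_flat p hp2 hp𝒪 (s59i_rhobarW W p hΔ 𝒪 hp𝒪) Rd.habs
        (s59q_WSmin W hΔ hp𝒪) (s59q_WSmin W hΔ hp𝒪) (s59q_WSmin W hΔ hp𝒪 ∪ Rs)
        (Finset.Subset.refl _) (s59q_WSmin_p_mem W hΔ hp𝒪) ?_ inferInstance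
        Dm₀.residue_surjective Dm₀.ρ ⟨s59f_flatCondition_mono p hsub Dm₀.ρ Dm₀.isOfType.1, ?_⟩
        Dm₀.residual_isEquiv
      · intro q hq hqS
        have hqp : q ≠ p := fun h => hqS (h ▸ s59q_WSmin_p_mem W hΔ hp𝒪)
        by_contra hram
        exact hqS ((s59q_WSmin_hmin W hΔ hp𝒪 hp2 q hq hqp).mpr hram)
      · intro q hq hqP hqp
        rcases Finset.mem_union.mp hq with h | h
        · exact Dm₀.isOfType.2 q (hSmin ▸ h) hqP hqp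
        · refine s59f_unip_of_unram Dm₀.ρ q (Dm₀.isOfType.1.2.2 q hqP fun hmem => ?_)
          have h1 := hsub hmem
          exact ((s59q_WSmin_hmin W hΔ hp𝒪 hp2 q hqP hqp).mp h1) (hRs q h).2.2.2.2.1
    obtain ⟨N, iN, χ, h1, h2, h3⟩ := s59f_FLR_W_core p hp35 W hΔ hss hirr hgoodp N₀ hN0 hsq hpN 𝒪
      hp𝒪 hsplit Rs hne hRs hunrW hDm HT
    exact ⟨N, iN, _, 𝒪, inferInstance, inferInstance, inferInstance, χ, h1, h2, h3⟩
  · -- the minimal case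
    rw [Finset.not_nonempty_iff_eq_empty] at hne
    obtain ⟨χ, hχ⟩ := s59f_Lmin_abs_unr p hp2 W hΔ N₀ B hss hirr hsq hpN hB1 hB2 hocc hgoodp 𝒪
      hp𝒪 Rd hm he
      (fun q hq hqp hbad hqS => hunrW q hq (by
        rw [hne, Finset.union_empty, ← hSmin]
        exact hqS))
      (fun D0 r => s59u_nh_e_TPkgLH p hp5 W hΔ N₀ (∅ : Finset ℕ) B hirr hsq hpN hB1 hB2 hocc hONE
        𝒪 hp𝒪 Rd D0 r (s59q_ZIdx Rd.m Rd.e))
    exact ⟨N₀, inferInstance, B, 𝒪, inferInstance, inferInstance, inferInstance, χ, hsq, hpN, hχ⟩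

/-- **[PATCH-FLR], flat case, in the shape of `s59g_HeckePt W p`, WITHOUT `hT23`**: helper4's `s59f_FLR_heckePt`
over the `T`-side contract at the minimal level `M` itself. -/
theorem s59g_nh_FLR_heckePt (p : ℕ) [Fact p.Prime] (hp35 : p = 3 ∨ p = 5) (hp5 : 5 ≤ p)
    (W : WeierstrassCurve ℤ) (hΔ : W.Δ ≠ 0) (hss : W.IsSemistableModel)
    (hirr : W.ModRepIsIrreducible p) (hgoodp : W.IsGoodPrimeFor p)
    (M : ℕ) (hM0 : 0 < M) (hsq : Squarefree M) (hpM : ¬ p ∣ M)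
    (hram : ∀ q : ℕ, q.Prime → q ≠ p → q ∣ M → ¬ s59_Unr W p q)
    (hres : W.IsResiduallyModularOfLevel p M)
    (HT : 1 < M →
      (∀ q : ℕ, q.Prime → q ∣ M → ¬ s59_Unr W p q ∨
        (W.IsGoodPrimeFor q ∧ ¬ p ∣ q ^ 2 - 1 ∧
          ¬ (p : ℤ) ∣ (W.apOfModel q : ℤ) ^ 2 - ((q : ℤ) + 1) ^ 2)) →
      s59f_TPkgFLR p W hΔ M) :
    ∃ (N : ℕ) (_ : NeZero N) (B : Finset ℕ) (𝒪 : Type) (_ : CommRing 𝒪) (_ : IsDomain 𝒪)
      (_ : CharZero 𝒪) (χ : CuspForm.heckeAlgebra N 2 (↑B : Set ℕ) →+* 𝒪),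
      ¬ p ^ 2 ∣ N ∧ (∀ q : ℕ, q.Prime → ¬ q ^ 3 ∣ N) ∧
      ∀ (ℓ : ℕ) (hℓ : ℓ.Prime) (hℓN : ¬ ℓ ∣ N) (hℓB : ℓ ∉ (↑B : Set ℕ)),
        χ (CuspForm.heckeAlgebra.T hℓ hℓN hℓB) = ((W.apOfModel ℓ : ℤ) : 𝒪) := by
  have hpp : p.Prime := Fact.out
  haveI : NeZero M := ⟨hM0.ne'⟩
  have hONE : 1 < M := by
    rcases Nat.lt_or_ge 1 M with h | h
    · exact h
    · exfalso
      have hM1 : M = 1 := le_antisymm h hM0
      subst hM1
      exact s59u_nh_not_resMod_one W p hres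
  have hNtype : ∀ q : ℕ, q.Prime → q ∣ M → ¬ s59_Unr W p q ∨
      (W.IsGoodPrimeFor q ∧ ¬ p ∣ q ^ 2 - 1 ∧
        ¬ (p : ℤ) ∣ (W.apOfModel q : ℤ) ^ 2 - ((q : ℤ) + 1) ^ 2) :=
    fun q hq hqM => Or.inl (hram q hq (fun h => hpM (h ▸ hqM)) hqM)
  obtain ⟨N, iN, B, 𝒪, i1, i2, i3, χ, hNsq, hpN, hχ⟩ :=
    s59g_nh_FLR_flat p hp35 hp5 W hΔ hss hirr hgoodp M hsq hpM hONE hres hNtype (HT hONE hNtype)
  refine ⟨N, iN, B, 𝒪, i1, i2, i3, χ, ?_, ?_, hχ⟩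
  · exact fun h => hpN (dvd_trans (dvd_pow_self p two_ne_zero) h)
  · intro q hq h
    have h2 : q * q ∣ N := dvd_trans ⟨q, by ring⟩ h
    exact hq.not_isUnit (hNsq q h2)

end Fermat.Agent.Lib.S59
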