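/-
PROGRAMME (R2) = S59, node [PATCH-min] at `p = 3`, (E2′)-TOLERANT form (helper6, prefix `s59q_l3e_`): **[PATCH-min], FLAT CASE, EVEN LEVEL,
`p ∈ {3, 5}`, WITH (E2′)-PRIMES IN THE LEVEL: THE NODE** — `s59q_l3_Lmin_flat` / `s59q_l3_Lmin_heckePt` (Q3LMin.lean) with the tolerated
primes of the level in the form `W` good at `q`, `p ∤ q − 1`, `p ∤ a_q² − (q+1)²` (= helper1's `s59g_E2 W p q`; at `p = 3`, `q = 2` this is
case (b) of the graph), instead of `p ∤ q² − 1`.  The `R`-side datum lives at the reduced level `N' = ∏ {q ∣ N : ρ̄ ramified at q}`.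
-/
import Mathlib
import Fermat.Agent.Lib.S59.ELMinA
import Fermat.Agent.Lib.S59.ELMinR
import Fermat.Agent.Lib.S59.ELPkgH
import Fermat.Agent.Lib.S59.VMono
import Fermat.Agent.Lib.S59.QOExtFin
import Fermat.Agent.Lib.S59.ELMin
import Fermat.Agent.Lib.S59.Q3LPkgH
import Fermat.Agent.Lib.S59.Q3LEPkgH
import Fermat.Agent.Lib.S59.Q3LEMinA

set_option autoImplicit false
set_option linter.unusedSectionVars false
set_option linter.unusedVariables false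
set_option linter.style.haveILetI false
set_option maxHeartbeats 1600000
set_option synthInstance.maxHeartbeats 400000

noncomputable section

namespace Fermat.Agent.Lib.S59

open IsLocalRing CuspForm Polynomial
open Fermat.Agent.Lib.S44

local notation "Γℚ" => (AlgebraicClosure ℚ ≃ₐ[ℚ] AlgebraicClosure ℚ)

/-- **[PATCH-min], flat case, at an EVEN level `N`, `p ∈ {3, 5}`.** -/
theorem s59q_l3e_Lmin_flat (p : ℕ) [Fact p.Prime] (hp35 : p = 3 ∨ p = 5)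
    (W : WeierstrassCurve ℤ) (hΔ : W.Δ ≠ 0) (hss : W.IsSemistableModel)
    (hirr : W.ModRepIsIrreducible p) (hgoodp : W.IsGoodPrimeFor p)
    (N : ℕ) [NeZero N] (hsq : Squarefree N) (hpN : ¬ p ∣ N) (h23 : 2 ∣ N)
    (hres : W.IsResiduallyModularOfLevel p N)
    (hbad : ∀ q : ℕ, q.Prime → q ≠ p → ¬ W.IsGoodPrimeFor q → ¬ s59_Unr W p q)
    (hNtype : ∀ q : ℕ, q.Prime → q ∣ N → ¬ s59_Unr W p q ∨
      (W.IsGoodPrimeFor q ∧ ¬ p ∣ q - 1 ∧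
        ¬ (p : ℤ) ∣ (W.apOfModel q : ℤ) ^ 2 - ((q : ℤ) + 1) ^ 2)) :
    ∃ (B : Finset ℕ) (𝒪 : Type) (_ : CommRing 𝒪) (_ : IsDomain 𝒪) (_ : CharZero 𝒪)
      (χ : heckeAlgebra N 2 (↑B : Set ℕ) →+* 𝒪),
      ∀ (ℓ : ℕ) (hℓ : ℓ.Prime) (hℓN : ¬ ℓ ∣ N) (hℓB : ℓ ∉ (↑B : Set ℕ)),
        χ (heckeAlgebra.T hℓ hℓN hℓB) = ((W.apOfModel ℓ : ℤ) : 𝒪) := by
  classical
  have hpp : p.Prime := Fact.out
  have hp2 : p ≠ 2 := by rcases hp35 with rfl | rfl <;> norm_num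
  have hN0 : N ≠ 0 := NeZero.ne N
  set B : Finset ℕ := (N * p).primeFactors ∪ W.Δ.natAbs.primeFactors with hB
  have hB1 : ∀ r : ℕ, r.Prime → r ∣ N * p → r ∈ B := fun r hr hd =>
    Finset.mem_union_left _ (Nat.mem_primeFactors.mpr ⟨hr, hd, Nat.mul_ne_zero hN0 hpp.ne_zero⟩)
  have hB2Δ : ∀ r : ℕ, r.Prime → (r : ℤ) ∣ W.Δ → r ∈ B := fun r hr hd =>
    Finset.mem_union_right _ (Nat.mem_primeFactors.mpr
      ⟨hr, Int.natCast_dvd.mp hd, Int.natAbs_ne_zero.mpr hΔ⟩)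
  have hB2 : ∀ r : ℕ, r.Prime → ¬ W.IsGoodPrimeFor r → r ∈ B := by
    intro r hr hbad'
    refine hB2Δ r hr ?_
    by_contra h
    exact hbad' h
  have hpB : p ∈ B := hB1 p hpp (Dvd.intro_left N rfl)
  have hocc := s59e_Lmin_levelOcc W p N B hB1 hB2 hres
  -- the coefficient ring
  obtain ⟨𝒪, i1, i2, i3, i4, i5, i6, i7, i8, i9, hp𝒪, -, hsplit⟩ :=
    s59q_exists_coeffRing_padic p 1 one_pos
  -- the reduced level `N'`: the primes of `N` at which `ρ̄` is ramified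
  set T : Finset ℕ := N.primeFactors.filter (fun ℓ => ¬ s59_Unr W p ℓ) with hT
  set N' : ℕ := ∏ ℓ ∈ T, ℓ with hN'
  have hmemN' : ∀ ℓ : ℕ, ℓ.Prime → ℓ ∣ N' → ℓ ∈ T := by
    intro ℓ hℓ hd
    obtain ⟨q, hqT, hq⟩ := (Prime.dvd_finsetProd_iff (Nat.prime_iff.mp hℓ) _).mp hd
    have hqpr : q.Prime := Nat.prime_of_mem_primeFactors (Finset.mem_filter.mp hqT).1
    have : ℓ = q := (Nat.prime_dvd_prime_iff_eq hℓ hqpr).mp hq
    exact this ▸ hqT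
  have hE : ∀ q : ℕ, q.Prime → q ∣ N → q ∣ N' ∨
      s59e3q_E2Alt p (s59i_rhobarW W p hΔ 𝒪 hp𝒪) q := by
    intro q hq hqN
    have hqp : q ≠ p := fun h => hpN (h ▸ hqN)
    rcases hNtype q hq hqN with h | ⟨hg, h1, h2⟩
    · exact Or.inl (Finset.dvd_prod_of_mem _ (Finset.mem_filter.mpr
        ⟨Nat.mem_primeFactors.mpr ⟨hq, hqN, hN0⟩, h⟩))
    · exact Or.inr (s59e3q_E2Alt_of_good W hΔ hp𝒪 hp2 hirr q hq hqp hg h1 h2)
  -- the `R`-side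
  obtain ⟨Rd, hSmin, hm, he⟩ := s59e_Lmin_RData W hΔ hp𝒪 hp35 hss hirr hsplit N' B hpB hB2Δ
    (fun q hq hqN' => by
      have hqT := hmemN' q hq hqN'
      have hqN : q ∣ N := Nat.dvd_of_mem_primeFactors (Finset.mem_filter.mp hqT).1
      have hqp : q ≠ p := fun h => hpN (h ▸ hqN)
      exact Or.inl ((s59q_WSmin_hmin W hΔ hp𝒪 hp2 q hq hqp).mpr fun hunr =>
        (Finset.mem_filter.mp hqT).2 ((s59q_W_unram_iff W hΔ hp𝒪 q).mp hunr)))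
  have hbadS : ∀ q : ℕ, q.Prime → q ≠ p → ¬ W.IsGoodPrimeFor q → q ∈ Rd.Smin := by
    intro q hq hqp hg
    rw [hSmin]
    exact (s59q_WSmin_hmin W hΔ hp𝒪 hp2 q hq hqp).mpr fun hunr =>
      hbad q hq hqp hg ((s59q_W_unram_iff W hΔ hp𝒪 q).mp hunr)
  -- the assembly
  obtain ⟨χ, hχ⟩ := s59q_l3e_Lmin_abs p hp2 W hΔ N B hss hirr hsq hpN hB1 hB2 hocc hgoodp 𝒪 hp𝒪 N' Rd hE hm
    he hbadS (fun D0 r => s59q_l3e_TPkgLH p hp2 W hΔ N (∅ : Finset ℕ) B hirr hsq hpN hB1 hB2 hocc h23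
      𝒪 hp𝒪 N' Rd hE D0 r (s59q_ZIdx Rd.m Rd.e))
  exact ⟨B, 𝒪, inferInstance, inferInstance, inferInstance, χ, hχ⟩

/-- **[PATCH-min], flat case, in the shape of `s59g_HeckePt W p`, at an EVEN minimal level `M`** (`p ∈ {3, 5}`). -/
theorem s59q_l3e_Lmin_heckePt (p : ℕ) [Fact p.Prime] (hp35 : p = 3 ∨ p = 5)
    (W : WeierstrassCurve ℤ) (hΔ : W.Δ ≠ 0) (hss : W.IsSemistableModel)
    (hirr : W.ModRepIsIrreducible p) (hgoodp : W.IsGoodPrimeFor p)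
    (M : ℕ) (hM0 : 0 < M) (hsq : Squarefree M) (hpM : ¬ p ∣ M) (h2M : 2 ∣ M)
    (hram : ∀ q : ℕ, q.Prime → q ≠ p → q ∣ M → ¬ s59_Unr W p q ∨
      (W.IsGoodPrimeFor q ∧ ¬ p ∣ q - 1 ∧
        ¬ (p : ℤ) ∣ (W.apOfModel q : ℤ) ^ 2 - ((q : ℤ) + 1) ^ 2))
    (hbad : ∀ q : ℕ, q.Prime → q ≠ p → ¬ W.IsGoodPrimeFor q → ¬ s59_Unr W p q)
    (hres : W.IsResiduallyModularOfLevel p M) :
    ∃ (N : ℕ) (_ : NeZero N) (B : Finset ℕ) (𝒪 : Type) (_ : CommRing 𝒪) (_ : IsDomain 𝒪)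
      (_ : CharZero 𝒪) (χ : CuspForm.heckeAlgebra N 2 (↑B : Set ℕ) →+* 𝒪),
      ¬ p ^ 2 ∣ N ∧ (∀ q : ℕ, q.Prime → ¬ q ^ 3 ∣ N) ∧
      ∀ (ℓ : ℕ) (hℓ : ℓ.Prime) (hℓN : ¬ ℓ ∣ N) (hℓB : ℓ ∉ (↑B : Set ℕ)),
        χ (CuspForm.heckeAlgebra.T hℓ hℓN hℓB) = ((W.apOfModel ℓ : ℤ) : 𝒪) := by
  haveI : NeZero M := ⟨hM0.ne'⟩
  obtain ⟨B, 𝒪, i1, i2, i3, χ, hχ⟩ := s59q_l3e_Lmin_flat p hp35 W hΔ hss hirr hgoodp M hsq hpM h2M
    hres hbad fun q hq hqM => hram q hq (fun h => hpM (h ▸ hqM)) hqM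
  refine ⟨M, inferInstance, B, 𝒪, i1, i2, i3, χ, ?_, ?_, hχ⟩
  · exact fun h => hpM (dvd_trans (dvd_pow_self p two_ne_zero) h)
  · intro q hq h
    have h2 : q * q ∣ M := dvd_trans ⟨q, by ring⟩ h
    exact hq.not_isUnit (hsq q h2)

end Fermat.Agent.Lib.S59
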