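/-
PROGRAMME (R2) = S59, node [PATCH-FLR] at `p = 3` (helper6, prefix `s59q_f3_`): **THE TOP OF THE FLAT LEVEL-RAISING PATCH AT AN EVEN LEVEL,
`p ∈ {3, 5}`, (E2′)-TOLERANT** — scripted twin of helper4's FAsmW5.lean (`s59f_Lmin_abs_unr`, `s59f_FLR_flat`, `s59f_FLR_heckePt`) with
`5 ≤ p`, `2 ∣ N₀ ∨ 3 ∣ N₀` replaced by `2 ∣ N₀`, the tolerated primes of the level in the form `s59g_E2 W p q` (`p ∤ q − 1`; at `(p, q) = (3, 2)`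
this is type (b) of the graph), the `R`-side datum at the reduced level `N' = ∏ {q ∣ N₀ : ρ̄ ramified at q}` (`hE`), [EXIST-DQ] by
`s59e3e_W_existDQ_E` (E3E2c.lean), and the minimal `T`-side `s59q_l3e_TPkgLH` (Q3LEPkgH.lean).  The contract `s59f_TPkgFLR p W hΔ N₀` and
helper4's core `s59f_FLR_W_core` (FAsmW4.lean) are used AS THEY ARE (they are generic in `p ∈ {3, 5}`).

* `s59q_f3_Lmin_abs_unr`, **`s59q_f3_FLR_flat`**, **`s59q_f3_FLR_heckePt`**.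
-/
import Mathlib
import Fermat.Agent.Lib.S59.FAsmW5
import Fermat.Agent.Lib.S59.Q3LEMin

set_option autoImplicit false
set_option linter.unusedSectionVars false
set_option linter.unusedVariables false
set_option linter.style.haveILetI false
set_option maxHeartbeats 3200000
set_option synthInstance.maxHeartbeats 400000

noncomputable section

namespace Fermat.Agent.Lib.S59

open IsLocalRing CuspForm Polynomial
open Fermat.Agent.Lib.S53 (matOf matOfRes NormData)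
open Fermat.Agent.Lib.Deform (IsTestAlgebra)
open Fermat.Agent.Lib.S56 Fermat.Agent.Lib.S44

local notation "Γℚ" => (AlgebraicClosure ℚ ≃ₐ[ℚ] AlgebraicClosure ℚ)

/-- **[PATCH-min], flat case, over an abstract `T`-side.** -/
theorem s59q_f3_Lmin_abs_unr (p : ℕ) [Fact p.Prime] (hp2 : p ≠ 2) (W : WeierstrassCurve ℤ) (hΔ : W.Δ ≠ 0)
    (N : ℕ) [NeZero N] (B : Finset ℕ)
    (hss : W.IsSemistableModel) (hirr : W.ModRepIsIrreducible p) (hsq : Squarefree N)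
    (hpN : ¬ p ∣ N)
    (hB1 : ∀ r : ℕ, r.Prime → r ∣ N * p → r ∈ B)
    (hB2 : ∀ r : ℕ, r.Prime → ¬ W.IsGoodPrimeFor r → r ∈ B)
    (hocc : s44i_LevelOcc N p (fun ℓ => W.apOfModel ℓ) B)
    (hgoodp : W.IsGoodPrimeFor p)
    (𝒪 : Type) [CommRing 𝒪] [IsDomain 𝒪] [IsDiscreteValuationRing 𝒪]
    [IsAdicComplete (maximalIdeal 𝒪) 𝒪] [Finite (ResidueField 𝒪)] [CharZero 𝒪]
    [Algebra ℤ_[p] 𝒪] [Module.Finite ℤ_[p] 𝒪]
    (hp𝒪 : ((p : ℕ) : 𝒪) ∈ maximalIdeal 𝒪)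
    (N' : ℕ) (Rd : s59i_RData p N' (s59i_rhobarW W p hΔ 𝒪 hp𝒪) B (∅ : Finset ℕ))
    (hE : ∀ q : ℕ, q.Prime → q ∣ N → q ∣ N' ∨ s59e3q_E2Alt p (s59i_rhobarW W p hΔ 𝒪 hp𝒪) q)
    (hm : Rd.m = 0) (he : Rd.e = 0)
    (hunrW : ∀ q : ℕ, q.Prime → q ≠ p → ¬ W.IsGoodPrimeFor q → q ∉ Rd.Smin →
      (s59q_WRho W hΔ hp𝒪).IsUnramifiedAt q)
    (HT : ∀ (D0 : GaloisRep.DeformationRingData 𝒪 (s59i_rhobarW W p hΔ 𝒪 hp𝒪) (fun _A _ _ _ ρ =>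
        GaloisRep.flatCondition 𝒪 p (Rd.Smin ∪ ((∅ : Finset ℕ) ∪ Rd.Ed) ∪ (∅ : Finset ℕ)) ρ ∧
          ∀ q ∈ Rd.Smin, q.Prime → q ≠ p → ρ.IsUnipotentOnInertiaAt q)) (r : ℕ),
      ∃ Bs : s59e_TBaseL 𝒪 D0,
        (∃ hk : heckeAlgebra N 2 (↑B : Set ℕ) →+* Bs.R,
          ∀ (ℓ : ℕ) (hℓ : ℓ.Prime) (hℓN : ¬ ℓ ∣ N) (hℓB : ℓ ∉ (↑B : Set ℕ)),
          ∀ A : ValuationSubring (AlgebraicClosure ℚ), A.LiesOverPrime ℓ →
          ∀ g : Γℚ, A.IsFrobeniusAt g ℓ →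
            LinearMap.charpoly (Bs.ρR.ρ g) =
              X ^ 2 - C (hk (heckeAlgebra.T hℓ hℓN hℓB)) * X + C ((ℓ : Bs.R))) ∧
        ∀ (n : ℕ) (qv : Fin r → ℕ), Function.Injective qv →
          (∀ i, (qv i).Prime ∧ qv i ∉ B ∧ p ^ (n + 1) ∣ qv i - 1) →
          (∀ i, ∀ A : ValuationSubring (AlgebraicClosure ℚ), A.LiesOverPrime (qv i) →
            ∀ φ : Γℚ, A.IsFrobeniusAt φ (qv i) →
              ∃ α β : ResidueField 𝒪, α ≠ β ∧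
                LinearMap.charpoly ((s59i_rhobarW W p hΔ 𝒪 hp𝒪).ρ φ) = (X - C α) * (X - C β)) →
          ∀ DQ : GaloisRep.DeformationRingData 𝒪 (s59i_rhobarW W p hΔ 𝒪 hp𝒪) (fun _A _ _ _ ρ =>
            GaloisRep.flatCondition 𝒪 p
                (Rd.Smin ∪ ((∅ : Finset ℕ) ∪ Rd.Ed) ∪ Finset.univ.image qv) ρ ∧
              ∀ q ∈ Rd.Smin, q.Prime → q ≠ p → ρ.IsUnipotentOnInertiaAt q),
            Nonempty (s59e_TLevelL 𝒪 p n r (s59q_ZIdx Rd.m Rd.e) Bs.R Bs.M Bs.ρR Bs.d qv DQ)) :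
    ∃ χ : heckeAlgebra N 2 (↑B : Set ℕ) →+* 𝒪,
      ∀ (ℓ : ℕ) (hℓ : ℓ.Prime) (hℓN : ¬ ℓ ∣ N) (hℓB : ℓ ∉ (↑B : Set ℕ)),
        χ (heckeAlgebra.T hℓ hℓN hℓB) = ((W.apOfModel ℓ : ℤ) : 𝒪) := by
  classical
  have hpP : p.Prime := Fact.out
  have hpB : p ∈ B := hB1 p hpP (Dvd.intro_left N rfl)
  -- the `R`-side
  obtain ⟨r, hr, H⟩ := s59q_inst_flat p hp2 hp𝒪 (s59i_rhobarW W p hΔ 𝒪 hp𝒪) Rd.habs Rd.hdet
    Rd.hsplit Rd.hTW B Rd.Smin (∅ : Finset ℕ) Rd.Ed Rd.hpSmin Rd.hSmin Rd.hBS Rd.hES Rd.hBprime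
    Rd.hEprime Rd.hmin Rd.hBunr Rd.hEunr Rd.hBE Rd.hcen Rd.Nd Rd.m Rd.e Rd.pr Rd.hprB Rd.hprE
    Rd.hBinj Rd.hEinj Rd.σq Rd.φq Rd.hσq Rd.hφq Rd.D.i2 Rd.D.hi2 Rd.P Rd.P' Rd.hPP' Rd.hP'P
    Rd.αE Rd.βE Rd.hαβ Rd.hαβ' Rd.hdiag
  choose qv hqv1 hqv2 hqv3 hqv4 using H
  -- the universal rings
  obtain ⟨D0⟩ : Nonempty (GaloisRep.DeformationRingData 𝒪 (s59i_rhobarW W p hΔ 𝒪 hp𝒪)
      (fun _A _ _ _ ρ =>
        GaloisRep.flatCondition 𝒪 p (Rd.Smin ∪ ((∅ : Finset ℕ) ∪ Rd.Ed) ∪ (∅ : Finset ℕ)) ρ ∧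
          ∀ q ∈ Rd.Smin, q.Prime → q ≠ p → ρ.IsUnipotentOnInertiaAt q)) := by
    have h := s59e3e_W_existDQ_E W p hΔ hp2 hirr N B hB1 hB2 hocc 𝒪 hp𝒪 Rd.habs hsq hpN
      (∅ : Finset ℕ) Rd hE 0 Fin.elim0
    simpa only [Finset.univ_eq_empty, Finset.image_empty] using h
  let 𝒟 : ℕ → ∀ ⦃A : Type⦄ [CommRing A] [IsLocalRing A] [Algebra 𝒪 A], GaloisRepAdic A → Prop :=
    fun n _A _ _ _ ρ =>
      GaloisRep.flatCondition 𝒪 p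
          (Rd.Smin ∪ ((∅ : Finset ℕ) ∪ Rd.Ed) ∪ Finset.univ.image (qv n)) ρ ∧
        ∀ q ∈ Rd.Smin, q.Prime → q ≠ p → ρ.IsUnipotentOnInertiaAt q
  let DQ : ∀ n, GaloisRep.DeformationRingData 𝒪 (s59i_rhobarW W p hΔ 𝒪 hp𝒪) (𝒟 n) := fun n =>
    (s59e3e_W_existDQ_E W p hΔ hp2 hirr N B hB1 hB2 hocc 𝒪 hp𝒪 Rd.habs hsq hpN
      (∅ : Finset ℕ) Rd hE r (qv n)).some
  choose bR hbR using fun n => s56a_exists_basisR (DQ n) Rd.Nd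
  -- monotonicity of the type
  have hmono : ∀ (n : ℕ) {A : Type} [CommRing A] [IsLocalRing A] [Algebra 𝒪 A]
      (ρ : GaloisRepAdic A),
      (GaloisRep.flatCondition 𝒪 p (Rd.Smin ∪ ((∅ : Finset ℕ) ∪ Rd.Ed) ∪ (∅ : Finset ℕ)) ρ ∧
        ∀ q ∈ Rd.Smin, q.Prime → q ≠ p → ρ.IsUnipotentOnInertiaAt q) → 𝒟 n ρ := by
    intro n A _ _ _ ρ h
    refine ⟨⟨h.1.1, h.1.2.1, fun q hq hqS => h.1.2.2 q hq fun hmem => hqS ?_⟩, h.2⟩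
    rcases Finset.mem_union.mp hmem with h' | h'
    · exact Finset.mem_union_left _ h'
    · exact absurd h' (Finset.notMem_empty q)
  -- the `T`-side
  obtain ⟨Bs, ⟨hk, hhk⟩, HL⟩ := HT D0 r
  let TL : ∀ n, s59e_TLevelL 𝒪 p n r (s59q_ZIdx Rd.m Rd.e) Bs.R Bs.M Bs.ρR Bs.d (qv n) (DQ n) :=
    fun n => (HL n (qv n) (hqv1 n) (hqv2 n) (hqv3 n) (DQ n)).some
  -- the bridge
  have hγ := fun n => hqv4 n (DQ n) (bR n) (hbR n) (T := (DQ n).R) (s56a_isTestAlgebra_R (DQ n))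
    (AlgHom.id 𝒪 (DQ n).R) Function.surjective_id
  choose γ hγs hγ1 hγ2 hγ3 hγ4 using hγ
  -- dimensions
  have hcard : Fintype.card (s59q_GIdx Rd.m Rd.e (r + Rd.m + Rd.e)) = r := by
    simp only [Fintype.card_sum, Fintype.card_prod, Fintype.card_fin, hm, he]
    omega
  haveI : IsDomain (MvPowerSeries (s59q_GIdx Rd.m Rd.e (r + Rd.m + Rd.e)) 𝒪) :=
    NoZeroDivisors.to_isDomain _
  have hdim : ringKrullDim (MvPowerSeries (s59q_GIdx Rd.m Rd.e (r + Rd.m + Rd.e)) 𝒪) ≤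
      ringKrullDim (MvPowerSeries (s59q_ZIdx Rd.m Rd.e) (MvPowerSeries (Fin r) 𝒪)) := by
    rw [s59i_dim_mvPowerSeries 𝒪, s59i_dim_mvPowerSeries (MvPowerSeries (Fin r) 𝒪),
      s59p_pmdim 𝒪 r, hcard]
    exact le_add_of_nonneg_right (by exact_mod_cast Nat.zero_le _)
  -- the unramified traces at the Taylor–Wiles primes
  have hunrQ : ∀ n i, s59i_cpTr D0.ρ ((TL n).σQ i) = 2 := by
    intro n i
    obtain ⟨A, hA, hσ⟩ := (TL n).hσQ i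
    have hq := hqv2 n i
    have hnot : qv n i ∉ Rd.Smin ∪ ((∅ : Finset ℕ) ∪ Rd.Ed) ∪ (∅ : Finset ℕ) := by
      intro hmem
      rcases Finset.mem_union.mp hmem with h' | h'
      · rcases Finset.mem_union.mp h' with h'' | h''
        · exact hq.2.1 (Rd.hSmin h'')
        · rcases Finset.mem_union.mp h'' with h3 | h3
          · exact absurd h3 (Finset.notMem_empty _)
          · exact hq.2.1 (Rd.hES h3)
      · exact absurd h' (Finset.notMem_empty _)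
    exact s59e_Lmin_cpTr_one D0.ρ _ (D0.isOfType.1.2.2 (qv n i) hq.1 hnot A hA _ hσ)
  -- `ker ν` is nil
  have hnil := s59f_FINL_absA p Rd.D.i2 Rd.D.hi2 D0 DQ Rd.Nd
    (s56a_tangentStable_flat 𝒪 p _ Rd.Smin) (fun n => hmono n D0.ρ D0.isOfType) r
    (MvPowerSeries (s59q_GIdx Rd.m Rd.e (r + Rd.m + Rd.e)) 𝒪) hdim γ hγs
    Bs.R Bs.hRres Bs.M Bs.ρR (fun n => hmono n Bs.ρR Bs.hρR) Bs.hresR Bs.ν Bs.hν Bs.hνs
    (s59t_frameA (s59q_ZIdx Rd.m Rd.e) (RingHom.ker (MvPowerSeries.constantCoeff (σ := Fin r) (R := 𝒪))))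
    (s59e_L_frameA_CX (s59q_ZIdx Rd.m Rd.e)) (s59e_L_frameA_X (s59q_ZIdx Rd.m Rd.e))
    (s59e_L_frameA_le (s59q_ZIdx Rd.m Rd.e))
    (fun n => s59t_frameJ (s59q_ZIdx Rd.m Rd.e) (s59t_JH 𝒪 p n r))
    (fun n => s59t_frameJ_JH_le (s59q_ZIdx Rd.m Rd.e) hp2 hp𝒪 n r)
    (fun n => (TL n).T') (fun n => (TL n).T) (fun n => (TL n).θ) (fun n => (TL n).hθ)
    (fun n => (TL n).L0) Bs.d (fun n => (TL n).hd) (fun n => (TL n).std) (fun n => (TL n).hstd)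
    (fun n => (TL n).hψ𝒪) (fun n => (TL n).uu) (fun n => (TL n).huu) (fun n => (TL n).hgen)
    (fun n => (TL n).hstdX) (fun n => (TL n).hstdz) (fun n => (TL n).σQ) (fun n => (TL n).hC8)
    hunrQ (fun n => (TL n).hτ)
  -- the point of `ρ_W ⊗ 𝒪`
  haveI hlid : IsLocalHom (algebraMap 𝒪 𝒪) := ⟨fun a h => h⟩
  have h𝒟W : GaloisRep.flatCondition 𝒪 p
      (Rd.Smin ∪ ((∅ : Finset ℕ) ∪ Rd.Ed) ∪ (∅ : Finset ℕ)) (s59q_WRho W hΔ hp𝒪) ∧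
      ∀ q ∈ Rd.Smin, q.Prime → q ≠ p → (s59q_WRho W hΔ hp𝒪).IsUnipotentOnInertiaAt q := by
    refine ⟨⟨s59q_W_detCyc W hΔ hp𝒪 hp2 hirr,
      s59e_flat hΔ hgoodp (algebraMap ℤ_[p] 𝒪) (s59b_isLocalHom_padic p _ hp𝒪), ?_⟩, ?_⟩
    · intro q hq hqS
      have hqp : q ≠ p := by
        rintro rfl
        exact hqS (Finset.mem_union_left _ (Finset.mem_union_left _ Rd.hpSmin))
      by_cases hgood : W.IsGoodPrimeFor q
      · exact s59e_bc_unram _ _ _ q (s59b_rhoW_unram hΔ hp2 q hq hqp hgood)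
      · exact hunrW q hq hqp hgood fun h =>
          hqS (Finset.mem_union_left _ (Finset.mem_union_left _ h))
    · intro q _ hq hqp
      exact s59e_bc_unip _ _ _ q (s59b_rhoW_unip hΔ hp2 hirr hss q hq hqp)
  have hfrobW : ∀ ℓ : ℕ, ℓ.Prime → ℓ ∉ B → ∀ P : ValuationSubring (AlgebraicClosure ℚ),
      P.LiesOverPrime ℓ → ∀ σ : Γℚ, P.IsFrobeniusAt σ ℓ →
        LinearMap.charpoly ((s59q_WRho W hΔ hp𝒪).ρ σ) =
          X ^ 2 - C (((W.apOfModel ℓ : ℤ) : 𝒪)) * X + C ((ℓ : 𝒪)) := by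
    intro ℓ hℓ hℓB P hP σ hσ
    have hℓp : ℓ ≠ p := fun h => hℓB (h ▸ hpB)
    have hgood : W.IsGoodPrimeFor ℓ := by
      by_contra hbad
      exact hℓB (hB2 ℓ hℓ hbad)
    rw [s59e_bc_charpoly, s59b_rhoW_charpoly hΔ hp2 hirr ℓ hℓ hgood hℓp P hP σ hσ]
    simp
  have hresW : (s59q_WRho W hΔ hp𝒪).residual.IsEquiv
      ((s59i_rhobarW W p hΔ 𝒪 hp𝒪).baseChangeAlong (ResidueField.map (algebraMap 𝒪 𝒪))) :=
    s59b_hres_of_frob p hp2 hp𝒪 (s59q_WRho W hΔ hp𝒪) Rd.habs B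
      (fun ℓ => ((W.apOfModel ℓ : ℤ) : 𝒪)) (fun ℓ => ((W.apOfModel ℓ : ℤ) : 𝒪)) hfrobW
      (fun ℓ _ _ => by
        show ((W.apOfModel ℓ : ℤ) : 𝒪) - ((W.apOfModel ℓ : ℤ) : 𝒪) ∈ maximalIdeal 𝒪
        rw [sub_self]
        exact Ideal.zero_mem _)
      (s59i_rhobarW W p hΔ 𝒪 hp𝒪)
      (fun ℓ hℓ hℓS A hA σ hσ =>
        s59e_rhobarW_charpoly_frob hΔ hp2 hirr hp𝒪 B hpB hB2 ℓ hℓ hℓS A hA σ hσ)
  obtain ⟨x, ⟨hx, ex⟩, -⟩ := D0.universal 𝒪 (IsLocalRing.residue_surjective) (s59q_WRho W hΔ hp𝒪)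
    h𝒟W hresW
  have hxtr : ∀ g, x (s59i_cpTr D0.ρ g) = s59i_cpTr (s59q_WRho W hΔ hp𝒪) g := fun g =>
    s59e_Lmin_point_trace D0 _ (x : D0.R →+* 𝒪) hx ex g
  -- the point factors through `Bs.R`
  obtain ⟨χ, hχ⟩ := s59f_FINL_point (Bs.ν : D0.R →+* Bs.R) Bs.hνs hnil (x : D0.R →+* 𝒪)
  refine ⟨χ.comp hk, fun ℓ hℓ hℓN hℓB => ?_⟩
  obtain ⟨A, g, hA, hg⟩ := Fermat.Agent.Lib.Frobenius.exists_isFrobeniusAt ℓ hℓ
  have h1 : s59i_cpTr Bs.ρR g = hk (heckeAlgebra.T hℓ hℓN hℓB) :=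
    s59i_cpTr_of_charpoly Bs.ρR g _ _ (hhk ℓ hℓ hℓN hℓB A hA g hg)
  have h2 : s59i_cpTr (s59q_WRho W hΔ hp𝒪) g = ((W.apOfModel ℓ : ℤ) : 𝒪) :=
    s59i_cpTr_of_charpoly _ g _ _
      (hfrobW ℓ hℓ (fun h => hℓB (Finset.mem_coe.mpr h)) A hA g hg)
  rw [RingHom.comp_apply, ← h1, ← Bs.hν g]
  have h3 := hχ (s59i_cpTr D0.ρ g)
  rw [RingHom.coe_coe] at h3
  rw [h3, RingHom.coe_coe, hxtr g, h2]

/-- **[PATCH-FLR], flat case, `p ∈ {3, 5}`, at an EVEN base level `N₀`** (no hypothesis on the bad primes of `W`; the primes of `N₀` are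
ramified primes of `ρ̄` or of type (E2′) in the form `s59g_E2 W p q`; `R`-side datum at the reduced level `N'`). -/
theorem s59q_f3_FLR_flat (p : ℕ) [Fact p.Prime] (hp35 : p = 3 ∨ p = 5)
    (W : WeierstrassCurve ℤ) (hΔ : W.Δ ≠ 0) (hss : W.IsSemistableModel)
    (hirr : W.ModRepIsIrreducible p) (hgoodp : W.IsGoodPrimeFor p)
    (N₀ : ℕ) [NeZero N₀] (hsq : Squarefree N₀) (hpN : ¬ p ∣ N₀) (h23 : 2 ∣ N₀)
    (hres : W.IsResiduallyModularOfLevel p N₀)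
    (hNtype : ∀ q : ℕ, q.Prime → q ∣ N₀ → ¬ s59_Unr W p q ∨
      (W.IsGoodPrimeFor q ∧ ¬ p ∣ q - 1 ∧
        ¬ (p : ℤ) ∣ (W.apOfModel q : ℤ) ^ 2 - ((q : ℤ) + 1) ^ 2))
    (HT : s59f_TPkgFLR p W hΔ N₀) :
    ∃ (N : ℕ) (_ : NeZero N) (B : Finset ℕ) (𝒪 : Type) (_ : CommRing 𝒪) (_ : IsDomain 𝒪)
      (_ : CharZero 𝒪) (χ : heckeAlgebra N 2 (↑B : Set ℕ) →+* 𝒪),
      Squarefree N ∧ ¬ p ∣ N ∧
      ∀ (ℓ : ℕ) (hℓ : ℓ.Prime) (hℓN : ¬ ℓ ∣ N) (hℓB : ℓ ∉ (↑B : Set ℕ)),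
        χ (heckeAlgebra.T hℓ hℓN hℓB) = ((W.apOfModel ℓ : ℤ) : 𝒪) := by
  classical
  have hpp : p.Prime := Fact.out
  have hp2 : p ≠ 2 := by rcases hp35 with rfl | rfl <;> norm_num
  have hN0 : N₀ ≠ 0 := NeZero.ne N₀
  -- the coefficient ring
  obtain ⟨𝒪, i1, i2, i3, i4, i5, i6, i7, i8, i9, hp𝒪, -, hsplit⟩ :=
    s59q_exists_coeffRing_padic p 1 one_pos
  -- the raising primes
  set Rs : Finset ℕ := W.Δ.natAbs.primeFactors.filter (fun q => q ≠ p ∧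
    (s59q_WRhobar W hΔ hp𝒪).IsUnramifiedAt q ∧ ¬ (s59q_WRho W hΔ hp𝒪).IsUnramifiedAt q)
    with hRsdef
  have hRs : ∀ q ∈ Rs, q.Prime ∧ q ≠ p ∧ ¬ q ∣ N₀ ∧ ¬ W.IsGoodPrimeFor q ∧
      (s59q_WRhobar W hΔ hp𝒪).IsUnramifiedAt q ∧
      ¬ (s59q_WRho W hΔ hp𝒪).IsUnramifiedAt q := by
    intro q hq
    obtain ⟨hqΔ, hqp, hU, hram⟩ := Finset.mem_filter.mp hq
    rw [Nat.mem_primeFactors] at hqΔ
    have hbadq : ¬ W.IsGoodPrimeFor q := fun hg => hg (Int.natCast_dvd.mpr hqΔ.2.1)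
    refine ⟨hqΔ.1, hqp, ?_, hbadq, hU, hram⟩
    intro hqN
    rcases hNtype q hqΔ.1 hqN with h | ⟨hg, -, -⟩
    · exact h ((s59q_W_unram_iff W hΔ hp𝒪 q).mp hU)
    · exact hbadq hg
  have hunrW : ∀ q : ℕ, q.Prime → q ∉ s59q_WSmin W hΔ hp𝒪 ∪ Rs →
      (s59q_WRho W hΔ hp𝒪).IsUnramifiedAt q := by
    intro q hq hqS
    have hqSmin : q ∉ s59q_WSmin W hΔ hp𝒪 := fun h => hqS (Finset.mem_union_left _ h)
    have hqRs : q ∉ Rs := fun h => hqS (Finset.mem_union_right _ h)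
    have hqp : q ≠ p := fun h => hqSmin (h ▸ s59q_WSmin_p_mem W hΔ hp𝒪)
    by_cases hgood : W.IsGoodPrimeFor q
    · exact s59e_bc_unram _ _ _ q (s59b_rhoW_unram hΔ hp2 q hq hqp hgood)
    · by_contra hram
      apply hqRs
      refine Finset.mem_filter.mpr ⟨Nat.mem_primeFactors.mpr ⟨hq,
        Int.natCast_dvd.mp (s59q_W_dvd_disc_of_bad W q hq hgood), Int.natAbs_ne_zero.mpr hΔ⟩,
        hqp, ?_, hram⟩
      by_contra hU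
      exact hqSmin ((s59q_WSmin_hmin W hΔ hp𝒪 hp2 q hq hqp).mpr hU)
  -- the base level data
  set B : Finset ℕ := (N₀ * p).primeFactors ∪ W.Δ.natAbs.primeFactors with hB
  have hB1 : ∀ r : ℕ, r.Prime → r ∣ N₀ * p → r ∈ B := fun r hr hd =>
    Finset.mem_union_left _ (Nat.mem_primeFactors.mpr ⟨hr, hd, Nat.mul_ne_zero hN0 hpp.ne_zero⟩)
  have hB2Δ : ∀ r : ℕ, r.Prime → (r : ℤ) ∣ W.Δ → r ∈ B := fun r hr hd =>
    Finset.mem_union_right _ (Nat.mem_primeFactors.mpr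
      ⟨hr, Int.natCast_dvd.mp hd, Int.natAbs_ne_zero.mpr hΔ⟩)
  have hB2 : ∀ r : ℕ, r.Prime → ¬ W.IsGoodPrimeFor r → r ∈ B := by
    intro r hr hbad'
    refine hB2Δ r hr ?_
    by_contra h
    exact hbad' h
  have hpB : p ∈ B := hB1 p hpp (Dvd.intro_left N₀ rfl)
  have hocc := s59e_Lmin_levelOcc W p N₀ B hB1 hB2 hres
  -- the reduced level `N'`: the primes of `N₀` at which `ρ̄` is ramified
  set T : Finset ℕ := N₀.primeFactors.filter (fun ℓ => ¬ s59_Unr W p ℓ) with hT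
  set N' : ℕ := ∏ ℓ ∈ T, ℓ with hN'
  have hmemN' : ∀ ℓ : ℕ, ℓ.Prime → ℓ ∣ N' → ℓ ∈ T := by
    intro ℓ hℓ hd
    obtain ⟨q, hqT, hq⟩ := (Prime.dvd_finsetProd_iff (Nat.prime_iff.mp hℓ) _).mp hd
    have hqpr : q.Prime := Nat.prime_of_mem_primeFactors (Finset.mem_filter.mp hqT).1
    have : ℓ = q := (Nat.prime_dvd_prime_iff_eq hℓ hqpr).mp hq
    exact this ▸ hqT
  have hE : ∀ q : ℕ, q.Prime → q ∣ N₀ → q ∣ N' ∨
      s59e3q_E2Alt p (s59i_rhobarW W p hΔ 𝒪 hp𝒪) q := by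
    intro q hq hqN
    have hqp : q ≠ p := fun h => hpN (h ▸ hqN)
    rcases hNtype q hq hqN with h | ⟨hg, h1, h2⟩
    · exact Or.inl (Finset.dvd_prod_of_mem _ (Finset.mem_filter.mpr
        ⟨Nat.mem_primeFactors.mpr ⟨hq, hqN, hN0⟩, h⟩))
    · exact Or.inr (s59e3q_E2Alt_of_good W hΔ hp𝒪 hp2 hirr q hq hqp hg h1 h2)
  obtain ⟨Rd, hSmin, hm, he⟩ := s59e_Lmin_RData W hΔ hp𝒪 hp35 hss hirr hsplit N' B hpB hB2Δ
    (fun q hq hqN' => by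
      have hqT := hmemN' q hq hqN'
      have hqN : q ∣ N₀ := Nat.dvd_of_mem_primeFactors (Finset.mem_filter.mp hqT).1
      have hqp : q ≠ p := fun h => hpN (h ▸ hqN)
      exact Or.inl ((s59q_WSmin_hmin W hΔ hp𝒪 hp2 q hq hqp).mpr fun hunr =>
        (Finset.mem_filter.mp hqT).2 ((s59q_W_unram_iff W hΔ hp𝒪 q).mp hunr)))
  by_cases hne : Rs.Nonempty
  · -- level raising: a universal ring of minimal type
    obtain ⟨Dm₀⟩ := s59e3e_W_existDQ_E W p hΔ hp2 hirr N₀ B hB1 hB2 hocc 𝒪 hp𝒪 Rd.habs hsq hpN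
      (∅ : Finset ℕ) Rd hE 0 Fin.elim0
    have hEd : Rd.Ed = ∅ := by
      haveI : IsEmpty (Fin Rd.e) := by rw [he]; infer_instance
      rw [← Rd.hprE, Finset.univ_eq_empty, Finset.image_empty]
    have hsub : Rd.Smin ∪ ((∅ : Finset ℕ) ∪ Rd.Ed) ∪ Finset.univ.image (Fin.elim0 : Fin 0 → ℕ) ⊆
        s59q_WSmin W hΔ hp𝒪 := by
      rw [hEd, hSmin, Finset.univ_eq_empty, Finset.image_empty, Finset.union_empty,
        Finset.union_empty, Finset.union_empty]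
    have hDm : Nonempty (GaloisRep.DeformationRingData 𝒪 (s59i_rhobarW W p hΔ 𝒪 hp𝒪)
        (fun _A _ _ _ ρ => GaloisRep.flatCondition 𝒪 p (s59q_WSmin W hΔ hp𝒪) ρ ∧
          ∀ q ∈ s59q_WSmin W hΔ hp𝒪 ∪ Rs, q.Prime → q ≠ p → ρ.IsUnipotentOnInertiaAt q)) := by
      refine s59q_exists_DQ_flat p hp2 hp𝒪 (s59i_rhobarW W p hΔ 𝒪 hp𝒪) Rd.habs
        (s59q_WSmin W hΔ hp𝒪) (s59q_WSmin W hΔ hp𝒪) (s59q_WSmin W hΔ hp𝒪 ∪ Rs)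
        (Finset.Subset.refl _) (s59q_WSmin_p_mem W hΔ hp𝒪) ?_ inferInstance
        Dm₀.residue_surjective Dm₀.ρ ⟨s59f_flatCondition_mono p hsub Dm₀.ρ Dm₀.isOfType.1, ?_⟩
        Dm₀.residual_isEquiv
      · intro q hq hqS
        have hqp : q ≠ p := fun h => hqS (h ▸ s59q_WSmin_p_mem W hΔ hp𝒪)
        by_contra hram
        exact hqS ((s59q_WSmin_hmin W hΔ hp𝒪 hp2 q hq hqp).mpr hram)
      · intro q hq hqP hqp
        rcases Finset.mem_union.mp hq with h | h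
        · exact Dm₀.isOfType.2 q (hSmin ▸ h) hqP hqp
        · refine s59f_unip_of_unram Dm₀.ρ q (Dm₀.isOfType.1.2.2 q hqP fun hmem => ?_)
          have h1 := hsub hmem
          exact ((s59q_WSmin_hmin W hΔ hp𝒪 hp2 q hqP hqp).mp h1) (hRs q h).2.2.2.2.1
    obtain ⟨N, iN, χ, h1, h2, h3⟩ := s59f_FLR_W_core p hp35 W hΔ hss hirr hgoodp N₀ hN0 hsq hpN 𝒪
      hp𝒪 hsplit Rs hne hRs hunrW hDm HT
    exact ⟨N, iN, _, 𝒪, inferInstance, inferInstance, inferInstance, χ, h1, h2, h3⟩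
  · -- the minimal case
    rw [Finset.not_nonempty_iff_eq_empty] at hne
    obtain ⟨χ, hχ⟩ := s59q_f3_Lmin_abs_unr p hp2 W hΔ N₀ B hss hirr hsq hpN hB1 hB2 hocc hgoodp 𝒪
      hp𝒪 N' Rd hE hm he
      (fun q hq hqp hbad hqS => hunrW q hq (by
        rw [hne, Finset.union_empty, ← hSmin]
        exact hqS))
      (fun D0 r => s59q_l3e_TPkgLH p hp2 W hΔ N₀ (∅ : Finset ℕ) B hirr hsq hpN hB1 hB2 hocc h23
        𝒪 hp𝒪 N' Rd hE D0 r (s59q_ZIdx Rd.m Rd.e))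
    exact ⟨N₀, inferInstance, B, 𝒪, inferInstance, inferInstance, inferInstance, χ, hsq, hpN, hχ⟩

/-- **[PATCH-FLR], flat case, `p ∈ {3, 5}`, in the shape of `s59g_HeckePt W p`, at an EVEN minimal level `M`** whose primes are ramified
primes of `ρ̄` or of type (E2′) (`s59g_E2 W p q`); NO hypothesis on the bad primes of `W`; over the `T`-side contract at the base level `M`. -/
theorem s59q_f3_FLR_heckePt (p : ℕ) [Fact p.Prime] (hp35 : p = 3 ∨ p = 5)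
    (W : WeierstrassCurve ℤ) (hΔ : W.Δ ≠ 0) (hss : W.IsSemistableModel)
    (hirr : W.ModRepIsIrreducible p) (hgoodp : W.IsGoodPrimeFor p)
    (M : ℕ) (hM0 : 0 < M) (hsq : Squarefree M) (hpM : ¬ p ∣ M) (h2M : 2 ∣ M)
    (hram : ∀ q : ℕ, q.Prime → q ≠ p → q ∣ M → ¬ s59_Unr W p q ∨
      (W.IsGoodPrimeFor q ∧ ¬ p ∣ q - 1 ∧
        ¬ (p : ℤ) ∣ (W.apOfModel q : ℤ) ^ 2 - ((q : ℤ) + 1) ^ 2))
    (hres : W.IsResiduallyModularOfLevel p M)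
    (HT : s59f_TPkgFLR p W hΔ M) :
    ∃ (N : ℕ) (_ : NeZero N) (B : Finset ℕ) (𝒪 : Type) (_ : CommRing 𝒪) (_ : IsDomain 𝒪)
      (_ : CharZero 𝒪) (χ : CuspForm.heckeAlgebra N 2 (↑B : Set ℕ) →+* 𝒪),
      ¬ p ^ 2 ∣ N ∧ (∀ q : ℕ, q.Prime → ¬ q ^ 3 ∣ N) ∧
      ∀ (ℓ : ℕ) (hℓ : ℓ.Prime) (hℓN : ¬ ℓ ∣ N) (hℓB : ℓ ∉ (↑B : Set ℕ)),
        χ (CuspForm.heckeAlgebra.T hℓ hℓN hℓB) = ((W.apOfModel ℓ : ℤ) : 𝒪) := by
  haveI : NeZero M := ⟨hM0.ne'⟩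
  obtain ⟨N, iN, B, 𝒪, i1, i2, i3, χ, hNsq, hpN, hχ⟩ := s59q_f3_FLR_flat p hp35 W hΔ hss hirr hgoodp M hsq
    hpM h2M hres (fun q hq hqM => hram q hq (fun h => hpM (h ▸ hqM)) hqM) HT
  refine ⟨N, iN, B, 𝒪, i1, i2, i3, χ, ?_, ?_, hχ⟩
  · exact fun h => hpN (dvd_trans (dvd_pow_self p two_ne_zero) h)
  · intro q hq h
    have h2 : q * q ∣ N := dvd_trans ⟨q, by ring⟩ h
    exact hq.not_isUnit (hNsq q h2)

end Fermat.Agent.Lib.S59
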