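/-
PROGRAMME (R2) = S59, node [PATCH-FLR] at `p = 3` (helper6, prefix `s59q_f3_`): **THE ADAPTER AT EVEN LEVELS, `p ∈ {3, 5}`: THE FINAL
`T`-SIDE STATEMENT ⟹ helper4's CONTRACT `s59f_TPkgFLR p W hΔ N₀`** — scripted twin of helper4's FAsmW6.lean (`5 ≤ p`, `2 ∣ N ∨ 3 ∣ N` replaced by
`2 ∣ N`; (E2′)-primes in the form `s59g_E2 W p q`).

* `s59q_f3_TFin p W hΔ`         : the chain statement (= helper8's `s59c3_TFin` without the exports at the level `0`);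
* **`s59q_f3_TPkgFLR_of_TFin`**, **`s59q_f3_FLR_heckePt_fin`**.
-/
import Mathlib
import Fermat.Agent.Lib.S59.Q3FlrW5
import Fermat.Agent.Lib.S59.FAsmW6

set_option autoImplicit false
set_option linter.unusedSectionVars false
set_option linter.unusedVariables false
set_option linter.style.haveILetI false
set_option synthInstance.maxHeartbeats 400000
set_option maxHeartbeats 3200000

noncomputable section

namespace Fermat.Agent.Lib.S59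

open IsLocalRing Polynomial CuspForm ExtCitation
open Fermat.Agent.Lib.S53 (NormData exists_normData)
open Fermat.Agent.Lib.S56 Fermat.Agent.Lib.S44

local notation "Γℚ" => (AlgebraicClosure ℚ ≃ₐ[ℚ] AlgebraicClosure ℚ)

/-- **the final `T`-side statement of [PATCH-FLR], flat at `p`, `p` odd, EVEN levels**: helper4's `s59f_TFinR` (= helper5's `s59efl_TFin`) with
`5 ≤ p` replaced by `p ≠ 2` and `2 ∣ N t ∨ 3 ∣ N t` by `2 ∣ N t` (= helper8's `s59c3_TFin`, C3FlrFinS.lean, WITHOUT its exports at the level `0`). -/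
def s59q_f3_TFin (p : ℕ) [Fact p.Prime] (W : WeierstrassCurve ℤ) (hΔ : W.Δ ≠ 0) : Prop :=
  ∀ (hp2 : p ≠ 2) (B : Finset ℕ) (hirr : W.ModRepIsIrreducible p)
    (hB2 : ∀ r : ℕ, r.Prime → ¬ W.IsGoodPrimeFor r → r ∈ B)
    (𝒪 : Type) [CommRing 𝒪] [IsDomain 𝒪] [IsDiscreteValuationRing 𝒪]
    [IsAdicComplete (maximalIdeal 𝒪) 𝒪] [Finite (ResidueField 𝒪)] [CharZero 𝒪]
    [Algebra ℤ_[p] 𝒪] [Module.Finite ℤ_[p] 𝒪]
    (hp𝒪 : ((p : ℕ) : 𝒪) ∈ maximalIdeal 𝒪)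
    (habs : (s59i_rhobarW W p hΔ 𝒪 hp𝒪).IsAbsolutelyIrreducible)
    (Nd : NormData (s59i_rhobarW W p hΔ 𝒪 hp𝒪))
    -- the chain of levels
    (k : ℕ) (N : ℕ → ℕ) (qr : ℕ → ℕ) (hNZ : ∀ t, NeZero (N t))
    (hqr : ∀ t, t < k → (qr t).Prime)
    (hN : ∀ t, t < k → N (t + 1) = N t * qr t)
    (hfreeze : ∀ t, k ≤ t → N t = N k)
    (hsq : ∀ t, Squarefree (N t)) (hpN : ∀ t, ¬ p ∣ N t)
    (hB1 : ∀ t, ∀ r : ℕ, r.Prime → r ∣ N t * p → r ∈ B)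
    (hocc : ∀ t, Fermat.Agent.Lib.S44.s44i_LevelOcc (N t) p (fun ℓ => W.apOfModel ℓ) B)
    (h23 : ∀ t, 2 ∣ N t)
    -- Frobenius and inertia elements at the raising primes
    (φr σr : ℕ → Γℚ)
    (hφr : ∀ t, t < k → ∃ A : ValuationSubring (AlgebraicClosure ℚ),
      A.LiesOverPrime (qr t) ∧ A.IsFrobeniusAt (φr t) (qr t))
    (hσr : ∀ t, t < k → ∃ A : ValuationSubring (AlgebraicClosure ℚ),
      A.LiesOverPrime (qr t) ∧ σr t ∈ A.inertiaSubgroupIn ℚ)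
    -- the deformation types
    (Sg0 Su Smin Sgm : Finset ℕ) (hpSgm : p ∈ Sgm) (hSgm0 : Sgm ⊆ Sg0) (hSminSgm : Smin ⊆ Sgm)
    (hmin : ∀ q : ℕ, q.Prime → q ≠ p →
      (q ∈ Smin ↔ ¬ (s59i_rhobarW W p hΔ 𝒪 hp𝒪).IsUnramifiedAt q))
    (hSuB : Su ⊆ B)
    (hSgN : ∀ t, ∀ q : ℕ, q.Prime → q ∣ N t →
      q ∈ Sg0 ∨ s59e3q_E2Alt p (s59i_rhobarW W p hΔ 𝒪 hp𝒪) q)
    (hSgmN : ∀ q : ℕ, q.Prime → q ∣ N 0 →
      q ∈ Sgm ∨ s59e3q_E2Alt p (s59i_rhobarW W p hΔ 𝒪 hp𝒪) q)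
    (hqrSgm : ∀ t, t < k → qr t ∉ Sgm)
    (D0 : GaloisRep.DeformationRingData 𝒪 (s59i_rhobarW W p hΔ 𝒪 hp𝒪) (fun _A _ _ _ ρ =>
      GaloisRep.flatCondition 𝒪 p Sg0 ρ ∧
        ∀ q ∈ Su, q.Prime → q ≠ p → ρ.IsUnipotentOnInertiaAt q))
    (Dm : GaloisRep.DeformationRingData 𝒪 (s59i_rhobarW W p hΔ 𝒪 hp𝒪) (fun _A _ _ _ ρ =>
      GaloisRep.flatCondition 𝒪 p Sgm ρ ∧
        ∀ q ∈ Su, q.Prime → q ≠ p → ρ.IsUnipotentOnInertiaAt q))
    (σ : Type) [DecidableEq σ] [Fintype σ],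
    ∃ Bs : s59f_TBaseF 𝒪 k D0,
      s59e_HkFrobP (N k) (↑B : Set ℕ) (Bs.R k) (Bs.ρR k) ∧
      ∀ (r : ℕ) (n : ℕ) (qv : Fin r → ℕ), Function.Injective qv →
        (∀ i, (qv i).Prime ∧ qv i ∉ B ∧ p ^ (n + 1) ∣ qv i - 1) →
        (∀ i, ∀ A : ValuationSubring (AlgebraicClosure ℚ), A.LiesOverPrime (qv i) →
          ∀ φ : Γℚ, A.IsFrobeniusAt φ (qv i) →
            ∃ α β : ResidueField 𝒪, α ≠ β ∧
              LinearMap.charpoly ((s59i_rhobarW W p hΔ 𝒪 hp𝒪).ρ φ) = (X - C α) * (X - C β)) →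
        ∀ DQ : GaloisRep.DeformationRingData 𝒪 (s59i_rhobarW W p hΔ 𝒪 hp𝒪) (fun _A _ _ _ ρ =>
          GaloisRep.flatCondition 𝒪 p (Sg0 ∪ Finset.univ.image qv) ρ ∧
            ∀ q ∈ Su, q.Prime → q ≠ p → ρ.IsUnipotentOnInertiaAt q),
          Nonempty (s59f_TLevelF 𝒪 p n r σ k Bs qv qr φr σr DQ)

/-- **the adapter at an EVEN base level `N₀`, `p ∈ {3, 5}`: the final `T`-side statement ⟹ helper4's contract `s59f_TPkgFLR p W hΔ N₀`** (the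
primes of `N₀` ramified or of type (E2′) in the form `s59g_E2 W p q`). -/
theorem s59q_f3_TPkgFLR_of_TFin (p : ℕ) [hpF : Fact p.Prime] (hp35 : p = 3 ∨ p = 5)
    (W : WeierstrassCurve ℤ) (hΔ : W.Δ ≠ 0) (hss : W.IsSemistableModel)
    (hirr : W.ModRepIsIrreducible p)
    (N₀ : ℕ) (hsq : Squarefree N₀) (hpN₀ : ¬ p ∣ N₀) (h23 : 2 ∣ N₀)
    (hres : W.IsResiduallyModularOfLevel p N₀)
    (hNtype : ∀ q : ℕ, q.Prime → q ∣ N₀ → ¬ s59_Unr W p q ∨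
      (W.IsGoodPrimeFor q ∧ ¬ p ∣ q - 1 ∧
        ¬ (p : ℤ) ∣ (W.apOfModel q : ℤ) ^ 2 - ((q : ℤ) + 1) ^ 2))
    (HF : s59q_f3_TFin p W hΔ) : s59f_TPkgFLR p W hΔ N₀ := by
  intro 𝒪 _ _ _ _ _ _ _ _ hp𝒪 hsplitℤ m e pr σq φq step k N _ B hinj hprops hσq hφq hsigns hstep
    hcover hN hNsq hpN hB hunrW hDm D0
  classical
  have hpP : p.Prime := hpF.out
  have hp2 : p ≠ 2 := by rcases hp35 with rfl | rfl <;> norm_num
  obtain ⟨Dm⟩ := hDm
  have habs := s59q_W_habs W hΔ hp𝒪 hp35 hss hirr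
  obtain ⟨Nd⟩ := exists_normData (s59q_WRhobar W hΔ hp𝒪) habs
  have hN0 : N ≠ 0 := NeZero.ne N
  -- the levels
  have hprodk : ∏ l ∈ Finset.range k, ((pr (Sum.swap (step l)) : ℕ)) = ∏ t, (pr t : ℕ) := by
    rw [s59f_prod_step step k hstep hcover (fun s => (pr (Sum.swap s) : ℕ))]
    exact Fintype.prod_equiv (Equiv.sumComm _ _) _ _ (fun s => rfl)
  have hNk : N₀ * ∏ l ∈ Finset.range (min k k), ((pr (Sum.swap (step l)) : ℕ)) = N := by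
    rw [hN, min_self, hprodk]
  have hNfdvd : ∀ t, N₀ * ∏ l ∈ Finset.range (min t k), ((pr (Sum.swap (step l)) : ℕ)) ∣ N := by
    intro t
    rw [hN, ← hprodk]
    exact Nat.mul_dvd_mul_left _ (Finset.prod_dvd_prod_of_subset _ _ _
      (Finset.range_subset_range.mpr (min_le_right t k)))
  have hN₀dvd : ∀ t, N₀ ∣ N₀ * ∏ l ∈ Finset.range (min t k), ((pr (Sum.swap (step l)) : ℕ)) :=
    fun t => Dvd.intro _ rfl
  have hB1 : ∀ t, ∀ r : ℕ, r.Prime →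
      r ∣ (N₀ * ∏ l ∈ Finset.range (min t k), ((pr (Sum.swap (step l)) : ℕ))) * p → r ∈ B := by
    intro t r hr hd
    rw [hB]
    exact Finset.mem_union_left _ (Nat.mem_primeFactors.mpr
      ⟨hr, hd.trans (Nat.mul_dvd_mul_right (hNfdvd t) p), Nat.mul_ne_zero hN0 hpP.ne_zero⟩)
  have hB2Δ : ∀ r : ℕ, r.Prime → (r : ℤ) ∣ W.Δ → r ∈ B := by
    intro r hr hd
    rw [hB]
    exact Finset.mem_union_right _ (Nat.mem_primeFactors.mpr
      ⟨hr, Int.natCast_dvd.mp hd, Int.natAbs_ne_zero.mpr hΔ⟩)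
  have hB2 : ∀ r : ℕ, r.Prime → ¬ W.IsGoodPrimeFor r → r ∈ B := by
    intro r hr hbad'
    refine hB2Δ r hr ?_
    by_contra h
    exact hbad' h
  have hpB : p ∈ B := by
    have := hB1 k p hpP (Dvd.intro_left _ rfl)
    exact this
  have hsqf : ∀ t, Squarefree (N₀ * ∏ l ∈ Finset.range (min t k),
      ((pr (Sum.swap (step l)) : ℕ))) := fun t => hNsq.squarefree_of_dvd (hNfdvd t)
  -- membership of the raising primes
  have hprmem : ∀ t, (pr t : ℕ) ∈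
      Finset.univ.image (fun j : Fin m => (pr (Sum.inl j) : ℕ)) ∪
        Finset.univ.image (fun l : Fin e => (pr (Sum.inr l) : ℕ)) := by
    rintro (j | l)
    · exact Finset.mem_union_left _ (Finset.mem_image_of_mem _ (Finset.mem_univ j))
    · exact Finset.mem_union_right _ (Finset.mem_image_of_mem _ (Finset.mem_univ l))
  have hE2 : ∀ q : ℕ, q.Prime → q ∣ N₀ →
      q ∈ s59q_WSmin W hΔ hp𝒪 ∨ s59e3q_E2Alt p (s59i_rhobarW W p hΔ 𝒪 hp𝒪) q := by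
    intro q hq hqN
    have hqp : q ≠ p := fun h => hpN₀ (h ▸ hqN)
    rcases hNtype q hq hqN with h | ⟨hg, h1, h2⟩
    · exact Or.inl ((s59q_WSmin_hmin W hΔ hp𝒪 hp2 q hq hqp).mpr fun hunr =>
        h ((s59q_W_unram_iff W hΔ hp𝒪 q).mp hunr))
    · exact Or.inr (s59e3q_E2Alt_of_good W hΔ hp𝒪 hp2 hirr q hq hqp hg h1 h2)
  have H := HF hp2 B hirr hB2 𝒪 hp𝒪 habs Nd k
    (fun t => N₀ * ∏ l ∈ Finset.range (min t k), ((pr (Sum.swap (step l)) : ℕ)))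
    (fun t => (pr (Sum.swap (step t)) : ℕ))
    (fun t => ⟨fun h0 => hN0 (Nat.eq_zero_of_zero_dvd (h0 ▸ hNfdvd t))⟩)
    (fun t _ => (pr (Sum.swap (step t))).2)
    (fun t ht => by
      show N₀ * ∏ l ∈ Finset.range (min (t + 1) k), ((pr (Sum.swap (step l)) : ℕ)) =
        (N₀ * ∏ l ∈ Finset.range (min t k), ((pr (Sum.swap (step l)) : ℕ))) *
          (pr (Sum.swap (step t)) : ℕ)
      rw [min_eq_left (Nat.succ_le_of_lt ht), min_eq_left ht.le, Finset.prod_range_succ, mul_assoc])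
    (fun t ht => by
      show N₀ * ∏ l ∈ Finset.range (min t k), ((pr (Sum.swap (step l)) : ℕ)) =
        N₀ * ∏ l ∈ Finset.range (min k k), ((pr (Sum.swap (step l)) : ℕ))
      rw [min_eq_right ht, min_self])
    hsqf (fun t h => hpN (h.trans (hNfdvd t))) hB1
    (fun t => s59e_Lmin_levelOcc W p _ B (hB1 t) hB2
      (s59v_resMod_mono (hN₀dvd t) (hsqf t) hres))
    (fun t => h23.trans (hN₀dvd t))
    (fun t => φq (Sum.swap (step t))) (fun t => σq (Sum.swap (step t)))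
    (fun t _ => ⟨primeLocalPlace (pr (Sum.swap (step t))), s56z_place_liesOver _, hφq _⟩)
    (fun t _ => ⟨primeLocalPlace (pr (Sum.swap (step t))), s56z_place_liesOver _, (hσq _).1⟩)
    (s59q_WSmin W hΔ hp𝒪 ∪
      (Finset.univ.image (fun j : Fin m => (pr (Sum.inl j) : ℕ)) ∪
        Finset.univ.image (fun l : Fin e => (pr (Sum.inr l) : ℕ))))
    (s59q_WSmin W hΔ hp𝒪 ∪
      (Finset.univ.image (fun j : Fin m => (pr (Sum.inl j) : ℕ)) ∪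
        Finset.univ.image (fun l : Fin e => (pr (Sum.inr l) : ℕ))))
    (s59q_WSmin W hΔ hp𝒪) (s59q_WSmin W hΔ hp𝒪)
    (s59q_WSmin_p_mem W hΔ hp𝒪) Finset.subset_union_left (Finset.Subset.refl _)
    (s59q_WSmin_hmin W hΔ hp𝒪 hp2)
    (by
      intro q hq
      rcases Finset.mem_union.mp hq with h | h
      · exact s59q_WSmin_subset W hΔ hp𝒪 B hpB hB2Δ h
      · have : ∃ t, (pr t : ℕ) = q := by
          rcases Finset.mem_union.mp h with h' | h'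
          · obtain ⟨j, -, hj⟩ := Finset.mem_image.mp h'
            exact ⟨Sum.inl j, hj⟩
          · obtain ⟨l, -, hl⟩ := Finset.mem_image.mp h'
            exact ⟨Sum.inr l, hl⟩
        obtain ⟨t, rfl⟩ := this
        exact hB2 _ (pr t).2 (hprops t).2.2.1)
    (by
      intro t q hq hqN
      rcases (Nat.Prime.dvd_mul hq).mp hqN with h | h
      · exact (hE2 q hq h).imp (fun h' => Finset.mem_union_left _ h') id
      · obtain ⟨l, -, hd⟩ := (Prime.dvd_finsetProd_iff hq.prime _).mp h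
        have hql : q = (pr (Sum.swap (step l)) : ℕ) :=
          (Nat.prime_dvd_prime_iff_eq hq (pr (Sum.swap (step l))).2).mp hd
        rw [hql]
        exact Or.inl (Finset.mem_union_right _ (hprmem _)))
    (by
      intro q hq hqN
      have hqN' : q ∣ N₀ := by
        have h0 : N₀ * ∏ l ∈ Finset.range (min 0 k), ((pr (Sum.swap (step l)) : ℕ)) = N₀ := by
          rw [Nat.zero_min, Finset.range_zero, Finset.prod_empty, mul_one]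
        rw [← h0]
        exact hqN
      exact hE2 q hq hqN')
    (by
      intro t _ hmem
      exact ((s59q_WSmin_hmin W hΔ hp𝒪 hp2 _ (pr (Sum.swap (step t))).2
        (hprops _).1).mp hmem) (hprops _).2.2.2.1)
    D0 Dm (s59q_ZIdx m e)
  obtain ⟨Bs, hHk, HL⟩ := H
  refine ⟨Bs, ?_, fun r _ n qv h1 h2 h3 DQ => HL r n qv h1 h2 h3 DQ⟩
  haveI hNZk : NeZero (N₀ * ∏ l ∈ Finset.range (min k k), ((pr (Sum.swap (step l)) : ℕ))) :=
    ⟨fun h0 => hN0 (Nat.eq_zero_of_zero_dvd (h0 ▸ hNfdvd k))⟩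
  exact s59f_HkFrobP_congr hNk (↑B : Set ℕ) (Bs.R k) (Bs.ρR k) hHk

/-- **[PATCH-FLR], flat case, `p ∈ {3, 5}`, EVEN minimal level `M`, in the shape of `s59g_HeckePt W p`, over the final `T`-side statement**
(= `s59q_l3e_Lmin_heckePt` WITHOUT the hypothesis `hbad` on the bad primes of `W`). -/
theorem s59q_f3_FLR_heckePt_fin (p : ℕ) [Fact p.Prime] (hp35 : p = 3 ∨ p = 5)
    (W : WeierstrassCurve ℤ) (hΔ : W.Δ ≠ 0) (hss : W.IsSemistableModel)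
    (hirr : W.ModRepIsIrreducible p) (hgoodp : W.IsGoodPrimeFor p)
    (M : ℕ) (hM0 : 0 < M) (hsq : Squarefree M) (hpM : ¬ p ∣ M) (h2M : 2 ∣ M)
    (hram : ∀ q : ℕ, q.Prime → q ≠ p → q ∣ M → ¬ s59_Unr W p q ∨
      (W.IsGoodPrimeFor q ∧ ¬ p ∣ q - 1 ∧
        ¬ (p : ℤ) ∣ (W.apOfModel q : ℤ) ^ 2 - ((q : ℤ) + 1) ^ 2))
    (hres : W.IsResiduallyModularOfLevel p M)
    (HF : s59q_f3_TFin p W hΔ) :
    ∃ (N : ℕ) (_ : NeZero N) (B : Finset ℕ) (𝒪 : Type) (_ : CommRing 𝒪) (_ : IsDomain 𝒪)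
      (_ : CharZero 𝒪) (χ : CuspForm.heckeAlgebra N 2 (↑B : Set ℕ) →+* 𝒪),
      ¬ p ^ 2 ∣ N ∧ (∀ q : ℕ, q.Prime → ¬ q ^ 3 ∣ N) ∧
      ∀ (ℓ : ℕ) (hℓ : ℓ.Prime) (hℓN : ¬ ℓ ∣ N) (hℓB : ℓ ∉ (↑B : Set ℕ)),
        χ (CuspForm.heckeAlgebra.T hℓ hℓN hℓB) = ((W.apOfModel ℓ : ℤ) : 𝒪) :=
  s59q_f3_FLR_heckePt p hp35 W hΔ hss hirr hgoodp M hM0 hsq hpM h2M hram hres
    (s59q_f3_TPkgFLR_of_TFin p hp35 W hΔ hss hirr M hsq hpM h2M hres
      (fun q hq hqM => hram q hq (fun h => hpM (h ▸ hqM)) hqM) HF)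

end Fermat.Agent.Lib.S59
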