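/-
PROGRAMME (R2) = S59, node [PATCH-FLR] at `p = 3` (helper6, prefix `s59q_f3_` / `s59q_sf3_`): **helper1's FIELD `liftABgt` (`s59g_LIFTThreeGT`,
Graph3Y.lean; [LIFT_W] at `p = 3`, `2` of type (a)/(b), case (GT)) FROM THE TWO FINAL `T`-SIDE STATEMENTS AT EVEN LEVELS** — the flat one
`s59q_f3_TFin 3 W hΔ` (Q3FlrW6.lean; = helper8's `s59c3_TFin` without its exports) and the strict one `s59q_sf3_TFin 3 W hΔ` (Q3SFlrW6.lean).
Minimal AND non-minimal cases at once (no hypothesis on the bad primes of `W`).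

* (`s59q_f3_TFin_of_c3 : s59c3_TFin p W hΔ → s59q_f3_TFin p W hΔ` is in Q3FlrW9.lean);
* **`s59q_f3_LIFTThreeGT_flat`**   : the half `W` good at `3`;   **`s59q_sf3_LIFTThreeGT_tres`** : the half `ρ̄` très ramifié at `3`;
* **`s59q_sf3_LIFTThreeGT_of_TFin`** : the field.
-/
import Mathlib
import Fermat.Agent.Lib.S59.Q3FlrW6
import Fermat.Agent.Lib.S59.Q3SFlrW6
import Fermat.Agent.Lib.S59.Graph3Y
import Fermat.Agent.Lib.S59.GXpt

set_option autoImplicit false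
set_option linter.unusedSectionVars false
set_option linter.unusedVariables false
set_option linter.style.haveILetI false

noncomputable section

namespace Fermat.Agent.Lib.S59

/-- the tolerant form of the ramification hypothesis of the field `liftABgt`. -/
theorem s59q_f3_hram_of_T2 (W : WeierstrassCurve ℤ) (M : ℕ) (hT2 : s59g_T2 W)
    (hram : ∀ q : ℕ, q.Prime → q ≠ 3 → q ≠ 2 → q ∣ M → ¬ s59_Unr W 3 q) :
    ∀ q : ℕ, q.Prime → q ≠ 3 → q ∣ M → ¬ s59_Unr W 3 q ∨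
      (W.IsGoodPrimeFor q ∧ ¬ 3 ∣ q - 1 ∧
        ¬ ((3 : ℕ) : ℤ) ∣ (W.apOfModel q : ℤ) ^ 2 - ((q : ℤ) + 1) ^ 2) := by
  intro q hq hq3 hqM
  by_cases hq2 : q = 2
  · subst hq2
    rcases hT2 with h | h
    · exact Or.inl h
    · exact Or.inr h
  · exact Or.inl (hram q hq hq3 hq2 hqM)

/-- **the half `W` GOOD at `3` of `s59g_LIFTThreeGT`**, over the flat final `T`-side statement at even levels. -/
theorem s59q_f3_LIFTThreeGT_flat [Fact (Nat.Prime 3)]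
    (HF : ∀ (W : WeierstrassCurve ℤ) (hΔ : W.Δ ≠ 0), s59q_f3_TFin 3 W hΔ)
    (W : WeierstrassCurve ℤ) (hΔ : W.Δ ≠ 0) (hss : W.IsSemistableModel)
    (hirr : W.ModRepIsIrreducible 3) (M : ℕ) (hinv : s59g_Inv2T W 3 M)
    (hgood : W.IsGoodPrimeFor 3) (h2M : 2 ∣ M) (hT2 : s59g_T2 W)
    (hram : ∀ q : ℕ, q.Prime → q ≠ 3 → q ≠ 2 → q ∣ M → ¬ s59_Unr W 3 q)
    (hres : W.IsResiduallyModularOfLevel 3 M) : s59g_AlmostModular W 3 :=
  s59g_almost_of_heckePt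
    (s59q_f3_FLR_heckePt_fin 3 (Or.inl rfl) W hΔ hss hirr hgood M hinv.1 hinv.2.1
      (fun h => hinv.2.2 h (s59g_peu_of_good W 3 hgood)) h2M (s59q_f3_hram_of_T2 W M hT2 hram) hres
      (HF W hΔ))

/-- **the half `ρ̄` TRÈS RAMIFIÉ at `3` of `s59g_LIFTThreeGT`**, over the strict final `T`-side statement at even levels. -/
theorem s59q_sf3_LIFTThreeGT_tres [Fact (Nat.Prime 3)]
    (HS : ∀ (W : WeierstrassCurve ℤ) (hΔ : W.Δ ≠ 0), s59q_sf3_TFin 3 W hΔ)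
    (W : WeierstrassCurve ℤ) (hΔ : W.Δ ≠ 0) (hss : W.IsSemistableModel)
    (hirr : W.ModRepIsIrreducible 3) (M : ℕ) (hinv : s59g_Inv2T W 3 M)
    (hpeu : ¬ s59g_Peu W 3) (h2M : 2 ∣ M) (hT2 : s59g_T2 W)
    (hram : ∀ q : ℕ, q.Prime → q ≠ 3 → q ≠ 2 → q ∣ M → ¬ s59_Unr W 3 q)
    (hres : W.IsResiduallyModularOfLevel 3 M) : s59g_AlmostModular W 3 :=
  s59g_almost_of_heckePt
    (s59q_sf3_FLR_heckePt_fin 3 (Or.inl rfl) W hΔ hss hirr hpeu M hinv.1 hinv.2.1 h2M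
      (s59q_f3_hram_of_T2 W M hT2 hram) hres (HS W hΔ))

/-- **the field `liftABgt`** from the flat and the strict final `T`-side statements at even levels. -/
theorem s59q_sf3_LIFTThreeGT_of_TFin [Fact (Nat.Prime 3)]
    (HF : ∀ (W : WeierstrassCurve ℤ) (hΔ : W.Δ ≠ 0), s59q_f3_TFin 3 W hΔ)
    (HS : ∀ (W : WeierstrassCurve ℤ) (hΔ : W.Δ ≠ 0), s59q_sf3_TFin 3 W hΔ) :
    s59g_LIFTThreeGT := by
  intro W hΔ hW hirr M hinv hGT h2M hT2 hram hres
  by_cases hpeu : s59g_Peu W 3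
  · have hgood : W.IsGoodPrimeFor 3 := by
      rcases hGT with h | h
      · exact h
      · exact absurd hpeu h
    exact s59q_f3_LIFTThreeGT_flat HF W hΔ hW hirr M hinv hgood h2M hT2 hram hres
  · exact s59q_sf3_LIFTThreeGT_tres HS W hΔ hW hirr M hinv hpeu h2M hT2 hram hres

end Fermat.Agent.Lib.S59

end
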