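/-
PROGRAMME (R2) = S59, [STRICT-p], the `p ∣ M` halves of the [LIFT] fields (GT), node [PATCH-FLR] (helper6, prefix `s59q_pf_`):
**THE TRÈS RAMIFIÉ HALF OF helper1's FIELD `lift23gt` (`s59g_LIFTfive23GT`, Graph3Y.lean) OVER THE FINAL STRICT `T`-SIDE STATEMENT
`s59q_pf_TFin 5 W hΔ`** (QSFlrW6.lean) — twin of helper4's `s59f_LIFTfive23_flat` (FAsmW8.lean).

* **`s59q_pf_patchTres5`**      : the body of helper1's `s59g_PatchTres5` (GLeavesZb.lean): `ρ̄_{W,5}` très ramifié at `5`, modular of a squarefree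
                                  level `M`, ramified at every prime `≠ 5` of `M`  ⟹  `s59g_HeckePt W 5` (minimal AND non-minimal);
* **`s59q_pf_LIFTfive23_tres`** : the hypothesis `htres` of helper4's `s59f_LIFTfive23GT_of`.
-/
import Mathlib
import Fermat.Agent.Lib.S59.QSFlrW6
import Fermat.Agent.Lib.S59.Graph3Y
import Fermat.Agent.Lib.S59.GXpt

set_option autoImplicit false
set_option linter.unusedSectionVars false
set_option linter.unusedVariables false
set_option linter.style.haveILetI false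

noncomputable section

namespace Fermat.Agent.Lib.S59

open IsLocalRing Polynomial CuspForm

/-- **[PATCH], `ρ̄` très ramifié at `5`** (the body of helper1's `s59g_PatchTres5`), over the final strict `T`-side statement. -/
theorem s59q_pf_patchTres5 [Fact (Nat.Prime 5)]
    (HF : ∀ (W : WeierstrassCurve ℤ) (hΔ : W.Δ ≠ 0), s59q_pf_TFin 5 W hΔ)
    (W : WeierstrassCurve ℤ) (hΔ : W.Δ ≠ 0) (hW : W.IsSemistableModel)
    (hirr : W.ModRepIsIrreducible 5) (hpeu : ¬ s59g_Peu W 5) (M : ℕ) (hM0 : 0 < M)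
    (hsq : Squarefree M)
    (hram : ∀ q : ℕ, q.Prime → q ≠ 5 → q ∣ M → ¬ s59_Unr W 5 q)
    (hres : W.IsResiduallyModularOfLevel 5 M) : s59g_HeckePt W 5 :=
  s59q_pf_FLR_heckePt_fin 5 (Or.inr rfl) le_rfl W hΔ hW hirr hpeu M hM0 hsq hram hres (HF W hΔ)

/-- **the TRÈS RAMIFIÉ half of `s59g_LIFTfive23GT`**, over the final strict `T`-side statement. -/
theorem s59q_pf_LIFTfive23_tres [Fact (Nat.Prime 5)]
    (HF : ∀ (W : WeierstrassCurve ℤ) (hΔ : W.Δ ≠ 0), s59q_pf_TFin 5 W hΔ)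
    (W : WeierstrassCurve ℤ) (hΔ : W.Δ ≠ 0) (hss : W.IsSemistableModel)
    (hirr : W.ModRepIsIrreducible 5) (M : ℕ) (hinv : s59g_Inv2T W 5 M)
    (hbad5 : ¬ W.IsGoodPrimeFor 5) (hpeu : ¬ s59g_Peu W 5) (hT : s59g_T23 W M)
    (hram : ∀ q : ℕ, q.Prime → q ≠ 5 → q ∣ M → ¬ s59_Unr W 5 q)
    (hres : W.IsResiduallyModularOfLevel 5 M) : s59g_AlmostModular W 5 :=
  s59g_almost_of_heckePt
    (s59q_pf_patchTres5 HF W hΔ hss hirr hpeu M hinv.1 hinv.2.1 hram hres)

end Fermat.Agent.Lib.S59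

end
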