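/-
PROGRAMME R2 = S59, case (P), the spectator fields, node [PT-P] (helper3, prefix `s59u_c2_`), file 6:
**THE TWO SPECTATOR FIELDS `liftC1p`, `liftC2p` OF CASE (P) FROM THE EXTENDED FINAL `T`-SIDE STATEMENTS ALONE** (no base point left to the
`T`-side: it is produced from the exports (E2) + (E-conc-P) by `s59u_c2_w_TFinPt_of_X` / `s59u_c2_TFinPt_of_X`, UC2PE.lean).
* **`s59u_c2_LIFTThreeC1P_of_X (HX0 : ∀ W hΔ, s59u_c2_w_TFinPtX 3 W hΔ 2 0) : s59g_LIFTThreeC1P`**;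
* **`s59u_c2_LIFTThreeC2P_of_X (HX0) (HX2 : ∀ W hΔ r, s59u_c2_TFinPtX 3 W hΔ r 0) : s59g_LIFTThreeC2P`**.
-/
import Mathlib
import Fermat.Agent.Lib.S59.UC2PE
import Fermat.Agent.Lib.S59.UC2F

set_option autoImplicit false
set_option linter.unusedSectionVars false
set_option linter.unusedVariables false

noncomputable section

namespace Fermat.Agent.Lib.S59

/-- **the field `liftC1p`** from the extended final weak `T`-side statement of case (P), even levels, spectator `2`, ALONE. -/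
theorem s59u_c2_LIFTThreeC1P_of_X [Fact (Nat.Prime 3)]
    (HX0 : ∀ (W : WeierstrassCurve ℤ) (hΔ : W.Δ ≠ 0), s59u_c2_w_TFinPtX 3 W hΔ 2 0) :
    s59g_LIFTThreeC1P :=
  s59u_c2_LIFTThreeC1P_of' (fun W hΔ => s59u_c2_w_TFinPt_of_X 3 W hΔ (HX0 W hΔ))

/-- **the field `liftC2p`** from the two extended final weak `T`-side statements of case (P), ALONE. -/
theorem s59u_c2_LIFTThreeC2P_of_X [Fact (Nat.Prime 3)]
    (HX0 : ∀ (W : WeierstrassCurve ℤ) (hΔ : W.Δ ≠ 0), s59u_c2_w_TFinPtX 3 W hΔ 2 0)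
    (HX2 : ∀ (W : WeierstrassCurve ℤ) (hΔ : W.Δ ≠ 0) (r : ℕ), s59u_c2_TFinPtX 3 W hΔ r 0) :
    s59g_LIFTThreeC2P :=
  s59u_c2_LIFTThreeC2P_of' (fun W hΔ => s59u_c2_w_TFinPt_of_X 3 W hΔ (HX0 W hΔ))
    (fun W hΔ r => s59u_c2_TFinPt_of_X 3 W hΔ r (HX2 W hΔ r))

end Fermat.Agent.Lib.S59

end
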