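/-
PROGRAMME (R), non-minimal case (P), route (T5w) (helper6, prefix `s59q_`): **the joint bridge with frames and its concrete
instance with one marked free variable, UNCONDITIONAL**: `s59q_bridge_sfJ` (QBrJWire.lean) and `s59q_inst_ordJ`
(QInstOrdJ.lean) with the local bound `hW1` discharged by helper2's [W1] `s59b_lpBound0'` (B9Lp0D.lean).
-/
import Mathlib
import Fermat.Agent.Lib.S59.QInstOrdJ
import Fermat.Agent.Lib.S59.B9Lp0D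

set_option autoImplicit false
set_option linter.style.haveILetI false
set_option linter.unusedSectionVars false
set_option linter.unusedVariables false
set_option maxHeartbeats 1600000

noncomputable section

namespace Fermat.Agent.Lib.S59

open IsLocalRing Module ExtCitation groupCohomology Polynomial Fermat.Agent.Lib.S56
open Fermat.Agent.Lib.S53 (matOf matOfRes NormData)
open Fermat.Agent.Lib.Deform (dualNumberAlgebra IsTestAlgebra)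

attribute [local instance] Fermat.Agent.Lib.Deform.dualNumberAlgebra

local notation "Γℚ" => (AlgebraicClosure ℚ ≃ₐ[ℚ] AlgebraicClosure ℚ)

section Closed

variable {𝒪 : Type} [CommRing 𝒪] [IsDomain 𝒪] [IsDiscreteValuationRing 𝒪]
  [IsAdicComplete (maximalIdeal 𝒪) 𝒪] [Finite (ResidueField 𝒪)]

/-- **`s59q_bridge_sfJ`, UNCONDITIONAL.** -/
theorem s59q_bridge_sfJ_closed (p : ℕ) [Fact p.Prime] (hp2 : p ≠ 2) (hp𝒪 : (p : 𝒪) ∈ maximalIdeal 𝒪)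
    (ρbar : ResidualGaloisRep (ResidueField 𝒪))
    (habs : ρbar.IsAbsolutelyIrreducible)
    (hdet : (GaloisRepAdic.ofResidualGaloisRep ρbar).DetIsCyclotomic p)
    (hsplit : ∀ σ : Γℚ, ∃ α β : ResidueField 𝒪,
      LinearMap.charpoly (ρbar.ρ σ) = (X - C α) * (X - C β))
    (hTW : ∀ (K : Type) [Field K] [Algebra (ResidueField 𝒪) K] (G : Subgroup Γℚ), G.index = 2 →
      ∀ V : Submodule K (ρbar.baseChange K).V,
        (∀ σ ∈ G, ∀ x ∈ V, (ρbar.baseChange K).ρ σ x ∈ V) → V = ⊥ ∨ V = ⊤)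
    (S Smin Bd Ed : Finset ℕ) (hpSmin : p ∈ Smin) (hSmin : Smin ⊆ S) (hBS : Bd ⊆ S) (hES : Ed ⊆ S)
    (hBprime : ∀ q ∈ Bd, q.Prime) (hEprime : ∀ q ∈ Ed, q.Prime)
    (hmin : ∀ q : ℕ, q.Prime → q ≠ p → (q ∈ Smin ↔ ¬ ρbar.IsUnramifiedAt q))
    (hBunr : ∀ q ∈ Bd, q ≠ p ∧ ρbar.IsUnramifiedAt q)
    (hEunr : ∀ q ∈ Ed, q ≠ p ∧ ρbar.IsUnramifiedAt q)
    (hBE : Disjoint Bd Ed)
    (hcen : ∀ q : Nat.Primes, (q : ℕ) ∈ Bd → s59q_CentralAt ρbar q) :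
    ∃ r : ℕ, 3 * Bd.card + Ed.card + 1 ≤ r ∧ ∀ n : ℕ, ∃ qv : Fin r → ℕ, Function.Injective qv ∧
      (∀ i, (qv i).Prime ∧ qv i ∉ S ∧ p ^ (n + 1) ∣ qv i - 1) ∧
      (∀ i, ∀ P : ValuationSubring (AlgebraicClosure ℚ), P.LiesOverPrime (qv i) →
        ∀ φ : Γℚ, P.IsFrobeniusAt φ (qv i) →
          ∃ α β : ResidueField 𝒪, α ≠ β ∧ LinearMap.charpoly (ρbar.ρ φ) = (X - C α) * (X - C β)) ∧
      (∀ (DQ : GaloisRep.DeformationRingData 𝒪 ρbar (fun _A _ _ _ ρ =>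
          GaloisRep.strictOrdinaryCondition 𝒪 p (Smin ∪ (Bd ∪ Ed) ∪ Finset.univ.image qv) ρ ∧
            ∀ q ∈ Smin, q.Prime → q ≠ p → ρ.IsUnipotentOnInertiaAt q))
        (N : NormData ρbar) (bR : Basis (Fin 2) DQ.R DQ.ρ.V)
        (hbR : ∀ σ i j, matOf DQ.ρ bR σ i j - algebraMap 𝒪 DQ.R (N.Mtil σ i j) ∈ maximalIdeal DQ.R)
        {Cr : Type} [CommRing Cr] [IsLocalRing Cr] [IsNoetherianRing Cr] [Algebra 𝒪 Cr]
        (_ : IsTestAlgebra 𝒪 Cr) (ψ : DQ.R →ₐ[𝒪] Cr) (E : Set Cr) (w : ℕ)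
        (Λ : (Cr →ₐ[𝒪] DualNumber (ResidueField 𝒪)) → (Fin w → ResidueField 𝒪))
        (_ : ∀ (f : Cr →ₐ[𝒪] DualNumber (ResidueField 𝒪)), (∀ e ∈ E, f e = 0) →
          ∀ hs : Function.Surjective (f.comp ψ), ∀ q : Nat.Primes, (q : ℕ) ∈ Bd ∪ Ed →
            ∃ Y : s56a_ad0 ρbar, ∀ τ : primeLocalGaloisGroup q,
              (s56a_cocPhi DQ N bR hbR p (s56a_tangentStable_ord 𝒪 p _ Smin) (f.comp ψ) hs).1
                  (primeLocalToGlobal q τ) =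
                (s56a_ad0 ρbar).ρ (primeLocalToGlobal q τ) Y - Y)
        (_ : ∀ f f' : Cr →ₐ[𝒪] DualNumber (ResidueField 𝒪), (∀ e ∈ E, f e = 0) →
          (∀ e ∈ E, f' e = 0) → f.comp ψ = f'.comp ψ → Λ f = Λ f' → f = f'),
        ∃ x : Fin ((r - (3 * Bd.card + Ed.card)) + w) → Cr, (∀ i, x i ∈ maximalIdeal Cr) ∧
          maximalIdeal Cr ≤
            Ideal.span (E ∪ Set.range x) ⊔ (maximalIdeal 𝒪).map (algebraMap 𝒪 Cr)) ∧
      (∀ (DQ : GaloisRep.DeformationRingData 𝒪 ρbar (fun _A _ _ _ ρ =>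
          GaloisRep.flatCondition 𝒪 p (Smin ∪ (Bd ∪ Ed) ∪ Finset.univ.image qv) ρ ∧
            ∀ q ∈ Smin, q.Prime → q ≠ p → ρ.IsUnipotentOnInertiaAt q))
        (N : NormData ρbar) (bR : Basis (Fin 2) DQ.R DQ.ρ.V)
        (hbR : ∀ σ i j, matOf DQ.ρ bR σ i j - algebraMap 𝒪 DQ.R (N.Mtil σ i j) ∈ maximalIdeal DQ.R)
        {Cr : Type} [CommRing Cr] [IsLocalRing Cr] [IsNoetherianRing Cr] [Algebra 𝒪 Cr]
        (_ : IsTestAlgebra 𝒪 Cr) (ψ : DQ.R →ₐ[𝒪] Cr) (E : Set Cr) (w : ℕ)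
        (Λ : (Cr →ₐ[𝒪] DualNumber (ResidueField 𝒪)) → (Fin w → ResidueField 𝒪))
        (_ : ∀ (f : Cr →ₐ[𝒪] DualNumber (ResidueField 𝒪)), (∀ e ∈ E, f e = 0) →
          ∀ hs : Function.Surjective (f.comp ψ), ∀ q : Nat.Primes, (q : ℕ) ∈ Bd ∪ Ed →
            ∃ Y : s56a_ad0 ρbar, ∀ τ : primeLocalGaloisGroup q,
              (s56a_cocPhi DQ N bR hbR p (s56a_tangentStable_flat 𝒪 p _ Smin) (f.comp ψ) hs).1
                  (primeLocalToGlobal q τ) =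
                (s56a_ad0 ρbar).ρ (primeLocalToGlobal q τ) Y - Y)
        (_ : ∀ f f' : Cr →ₐ[𝒪] DualNumber (ResidueField 𝒪), (∀ e ∈ E, f e = 0) →
          (∀ e ∈ E, f' e = 0) → f.comp ψ = f'.comp ψ → Λ f = Λ f' → f = f'),
        ∃ x : Fin ((r - (3 * Bd.card + Ed.card)) + w) → Cr, (∀ i, x i ∈ maximalIdeal Cr) ∧
          maximalIdeal Cr ≤
            Ideal.span (E ∪ Set.range x) ⊔ (maximalIdeal 𝒪).map (algebraMap 𝒪 Cr)) ∧
      (∀ (DQ : GaloisRep.DeformationRingData 𝒪 ρbar (fun _A _ _ _ ρ =>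
          GaloisRep.strictOrdinaryCondition 𝒪 p (Smin ∪ (Bd ∪ Ed) ∪ Finset.univ.image qv) ρ ∧
            ∀ q ∈ Smin, q.Prime → q ≠ p → ρ.IsUnipotentOnInertiaAt q))
        (N : NormData ρbar) (bR : Basis (Fin 2) DQ.R DQ.ρ.V)
        (hbR : ∀ σ i j, matOf DQ.ρ bR σ i j - algebraMap 𝒪 DQ.R (N.Mtil σ i j) ∈ maximalIdeal DQ.R)
        {Cr : Type} [CommRing Cr] [IsLocalRing Cr] [IsNoetherianRing Cr] [Algebra 𝒪 Cr]
        (_ : IsTestAlgebra 𝒪 Cr) (ψ : DQ.R →ₐ[𝒪] Cr) (E : Set Cr) (w : ℕ)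
        (Λ : (Cr →ₐ[𝒪] DualNumber (ResidueField 𝒪)) → (Fin w → ResidueField 𝒪))
        (_ : ∀ (f : Cr →ₐ[𝒪] DualNumber (ResidueField 𝒪)), (∀ e ∈ E, f e = 0) →
          ∀ hs : Function.Surjective (f.comp ψ), ∀ q : Nat.Primes, (q : ℕ) ∈ Bd ∪ Ed →
            ∃ Y : s56a_ad0 ρbar, ∀ τ : primeLocalGaloisGroup q,
              (s56a_cocPhi DQ N bR hbR p (s56a_tangentStable_ord 𝒪 p _ Smin) (f.comp ψ) hs).1
                  (primeLocalToGlobal q τ) =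
                (s56a_ad0 ρbar).ρ (primeLocalToGlobal q τ) Y - Y)
        (_ : ∀ f f' : Cr →ₐ[𝒪] DualNumber (ResidueField 𝒪), (∀ e ∈ E, f e = 0) →
          (∀ e ∈ E, f' e = 0) → f.comp ψ = f'.comp ψ → Λ f = Λ f' → f = f')
        (J : Set Cr) (_ : ∀ j ∈ J, j ∈ maximalIdeal Cr)
        (_ : ∀ (f : Cr →ₐ[𝒪] DualNumber (ResidueField 𝒪)), (∀ e ∈ E, f e = 0) → (∀ j ∈ J, f j = 0) →
          ∀ hs : Function.Surjective (f.comp ψ),
            (s56a_liftRep ρbar (s56a_cocPhi DQ N bR hbR p (s56a_tangentStable_ord 𝒪 p _ Smin) (f.comp ψ) hs)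
              (s56a_isLevel_cocPhi DQ N bR hbR p (s56a_tangentStable_ord 𝒪 p _ Smin)
                (f.comp ψ) hs)).IsFlatAt p),
        ∃ x : Fin ((r - (3 * Bd.card + Ed.card) - 1) + w + 1) → Cr, (∀ i, x i ∈ maximalIdeal Cr) ∧
          maximalIdeal Cr ≤
            Ideal.span (E ∪ Set.range x) ⊔ (maximalIdeal 𝒪).map (algebraMap 𝒪 Cr) ∧
          x (Fin.last ((r - (3 * Bd.card + Ed.card) - 1) + w)) ∈ Ideal.span J) :=
  s59q_bridge_sfJ p hp2 hp𝒪 ρbar habs hdet hsplit hTW S Smin Bd Ed hpSmin hSmin hBS hES hBprime hEprime hmin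
    hBunr hEunr hBE hcen
    (fun {_} => by
      haveI : Module.Finite (ZMod p) (ResidueField 𝒪) := Module.Finite.of_finite
      exact s59b_lpBound0' p ρbar hp2)

/-- **`s59q_inst_ordJ`, UNCONDITIONAL**: the local bound `hW1` is helper2's `s59b_lpBound0'` (B9Lp0D.lean). -/
theorem s59q_inst_ordJ_closed (p : ℕ) [Fact p.Prime] (hp2 : p ≠ 2) (hp𝒪 : (p : 𝒪) ∈ maximalIdeal 𝒪)
    (ρbar : ResidualGaloisRep (ResidueField 𝒪))
    (habs : ρbar.IsAbsolutelyIrreducible)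
    (hdet : (GaloisRepAdic.ofResidualGaloisRep ρbar).DetIsCyclotomic p)
    (hsplit : ∀ σ : Γℚ, ∃ α β : ResidueField 𝒪,
      LinearMap.charpoly (ρbar.ρ σ) = (X - C α) * (X - C β))
    (hTW : ∀ (K : Type) [Field K] [Algebra (ResidueField 𝒪) K] (G : Subgroup Γℚ), G.index = 2 →
      ∀ V : Submodule K (ρbar.baseChange K).V,
        (∀ σ ∈ G, ∀ x ∈ V, (ρbar.baseChange K).ρ σ x ∈ V) → V = ⊥ ∨ V = ⊤)
    (S Smin Bd Ed : Finset ℕ) (hpSmin : p ∈ Smin) (hSmin : Smin ⊆ S) (hBS : Bd ⊆ S) (hES : Ed ⊆ S)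
    (hBprime : ∀ q ∈ Bd, q.Prime) (hEprime : ∀ q ∈ Ed, q.Prime)
    (hmin : ∀ q : ℕ, q.Prime → q ≠ p → (q ∈ Smin ↔ ¬ ρbar.IsUnramifiedAt q))
    (hBunr : ∀ q ∈ Bd, q ≠ p ∧ ρbar.IsUnramifiedAt q)
    (hEunr : ∀ q ∈ Ed, q ≠ p ∧ ρbar.IsUnramifiedAt q)
    (hBE : Disjoint Bd Ed)
    (hcen : ∀ q : Nat.Primes, (q : ℕ) ∈ Bd → s59q_CentralAt ρbar q)
    (N : NormData ρbar) (m e : ℕ) (pr : Fin m ⊕ Fin e → Nat.Primes)
    (hprB : Finset.univ.image (fun j : Fin m => (pr (Sum.inl j) : ℕ)) = Bd)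
    (hprE : Finset.univ.image (fun l : Fin e => (pr (Sum.inr l) : ℕ)) = Ed)
    (hBinj : Function.Injective fun j : Fin m => (pr (Sum.inl j) : ℕ))
    (hEinj : Function.Injective fun l : Fin e => (pr (Sum.inr l) : ℕ))
    (σq φq : Fin m ⊕ Fin e → Γℚ)
    (hσq : ∀ t, s59q_IsTameGen (pr t) (primeLocalPlace (pr t)) (σq t))
    (hφq : ∀ t, (primeLocalPlace (pr t)).IsFrobeniusAt (φq t) (pr t))
    (i2 : 𝒪) (hi2 : 2 * i2 = 1)
    (P P' : Fin m ⊕ Fin e → Matrix (Fin 2) (Fin 2) 𝒪) (hPP' : ∀ t, P t * P' t = 1)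
    (hP'P : ∀ t, P' t * P t = 1)
    (lam : Fin e → Fin 2 → 𝒪) (sh : Fin e → Fin 3 → 𝒪)
    (Mres : Fin e → Matrix (Fin 2) (Fin 2) (ResidueField 𝒪))
    (fp : Fin e → Fin 2 → Fin 2 × Fin 2)
    (hMres : ∀ l, (P' (Sum.inr l)).map (residue 𝒪) * matOfRes ρbar N.b (φq (Sum.inr l)) *
      (P (Sum.inr l)).map (residue 𝒪) = Mres l)
    (hlam : ∀ l, residue 𝒪 (lam l 0) * Mres l 0 0 - residue 𝒪 (lam l 1) * Mres l 1 1 ≠ 0)
    (hsh : ∀ l k, residue 𝒪 (sh l k) = s59f_tlG (fun i => residue 𝒪 (lam l i)) (Mres l) k)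
    (hfp : ∀ l (Δ : Matrix (Fin 2) (Fin 2) (ResidueField 𝒪)), Δ * Mres l = Mres l * Δ →
      Δ (fp l 0).1 (fp l 0).2 = 0 → Δ (fp l 1).1 (fp l 1).2 = 0 → Δ = 0) :
    ∃ r : ℕ, 3 * m + e + 1 ≤ r ∧ ∀ n : ℕ, ∃ qv : Fin r → ℕ, Function.Injective qv ∧
      (∀ i, (qv i).Prime ∧ qv i ∉ S ∧ p ^ (n + 1) ∣ qv i - 1) ∧
      (∀ i, ∀ A : ValuationSubring (AlgebraicClosure ℚ), A.LiesOverPrime (qv i) →
        ∀ φ : Γℚ, A.IsFrobeniusAt φ (qv i) →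
          ∃ α β : ResidueField 𝒪, α ≠ β ∧ LinearMap.charpoly (ρbar.ρ φ) = (X - C α) * (X - C β)) ∧
      (∀ (DQ : GaloisRep.DeformationRingData 𝒪 ρbar (fun _A _ _ _ ρ =>
          GaloisRep.strictOrdinaryCondition 𝒪 p (Smin ∪ (Bd ∪ Ed) ∪ Finset.univ.image qv) ρ ∧
            ∀ q ∈ Smin, q.Prime → q ≠ p → ρ.IsUnipotentOnInertiaAt q))
        (bR : Basis (Fin 2) DQ.R DQ.ρ.V)
        (hbR : ∀ σ i j, matOf DQ.ρ bR σ i j - algebraMap 𝒪 DQ.R (N.Mtil σ i j) ∈ maximalIdeal DQ.R)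
        {T : Type} [CommRing T] [IsLocalRing T] [IsNoetherianRing T]
        [IsAdicComplete (maximalIdeal T) T] [Algebra 𝒪 T] (_ : IsTestAlgebra 𝒪 T)
        (θ : DQ.R →ₐ[𝒪] T) (_ : Function.Surjective θ)
        (Jt : Set T) (_ : ∀ j ∈ Jt, j ∈ maximalIdeal T)
        (_ : ∀ (f₀ : T →ₐ[𝒪] DualNumber (ResidueField 𝒪)), (∀ j ∈ Jt, f₀ j = 0) →
          ∀ hs : Function.Surjective (f₀.comp θ),
            (s56a_liftRep ρbar (s56a_cocPhi DQ N bR hbR p (s56a_tangentStable_ord 𝒪 p _ Smin)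
                (f₀.comp θ) hs)
              (s56a_isLevel_cocPhi DQ N bR hbR p (s56a_tangentStable_ord 𝒪 p _ Smin)
                (f₀.comp θ) hs)).IsFlatAt p),
        ∃ γ : MvPowerSeries (s59q_GIdx m e (r + m + e)) 𝒪 →ₐ[𝒪] MvPowerSeries (s59q_ZIdx m e) T,
          Function.Surjective γ ∧
          (∀ j k, γ (MvPowerSeries.X (Sum.inl (j, k))) =
            s59q_tl (algebraMap 𝒪 _ i2) (s59q_Fm DQ bR θ P P' (Sum.inl j) (σq (Sum.inl j))) k) ∧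
          (∀ j k, γ (MvPowerSeries.X (Sum.inr (Sum.inl (j, k)))) =
            s59q_tl (algebraMap 𝒪 _ i2) (s59q_Fm DQ bR θ P P' (Sum.inl j) (φq (Sum.inl j))) k) ∧
          (∀ l k, γ (MvPowerSeries.X (Sum.inr (Sum.inr (Sum.inl (l, k))))) =
            s59q_tl (algebraMap 𝒪 _ i2) (s59q_Fm DQ bR θ P P' (Sum.inr l) (σq (Sum.inr l))) k) ∧
          (∀ l k, γ (MvPowerSeries.X (Sum.inr (Sum.inr (Sum.inr (Sum.inl (l, k)))))) =
            s59f_tlG (fun i => algebraMap 𝒪 _ (lam l i))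
                (s59q_Fm DQ bR θ P P' (Sum.inr l) (φq (Sum.inr l))) k -
              algebraMap 𝒪 _ (sh l k)) ∧
          (∀ i : Fin (r + m + e), (i : ℕ) + 1 = r + m + e →
            γ (MvPowerSeries.X (Sum.inr (Sum.inr (Sum.inr (Sum.inr i))))) ∈
              Ideal.span ((fun t : T => (MvPowerSeries.C t : MvPowerSeries (s59q_ZIdx m e) T)) '' Jt))) ∧
      (∀ (DQ : GaloisRep.DeformationRingData 𝒪 ρbar (fun _A _ _ _ ρ =>
          GaloisRep.flatCondition 𝒪 p (Smin ∪ (Bd ∪ Ed) ∪ Finset.univ.image qv) ρ ∧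
            ∀ q ∈ Smin, q.Prime → q ≠ p → ρ.IsUnipotentOnInertiaAt q))
        (bR : Basis (Fin 2) DQ.R DQ.ρ.V)
        (_ : ∀ σ i j, matOf DQ.ρ bR σ i j - algebraMap 𝒪 DQ.R (N.Mtil σ i j) ∈ maximalIdeal DQ.R)
        {T : Type} [CommRing T] [IsLocalRing T] [IsNoetherianRing T]
        [IsAdicComplete (maximalIdeal T) T] [Algebra 𝒪 T] (_ : IsTestAlgebra 𝒪 T)
        (θ : DQ.R →ₐ[𝒪] T) (_ : Function.Surjective θ),
        ∃ γ : MvPowerSeries (s59q_GIdx m e (r + m + e)) 𝒪 →ₐ[𝒪] MvPowerSeries (s59q_ZIdx m e) T,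
          Function.Surjective γ ∧
          (∀ j k, γ (MvPowerSeries.X (Sum.inl (j, k))) =
            s59q_tl (algebraMap 𝒪 _ i2) (s59q_Fm DQ bR θ P P' (Sum.inl j) (σq (Sum.inl j))) k) ∧
          (∀ j k, γ (MvPowerSeries.X (Sum.inr (Sum.inl (j, k)))) =
            s59q_tl (algebraMap 𝒪 _ i2) (s59q_Fm DQ bR θ P P' (Sum.inl j) (φq (Sum.inl j))) k) ∧
          (∀ l k, γ (MvPowerSeries.X (Sum.inr (Sum.inr (Sum.inl (l, k))))) =
            s59q_tl (algebraMap 𝒪 _ i2) (s59q_Fm DQ bR θ P P' (Sum.inr l) (σq (Sum.inr l))) k) ∧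
          (∀ l k, γ (MvPowerSeries.X (Sum.inr (Sum.inr (Sum.inr (Sum.inl (l, k)))))) =
            s59f_tlG (fun i => algebraMap 𝒪 _ (lam l i))
                (s59q_Fm DQ bR θ P P' (Sum.inr l) (φq (Sum.inr l))) k -
              algebraMap 𝒪 _ (sh l k))) :=
  s59q_inst_ordJ p hp2 hp𝒪 ρbar habs hdet hsplit hTW S Smin Bd Ed hpSmin hSmin hBS hES hBprime hEprime hmin
    hBunr hEunr hBE hcen N m e pr hprB hprE hBinj hEinj σq φq hσq hφq i2 hi2 P P' hPP' hP'P lam sh Mres fp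
    hMres hlam hsh hfp
    (fun {_} => by
      haveI : Module.Finite (ZMod p) (ResidueField 𝒪) := Module.Finite.of_finite
      exact s59b_lpBound0' p ρbar hp2)

end Closed

end Fermat.Agent.Lib.S59
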