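/-
PROGRAMME (R), non-minimal case (P), route (T5w) (helper6, prefix `s59q_`), item [W2] (ii):
**THE `R`-SIDE OF [PATCH-FLR] WITH THE WEAK TRACE CLAUSE, STRICT-ORDINARY TYPE, ONE MARKED VARIABLE** -- twin of
`s59q_FLR_R_ord` (QSFlrR.lean) over helper4's `s59f_FLR_asm_w` (FAsmMainW.lean):
  * the bridges `γ n : P ↠ (DQ n).R⟦z⟧` come from `s59q_inst_ordJ_closed` (QInstOrdJC.lean), whose LAST global variable
    `X_{i₀}` is sent into `(ker κsf_n)·(DQ n).R⟦z⟧`, `κsf_n : (DQ n).R ↠ (Dsf n).R` the canonical map to the universal ring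
    of the type "strict AND flat at `p`" (QSfType.lean; it exists given ONE lift `ρA` of that type at the base level);
  * the hypothesis `hJt` of `s59q_inst_ordJ_closed` is `s59q_flat_of_kill_ker` (QSfKappa.lean);
  * the ring contract is helper2's `s59b_G_ringW` (B9RingWA.lean) with the marked element `s59r_XG i₀`;
  * the `T`-side is helper2's weak package `s59b_TLevelFW … (DQ n) ↑(ker κsf_n)` (B9TLvlW.lean), for EVERY universal ring
    `Dsf` of the type "strict AND flat" and EVERY canonical map `κsf`.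
`r` now satisfies `3 m + e + 1 ≤ r`.
-/
import Mathlib
import Fermat.Agent.Lib.S59.FAsmG7
import Fermat.Agent.Lib.S59.FAsmMain
import Fermat.Agent.Lib.S59.QExistDQ
import Fermat.Agent.Lib.S59.FAsmG8
import Fermat.Agent.Lib.S59.QSFlrR
import Fermat.Agent.Lib.S59.QSfType
import Fermat.Agent.Lib.S59.QSfKappa
import Fermat.Agent.Lib.S59.QInstOrdJC
import Fermat.Agent.Lib.S59.FAsmMainW
import Fermat.Agent.Lib.S59.B9RingWA

set_option autoImplicit false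
set_option linter.unusedSectionVars false
set_option linter.unusedVariables false
set_option linter.style.haveILetI false
set_option maxHeartbeats 3200000
set_option synthInstance.maxHeartbeats 400000

noncomputable section

namespace Fermat.Agent.Lib.S59

open IsLocalRing MvPowerSeries ExtCitation
open Fermat.Agent.Lib.S53 (matOf matOfRes NormData matOf_apply matOfRes_apply)
open Fermat.Agent.Lib.Deform
open Fermat.Agent.Lib.S56

local notation "Γℚ" => (AlgebraicClosure ℚ ≃ₐ[ℚ] AlgebraicClosure ℚ)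

section BridgeJ

variable {𝒪 : Type} [CommRing 𝒪] [IsDomain 𝒪] [IsDiscreteValuationRing 𝒪]
  [IsAdicComplete (maximalIdeal 𝒪) 𝒪] [Finite (ResidueField 𝒪)]
  {ρbar : ResidualGaloisRep (ResidueField 𝒪)}
  {𝒟s : ∀ ⦃A : Type⦄ [CommRing A] [IsLocalRing A] [Algebra 𝒪 A], GaloisRepAdic A → Prop}
  (DQs : GaloisRep.DeformationRingData 𝒪 ρbar 𝒟s)
  (bR : Module.Basis (Fin 2) DQs.R DQs.ρ.V)
  {T : Type} [CommRing T] [IsLocalRing T] [IsAdicComplete (maximalIdeal T) T] [Algebra 𝒪 T]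
  (κ : DQs.R →ₐ[𝒪] T)
  {m e g : ℕ} (σq φq : Fin m ⊕ Fin e → Γℚ)
  {i2 : 𝒪} (L : Fin e → s59f_LocBr 𝒪 i2)
  (P P' : Fin m ⊕ Fin e → Matrix (Fin 2) (Fin 2) 𝒪)

/-- **the bridge equations from the conclusion of `s59q_inst_ordJ`, keeping track of the global variables**
(`s59f_bridgeEqsG_inst` + the values on the `s59r_XG i`). -/
theorem s59q_bridgeEqsG_inst_J
    (γ₀ : MvPowerSeries (s59q_GIdx m e g) 𝒪 →ₐ[𝒪] MvPowerSeries (s59q_ZIdx m e) T)
    (hγ₀ : Function.Surjective γ₀)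
    (h1 : ∀ j k, γ₀ (MvPowerSeries.X (Sum.inl (j, k))) =
      s59q_tl (algebraMap 𝒪 _ i2) (s59q_Fm DQs bR κ P P' (Sum.inl j) (σq (Sum.inl j))) k)
    (h2 : ∀ j k, γ₀ (MvPowerSeries.X (Sum.inr (Sum.inl (j, k)))) =
      s59q_tl (algebraMap 𝒪 _ i2) (s59q_Fm DQs bR κ P P' (Sum.inl j) (φq (Sum.inl j))) k)
    (h3 : ∀ l k, γ₀ (MvPowerSeries.X (Sum.inr (Sum.inr (Sum.inl (l, k))))) =
      s59q_tl (algebraMap 𝒪 _ i2) (s59q_Fm DQs bR κ P P' (Sum.inr l) (σq (Sum.inr l))) k)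
    (h4 : ∀ l k, γ₀ (MvPowerSeries.X (Sum.inr (Sum.inr (Sum.inr (Sum.inl (l, k)))))) =
      s59f_tlG (fun i => algebraMap 𝒪 _ ((L l).lam i))
          (s59q_Fm DQs bR κ P P' (Sum.inr l) (φq (Sum.inr l))) k -
        algebraMap 𝒪 _ ((L l).sh k)) :
    ∃ γ : s59r_Flat 𝒪 (0 + m) e g →ₐ[𝒪] MvPowerSeries (s59q_ZIdx m e) T,
      Function.Surjective γ ∧
      s59f_BridgeEqsG L (s59i_rhoM DQs bR κ) (fun t => s59q_frameU T (P t) t)
        (fun t => s59q_frameU' T (P' t) t) γ σq φq ∧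
      ∀ i : Fin g, γ (s59r_XG i) =
        γ₀ (MvPowerSeries.X (Sum.inr (Sum.inr (Sum.inr (Sum.inr i))))) := by
  obtain ⟨γ, hγ, hγX⟩ := s59f_bridge_reindex γ₀ hγ₀
  refine ⟨γ, hγ, ⟨fun i k => ?_, fun i k => ?_, fun l k => ?_⟩, fun i => ?_⟩
  · rw [s59i_Fm_eq_inst]
    show γ (X _) = _
    rw [hγX]
    show γ₀ (X (Sum.inl (Fin.cast (Nat.zero_add m) (Fin.natAdd 0 i), k))) = _
    have : Fin.cast (Nat.zero_add m) (Fin.natAdd 0 i) = i := by ext; simp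
    rw [this]
    exact h1 i k
  · rw [s59i_Fm_eq_inst]
    show γ (X _) = _
    rw [hγX]
    show γ₀ (X (Sum.inr (Sum.inl (Fin.cast (Nat.zero_add m) (Fin.natAdd 0 i), k)))) = _
    have : Fin.cast (Nat.zero_add m) (Fin.natAdd 0 i) = i := by ext; simp
    rw [this]
    exact h2 i k
  · rw [s59i_Fm_eq_inst, s59i_Fm_eq_inst]
    show γ (X _) = _
    rw [hγX]
    fin_cases k
    · exact h3 l 0
    · exact h3 l 1
    · exact h3 l 2
    · exact h4 l 0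
    · exact h4 l 1
    · exact h4 l 2
  · show γ (X (Sum.inr (Sum.inr (Sum.inr i)))) = _
    rw [hγX]
    rfl

end BridgeJ

/-- **[PATCH-FLR] with the weak trace clause and the `R`-side discharged, STRICT-ORDINARY type, one marked variable.** -/
theorem s59q_FLR_R_w
    (p : ℕ) [hp : Fact p.Prime] (hp2 : p ≠ 2)
    {𝒪 : Type} [CommRing 𝒪] [IsDomain 𝒪] [IsDiscreteValuationRing 𝒪]
    [IsAdicComplete (maximalIdeal 𝒪) 𝒪] [Finite (ResidueField 𝒪)] [CharZero 𝒪]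
    (hp𝒪 : ((p : ℕ) : 𝒪) ∈ maximalIdeal 𝒪)
    -- the binders of `s59f_inst_ordG`
    (ρbar : ResidualGaloisRep (ResidueField 𝒪))
    (habs : ρbar.IsAbsolutelyIrreducible)
    (hdet : (GaloisRepAdic.ofResidualGaloisRep ρbar).DetIsCyclotomic p)
    (hsplit : ∀ σ : Γℚ, ∃ α β : ResidueField 𝒪,
      LinearMap.charpoly (ρbar.ρ σ) = (Polynomial.X - Polynomial.C α) * (Polynomial.X - Polynomial.C β))
    (hTW : ∀ (K : Type) [Field K] [Algebra (ResidueField 𝒪) K] (G : Subgroup Γℚ), G.index = 2 →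
      ∀ V : Submodule K (ρbar.baseChange K).V,
        (∀ σ ∈ G, ∀ x ∈ V, (ρbar.baseChange K).ρ σ x ∈ V) → V = ⊥ ∨ V = ⊤)
    (S Smin Bd Ed : Finset ℕ) (hpSmin : p ∈ Smin) (hSmin : Smin ⊆ S) (hBS : Bd ⊆ S) (hES : Ed ⊆ S)
    (hBprime : ∀ q ∈ Bd, q.Prime) (hEprime : ∀ q ∈ Ed, q.Prime)
    (hmin : ∀ q : ℕ, q.Prime → q ≠ p → (q ∈ Smin ↔ ¬ ρbar.IsUnramifiedAt q))
    (hBunr : ∀ q ∈ Bd, q ≠ p ∧ ρbar.IsUnramifiedAt q)
    (hEunr : ∀ q ∈ Ed, q ≠ p ∧ ρbar.IsUnramifiedAt q)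
    (hBE : Disjoint Bd Ed)
    (hcen : ∀ q : Nat.Primes, (q : ℕ) ∈ Bd → s59q_CentralAt ρbar q)
    (Nd : NormData ρbar) (m e : ℕ) (pr : Fin m ⊕ Fin e → Nat.Primes)
    (hprB : Finset.univ.image (fun j : Fin m => (pr (Sum.inl j) : ℕ)) = Bd)
    (hprE : Finset.univ.image (fun l : Fin e => (pr (Sum.inr l) : ℕ)) = Ed)
    (hBinj : Function.Injective fun j : Fin m => (pr (Sum.inl j) : ℕ))
    (hEinj : Function.Injective fun l : Fin e => (pr (Sum.inr l) : ℕ))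
    (σq φq : Fin m ⊕ Fin e → Γℚ)
    (hσq : ∀ t, s59q_IsTameGen (pr t) (primeLocalPlace (pr t)) (σq t))
    (hφq : ∀ t, (primeLocalPlace (pr t)).IsFrobeniusAt (φq t) (pr t))
    (i2 : 𝒪) (hi2 : 2 * i2 = 1)
    (P P' : Fin m ⊕ Fin e → Matrix (Fin 2) (Fin 2) 𝒪) (hPP' : ∀ t, P t * P' t = 1)
    (hP'P : ∀ t, P' t * P t = 1)
    -- the local models
    (L : Fin e → s59f_LocBr 𝒪 i2) (ε4 : Fin m → 𝒪) (hε4 : ∀ i, ε4 i ^ 2 = 1)
    (hMres : ∀ l, (P' (Sum.inr l)).map (residue 𝒪) * matOfRes ρbar Nd.b (φq (Sum.inr l)) *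
      (P (Sum.inr l)).map (residue 𝒪) = ((L l).M0).map (residue 𝒪))
    (hφ4 : ∀ i, matOfRes ρbar Nd.b (φq (Sum.inl i)) =
      residue 𝒪 (ε4 i) • (1 : Matrix (Fin 2) (Fin 2) (ResidueField 𝒪)))
    (hqu : ∀ l, (L l).u = (((pr (Sum.inr l) : ℕ) : ℕ) : 𝒪))
    (hqB : ∀ j, (((pr (Sum.inl j) : ℕ) : ℕ) : 𝒪) - 1 ∈ maximalIdeal 𝒪)
    -- the order of the raising primes
    (step : ℕ → Fin e ⊕ Fin m) (k : ℕ) (hstep : ∀ t < k, ∀ t' < t, step t' ≠ step t)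
    (hcover : ∀ s : Fin e ⊕ Fin m, ∃ t < k, step t = s)
    -- the base ring and the `T`-side
    (D0 : GaloisRep.DeformationRingData 𝒪 ρbar (fun _A _ _ _ ρ =>
      GaloisRep.strictOrdinaryCondition 𝒪 p (Smin ∪ (Bd ∪ Ed)) ρ ∧
        ∀ q ∈ Smin ∪ (Bd ∪ Ed), q.Prime → q ≠ p → ρ.IsUnipotentOnInertiaAt q))
    -- ONE lift of the type "strict AND flat" at the base level
    {A₀ : Type} [CommRing A₀] [IsLocalRing A₀] [IsNoetherianRing A₀]
    [IsAdicComplete (maximalIdeal A₀) A₀] [Algebra 𝒪 A₀]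
    (hloc₀ : IsLocalHom (algebraMap 𝒪 A₀))
    (hres₀ : Function.Surjective (IsLocalRing.residue A₀ ∘ algebraMap 𝒪 A₀))
    (ρA : GaloisRepAdic A₀)
    (hρA : s59q_SfType 𝒪 p (Smin ∪ (Bd ∪ Ed)) (Smin ∪ (Bd ∪ Ed)) ρA)
    (hresid₀ : ρA.residual.IsEquiv
      (ρbar.baseChangeAlong (IsLocalRing.ResidueField.map (algebraMap 𝒪 A₀))))
    (Bs : s59f_TBaseF 𝒪 k D0)
    (HT : ∀ r : ℕ, 3 * m + e + 1 ≤ r → ∀ (n : ℕ) (qv : Fin r → ℕ), Function.Injective qv →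
      (∀ i, (qv i).Prime ∧ qv i ∉ S ∧ p ^ (n + 1) ∣ qv i - 1) →
      (∀ i, ∀ A : ValuationSubring (AlgebraicClosure ℚ), A.LiesOverPrime (qv i) →
        ∀ φ : Γℚ, A.IsFrobeniusAt φ (qv i) →
          ∃ α β : ResidueField 𝒪, α ≠ β ∧
            LinearMap.charpoly (ρbar.ρ φ) = (Polynomial.X - Polynomial.C α) * (Polynomial.X - Polynomial.C β)) →
      ∀ (DQ : GaloisRep.DeformationRingData 𝒪 ρbar (fun _A _ _ _ ρ =>
        GaloisRep.strictOrdinaryCondition 𝒪 p (Smin ∪ (Bd ∪ Ed) ∪ Finset.univ.image qv) ρ ∧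
          ∀ q ∈ Smin ∪ (Bd ∪ Ed), q.Prime → q ≠ p → ρ.IsUnipotentOnInertiaAt q))
        (Dsf : GaloisRep.DeformationRingData 𝒪 ρbar
          (s59q_SfType 𝒪 p (Smin ∪ (Bd ∪ Ed) ∪ Finset.univ.image qv) (Smin ∪ (Bd ∪ Ed))))
        (κsf : DQ.R →ₐ[𝒪] Dsf.R) (hκsf : IsLocalHom (κsf : DQ.R →+* Dsf.R)),
        (DQ.ρ.baseChangeAlong (κsf : DQ.R →+* Dsf.R) hκsf).IsEquiv Dsf.ρ →
        Function.Surjective κsf →
        Nonempty (s59b_TLevelFW 𝒪 p n r (s59q_ZIdx m e) k Bs qv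
          (fun t => (pr (Sum.swap (step t)) : ℕ)) (fun t => φq (Sum.swap (step t)))
          (fun t => σq (Sum.swap (step t))) DQ
          ((RingHom.ker (κsf : DQ.R →+* Dsf.R) : Ideal DQ.R) : Set DQ.R)))
    -- the point
    (𝒪' : Type) [CommRing 𝒪'] [IsDomain 𝒪'] [IsLocalRing 𝒪'] [IsNoetherianRing 𝒪']
    [IsAdicComplete (maximalIdeal 𝒪') 𝒪']
    (x : D0.R →+* 𝒪') (hx : ∀ a ∈ maximalIdeal D0.R, x a ∈ maximalIdeal 𝒪')
    (hxinj : Function.Injective (x.comp (algebraMap 𝒪 D0.R)))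
    (hxram : ∀ t, ∃ (f : Module.Dual D0.R D0.ρ.V) (v : D0.ρ.V),
      x (f (D0.ρ.ρ (σq t) v - v)) ≠ 0)
    (hxtr : ∀ l, x (s59i_cpTr D0.ρ (φq (Sum.inr l))) = x (algebraMap 𝒪 D0.R (L l).tr0)) :
    RingHom.ker (Bs.ν k : D0.R →+* Bs.R k) ≤ RingHom.ker x := by
  classical
  obtain ⟨-, -, hmemB, hmemE, -⟩ := s59q_enum_facts Bd Ed pr hprB hprE hBinj hEinj
  obtain ⟨r, hr, H⟩ := s59q_inst_ordJ_closed p hp2 hp𝒪 ρbar habs hdet hsplit hTW S Smin Bd Ed hpSmin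
    hSmin hBS hES hBprime hEprime hmin hBunr hEunr hBE hcen Nd m e pr hprB hprE hBinj hEinj σq φq
    hσq hφq i2 hi2 P P' hPP' hP'P (fun l => (L l).lam) (fun l => (L l).sh)
    (fun l => ((L l).M0).map (residue 𝒪)) (fun l => (L l).fp) hMres (fun l => (L l).hlam)
    (fun l k => (L l).hsh k) (fun l => (L l).hfp)
  choose qv hqv1 hqv2 hqv3 hqv4 hqv5 using H
  -- the marked global variable
  have hr1 : 0 < r + m + e := by omega
  set i₀ : Fin (r + m + e) := ⟨r + m + e - 1, Nat.sub_lt hr1 Nat.one_pos⟩ with hi₀def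
  have hi₀ : (i₀ : ℕ) + 1 = r + m + e := by
    show r + m + e - 1 + 1 = r + m + e
    omega
  -- unramifiedness at the framed primes
  have hunr : ∀ t, ((pr t : ℕ) ≠ p) ∧ ρbar.IsUnramifiedAt (pr t) := by
    rintro (j | l)
    · exact hBunr _ (hmemB j)
    · exact hEunr _ (hmemE l)
  have hprSu : ∀ t, (pr t : ℕ) ∈ Smin ∪ (Bd ∪ Ed) := by
    rintro (j | l)
    · exact Finset.mem_union_right _ (Finset.mem_union_left _ (hmemB j))
    · exact Finset.mem_union_right _ (Finset.mem_union_right _ (hmemE l))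
  have hSgS : Smin ∪ (Bd ∪ Ed) ⊆ S := Finset.union_subset hSmin (Finset.union_subset hBS hES)
  -- the constants at the primes of type (iv)
  set u4 : Fin m → 𝒪 := fun i => (((pr (Sum.inl i) : ℕ) : ℕ) : 𝒪) with hu4
  have hu4ne : ∀ i, u4 i ≠ 1 := by
    intro i h
    have h' : (((pr (Sum.inl i) : ℕ) : ℕ) : 𝒪) = ((1 : ℕ) : 𝒪) := by rw [Nat.cast_one]; exact h
    exact (pr (Sum.inl i)).prop.one_lt.ne' (Nat.cast_injective h')
  have hϑ : ∀ i, s59l_Hyp (s59u_r2_theta4 i2 ε4 u4 i) :=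
    s59f_hyp_theta4 ε4 u4 hi2 hε4 hqB hu4ne
  have hu0 : ∀ i, u4 i ≠ 0 := fun i => Nat.cast_ne_zero.mpr (pr (Sum.inl i)).prop.ne_zero
  have hu1 : ∀ i, 1 - u4 i ≠ 0 := fun i h => hu4ne i (sub_eq_zero.mp h).symm
  have hu2 : ∀ i, IsUnit (1 + u4 i) := by
    intro i
    have h2 : IsUnit (2 : 𝒪) := IsUnit.of_mul_eq_one i2 hi2
    by_contra hnu
    have hmem : 1 + u4 i ∈ maximalIdeal 𝒪 := (mem_maximalIdeal _).mpr hnu
    have h2m : (2 : 𝒪) ∈ maximalIdeal 𝒪 := by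
      have := Ideal.sub_mem _ hmem (hqB i)
      have e : 1 + u4 i - (u4 i - 1) = 2 := by ring
      rwa [e] at this
    exact ((mem_maximalIdeal _).mp h2m) h2
  have huq : ∀ t, s59f_uG L u4 step t = (((pr (Sum.swap (step t)) : ℕ) : ℕ) : 𝒪) := by
    intro t
    unfold s59f_uG
    rcases step t with l | i
    · exact hqu l
    · rfl
  -- the deformation types
  let 𝒟s : ℕ → ∀ ⦃A : Type⦄ [CommRing A] [IsLocalRing A] [Algebra 𝒪 A], GaloisRepAdic A → Prop :=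
    fun n _A _ _ _ ρ =>
      GaloisRep.strictOrdinaryCondition 𝒪 p (Smin ∪ (Bd ∪ Ed) ∪ Finset.univ.image (qv n)) ρ ∧
        ∀ q ∈ Smin, q.Prime → q ≠ p → ρ.IsUnipotentOnInertiaAt q
  let 𝒟Q : ℕ → ∀ ⦃A : Type⦄ [CommRing A] [IsLocalRing A] [Algebra 𝒪 A], GaloisRepAdic A → Prop :=
    fun n _A _ _ _ ρ =>
      GaloisRep.strictOrdinaryCondition 𝒪 p (Smin ∪ (Bd ∪ Ed) ∪ Finset.univ.image (qv n)) ρ ∧
        ∀ q ∈ Smin ∪ (Bd ∪ Ed), q.Prime → q ≠ p → ρ.IsUnipotentOnInertiaAt q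
  have hunrbar : ∀ n (q : ℕ), q.Prime →
      q ∉ Smin ∪ (Bd ∪ Ed) ∪ Finset.univ.image (qv n) → ρbar.IsUnramifiedAt q := by
    intro n q hq hqS
    have hqSmin : q ∉ Smin := fun h =>
      hqS (Finset.mem_union_left _ (Finset.mem_union_left _ h))
    have hne : q ≠ p := fun h => hqSmin (h ▸ hpSmin)
    by_contra hram
    exact hqSmin ((hmin q hq hne).2 hram)
  have hDQs : ∀ n, Nonempty (GaloisRep.DeformationRingData 𝒪 ρbar (𝒟s n)) := fun n =>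
    s59q_exists_DQ_ord p hp2 hp𝒪 ρbar habs (Smin ∪ (Bd ∪ Ed)) _ Smin Finset.subset_union_left
      (Finset.mem_union_left _ (Finset.mem_union_left _ hpSmin)) (hunrbar n) inferInstance
      D0.residue_surjective D0.ρ
      ⟨D0.isOfType.1, fun q hq => D0.isOfType.2 q (Finset.mem_union_left _ hq)⟩
      D0.residual_isEquiv
  have hDQ : ∀ n, Nonempty (GaloisRep.DeformationRingData 𝒪 ρbar (𝒟Q n)) := fun n =>
    s59q_exists_DQ_ord p hp2 hp𝒪 ρbar habs (Smin ∪ (Bd ∪ Ed)) _ (Smin ∪ (Bd ∪ Ed))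
      Finset.subset_union_left
      (Finset.mem_union_left _ (Finset.mem_union_left _ hpSmin)) (hunrbar n) inferInstance
      D0.residue_surjective D0.ρ D0.isOfType D0.residual_isEquiv
  let DQs : ∀ n, GaloisRep.DeformationRingData 𝒪 ρbar (𝒟s n) := fun n => (hDQs n).some
  let DQ : ∀ n, GaloisRep.DeformationRingData 𝒪 ρbar (𝒟Q n) := fun n => (hDQ n).some
  have hDsf : ∀ n, Nonempty (GaloisRep.DeformationRingData 𝒪 ρbar
      (s59q_SfType 𝒪 p (Smin ∪ (Bd ∪ Ed) ∪ Finset.univ.image (qv n)) (Smin ∪ (Bd ∪ Ed)))) := fun n =>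
    s59q_exists_DQ_sf p hp2 hp𝒪 ρbar habs (Smin ∪ (Bd ∪ Ed)) _ (Smin ∪ (Bd ∪ Ed))
      Finset.subset_union_left
      (Finset.mem_union_left _ (Finset.mem_union_left _ hpSmin)) (hunrbar n) hloc₀ hres₀ ρA hρA
      hresid₀
  let Dsf : ∀ n, GaloisRep.DeformationRingData 𝒪 ρbar
      (s59q_SfType 𝒪 p (Smin ∪ (Bd ∪ Ed) ∪ Finset.univ.image (qv n)) (Smin ∪ (Bd ∪ Ed))) :=
    fun n => (hDsf n).some
  have hmono : ∀ (n : ℕ) {A : Type} [CommRing A] [IsLocalRing A] [Algebra 𝒪 A]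
      (ρ : GaloisRepAdic A),
      (GaloisRep.strictOrdinaryCondition 𝒪 p (Smin ∪ (Bd ∪ Ed)) ρ ∧
        ∀ q ∈ Smin ∪ (Bd ∪ Ed), q.Prime → q ≠ p → ρ.IsUnipotentOnInertiaAt q) → 𝒟Q n ρ :=
    fun n A _ _ _ ρ h => ⟨s59q_ordCondition_mono p Finset.subset_union_left ρ h.1, h.2⟩
  -- the canonical maps
  have h𝒟s : ∀ n, 𝒟s n (DQ n).ρ := fun n =>
    ⟨(DQ n).isOfType.1, fun q hq => (DQ n).isOfType.2 q (Finset.mem_union_left _ hq)⟩
  choose κs hκs eκs using fun n => s59f_kappa_exists (DQ n) (DQs n) (h𝒟s n)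
  have hκs_surj : ∀ n, Function.Surjective (κs n) := fun n =>
    s59f_kappa_surjective (DQ n) (DQs n) Nd p (s56a_tangentStable_ord 𝒪 p _ _) (κs n) (hκs n)
      (eκs n)
  have h𝒟Qsf : ∀ n, 𝒟Q n (Dsf n).ρ := fun n =>
    s59q_sfType_ord p _ _ (Dsf n).ρ (Dsf n).isOfType
  choose κsf hκsf eκsf using fun n => s59f_kappa_exists (Dsf n) (DQ n) (h𝒟Qsf n)
  have hκsf_surj : ∀ n, Function.Surjective (κsf n) := fun n =>
    s59f_kappa_surjective (Dsf n) (DQ n) Nd p (s59q_tangentStable_sf p _ _) (κsf n) (hκsf n)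
      (eκsf n)
  let Jm : ∀ n, Set (DQ n).R := fun n =>
    ((RingHom.ker (κsf n : (DQ n).R →+* (Dsf n).R) : Ideal (DQ n).R) : Set (DQ n).R)
  have hJmax : ∀ n, ∀ j ∈ Jm n, j ∈ maximalIdeal (DQ n).R := fun n j hj =>
    IsLocalRing.le_maximalIdeal (RingHom.ker_ne_top (κsf n : (DQ n).R →+* (Dsf n).R)) hj
  choose κ hκ eκ using fun n => s59f_kappa_exists D0 (DQ n) (hmono n D0.ρ D0.isOfType)
  have hκ_surj : ∀ n, Function.Surjective (κ n) := fun n =>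
    s59f_kappa_surjective D0 (DQ n) Nd p (s56a_tangentStable_ord 𝒪 p _ _) (κ n) (hκ n) (eκ n)
  have hκtr : ∀ n g, κ n (s59i_cpTr (DQ n).ρ g) = s59i_cpTr D0.ρ g := fun n g =>
    s59f_kappa_trace D0 (DQ n) (κ n) (hκ n) (eκ n) g
  -- the bases
  choose bR hbR using fun n => s56a_exists_basisR (DQs n) Nd
  choose b' hb' using fun n =>
    s59f_exists_basis_kappa (DQs n) (DQ n) (bR n) (κs n) (hκs n) (eκs n)
  choose b0 hb0 using fun n => s59f_exists_basis_kappa (DQ n) D0 (b' n) (κ n) (hκ n) (eκ n)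
  -- the bridges
  have hbridge : ∀ n, ∃ γ : s59r_Flat 𝒪 (0 + m) e (r + m + e) →ₐ[𝒪]
      MvPowerSeries (s59q_ZIdx m e) (DQ n).R, Function.Surjective γ ∧
      s59f_BridgeEqsG L (s59i_rhoM (DQs n) (bR n) (κs n))
        (fun t => s59q_frameU (DQ n).R (P t) t) (fun t => s59q_frameU' (DQ n).R (P' t) t)
        γ σq φq ∧
      γ (s59r_XG i₀) ∈ Ideal.span ((fun x : (DQ n).R =>
        (C x : MvPowerSeries (s59q_ZIdx m e) (DQ n).R)) '' Jm n) := by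
    intro n
    obtain ⟨γ₀, hγ₀, h1, h2, h3, h4, h5⟩ := hqv4 n (DQs n) (bR n) (hbR n)
      (s56a_isTestAlgebra_R (DQ n)) (κs n) (hκs_surj n) (Jm n) (hJmax n)
      (fun f₀ hf₀ hs => s59q_flat_of_kill_ker (DQs n) (Dsf n) Nd (bR n) (hbR n) p
        (s56a_tangentStable_ord 𝒪 p _ Smin) (DQ n).ρ (κs n) (hκs n) (eκs n) (κsf n) (hκsf n)
        (eκsf n) (hκsf_surj n) (Dsf n).isOfType.1.2.1.2 f₀ hf₀ hs)
    obtain ⟨γ, hγ, hB, hX⟩ := s59q_bridgeEqsG_inst_J (DQs n) (bR n) (κs n) σq φq L P P' γ₀ hγ₀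
      h1 h2 h3 h4
    refine ⟨γ, hγ, hB, ?_⟩
    rw [hX i₀]
    exact h5 i₀ hi₀
  choose γ hγ hB hmark using hbridge
  have hG : ∀ n, s59f_GalG L ε4 u4 (s59i_rhoM (DQs n) (bR n) (κs n))
      (fun t => s59q_frameU (DQ n).R (P t) t) (fun t => s59q_frameU' (DQ n).R (P' t) t)
      σq φq (fun t => (pr t : ℕ)) := fun n =>
    s59f_GalG_inst (DQs n) (DQ n) Nd (bR n) (hbR n) (κs n) (hκs n) (eκs n) pr σq φq L ε4 u4 P P' p
      hi2 (DQs n).isOfType.1.1 hunr (fun t => (hσq t).1) hφq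
      (fun t => (DQ n).isOfType.2 _ (hprSu t) (pr t).prop (hunr t).1) hPP' hP'P hMres hφ4 hqu
      (fun i => rfl) hqB
  -- the ring contract
  have hS : ringKrullDim 𝒪 + ((3 * (0 + m) + ((r + m + e) + e * 3) : ℕ) : WithBot ℕ∞) ≤
      ringKrullDim (MvPowerSeries (s59q_ZIdx m e) (MvPowerSeries (Fin r) 𝒪)) := by
    refine s59i_hdim' 𝒪 (0 + m) e (r + m + e) r (s59q_ZIdx m e) ?_
    rw [s59i_card_ZIdx]
    omega
  let TL : ∀ n, s59b_TLevelFW 𝒪 p n r (s59q_ZIdx m e) k Bs (qv n)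
      (fun t => (pr (Sum.swap (step t)) : ℕ)) (fun t => φq (Sum.swap (step t)))
      (fun t => σq (Sum.swap (step t))) (DQ n) (Jm n) := fun n =>
    (HT r hr n (qv n) (hqv1 n) (hqv2 n) (hqv3 n) (DQ n) (Dsf n) (κsf n) (hκsf n) (eκsf n)
      (hκsf_surj n)).some
  refine s59f_FLR_asm_w p hp2 hp𝒪 i2 hi2 (𝒟Q := 𝒟Q) hmono D0 DQ κ hκ_surj hκtr r
    (s59r_Flat 𝒪 (0 + m) e (r + m + e)) γ hγ k Finset.univ
    (s59f_KG (fun l => (L l).Λ) (s59u_r2_theta4 i2 ε4 u4) hϑ (r + m + e))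
    (s59u_r2_chain (fun l => (L l).Λ) (fun l => (L l).D) step)
    (s59u_r2_delta (fun l => (L l).Λ) (fun l => (L l).D) (Fin.natAdd 0)
      (s59u_r2_theta4 i2 ε4 u4) (r + m + e) step)
    (fun _ => s59r_XG i₀)
    (s59b_G_ringW (r + m + e) L ε4 u4 hi2 hϑ step k hstep i₀ _ hS)
    (fun t => (pr (Sum.swap (step t)) : ℕ)) (fun t => φq (Sum.swap (step t)))
    (fun t => σq (Sum.swap (step t)))
    (s59f_g12G (r + m + e) L ε4 u4 hi2 hε4 hϑ step)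
    ?_ ?_ ?_ ?_ Jm ?_ Bs qv TL ?_ 𝒪' x hx ?_
  · -- `hδ`
    intro t ht
    exact s59f_G_hδ' (r + m + e) L ε4 u4 hi2 hε4 hϑ step t _ (huq t)
  · -- (Rτ)
    intro n t ht
    rw [s59f_G_Rτ hi2 hε4 hϑ (hγ n) (hB n) (hG n) step t, s59i_rhoM_trace,
      s59f_kappa_trace (DQ n) (DQs n) (κs n) (hκs n) (eκs n)]
  · -- (Rkill)
    intro n T₁ _ _ _ _ _ _ htf f hf
    exact s59f_G_Rkill hi2 hε4 hϑ hu0 hu1 hu2 (hγ n) (hB n) (hG n) T₁ htf f hf
  · -- (R0)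
    intro n A _ _ _ _ f hfloc hN F hF
    refine s59f_G_R0 hϑ (hγ n) (hB n) (hG n) step A f hfloc ?_ F hF
    intro t i j
    obtain ⟨l, hl, hsl⟩ := hcover (Sum.swap t)
    have h := hN l hl ((b' n).coord i) ((b' n) j)
    have e1 : Sum.swap (step l) = t := by rw [hsl, Sum.swap_swap]
    simp only [e1] at h
    rw [← s59f_matOf_sub_one_apply, hb' n] at h
    exact h
  · -- (Rb)
    intro n t ht
    exact hmark n
  · -- `hunrQ`
    rintro n i g ⟨A, hA, hg⟩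
    exact s59f_cpTr_two_of_unram D0.ρ (b0 0) (qv n i)
      (D0.isOfType.1.2.2 (qv n i) (hqv2 n i).1 (fun h => (hqv2 n i).2.1 (hSgS h))) A hA g hg
  · -- `hxK`
    intro F hF n
    rw [s59f_chain_full _ _ step k hcover] at hF
    letI : Algebra 𝒪 𝒪' := (x.comp (algebraMap 𝒪 D0.R)).toAlgebra
    have halg : ∀ o : 𝒪, algebraMap 𝒪 𝒪' o = x (algebraMap 𝒪 D0.R o) := fun o => rfl
    let ψ : MvPowerSeries (s59q_ZIdx m e) (DQ n).R →ₐ[𝒪] 𝒪' :=
      { toRingHom := x.comp ((κ n : (DQ n).R →+* D0.R).comp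
          (constantCoeff (σ := s59q_ZIdx m e) (R := (DQ n).R)))
        commutes' := fun o => by
          show x (κ n (constantCoeff (algebraMap 𝒪 (MvPowerSeries (s59q_ZIdx m e) (DQ n).R) o))) =
            x (algebraMap 𝒪 D0.R o)
          rw [MvPowerSeries.algebraMap_apply, constantCoeff_C, (κ n).commutes] }
    have hψdef : ∀ a, ψ a = x (κ n (constantCoeff a)) := fun a => rfl
    have h := s59f_G_xK hi2 hε4 hϑ hu0 hu1 hu2 (hγ n) (hB n) (hG n) ψ ?_ hxinj ?_ ?_ F hF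
    · exact h
    · -- locality
      intro a ha
      rw [hψdef]
      exact hx _ (s59i_surj_mem (κ n : (DQ n).R →+* D0.R) (hκ_surj n) _
        ((s59i_mem_maximalIdeal_iff_constantCoeff a).mp ha))
    · -- ramified
      intro t h1
      obtain ⟨f, v, hfv⟩ := hxram t
      apply hfv
      refine s59f_dual_kill D0.ρ (b0 n) x (σq t) ?_ f v
      intro i j
      have h2 := s59f_rho_map_of_Fm_one (s59i_rhoM (DQs n) (bR n) (κs n))
        (fun t => s59q_frameU (DQ n).R (P t) t) (fun t => s59q_frameU' (DQ n).R (P' t) t)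
        (fun t => s59q_frameU_mul (P t) (P' t) (hPP' t) t)
        (ψ : MvPowerSeries (s59q_ZIdx m e) (DQ n).R →+* 𝒪') t (σq t) h1
      have h3 := congrFun (congrFun h2 i) j
      have h4 : x (κ n (κs n (matOf (DQs n).ρ (bR n) (σq t) i j))) =
          (1 : Matrix (Fin 2) (Fin 2) 𝒪') i j := by
        rw [← h3]
        show _ = x (κ n (constantCoeff (C (κs n (matOf (DQs n).ρ (bR n) (σq t) i j)))))
        rw [constantCoeff_C]
      rw [Matrix.sub_apply, map_sub, hb0 n, hb' n]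
      show x (κ n (κs n (matOf (DQs n).ρ (bR n) (σq t) i j))) -
        x ((1 : Matrix (Fin 2) (Fin 2) D0.R) i j) = 0
      rw [h4, Matrix.one_apply, Matrix.one_apply]
      split_ifs <;> simp
    · -- the traces
      intro l
      rw [hψdef, constantCoeff_C, s59i_rhoM_trace,
        s59f_kappa_trace (DQ n) (DQs n) (κs n) (hκs n) (eκs n), hκtr, halg]
      exact hxtr l

end Fermat.Agent.Lib.S59
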