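/-
PROGRAMME (R), non-minimal case (P), route (T5w) (helper6, prefix `s59q_`), item [W2] (ii), CONSUMER FORM:
**`s59q_FLR_R_w_fl` = `s59q_FLR_R_w` (QSFlrRW.lean) with**
  * the lift of type "strict AND flat" REPLACED by ONE FLAT lift `ρ₂` of `ρ̄` over any test algebra `A₂` (e.g. a modular lift of level
    prime to `p`, or the universal flat ring): the sf lift is then `ρ̄` itself over `k` (`s59q_sfType_residual`, QSfLift.lean; the
    strict lift is `D0.ρ`);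
  * the `T`-side hypothesis `HT` in the SAME shape as helper3's spectator twin `s59u_w_sp_FLR_R_pt_ord` (UWSpE.lean):
    `3 m + e ≤ r`, `κsf` onto and trace-compatible.
-/
import Mathlib
import Fermat.Agent.Lib.S59.QSFlrRW
import Fermat.Agent.Lib.S59.QSfLift

set_option autoImplicit false
set_option linter.unusedSectionVars false
set_option linter.unusedVariables false
set_option linter.style.haveILetI false
set_option maxHeartbeats 3200000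
set_option synthInstance.maxHeartbeats 400000

noncomputable section

namespace Fermat.Agent.Lib.S59

open IsLocalRing MvPowerSeries ExtCitation
open Fermat.Agent.Lib.S53 (matOf matOfRes NormData matOf_apply matOfRes_apply)
open Fermat.Agent.Lib.Deform
open Fermat.Agent.Lib.S56

local notation "Γℚ" => (AlgebraicClosure ℚ ≃ₐ[ℚ] AlgebraicClosure ℚ)

/-- **[PATCH-FLR] with the weak trace clause and the `R`-side discharged, STRICT-ORDINARY type, consumer form.** -/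
theorem s59q_FLR_R_w_fl
    (p : ℕ) [hp : Fact p.Prime] (hp2 : p ≠ 2)
    {𝒪 : Type} [CommRing 𝒪] [IsDomain 𝒪] [IsDiscreteValuationRing 𝒪]
    [IsAdicComplete (maximalIdeal 𝒪) 𝒪] [Finite (ResidueField 𝒪)] [CharZero 𝒪]
    (hp𝒪 : ((p : ℕ) : 𝒪) ∈ maximalIdeal 𝒪)
    -- the binders of `s59f_inst_ordG`
    (ρbar : ResidualGaloisRep (ResidueField 𝒪))
    (habs : ρbar.IsAbsolutelyIrreducible)
    (hdet : (GaloisRepAdic.ofResidualGaloisRep ρbar).DetIsCyclotomic p)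
    (hsplit : ∀ σ : Γℚ, ∃ α β : ResidueField 𝒪,
      LinearMap.charpoly (ρbar.ρ σ) = (Polynomial.X - Polynomial.C α) * (Polynomial.X - Polynomial.C β))
    (hTW : ∀ (K : Type) [Field K] [Algebra (ResidueField 𝒪) K] (G : Subgroup Γℚ), G.index = 2 →
      ∀ V : Submodule K (ρbar.baseChange K).V,
        (∀ σ ∈ G, ∀ x ∈ V, (ρbar.baseChange K).ρ σ x ∈ V) → V = ⊥ ∨ V = ⊤)
    (S Smin Bd Ed : Finset ℕ) (hpSmin : p ∈ Smin) (hSmin : Smin ⊆ S) (hBS : Bd ⊆ S) (hES : Ed ⊆ S)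
    (hBprime : ∀ q ∈ Bd, q.Prime) (hEprime : ∀ q ∈ Ed, q.Prime)
    (hmin : ∀ q : ℕ, q.Prime → q ≠ p → (q ∈ Smin ↔ ¬ ρbar.IsUnramifiedAt q))
    (hBunr : ∀ q ∈ Bd, q ≠ p ∧ ρbar.IsUnramifiedAt q)
    (hEunr : ∀ q ∈ Ed, q ≠ p ∧ ρbar.IsUnramifiedAt q)
    (hBE : Disjoint Bd Ed)
    (hcen : ∀ q : Nat.Primes, (q : ℕ) ∈ Bd → s59q_CentralAt ρbar q)
    (Nd : NormData ρbar) (m e : ℕ) (pr : Fin m ⊕ Fin e → Nat.Primes)
    (hprB : Finset.univ.image (fun j : Fin m => (pr (Sum.inl j) : ℕ)) = Bd)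
    (hprE : Finset.univ.image (fun l : Fin e => (pr (Sum.inr l) : ℕ)) = Ed)
    (hBinj : Function.Injective fun j : Fin m => (pr (Sum.inl j) : ℕ))
    (hEinj : Function.Injective fun l : Fin e => (pr (Sum.inr l) : ℕ))
    (σq φq : Fin m ⊕ Fin e → Γℚ)
    (hσq : ∀ t, s59q_IsTameGen (pr t) (primeLocalPlace (pr t)) (σq t))
    (hφq : ∀ t, (primeLocalPlace (pr t)).IsFrobeniusAt (φq t) (pr t))
    (i2 : 𝒪) (hi2 : 2 * i2 = 1)
    (P P' : Fin m ⊕ Fin e → Matrix (Fin 2) (Fin 2) 𝒪) (hPP' : ∀ t, P t * P' t = 1)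
    (hP'P : ∀ t, P' t * P t = 1)
    -- the local models
    (L : Fin e → s59f_LocBr 𝒪 i2) (ε4 : Fin m → 𝒪) (hε4 : ∀ i, ε4 i ^ 2 = 1)
    (hMres : ∀ l, (P' (Sum.inr l)).map (residue 𝒪) * matOfRes ρbar Nd.b (φq (Sum.inr l)) *
      (P (Sum.inr l)).map (residue 𝒪) = ((L l).M0).map (residue 𝒪))
    (hφ4 : ∀ i, matOfRes ρbar Nd.b (φq (Sum.inl i)) =
      residue 𝒪 (ε4 i) • (1 : Matrix (Fin 2) (Fin 2) (ResidueField 𝒪)))
    (hqu : ∀ l, (L l).u = (((pr (Sum.inr l) : ℕ) : ℕ) : 𝒪))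
    (hqB : ∀ j, (((pr (Sum.inl j) : ℕ) : ℕ) : 𝒪) - 1 ∈ maximalIdeal 𝒪)
    -- the order of the raising primes
    (step : ℕ → Fin e ⊕ Fin m) (k : ℕ) (hstep : ∀ t < k, ∀ t' < t, step t' ≠ step t)
    (hcover : ∀ s : Fin e ⊕ Fin m, ∃ t < k, step t = s)
    -- the base ring and the `T`-side
    (D0 : GaloisRep.DeformationRingData 𝒪 ρbar (fun _A _ _ _ ρ =>
      GaloisRep.strictOrdinaryCondition 𝒪 p (Smin ∪ (Bd ∪ Ed)) ρ ∧
        ∀ q ∈ Smin ∪ (Bd ∪ Ed), q.Prime → q ≠ p → ρ.IsUnipotentOnInertiaAt q))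
    -- ONE FLAT lift (the strict one is `D0.ρ`)
    {A₂ : Type} [CommRing A₂] [IsLocalRing A₂] [Algebra 𝒪 A₂]
    (hloc₂ : IsLocalHom (algebraMap 𝒪 A₂))
    (hres₂ : Function.Surjective (IsLocalRing.residue A₂ ∘ algebraMap 𝒪 A₂))
    (ρ₂ : GaloisRepAdic A₂) (hfl₂ : ρ₂.IsFlatAt p)
    (hresid₂ : ρ₂.residual.IsEquiv
      (ρbar.baseChangeAlong (IsLocalRing.ResidueField.map (algebraMap 𝒪 A₂))))
    (Bs : s59f_TBaseF 𝒪 k D0)
    (HT : ∀ r : ℕ, 3 * m + e ≤ r → ∀ (n : ℕ) (qv : Fin r → ℕ), Function.Injective qv →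
      (∀ i, (qv i).Prime ∧ qv i ∉ S ∧ p ^ (n + 1) ∣ qv i - 1) →
      (∀ i, ∀ A : ValuationSubring (AlgebraicClosure ℚ), A.LiesOverPrime (qv i) →
        ∀ φ : Γℚ, A.IsFrobeniusAt φ (qv i) →
          ∃ α β : ResidueField 𝒪, α ≠ β ∧
            LinearMap.charpoly (ρbar.ρ φ) = (Polynomial.X - Polynomial.C α) * (Polynomial.X - Polynomial.C β)) →
      ∀ (DQ : GaloisRep.DeformationRingData 𝒪 ρbar (fun _A _ _ _ ρ =>
        GaloisRep.strictOrdinaryCondition 𝒪 p (Smin ∪ (Bd ∪ Ed) ∪ Finset.univ.image qv) ρ ∧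
          ∀ q ∈ Smin ∪ (Bd ∪ Ed), q.Prime → q ≠ p → ρ.IsUnipotentOnInertiaAt q))
        (Dsf : GaloisRep.DeformationRingData 𝒪 ρbar
          (s59q_SfType 𝒪 p (Smin ∪ (Bd ∪ Ed) ∪ Finset.univ.image qv) (Smin ∪ (Bd ∪ Ed))))
        (κsf : DQ.R →ₐ[𝒪] Dsf.R), Function.Surjective κsf →
        (∀ g, κsf (s59i_cpTr DQ.ρ g) = s59i_cpTr Dsf.ρ g) →
        Nonempty (s59b_TLevelFW 𝒪 p n r (s59q_ZIdx m e) k Bs qv
          (fun t => (pr (Sum.swap (step t)) : ℕ)) (fun t => φq (Sum.swap (step t)))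
          (fun t => σq (Sum.swap (step t))) DQ
          ((RingHom.ker (κsf : DQ.R →+* Dsf.R) : Ideal DQ.R) : Set DQ.R)))
    -- the point
    (𝒪' : Type) [CommRing 𝒪'] [IsDomain 𝒪'] [IsLocalRing 𝒪'] [IsNoetherianRing 𝒪']
    [IsAdicComplete (maximalIdeal 𝒪') 𝒪']
    (x : D0.R →+* 𝒪') (hx : ∀ a ∈ maximalIdeal D0.R, x a ∈ maximalIdeal 𝒪')
    (hxinj : Function.Injective (x.comp (algebraMap 𝒪 D0.R)))
    (hxram : ∀ t, ∃ (f : Module.Dual D0.R D0.ρ.V) (v : D0.ρ.V),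
      x (f (D0.ρ.ρ (σq t) v - v)) ≠ 0)
    (hxtr : ∀ l, x (s59i_cpTr D0.ρ (φq (Sum.inr l))) = x (algebraMap 𝒪 D0.R (L l).tr0)) :
    RingHom.ker (Bs.ν k : D0.R →+* Bs.R k) ≤ RingHom.ker x := by
  classical
  have hk : IsTestAlgebra 𝒪 (ResidueField 𝒪) := s59q_isTestAlgebra_k
  haveI : IsAdicComplete (maximalIdeal (ResidueField 𝒪)) (ResidueField 𝒪) :=
    Fermat.Agent.Lib.Deform.isAdicComplete_of_isArtinianRing _
  exact s59q_FLR_R_w p hp2 hp𝒪 ρbar habs hdet hsplit hTW S Smin Bd Ed hpSmin hSmin hBS hES hBprime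
    hEprime hmin hBunr hEunr hBE hcen Nd m e pr hprB hprE hBinj hEinj σq φq hσq hφq i2 hi2 P P' hPP'
    hP'P L ε4 hε4 hMres hφ4 hqu hqB step k hstep hcover D0 hk.isLocalHom hk.residue_surjective
    (GaloisRepAdic.ofResidualGaloisRep ρbar)
    (s59q_sfType_residual p ρbar Nd _ _ inferInstance D0.residue_surjective D0.ρ D0.isOfType
      D0.residual_isEquiv hloc₂ hres₂ ρ₂ hfl₂ hresid₂)
    (s59q_ofRes_residual ρbar hk.isLocalHom) Bs
    (fun r hr n qv hqinj hqv hTWq DQ Dsf κsf hκsf eκsf hκsurj =>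
      HT r (by omega) n qv hqinj hqv hTWq DQ Dsf κsf hκsurj
        (fun g => s59f_kappa_trace Dsf DQ κsf hκsf eκsf g))
    𝒪' x hx hxinj hxram hxtr

end Fermat.Agent.Lib.S59
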