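/-
PROGRAMME R2 = S59, case (P), the field `liftABp` (`s59g_LIFTThreeP`), node [W5]-top (helper3, prefix `s59u_p_`), file 3
(SCRIPTED from helper6's Q3SFlrW5.lean, `s59q_sf3_Lmin_abs_unr`): **[PATCH-min] IN CASE (P) OVER THE MASTER STATEMENT AT `k = 0`** —
the minimal half (no raising prime) of the (P)-top: the `T`-side is the instance `k = 0` of `s59u_p_TFinX` (UP3A.lean), i.e. a base
record `Bs : s59f_TBaseF 𝒪 0 D0` and helper2's weak Taylor–Wiles records `s59b_TLevelFW … 0 … DQ ↑(ker κsf)` (B9TLvlW.lean), which at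
`k = 0` have no raising step.  The rings `Dsf` ("strict AND flat") exist by ONE flat lift of `ρ̄_W` (helper6's `s59q_sfType_residual`,
`s59q_exists_DQ_sf`), the maps `κsf` by the universal property (`s59f_kappa_exists/_surjective/_trace`).

* **`s59u_p_Lmin_abs_w`**.
-/
import Mathlib
import Fermat.Agent.Lib.S59.QSLMinA
import Fermat.Agent.Lib.S59.QSFlrRW2
import Fermat.Agent.Lib.S59.B9TLvlW
import Fermat.Agent.Lib.S59.ELPkgHb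

set_option autoImplicit false
set_option linter.unusedSectionVars false
set_option linter.unusedVariables false
set_option linter.style.haveILetI false
set_option maxHeartbeats 3200000
set_option synthInstance.maxHeartbeats 400000

noncomputable section

namespace Fermat.Agent.Lib.S59

open IsLocalRing CuspForm Polynomial
open Fermat.Agent.Lib.S53 (matOf matOfRes NormData)
open Fermat.Agent.Lib.Deform (IsTestAlgebra)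
open Fermat.Agent.Lib.S56 Fermat.Agent.Lib.S44

local notation "Γℚ" => (AlgebraicClosure ℚ ≃ₐ[ℚ] AlgebraicClosure ℚ)

/-- **[PATCH-min], STRICT-ORDINARY type, over an abstract `T`-side in the WEAK `F`-shape at `k = 0`** — helper6's
`s59q_sf3_Lmin_abs_unr` (Q3SFlrW5.lean) with the `T`-side in the shape delivered by the master statement `s59u_p_TFinX` at `k = 0`
(`Bs : s59f_TBaseF 𝒪 0 D0`, records `s59b_TLevelFW … 0 … DQ ↑(ker κsf)` for every "strict AND flat" ring `Dsf` and every onto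
trace-compatible `κsf`; at `k = 0` a weak record has no step, so it is a full record) and ONE flat lift of `ρ̄_W` (for the existence
of the rings `Dsf`).  The type of `D0` is `strict(Σ_min ∪ (∅ ∪ Ed)) ∧ unip(Σ_min)` (no trailing `∪ ∅`). -/
theorem s59u_p_Lmin_abs_w (p : ℕ) [Fact p.Prime] (hp35 : p = 3 ∨ p = 5) (W : WeierstrassCurve ℤ) (hΔ : W.Δ ≠ 0)
    (N : ℕ) [NeZero N] (B : Finset ℕ)
    (hss : W.IsSemistableModel) (hirr : W.ModRepIsIrreducible p)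
    (hB1 : ∀ r : ℕ, r.Prime → r ∣ N * p → r ∈ B)
    (hB2 : ∀ r : ℕ, r.Prime → ¬ W.IsGoodPrimeFor r → r ∈ B)
    (hmult : ¬ W.IsGoodPrimeFor p)
    (𝒪 : Type) [CommRing 𝒪] [IsDomain 𝒪] [IsDiscreteValuationRing 𝒪]
    [IsAdicComplete (maximalIdeal 𝒪) 𝒪] [Finite (ResidueField 𝒪)] [CharZero 𝒪]
    [Algebra ℤ_[p] 𝒪] [Module.Finite ℤ_[p] 𝒪]
    (hp𝒪 : ((p : ℕ) : 𝒪) ∈ maximalIdeal 𝒪)
    (N' : ℕ) (Rd : s59i_RData p N' (s59i_rhobarW W p hΔ 𝒪 hp𝒪) B (∅ : Finset ℕ))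
    (hm : Rd.m = 0) (he : Rd.e = 0)
    (hunrW : ∀ q : ℕ, q.Prime → q ≠ p → ¬ W.IsGoodPrimeFor q → q ∉ Rd.Smin →
      (s59q_WRho W hΔ hp𝒪).IsUnramifiedAt q)
    -- ONE FLAT lift of `ρ̄_W`
    {A₂ : Type} [CommRing A₂] [IsLocalRing A₂] [Algebra 𝒪 A₂]
    (hloc₂ : IsLocalHom (algebraMap 𝒪 A₂))
    (hres₂ : Function.Surjective (IsLocalRing.residue A₂ ∘ algebraMap 𝒪 A₂))
    (ρ₂ : GaloisRepAdic A₂) (hfl₂ : ρ₂.IsFlatAt p)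
    (hresid₂ : ρ₂.residual.IsEquiv
      ((s59i_rhobarW W p hΔ 𝒪 hp𝒪).baseChangeAlong (IsLocalRing.ResidueField.map (algebraMap 𝒪 A₂))))
    (qr : ℕ → ℕ) (φr σr : ℕ → Γℚ)
    (HT : ∀ (D0 : GaloisRep.DeformationRingData 𝒪 (s59i_rhobarW W p hΔ 𝒪 hp𝒪) (fun _A _ _ _ ρ =>
        GaloisRep.strictOrdinaryCondition 𝒪 p (Rd.Smin ∪ ((∅ : Finset ℕ) ∪ Rd.Ed)) ρ ∧
          ∀ q ∈ Rd.Smin, q.Prime → q ≠ p → ρ.IsUnipotentOnInertiaAt q)) (r : ℕ),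
      ∃ Bs : s59f_TBaseF 𝒪 0 D0,
        s59e_HkFrobP N (↑B : Set ℕ) (Bs.R 0) (Bs.ρR 0) ∧
        ∀ (n : ℕ) (qv : Fin r → ℕ), Function.Injective qv →
          (∀ i, (qv i).Prime ∧ qv i ∉ B ∧ p ^ (n + 1) ∣ qv i - 1) →
          (∀ i, ∀ A : ValuationSubring (AlgebraicClosure ℚ), A.LiesOverPrime (qv i) →
            ∀ φ : Γℚ, A.IsFrobeniusAt φ (qv i) →
              ∃ α β : ResidueField 𝒪, α ≠ β ∧
                LinearMap.charpoly ((s59i_rhobarW W p hΔ 𝒪 hp𝒪).ρ φ) = (X - C α) * (X - C β)) →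
          ∀ (DQ : GaloisRep.DeformationRingData 𝒪 (s59i_rhobarW W p hΔ 𝒪 hp𝒪) (fun _A _ _ _ ρ =>
            GaloisRep.strictOrdinaryCondition 𝒪 p
                (Rd.Smin ∪ ((∅ : Finset ℕ) ∪ Rd.Ed) ∪ Finset.univ.image qv) ρ ∧
              ∀ q ∈ Rd.Smin, q.Prime → q ≠ p → ρ.IsUnipotentOnInertiaAt q))
            (Dsf : GaloisRep.DeformationRingData 𝒪 (s59i_rhobarW W p hΔ 𝒪 hp𝒪)
              (s59q_SfType 𝒪 p (Rd.Smin ∪ ((∅ : Finset ℕ) ∪ Rd.Ed) ∪ Finset.univ.image qv) Rd.Smin))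
            (κsf : DQ.R →ₐ[𝒪] Dsf.R), Function.Surjective κsf →
            (∀ g, κsf (s59i_cpTr DQ.ρ g) = s59i_cpTr Dsf.ρ g) →
            Nonempty (s59b_TLevelFW 𝒪 p n r (s59q_ZIdx Rd.m Rd.e) 0 Bs qv qr φr σr DQ
              ((RingHom.ker (κsf : DQ.R →+* Dsf.R) : Ideal DQ.R) : Set DQ.R))) :
    ∃ χ : heckeAlgebra N 2 (↑B : Set ℕ) →+* 𝒪,
      ∀ (ℓ : ℕ) (hℓ : ℓ.Prime) (hℓN : ¬ ℓ ∣ N) (hℓB : ℓ ∉ (↑B : Set ℕ)),
        χ (heckeAlgebra.T hℓ hℓN hℓB) = ((W.apOfModel ℓ : ℤ) : 𝒪) := by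
  classical
  have hpP : p.Prime := Fact.out
  have hp2 : p ≠ 2 := by rcases hp35 with rfl | rfl <;> norm_num
  have hty : ∀ (Sg : Finset ℕ), p ∈ Sg →
      (∀ q : ℕ, q.Prime → q ≠ p → ¬ W.IsGoodPrimeFor q → q ∉ Sg →
        (s59q_WRho W hΔ hp𝒪).IsUnramifiedAt q) →
      GaloisRep.strictOrdinaryCondition 𝒪 p Sg (s59q_WRho W hΔ hp𝒪) ∧
        ∀ q ∈ Rd.Smin, q.Prime → q ≠ p → (s59q_WRho W hΔ hp𝒪).IsUnipotentOnInertiaAt q := by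
    intro Sg hpSg hun
    refine ⟨⟨s59q_W_detCyc W hΔ hp𝒪 hp2 hirr,
      s59e_bc_strictOrd _ _ _ p (s59b_rhoW_strictOrd_of_semistable hΔ hp2 hirr hss hmult), ?_⟩, ?_⟩
    · intro q hq hqS
      have hqp : q ≠ p := fun h => hqS (h ▸ hpSg)
      by_cases hgood : W.IsGoodPrimeFor q
      · exact s59e_bc_unram _ _ _ q (s59b_rhoW_unram hΔ hp2 q hq hqp hgood)
      · exact hun q hq hqp hgood hqS
    · intro q _ hq hqp
      exact s59e_bc_unip _ _ _ q (s59b_rhoW_unip hΔ hp2 hirr hss q hq hqp)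
  have hEx : ∀ {r : ℕ} (qv : Fin r → ℕ),
      Nonempty (GaloisRep.DeformationRingData 𝒪 (s59i_rhobarW W p hΔ 𝒪 hp𝒪) (fun _A _ _ _ ρ =>
        GaloisRep.strictOrdinaryCondition 𝒪 p
            (Rd.Smin ∪ ((∅ : Finset ℕ) ∪ Rd.Ed) ∪ Finset.univ.image qv) ρ ∧
          ∀ q ∈ Rd.Smin, q.Prime → q ≠ p → ρ.IsUnipotentOnInertiaAt q)) := fun qv =>
    s59q_exists_DQ_ord_TW p hp2 hp𝒪 (s59q_WRhobar W hΔ hp𝒪) Rd.habs Rd.Smin (∅ : Finset ℕ) Rd.Ed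
      Rd.hpSmin Rd.hmin inferInstance IsLocalRing.residue_surjective (s59q_WRho W hΔ hp𝒪)
      (hty (Rd.Smin ∪ ((∅ : Finset ℕ) ∪ Rd.Ed)) (Finset.mem_union_left _ Rd.hpSmin)
        (fun q hq hqp hb hqS => hunrW q hq hqp hb fun h => hqS (Finset.mem_union_left _ h)))
      (s59q_W_resid_self W hΔ hp𝒪) qv
  have hpB : p ∈ B := hB1 p hpP (Dvd.intro_left N rfl)
  -- the `R`-side
  obtain ⟨r, hr, H⟩ := s59q_inst_ord p hp2 hp𝒪 (s59i_rhobarW W p hΔ 𝒪 hp𝒪) Rd.habs Rd.hdet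
    Rd.hsplit Rd.hTW B Rd.Smin (∅ : Finset ℕ) Rd.Ed Rd.hpSmin Rd.hSmin Rd.hBS Rd.hES Rd.hBprime
    Rd.hEprime Rd.hmin Rd.hBunr Rd.hEunr Rd.hBE Rd.hcen Rd.Nd Rd.m Rd.e Rd.pr Rd.hprB Rd.hprE
    Rd.hBinj Rd.hEinj Rd.σq Rd.φq Rd.hσq Rd.hφq Rd.D.i2 Rd.D.hi2 Rd.P Rd.P' Rd.hPP' Rd.hP'P
    Rd.αE Rd.βE Rd.hαβ Rd.hαβ' Rd.hdiag
  choose qv hqv1 hqv2 hqv3 hqv4 using H
  -- the universal rings
  obtain ⟨D0⟩ : Nonempty (GaloisRep.DeformationRingData 𝒪 (s59i_rhobarW W p hΔ 𝒪 hp𝒪)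
      (fun _A _ _ _ ρ =>
        GaloisRep.strictOrdinaryCondition 𝒪 p (Rd.Smin ∪ ((∅ : Finset ℕ) ∪ Rd.Ed)) ρ ∧
          ∀ q ∈ Rd.Smin, q.Prime → q ≠ p → ρ.IsUnipotentOnInertiaAt q)) := by
    have h := hEx (r := 0) Fin.elim0
    simpa only [Finset.univ_eq_empty, Finset.image_empty, Finset.union_empty] using h
  let 𝒟 : ℕ → ∀ ⦃A : Type⦄ [CommRing A] [IsLocalRing A] [Algebra 𝒪 A], GaloisRepAdic A → Prop :=
    fun n _A _ _ _ ρ =>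
      GaloisRep.strictOrdinaryCondition 𝒪 p
          (Rd.Smin ∪ ((∅ : Finset ℕ) ∪ Rd.Ed) ∪ Finset.univ.image (qv n)) ρ ∧
        ∀ q ∈ Rd.Smin, q.Prime → q ≠ p → ρ.IsUnipotentOnInertiaAt q
  let DQ : ∀ n, GaloisRep.DeformationRingData 𝒪 (s59i_rhobarW W p hΔ 𝒪 hp𝒪) (𝒟 n) := fun n =>
    (hEx (qv n)).some
  choose bR hbR using fun n => s56a_exists_basisR (DQ n) Rd.Nd
  -- monotonicity of the type
  have hmono : ∀ (n : ℕ) {A : Type} [CommRing A] [IsLocalRing A] [Algebra 𝒪 A]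
      (ρ : GaloisRepAdic A),
      (GaloisRep.strictOrdinaryCondition 𝒪 p (Rd.Smin ∪ ((∅ : Finset ℕ) ∪ Rd.Ed)) ρ ∧
        ∀ q ∈ Rd.Smin, q.Prime → q ≠ p → ρ.IsUnipotentOnInertiaAt q) → 𝒟 n ρ := by
    intro n A _ _ _ ρ h
    exact ⟨⟨h.1.1, h.1.2.1, fun q hq hqS => h.1.2.2 q hq fun hmem =>
      hqS (Finset.mem_union_left _ hmem)⟩, h.2⟩
  -- the "strict AND flat" rings and the canonical maps
  have hunrbar : ∀ n (q : ℕ), q.Prime →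
      q ∉ Rd.Smin ∪ ((∅ : Finset ℕ) ∪ Rd.Ed) ∪ Finset.univ.image (qv n) →
      (s59i_rhobarW W p hΔ 𝒪 hp𝒪).IsUnramifiedAt q := by
    intro n q hq hqS
    have hqSmin : q ∉ Rd.Smin := fun h =>
      hqS (Finset.mem_union_left _ (Finset.mem_union_left _ h))
    have hne : q ≠ p := fun h => hqSmin (h ▸ Rd.hpSmin)
    by_contra hram
    exact hqSmin ((Rd.hmin q hq hne).2 hram)
  have hkT : IsTestAlgebra 𝒪 (ResidueField 𝒪) := s59q_isTestAlgebra_k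
  haveI : IsAdicComplete (maximalIdeal (ResidueField 𝒪)) (ResidueField 𝒪) :=
    Fermat.Agent.Lib.Deform.isAdicComplete_of_isArtinianRing _
  have hsf₀ : s59q_SfType 𝒪 p (Rd.Smin ∪ ((∅ : Finset ℕ) ∪ Rd.Ed)) Rd.Smin
      (GaloisRepAdic.ofResidualGaloisRep (s59i_rhobarW W p hΔ 𝒪 hp𝒪)) :=
    s59q_sfType_residual p (s59i_rhobarW W p hΔ 𝒪 hp𝒪) Rd.Nd _ _ inferInstance D0.residue_surjective
      D0.ρ D0.isOfType D0.residual_isEquiv hloc₂ hres₂ ρ₂ hfl₂ hresid₂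
  have hDsf : ∀ n, Nonempty (GaloisRep.DeformationRingData 𝒪 (s59i_rhobarW W p hΔ 𝒪 hp𝒪)
      (s59q_SfType 𝒪 p (Rd.Smin ∪ ((∅ : Finset ℕ) ∪ Rd.Ed) ∪ Finset.univ.image (qv n)) Rd.Smin)) :=
    fun n => s59q_exists_DQ_sf p hp2 hp𝒪 (s59i_rhobarW W p hΔ 𝒪 hp𝒪) Rd.habs
      (Rd.Smin ∪ ((∅ : Finset ℕ) ∪ Rd.Ed)) _ Rd.Smin Finset.subset_union_left
      (Finset.mem_union_left _ (Finset.mem_union_left _ Rd.hpSmin)) (hunrbar n) hkT.isLocalHom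
      hkT.residue_surjective (GaloisRepAdic.ofResidualGaloisRep (s59i_rhobarW W p hΔ 𝒪 hp𝒪)) hsf₀
      (s59q_ofRes_residual (s59i_rhobarW W p hΔ 𝒪 hp𝒪) hkT.isLocalHom)
  let Dsf : ∀ n, GaloisRep.DeformationRingData 𝒪 (s59i_rhobarW W p hΔ 𝒪 hp𝒪)
      (s59q_SfType 𝒪 p (Rd.Smin ∪ ((∅ : Finset ℕ) ∪ Rd.Ed) ∪ Finset.univ.image (qv n)) Rd.Smin) :=
    fun n => (hDsf n).some
  have h𝒟Qsf : ∀ n, 𝒟 n (Dsf n).ρ := fun n =>
    s59q_sfType_ord p _ _ (Dsf n).ρ (Dsf n).isOfType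
  choose κsf hκsf eκsf using fun n => s59f_kappa_exists (Dsf n) (DQ n) (h𝒟Qsf n)
  have hκsf_surj : ∀ n, Function.Surjective (κsf n) := fun n =>
    s59f_kappa_surjective (Dsf n) (DQ n) Rd.Nd p (s59q_tangentStable_sf p _ _) (κsf n) (hκsf n)
      (eκsf n)
  -- the `T`-side
  obtain ⟨Bs, ⟨hk, hhk⟩, HL⟩ := HT D0 r
  let TL : ∀ n, s59b_TLevelFW 𝒪 p n r (s59q_ZIdx Rd.m Rd.e) 0 Bs (qv n) qr φr σr (DQ n)
      ((RingHom.ker (κsf n : (DQ n).R →+* (Dsf n).R) : Ideal (DQ n).R) : Set (DQ n).R) :=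
    fun n => (HL n (qv n) (hqv1 n) (hqv2 n) (hqv3 n) (DQ n) (Dsf n) (κsf n) (hκsf_surj n)
      (fun g => s59f_kappa_trace (Dsf n) (DQ n) (κsf n) (hκsf n) (eκsf n) g)).some
  -- the bridge
  have hγ := fun n => hqv4 n (DQ n) (bR n) (hbR n) (T := (DQ n).R) (s56a_isTestAlgebra_R (DQ n))
    (AlgHom.id 𝒪 (DQ n).R) Function.surjective_id
  choose γ hγs hγ1 hγ2 hγ3 hγ4 using hγ
  -- dimensions
  have hcard : Fintype.card (s59q_GIdx Rd.m Rd.e (r + Rd.m + Rd.e)) = r := by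
    simp only [Fintype.card_sum, Fintype.card_prod, Fintype.card_fin, hm, he]
    omega
  haveI : IsDomain (MvPowerSeries (s59q_GIdx Rd.m Rd.e (r + Rd.m + Rd.e)) 𝒪) :=
    NoZeroDivisors.to_isDomain _
  have hdim : ringKrullDim (MvPowerSeries (s59q_GIdx Rd.m Rd.e (r + Rd.m + Rd.e)) 𝒪) ≤
      ringKrullDim (MvPowerSeries (s59q_ZIdx Rd.m Rd.e) (MvPowerSeries (Fin r) 𝒪)) := by
    rw [s59i_dim_mvPowerSeries 𝒪, s59i_dim_mvPowerSeries (MvPowerSeries (Fin r) 𝒪),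
      s59p_pmdim 𝒪 r, hcard]
    exact le_add_of_nonneg_right (by exact_mod_cast Nat.zero_le _)
  -- the unramified traces at the Taylor–Wiles primes
  have hunrQ : ∀ n i, s59i_cpTr D0.ρ ((TL n).σQ 0 i) = 2 := by
    intro n i
    obtain ⟨A, hA, hσ⟩ := (TL n).hσQ 0 i
    have hq := hqv2 n i
    have hnot : qv n i ∉ Rd.Smin ∪ ((∅ : Finset ℕ) ∪ Rd.Ed) := by
      intro hmem
      rcases Finset.mem_union.mp hmem with h'' | h''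
      · exact hq.2.1 (Rd.hSmin h'')
      · rcases Finset.mem_union.mp h'' with h3 | h3
        · exact absurd h3 (Finset.notMem_empty _)
        · exact hq.2.1 (Rd.hES h3)
    exact s59e_Lmin_cpTr_one D0.ρ _ (D0.isOfType.1.2.2 (qv n i) hq.1 hnot A hA _ hσ)
  -- `ker ν` is nil
  have hnil := s59f_FINL_absA p Rd.D.i2 Rd.D.hi2 D0 DQ Rd.Nd
    (s56a_tangentStable_ord 𝒪 p _ Rd.Smin) (fun n => hmono n D0.ρ D0.isOfType) r
    (MvPowerSeries (s59q_GIdx Rd.m Rd.e (r + Rd.m + Rd.e)) 𝒪) hdim γ hγs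
    (Bs.R 0) (Bs.hRres 0) (Bs.M 0) (Bs.ρR 0) (fun n => hmono n (Bs.ρR 0) (Bs.hρR 0)) (Bs.hresR 0)
    (Bs.ν 0) (Bs.hν 0) (Bs.hνs 0)
    (s59t_frameA (s59q_ZIdx Rd.m Rd.e) (RingHom.ker (MvPowerSeries.constantCoeff (σ := Fin r) (R := 𝒪))))
    (s59e_L_frameA_CX (s59q_ZIdx Rd.m Rd.e)) (s59e_L_frameA_X (s59q_ZIdx Rd.m Rd.e))
    (s59e_L_frameA_le (s59q_ZIdx Rd.m Rd.e))
    (fun n => s59t_frameJ (s59q_ZIdx Rd.m Rd.e) (s59t_JH 𝒪 p n r))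
    (fun n => s59t_frameJ_JH_le (s59q_ZIdx Rd.m Rd.e) hp2 hp𝒪 n r)
    (fun n => (TL n).T') (fun n => (TL n).T) (fun n => (TL n).θ) (fun n => (TL n).hθ)
    (fun n => (TL n).L0 0) (Bs.d 0) (fun n => (TL n).hd 0) (fun n => (TL n).std)
    (fun n => (TL n).hstd 0)
    (fun n => (TL n).hψ𝒪 0) (fun n => (TL n).uu) (fun n => (TL n).huu) (fun n => (TL n).hgen)
    (fun n => (TL n).hstdX) (fun n => (TL n).hstdz) (fun n => (TL n).σQ 0)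
    (fun n => (TL n).hC8 0 le_rfl)
    hunrQ (fun n => (TL n).hτ 0)
  -- the point of `ρ_W ⊗ 𝒪`
  haveI hlid : IsLocalHom (algebraMap 𝒪 𝒪) := ⟨fun a h => h⟩
  have h𝒟W : GaloisRep.strictOrdinaryCondition 𝒪 p
      (Rd.Smin ∪ ((∅ : Finset ℕ) ∪ Rd.Ed)) (s59q_WRho W hΔ hp𝒪) ∧
      ∀ q ∈ Rd.Smin, q.Prime → q ≠ p → (s59q_WRho W hΔ hp𝒪).IsUnipotentOnInertiaAt q := by
    refine ⟨⟨s59q_W_detCyc W hΔ hp𝒪 hp2 hirr,
      s59e_bc_strictOrd _ _ _ p (s59b_rhoW_strictOrd_of_semistable hΔ hp2 hirr hss hmult), ?_⟩, ?_⟩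
    · intro q hq hqS
      have hqp : q ≠ p := by
        rintro rfl
        exact hqS (Finset.mem_union_left _ Rd.hpSmin)
      by_cases hgood : W.IsGoodPrimeFor q
      · exact s59e_bc_unram _ _ _ q (s59b_rhoW_unram hΔ hp2 q hq hqp hgood)
      · exact hunrW q hq hqp hgood fun h =>
          hqS (Finset.mem_union_left _ h)
    · intro q _ hq hqp
      exact s59e_bc_unip _ _ _ q (s59b_rhoW_unip hΔ hp2 hirr hss q hq hqp)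
  have hfrobW : ∀ ℓ : ℕ, ℓ.Prime → ℓ ∉ B → ∀ P : ValuationSubring (AlgebraicClosure ℚ),
      P.LiesOverPrime ℓ → ∀ σ : Γℚ, P.IsFrobeniusAt σ ℓ →
        LinearMap.charpoly ((s59q_WRho W hΔ hp𝒪).ρ σ) =
          X ^ 2 - C (((W.apOfModel ℓ : ℤ) : 𝒪)) * X + C ((ℓ : 𝒪)) := by
    intro ℓ hℓ hℓB P hP σ hσ
    have hℓp : ℓ ≠ p := fun h => hℓB (h ▸ hpB)
    have hgood : W.IsGoodPrimeFor ℓ := by
      by_contra hbad
      exact hℓB (hB2 ℓ hℓ hbad)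
    rw [s59e_bc_charpoly, s59b_rhoW_charpoly hΔ hp2 hirr ℓ hℓ hgood hℓp P hP σ hσ]
    simp
  have hresW : (s59q_WRho W hΔ hp𝒪).residual.IsEquiv
      ((s59i_rhobarW W p hΔ 𝒪 hp𝒪).baseChangeAlong (ResidueField.map (algebraMap 𝒪 𝒪))) :=
    s59b_hres_of_frob p hp2 hp𝒪 (s59q_WRho W hΔ hp𝒪) Rd.habs B
      (fun ℓ => ((W.apOfModel ℓ : ℤ) : 𝒪)) (fun ℓ => ((W.apOfModel ℓ : ℤ) : 𝒪)) hfrobW
      (fun ℓ _ _ => by
        show ((W.apOfModel ℓ : ℤ) : 𝒪) - ((W.apOfModel ℓ : ℤ) : 𝒪) ∈ maximalIdeal 𝒪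
        rw [sub_self]
        exact Ideal.zero_mem _)
      (s59i_rhobarW W p hΔ 𝒪 hp𝒪)
      (fun ℓ hℓ hℓS A hA σ hσ =>
        s59e_rhobarW_charpoly_frob hΔ hp2 hirr hp𝒪 B hpB hB2 ℓ hℓ hℓS A hA σ hσ)
  obtain ⟨x, ⟨hx, ex⟩, -⟩ := D0.universal 𝒪 (IsLocalRing.residue_surjective) (s59q_WRho W hΔ hp𝒪)
    h𝒟W hresW
  have hxtr : ∀ g, x (s59i_cpTr D0.ρ g) = s59i_cpTr (s59q_WRho W hΔ hp𝒪) g := fun g =>
    s59e_Lmin_point_trace D0 _ (x : D0.R →+* 𝒪) hx ex g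
  -- the point factors through `Bs.R`
  obtain ⟨χ, hχ⟩ := s59f_FINL_point (Bs.ν 0 : D0.R →+* Bs.R 0) (Bs.hνs 0) hnil (x : D0.R →+* 𝒪)
  refine ⟨χ.comp hk, fun ℓ hℓ hℓN hℓB => ?_⟩
  obtain ⟨A, g, hA, hg⟩ := Fermat.Agent.Lib.Frobenius.exists_isFrobeniusAt ℓ hℓ
  have h1 : s59i_cpTr (Bs.ρR 0) g = hk (heckeAlgebra.T hℓ hℓN hℓB) :=
    s59i_cpTr_of_charpoly (Bs.ρR 0) g _ _ (hhk ℓ hℓ hℓN hℓB A hA g hg)
  have h2 : s59i_cpTr (s59q_WRho W hΔ hp𝒪) g = ((W.apOfModel ℓ : ℤ) : 𝒪) :=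
    s59i_cpTr_of_charpoly _ g _ _
      (hfrobW ℓ hℓ (fun h => hℓB (Finset.mem_coe.mpr h)) A hA g hg)
  rw [RingHom.comp_apply, ← h1, ← Bs.hν 0 g]
  have h3 := hχ (s59i_cpTr D0.ρ g)
  rw [RingHom.coe_coe] at h3
  rw [h3, RingHom.coe_coe, hxtr g, h2]

end Fermat.Agent.Lib.S59

end
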