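/-
PROGRAMME R2 = S59, case (P), the field `liftABp` (`s59g_LIFTThreeP`), node [W5]-top (helper3, prefix `s59u_p_`), file 4:
**THE TOP OF THE LEVEL-RAISING PATCH IN CASE (P) (`W` multiplicative at `p`, `ρ̄_W` peu ramifié at `p`), NO SPECTATOR, `p ∈ {3, 5}`,
EVEN minimal level `M` (prime to `p`), (E2′)-TOLERANT, OVER THE ONE MASTER `T`-SIDE STATEMENT `s59u_p_TFinX p W hΔ`** (UP3A.lean) —
(P)-twin of helper6's Q3SFlrW5/6 (`s59q_sf3_FLR_strict`, `s59q_sf3_FLR_heckePt_fin`) and Q3FlrW8.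

Base level `N₀ = M p`.  `Rs` = the raising primes (`W` bad, `ρ̄` unramified, `ρ_W ⊗ 𝒪` ramified).
  * `Rs ≠ ∅`: helper6's weak core `s59q_pw_FLR_W_core` (QSFlrW4w.lean) over the weak contract `s59q_pw_TPkgFLR p W hΔ N₀`
    (`s59u_p_TPkgFLR_of_TFinX`, UP3B.lean); the minimal strict universal ring exists by `s59u_c2_exStr` (UC2F.lean, `R`-side only);
  * `Rs = ∅`: `s59u_p_Lmin_abs_w` (UP3C.lean) over the instance `k = 0` of the master statement.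
In both cases the ONE flat lift of `ρ̄_W` is the flat universal ring of the level `M` (helper5's (E2′)-tolerant [EXIST-DQ]
`s59e3e_W_existDQ_E`, E3E2c.lean, with the `R`-side datum at the reduced level `M' = ∏ {q ∣ M : ρ̄ ramified at q}`).

* **`s59u_p_FLR_strict`**, **`s59u_p_FLR_heckePt`**, **`s59u_p_LIFTThreeP_of_X : (∀ W hΔ, s59u_p_TFinX 3 W hΔ) → s59g_LIFTThreeP`**
  (the field `liftABp`).
-/
import Mathlib
import Fermat.Agent.Lib.S59.UP3B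
import Fermat.Agent.Lib.S59.UP3C
import Fermat.Agent.Lib.S59.UC2F
import Fermat.Agent.Lib.S59.E3E2c
import Fermat.Agent.Lib.S59.ELMinR
import Fermat.Agent.Lib.S59.QOExtFin
import Fermat.Agent.Lib.S59.Graph3Y
import Fermat.Agent.Lib.S59.GXpt

set_option autoImplicit false
set_option linter.unusedSectionVars false
set_option linter.unusedVariables false
set_option linter.style.haveILetI false
set_option maxHeartbeats 3200000
set_option synthInstance.maxHeartbeats 400000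

noncomputable section

namespace Fermat.Agent.Lib.S59

open IsLocalRing CuspForm Polynomial
open Fermat.Agent.Lib.S53 (matOf matOfRes NormData exists_normData)
open Fermat.Agent.Lib.Deform (IsTestAlgebra)
open Fermat.Agent.Lib.S56 Fermat.Agent.Lib.S44

local notation "Γℚ" => (AlgebraicClosure ℚ ≃ₐ[ℚ] AlgebraicClosure ℚ)

/-- **[PATCH-FLR], case (P) (`W` multiplicative at `p`, `ρ̄_W` peu ramifié at `p`), `p ∈ {3, 5}`, at the EVEN base level `M p`** (`M`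
squarefree, prime to `p`, `ρ̄` modular of level `M`; the primes of `M` are ramified primes of `ρ̄` or of type (E2′) in the form
`s59g_E2 W p q`; no hypothesis on the bad primes of `W`), over the master `T`-side statement. -/
theorem s59u_p_FLR_strict (p : ℕ) [Fact p.Prime] (hp35 : p = 3 ∨ p = 5)
    (W : WeierstrassCurve ℤ) (hΔ : W.Δ ≠ 0) (hss : W.IsSemistableModel)
    (hirr : W.ModRepIsIrreducible p)
    (hmult : ¬ W.IsGoodPrimeFor p)
    (hpeu : (W.map (Int.castRingHom ℚ)).IsPeuRamifieeAt p p)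
    (M : ℕ) (hM0 : 0 < M) (hsqM : Squarefree M) (hpM : ¬ p ∣ M) (h2M : 2 ∣ M)
    (hresM : W.IsResiduallyModularOfLevel p M)
    (hMtype : ∀ q : ℕ, q.Prime → q ≠ p → q ∣ M → ¬ s59_Unr W p q ∨
      (W.IsGoodPrimeFor q ∧ ¬ p ∣ q - 1 ∧
        ¬ (p : ℤ) ∣ (W.apOfModel q : ℤ) ^ 2 - ((q : ℤ) + 1) ^ 2))
    (HF : s59u_p_TFinX p W hΔ) :
    ∃ (N : ℕ) (_ : NeZero N) (B : Finset ℕ) (𝒪 : Type) (_ : CommRing 𝒪) (_ : IsDomain 𝒪)
      (_ : CharZero 𝒪) (χ : heckeAlgebra N 2 (↑B : Set ℕ) →+* 𝒪),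
      Squarefree N ∧ p ∣ N ∧
      ∀ (ℓ : ℕ) (hℓ : ℓ.Prime) (hℓN : ¬ ℓ ∣ N) (hℓB : ℓ ∉ (↑B : Set ℕ)),
        χ (heckeAlgebra.T hℓ hℓN hℓB) = ((W.apOfModel ℓ : ℤ) : 𝒪) := by
  classical
  have hpp : p.Prime := Fact.out
  have hp2 : p ≠ 2 := by rcases hp35 with rfl | rfl <;> norm_num
  -- the base level `N₀ = M p`
  have hcop : M.Coprime p := (Nat.Coprime.symm ((Nat.Prime.coprime_iff_not_dvd hpp).mpr hpM))
  have hsq : Squarefree (M * p) := (Nat.squarefree_mul hcop).mpr ⟨hsqM, hpp.squarefree⟩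
  have hN0 : M * p ≠ 0 := Nat.mul_ne_zero hM0.ne' hpp.ne_zero
  haveI : NeZero (M * p) := ⟨hN0⟩
  haveI : NeZero M := ⟨hM0.ne'⟩
  have hpN : p ∣ M * p := dvd_mul_left p M
  have h23 : 2 ∣ M * p := Dvd.dvd.mul_right h2M p
  have hres : W.IsResiduallyModularOfLevel p (M * p) :=
    s59v_resMod_mono (dvd_mul_right M p) hsq hresM
  have hdivp : M * p / p = M := Nat.mul_div_cancel M hpp.pos
  have hresM' : W.IsResiduallyModularOfLevel p (M * p / p) := by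
    rw [hdivp]
    exact hresM
  have hNtype : ∀ q : ℕ, q.Prime → q ≠ p → q ∣ M * p → ¬ s59_Unr W p q ∨
      (W.IsGoodPrimeFor q ∧ ¬ p ∣ q - 1 ∧
        ¬ (p : ℤ) ∣ (W.apOfModel q : ℤ) ^ 2 - ((q : ℤ) + 1) ^ 2) := by
    intro q hq hqp hqN
    rcases (Nat.Prime.dvd_mul hq).mp hqN with h | h
    · exact hMtype q hq hqp h
    · exact absurd ((Nat.prime_dvd_prime_iff_eq hq hpp).mp h) hqp
  have hbadp : (p : ℤ) ∣ W.Δ := by
    by_contra hgood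
    exact hmult hgood
  have hc4p : ¬ (p : ℤ) ∣ W.c₄ := hss p hpp hbadp
  -- the coefficient ring
  obtain ⟨𝒪, i1, i2, i3, i4, i5, i6, i7, i8, i9, hp𝒪, -, hsplit⟩ :=
    s59q_exists_coeffRing_padic p 1 one_pos
  have habs := s59q_W_habs W hΔ hp𝒪 hp35 hss hirr
  obtain ⟨Nd⟩ := exists_normData (s59q_WRhobar W hΔ hp𝒪) habs
  -- the raising primes
  set Rs : Finset ℕ := W.Δ.natAbs.primeFactors.filter (fun q => q ≠ p ∧
    (s59q_WRhobar W hΔ hp𝒪).IsUnramifiedAt q ∧ ¬ (s59q_WRho W hΔ hp𝒪).IsUnramifiedAt q)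
    with hRsdef
  have hRs : ∀ q ∈ Rs, q.Prime ∧ q ≠ p ∧ ¬ q ∣ M * p ∧ ¬ W.IsGoodPrimeFor q ∧
      (s59q_WRhobar W hΔ hp𝒪).IsUnramifiedAt q ∧
      ¬ (s59q_WRho W hΔ hp𝒪).IsUnramifiedAt q := by
    intro q hq
    obtain ⟨hqΔ, hqp, hU, hram⟩ := Finset.mem_filter.mp hq
    rw [Nat.mem_primeFactors] at hqΔ
    have hbadq : ¬ W.IsGoodPrimeFor q := fun hg => hg (Int.natCast_dvd.mpr hqΔ.2.1)
    refine ⟨hqΔ.1, hqp, ?_, hbadq, hU, hram⟩
    intro hqN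
    rcases hNtype q hqΔ.1 hqp hqN with h | ⟨hg, -, -⟩
    · exact h ((s59q_W_unram_iff W hΔ hp𝒪 q).mp hU)
    · exact hbadq hg
  have hunrW : ∀ q : ℕ, q.Prime → q ∉ s59q_WSmin W hΔ hp𝒪 ∪ Rs →
      (s59q_WRho W hΔ hp𝒪).IsUnramifiedAt q := by
    intro q hq hqS
    have hqSmin : q ∉ s59q_WSmin W hΔ hp𝒪 := fun h => hqS (Finset.mem_union_left _ h)
    have hqRs : q ∉ Rs := fun h => hqS (Finset.mem_union_right _ h)
    have hqp : q ≠ p := fun h => hqSmin (h ▸ s59q_WSmin_p_mem W hΔ hp𝒪)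
    by_cases hgood : W.IsGoodPrimeFor q
    · exact s59e_bc_unram _ _ _ q (s59b_rhoW_unram hΔ hp2 q hq hqp hgood)
    · by_contra hram
      apply hqRs
      refine Finset.mem_filter.mpr ⟨Nat.mem_primeFactors.mpr ⟨hq,
        Int.natCast_dvd.mp (s59q_W_dvd_disc_of_bad W q hq hgood), Int.natAbs_ne_zero.mpr hΔ⟩,
        hqp, ?_, hram⟩
      by_contra hU
      exact hqSmin ((s59q_WSmin_hmin W hΔ hp𝒪 hp2 q hq hqp).mpr hU)
  -- the base level data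
  set B : Finset ℕ := (M * p * p).primeFactors ∪ W.Δ.natAbs.primeFactors with hB
  have hB1 : ∀ r : ℕ, r.Prime → r ∣ M * p * p → r ∈ B := fun r hr hd =>
    Finset.mem_union_left _ (Nat.mem_primeFactors.mpr ⟨hr, hd, Nat.mul_ne_zero hN0 hpp.ne_zero⟩)
  have hB1M : ∀ r : ℕ, r.Prime → r ∣ M * p → r ∈ B := fun r hr hd =>
    hB1 r hr (Dvd.dvd.mul_right hd p)
  have hB2Δ : ∀ r : ℕ, r.Prime → (r : ℤ) ∣ W.Δ → r ∈ B := fun r hr hd =>
    Finset.mem_union_right _ (Nat.mem_primeFactors.mpr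
      ⟨hr, Int.natCast_dvd.mp hd, Int.natAbs_ne_zero.mpr hΔ⟩)
  have hB2 : ∀ r : ℕ, r.Prime → ¬ W.IsGoodPrimeFor r → r ∈ B := by
    intro r hr hbad'
    refine hB2Δ r hr ?_
    by_contra h
    exact hbad' h
  have hpB : p ∈ B := hB1 p hpp (Dvd.intro_left (M * p) rfl)
  have hocc := s59e_Lmin_levelOcc W p (M * p) B hB1 hB2 hres
  have hoccM := s59e_Lmin_levelOcc W p M B hB1M hB2 hresM
  -- the reduced level `M'`: the primes of `M` at which `ρ̄` is ramified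
  set T : Finset ℕ := M.primeFactors.filter (fun ℓ => ¬ s59_Unr W p ℓ) with hT
  set M' : ℕ := ∏ ℓ ∈ T, ℓ with hM'
  have hmemM' : ∀ ℓ : ℕ, ℓ.Prime → ℓ ∣ M' → ℓ ∈ T := by
    intro ℓ hℓ hd
    obtain ⟨q, hqT, hq⟩ := (Prime.dvd_finsetProd_iff (Nat.prime_iff.mp hℓ) _).mp hd
    have hqpr : q.Prime := Nat.prime_of_mem_primeFactors (Finset.mem_filter.mp hqT).1
    have : ℓ = q := (Nat.prime_dvd_prime_iff_eq hℓ hqpr).mp hq
    exact this ▸ hqT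
  have hEM : ∀ q : ℕ, q.Prime → q ∣ M → q ∣ M' ∨
      s59e3q_E2Alt p (s59i_rhobarW W p hΔ 𝒪 hp𝒪) q := by
    intro q hq hqM
    have hqp : q ≠ p := fun h => hpM (h ▸ hqM)
    rcases hMtype q hq hqp hqM with h | ⟨hg, h1, h2⟩
    · exact Or.inl (Finset.dvd_prod_of_mem _ (Finset.mem_filter.mpr
        ⟨Nat.mem_primeFactors.mpr ⟨hq, hqM, hM0.ne'⟩, h⟩))
    · exact Or.inr (s59e3q_E2Alt_of_good W hΔ hp𝒪 hp2 hirr q hq hqp hg h1 h2)
  obtain ⟨Rd, hSmin, hm, he⟩ := s59e_Lmin_RData W hΔ hp𝒪 hp35 hss hirr hsplit M' B hpB hB2Δ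
    (fun q hq hqM' => by
      have hqT := hmemM' q hq hqM'
      have hqM : q ∣ M := Nat.dvd_of_mem_primeFactors (Finset.mem_filter.mp hqT).1
      have hqp : q ≠ p := fun h => hpM (h ▸ hqM)
      exact Or.inl ((s59q_WSmin_hmin W hΔ hp𝒪 hp2 q hq hqp).mpr fun hunr =>
        (Finset.mem_filter.mp hqT).2 ((s59q_W_unram_iff W hΔ hp𝒪 q).mp hunr)))
  -- the flat lift: the flat universal ring of the level `M`
  obtain ⟨Dfl⟩ := s59e3e_W_existDQ_E W p hΔ hp2 hirr M B hB1M hB2 hoccM 𝒪 hp𝒪 Rd.habs hsqM hpM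
    (∅ : Finset ℕ) Rd hEM 0 Fin.elim0
  have hEd : Rd.Ed = ∅ := by
    haveI : IsEmpty (Fin Rd.e) := by rw [he]; infer_instance
    rw [← Rd.hprE, Finset.univ_eq_empty, Finset.image_empty]
  -- every prime of the base level is in `Σ_min` or of type (E2′)
  have hE2 : ∀ q : ℕ, q.Prime → q ∣ M * p →
      q ∈ s59q_WSmin W hΔ hp𝒪 ∨ s59e3q_E2Alt p (s59i_rhobarW W p hΔ 𝒪 hp𝒪) q := by
    intro q hq hqN
    by_cases hqp : q = p
    · rw [hqp]
      exact Or.inl (s59q_WSmin_p_mem W hΔ hp𝒪)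
    rcases hNtype q hq hqp hqN with h | ⟨hg, h1, h2⟩
    · exact Or.inl ((s59q_WSmin_hmin W hΔ hp𝒪 hp2 q hq hqp).mpr fun hunr =>
        h ((s59q_W_unram_iff W hΔ hp𝒪 q).mp hunr))
    · exact Or.inr (s59e3q_E2Alt_of_good W hΔ hp𝒪 hp2 hirr q hq hqp hg h1 h2)
  by_cases hne : Rs.Nonempty
  · -- level raising
    obtain ⟨Dm₀⟩ := s59u_c2_exStr p hp35 W hΔ hss hirr hmult 𝒪 hp𝒪
    have hDm : Nonempty (GaloisRep.DeformationRingData 𝒪 (s59i_rhobarW W p hΔ 𝒪 hp𝒪)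
        (fun _A _ _ _ ρ => GaloisRep.strictOrdinaryCondition 𝒪 p (s59q_WSmin W hΔ hp𝒪) ρ ∧
          ∀ q ∈ s59q_WSmin W hΔ hp𝒪 ∪ Rs, q.Prime → q ≠ p → ρ.IsUnipotentOnInertiaAt q)) := by
      refine s59q_exists_DQ_ord p hp2 hp𝒪 (s59i_rhobarW W p hΔ 𝒪 hp𝒪) habs
        (s59q_WSmin W hΔ hp𝒪) (s59q_WSmin W hΔ hp𝒪) (s59q_WSmin W hΔ hp𝒪 ∪ Rs)
        (Finset.Subset.refl _) (s59q_WSmin_p_mem W hΔ hp𝒪) ?_ inferInstance
        Dm₀.residue_surjective Dm₀.ρ ⟨Dm₀.isOfType.1, ?_⟩ Dm₀.residual_isEquiv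
      · intro q hq hqS
        have hqp : q ≠ p := fun h => hqS (h ▸ s59q_WSmin_p_mem W hΔ hp𝒪)
        by_contra hram
        exact hqS ((s59q_WSmin_hmin W hΔ hp𝒪 hp2 q hq hqp).mpr hram)
      · intro q hq hqP hqp
        rcases Finset.mem_union.mp hq with h | h
        · exact Dm₀.isOfType.2 q h hqP hqp
        · refine s59f_unip_of_unram Dm₀.ρ q (Dm₀.isOfType.1.2.2 q hqP fun hmem => ?_)
          exact ((s59q_WSmin_hmin W hΔ hp𝒪 hp2 q hqP hqp).mp hmem) (hRs q h).2.2.2.2.1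
    obtain ⟨N, iN, χ, h1, h2, h3⟩ := s59q_pw_FLR_W_core p hp35 W hΔ hss hirr hmult (M * p) hN0 hsq
      hpN 𝒪 hp𝒪 hsplit Rs hne hRs hunrW hDm inferInstance Dfl.residue_surjective Dfl.ρ
      Dfl.isOfType.1.2.1 Dfl.residual_isEquiv
      (s59u_p_TPkgFLR_of_TFinX p hp35 W hΔ hss hirr hmult hpeu (M * p) hsq hpN h23 hres hresM'
        hNtype HF)
    exact ⟨N, iN, _, 𝒪, inferInstance, inferInstance, inferInstance, χ, h1, h2, h3⟩
  · -- the minimal case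
    rw [Finset.not_nonempty_iff_eq_empty] at hne
    have hSminSub : ∀ q, q ∈ Rd.Smin ∪ ((∅ : Finset ℕ) ∪ Rd.Ed) → q ∈ Rd.Smin := by
      intro q hq
      rcases Finset.mem_union.mp hq with h | h
      · exact h
      · rw [hEd, Finset.empty_union] at h
        exact absurd h (Finset.notMem_empty q)
    obtain ⟨χ, hχ⟩ := s59u_p_Lmin_abs_w p hp35 W hΔ (M * p) B hss hirr hB1 hB2 hmult 𝒪
      hp𝒪 M' Rd hm he
      (fun q hq hqp hbad hqS => hunrW q hq (by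
        rw [hne, Finset.union_empty, ← hSmin]
        exact hqS))
      inferInstance Dfl.residue_surjective Dfl.ρ Dfl.isOfType.1.2.1 Dfl.residual_isEquiv
      (fun _ => 0) (fun _ => 1) (fun _ => 1)
      (fun D0 r => by
        have H := HF hp2 B hp35 hss hirr hbadp hc4p hpeu hB2 𝒪 hp𝒪 hsplit habs Nd 0
          (fun _ => M * p) (fun _ => 0) (fun _ => inferInstance)
          (fun t ht => absurd ht (Nat.not_lt_zero t))
          (fun t ht => absurd ht (Nat.not_lt_zero t))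
          (fun t _ => rfl)
          (fun _ => hsq) (fun _ => hpN) (fun _ => hB1) (fun _ => hocc) (fun _ => h23)
          hres hresM'
          (fun _ => 1) (fun _ => 1)
          (fun t ht => absurd ht (Nat.not_lt_zero t))
          (fun t ht => absurd ht (Nat.not_lt_zero t))
          (fun t ht => absurd ht (Nat.not_lt_zero t))
          (Rd.Smin ∪ ((∅ : Finset ℕ) ∪ Rd.Ed)) Rd.Smin Rd.Smin
          (Rd.Smin ∪ ((∅ : Finset ℕ) ∪ Rd.Ed))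
          (Finset.mem_union_left _ Rd.hpSmin) (Finset.Subset.refl _) Finset.subset_union_left
          Rd.hmin Rd.hSmin
          (fun t q hq hqN => (hE2 q hq hqN).imp
            (fun h => Finset.mem_union_left _ (hSmin ▸ h)) id)
          (fun q hq hqN => (hE2 q hq hqN).imp
            (fun h => Finset.mem_union_left _ (hSmin ▸ h)) id)
          (fun t ht => absurd ht (Nat.not_lt_zero t))
          (fun q hq => Or.inl hq)
          (fun t ht => absurd ht (Nat.not_lt_zero t))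
          (by rw [hSmin])
          D0 D0 (s59q_ZIdx Rd.m Rd.e)
        obtain ⟨Bs, hHk, -, -, HL⟩ := H
        exact ⟨Bs, hHk, fun n qv h1 h2 h3 DQ Dsf κsf hκ hκtr =>
          HL r n qv h1 h2 h3 DQ Dsf κsf hκ hκtr⟩)
    exact ⟨M * p, inferInstance, B, 𝒪, inferInstance, inferInstance, inferInstance, χ, hsq, hpN, hχ⟩

/-- **[PATCH-FLR], case (P), in the shape of `s59g_HeckePt W p`.** -/
theorem s59u_p_FLR_heckePt (p : ℕ) [Fact p.Prime] (hp35 : p = 3 ∨ p = 5)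
    (W : WeierstrassCurve ℤ) (hΔ : W.Δ ≠ 0) (hss : W.IsSemistableModel)
    (hirr : W.ModRepIsIrreducible p)
    (hmult : ¬ W.IsGoodPrimeFor p)
    (hpeu : (W.map (Int.castRingHom ℚ)).IsPeuRamifieeAt p p)
    (M : ℕ) (hM0 : 0 < M) (hsqM : Squarefree M) (hpM : ¬ p ∣ M) (h2M : 2 ∣ M)
    (hresM : W.IsResiduallyModularOfLevel p M)
    (hMtype : ∀ q : ℕ, q.Prime → q ≠ p → q ∣ M → ¬ s59_Unr W p q ∨
      (W.IsGoodPrimeFor q ∧ ¬ p ∣ q - 1 ∧
        ¬ (p : ℤ) ∣ (W.apOfModel q : ℤ) ^ 2 - ((q : ℤ) + 1) ^ 2))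
    (HF : s59u_p_TFinX p W hΔ) :
    ∃ (N : ℕ) (_ : NeZero N) (B : Finset ℕ) (𝒪 : Type) (_ : CommRing 𝒪) (_ : IsDomain 𝒪)
      (_ : CharZero 𝒪) (χ : CuspForm.heckeAlgebra N 2 (↑B : Set ℕ) →+* 𝒪),
      ¬ p ^ 2 ∣ N ∧ (∀ q : ℕ, q.Prime → ¬ q ^ 3 ∣ N) ∧
      ∀ (ℓ : ℕ) (hℓ : ℓ.Prime) (hℓN : ¬ ℓ ∣ N) (hℓB : ℓ ∉ (↑B : Set ℕ)),
        χ (CuspForm.heckeAlgebra.T hℓ hℓN hℓB) = ((W.apOfModel ℓ : ℤ) : 𝒪) :=
  s59u_w_sp_heckePt_shape p W
    (s59u_p_FLR_strict p hp35 W hΔ hss hirr hmult hpeu M hM0 hsqM hpM h2M hresM hMtype HF)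

/-- the tolerant form of the ramification hypothesis of the field `liftABp` (copy of helper6's `s59q_f3_hram_of_T2`, Q3FlrW8.lean). -/
theorem s59u_p_hram_of_T2 (W : WeierstrassCurve ℤ) (M : ℕ) (hT2 : s59g_T2 W)
    (hram : ∀ q : ℕ, q.Prime → q ≠ 3 → q ≠ 2 → q ∣ M → ¬ s59_Unr W 3 q) :
    ∀ q : ℕ, q.Prime → q ≠ 3 → q ∣ M → ¬ s59_Unr W 3 q ∨
      (W.IsGoodPrimeFor q ∧ ¬ 3 ∣ q - 1 ∧
        ¬ ((3 : ℕ) : ℤ) ∣ (W.apOfModel q : ℤ) ^ 2 - ((q : ℤ) + 1) ^ 2) := by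
  intro q hq hq3 hqM
  by_cases hq2 : q = 2
  · subst hq2
    rcases hT2 with h | h
    · exact Or.inl h
    · exact Or.inr h
  · exact Or.inl (hram q hq hq3 hq2 hqM)

/-- **the field `liftABp`** (`s59g_LIFTThreeP`: [LIFT_W] at `p = 3`, `2` of type (a)/(b), case (P)) **from the ONE master `T`-side
statement `s59u_p_TFinX 3 W hΔ`** (minimal AND non-minimal cases at once). -/
theorem s59u_p_LIFTThreeP_of_X [Fact (Nat.Prime 3)]
    (HX : ∀ (W : WeierstrassCurve ℤ) (hΔ : W.Δ ≠ 0), s59u_p_TFinX 3 W hΔ) : s59g_LIFTThreeP := by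
  intro W hΔ hss hirr M hM0 hsq h3M hP h2M hT2 hram hres
  exact s59g_almost_of_heckePt
    (s59u_p_FLR_heckePt 3 (Or.inl rfl) W hΔ hss hirr hP.1 hP.2 M hM0 hsq h3M h2M hres
      (s59u_p_hram_of_T2 W M hT2 hram) (HX W hΔ))

end Fermat.Agent.Lib.S59

end
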