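/-
PROGRAMME R2 = S59, case (P) at `p = 3`, node [W5]-top (helper3, prefix `s59u_p_`), file 5: **THE THREE (P)-FIELDS AT `p = 3` FROM THE
MASTER `T`-SIDE STATEMENT** — `liftABp`, `liftC1p` from `HX : ∀ W hΔ, s59u_p_TFinX 3 W hΔ` ALONE; `liftC2p` from `HX` and the ONE
odd-base-level statement `HX2 : ∀ W hΔ r, s59u_c2_TFinPtX 3 W hΔ r 0` (UC2PE.lean).

* `s59u_p_LIFTThreeP_of_X` (UP3D.lean), **`s59u_p_LIFTThreeC1P_of_X`**, **`s59u_p_LIFTThreeC2P_of_X`**.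
-/
import Mathlib
import Fermat.Agent.Lib.S59.UP3D
import Fermat.Agent.Lib.S59.UC2PF

set_option autoImplicit false
set_option linter.unusedSectionVars false
set_option linter.unusedVariables false

noncomputable section

namespace Fermat.Agent.Lib.S59

/-- **the field `liftC1p`** from the master `T`-side statement of case (P) at even levels. -/
theorem s59u_p_LIFTThreeC1P_of_X [Fact (Nat.Prime 3)]
    (HX : ∀ (W : WeierstrassCurve ℤ) (hΔ : W.Δ ≠ 0), s59u_p_TFinX 3 W hΔ) :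
    s59g_LIFTThreeC1P :=
  s59u_c2_LIFTThreeC1P_of_X (fun W hΔ => s59u_p_w_TFinPtX_of 3 W hΔ (HX W hΔ) 2 0)

/-- **the field `liftC2p`** from the master `T`-side statement of case (P) at even levels and the odd-base-level statement. -/
theorem s59u_p_LIFTThreeC2P_of_X [Fact (Nat.Prime 3)]
    (HX : ∀ (W : WeierstrassCurve ℤ) (hΔ : W.Δ ≠ 0), s59u_p_TFinX 3 W hΔ)
    (HX2 : ∀ (W : WeierstrassCurve ℤ) (hΔ : W.Δ ≠ 0) (r : ℕ), s59u_c2_TFinPtX 3 W hΔ r 0) :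
    s59g_LIFTThreeC2P :=
  s59u_c2_LIFTThreeC2P_of_X (fun W hΔ => s59u_p_w_TFinPtX_of 3 W hΔ (HX W hΔ) 2 0) HX2

end Fermat.Agent.Lib.S59

end
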