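/-
PROGRAMME (R), non-minimal case (P), route (T5w) (helper6, prefix `s59q_pw_`), [W5] top, file 2:
**THE `W`-SPECIFIC `R`-SIDE OF THE LEVEL-RAISING PATCH AND THE WEAK `T`-SIDE CONTRACT, STRICT-ORDINARY TYPE** -- scripted twin of
QSFlrW4.lean (`s59q_pf_TPkgFLR`, `s59q_pf_FLR_W_core`).  `W` semistable, MULTIPLICATIVE at `p` (`hmult`), base level `N₀` with `p ∣ N₀`
(in case (P): `N₀ = M p`, `M` the level of `ρ̄`, `p ∤ M`; the modules of the contract are then the kernel pairs `Z_t`).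

* `s59q_pw_TPkgFLR p W hΔ N₀` : the WEAK `T`-side contract at the base level `N₀`: `s59q_pf_TPkgFLR` with `s59f_TLevelF … DQ` replaced
  by helper2's `s59b_TLevelFW … DQ ↑(ker κsf)`, for every universal ring `Dsf` of type "strict AND flat" and every onto,
  trace-compatible `κsf : DQ.R → Dsf.R`;
* **`s59q_pw_FLR_W_core`**    : the weak contract + ONE flat lift of `ρ̄_W` ⟹ a Hecke point `χ` of level `N₀ ∏_{q ∈ Rs} q` with
  `χ(T_ℓ) = a_ℓ(W)`.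
-/
import Mathlib
import Fermat.Agent.Lib.S59.FAsmW4
import Fermat.Agent.Lib.S59.QSFlrW
import Fermat.Agent.Lib.S59.QSFlrW4
import Fermat.Agent.Lib.S59.QSFlrWw

set_option autoImplicit false
set_option linter.unusedSectionVars false
set_option linter.unusedVariables false
set_option linter.style.haveILetI false
set_option maxHeartbeats 3200000
set_option synthInstance.maxHeartbeats 400000

noncomputable section

namespace Fermat.Agent.Lib.S59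

open IsLocalRing Module CuspForm ExtCitation Fermat.Agent.Lib.S56 Fermat.Agent.Lib.S44
open Fermat.Agent.Lib.S53 (matOf matOfRes matOfRes_apply matOf_apply NormData exists_normData)

local notation "Γℚ" => (AlgebraicClosure ℚ ≃ₐ[ℚ] AlgebraicClosure ℚ)

/-! ### The `T`-side contract -/

/-- **the WEAK `T`-side contract of [PATCH-FLR] (STRICT-ORDINARY type, `p ∣ N₀`) at the base level `N₀`**: for every
coefficient ring `𝒪` and all raising data `(m, e, pr, σq, φq, step, k)` with the properties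
guaranteed by the `R`-side, the records `s59f_TBaseF` / `s59f_TLevelF` at the levels
`N₀ ∣ N₀ q_0 ∣ … ∣ N = N₀ ∏ pr t`, and the Hecke map of the top base ring. -/
def s59q_pw_TPkgFLR (p : ℕ) [Fact p.Prime] (W : WeierstrassCurve ℤ) (hΔ : W.Δ ≠ 0) (N₀ : ℕ) : Prop :=
  ∀ (𝒪 : Type) [CommRing 𝒪] [IsDomain 𝒪] [IsDiscreteValuationRing 𝒪]
    [IsAdicComplete (maximalIdeal 𝒪) 𝒪] [Finite (ResidueField 𝒪)] [CharZero 𝒪]
    [Algebra ℤ_[p] 𝒪] [Module.Finite ℤ_[p] 𝒪]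
    (hp𝒪 : ((p : ℕ) : 𝒪) ∈ maximalIdeal 𝒪)
    (_hsplitℤ : ∀ a b : ℤ, ∃ α β : ResidueField 𝒪,
      α + β = (a : ResidueField 𝒪) ∧ α * β = (b : ResidueField 𝒪))
    (m e : ℕ) (pr : Fin m ⊕ Fin e → Nat.Primes) (σq φq : Fin m ⊕ Fin e → Γℚ)
    (step : ℕ → Fin e ⊕ Fin m) (k : ℕ) (N : ℕ) [NeZero N] (B : Finset ℕ),
    -- the raising primes
    Function.Injective (fun t => (pr t : ℕ)) →
    (∀ t, (pr t : ℕ) ≠ p ∧ ¬ (pr t : ℕ) ∣ N₀ ∧ ¬ W.IsGoodPrimeFor (pr t) ∧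
      (s59i_rhobarW W p hΔ 𝒪 hp𝒪).IsUnramifiedAt (pr t) ∧
      ¬ (s59q_WRho W hΔ hp𝒪).IsUnramifiedAt (pr t)) →
    (∀ t, s59q_IsTameGen (pr t) (primeLocalPlace (pr t)) (σq t)) →
    (∀ t, (primeLocalPlace (pr t)).IsFrobeniusAt (φq t) (pr t)) →
    (∀ t, ∃ ε : 𝒪, (ε = 1 ∨ ε = -1) ∧
      s59i_cpTr (s59q_WRho W hΔ hp𝒪) (φq t) = ε * ((((pr t : ℕ) : ℕ) : 𝒪) + 1)) →
    -- the order of the steps
    (∀ t < k, ∀ t' < t, step t' ≠ step t) → (∀ s : Fin e ⊕ Fin m, ∃ t < k, step t = s) →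
    -- the top level
    N = N₀ * ∏ t, (pr t : ℕ) → Squarefree N → p ∣ N →
    B = (N * p).primeFactors ∪ W.Δ.natAbs.primeFactors →
    -- `ρ_W ⊗ 𝒪` is unramified outside `Σ_min ∪ {raising primes}`
    (∀ q : ℕ, q.Prime → q ∉ s59q_WSmin W hΔ hp𝒪 ∪
        (Finset.univ.image (fun j : Fin m => (pr (Sum.inl j) : ℕ)) ∪
          Finset.univ.image (fun l : Fin e => (pr (Sum.inr l) : ℕ))) →
      (s59q_WRho W hΔ hp𝒪).IsUnramifiedAt q) →
    -- a universal ring of MINIMAL type exists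
    Nonempty (GaloisRep.DeformationRingData 𝒪 (s59i_rhobarW W p hΔ 𝒪 hp𝒪) (fun _A _ _ _ ρ =>
      GaloisRep.strictOrdinaryCondition 𝒪 p (s59q_WSmin W hΔ hp𝒪) ρ ∧
        ∀ q ∈ s59q_WSmin W hΔ hp𝒪 ∪
          (Finset.univ.image (fun j : Fin m => (pr (Sum.inl j) : ℕ)) ∪
            Finset.univ.image (fun l : Fin e => (pr (Sum.inr l) : ℕ))),
          q.Prime → q ≠ p → ρ.IsUnipotentOnInertiaAt q)) →
    ∀ (D0 : GaloisRep.DeformationRingData 𝒪 (s59i_rhobarW W p hΔ 𝒪 hp𝒪) (fun _A _ _ _ ρ =>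
        GaloisRep.strictOrdinaryCondition 𝒪 p (s59q_WSmin W hΔ hp𝒪 ∪
          (Finset.univ.image (fun j : Fin m => (pr (Sum.inl j) : ℕ)) ∪
            Finset.univ.image (fun l : Fin e => (pr (Sum.inr l) : ℕ)))) ρ ∧
          ∀ q ∈ s59q_WSmin W hΔ hp𝒪 ∪
            (Finset.univ.image (fun j : Fin m => (pr (Sum.inl j) : ℕ)) ∪
              Finset.univ.image (fun l : Fin e => (pr (Sum.inr l) : ℕ))),
            q.Prime → q ≠ p → ρ.IsUnipotentOnInertiaAt q)),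
      ∃ Bs : s59f_TBaseF 𝒪 k D0,
        (∃ hk : heckeAlgebra N 2 (↑B : Set ℕ) →+* Bs.R k,
          ∀ (ℓ : ℕ) (hℓ : ℓ.Prime) (hℓN : ¬ ℓ ∣ N) (hℓB : ℓ ∉ (↑B : Set ℕ)),
          ∀ A : ValuationSubring (AlgebraicClosure ℚ), A.LiesOverPrime ℓ →
          ∀ g : Γℚ, A.IsFrobeniusAt g ℓ →
            LinearMap.charpoly ((Bs.ρR k).ρ g) =
              Polynomial.X ^ 2 - Polynomial.C (hk (heckeAlgebra.T hℓ hℓN hℓB)) * Polynomial.X +
                Polynomial.C ((ℓ : Bs.R k))) ∧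
        ∀ r : ℕ, 3 * m + e ≤ r → ∀ (n : ℕ) (qv : Fin r → ℕ), Function.Injective qv →
          (∀ i, (qv i).Prime ∧ qv i ∉ B ∧ p ^ (n + 1) ∣ qv i - 1) →
          (∀ i, ∀ A : ValuationSubring (AlgebraicClosure ℚ), A.LiesOverPrime (qv i) →
            ∀ φ : Γℚ, A.IsFrobeniusAt φ (qv i) →
              ∃ α β : ResidueField 𝒪, α ≠ β ∧
                LinearMap.charpoly ((s59i_rhobarW W p hΔ 𝒪 hp𝒪).ρ φ) =
                  (Polynomial.X - Polynomial.C α) * (Polynomial.X - Polynomial.C β)) →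
          ∀ (DQ : GaloisRep.DeformationRingData 𝒪 (s59i_rhobarW W p hΔ 𝒪 hp𝒪) (fun _A _ _ _ ρ =>
            GaloisRep.strictOrdinaryCondition 𝒪 p (s59q_WSmin W hΔ hp𝒪 ∪
              (Finset.univ.image (fun j : Fin m => (pr (Sum.inl j) : ℕ)) ∪
                Finset.univ.image (fun l : Fin e => (pr (Sum.inr l) : ℕ))) ∪
              Finset.univ.image qv) ρ ∧
              ∀ q ∈ s59q_WSmin W hΔ hp𝒪 ∪
                (Finset.univ.image (fun j : Fin m => (pr (Sum.inl j) : ℕ)) ∪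
                  Finset.univ.image (fun l : Fin e => (pr (Sum.inr l) : ℕ))),
                q.Prime → q ≠ p → ρ.IsUnipotentOnInertiaAt q))
            (Dsf : GaloisRep.DeformationRingData 𝒪 (s59i_rhobarW W p hΔ 𝒪 hp𝒪)
              (s59q_SfType 𝒪 p (s59q_WSmin W hΔ hp𝒪 ∪
                (Finset.univ.image (fun j : Fin m => (pr (Sum.inl j) : ℕ)) ∪
                  Finset.univ.image (fun l : Fin e => (pr (Sum.inr l) : ℕ))) ∪
                Finset.univ.image qv)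
                (s59q_WSmin W hΔ hp𝒪 ∪
                  (Finset.univ.image (fun j : Fin m => (pr (Sum.inl j) : ℕ)) ∪
                    Finset.univ.image (fun l : Fin e => (pr (Sum.inr l) : ℕ))))))
            (κsf : DQ.R →ₐ[𝒪] Dsf.R), Function.Surjective κsf →
            (∀ g, κsf (s59i_cpTr DQ.ρ g) = s59i_cpTr Dsf.ρ g) →
            Nonempty (s59b_TLevelFW 𝒪 p n r (s59q_ZIdx m e) k Bs qv
              (fun t => (pr (Sum.swap (step t)) : ℕ)) (fun t => φq (Sum.swap (step t)))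
              (fun t => σq (Sum.swap (step t))) DQ
              ((RingHom.ker (κsf : DQ.R →+* Dsf.R) : Ideal DQ.R) : Set DQ.R))

/-- **[PATCH-FLR], STRICT-ORDINARY type, WEAK trace clause (`W` multiplicative at `p`, `p ∣ N₀`): the `W`-specific assembly over
the weak `T`-side contract.** -/
theorem s59q_pw_FLR_W_core (p : ℕ) [hpF : Fact p.Prime] (hp35 : p = 3 ∨ p = 5) (W : WeierstrassCurve ℤ)
    (hΔ : W.Δ ≠ 0) (hss : W.IsSemistableModel) (hirr : W.ModRepIsIrreducible p)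
    (hmult : ¬ W.IsGoodPrimeFor p) (N₀ : ℕ) (hN₀ : N₀ ≠ 0) (hsq : Squarefree N₀) (hpN₀ : p ∣ N₀)
    (𝒪 : Type) [CommRing 𝒪] [IsDomain 𝒪] [IsDiscreteValuationRing 𝒪]
    [IsAdicComplete (maximalIdeal 𝒪) 𝒪] [Finite (ResidueField 𝒪)] [CharZero 𝒪]
    [Algebra ℤ_[p] 𝒪] [Module.Finite ℤ_[p] 𝒪]
    (hp𝒪 : ((p : ℕ) : 𝒪) ∈ maximalIdeal 𝒪)
    (hsplitℤ : ∀ a b : ℤ, ∃ α β : ResidueField 𝒪,
      α + β = (a : ResidueField 𝒪) ∧ α * β = (b : ResidueField 𝒪))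
    (Rs : Finset ℕ) (hRsne : Rs.Nonempty)
    (hRs : ∀ q ∈ Rs, q.Prime ∧ q ≠ p ∧ ¬ q ∣ N₀ ∧ ¬ W.IsGoodPrimeFor q ∧
      (s59q_WRhobar W hΔ hp𝒪).IsUnramifiedAt q ∧ ¬ (s59q_WRho W hΔ hp𝒪).IsUnramifiedAt q)
    (hunrW : ∀ q : ℕ, q.Prime → q ∉ s59q_WSmin W hΔ hp𝒪 ∪ Rs →
      (s59q_WRho W hΔ hp𝒪).IsUnramifiedAt q)
    (hDm : Nonempty (GaloisRep.DeformationRingData 𝒪 (s59i_rhobarW W p hΔ 𝒪 hp𝒪)
      (fun _A _ _ _ ρ => GaloisRep.strictOrdinaryCondition 𝒪 p (s59q_WSmin W hΔ hp𝒪) ρ ∧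
        ∀ q ∈ s59q_WSmin W hΔ hp𝒪 ∪ Rs, q.Prime → q ≠ p → ρ.IsUnipotentOnInertiaAt q)))
    {A₂ : Type} [CommRing A₂] [IsLocalRing A₂] [Algebra 𝒪 A₂]
    (hloc₂ : IsLocalHom (algebraMap 𝒪 A₂))
    (hres₂ : Function.Surjective (IsLocalRing.residue A₂ ∘ algebraMap 𝒪 A₂))
    (ρ₂ : GaloisRepAdic A₂) (hfl₂ : ρ₂.IsFlatAt p)
    (hresid₂ : ρ₂.residual.IsEquiv
      ((s59i_rhobarW W p hΔ 𝒪 hp𝒪).baseChangeAlong (IsLocalRing.ResidueField.map (algebraMap 𝒪 A₂))))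
    (HT : s59q_pw_TPkgFLR p W hΔ N₀) :
    ∃ (N : ℕ) (_ : NeZero N) (χ : heckeAlgebra N 2
        (↑((N * p).primeFactors ∪ W.Δ.natAbs.primeFactors) : Set ℕ) →+* 𝒪),
      Squarefree N ∧ p ∣ N ∧
      ∀ (ℓ : ℕ) (hℓ : ℓ.Prime) (hℓN : ¬ ℓ ∣ N)
        (hℓB : ℓ ∉ (↑((N * p).primeFactors ∪ W.Δ.natAbs.primeFactors) : Set ℕ)),
        χ (heckeAlgebra.T hℓ hℓN hℓB) = ((W.apOfModel ℓ : ℤ) : 𝒪) := by
  classical
  have hpP : p.Prime := hpF.out
  have hp2 : p ≠ 2 := s59q_W_p_ne_two hp35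
  have habs := s59q_W_habs W hΔ hp𝒪 hp35 hss hirr
  obtain ⟨Nd⟩ := exists_normData (s59q_WRhobar W hΔ hp𝒪) habs
  obtain ⟨i2, hi2⟩ := s59q_two_inv p hp2 hp𝒪
  -- Frobenius elements and tame generators at all primes
  choose φall hφall using fun q : Nat.Primes => s56z_exists_frob q
  choose σall hσall using fun q : Nat.Primes =>
    s59q_exists_isTameGen q.2 (s56z_place_liesOver q)
  -- the signs
  have hsign : ∀ q : Nat.Primes, ∃ ε : 𝒪, (ε = 1 ∨ ε = -1) ∧ ((q : ℕ) ∈ Rs →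
      s59i_cpTr (s59q_WRho W hΔ hp𝒪) (φall q) = ε * ((((q : ℕ) : ℕ) : 𝒪) + 1) ∧
      LinearMap.charpoly ((s59q_WRhobar W hΔ hp𝒪).ρ (φall q)) =
        (Polynomial.X - Polynomial.C (residue 𝒪 (ε * (((q : ℕ) : ℕ) : 𝒪)))) *
          (Polynomial.X - Polynomial.C (residue 𝒪 ε))) := by
    intro q
    by_cases hq : (q : ℕ) ∈ Rs
    · obtain ⟨-, hqp, -, -, hU, hram⟩ := hRs q hq
      obtain ⟨ε, hε, h1, h2⟩ := s59f_W_sign W hΔ hp𝒪 hp2 hss hirr q q.2 hqp hU hram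
        (primeLocalPlace q) (s56z_place_liesOver q) (φall q) (hφall q)
      exact ⟨ε, hε, fun _ => ⟨h1, h2⟩⟩
    · exact ⟨1, Or.inl rfl, fun h => absurd h hq⟩
  choose εall hεall hεRs using hsign
  -- the classification of the raising primes
  set isB : ℕ → Prop := fun q => p ∣ q - 1 ∧ ∃ hq : q.Prime,
    (s59q_WRhobar W hΔ hp𝒪).ρ (φall ⟨q, hq⟩) =
      residue 𝒪 (εall ⟨q, hq⟩) • (1 : Module.End (ResidueField 𝒪) (s59q_WRhobar W hΔ hp𝒪).V)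
    with hisB
  set Bd : Finset ℕ := Rs.filter isB with hBd
  set Ed : Finset ℕ := Rs.filter (fun q => ¬ isB q) with hEd
  have hBdEd : Bd ∪ Ed = Rs := Finset.filter_union_filter_not_eq _ _
  have hBE : Disjoint Bd Ed := Finset.disjoint_filter_filter_not _ _ _
  have hBdRs : ∀ q ∈ Bd, q ∈ Rs := fun q hq => (Finset.mem_filter.mp hq).1
  have hEdRs : ∀ q ∈ Ed, q ∈ Rs := fun q hq => (Finset.mem_filter.mp hq).1
  obtain ⟨prB, hBinj, hprB⟩ := s59q_exists_enum Bd (fun q hq => (hRs q (hBdRs q hq)).1)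
  obtain ⟨prE, hEinj, hprE⟩ := s59q_exists_enum Ed (fun q hq => (hRs q (hEdRs q hq)).1)
  set pr : Fin Bd.card ⊕ Fin Ed.card → Nat.Primes := Sum.elim prB prE with hpr
  have hmemB : ∀ j, (prB j : ℕ) ∈ Bd := fun j => by
    rw [← hprB]; exact Finset.mem_image_of_mem _ (Finset.mem_univ j)
  have hmemE : ∀ l, (prE l : ℕ) ∈ Ed := fun l => by
    rw [← hprE]; exact Finset.mem_image_of_mem _ (Finset.mem_univ l)
  have hmemRs : ∀ t, (pr t : ℕ) ∈ Rs := by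
    rintro (j | l)
    · exact hBdRs _ (hmemB j)
    · exact hEdRs _ (hmemE l)
  set σq : Fin Bd.card ⊕ Fin Ed.card → Γℚ := fun t => σall (pr t) with hσqdef
  set φq : Fin Bd.card ⊕ Fin Ed.card → Γℚ := fun t => φall (pr t) with hφqdef
  have hσq : ∀ t, s59q_IsTameGen (pr t) (primeLocalPlace (pr t)) (σq t) := fun t => hσall (pr t)
  have hφq : ∀ t, (primeLocalPlace (pr t)).IsFrobeniusAt (φq t) (pr t) := fun t => hφall (pr t)
  -- the primes of type (iv)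
  have hBsc : ∀ j, p ∣ (prB j : ℕ) - 1 ∧ (s59q_WRhobar W hΔ hp𝒪).ρ (φall (prB j)) =
      residue 𝒪 (εall (prB j)) •
        (1 : Module.End (ResidueField 𝒪) (s59q_WRhobar W hΔ hp𝒪).V) := by
    intro j
    obtain ⟨h1, hq, h2⟩ := (Finset.mem_filter.mp (hmemB j)).2
    exact ⟨h1, h2⟩
  -- the local models at the smooth primes
  have hloc : ∀ l : Fin Ed.card, ∃ (Pm P'm : Matrix (Fin 2) (Fin 2) 𝒪) (L : s59f_LocBr 𝒪 i2),
      Pm * P'm = 1 ∧ P'm * Pm = 1 ∧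
      P'm.map (residue 𝒪) * matOfRes (s59q_WRhobar W hΔ hp𝒪) Nd.b (φall (prE l)) *
        Pm.map (residue 𝒪) = L.M0.map (residue 𝒪) ∧
      L.u = (((prE l : ℕ) : ℕ) : 𝒪) ∧
      L.tr0 = εall (prE l) * ((((prE l : ℕ) : ℕ) : 𝒪) + 1) := by
    intro l
    have hR := hRs _ (hEdRs _ (hmemE l))
    refine s59f_exists_locBr hp𝒪 (s59q_WRhobar W hΔ hp𝒪) Nd.b (prE l) (prE l).2 hR.2.1
      (φall (prE l)) (εall (prE l)) (hεall _) (hεRs _ (hEdRs _ (hmemE l))).2 ?_ i2 hi2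
    intro hd hsc
    exact (Finset.mem_filter.mp (hmemE l)).2 ⟨hd, (prE l).2, hsc⟩
  choose PE P'E LE hPE1 hPE2 hPE3 hLu hLtr using hloc
  -- the order of the steps
  have hcard : 0 < Ed.card + Bd.card := by
    have h1 : (Bd ∪ Ed).card = Bd.card + Ed.card := Finset.card_union_of_disjoint hBE
    have h2 : 0 < Rs.card := Finset.card_pos.mpr hRsne
    rw [← hBdEd, h1] at h2
    omega
  obtain ⟨s₀⟩ : Nonempty (Fin Ed.card ⊕ Fin Bd.card) := ⟨finSumFinEquiv.symm ⟨0, hcard⟩⟩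
  set step : ℕ → Fin Ed.card ⊕ Fin Bd.card := fun t =>
    if h : t < Ed.card + Bd.card then finSumFinEquiv.symm ⟨t, h⟩ else s₀ with hstepdef
  have hstep : ∀ t < Ed.card + Bd.card, ∀ t' < t, step t' ≠ step t := by
    intro t ht t' ht' heq
    have h1 : step t = finSumFinEquiv.symm ⟨t, ht⟩ := dif_pos ht
    have h2 : step t' = finSumFinEquiv.symm ⟨t', ht'.trans ht⟩ := dif_pos (ht'.trans ht)
    rw [h1, h2] at heq
    have h3 := finSumFinEquiv.symm.injective heq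
    rw [Fin.mk.injEq] at h3
    omega
  have hcover : ∀ s : Fin Ed.card ⊕ Fin Bd.card, ∃ t < Ed.card + Bd.card, step t = s := by
    intro s
    refine ⟨(finSumFinEquiv s).val, (finSumFinEquiv s).isLt, ?_⟩
    have h1 : step (finSumFinEquiv s).val = finSumFinEquiv.symm ⟨(finSumFinEquiv s).val,
        (finSumFinEquiv s).isLt⟩ := dif_pos (finSumFinEquiv s).isLt
    rw [h1]
    exact finSumFinEquiv.symm_apply_apply s
  -- the top level
  have hB' : ∏ q ∈ Bd, q = ∏ j, (prB j : ℕ) := by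
    calc ∏ q ∈ Bd, q = ∏ q ∈ Finset.univ.image (fun j => (prB j : ℕ)), q := by rw [hprB]
      _ = ∏ j, (prB j : ℕ) := Finset.prod_image (fun a _ b _ h => hBinj h)
  have hE' : ∏ q ∈ Ed, q = ∏ l, (prE l : ℕ) := by
    calc ∏ q ∈ Ed, q = ∏ q ∈ Finset.univ.image (fun l => (prE l : ℕ)), q := by rw [hprE]
      _ = ∏ l, (prE l : ℕ) := Finset.prod_image (fun a _ b _ h => hEinj h)
  have hprod : ∏ t, (pr t : ℕ) = ∏ q ∈ Rs, q := by
    rw [Fintype.prod_sum_type, ← hBdEd, Finset.prod_union hBE, hB', hE']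
    rfl
  have hRsP : ∀ q ∈ Rs, q.Prime := fun q hq => (hRs q hq).1
  have hN0 : N₀ * ∏ t, (pr t : ℕ) ≠ 0 := by
    refine Nat.mul_ne_zero hN₀ (Finset.prod_ne_zero_iff.mpr fun t _ => (pr t).2.ne_zero)
  have hNsq : Squarefree (N₀ * ∏ t, (pr t : ℕ)) := by
    rw [hprod]
    exact s59f_squarefree_mul_prod N₀ hsq Rs fun q hq => ⟨(hRs q hq).1, (hRs q hq).2.2.1⟩
  have hpN : p ∣ N₀ * ∏ t, (pr t : ℕ) := Dvd.dvd.mul_right hpN₀ _
  refine ⟨N₀ * ∏ t, (pr t : ℕ), ⟨hN0⟩, ?_⟩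
  haveI : NeZero (N₀ * ∏ t, (pr t : ℕ)) := ⟨hN0⟩
  set N : ℕ := N₀ * ∏ t, (pr t : ℕ) with hNdef
  set B : Finset ℕ := (N * p).primeFactors ∪ W.Δ.natAbs.primeFactors with hBdef
  have hB1 : ∀ r : ℕ, r.Prime → r ∣ N * p → r ∈ B := fun r hr hd =>
    Finset.mem_union_left _ (Nat.mem_primeFactors.mpr ⟨hr, hd, Nat.mul_ne_zero hN0 hpP.ne_zero⟩)
  have hB2Δ : ∀ r : ℕ, r.Prime → (r : ℤ) ∣ W.Δ → r ∈ B := fun r hr hd =>
    Finset.mem_union_right _ (Nat.mem_primeFactors.mpr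
      ⟨hr, Int.natCast_dvd.mp hd, Int.natAbs_ne_zero.mpr hΔ⟩)
  have hB2 : ∀ r : ℕ, r.Prime → ¬ W.IsGoodPrimeFor r → r ∈ B := by
    intro r hr hbad'
    refine hB2Δ r hr ?_
    by_contra h
    exact hbad' h
  have hpB : p ∈ B := hB1 p hpP (Dvd.intro_left N rfl)
  have hRsB : ∀ q ∈ Rs, q ∈ B := fun q hq => hB2 q (hRs q hq).1 (hRs q hq).2.2.2.1
  -- the sets of raising primes as images
  have hinj : Function.Injective (fun t => (pr t : ℕ)) := by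
    rintro (j | l) (j' | l') h
    · exact congrArg Sum.inl (hBinj h)
    · exact absurd (hmemE l') (Finset.disjoint_left.mp hBE (by
        have : (prB j : ℕ) = (prE l' : ℕ) := h
        rw [← this]; exact hmemB j))
    · exact absurd (hmemE l) (Finset.disjoint_left.mp hBE (by
        have : (prE l : ℕ) = (prB j' : ℕ) := h
        rw [this]; exact hmemB j'))
    · exact congrArg Sum.inr (hEinj h)
  have hunrW' : ∀ q : ℕ, q.Prime → q ∉ s59q_WSmin W hΔ hp𝒪 ∪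
      (Finset.univ.image (fun j : Fin Bd.card => (pr (Sum.inl j) : ℕ)) ∪
        Finset.univ.image (fun l : Fin Ed.card => (pr (Sum.inr l) : ℕ))) →
      (s59q_WRho W hΔ hp𝒪).IsUnramifiedAt q := by
    intro q hq hqS
    refine hunrW q hq fun h => hqS ?_
    have h1 : Finset.univ.image (fun j : Fin Bd.card => (pr (Sum.inl j) : ℕ)) = Bd := hprB
    have h2 : Finset.univ.image (fun l : Fin Ed.card => (pr (Sum.inr l) : ℕ)) = Ed := hprE
    rw [h1, h2, hBdEd]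
    exact h
  have hsigns : ∀ t, ∃ ε : 𝒪, (ε = 1 ∨ ε = -1) ∧
      s59i_cpTr (s59q_WRho W hΔ hp𝒪) (φq t) = ε * ((((pr t : ℕ) : ℕ) : 𝒪) + 1) := fun t =>
    ⟨εall (pr t), hεall _, (hεRs _ (hmemRs t)).1⟩
  have hprops : ∀ t, (pr t : ℕ) ≠ p ∧ ¬ (pr t : ℕ) ∣ N₀ ∧ ¬ W.IsGoodPrimeFor (pr t) ∧
      (s59i_rhobarW W p hΔ 𝒪 hp𝒪).IsUnramifiedAt (pr t) ∧
      ¬ (s59q_WRho W hΔ hp𝒪).IsUnramifiedAt (pr t) := fun t =>
    (hRs _ (hmemRs t)).2
  have hDm' : Nonempty (GaloisRep.DeformationRingData 𝒪 (s59i_rhobarW W p hΔ 𝒪 hp𝒪)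
      (fun _A _ _ _ ρ => GaloisRep.strictOrdinaryCondition 𝒪 p (s59q_WSmin W hΔ hp𝒪) ρ ∧
        ∀ q ∈ s59q_WSmin W hΔ hp𝒪 ∪
          (Finset.univ.image (fun j : Fin Bd.card => (pr (Sum.inl j) : ℕ)) ∪
            Finset.univ.image (fun l : Fin Ed.card => (pr (Sum.inr l) : ℕ))),
          q.Prime → q ≠ p → ρ.IsUnipotentOnInertiaAt q)) := by
    have h1 : Finset.univ.image (fun j : Fin Bd.card => (pr (Sum.inl j) : ℕ)) = Bd := hprB
    have h2 : Finset.univ.image (fun l : Fin Ed.card => (pr (Sum.inr l) : ℕ)) = Ed := hprE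
    rw [h1, h2, hBdEd]
    exact hDm
  have HT' := HT 𝒪 hp𝒪 hsplitℤ Bd.card Ed.card pr σq φq step (Ed.card + Bd.card) N B hinj hprops
    hσq hφq hsigns hstep hcover rfl hNsq hpN rfl hunrW' hDm'
  have hBmem : ∀ q, q ∈ Finset.univ.image (fun j : Fin Bd.card => (pr (Sum.inl j) : ℕ)) →
      q ∈ Bd := fun q hq => by
    have h1 : Finset.univ.image (fun j : Fin Bd.card => (pr (Sum.inl j) : ℕ)) = Bd := hprB
    rwa [h1] at hq
  have hEmem : ∀ q, q ∈ Finset.univ.image (fun l : Fin Ed.card => (pr (Sum.inr l) : ℕ)) →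
      q ∈ Ed := fun q hq => by
    have h1 : Finset.univ.image (fun l : Fin Ed.card => (pr (Sum.inr l) : ℕ)) = Ed := hprE
    rwa [h1] at hq
  obtain ⟨χ, hχ⟩ := s59q_FLR_W_abs_w p hp2 W hΔ N B hss hirr hpB hB2 hmult 𝒪 hp𝒪 habs
    (s59q_W_hdet W hΔ hp𝒪 hp2 hirr) (s59q_W_hsplit W hΔ hp𝒪 hsplitℤ)
    (s59q_W_hTW W hΔ hp𝒪 hp35 hss hirr) B (s59q_WSmin W hΔ hp𝒪)
    (Finset.univ.image (fun j : Fin Bd.card => (pr (Sum.inl j) : ℕ)))
    (Finset.univ.image (fun l : Fin Ed.card => (pr (Sum.inr l) : ℕ)))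
    (s59q_WSmin_p_mem W hΔ hp𝒪) (s59q_WSmin_subset W hΔ hp𝒪 B hpB hB2Δ)
    (fun q hq => hRsB q (hBdRs q (hBmem q hq))) (fun q hq => hRsB q (hEdRs q (hEmem q hq)))
    (fun q hq => (hRs q (hBdRs q (hBmem q hq))).1) (fun q hq => (hRs q (hEdRs q (hEmem q hq))).1)
    (s59q_WSmin_hmin W hΔ hp𝒪 hp2)
    (fun q hq => ⟨(hRs q (hBdRs q (hBmem q hq))).2.1, (hRs q (hBdRs q (hBmem q hq))).2.2.2.2.1⟩)
    (fun q hq => ⟨(hRs q (hEdRs q (hEmem q hq))).2.1, (hRs q (hEdRs q (hEmem q hq))).2.2.2.2.1⟩)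
    (Finset.disjoint_left.mpr fun q hq hq' =>
      Finset.disjoint_left.mp hBE (hBmem q hq) (hEmem q hq'))
    (fun q hq => by
      obtain ⟨-, hqP, hsc⟩ := (Finset.mem_filter.mp (hBmem q hq)).2
      exact s59f_central_of_scalar (s59q_WRhobar W hΔ hp𝒪) q
        (hRs q (hBdRs q (hBmem q hq))).2.2.2.2.1 (φall q) (hφall q) _ hsc)
    Nd Bd.card Ed.card pr rfl rfl hBinj hEinj σq φq hσq hφq i2 hi2
    (Sum.elim (fun _ => 1) PE) (Sum.elim (fun _ => 1) P'E)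
    (by
      rintro (j | l)
      · exact one_mul _
      · exact hPE1 l)
    (by
      rintro (j | l)
      · exact one_mul _
      · exact hPE2 l)
    LE (fun i => εall (prB i))
    (fun i => by rcases hεall (prB i) with h | h <;> rw [h] <;> ring)
    hPE3
    (fun i => by
      show matOfRes (s59q_WRhobar W hΔ hp𝒪) Nd.b (φall (prB i)) = _
      rw [matOfRes_apply, (hBsc i).2, map_smul, LinearMap.toMatrix_one])
    hLu
    (fun j => s59q_W_sub_one_mem hp𝒪 _ (prB j).2 (hBsc j).1)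
    step (Ed.card + Bd.card) hstep hcover hunrW'
    (fun t => s59f_tame_ne_one (s59q_WRho W hΔ hp𝒪) hpP hp𝒪 (pr t).2 (hprops t).1
      (hprops t).2.2.2.1 (hprops t).2.2.2.2 (primeLocalPlace (pr t)) (s56z_place_liesOver (pr t))
      (σq t) (hσq t))
    (fun l => by
      show s59i_cpTr (s59q_WRho W hΔ hp𝒪) (φall (prE l)) = (LE l).tr0
      rw [hLtr l]
      exact (hεRs _ (hEdRs _ (hmemE l))).1)
    hloc₂ hres₂ ρ₂ hfl₂ hresid₂ HT'
  exact ⟨χ, hNsq, hpN, hχ⟩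

end Fermat.Agent.Lib.S59
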