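/-
PROGRAMME (R2) = S59 — ADAPTER v3.17 (helper1): EVERY OPEN FIELD IS NOW A FINAL `T`-SIDE STATEMENT (NINE statements).
`GLeavesZf.lean` (v3.16) with
* `liftABgt`   ↦ helper6's `s59q_sf3_LIFTThreeGT_of_TFin` (Q3FlrW8) over `finX` (flat; the exports of `s59c3_TFinX` are dropped)
                 and the strict statement `s59q_sf3_TFin 3 W hΔ` (Q3SFlrW6);
* `liftABp`, `liftC1p`, `liftC2p` ↦ helper3's `s59u_p_LIFTThreeP_of_X`, `s59u_p_LIFTThreeC1P_of_X`, `s59u_p_LIFTThreeC2P_of_X`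
                 (UP3D/UP3E) over the master `s59u_p_TFinX 3 W hΔ` (UP3A) and `s59u_c2_TFinPtX 3 W hΔ r 0` (UC2PE);
* `patchFlrFlat` ↦ `s59g_nh_patchFlrFlat5` (GNhW6: h23-FREE twin of helper4's flat [PATCH-FLR] top) over `s59g_nh_TFin 5 W hΔ`;
* `patchTres`    ↦ helper6's `s59q_pf_patchTres5` (QSFlrW8) over `s59q_pf_TFin 5 W hΔ` (QSFlrW6);
* `finSCut`      ↦ CLOSED by helper4's `s59f_sgs_TFinCut_sp` (FSgnS6);
* `lift23p`, `cornerP` ↦ helper3's `s59u_p5_LIFTfive23P_of_X`, `s59u_p5_Corner5P_of_X` (UP5D) over `s59u_p5_TFinX 5 W hΔ` (UP5A).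
NEW file, NEW names.  `s59g_S59_openZg : s59g_OpenThreeZg → s59g_OpenFiveZg → <frozen S59 verbatim>`.
-/
import Fermat.Agent.Lib.S59.GLeavesZf
import Fermat.Agent.Lib.S59.Q3FlrW8
import Fermat.Agent.Lib.S59.QSFlrW8
import Fermat.Agent.Lib.S59.UP3E
import Fermat.Agent.Lib.S59.GNhW6
import Fermat.Agent.Lib.S59.UP5D
import Fermat.Agent.Lib.S59.FSgnS6

set_option autoImplicit false
set_option maxHeartbeats 1600000
set_option synthInstance.maxHeartbeats 400000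

open CongruenceSubgroup ModularFormClass

noncomputable section

namespace Fermat.Agent.Lib.S59

/-- helper8's chain statement WITH exports ⟹ helper6's chain statement of the adapter of `liftABgt` (the four exports at the
level `0` are dropped; = helper6's `s59q_f3_TFin_of_c3`, Q3FlrW9, for `s59c3_TFinX`). -/
theorem s59g_f3_TFin_of_X (p : ℕ) [Fact p.Prime] (W : WeierstrassCurve ℤ) (hΔ : W.Δ ≠ 0)
    (h : s59c3_TFinX p W hΔ) : s59q_f3_TFin p W hΔ := by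
  intro hp2 B hirr hB2 𝒪 _ _ _ _ _ _ _ _ hp𝒪 habs Nd k N qr hNZ hqr hN hfreeze hsq hpN hB1 hocc h23
    φr σr hφr hσr Sg0 Su Smin Sgm hpSgm hSgm0 hSminSgm hmin hSuB hSgN hSgmN hqrSgm D0 Dm σ _ _
  obtain ⟨Bs, hHk, -, -, -, -, HL⟩ := h hp2 B hirr hB2 𝒪 hp𝒪 habs Nd k N qr hNZ hqr hN hfreeze hsq
    hpN hB1 hocc h23 φr σr hφr hσr Sg0 Su Smin Sgm hpSgm hSgm0 hSminSgm hmin hSuB hSgN hSgmN hqrSgm
    D0 Dm σ
  exact ⟨Bs, hHk, HL⟩

/-- the OPEN fields at `p = 3` (v3.17): SIX final `T`-side statements. -/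
structure s59g_OpenThreeZg : Prop where
  /-- flat chain at even levels with exports, helper8 (C3FlrFinXS) -/
  finX : ∀ (W : WeierstrassCurve ℤ) (hΔ : W.Δ ≠ 0), s59c3_TFinX 3 W hΔ
  /-- strict (très ramifié) chain at even levels, no spectator, helper6 (Q3SFlrW6) -/
  finSf : ∀ (W : WeierstrassCurve ℤ) (hΔ : W.Δ ≠ 0), s59q_sf3_TFin 3 W hΔ
  /-- strict (très ramifié) chain with the spectator `2` and base point, `k₀ = 0, 1` (QSSpM) -/
  finS0 : ∀ (W : WeierstrassCurve ℤ) (hΔ : W.Δ ≠ 0), s59q_sp_TFinPt 3 W hΔ 2 0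
  finS1 : ∀ (W : WeierstrassCurve ℤ) (hΔ : W.Δ ≠ 0), s59q_sp_TFinPt 3 W hΔ 2 1
  /-- case (P): the master statement at even levels (UP3A) and the odd base level with first raising prime `2` (UC2PE) -/
  finPX : ∀ (W : WeierstrassCurve ℤ) (hΔ : W.Δ ≠ 0), s59u_p_TFinX 3 W hΔ
  finP2X : ∀ (W : WeierstrassCurve ℤ) (hΔ : W.Δ ≠ 0) (r : ℕ), s59u_c2_TFinPtX 3 W hΔ r 0

theorem s59g_openThreeZd_ofZg (h : s59g_OpenThreeZg) : s59g_OpenThreeZd :=
  have : Fact (Nat.Prime 3) := ⟨Nat.prime_three⟩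
  { liftABgt := s59q_sf3_LIFTThreeGT_of_TFin
      (fun W hΔ => s59g_f3_TFin_of_X 3 W hΔ (h.finX W hΔ)) h.finSf
    liftABp := s59u_p_LIFTThreeP_of_X h.finPX
    liftC1gt := s59q_sp_LIFTThreeC1GT_of_TFinPt
      (fun W hΔ => s59pt_TFinPt_two_zero 3 W hΔ (h.finX W hΔ)) h.finS0
    liftC2gt := s59q_sp_LIFTThreeC2GT_of_TFinPt
      (fun W hΔ => s59pt_TFinPt_two_zero 3 W hΔ (h.finX W hΔ))
      (fun W hΔ => s59pt_TFinPt_two_one 3 W hΔ (h.finX W hΔ))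
      (fun W hΔ => s59f_sg_TFinCut_sp 3 W hΔ)
      h.finS0 h.finS1 (fun W hΔ => s59f_sgs_TFinCut_sp 3 W hΔ)
    liftC1p := s59u_p_LIFTThreeC1P_of_X h.finPX
    liftC2p := s59u_p_LIFTThreeC2P_of_X h.finPX h.finP2X }

/-- `5` is prime, as a `Fact` (local instance below: the final `T`-side statements take `[Fact p.Prime]`). -/
theorem s59g_fact_prime_five : Fact (Nat.Prime 5) := ⟨by norm_num⟩

attribute [local instance] s59g_fact_prime_five

/-- the OPEN fields at `p = 5` (v3.17): THREE final `T`-side statements. -/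
structure s59g_OpenFiveZg : Prop where
  /-- flat chain, `p = 5`, h23-FREE (GNhW6; = helper5's `s59efl_TFin` with `hONE` instead of `h23`) -/
  finE : ∀ (W : WeierstrassCurve ℤ) (hΔ : W.Δ ≠ 0), s59g_nh_TFin 5 W hΔ
  /-- strict (très ramifié) chain, `p = 5`, helper6 (QSFlrW6) -/
  finS5 : ∀ (W : WeierstrassCurve ℤ) (hΔ : W.Δ ≠ 0), s59q_pf_TFin 5 W hΔ
  /-- case (P), `p = 5`: the master statement (UP5A; no parity hypothesis) -/
  finP5X : ∀ (W : WeierstrassCurve ℤ) (hΔ : W.Δ ≠ 0), s59u_p5_TFinX 5 W hΔ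

theorem s59g_openFiveZb_ofZg (h : s59g_OpenFiveZg) : s59g_OpenFiveZb :=
  { patchFlrFlat := s59g_nh_patchFlrFlat5 h.finE
    patchTres := fun W hΔ hW hirr hpeu M hM0 hsq hram hres =>
      s59q_pf_patchTres5 h.finS5 W hΔ hW hirr hpeu M hM0 hsq hram hres
    lift23p := s59u_p5_LIFTfive23P_of_X h.finP5X
    cornerP := s59u_p5_Corner5P_of_X h.finP5X }

/-- **S59 from the OPEN fields of v3.17** — the frozen statement, verbatim. -/
theorem s59g_S59_openZg (h3 : s59g_OpenThreeZg) (h5 : s59g_OpenFiveZg)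
    (p : ℕ) (hp : p = 3 ∨ p = 5)
    (W : WeierstrassCurve ℤ) (hΔ : W.Δ ≠ 0) (hW : W.IsSemistableModel)
    (hirr : W.ModRepIsIrreducible p)
    (M₀ : ℕ) [NeZero M₀] (hres₀ : W.IsResiduallyModularOfLevel p M₀)
    (hM₀ : ¬ p ^ 2 ∣ M₀)
    (hM₀3 : ∀ q : ℕ, q.Prime → q ≠ p → ¬ q ^ 3 ∣ M₀) :
    Mlc1IsModularModelOfExactConductorLevel W :=
  s59g_S59_openZd (s59g_openThreeZd_ofZg h3) (s59g_openFiveZb_ofZg h5) p hp W hΔ hW hirr M₀ hres₀
    hM₀ hM₀3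

end Fermat.Agent.Lib.S59

end
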