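/-
PROGRAMME (R2) = S59 — ADAPTER v3.18 (helper1): `GLeavesZg.lean` (v3.17) with the THREE strict fields at `p = 3`
(`finSf`, `finS0`, `finS1`) REPLACED BY helper6's ONE statement `s59q_sf3_TFinX 3 W hΔ` (QSSpX.lean: the strict chain at even
levels WITH the exports (E1), (E2), (E-conc), (E5) at the level `0`), through helper6's `s59q_sf3_TFin_of_X`,
`s59q_spx_TFinPt_two_zero`, `s59q_spx_TFinPt_two_one`.  SEVEN open fields, all final `T`-side statements.
NEW file, NEW names.  `s59g_S59_openZh : s59g_OpenThreeZh → s59g_OpenFiveZg → <frozen S59 verbatim>`.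
-/
import Fermat.Agent.Lib.S59.GLeavesZg
import Fermat.Agent.Lib.S59.QSSpX

set_option autoImplicit false

open CongruenceSubgroup ModularFormClass

noncomputable section

namespace Fermat.Agent.Lib.S59

/-- the OPEN fields at `p = 3` (v3.18): FOUR final `T`-side statements. -/
structure s59g_OpenThreeZh : Prop where
  /-- flat chain at even levels with exports, helper8 (C3FlrFinXS) -/
  finX : ∀ (W : WeierstrassCurve ℤ) (hΔ : W.Δ ≠ 0), s59c3_TFinX 3 W hΔ
  /-- strict (très ramifié) chain at even levels with exports, helper6's statement (QSSpX), owner helper4 -/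
  finSX : ∀ (W : WeierstrassCurve ℤ) (hΔ : W.Δ ≠ 0), s59q_sf3_TFinX 3 W hΔ
  /-- case (P): the master statement at even levels (UP3A) and the odd base level with first raising prime `2` (UC2PE) -/
  finPX : ∀ (W : WeierstrassCurve ℤ) (hΔ : W.Δ ≠ 0), s59u_p_TFinX 3 W hΔ
  finP2X : ∀ (W : WeierstrassCurve ℤ) (hΔ : W.Δ ≠ 0) (r : ℕ), s59u_c2_TFinPtX 3 W hΔ r 0

theorem s59g_openThreeZg_ofZh (h : s59g_OpenThreeZh) : s59g_OpenThreeZg where
  finX := h.finX
  finSf := fun W hΔ => s59q_sf3_TFin_of_X 3 W hΔ (h.finSX W hΔ)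
  finS0 := fun W hΔ => s59q_spx_TFinPt_two_zero 3 W hΔ (h.finSX W hΔ)
  finS1 := fun W hΔ => s59q_spx_TFinPt_two_one 3 W hΔ (h.finSX W hΔ)
  finPX := h.finPX
  finP2X := h.finP2X

/-- **S59 from the OPEN fields of v3.18** — the frozen statement, verbatim. -/
theorem s59g_S59_openZh (h3 : s59g_OpenThreeZh) (h5 : s59g_OpenFiveZg)
    (p : ℕ) (hp : p = 3 ∨ p = 5)
    (W : WeierstrassCurve ℤ) (hΔ : W.Δ ≠ 0) (hW : W.IsSemistableModel)
    (hirr : W.ModRepIsIrreducible p)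
    (M₀ : ℕ) [NeZero M₀] (hres₀ : W.IsResiduallyModularOfLevel p M₀)
    (hM₀ : ¬ p ^ 2 ∣ M₀)
    (hM₀3 : ∀ q : ℕ, q.Prime → q ≠ p → ¬ q ^ 3 ∣ M₀) :
    Mlc1IsModularModelOfExactConductorLevel W :=
  s59g_S59_openZg (s59g_openThreeZg_ofZh h3) h5 p hp W hΔ hW hirr M₀ hres₀ hM₀ hM₀3

end Fermat.Agent.Lib.S59

end
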