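/-
PROGRAMME (R2) = S59 — ADAPTER v3.19 (helper1): `GLeavesZh.lean` (v3.18) with THREE MORE FIELDS CLOSED:
* `finE`  (flat chain, `p = 5`, h23-free)            := `s59g_nh_fin 5` (GNhFin.lean: the `hONE` twin of helper5's GREEN `s59efl_fin`);
* `finSX` (strict chain at even levels with exports) := helper4's `s59f_st_TFinXL_q 3` (FStrFinGL.lean);
* `finS5` (strict chain, `p = 5`)                     := helper6's `s59q_st_fin 5` (QStFin.lean).
FOUR open fields, all final `T`-side statements: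
  p = 3: `finX` (flat, helper8), `finPX` ((P) master, [W4c]), `finP2X` ((P), odd base level, [C2P]);
  p = 5: `finP5X` ((P) master, [W4c]).
NEW file, NEW names.  `s59g_S59_openZi : s59g_OpenThreeZi → s59g_OpenFiveZi → <frozen S59 verbatim>`.
-/
import Fermat.Agent.Lib.S59.GLeavesZh
import Fermat.Agent.Lib.S59.GNhFin
import Fermat.Agent.Lib.S59.FStrFinGL
import Fermat.Agent.Lib.S59.QStFin

set_option autoImplicit false

open CongruenceSubgroup ModularFormClass

noncomputable section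

namespace Fermat.Agent.Lib.S59

attribute [local instance] s59g_fact_prime_five

/-- the OPEN fields at `p = 3` (v3.19): THREE final `T`-side statements. -/
structure s59g_OpenThreeZi : Prop where
  /-- flat chain at even levels with exports, helper8 (C3FlrFinXS) -/
  finX : ∀ (W : WeierstrassCurve ℤ) (hΔ : W.Δ ≠ 0), s59c3_TFinX 3 W hΔ
  /-- case (P): the master statement at even levels (UP3A) and the odd base level with first raising prime `2` (UC2PE) -/
  finPX : ∀ (W : WeierstrassCurve ℤ) (hΔ : W.Δ ≠ 0), s59u_p_TFinX 3 W hΔ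
  finP2X : ∀ (W : WeierstrassCurve ℤ) (hΔ : W.Δ ≠ 0) (r : ℕ), s59u_c2_TFinPtX 3 W hΔ r 0

theorem s59g_openThreeZh_ofZi (h : s59g_OpenThreeZi) : s59g_OpenThreeZh where
  finX := h.finX
  finSX := fun W hΔ => s59f_st_TFinXL_q 3 W hΔ
  finPX := h.finPX
  finP2X := h.finP2X

/-- the OPEN field at `p = 5` (v3.19): ONE final `T`-side statement. -/
structure s59g_OpenFiveZi : Prop where
  /-- case (P), `p = 5`: the master statement (UP5A; no parity hypothesis) -/
  finP5X : ∀ (W : WeierstrassCurve ℤ) (hΔ : W.Δ ≠ 0), s59u_p5_TFinX 5 W hΔ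

theorem s59g_openFiveZg_ofZi (h : s59g_OpenFiveZi) : s59g_OpenFiveZg where
  finE := fun W hΔ => s59g_nh_fin 5 W hΔ
  finS5 := fun W hΔ => s59q_st_fin 5 W hΔ
  finP5X := h.finP5X

/-- **S59 from the OPEN fields of v3.19** — the frozen statement, verbatim. -/
theorem s59g_S59_openZi (h3 : s59g_OpenThreeZi) (h5 : s59g_OpenFiveZi)
    (p : ℕ) (hp : p = 3 ∨ p = 5)
    (W : WeierstrassCurve ℤ) (hΔ : W.Δ ≠ 0) (hW : W.IsSemistableModel)
    (hirr : W.ModRepIsIrreducible p)
    (M₀ : ℕ) [NeZero M₀] (hres₀ : W.IsResiduallyModularOfLevel p M₀)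
    (hM₀ : ¬ p ^ 2 ∣ M₀)
    (hM₀3 : ∀ q : ℕ, q.Prime → q ≠ p → ¬ q ^ 3 ∣ M₀) :
    Mlc1IsModularModelOfExactConductorLevel W :=
  s59g_S59_openZh (s59g_openThreeZh_ofZi h3) (s59g_openFiveZg_ofZi h5) p hp W hΔ hW hirr M₀ hres₀
    hM₀ hM₀3

end Fermat.Agent.Lib.S59

end
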