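/-
PROGRAMME (R2) = S59 — ADAPTER v3.20 (helper1): `GLeavesZi.lean` (v3.19) with `finX` CLOSED by helper8's `s59c3_finX 3`
(C3FlrFin.lean: the flat chain at even levels, `p = 3`, with its exports).  **EVERY (GT) FIELD OF S59 IS NOW A THEOREM; the THREE open
fields are the final `T`-side statements of case (P)** (`W` multiplicative at `p`, `ρ̄` peu ramifié at `p`):
  `finPX  : ∀ W hΔ, s59u_p_TFinX 3 W hΔ`        (UP3A; even levels, [W4c]),
  `finP2X : ∀ W hΔ r, s59u_c2_TFinPtX 3 W hΔ r 0` (UC2PE; odd base level, first raising prime `2`, [C2P]),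
  `finP5X : ∀ W hΔ, s59u_p5_TFinX 5 W hΔ`       (UP5A; `p = 5`, [W4c]).
NEW file, NEW names.  `s59g_S59_openZj : s59g_OpenZj → <frozen S59 verbatim>`.
-/
import Fermat.Agent.Lib.S59.GLeavesZi
import Fermat.Agent.Lib.S59.C3FlrFin

set_option autoImplicit false

open CongruenceSubgroup ModularFormClass

noncomputable section

namespace Fermat.Agent.Lib.S59

attribute [local instance] s59g_fact_prime_five

/-- the OPEN fields of S59 (v3.20): the THREE final `T`-side statements of case (P). -/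
structure s59g_OpenZj : Prop where
  /-- case (P), `p = 3`: the master statement at even levels (helper3 UP3A) -/
  finPX : ∀ (W : WeierstrassCurve ℤ) (hΔ : W.Δ ≠ 0), s59u_p_TFinX 3 W hΔ
  /-- case (P), `p = 3`: the odd base level with first raising prime `2` (helper3 UC2PE) -/
  finP2X : ∀ (W : WeierstrassCurve ℤ) (hΔ : W.Δ ≠ 0) (r : ℕ), s59u_c2_TFinPtX 3 W hΔ r 0
  /-- case (P), `p = 5`: the master statement (helper3 UP5A; no parity hypothesis) -/
  finP5X : ∀ (W : WeierstrassCurve ℤ) (hΔ : W.Δ ≠ 0), s59u_p5_TFinX 5 W hΔ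

theorem s59g_openThreeZi_ofZj (h : s59g_OpenZj) : s59g_OpenThreeZi where
  finX := fun W hΔ => s59c3_finX 3 W hΔ
  finPX := h.finPX
  finP2X := h.finP2X

theorem s59g_openFiveZi_ofZj (h : s59g_OpenZj) : s59g_OpenFiveZi where
  finP5X := h.finP5X

/-- **S59 from the OPEN fields of v3.20** — the frozen statement, verbatim. -/
theorem s59g_S59_openZj (h : s59g_OpenZj)
    (p : ℕ) (hp : p = 3 ∨ p = 5)
    (W : WeierstrassCurve ℤ) (hΔ : W.Δ ≠ 0) (hW : W.IsSemistableModel)
    (hirr : W.ModRepIsIrreducible p)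
    (M₀ : ℕ) [NeZero M₀] (hres₀ : W.IsResiduallyModularOfLevel p M₀)
    (hM₀ : ¬ p ^ 2 ∣ M₀)
    (hM₀3 : ∀ q : ℕ, q.Prime → q ≠ p → ¬ q ^ 3 ∣ M₀) :
    Mlc1IsModularModelOfExactConductorLevel W :=
  s59g_S59_openZi (s59g_openThreeZi_ofZj h) (s59g_openFiveZi_ofZj h) p hp W hΔ hW hirr M₀ hres₀
    hM₀ hM₀3

end Fermat.Agent.Lib.S59

end
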