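/-
S59 project, case (P), route (T5w), [W4c] (helper9, prefix `s59m_`): `s59m_recProvAll_even` = all the record providers of an EVEN level
(`s59m_RecProvAll`, MKerRecProv.lean) from helper7's `Internal.s59x_levelZ_rec`.
-/
import Mathlib
import Fermat.Agent.Lib.S59.MKerRecProv

set_option autoImplicit false
set_option linter.unusedSectionVars false
set_option linter.unusedVariables false
set_option linter.style.haveILetI false
set_option maxHeartbeats 0
set_option synthInstance.maxHeartbeats 400000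
set_option maxSynthPendingDepth 3

noncomputable section

namespace Fermat.Agent.Lib.S59

open Matrix MatrixGroups CongruenceSubgroup IsLocalRing Polynomial CuspForm
open WeierstrassCurve WeierstrassCurve.Affine WeierstrassCurve.Affine.Point
open Fermat.Agent.Lib.S29 Fermat.Agent.Lib.S48 Fermat.Agent.Lib.S41 Fermat.Agent.Lib.S44
open Fermat.Agent.Lib.S58 Fermat.Agent.Lib.S18

local notation "Γℚ" => (AlgebraicClosure ℚ ≃ₐ[ℚ] AlgebraicClosure ℚ)


/-- the record providers of an even level. -/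
theorem Internal.s59m_recProvAll_even (p : ℕ) [Fact p.Prime] (hp2 : p ≠ 2) (W : WeierstrassCurve ℤ) (hΔ : W.Δ ≠ 0)
    (N : ℕ) [NeZero N] (B : Finset ℕ)
    (hirr : W.ModRepIsIrreducible p) (hsq : Squarefree N)
    (hNB : ∀ r : ℕ, r.Prime → r ∣ N → r ∈ B) (hpB : p ∈ B)
    (hB2 : ∀ r : ℕ, r.Prime → ¬ W.IsGoodPrimeFor r → r ∈ B)
    (h23 : 2 ∣ N)
    (𝒪 : Type) [CommRing 𝒪] [IsDomain 𝒪] [IsDiscreteValuationRing 𝒪]
    [IsAdicComplete (maximalIdeal 𝒪) 𝒪] [Finite (ResidueField 𝒪)] [CharZero 𝒪]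
    [Algebra ℤ_[p] 𝒪] [Module.Finite ℤ_[p] 𝒪]
    (hp𝒪 : ((p : ℕ) : 𝒪) ∈ maximalIdeal 𝒪) :
    s59m_RecProvAll p W hΔ N B 𝒪 hp𝒪 := by
  exact s59m_recProv_even p hp2 W hΔ N B hirr hsq hNB hpB hB2 h23 𝒪 hp𝒪

export Internal (s59m_recProvAll_even)

end Fermat.Agent.Lib.S59
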