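/-
S59 project, case (P), route (T5w), [W4c] (helper9, prefix `s59m_`): **THE FINAL `T`-SIDE THEOREM OF CASE (P) AT EVEN LEVELS** —
`s59m_finE : s59x_TFinP p W hΔ` (statement: helper7's NXFinS.lean; textually helper3's `s59u_p_TFinXL`), the even instance of the abstract core
`Internal.s59m_finCore` (MKerFin.lean): per index the standard provider `Internal.s59m_idx_std` (MKerIdx.lean) with the parity-dependent
inputs of an even level (`s59e3_auxTors_even`, helper3's `s59u_S37H_aux_pgroup_W`, `s59m_recProvAll_even`) and the base package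
`Internal.s59m_base_std` (helper2's `Internal.s59x_base_pkgZ`).
-/
import Mathlib
import Fermat.Agent.Lib.S59.NXFinS
import Fermat.Agent.Lib.S59.MKerFin
import Fermat.Agent.Lib.S59.MKerIdx
import Fermat.Agent.Lib.S59.MKerBaseS
import Fermat.Agent.Lib.S59.MKerRecProvE
import Fermat.Agent.Lib.S59.UW37Cons
import Fermat.Agent.Lib.S59.E3Aux
import Fermat.Agent.Lib.S59.EAuxPF

set_option autoImplicit false
set_option linter.unusedSectionVars false
set_option linter.unusedVariables false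
set_option linter.style.haveILetI false
set_option maxHeartbeats 0
set_option synthInstance.maxHeartbeats 400000
set_option maxSynthPendingDepth 3

noncomputable section

namespace Fermat.Agent.Lib.S59

open IsLocalRing CuspForm Polynomial ExtCitation CongruenceSubgroup
open WeierstrassCurve WeierstrassCurve.Affine WeierstrassCurve.Affine.Point
open Fermat.Agent.Lib.S48 Fermat.Agent.Lib.S44 Fermat.Agent.Lib.S18
open Fermat.Agent.Lib.S53 (NormData)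
open scoped MatrixGroups

local notation "Γℚ" => (AlgebraicClosure ℚ ≃ₐ[ℚ] AlgebraicClosure ℚ)

/-- an even `p`-free level is good for the odd prime `p`. -/
theorem s59m_goodLevel_even {p N : ℕ} (hp : p.Prime) (hp2 : p ≠ 2) (hpN : ¬ p ∣ N) (h2N : 2 ∣ N) : s18_GoodLevel p N := by
  refine ⟨hpN, ?_⟩
  by_cases h3 : p = 3
  · exact Or.inr (Or.inl ⟨h3, h2N⟩)
  · refine Or.inl ?_
    have h2 := hp.two_le
    by_contra hlt
    have h4 : p = 4 := by omega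
    rw [h4] at hp
    exact absurd hp (by norm_num)

/-- the raising primes are primes of `B` different from `p`, outside the minimal type. -/
theorem s59m_Qr_props {p k : ℕ} (N qr : ℕ → ℕ) (B : Finset ℕ) (hqr : ∀ t, t < k → (qr t).Prime)
    (hN : ∀ t, t < k → N (t + 1) = N t * qr t) (hpN : ∀ t, ¬ p ∣ N t)
    (hB1 : ∀ t, ∀ r : ℕ, r.Prime → r ∣ N t * p → r ∈ B) (Sgm : Finset ℕ) (hqrSgm : ∀ t, t < k → qr t ∉ Sgm)
    (Sgs : ℕ → Finset ℕ) (h0 : Sgs 0 = Sgm) (s : ℕ) :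
    ∀ q ∈ {q : ℕ | s = 0 ∧ ∃ l, l < k ∧ q = qr l}, q.Prime ∧ q ≠ p ∧ q ∈ B ∧ q ∉ Sgs s := by
  rintro q ⟨rfl, l, hl, rfl⟩
  have hd : qr l ∣ N (l + 1) := Dvd.intro_left _ (hN l hl).symm
  refine ⟨hqr l hl, fun h => hpN (l + 1) (h ▸ hd), hB1 (l + 1) _ (hqr l hl) (Dvd.dvd.mul_right hd p), ?_⟩
  rw [h0]
  exact hqrSgm l hl

/-- **the final `T`-side theorem of case (P) at even levels** (kernel pairs of the levels `N t * p`, weak trace clause). -/
theorem Internal.s59m_finE (p : ℕ) [Fact p.Prime] (W : WeierstrassCurve ℤ) (hΔ : W.Δ ≠ 0) : s59x_TFinP p W hΔ := by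
  classical
  intro hp2 B hss hirr hmult hB2 𝒪 _ _ _ _ _ _ _ _ hp𝒪 habs Nd hordp k N qr hNZ hqr hN hfreeze hsq hpN h2N hB1 hocc₁ hocc₂
    φr σr hφr hσr Sg0 Su Smin Sgm hpSgm hSgm0 hSminSgm hmin hSuB hSgN hSgmN hqrSgm D0 Dm σ _ _
  haveI := hNZ
  have hpP : p.Prime := Fact.out
  haveI hNZp : ∀ t, NeZero (N t * p) := fun t => ⟨Nat.mul_ne_zero (NeZero.ne (N t)) hpP.ne_zero⟩
  have hpB : p ∈ B := hB1 0 p hpP (Dvd.intro_left _ rfl)
  have hSgsex := s59m_exists_Sgs (P := fun q => s59e3q_E2Alt p (s59i_rhobarW W p hΔ 𝒪 hp𝒪) q) N Sg0 Sgm hSgm0 hSgN hSgmN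
  choose Sgs hSgs0eq hSgmSgs hSgsSg0 hSgsN using hSgsex
  have hN1 : ∀ s, 1 < N s := fun s =>
    lt_of_lt_of_le one_lt_two (Nat.le_of_dvd (Nat.pos_of_ne_zero (NeZero.ne (N s))) (h2N s))
  have hN1p : ∀ s, 1 < N s * p := fun s => lt_of_lt_of_le (hN1 s) (Nat.le_mul_of_pos_right _ hpP.pos)
  have htors : ∀ s, s59e_auxTors p (N s) := fun s => s59e3_auxTors_even hpP hp2 (h2N s)
  have htors₂ : ∀ s, s59e_auxTors p (N s * p) := fun s => s59e_auxTors_mono (Dvd.intro _ rfl) (htors s)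
  have hgood : ∀ s, s18_GoodLevel p (N s) := fun s => s59m_goodLevel_even hpP hp2 (hpN s) (h2N s)
  have hSgNp : ∀ s, ∀ q : ℕ, q.Prime → q ∣ N s * p → q ∈ Sg0 ∨ s59e3q_E2Alt p (s59i_rhobarW W p hΔ 𝒪 hp𝒪) q := fun s q hq h =>
    ((Nat.Prime.dvd_mul hq).mp h).elim (hSgN s q hq)
      (fun h' => Or.inl (((Nat.prime_dvd_prime_iff_eq hq hpP).mp h').symm ▸ hSgm0 hpSgm))
  refine Internal.s59m_finCore p W hΔ hp2 B hirr hB2 𝒪 hp𝒪 habs Nd hordp k N qr hNZ hqr hN hfreeze hsq hpN hB1 hocc₁ hocc₂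
    φr σr hφr hσr Sg0 Su Smin Sgm hpSgm hSgm0 hSminSgm hmin hSuB hSgN hSgmN hqrSgm D0 Dm σ (fun s hdt => ?_)
  exact Internal.s59m_idx_std p hp2 W hΔ hirr (N s) (hsq s) (hpN s) B (hB1 s) hB2 𝒪 hp𝒪 hordp habs Nd σ (hocc₁ s) (hocc₂ s)
    (hgood s) (htors s) (hN1 s)
    (s59u_S37H_aux_pgroup_W (Squarefree.of_mul_left (hsq s)) (hN1 s) (Subgroup.mem_top _) (htors s)
      (fun u => ⟨0, Subgroup.mem_top _⟩))
    (htors₂ s)
    (s59u_S37H_aux_pgroup_W (hsq s) (hN1p s) (Subgroup.mem_top _) (htors₂ s) (fun u => ⟨0, Subgroup.mem_top _⟩))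
    (s59m_recProvAll_even p hp2 W hΔ (N s * p) B hirr (hsq s) (hB1 s) hpB hB2 (Dvd.dvd.mul_right (h2N s) p) 𝒪 hp𝒪)
    Sg0 Su Smin Sgm (Sgs s) hpSgm (hSgmSgs s) (hSgsSg0 s) hSminSgm hmin hSuB (hSgN s) (hSgsN s) D0 Dm
    {q : ℕ | s = 0 ∧ ∃ l, l < k ∧ q = qr l}
    (s59m_Qr_props N qr B hqr hN hpN hB1 Sgm hqrSgm Sgs hSgs0eq s) (s ≠ 0) (N k) hdt
    (Internal.s59m_base_std p hp2 W hΔ (N s) B hirr hss hmult (hsq s) (hpN s) (hgood s) (htors s) (hB1 s) hB2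
      (hocc₁ s) (hocc₂ s) 𝒪 hp𝒪 Sg0 Su Smin (hSgm0 hpSgm) (hSgNp s) hmin D0)

export Internal (s59m_finE)

end Fermat.Agent.Lib.S59
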