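/-
Programme R2 (S59), case (P), item [TOP-odd] part 2 (helper9, prefix `s59m_`), for helper6's [TRANSFER] (C)/(E): **the Hecke ring of a
Taylor–Wiles level WITHOUT its Galois half — level-generic (no parity, no `s18_GoodLevel`, no deformation ring).**

* `s59m_TW_H3hecke` : helper5's `s59e_H3HeckeConcl (N₂ ∏q²) (B ∪ Q) a₀ ε (a ·) ρ̄` itself for the FULL part of ANY idempotent `ε` of the
  level `(N₂ ∏ qv, ⊤ × K_Q)` (`s59m_H3_hecke_full` in the numerology of `s59m_TPkgP_levelData` / `s59m_TW_heckeF`);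
* `s59m_hecke_sub_free` : the GALOIS-FREE half of helper8's `s59c_H3_pnew` at a free level `(M, H)`, `M = N ∏Q`: for a stable
  saturated submodule `Z` of the `ε`-part, `a₀` (helper5's `s59e_REL`), its restriction `aZ` to `Z`, local scalarity of `𝒪[aZ]` and
  of the generators (`aZ (T_ℓ) ≡ a_ℓ`) — helper2's `s59b_restr_hloc_sat`;
* `s59m_hecke_pnew_part` : the same transported to the kernel part `s59t_part P'` of helper4's old package at `p`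
  (`Z = s59m_newSub`, transport along `s59m_newEquiv`): `a₀ ha1 ha2 aX haX hlocX hTlocX` (the Galois-free half of
  `s59m_H3_pnew_part`).
-/
import Mathlib
import Fermat.Agent.Lib.S59.MKerHFW
import Fermat.Agent.Lib.S59.MKerH3W

set_option autoImplicit false
set_option linter.unusedSectionVars false
set_option linter.unusedVariables false
set_option linter.style.haveILetI false
set_option synthInstance.maxHeartbeats 400000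
set_option maxHeartbeats 1600000
set_option maxSynthPendingDepth 3

noncomputable section

namespace Fermat.Agent.Lib.S59

open Matrix.SpecialLinearGroup CongruenceSubgroup ModularCurve.Period Polynomial CuspForm
open Fermat.Agent.Lib.S48 Fermat.Agent.Lib.ES IsLocalRing
open scoped MatrixGroups

local notation "Qbar" => AlgebraicClosure ℚ
local notation "GQ" => (AlgebraicClosure ℚ ≃ₐ[ℚ] AlgebraicClosure ℚ)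

section TransportH

variable {𝒪 : Type} [CommRing 𝒪] [IsDomain 𝒪] [IsDiscreteValuationRing 𝒪]
  [IsAdicComplete (maximalIdeal 𝒪) 𝒪] [Finite (ResidueField 𝒪)]
  {Z : Type} [AddCommGroup Z] [Module 𝒪 Z]
  {X : Type} [AddCommGroup X] [Module 𝒪 X] [Module.Free 𝒪 X] [Module.Finite 𝒪 X] [Nontrivial X]
  (e : X ≃ₗ[𝒪] Z)
  {Mn : ℕ} [NeZero Mn] (S : Finset ℕ)
  (aZ : heckeAlgebra Mn 2 (↑S : Set ℕ) →+* Module.End 𝒪 Z)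

/-- **transport of the Galois-free (H3)-output along `e : X ≃ Z`.** -/
theorem s59m_hecke_transport
    (hloc : ∀ x ∈ s59e_adj 𝒪 aZ, ∃ d : 𝒪, s59e_IsLocScalar x d)
    (c : ℕ → 𝒪)
    (hTloc : ∀ (ℓ : ℕ) (hℓ : ℓ.Prime) (hℓN : ¬ ℓ ∣ Mn) (hℓS : ℓ ∉ (↑S : Set ℕ)),
      s59e_IsLocScalar (aZ (heckeAlgebra.T hℓ hℓN hℓS)) (c ℓ)) :
    (∀ x ∈ s59e_adj 𝒪 (s59m_conjAct e S aZ), ∃ d : 𝒪, s59e_IsLocScalar x d) ∧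
    ∀ (ℓ : ℕ) (hℓ : ℓ.Prime) (hℓN : ¬ ℓ ∣ Mn) (hℓS : ℓ ∉ (↑S : Set ℕ)),
      s59e_IsLocScalar (s59m_conjAct e S aZ (heckeAlgebra.T hℓ hℓN hℓS)) (c ℓ) := by
  classical
  set aX := s59m_conjAct e S aZ with haX
  have hconj : ∀ t x, e (aX t x) = aZ t (e x) := s59m_conjAct_apply e S aZ
  obtain ⟨E, hE1, hE2⟩ := s59m_adj_equiv e aX aZ hconj
  have hlocX := s59m_hloc_transport e aX aZ E hE2 hloc
  exact ⟨hlocX, fun ℓ hℓ hℓN hℓS =>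
    s59m_isLocScalar_conj e _ _ (hconj _) _ (hTloc ℓ hℓ hℓN hℓS)⟩

end TransportH

section OddHecke

variable {p : ℕ} [hp : Fact p.Prime]
  {𝒪 : Type} [CommRing 𝒪] [IsDomain 𝒪] [IsDiscreteValuationRing 𝒪]
  [IsAdicComplete (maximalIdeal 𝒪) 𝒪] [Finite (ResidueField 𝒪)] [CharZero 𝒪] [Algebra ℤ_[p] 𝒪]
  {B : Finset ℕ} (a : ℕ → ℤ)

/-- **`s59e_H3HeckeConcl` for the full part of an idempotent of the level `(N₂ ∏ qv, ⊤ × K_Q)`**, numerology of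
`s59m_TPkgP_levelData`. -/
theorem s59m_TW_H3hecke (hp2 : p ≠ 2) (hp𝒪 : (p : 𝒪) ∈ maximalIdeal 𝒪) (hpB : p ∈ B)
    (N₂ : ℕ) [NeZero N₂] (hNB₂ : ∀ q : ℕ, q.Prime → q ∣ N₂ → q ∈ B)
    (n : ℕ) {r : ℕ} (qv : Fin r → ℕ) [NeZero (∏ j, qv j)] [NeZero (N₂ * ∏ j, qv j)]
    [NeZero (N₂ * ∏ q ∈ Finset.univ.image qv, q ^ 2)]
    [Fact (HasIntegralStructure (N₂ * ∏ q ∈ Finset.univ.image qv, q ^ 2) 2)]
    (hqinj : Function.Injective qv) (hqvpr : ∀ i, (qv i).Prime) (hqvB : ∀ i, qv i ∉ B)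
    (ε : Module.End 𝒪 (s48h_Hpar 𝒪 (s48h_GammaH (N₂ * ∏ j, qv j)
      (s59t_Hmul N₂ (∏ j, qv j) (⊤ : Subgroup (ZMod N₂)ˣ) (s59t_KQ (p ^ n) qv))) 𝒪))
    (hε : ε * ε = ε) (hε0 : ε ≠ 0)
    (hεc : ∀ x, ε * s59w_op (s59t_Hmul N₂ (∏ j, qv j) (⊤ : Subgroup (ZMod N₂)ˣ) (s59t_KQ (p ^ n) qv)) 𝒪 x =
      s59w_op (s59t_Hmul N₂ (∏ j, qv j) (⊤ : Subgroup (ZMod N₂)ˣ) (s59t_KQ (p ^ n) qv)) 𝒪 x * ε)
    (hnil : ∀ x ∈ s59t_goodB (N₂ * ∏ j, qv j) B, ∃ k : ℕ,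
      ∀ y : s48h_Hpar 𝒪 (s48h_GammaH (N₂ * ∏ j, qv j)
        (s59t_Hmul N₂ (∏ j, qv j) (⊤ : Subgroup (ZMod N₂)ˣ) (s59t_KQ (p ^ n) qv))) 𝒪,
      ((s59w_op (s59t_Hmul N₂ (∏ j, qv j) (⊤ : Subgroup (ZMod N₂)ˣ) (s59t_KQ (p ^ n) qv)) 𝒪 x -
        s59t_cB (𝒪 := 𝒪) (N₂ * ∏ j, qv j) a x •
        (1 : Module.End 𝒪 (s48h_Hpar 𝒪 (s48h_GammaH (N₂ * ∏ j, qv j)
          (s59t_Hmul N₂ (∏ j, qv j) (⊤ : Subgroup (ZMod N₂)ˣ) (s59t_KQ (p ^ n) qv))) 𝒪))) ^ k) (ε y) ∈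
        (maximalIdeal 𝒪 • ⊤ : Submodule 𝒪 (s48h_Hpar 𝒪 (s48h_GammaH (N₂ * ∏ j, qv j)
          (s59t_Hmul N₂ (∏ j, qv j) (⊤ : Subgroup (ZMod N₂)ˣ) (s59t_KQ (p ^ n) qv))) 𝒪)))
    (ρbar : ResidualGaloisRep (ResidueField 𝒪)) (habs : ρbar.IsAbsolutelyIrreducible)
    (hEig : ∀ ℓ : ℕ, ℓ.Prime → ℓ ∉ (B ∪ Finset.univ.image qv) →
      ∀ A : ValuationSubring Qbar, A.LiesOverPrime ℓ →
      ∀ σ : GQ, A.IsFrobeniusAt σ ℓ →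
        LinearMap.charpoly (ρbar.ρ σ) = X ^ 2 - C (residue 𝒪 ((a ℓ : ℤ) : 𝒪)) * X +
          C ((ℓ : ResidueField 𝒪))) :
    ∃ a₀ : heckeAlgebra (N₂ * ∏ q ∈ Finset.univ.image qv, q ^ 2) 2
        (↑(B ∪ Finset.univ.image qv) : Set ℕ) →+*
        Module.End 𝒪 (s48h_Hpar 𝒪 (s48h_GammaH (N₂ * ∏ j, qv j)
          (s59t_Hmul N₂ (∏ j, qv j) (⊤ : Subgroup (ZMod N₂)ˣ) (s59t_KQ (p ^ n) qv))) 𝒪),
      (∀ (ℓ : ℕ) (hℓ : ℓ.Prime) (hℓN : ¬ ℓ ∣ (N₂ * ∏ q ∈ Finset.univ.image qv, q ^ 2))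
        (hℓS : ℓ ∉ (↑(B ∪ Finset.univ.image qv) : Set ℕ))
        (i : s59w_TIdx (N₂ * ∏ j, qv j)), i.ell = ℓ → a₀ (heckeAlgebra.T hℓ hℓN hℓS) =
          s59e_Tp' (s59t_Hmul N₂ (∏ j, qv j) (⊤ : Subgroup (ZMod N₂)ˣ) (s59t_KQ (p ^ n) qv)) 𝒪
            ((p ^ (0 + n) - 1) * ((p ^ (0 + n) + 1) / 2)) i) ∧
      (∀ t, a₀ t ∈ Subring.closure (Set.range
        (s59e_Tp' (s59t_Hmul N₂ (∏ j, qv j) (⊤ : Subgroup (ZMod N₂)ˣ) (s59t_KQ (p ^ n) qv)) 𝒪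
          ((p ^ (0 + n) - 1) * ((p ^ (0 + n) + 1) / 2))))) ∧
      s59e_H3HeckeConcl (N₂ * ∏ q ∈ Finset.univ.image qv, q ^ 2) (B ∪ Finset.univ.image qv) a₀ ε
        (fun ℓ => ((a ℓ : ℤ) : 𝒪)) ρbar := by
  classical
  have hqvN₂ : ∀ i, ¬ qv i ∣ N₂ := fun i h => hqvB i (hNB₂ _ (hqvpr i) h)
  have hMeq := s59k_level_eq_top qv N₂ hqinj
  have hD₁ : ∏ q ∈ Finset.univ.image qv, q ∣ N₂ * ∏ i, qv i := Dvd.intro_left N₂ hMeq.symm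
  have hQ₂ := s59k_hQ_top qv N₂ hqvpr hqvN₂
  have hHker := s59k_hH_top qv N₂ (p ^ n) hqinj rfl hD₁
  have hnH' := s59k_ppow_mem_Hmul_top N₂ qv p 0 n
  have hS₂ : ∀ q : ℕ, q.Prime → q ∣ (N₂ * ∏ q ∈ Finset.univ.image qv, q ^ 2) →
      q ∈ (B ∪ Finset.univ.image qv) := by
    intro q hq hqM
    rcases (Nat.Prime.dvd_mul hq).mp hqM with h | h
    · exact Finset.mem_union_left _ (hNB₂ q hq h)
    · obtain ⟨q', hq', hqq'⟩ := (Prime.dvd_finsetProd_iff (Nat.prime_iff.mp hq) _).mp h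
      obtain ⟨i, -, rfl⟩ := Finset.mem_image.mp hq'
      have hqe : q = qv i := (Nat.prime_dvd_prime_iff_eq hq (hqvpr i)).mp (hq.dvd_of_dvd_pow hqq')
      rw [hqe]
      exact Finset.mem_union_right _ (Finset.mem_image_of_mem qv (Finset.mem_univ i))
  exact s59m_H3_hecke_full a hp2 hp𝒪 N₂ (Finset.univ.image qv) hQ₂ hMeq _ hD₁ hHker (0 + n) hnH'
    (N₂ * ∏ q ∈ Finset.univ.image qv, q ^ 2) rfl (B ∪ Finset.univ.image qv)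
    (Finset.mem_union_left _ hpB) Finset.subset_union_left hS₂ ε hε hε0 hεc hnil ρbar habs hEig

/-- **the Galois-free half of the `p`-new (H3)** on a stable saturated submodule `Z` of the `ε`-part, free levels. -/
theorem s59m_hecke_sub_free (hp2 : p ≠ 2) (hp𝒪 : (p : 𝒪) ∈ maximalIdeal 𝒪)
    (N : ℕ) [NeZero N] (Q : Finset ℕ) (hQ : ∀ q ∈ Q, q.Prime ∧ ¬ q ∣ N)
    {M : ℕ} [NeZero M] (hM : M = N * ∏ q ∈ Q, q) (H : Subgroup (ZMod M)ˣ)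
    (hD : (∏ q ∈ Q, q) ∣ M) (hH : s59u_ker M (∏ q ∈ Q, q) hD ≤ H)
    (e : ℕ) (hn : ∀ u : (ZMod M)ˣ, u ^ (p ^ e) ∈ H)
    (M' : ℕ) [NeZero M'] [Fact (HasIntegralStructure M' 2)] (hM' : M' = N * ∏ q ∈ Q, q ^ 2)
    (S : Finset ℕ) (hpS : p ∈ S) (hBS : B ⊆ S) (hS : ∀ q : ℕ, q.Prime → q ∣ M' → q ∈ S)
    (ε : Module.End 𝒪 (s48h_Hpar 𝒪 (s48h_GammaH M H) 𝒪)) (hε : ε * ε = ε)
    (hεc : ∀ x, ε * s59w_op H 𝒪 x = s59w_op H 𝒪 x * ε)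
    (hnil : ∀ x ∈ s59t_goodB M B, ∃ k : ℕ,
      ∀ y : s48h_Hpar 𝒪 (s48h_GammaH M H) 𝒪,
      ((s59w_op H 𝒪 x - s59t_cB (𝒪 := 𝒪) M a x •
        (1 : Module.End 𝒪 (s48h_Hpar 𝒪 (s48h_GammaH M H) 𝒪))) ^ k) (ε y) ∈
        (maximalIdeal 𝒪 • ⊤ : Submodule 𝒪 (s48h_Hpar 𝒪 (s48h_GammaH M H) 𝒪)))
    (Z : Submodule 𝒪 (s48h_Hpar 𝒪 (s48h_GammaH M H) 𝒪))
    (hZε : ∀ z ∈ Z, ε z = z) (hZop : ∀ x, ∀ z ∈ Z, s59w_op H 𝒪 x z ∈ Z)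
    (hZsat : ∀ (c : 𝒪) (y : s48h_Hpar 𝒪 (s48h_GammaH M H) 𝒪), c ≠ 0 → c • y ∈ Z → y ∈ Z) :
    ∃ a₀ : heckeAlgebra M' 2 (↑S : Set ℕ) →+*
        Module.End 𝒪 (s48h_Hpar 𝒪 (s48h_GammaH M H) 𝒪),
      (∀ (ℓ : ℕ) (hℓ : ℓ.Prime) (hℓN : ¬ ℓ ∣ M') (hℓS : ℓ ∉ (↑S : Set ℕ))
        (i : s59w_TIdx M), i.ell = ℓ → a₀ (heckeAlgebra.T hℓ hℓN hℓS) =
          s59e_Tp' H 𝒪 ((p ^ e - 1) * ((p ^ e + 1) / 2)) i) ∧
      (∀ t, a₀ t ∈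
        Subring.closure (Set.range (s59e_Tp' H 𝒪 ((p ^ e - 1) * ((p ^ e + 1) / 2))))) ∧
      ∃ aZ : heckeAlgebra M' 2 (↑S : Set ℕ) →+* Module.End 𝒪 Z,
        (∀ t (z : Z), ((aZ t z : Z) : s48h_Hpar 𝒪 (s48h_GammaH M H) 𝒪) = a₀ t (z : _)) ∧
        (∀ x ∈ s59e_adj 𝒪 aZ, ∃ d : 𝒪, s59e_IsLocScalar x d) ∧
        (∀ (ℓ : ℕ) (hℓ : ℓ.Prime) (hℓN : ¬ ℓ ∣ M') (hℓS : ℓ ∉ (↑S : Set ℕ)),
          s59e_IsLocScalar (aZ (heckeAlgebra.T hℓ hℓN hℓS)) (((a ℓ : ℤ) : 𝒪))) := by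
  classical
  have hpP : p.Prime := hp.out
  have hpodd : Odd (p ^ e) := (hpP.odd_of_ne_two hp2).pow
  have hnm : 2 * ((p ^ e + 1) / 2) = p ^ e + 1 := by
    obtain ⟨k, hk⟩ := hpodd
    omega
  have hHp : ∀ u : (ZMod M)ˣ, ∃ k : ℕ, u ^ (p ^ k) ∈ H := fun u => ⟨e, hn u⟩
  have hMM' : M ∣ M' := by
    rw [hM, hM']
    refine Nat.mul_dvd_mul_left N (Finset.prod_dvd_prod_of_dvd _ _ fun q _ => ?_)
    exact Dvd.intro _ (pow_two q).symm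
  have hidx : ∀ ℓ : ℕ, ℓ.Prime → ¬ ℓ ∣ M' → ∃ i : s59w_TIdx M, i.ell = ℓ :=
    fun ℓ hℓ hℓN => s59e_exists_TIdx (M := M) hℓ (fun h => hℓN (dvd_trans h hMM'))
  let b := Module.Free.chooseBasis ℤ (s48h_M (s48h_GammaH M H))
  obtain ⟨a₀, ha1, ha2⟩ := s59e_REL N Q H b M' (↑S : Set ℕ) s59w_petSS hQ hM rfl hD hH
    hnm hn hM' hS (s59u_cB b 𝒪) (s59u_cB_coe b 𝒪)
  refine ⟨a₀, ha1, ha2, ?_⟩
  haveI : Module.Free 𝒪 (s48h_Hpar 𝒪 (s48h_GammaH M H) 𝒪) :=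
    Module.Free.of_basis (s59u_cB b 𝒪)
  haveI : Module.Finite 𝒪 (s48h_Hpar 𝒪 (s48h_GammaH M H) 𝒪) :=
    Module.Finite.of_basis (s59u_cB b 𝒪)
  have hεc' : ∀ j, s59e_Anemic S j → ε * s59w_op H 𝒪 j = s59w_op H 𝒪 j * ε := fun j _ => hεc j
  have hnil' : ∀ j, s59e_Anemic S j → ∃ k : ℕ, ∀ z,
      ((s59w_op H 𝒪 j - s59t_cB (𝒪 := 𝒪) M a j • 1) ^ k) (ε z) ∈
        maximalIdeal 𝒪 • (⊤ : Submodule 𝒪 (s48h_Hpar 𝒪 (s48h_GammaH M H) 𝒪)) := by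
    intro j hj
    rcases j with i | τ
    · have hiS : i.ell ∉ S := (s59e_anemic_inl_iff S i).mp hj
      exact hnil _ (s59t_inl_mem_goodB B i (fun h => hiS (hBS h)))
    · exact s59t_topNil_dia p H hp𝒪 hHp ε τ
  -- stability of `Z` under `a₀`
  have hcl : ∀ t, ∃ hx : ∀ z ∈ Z, a₀ t z ∈ Z,
      (a₀ t).restrict hx ∈ Algebra.adjoin 𝒪
        (Set.range fun j : s59w_AIdx M => (s59w_op H 𝒪 j).restrict (hZop j)) ∧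
      a₀ t ∈ Algebra.adjoin 𝒪 (Set.range (s59w_op H 𝒪)) := fun t =>
    s59c_closure_restrict Z (s59w_op H 𝒪) hZop
      (s59e_Tp' H 𝒪 ((p ^ e - 1) * ((p ^ e + 1) / 2))) (fun i => ⟨_, _, rfl⟩) (ha2 t)
  have hZa : ∀ t, ∀ z ∈ Z, a₀ t z ∈ Z := fun t => (hcl t).fst
  obtain ⟨aZ, haZ⟩ := s59c_exists_aZ Z a₀ hZa
  have hls := s59b_restr_hloc_sat M' S hS a₀ ε hε
    (J := {j : s59w_AIdx M // s59e_Anemic S j})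
    (fun j => s59w_op H 𝒪 j.1) (fun i j => s59w_op_comm H 𝒪 i.1 j.1) (fun j => hεc' j.1 j.2)
    (fun j => s59t_cB (𝒪 := 𝒪) M a j.1) (fun j => hnil' j.1 j.2)
    (fun ℓ => ((a ℓ : ℤ) : 𝒪))
    (fun ℓ hℓ hℓN hℓS => by
      obtain ⟨i, hi⟩ := hidx ℓ hℓ hℓN
      have hiS : i.ell ∉ S := by rw [hi]; exact hℓS
      refine ⟨⟨Sum.inr (s59e_tau i ((p ^ e - 1) * ((p ^ e + 1) / 2))), s59e_anemic_inr S _⟩,
        ⟨Sum.inl i, s59e_anemic_inl S i hiS⟩, ha1 ℓ hℓ hℓN hℓS i hi, ?_⟩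
      show ((a ℓ : ℤ) : 𝒪) = (1 : 𝒪) * ((a i.ell : ℤ) : 𝒪)
      rw [one_mul, hi])
    Z hZε (fun j => hZop j.1) hZsat aZ haZ
  exact ⟨aZ, haZ, hls.1, hls.2⟩

/-- **the Galois-free half of the `p`-new (H3) on the kernel part `s59t_part P'`**, free levels: `N' = N ∏Q = L p`, the old package
of helper4 at `p` over `(L, H) → (N', H')` with any normalising element `e₀`. -/
theorem s59m_hecke_pnew_part (hp2 : p ≠ 2) (hp𝒪 : (p : 𝒪) ∈ maximalIdeal 𝒪)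
    (N : ℕ) [NeZero N] (Q : Finset ℕ) (hQ : ∀ q ∈ Q, q.Prime ∧ ¬ q ∣ N)
    {N' : ℕ} [NeZero N'] (hM : N' = N * ∏ q ∈ Q, q) (H' : Subgroup (ZMod N')ˣ)
    (hD : (∏ q ∈ Q, q) ∣ N') (hH : s59u_ker N' (∏ q ∈ Q, q) hD ≤ H')
    (e : ℕ) (hn : ∀ u : (ZMod N')ˣ, u ^ (p ^ e) ∈ H')
    (Mn : ℕ) [NeZero Mn] [Fact (HasIntegralStructure Mn 2)] (hMn : Mn = N * ∏ q ∈ Q, q ^ 2)
    (S : Finset ℕ) (hpS : p ∈ S) (hBS : B ⊆ S) (hS : ∀ q : ℕ, q.Prime → q ∣ Mn → q ∈ S)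
    -- the idempotent
    (ε' : Module.End 𝒪 (s48h_Hpar 𝒪 (s48h_GammaH N' H') 𝒪)) (hε : ε' * ε' = ε')
    (hεc : ∀ x, ε' * s59w_op H' 𝒪 x = s59w_op H' 𝒪 x * ε')
    (hnil : ∀ x ∈ s59t_goodB N' B, ∃ k : ℕ,
      ∀ y : s48h_Hpar 𝒪 (s48h_GammaH N' H') 𝒪,
      ((s59w_op H' 𝒪 x - s59t_cB (𝒪 := 𝒪) N' a x •
        (1 : Module.End 𝒪 (s48h_Hpar 𝒪 (s48h_GammaH N' H') 𝒪))) ^ k) (ε' y) ∈
        (maximalIdeal 𝒪 • ⊤ : Submodule 𝒪 (s48h_Hpar 𝒪 (s48h_GammaH N' H') 𝒪)))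
    -- the package and the kernel part
    {L : ℕ} [NeZero L] (hpL : ¬ p ∣ L) {H : Subgroup (ZMod L)ˣ} (hN' : N' = L * p)
    (hG' : s59f_IsG' L p H (s48h_GammaH N' H'))
    (e₀ : SL(2, ℤ)) (he' : e₀ ∈ Gamma0 N') (hee : s59f_gW hpL * e₀ * e₀ ∈ s48h_GammaH N' H')
    {ε₁' : Module.End 𝒪 (s48h_Hpar 𝒪 (s48h_GammaH L H) 𝒪)}
    (hc' : (s59f_oldN hpL hN' hG' 𝒪 𝒪 e₀ he' hee).Compat ε₁' ε')
    {P' : Module.End 𝒪 (s59t_part ε')} (hPP' : P' * P' = P')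
    (hmem' : ∀ x, x ∈ s59t_part P' ↔
      ((s59f_oldN hpL hN' hG' 𝒪 𝒪 e₀ he' hee).restrict hc').corA x = 0 ∧
      ((s59f_oldN hpL hN' hG' 𝒪 𝒪 e₀ he' hee).restrict hc').corB x = 0)
    [Nontrivial (s59t_part P')] :
    ∃ a₀ : heckeAlgebra Mn 2 (↑S : Set ℕ) →+*
        Module.End 𝒪 (s48h_Hpar 𝒪 (s48h_GammaH N' H') 𝒪),
      (∀ (ℓ : ℕ) (hℓ : ℓ.Prime) (hℓN : ¬ ℓ ∣ Mn) (hℓS : ℓ ∉ (↑S : Set ℕ))
        (i : s59w_TIdx N'), i.ell = ℓ → a₀ (heckeAlgebra.T hℓ hℓN hℓS) =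
          s59e_Tp' H' 𝒪 ((p ^ e - 1) * ((p ^ e + 1) / 2)) i) ∧
      (∀ t, a₀ t ∈
        Subring.closure (Set.range (s59e_Tp' H' 𝒪 ((p ^ e - 1) * ((p ^ e + 1) / 2))))) ∧
      ∃ aX : heckeAlgebra Mn 2 (↑S : Set ℕ) →+* Module.End 𝒪 (s59t_part P'),
        (∀ t (x : s59t_part P'),
          (((aX t x : s59t_part P') : s59t_part ε') : s48h_Hpar 𝒪 (s48h_GammaH N' H') 𝒪) =
            a₀ t ((x : s59t_part ε') : s48h_Hpar 𝒪 (s48h_GammaH N' H') 𝒪)) ∧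
        (∀ x ∈ s59e_adj 𝒪 aX, ∃ d : 𝒪, s59e_IsLocScalar x d) ∧
        (∀ (ℓ : ℕ) (hℓ : ℓ.Prime) (hℓN : ¬ ℓ ∣ Mn) (hℓS : ℓ ∉ (↑S : Set ℕ)),
          s59e_IsLocScalar (aX (heckeAlgebra.T hℓ hℓN hℓS)) (((a ℓ : ℤ) : 𝒪))) := by
  classical
  have hεop : ∀ x y, ε' (s59w_op H' 𝒪 x y) = s59w_op H' 𝒪 x (ε' y) :=
    fun x y => LinearMap.congr_fun (hεc x) y
  haveI : Module.Finite 𝒪 (s48h_Hpar 𝒪 (s48h_GammaH N' H') 𝒪) := s59t_Hpar_finite 𝒪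
  haveI : Module.Free 𝒪 (s48h_Hpar 𝒪 (s48h_GammaH N' H') 𝒪) := s59t_Hpar_free 𝒪
  haveI : Module.Finite 𝒪 (s59t_part ε') := s59t_part_finite ε'
  haveI : Module.Free 𝒪 (s59t_part ε') := s59t_part_free hε
  haveI : Module.Finite 𝒪 (s59t_part P') := s59t_part_finite P'
  haveI : Module.Free 𝒪 (s59t_part P') := s59t_part_free hPP'
  have hZε : ∀ z ∈ s59m_newSub (s59f_oldN hpL hN' hG' 𝒪 𝒪 e₀ he' hee) ε', ε' z = z :=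
    fun z hz => s59m_newSub_fixed _ ε' hε hz
  have hZop : ∀ x, ∀ z ∈ s59m_newSub (s59f_oldN hpL hN' hG' 𝒪 𝒪 e₀ he' hee) ε',
      s59w_op H' 𝒪 x z ∈ s59m_newSub (s59f_oldN hpL hN' hG' 𝒪 𝒪 e₀ he' hee) ε' :=
    fun x z hz => s59m_newSub_op hpL hN' hG' e₀ he' hee ε' hεop x hz
  have hZsat : ∀ (c : 𝒪) (y : s48h_Hpar 𝒪 (s48h_GammaH N' H') 𝒪), c ≠ 0 →
      c • y ∈ s59m_newSub (s59f_oldN hpL hN' hG' 𝒪 𝒪 e₀ he' hee) ε' →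
      y ∈ s59m_newSub (s59f_oldN hpL hN' hG' 𝒪 𝒪 e₀ he' hee) ε' :=
    fun c y hc hy => s59m_newSub_sat' hpL hN' hG' e₀ he' hee ε' hε c y hc hy
  have k1 := s59m_hecke_sub_free a hp2 hp𝒪 N Q hQ hM H' hD hH e hn Mn hMn S hpS hBS hS ε' hε hεc hnil
  have k2 := k1 (s59m_newSub (s59f_oldN hpL hN' hG' 𝒪 𝒪 e₀ he' hee) ε') hZε hZop hZsat
  obtain ⟨a₀, ha1, ha2, aZ, haZ, hloc, hTloc⟩ := k2
  have t1 := s59m_hecke_transport (s59m_newEquiv hc' hmem') S aZ hloc (fun ℓ => ((a ℓ : ℤ) : 𝒪)) hTloc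
  obtain ⟨hlocX, hTlocX⟩ := t1
  refine ⟨a₀, ha1, ha2, s59m_conjAct (s59m_newEquiv hc' hmem') S aZ, ?_, hlocX, hTlocX⟩
  intro t x
  have h1 := s59m_conjAct_apply (s59m_newEquiv hc' hmem') S aZ t x
  have h2 := congrArg (fun w : s59m_newSub (s59f_oldN hpL hN' hG' 𝒪 𝒪 e₀ he' hee) ε' =>
    (w : s48h_Hpar 𝒪 (s48h_GammaH N' H') 𝒪)) h1
  simp only [s59m_newEquiv_coe, haZ] at h2
  exact h2

end OddHecke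

end Fermat.Agent.Lib.S59
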