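/-
PROGRAMME (R2) = S59, plan [C2P] (the field `finP2X`), the ODD level package, file A (helper3, prefix `s59u_c2o_`):
**THE `q`-OLD EMBEDDING OF THE KERNEL PAIR OF A LOWER LEVEL INTO THE KERNEL PAIR OF THE UPPER LEVEL** (in [C2P]: `q = 2`, lower level
`(L, H)` = the ODD Taylor–Wiles level `3 L r Q`, upper level `(N', H')` = the EVEN level `6 L r Q`), level-generic.

`D := s59f_oldN hqL hN' hG' 𝒪 𝒪 e he' hee` helper4's package, `hc : D.Compat ε ε'`, `P`, `P'` the kernel projectors on the two parts and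
`hst : s59x_OldStable (D.restrict hc) (part P) (part P')` (helper7's `s59x_stable_of_mem`).  With
`r := (s59x_oldSub (D.restrict hc) hst).resA : part P → part P'`:

* `s59u_c2o_r_injective` : `r` is injective (`q + 1 ≠ 0`, torsion-free);
* `s59u_c2o_r_coe`       : `j' (r y) = D.resA (j y)`;
* `s59u_c2o_hopY`        : `j' (r (opY x y)) = op' x (j' (r y))` for `opY x := op^Z (down x)` — the hypothesis `hopY` of helper6's `s59q_tr_hC8`;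
* `s59u_c2o_hrho`        : every `ρ^Z δ` is `opY (inr τ)`, `τ ∈ Γ₀(N')` — the hypothesis `hρ'` of `s59q_tr_hC8`;
* `s59u_c2o_hgl`         : the local generators — the hypothesis `hgl` of `s59q_tr_hC8` (from `hgloc` at the UPPER level);
* `s59u_c2o_hrT`         : `r ∘ aZ(T_ℓ) = aZ'(T_ℓ) ∘ r` — the hypothesis `hrT` of helper6's `s59q_tr_theta`.
-/
import Mathlib
import Fermat.Agent.Lib.S59.NXKerH1
import Fermat.Agent.Lib.S59.NXOldSub2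
import Fermat.Agent.Lib.S59.EFlrConcA
import Fermat.Agent.Lib.S59.EFlrCompat
import Fermat.Agent.Lib.S59.FEps6
import Fermat.Agent.Lib.S59.TLvlQ2
import Fermat.Agent.Lib.S59.TLvlFin
import Fermat.Agent.Lib.S59.EHRel2

set_option autoImplicit false
set_option linter.unusedSectionVars false
set_option linter.unusedVariables false
set_option linter.style.haveILetI false
set_option synthInstance.maxHeartbeats 400000
set_option maxSynthPendingDepth 3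
set_option maxHeartbeats 1600000

noncomputable section

namespace Fermat.Agent.Lib.S59

open Matrix MatrixGroups CongruenceSubgroup IsLocalRing CuspForm
open Fermat.Agent.Lib.S29 Fermat.Agent.Lib.S48 Fermat.Agent.Lib.S41

section Link

variable {L q : ℕ} [NeZero L] [hq : Fact q.Prime] (hqL : ¬ q ∣ L)
  {H : Subgroup (ZMod L)ˣ}
  {N' : ℕ} [NeZero N'] (hN' : N' = L * q) {H' : Subgroup (ZMod N')ˣ}
  (hG' : s59f_IsG' L q H (s48h_GammaH N' H'))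
  (e : SL(2, ℤ)) (he' : e ∈ Gamma0 N') (hee : s59f_gW hqL * e * e ∈ s48h_GammaH N' H')
  {𝒪 : Type} [CommRing 𝒪]
  {ε : Module.End 𝒪 (s48h_Hpar 𝒪 (s48h_GammaH L H) 𝒪)}
  {ε' : Module.End 𝒪 (s48h_Hpar 𝒪 (s48h_GammaH N' H') 𝒪)}
  (hc : (s59f_oldN hqL hN' hG' 𝒪 𝒪 e he' hee).Compat ε ε')
  {P : Module.End 𝒪 (s59t_part ε)} {P' : Module.End 𝒪 (s59t_part ε')}
  (hst : s59x_OldStable ((s59f_oldN hqL hN' hG' 𝒪 𝒪 e he' hee).restrict hc) (s59t_part P) (s59t_part P'))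

/-- `j' (r y) = D.resA (j y)`. -/
theorem s59u_c2o_r_coe (y : s59t_part P) :
    s59x_jZ H' ε' P' ((s59x_oldSub ((s59f_oldN hqL hN' hG' 𝒪 𝒪 e he' hee).restrict hc) hst).resA y) =
      (s59f_oldN hqL hN' hG' 𝒪 𝒪 e he' hee).resA (s59x_jZ H ε P y) := rfl

/-- **`r` is injective.** -/
theorem s59u_c2o_r_injective [IsDomain 𝒪] [CharZero 𝒪] :
    Function.Injective (s59x_oldSub ((s59f_oldN hqL hN' hG' 𝒪 𝒪 e he' hee).restrict hc) hst).resA := by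
  have hinjF : Function.Injective ((s59f_oldN hqL hN' hG' 𝒪 𝒪 e he' hee).restrict hc).resA :=
    s59efl_resA_injective _ (s59efl_part_torsionfree _ _) (by
      show ((q : ℕ) : 𝒪) + 1 ≠ 0
      exact_mod_cast Nat.succ_ne_zero q)
  exact s59x_oldSub_resA_injective _ hst hinjF

variable (hLN : L ∣ N')
  (hεop : ∀ x y, ε (s59w_op H 𝒪 x y) = s59w_op H 𝒪 x (ε y))
  (hZop : ∀ (x : s59w_AIdx L) (z : s59t_part ε), z ∈ s59t_part P →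
    s59m_opPart H ε hεop x z ∈ s59t_part P)

/-- **`hopY`**: the embedding intertwines the anemic operators of the upper level with those of the lower level. -/
theorem s59u_c2o_hopY (x : s59w_AIdx N') (y : s59t_part P) :
    s59x_jZ H' ε' P' ((s59x_oldSub ((s59f_oldN hqL hN' hG' 𝒪 𝒪 e he' hee).restrict hc) hst).resA
        (s59x_opZ H ε hεop P hZop (s59t_AIdx_down hLN x) y)) =
      s59w_op H' 𝒪 x (s59x_jZ H' ε' P'
        ((s59x_oldSub ((s59f_oldN hqL hN' hG' 𝒪 𝒪 e he' hee).restrict hc) hst).resA y)) := by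
  have h := (s59f_oldN_compat_wop hqL hN' hG' e he' hee hLN (dvd_refl N') (R := 𝒪) x).resA
    (s59x_jZ H ε P y)
  rw [s59t_AIdx_down_self] at h
  exact h.symm

variable (hερ : ∀ δ y, ε (s59t_rho L H 𝒪 𝒪 δ y) = s59t_rho L H 𝒪 𝒪 δ (ε y))
  (hP : ∀ δ x, P (s59t_partRep (s59t_rho L H 𝒪 𝒪) hερ δ x) =
    s59t_partRep (s59t_rho L H 𝒪 𝒪) hερ δ (P x))

include hqL hN' hG' in
/-- **`hρ'`**: every diamond operator of the lower kernel part is `opY (inr τ)` with `τ ∈ Γ₀(N')`. -/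
theorem s59u_c2o_hrho (h0 : Gamma0 N' ≤ Gamma0 L) (hle : s48h_GammaH N' H' ≤ s48h_GammaH L H)
    (δ : s59t_Delta L H) :
    ∃ τ : Gamma0 N', s59t_partRep (s59t_partRep (s59t_rho L H 𝒪 𝒪) hερ) hP δ =
      s59x_opZ H ε hεop P hZop (s59t_AIdx_down hLN (Sum.inr τ)) := by
  obtain ⟨δ', hδ'⟩ := (s59f_DeltaMap2_bijective hqL hN' hG' h0 hle).2 δ
  obtain ⟨τ, rfl⟩ := QuotientGroup.mk_surjective δ'
  refine ⟨τ⁻¹, ?_⟩
  rw [← hδ', s59t_DeltaMap2_mk, s59x_partRepZ_mk H ε hεop hερ P hP hZop]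
  rfl

/-- **`hgl`**: the local generators of the lower level, with representatives in `Γ₀(N')` local at `qv i` at the UPPER level. -/
theorem s59u_c2o_hgl (h0 : Gamma0 N' ≤ Gamma0 L) (hle : s48h_GammaH N' H' ≤ s48h_GammaH L H)
    {r : ℕ} (qv : Fin r → ℕ) (hqM : ∀ i, qv i ∣ N')
    (Bq : Subgroup (s59t_Delta L H)) (g : Fin r → Bq)
    (Bq' : Subgroup (s59t_Delta N' H')) (g' : Fin r → Bq')
    (hg : ∀ i, (g i : s59t_Delta L H) = s59t_DeltaMap2 h0 hle (g' i : s59t_Delta N' H'))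
    (hgloc : ∀ i, ∃ τ : Gamma0 N',
      (QuotientGroup.mk τ : s59t_Delta N' H') = (g' i : s59t_Delta N' H') ∧
      ZMod.unitsMap (Nat.div_dvd_of_dvd (hqM i)) (s59t_unitHom N' τ) = 1) (p n : ℕ) :
    ∀ i, ∃ (τ₀ : Gamma0 N') (L₀ : ℕ) (hL₀ : N' = L₀ * qv i),
      s59t_partRep (s59t_partRep (s59t_rho L H 𝒪 𝒪) hερ) hP
          ((s59t_hh p n g i : Bq) : s59t_Delta L H) =
        s59x_opZ H ε hεop P hZop (s59t_AIdx_down hLN (Sum.inr τ₀)) ∧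
      ZMod.unitsMap (hL₀ ▸ Dvd.intro (qv i) rfl : L₀ ∣ N') (s59w_lrUnit τ₀) = 1 := by
  intro i
  obtain ⟨τ, hτ, hu⟩ := hgloc i
  refine ⟨(τ ^ ((p ^ n + 1) / 2))⁻¹, N' / qv i, (Nat.div_mul_cancel (hqM i)).symm, ?_, ?_⟩
  · have e1 : ((s59t_hh p n g i : Bq) : s59t_Delta L H) =
        s59t_DeltaMap2 h0 hle (QuotientGroup.mk (τ ^ ((p ^ n + 1) / 2)) : s59t_Delta N' H') := by
      rw [QuotientGroup.mk_pow, hτ, map_pow, ← hg i]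
      rfl
    rw [e1, s59t_DeltaMap2_mk, s59x_partRepZ_mk H ε hεop hερ P hP hZop]
    rfl
  · show ZMod.unitsMap (Nat.div_dvd_of_dvd (hqM i))
      (s59t_unitHom N' (τ ^ ((p ^ n + 1) / 2))⁻¹) = 1
    rw [map_inv, map_pow, map_inv, map_pow, hu, one_pow, inv_one]

end Link

section HrT

variable {L q : ℕ} [NeZero L] [hq : Fact q.Prime] (hqL : ¬ q ∣ L)
  {H : Subgroup (ZMod L)ˣ}
  {N' : ℕ} [NeZero N'] (hN' : N' = L * q) {H' : Subgroup (ZMod N')ˣ}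
  (hG' : s59f_IsG' L q H (s48h_GammaH N' H'))
  (e : SL(2, ℤ)) (he' : e ∈ Gamma0 N') (hee : s59f_gW hqL * e * e ∈ s48h_GammaH N' H')
  {𝒪 : Type} [CommRing 𝒪]
  {ε : Module.End 𝒪 (s48h_Hpar 𝒪 (s48h_GammaH L H) 𝒪)}
  {ε' : Module.End 𝒪 (s48h_Hpar 𝒪 (s48h_GammaH N' H') 𝒪)}
  (hc : (s59f_oldN hqL hN' hG' 𝒪 𝒪 e he' hee).Compat ε ε')
  {P : Module.End 𝒪 (s59t_part ε)} {P' : Module.End 𝒪 (s59t_part ε')}
  (hst : s59x_OldStable ((s59f_oldN hqL hN' hG' 𝒪 𝒪 e he' hee).restrict hc) (s59t_part P) (s59t_part P'))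
  (hLN : L ∣ N')
  {M₁ M₂ : ℕ} [NeZero M₁] [NeZero M₂] (S : Finset ℕ) (k : ℕ)
  -- the Hecke ring of the UPPER level
  (a₁ : heckeAlgebra M₁ 2 (↑S : Set ℕ) →+* Module.End 𝒪 (s48h_Hpar 𝒪 (s48h_GammaH N' H') 𝒪))
  (ha1₁ : ∀ (ℓ : ℕ) (hℓ : ℓ.Prime) (hℓN : ¬ ℓ ∣ M₁) (hℓS : ℓ ∉ (↑S : Set ℕ)) (i : s59w_TIdx N'),
    i.ell = ℓ → a₁ (heckeAlgebra.T hℓ hℓN hℓS) = s59e_Tp' H' 𝒪 k i)
  (aZ₁ : heckeAlgebra M₁ 2 (↑S : Set ℕ) →+* Module.End 𝒪 (s59t_part P'))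
  (haZ₁ : ∀ t (z : s59t_part P'), s59x_jZ H' ε' P' (aZ₁ t z) = a₁ t (s59x_jZ H' ε' P' z))
  -- the Hecke ring of the LOWER level
  (a₂ : heckeAlgebra M₂ 2 (↑S : Set ℕ) →+* Module.End 𝒪 (s48h_Hpar 𝒪 (s48h_GammaH L H) 𝒪))
  (ha1₂ : ∀ (ℓ : ℕ) (hℓ : ℓ.Prime) (hℓN : ¬ ℓ ∣ M₂) (hℓS : ℓ ∉ (↑S : Set ℕ)) (i : s59w_TIdx L),
    i.ell = ℓ → a₂ (heckeAlgebra.T hℓ hℓN hℓS) = s59e_Tp' H 𝒪 k i)
  (aZ₂ : heckeAlgebra M₂ 2 (↑S : Set ℕ) →+* Module.End 𝒪 (s59t_part P))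
  (haZ₂ : ∀ t (z : s59t_part P), s59x_jZ H ε P (aZ₂ t z) = a₂ t (s59x_jZ H ε P z))
  (hMS : ∀ ℓ : ℕ, ℓ.Prime → ℓ ∣ N' → ℓ ∈ S)

include hLN ha1₁ haZ₁ ha1₂ haZ₂ hMS in
/-- **`hrT`**: the embedding intertwines the Hecke operators `T_ℓ`, `ℓ ∉ S`, of the two Hecke rings. -/
theorem s59u_c2o_hrT (ℓ : ℕ) (hℓ : ℓ.Prime) (h₁ : ¬ ℓ ∣ M₁) (h₂ : ¬ ℓ ∣ M₂) (hℓS : ℓ ∉ (↑S : Set ℕ))
    (z : s59t_part P) :
    (s59x_oldSub ((s59f_oldN hqL hN' hG' 𝒪 𝒪 e he' hee).restrict hc) hst).resA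
        (aZ₂ (heckeAlgebra.T hℓ h₂ hℓS) z) =
      aZ₁ (heckeAlgebra.T hℓ h₁ hℓS)
        ((s59x_oldSub ((s59f_oldN hqL hN' hG' 𝒪 𝒪 e he' hee).restrict hc) hst).resA z) := by
  have hℓN : ¬ ℓ ∣ N' := fun h => hℓS (Finset.mem_coe.mpr (hMS ℓ hℓ h))
  obtain ⟨i, hi⟩ := s59e_exists_TIdx (M := N') hℓ hℓN
  refine s59x_jZ_injective H' ε' P' ?_
  have hc1 := (s59efl_compat_Tp' hqL hN' hG' e he' hee (R := 𝒪) hLN k i).resA (s59x_jZ H ε P z)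
  have e2 : (s59f_oldN hqL hN' hG' 𝒪 𝒪 e he' hee).resA
        (s59x_jZ H ε P (aZ₂ (heckeAlgebra.T hℓ h₂ hℓS) z)) =
      (s59f_oldN hqL hN' hG' 𝒪 𝒪 e he' hee).resA
        (s59e_Tp' H 𝒪 k (s59t_TIdx_down hLN i) (s59x_jZ H ε P z)) :=
    congrArg (s59f_oldN hqL hN' hG' 𝒪 𝒪 e he' hee).resA
      ((haZ₂ _ z).trans (LinearMap.congr_fun (ha1₂ ℓ hℓ h₂ hℓS (s59t_TIdx_down hLN i) hi) _))
  have e4 : s59x_jZ H' ε' P' (aZ₁ (heckeAlgebra.T hℓ h₁ hℓS)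
        ((s59x_oldSub ((s59f_oldN hqL hN' hG' 𝒪 𝒪 e he' hee).restrict hc) hst).resA z)) =
      s59e_Tp' H' 𝒪 k i ((s59f_oldN hqL hN' hG' 𝒪 𝒪 e he' hee).resA (s59x_jZ H ε P z)) :=
    (haZ₁ _ _).trans (LinearMap.congr_fun (ha1₁ ℓ hℓ h₁ hℓS i hi) _)
  exact e2.trans (hc1.symm.trans e4.symm)

end HrT

end Fermat.Agent.Lib.S59

end
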