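/-
PROGRAMME (R2) = S59, plan [C2P] (the field `liftC2p`), leaf [TRANSFER], file A (helper6, prefix `s59q_tr_`):
**THE GALOIS HALF OF A HECKE MODULE IS INHERITED BY EVERY HECKE-STABLE SUBMODULE, ACROSS TWO LEVELS.**

`Z₁` = a Hecke module of level `M₁` (in [C2P]: the `3`-kernel part of the EVEN level `6 L r Q`) with its Galois half
`θ₁ : DQ.R ↠ 𝒪[aM₁]`, `hfrobT₁`, `hcong₁` (helper9's `s59m_H3_pnew_part`); `Z₂` = a Hecke module of level `M₂` (the `3`-kernel part of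
the ODD level `3 L r Q`, where no geometric input is available) with only its Hecke half `aM₂`; `r : Z₂ ↪ Z₁` an injective
`𝒪`-linear map intertwining the `T_ℓ`, `ℓ ∉ S` (the `2`-old embedding `ι₁`, helper4's `(s59f_oldN …).resA`).

* `s59q_tr_hom_tOf`     : helper5's transfer homomorphism `f : 𝒪[aM₁] ↠ 𝒪[aM₂]` (`s59e_TR1_hom`) in the `s59e_tOf` dialect;
* `s59q_tr_theta`       : `𝒪[aM₂]` is local and `θ₂ := f ∘ θ₁ : DQ.R ↠ 𝒪[aM₂]` has the Frobenius polynomials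
                          `X² − tOf ℓ · X + ℓ` and the congruences `tOf ℓ ≡ c ℓ` of `θ₁` — the binders
                          `θ hθ hfrobT hcong` of `s59x_levelZ` / `s59e_TLevelL_ring` at the odd level;
* `s59q_tr_theta_unique`: `θ₂` is characterised by `r ∘ θ₂(x) = θ₁(x) ∘ r`;
* `s59q_tr_hloc`        : `hlocA` of `𝒪[aM₂]` from the local scalarity of the generators `aM₂(T_ℓ)` (native at the odd level).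
-/
import Mathlib
import Fermat.Agent.Lib.S59.ETR1
import Fermat.Agent.Lib.S59.ETBaseD

set_option autoImplicit false
set_option linter.unusedSectionVars false
set_option linter.unusedVariables false
set_option linter.style.haveILetI false
set_option maxHeartbeats 1600000
set_option synthInstance.maxHeartbeats 400000

noncomputable section

namespace Fermat.Agent.Lib.S59

open IsLocalRing Polynomial CuspForm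

local notation "Qbar" => AlgebraicClosure ℚ
local notation "GQ" => (AlgebraicClosure ℚ ≃ₐ[ℚ] AlgebraicClosure ℚ)

section Hom

variable (M₁ M₂ : ℕ) [NeZero M₁] [NeZero M₂] (S : Finset ℕ)
  {𝒪 : Type} [CommRing 𝒪] [IsNoetherianRing 𝒪]
  {Z₁ Z₂ : Type} [AddCommGroup Z₁] [Module 𝒪 Z₁] [Module.Finite 𝒪 Z₁] [Module.Free 𝒪 Z₁]
  [AddCommGroup Z₂] [Module 𝒪 Z₂] [Module.Finite 𝒪 Z₂] [Module.Free 𝒪 Z₂]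

/-- **the transfer homomorphism in the `s59e_tOf` dialect.** -/
theorem s59q_tr_hom_tOf (hS₁ : ∀ q : ℕ, q.Prime → q ∣ M₁ → q ∈ S)
    (hS₂ : ∀ q : ℕ, q.Prime → q ∣ M₂ → q ∈ S)
    (aM₁ : heckeAlgebra M₁ 2 (↑S : Set ℕ) →+* Module.End 𝒪 Z₁)
    (aM₂ : heckeAlgebra M₂ 2 (↑S : Set ℕ) →+* Module.End 𝒪 Z₂)
    (r : Z₂ →ₗ[𝒪] Z₁) (hr : Function.Injective r)
    (hrT : ∀ (ℓ : ℕ) (hℓ : ℓ.Prime) (h₁ : ¬ ℓ ∣ M₁) (h₂ : ¬ ℓ ∣ M₂) (hℓS : ℓ ∉ (↑S : Set ℕ)) z,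
      r (aM₂ (heckeAlgebra.T hℓ h₂ hℓS) z) = aM₁ (heckeAlgebra.T hℓ h₁ hℓS) (r z)) :
    ∃ (f : s59e_adj 𝒪 aM₁ →ₐ[𝒪] s59e_adj 𝒪 aM₂),
      Function.Surjective f ∧
      (∀ (t : s59e_adj 𝒪 aM₁) (z : Z₂),
        r (((f t : s59e_adj 𝒪 aM₂) : Module.End 𝒪 Z₂) z) = (t : Module.End 𝒪 Z₁) (r z)) ∧
      (∀ ℓ : ℕ, ℓ.Prime → ℓ ∉ S →
        f (s59e_tOf (↑S : Set ℕ) aM₁ ℓ) = s59e_tOf (↑S : Set ℕ) aM₂ ℓ) := by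
  obtain ⟨f, hfs, hfr, hfT⟩ := s59e_TR1_hom M₁ M₂ S hS₁ hS₂ aM₁ aM₂ r hr hrT
  refine ⟨f, hfs, hfr, fun ℓ hℓ hℓS => ?_⟩
  have hℓS' : ℓ ∉ (↑S : Set ℕ) := fun h => hℓS (Finset.mem_coe.mp h)
  have h₁ : ¬ ℓ ∣ M₁ := fun h => hℓS (hS₁ ℓ hℓ h)
  have h₂ : ¬ ℓ ∣ M₂ := fun h => hℓS (hS₂ ℓ hℓ h)
  rw [s59e_tOf_eq _ aM₁ hℓ h₁ hℓS', s59e_tOf_eq _ aM₂ hℓ h₂ hℓS']
  exact hfT ℓ hℓ h₁ h₂ hℓS'

end Hom

section Theta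

variable (M₁ M₂ : ℕ) [NeZero M₁] [NeZero M₂] (S : Finset ℕ)
  {𝒪 : Type} [CommRing 𝒪] [IsDomain 𝒪] [IsDiscreteValuationRing 𝒪]
  [IsAdicComplete (maximalIdeal 𝒪) 𝒪]
  {Z₁ Z₂ : Type} [AddCommGroup Z₁] [Module 𝒪 Z₁] [Module.Finite 𝒪 Z₁] [Module.Free 𝒪 Z₁]
  [AddCommGroup Z₂] [Module 𝒪 Z₂] [Module.Finite 𝒪 Z₂] [Module.Free 𝒪 Z₂] [Nontrivial Z₂]

/-- `𝒪[aM]` is a nontrivial ring when the module is nontrivial. -/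
theorem s59q_tr_adj_nontrivial {A : Type*} [Semiring A] [IsMulCommutative A]
    (aM : A →+* Module.End 𝒪 Z₂) : Nontrivial (s59e_adj 𝒪 aM) := by
  refine ⟨⟨0, 1, fun h => ?_⟩⟩
  have h1 : (0 : Module.End 𝒪 Z₂) = 1 := congrArg Subtype.val h
  obtain ⟨y, hy⟩ := exists_ne (0 : Z₂)
  have h2 := LinearMap.congr_fun h1 y
  rw [LinearMap.zero_apply, Module.End.one_apply] at h2
  exact hy h2.symm

/-- **[TRANSFER], the Galois half.** -/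
theorem s59q_tr_theta (hS₁ : ∀ q : ℕ, q.Prime → q ∣ M₁ → q ∈ S)
    (hS₂ : ∀ q : ℕ, q.Prime → q ∣ M₂ → q ∈ S)
    (aM₁ : heckeAlgebra M₁ 2 (↑S : Set ℕ) →+* Module.End 𝒪 Z₁)
    (aM₂ : heckeAlgebra M₂ 2 (↑S : Set ℕ) →+* Module.End 𝒪 Z₂)
    [IsLocalRing (s59e_adj 𝒪 aM₁)]
    (r : Z₂ →ₗ[𝒪] Z₁) (hr : Function.Injective r)
    (hrT : ∀ (ℓ : ℕ) (hℓ : ℓ.Prime) (h₁ : ¬ ℓ ∣ M₁) (h₂ : ¬ ℓ ∣ M₂) (hℓS : ℓ ∉ (↑S : Set ℕ)) z,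
      r (aM₂ (heckeAlgebra.T hℓ h₂ hℓS) z) = aM₁ (heckeAlgebra.T hℓ h₁ hℓS) (r z))
    -- the Galois half of `Z₁`
    {ρbar : ResidualGaloisRep (ResidueField 𝒪)}
    {𝒟 : ∀ ⦃A : Type⦄ [CommRing A] [IsLocalRing A] [Algebra 𝒪 A], GaloisRepAdic A → Prop}
    (DQ : GaloisRep.DeformationRingData 𝒪 ρbar 𝒟)
    (θ₁ : DQ.R →ₐ[𝒪] s59e_adj 𝒪 aM₁) (hθ₁ : Function.Surjective θ₁)
    (hfrobT₁ : ∀ ℓ : ℕ, ℓ.Prime → ℓ ∉ S →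
      ∀ A' : ValuationSubring Qbar, A'.LiesOverPrime ℓ →
      ∀ τ : GQ, A'.IsFrobeniusAt τ ℓ →
        (LinearMap.charpoly (DQ.ρ.ρ τ)).map (θ₁ : DQ.R →+* s59e_adj 𝒪 aM₁) =
          X ^ 2 - C (s59e_tOf (↑S : Set ℕ) aM₁ ℓ) * X + C ((ℓ : s59e_adj 𝒪 aM₁)))
    (c : ℕ → 𝒪)
    (hcong₁ : ∀ ℓ : ℕ, ℓ.Prime → ℓ ∉ S →
      s59e_tOf (↑S : Set ℕ) aM₁ ℓ - algebraMap 𝒪 (s59e_adj 𝒪 aM₁) (c ℓ) ∈
        maximalIdeal (s59e_adj 𝒪 aM₁)) :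
    ∃ (f : s59e_adj 𝒪 aM₁ →ₐ[𝒪] s59e_adj 𝒪 aM₂) (_ : IsLocalRing (s59e_adj 𝒪 aM₂))
      (θ₂ : DQ.R →ₐ[𝒪] s59e_adj 𝒪 aM₂),
      Function.Surjective f ∧
      (∀ (t : s59e_adj 𝒪 aM₁) (z : Z₂),
        r (((f t : s59e_adj 𝒪 aM₂) : Module.End 𝒪 Z₂) z) = (t : Module.End 𝒪 Z₁) (r z)) ∧
      (∀ ℓ : ℕ, ℓ.Prime → ℓ ∉ S →
        f (s59e_tOf (↑S : Set ℕ) aM₁ ℓ) = s59e_tOf (↑S : Set ℕ) aM₂ ℓ) ∧
      (∀ x, θ₂ x = f (θ₁ x)) ∧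
      Function.Surjective θ₂ ∧
      (∀ ℓ : ℕ, ℓ.Prime → ℓ ∉ S →
        ∀ A' : ValuationSubring Qbar, A'.LiesOverPrime ℓ →
        ∀ τ : GQ, A'.IsFrobeniusAt τ ℓ →
          (LinearMap.charpoly (DQ.ρ.ρ τ)).map (θ₂ : DQ.R →+* s59e_adj 𝒪 aM₂) =
            X ^ 2 - C (s59e_tOf (↑S : Set ℕ) aM₂ ℓ) * X + C ((ℓ : s59e_adj 𝒪 aM₂))) ∧
      (∀ ℓ : ℕ, ℓ.Prime → ℓ ∉ S →
        s59e_tOf (↑S : Set ℕ) aM₂ ℓ - algebraMap 𝒪 (s59e_adj 𝒪 aM₂) (c ℓ) ∈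
          maximalIdeal (s59e_adj 𝒪 aM₂)) := by
  classical
  obtain ⟨f, hfs, hfr, hfT⟩ := s59q_tr_hom_tOf M₁ M₂ S hS₁ hS₂ aM₁ aM₂ r hr hrT
  haveI : Nontrivial (s59e_adj 𝒪 aM₂) := s59q_tr_adj_nontrivial aM₂
  have hloc₂ : IsLocalRing (s59e_adj 𝒪 aM₂) :=
    IsLocalRing.of_surjective' (f : s59e_adj 𝒪 aM₁ →+* s59e_adj 𝒪 aM₂) hfs
  haveI := hloc₂
  have hfl : IsLocalHom (f : s59e_adj 𝒪 aM₁ →+* s59e_adj 𝒪 aM₂) :=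
    Function.Surjective.isLocalHom _ hfs
  have hmax : ∀ x : s59e_adj 𝒪 aM₁, x ∈ maximalIdeal (s59e_adj 𝒪 aM₁) →
      f x ∈ maximalIdeal (s59e_adj 𝒪 aM₂) := by
    intro x hx
    rw [mem_maximalIdeal, mem_nonunits_iff] at hx ⊢
    intro hu
    exact hx (hfl.map_nonunit x hu)
  refine ⟨f, hloc₂, f.comp θ₁, hfs, hfr, hfT, fun x => rfl, hfs.comp hθ₁, ?_, ?_⟩
  · intro ℓ hℓ hℓS A' hA' τ hτ
    have h1 : ((f.comp θ₁ : DQ.R →ₐ[𝒪] s59e_adj 𝒪 aM₂) : DQ.R →+* s59e_adj 𝒪 aM₂) =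
        (f : s59e_adj 𝒪 aM₁ →+* s59e_adj 𝒪 aM₂).comp (θ₁ : DQ.R →+* s59e_adj 𝒪 aM₁) := rfl
    rw [h1, ← Polynomial.map_map, hfrobT₁ ℓ hℓ hℓS A' hA' τ hτ]
    simp only [Polynomial.map_add, Polynomial.map_sub, Polynomial.map_mul, Polynomial.map_pow,
      Polynomial.map_X, Polynomial.map_C]
    rw [map_natCast]
    congr 3
    exact congrArg C (hfT ℓ hℓ hℓS)
  · intro ℓ hℓ hℓS
    have h1 := hmax _ (hcong₁ ℓ hℓ hℓS)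
    rw [map_sub, hfT ℓ hℓ hℓS, AlgHom.commutes] at h1
    exact h1

/-- **`θ₂` is characterised by `r ∘ θ₂(x) = θ₁(x) ∘ r`.** -/
theorem s59q_tr_theta_unique {A₁ A₂ : Type*} [Semiring A₁] [IsMulCommutative A₁]
    [Semiring A₂] [IsMulCommutative A₂]
    (aM₁ : A₁ →+* Module.End 𝒪 Z₁) (aM₂ : A₂ →+* Module.End 𝒪 Z₂)
    (r : Z₂ →ₗ[𝒪] Z₁) (hr : Function.Injective r)
    (t : s59e_adj 𝒪 aM₁) (u u' : s59e_adj 𝒪 aM₂)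
    (hu : ∀ z, r ((u : Module.End 𝒪 Z₂) z) = (t : Module.End 𝒪 Z₁) (r z))
    (hu' : ∀ z, r ((u' : Module.End 𝒪 Z₂) z) = (t : Module.End 𝒪 Z₁) (r z)) : u = u' := by
  apply Subtype.ext
  refine LinearMap.ext fun z => hr ?_
  rw [hu, hu']

end Theta

section Loc

variable (M₂ : ℕ) [NeZero M₂] (S : Finset ℕ)
  {𝒪 : Type} [CommRing 𝒪] [IsNoetherianRing 𝒪] [IsLocalRing 𝒪]
  {Z₂ : Type} [AddCommGroup Z₂] [Module 𝒪 Z₂] [Module.Free 𝒪 Z₂] [Module.Finite 𝒪 Z₂]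

/-- **`hlocA` from the generators**: if every `aM₂(T_ℓ)`, `ℓ ∉ S`, is locally scalar, so is every element of `𝒪[aM₂]`. -/
theorem s59q_tr_hloc (hS₂ : ∀ q : ℕ, q.Prime → q ∣ M₂ → q ∈ S)
    (aM₂ : heckeAlgebra M₂ 2 (↑S : Set ℕ) →+* Module.End 𝒪 Z₂) (c : ℕ → 𝒪)
    (hgen : ∀ (ℓ : ℕ) (hℓ : ℓ.Prime) (h₂ : ¬ ℓ ∣ M₂) (hℓS : ℓ ∉ (↑S : Set ℕ)),
      s59e_IsLocScalar (aM₂ (heckeAlgebra.T hℓ h₂ hℓS)) (c ℓ)) :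
    ∀ x ∈ s59e_adj 𝒪 aM₂, ∃ d : 𝒪, s59e_IsLocScalar x d := by
  classical
  intro x hx
  have hex : ∃ G : {ℓ : ℕ // ℓ.Prime ∧ ¬ ℓ ∣ M₂ ∧ ℓ ∉ (↑S : Set ℕ)} → Module.End 𝒪 Z₂,
      ∀ i, G i = aM₂ (heckeAlgebra.T i.2.1 i.2.2.1 i.2.2.2) :=
    ⟨fun i => aM₂ (heckeAlgebra.T i.2.1 i.2.2.1 i.2.2.2), fun _ => rfl⟩
  obtain ⟨G, hG⟩ := hex
  have e₂ : s59e_adj 𝒪 aM₂ = Algebra.adjoin 𝒪 (Set.range G) :=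
    s59e_adj_eq_adjoin_of S M₂ hS₂ aM₂ G
      (fun ℓ hℓ h2 hℓS => ⟨⟨ℓ, hℓ, h2, hℓS⟩, hG _⟩) (fun j => ⟨_, (hG j).symm⟩)
  rw [e₂] at hx
  have hcommG : ∀ i j, Commute (G i) (G j) := by
    intro i j
    rw [hG, hG]
    show aM₂ _ * aM₂ _ = aM₂ _ * aM₂ _
    rw [← map_mul, ← map_mul, mul_comm]
  have hgG : ∀ i, s59e_IsLocScalar (G i) (c i.1) := by
    intro i
    rw [hG]
    exact hgen i.1 i.2.1 i.2.2.1 i.2.2.2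
  exact s59e_locScalar_adjoin G hcommG (fun i => c i.1) hgG hx

end Loc

end Fermat.Agent.Lib.S59
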