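/-
PROGRAMME (R2) = S59, plan [C2P] (the field `finP2X`), the ODD level package, file E (helper3, prefix `s59u_c2o_`):
**ABSTRACT AUXILIARIES FOR THE ODD CHAIN INDEX.**

* `s59u_c2o_theta_nc`     : helper6's `s59q_tr_theta` (QTrA) WITHOUT the congruence clause (the transferred Galois half
  `θ₂ := f ∘ θ₁` with its Frobenius polynomials; the congruence `tOf ℓ ≡ a_ℓ` is native at the lower level);
* `s59u_c2o_hecke_hom_ext`: two ring homomorphisms out of an ANEMIC Hecke algebra which agree on the `T_ℓ` are equal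
  (helper7's `s59n_hecke_induction`);
* `s59u_c2o_stb_base`     : the kernel pairs of two adjacent BASE levels are stable under the `q`-package (helper7's
  `s59x_stable_of_mem` at `L`, `L p`, `L q`, `L q p`, all normalising elements `1`; verbatim twin of helper9's `s59m_stb_base`, which
  lives in a file that cannot be imported here);
* `s59u_c2o_hee_top`      : `γ_W · 1 · 1 ∈ Γ_⊤(N')`;
* `s59u_c2o_frobT_of_frobR`: the Frobenius polynomials `charpoly(ρ(Frob_ℓ)).map θ` from those of `ρ ⊗_θ`.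
-/
import Mathlib
import Fermat.Agent.Lib.S59.QTrA
import Fermat.Agent.Lib.S59.NDescPsi
import Fermat.Agent.Lib.S59.NXConcSt
import Fermat.Agent.Lib.S59.FEps7
import Fermat.Agent.Lib.S59.ETWRes

set_option autoImplicit false
set_option linter.unusedSectionVars false
set_option linter.unusedVariables false
set_option linter.style.haveILetI false
set_option maxHeartbeats 1600000
set_option synthInstance.maxHeartbeats 400000

noncomputable section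

namespace Fermat.Agent.Lib.S59

open IsLocalRing Polynomial CuspForm CongruenceSubgroup
open Fermat.Agent.Lib.S29 Fermat.Agent.Lib.S41 Fermat.Agent.Lib.S48
open scoped MatrixGroups

local notation "Qbar" => AlgebraicClosure ℚ
local notation "GQ" => (AlgebraicClosure ℚ ≃ₐ[ℚ] AlgebraicClosure ℚ)

section ThetaNC

variable (M₁ M₂ : ℕ) [NeZero M₁] [NeZero M₂] (S : Finset ℕ)
  {𝒪 : Type} [CommRing 𝒪] [IsDomain 𝒪] [IsDiscreteValuationRing 𝒪]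
  [IsAdicComplete (maximalIdeal 𝒪) 𝒪]
  {Z₁ Z₂ : Type} [AddCommGroup Z₁] [Module 𝒪 Z₁] [Module.Finite 𝒪 Z₁] [Module.Free 𝒪 Z₁]
  [AddCommGroup Z₂] [Module 𝒪 Z₂] [Module.Finite 𝒪 Z₂] [Module.Free 𝒪 Z₂] [Nontrivial Z₂]

/-- **[TRANSFER], the Galois half, without the congruence clause.** -/
theorem s59u_c2o_theta_nc (hS₁ : ∀ q : ℕ, q.Prime → q ∣ M₁ → q ∈ S)
    (hS₂ : ∀ q : ℕ, q.Prime → q ∣ M₂ → q ∈ S)
    (aM₁ : heckeAlgebra M₁ 2 (↑S : Set ℕ) →+* Module.End 𝒪 Z₁)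
    (aM₂ : heckeAlgebra M₂ 2 (↑S : Set ℕ) →+* Module.End 𝒪 Z₂)
    [IsLocalRing (s59e_adj 𝒪 aM₁)]
    (r : Z₂ →ₗ[𝒪] Z₁) (hr : Function.Injective r)
    (hrT : ∀ (ℓ : ℕ) (hℓ : ℓ.Prime) (h₁ : ¬ ℓ ∣ M₁) (h₂ : ¬ ℓ ∣ M₂) (hℓS : ℓ ∉ (↑S : Set ℕ)) z,
      r (aM₂ (heckeAlgebra.T hℓ h₂ hℓS) z) = aM₁ (heckeAlgebra.T hℓ h₁ hℓS) (r z))
    {ρbar : ResidualGaloisRep (ResidueField 𝒪)}
    {𝒟 : ∀ ⦃A : Type⦄ [CommRing A] [IsLocalRing A] [Algebra 𝒪 A], GaloisRepAdic A → Prop}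
    (DQ : GaloisRep.DeformationRingData 𝒪 ρbar 𝒟)
    (θ₁ : DQ.R →ₐ[𝒪] s59e_adj 𝒪 aM₁) (hθ₁ : Function.Surjective θ₁)
    (hfrobT₁ : ∀ ℓ : ℕ, ℓ.Prime → ℓ ∉ S →
      ∀ A' : ValuationSubring Qbar, A'.LiesOverPrime ℓ →
      ∀ τ : GQ, A'.IsFrobeniusAt τ ℓ →
        (LinearMap.charpoly (DQ.ρ.ρ τ)).map (θ₁ : DQ.R →+* s59e_adj 𝒪 aM₁) =
          X ^ 2 - C (s59e_tOf (↑S : Set ℕ) aM₁ ℓ) * X + C ((ℓ : s59e_adj 𝒪 aM₁))) :
    ∃ (f : s59e_adj 𝒪 aM₁ →ₐ[𝒪] s59e_adj 𝒪 aM₂) (_ : IsLocalRing (s59e_adj 𝒪 aM₂))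
      (θ₂ : DQ.R →ₐ[𝒪] s59e_adj 𝒪 aM₂),
      Function.Surjective f ∧
      (∀ (t : s59e_adj 𝒪 aM₁) (z : Z₂),
        r (((f t : s59e_adj 𝒪 aM₂) : Module.End 𝒪 Z₂) z) = (t : Module.End 𝒪 Z₁) (r z)) ∧
      (∀ ℓ : ℕ, ℓ.Prime → ℓ ∉ S →
        f (s59e_tOf (↑S : Set ℕ) aM₁ ℓ) = s59e_tOf (↑S : Set ℕ) aM₂ ℓ) ∧
      (∀ x, θ₂ x = f (θ₁ x)) ∧
      Function.Surjective θ₂ ∧
      (∀ ℓ : ℕ, ℓ.Prime → ℓ ∉ S →
        ∀ A' : ValuationSubring Qbar, A'.LiesOverPrime ℓ →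
        ∀ τ : GQ, A'.IsFrobeniusAt τ ℓ →
          (LinearMap.charpoly (DQ.ρ.ρ τ)).map (θ₂ : DQ.R →+* s59e_adj 𝒪 aM₂) =
            X ^ 2 - C (s59e_tOf (↑S : Set ℕ) aM₂ ℓ) * X + C ((ℓ : s59e_adj 𝒪 aM₂))) := by
  classical
  obtain ⟨f, hfs, hfr, hfT⟩ := s59q_tr_hom_tOf M₁ M₂ S hS₁ hS₂ aM₁ aM₂ r hr hrT
  haveI : Nontrivial (s59e_adj 𝒪 aM₂) := s59q_tr_adj_nontrivial aM₂
  have hloc₂ : IsLocalRing (s59e_adj 𝒪 aM₂) :=
    IsLocalRing.of_surjective' (f : s59e_adj 𝒪 aM₁ →+* s59e_adj 𝒪 aM₂) hfs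
  haveI := hloc₂
  refine ⟨f, hloc₂, f.comp θ₁, hfs, hfr, hfT, fun x => rfl, hfs.comp hθ₁, ?_⟩
  intro ℓ hℓ hℓS A' hA' τ hτ
  have h1 : ((f.comp θ₁ : DQ.R →ₐ[𝒪] s59e_adj 𝒪 aM₂) : DQ.R →+* s59e_adj 𝒪 aM₂) =
      (f : s59e_adj 𝒪 aM₁ →+* s59e_adj 𝒪 aM₂).comp (θ₁ : DQ.R →+* s59e_adj 𝒪 aM₁) := rfl
  rw [h1, ← Polynomial.map_map, hfrobT₁ ℓ hℓ hℓS A' hA' τ hτ]
  simp only [Polynomial.map_add, Polynomial.map_sub, Polynomial.map_mul, Polynomial.map_pow,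
    Polynomial.map_X, Polynomial.map_C]
  rw [map_natCast]
  congr 3
  exact congrArg C (hfT ℓ hℓ hℓS)

end ThetaNC

section HeckeExt

variable {M' : ℕ} [NeZero M'] {k : ℤ} {S : Set ℕ} {E : Type*} [Ring E]

/-- **two ring homomorphisms out of an anemic Hecke algebra which agree on the `T_ℓ` are equal.** -/
theorem s59u_c2o_hecke_hom_ext (hS : ∀ q : ℕ, q.Prime → q ∣ M' → q ∈ S)
    (f g : heckeAlgebra M' k S →+* E)
    (h : ∀ (ℓ : ℕ) (hℓ : ℓ.Prime) (hℓN : ¬ ℓ ∣ M') (hℓS : ℓ ∉ S),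
      f (heckeAlgebra.T hℓ hℓN hℓS) = g (heckeAlgebra.T hℓ hℓN hℓS)) : f = g :=
  RingHom.ext fun t =>
    s59n_hecke_induction hS (RingHom.id (heckeAlgebra M' k S)) (fun t => f t = g t)
      (fun n => (map_intCast f n).trans (map_intCast g n).symm)
      (fun x y hx hy => by rw [map_add, map_add, hx, hy])
      (fun x y hx hy => by rw [map_mul, map_mul, hx, hy]) h t

end HeckeExt

section Top

variable {L q : ℕ} [NeZero L] [hq : Fact q.Prime] (hqL : ¬ q ∣ L) {N' : ℕ} [NeZero N'] (hN' : N' = L * q)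

include hN' in
/-- `γ_W · 1 · 1 ∈ Γ_⊤(N')`. -/
theorem s59u_c2o_hee_top :
    s59f_gW hqL * 1 * 1 ∈ s48h_GammaH N' (⊤ : Subgroup (ZMod N')ˣ) := by
  subst hN'
  have he1 : (1 : SL(2, ℤ)) ∈ Gamma0 (L * q) := one_mem _
  exact (s59t_mem_GammaH_iff_unit (H := (⊤ : Subgroup (ZMod (L * q))ˣ))
    ⟨_, mul_mem (mul_mem (s59f_gW_mem hqL) he1) he1⟩).mpr (Subgroup.mem_top _)

end Top

section StbBase

/-- **the kernel pairs of two adjacent base levels are stable under the `q`-package** (helper7's `s59x_stable_of_mem` at the levels `L`,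
`L p`, `N_q = L q`, `N_q p`, all normalising elements `1`). -/
theorem s59u_c2o_stb_base {L p q Nq : ℕ} [NeZero L] [NeZero Nq] [NeZero (L * p)] [NeZero (Nq * p)] [hp : Fact p.Prime]
    [hq : Fact q.Prime] (hpL : ¬ p ∣ L) (hqL : ¬ q ∣ L) (hpNq : ¬ p ∣ Nq) (hNq : Nq = L * q) (hN : Nq * p = L * p * q)
    (R : Type*) [CommRing R]
    (he1 : (1 : SL(2, ℤ)) ∈ Gamma0 (L * p))
    (hee1 : s59f_gW hpL * 1 * 1 ∈ s48h_GammaH (L * p) (⊤ : Subgroup (ZMod (L * p))ˣ))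
    (he1' : (1 : SL(2, ℤ)) ∈ Gamma0 (Nq * p))
    (hee1' : s59f_gW hpNq * 1 * 1 ∈ s48h_GammaH (Nq * p) (⊤ : Subgroup (ZMod (Nq * p))ˣ))
    {εL : Module.End R (s48h_Hpar R (s48h_GammaH L (⊤ : Subgroup (ZMod L)ˣ)) R)}
    {εp : Module.End R (s48h_Hpar R (s48h_GammaH (L * p) (⊤ : Subgroup (ZMod (L * p))ˣ)) R)}
    {εq : Module.End R (s48h_Hpar R (s48h_GammaH Nq (⊤ : Subgroup (ZMod Nq)ˣ)) R)}
    {εpq : Module.End R (s48h_Hpar R (s48h_GammaH (Nq * p) (⊤ : Subgroup (ZMod (Nq * p))ˣ)) R)}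
    (hcp₁ : (s59f_oldN hpL rfl (s59f_isG'_top hpL) R R 1 he1 hee1).Compat εL εp)
    (hcp₂ : (s59f_oldN hpNq rfl (s59f_isG'_top hpNq) R R 1 he1' hee1').Compat εq εpq)
    (P₁ : Module.End R (s59t_part εp)) (P₂ : Module.End R (s59t_part εpq))
    (hmem₁ : ∀ x : s59t_part εp, x ∈ s59t_part P₁ ↔
      ((s59f_oldN hpL rfl (s59f_isG'_top hpL) R R 1 he1 hee1).restrict hcp₁).corA x = 0 ∧
      ((s59f_oldN hpL rfl (s59f_isG'_top hpL) R R 1 he1 hee1).restrict hcp₁).corB x = 0)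
    (hmem₂ : ∀ x : s59t_part εpq, x ∈ s59t_part P₂ ↔
      ((s59f_oldN hpNq rfl (s59f_isG'_top hpNq) R R 1 he1' hee1').restrict hcp₂).corA x = 0 ∧
      ((s59f_oldN hpNq rfl (s59f_isG'_top hpNq) R R 1 he1' hee1').restrict hcp₂).corB x = 0)
    (hqN : ¬ q ∣ L * p)
    (hG'b : s59f_IsG' (L * p) q (⊤ : Subgroup (ZMod (L * p))ˣ) (s48h_GammaH (Nq * p) (⊤ : Subgroup (ZMod (Nq * p))ˣ)))
    (he1q : (1 : SL(2, ℤ)) ∈ Gamma0 (Nq * p))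
    (hee1q : s59f_gW hqN * 1 * 1 ∈ s48h_GammaH (Nq * p) (⊤ : Subgroup (ZMod (Nq * p))ˣ))
    (hcb : (s59f_oldN hqN hN hG'b R R 1 he1q hee1q).Compat εp εpq) :
    s59x_OldStable ((s59f_oldN hqN hN hG'b R R 1 he1q hee1q).restrict hcb) (LinearMap.range P₁) (LinearMap.range P₂) := by
  subst hNq
  have heq1 : (1 : SL(2, ℤ)) ∈ Gamma0 (L * q) := one_mem _
  have heeq : s59f_gW hqL * 1 * 1 ∈ s48h_GammaH (L * q) (⊤ : Subgroup (ZMod (L * q))ˣ) :=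
    s59u_c2o_hee_top hqL rfl
  exact s59x_stable_of_mem hpL hqL hpNq hqN rfl rfl rfl hN (s59f_isG'_top hpL) (s59f_isG'_top hqL) (s59f_isG'_top hpNq)
    hG'b R 1 he1 he1' hee1 hee1' 1 heq1 he1q heeq hee1q hcp₁ hcp₂ hcb P₁ P₂ hmem₁ hmem₂

end StbBase

section Frob

variable {A : Type} [CommRing A] [IsLocalRing A] {T : Type} [CommRing T] [IsLocalRing T]

/-- the Frobenius polynomial `charpoly(ρ(g)).map θ` from that of `ρ ⊗_θ T`. -/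
theorem s59u_c2o_frobT_of_frobR (θ : A →+* T) (hθl : IsLocalHom θ) (ρ : GaloisRepAdic A) (g : GQ) (P : T[X])
    (h : LinearMap.charpoly ((ρ.baseChangeAlong θ hθl).ρ g) = P) :
    (LinearMap.charpoly (ρ.ρ g)).map θ = P :=
  (s59e_bc_charpoly θ hθl ρ g).symm.trans h

end Frob

end Fermat.Agent.Lib.S59

end
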