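/-
PROGRAMME (R2) = S59, plan [C2P] (the field `finP2X`), the ODD level package, file F (helper3, prefix `s59u_c2o_`):
**THE BASE PACKAGE OF THE KERNEL PAIR AT THE ODD BASE LEVEL `(N p, ⊤)` FROM THE BASE PACKAGE AT THE LEVEL `(N q p, ⊤)`** (in [C2P]:
`p = 3`, `q = 2`, `N` odd — `s18_GoodLevel 3 N` FAILS, so helper2's `Internal.s59x_base_pkgZ` is not available at `N`).

* module side: helper2's `Internal.s59b_kerBase_W_mult_up` (B9P4Up.lean; `[P4]` imported from the level `N q`), `s59b_kerBase_P`;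
* Hecke side (Galois-free): helper9's `s59m_hecke_pnew_part` (MOddHecke.lean) at `Q = ∅`, `H' = ⊤`, `e = 0`;
* Galois side: the `q`-old embedding `r : Z(N p) ↪ Z(N q p)` of the kernel pairs (`s59u_c2o_stb_base`, `s59u_c2o_hrT`) and the transfer
  `θ₀ := f ∘ θ₀ᴱ` (`s59u_c2o_theta_nc`); the congruences `T_ℓ ≡ a_ℓ` are native (`s59m_hcong_of_B2`);
* the trace-ring facts: helper7's `s59x_trace_factsZ`.

`Internal.s59u_c2o_base_odd : s59m_BasePkgConcl … Ne … → s59m_BasePkgConcl … N …` for `Ne = N q` (helper9's statement, MKerFinS.lean).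
-/
import Mathlib
import Fermat.Agent.Lib.S59.B9P4Up
import Fermat.Agent.Lib.S59.B9KerBaseW
import Fermat.Agent.Lib.S59.MOddHecke
import Fermat.Agent.Lib.S59.NXTrZ
import Fermat.Agent.Lib.S59.XDefOrd
import Fermat.Agent.Lib.S59.UC2OddA
import Fermat.Agent.Lib.S59.UC2OddE
import Fermat.Agent.Lib.S59.UC2PA
import Fermat.Agent.Lib.S59.MKerFinS
import Fermat.Agent.Lib.S59.MC8B2
import Fermat.Agent.Lib.S59.FEps5
import Fermat.Agent.Lib.S59.ELPkg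
import Fermat.Agent.Lib.S59.UBaseMod
import Fermat.Agent.Lib.S59.BBaseH

set_option autoImplicit false
set_option linter.unusedSectionVars false
set_option linter.unusedVariables false
set_option linter.style.haveILetI false
set_option maxHeartbeats 0
set_option synthInstance.maxHeartbeats 400000
set_option maxSynthPendingDepth 3

noncomputable section

namespace Fermat.Agent.Lib.S59

open IsLocalRing CuspForm Polynomial ExtCitation CongruenceSubgroup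
open WeierstrassCurve WeierstrassCurve.Affine WeierstrassCurve.Affine.Point
open Fermat.Agent.Lib.S48 Fermat.Agent.Lib.S44 Fermat.Agent.Lib.S18
open scoped MatrixGroups

local notation "Γℚ" => (AlgebraicClosure ℚ ≃ₐ[ℚ] AlgebraicClosure ℚ)

/-- a representation of a trivial group commutes with every scalar action (own copy of helper2's `s59b_smul_rho_subsingleton`,
whose file is not in this closure). -/
theorem s59u_c2o_smul_rho_subsingleton {R : Type*} [CommRing R] {Δ : Type*} [Group Δ] [Subsingleton Δ]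
    {Y : Type*} [AddCommGroup Y] [Module R Y] (ρ : Δ →* Module.End R Y)
    {T : Type*} [SMul T Y] (t : T) (δ : Δ) (y : Y) : t • ρ δ y = ρ δ (t • y) := by
  have hδ : ρ δ = 1 := by rw [Subsingleton.elim δ 1, _root_.map_one]
  rw [hδ, Module.End.one_apply, Module.End.one_apply]

/-- **the base package of the kernel pair at the level `(N p, ⊤)` from the one at `(N q p, ⊤)`.** -/
theorem Internal.s59u_c2o_base_odd (p : ℕ) [Fact p.Prime] (hp2 : p ≠ 2) (W : WeierstrassCurve ℤ) (hΔ : W.Δ ≠ 0)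
    (N : ℕ) [NeZero N] [NeZero (N * p)] (q : ℕ) [Fact q.Prime]
    (Ne : ℕ) [NeZero Ne] [NeZero (Ne * p)] (hNe : Ne = N * q) (B : Finset ℕ)
    (hirr : W.ModRepIsIrreducible p) (hss : W.IsSemistableModel) (hmult : ¬ W.IsGoodPrimeFor p)
    (hsqE : Squarefree (Ne * p)) (hpN : ¬ p ∣ N) (hpNe : ¬ p ∣ Ne) (hqN : ¬ q ∣ N) (hpq : p ≠ q)
    (hgoodE : s18_GoodLevel p Ne) (hp12 : s59e_auxTors p N)
    (hB1E : ∀ r : ℕ, r.Prime → r ∣ Ne * p → r ∈ B)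
    (hB2 : ∀ r : ℕ, r.Prime → ¬ W.IsGoodPrimeFor r → r ∈ B)
    (hocc₁ : s44i_LevelOcc N p (fun ℓ => W.apOfModel ℓ) B)
    (hocc₂ : s44i_LevelOcc (N * p) p (fun ℓ => W.apOfModel ℓ) B)
    (hocc₁E : s44i_LevelOcc Ne p (fun ℓ => W.apOfModel ℓ) B)
    (𝒪 : Type) [CommRing 𝒪] [IsDomain 𝒪] [IsDiscreteValuationRing 𝒪]
    [IsAdicComplete (maximalIdeal 𝒪) 𝒪] [Finite (ResidueField 𝒪)] [CharZero 𝒪]
    [Algebra ℤ_[p] 𝒪] [Module.Finite ℤ_[p] 𝒪]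
    (hp𝒪 : ((p : ℕ) : 𝒪) ∈ maximalIdeal 𝒪)
    (Sg Su : Finset ℕ)
    (D0 : GaloisRep.DeformationRingData 𝒪 (s59i_rhobarW W p hΔ 𝒪 hp𝒪) (fun _A _ _ _ ρ =>
      GaloisRep.strictOrdinaryCondition 𝒪 p Sg ρ ∧
        ∀ q ∈ Su, q.Prime → q ≠ p → ρ.IsUnipotentOnInertiaAt q))
    (hbaseE : s59m_BasePkgConcl p W hΔ Ne B hpNe 𝒪 hp𝒪 Sg Su D0) :
    s59m_BasePkgConcl p W hΔ N B hpN 𝒪 hp𝒪 Sg Su D0 := by
  classical
  subst hNe
  refine Classical.byContradiction fun hcontra => ?_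
  have hpP : p.Prime := Fact.out
  have hqP : q.Prime := Fact.out
  have hB1 : ∀ r : ℕ, r.Prime → r ∣ N * p → r ∈ B := fun r hr h =>
    hB1E r hr (dvd_trans h ⟨q, by ring⟩)
  have hNB : ∀ r : ℕ, r.Prime → r ∣ N → r ∈ B := fun r hr h => hB1 r hr (Dvd.dvd.mul_right h p)
  have hpB : p ∈ B := hB1 p hpP (Dvd.intro_left N rfl)
  have hqB : q ∈ B := hB1E q hqP ⟨N * p, by ring⟩
  have hsq' : Squarefree (N * q) := Squarefree.of_mul_left hsqE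
  have hsqNp : Squarefree (N * p) := Squarefree.squarefree_of_dvd ⟨q, by ring⟩ hsqE
  have habs : (s59i_rhobarW W p hΔ 𝒪 hp𝒪).IsAbsolutelyIrreducible := D0.absIrr
  have he1 : (1 : SL(2, ℤ)) ∈ Gamma0 (N * p) := one_mem _
  have hee1 : s59f_gW hpN * 1 * 1 ∈ s48h_GammaH (N * p) (⊤ : Subgroup (ZMod (N * p))ˣ) :=
    s59u_c2o_hee_top hpN rfl
  -- the module side at the level `N`
  have hk := Internal.s59b_kerBase_W_mult_up W hΔ p hirr hss hmult N (N * p) rfl hsqNp hpN q hqN hpq hsq' hgoodE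
    B hpB hqB hNB hB2 hocc₁ hocc₂ hocc₁E (𝒪 := 𝒪) hp𝒪 hp12 habs (s59f_isG'_top hpN) 1 he1 hee1
  obtain ⟨e₁, e₂, hB₁, hB₂, hcb, hbase, hne⟩ := hk
  unfold s59b_BaseW at hB₁ hB₂
  obtain ⟨h1e₁, -, hid₁, hne₁, hnil₁, hP3₁⟩ := hB₁
  obtain ⟨h1e₂, -, hid₂, hne₂, hnil₂, hP3₂⟩ := hB₂
  obtain ⟨-, hρ₁, d₁, -, b₁, -, -, hb₁, -⟩ := hP3₁
  obtain ⟨-, hρ₂, d₂, -, b₂, -, -, hb₂, -⟩ := hP3₂
  have hkP := s59b_kerBase_P (p := p) (𝒪 := 𝒪) hpN rfl (s59f_isG'_top hpN) 1 he1 hee1 hp𝒪 hρ₁ hρ₂ hcb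
    b₁ hb₁ b₂ hb₂ hbase hne
  obtain ⟨-, hd0, P, hP, hPP, hmem, b, hb⟩ := hkP
  have hd1 : d₁ ≠ 0 := (s59t_part_ne_zero_iff _ b₁ hb₁).1 hne₁
  -- freeness and finiteness
  haveI : Module.Finite 𝒪 (s48h_Hpar 𝒪 (s48h_GammaH (N * p) (⊤ : Subgroup (ZMod (N * p))ˣ)) 𝒪) := s59t_Hpar_finite 𝒪
  haveI : Module.Free 𝒪 (s48h_Hpar 𝒪 (s48h_GammaH (N * p) (⊤ : Subgroup (ZMod (N * p))ˣ)) 𝒪) := s59t_Hpar_free 𝒪
  haveI hfinY : Module.Finite 𝒪 (s59t_part (s59t_E0 (⊤ : Subgroup (ZMod (N * p))ˣ) B e₂)) := s59t_part_finite _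
  haveI hfreeY : Module.Free 𝒪 (s59t_part (s59t_E0 (⊤ : Subgroup (ZMod (N * p))ˣ) B e₂)) := s59t_part_free hid₂
  haveI hfinZ : Module.Finite 𝒪 (s59t_part P) := s59t_part_finite _
  haveI hfreeZ : Module.Free 𝒪 (s59t_part P) := s59t_part_free hPP
  have hPne : P ≠ 0 := (s59t_part_ne_zero_iff _ b hb).2 hd0
  haveI hZnt : Nontrivial (s59t_part P) := s59e_L_range_nontrivial _ hPne
  -- the Hecke ring of the kernel, Galois-free half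
  haveI : Fact (HasIntegralStructure (N * p) 2) := ⟨Fermat.Agent.S23.result _⟩
  have hM0 : N * p = N * p * ∏ q' ∈ (∅ : Finset ℕ), q' := by rw [Finset.prod_empty, mul_one]
  have hMn0 : N * p = N * p * ∏ q' ∈ (∅ : Finset ℕ), q' ^ 2 := by rw [Finset.prod_empty, mul_one]
  have hD0 : (∏ q' ∈ (∅ : Finset ℕ), q') ∣ N * p := by rw [Finset.prod_empty]; exact one_dvd _
  have k1 := s59m_hecke_pnew_part (𝒪 := 𝒪) (B := B) (fun ℓ => W.apOfModel ℓ) hp2 hp𝒪 (N * p) (∅ : Finset ℕ)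
    (fun q' hq' => absurd hq' (Finset.notMem_empty q')) hM0 (⊤ : Subgroup (ZMod (N * p))ˣ) hD0 le_top 0
    (fun u => Subgroup.mem_top _) (N * p) hMn0 B hpB (Finset.Subset.refl B) hB1
    (s59t_E0 (⊤ : Subgroup (ZMod (N * p))ˣ) B e₂) hid₂ (fun x => s59e_E0_comm_op _ B e₂ x) hnil₂
    hpN rfl (s59f_isG'_top hpN) 1 he1 hee1 hcb hPP hmem
  obtain ⟨a₀, ha1₀, ha2₀, aX, haX, hlocA, hTloc⟩ := k1
  -- the upper level
  delta s59m_BasePkgConcl at hbaseE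
  obtain ⟨e₁E, h1e₁E, hid₁E, hnil₁E, hρ₁E, eE, h1eE, hidE, hnilE, hρE, he1E, hee1E, hcbpE, d₁E, d₂E, b₁E, hb₁E, b₂E, hb₂E,
    PE, hPE, hPPE, hmemE, hbaseSE, hd1E, hd0E, a₀E, ha1₀E, aZ₀E, haZ₀E, hlrE, hnoethE, hfinRE, hcomplE, hlhE, hRρE,
    θ₀E, hθ₀E, hθ₀lE, hRresE, hMfinE, hMntE, hfrobRE, hgenRE, hresRE, htypeE, hνE⟩ := hbaseE
  haveI := hlrE
  haveI : Module.Finite 𝒪 (s48h_Hpar 𝒪 (s48h_GammaH (N * q * p) (⊤ : Subgroup (ZMod (N * q * p))ˣ)) 𝒪) := s59t_Hpar_finite 𝒪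
  haveI : Module.Free 𝒪 (s48h_Hpar 𝒪 (s48h_GammaH (N * q * p) (⊤ : Subgroup (ZMod (N * q * p))ˣ)) 𝒪) := s59t_Hpar_free 𝒪
  haveI : Module.Finite 𝒪 (s59t_part (s59t_E0 (⊤ : Subgroup (ZMod (N * q * p))ˣ) B eE)) := s59t_part_finite _
  haveI : Module.Free 𝒪 (s59t_part (s59t_E0 (⊤ : Subgroup (ZMod (N * q * p))ˣ) B eE)) := s59t_part_free hidE
  haveI : Module.Finite 𝒪 (s59t_part PE) := s59t_part_finite _
  haveI : Module.Free 𝒪 (s59t_part PE) := s59t_part_free hPPE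
  -- the `q`-package between the base levels `N p` and `N q p`
  have hqN₂ : ¬ q ∣ N * p := fun h =>
    (Nat.Prime.dvd_mul hqP).mp h |>.elim hqN (fun h' => hpq ((Nat.prime_dvd_prime_iff_eq hqP hpP).mp h').symm)
  have hN2 : N * q * p = N * p * q := by ring
  have hG2b := s59u_c2_isG'_top hqN₂ hN2
  have he1q : (1 : SL(2, ℤ)) ∈ Gamma0 (N * q * p) := one_mem _
  have hee1q : s59f_gW hqN₂ * 1 * 1 ∈ s48h_GammaH (N * q * p) (⊤ : Subgroup (ZMod (N * q * p))ˣ) :=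
    s59u_c2o_hee_top hqN₂ hN2
  have hcb2 := s59f_oldN_compat_E0 hqN₂ hN2 hG2b 1 he1q hee1q B (fun ℓ => W.apOfModel ℓ) hqB
    eE h1eE hidE hnilE e₂ h1e₂ hid₂ hnil₂
  have hstb := s59u_c2o_stb_base hpN hqN hpNe rfl hN2 𝒪 he1 hee1 he1E hee1E hcb hcbpE P PE hmem hmemE
    hqN₂ hG2b he1q hee1q hcb2
  have hLN : N * p ∣ N * q * p := ⟨q, by ring⟩
  -- the transfer of the Galois half
  have hfrobT₀E : ∀ ℓ : ℕ, ℓ.Prime → ℓ ∉ B →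
      ∀ A' : ValuationSubring (AlgebraicClosure ℚ), A'.LiesOverPrime ℓ →
      ∀ τ : Γℚ, A'.IsFrobeniusAt τ ℓ →
        (LinearMap.charpoly (D0.ρ.ρ τ)).map (θ₀E : D0.R →+* s59e_adj 𝒪 aZ₀E) =
          X ^ 2 - C (s59e_tOf (↑B : Set ℕ) aZ₀E ℓ) * X + C ((ℓ : s59e_adj 𝒪 aZ₀E)) :=
    fun ℓ hℓ hℓB A' hA' τ hτ =>
      s59u_c2o_frobT_of_frobR (θ₀E : D0.R →+* s59e_adj 𝒪 aZ₀E) hθ₀lE D0.ρ τ _
        (hfrobRE ℓ hℓ (fun h => hℓB (hB1E ℓ hℓ h)) (fun h => hℓB (Finset.mem_coe.mp h)) A' hA' τ hτ)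
  have htr0 := s59u_c2o_theta_nc (N * q * p) (N * p) B hB1E hB1 aZ₀E aX
    (s59x_oldSub ((s59f_oldN hqN₂ hN2 hG2b 𝒪 𝒪 1 he1q hee1q).restrict hcb2) hstb).resA
    (s59u_c2o_r_injective hqN₂ hN2 hG2b 1 he1q hee1q hcb2 hstb)
    (s59u_c2o_hrT hqN₂ hN2 hG2b 1 he1q hee1q hcb2 hstb hLN B ((p ^ 0 - 1) * ((p ^ 0 + 1) / 2))
      a₀E ha1₀E aZ₀E haZ₀E a₀ ha1₀ aX haX hB1E)
    D0 θ₀E hθ₀E hfrobT₀E
  obtain ⟨f, hlr, θ, hfs, hfr, hfT, hθf, hθ, hfrob⟩ := htr0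
  haveI : IsLocalRing (s59e_adj 𝒪 aX) := hlr
  haveI hlh : IsLocalHom (algebraMap 𝒪 (s59e_adj 𝒪 aX)) := s59e_adj_isLocalHom aX hlocA
  have hnoeth : IsNoetherianRing (s59e_adj 𝒪 aX) := s59e_adj_noeth aX
  have hcompl : IsAdicComplete (maximalIdeal (s59e_adj 𝒪 aX)) (s59e_adj 𝒪 aX) := s59e_adj_complete aX
  haveI hfinR : Module.Finite 𝒪 (s59e_adj 𝒪 aX) := s59e_adj_finite aX
  have hcong : ∀ ℓ : ℕ, ℓ.Prime → ℓ ∉ B →
      s59e_tOf (↑B : Set ℕ) aX ℓ - algebraMap 𝒪 (s59e_adj 𝒪 aX) (((W.apOfModel ℓ : ℤ) : 𝒪)) ∈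
        maximalIdeal (s59e_adj 𝒪 aX) := fun ℓ hℓ hℓB =>
    s59m_hcong_of_B2 B hB1 aX (fun ℓ => W.apOfModel ℓ) (fun ℓ hℓ hℓS hℓN => hTloc ℓ hℓ hℓN hℓS) ℓ hℓ hℓB
  -- the trace ring facts
  have htr := s59x_trace_factsZ p hp2 W hΔ B hirr hpB hB2 𝒪 hp𝒪 (s59x_locCond_ord p hp2) Sg Su D0
    (Y := s59t_part P) aX hlocA θ hθ B (Finset.Subset.refl B) (s59e_tOf (↑B : Set ℕ) aX) hfrob hcong
  obtain ⟨hlh', hθl, hnoeth', hcompl', hRres, hresR, htype⟩ := htr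
  -- the diamonds at `⊤` are trivial
  have hRρ : ∀ (t : (s59e_adj 𝒪 aX)) (δ : (s59t_Delta (N * p) (⊤ : Subgroup (ZMod (N * p))ˣ))) (y : s59t_part P),
      t • (s59t_partRep (s59t_partRep (s59t_rho (N * p) (⊤ : Subgroup (ZMod (N * p))ˣ) 𝒪 𝒪) hρ₂) hP) δ y = (s59t_partRep (s59t_partRep (s59t_rho (N * p) (⊤ : Subgroup (ZMod (N * p))ˣ) 𝒪 𝒪) hρ₂) hP) δ (t • y) := by
    intro t δ y
    exact s59u_c2o_smul_rho_subsingleton _ t δ y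
  have hMnt := s59u_EigT_top_nontrivial _ b hb hd0 (1 : (s59t_Delta (N * p) (⊤ : Subgroup (ZMod (N * p))ˣ)) →* 𝒪ˣ) hRρ
  have hMfin : Module.Finite (s59e_adj 𝒪 aX) (s59t_EigT (s59t_partRep (s59t_partRep (s59t_rho (N * p) (⊤ : Subgroup (ZMod (N * p))ˣ) 𝒪 𝒪) hρ₂) hP) ⊤ (1 : (s59t_Delta (N * p) (⊤ : Subgroup (ZMod (N * p))ˣ)) →* 𝒪ˣ) hRρ) := by
    haveI : IsNoetherian 𝒪 (s59t_part P) := isNoetherian_of_isNoetherianRing_of_finite 𝒪 _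
    haveI : Module.Finite 𝒪 (s59t_EigT (s59t_partRep (s59t_partRep (s59t_rho (N * p) (⊤ : Subgroup (ZMod (N * p))ˣ) 𝒪 𝒪) hρ₂) hP) ⊤ (1 : (s59t_Delta (N * p) (⊤ : Subgroup (ZMod (N * p))ˣ)) →* 𝒪ˣ) hRρ) :=
      Module.Finite.of_injective (s59t_EigT_val _ ⊤ _ hRρ) (s59t_EigT_val_injective _ ⊤ _ hRρ)
    exact Module.Finite.of_restrictScalars_finite 𝒪 _ _
  have hfrobR : ∀ (ℓ : ℕ), ℓ.Prime → ¬ ℓ ∣ (N * p) → ℓ ∉ (↑B : Set ℕ) →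
      ∀ A : ValuationSubring (AlgebraicClosure ℚ), A.LiesOverPrime ℓ →
      ∀ g : Γℚ, A.IsFrobeniusAt g ℓ →
        LinearMap.charpoly ((D0.ρ.baseChangeAlong (θ : D0.R →+* (s59e_adj 𝒪 aX)) hθl).ρ g) =
          Polynomial.X ^ 2 - Polynomial.C (s59e_tOf (↑B : Set ℕ) aX ℓ) * Polynomial.X +
            Polynomial.C ((ℓ : (s59e_adj 𝒪 aX))) := fun ℓ hℓ hℓN hℓB A hA g hg =>
    (s59e_bc_charpoly (θ : D0.R →+* (s59e_adj 𝒪 aX)) hθl D0.ρ g).trans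
      (hfrob ℓ hℓ (fun h => hℓB (Finset.mem_coe.mpr h)) A hA g hg)
  have hgenR : Algebra.adjoin 𝒪 {x : (s59e_adj 𝒪 aX) | ∃ ℓ : ℕ, ℓ.Prime ∧ ¬ ℓ ∣ (N * p) ∧
      ℓ ∉ (↑B : Set ℕ) ∧ x = s59e_tOf (↑B : Set ℕ) aX ℓ} = ⊤ :=
    s59b_adjoin_tOf B hB1 aX (N * p) (dvd_refl (N * p))
  refine hcontra ?_
  delta s59m_BasePkgConcl
  exact ⟨e₁, h1e₁, hid₁, hnil₁, hρ₁, e₂, h1e₂, hid₂, hnil₂, hρ₂, he1, hee1, hcb, d₁, d₂, b₁, hb₁, b₂, hb₂,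
    P, hP, hPP, hmem, hbase, hd1, hd0, a₀, ha1₀, aX, haX, hlr, hnoeth, hfinR, hcompl, hlh,
    hRρ, θ, hθ, hθl, hRres, hMfin, hMnt, hfrobR, hgenR, hresR, htype,
    fun g => (s59e_cpTr_map (θ : D0.R →+* (s59e_adj 𝒪 aX)) hθl D0.ρ g).symm⟩

export Internal (s59u_c2o_base_odd)

end Fermat.Agent.Lib.S59

end
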