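/-
PROGRAMME (R2) = S59, plan [C2P] (the field `liftC2p`), leaf [TRANSFER], file B (helper6, prefix `s59q_tr_`):
**[C8] ON A HECKE MODULE OF AN ODD LEVEL, FROM THE EVEN AMBIENT LEVEL (`p = 3`).**

Setting: `M` an EVEN level with `H ≤ (ℤ/M)ˣ`; `Z₁` = a Hecke-stable submodule of `H_par(Γ_H(M), 𝒪)` (`j₁ : Z₁ ↪ H_par`; in [C2P] the
`3`-kernel part of the level `6 L r Q`) with its Hecke ring `aM₁ : 𝕋(M₁) → End Z₁` and Galois half `θ₁ hθ₁ hfrobT₁ hcong₁`;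
`Y'` = a Hecke module of an ODD level with Hecke ring `aM₂ : 𝕋(M₂) → End Y'` (a DIFFERENT abstract Hecke algebra), embedded by
`r : Y' ↪ Z₁` (the `2`-old embedding) compatibly with the anemic generators of level `M` (`opY`, `hopY`) and with the `T_ℓ` (`hrT`);
`θ₂ : DQ.R → 𝒪[aM₂]` the transferred homomorphism (`s59q_tr_theta`), characterised by `r ∘ θ₂(x) = θ₁(x) ∘ r`.

* `s59q_tr_pull`    : the pull-back of a ring action along an injective linear map with stable image;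
* `s59q_tr_ann_iff` : membership of `Ann_T (Y'[C = χ])` elementwise, for `T = 𝒪[aM, ρ'(B_Q)]`;
* **`s59q_tr_hC8`** : the conclusion of helper5's `s59e3e_L_hC8_TPkg` (the hypothesis `hC8` of `s59e_TLevelL_ring` /
  `s59efl_ringRec`) for `(Y', aM₂, θ₂)`: the geometric chain is applied to `(Y', j₁ ∘ r)` inside the EVEN level with the pulled-back
  action of the even Hecke algebra, and the result is transported to `𝒪[aM₂]` elementwise.  No geometric input at the odd level.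
-/
import Mathlib
import Fermat.Agent.Lib.S59.QTrA
import Fermat.Agent.Lib.S59.E3LC8b
import Fermat.Agent.Lib.S59.ERing2

set_option autoImplicit false
set_option linter.unusedSectionVars false
set_option linter.unusedVariables false
set_option linter.style.haveILetI false
set_option maxHeartbeats 4000000
set_option synthInstance.maxHeartbeats 400000
set_option maxSynthPendingDepth 3

noncomputable section

namespace Fermat.Agent.Lib.S59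

open Fermat.Agent.Lib.S29 Fermat.Agent.Lib.S30 Fermat.Agent.Lib.S48 Fermat.Agent.Lib.PT
open WeierstrassCurve WeierstrassCurve.Affine IsLocalRing TensorProduct Polynomial CuspForm
open CongruenceSubgroup ModularCurve.Period
open scoped MatrixGroups

local notation "Qbar" => AlgebraicClosure ℚ
local notation "GQ" => (AlgebraicClosure ℚ ≃ₐ[ℚ] AlgebraicClosure ℚ)

/-! ### The pull-back of a ring action -/

section Pull

variable {𝒪 : Type*} [CommRing 𝒪] {Z Y : Type*} [AddCommGroup Z] [Module 𝒪 Z]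
  [AddCommGroup Y] [Module 𝒪 Y] {A : Type*} [Ring A]

/-- **the pull-back of a ring action along an injective linear map with stable image.** -/
theorem s59q_tr_pull (φ : A →+* Module.End 𝒪 Z) (ι : Y →ₗ[𝒪] Z) (hι : Function.Injective ι)
    (hst : ∀ t y, ∃ y', ι y' = φ t (ι y)) :
    ∃ φ' : A →+* Module.End 𝒪 Y, ∀ t y, ι (φ' t y) = φ t (ι y) := by
  classical
  choose g hg using hst
  have hlin : ∀ t, ∃ L : Module.End 𝒪 Y, ∀ y, L y = g t y := by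
    intro t
    refine ⟨{ toFun := g t
              map_add' := fun y y' => hι (by rw [hg, map_add, map_add, map_add, hg, hg])
              map_smul' := fun c y => hι (by
                rw [hg, map_smul, map_smul, RingHom.id_apply, map_smul, hg]) }, fun _ => rfl⟩
  choose L hL using hlin
  have hLg : ∀ t y, ι (L t y) = φ t (ι y) := fun t y => by rw [hL, hg]
  refine ⟨{ toFun := L
            map_one' := LinearMap.ext fun y => hι (by rw [hLg, map_one]; rfl)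
            map_mul' := fun s t => LinearMap.ext fun y => hι (by
              rw [hLg, map_mul, Module.End.mul_apply, Module.End.mul_apply, hLg, hLg])
            map_zero' := LinearMap.ext fun y => hι (by
              rw [hLg, map_zero, LinearMap.zero_apply, LinearMap.zero_apply, map_zero])
            map_add' := fun s t => LinearMap.ext fun y => hι (by
              rw [hLg, map_add, LinearMap.add_apply, LinearMap.add_apply, map_add, hLg, hLg]) },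
    hLg⟩

end Pull

/-! ### The annihilator of the eigen-part, elementwise -/

section Ann

variable {𝒪 : Type*} [CommRing 𝒪] {Y' : Type*} [AddCommGroup Y'] [Module 𝒪 Y']
  {A : Type*} [CommRing A] (aM : A →+* Module.End 𝒪 Y')
  {Δ' : Type*} [CommGroup Δ'] [Fintype Δ'] (ρ' : Δ' →* Module.End 𝒪 Y')
  (Bq Cs : Subgroup Δ') (χ' : Δ' →* 𝒪ˣ)
  (hcomm : ∀ (t : A) (β : Bq), Commute (aM t) ((ρ'.comp Bq.subtype) β))
  (hTρ : ∀ (t : s59e_adj 𝒪 (s59e_aB aM (ρ'.comp Bq.subtype) hcomm)) (δ : Δ') (y : Y'),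
    t • ρ' δ y = ρ' δ (t • y))

/-- **membership of the annihilator of `Y'[C = χ]`, elementwise.** -/
theorem s59q_tr_ann_iff (t : s59e_adj 𝒪 (s59e_aB aM (ρ'.comp Bq.subtype) hcomm)) :
    t ∈ Module.annihilator (s59e_adj 𝒪 (s59e_aB aM (ρ'.comp Bq.subtype) hcomm))
        (s59t_EigT (T := s59e_adj 𝒪 (s59e_aB aM (ρ'.comp Bq.subtype) hcomm)) ρ' Cs χ' hTρ) ↔
      ∀ y ∈ s59t_eig ρ' Cs χ', (t : Module.End 𝒪 Y') y = 0 := by
  rw [Module.mem_annihilator]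
  constructor
  · intro h y hy
    have h1 := h (s59t_EigT_mk ρ' Cs χ' hTρ y hy)
    have h2 := congrArg (s59t_EigT_val ρ' Cs χ' hTρ) h1
    rw [s59t_EigT_val_smul, s59t_EigT_val_mk, map_zero] at h2
    exact h2
  · intro h e
    apply s59t_EigT_val_injective ρ' Cs χ' hTρ
    rw [s59t_EigT_val_smul, map_zero]
    exact h _ (s59t_EigT_val_mem ρ' Cs χ' hTρ e)

end Ann

/-! ### [C8] at the odd level -/

section C8

variable {M : ℕ} [NeZero M] (H : Subgroup (ZMod M)ˣ)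
  {𝒪 : Type} [CommRing 𝒪] [IsDomain 𝒪] [IsDiscreteValuationRing 𝒪]
  [IsAdicComplete (maximalIdeal 𝒪) 𝒪] [Finite (ResidueField 𝒪)] [CharZero 𝒪]
  -- the Hecke module of the even level
  {Z₁ : Type} [AddCommGroup Z₁] [Module 𝒪 Z₁] [Module.Finite 𝒪 Z₁] [Module.Free 𝒪 Z₁]
  (j₁ : Z₁ →ₗ[𝒪] s48h_Hpar 𝒪 (s48h_GammaH M H) 𝒪) (hj₁ : Function.Injective j₁)
  (M₁ : ℕ) [NeZero M₁] (S : Finset ℕ) (hS₁ : ∀ q : ℕ, q.Prime → q ∣ M₁ → q ∈ S)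
  (a : heckeAlgebra M₁ 2 (↑S : Set ℕ) →+* Module.End 𝒪 (s48h_Hpar 𝒪 (s48h_GammaH M H) 𝒪)) (k : ℕ)
  (ha : ∀ t, a t ∈ Subring.closure (Set.range (s59e_Tp' H 𝒪 k)))
  (ha1 : ∀ (ℓ : ℕ) (hℓ : ℓ.Prime) (hℓN : ¬ ℓ ∣ M₁) (hℓS : ℓ ∉ (↑S : Set ℕ)) (i : s59w_TIdx M),
    i.ell = ℓ → a (heckeAlgebra.T hℓ hℓN hℓS) = s59e_Tp' H 𝒪 k i)
  (aM₁ : heckeAlgebra M₁ 2 (↑S : Set ℕ) →+* Module.End 𝒪 Z₁)
  (haM₁ : ∀ t (z : Z₁), j₁ (aM₁ t z) = a t (j₁ z))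
  -- the Hecke module of the odd level
  {Y' : Type} [AddCommGroup Y'] [Module 𝒪 Y'] [Module.Finite 𝒪 Y'] [Module.Free 𝒪 Y'] [Nontrivial Y']
  (r : Y' →ₗ[𝒪] Z₁) (hr : Function.Injective r)
  (opY : s59w_AIdx M → Module.End 𝒪 Y')
  (hopY : ∀ jdx y, j₁ (r (opY jdx y)) = s59w_op H 𝒪 jdx (j₁ (r y)))
  (M₂ : ℕ) [NeZero M₂]
  (aM₂ : heckeAlgebra M₂ 2 (↑S : Set ℕ) →+* Module.End 𝒪 Y')
  {Δ' : Type} [CommGroup Δ'] [Fintype Δ'] (ρ' : Δ' →* Module.End 𝒪 Y')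
  (hρ' : ∀ δ, ∃ τ : Gamma0 M, ρ' δ = opY (Sum.inr τ))
  (Bq Cs : Subgroup Δ') (χ' : Δ' →* 𝒪ˣ)
  (hcomm₂ : ∀ (t : heckeAlgebra M₂ 2 (↑S : Set ℕ)) (β : Bq),
    Commute (aM₂ t) ((ρ'.comp Bq.subtype) β))

include hj₁ hS₁ ha ha1 haM₁ hr hopY hρ' in
/-- **[TRANSFER], [C8] at the odd level.** -/
theorem s59q_tr_hC8 [IsLocalRing (s59e_adj 𝒪 aM₁)]
    (hTρ₂ : ∀ (t : s59e_adj 𝒪 (s59e_aB aM₂ (ρ'.comp Bq.subtype) hcomm₂)) (δ : Δ') (y : Y'),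
      t • ρ' δ y = ρ' δ (t • y))
    -- the curve
    (p : ℕ) [hpP : Fact p.Prime] (hp2 : p ≠ 2) (W : WeierstrassCurve ℤ) (hΔ : W.Δ ≠ 0)
    (hirr : W.ModRepIsIrreducible p)
    (B : Finset ℕ) (hpB : p ∈ B)
    (hB2 : ∀ r : ℕ, r.Prime → ¬ W.IsGoodPrimeFor r → r ∈ B)
    -- the numerology of the EVEN level
    (N : ℕ) [NeZero N] (Q : Finset ℕ)
    (hMeq : M = N * ∏ q ∈ Q, q) (hQ : ∀ q ∈ Q, q.Prime ∧ ¬ q ∣ N)
    {D : ℕ} (hDQ : D = ∏ q ∈ Q, q) (hD : D ∣ M) (hH : s59u_ker M D hD ≤ H)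
    (hsq : Squarefree M) (h23 : 2 ∣ M) (hneg : (-1 : (ZMod M)ˣ) ∈ H)
    {e m : ℕ} (hnm : 2 * m = p ^ e + 1) (hn : ∀ u : (ZMod M)ˣ, u ^ (p ^ e) ∈ H)
    (hk : k = (p ^ e - 1) * m)
    [Algebra ℤ_[p] 𝒪] [Module.Finite ℤ_[p] 𝒪]
    (hp𝒪 : ((p : ℕ) : 𝒪) ∈ maximalIdeal 𝒪)
    (hBS : B ⊆ S) (hMS : ∀ r : ℕ, r.Prime → r ∣ M → r ∈ S)
    -- the Galois half of the even module, and the transferred homomorphism
    {𝒟 : ∀ ⦃A : Type⦄ [CommRing A] [IsLocalRing A] [Algebra 𝒪 A], GaloisRepAdic A → Prop}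
    (DQ : GaloisRep.DeformationRingData 𝒪 (s59i_rhobarW W p hΔ 𝒪 hp𝒪) 𝒟)
    (θ₁ : DQ.R →ₐ[𝒪] s59e_adj 𝒪 aM₁) (hθ₁ : Function.Surjective θ₁)
    (hfrobT₁ : ∀ ℓ : ℕ, ℓ.Prime → ℓ ∉ S →
      ∀ A' : ValuationSubring Qbar, A'.LiesOverPrime ℓ →
      ∀ τ : GQ, A'.IsFrobeniusAt τ ℓ →
        (LinearMap.charpoly (DQ.ρ.ρ τ)).map (θ₁ : DQ.R →+* s59e_adj 𝒪 aM₁) =
          X ^ 2 - C (s59e_tOf (↑S : Set ℕ) aM₁ ℓ) * X + C ((ℓ : s59e_adj 𝒪 aM₁)))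
    (hcong₁ : ∀ ℓ : ℕ, ℓ.Prime → ℓ ∉ S →
      s59e_tOf (↑S : Set ℕ) aM₁ ℓ - algebraMap 𝒪 (s59e_adj 𝒪 aM₁) ((W.apOfModel ℓ : ℤ) : 𝒪) ∈
        maximalIdeal (s59e_adj 𝒪 aM₁))
    (θ₂ : DQ.R →ₐ[𝒪] s59e_adj 𝒪 aM₂)
    (hθ₂ : ∀ x z, r (((θ₂ x : s59e_adj 𝒪 aM₂) : Module.End 𝒪 Y') z) =
      ((θ₁ x : s59e_adj 𝒪 aM₁) : Module.End 𝒪 Z₁) (r z))
    -- the Taylor–Wiles primes
    (n : ℕ) {rk : ℕ} (qv : Fin rk → ℕ)
    (hqv : ∀ i, (qv i).Prime ∧ qv i ∉ B ∧ p ^ (n + 1) ∣ qv i - 1)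
    (hqvQ : ∀ i, qv i ∈ Q)
    (hTW : ∀ i, ∀ A : ValuationSubring (AlgebraicClosure ℚ), A.LiesOverPrime (qv i) →
      ∀ φ : GQ, A.IsFrobeniusAt φ (qv i) →
        ∃ α β : ResidueField 𝒪, α ≠ β ∧
          LinearMap.charpoly ((s59i_rhobarW W p hΔ 𝒪 hp𝒪).ρ φ) = (X - C α) * (X - C β))
    (g : Fin rk → Bq)
    (hgl : ∀ i, ∃ (τ₀ : Gamma0 M) (L₀ : ℕ) (hL₀ : M = L₀ * qv i),
      ρ' ((s59t_hh p n g i : Bq) : Δ') = opY (Sum.inr τ₀) ∧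
      ZMod.unitsMap (hL₀ ▸ Dvd.intro (qv i) rfl : L₀ ∣ M) (s59w_lrUnit τ₀) = 1) :
    letI := s59e_algTT (𝒪 := 𝒪) aM₂ (ρ'.comp Bq.subtype) hcomm₂
    ∀ i, ∃ σ₀ : GQ,
      (∃ A : ValuationSubring Qbar, A.LiesOverPrime (qv i) ∧ σ₀ ∈ A.inertiaSubgroupIn ℚ) ∧
      ((s59e_dia (𝒪 := 𝒪) aM₂ (ρ'.comp Bq.subtype) hcomm₂ (s59t_hh p n g i) :
          s59e_adj 𝒪 (s59e_aB aM₂ (ρ'.comp Bq.subtype) hcomm₂)) -
        (s59e_dia (𝒪 := 𝒪) aM₂ (ρ'.comp Bq.subtype) hcomm₂ (s59t_hh p n g i)⁻¹ :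
          s59e_adj 𝒪 (s59e_aB aM₂ (ρ'.comp Bq.subtype) hcomm₂))) ^ 2 -
        algebraMap (s59e_adj 𝒪 aM₂) (s59e_adj 𝒪 (s59e_aB aM₂ (ρ'.comp Bq.subtype) hcomm₂))
          (θ₂ (s59i_cpTr DQ.ρ σ₀ ^ 2 - 4)) ∈
        Module.annihilator (s59e_adj 𝒪 (s59e_aB aM₂ (ρ'.comp Bq.subtype) hcomm₂))
          (s59t_EigT (T := s59e_adj 𝒪 (s59e_aB aM₂ (ρ'.comp Bq.subtype) hcomm₂)) ρ' Cs χ' hTρ₂) := by
  classical
  -- the composite embedding into the even level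
  obtain ⟨j, hjdef⟩ : ∃ j : Y' →ₗ[𝒪] s48h_Hpar 𝒪 (s48h_GammaH M H) 𝒪, ∀ y, j y = j₁ (r y) :=
    ⟨j₁.comp r, fun _ => rfl⟩
  have hj : Function.Injective j := fun y y' h => hr (hj₁ (by rw [← hjdef, ← hjdef, h]))
  have hopYj : ∀ jdx y, j (opY jdx y) = s59w_op H 𝒪 jdx (j y) := fun jdx y => by
    rw [hjdef, hjdef, hopY]
  -- the image of `j` is stable under the even Hecke algebra
  have hstgen : ∀ x ∈ Subring.closure (Set.range (s59e_Tp' H 𝒪 k)),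
      ∀ y, ∃ y', j y' = x (j y) := by
    intro x hmem
    induction hmem using Subring.closure_induction with
    | mem x hx =>
      obtain ⟨i, rfl⟩ := hx
      intro y
      refine ⟨opY (Sum.inr (s59e_tau i k)) (opY (Sum.inl i) y), ?_⟩
      rw [hopYj, hopYj]
      rfl
    | zero => exact fun y => ⟨0, by rw [map_zero, LinearMap.zero_apply]⟩
    | one => exact fun y => ⟨y, rfl⟩
    | add x x' _ _ hx hx' =>
      intro y
      obtain ⟨y₁, h₁⟩ := hx y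
      obtain ⟨y₂, h₂⟩ := hx' y
      exact ⟨y₁ + y₂, by rw [map_add, h₁, h₂, LinearMap.add_apply]⟩
    | neg x _ hx =>
      intro y
      obtain ⟨y₁, h₁⟩ := hx y
      exact ⟨-y₁, by rw [map_neg, h₁, LinearMap.neg_apply]⟩
    | mul x x' _ _ hx hx' =>
      intro y
      obtain ⟨y₂, h₂⟩ := hx' y
      obtain ⟨y₁, h₁⟩ := hx y₂
      exact ⟨y₁, by rw [h₁, h₂, Module.End.mul_apply]⟩
  have hst : ∀ t y, ∃ y', j y' = a t (j y) := fun t => hstgen _ (ha t)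
  obtain ⟨aY, haY⟩ := s59q_tr_pull a j hj hst
  -- `r` intertwines `aY` and `aM₁`
  have hrY : ∀ t z, r (aY t z) = aM₁ t (r z) := fun t z => hj₁ (by
    rw [← hjdef, haY, hjdef, haM₁])
  -- the Galois half of `(Y', aY)`
  obtain ⟨fY, hlocY, θY, -, hfYr, -, hθYdef, hθY, hfrobTY, hcongY⟩ :=
    s59q_tr_theta M₁ M₁ S hS₁ hS₁ aM₁ aY r hr (fun ℓ hℓ h₁ h₂ hℓS z => hrY _ z) DQ θ₁ hθ₁ hfrobT₁
      (fun ℓ => ((W.apOfModel ℓ : ℤ) : 𝒪)) hcong₁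
  haveI := hlocY
  -- commutations
  have hopcgen : ∀ u ∈ Subring.closure (Set.range (s59e_Tp' H 𝒪 k)),
      ∀ x, Commute u (s59w_op H 𝒪 x) := by
    intro u hmem x
    induction hmem using Subring.closure_induction with
    | mem u hu =>
      obtain ⟨i, rfl⟩ := hu
      have hc : ∀ a b : s59w_AIdx M, Commute (s59w_op H 𝒪 a) (s59w_op H 𝒪 b) :=
        fun a b => s59w_op_comm H 𝒪 a b
      exact (hc _ _).mul_left (hc _ _)
    | zero => exact Commute.zero_left _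
    | one => exact Commute.one_left _
    | add u u' _ _ hu hu' => exact hu.add_left hu'
    | neg u _ hu => exact hu.neg_left
    | mul u u' _ _ hu hu' => exact hu.mul_left hu'
  have hopc : ∀ t x, Commute (a t) (s59w_op H 𝒪 x) := fun t x => hopcgen _ (ha t) x
  have hFaY : ∀ t δ, Commute (aY t) (ρ' δ) := by
    intro t δ
    obtain ⟨τ, hτ⟩ := hρ' δ
    rw [hτ]
    refine LinearMap.ext fun y => hj ?_
    rw [Module.End.mul_apply, Module.End.mul_apply, haY, hopYj, hopYj, haY]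
    exact LinearMap.congr_fun (hopc t (Sum.inr τ)) (j y)
  have hcommY : ∀ (t : heckeAlgebra M₁ 2 (↑S : Set ℕ)) (β : Bq),
      Commute (aY t) ((ρ'.comp Bq.subtype) β) := fun t β => hFaY t β
  have hTρY : ∀ (t : s59e_adj 𝒪 (s59e_aB aY (ρ'.comp Bq.subtype) hcommY)) (δ : Δ') (y : Y'),
      t • ρ' δ y = ρ' δ (t • y) := fun t δ y =>
    s59e_hTρ aY _ hcommY (ρ' δ) (fun s => hFaY s δ)
      (fun β => (Commute.all (β : Δ') δ).map ρ') t y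
  -- `htT'`
  have htT'Y : ∀ i : s59w_TIdx M, i.ell ∉ S → ∀ z : Y',
      j (((s59e_tOf (↑S : Set ℕ) aY i.ell : s59e_adj 𝒪 aY) : Module.End 𝒪 Y') z) =
        s59e_Tp' H 𝒪 k i (j z) := by
    intro i hiS z
    have hℓS : i.ell ∉ (↑S : Set ℕ) := fun h => hiS (Finset.mem_coe.mp h)
    have hℓN : ¬ i.ell ∣ M₁ := fun h => hiS (hS₁ i.ell i.prime h)
    rw [s59e_tOf_coe _ aY i.prime hℓN hℓS, haY, ha1 i.ell i.prime hℓN hℓS i rfl]
  -- [C8] inside the even level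
  have hC8Y := s59e3e_L_hC8_TPkg H j hj opY hopYj a k ha aY haY ρ' hρ' Bq Cs χ' hcommY hTρY
    p hp2 W hΔ hirr B hpB hB2 N Q hMeq hQ hDQ hD hH hsq h23 hneg hnm hn hk hp𝒪 S hBS hMS DQ θY hθY
    (s59e_tOf (↑S : Set ℕ) aY) htT'Y hfrobTY hcongY n qv hqv hqvQ hTW g hgl
  -- the two homomorphisms agree as endomorphisms of `Y'`
  have hθeq : ∀ x, ((θY x : s59e_adj 𝒪 aY) : Module.End 𝒪 Y') =
      ((θ₂ x : s59e_adj 𝒪 aM₂) : Module.End 𝒪 Y') := by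
    intro x
    refine LinearMap.ext fun z => hr ?_
    rw [hθ₂, hθYdef, hfYr]
  -- transport
  intro i
  obtain ⟨σ₀, hσ₀, hann⟩ := hC8Y i
  refine ⟨σ₀, hσ₀, ?_⟩
  rw [s59q_tr_ann_iff] at hann ⊢
  intro y hy
  have h1 := hann y hy
  have e1 : ((((s59e_dia (𝒪 := 𝒪) aY (ρ'.comp Bq.subtype) hcommY (s59t_hh p n g i) :
          s59e_adj 𝒪 (s59e_aB aY (ρ'.comp Bq.subtype) hcommY)) -
        (s59e_dia (𝒪 := 𝒪) aY (ρ'.comp Bq.subtype) hcommY (s59t_hh p n g i)⁻¹ :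
          s59e_adj 𝒪 (s59e_aB aY (ρ'.comp Bq.subtype) hcommY))) ^ 2 -
        s59e_incl aY (ρ'.comp Bq.subtype) hcommY (θY (s59i_cpTr DQ.ρ σ₀ ^ 2 - 4)) :
          s59e_adj 𝒪 (s59e_aB aY (ρ'.comp Bq.subtype) hcommY)) : Module.End 𝒪 Y') =
      ((ρ'.comp Bq.subtype) (s59t_hh p n g i) - (ρ'.comp Bq.subtype) (s59t_hh p n g i)⁻¹) ^ 2 -
        ((θY (s59i_cpTr DQ.ρ σ₀ ^ 2 - 4) : s59e_adj 𝒪 aY) : Module.End 𝒪 Y') := by
    rw [Subalgebra.coe_sub, Subalgebra.coe_pow, Subalgebra.coe_sub, s59e_dia_coe, s59e_dia_coe,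
      s59e_incl_coe]
  have e2 : ((((s59e_dia (𝒪 := 𝒪) aM₂ (ρ'.comp Bq.subtype) hcomm₂ (s59t_hh p n g i) :
          s59e_adj 𝒪 (s59e_aB aM₂ (ρ'.comp Bq.subtype) hcomm₂)) -
        (s59e_dia (𝒪 := 𝒪) aM₂ (ρ'.comp Bq.subtype) hcomm₂ (s59t_hh p n g i)⁻¹ :
          s59e_adj 𝒪 (s59e_aB aM₂ (ρ'.comp Bq.subtype) hcomm₂))) ^ 2 -
        s59e_incl aM₂ (ρ'.comp Bq.subtype) hcomm₂ (θ₂ (s59i_cpTr DQ.ρ σ₀ ^ 2 - 4)) :
          s59e_adj 𝒪 (s59e_aB aM₂ (ρ'.comp Bq.subtype) hcomm₂)) : Module.End 𝒪 Y') =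
      ((ρ'.comp Bq.subtype) (s59t_hh p n g i) - (ρ'.comp Bq.subtype) (s59t_hh p n g i)⁻¹) ^ 2 -
        ((θ₂ (s59i_cpTr DQ.ρ σ₀ ^ 2 - 4) : s59e_adj 𝒪 aM₂) : Module.End 𝒪 Y') := by
    rw [Subalgebra.coe_sub, Subalgebra.coe_pow, Subalgebra.coe_sub, s59e_dia_coe, s59e_dia_coe,
      s59e_incl_coe]
  have h2 : (((ρ'.comp Bq.subtype) (s59t_hh p n g i) -
      (ρ'.comp Bq.subtype) (s59t_hh p n g i)⁻¹) ^ 2 -
        ((θY (s59i_cpTr DQ.ρ σ₀ ^ 2 - 4) : s59e_adj 𝒪 aY) : Module.End 𝒪 Y')) y = 0 :=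
    (LinearMap.congr_fun e1 y).symm.trans h1
  rw [hθeq] at h2
  exact (LinearMap.congr_fun e2 y).trans h2

end C8

end Fermat.Agent.Lib.S59
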