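/-
PROGRAMME (R2) = S59, plan [C2P] (the field `finP2X`), the ODD level package, file B (helper3, prefix `s59u_c2o_`):
**[C8] ON THE KERNEL PAIR OF THE LOWER (ODD) LEVEL FROM THE UPPER (EVEN) LEVEL THROUGH THE `q`-OLD EMBEDDING** — helper6's `s59q_tr_hC8`
(QTrB.lean) with `Y' := part P`, `Z₁ := part P'`, `r := (s59x_oldSub (D.restrict hc) hst).resA`, `opY x := op^Z (down x)` and the hypotheses
`hr hopY hρ' hgl` supplied by UC2OddA.lean; level-generic (small terms), to be instantiated ONCE at the Taylor–Wiles levels.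
-/
import Mathlib
import Fermat.Agent.Lib.S59.UC2OddA
import Fermat.Agent.Lib.S59.QTrB

set_option autoImplicit false
set_option linter.unusedSectionVars false
set_option linter.unusedVariables false
set_option linter.style.haveILetI false
set_option synthInstance.maxHeartbeats 400000
set_option maxSynthPendingDepth 3
set_option maxHeartbeats 4000000

noncomputable section

namespace Fermat.Agent.Lib.S59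

open Matrix MatrixGroups CongruenceSubgroup IsLocalRing CuspForm Polynomial
open Fermat.Agent.Lib.S29 Fermat.Agent.Lib.S48 Fermat.Agent.Lib.S41

local notation "Qbar" => AlgebraicClosure ℚ
local notation "GQ" => (AlgebraicClosure ℚ ≃ₐ[ℚ] AlgebraicClosure ℚ)

section C8

variable {L q : ℕ} [NeZero L] [hq : Fact q.Prime] (hqL : ¬ q ∣ L)
  {H : Subgroup (ZMod L)ˣ}
  {N' : ℕ} [NeZero N'] (hN' : N' = L * q) {H' : Subgroup (ZMod N')ˣ}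
  (hG' : s59f_IsG' L q H (s48h_GammaH N' H'))
  (e : SL(2, ℤ)) (he' : e ∈ Gamma0 N') (hee : s59f_gW hqL * e * e ∈ s48h_GammaH N' H')
  {𝒪 : Type} [CommRing 𝒪] [IsDomain 𝒪] [IsDiscreteValuationRing 𝒪]
  [IsAdicComplete (maximalIdeal 𝒪) 𝒪] [Finite (ResidueField 𝒪)] [CharZero 𝒪]
  {ε : Module.End 𝒪 (s48h_Hpar 𝒪 (s48h_GammaH L H) 𝒪)}
  {ε' : Module.End 𝒪 (s48h_Hpar 𝒪 (s48h_GammaH N' H') 𝒪)}
  (hc : (s59f_oldN hqL hN' hG' 𝒪 𝒪 e he' hee).Compat ε ε')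
  {P : Module.End 𝒪 (s59t_part ε)} {P' : Module.End 𝒪 (s59t_part ε')}
  (hst : s59x_OldStable ((s59f_oldN hqL hN' hG' 𝒪 𝒪 e he' hee).restrict hc) (s59t_part P) (s59t_part P'))
  [Module.Finite 𝒪 (s59t_part P)] [Module.Free 𝒪 (s59t_part P)] [Nontrivial (s59t_part P)]
  [Module.Finite 𝒪 (s59t_part P')] [Module.Free 𝒪 (s59t_part P')]
  (hLN : L ∣ N')
  (hεop : ∀ x y, ε (s59w_op H 𝒪 x y) = s59w_op H 𝒪 x (ε y))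
  (hZop : ∀ (x : s59w_AIdx L) (z : s59t_part ε), z ∈ s59t_part P →
    s59m_opPart H ε hεop x z ∈ s59t_part P)
  (hερ : ∀ δ y, ε (s59t_rho L H 𝒪 𝒪 δ y) = s59t_rho L H 𝒪 𝒪 δ (ε y))
  (hP : ∀ δ x, P (s59t_partRep (s59t_rho L H 𝒪 𝒪) hερ δ x) =
    s59t_partRep (s59t_rho L H 𝒪 𝒪) hερ δ (P x))
  (h0 : Gamma0 N' ≤ Gamma0 L) (hle : s48h_GammaH N' H' ≤ s48h_GammaH L H)
  -- the Hecke ring of the UPPER level
  {M₁ M₂ : ℕ} [NeZero M₁] [NeZero M₂] (S : Finset ℕ) (k : ℕ)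
  (hS₁ : ∀ q : ℕ, q.Prime → q ∣ M₁ → q ∈ S)
  (a₁ : heckeAlgebra M₁ 2 (↑S : Set ℕ) →+* Module.End 𝒪 (s48h_Hpar 𝒪 (s48h_GammaH N' H') 𝒪))
  (ha1₁ : ∀ (ℓ : ℕ) (hℓ : ℓ.Prime) (hℓN : ¬ ℓ ∣ M₁) (hℓS : ℓ ∉ (↑S : Set ℕ)) (i : s59w_TIdx N'),
    i.ell = ℓ → a₁ (heckeAlgebra.T hℓ hℓN hℓS) = s59e_Tp' H' 𝒪 k i)
  (ha2₁ : ∀ t, a₁ t ∈ Subring.closure (Set.range (s59e_Tp' H' 𝒪 k)))
  (aZ₁ : heckeAlgebra M₁ 2 (↑S : Set ℕ) →+* Module.End 𝒪 (s59t_part P'))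
  (haZ₁ : ∀ t (z : s59t_part P'), s59x_jZ H' ε' P' (aZ₁ t z) = a₁ t (s59x_jZ H' ε' P' z))
  -- the Hecke ring of the LOWER level
  (aZ₂ : heckeAlgebra M₂ 2 (↑S : Set ℕ) →+* Module.End 𝒪 (s59t_part P))
  (Bq Cs : Subgroup (s59t_Delta L H)) (χ' : s59t_Delta L H →* 𝒪ˣ)
  (hcomm₂ : ∀ (t : heckeAlgebra M₂ 2 (↑S : Set ℕ)) (β : Bq),
    Commute (aZ₂ t) (((s59t_partRep (s59t_partRep (s59t_rho L H 𝒪 𝒪) hερ) hP).comp Bq.subtype) β))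

include hqL hN' hG' hLN hεop hZop h0 hle hS₁ ha1₁ ha2₁ haZ₁ in
/-- **[C8] on the kernel pair of the lower level, from the upper level.** -/
theorem s59u_c2o_hC8 [IsLocalRing (s59e_adj 𝒪 aZ₁)]
    (hTρ₂ : ∀ (t : s59e_adj 𝒪 (s59e_aB aZ₂ ((s59t_partRep (s59t_partRep (s59t_rho L H 𝒪 𝒪) hερ) hP).comp Bq.subtype) hcomm₂))
      (δ : s59t_Delta L H) (y : s59t_part P),
      t • (s59t_partRep (s59t_partRep (s59t_rho L H 𝒪 𝒪) hερ) hP) δ y =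
        (s59t_partRep (s59t_partRep (s59t_rho L H 𝒪 𝒪) hερ) hP) δ (t • y))
    -- the curve
    (p : ℕ) [hpP : Fact p.Prime] (hp2 : p ≠ 2) (W : WeierstrassCurve ℤ) (hΔ : W.Δ ≠ 0)
    (hirr : W.ModRepIsIrreducible p)
    (B : Finset ℕ) (hpB : p ∈ B)
    (hB2 : ∀ r : ℕ, r.Prime → ¬ W.IsGoodPrimeFor r → r ∈ B)
    -- the numerology of the UPPER level
    (N : ℕ) [NeZero N] (Q : Finset ℕ)
    (hMeq : N' = N * ∏ q ∈ Q, q) (hQ : ∀ q ∈ Q, q.Prime ∧ ¬ q ∣ N)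
    {D : ℕ} (hDQ : D = ∏ q ∈ Q, q) (hD : D ∣ N') (hH : s59u_ker N' D hD ≤ H')
    (hsq : Squarefree N') (h23 : 2 ∣ N') (hneg : (-1 : (ZMod N')ˣ) ∈ H')
    {e' m : ℕ} (hnm : 2 * m = p ^ e' + 1) (hn : ∀ u : (ZMod N')ˣ, u ^ (p ^ e') ∈ H')
    (hk : k = (p ^ e' - 1) * m)
    [Algebra ℤ_[p] 𝒪] [Module.Finite ℤ_[p] 𝒪]
    (hp𝒪 : ((p : ℕ) : 𝒪) ∈ maximalIdeal 𝒪)
    (hBS : B ⊆ S) (hMS : ∀ r : ℕ, r.Prime → r ∣ N' → r ∈ S)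
    -- the Galois half of the upper module, and the transferred homomorphism
    {𝒟 : ∀ ⦃A : Type⦄ [CommRing A] [IsLocalRing A] [Algebra 𝒪 A], GaloisRepAdic A → Prop}
    (DQ : GaloisRep.DeformationRingData 𝒪 (s59i_rhobarW W p hΔ 𝒪 hp𝒪) 𝒟)
    (θ₁ : DQ.R →ₐ[𝒪] s59e_adj 𝒪 aZ₁) (hθ₁ : Function.Surjective θ₁)
    (hfrobT₁ : ∀ ℓ : ℕ, ℓ.Prime → ℓ ∉ S →
      ∀ A' : ValuationSubring Qbar, A'.LiesOverPrime ℓ →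
      ∀ τ : GQ, A'.IsFrobeniusAt τ ℓ →
        (LinearMap.charpoly (DQ.ρ.ρ τ)).map (θ₁ : DQ.R →+* s59e_adj 𝒪 aZ₁) =
          X ^ 2 - C (s59e_tOf (↑S : Set ℕ) aZ₁ ℓ) * X + C ((ℓ : s59e_adj 𝒪 aZ₁)))
    (hcong₁ : ∀ ℓ : ℕ, ℓ.Prime → ℓ ∉ S →
      s59e_tOf (↑S : Set ℕ) aZ₁ ℓ - algebraMap 𝒪 (s59e_adj 𝒪 aZ₁) ((W.apOfModel ℓ : ℤ) : 𝒪) ∈
        maximalIdeal (s59e_adj 𝒪 aZ₁))
    (θ₂ : DQ.R →ₐ[𝒪] s59e_adj 𝒪 aZ₂)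
    (hθ₂ : ∀ x z, (s59x_oldSub ((s59f_oldN hqL hN' hG' 𝒪 𝒪 e he' hee).restrict hc) hst).resA
        (((θ₂ x : s59e_adj 𝒪 aZ₂) : Module.End 𝒪 (s59t_part P)) z) =
      ((θ₁ x : s59e_adj 𝒪 aZ₁) : Module.End 𝒪 (s59t_part P'))
        ((s59x_oldSub ((s59f_oldN hqL hN' hG' 𝒪 𝒪 e he' hee).restrict hc) hst).resA z))
    -- the Taylor–Wiles primes
    (n : ℕ) {rk : ℕ} (qv : Fin rk → ℕ)
    (hqv : ∀ i, (qv i).Prime ∧ qv i ∉ B ∧ p ^ (n + 1) ∣ qv i - 1)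
    (hqvQ : ∀ i, qv i ∈ Q)
    (hTW : ∀ i, ∀ A : ValuationSubring (AlgebraicClosure ℚ), A.LiesOverPrime (qv i) →
      ∀ φ : GQ, A.IsFrobeniusAt φ (qv i) →
        ∃ α β : ResidueField 𝒪, α ≠ β ∧
          LinearMap.charpoly ((s59i_rhobarW W p hΔ 𝒪 hp𝒪).ρ φ) = (X - C α) * (X - C β))
    (g : Fin rk → Bq)
    -- the generators of the upper level
    (Bq' : Subgroup (s59t_Delta N' H')) (g' : Fin rk → Bq')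
    (hg : ∀ i, (g i : s59t_Delta L H) = s59t_DeltaMap2 h0 hle (g' i : s59t_Delta N' H'))
    (hqM : ∀ i, qv i ∣ N')
    (hgloc : ∀ i, ∃ τ : Gamma0 N',
      (QuotientGroup.mk τ : s59t_Delta N' H') = (g' i : s59t_Delta N' H') ∧
      ZMod.unitsMap (Nat.div_dvd_of_dvd (hqM i)) (s59t_unitHom N' τ) = 1) :
    letI := s59e_algTT (𝒪 := 𝒪) aZ₂ ((s59t_partRep (s59t_partRep (s59t_rho L H 𝒪 𝒪) hερ) hP).comp Bq.subtype) hcomm₂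
    ∀ i, ∃ σ₀ : GQ,
      (∃ A : ValuationSubring Qbar, A.LiesOverPrime (qv i) ∧ σ₀ ∈ A.inertiaSubgroupIn ℚ) ∧
      ((s59e_dia (𝒪 := 𝒪) aZ₂ ((s59t_partRep (s59t_partRep (s59t_rho L H 𝒪 𝒪) hερ) hP).comp Bq.subtype) hcomm₂ (s59t_hh p n g i) :
          s59e_adj 𝒪 (s59e_aB aZ₂ ((s59t_partRep (s59t_partRep (s59t_rho L H 𝒪 𝒪) hερ) hP).comp Bq.subtype) hcomm₂)) -
        (s59e_dia (𝒪 := 𝒪) aZ₂ ((s59t_partRep (s59t_partRep (s59t_rho L H 𝒪 𝒪) hερ) hP).comp Bq.subtype) hcomm₂ (s59t_hh p n g i)⁻¹ :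
          s59e_adj 𝒪 (s59e_aB aZ₂ ((s59t_partRep (s59t_partRep (s59t_rho L H 𝒪 𝒪) hερ) hP).comp Bq.subtype) hcomm₂))) ^ 2 -
        algebraMap (s59e_adj 𝒪 aZ₂) (s59e_adj 𝒪 (s59e_aB aZ₂ ((s59t_partRep (s59t_partRep (s59t_rho L H 𝒪 𝒪) hερ) hP).comp Bq.subtype) hcomm₂))
          (θ₂ (s59i_cpTr DQ.ρ σ₀ ^ 2 - 4)) ∈
        Module.annihilator (s59e_adj 𝒪 (s59e_aB aZ₂ ((s59t_partRep (s59t_partRep (s59t_rho L H 𝒪 𝒪) hερ) hP).comp Bq.subtype) hcomm₂))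
          (s59t_EigT (T := s59e_adj 𝒪 (s59e_aB aZ₂ ((s59t_partRep (s59t_partRep (s59t_rho L H 𝒪 𝒪) hερ) hP).comp Bq.subtype) hcomm₂))
            (s59t_partRep (s59t_partRep (s59t_rho L H 𝒪 𝒪) hερ) hP) Cs χ' hTρ₂) :=
  s59q_tr_hC8 H' (s59x_jZ H' ε' P') (s59x_jZ_injective H' ε' P') M₁ S hS₁ a₁ k ha2₁ ha1₁ aZ₁ haZ₁
    (s59x_oldSub ((s59f_oldN hqL hN' hG' 𝒪 𝒪 e he' hee).restrict hc) hst).resA
    (s59u_c2o_r_injective hqL hN' hG' e he' hee hc hst)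
    (fun x => s59x_opZ H ε hεop P hZop (s59t_AIdx_down hLN x))
    (s59u_c2o_hopY hqL hN' hG' e he' hee hc hst hLN hεop hZop)
    M₂ aZ₂ (s59t_partRep (s59t_partRep (s59t_rho L H 𝒪 𝒪) hερ) hP)
    (s59u_c2o_hrho hqL hN' hG' hLN hεop hZop hερ hP h0 hle)
    Bq Cs χ' hcomm₂ hTρ₂ p hp2 W hΔ hirr B hpB hB2 N Q hMeq hQ hDQ hD hH hsq h23 hneg hnm hn hk hp𝒪 hBS hMS
    DQ θ₁ hθ₁ hfrobT₁ hcong₁ θ₂ hθ₂ n qv hqv hqvQ hTW g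
    (s59u_c2o_hgl hLN hεop hZop hερ hP h0 hle qv hqM Bq g Bq' g' hg hgloc p n)

end C8

end Fermat.Agent.Lib.S59

end
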