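/-
PROGRAMME (R2) = S59, plan [C2P] (the field `finP2X`), the ODD level package, file C (helper3, prefix `s59u_c2o_`; SCRIPTED by `gen_oddc.py`
from the statement of helper6's `Internal.s59q_tr_levelZ_rec`, QTrD.lean):
**THE GALOIS HALF, THE LEVEL RECORD AND THE TRACE-RING FACTS OF A TAYLOR–WILES LEVEL ON THE KERNEL PAIR AT A LEVEL `N` WITHOUT PARITY
HYPOTHESIS, IMPORTED FROM THE UPPER LEVEL `Ne = N q`, `2 ∣ Ne`, THROUGH THE `q`-OLD EMBEDDING** (in [C2P]: `N = 3 L r` odd, `q = 2`).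

Binders: those of `Internal.s59q_tr_levelZ_rec` up to `hlocA` (the base data of the kernel pair at `N`, the Taylor–Wiles datum, the kernel pair
`P'` of the level with its module side and its Galois-free Hecke half `a ha1 ha2 aZ haZ hlocA` — helper9's `s59m_LvlConclH`), `DQ` of the strict
type `(Sg, Su)`, then the UPPER level: helper4's `q`-package `D₂` between the two Taylor–Wiles levels, an idempotent `ε'E` with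
`hc2 : D₂.Compat ε' ε'E`, the kernel projector `P'E` with `hst : s59x_OldStable (D₂.restrict hc2) (part P') (part P'E)` (helper7's
`s59x_stable_of_mem`), its Hecke ring `aE … aZE haZE` and its GALOIS HALF `θE hθE hfrobTE hcongE`, the generators `gE` with `g = pushG gE`
and `hglocE`.  Conclusion: the tail of helper9's `s59m_LvlPkgZConcl` at the level `N`:
`[IsLocalRing] θ hθ hfrobT hcong`, `hcomm hTρ rec`, the seven trace-ring facts, reducedness, torsion-freeness, and `θE x = 0 → θ x = 0`.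
Proof: helper6's `s59q_tr_theta` (QTrA) with `r := (s59x_oldSub (D₂.restrict hc2) hst).resA` (UC2OddA), [C8] by `s59u_c2o_hC8` (UC2OddB ⟸ QTrB),
`Internal.s59q_tr_levelZ_rec` (QTrD), helper7's `s59x_trace_factsZ` (NXTrZ), helper5's `s59efl_adj_reduced/_torsionfree` (EFlrTr).
-/
import Mathlib
import Fermat.Agent.Lib.S59.UC2OddB
import Fermat.Agent.Lib.S59.QTrD
import Fermat.Agent.Lib.S59.NXTrZ
import Fermat.Agent.Lib.S59.XDefOrd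
import Fermat.Agent.Lib.S59.EFlrTr
import Fermat.Agent.Lib.S59.EFlrGen
import Fermat.Agent.Lib.S59.KLvlFin
import Fermat.Agent.Lib.S59.KLvlGrp

set_option autoImplicit false
set_option linter.unusedSectionVars false
set_option linter.unusedVariables false
set_option linter.style.haveILetI false
set_option maxHeartbeats 0
set_option synthInstance.maxHeartbeats 400000
set_option maxSynthPendingDepth 3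

noncomputable section

namespace Fermat.Agent.Lib.S59

open IsLocalRing CuspForm Polynomial ExtCitation CongruenceSubgroup
open WeierstrassCurve WeierstrassCurve.Affine WeierstrassCurve.Affine.Point
open Fermat.Agent.Lib.S48 Fermat.Agent.Lib.S44
open scoped MatrixGroups

local notation "Γℚ" => (AlgebraicClosure ℚ ≃ₐ[ℚ] AlgebraicClosure ℚ)

/-- **the Galois half, the record and the trace-ring facts of a Taylor–Wiles level on the kernel pair, imported from the upper level.** -/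
theorem Internal.s59u_c2o_lvl_core (p : ℕ) [Fact p.Prime] (hp2 : p ≠ 2) (W : WeierstrassCurve ℤ) (hΔ : W.Δ ≠ 0)
    (N : ℕ) [NeZero N] (B : Finset ℕ)
    (hirr : W.ModRepIsIrreducible p) (hsq : Squarefree N)
    (hNB : ∀ r : ℕ, r.Prime → r ∣ N → r ∈ B) (hpB : p ∈ B)
    (hB2 : ∀ r : ℕ, r.Prime → ¬ W.IsGoodPrimeFor r → r ∈ B)
    (𝒪 : Type) [CommRing 𝒪] [IsDomain 𝒪] [IsDiscreteValuationRing 𝒪]
    [IsAdicComplete (maximalIdeal 𝒪) 𝒪] [Finite (ResidueField 𝒪)] [CharZero 𝒪]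
    [Algebra ℤ_[p] 𝒪] [Module.Finite ℤ_[p] 𝒪]
    (hp𝒪 : ((p : ℕ) : 𝒪) ∈ maximalIdeal 𝒪)
    (r : ℕ) (σ : Type) [DecidableEq σ] [Fintype σ]
    -- the base data
    (ε : Module.End 𝒪 (s48h_Hpar 𝒪 (s48h_GammaH N (⊤ : Subgroup (ZMod N)ˣ)) 𝒪))
    (hεc : ∀ jdx : s59w_AIdx N, ε * s59w_op (⊤ : Subgroup (ZMod N)ˣ) 𝒪 jdx = s59w_op (⊤ : Subgroup (ZMod N)ˣ) 𝒪 jdx * ε)
    (hρ : ∀ δ y, ε ((s59t_rho N (⊤ : Subgroup (ZMod N)ˣ) 𝒪 𝒪) δ y) = (s59t_rho N (⊤ : Subgroup (ZMod N)ˣ) 𝒪 𝒪) δ (ε y))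
    (P : Module.End 𝒪 (s59t_part ε))
    (hP : ∀ δ x, P (s59t_partRep (s59t_rho N (⊤ : Subgroup (ZMod N)ˣ) 𝒪 𝒪) hρ δ x) = s59t_partRep (s59t_rho N (⊤ : Subgroup (ZMod N)ˣ) 𝒪 𝒪) hρ δ (P x))
    (d : ℕ) (hd0 : d ≠ 0)
    (a₀ : heckeAlgebra N 2 (↑B : Set ℕ) →+* Module.End 𝒪 (s48h_Hpar 𝒪 (s48h_GammaH N (⊤ : Subgroup (ZMod N)ˣ)) 𝒪))
    (ha1₀ : ∀ (ℓ : ℕ) (hℓ : ℓ.Prime) (hℓN : ¬ ℓ ∣ N) (hℓS : ℓ ∉ (↑B : Set ℕ)) (i : s59w_TIdx N),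
      i.ell = ℓ → a₀ (heckeAlgebra.T hℓ hℓN hℓS) = s59e_Tp' (⊤ : Subgroup (ZMod N)ˣ) 𝒪 ((p ^ 0 - 1) * ((p ^ 0 + 1) / 2)) i)
    (aZ₀ : heckeAlgebra N 2 (↑B : Set ℕ) →+* Module.End 𝒪 (s59t_part P))
    (haZ₀ : ∀ t (z : s59t_part P), s59x_jZ (⊤ : Subgroup (ZMod N)ˣ) ε P (aZ₀ t z) = a₀ t (s59x_jZ (⊤ : Subgroup (ZMod N)ˣ) ε P z))
    [IsLocalRing (s59e_adj 𝒪 aZ₀)] [IsNoetherianRing (s59e_adj 𝒪 aZ₀)]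
    [Module.Finite 𝒪 (s59e_adj 𝒪 aZ₀)]
    (hRρ : ∀ (t : s59e_adj 𝒪 aZ₀) (δ : (s59t_Delta N (⊤ : Subgroup (ZMod N)ˣ))) (y : s59t_part P),
      t • (s59t_partRep (s59t_partRep (s59t_rho N (⊤ : Subgroup (ZMod N)ˣ) 𝒪 𝒪) hρ) hP) δ y = (s59t_partRep (s59t_partRep (s59t_rho N (⊤ : Subgroup (ZMod N)ˣ) 𝒪 𝒪) hρ) hP) δ (t • y))
    (ρR : GaloisRepAdic (s59e_adj 𝒪 aZ₀))
    (hfrobR : ∀ (ℓ : ℕ), ℓ.Prime → ¬ ℓ ∣ N → ℓ ∉ (↑B : Set ℕ) →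
      ∀ A : ValuationSubring (AlgebraicClosure ℚ), A.LiesOverPrime ℓ →
      ∀ g : Γℚ, A.IsFrobeniusAt g ℓ →
        LinearMap.charpoly (ρR.ρ g) =
          Polynomial.X ^ 2 - Polynomial.C (s59e_tOf (↑B : Set ℕ) aZ₀ ℓ) * Polynomial.X +
            Polynomial.C ((ℓ : s59e_adj 𝒪 aZ₀)))
    (hgenR : Algebra.adjoin 𝒪 {x : s59e_adj 𝒪 aZ₀ | ∃ ℓ : ℕ, ℓ.Prime ∧ ¬ ℓ ∣ N ∧
      ℓ ∉ (↑B : Set ℕ) ∧ x = s59e_tOf (↑B : Set ℕ) aZ₀ ℓ} = ⊤)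
    -- the level
    (n : ℕ) (qv : Fin r → ℕ) [NeZero (∏ j, qv j)] [NeZero (N * ∏ j, qv j)]
    [NeZero (N * ∏ q ∈ Finset.univ.image qv, q ^ 2)]
    (hqinj : Function.Injective qv)
    (hqv : ∀ i, (qv i).Prime ∧ qv i ∉ B ∧ p ^ (n + 1) ∣ qv i - 1)
    (hTW : ∀ i, ∀ A : ValuationSubring (AlgebraicClosure ℚ), A.LiesOverPrime (qv i) →
      ∀ φ : Γℚ, A.IsFrobeniusAt φ (qv i) →
        ∃ α β : ResidueField 𝒪, α ≠ β ∧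
          LinearMap.charpoly ((s59i_rhobarW W p hΔ 𝒪 hp𝒪).ρ φ) = (X - C α) * (X - C β))
    -- the idempotent of the level and the control map of the parts
    (ε' : Module.End 𝒪 (s48h_Hpar 𝒪 (s48h_GammaH (N * ∏ j, qv j) (s59t_Hmul N (∏ j, qv j) (⊤ : Subgroup (ZMod N)ˣ) (s59t_KQ (p ^ n) qv))) 𝒪))
    (hid' : ε' * ε' = ε')
    (hεc' : ∀ jdx : s59w_AIdx (N * ∏ j, qv j), ε' * s59w_op (s59t_Hmul N (∏ j, qv j) (⊤ : Subgroup (ZMod N)ˣ) (s59t_KQ (p ^ n) qv)) 𝒪 jdx = s59w_op (s59t_Hmul N (∏ j, qv j) (⊤ : Subgroup (ZMod N)ˣ) (s59t_KQ (p ^ n) qv)) 𝒪 jdx * ε')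
    (hP1 : s59t_TWFull (s59t_Gamma0_anti (s59t_dvd_mul_left' N (∏ j, qv j))) (s59t_GammaHmul_le (N := N) (D := (∏ j, qv j)) (H := (⊤ : Subgroup (ZMod N)ˣ)) (K := s59t_KQ (p ^ n) qv)) (s59t_BQ N (∏ j, qv j) (⊤ : Subgroup (ZMod N)ˣ) (s59t_KQ (p ^ n) qv)) (s59t_CQ N (∏ j, qv j) (⊤ : Subgroup (ZMod N)ˣ) (s59t_KQ (p ^ n) qv)) ε ε')
    (hρ' : ∀ δ y, ε' ((s59t_rho (N * ∏ j, qv j) (s59t_Hmul N (∏ j, qv j) (⊤ : Subgroup (ZMod N)ˣ) (s59t_KQ (p ^ n) qv)) 𝒪 𝒪) δ y) = (s59t_rho (N * ∏ j, qv j) (s59t_Hmul N (∏ j, qv j) (⊤ : Subgroup (ZMod N)ˣ) (s59t_KQ (p ^ n) qv)) 𝒪 𝒪) δ (ε' y))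
    (π₂ : s59t_part ε' →ₗ[𝒪] s59t_part ε)
    (hιπ₂ : ∀ y, s59t_iotaH ε ε' (s59t_resGHpar (s59t_GammaHmul_le (N := N) (D := (∏ j, qv j)) (H := (⊤ : Subgroup (ZMod N)ˣ)) (K := s59t_KQ (p ^ n) qv)) 𝒪 𝒪) (π₂ y) =
      s59t_normPsi (s59t_partRep (s59t_rho (N * ∏ j, qv j) (s59t_Hmul N (∏ j, qv j) (⊤ : Subgroup (ZMod N)ˣ) (s59t_KQ (p ^ n) qv)) 𝒪 𝒪) hρ') (s59t_BQ N (∏ j, qv j) (⊤ : Subgroup (ZMod N)ˣ) (s59t_KQ (p ^ n) qv)) 1 y)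
    -- the kernel pair (the components of helper9's `s59m_KerConcl`)
    (P' : Module.End 𝒪 (s59t_part ε'))
    (hP' : ∀ δ x, P' (s59t_partRep (s59t_rho (N * ∏ j, qv j) (s59t_Hmul N (∏ j, qv j) (⊤ : Subgroup (ZMod N)ˣ) (s59t_KQ (p ^ n) qv)) 𝒪 𝒪) hρ' δ x) = s59t_partRep (s59t_rho (N * ∏ j, qv j) (s59t_Hmul N (∏ j, qv j) (⊤ : Subgroup (ZMod N)ˣ) (s59t_KQ (p ^ n) qv)) 𝒪 𝒪) hρ' δ (P' x))
    (hPP' : P' * P' = P')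
    (hZop : ∀ (x : s59w_AIdx (N * ∏ j, qv j)) (z : s59t_part P'), ∃ z' : s59t_part P',
      s59x_jZ (s59t_Hmul N (∏ j, qv j) (⊤ : Subgroup (ZMod N)ˣ) (s59t_KQ (p ^ n) qv)) ε' P' z' = s59w_op (s59t_Hmul N (∏ j, qv j) (⊤ : Subgroup (ZMod N)ˣ) (s59t_KQ (p ^ n) qv)) 𝒪 x (s59x_jZ (s59t_Hmul N (∏ j, qv j) (⊤ : Subgroup (ZMod N)ˣ) (s59t_KQ (p ^ n) qv)) ε' P' z))
    (b' : Fin d → s59t_part P')
    (hb' : Function.Bijective (s59t_evalMap (s59t_partRep (s59t_partRep (s59t_rho (N * ∏ j, qv j) (s59t_Hmul N (∏ j, qv j) (⊤ : Subgroup (ZMod N)ˣ) (s59t_KQ (p ^ n) qv)) 𝒪 𝒪) hρ') hP') b'))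
    (πK : s59t_part P' →ₗ[𝒪] s59t_part P)
    (hπK : ∀ y : s59t_part P', ((πK y : s59t_part P) : s59t_part ε) = π₂ (y : s59t_part ε'))
    (h2 : ∀ y ∈ s59t_eig (s59t_partRep (s59t_partRep (s59t_rho (N * ∏ j, qv j) (s59t_Hmul N (∏ j, qv j) (⊤ : Subgroup (ZMod N)ˣ) (s59t_KQ (p ^ n) qv)) 𝒪 𝒪) hρ') hP') (s59t_CQ N (∏ j, qv j) (⊤ : Subgroup (ZMod N)ˣ) (s59t_KQ (p ^ n) qv)) (1 : (s59t_Delta (N * ∏ j, qv j) (s59t_Hmul N (∏ j, qv j) (⊤ : Subgroup (ZMod N)ˣ) (s59t_KQ (p ^ n) qv))) →* 𝒪ˣ),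
      πK y ∈ s59t_eig (s59t_partRep (s59t_partRep (s59t_rho N (⊤ : Subgroup (ZMod N)ˣ) 𝒪 𝒪) hρ) hP) ⊤ (1 : (s59t_Delta N (⊤ : Subgroup (ZMod N)ˣ)) →* 𝒪ˣ))
    (h3 : ∀ x ∈ s59t_eig (s59t_partRep (s59t_partRep (s59t_rho N (⊤ : Subgroup (ZMod N)ˣ) 𝒪 𝒪) hρ) hP) ⊤ (1 : (s59t_Delta N (⊤ : Subgroup (ZMod N)ˣ)) →* 𝒪ˣ),
      ∃ y ∈ s59t_eig (s59t_partRep (s59t_partRep (s59t_rho (N * ∏ j, qv j) (s59t_Hmul N (∏ j, qv j) (⊤ : Subgroup (ZMod N)ˣ) (s59t_KQ (p ^ n) qv)) 𝒪 𝒪) hρ') hP') (s59t_CQ N (∏ j, qv j) (⊤ : Subgroup (ZMod N)ˣ) (s59t_KQ (p ^ n) qv)) (1 : (s59t_Delta (N * ∏ j, qv j) (s59t_Hmul N (∏ j, qv j) (⊤ : Subgroup (ZMod N)ˣ) (s59t_KQ (p ^ n) qv))) →* 𝒪ˣ), πK y = x)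
    (h4 : ∀ y ∈ s59t_eig (s59t_partRep (s59t_partRep (s59t_rho (N * ∏ j, qv j) (s59t_Hmul N (∏ j, qv j) (⊤ : Subgroup (ZMod N)ˣ) (s59t_KQ (p ^ n) qv)) 𝒪 𝒪) hρ') hP') (s59t_CQ N (∏ j, qv j) (⊤ : Subgroup (ZMod N)ˣ) (s59t_KQ (p ^ n) qv)) (1 : (s59t_Delta (N * ∏ j, qv j) (s59t_Hmul N (∏ j, qv j) (⊤ : Subgroup (ZMod N)ˣ) (s59t_KQ (p ^ n) qv))) →* 𝒪ˣ), πK y = 0 →
      y ∈ Submodule.span 𝒪 {z : s59t_part P' | ∃ β ∈ (s59t_BQ N (∏ j, qv j) (⊤ : Subgroup (ZMod N)ˣ) (s59t_KQ (p ^ n) qv)),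
        ∃ y' ∈ s59t_eig (s59t_partRep (s59t_partRep (s59t_rho (N * ∏ j, qv j) (s59t_Hmul N (∏ j, qv j) (⊤ : Subgroup (ZMod N)ˣ) (s59t_KQ (p ^ n) qv)) 𝒪 𝒪) hρ') hP') (s59t_CQ N (∏ j, qv j) (⊤ : Subgroup (ZMod N)ˣ) (s59t_KQ (p ^ n) qv)) (1 : (s59t_Delta (N * ∏ j, qv j) (s59t_Hmul N (∏ j, qv j) (⊤ : Subgroup (ZMod N)ˣ) (s59t_KQ (p ^ n) qv))) →* 𝒪ˣ), z = (s59t_partRep (s59t_partRep (s59t_rho (N * ∏ j, qv j) (s59t_Hmul N (∏ j, qv j) (⊤ : Subgroup (ZMod N)ˣ) (s59t_KQ (p ^ n) qv)) 𝒪 𝒪) hρ') hP') β y' - y'})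
    -- the generators of `B_Q`
    (g : Fin r → (s59t_BQ N (∏ j, qv j) (⊤ : Subgroup (ZMod N)ˣ) (s59t_KQ (p ^ n) qv)))
    (hcard : Nat.card (s59t_BQ N (∏ j, qv j) (⊤ : Subgroup (ZMod N)ˣ) (s59t_KQ (p ^ n) qv)) = (p ^ n) ^ r)
    (hgen : ∀ x : (s59t_BQ N (∏ j, qv j) (⊤ : Subgroup (ZMod N)ˣ) (s59t_KQ (p ^ n) qv)), ∃ a : Fin r → ℕ, x = ∏ i, g i ^ a i)
    (hord : ∀ i, g i ^ (p ^ n) = 1)
    (hgloc : ∀ i, ∃ τ : Gamma0 (N * ∏ j, qv j),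
      (QuotientGroup.mk τ : (s59t_Delta (N * ∏ j, qv j) (s59t_Hmul N (∏ j, qv j) (⊤ : Subgroup (ZMod N)ˣ) (s59t_KQ (p ^ n) qv)))) = (g i : (s59t_Delta (N * ∏ j, qv j) (s59t_Hmul N (∏ j, qv j) (⊤ : Subgroup (ZMod N)ˣ) (s59t_KQ (p ^ n) qv)))) ∧
      ZMod.unitsMap (Nat.div_dvd_of_dvd (s59t_qv_dvd_level qv N i))
        (s59t_unitHom (N * ∏ j, qv j) τ) = 1)
    (Sg Su : Finset ℕ)
    (DQ : GaloisRep.DeformationRingData 𝒪 (s59i_rhobarW W p hΔ 𝒪 hp𝒪) (fun _A _ _ _ ρ =>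
      GaloisRep.strictOrdinaryCondition 𝒪 p Sg ρ ∧
        ∀ q ∈ Su, q.Prime → q ≠ p → ρ.IsUnipotentOnInertiaAt q))
    -- the Hecke ring of `Z'`
    (a : heckeAlgebra (N * ∏ q ∈ Finset.univ.image qv, q ^ 2) 2 (↑(B ∪ Finset.univ.image qv) : Set ℕ) →+* Module.End 𝒪 (s48h_Hpar 𝒪 (s48h_GammaH (N * ∏ j, qv j) (s59t_Hmul N (∏ j, qv j) (⊤ : Subgroup (ZMod N)ˣ) (s59t_KQ (p ^ n) qv))) 𝒪))
    (ha1 : ∀ (ℓ : ℕ) (hℓ : ℓ.Prime) (hℓN : ¬ ℓ ∣ (N * ∏ q ∈ Finset.univ.image qv, q ^ 2))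
      (hℓS : ℓ ∉ (↑(B ∪ Finset.univ.image qv) : Set ℕ)) (i : s59w_TIdx (N * ∏ j, qv j)),
      i.ell = ℓ → a (heckeAlgebra.T hℓ hℓN hℓS) = s59e_Tp' (s59t_Hmul N (∏ j, qv j) (⊤ : Subgroup (ZMod N)ˣ) (s59t_KQ (p ^ n) qv)) 𝒪 ((p ^ (0 + n) - 1) * ((p ^ (0 + n) + 1) / 2)) i)
    (ha2 : ∀ t, a t ∈ Subring.closure (Set.range (s59e_Tp' (s59t_Hmul N (∏ j, qv j) (⊤ : Subgroup (ZMod N)ˣ) (s59t_KQ (p ^ n) qv)) 𝒪 ((p ^ (0 + n) - 1) * ((p ^ (0 + n) + 1) / 2)))))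
    (aZ : heckeAlgebra (N * ∏ q ∈ Finset.univ.image qv, q ^ 2) 2 (↑(B ∪ Finset.univ.image qv) : Set ℕ) →+* Module.End 𝒪 (s59t_part P'))
    (haZ : ∀ t (z : s59t_part P'), s59x_jZ (s59t_Hmul N (∏ j, qv j) (⊤ : Subgroup (ZMod N)ˣ) (s59t_KQ (p ^ n) qv)) ε' P' (aZ t z) = a t (s59x_jZ (s59t_Hmul N (∏ j, qv j) (⊤ : Subgroup (ZMod N)ˣ) (s59t_KQ (p ^ n) qv)) ε' P' z))
    (hlocA : ∀ x ∈ s59e_adj 𝒪 aZ, ∃ d : 𝒪, s59e_IsLocScalar x d)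
    -- the UPPER level `Ne = N q` (in [C2P]: `q = 2`, `N` odd)
    (Ne : ℕ) [NeZero Ne] [NeZero (Ne * ∏ j, qv j)] [NeZero (Ne * ∏ q ∈ Finset.univ.image qv, q ^ 2)]
    (hd : N ∣ Ne) (hNeB : ∀ r : ℕ, r.Prime → r ∣ Ne → r ∈ B) (hsqE : Squarefree Ne) (h23 : 2 ∣ Ne)
    {q : ℕ} [hq : Fact q.Prime] (hqL : ¬ q ∣ N * ∏ j, qv j) (hNe' : Ne * ∏ j, qv j = N * (∏ j, qv j) * q)
    (hG2 : s59f_IsG' (N * ∏ j, qv j) q (s59t_Hmul N (∏ j, qv j) (⊤ : Subgroup (ZMod N)ˣ) (s59t_KQ (p ^ n) qv)) (s48h_GammaH (Ne * ∏ j, qv j) (s59t_Hmul Ne (∏ j, qv j) (⊤ : Subgroup (ZMod Ne)ˣ) (s59t_KQ (p ^ n) qv))))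
    (eq : SL(2, ℤ)) (heq' : eq ∈ Gamma0 (Ne * ∏ j, qv j))
    (heeq' : s59f_gW hqL * eq * eq ∈ s48h_GammaH (Ne * ∏ j, qv j) (s59t_Hmul Ne (∏ j, qv j) (⊤ : Subgroup (ZMod Ne)ˣ) (s59t_KQ (p ^ n) qv)))
    (ε'E : Module.End 𝒪 (s48h_Hpar 𝒪 (s48h_GammaH (Ne * ∏ j, qv j) (s59t_Hmul Ne (∏ j, qv j) (⊤ : Subgroup (ZMod Ne)ˣ) (s59t_KQ (p ^ n) qv))) 𝒪))
    (hid'E : ε'E * ε'E = ε'E)
    (hc2 : (s59f_oldN hqL hNe' hG2 𝒪 𝒪 eq heq' heeq').Compat ε' ε'E)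
    (P'E : Module.End 𝒪 (s59t_part ε'E)) (hPP'E : P'E * P'E = P'E)
    (hst : s59x_OldStable ((s59f_oldN hqL hNe' hG2 𝒪 𝒪 eq heq' heeq').restrict hc2) (s59t_part P') (s59t_part P'E))
    (aE : heckeAlgebra (Ne * ∏ q ∈ Finset.univ.image qv, q ^ 2) 2 (↑(B ∪ Finset.univ.image qv) : Set ℕ) →+* Module.End 𝒪 (s48h_Hpar 𝒪 (s48h_GammaH (Ne * ∏ j, qv j) (s59t_Hmul Ne (∏ j, qv j) (⊤ : Subgroup (ZMod Ne)ˣ) (s59t_KQ (p ^ n) qv))) 𝒪))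
    (ha1E : ∀ (ℓ : ℕ) (hℓ : ℓ.Prime) (hℓN : ¬ ℓ ∣ (Ne * ∏ q ∈ Finset.univ.image qv, q ^ 2))
      (hℓS : ℓ ∉ (↑(B ∪ Finset.univ.image qv) : Set ℕ)) (i : s59w_TIdx (Ne * ∏ j, qv j)),
      i.ell = ℓ → aE (heckeAlgebra.T hℓ hℓN hℓS) = s59e_Tp' (s59t_Hmul Ne (∏ j, qv j) (⊤ : Subgroup (ZMod Ne)ˣ) (s59t_KQ (p ^ n) qv)) 𝒪 ((p ^ (0 + n) - 1) * ((p ^ (0 + n) + 1) / 2)) i)
    (ha2E : ∀ t, aE t ∈ Subring.closure (Set.range (s59e_Tp' (s59t_Hmul Ne (∏ j, qv j) (⊤ : Subgroup (ZMod Ne)ˣ) (s59t_KQ (p ^ n) qv)) 𝒪 ((p ^ (0 + n) - 1) * ((p ^ (0 + n) + 1) / 2)))))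
    (aZE : heckeAlgebra (Ne * ∏ q ∈ Finset.univ.image qv, q ^ 2) 2 (↑(B ∪ Finset.univ.image qv) : Set ℕ) →+* Module.End 𝒪 (s59t_part P'E))
    (haZE : ∀ t (z : s59t_part P'E), s59x_jZ (s59t_Hmul Ne (∏ j, qv j) (⊤ : Subgroup (ZMod Ne)ˣ) (s59t_KQ (p ^ n) qv)) ε'E P'E (aZE t z) = aE t (s59x_jZ (s59t_Hmul Ne (∏ j, qv j) (⊤ : Subgroup (ZMod Ne)ˣ) (s59t_KQ (p ^ n) qv)) ε'E P'E z))
    [IsLocalRing (s59e_adj 𝒪 aZE)]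
    (θE : DQ.R →ₐ[𝒪] s59e_adj 𝒪 aZE) (hθE : Function.Surjective θE)
    (hfrobTE : ∀ ℓ : ℕ, ℓ.Prime → ℓ ∉ (B ∪ Finset.univ.image qv) →
      ∀ A' : ValuationSubring (AlgebraicClosure ℚ), A'.LiesOverPrime ℓ →
      ∀ τ : Γℚ, A'.IsFrobeniusAt τ ℓ →
        (LinearMap.charpoly (DQ.ρ.ρ τ)).map (θE : DQ.R →+* s59e_adj 𝒪 aZE) =
          Polynomial.X ^ 2 - Polynomial.C (s59e_tOf (↑(B ∪ Finset.univ.image qv) : Set ℕ) aZE ℓ) * Polynomial.X +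
            Polynomial.C ((ℓ : s59e_adj 𝒪 aZE)))
    (hcongE : ∀ ℓ : ℕ, ℓ.Prime → ℓ ∉ (B ∪ Finset.univ.image qv) →
      s59e_tOf (↑(B ∪ Finset.univ.image qv) : Set ℕ) aZE ℓ -
        algebraMap 𝒪 (s59e_adj 𝒪 aZE) (((W.apOfModel ℓ : ℤ) : 𝒪)) ∈ maximalIdeal (s59e_adj 𝒪 aZE))
    -- the generators of the upper level
    (gE : Fin r → (s59t_BQ Ne (∏ j, qv j) (⊤ : Subgroup (ZMod Ne)ˣ) (s59t_KQ (p ^ n) qv)))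
    (hg : ∀ i, g i = s59efl_pushG hd (p ^ n) qv gE i)
    (hglocE : ∀ i, ∃ τ : Gamma0 (Ne * ∏ j, qv j),
      (QuotientGroup.mk τ : (s59t_Delta (Ne * ∏ j, qv j) (s59t_Hmul Ne (∏ j, qv j) (⊤ : Subgroup (ZMod Ne)ˣ) (s59t_KQ (p ^ n) qv)))) = (gE i : (s59t_Delta (Ne * ∏ j, qv j) (s59t_Hmul Ne (∏ j, qv j) (⊤ : Subgroup (ZMod Ne)ˣ) (s59t_KQ (p ^ n) qv)))) ∧
      ZMod.unitsMap (Nat.div_dvd_of_dvd (s59t_qv_dvd_level qv Ne i))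
        (s59t_unitHom (Ne * ∏ j, qv j) τ) = 1) :
    ∃ (_ : IsLocalRing (s59e_adj 𝒪 aZ)) (θ : DQ.R →ₐ[𝒪] s59e_adj 𝒪 aZ)
      (hθ : Function.Surjective θ)
      (hfrobT : ∀ ℓ : ℕ, ℓ.Prime → ℓ ∉ (B ∪ Finset.univ.image qv) →
      ∀ A' : ValuationSubring (AlgebraicClosure ℚ), A'.LiesOverPrime ℓ →
      ∀ τ : Γℚ, A'.IsFrobeniusAt τ ℓ →
        (LinearMap.charpoly (DQ.ρ.ρ τ)).map (θ : DQ.R →+* s59e_adj 𝒪 aZ) =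
          Polynomial.X ^ 2 - Polynomial.C (s59e_tOf (↑(B ∪ Finset.univ.image qv) : Set ℕ) aZ ℓ) * Polynomial.X +
            Polynomial.C ((ℓ : s59e_adj 𝒪 aZ)))
      (hcong : ∀ ℓ : ℕ, ℓ.Prime → ℓ ∉ (B ∪ Finset.univ.image qv) →
      s59e_tOf (↑(B ∪ Finset.univ.image qv) : Set ℕ) aZ ℓ -
        algebraMap 𝒪 (s59e_adj 𝒪 aZ) (((W.apOfModel ℓ : ℤ) : 𝒪)) ∈ maximalIdeal (s59e_adj 𝒪 aZ)),
    ∃ (hcomm : ∀ (t : heckeAlgebra (N * ∏ q ∈ Finset.univ.image qv, q ^ 2) 2 (↑(B ∪ Finset.univ.image qv) : Set ℕ)) (β : (s59t_BQ N (∏ j, qv j) (⊤ : Subgroup (ZMod N)ˣ) (s59t_KQ (p ^ n) qv))),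
        Commute (aZ t) (((s59t_partRep (s59t_partRep (s59t_rho (N * ∏ j, qv j) (s59t_Hmul N (∏ j, qv j) (⊤ : Subgroup (ZMod N)ˣ) (s59t_KQ (p ^ n) qv)) 𝒪 𝒪) hρ') hP').comp (s59t_BQ N (∏ j, qv j) (⊤ : Subgroup (ZMod N)ˣ) (s59t_KQ (p ^ n) qv)).subtype) β))
      (hTρ : ∀ (t : s59e_adj 𝒪 (s59e_aB aZ ((s59t_partRep (s59t_partRep (s59t_rho (N * ∏ j, qv j) (s59t_Hmul N (∏ j, qv j) (⊤ : Subgroup (ZMod N)ˣ) (s59t_KQ (p ^ n) qv)) 𝒪 𝒪) hρ') hP').comp (s59t_BQ N (∏ j, qv j) (⊤ : Subgroup (ZMod N)ˣ) (s59t_KQ (p ^ n) qv)).subtype) hcomm)) δ y,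
        t • (s59t_partRep (s59t_partRep (s59t_rho (N * ∏ j, qv j) (s59t_Hmul N (∏ j, qv j) (⊤ : Subgroup (ZMod N)ˣ) (s59t_KQ (p ^ n) qv)) 𝒪 𝒪) hρ') hP') δ y = (s59t_partRep (s59t_partRep (s59t_rho (N * ∏ j, qv j) (s59t_Hmul N (∏ j, qv j) (⊤ : Subgroup (ZMod N)ˣ) (s59t_KQ (p ^ n) qv)) 𝒪 𝒪) hρ') hP') δ (t • y))
      (rec : s59efl_RingRec (p := p) r σ DQ n (s59t_partRep (s59t_partRep (s59t_rho N (⊤ : Subgroup (ZMod N)ˣ) 𝒪 𝒪) hρ) hP) (s59e_adj 𝒪 aZ₀) hRρ ρR d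
        (s59t_partRep (s59t_partRep (s59t_rho (N * ∏ j, qv j) (s59t_Hmul N (∏ j, qv j) (⊤ : Subgroup (ZMod N)ˣ) (s59t_KQ (p ^ n) qv)) 𝒪 𝒪) hρ') hP') (s59t_BQ N (∏ j, qv j) (⊤ : Subgroup (ZMod N)ˣ) (s59t_KQ (p ^ n) qv)) (s59t_CQ N (∏ j, qv j) (⊤ : Subgroup (ZMod N)ˣ) (s59t_KQ (p ^ n) qv)) πK aZ hcomm hTρ h2 g θ qv),
    ∃ (_ : IsNoetherianRing (s59e_adj 𝒪 aZ))
      (_ : IsAdicComplete (maximalIdeal (s59e_adj 𝒪 aZ)) (s59e_adj 𝒪 aZ))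
      (_ : IsLocalHom (algebraMap 𝒪 (s59e_adj 𝒪 aZ)))
      (hres𝒪 : Function.Surjective (residue (s59e_adj 𝒪 aZ) ∘ algebraMap 𝒪 (s59e_adj 𝒪 aZ)))
      (hθl : IsLocalHom (θ : DQ.R →+* s59e_adj 𝒪 aZ))
      (h𝒟 : GaloisRep.strictOrdinaryCondition 𝒪 p Sg (DQ.ρ.baseChangeAlong (θ : DQ.R →+* s59e_adj 𝒪 aZ) hθl) ∧
        ∀ q ∈ Su, q.Prime → q ≠ p →
          (DQ.ρ.baseChangeAlong (θ : DQ.R →+* s59e_adj 𝒪 aZ) hθl).IsUnipotentOnInertiaAt q)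
      (hres : (DQ.ρ.baseChangeAlong (θ : DQ.R →+* s59e_adj 𝒪 aZ) hθl).residual.IsEquiv
        ((s59i_rhobarW W p hΔ 𝒪 hp𝒪).baseChangeAlong (ResidueField.map (algebraMap 𝒪 (s59e_adj 𝒪 aZ))))),
      IsReduced (s59e_adj 𝒪 aZ) ∧
      (∀ o : 𝒪, o ≠ 0 → ∀ x : s59e_adj 𝒪 aZ, algebraMap 𝒪 (s59e_adj 𝒪 aZ) o * x = 0 → x = 0) ∧
      ∀ x : DQ.R, θE x = 0 → θ x = 0 := by
  classical
  refine Classical.byContradiction fun hcontra => ?_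
  have hpP : p.Prime := Fact.out
  have hqvpr : ∀ i, (qv i).Prime := fun i => (hqv i).1
  have hqvB : ∀ i, qv i ∉ B := fun i => (hqv i).2.1
  -- the modules are finite free and nonzero
  let bZ := Module.Free.chooseBasis ℤ (s48h_M (s48h_GammaH (N * ∏ j, qv j) (s59t_Hmul N (∏ j, qv j) (⊤ : Subgroup (ZMod N)ˣ) (s59t_KQ (p ^ n) qv))))
  haveI : Module.Free 𝒪 (s48h_Hpar 𝒪 (s48h_GammaH (N * ∏ j, qv j) (s59t_Hmul N (∏ j, qv j) (⊤ : Subgroup (ZMod N)ˣ) (s59t_KQ (p ^ n) qv))) 𝒪) := Module.Free.of_basis (s59u_cB bZ 𝒪)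
  haveI : Module.Finite 𝒪 (s48h_Hpar 𝒪 (s48h_GammaH (N * ∏ j, qv j) (s59t_Hmul N (∏ j, qv j) (⊤ : Subgroup (ZMod N)ˣ) (s59t_KQ (p ^ n) qv))) 𝒪) := Module.Finite.of_basis (s59u_cB bZ 𝒪)
  haveI : Module.Finite 𝒪 (s59t_part ε') := s59t_part_finite _
  haveI : Module.Free 𝒪 (s59t_part ε') := s59t_part_free hid'
  haveI : Module.Finite 𝒪 (s59t_part P') := s59t_part_finite _
  haveI : Module.Free 𝒪 (s59t_part P') := s59t_part_free hPP'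
  have hP'ne : P' ≠ 0 := (s59t_part_ne_zero_iff _ b' hb').2 hd0
  haveI : Nontrivial (s59t_part P') := s59q_tr_range_nontrivial _ hP'ne
  let bZE := Module.Free.chooseBasis ℤ (s48h_M (s48h_GammaH (Ne * ∏ j, qv j) (s59t_Hmul Ne (∏ j, qv j) (⊤ : Subgroup (ZMod Ne)ˣ) (s59t_KQ (p ^ n) qv))))
  haveI : Module.Free 𝒪 (s48h_Hpar 𝒪 (s48h_GammaH (Ne * ∏ j, qv j) (s59t_Hmul Ne (∏ j, qv j) (⊤ : Subgroup (ZMod Ne)ˣ) (s59t_KQ (p ^ n) qv))) 𝒪) := Module.Free.of_basis (s59u_cB bZE 𝒪)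
  haveI : Module.Finite 𝒪 (s48h_Hpar 𝒪 (s48h_GammaH (Ne * ∏ j, qv j) (s59t_Hmul Ne (∏ j, qv j) (⊤ : Subgroup (ZMod Ne)ˣ) (s59t_KQ (p ^ n) qv))) 𝒪) := Module.Finite.of_basis (s59u_cB bZE 𝒪)
  haveI : Module.Finite 𝒪 (s59t_part ε'E) := s59t_part_finite _
  haveI : Module.Free 𝒪 (s59t_part ε'E) := s59t_part_free hid'E
  haveI : Module.Finite 𝒪 (s59t_part P'E) := s59t_part_finite _
  haveI : Module.Free 𝒪 (s59t_part P'E) := s59t_part_free hPP'E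
  -- the numerology of the two levels
  have hqvN : ∀ i, ¬ qv i ∣ N := fun i h => hqvB i (hNB _ (hqvpr i) h)
  have hqvNe : ∀ i, ¬ qv i ∣ Ne := fun i h => hqvB i (hNeB _ (hqvpr i) h)
  have hMeq₂ := s59k_level_eq_top qv N hqinj
  have hD₂ : ∏ q ∈ Finset.univ.image qv, q ∣ N * ∏ i, qv i := Dvd.intro_left N hMeq₂.symm
  have hQ := s59k_hQ_top qv N hqvpr hqvN
  have hMeqE := s59k_level_eq_top qv Ne hqinj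
  have hDE : ∏ q ∈ Finset.univ.image qv, q ∣ Ne * ∏ i, qv i := Dvd.intro_left Ne hMeqE.symm
  have hQE := s59k_hQ_top qv Ne hqvpr hqvNe
  have hS₂ : ∀ N : ℕ, (∀ ℓ : ℕ, ℓ.Prime → ℓ ∣ N → ℓ ∈ B) → ∀ ℓ : ℕ, ℓ.Prime →
      ℓ ∣ (N * ∏ q' ∈ Finset.univ.image qv, q' ^ 2) → ℓ ∈ (B ∪ Finset.univ.image qv) := by
    intro N hNB ℓ hℓ hℓM
    rcases (Nat.Prime.dvd_mul hℓ).mp hℓM with h | h
    · exact Finset.mem_union_left _ (hNB ℓ hℓ h)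
    · obtain ⟨q', hq', hqq'⟩ := (Prime.dvd_finsetProd_iff (Nat.prime_iff.mp hℓ) _).mp h
      obtain ⟨i, -, rfl⟩ := Finset.mem_image.mp hq'
      have hqe : ℓ = qv i := (Nat.prime_dvd_prime_iff_eq hℓ (hqvpr i)).mp (hℓ.dvd_of_dvd_pow hqq')
      rw [hqe]
      exact Finset.mem_union_right _ (Finset.mem_image_of_mem qv (Finset.mem_univ i))
  have hMS : ∀ N : ℕ, (∀ ℓ : ℕ, ℓ.Prime → ℓ ∣ N → ℓ ∈ B) → ∀ ℓ : ℕ, ℓ.Prime →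
      ℓ ∣ N * ∏ j, qv j → ℓ ∈ (B ∪ Finset.univ.image qv) := by
    intro N hNB ℓ hℓ hℓM
    rcases (Nat.Prime.dvd_mul hℓ).mp hℓM with h | h
    · exact Finset.mem_union_left _ (hNB ℓ hℓ h)
    · obtain ⟨i, -, hi⟩ := (Prime.dvd_finsetProd_iff (Nat.prime_iff.mp hℓ) _).mp h
      have hqe : ℓ = qv i := (Nat.prime_dvd_prime_iff_eq hℓ (hqvpr i)).mp hi
      rw [hqe]
      exact Finset.mem_union_right _ (Finset.mem_image_of_mem qv (Finset.mem_univ i))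
  have hnm := s59k_hnm_pow hpP hp2 (0 + n)
  have hn := s59k_ppow_mem_Hmul_top N qv p 0 n
  have hnE := s59k_ppow_mem_Hmul_top Ne qv p 0 n
  have hHker := s59k_hH_top qv N (p ^ n) hqinj rfl hD₂
  have hHkerE := s59k_hH_top qv Ne (p ^ n) hqinj rfl hDE
  have hLN : N * ∏ j, qv j ∣ Ne * ∏ j, qv j := Dvd.intro q hNe'.symm
  have h0 : Gamma0 (Ne * ∏ j, qv j) ≤ Gamma0 (N * ∏ j, qv j) := s59t_Gamma0_anti hLN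
  have hle : s48h_GammaH (Ne * ∏ j, qv j) (s59t_Hmul Ne (∏ j, qv j) (⊤ : Subgroup (ZMod Ne)ˣ) (s59t_KQ (p ^ n) qv)) ≤ s48h_GammaH (N * ∏ j, qv j) (s59t_Hmul N (∏ j, qv j) (⊤ : Subgroup (ZMod N)ˣ) (s59t_KQ (p ^ n) qv)) := hG2.le (s59f_isG_GammaH _ _)
  -- the Hecke stability of `Z'`, in submodule form
  have hεop' : ∀ x y, ε' (s59w_op (s59t_Hmul N (∏ j, qv j) (⊤ : Subgroup (ZMod N)ˣ) (s59t_KQ (p ^ n) qv)) 𝒪 x y) = s59w_op (s59t_Hmul N (∏ j, qv j) (⊤ : Subgroup (ZMod N)ˣ) (s59t_KQ (p ^ n) qv)) 𝒪 x (ε' y) :=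
    fun x y => LinearMap.congr_fun (hεc' x) y
  have hZop' : ∀ (x : s59w_AIdx (N * ∏ j, qv j)) (z : s59t_part ε'), z ∈ s59t_part P' →
      s59m_opPart (s59t_Hmul N (∏ j, qv j) (⊤ : Subgroup (ZMod N)ˣ) (s59t_KQ (p ^ n) qv)) ε' hεop' x z ∈ s59t_part P' := by
    intro x z hz
    obtain ⟨z', hz'⟩ := hZop x ⟨z, hz⟩
    have e : (z' : s59t_part ε') = s59m_opPart (s59t_Hmul N (∏ j, qv j) (⊤ : Subgroup (ZMod N)ˣ) (s59t_KQ (p ^ n) qv)) ε' hεop' x z := Subtype.ext hz'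
    rw [← e]
    exact z'.2
  -- the Galois half, transferred
  have hth := s59q_tr_theta (Ne * ∏ q ∈ Finset.univ.image qv, q ^ 2) (N * ∏ q ∈ Finset.univ.image qv, q ^ 2)
    (B ∪ Finset.univ.image qv) (hS₂ Ne hNeB) (hS₂ N hNB) aZE aZ
    (s59x_oldSub ((s59f_oldN hqL hNe' hG2 𝒪 𝒪 eq heq' heeq').restrict hc2) hst).resA
    (s59u_c2o_r_injective hqL hNe' hG2 eq heq' heeq' hc2 hst)
    (s59u_c2o_hrT hqL hNe' hG2 eq heq' heeq' hc2 hst hLN (B ∪ Finset.univ.image qv) ((p ^ (0 + n) - 1) * ((p ^ (0 + n) + 1) / 2))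
      aE ha1E aZE haZE a ha1 aZ haZ (hMS Ne hNeB))
    DQ θE hθE hfrobTE (fun ℓ => ((W.apOfModel ℓ : ℤ) : 𝒪)) hcongE
  choose f hloc θ hfs hfr hfT hθdef hθ hfrobT hcong using hth
  haveI := hloc
  have hθ₂ : ∀ x z, (s59x_oldSub ((s59f_oldN hqL hNe' hG2 𝒪 𝒪 eq heq' heeq').restrict hc2) hst).resA
        (((θ x : s59e_adj 𝒪 aZ) : Module.End 𝒪 (s59t_part P')) z) =
      ((θE x : s59e_adj 𝒪 aZE) : Module.End 𝒪 (s59t_part P'E))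
        ((s59x_oldSub ((s59f_oldN hqL hNe' hG2 𝒪 𝒪 eq heq' heeq').restrict hc2) hst).resA z) := fun x z =>
    (congrArg (fun t : s59e_adj 𝒪 aZ => (s59x_oldSub ((s59f_oldN hqL hNe' hG2 𝒪 𝒪 eq heq' heeq').restrict hc2) hst).resA
      ((t : Module.End 𝒪 (s59t_part P')) z)) (hθdef x)).trans (hfr (θE x) z)
  -- the generators
  have hgD : ∀ i, (g i : (s59t_Delta (N * ∏ j, qv j) (s59t_Hmul N (∏ j, qv j) (⊤ : Subgroup (ZMod N)ˣ) (s59t_KQ (p ^ n) qv)))) = s59t_DeltaMap2 h0 hle (gE i : (s59t_Delta (Ne * ∏ j, qv j) (s59t_Hmul Ne (∏ j, qv j) (⊤ : Subgroup (ZMod Ne)ˣ) (s59t_KQ (p ^ n) qv)))) :=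
    fun i => congrArg Subtype.val (hg i)
  -- [C8], then the record
  have hrec := Internal.s59q_tr_levelZ_rec p hp2 W hΔ N B hirr hsq hNB hpB hB2 𝒪 hp𝒪 r σ ε hεc hρ P hP d hd0
    a₀ ha1₀ aZ₀ haZ₀ hRρ ρR hfrobR hgenR n qv hqinj hqv hTW ε' hid' hεc' hP1 hρ' π₂ hιπ₂ P' hP' hPP' hZop b' hb'
    πK hπK h2 h3 h4 g hcard hgen hord hgloc DQ a ha1 ha2 aZ haZ hlocA θ hθ hfrobT hcong
    (fun hcomm hTρ => s59u_c2o_hC8 hqL hNe' hG2 eq heq' heeq' hc2 hst hLN hεop' hZop' hρ' hP' h0 hle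
      (B ∪ Finset.univ.image qv) ((p ^ (0 + n) - 1) * ((p ^ (0 + n) + 1) / 2)) (hS₂ Ne hNeB) aE ha1E ha2E aZE haZE aZ
      (s59t_BQ N (∏ j, qv j) (⊤ : Subgroup (ZMod N)ˣ) (s59t_KQ (p ^ n) qv)) (s59t_CQ N (∏ j, qv j) (⊤ : Subgroup (ZMod N)ˣ) (s59t_KQ (p ^ n) qv)) (1 : (s59t_Delta (N * ∏ j, qv j) (s59t_Hmul N (∏ j, qv j) (⊤ : Subgroup (ZMod N)ˣ) (s59t_KQ (p ^ n) qv))) →* 𝒪ˣ) hcomm hTρ p hp2 W hΔ hirr B hpB hB2 Ne (Finset.univ.image qv) hMeqE hQE rfl hDE hHkerE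
      (s59u_squarefree_level qv hsqE hNeB hqvpr hqvB hqinj) (Dvd.dvd.mul_right h23 _)
      (s59k_neg_one_mem_Hmul_top Ne (p ^ n) qv (s59k_odd_pow hpP hp2 n))
      hnm hnE rfl hp𝒪 Finset.subset_union_left (hMS Ne hNeB) DQ θE hθE hfrobTE hcongE θ hθ₂ n qv hqv
      (fun i => Finset.mem_image_of_mem qv (Finset.mem_univ i)) hTW g (s59t_BQ Ne (∏ j, qv j) (⊤ : Subgroup (ZMod Ne)ˣ) (s59t_KQ (p ^ n) qv)) gE hgD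
      (s59t_qv_dvd_level qv Ne) hglocE)
  choose hcomm hTρ hrecN using hrec
  have hrecV := Classical.choice hrecN
  -- the trace ring
  have hT := s59x_trace_factsZ p hp2 W hΔ B hirr hpB hB2 𝒪 hp𝒪 (s59x_locCond_ord p hp2) Sg Su DQ aZ hlocA θ hθ
    (B ∪ Finset.univ.image qv) Finset.subset_union_left (s59e_tOf _ aZ) hfrobT hcong
  choose hlh hθl hT2 using hT
  have hred : IsReduced (s59e_adj 𝒪 aZ) :=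
    s59efl_adj_reduced (s59t_Hmul N (∏ j, qv j) (⊤ : Subgroup (ZMod N)ˣ) (s59t_KQ (p ^ n) qv)) (s59x_jZ (s59t_Hmul N (∏ j, qv j) (⊤ : Subgroup (ZMod N)ˣ) (s59t_KQ (p ^ n) qv)) ε' P') (s59x_jZ_injective _ _ _)
      a ((p ^ (0 + n) - 1) * ((p ^ (0 + n) + 1) / 2)) ha2 aZ haZ N (Finset.univ.image qv) hMeq₂ hQ rfl hD₂ hHker hnm hn
  have htf : ∀ o : 𝒪, o ≠ 0 → ∀ x : s59e_adj 𝒪 aZ, algebraMap 𝒪 (s59e_adj 𝒪 aZ) o * x = 0 → x = 0 := by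
    haveI : NoZeroSMulDivisors 𝒪 (s59t_part P') :=
      ⟨fun {o y} h => or_iff_not_imp_left.mpr fun ho => by
        have h1 : o • (y : s59t_part ε') = 0 := congrArg Subtype.val h
        exact Subtype.ext (s59efl_part_torsionfree _ _ o ho _ h1)⟩
    exact fun o ho x h => s59efl_adj_torsionfree aZ o ho x h
  have hθκ : ∀ x : DQ.R, θE x = 0 → θ x = 0 := fun x hx =>
    (hθdef x).trans ((congrArg f hx).trans (_root_.map_zero f))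
  exact hcontra ⟨hloc, θ, hθ, hfrobT, hcong, hcomm, hTρ, hrecV, hT2.1, hT2.2.1, hlh, hT2.2.2.1, hθl, hT2.2.2.2.2,
    hT2.2.2.2.1, hred, htf, hθκ⟩

end Fermat.Agent.Lib.S59

end
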