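/-
PROGRAMME (R2) = S59, plan [C2P] (the field `finP2X`), the ODD level package, file D (helper3, prefix `s59u_c2o_`):
**THE `q`-PACKAGE BETWEEN THE TAYLOR–WILES LEVELS `N₂ ∏qv` (LOWER, in [C2P] odd) AND `Ne₂ ∏qv` (UPPER, `Ne₂ = N₂ q`), AND THE STABILITY OF THE
KERNEL PAIRS** — the numerology needed to call helper7's `s59x_stable_of_mem` (NXConcSt.lean) with levels given by propositional equalities
(`N₂ = N p`, `Ne = N q`, `Ne₂ = Ne p`), in a small context.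

* `s59u_c2o_hNe'`, `s59u_c2o_hNq` : the level identities;
* `s59u_c2o_isG'_Hmul` : `Γ_{⊤ × K}(A' D)` is a group `G'` for `(A D, q, ⊤ × K)`, `A' = A q` (helper4's `s59f_isG'_Hmul` along an equality);
* `s59u_c2o_not_dvd` : `q ∤ A ∏qv` for `q ∈ B`, `q ∤ A`;
* **`s59u_c2o_stable`** : the kernel pairs of the two `p`-levels are stable under the `q`-package (`s59x_stable_of_mem` with the `q`-package of the
  `p`-free levels produced here: `s59u_c2o_isG'_Hmul`, `s59x_hee_descend`).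
-/
import Mathlib
import Fermat.Agent.Lib.S59.NXConcSt
import Fermat.Agent.Lib.S59.FEps7
import Fermat.Agent.Lib.S59.EFlrGen

set_option autoImplicit false
set_option linter.unusedSectionVars false
set_option linter.unusedVariables false
set_option linter.style.haveILetI false
set_option synthInstance.maxHeartbeats 400000
set_option maxSynthPendingDepth 3
set_option maxHeartbeats 1600000

noncomputable section

namespace Fermat.Agent.Lib.S59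

open Matrix MatrixGroups CongruenceSubgroup IsLocalRing
open Fermat.Agent.Lib.S29 Fermat.Agent.Lib.S48 Fermat.Agent.Lib.S41

section Num

variable {p q N N₂ Ne Ne₂ D : ℕ}

theorem s59u_c2o_hNe' (hN₂ : N₂ = N * p) (hNe : Ne = N * q) (hNe₂ : Ne₂ = Ne * p) :
    Ne₂ * D = N₂ * D * q := by
  rw [hNe₂, hNe, hN₂]
  ring

theorem s59u_c2o_hNq (hNe : Ne = N * q) : Ne * D = N * D * q := by
  rw [hNe]
  ring

/-- `q ∤ A ∏qv` for a prime `q ∈ B` not dividing `A`, the `qv i` being primes outside `B`. -/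
theorem s59u_c2o_not_dvd {A : ℕ} {r : ℕ} (qv : Fin r → ℕ) (B : Finset ℕ) (hq : q.Prime) (hqB : q ∈ B)
    (hqA : ¬ q ∣ A) (hqv : ∀ i, (qv i).Prime ∧ qv i ∉ B) : ¬ q ∣ A * ∏ j, qv j := by
  intro h
  rcases (Nat.Prime.dvd_mul hq).mp h with h | h
  · exact hqA h
  · obtain ⟨i, -, hi⟩ := (Prime.dvd_finsetProd_iff (Nat.prime_iff.mp hq) _).mp h
    have hqe : q = qv i := (Nat.prime_dvd_prime_iff_eq hq (hqv i).1).mp hi
    exact (hqv i).2 (hqe ▸ hqB)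

end Num

section G

variable {q : ℕ} [hq : Fact q.Prime] {A A' D : ℕ} [NeZero A] [NeZero A'] [NeZero (A * D)] [NeZero (A' * D)]

/-- **`Γ_{⊤ × K}(A' D)` is a group `G'` for `(A D, q, ⊤ × K)`, `A' = A q`.** -/
theorem s59u_c2o_isG'_Hmul (hA' : A' = A * q) (hqL : ¬ q ∣ A * D) (K : Subgroup (ZMod D)ˣ) :
    s59f_IsG' (A * D) q (s59t_Hmul A D (⊤ : Subgroup (ZMod A)ˣ) K)
      (s48h_GammaH (A' * D) (s59t_Hmul A' D (⊤ : Subgroup (ZMod A')ˣ) K)) := by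
  subst hA'
  exact s59f_isG'_Hmul hqL ⊤ ⊤ (fun u => ⟨fun _ => Subgroup.mem_top _, fun _ => Subgroup.mem_top _⟩) K

end G

section Stab

variable {p : ℕ} [hp : Fact p.Prime] {q : ℕ} [hq : Fact q.Prime]
  {N N₂ Ne Ne₂ : ℕ} [NeZero N] [NeZero N₂] [NeZero Ne] [NeZero Ne₂]
  {r : ℕ} (P : ℕ) (qv : Fin r → ℕ) [NeZero (∏ j, qv j)]
  [NeZero (N * ∏ j, qv j)] [NeZero (N₂ * ∏ j, qv j)] [NeZero (Ne * ∏ j, qv j)] [NeZero (Ne₂ * ∏ j, qv j)]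

/-- **the kernel pairs of the Taylor–Wiles levels `N₂ ∏qv`, `Ne₂ ∏qv` are stable under the `q`-package.** -/
theorem s59u_c2o_stable (hNN₂ : N ∣ N₂) (hNeNe₂ : Ne ∣ Ne₂) (hNe : Ne = N * q)
    (hpL : ¬ p ∣ N * ∏ j, qv j) (hqL₀ : ¬ q ∣ N * ∏ j, qv j) (hpLE : ¬ p ∣ Ne * ∏ j, qv j)
    (hqL : ¬ q ∣ N₂ * ∏ j, qv j)
    (hN' : N₂ * ∏ j, qv j = N * (∏ j, qv j) * p) (hN'E : Ne₂ * ∏ j, qv j = Ne * (∏ j, qv j) * p)
    (hG' : s59f_IsG' (N * ∏ j, qv j) p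
      (s59t_Hmul N (∏ j, qv j) (⊤ : Subgroup (ZMod N)ˣ) (s59t_KQ P qv))
      (s48h_GammaH (N₂ * ∏ j, qv j) (s59t_Hmul N₂ (∏ j, qv j) (⊤ : Subgroup (ZMod N₂)ˣ) (s59t_KQ P qv))))
    (hG'E : s59f_IsG' (Ne * ∏ j, qv j) p
      (s59t_Hmul Ne (∏ j, qv j) (⊤ : Subgroup (ZMod Ne)ˣ) (s59t_KQ P qv))
      (s48h_GammaH (Ne₂ * ∏ j, qv j) (s59t_Hmul Ne₂ (∏ j, qv j) (⊤ : Subgroup (ZMod Ne₂)ˣ) (s59t_KQ P qv))))
    (R : Type*) [CommRing R]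
    (e₀ : SL(2, ℤ)) (he' : e₀ ∈ Gamma0 (N₂ * ∏ j, qv j)) (he'E : e₀ ∈ Gamma0 (Ne₂ * ∏ j, qv j))
    (hee : s59f_gW hpL * e₀ * e₀ ∈ s48h_GammaH (N₂ * ∏ j, qv j)
      (s59t_Hmul N₂ (∏ j, qv j) (⊤ : Subgroup (ZMod N₂)ˣ) (s59t_KQ P qv)))
    (heeE : s59f_gW hpLE * e₀ * e₀ ∈ s48h_GammaH (Ne₂ * ∏ j, qv j)
      (s59t_Hmul Ne₂ (∏ j, qv j) (⊤ : Subgroup (ZMod Ne₂)ˣ) (s59t_KQ P qv)))
    (hNe' : Ne₂ * ∏ j, qv j = N₂ * (∏ j, qv j) * q)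
    (hG2 : s59f_IsG' (N₂ * ∏ j, qv j) q
      (s59t_Hmul N₂ (∏ j, qv j) (⊤ : Subgroup (ZMod N₂)ˣ) (s59t_KQ P qv))
      (s48h_GammaH (Ne₂ * ∏ j, qv j) (s59t_Hmul Ne₂ (∏ j, qv j) (⊤ : Subgroup (ZMod Ne₂)ˣ) (s59t_KQ P qv))))
    (eq : SL(2, ℤ)) (heq' : eq ∈ Gamma0 (Ne₂ * ∏ j, qv j))
    (heeq' : s59f_gW hqL * eq * eq ∈ s48h_GammaH (Ne₂ * ∏ j, qv j)
      (s59t_Hmul Ne₂ (∏ j, qv j) (⊤ : Subgroup (ZMod Ne₂)ˣ) (s59t_KQ P qv)))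
    {ε₁' : Module.End R (s48h_Hpar R (s48h_GammaH (N * ∏ j, qv j)
      (s59t_Hmul N (∏ j, qv j) (⊤ : Subgroup (ZMod N)ˣ) (s59t_KQ P qv))) R)}
    {ε' : Module.End R (s48h_Hpar R (s48h_GammaH (N₂ * ∏ j, qv j)
      (s59t_Hmul N₂ (∏ j, qv j) (⊤ : Subgroup (ZMod N₂)ˣ) (s59t_KQ P qv))) R)}
    {ε₁'E : Module.End R (s48h_Hpar R (s48h_GammaH (Ne * ∏ j, qv j)
      (s59t_Hmul Ne (∏ j, qv j) (⊤ : Subgroup (ZMod Ne)ˣ) (s59t_KQ P qv))) R)}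
    {ε'E : Module.End R (s48h_Hpar R (s48h_GammaH (Ne₂ * ∏ j, qv j)
      (s59t_Hmul Ne₂ (∏ j, qv j) (⊤ : Subgroup (ZMod Ne₂)ˣ) (s59t_KQ P qv))) R)}
    (hc' : (s59f_oldN hpL hN' hG' R R e₀ he' hee).Compat ε₁' ε')
    (hc'E : (s59f_oldN hpLE hN'E hG'E R R e₀ he'E heeE).Compat ε₁'E ε'E)
    (hc2 : (s59f_oldN hqL hNe' hG2 R R eq heq' heeq').Compat ε' ε'E)
    (P' : Module.End R (s59t_part ε')) (P'E : Module.End R (s59t_part ε'E))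
    (hmem' : ∀ x : s59t_part ε', x ∈ s59t_part P' ↔
      ((s59f_oldN hpL hN' hG' R R e₀ he' hee).restrict hc').corA x = 0 ∧
      ((s59f_oldN hpL hN' hG' R R e₀ he' hee).restrict hc').corB x = 0)
    (hmem'E : ∀ x : s59t_part ε'E, x ∈ s59t_part P'E ↔
      ((s59f_oldN hpLE hN'E hG'E R R e₀ he'E heeE).restrict hc'E).corA x = 0 ∧
      ((s59f_oldN hpLE hN'E hG'E R R e₀ he'E heeE).restrict hc'E).corB x = 0) :
    s59x_OldStable ((s59f_oldN hqL hNe' hG2 R R eq heq' heeq').restrict hc2)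
      (s59t_part P') (s59t_part P'E) := by
  have hNq : Ne * ∏ j, qv j = N * (∏ j, qv j) * q := s59u_c2o_hNq hNe
  have hGq := s59u_c2o_isG'_Hmul (A := N) (A' := Ne) (D := ∏ j, qv j) hNe hqL₀ (s59t_KQ P qv)
  have hdE : Ne * ∏ j, qv j ∣ Ne₂ * ∏ j, qv j := s59efl_dvdD hNeNe₂ qv
  have hdo : N * ∏ j, qv j ∣ N₂ * ∏ j, qv j := s59efl_dvdD hNN₂ qv
  have heq : eq ∈ Gamma0 (Ne * ∏ j, qv j) := s59t_Gamma0_anti hdE heq'
  have hleE := s59efl_GammaHmul_anti hNeNe₂ P qv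
  have heeq : s59f_gW hqL₀ * eq * eq ∈ s48h_GammaH (Ne * ∏ j, qv j)
      (s59t_Hmul Ne (∏ j, qv j) (⊤ : Subgroup (ZMod Ne)ˣ) (s59t_KQ P qv)) :=
    s59x_hee_descend hqL₀ hqL hdo hGq hleE heeq'
  exact s59x_stable_of_mem (hpL := hpL) (hqL := hqL₀) (hpNq := hpLE) (hqNp := hqL) (hNp := hN') (hNq := hNq)
    (hNpq_p := hN'E) (hNpq_q := hNe') (hGp := hG') (hGq := hGq) (hGpq_p := hG'E) (hGpq_q := hG2)
    (R := R) (ep := e₀) (hep := he') (hep' := he'E) (heep := hee) (heep' := heeE)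
    (eq := eq) (heq := heq) (heq' := heq') (heeq := heeq) (heeq' := heeq')
    hc' hc'E hc2 P' P'E hmem' hmem'E

end Stab

end Fermat.Agent.Lib.S59

end
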