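/-
PROGRAMME (R2) = S59, plan [C2P] (the field `liftC2p`), leaf [TRANSFER], file C (helper6, prefix `s59q_tr_`):
**[UNR] — THE TRANSFERRED GALOIS HALF OF AN ODD LEVEL IS UNRAMIFIED AT EVERY PRIME NOT DIVIDING THE LEVEL** (in particular at the first
raising prime `2`): the field `hunr0` of `s59b_TLevelFW` / the hypothesis `hunr` of the assembly at the odd base level.

The Galois half `θ : DQ.R ↠ 𝒪[aZ]` of the odd kernel part `Z` is IMPORTED from the even level (`s59q_tr_theta`), so nothing is known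
natively about the ramification of `DQ.ρ ⊗_θ 𝒪[aZ]` at `2`.  But the FULL part `range ε ⊇ Z` of the odd level carries helper5's native
Hecke half `s59e_H3HeckeConcl M' S a₀ ε cT ρ̄` (`Hd`, `Ψ`; level-generic: helper9's `s59m_H3_hecke_full`), whose representation `Hd.ρ`
is unramified at every `q ∤ M' p` (`s59e_hecke_unram'`).  Both representations over `𝒪[aZ]` have the Frobenius polynomials
`X² − tOf ℓ · X + ℓ`, `ℓ ∉ S`; by [CHAR-UNIQ] + Carayol they are equivalent; so `DQ.ρ ⊗_θ 𝒪[aZ]` is unramified at `q`, and `θ` kills the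
coefficients `f (ρ(σ) v − v)`, `σ ∈ I_q`.

* `s59q_tr_isEquiv_of_frob` : same Frobenius characteristic polynomials outside `S` + residually absolutely irreducible ⟹ equivalent;
* `s59q_tr_unram_of_isEquiv`: unramifiedness is invariant under equivalence;
* `s59q_tr_kill_of_unram`   : `ρ ⊗_φ B` unramified at `q` ⟹ `φ (f (ρ(σ) v − v)) = 0` for `σ ∈ I_q`;
* **`s59q_tr_hunr`**        : the statement above.
-/
import Mathlib
import Fermat.Agent.Lib.S59.QTrA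
import Fermat.Agent.Lib.S59.KChar
import Fermat.Agent.Lib.S59.FLiftC
import Fermat.Agent.Lib.S59.EFlrB2
import Fermat.Agent.Lib.S59.EHType
import Fermat.Agent.Lib.S59.EHHalf
import Fermat.Agent.Lib.S59.EAbsIrr
import Fermat.Agent.Lib.S59.BDQRes
import Fermat.Agent.Lib.S59.ETWRes

set_option autoImplicit false
set_option linter.unusedSectionVars false
set_option linter.unusedVariables false
set_option linter.style.haveILetI false
set_option maxHeartbeats 1600000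
set_option synthInstance.maxHeartbeats 400000

noncomputable section

namespace Fermat.Agent.Lib.S59

open IsLocalRing Polynomial CuspForm

local notation "Qbar" => AlgebraicClosure ℚ
local notation "GQ" => (AlgebraicClosure ℚ ≃ₐ[ℚ] AlgebraicClosure ℚ)

/-! ### Abstract lemmas -/

section Abs

variable {T : Type} [CommRing T] [IsLocalRing T]

/-- **same Frobenius polynomials ⟹ equivalent** ([CHAR-UNIQ] + Carayol). -/
theorem s59q_tr_isEquiv_of_frob [IsNoetherianRing T] (ρ₁ ρ₂ : GaloisRepAdic T) (S : Finset ℕ)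
    (h : ∀ ℓ : ℕ, ℓ.Prime → ℓ ∉ S → ∀ P : ValuationSubring Qbar, P.LiesOverPrime ℓ →
      ∀ σ : GQ, P.IsFrobeniusAt σ ℓ → (ρ₁.ρ σ).charpoly = (ρ₂.ρ σ).charpoly)
    (h₁ : ρ₁.residual.IsAbsolutelyIrreducible) (h₂ : ρ₂.residual.IsAbsolutelyIrreducible) :
    ρ₁.IsEquiv ρ₂ :=
  s59f_carayol ρ₁ ρ₂ h₁ h₂ fun g => by
    unfold s59i_cpTr
    rw [s59k_charpoly_unique' ρ₁ ρ₂ S h g]

/-- unramifiedness is invariant under equivalence. -/
theorem s59q_tr_unram_of_isEquiv (ρ₁ ρ₂ : GaloisRepAdic T) (e : ρ₁.IsEquiv ρ₂) (q : ℕ)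
    (h : ρ₂.IsUnramifiedAt q) : ρ₁.IsUnramifiedAt q := by
  obtain ⟨e'⟩ := e
  intro P hP σ hσ
  refine LinearMap.ext fun x => ?_
  apply e'.toLinearEquiv.injective
  rw [e'.map_apply, h P hP σ hσ]
  rfl

/-- `ρ ⊗_φ B` unramified at `q` ⟹ `φ` kills the coefficients `f (ρ(σ) v − v)`, `σ ∈ I_q`. -/
theorem s59q_tr_kill_of_unram {A : Type} [CommRing A] [IsLocalRing A] (φ : A →+* T)
    (hφ : IsLocalHom φ) (ρ : GaloisRepAdic A) (q : ℕ)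
    (h : (ρ.baseChangeAlong φ hφ).IsUnramifiedAt q) :
    ∀ P : ValuationSubring Qbar, P.LiesOverPrime q → ∀ σ ∈ P.inertiaSubgroupIn ℚ,
      ∀ (f : Module.Dual A ρ.V) (v : ρ.V), φ (f (ρ.ρ σ v - v)) = 0 :=
  fun P hP σ hσ f v => s59efl_bc_kill φ hφ ρ σ (h P hP σ hσ) f v

end Abs

/-! ### [UNR] at the odd level -/

section Unr

variable {p : ℕ} [Fact p.Prime] (M' : ℕ) [NeZero M'] [Fact (HasIntegralStructure M' 2)]
  (S : Finset ℕ)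
  {𝒪 : Type} [CommRing 𝒪] [IsDomain 𝒪] [IsDiscreteValuationRing 𝒪]
  [IsAdicComplete (maximalIdeal 𝒪) 𝒪] [Finite (ResidueField 𝒪)] [CharZero 𝒪]
  {Y : Type} [AddCommGroup Y] [Module 𝒪 Y] [Module.Free 𝒪 Y] [Module.Finite 𝒪 Y]

/-- **[TRANSFER], [UNR]: the Galois half of a Hecke submodule `Z` of the full part `range ε` is unramified at every prime `q ∤ M' p`.** -/
theorem s59q_tr_hunr (hp𝒪 : (p : 𝒪) ∈ maximalIdeal 𝒪) (hpS : p ∈ S)
    (hS : ∀ q : ℕ, q.Prime → q ∣ M' → q ∈ S)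
    (a₀ : heckeAlgebra M' 2 (↑S : Set ℕ) →+* Module.End 𝒪 Y) (ε : Module.End 𝒪 Y) (cT : ℕ → 𝒪)
    (ρbar : ResidualGaloisRep (ResidueField 𝒪))
    (hH3 : s59e_H3HeckeConcl M' S a₀ ε cT ρbar)
    -- the Hecke submodule
    {Z : Type} [AddCommGroup Z] [Module 𝒪 Z] [Module.Finite 𝒪 Z] [Module.Free 𝒪 Z]
    (jZ : Z →ₗ[𝒪] Y) (hjZ : Function.Injective jZ) (hjε : ∀ z, jZ z ∈ LinearMap.range ε)
    (aZ : heckeAlgebra M' 2 (↑S : Set ℕ) →+* Module.End 𝒪 Z)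
    (haZ : ∀ t z, jZ (aZ t z) = a₀ t (jZ z))
    [IsLocalRing (s59e_adj 𝒪 aZ)]
    -- the Galois half of `Z`
    {ρbar' : ResidualGaloisRep (ResidueField 𝒪)}
    {𝒟 : ∀ ⦃A : Type⦄ [CommRing A] [IsLocalRing A] [Algebra 𝒪 A], GaloisRepAdic A → Prop}
    (DQ : GaloisRep.DeformationRingData 𝒪 ρbar' 𝒟)
    (θ : DQ.R →ₐ[𝒪] s59e_adj 𝒪 aZ) (hθ : Function.Surjective θ)
    (hfrobT : ∀ ℓ : ℕ, ℓ.Prime → ℓ ∉ S →
      ∀ A' : ValuationSubring Qbar, A'.LiesOverPrime ℓ →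
      ∀ τ : GQ, A'.IsFrobeniusAt τ ℓ →
        (LinearMap.charpoly (DQ.ρ.ρ τ)).map (θ : DQ.R →+* s59e_adj 𝒪 aZ) =
          X ^ 2 - C (s59e_tOf (↑S : Set ℕ) aZ ℓ) * X + C ((ℓ : s59e_adj 𝒪 aZ)))
    (q : ℕ) (hq : q.Prime) (hqp : q ≠ p) (hqM : ¬ q ∣ M') :
    ∀ P : ValuationSubring Qbar, P.LiesOverPrime q → ∀ σ ∈ P.inertiaSubgroupIn ℚ,
      ∀ (f : Module.Dual DQ.R DQ.ρ.V) (v : DQ.ρ.V), θ (f (DQ.ρ.ρ σ v - v)) = 0 := by
  classical
  obtain ⟨aM, haM, hlr, hlh, θh, Hd, Ψ, hΨ, hπ, hres, hθc, hΨs, hΨπ, hresE, hfrobH⟩ := hH3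
  haveI := hlr
  -- the inclusion of `Z` into the full part
  obtain ⟨r, hrdef⟩ : ∃ r : Z →ₗ[𝒪] LinearMap.range ε, ∀ z, ((r z : LinearMap.range ε) : Y) = jZ z :=
    ⟨jZ.codRestrict (LinearMap.range ε) hjε, fun _ => rfl⟩
  have hr : Function.Injective r := fun z z' h => hjZ (by rw [← hrdef, ← hrdef, h])
  have hrT : ∀ (ℓ : ℕ) (hℓ : ℓ.Prime) (h₁ : ¬ ℓ ∣ M') (h₂ : ¬ ℓ ∣ M') (hℓS : ℓ ∉ (↑S : Set ℕ)) z,
      r (aZ (heckeAlgebra.T hℓ h₂ hℓS) z) = aM (heckeAlgebra.T hℓ h₁ hℓS) (r z) := by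
    intro ℓ hℓ h₁ h₂ hℓS z
    apply Subtype.ext
    rw [hrdef, haM, hrdef, haZ]
  obtain ⟨f, hfs, hfr, hfT⟩ := s59q_tr_hom_tOf M' M' S hS hS aM aZ r hr hrT
  have hfl : IsLocalHom (f : s59e_adj 𝒪 aM →+* s59e_adj 𝒪 aZ) :=
    Function.Surjective.isLocalHom _ hfs
  have hθl : IsLocalHom (θ : DQ.R →+* s59e_adj 𝒪 aZ) := Function.Surjective.isLocalHom _ hθ
  haveI : IsNoetherianRing (s59e_adj 𝒪 aZ) := s59e_adj_noeth aZ
  -- the native representation is unramified at `q`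
  have hun : (((Hd.ρ.baseChangeAlong (Ψ : heckeLocal M' (↑S : Set ℕ) 𝒪 θh →+* s59e_adj 𝒪 aM)
      hΨ).baseChangeAlong (f : s59e_adj 𝒪 aM →+* s59e_adj 𝒪 aZ) hfl)).IsUnramifiedAt q :=
    s59e_bc_unram _ _ _ q (s59e_bc_unram _ _ _ q (s59e_hecke_unram' Hd hp𝒪 hpS hS q hq hqp hqM))
  -- the Frobenius polynomials agree
  have hcp : ∀ ℓ : ℕ, ℓ.Prime → ℓ ∉ S → ∀ P : ValuationSubring Qbar, P.LiesOverPrime ℓ →
      ∀ σ : GQ, P.IsFrobeniusAt σ ℓ →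
        ((DQ.ρ.baseChangeAlong (θ : DQ.R →+* s59e_adj 𝒪 aZ) hθl).ρ σ).charpoly =
          ((((Hd.ρ.baseChangeAlong (Ψ : heckeLocal M' (↑S : Set ℕ) 𝒪 θh →+* s59e_adj 𝒪 aM)
            hΨ).baseChangeAlong (f : s59e_adj 𝒪 aM →+* s59e_adj 𝒪 aZ) hfl)).ρ σ).charpoly := by
    intro ℓ hℓ hℓS P hP σ hσ
    have hℓS' : ℓ ∉ (↑S : Set ℕ) := fun h => hℓS (Finset.mem_coe.mp h)
    have hℓM : ¬ ℓ ∣ M' := fun h => hℓS (hS ℓ hℓ h)
    rw [s59e_bc_charpoly, hfrobT ℓ hℓ hℓS P hP σ hσ, s59e_bc_charpoly,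
      hfrobH ℓ hℓ hℓM hℓS' P hP σ hσ]
    simp only [Polynomial.map_add, Polynomial.map_sub, Polynomial.map_mul, Polynomial.map_pow,
      Polynomial.map_X, Polynomial.map_C]
    have h0 : (f : s59e_adj 𝒪 aM →+* s59e_adj 𝒪 aZ) ((ℓ : ℕ) : s59e_adj 𝒪 aM) =
        ((ℓ : ℕ) : s59e_adj 𝒪 aZ) := map_natCast _ ℓ
    have h1 := hfT ℓ hℓ hℓS
    rw [s59e_tOf_eq _ aM hℓ hℓM hℓS'] at h1
    rw [h0, ← h1]
    rfl
  -- Carayol
  have he := s59q_tr_isEquiv_of_frob _ _ S hcp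
    (s59e_bc_absIrr _ hθl DQ.ρ (s59b_DQ_residual_absIrr DQ))
    (s59e_bc_absIrr _ hfl _ (s59e_bc_absIrr _ hΨ Hd.ρ Hd.residual_absIrr))
  have hu₁ := s59q_tr_unram_of_isEquiv _ _ he q hun
  exact s59q_tr_kill_of_unram (θ : DQ.R →+* s59e_adj 𝒪 aZ) hθl DQ.ρ q hu₁

end Unr

end Fermat.Agent.Lib.S59
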