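/-
PROGRAMME (R2) = S59, plan [C2P] (the field `finP2X`), the ODD level package, file G0 (helper3, prefix `s59u_c2o_`):
**[UNR] ON THE KERNEL PAIR OF A TAYLOR–WILES LEVEL**: the Galois half `θ : DQ.R ↠ 𝒪[aZ]` of the kernel pair `Z' = part P'` of the level
`(N₂ ∏qv, ⊤ × K_Q)` kills the inertia coefficients at every prime `q' ∈ B`, `q' ≠ p`, `q' ∤ N₂` (in [C2P]: the raising primes at the
ODD chain index `0`) — helper6's `s59q_tr_hunr` (QTrC) over helper9's `s59m_TW_H3hecke` (MOddHecke), after identifying the two Hecke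
actions on the ambient module (`s59u_c2o_hecke_hom_ext`).
-/
import Mathlib
import Fermat.Agent.Lib.S59.QTrC
import Fermat.Agent.Lib.S59.MOddHecke
import Fermat.Agent.Lib.S59.UC2OddE
import Fermat.Agent.Lib.S59.NXKerH1

set_option autoImplicit false
set_option linter.unusedSectionVars false
set_option linter.unusedVariables false
set_option linter.style.haveILetI false
set_option maxHeartbeats 0
set_option synthInstance.maxHeartbeats 400000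
set_option maxSynthPendingDepth 3

noncomputable section

namespace Fermat.Agent.Lib.S59

open IsLocalRing Polynomial CuspForm CongruenceSubgroup
open Fermat.Agent.Lib.S29 Fermat.Agent.Lib.S41 Fermat.Agent.Lib.S48
open scoped MatrixGroups

local notation "Qbar" => AlgebraicClosure ℚ
local notation "GQ" => (AlgebraicClosure ℚ ≃ₐ[ℚ] AlgebraicClosure ℚ)

/-- **[UNR] on the kernel pair of a Taylor–Wiles level.** -/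
theorem s59u_c2o_hunr {p : ℕ} [Fact p.Prime]
    {𝒪 : Type} [CommRing 𝒪] [IsDomain 𝒪] [IsDiscreteValuationRing 𝒪]
    [IsAdicComplete (maximalIdeal 𝒪) 𝒪] [Finite (ResidueField 𝒪)] [CharZero 𝒪] [Algebra ℤ_[p] 𝒪]
    {B : Finset ℕ} (c : ℕ → ℤ)
    (hp2 : p ≠ 2) (hp𝒪 : (p : 𝒪) ∈ maximalIdeal 𝒪) (hpB : p ∈ B)
    (N₂ : ℕ) [NeZero N₂] (hNB₂ : ∀ q : ℕ, q.Prime → q ∣ N₂ → q ∈ B)
    (n : ℕ) {r : ℕ} (qv : Fin r → ℕ) [NeZero (∏ j, qv j)] [NeZero (N₂ * ∏ j, qv j)]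
    [NeZero (N₂ * ∏ q ∈ Finset.univ.image qv, q ^ 2)]
    [Fact (HasIntegralStructure (N₂ * ∏ q ∈ Finset.univ.image qv, q ^ 2) 2)]
    (hqinj : Function.Injective qv) (hqvpr : ∀ i, (qv i).Prime) (hqvB : ∀ i, qv i ∉ B)
    (ε : Module.End 𝒪 (s48h_Hpar 𝒪 (s48h_GammaH (N₂ * ∏ j, qv j)
      (s59t_Hmul N₂ (∏ j, qv j) (⊤ : Subgroup (ZMod N₂)ˣ) (s59t_KQ (p ^ n) qv))) 𝒪))
    (hε : ε * ε = ε) (hε0 : ε ≠ 0)
    (hεc : ∀ x, ε * s59w_op (s59t_Hmul N₂ (∏ j, qv j) (⊤ : Subgroup (ZMod N₂)ˣ) (s59t_KQ (p ^ n) qv)) 𝒪 x =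
      s59w_op (s59t_Hmul N₂ (∏ j, qv j) (⊤ : Subgroup (ZMod N₂)ˣ) (s59t_KQ (p ^ n) qv)) 𝒪 x * ε)
    (hnil : ∀ x ∈ s59t_goodB (N₂ * ∏ j, qv j) B, ∃ k : ℕ,
      ∀ y : s48h_Hpar 𝒪 (s48h_GammaH (N₂ * ∏ j, qv j)
        (s59t_Hmul N₂ (∏ j, qv j) (⊤ : Subgroup (ZMod N₂)ˣ) (s59t_KQ (p ^ n) qv))) 𝒪,
      ((s59w_op (s59t_Hmul N₂ (∏ j, qv j) (⊤ : Subgroup (ZMod N₂)ˣ) (s59t_KQ (p ^ n) qv)) 𝒪 x -
        s59t_cB (𝒪 := 𝒪) (N₂ * ∏ j, qv j) c x •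
        (1 : Module.End 𝒪 (s48h_Hpar 𝒪 (s48h_GammaH (N₂ * ∏ j, qv j)
          (s59t_Hmul N₂ (∏ j, qv j) (⊤ : Subgroup (ZMod N₂)ˣ) (s59t_KQ (p ^ n) qv))) 𝒪))) ^ k) (ε y) ∈
        (maximalIdeal 𝒪 • ⊤ : Submodule 𝒪 (s48h_Hpar 𝒪 (s48h_GammaH (N₂ * ∏ j, qv j)
          (s59t_Hmul N₂ (∏ j, qv j) (⊤ : Subgroup (ZMod N₂)ˣ) (s59t_KQ (p ^ n) qv))) 𝒪)))
    (ρbar : ResidualGaloisRep (ResidueField 𝒪)) (habs : ρbar.IsAbsolutelyIrreducible)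
    (hEig : ∀ ℓ : ℕ, ℓ.Prime → ℓ ∉ (B ∪ Finset.univ.image qv) →
      ∀ A : ValuationSubring Qbar, A.LiesOverPrime ℓ →
      ∀ σ : GQ, A.IsFrobeniusAt σ ℓ →
        LinearMap.charpoly (ρbar.ρ σ) = X ^ 2 - C (residue 𝒪 ((c ℓ : ℤ) : 𝒪)) * X +
          C ((ℓ : ResidueField 𝒪)))
    -- the kernel pair and its Hecke ring
    (P' : Module.End 𝒪 (s59t_part ε)) (hPP' : P' * P' = P')
    (a : heckeAlgebra (N₂ * ∏ q ∈ Finset.univ.image qv, q ^ 2) 2 (↑(B ∪ Finset.univ.image qv) : Set ℕ) →+*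
      Module.End 𝒪 (s48h_Hpar 𝒪 (s48h_GammaH (N₂ * ∏ j, qv j)
        (s59t_Hmul N₂ (∏ j, qv j) (⊤ : Subgroup (ZMod N₂)ˣ) (s59t_KQ (p ^ n) qv))) 𝒪))
    (ha1 : ∀ (ℓ : ℕ) (hℓ : ℓ.Prime) (hℓN : ¬ ℓ ∣ (N₂ * ∏ q ∈ Finset.univ.image qv, q ^ 2))
      (hℓS : ℓ ∉ (↑(B ∪ Finset.univ.image qv) : Set ℕ)) (i : s59w_TIdx (N₂ * ∏ j, qv j)),
      i.ell = ℓ → a (heckeAlgebra.T hℓ hℓN hℓS) =
        s59e_Tp' (s59t_Hmul N₂ (∏ j, qv j) (⊤ : Subgroup (ZMod N₂)ˣ) (s59t_KQ (p ^ n) qv)) 𝒪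
          ((p ^ (0 + n) - 1) * ((p ^ (0 + n) + 1) / 2)) i)
    (aZ : heckeAlgebra (N₂ * ∏ q ∈ Finset.univ.image qv, q ^ 2) 2 (↑(B ∪ Finset.univ.image qv) : Set ℕ) →+*
      Module.End 𝒪 (s59t_part P'))
    (haZ : ∀ t (z : s59t_part P'),
      s59x_jZ (s59t_Hmul N₂ (∏ j, qv j) (⊤ : Subgroup (ZMod N₂)ˣ) (s59t_KQ (p ^ n) qv)) ε P' (aZ t z) =
        a t (s59x_jZ (s59t_Hmul N₂ (∏ j, qv j) (⊤ : Subgroup (ZMod N₂)ˣ) (s59t_KQ (p ^ n) qv)) ε P' z))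
    [IsLocalRing (s59e_adj 𝒪 aZ)]
    {ρbar' : ResidualGaloisRep (ResidueField 𝒪)}
    {𝒟 : ∀ ⦃A : Type⦄ [CommRing A] [IsLocalRing A] [Algebra 𝒪 A], GaloisRepAdic A → Prop}
    (DQ : GaloisRep.DeformationRingData 𝒪 ρbar' 𝒟)
    (θ : DQ.R →ₐ[𝒪] s59e_adj 𝒪 aZ) (hθ : Function.Surjective θ)
    (hfrobT : ∀ ℓ : ℕ, ℓ.Prime → ℓ ∉ (B ∪ Finset.univ.image qv) →
      ∀ A' : ValuationSubring Qbar, A'.LiesOverPrime ℓ →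
      ∀ τ : GQ, A'.IsFrobeniusAt τ ℓ →
        (LinearMap.charpoly (DQ.ρ.ρ τ)).map (θ : DQ.R →+* s59e_adj 𝒪 aZ) =
          X ^ 2 - C (s59e_tOf (↑(B ∪ Finset.univ.image qv) : Set ℕ) aZ ℓ) * X + C ((ℓ : s59e_adj 𝒪 aZ)))
    (q' : ℕ) (hq' : q'.Prime) (hq'p : q' ≠ p) (hq'N : ¬ q' ∣ N₂) (hq'B : q' ∈ B) :
    ∀ P : ValuationSubring Qbar, P.LiesOverPrime q' → ∀ σ ∈ P.inertiaSubgroupIn ℚ,
      ∀ (f : Module.Dual DQ.R DQ.ρ.V) (v : DQ.ρ.V), θ (f (DQ.ρ.ρ σ v - v)) = 0 := by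
  classical
  have hH := s59m_TW_H3hecke c hp2 hp𝒪 hpB N₂ hNB₂ n qv hqinj hqvpr hqvB ε hε hε0 hεc hnil
    ρbar habs hEig
  obtain ⟨a₀H, ha1H, ha2H, hH3⟩ := hH
  have hS₂ : ∀ q : ℕ, q.Prime → q ∣ (N₂ * ∏ q ∈ Finset.univ.image qv, q ^ 2) →
      q ∈ (B ∪ Finset.univ.image qv) := by
    intro q hq hqM
    rcases (Nat.Prime.dvd_mul hq).mp hqM with h | h
    · exact Finset.mem_union_left _ (hNB₂ q hq h)
    · obtain ⟨q₀, hq₀, hqq⟩ := (Prime.dvd_finsetProd_iff (Nat.prime_iff.mp hq) _).mp h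
      obtain ⟨i, -, rfl⟩ := Finset.mem_image.mp hq₀
      have hqe : q = qv i := (Nat.prime_dvd_prime_iff_eq hq (hqvpr i)).mp (hq.dvd_of_dvd_pow hqq)
      rw [hqe]
      exact Finset.mem_union_right _ (Finset.mem_image_of_mem qv (Finset.mem_univ i))
  have hSlvl : ∀ q : ℕ, q.Prime → q ∣ (N₂ * ∏ j, qv j) → q ∈ (B ∪ Finset.univ.image qv) := by
    intro q hq hqM
    rcases (Nat.Prime.dvd_mul hq).mp hqM with h | h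
    · exact Finset.mem_union_left _ (hNB₂ q hq h)
    · obtain ⟨i, -, hi⟩ := (Prime.dvd_finsetProd_iff (Nat.prime_iff.mp hq) _).mp h
      have hqe : q = qv i := (Nat.prime_dvd_prime_iff_eq hq (hqvpr i)).mp hi
      rw [hqe]
      exact Finset.mem_union_right _ (Finset.mem_image_of_mem qv (Finset.mem_univ i))
  have hEq : a₀H = a := s59u_c2o_hecke_hom_ext (fun q hq h => Finset.mem_coe.mpr (hS₂ q hq h)) a₀H a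
    (fun ℓ hℓ hℓN hℓS => by
      obtain ⟨i, hi⟩ := s59e_exists_TIdx (M := N₂ * ∏ j, qv j) hℓ
        (fun h => hℓS (Finset.mem_coe.mpr (hSlvl ℓ hℓ h)))
      rw [ha1H ℓ hℓ hℓN hℓS i hi, ha1 ℓ hℓ hℓN hℓS i hi])
  subst hEq
  haveI : Module.Finite 𝒪 (s48h_Hpar 𝒪 (s48h_GammaH (N₂ * ∏ j, qv j)
    (s59t_Hmul N₂ (∏ j, qv j) (⊤ : Subgroup (ZMod N₂)ˣ) (s59t_KQ (p ^ n) qv))) 𝒪) := s59t_Hpar_finite 𝒪
  haveI : Module.Free 𝒪 (s48h_Hpar 𝒪 (s48h_GammaH (N₂ * ∏ j, qv j)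
    (s59t_Hmul N₂ (∏ j, qv j) (⊤ : Subgroup (ZMod N₂)ˣ) (s59t_KQ (p ^ n) qv))) 𝒪) := s59t_Hpar_free 𝒪
  haveI : Module.Finite 𝒪 (s59t_part ε) := s59t_part_finite ε
  haveI : Module.Free 𝒪 (s59t_part ε) := s59t_part_free hε
  haveI : Module.Finite 𝒪 (s59t_part P') := s59t_part_finite P'
  haveI : Module.Free 𝒪 (s59t_part P') := s59t_part_free hPP'
  have hq'M : ¬ q' ∣ N₂ * ∏ q ∈ Finset.univ.image qv, q ^ 2 := by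
    intro h
    rcases (Nat.Prime.dvd_mul hq').mp h with h | h
    · exact hq'N h
    · obtain ⟨q₀, hq₀, hqq⟩ := (Prime.dvd_finsetProd_iff (Nat.prime_iff.mp hq') _).mp h
      obtain ⟨i, -, rfl⟩ := Finset.mem_image.mp hq₀
      have hqe : q' = qv i := (Nat.prime_dvd_prime_iff_eq hq' (hqvpr i)).mp (hq'.dvd_of_dvd_pow hqq)
      exact hqvB i (hqe ▸ hq'B)
  exact s59q_tr_hunr (N₂ * ∏ q ∈ Finset.univ.image qv, q ^ 2) (B ∪ Finset.univ.image qv) hp𝒪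
    (Finset.mem_union_left _ hpB) hS₂ a₀H ε (fun ℓ => ((c ℓ : ℤ) : 𝒪)) ρbar hH3
    (s59x_jZ (s59t_Hmul N₂ (∏ j, qv j) (⊤ : Subgroup (ZMod N₂)ˣ) (s59t_KQ (p ^ n) qv)) ε P')
    (s59x_jZ_injective _ _ _) (fun z => (z : s59t_part ε).2) aZ haZ DQ θ hθ hfrobT q' hq' hq'p hq'M

end Fermat.Agent.Lib.S59

end
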