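/-
PROGRAMME (R2) = S59, plan [C2P] (the field `finP2X`), the ODD level package, file G (helper3, prefix `s59u_c2o_`; SCRIPTED by `gen_oddg.py`
from helper9's `Internal.s59m_lvl_allZ`, MKerLvlAll.lean):
**ALL THE TAYLOR–WILES DATA OF THE ODD CHAIN INDEX** (helper9's `s59m_LvlIdxConcl`, MKerLvlAllS.lean) at a `p`-free level `N` WITHOUT
`s18_GoodLevel p N`, from the data of the UPPER index `Ne = N q` (in [C2P]: `p = 3`, `q = 2`, `N` odd).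

* the two bundles: `s59ex_W_level` at `N`, `N₂ = N p` (the parity-dependent inputs `s59e_auxTors`, `s59b_S37H` are hypotheses);
* module side + Galois-free Hecke half of the kernel pair: helper9's `Internal.s59m_TPkgP_levelH` (MOddTop.lean);
* the `q`-package between the Taylor–Wiles levels `N₂ ∏qv`, `Ne₂ ∏qv` (`s59u_c2o_isG'_Hmul`, normalising element `s59f_eW`),
  its compatibility with the idempotents (helper4's `s59f_oldN_compat_eps`), stability of the kernel pairs (`s59u_c2o_stable`);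
* Galois half, record, trace-ring facts: `Internal.s59u_c2o_lvl_core` (UC2OddC); `[UNR]`: `s59u_c2o_hunr` (UC2OddG0);
* the Hecke ring of the full part: helper9's `s59m_TW_heckeF`; no flat data (`up` is false at the odd index).
-/
import Mathlib
import Fermat.Agent.Lib.S59.MKerLvlAllS
import Fermat.Agent.Lib.S59.MOddTop
import Fermat.Agent.Lib.S59.MKerHFW
import Fermat.Agent.Lib.S59.EXLvl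
import Fermat.Agent.Lib.S59.UC2OddC
import Fermat.Agent.Lib.S59.UC2OddD
import Fermat.Agent.Lib.S59.UC2OddG0
import Fermat.Agent.Lib.S59.FEps5
import Fermat.Agent.Lib.S59.FZ1b
import Fermat.Agent.Lib.S59.UBaseMod

set_option autoImplicit false
set_option linter.unusedSectionVars false
set_option linter.unusedVariables false
set_option linter.style.haveILetI false
set_option maxHeartbeats 0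
set_option synthInstance.maxHeartbeats 400000
set_option maxSynthPendingDepth 3

noncomputable section

namespace Fermat.Agent.Lib.S59

open Matrix MatrixGroups CongruenceSubgroup IsLocalRing Polynomial CuspForm
open WeierstrassCurve WeierstrassCurve.Affine WeierstrassCurve.Affine.Point
open Fermat.Agent.Lib.S29 Fermat.Agent.Lib.S48 Fermat.Agent.Lib.S41 Fermat.Agent.Lib.S44
open Fermat.Agent.Lib.S58 Fermat.Agent.Lib.S18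

local notation "Γℚ" => (AlgebraicClosure ℚ ≃ₐ[ℚ] AlgebraicClosure ℚ)

/-- the primes dividing `N p` are in `B` (own copy of helper9's `s59m_NB_mul_p`). -/
theorem s59u_c2o_NB_mul_p {p N N₂ : ℕ} {B : Finset ℕ} (hpP : p.Prime) (hN₂ : N₂ = N * p)
    (hNB : ∀ q : ℕ, q.Prime → q ∣ N → q ∈ B) (hpB : p ∈ B) : ∀ q : ℕ, q.Prime → q ∣ N₂ → q ∈ B := by
  intro q hq hqd
  rw [hN₂] at hqd
  rcases (Nat.Prime.dvd_mul hq).mp hqd with h | h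
  · exact hNB q hq h
  · rw [(Nat.prime_dvd_prime_iff_eq hq hpP).mp h]
    exact hpB

theorem s59u_c2o_hNe₂q {p q N N₂ Ne Ne₂ : ℕ} (hN₂ : N₂ = N * p) (hNe : Ne = N * q) (hNe₂ : Ne₂ = Ne * p) :
    Ne₂ = N₂ * q := by
  rw [hNe₂, hNe, hN₂]
  ring

/-- the idempotent of a Taylor–Wiles level over a nonzero base part is nonzero (own copy of helper9's `s59m_TWFull_ne_zero`). -/
theorem s59u_c2o_TWFull_ne_zero {𝒪 : Type} [CommRing 𝒪] [Nontrivial 𝒪] {N N' : ℕ} [NeZero N] [NeZero N'] {H : Subgroup (ZMod N)ˣ}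
    {H' : Subgroup (ZMod N')ˣ} {h0 : Gamma0 N' ≤ Gamma0 N} {hle : s48h_GammaH N' H' ≤ s48h_GammaH N H}
    {Bq Cq : Subgroup (s59t_Delta N' H')} [Fintype Bq] [Fintype Cq]
    {ε : Module.End 𝒪 (s48h_Hpar 𝒪 (s48h_GammaH N H) 𝒪)} {ε' : Module.End 𝒪 (s48h_Hpar 𝒪 (s48h_GammaH N' H') 𝒪)}
    (hP1 : s59t_TWFull h0 hle Bq Cq ε ε')
    {hρ : ∀ δ y, ε (s59t_rho N H 𝒪 𝒪 δ y) = s59t_rho N H 𝒪 𝒪 δ (ε y)} {d : ℕ} (b : Fin d → s59t_part ε)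
    (hb : Function.Bijective (s59t_evalMap (s59t_partRep (s59t_rho N H 𝒪 𝒪) hρ) b)) (hd : d ≠ 0) : ε' ≠ 0 := by
  unfold s59t_TWFull at hP1
  obtain ⟨hρ0, hρ'0, dn, bn, bn', π0, hbn, hbn', hrest0⟩ := hP1
  have hdn : d = dn := (s59u_rank_unique _ bn hbn b hb).symm
  subst hdn
  exact (s59t_part_ne_zero_iff _ bn' hbn').2 hd

/-- **all the Taylor–Wiles data of the odd chain index, from the upper index.** -/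
theorem Internal.s59u_c2o_lvl_all (p : ℕ) [Fact p.Prime] (hp2 : p ≠ 2) (W : WeierstrassCurve ℤ) (hΔ : W.Δ ≠ 0)
    (hirr : W.ModRepIsIrreducible p) (N : ℕ) [NeZero N] (N₂ : ℕ) [NeZero N₂] (hN₂ : N₂ = N * p)
    (hsq₂ : Squarefree N₂) (hpN : ¬ p ∣ N)
    (B : Finset ℕ) (hpB : p ∈ B) (hNB : ∀ q : ℕ, q.Prime → q ∣ N → q ∈ B)
    (hB2 : ∀ r : ℕ, r.Prime → ¬ W.IsGoodPrimeFor r → r ∈ B)
    (𝒪 : Type) [CommRing 𝒪] [IsDomain 𝒪] [IsDiscreteValuationRing 𝒪]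
    [IsAdicComplete (maximalIdeal 𝒪) 𝒪] [Finite (ResidueField 𝒪)] [CharZero 𝒪]
    [Algebra ℤ_[p] 𝒪] [Module.Finite ℤ_[p] 𝒪]
    (hp𝒪 : ((p : ℕ) : 𝒪) ∈ maximalIdeal 𝒪)
    (habs : (s59i_rhobarW W p hΔ 𝒪 hp𝒪).IsAbsolutelyIrreducible)
    {r : ℕ} (σ : Type) [DecidableEq σ] [Fintype σ]
    -- residual modularity at the two levels and the PARITY-DEPENDENT inputs of `s59ex_W_level` (hypotheses: the package is parity-free)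
    (hocc₁ : s44i_LevelOcc N p (fun ℓ => W.apOfModel ℓ) B)
    (hocc₂ : s44i_LevelOcc N₂ p (fun ℓ => W.apOfModel ℓ) B)
    (hp12₁ : s59e_auxTors p N) (hN1₁ : 1 < N) (S37₁ : s59b_S37H N (⊤ : Subgroup (ZMod N)ˣ))
    (hp12₂ : s59e_auxTors p N₂) (S37₂ : s59b_S37H N₂ (⊤ : Subgroup (ZMod N₂)ˣ))
    -- the base data: the old package at `p` and the two idempotents
    (hGb : s59f_IsG' N p (⊤ : Subgroup (ZMod N)ˣ) (s48h_GammaH N₂ (⊤ : Subgroup (ZMod N₂)ˣ)))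
    (e_b : SL(2, ℤ)) (he_b : e_b ∈ Gamma0 N₂)
    (hee_b : s59f_gW hpN * e_b * e_b ∈ s48h_GammaH N₂ (⊤ : Subgroup (ZMod N₂)ˣ))
    (e₁ : MvPolynomial ↥(s59t_goodB N B) 𝒪)
    (e₂ : MvPolynomial ↥(s59t_goodB N₂ B) 𝒪)
    (h1e₁ : 1 - e₁ ∈ s59t_evalIdeal (fun x : ↥(s59t_goodB N B) =>
      s59t_cB (𝒪 := 𝒪) N (fun ℓ => W.apOfModel ℓ) (x : s59w_AIdx N)))
    (hid₁ : (s59t_E0 (⊤ : Subgroup (ZMod N)ˣ) B e₁) * (s59t_E0 (⊤ : Subgroup (ZMod N)ˣ) B e₁) = (s59t_E0 (⊤ : Subgroup (ZMod N)ˣ) B e₁))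
    (hnil₁ : ∀ x ∈ s59t_goodB N B, ∃ k : ℕ, ∀ y : (s48h_Hpar 𝒪 (s48h_GammaH N (⊤ : Subgroup (ZMod N)ˣ)) 𝒪),
      ((s59w_op (⊤ : Subgroup (ZMod N)ˣ) 𝒪 x - s59t_cB (𝒪 := 𝒪) N (fun ℓ => W.apOfModel ℓ) x •
        (1 : Module.End 𝒪 (s48h_Hpar 𝒪 (s48h_GammaH N (⊤ : Subgroup (ZMod N)ˣ)) 𝒪))) ^ k) ((s59t_E0 (⊤ : Subgroup (ZMod N)ˣ) B e₁) y) ∈
        (maximalIdeal 𝒪 • ⊤ : Submodule 𝒪 (s48h_Hpar 𝒪 (s48h_GammaH N (⊤ : Subgroup (ZMod N)ˣ)) 𝒪)))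
    (h1e₂ : 1 - e₂ ∈ s59t_evalIdeal (fun x : ↥(s59t_goodB N₂ B) =>
      s59t_cB (𝒪 := 𝒪) N₂ (fun ℓ => W.apOfModel ℓ) (x : s59w_AIdx N₂)))
    (hid₂ : (s59t_E0 (⊤ : Subgroup (ZMod N₂)ˣ) B e₂) * (s59t_E0 (⊤ : Subgroup (ZMod N₂)ˣ) B e₂) = (s59t_E0 (⊤ : Subgroup (ZMod N₂)ˣ) B e₂))
    (hnil₂ : ∀ x ∈ s59t_goodB N₂ B, ∃ k : ℕ, ∀ y : (s48h_Hpar 𝒪 (s48h_GammaH N₂ (⊤ : Subgroup (ZMod N₂)ˣ)) 𝒪),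
      ((s59w_op (⊤ : Subgroup (ZMod N₂)ˣ) 𝒪 x - s59t_cB (𝒪 := 𝒪) N₂ (fun ℓ => W.apOfModel ℓ) x •
        (1 : Module.End 𝒪 (s48h_Hpar 𝒪 (s48h_GammaH N₂ (⊤ : Subgroup (ZMod N₂)ˣ)) 𝒪))) ^ k) ((s59t_E0 (⊤ : Subgroup (ZMod N₂)ˣ) B e₂) y) ∈
        (maximalIdeal 𝒪 • ⊤ : Submodule 𝒪 (s48h_Hpar 𝒪 (s48h_GammaH N₂ (⊤ : Subgroup (ZMod N₂)ˣ)) 𝒪)))
    (hρ₁ : ∀ δ y, s59t_E0 (⊤ : Subgroup (ZMod N)ˣ) B e₁ (s59t_rho N (⊤ : Subgroup (ZMod N)ˣ) 𝒪 𝒪 δ y) =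
        s59t_rho N (⊤ : Subgroup (ZMod N)ˣ) 𝒪 𝒪 δ (s59t_E0 (⊤ : Subgroup (ZMod N)ˣ) B e₁ y))
    (hρ₂ : ∀ δ y, s59t_E0 (⊤ : Subgroup (ZMod N₂)ˣ) B e₂ (s59t_rho N₂ (⊤ : Subgroup (ZMod N₂)ˣ) 𝒪 𝒪 δ y) =
        s59t_rho N₂ (⊤ : Subgroup (ZMod N₂)ˣ) 𝒪 𝒪 δ (s59t_E0 (⊤ : Subgroup (ZMod N₂)ˣ) B e₂ y))
    (hcb : (s59f_oldN hpN hN₂ hGb 𝒪 𝒪 e_b he_b hee_b).Compat (s59t_E0 (⊤ : Subgroup (ZMod N)ˣ) B e₁)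
        (s59t_E0 (⊤ : Subgroup (ZMod N₂)ˣ) B e₂))
    {d₁ d₂ : ℕ} (b₁ : Fin d₁ → s59t_part (s59t_E0 (⊤ : Subgroup (ZMod N)ˣ) B e₁))
    (hb₁ : Function.Bijective (s59t_evalMap
        (s59t_partRep (s59t_rho N (⊤ : Subgroup (ZMod N)ˣ) 𝒪 𝒪) hρ₁) b₁))
    (b₂ : Fin d₂ → s59t_part (s59t_E0 (⊤ : Subgroup (ZMod N₂)ˣ) B e₂))
    (hb₂ : Function.Bijective (s59t_evalMap
        (s59t_partRep (s59t_rho N₂ (⊤ : Subgroup (ZMod N₂)ˣ) 𝒪 𝒪) hρ₂) b₂))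
    -- the kernel part at the base
    (P : Module.End 𝒪 (s59t_part (s59t_E0 (⊤ : Subgroup (ZMod N₂)ˣ) B e₂)))
    (hP : ∀ δ x, P (s59t_partRep (s59t_rho N₂ (⊤ : Subgroup (ZMod N₂)ˣ) 𝒪 𝒪) hρ₂ δ x) =
        s59t_partRep (s59t_rho N₂ (⊤ : Subgroup (ZMod N₂)ˣ) 𝒪 𝒪) hρ₂ δ (P x)) (hPP : P * P = P)
    (hmem : ∀ x, x ∈ s59t_part P ↔
        ((s59f_oldN hpN hN₂ hGb 𝒪 𝒪 e_b he_b hee_b).restrict hcb).corA x = 0 ∧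
        ((s59f_oldN hpN hN₂ hGb 𝒪 𝒪 e_b he_b hee_b).restrict hcb).corB x = 0)
    (hbase : ∀ y₁ y₂ : s59t_part (s59t_E0 (⊤ : Subgroup (ZMod N)ˣ) B e₁),
        ∃ z : s59t_part (s59t_E0 (⊤ : Subgroup (ZMod N₂)ˣ) B e₂),
        ((s59f_oldN hpN hN₂ hGb 𝒪 𝒪 e_b he_b hee_b).restrict hcb).corA z = y₁ ∧
        ((s59f_oldN hpN hN₂ hGb 𝒪 𝒪 e_b he_b hee_b).restrict hcb).corB z = y₂)
    (hd1 : d₁ ≠ 0)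
    (hd0 : d₂ - 2 * d₁ ≠ 0)
    -- the Hecke ring of the kernel part at the base (from the base package)
    (a₀ : (heckeAlgebra N₂ 2 (↑B : Set ℕ)) →+* Module.End 𝒪 (s48h_Hpar 𝒪 (s48h_GammaH N₂ (⊤ : Subgroup (ZMod N₂)ˣ)) 𝒪))
    (ha1₀ : ∀ (ℓ : ℕ) (hℓ : ℓ.Prime) (hℓN : ¬ ℓ ∣ N₂) (hℓS : ℓ ∉ (↑B : Set ℕ)) (i : s59w_TIdx N₂),
      i.ell = ℓ → a₀ (heckeAlgebra.T hℓ hℓN hℓS) = s59e_Tp' (⊤ : Subgroup (ZMod N₂)ˣ) 𝒪 ((p ^ 0 - 1) * ((p ^ 0 + 1) / 2)) i)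
    (aZ₀ : heckeAlgebra N₂ 2 (↑B : Set ℕ) →+* Module.End 𝒪 (s59t_part P))
    (haZ₀ : ∀ t (z : s59t_part P), s59x_jZ (⊤ : Subgroup (ZMod N₂)ˣ) (s59t_E0 (⊤ : Subgroup (ZMod N₂)ˣ) B e₂) P (aZ₀ t z) = a₀ t (s59x_jZ (⊤ : Subgroup (ZMod N₂)ˣ) (s59t_E0 (⊤ : Subgroup (ZMod N₂)ˣ) B e₂) P z))
    [IsLocalRing (s59e_adj 𝒪 aZ₀)] [IsNoetherianRing (s59e_adj 𝒪 aZ₀)] [Module.Finite 𝒪 (s59e_adj 𝒪 aZ₀)]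
    (hRρ : ∀ (t : s59e_adj 𝒪 aZ₀) (δ : (s59t_Delta N₂ (⊤ : Subgroup (ZMod N₂)ˣ))) (y : s59t_part P),
      t • (s59t_partRep (s59t_partRep (s59t_rho N₂ (⊤ : Subgroup (ZMod N₂)ˣ) 𝒪 𝒪) hρ₂) hP) δ y = (s59t_partRep (s59t_partRep (s59t_rho N₂ (⊤ : Subgroup (ZMod N₂)ˣ) 𝒪 𝒪) hρ₂) hP) δ (t • y))
    (ρR : GaloisRepAdic (s59e_adj 𝒪 aZ₀))
    (hfrobR : ∀ (ℓ : ℕ), ℓ.Prime → ¬ ℓ ∣ N₂ → ℓ ∉ (↑B : Set ℕ) →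
      ∀ A : ValuationSubring (AlgebraicClosure ℚ), A.LiesOverPrime ℓ →
      ∀ g : Γℚ, A.IsFrobeniusAt g ℓ →
        LinearMap.charpoly (ρR.ρ g) =
          Polynomial.X ^ 2 - Polynomial.C (s59e_tOf (↑B : Set ℕ) aZ₀ ℓ) * Polynomial.X +
            Polynomial.C ((ℓ : s59e_adj 𝒪 aZ₀)))
    (hgenR : Algebra.adjoin 𝒪 {x : s59e_adj 𝒪 aZ₀ | ∃ ℓ : ℕ, ℓ.Prime ∧ ¬ ℓ ∣ N₂ ∧
      ℓ ∉ (↑B : Set ℕ) ∧ x = s59e_tOf (↑B : Set ℕ) aZ₀ ℓ} = ⊤)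
    -- the level
    (n : ℕ) (qv : Fin r → ℕ) [NeZero (∏ j, qv j)] [NeZero (N * ∏ j, qv j)] [NeZero (N₂ * ∏ j, qv j)]
    [NeZero (N₂ * ∏ q ∈ Finset.univ.image qv, q ^ 2)] [NeZero (N * ∏ q ∈ Finset.univ.image qv, q ^ 2)]
    [Fact (HasIntegralStructure (N₂ * ∏ q ∈ Finset.univ.image qv, q ^ 2) 2)] (hqinj : Function.Injective qv)
    (hqv : ∀ i, (qv i).Prime ∧ qv i ∉ B ∧ p ^ (n + 1) ∣ qv i - 1)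
    (hTW : ∀ i, ∀ A : ValuationSubring (AlgebraicClosure ℚ), A.LiesOverPrime (qv i) →
      ∀ φ : Γℚ, A.IsFrobeniusAt φ (qv i) →
        ∃ α β : ResidueField 𝒪, α ≠ β ∧
          LinearMap.charpoly ((s59i_rhobarW W p hΔ 𝒪 hp𝒪).ρ φ) = (X - C α) * (X - C β))
    (aq bq : ℕ → 𝒪)
    (harith : ∀ j, IsUnit (bq (qv j) - aq (qv j)) ∧
      ((qv j : ℕ) : 𝒪) - aq (qv j) * bq (qv j) ∈ maximalIdeal 𝒪 ∧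
      IsUnit (1 - aq (qv j) ^ 2) ∧ IsUnit (1 - bq (qv j) ^ 2))
    (hcongq : ∀ j, aq (qv j) + bq (qv j) - ((W.apOfModel (qv j) : ℤ) : 𝒪) ∈
      maximalIdeal 𝒪)
    -- the old package at `p` at the level, with a FREE normalising element
    (hpL : ¬ p ∣ N * ∏ j, qv j) (hN' : N₂ * ∏ j, qv j = N * (∏ j, qv j) * p)
    (hG' : s59f_IsG' (N * ∏ j, qv j) p
      (s59t_Hmul N (∏ j, qv j) (⊤ : Subgroup (ZMod N)ˣ) (s59t_KQ (p ^ n) qv))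
      (s48h_GammaH (N₂ * ∏ j, qv j)
        (s59t_Hmul N₂ (∏ j, qv j) (⊤ : Subgroup (ZMod N₂)ˣ) (s59t_KQ (p ^ n) qv))))
    (e₀ : SL(2, ℤ)) (he' : e₀ ∈ Gamma0 (N₂ * ∏ j, qv j))
    (hee : s59f_gW hpL * e₀ * e₀ ∈ s48h_GammaH (N₂ * ∏ j, qv j)
      (s59t_Hmul N₂ (∏ j, qv j) (⊤ : Subgroup (ZMod N₂)ˣ) (s59t_KQ (p ^ n) qv)))
    -- the generators of `B_Q`
    (g : Fin r → (s59t_BQ N₂ (∏ j, qv j) (⊤ : Subgroup (ZMod N₂)ˣ) (s59t_KQ (p ^ n) qv)))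
    (hcard : Nat.card (s59t_BQ N₂ (∏ j, qv j) (⊤ : Subgroup (ZMod N₂)ˣ) (s59t_KQ (p ^ n) qv)) = (p ^ n) ^ r)
    (hgen : ∀ x : (s59t_BQ N₂ (∏ j, qv j) (⊤ : Subgroup (ZMod N₂)ˣ) (s59t_KQ (p ^ n) qv)), ∃ a : Fin r → ℕ, x = ∏ i, g i ^ a i)
    (hord : ∀ i, g i ^ (p ^ n) = 1)
    (hgloc : ∀ i, ∃ τ : Gamma0 (N₂ * ∏ j, qv j),
      (QuotientGroup.mk τ : (s59t_Delta (N₂ * ∏ j, qv j) (s59t_Hmul N₂ (∏ j, qv j) (⊤ : Subgroup (ZMod N₂)ˣ) (s59t_KQ (p ^ n) qv)))) = (g i : (s59t_Delta (N₂ * ∏ j, qv j) (s59t_Hmul N₂ (∏ j, qv j) (⊤ : Subgroup (ZMod N₂)ˣ) (s59t_KQ (p ^ n) qv)))) ∧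
      ZMod.unitsMap (Nat.div_dvd_of_dvd (s59t_qv_dvd_level qv N₂ i))
        (s59t_unitHom (N₂ * ∏ j, qv j) τ) = 1)
    -- the deformation type of the Taylor–Wiles datum
    (Sg Su : Finset ℕ)
    (DQ : GaloisRep.DeformationRingData 𝒪 (s59i_rhobarW W p hΔ 𝒪 hp𝒪) (fun _A _ _ _ ρ =>
      GaloisRep.strictOrdinaryCondition 𝒪 p Sg ρ ∧
        ∀ q ∈ Su, q.Prime → q ≠ p → ρ.IsUnipotentOnInertiaAt q))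
    -- the primes where `θ` kills the inertia coefficients: primes of `B` prime to the level
    (Qr : Set ℕ) (hQr : ∀ q' ∈ Qr, q'.Prime ∧ q' ≠ p ∧ ¬ q' ∣ N₂ ∧ q' ∈ B)
    (Sgf Suf : Finset ℕ)
    (Dfl : GaloisRep.DeformationRingData 𝒪 (s59i_rhobarW W p hΔ 𝒪 hp𝒪) (fun _A _ _ _ ρ =>
      GaloisRep.flatCondition 𝒪 p Sgf ρ ∧
        ∀ q ∈ Suf, q.Prime → q ≠ p → ρ.IsUnipotentOnInertiaAt q))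
    (up : Prop) (hup : ¬ up)
    -- the UPPER index: `p`-free level `Ne = N q`, level `Ne₂ = Ne p` (in [C2P]: `q = 2`)
    (q : ℕ) [Fact q.Prime] (Ne : ℕ) [NeZero Ne] (Ne₂ : ℕ) [NeZero Ne₂] (hNe : Ne = N * q) (hNe₂ : Ne₂ = Ne * p)
    (hqN : ¬ q ∣ N) (hpq : p ≠ q) (hqB : q ∈ B) (hsqE : Squarefree Ne₂) (h2E : 2 ∣ Ne₂)
    (hNeB : ∀ r : ℕ, r.Prime → r ∣ Ne₂ → r ∈ B) (hdE : N₂ ∣ Ne₂)
    (e₁E : MvPolynomial ↥(s59t_goodB Ne B) 𝒪)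
    (e₂E : MvPolynomial ↥(s59t_goodB Ne₂ B) 𝒪)
    (hρ₂E : ∀ δ y, s59t_E0 (⊤ : Subgroup (ZMod Ne₂)ˣ) B e₂E (s59t_rho Ne₂ (⊤ : Subgroup (ZMod Ne₂)ˣ) 𝒪 𝒪 δ y) =
        s59t_rho Ne₂ (⊤ : Subgroup (ZMod Ne₂)ˣ) 𝒪 𝒪 δ (s59t_E0 (⊤ : Subgroup (ZMod Ne₂)ˣ) B e₂E y))
    (PE : Module.End 𝒪 (s59t_part (s59t_E0 (⊤ : Subgroup (ZMod Ne₂)ˣ) B e₂E)))
    (hPE : ∀ δ x, PE (s59t_partRep (s59t_rho Ne₂ (⊤ : Subgroup (ZMod Ne₂)ˣ) 𝒪 𝒪) hρ₂E δ x) =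
        s59t_partRep (s59t_rho Ne₂ (⊤ : Subgroup (ZMod Ne₂)ˣ) 𝒪 𝒪) hρ₂E δ (PE x))
    (dE : ℕ)
    (aZ₀E : heckeAlgebra Ne₂ 2 (↑B : Set ℕ) →+* Module.End 𝒪 (s59t_part PE))
    [IsLocalRing (s59e_adj 𝒪 aZ₀E)]
    (hRρE : ∀ (t : s59e_adj 𝒪 aZ₀E) (δ : (s59t_Delta Ne₂ (⊤ : Subgroup (ZMod Ne₂)ˣ))) (y : s59t_part PE),
      t • (s59t_partRep (s59t_partRep (s59t_rho Ne₂ (⊤ : Subgroup (ZMod Ne₂)ˣ) 𝒪 𝒪) hρ₂E) hPE) δ y = (s59t_partRep (s59t_partRep (s59t_rho Ne₂ (⊤ : Subgroup (ZMod Ne₂)ˣ) 𝒪 𝒪) hρ₂E) hPE) δ (t • y))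
    (ρRE : GaloisRepAdic (s59e_adj 𝒪 aZ₀E))
    [NeZero (Ne * ∏ j, qv j)] [NeZero (Ne₂ * ∏ j, qv j)]
    [NeZero (Ne₂ * ∏ q ∈ Finset.univ.image qv, q ^ 2)] [NeZero (Ne * ∏ q ∈ Finset.univ.image qv, q ^ 2)]
    [Fact (HasIntegralStructure (Ne₂ * ∏ q ∈ Finset.univ.image qv, q ^ 2) 2)]
    (hpLE : ¬ p ∣ Ne * ∏ j, qv j) (hN'E : Ne₂ * ∏ j, qv j = Ne * (∏ j, qv j) * p)
    (hG'E : s59f_IsG' (Ne * ∏ j, qv j) p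
      (s59t_Hmul Ne (∏ j, qv j) (⊤ : Subgroup (ZMod Ne)ˣ) (s59t_KQ (p ^ n) qv))
      (s48h_GammaH (Ne₂ * ∏ j, qv j)
        (s59t_Hmul Ne₂ (∏ j, qv j) (⊤ : Subgroup (ZMod Ne₂)ˣ) (s59t_KQ (p ^ n) qv))))
    (he'E : e₀ ∈ Gamma0 (Ne₂ * ∏ j, qv j))
    (heeE : s59f_gW hpLE * e₀ * e₀ ∈ s48h_GammaH (Ne₂ * ∏ j, qv j)
      (s59t_Hmul Ne₂ (∏ j, qv j) (⊤ : Subgroup (ZMod Ne₂)ˣ) (s59t_KQ (p ^ n) qv)))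
    (gE : Fin r → (s59t_BQ Ne₂ (∏ j, qv j) (⊤ : Subgroup (ZMod Ne₂)ˣ) (s59t_KQ (p ^ n) qv)))
    (hg : ∀ i, g i = s59efl_pushG hdE (p ^ n) qv gE i)
    (hglocE : ∀ i, ∃ τ : Gamma0 (Ne₂ * ∏ j, qv j),
      (QuotientGroup.mk τ : (s59t_Delta (Ne₂ * ∏ j, qv j) (s59t_Hmul Ne₂ (∏ j, qv j) (⊤ : Subgroup (ZMod Ne₂)ˣ) (s59t_KQ (p ^ n) qv)))) = (gE i : (s59t_Delta (Ne₂ * ∏ j, qv j) (s59t_Hmul Ne₂ (∏ j, qv j) (⊤ : Subgroup (ZMod Ne₂)ˣ) (s59t_KQ (p ^ n) qv)))) ∧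
      ZMod.unitsMap (Nat.div_dvd_of_dvd (s59t_qv_dvd_level qv Ne₂ i))
        (s59t_unitHom (Ne₂ * ∏ j, qv j) τ) = 1)
    (QrE : Set ℕ) (upE : Prop)
    (hE : s59m_LvlIdxConcl p B (fun ℓ => W.apOfModel ℓ) e₁E e₂E hρ₂E PE hPE dE aZ₀E hRρE ρRE n σ qv aq hpLE hN'E hG'E e₀ he'E heeE gE Sg Su DQ QrE Sgf Suf Dfl upE) :
    s59m_LvlIdxConcl p B (fun ℓ => W.apOfModel ℓ) e₁ e₂ hρ₂ P hP (d₂ - 2 * d₁) aZ₀ hRρ ρR n σ qv aq hpL hN' hG' e₀ he' hee g Sg Su DQ Qr Sgf Suf Dfl up := by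
  classical
  have hpP : p.Prime := Fact.out
  have hqP : q.Prime := Fact.out
  have hgoodB : ∀ q : ℕ, q.Prime → q ∉ B → W.IsGoodPrimeFor q := fun q hq hqB =>
    Classical.byContradiction fun hbad => hqB (hB2 q hq hbad)
  have hNB₂ : ∀ q : ℕ, q.Prime → q ∣ N₂ → q ∈ B := s59u_c2o_NB_mul_p hpP hN₂ hNB hpB
  have hqvpr : ∀ i, (qv i).Prime := fun i => (hqv i).1
  have hqvB : ∀ i, qv i ∉ B := fun i => (hqv i).2.1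
  have hsq₁ : Squarefree N := Squarefree.of_mul_left (hN₂ ▸ hsq₂)
  have hN1₂ : 1 < N₂ := hN₂ ▸ lt_of_lt_of_le hN1₁ (Nat.le_mul_of_pos_right N hpP.pos)
  have hnegH₁ : (-1 : (ZMod N)ˣ) ∈ (⊤ : Subgroup (ZMod N)ˣ) := Subgroup.mem_top _
  have hH₁ : ∀ u : (ZMod N)ˣ, ∃ k : ℕ, u ^ (p ^ k) ∈ (⊤ : Subgroup (ZMod N)ˣ) :=
    fun u => ⟨0, Subgroup.mem_top _⟩
  have hnegH₂ : (-1 : (ZMod N₂)ˣ) ∈ (⊤ : Subgroup (ZMod N₂)ˣ) := Subgroup.mem_top _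
  have hH₂ : ∀ u : (ZMod N₂)ˣ, ∃ k : ℕ, u ^ (p ^ k) ∈ (⊤ : Subgroup (ZMod N₂)ˣ) :=
    fun u => ⟨0, Subgroup.mem_top _⟩
  -- the two bundles
  have hW₁ := s59ex_W_level W hΔ p hirr N hsq₁ B hpB hNB hgoodB hocc₁ hp𝒪
    (⊤ : Subgroup (ZMod N)ˣ) hnegH₁ hH₁ n qv hp12₁ hN1₁ S37₁ hqinj hqv hTW e₁ h1e₁ hid₁ hnil₁ aq bq harith hcongq
  have hW₂ := s59ex_W_level W hΔ p hirr N₂ hsq₂ B hpB hNB₂ hgoodB hocc₂ hp𝒪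
    (⊤ : Subgroup (ZMod N₂)ˣ) hnegH₂ hH₂ n qv hp12₂ hN1₂ S37₂ hqinj hqv hTW e₂ h1e₂ hid₂ hnil₂ aq bq harith hcongq
  choose e₀₁ G₁ _hε₁ _hρ₁' hid₁' hnil₁' hP1₁ hX₁ using hW₁
  choose e₀₂ G₂ _hε₂ _hρ₂' hid₂' hnil₂' hP1₂ hX₂ using hW₂
  have hd2 : d₂ ≠ 0 := fun h => hd0 (h.symm ▸ Nat.zero_sub _)
  have hne₂' : (s59t_actH (N₂ * ∏ j, qv j) aq (dvd_refl _) (s59t_Hmul N₂ (∏ j, qv j) (⊤ : Subgroup (ZMod N₂)ˣ) (s59t_KQ (p ^ n) qv)) (G₂ * s59t_jG 𝒪 (s59t_goodB (N₂ * ∏ j, qv j) B) e₀₂)) ≠ 0 := s59u_c2o_TWFull_ne_zero hP1₂ b₂ hb₂ hd2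
  -- the kernel pair of the level: module side and Galois-free Hecke half
  have hH := Internal.s59m_TPkgP_levelH p hp2 N N₂ hN₂ hsq₂ hpN B hpB hNB (fun ℓ => W.apOfModel ℓ) 𝒪 hp𝒪
    hGb e_b he_b hee_b e₁ e₂ hρ₁ hρ₂ hcb b₁ hb₁ b₂ hb₂ P hP hPP hmem hbase hd0 n qv hqinj hqv aq hpL hN' hG' e₀ he' hee
    e₀₁ G₁ hX₁ hP1₁ e₀₂ G₂ hX₂ hid₂' hP1₂ hnil₂'
  unfold s59m_LvlConclH at hH
  choose hc' hρ' π₂ P' hP' b' πK a aZ hid' hεc' hP1 hιπ₂ hPP' hmem' hZop hb' hπK h2 h3 h4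
    ha1 ha2 haZ hlocA hTloc using hH
  -- the upper level
  delta s59m_LvlIdxConcl at hE
  choose ε₁'E e₀₂E G₂E hX₂E hnil₂'E hPkgE hFuE hUpE using hE
  delta s59m_LvlPkgZConcl at hPkgE
  choose hc'E hρ'E π₂E P'E hP'E b'E πKE aE aZE hid'E hεc'E hP1E hιπ₂E hιinj₂E hPP'E hmem'E hZopE hb'E hπKE h2E' h3E h4E
    ha1E ha2E haZE hlocAE hlrQE θE hθE hfrobTE hcongE hcommE hTρE hrecE hnoethQE hcomplQE hlhQE hres𝒪E hθlE h𝒟E hresE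
    hredE htfE hunrθE using hPkgE
  haveI := hlrQE
  -- the `q`-package between the two Taylor–Wiles levels
  have hNN₂ : N ∣ N₂ := Dvd.intro p hN₂.symm
  have hNeNe₂ : Ne ∣ Ne₂ := Dvd.intro p hNe₂.symm
  have hqN₂ : ¬ q ∣ N₂ := fun h =>
    ((Nat.Prime.dvd_mul hqP).mp (hN₂ ▸ h : q ∣ N * p)).elim hqN
      (fun h' => hpq ((Nat.prime_dvd_prime_iff_eq hqP hpP).mp h').symm)
  have hqv' : ∀ i, (qv i).Prime ∧ qv i ∉ B := fun i => ⟨(hqv i).1, (hqv i).2.1⟩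
  have hqL : ¬ q ∣ N₂ * ∏ j, qv j := s59u_c2o_not_dvd qv B hqP hqB hqN₂ hqv'
  have hqL₀ : ¬ q ∣ N * ∏ j, qv j := s59u_c2o_not_dvd qv B hqP hqB hqN hqv'
  have hNe' : Ne₂ * ∏ j, qv j = N₂ * (∏ j, qv j) * q := s59u_c2o_hNe' hN₂ hNe hNe₂
  have hNe₂q : Ne₂ = N₂ * q := s59u_c2o_hNe₂q hN₂ hNe hNe₂
  have hG2 := s59u_c2o_isG'_Hmul (A := N₂) (A' := Ne₂) (D := ∏ j, qv j) hNe₂q hqL (s59t_KQ (p ^ n) qv)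
  have heq' : s59f_eW hqL ((p ^ (0 + n) - 1) * ((p ^ (0 + n) + 1) / 2)) ∈ Gamma0 (Ne₂ * ∏ j, qv j) := s59f_eW_mem_N' hqL hNe' _
  have heeq' : s59f_gW hqL * s59f_eW hqL ((p ^ (0 + n) - 1) * ((p ^ (0 + n) + 1) / 2)) * s59f_eW hqL ((p ^ (0 + n) - 1) * ((p ^ (0 + n) + 1) / 2)) ∈ s48h_GammaH (Ne₂ * ∏ j, qv j) (s59t_Hmul Ne₂ (∏ j, qv j) (⊤ : Subgroup (ZMod Ne₂)ˣ) (s59t_KQ (p ^ n) qv)) :=
    s59f_eW_ee hqL hNe' (s59k_hnm_pow hpP hp2 (0 + n)) rfl (s59k_ppow_mem_Hmul_top Ne₂ qv p 0 n)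
  have hqLq : q ∉ List.ofFn qv := fun h =>
    Exists.elim ((List.mem_ofFn' qv q).mp h) fun i hi => (hqv i).2.1 (hi.symm ▸ hqB)
  have hc2 := s59f_oldN_compat_eps hqL hNe' hG2 (s59f_eW hqL ((p ^ (0 + n) - 1) * ((p ^ (0 + n) + 1) / 2))) heq' heeq' B (fun ℓ => W.apOfModel ℓ) aq hqB
    (List.ofFn qv) hqLq hX₂ hX₂E
  have hst := s59u_c2o_stable (p ^ n) qv hNN₂ hNeNe₂ hNe hpL hqL₀ hpLE hqL hN' hN'E hG' hG'E 𝒪 e₀ he' he'E hee heeE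
    hNe' hG2 (s59f_eW hqL ((p ^ (0 + n) - 1) * ((p ^ (0 + n) + 1) / 2))) heq' heeq' hc' hc'E hc2 P' P'E hmem' hmem'E
  -- the Galois half, the record and the trace-ring facts, imported from the upper level
  have hcore := Internal.s59u_c2o_lvl_core p hp2 W hΔ N₂ B hirr hsq₂ hNB₂ hpB hB2 𝒪 hp𝒪 r σ
    (s59t_E0 (⊤ : Subgroup (ZMod N₂)ˣ) B e₂) (fun x => s59e_E0_comm_op _ B e₂ x) hρ₂ P hP (d₂ - 2 * d₁) hd0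
    a₀ ha1₀ aZ₀ haZ₀ hRρ ρR hfrobR hgenR n qv hqinj hqv hTW
    (s59t_actH (N₂ * ∏ j, qv j) aq (dvd_refl _) (s59t_Hmul N₂ (∏ j, qv j) (⊤ : Subgroup (ZMod N₂)ˣ) (s59t_KQ (p ^ n) qv)) (G₂ * s59t_jG 𝒪 (s59t_goodB (N₂ * ∏ j, qv j) B) e₀₂)) hid' hεc' hP1 hρ' π₂ hιπ₂ P' hP' hPP' hZop b' hb' πK hπK h2 h3 h4 g hcard hgen hord hgloc Sg Su DQ
    a ha1 ha2 aZ haZ hlocA Ne₂ hdE hNeB hsqE h2E hqL hNe' hG2 (s59f_eW hqL ((p ^ (0 + n) - 1) * ((p ^ (0 + n) + 1) / 2))) heq' heeq'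
    (s59t_actH (Ne₂ * ∏ j, qv j) aq (dvd_refl _) (s59t_Hmul Ne₂ (∏ j, qv j) (⊤ : Subgroup (ZMod Ne₂)ˣ) (s59t_KQ (p ^ n) qv)) (G₂E * s59t_jG 𝒪 (s59t_goodB (Ne₂ * ∏ j, qv j) B) e₀₂E)) hid'E hc2 P'E hPP'E hst aE ha1E ha2E aZE haZE θE hθE hfrobTE hcongE gE hg hglocE
  choose hlr θ hθ hfrobT hcong hcomm hTρ hrecV hnoeth hcompl hlh hres𝒪 hθl h𝒟 hres hred htf hθE0 using hcore
  haveI := hlr
  -- [UNR] and the Hecke ring of the full part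
  have hEig : ∀ ℓ : ℕ, ℓ.Prime → ℓ ∉ (B ∪ Finset.univ.image qv) →
      ∀ A : ValuationSubring (AlgebraicClosure ℚ), A.LiesOverPrime ℓ →
      ∀ σ' : Γℚ, A.IsFrobeniusAt σ' ℓ →
        LinearMap.charpoly ((s59i_rhobarW W p hΔ 𝒪 hp𝒪).ρ σ') =
          X ^ 2 - C (residue 𝒪 ((W.apOfModel ℓ : ℤ) : 𝒪)) * X +
            C ((ℓ : ResidueField 𝒪)) := fun ℓ hℓ hℓS A hA σ' hσ' =>
    s59e_rhobarW_charpoly_frob hΔ hp2 hirr hp𝒪 B hpB hB2 ℓ hℓ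
      (fun h => hℓS (Finset.mem_union_left _ h)) A hA σ' hσ'
  have hunrθ : ∀ q' ∈ Qr, ∀ A' : ValuationSubring (AlgebraicClosure ℚ), A'.LiesOverPrime q' →
      ∀ τ ∈ A'.inertiaSubgroupIn ℚ, ∀ (f : Module.Dual DQ.R DQ.ρ.V) (v : DQ.ρ.V),
        θ (f (DQ.ρ.ρ τ v - v)) = 0 := fun q' hq'Qr =>
    s59u_c2o_hunr (fun ℓ => W.apOfModel ℓ) hp2 hp𝒪 hpB N₂ hNB₂ n qv hqinj hqvpr hqvB
      (s59t_actH (N₂ * ∏ j, qv j) aq (dvd_refl _) (s59t_Hmul N₂ (∏ j, qv j) (⊤ : Subgroup (ZMod N₂)ˣ) (s59t_KQ (p ^ n) qv)) (G₂ * s59t_jG 𝒪 (s59t_goodB (N₂ * ∏ j, qv j) B) e₀₂)) hid' hne₂' hεc' hnil₂' (s59i_rhobarW W p hΔ 𝒪 hp𝒪) habs hEig P' hPP' a ha1 aZ haZ DQ θ hθ hfrobT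
      q' (hQr q' hq'Qr).1 (hQr q' hq'Qr).2.1 (hQr q' hq'Qr).2.2.1 (hQr q' hq'Qr).2.2.2
  have hFu := s59m_TW_heckeF (fun ℓ => W.apOfModel ℓ) hp2 hp𝒪 hpB N₂ hNB₂ n qv hqinj hqvpr hqvB
    (s59t_actH (N₂ * ∏ j, qv j) aq (dvd_refl _) (s59t_Hmul N₂ (∏ j, qv j) (⊤ : Subgroup (ZMod N₂)ˣ) (s59t_KQ (p ^ n) qv)) (G₂ * s59t_jG 𝒪 (s59t_goodB (N₂ * ∏ j, qv j) B) e₀₂)) hid' hne₂' hεc' hnil₂' (s59i_rhobarW W p hΔ 𝒪 hp𝒪) habs hEig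
  have hP1c := hP1
  unfold s59t_TWFull at hP1c
  choose hρc hρc' dn bn bn' πc hbn hbn' hιinj₂ hrestc using hP1c
  delta s59m_LvlIdxConcl
  refine ⟨(s59t_actH (N * ∏ j, qv j) aq (dvd_refl _) (s59t_Hmul N (∏ j, qv j) (⊤ : Subgroup (ZMod N)ˣ) (s59t_KQ (p ^ n) qv)) (G₁ * s59t_jG 𝒪 (s59t_goodB (N * ∏ j, qv j) B) e₀₁)), e₀₂, G₂, hX₂, hnil₂', ?_, hFu, fun h => absurd h hup⟩
  delta s59m_LvlPkgZConcl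
  exact ⟨hc', hρ', π₂, P', hP', b', πK, a, aZ, hid', hεc', hP1, hιπ₂, hιinj₂, hPP', hmem', hZop, hb', hπK, h2, h3, h4,
    ha1, ha2, haZ, hlocA, hlr, θ, hθ, hfrobT, hcong, hcomm, hTρ, hrecV, hnoeth, hcompl, hlh, hres𝒪, hθl, h𝒟, hres,
    hred, htf, hunrθ⟩

export Internal (s59u_c2o_lvl_all)

end Fermat.Agent.Lib.S59

end
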