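/-
PROGRAMME (R2) = S59, plan [C2P] (the field `finP2X`), the ODD level package, file H (helper3, prefix `s59u_c2o_`):
**ALL THE DATA OF THE ODD CHAIN INDEX** — helper9's per-index hypothesis `s59m_IdxConcl` (MKerFinS.lean) of the abstract core
`Internal.s59m_finCore` at a `p`-free level `N` WITHOUT `s18_GoodLevel p N`, from the same datum at the upper index `Ne = N q`
(in [C2P]: `p = 3`, `q = 2`, `N` odd, the upper index provided by helper9's parity-free `Internal.s59m_idx_std`):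

* the base package: `Internal.s59u_c2o_base_odd` (UC2OddF);
* for every Taylor–Wiles datum: the SAME datum at the upper index (the normalising element and the generators of `B_Q` descend from the top
  level `Nt`: `s59x_hee_descend`, `s59efl_pushG`), then `Internal.s59u_c2o_lvl_all` (UC2OddG).
-/
import Mathlib
import Fermat.Agent.Lib.S59.UC2OddF
import Fermat.Agent.Lib.S59.UC2OddG
import Fermat.Agent.Lib.S59.MKerFinS
import Fermat.Agent.Lib.S59.UWPkg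
import Fermat.Agent.Lib.S59.UFreyPkg
import Fermat.Agent.Lib.S59.NXConcSt
import Fermat.Agent.Lib.S59.EFlrGen
import Fermat.Agent.Lib.S59.FEps7

set_option autoImplicit false
set_option linter.unusedSectionVars false
set_option linter.unusedVariables false
set_option linter.style.haveILetI false
set_option maxHeartbeats 0
set_option synthInstance.maxHeartbeats 400000
set_option maxSynthPendingDepth 3

noncomputable section

namespace Fermat.Agent.Lib.S59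

open IsLocalRing CuspForm Polynomial ExtCitation CongruenceSubgroup
open WeierstrassCurve WeierstrassCurve.Affine WeierstrassCurve.Affine.Point
open Fermat.Agent.Lib.S48 Fermat.Agent.Lib.S44 Fermat.Agent.Lib.S18
open scoped MatrixGroups

local notation "Γℚ" => (AlgebraicClosure ℚ ≃ₐ[ℚ] AlgebraicClosure ℚ)

/-- **all the data of the odd chain index from the data of the upper index.** -/
theorem Internal.s59u_c2o_idx_odd (p : ℕ) [Fact p.Prime] (hp2 : p ≠ 2) (W : WeierstrassCurve ℤ) (hΔ : W.Δ ≠ 0)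
    (N : ℕ) [NeZero N] [NeZero (N * p)] (q : ℕ) [Fact q.Prime]
    (Ne : ℕ) [NeZero Ne] [NeZero (Ne * p)] (hNe : Ne = N * q) (B : Finset ℕ)
    (hirr : W.ModRepIsIrreducible p) (hss : W.IsSemistableModel) (hmult : ¬ W.IsGoodPrimeFor p)
    (hsqE : Squarefree (Ne * p)) (hpN : ¬ p ∣ N) (hpNe : ¬ p ∣ Ne) (hqN : ¬ q ∣ N) (hpq : p ≠ q)
    (hgoodE : s18_GoodLevel p Ne)
    (hB1E : ∀ r : ℕ, r.Prime → r ∣ Ne * p → r ∈ B)
    (hB2 : ∀ r : ℕ, r.Prime → ¬ W.IsGoodPrimeFor r → r ∈ B)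
    (hocc₁ : s44i_LevelOcc N p (fun ℓ => W.apOfModel ℓ) B)
    (hocc₂ : s44i_LevelOcc (N * p) p (fun ℓ => W.apOfModel ℓ) B)
    (hocc₁E : s44i_LevelOcc Ne p (fun ℓ => W.apOfModel ℓ) B)
    (𝒪 : Type) [CommRing 𝒪] [IsDomain 𝒪] [IsDiscreteValuationRing 𝒪]
    [IsAdicComplete (maximalIdeal 𝒪) 𝒪] [Finite (ResidueField 𝒪)] [CharZero 𝒪]
    [Algebra ℤ_[p] 𝒪] [Module.Finite ℤ_[p] 𝒪]
    (hp𝒪 : ((p : ℕ) : 𝒪) ∈ maximalIdeal 𝒪)
    -- the parity-dependent inputs of the bundles at the two levels `N`, `N p`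
    (hp12₁ : s59e_auxTors p N) (hN1₁ : 1 < N) (S37₁ : s59b_S37H N (⊤ : Subgroup (ZMod N)ˣ))
    (hp12₂ : s59e_auxTors p (N * p)) (S37₂ : s59b_S37H (N * p) (⊤ : Subgroup (ZMod (N * p))ˣ))
    (h2E : 2 ∣ Ne * p)
    (σ : Type) [DecidableEq σ] [Fintype σ]
    (Sg Su : Finset ℕ)
    (D0 : GaloisRep.DeformationRingData 𝒪 (s59i_rhobarW W p hΔ 𝒪 hp𝒪) (fun _A _ _ _ ρ =>
      GaloisRep.strictOrdinaryCondition 𝒪 p Sg ρ ∧
        ∀ q ∈ Su, q.Prime → q ≠ p → ρ.IsUnipotentOnInertiaAt q))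
    (Qr : Set ℕ) (hQr : ∀ q' ∈ Qr, q'.Prime ∧ q' ≠ p ∧ ¬ q' ∣ N * p ∧ q' ∈ B)
    (up : Prop) (hup : ¬ up)
    (QrE : Set ℕ) (upE : Prop)
    (Nt : ℕ) [NeZero Nt] [NeZero (Nt * p)] (hdt : N * p ∣ Nt * p) (hdtE : Ne * p ∣ Nt * p)
    (hIdxE : s59m_IdxConcl p W hΔ Ne B hpNe 𝒪 hp𝒪 σ Sg Su D0 QrE upE Nt hdtE) :
    s59m_IdxConcl p W hΔ N B hpN 𝒪 hp𝒪 σ Sg Su D0 Qr up Nt hdt := by
  classical
  have hpP : p.Prime := Fact.out
  have hqP : q.Prime := Fact.out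
  have hdE : N * p ∣ Ne * p := Nat.mul_dvd_mul_right (Dvd.intro q hNe.symm) p
  have hB1 : ∀ r : ℕ, r.Prime → r ∣ N * p → r ∈ B := fun r hr h => hB1E r hr (dvd_trans h hdE)
  have hNB : ∀ r : ℕ, r.Prime → r ∣ N → r ∈ B := fun r hr h => hB1 r hr (Dvd.dvd.mul_right h p)
  have hpB : p ∈ B := hB1 p hpP (Dvd.intro_left N rfl)
  have hqB : q ∈ B := hB1E q hqP (Dvd.dvd.mul_right (Dvd.intro_left N hNe.symm) p)
  have hsqNp : Squarefree (N * p) := Squarefree.squarefree_of_dvd hdE hsqE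
  have habs : (s59i_rhobarW W p hΔ 𝒪 hp𝒪).IsAbsolutelyIrreducible := D0.absIrr
  have hNeNt : Ne ∣ Nt := Nat.dvd_of_mul_dvd_mul_right hpP.pos hdtE
  -- the upper index
  delta s59m_IdxConcl at hIdxE
  obtain ⟨e₁E, h1e₁E, hid₁E, hnil₁E, hρ₁E, eE, h1eE, hidE, hnilE, hρE, he1E, hee1E, hcbpE, d₁E, d₂E, b₁E, hb₁E, b₂E, hb₂E,
    PE, hPE, hPPE, hmemE, hbaseSE, hd1E, hd0E, a₀E, ha1₀E, aZ₀E, haZ₀E, hlrE, hnoethE, hfinRE, hcomplE, hlhE, hRρE,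
    θ₀E, hθ₀E, hθ₀lE, hRresE, hMfinE, hMntE, hfrobRE, hgenRE, hresRE, htypeE, hνE, hTWE⟩ := hIdxE
  have hbaseE : s59m_BasePkgConcl p W hΔ Ne B hpNe 𝒪 hp𝒪 Sg Su D0 := by
    delta s59m_BasePkgConcl
    exact ⟨e₁E, h1e₁E, hid₁E, hnil₁E, hρ₁E, eE, h1eE, hidE, hnilE, hρE, he1E, hee1E, hcbpE, d₁E, d₂E, b₁E, hb₁E, b₂E, hb₂E,
      PE, hPE, hPPE, hmemE, hbaseSE, hd1E, hd0E, a₀E, ha1₀E, aZ₀E, haZ₀E, hlrE, hnoethE, hfinRE, hcomplE, hlhE, hRρE,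
      θ₀E, hθ₀E, hθ₀lE, hRresE, hMfinE, hMntE, hfrobRE, hgenRE, hresRE, htypeE, hνE⟩
  -- the base package at the odd level
  have hbaseO := Internal.s59u_c2o_base_odd p hp2 W hΔ N q Ne hNe B hirr hss hmult hsqE hpN hpNe hqN hpq hgoodE hp12₁
    hB1E hB2 hocc₁ hocc₂ hocc₁E 𝒪 hp𝒪 Sg Su D0 hbaseE
  unfold s59m_BasePkgConcl at hbaseO
  obtain ⟨e₁, h1e₁, hid₁, hnil₁, hρ₁, e₂, h1e₂, hid₂, hnil₂, hρ₂, he1, hee1, hcb, d₁, d₂, b₁, hb₁, b₂, hb₂,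
    P, hP, hPP, hmem, hbase, hd1, hd0, a₀, ha1₀, aZ₀, haZ₀, hlr, hnoeth, hfinR, hcompl, hlh, hRρ,
    θ₀, hθ₀, hθ₀l, hRres, hMfin, hMnt, hfrobR, hgenR, hresR, htype, hν⟩ := hbaseO
  delta s59m_IdxConcl
  refine ⟨e₁, h1e₁, hid₁, hnil₁, hρ₁, e₂, h1e₂, hid₂, hnil₂, hρ₂, he1, hee1, hcb, d₁, d₂, b₁, hb₁, b₂, hb₂,
    P, hP, hPP, hmem, hbase, hd1, hd0, a₀, ha1₀, aZ₀, haZ₀, hlr, hnoeth, hfinR, hcompl, hlh, hRρ,
    θ₀, hθ₀, hθ₀l, hRres, hMfin, hMnt, hfrobR, hgenR, hresR, htype, hν, ?_⟩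
  intro r n qv iq1 iq2 iq3 iq4 iq5 iq6 hqinj hqv hTW aq bq harith hcongq hpL hN' hG' e₀ he' hee g hcard hgen hord hgloc
    iq7 iq8 hpLt he't heet gt hgt hgent hordt hgloct DQ Dfl
  have hqvpr : ∀ i, (qv i).Prime := fun i => (hqv i).1
  have hqvB : ∀ i, qv i ∉ B := fun i => (hqv i).2.1
  have hqv' : ∀ i, (qv i).Prime ∧ qv i ∉ B := fun i => ⟨(hqv i).1, (hqv i).2.1⟩
  -- the instances of the upper Taylor–Wiles level
  haveI : NeZero (Ne * ∏ j, qv j) := s59u_neZero_level qv Ne hqvpr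
  haveI : NeZero (Ne * p * ∏ j, qv j) := s59u_neZero_level qv (Ne * p) hqvpr
  have hsqne : (∏ q' ∈ Finset.univ.image qv, q' ^ 2) ≠ 0 := Finset.prod_ne_zero_iff.mpr fun q' hq' =>
    Exists.elim (Finset.mem_image.mp hq') fun i hi => hi.2 ▸ pow_ne_zero 2 (hqvpr i).ne_zero
  haveI : NeZero (Ne * ∏ q' ∈ Finset.univ.image qv, q' ^ 2) := ⟨Nat.mul_ne_zero (NeZero.ne Ne) hsqne⟩
  haveI : NeZero (Ne * p * ∏ q' ∈ Finset.univ.image qv, q' ^ 2) := ⟨Nat.mul_ne_zero (NeZero.ne (Ne * p)) hsqne⟩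
  haveI : Fact (HasIntegralStructure (Ne * p * ∏ q' ∈ Finset.univ.image qv, q' ^ 2) 2) :=
    ⟨Fermat.Agent.S23.result _⟩
  -- the `p`-package and the generators at the upper level, descended from the top level
  have hpLE : ¬ p ∣ Ne * ∏ j, qv j := s59u_c2o_not_dvd qv B hpP hpB hpNe hqv'
  have hN'E : Ne * p * ∏ j, qv j = Ne * (∏ j, qv j) * p := Nat.mul_right_comm _ _ _
  have hG'E : s59f_IsG' (Ne * ∏ j, qv j) p (s59t_Hmul Ne (∏ j, qv j) (⊤ : Subgroup (ZMod Ne)ˣ) (s59t_KQ (p ^ n) qv))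
      (s48h_GammaH ((Ne * p) * ∏ j, qv j) (s59t_Hmul (Ne * p) (∏ j, qv j) (⊤ : Subgroup (ZMod (Ne * p))ˣ) (s59t_KQ (p ^ n) qv))) :=
    s59f_isG'_Hmul hpLE (⊤ : Subgroup (ZMod Ne)ˣ) (⊤ : Subgroup (ZMod (Ne * p))ˣ)
      (fun u => ⟨fun _ => Subgroup.mem_top _, fun _ => Subgroup.mem_top _⟩) (s59t_KQ (p ^ n) qv)
  have he'E : e₀ ∈ Gamma0 ((Ne * p) * ∏ j, qv j) := s59t_Gamma0_anti (Nat.mul_dvd_mul_right hdtE _) he't
  have heeE : s59f_gW hpLE * e₀ * e₀ ∈ s48h_GammaH ((Ne * p) * ∏ j, qv j) (s59t_Hmul (Ne * p) (∏ j, qv j) (⊤ : Subgroup (ZMod (Ne * p))ˣ) (s59t_KQ (p ^ n) qv)) :=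
    s59x_hee_descend hpLE hpLt (Nat.mul_dvd_mul_right hNeNt _) hG'E (s59efl_GammaHmul_anti hdtE (p ^ n) qv) heet
  have hcardE : Nat.card (s59t_BQ (Ne * p) (∏ j, qv j) (⊤ : Subgroup (ZMod (Ne * p))ˣ) (s59t_KQ (p ^ n) qv)) = (p ^ n) ^ r :=
    Exists.elim (s59u_W_level_grp p (Ne * p) hsqE B hB1E (⊤ : Subgroup (ZMod (Ne * p))ˣ) n qv hqinj hqv).2 fun _ h => h.1
  have hlvlE := by
    exact (hTWE r n qv hqinj hqv hTW aq bq harith hcongq hpLE hN'E hG'E e₀ he'E heeE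
      (s59efl_pushG hdtE (p ^ n) qv gt) hcardE (s59efl_pushG_gen hdtE (p ^ n) qv gt hgent)
      (s59efl_pushG_ord hdtE (p ^ n) qv gt hordt) (s59efl_pushG_loc hdtE (p ^ n) qv gt hgloct)
      hpLt he't heet gt (fun i => rfl) hgent hordt hgloct DQ Dfl :)
  have hfin := by
    exact (Internal.s59u_c2o_lvl_all p hp2 W hΔ hirr N (N * p) rfl hsqNp hpN B hpB hNB hB2 𝒪 hp𝒪 habs σ
      hocc₁ hocc₂ hp12₁ hN1₁ S37₁ hp12₂ S37₂ (s59f_isG'_top hpN) 1 he1 hee1 e₁ e₂ h1e₁ hid₁ hnil₁ h1e₂ hid₂ hnil₂ hρ₁ hρ₂ hcb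
      b₁ hb₁ b₂ hb₂ P hP hPP hmem hbase hd1 hd0 a₀ ha1₀ aZ₀ haZ₀ hRρ (D0.ρ.baseChangeAlong (θ₀ : D0.R →+* (s59e_adj 𝒪 aZ₀)) hθ₀l)
      hfrobR hgenR n qv hqinj hqv hTW aq bq harith hcongq hpL hN' hG' e₀ he' hee g hcard hgen hord hgloc
      (Sg ∪ Finset.univ.image qv) Su DQ Qr hQr (Sg ∪ Finset.univ.image qv) Su Dfl up hup
      q Ne (Ne * p) hNe rfl hqN hpq hqB hsqE h2E hB1E hdE e₁E eE hρE PE hPE (d₂E - 2 * d₁E) aZ₀E hRρE
      (D0.ρ.baseChangeAlong (θ₀E : D0.R →+* (s59e_adj 𝒪 aZ₀E)) hθ₀lE) hpLE hN'E hG'E he'E heeE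
      (s59efl_pushG hdtE (p ^ n) qv gt)
      (fun i => (hgt i).trans (s59efl_pushG_trans hdE hdtE (p ^ n) qv gt i).symm)
      (s59efl_pushG_loc hdtE (p ^ n) qv gt hgloct) QrE upE :)
  -- never unify two applications of the giant-typed `s59m_LvlIdxConcl` / `s59m_LvlPkgZConcl`: unfold them everywhere first
  revert hlvlE hfin
  delta s59m_LvlIdxConcl s59m_LvlPkgZConcl
  intro hlvlE hfin
  exact hfin hlvlE

export Internal (s59u_c2o_idx_odd)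

end Fermat.Agent.Lib.S59

end
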