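/-
PROGRAMME R2 = S59, case (P), node [W5]-top (helper3), file `UP3L` (SCRIPTED by `gen_up3l.py` from helper7's `NXFinS.lean`):
**THE LITERAL-LEVEL FORM `s59u_p_TFinXL` OF THE MASTER FINAL STATEMENT `s59u_p_TFinX`** = helper7's `s59x_TFinP` (NXFinS.lean: `N t` the `p`-FREE
parts, the levels are `N t * p`) PLUS the two exports (E2) + (E-conc-P) of the base level
`N 0 * p` (one call each from the base package: `s59u_p_E2_Z`, `s59u_p_EConcP_Z`, UPExp.lean), **and the adapter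
`s59u_p_TFinX_of_L : s59u_p_TFinXL p W hΔ → s59u_p_TFinX p W hΔ`** (transport `N t = (N t / p) * p`; `hordp` from `s59q_W_resOrd`, `hocc₁` at the
`p`-free levels from `hres0'` by `s59v_resMod_mono` + `s59e_Lmin_levelOcc`).  THE [W4c] FINAL SHOULD PROVE `s59u_p_TFinXL`: every (P)-field is
then closed by `s59u_p_TFinX_of_L` + UP3B–E / UP5B–D.
-/
import Mathlib
import Fermat.Agent.Lib.S59.UP3A
import Fermat.Agent.Lib.S59.NXFinS
import Fermat.Agent.Lib.S59.QSTPkg5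
import Fermat.Agent.Lib.S59.ELMin
import Fermat.Agent.Lib.S59.VMono
import Fermat.Agent.Lib.S59.E3E2c

set_option autoImplicit false
set_option linter.unusedSectionVars false
set_option linter.unusedVariables false
set_option linter.style.haveILetI false
set_option synthInstance.maxHeartbeats 400000
set_option maxHeartbeats 3200000

noncomputable section

namespace Fermat.Agent.Lib.S59

open IsLocalRing Polynomial CuspForm ExtCitation
open Fermat.Agent.Lib.S53 (NormData exists_normData)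
open Fermat.Agent.Lib.S56 Fermat.Agent.Lib.S44

local notation "Γℚ" => (AlgebraicClosure ℚ ≃ₐ[ℚ] AlgebraicClosure ℚ)

/-- transport of `s59e_HkFrobP` along an equality of levels. -/
theorem s59u_p_HkFrobP_congr {N N' : ℕ} [NeZero N] [NeZero N'] (h : N = N') (S : Set ℕ) (R : Type) [CommRing R]
    [IsLocalRing R] (ρR : GaloisRepAdic R) (H : s59e_HkFrobP N S R ρR) : s59e_HkFrobP N' S R ρR := by
  subst h
  exact H

/-- transport of `s59u_c2_EConcP` along an equality of levels. -/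
theorem s59u_p_EConcP_congr {𝒪 : Type} [CommRing 𝒪] [IsLocalRing 𝒪] (p : ℕ) [Fact p.Prime] {N N' : ℕ} [NeZero N]
    [NeZero N'] (h : N = N') (B : Finset ℕ) (c : ℕ → ℤ) (R : Type) [CommRing R] [IsLocalRing R] [Algebra 𝒪 R]
    (ρR : GaloisRepAdic R) (H : s59u_c2_EConcP 𝒪 p N B c R ρR) : s59u_c2_EConcP 𝒪 p N' B c R ρR := by
  subst h
  exact H

/-- **the literal-level master final statement of case (P)** (helper7's `s59x_TFinP` + (E2) + (E-conc-P)). -/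
def s59u_p_TFinXL (p : ℕ) [Fact p.Prime] (W : WeierstrassCurve ℤ) (hΔ : W.Δ ≠ 0) : Prop :=
  ∀ (hp2 : p ≠ 2) (B : Finset ℕ) (hss : W.IsSemistableModel) (hirr : W.ModRepIsIrreducible p)
    (hmult : ¬ W.IsGoodPrimeFor p)
    (hB2 : ∀ r : ℕ, r.Prime → ¬ W.IsGoodPrimeFor r → r ∈ B)
    (𝒪 : Type) [CommRing 𝒪] [IsDomain 𝒪] [IsDiscreteValuationRing 𝒪]
    [IsAdicComplete (maximalIdeal 𝒪) 𝒪] [Finite (ResidueField 𝒪)] [CharZero 𝒪]
    [Algebra ℤ_[p] 𝒪] [Module.Finite ℤ_[p] 𝒪]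
    (hp𝒪 : ((p : ℕ) : 𝒪) ∈ maximalIdeal 𝒪)
    (habs : (s59i_rhobarW W p hΔ 𝒪 hp𝒪).IsAbsolutelyIrreducible)
    (Nd : NormData (s59i_rhobarW W p hΔ 𝒪 hp𝒪))
    (hordp : (GaloisRepAdic.ofResidualGaloisRep (s59i_rhobarW W p hΔ 𝒪 hp𝒪)).IsOrdinaryAt p)
    -- the chain of levels: the `p`-free parts `N t`, the levels are `N t * p`
    (k : ℕ) (N : ℕ → ℕ) (qr : ℕ → ℕ) (hNZ : ∀ t, NeZero (N t))
    (hqr : ∀ t, t < k → (qr t).Prime)
    (hN : ∀ t, t < k → N (t + 1) = N t * qr t)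
    (hfreeze : ∀ t, k ≤ t → N t = N k)
    (hsq : ∀ t, Squarefree (N t * p)) (hpN : ∀ t, ¬ p ∣ N t) (h2N : ∀ t, 2 ∣ N t)
    (hB1 : ∀ t, ∀ r : ℕ, r.Prime → r ∣ N t * p → r ∈ B)
    (hocc₁ : ∀ t, Fermat.Agent.Lib.S44.s44i_LevelOcc (N t) p (fun ℓ => W.apOfModel ℓ) B)
    (hocc₂ : ∀ t, Fermat.Agent.Lib.S44.s44i_LevelOcc (N t * p) p (fun ℓ => W.apOfModel ℓ) B)
    -- Frobenius and inertia elements at the raising primes
    (φr σr : ℕ → Γℚ)
    (hφr : ∀ t, t < k → ∃ A : ValuationSubring (AlgebraicClosure ℚ),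
      A.LiesOverPrime (qr t) ∧ A.IsFrobeniusAt (φr t) (qr t))
    (hσr : ∀ t, t < k → ∃ A : ValuationSubring (AlgebraicClosure ℚ),
      A.LiesOverPrime (qr t) ∧ σr t ∈ A.inertiaSubgroupIn ℚ)
    -- the deformation types
    (Sg0 Su Smin Sgm : Finset ℕ) (hpSgm : p ∈ Sgm) (hSgm0 : Sgm ⊆ Sg0) (hSminSgm : Smin ⊆ Sgm)
    (hmin : ∀ q : ℕ, q.Prime → q ≠ p →
      (q ∈ Smin ↔ ¬ (s59i_rhobarW W p hΔ 𝒪 hp𝒪).IsUnramifiedAt q))
    (hSuB : Su ⊆ B)
    (hSgN : ∀ t, ∀ q : ℕ, q.Prime → q ∣ N t →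
      q ∈ Sg0 ∨ s59e3q_E2Alt p (s59i_rhobarW W p hΔ 𝒪 hp𝒪) q)
    (hSgmN : ∀ q : ℕ, q.Prime → q ∣ N 0 →
      q ∈ Sgm ∨ s59e3q_E2Alt p (s59i_rhobarW W p hΔ 𝒪 hp𝒪) q)
    (hqrSgm : ∀ t, t < k → qr t ∉ Sgm)
    (D0 : GaloisRep.DeformationRingData 𝒪 (s59i_rhobarW W p hΔ 𝒪 hp𝒪) (fun _A _ _ _ ρ =>
      GaloisRep.strictOrdinaryCondition 𝒪 p Sg0 ρ ∧
        ∀ q ∈ Su, q.Prime → q ≠ p → ρ.IsUnipotentOnInertiaAt q))
    (Dm : GaloisRep.DeformationRingData 𝒪 (s59i_rhobarW W p hΔ 𝒪 hp𝒪) (fun _A _ _ _ ρ =>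
      GaloisRep.strictOrdinaryCondition 𝒪 p Sgm ρ ∧
        ∀ q ∈ Su, q.Prime → q ≠ p → ρ.IsUnipotentOnInertiaAt q))
    (σ : Type) [DecidableEq σ] [Fintype σ],
    ∃ Bs : s59f_TBaseF 𝒪 k D0,
      s59e_HkFrobP (N k * p) (↑B : Set ℕ) (Bs.R k) (Bs.ρR k) ∧
      -- (E2): the base ring acts faithfully on the base module
      (∀ a : Bs.R 0, (∀ mm : Bs.M 0, a • mm = 0) → a = 0) ∧
      -- (E-conc-P): the concrete model of the base ring on the `p`-kernel part of the level `N 0 * p`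
      s59u_c2_EConcP 𝒪 p (N 0 * p) B (fun ℓ => W.apOfModel ℓ) (Bs.R 0) (Bs.ρR 0) ∧
      ∀ (r : ℕ) (n : ℕ) (qv : Fin r → ℕ), Function.Injective qv →
        (∀ i, (qv i).Prime ∧ qv i ∉ B ∧ p ^ (n + 1) ∣ qv i - 1) →
        (∀ i, ∀ A : ValuationSubring (AlgebraicClosure ℚ), A.LiesOverPrime (qv i) →
          ∀ φ : Γℚ, A.IsFrobeniusAt φ (qv i) →
            ∃ α β : ResidueField 𝒪, α ≠ β ∧
              LinearMap.charpoly ((s59i_rhobarW W p hΔ 𝒪 hp𝒪).ρ φ) = (X - C α) * (X - C β)) →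
        ∀ (DQ : GaloisRep.DeformationRingData 𝒪 (s59i_rhobarW W p hΔ 𝒪 hp𝒪) (fun _A _ _ _ ρ =>
            GaloisRep.strictOrdinaryCondition 𝒪 p (Sg0 ∪ Finset.univ.image qv) ρ ∧
              ∀ q ∈ Su, q.Prime → q ≠ p → ρ.IsUnipotentOnInertiaAt q))
          (Dsf : GaloisRep.DeformationRingData 𝒪 (s59i_rhobarW W p hΔ 𝒪 hp𝒪)
            (s59q_SfType 𝒪 p (Sg0 ∪ Finset.univ.image qv) Su))
          (κsf : DQ.R →ₐ[𝒪] Dsf.R), Function.Surjective κsf →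
          (∀ g, κsf (s59i_cpTr DQ.ρ g) = s59i_cpTr Dsf.ρ g) →
          Nonempty (s59b_TLevelFW 𝒪 p n r σ k Bs qv qr φr σr DQ
            ((RingHom.ker (κsf : DQ.R →+* Dsf.R) : Ideal DQ.R) : Set DQ.R))

/-- **the adapter: the literal-level final statement (helper7's `s59x_TFinP` + the two exports) ⟹ the master statement.** -/
theorem s59u_p_TFinX_of_L (p : ℕ) [hpF : Fact p.Prime] (W : WeierstrassCurve ℤ) (hΔ : W.Δ ≠ 0)
    (HL : s59u_p_TFinXL p W hΔ) : s59u_p_TFinX p W hΔ := by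
  intro hp2 B hp35 hss hirr hbadp hc4p hpeu hB2 𝒪 _ _ _ _ _ _ _ _ hp𝒪 hsplitℤ habs Nd k N qr hNZ hqr hN
    hfreeze hsq hpN hB1 hocc h23 hres0 hres0' φr σr hφr hσr hqrW Sg0 Su Smin Sgm hpSgm hSgm0 hSminSgm
    hmin hSuB hSgN hSgmN hqrSgm hSg0qr hqrSu hWSminSu D0 Dm σ _ _
  classical
  have hpP : p.Prime := hpF.out
  haveI := hNZ
  have hNp : ∀ t, N t / p * p = N t := fun t => Nat.div_mul_cancel (hpN t)
  have hN'Z : ∀ t, NeZero (N t / p) := fun t =>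
    ⟨fun h0 => (NeZero.ne (N t)) (by rw [← hNp t, h0, zero_mul])⟩
  have hN'dvd : ∀ t, N t / p ∣ N t := fun t => Dvd.intro _ (hNp t)
  have hsq' : ∀ t, Squarefree (N t / p * p) := fun t => by rw [hNp t]; exact hsq t
  have hpN' : ∀ t, ¬ p ∣ N t / p := by
    intro t hd
    have h2 : p * p ∣ N t := by
      rw [← hNp t]
      exact Nat.mul_dvd_mul_right hd p
    exact hpP.one_lt.ne' (Nat.isUnit_iff.mp (hsq t p h2))
  have hmult : ¬ W.IsGoodPrimeFor p := fun hg => hg hbadp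
  have hordp : (GaloisRepAdic.ofResidualGaloisRep (s59i_rhobarW W p hΔ 𝒪 hp𝒪)).IsOrdinaryAt p :=
    s59q_W_resOrd W p hΔ hp2 hirr 𝒪 hp𝒪 hbadp hc4p
  have hqrp : ∀ t, t < k → qr t ≠ p := fun t ht => (hqrW t ht).1
  have hN' : ∀ t, t < k → N (t + 1) / p = N t / p * qr t := by
    intro t ht
    have h1 : N (t + 1) / p * p = N t / p * qr t * p := by
      rw [hNp (t + 1), hN t ht, mul_right_comm, hNp t]
    exact Nat.eq_of_mul_eq_mul_right hpP.pos h1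
  have hfreeze' : ∀ t, k ≤ t → N t / p = N k / p := fun t ht => by rw [hfreeze t ht]
  have hmono0 : ∀ t, N 0 ∣ N t := by
    intro t
    induction t with
    | zero => exact dvd_refl _
    | succ t ih =>
      by_cases ht : t < k
      · exact ih.trans (Dvd.intro _ (hN t ht).symm)
      · have e : N (t + 1) = N t := (hfreeze (t + 1) (by omega)).trans (hfreeze t (by omega)).symm
        rw [e]
        exact ih
  have hmono0' : ∀ t, N 0 / p ∣ N t / p := by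
    intro t
    obtain ⟨c, hc⟩ := hmono0 t
    refine ⟨c, ?_⟩
    have h1 : N t / p * p = N 0 / p * c * p := by
      rw [hNp t, hc, mul_right_comm, hNp 0]
    exact Nat.eq_of_mul_eq_mul_right hpP.pos h1
  have hsqf' : ∀ t, Squarefree (N t / p) := fun t => (hsq t).squarefree_of_dvd (hN'dvd t)
  have hB1' : ∀ t, ∀ r : ℕ, r.Prime → r ∣ N t / p * p → r ∈ B := fun t r hr hd =>
    hB1 t r hr (by rw [hNp t] at hd; exact Dvd.dvd.mul_right hd p)
  have hB1'' : ∀ t, ∀ r : ℕ, r.Prime → r ∣ N t / p * p → r ∈ B := hB1'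
  have H := HL hp2 B hss hirr hmult hB2 𝒪 hp𝒪 habs Nd hordp k (fun t => N t / p) qr hN'Z hqr hN' hfreeze'
    hsq' hpN' (fun t => by
      have h2 : 2 ∣ N t / p * p := by rw [hNp t]; exact h23 t
      rcases (Nat.Prime.dvd_mul Nat.prime_two).mp h2 with h | h
      · exact h
      · exact absurd ((Nat.prime_dvd_prime_iff_eq Nat.prime_two hpP).mp h).symm hp2) hB1'
    (fun t => s59e_Lmin_levelOcc W p _ B (hB1' t) hB2 (s59v_resMod_mono (hmono0' t) (hsqf' t) hres0'))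
    (fun t => by
      show s44i_LevelOcc (N t / p * p) p (fun ℓ => W.apOfModel ℓ) B
      rw [hNp t]
      exact hocc t)
    φr σr hφr hσr Sg0 Su Smin Sgm hpSgm hSgm0 hSminSgm hmin hSuB
    (fun t q hq hd => hSgN t q hq (hd.trans (hN'dvd t)))
    (fun q hq hd => hSgmN q hq (hd.trans (hN'dvd 0))) hqrSgm D0 Dm σ
  choose Bs hHk hE2 hEC hTW using H
  haveI : NeZero (N k / p * p) := ⟨by rw [hNp k]; exact NeZero.ne (N k)⟩
  haveI : NeZero (N 0 / p * p) := ⟨by rw [hNp 0]; exact NeZero.ne (N 0)⟩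
  exact ⟨Bs, s59u_p_HkFrobP_congr (hNp k) _ _ _ hHk, hE2,
    s59u_p_EConcP_congr p (hNp 0) B _ _ _ hEC, hTW⟩

/-- the literal-level final statement IS helper7's statement `s59x_TFinP` (NXFinS.lean v2, same text). -/
theorem s59u_p_TFinXL_iff_P (p : ℕ) [hpF : Fact p.Prime] (W : WeierstrassCurve ℤ) (hΔ : W.Δ ≠ 0) :
    s59u_p_TFinXL p W hΔ ↔ s59x_TFinP p W hΔ := Iff.rfl

/-- **helper7's final statement `s59x_TFinP` (NXFinS.lean v2) ⟹ the master statement `s59u_p_TFinX`.** -/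
theorem s59u_p_TFinX_of_P (p : ℕ) [hpF : Fact p.Prime] (W : WeierstrassCurve ℤ) (hΔ : W.Δ ≠ 0)
    (HP : s59x_TFinP p W hΔ) : s59u_p_TFinX p W hΔ :=
  s59u_p_TFinX_of_L p W hΔ HP

end Fermat.Agent.Lib.S59

end
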