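/-
PROGRAMME (R2) = S59, plan [C2P] (the field `finP2X`), the ODD level package, file I (helper3, prefix `s59u_c2o_`):
**THE FINAL STRICT `T`-SIDE STATEMENT OF PLAN [C2P] AT AN ODD BASE LEVEL (`s59u_c2_TFinPtX p W hΔ s k₀`, UC2PE.lean) FROM helper9's ABSTRACT CORE
`s59m_TFinCore p W hΔ` (MKerFinS.lean)**: the chain `N t` (with `p ∣ N t`, `2 ∤ N 0`, `qr 0 = 2`) is transported to its `p`-free parts
`N t / p` (as in `s59u_p_TFinX_of_L`, UP3L.lean); the per-index hypothesis `hIdx` of the core is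

* at the indices `t ≠ 0` (EVEN levels): helper9's standard provider `Internal.s59m_idx_std` (MKerIdx.lean) with the parity-dependent inputs of an
  even level, exactly as in helper9's `Internal.s59m_finE` (MKerFinE.lean);
* at the index `0` (ODD level, `s18_GoodLevel 3 (N 0 / 3)` FAILS): `Internal.s59u_c2o_idx_odd` (UC2OddH) from the datum of the index `1`;
  `s59e_auxTors` at the odd level from the spectator prime `s` (`s ∣ N 0`, `s ≠ p`, `s ≡ 2 mod 3` if `p = 3`).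
-/
import Mathlib
import Fermat.Agent.Lib.S59.UC2PE
import Fermat.Agent.Lib.S59.UP3L
import Fermat.Agent.Lib.S59.UC2OddH
import Fermat.Agent.Lib.S59.MKerFinS
import Fermat.Agent.Lib.S59.MKerIdx
import Fermat.Agent.Lib.S59.MKerBaseS
import Fermat.Agent.Lib.S59.MKerRecProvE
import Fermat.Agent.Lib.S59.UW37Cons
import Fermat.Agent.Lib.S59.E3Aux
import Fermat.Agent.Lib.S59.EAuxPF

set_option autoImplicit false
set_option linter.unusedSectionVars false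
set_option linter.unusedVariables false
set_option linter.style.haveILetI false
set_option maxHeartbeats 0
set_option synthInstance.maxHeartbeats 400000
set_option maxSynthPendingDepth 3

noncomputable section

namespace Fermat.Agent.Lib.S59

open IsLocalRing CuspForm Polynomial ExtCitation CongruenceSubgroup
open WeierstrassCurve WeierstrassCurve.Affine WeierstrassCurve.Affine.Point
open Fermat.Agent.Lib.S48 Fermat.Agent.Lib.S44 Fermat.Agent.Lib.S18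
open Fermat.Agent.Lib.S53 (NormData)
open scoped MatrixGroups

local notation "Γℚ" => (AlgebraicClosure ℚ ≃ₐ[ℚ] AlgebraicClosure ℚ)

/-- an even `p`-free level is good for the odd prime `p` (own copy of helper9's `s59m_goodLevel_even`). -/
theorem s59u_c2o_goodLevel_even {p N : ℕ} (hp : p.Prime) (hp2 : p ≠ 2) (hpN : ¬ p ∣ N) (h2N : 2 ∣ N) : s18_GoodLevel p N := by
  refine ⟨hpN, ?_⟩
  by_cases h3 : p = 3
  · exact Or.inr (Or.inl ⟨h3, h2N⟩)
  · refine Or.inl ?_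
    have h2 := hp.two_le
    by_contra hlt
    have h4 : p = 4 := by omega
    rw [h4] at hp
    exact absurd hp (by norm_num)

/-- the levels of a chain whose first raising prime is `2` are even from the index `1` on. -/
theorem s59u_c2o_even_succ {k : ℕ} (N qr : ℕ → ℕ) (hN : ∀ t, t < k → N (t + 1) = N t * qr t)
    (hfreeze : ∀ t, k ≤ t → N t = N k) (h0k : 0 < k) (hq0 : qr 0 = 2) : ∀ t, 2 ∣ N (t + 1) := by
  intro t
  induction t with
  | zero =>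
    have h1 := hN 0 h0k
    rw [hq0] at h1
    exact Dvd.intro_left _ h1.symm
  | succ t ih =>
    by_cases ht : t + 1 < k
    · rw [hN (t + 1) ht]
      exact Dvd.dvd.mul_right ih _
    · have e : N (t + 1 + 1) = N (t + 1) :=
        (hfreeze (t + 1 + 1) (by omega)).trans (hfreeze (t + 1) (by omega)).symm
      rw [e]
      exact ih

/-- the levels of a chain are increasing for divisibility. -/
theorem s59u_c2o_chain_dvd {k : ℕ} (N qr : ℕ → ℕ) (hN : ∀ t, t < k → N (t + 1) = N t * qr t)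
    (hfreeze : ∀ t, k ≤ t → N t = N k) (a : ℕ) : ∀ t, N a ∣ N (a + t) := by
  intro t
  induction t with
  | zero => exact dvd_refl _
  | succ t ih =>
    by_cases ht : a + t < k
    · have h1 : N (a + (t + 1)) = N (a + t) * qr (a + t) := hN (a + t) ht
      rw [h1]
      exact Dvd.dvd.mul_right ih _
    · have e : N (a + (t + 1)) = N (a + t) :=
        (hfreeze (a + (t + 1)) (by omega)).trans (hfreeze (a + t) (by omega)).symm
      rw [e]
      exact ih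

/-- **the final strict `T`-side statement of plan [C2P] at an odd base level, from helper9's abstract core.** -/
theorem s59u_c2o_finPtX_of_core (p : ℕ) [hpF : Fact p.Prime] (W : WeierstrassCurve ℤ) (hΔ : W.Δ ≠ 0) (s k₀ : ℕ)
    (HC : s59m_TFinCore p W hΔ) : s59u_c2_TFinPtX p W hΔ s k₀ := by
  intro hp2 B hp35 hss hirr hbadp hc4p hpeu hB2 𝒪 _ _ _ _ _ _ _ _ hp𝒪 hsplitℤ habs Nd k N qr hNZ hqr hN hfreeze hsq
    hpN hB1 hocc h23 hres0 hres0' φr σr hφr hσr hqrW Sg0 Su Smin Sgm hpSgm hSgm0 hSminSgm hmin hSuB hSgN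
    hSgmN hqrSgm hSgmS hSg0qr hqrSu hWSminSu hs hsp hsN hstors hold hold' hsSgm hsSu hsU φs σs hφs hσs εs hεs
    hscp hk0 hk1 hφsP hσsT D0 Dm σ _ _
  classical
  have hpP : p.Prime := hpF.out
  haveI := hNZ
  have h0k : 0 < k := h23.2.1
  have hq0 : qr 0 = 2 := h23.2.2
  have hNp : ∀ t, N t / p * p = N t := fun t => Nat.div_mul_cancel (hpN t)
  haveI hN'Z : ∀ t, NeZero (N t / p) := fun t =>
    ⟨fun h0 => (NeZero.ne (N t)) (by rw [← hNp t, h0, zero_mul])⟩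
  haveI hN'Zp : ∀ t, NeZero (N t / p * p) := fun t => ⟨by rw [hNp t]; exact NeZero.ne (N t)⟩
  have hN'dvd : ∀ t, N t / p ∣ N t := fun t => Dvd.intro _ (hNp t)
  have hsq' : ∀ t, Squarefree (N t / p * p) := fun t => by rw [hNp t]; exact hsq t
  have hpN' : ∀ t, ¬ p ∣ N t / p := by
    intro t hd
    have h2 : p * p ∣ N t := by
      rw [← hNp t]
      exact Nat.mul_dvd_mul_right hd p
    exact hpP.one_lt.ne' (Nat.isUnit_iff.mp (hsq t p h2))
  have hmult : ¬ W.IsGoodPrimeFor p := fun hg => hg hbadp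
  have hordp : (GaloisRepAdic.ofResidualGaloisRep (s59i_rhobarW W p hΔ 𝒪 hp𝒪)).IsOrdinaryAt p :=
    s59q_W_resOrd W p hΔ hp2 hirr 𝒪 hp𝒪 hbadp hc4p
  have hN' : ∀ t, t < k → N (t + 1) / p = N t / p * qr t := by
    intro t ht
    have h1 : N (t + 1) / p * p = N t / p * qr t * p := by
      rw [hNp (t + 1), hN t ht, mul_right_comm, hNp t]
    exact Nat.eq_of_mul_eq_mul_right hpP.pos h1
  have hfreeze' : ∀ t, k ≤ t → N t / p = N k / p := fun t ht => by rw [hfreeze t ht]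
  have hdvdp : ∀ a b, N a ∣ N b → N a / p ∣ N b / p := by
    intro a b hab
    obtain ⟨c, hc⟩ := hab
    refine ⟨c, ?_⟩
    have h1 : N b / p * p = N a / p * c * p := by
      rw [hNp b, hc, mul_right_comm, hNp a]
    exact Nat.eq_of_mul_eq_mul_right hpP.pos h1
  have hmono0 : ∀ t, N 0 ∣ N t := fun t => by
    have h := s59u_c2o_chain_dvd N qr hN hfreeze 0 t
    rwa [Nat.zero_add] at h
  have hmono0' : ∀ t, N 0 / p ∣ N t / p := fun t => hdvdp 0 t (hmono0 t)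
  have hsqf' : ∀ t, Squarefree (N t / p) := fun t => (hsq t).squarefree_of_dvd (hN'dvd t)
  have hB1' : ∀ t, ∀ r : ℕ, r.Prime → r ∣ N t / p * p → r ∈ B := fun t r hr hd =>
    hB1 t r hr (by rw [hNp t] at hd; exact Dvd.dvd.mul_right hd p)
  have hpB : p ∈ B := hB1' 0 p hpP (Dvd.intro_left _ rfl)
  have hocc₁ : ∀ t, s44i_LevelOcc (N t / p) p (fun ℓ => W.apOfModel ℓ) B := fun t =>
    s59e_Lmin_levelOcc W p _ B (hB1' t) hB2 (s59v_resMod_mono (hmono0' t) (hsqf' t) hres0')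
  have hocc₂ : ∀ t, s44i_LevelOcc (N t / p * p) p (fun ℓ => W.apOfModel ℓ) B := fun t => by
    rw [hNp t]
    exact hocc t
  have hSgN' : ∀ t, ∀ q : ℕ, q.Prime → q ∣ N t / p → q ∈ Sg0 ∨ s59e3q_E2Alt p (s59i_rhobarW W p hΔ 𝒪 hp𝒪) q :=
    fun t q hq hd => hSgN t q hq (hd.trans (hN'dvd t))
  have hSgmN' : ∀ q : ℕ, q.Prime → q ∣ N 0 / p → q ∈ Sgm ∨ s59e3q_E2Alt p (s59i_rhobarW W p hΔ 𝒪 hp𝒪) q :=
    fun q hq hd => hSgmN q hq (hd.trans (hN'dvd 0))
  have hSgNp : ∀ t, ∀ q : ℕ, q.Prime → q ∣ N t / p * p → q ∈ Sg0 ∨ s59e3q_E2Alt p (s59i_rhobarW W p hΔ 𝒪 hp𝒪) q :=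
    fun t q hq h => ((Nat.Prime.dvd_mul hq).mp h).elim (hSgN' t q hq)
      (fun h' => Or.inl (((Nat.prime_dvd_prime_iff_eq hq hpP).mp h').symm ▸ hSgm0 hpSgm))
  -- the parity of the levels
  have h2N : ∀ t, t ≠ 0 → 2 ∣ N t / p := by
    intro t ht
    obtain ⟨t', rfl⟩ : ∃ t', t = t' + 1 := ⟨t - 1, by omega⟩
    have h2 : 2 ∣ N (t' + 1) / p * p := by
      rw [hNp (t' + 1)]
      exact s59u_c2o_even_succ N qr hN hfreeze h0k hq0 t'
    rcases (Nat.Prime.dvd_mul Nat.prime_two).mp h2 with h | h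
    · exact h
    · exact absurd ((Nat.prime_dvd_prime_iff_eq Nat.prime_two hpP).mp h).symm hp2
  -- the types without the raising primes
  have hSgsex := s59m_exists_Sgs (P := fun q => s59e3q_E2Alt p (s59i_rhobarW W p hΔ 𝒪 hp𝒪) q) (fun t => N t / p) Sg0 Sgm hSgm0
    hSgN' hSgmN'
  choose Sgs hSgs0eq hSgmSgs hSgsSg0 hSgsN using hSgsex
  -- the even indices: helper9's standard provider
  have hIdxE : ∀ t, t ≠ 0 → ∀ (hdt : N t / p * p ∣ N k / p * p),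
      s59m_IdxConcl p W hΔ (N t / p) B (hpN' t) 𝒪 hp𝒪 σ Sg0 Su D0
        {q : ℕ | t = 0 ∧ ∃ l, l < k ∧ q = qr l} (t ≠ 0) (N k / p) hdt := by
    intro t ht hdt
    have hN1 : 1 < N t / p :=
      lt_of_lt_of_le one_lt_two (Nat.le_of_dvd (Nat.pos_of_ne_zero (NeZero.ne (N t / p))) (h2N t ht))
    have hN1p : 1 < N t / p * p := lt_of_lt_of_le hN1 (Nat.le_mul_of_pos_right _ hpP.pos)
    have htors : s59e_auxTors p (N t / p) := s59e3_auxTors_even hpP hp2 (h2N t ht)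
    have htors₂ : s59e_auxTors p (N t / p * p) := s59e_auxTors_mono (Dvd.intro _ rfl) htors
    have hgood : s18_GoodLevel p (N t / p) := s59u_c2o_goodLevel_even hpP hp2 (hpN' t) (h2N t ht)
    exact Internal.s59m_idx_std p hp2 W hΔ hirr (N t / p) (hsq' t) (hpN' t) B (hB1' t) hB2 𝒪 hp𝒪 hordp habs Nd σ (hocc₁ t) (hocc₂ t)
      hgood htors hN1
      (s59u_S37H_aux_pgroup_W (hsqf' t) hN1 (Subgroup.mem_top _) htors (fun u => ⟨0, Subgroup.mem_top _⟩))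
      htors₂
      (s59u_S37H_aux_pgroup_W (hsq' t) hN1p (Subgroup.mem_top _) htors₂ (fun u => ⟨0, Subgroup.mem_top _⟩))
      (s59m_recProvAll_even p hp2 W hΔ (N t / p * p) B hirr (hsq' t) (hB1' t) hpB hB2 (Dvd.dvd.mul_right (h2N t ht) p) 𝒪 hp𝒪)
      Sg0 Su Smin Sgm (Sgs t) hpSgm (hSgmSgs t) (hSgsSg0 t) hSminSgm hmin hSuB (hSgN' t) (hSgsN t) D0 Dm
      {q : ℕ | t = 0 ∧ ∃ l, l < k ∧ q = qr l} (fun q hq => absurd hq.1 ht) (t ≠ 0) (N k / p) hdt
      (Internal.s59m_base_std p hp2 W hΔ (N t / p) B hirr hss hmult (hsq' t) (hpN' t) hgood htors (hB1' t) hB2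
        (hocc₁ t) (hocc₂ t) 𝒪 hp𝒪 Sg0 Su Smin (hSgm0 hpSgm) (hSgNp t) hmin D0)
  -- the odd index `0`, from the index `1`
  have hsN' : s ∣ N 0 / p := by
    have h1 : s ∣ N 0 / p * p := by rw [hNp 0]; exact hsN
    rcases (Nat.Prime.dvd_mul hs).mp h1 with h | h
    · exact h
    · exact absurd ((Nat.prime_dvd_prime_iff_eq hs hpP).mp h) hsp
  have htors0 : s59e_auxTors p (N 0 / p) := by
    rcases hp35 with h3 | h5
    · exact Or.inr ⟨h3, s, hs, hstors h3, hsN'⟩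
    · exact s59e_auxTors_of_five_le hpP (by omega) _
  have htors0₂ : s59e_auxTors p (N 0 / p * p) := s59e_auxTors_mono (Dvd.intro _ rfl) htors0
  have hN10 : 1 < N 0 / p :=
    lt_of_lt_of_le hs.one_lt (Nat.le_of_dvd (Nat.pos_of_ne_zero (NeZero.ne (N 0 / p))) hsN')
  have hN10p : 1 < N 0 / p * p := lt_of_lt_of_le hN10 (Nat.le_mul_of_pos_right _ hpP.pos)
  have hk1 : N (0 + 1) ∣ N k := by
    have h := s59u_c2o_chain_dvd N qr hN hfreeze (0 + 1) (k - 1)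
    have e : 0 + 1 + (k - 1) = k := by omega
    rwa [e] at h
  have hdt1 : N (0 + 1) / p * p ∣ N k / p * p := Nat.mul_dvd_mul_right (hdvdp (0 + 1) k hk1) p
  haveI : Fact (qr 0).Prime := ⟨hqr 0 h0k⟩
  have hqN0 : ¬ qr 0 ∣ N 0 / p := fun h => (hqrW 0 h0k).2.1 (h.trans (hN'dvd 0))
  have hQr0 : ∀ q' ∈ {q : ℕ | (0 : ℕ) = 0 ∧ ∃ l, l < k ∧ q = qr l},
      q'.Prime ∧ q' ≠ p ∧ ¬ q' ∣ N 0 / p * p ∧ q' ∈ B := by
    rintro q' ⟨-, l, hl, rfl⟩
    refine ⟨hqr l hl, (hqrW l hl).1, ?_, ?_⟩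
    · rw [hNp 0]
      exact (hqrW l hl).2.1
    · exact hB1 (l + 1) _ (hqr l hl) (Dvd.dvd.mul_right (Dvd.intro_left _ (hN l hl).symm) p)
  have hIdx0 : ∀ (hdt : N 0 / p * p ∣ N k / p * p),
      s59m_IdxConcl p W hΔ (N 0 / p) B (hpN' 0) 𝒪 hp𝒪 σ Sg0 Su D0
        {q : ℕ | (0 : ℕ) = 0 ∧ ∃ l, l < k ∧ q = qr l} ((0 : ℕ) ≠ 0) (N k / p) hdt := fun hdt =>
    Internal.s59u_c2o_idx_odd p hp2 W hΔ (N 0 / p) (qr 0) (N (0 + 1) / p) (hN' 0 h0k) B hirr hss hmult (hsq' (0 + 1))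
      (hpN' 0) (hpN' (0 + 1)) hqN0 (hqrW 0 h0k).1.symm
      (s59u_c2o_goodLevel_even hpP hp2 (hpN' (0 + 1)) (h2N (0 + 1) (Nat.succ_ne_zero 0)))
      (hB1' (0 + 1)) hB2 (hocc₁ 0) (hocc₂ 0) (hocc₁ (0 + 1)) 𝒪 hp𝒪
      htors0 hN10
      (s59u_S37H_aux_pgroup_W (hsqf' 0) hN10 (Subgroup.mem_top _) htors0 (fun u => ⟨0, Subgroup.mem_top _⟩))
      htors0₂
      (s59u_S37H_aux_pgroup_W (hsq' 0) hN10p (Subgroup.mem_top _) htors0₂ (fun u => ⟨0, Subgroup.mem_top _⟩))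
      (Dvd.dvd.mul_right (h2N (0 + 1) (Nat.succ_ne_zero 0)) p)
      σ Sg0 Su D0 {q : ℕ | (0 : ℕ) = 0 ∧ ∃ l, l < k ∧ q = qr l} hQr0 ((0 : ℕ) ≠ 0) (fun h => h rfl)
      {q : ℕ | (0 + 1 : ℕ) = 0 ∧ ∃ l, l < k ∧ q = qr l} ((0 + 1 : ℕ) ≠ 0) (N k / p) hdt hdt1
      (hIdxE (0 + 1) (Nat.succ_ne_zero 0) hdt1)
  have hIdx : ∀ t (hdt : N t / p * p ∣ N k / p * p),
      s59m_IdxConcl p W hΔ (N t / p) B (hpN' t) 𝒪 hp𝒪 σ Sg0 Su D0
        {q : ℕ | t = 0 ∧ ∃ l, l < k ∧ q = qr l} (t ≠ 0) (N k / p) hdt := by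
    intro t
    rcases Nat.eq_zero_or_pos t with rfl | htpos
    · exact hIdx0
    · exact hIdxE t (Nat.pos_iff_ne_zero.mp htpos)
  have H := HC hp2 B hirr hB2 𝒪 hp𝒪 habs Nd hordp k (fun t => N t / p) qr hN'Z hqr hN' hfreeze' hsq' hpN' hB1' hocc₁ hocc₂
    φr σr hφr hσr Sg0 Su Smin Sgm hpSgm hSgm0 hSminSgm hmin hSuB hSgN' hSgmN' hqrSgm D0 Dm σ hIdx
  choose Bs hHk hE2 hEC hTW using H
  haveI : NeZero (N k / p * p) := hN'Zp k
  haveI : NeZero (N 0 / p * p) := hN'Zp 0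
  exact ⟨Bs, s59u_p_HkFrobP_congr (hNp k) _ _ _ hHk, hE2,
    s59u_p_EConcP_congr p (hNp 0) B _ _ _ hEC, hTW⟩

end Fermat.Agent.Lib.S59

end
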