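/-
PROGRAMME (R2) = S59 — THE FINAL WIRING (helper1).  The THREE case-(P) fields of `s59g_OpenZj` (GLeavesZj.lean, adapter v3.20) are closed
by helper9's abstract core `Internal.s59m_finCore` (MKerFin.lean: `s59m_TFinCore p W hΔ`) through its three instances
  `finPX  := ` helper9's `s59m_finE 3` (MKerFinE.lean: `s59x_TFinP 3 W hΔ`) + helper3's `s59u_p_TFinX_of_P` (UP3L.lean),
  `finP2X := ` helper3's `s59u_c2o_finPtX_of_core 3` (UC2OddI.lean),
  `finP5X := ` helper4's `s59f_p5_TFinX` (FP5FinE.lean).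
`s59g_S59_final` is the frozen statement S59, verbatim, with NO hypothesis left.
NEW file, NEW names.
-/
import Fermat.Agent.Lib.S59.GLeavesZj
import Fermat.Agent.Lib.S59.MKerFinE
import Fermat.Agent.Lib.S59.UP3L
import Fermat.Agent.Lib.S59.UC2OddI
import Fermat.Agent.Lib.S59.FP5FinE

set_option autoImplicit false

open CongruenceSubgroup ModularFormClass

noncomputable section

namespace Fermat.Agent.Lib.S59

attribute [local instance] s59g_fact_prime_five

/-- the three final `T`-side statements of case (P) (the fields of `s59g_OpenZj`), all from helper9's abstract core. -/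
theorem s59g_openZj_final : s59g_OpenZj where
  finPX := fun W hΔ => s59u_p_TFinX_of_P 3 W hΔ (s59m_finE 3 W hΔ)
  finP2X := fun W hΔ r => s59u_c2o_finPtX_of_core 3 W hΔ r 0 (s59m_finCore 3 W hΔ)
  finP5X := fun W hΔ => s59f_p5_TFinX W hΔ

/-- **S59** — the frozen statement, verbatim. -/
theorem s59g_S59_final
    (p : ℕ) (hp : p = 3 ∨ p = 5)
    (W : WeierstrassCurve ℤ) (hΔ : W.Δ ≠ 0) (hW : W.IsSemistableModel)
    (hirr : W.ModRepIsIrreducible p)
    (M₀ : ℕ) [NeZero M₀] (hres₀ : W.IsResiduallyModularOfLevel p M₀)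
    (hM₀ : ¬ p ^ 2 ∣ M₀)
    (hM₀3 : ∀ q : ℕ, q.Prime → q ≠ p → ¬ q ^ 3 ∣ M₀) :
    Mlc1IsModularModelOfExactConductorLevel W :=
  s59g_S59_openZj s59g_openZj_final p hp W hΔ hW hirr M₀ hres₀ hM₀ hM₀3

end Fermat.Agent.Lib.S59

end
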