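/-
[IA-c] part J (helper3, prefix `s59u_ic_`): **THE `R`-SIDE DATA WITH SPECTATOR PRIMES OF GENERIC SMOOTH
LOCAL TYPE, AND THE `R`-SIDE PACKAGE FOR A SEMISTABLE `W`.**

* `s59u_ic_RData` : helper4's `s59i_RData` (LFinC1) with the `E`-data `(D, αE, βE, …)` (which need
  `q ≢ ±1 (p)` at the spectator primes) replaced by local bridge data `L : Fin e → s59f_LocBr 𝒪 i2`
  (helper4's FAsmG1), `hMres` (the residual Frobenius in the frames) and `hLu`; the field `hNSg` in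
  helper5's weakened form (`s59e3q_E2Alt`, E3E2a);
* `s59u_ic_WR`    : such data exist for `ρ̄ = (ρ_W ⊗ 𝒪) mod 𝔪`, `W/ℤ` semistable, `p ∈ {3, 5}`, `W[p]`
  irreducible, for ANY finite set `Ed` of spectator primes `q ≡ −1 (p)` at which `ρ̄` is unramified with
  Frobenius polynomial `(X − εq)(X − ε)`, `ε = ±1` (copy of helper6's `s59q_WR`, QWRB; the local models
  are my `s59u_lb_locBrMP`, `Λ = s59r_modelM`).
-/
import Mathlib
import Fermat.Agent.Lib.S59.UIcI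
import Fermat.Agent.Lib.S59.ULocBrM
import Fermat.Agent.Lib.S59.QWRB
import Fermat.Agent.Lib.S59.E3E2a

set_option autoImplicit false
set_option linter.style.haveILetI false
set_option linter.unusedSectionVars false
set_option linter.unusedVariables false
set_option maxHeartbeats 1600000

noncomputable section

namespace Fermat.Agent.Lib.S59

open IsLocalRing Module ExtCitation Polynomial Fermat.Agent.Lib.S56
open Fermat.Agent.Lib.S53 (matOf matOfRes matOfRes_apply NormData exists_normData)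

local notation "Kb" => AlgebraicClosure ℚ
local notation "Γℚ" => (AlgebraicClosure ℚ ≃ₐ[ℚ] AlgebraicClosure ℚ)

/-- **the `R`-side data with spectator primes of generic smooth local type.** -/
structure s59u_ic_RData (p : ℕ) [Fact p.Prime] (N : ℕ) {𝒪 : Type} [CommRing 𝒪] [IsDomain 𝒪]
    [IsDiscreteValuationRing 𝒪] [IsAdicComplete (maximalIdeal 𝒪) 𝒪] [Finite (ResidueField 𝒪)]
    (ρbar : ResidualGaloisRep (ResidueField 𝒪)) (S Bd : Finset ℕ) : Type 1 where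
  Smin : Finset ℕ
  Ed : Finset ℕ
  Nd : NormData ρbar
  m : ℕ
  e : ℕ
  pr : Fin m ⊕ Fin e → Nat.Primes
  σq : Fin m ⊕ Fin e → Γℚ
  φq : Fin m ⊕ Fin e → Γℚ
  i2 : 𝒪
  hi2 : 2 * i2 = 1
  L : Fin e → s59f_LocBr 𝒪 i2
  P : Fin m ⊕ Fin e → Matrix (Fin 2) (Fin 2) 𝒪
  P' : Fin m ⊕ Fin e → Matrix (Fin 2) (Fin 2) 𝒪
  habs : ρbar.IsAbsolutelyIrreducible
  hdet : (GaloisRepAdic.ofResidualGaloisRep ρbar).DetIsCyclotomic p
  hsplit : ∀ σ : Γℚ, ∃ α β : ResidueField 𝒪,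
    LinearMap.charpoly (ρbar.ρ σ) = (X - C α) * (X - C β)
  hTW : ∀ (K : Type) [Field K] [Algebra (ResidueField 𝒪) K] (G : Subgroup Γℚ), G.index = 2 →
    ∀ V : Submodule K (ρbar.baseChange K).V,
      (∀ σ ∈ G, ∀ x ∈ V, (ρbar.baseChange K).ρ σ x ∈ V) → V = ⊥ ∨ V = ⊤
  hpSmin : p ∈ Smin
  hSmin : Smin ⊆ S
  hBS : Bd ⊆ S
  hES : Ed ⊆ S
  hBprime : ∀ q ∈ Bd, q.Prime
  hEprime : ∀ q ∈ Ed, q.Prime
  hmin : ∀ q : ℕ, q.Prime → q ≠ p → (q ∈ Smin ↔ ¬ ρbar.IsUnramifiedAt q)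
  hBunr : ∀ q ∈ Bd, q ≠ p ∧ ρbar.IsUnramifiedAt q
  hEunr : ∀ q ∈ Ed, q ≠ p ∧ ρbar.IsUnramifiedAt q
  hBE : Disjoint Bd Ed
  hcen : ∀ q : Nat.Primes, (q : ℕ) ∈ Bd → s59q_CentralAt ρbar q
  hprB : Finset.univ.image (fun j : Fin m => (pr (Sum.inl j) : ℕ)) = Bd
  hprE : Finset.univ.image (fun l : Fin e => (pr (Sum.inr l) : ℕ)) = Ed
  hBinj : Function.Injective fun j : Fin m => (pr (Sum.inl j) : ℕ)
  hEinj : Function.Injective fun l : Fin e => (pr (Sum.inr l) : ℕ)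
  hσq : ∀ t, s59q_IsTameGen (pr t) (primeLocalPlace (pr t)) (σq t)
  hφq : ∀ t, (primeLocalPlace (pr t)).IsFrobeniusAt (φq t) (pr t)
  hPP' : ∀ t, P t * P' t = 1
  hP'P : ∀ t, P' t * P t = 1
  hMres : ∀ l, (P' (Sum.inr l)).map (residue 𝒪) * matOfRes ρbar Nd.b (φq (Sum.inr l)) *
    (P (Sum.inr l)).map (residue 𝒪) = ((L l).M0).map (residue 𝒪)
  hLu : ∀ l, (L l).u = (((pr (Sum.inr l) : ℕ) : ℕ) : 𝒪)
  hqB : ∀ j, (((pr (Sum.inl j) : ℕ) : ℕ) : 𝒪) - 1 ∈ maximalIdeal 𝒪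
  /-- every prime of the level is in `Σ = Smin ∪ Bd ∪ Ed`, or every lift of `ρ̄` is unramified there. -/
  hNSg : ∀ q : ℕ, q.Prime → q ∣ N → q ∈ Smin ∪ (Bd ∪ Ed) ∨ s59e3q_E2Alt p ρbar q

variable (W : WeierstrassCurve ℤ) {p : ℕ} [hpP : Fact p.Prime] (hΔ : W.Δ ≠ 0)
  {𝒪 : Type} [CommRing 𝒪] [IsDomain 𝒪] [IsDiscreteValuationRing 𝒪]
  [IsAdicComplete (maximalIdeal 𝒪) 𝒪] [Finite (ResidueField 𝒪)] [CharZero 𝒪] [Algebra ℤ_[p] 𝒪]
  (hp𝒪 : (p : 𝒪) ∈ maximalIdeal 𝒪)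

/-- **the `R`-side data for a semistable `W`, spectator primes `≡ −1 (p)` of level-raising type.** -/
theorem s59u_ic_WR (hp35 : p = 3 ∨ p = 5) (hss : W.IsSemistableModel)
    (hirr : W.ModRepIsIrreducible p)
    (hsplitℤ : ∀ a b : ℤ, ∃ α β : ResidueField 𝒪,
      α + β = (a : ResidueField 𝒪) ∧ α * β = (b : ResidueField 𝒪))
    (N : ℕ) (Bd B : Finset ℕ) (hpB : p ∈ B)
    (hB2 : ∀ r : ℕ, r.Prime → (r : ℤ) ∣ W.Δ → r ∈ B)
    (hBd : ∀ q ∈ Bd, q.Prime ∧ q ≠ p ∧ q ∈ B ∧ s59_Unr W p q ∧ p ∣ q - 1 ∧ s59_FrobScalar W p q)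
    (Ed : Finset ℕ)
    (hEd : ∀ q ∈ Ed, q.Prime ∧ q ≠ p ∧ q ∉ Bd ∧ q ∈ B ∧
      (s59q_WRhobar W hΔ hp𝒪).IsUnramifiedAt q ∧ ¬ p ∣ q - 1 ∧ p ∣ q + 1)
    (hE1 : ∀ q : Nat.Primes, (q : ℕ) ∈ Ed → ∃ φ : Γℚ, (primeLocalPlace q).IsFrobeniusAt φ q ∧
      ∃ ε : 𝒪, (ε = 1 ∨ ε = -1) ∧ LinearMap.charpoly ((s59q_WRhobar W hΔ hp𝒪).ρ φ) =
        (X - C (residue 𝒪 (ε * ((q : ℕ) : 𝒪)))) * (X - C (residue 𝒪 ε)))
    (hNSg : ∀ q : ℕ, q.Prime → q ∣ N → q ∈ s59q_WSmin W hΔ hp𝒪 ∪ (Bd ∪ Ed) ∨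
      s59e3q_E2Alt p (s59q_WRhobar W hΔ hp𝒪) q) :
    Nonempty (s59u_ic_RData p N (s59q_WRhobar W hΔ hp𝒪) B Bd) := by
  classical
  have hp2 : p ≠ 2 := s59q_W_p_ne_two hp35
  have habs := s59q_W_habs W hΔ hp𝒪 hp35 hss hirr
  obtain ⟨Nd⟩ := exists_normData (s59q_WRhobar W hΔ hp𝒪) habs
  obtain ⟨prB, hBinj, hprB⟩ := s59q_exists_enum Bd (fun q hq => (hBd q hq).1)
  obtain ⟨prE, hEinj, hprE⟩ := s59q_exists_enum Ed (fun q hq => (hEd q hq).1)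
  set pr : Fin Bd.card ⊕ Fin Ed.card → Nat.Primes := Sum.elim prB prE with hpr
  choose σq hσq using fun t => s59q_exists_isTameGen (pr t).2 (s56z_place_liesOver (pr t))
  obtain ⟨i2, hi2⟩ := s59q_two_inv p hp2 hp𝒪
  have hmemB : ∀ j, (prB j : ℕ) ∈ Bd := fun j => by
    rw [← hprB]; exact Finset.mem_image_of_mem _ (Finset.mem_univ j)
  have hmemE : ∀ l, (prE l : ℕ) ∈ Ed := fun l => by
    rw [← hprE]; exact Finset.mem_image_of_mem _ (Finset.mem_univ l)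
  choose φB hφB using fun j => s56z_exists_frob (prB j)
  choose φE hφE εE hεE hcpE using fun l => hE1 (prE l) (hmemE l)
  set φq : Fin Bd.card ⊕ Fin Ed.card → Γℚ := Sum.elim φB φE with hφqdef
  have hφq : ∀ t, (primeLocalPlace (pr t)).IsFrobeniusAt (φq t) (pr t) := by
    rintro (j | l)
    · exact hφB j
    · exact hφE l
  have hεu : ∀ l, IsUnit (εE l) := by
    intro l
    rcases hεE l with h | h
    · rw [h]; exact isUnit_one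
    · rw [h]; exact isUnit_one.neg
  have hu0 : ∀ l, IsUnit (((prE l : ℕ) : ℕ) : 𝒪) := fun l =>
    s59q_W_isUnit_natCast_of_not_dvd hp𝒪 _ fun hd =>
      (hEd _ (hmemE l)).2.1 ((Nat.prime_dvd_prime_iff_eq hpP.out (prE l).2).mp hd).symm
  have hu1 : ∀ l, IsUnit (1 - (((prE l : ℕ) : ℕ) : 𝒪)) := by
    intro l
    have h1 := s59q_W_isUnit_natCast_of_not_dvd hp𝒪 _ (hEd _ (hmemE l)).2.2.2.2.2.1
    have h2 : (1 : 𝒪) - (((prE l : ℕ) : ℕ) : 𝒪) = -((((prE l : ℕ) - 1 : ℕ) : ℕ) : 𝒪) := by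
      rw [Nat.cast_sub (prE l).2.one_lt.le]; push_cast; ring
    rw [h2]; exact h1.neg
  have hu2m : ∀ l, 1 + (((prE l : ℕ) : ℕ) : 𝒪) ∈ maximalIdeal 𝒪 := by
    intro l
    obtain ⟨c, hc⟩ := (hEd _ (hmemE l)).2.2.2.2.2.2
    have h2 : (1 : 𝒪) + (((prE l : ℕ) : ℕ) : 𝒪) = ((((prE l : ℕ) + 1 : ℕ) : ℕ) : 𝒪) := by
      push_cast; ring
    rw [h2, hc]
    push_cast
    exact Ideal.mul_mem_right _ _ hp𝒪
  have hu2n : ∀ l, 1 + (((prE l : ℕ) : ℕ) : 𝒪) ≠ 0 := by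
    intro l h
    have h2 : (1 : 𝒪) + (((prE l : ℕ) : ℕ) : 𝒪) = ((((prE l : ℕ) + 1 : ℕ) : ℕ) : 𝒪) := by
      push_cast; ring
    rw [h2] at h
    have h3 : ((prE l : ℕ) + 1 : ℕ) = 0 := Nat.cast_injective (R := 𝒪) (by rw [h, Nat.cast_zero])
    omega
  have hαβ : ∀ l, residue 𝒪 (εE l * (((prE l : ℕ) : ℕ) : 𝒪)) ≠ residue 𝒪 (εE l) := by
    intro l h
    have h1 : residue 𝒪 (εE l * (1 - (((prE l : ℕ) : ℕ) : 𝒪))) = 0 := by
      rw [mul_sub, mul_one, map_sub, h, sub_self]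
    exact (residue_ne_zero_iff_isUnit _).mpr ((hεu l).mul (hu1 l)) h1
  have hfr : ∀ l, ∃ Pm P'm : Matrix (Fin 2) (Fin 2) 𝒪, Pm * P'm = 1 ∧ P'm * Pm = 1 ∧
      P'm.map (residue 𝒪) * matOfRes (s59q_WRhobar W hΔ hp𝒪) Nd.b (φq (Sum.inr l)) *
        Pm.map (residue 𝒪) =
      Matrix.diagonal ![residue 𝒪 (εE l * (((prE l : ℕ) : ℕ) : 𝒪)), residue 𝒪 (εE l)] := fun l =>
    s59q_exists_frame (s59q_WRhobar W hΔ hp𝒪) Nd.b (φq (Sum.inr l)) _ _ (hαβ l) (hcpE l)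
  choose PE P'E hPE1 hPE2 hPE3 using hfr
  -- the local data
  let dE : Fin Ed.card → s59r_UData 𝒪 := fun l =>
    { u := (((prE l : ℕ) : ℕ) : 𝒪), ε := εE l, i2 := i2, hi2 := hi2,
      hε := by rcases hεE l with h | h <;> rw [h] <;> ring,
      hu0 := hu0 l }
  exact ⟨{
    Smin := s59q_WSmin W hΔ hp𝒪
    Ed := Ed
    Nd := Nd
    m := Bd.card
    e := Ed.card
    pr := pr
    σq := σq
    φq := φq
    i2 := i2
    hi2 := hi2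
    L := fun l => s59u_lb_locBrMP (dE l) (hu1 l) (hu2m l) (hu2n l)
    P := Sum.elim (fun _ => 1) PE
    P' := Sum.elim (fun _ => 1) P'E
    habs := habs
    hdet := s59q_W_hdet W hΔ hp𝒪 hp2 hirr
    hsplit := s59q_W_hsplit W hΔ hp𝒪 hsplitℤ
    hTW := s59q_W_hTW W hΔ hp𝒪 hp35 hss hirr
    hpSmin := s59q_WSmin_p_mem W hΔ hp𝒪
    hSmin := s59q_WSmin_subset W hΔ hp𝒪 B hpB hB2
    hBS := fun q hq => (hBd q hq).2.2.1
    hES := fun q hq => (hEd q hq).2.2.2.1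
    hBprime := fun q hq => (hBd q hq).1
    hEprime := fun q hq => (hEd q hq).1
    hmin := s59q_WSmin_hmin W hΔ hp𝒪 hp2
    hBunr := fun q hq => ⟨(hBd q hq).2.1, (s59q_W_unram_iff W hΔ hp𝒪 q).mpr (hBd q hq).2.2.2.1⟩
    hEunr := fun q hq => ⟨(hEd q hq).2.1, (hEd q hq).2.2.2.2.1⟩
    hBE := Finset.disjoint_right.mpr fun q hq => (hEd q hq).2.2.1
    hcen := fun q hq => s59q_W_central W hΔ hp𝒪 q (hBd q hq).2.2.2.1 (hBd q hq).2.2.2.2.2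
    hprB := hprB
    hprE := hprE
    hBinj := hBinj
    hEinj := hEinj
    hσq := hσq
    hφq := hφq
    hPP' := by
      rintro (j | l)
      · exact one_mul _
      · exact hPE1 l
    hP'P := by
      rintro (j | l)
      · exact one_mul _
      · exact hPE2 l
    hMres := fun l => by
      show _ = (s59u_lb_M0E (dE l)).map (residue 𝒪)
      rw [s59u_lb_M0E, s59u_lb_diag_map]
      exact hPE3 l
    hLu := fun l => rfl
    hqB := fun j => s59q_W_sub_one_mem hp𝒪 _ (prB j).2 (hBd _ (hmemB j)).2.2.2.2.1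
    hNSg := hNSg }⟩

end Fermat.Agent.Lib.S59
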