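/-
[IA-c] part N (helper3, prefix `s59u_ic_`): **THE NODE `s59g_IAflatThreeC`** ([IA′-core]_W at `p = 3`, flat,
even level, `2` of type (c): `ρ̄` unramified at `2`) — field `iaFlatC` of helper1's `s59g_NodesThreeX`
(Graph3X).

No geometric input at `2` is needed: fix a Frobenius `φ₀` at the standard place over `2` and let
`t₀ = tr ρ_W(φ₀) ∈ ℤ_3`.
* `t₀ ∈ 3ℤ_3` ⟹ over EVERY coefficient ring the Frobenius polynomial of `ρ̄` at `2` is `(X − 2ε)(X − ε)`,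
  `ε = ±1` (`s59q_W_E_dichotomy`): `2` is a spectator prime of level-raising type `≡ −1 (3)`, local model
  `s59r_modelM` ⟹ `s59u_ic_IAcoreW_even`;
* `t₀ ∈ ℤ_3ˣ` ⟹ over EVERY coefficient ring `2` is of type (E2′) for `ρ̄` (`s59e3q_E2Alt`): every lift of `ρ̄`
  is unramified at `2` ⟹ helper5's chain `s59e3i_IAcoreW_pt_E` with the `R`-side at the level `M / 2`.
(The hypotheses `¬ s59g_E2 W 3 2` and `ResMod 3 (M / 2)` of the node are not used.)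
-/
import Mathlib
import Fermat.Agent.Lib.S59.UIcM
import Fermat.Agent.Lib.S59.Graph3X

set_option autoImplicit false
set_option linter.unusedSectionVars false
set_option linter.unusedVariables false
set_option linter.style.haveILetI false
set_option maxHeartbeats 1600000

noncomputable section

namespace Fermat.Agent.Lib.S59

open IsLocalRing CuspForm Polynomial ExtCitation
open WeierstrassCurve WeierstrassCurve.Affine WeierstrassCurve.Affine.Point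
open Fermat.Agent.Lib.S44 Fermat.Agent.Lib.S56

local notation "Γℚ" => (AlgebraicClosure ℚ ≃ₐ[ℚ] AlgebraicClosure ℚ)

section Dich

variable (W : WeierstrassCurve ℤ) {p : ℕ} [hpP : Fact p.Prime] (hΔ : W.Δ ≠ 0)
  {𝒪 : Type} [CommRing 𝒪] [IsDomain 𝒪] [IsDiscreteValuationRing 𝒪]
  [IsAdicComplete (maximalIdeal 𝒪) 𝒪] [Algebra ℤ_[p] 𝒪]
  (hp𝒪 : ((p : ℕ) : 𝒪) ∈ maximalIdeal 𝒪)

/-- the residual trace over `𝒪` is the image of the `p`-adic trace. -/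
theorem s59u_ic_trace_res (φ : Γℚ) :
    LinearMap.trace (ResidueField 𝒪) _ ((s59q_WRhobar W hΔ hp𝒪).ρ φ) =
      residue 𝒪 (algebraMap ℤ_[p] 𝒪 (LinearMap.trace ℤ_[p] _ ((s59b_rhoW W p hΔ).ρ φ))) := by
  rw [s59e_residual_trace, s59e_bc_trace]

include hpP hp𝒪 in
/-- `1 + q = 0` in the residue field when `p ∣ q + 1`. -/
theorem s59u_ic_one_add_q (q : ℕ) (hq2 : p ∣ q + 1) : (1 + (q : ResidueField 𝒪)) = 0 := by
  haveI : CharP (ResidueField 𝒪) p := s59e_charP_residue p hp𝒪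
  have h : (((q + 1 : ℕ) : ℕ) : ResidueField 𝒪) = 0 :=
    (CharP.cast_eq_zero_iff (ResidueField 𝒪) p (q + 1)).mpr hq2
  rw [← h]
  push_cast
  ring

/-- **`t₀ ∈ 𝔪` ⟹ shape (E1) at `q ≡ −1 (p)`.** -/
theorem s59u_ic_E1_of_trace_mem (hp2 : p ≠ 2) (hirr : W.ModRepIsIrreducible p)
    (q : Nat.Primes) (hqp : (q : ℕ) ≠ p) (hq2 : p ∣ (q : ℕ) + 1)
    (φ : Γℚ) (hφ : (primeLocalPlace q).IsFrobeniusAt φ q)
    (ht : LinearMap.trace ℤ_[p] _ ((s59b_rhoW W p hΔ).ρ φ) ∈ maximalIdeal ℤ_[p]) :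
    ∃ ε : 𝒪, (ε = 1 ∨ ε = -1) ∧ LinearMap.charpoly ((s59q_WRhobar W hΔ hp𝒪).ρ φ) =
      (X - C (residue 𝒪 (ε * ((q : ℕ) : 𝒪)))) * (X - C (residue 𝒪 ε)) := by
  rcases s59q_W_E_dichotomy W hΔ hp𝒪 hp2 hirr q q.2 hqp _ (s56z_place_liesOver q) φ hφ with h | h
  · exact h
  · exfalso
    apply h
    haveI := s59b_isLocalHom_padic p (algebraMap ℤ_[p] 𝒪) hp𝒪
    have h0 : LinearMap.trace (ResidueField 𝒪) _ ((s59q_WRhobar W hΔ hp𝒪).ρ φ) = 0 := by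
      rw [s59u_ic_trace_res, residue_eq_zero_iff]
      exact map_nonunit (algebraMap ℤ_[p] 𝒪) _ ht
    rw [h0, s59u_ic_one_add_q hp𝒪 q hq2]
    ring

/-- **`t₀ ∉ 𝔪` ⟹ type (E2′) at `q ≡ −1 (p)`, `ρ̄` unramified at `q`.** -/
theorem s59u_ic_E2Alt_of_trace_unit (hp2 : p ≠ 2) (hirr : W.ModRepIsIrreducible p)
    (q : Nat.Primes) (hqp : (q : ℕ) ≠ p) (hq1 : ¬ p ∣ (q : ℕ) - 1) (hq2 : p ∣ (q : ℕ) + 1)
    (hunr : s59_Unr W p q)
    (φ : Γℚ) (hφ : (primeLocalPlace q).IsFrobeniusAt φ q)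
    (ht : LinearMap.trace ℤ_[p] _ ((s59b_rhoW W p hΔ).ρ φ) ∉ maximalIdeal ℤ_[p]) :
    s59e3q_E2Alt p (s59q_WRhobar W hΔ hp𝒪) q := by
  haveI : CharP (ResidueField 𝒪) p := s59e_charP_residue p hp𝒪
  have hq0 : ((q : ℕ) : ResidueField 𝒪) ≠ 0 := by
    intro h0
    have := (CharP.cast_eq_zero_iff (ResidueField 𝒪) p q).mp h0
    exact hqp ((Nat.prime_dvd_prime_iff_eq hpP.out q.2).mp this).symm
  refine ⟨hqp, (s59q_W_unram_iff W hΔ hp𝒪 q).mpr hunr, ?_, primeLocalPlace q, φ,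
    s56z_place_liesOver q, hφ, ?_⟩
  · intro h0
    apply hq1
    have h1 : ((((q : ℕ) - 1 : ℕ) : ℕ) : ResidueField 𝒪) = 0 := by
      rw [Nat.cast_sub q.2.one_lt.le]
      push_cast
      exact h0
    exact (CharP.cast_eq_zero_iff (ResidueField 𝒪) p _).mp h1
  · have hu : IsUnit (LinearMap.trace ℤ_[p] _ ((s59b_rhoW W p hΔ).ρ φ)) := by
      by_contra hn
      exact ht ((mem_maximalIdeal _).mpr hn)
    have hne : LinearMap.trace (ResidueField 𝒪) _ ((s59q_WRhobar W hΔ hp𝒪).ρ φ) ≠ 0 := by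
      rw [s59u_ic_trace_res]
      exact (residue_ne_zero_iff_isUnit _).mpr (hu.map (algebraMap ℤ_[p] 𝒪))
    rw [s59u_ic_one_add_q hp𝒪 q hq2]
    intro h
    have h2 : ((q : ℕ) : ResidueField 𝒪) *
        LinearMap.trace (ResidueField 𝒪) _ ((s59q_WRhobar W hΔ hp𝒪).ρ φ) ^ 2 = 0 := by
      linear_combination -h
    rcases mul_eq_zero.mp h2 with h3 | h3
    · exact hq0 h3
    · exact hne ((pow_eq_zero_iff two_ne_zero).mp h3)

end Dich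

/-- **helper5's [IA′-core] with the (E2′)-alternative in `ρ̄`-form** (copy of `s59e3u_IAcoreW_even_E` with the
hypothesis `hEW` replaced by its consequence `hE`). -/
theorem s59u_ic_IAcoreW_even_E2 (p : ℕ) [Fact p.Prime] (hp35 : p = 3 ∨ p = 5)
    (W : WeierstrassCurve ℤ) (hΔ : W.Δ ≠ 0) (N N' : ℕ) [NeZero N] (Bd B : Finset ℕ)
    (H : s59e3i_IAHypE W p N Bd B) (h2N : 2 ∣ N) (hN'N : N' ∣ N)
    (hram : ∀ ℓ : ℕ, ℓ.Prime → ℓ ≠ p → ℓ ∣ N' → ℓ ∉ Bd → ¬ s59_Unr W p ℓ ∨ ¬ p ∣ ℓ ^ 2 - 1)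
    (hE : ∀ (𝒪 : Type) [CommRing 𝒪] [IsDomain 𝒪] [IsDiscreteValuationRing 𝒪]
      [IsAdicComplete (maximalIdeal 𝒪) 𝒪] [Algebra ℤ_[p] 𝒪]
      (hp𝒪 : ((p : ℕ) : 𝒪) ∈ maximalIdeal 𝒪),
      ∀ q : ℕ, q.Prime → q ∣ N → q ∣ N' ∨ s59e3q_E2Alt p (s59i_rhobarW W p hΔ 𝒪 hp𝒪) q) :
    ∃ q ∈ Bd, s44i_LevelOcc (N / q) p (fun ℓ => W.apOfModel ℓ) B := by
  have hp2 : p ≠ 2 := by omega
  exact s59e3i_IAcoreW_pt_E p hp2 W hΔ N N' Bd B H
    (fun 𝒪 _ _ _ _ _ _ _ _ hp𝒪 hs => s59e3q_RPkgW_E W hΔ hp𝒪 hp35 N N' Bd B H hN'N hram hs)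
    (fun 𝒪 _ _ _ _ _ _ _ _ hp𝒪 hs v hv hζ Rd =>
      s59e3e_TPkgW_E p hp2 W hΔ N Bd B H h2N 𝒪 hp𝒪 hs v hv hζ N' Rd (hE 𝒪 hp𝒪))
    (s59e3u_W_FinB_E W hΔ p hp2 N Bd B H h2N)

open Classical in
/-- **[IA′-core]_W at `p = 3`, flat, even level, `2` of type (c)**: the field `iaFlatC` of `s59g_NodesThreeX`. -/
theorem s59u_ic_IAflatThreeC_ok : s59g_IAflatThreeC := by
  intro W hΔ hW hirr M hM0 hMsq h3M h2M hunr2 _hE2 _h2old Bd hne hB hram hres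
  haveI : Fact (Nat.Prime 3) := ⟨Nat.prime_three⟩
  have hp2 : (3 : ℕ) ≠ 2 := by norm_num
  haveI : NeZero M := ⟨hM0.ne'⟩
  have hB1 : ∀ r : ℕ, r.Prime → r ∣ M * 3 →
      r ∈ (M * 3).primeFactors ∪ W.Δ.natAbs.primeFactors := fun r hr hd =>
    Finset.mem_union_left _ (Nat.mem_primeFactors.mpr
      ⟨hr, hd, Nat.mul_ne_zero hM0.ne' (by norm_num)⟩)
  have hB2 : ∀ r : ℕ, r.Prime → ¬ W.IsGoodPrimeFor r →
      r ∈ (M * 3).primeFactors ∪ W.Δ.natAbs.primeFactors := by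
    intro r hr hbad
    have hd : (r : ℤ) ∣ W.Δ := by
      by_contra h
      exact hbad h
    exact Finset.mem_union_right _ (Nat.mem_primeFactors.mpr
      ⟨hr, Int.natCast_dvd.mp hd, Int.natAbs_ne_zero.mpr hΔ⟩)
  have hocc : s44i_LevelOcc M 3 (fun ℓ => W.apOfModel ℓ)
      ((M * 3).primeFactors ∪ W.Δ.natAbs.primeFactors) := by
    obtain ⟨f, 𝔪, hf, hmax, hpm, hcong⟩ := hres
    refine ⟨f, 𝔪, hf, hmax, hpm, fun ℓ hℓ hℓB => ?_⟩
    have hgood : W.IsGoodPrimeFor ℓ := by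
      by_contra hbad
      exact hℓB (hB2 ℓ hℓ hbad)
    have hℓM : ¬ ℓ ∣ M := fun hd => hℓB (hB1 ℓ hℓ (hd.mul_right 3))
    have hℓp : ℓ ≠ 3 := by
      rintro rfl
      exact hℓB (hB1 3 hℓ (dvd_mul_left 3 M))
    exact hcong ℓ hℓ hgood hℓM hℓp
  have hBd' : ∀ q ∈ Bd, q.Prime ∧ q ≠ 3 ∧ q ∣ M ∧ s59_Unr W 3 q ∧ 3 ∣ q - 1 ∧
      s59_FrobScalar W 3 q := by
    intro q hq
    obtain ⟨h1, h2, h3, h4, h5, h6⟩ := hB q hq
    exact ⟨h1, h2, h3, h4, h5, h6⟩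
  have H : s59e3i_IAHypE W 3 M Bd ((M * 3).primeFactors ∪ W.Δ.natAbs.primeFactors) :=
    { hss := hW
      hirr := hirr
      hN0 := hM0
      hNsq := hMsq
      hpN := h3M
      hne := hne
      hBd := hBd'
      hB1 := hB1
      hB2 := hB2
      hocc := hocc }
  have h2Bd : (2 : ℕ) ∉ Bd := by
    intro h
    have h5 := (hBd' 2 h).2.2.2.2.1
    omega
  -- the Frobenius at `2`
  obtain ⟨q2, hq2v⟩ : ∃ q2 : Nat.Primes, (q2 : ℕ) = 2 := ⟨⟨2, Nat.prime_two⟩, rfl⟩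
  obtain ⟨φ₀, hφ₀⟩ := s56z_exists_frob q2
  have hconcl : ∃ q ∈ Bd, s44i_LevelOcc (M / q) 3 (fun ℓ => W.apOfModel ℓ)
      ((M * 3).primeFactors ∪ W.Δ.natAbs.primeFactors) := by
    by_cases ht : LinearMap.trace ℤ_[3] _ ((s59b_rhoW W 3 hΔ).ρ φ₀) ∈ maximalIdeal ℤ_[3]
    · -- `2` is a spectator prime of level-raising type
      refine s59u_ic_IAcoreW_even 3 (Or.inl rfl) W hΔ M Bd _ H h2M {2} ?_ ?_ ?_
      · intro q hq
        rw [Finset.mem_singleton] at hq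
        subst hq
        exact ⟨Nat.prime_two, by norm_num, h2Bd, h2M, hunr2, by norm_num, by norm_num⟩
      · intro 𝒪 _ _ _ _ _ hp𝒪 q hq
        rw [Finset.mem_singleton] at hq
        have hq' : q = q2 := Subtype.ext (hq.trans hq2v.symm)
        subst hq'
        exact ⟨φ₀, hφ₀, s59u_ic_E1_of_trace_mem W hΔ hp𝒪 hp2 hirr q (by omega)
          (by omega) φ₀ hφ₀ ht⟩
      · intro ℓ hℓ hℓ3 hℓM hℓBd hℓE
        exact hram ℓ hℓ hℓ3 (fun h => hℓE (Finset.mem_singleton.mpr h)) hℓM hℓBd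
    · -- `2` is of type (E2′)
      have hM2 : M / 2 ∣ M := Nat.div_dvd_of_dvd h2M
      have hnot2 : ¬ 2 ∣ M / 2 := by
        intro h
        have h4 : 2 * 2 ∣ M := by
          obtain ⟨c, hc⟩ := h
          exact ⟨c, by rw [← Nat.div_mul_cancel h2M, hc]; ring⟩
        exact Nat.prime_two.not_isUnit (hMsq 2 h4)
      refine s59u_ic_IAcoreW_even_E2 3 (Or.inl rfl) W hΔ M (M / 2) Bd _ H h2M hM2 ?_ ?_
      · intro ℓ hℓ hℓ3 hℓM hℓBd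
        have hℓ2 : ℓ ≠ 2 := by
          rintro rfl
          exact hnot2 hℓM
        exact Or.inl (hram ℓ hℓ hℓ3 hℓ2 (hℓM.trans hM2) hℓBd)
      · intro 𝒪 _ _ _ _ _ hp𝒪 q hq hqM
        by_cases hq2 : q = 2
        · subst hq2
          have hE2 := s59u_ic_E2Alt_of_trace_unit W hΔ hp𝒪 hp2 hirr q2 (by omega)
            (by omega) (by omega) (by rw [hq2v]; exact hunr2) φ₀ hφ₀ ht
          rw [hq2v] at hE2
          exact Or.inr hE2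
        · left
          have h1 : q ∣ 2 * (M / 2) := by rwa [Nat.mul_div_cancel' h2M]
          rcases (Nat.Prime.dvd_mul hq).mp h1 with h | h
          · exact absurd ((Nat.prime_dvd_prime_iff_eq hq Nat.prime_two).mp h) hq2
          · exact h
  obtain ⟨q, hqBd, hoccq⟩ := hconcl
  obtain ⟨hq, -, hqM, -, -⟩ := hB q hqBd
  have hdvd : M / q ∣ M := Nat.div_dvd_of_dvd hqM
  haveI : NeZero (M / q) := ⟨(Nat.pos_of_dvd_of_pos hdvd hM0).ne'⟩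
  exact ⟨q, hqBd, s59u_cong_all W hΔ 3 hp2 hirr (M / q) _ hoccq⟩

end Fermat.Agent.Lib.S59
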