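/-
PROGRAMME (R2) = S59 — ADAPTER v3.13 (helper1): `GLeavesZb.lean` + the field `iaFlatC` (p = 3, type (c), flat)
CLOSED by helper3 (`s59u_ic_IAflatThreeC_ok`, `UIcN.lean`).  NEW file, NEW names.
`s59g_S59_openZc : s59g_OpenThreeZc → s59g_OpenFiveZb → <frozen S59 verbatim>`.
-/
import Fermat.Agent.Lib.S59.GLeavesZb
import Fermat.Agent.Lib.S59.UIcN

set_option autoImplicit false

open CongruenceSubgroup ModularFormClass

noncomputable section

namespace Fermat.Agent.Lib.S59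

/-- the OPEN fields at `p = 3` (v3.13). -/
structure s59g_OpenThreeZc : Prop where
  iaStrictC : s59g_IAstrictThreeC
  liftABgt : s59g_LIFTThreeGT
  liftABp : s59g_LIFTThreeP
  liftC1gt : s59g_LIFTThreeC1GT
  liftC2gt : s59g_LIFTThreeC2GT
  liftC1p : s59g_LIFTThreeC1P
  liftC2p : s59g_LIFTThreeC2P

theorem s59g_openThreeZa_ofZc (h : s59g_OpenThreeZc) : s59g_OpenThreeZa :=
  ⟨s59u_ic_IAflatThreeC_ok, h.iaStrictC, h.liftABgt, h.liftABp, h.liftC1gt, h.liftC2gt,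
    h.liftC1p, h.liftC2p⟩

/-- **S59 from the OPEN fields of v3.13** — the frozen statement, verbatim. -/
theorem s59g_S59_openZc (h3 : s59g_OpenThreeZc) (h5 : s59g_OpenFiveZb)
    (p : ℕ) (hp : p = 3 ∨ p = 5)
    (W : WeierstrassCurve ℤ) (hΔ : W.Δ ≠ 0) (hW : W.IsSemistableModel)
    (hirr : W.ModRepIsIrreducible p)
    (M₀ : ℕ) [NeZero M₀] (hres₀ : W.IsResiduallyModularOfLevel p M₀)
    (hM₀ : ¬ p ^ 2 ∣ M₀)
    (hM₀3 : ∀ q : ℕ, q.Prime → q ≠ p → ¬ q ^ 3 ∣ M₀) :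
    Mlc1IsModularModelOfExactConductorLevel W :=
  s59g_S59_openZb (s59g_openThreeZa_ofZc h3) h5 p hp W hΔ hW hirr M₀ hres₀ hM₀ hM₀3

end Fermat.Agent.Lib.S59

end
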