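/-
[IA-c] part A (helper3, prefix `s59u_ic_`): **THE ABSTRACT IHARA-AVOIDANCE ASSEMBLY OVER `𝒫^Λ`.**
helper4's `s59l_IA_sq_ideal` (LAsmS), `s59i_IA_inst` (LInst), `s59i_IA_mid` (LInstMid) with the
acting ring `𝒫^E = s59l_FlatE 𝒪 m e g` replaced by `𝒫^Λ = s59r_Flat 𝒪 m r g` (helper4's RProd):
`m` framed primes of type `χ` / `1` (the set `B`), `r` spectator primes with SMOOTH local models
`Λ l : s59r_Model 𝒪` (e.g. `s59r_modelM`, three components, at a prime `≡ −1 (p)`), family of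
components `(θ_i, ch)`, `ch : s59r_Ch Λ`.
  * `s59u_ic_qq`          : the prime `𝔮_ch = π_ch⁻¹(𝔪_𝒪, V)` of `𝒫^Λ`;
  * `s59u_ic_IA_sq_ideal` : `s59l_IA_sq_gen_ideal` at `P = 𝒫^Λ`;
  * `s59u_ic_IA_inst`     : named hypotheses (conjugation-invariant matrix identities at `B`);
  * `s59u_ic_IA_mid`      : the middle theorem (interface module half / bridge / relations).
-/
import Mathlib
import Fermat.Agent.Lib.S59.LInstMid
import Fermat.Agent.Lib.S59.RKill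

set_option autoImplicit false
set_option linter.unusedSectionVars false
set_option linter.unusedVariables false
set_option linter.style.haveILetI false
set_option maxHeartbeats 1600000

noncomputable section

namespace Fermat.Agent.Lib.S59

open IsLocalRing MvPowerSeries Fermat.Agent.Lib.Deform

section Primes

variable {𝒪 : Type} [CommRing 𝒪] [IsLocalRing 𝒪] [IsNoetherianRing 𝒪] [IsDomain 𝒪]
  [IsAdicComplete (maximalIdeal 𝒪) 𝒪] [Finite (ResidueField 𝒪)]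

variable {m r : ℕ} (Λ : Fin r → s59r_Model 𝒪)

/-- **the prime `𝔮_ch`** of `𝒫^Λ`. -/
def s59u_ic_qq (m g : ℕ) (ch : s59r_Ch Λ) : Ideal (s59r_Flat 𝒪 m r g) :=
  Ideal.comap (s59r_pi Λ m g ch) (s59l_q 𝒪 m (g + r * 3))

instance s59u_ic_qq_isPrime (m g : ℕ) (ch : s59r_Ch Λ) : (s59u_ic_qq Λ m g ch).IsPrime := by
  rw [s59u_ic_qq]
  exact Ideal.comap_isPrime _ _

theorem s59u_ic_KK_le_qq (θ : Fin m → 𝒪) (hθ : ∀ j, s59l_Hyp (θ j)) (g : ℕ)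
    (ch : s59r_Ch Λ) : s59r_KK Λ θ hθ g ch ≤ s59u_ic_qq Λ m g ch :=
  Ideal.comap_mono (s59l_KK_le_q θ hθ (g + r * 3))

theorem s59u_ic_C_mem_qq (m g : ℕ) (ch : s59r_Ch Λ) {t : 𝒪} (ht : t ∈ maximalIdeal 𝒪) :
    (C t : s59r_Flat 𝒪 m r g) ∈ s59u_ic_qq Λ m g ch := by
  rw [s59u_ic_qq, Ideal.mem_comap, s59r_pi_C]
  exact s59l_C_mem_q m (g + r * 3) ht

theorem s59u_ic_WB_not_mem_qq (g : ℕ) (ch : s59r_Ch Λ) (j : Fin m) :
    (s59r_WB j 0 : s59r_Flat 𝒪 m r g) ∉ s59u_ic_qq Λ m g ch := by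
  rw [s59u_ic_qq, Ideal.mem_comap, s59r_pi_WB]
  exact s59l_W_not_mem_q j

theorem s59u_ic_QB_not_mem_qq (g : ℕ) (ch : s59r_Ch Λ) (j : Fin m) :
    (s59r_WB j 0 ^ 2 + s59r_WB j 1 * s59r_WB j 2 : s59r_Flat 𝒪 m r g) ∉
      s59u_ic_qq Λ m g ch := by
  rw [s59u_ic_qq, Ideal.mem_comap, map_add, map_pow, map_mul, s59r_pi_WB, s59r_pi_WB,
    s59r_pi_WB]
  exact s59l_Q_not_mem_q j

end Primes

/-- **[IA′-sq], ideal form, over `A = 𝒫^Λ⟦s_1..s_r'⟧`.** -/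
theorem s59u_ic_IA_sq_ideal {𝒪 : Type} [CommRing 𝒪] [IsLocalRing 𝒪] [IsNoetherianRing 𝒪]
    [IsDomain 𝒪] [IsAdicComplete (maximalIdeal 𝒪) 𝒪] [Finite (ResidueField 𝒪)]
    (ϖ : 𝒪) (hϖ : ϖ ∈ maximalIdeal 𝒪) (m e g r : ℕ) (Λ : Fin e → s59r_Model 𝒪)
    (i2 : 𝒪) (hi2 : 2 * i2 = 1)
    (S : Type) [CommRing S] [IsDomain S] [IsLocalRing S] [IsNoetherianRing S]
    [IsAdicComplete (maximalIdeal S) S] [Finite (ResidueField S)]
    (hdim : ringKrullDim 𝒪 + ((3 * m + (g + e * 3) : ℕ) : WithBot ℕ∞) ≤ ringKrullDim S)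
    (R : Type) [CommRing R] [IsLocalRing R] [IsNoetherianRing R]
    [IsAdicComplete (maximalIdeal R) R]
    (R' : Type) [CommRing R'] [IsLocalRing R'] [IsNoetherianRing R']
    [IsAdicComplete (maximalIdeal R') R']
    (M : Type) [AddCommGroup M] [Module R M] [Module.Finite R M]
    (M' : Type) [AddCommGroup M'] [Module R' M'] [Module.Finite R' M'] [Nontrivial M']
    (𝔞 : Ideal S) [𝔞.IsPrime] (J : ℕ → Ideal S) (hJ : ∀ n, J n ≤ maximalIdeal S ^ n)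
    (L : ∀ n, s59p_Level S (MvPowerSeries (Fin r) (s59r_Flat 𝒪 m e g)) R M 𝔞 (J n))
    (L' : ∀ n, s59p_Level S (MvPowerSeries (Fin r) (s59r_Flat 𝒪 m e g)) R' M' 𝔞 (J n))
    (d d' : ℕ) (hd : ∀ n, (L n).d = d) (hd' : ∀ n, (L' n).d = d')
    (hW : ∀ n, s59p_WCong (C (C ϖ) : MvPowerSeries (Fin r) (s59r_Flat 𝒪 m e g)) (C (C ϖ))
      (RingEquiv.refl _) (L n) (L' n))
    {ι : Type} [Fintype ι] (θ : ι → Fin m → 𝒪) (hθ : ∀ i j, s59l_Hyp (θ i j))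
    (hχ : ∀ n, ∀ F ∈ (Finset.univ.inf fun p : ι × s59r_Ch Λ =>
        s59r_KK Λ (θ p.1) (hθ p.1) g p.2),
      (C F : MvPowerSeries (Fin r) (s59r_Flat 𝒪 m e g)) ∈
        Module.annihilator (MvPowerSeries (Fin r) (s59r_Flat 𝒪 m e g)) (L' n).N)
    (t' : ℕ → Fin r → s59r_Flat 𝒪 m e g)
    (ht'm : ∀ n i, t' n i ∈ maximalIdeal (s59r_Flat 𝒪 m e g))
    (ht' : ∀ n i, (X i : MvPowerSeries (Fin r) (s59r_Flat 𝒪 m e g)) ^ 2 - C (t' n i) ∈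
      Module.annihilator (MvPowerSeries (Fin r) (s59r_Flat 𝒪 m e g)) (L' n).N)
    (u : Fin m → 𝒪) (hu : ∀ j, u j - 1 ∈ maximalIdeal 𝒪) (a : Fin m → s59r_Flat 𝒪 m e g)
    (ha : ∀ j, a j ^ 2 = C (u j) + (s59r_WB j 0 ^ 2 + s59r_WB j 1 * s59r_WB j 2))
    (h0 : ∀ n j, s59l_r0 (C (s59r_VB j 0) : MvPowerSeries (Fin r) (s59r_Flat 𝒪 m e g))
      (C (s59r_VB j 1)) (C (s59r_VB j 2)) ∈
      Module.annihilator (MvPowerSeries (Fin r) (s59r_Flat 𝒪 m e g)) (L n).N)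
    (h2 : ∀ n j, s59l_r2 (C (s59r_VB j 0) : MvPowerSeries (Fin r) (s59r_Flat 𝒪 m e g))
      (C (s59r_VB j 1)) (C (s59r_WB j 0)) (C (s59r_WB j 1)) (C (a j)) (C (C (u j))) ∈
      Module.annihilator (MvPowerSeries (Fin r) (s59r_Flat 𝒪 m e g)) (L n).N)
    (h3 : ∀ n j, s59l_r3 (C (s59r_VB j 0) : MvPowerSeries (Fin r) (s59r_Flat 𝒪 m e g))
      (C (s59r_VB j 2)) (C (s59r_WB j 0)) (C (s59r_WB j 2)) (C (a j)) (C (C (u j))) ∈
      Module.annihilator (MvPowerSeries (Fin r) (s59r_Flat 𝒪 m e g)) (L n).N)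
    (𝔲 : Ideal R) (hc : ∀ n, 𝔲 ≤ Ideal.span
      (Set.range fun p : Fin m × Fin 3 => (L n).ψ (C (s59r_VB p.1 p.2))))
    (κ : S →+* R) (hκ : ∀ n s, (L n).ψ ((L n).φ s) = κ s) :
    ∃ 𝔭 : Ideal R, 𝔭.IsPrime ∧ Module.annihilator R M ≤ 𝔭 ∧ 𝔲 ≤ 𝔭 ∧
      Ideal.comap κ 𝔭 = 𝔞 := by
  classical
  refine s59l_IA_sq_gen_ideal S (s59r_Flat 𝒪 m e g) r R R' M M' 𝔞 J hJ L L' d d' hd hd' (C ϖ) hW
    (ι := ι × s59r_Ch Λ)
    (fun p => s59r_KK Λ (θ p.1) (hθ p.1) g p.2) (fun p => s59u_ic_qq Λ m g p.2)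
    (fun p => inferInstance) (fun p => inferInstance)
    (fun p => s59u_ic_KK_le_qq Λ (θ p.1) (hθ p.1) g p.2)
    (fun p => s59u_ic_C_mem_qq Λ m g p.2 hϖ)
    (fun p => (s59r_KK_dim Λ (θ p.1) (hθ p.1) g p.2).trans hdim) hχ t' ht'm ht'
    (fun j k => s59r_VB j k) (fun j k => s59r_WB j k) (fun j => C (u j)) a ha ?_ h0 h2 h3 𝔲 hc
    κ hκ
  intro p j
  have h𝔮 : (s59u_ic_qq Λ m g p.2).IsPrime := inferInstance
  refine ⟨?_, ?_, s59u_ic_WB_not_mem_qq Λ g p.2 j, s59u_ic_QB_not_mem_qq Λ g p.2 j⟩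
  · have := s59u_ic_C_mem_qq Λ m g p.2 (hu j)
    rw [map_sub, map_one] at this
    rw [← neg_sub]
    exact neg_mem this
  · intro h
    have h1 : (2 : s59r_Flat 𝒪 m e g) * C i2 = 1 := by
      rw [← map_ofNat (C (σ := s59r_Idx m e g) (R := 𝒪)) 2, ← map_mul, hi2, map_one]
    have : (1 : s59r_Flat 𝒪 m e g) ∈ s59u_ic_qq Λ m g p.2 := h1 ▸ Ideal.mul_mem_right _ _ h
    exact (Ideal.ne_top_iff_one _).mp h𝔮.ne_top this

variable {𝒪 : Type} [CommRing 𝒪] [IsLocalRing 𝒪] [IsNoetherianRing 𝒪] [IsDomain 𝒪]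
  [IsAdicComplete (maximalIdeal 𝒪) 𝒪] [Finite (ResidueField 𝒪)]

/-- the χ-side hypothesis `hχ` of the assembly from the kill property of `γ' = q' ∘ C`. -/
theorem s59u_ic_hχ_of_ker {m e g r : ℕ} (I : Ideal (s59r_Flat 𝒪 m e g)) {C' : Type*}
    [CommRing C']
    {N' : Type*} [AddCommGroup N'] [Module (MvPowerSeries (Fin r) (s59r_Flat 𝒪 m e g)) N']
    (q' : MvPowerSeries (Fin r) (s59r_Flat 𝒪 m e g) →+* C')
    (hq' : ∀ a, q' a = 0 → a ∈ Module.annihilator (MvPowerSeries (Fin r) (s59r_Flat 𝒪 m e g)) N')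
    (hker : I ≤ RingHom.ker (q'.comp (C (σ := Fin r) (R := s59r_Flat 𝒪 m e g)))) :
    ∀ F ∈ I, (C F : MvPowerSeries (Fin r) (s59r_Flat 𝒪 m e g)) ∈
      Module.annihilator (MvPowerSeries (Fin r) (s59r_Flat 𝒪 m e g)) N' := by
  intro F hF
  exact hq' _ (hker hF)

/-- **the instantiated assembly over `𝒫^Λ`, named hypotheses.** -/
theorem s59u_ic_IA_inst
    (ϖ : 𝒪) (hϖ : ϖ ∈ maximalIdeal 𝒪) (m e g r : ℕ) (Λ : Fin e → s59r_Model 𝒪)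
    (i2 : 𝒪) (hi2 : 2 * i2 = 1)
    (S : Type) [CommRing S] [IsDomain S] [IsLocalRing S] [IsNoetherianRing S]
    [IsAdicComplete (maximalIdeal S) S] [Finite (ResidueField S)]
    (hdim : ringKrullDim 𝒪 + ((3 * m + (g + e * 3) : ℕ) : WithBot ℕ∞) ≤ ringKrullDim S)
    (R : Type) [CommRing R] [IsLocalRing R] [IsNoetherianRing R]
    [IsAdicComplete (maximalIdeal R) R]
    (R' : Type) [CommRing R'] [IsLocalRing R'] [IsNoetherianRing R']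
    [IsAdicComplete (maximalIdeal R') R']
    (M : Type) [AddCommGroup M] [Module R M] [Module.Finite R M]
    (M' : Type) [AddCommGroup M'] [Module R' M'] [Module.Finite R' M'] [Nontrivial M']
    (𝔞 : Ideal S) [𝔞.IsPrime] (J : ℕ → Ideal S) (hJ : ∀ n, J n ≤ maximalIdeal S ^ n)
    (L : ∀ n, s59p_Level S (MvPowerSeries (Fin r) (s59r_Flat 𝒪 m e g)) R M 𝔞 (J n))
    (L' : ∀ n, s59p_Level S (MvPowerSeries (Fin r) (s59r_Flat 𝒪 m e g)) R' M' 𝔞 (J n))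
    (d d' : ℕ) (hd : ∀ n, (L n).d = d) (hd' : ∀ n, (L' n).d = d')
    (hW : ∀ n, s59p_WCong (C (C ϖ) : MvPowerSeries (Fin r) (s59r_Flat 𝒪 m e g)) (C (C ϖ))
      (RingEquiv.refl _) (L n) (L' n))
    (Cn : ℕ → Type) [∀ n, CommRing (Cn n)]
    (q : ∀ n, MvPowerSeries (Fin r) (s59r_Flat 𝒪 m e g) →+* Cn n)
    (hq : ∀ n a, q n a = 0 →
      a ∈ Module.annihilator (MvPowerSeries (Fin r) (s59r_Flat 𝒪 m e g)) (L n).N)
    (u : Fin m → 𝒪) (hu : ∀ j, u j - 1 ∈ maximalIdeal 𝒪) (a : Fin m → s59r_Flat 𝒪 m e g)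
    (ha : ∀ j, a j ^ 2 = C (u j) + (s59r_WB j 0 ^ 2 + s59r_WB j 1 * s59r_WB j 2))
    (Sg Ph : ∀ n, Fin m → Matrix (Fin 2) (Fin 2) (Cn n))
    (hV : ∀ n j k, q n (C (s59r_VB j k)) = s59i_tl (q n (C (C i2))) (Sg n j) k)
    (hWc : ∀ n j k, q n (C (s59r_WB j k)) = s59i_tl (q n (C (C i2))) (Ph n j) k)
    (hac : ∀ n j, q n (C (a j)) = s59i_ht (q n (C (C i2))) (Ph n j))
    (h1 : ∀ n j, (Sg n j - 1) * (Sg n j - 1) = 0) (htr : ∀ n j, (Sg n j).trace = 2)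
    (htame : ∀ n j, Ph n j * (Sg n j - 1) = q n (C (C (u j))) • ((Sg n j - 1) * Ph n j))
    {ι : Type} [Fintype ι] (θ : ι → Fin m → 𝒪) (hθ : ∀ i j, s59l_Hyp (θ i j))
    (hχ : ∀ n, ∀ F ∈ (Finset.univ.inf fun p : ι × s59r_Ch Λ =>
        s59r_KK Λ (θ p.1) (hθ p.1) g p.2),
      (C F : MvPowerSeries (Fin r) (s59r_Flat 𝒪 m e g)) ∈
        Module.annihilator (MvPowerSeries (Fin r) (s59r_Flat 𝒪 m e g)) (L' n).N)
    (hs : ∀ n i, ∃ t ∈ maximalIdeal (s59r_Flat 𝒪 m e g),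
      (X i : MvPowerSeries (Fin r) (s59r_Flat 𝒪 m e g)) ^ 2 - C t ∈
        Module.annihilator (MvPowerSeries (Fin r) (s59r_Flat 𝒪 m e g)) (L' n).N)
    (𝔲 : Ideal R) (hc : ∀ n, 𝔲 ≤ Ideal.span
      (Set.range fun p : Fin m × Fin 3 => (L n).ψ (C (s59r_VB p.1 p.2))))
    (κ : S →+* R) (hκ : ∀ n s, (L n).ψ ((L n).φ s) = κ s) :
    ∃ 𝔭 : Ideal R, 𝔭.IsPrime ∧ Module.annihilator R M ≤ 𝔭 ∧ 𝔲 ≤ 𝔭 ∧
      Ideal.comap κ 𝔭 = 𝔞 := by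
  choose t' ht'm ht' using hs
  have hi2' : ∀ n, (2 : Cn n) * q n (C (C i2)) = 1 := fun n => by
    rw [← map_ofNat (q n) 2, ← map_ofNat (C (σ := Fin r) (R := s59r_Flat 𝒪 m e g)) 2,
      ← map_ofNat (C (σ := s59r_Idx m e g) (R := 𝒪)) 2, ← map_mul, ← map_mul, ← map_mul, hi2,
      map_one, map_one, map_one]
  refine s59u_ic_IA_sq_ideal ϖ hϖ m e g r Λ i2 hi2 S hdim R R' M M' 𝔞 J hJ L L' d d' hd hd' hW θ
    hθ hχ t' ht'm ht' u hu a ha (fun n j => hq n _ ?_) (fun n j => hq n _ ?_)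
    (fun n j => hq n _ ?_) 𝔲 hc κ hκ
  · have := s59i_r0_of_unip (q n (C (C i2))) (hi2' n) (Sg n j) (h1 n j) (htr n j)
    rw [← hV, ← hV, ← hV] at this
    rw [← this]
    simp only [s59l_r0, map_add, map_mul, map_pow]
  · obtain ⟨h2, -, -⟩ := s59i_r234_of_tame (q n (C (C i2))) (q n (C (C (u j)))) (hi2' n)
      (Sg n j) (Ph n j) (htr n j) (htame n j)
    rw [← hV, ← hV, ← hWc, ← hWc, ← hac] at h2
    rw [← h2]
    simp only [s59l_r2, map_add, map_mul, map_sub, map_one]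
  · obtain ⟨-, h3, -⟩ := s59i_r234_of_tame (q n (C (C i2))) (q n (C (C (u j)))) (hi2' n)
      (Sg n j) (Ph n j) (htr n j) (htame n j)
    rw [← hV, ← hV, ← hWc, ← hWc, ← hac] at h3
    rw [← h3]
    simp only [s59l_r3, map_add, map_mul, map_sub, map_one]

end Fermat.Agent.Lib.S59
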