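/-
[IA-c] part C (helper3, prefix `s59u_ic_`): **THE TYPE-`χ` RELATIONS OVER `𝒫^Λ` AT A CHARACTERISTIC-ZERO
POINT, AND THE KILL PROPERTY** (generic-`Λ` twins of helper4's `s59i_BridgeEqs`, `s59i_fa_relE`
(LFinA1) and `s59i_fa_hker` (LFinA2)).

`T′` the trace ring at one level, `ρm : G →* M₂(T′)`, frames `U t`, `U′ t` over `T′⟦z⟧`,
`γ′ : 𝒫^Λ = s59r_Flat 𝒪 m e g ↠ T′⟦z⟧` with the bridge equations `s59u_ic_BridgeEqs`: at the `m`
primes of `B` the traceless coordinates of `Σ_j`, `Φ_j`, at the `e` spectator primes the six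
coordinates `s59f_coordG` of helper4's local bridge datum `L l : s59f_LocBr 𝒪 i2`.
Over `T′`: tame relations, `det ρ(φ) = q`, UNIPOTENCE `tr ρ(σ_l) = 2`, `det ρ(σ_l) = 1` at the
spectator primes (NOT automatic when `q_l ≡ −1 (p)`: it comes from the deformation type), the
residual framed Frobenius.
-/
import Mathlib
import Fermat.Agent.Lib.S59.UIcB
import Fermat.Agent.Lib.S59.FAsmG2
import Fermat.Agent.Lib.S59.LFinA2

set_option autoImplicit false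
set_option linter.unusedSectionVars false
set_option linter.unusedVariables false
set_option linter.style.haveILetI false
set_option maxHeartbeats 1600000

noncomputable section

namespace Fermat.Agent.Lib.S59

open IsLocalRing MvPowerSeries Fermat.Agent.Lib.Deform

section Bridge

variable {𝒪 : Type} [CommRing 𝒪] [IsLocalRing 𝒪] [IsNoetherianRing 𝒪] [IsDomain 𝒪]
  [IsAdicComplete (maximalIdeal 𝒪) 𝒪] [Finite (ResidueField 𝒪)]
variable {i2 : 𝒪} {m e g : ℕ} (L : Fin e → s59f_LocBr 𝒪 i2)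
  {T' : Type} [CommRing T'] [Algebra 𝒪 T'] {σ : Type} {G : Type} [Monoid G]
  (ρm : G →* Matrix (Fin 2) (Fin 2) T')
  (U U' : Fin m ⊕ Fin e → Matrix (Fin 2) (Fin 2) (MvPowerSeries σ T'))

/-- **the bridge equations over `𝒫^Λ`.** -/
def s59u_ic_BridgeEqs (γ' : s59r_Flat 𝒪 m e g →ₐ[𝒪] MvPowerSeries σ T')
    (σB φB : Fin m → G) (σE φE : Fin e → G) : Prop :=
  (∀ j k, γ' (s59r_VB j k) = s59i_tl (algebraMap 𝒪 (MvPowerSeries σ T') i2)
    (s59i_Fm ρm U U' (Sum.inl j) (σB j)) k) ∧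
  (∀ j k, γ' (s59r_WB j k) = s59i_tl (algebraMap 𝒪 (MvPowerSeries σ T') i2)
    (s59i_Fm ρm U U' (Sum.inl j) (φB j)) k) ∧
  (∀ l k, γ' (s59r_U l k) = s59f_coordG (algebraMap 𝒪 (MvPowerSeries σ T') i2)
    (fun i => algebraMap 𝒪 (MvPowerSeries σ T') ((L l).lam i))
    (fun k => algebraMap 𝒪 (MvPowerSeries σ T') ((L l).sh k))
    (s59i_Fm ρm U U' (Sum.inr l) (σE l)) (s59i_Fm ρm U U' (Sum.inr l) (φE l)) k)

end Bridge

section RelAtPoint

variable {𝒪 : Type} [CommRing 𝒪] [IsLocalRing 𝒪] [IsNoetherianRing 𝒪] [IsDomain 𝒪]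
  [IsAdicComplete (maximalIdeal 𝒪) 𝒪] [Finite (ResidueField 𝒪)]
variable {i2 : 𝒪} {m e g : ℕ} (L : Fin e → s59f_LocBr 𝒪 i2) {σ : Type} [Finite σ]
variable {T' : Type} [CommRing T'] [IsLocalRing T'] [Algebra 𝒪 T']
variable {G : Type} [Monoid G] (ρm : G →* Matrix (Fin 2) (Fin 2) T')
  (U U' : Fin m ⊕ Fin e → Matrix (Fin 2) (Fin 2) (MvPowerSeries σ T'))
  (hU : ∀ t, U' t * U t = 1)
  (γ' : s59r_Flat 𝒪 m e g →ₐ[𝒪] MvPowerSeries σ T') (hγ' : Function.Surjective γ')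
  (σB φB : Fin m → G) (σE φE : Fin e → G)
  (hB : s59u_ic_BridgeEqs L ρm U U' γ' σB φB σE φE)

include hU hγ' hB in
/-- **the relations `s59r_Rel` at a local domain point of `T′⟦z⟧`** flat over `𝒪`, at which the
inertia at `B` is of type `χ` (`tr ρ(σ_j) = ζ_j + ζ_j⁻¹`, `det ρ(σ_j) = 1`). -/
theorem s59u_ic_G_rel (hi2 : 2 * i2 = 1)
    (hloc𝒪 : ∀ t ∈ maximalIdeal 𝒪, algebraMap 𝒪 T' t ∈ maximalIdeal T')
    (qB : Fin m → ℕ) (qE : Fin e → ℕ) (hLu : ∀ l, (L l).u = ((qE l : ℕ) : 𝒪))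
    (htameB : ∀ j, ρm (φB j) * ρm (σB j) = ρm (σB j) ^ qB j * ρm (φB j))
    (htameE : ∀ l, ρm (φE l) * ρm (σE l) = ρm (σE l) ^ qE l * ρm (φE l))
    (hdetE : ∀ l, (ρm (φE l)).det = ((qE l : ℕ) : T'))
    (hunipE : ∀ l, (ρm (σE l)).trace = 2 ∧ (ρm (σE l)).det = 1)
    (hresE : ∀ l i j, s59i_Fm ρm U U' (Sum.inr l) (φE l) i j -
      algebraMap 𝒪 (MvPowerSeries σ T') ((L l).M0 i j) ∈ maximalIdeal (MvPowerSeries σ T'))
    {T : Type} [CommRing T] [IsLocalRing T] [IsDomain T] [Algebra 𝒪 T]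
    (Ψ : MvPowerSeries σ T' →ₐ[𝒪] T)
    (hΨ : ∀ a ∈ maximalIdeal (MvPowerSeries σ T'), Ψ a ∈ maximalIdeal T)
    (hinj : Function.Injective (algebraMap 𝒪 T))
    (ζ ζ' : Fin m → 𝒪) (hζ : ∀ j, ζ j * ζ' j = 1) (hζq : ∀ j, ζ j ^ qB j = ζ j)
    (hζne : ∀ j, ζ j ≠ ζ' j)
    (htr : ∀ j, Ψ (C (ρm (σB j)).trace) = algebraMap 𝒪 T (ζ j + ζ' j))
    (hdet : ∀ j, Ψ (C (ρm (σB j)).det) = 1) :
    s59r_Rel (fun l => (L l).Λ) (fun j => i2 * (ζ j - ζ' j)) (Ψ.comp γ') := by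
  classical
  have hΨ𝒪 : ∀ o : 𝒪, Ψ (algebraMap 𝒪 (MvPowerSeries σ T') o) = algebraMap 𝒪 T o := Ψ.commutes
  have hΨn : ∀ n : ℕ, (Ψ : MvPowerSeries σ T' →+* T) ((n : ℕ) : MvPowerSeries σ T') = (n : T) :=
    fun n => map_natCast _ n
  have hi2T : (2 : T) * algebraMap 𝒪 T i2 = 1 := by
    rw [← map_ofNat (algebraMap 𝒪 T) 2, ← map_mul, hi2, map_one]
  -- nonzero constants are regular
  have hreg : ∀ o : 𝒪, o ≠ 0 → ∀ x : T, algebraMap 𝒪 T o * x = 0 → x = 0 := by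
    intro o ho x hx
    have hne : algebraMap 𝒪 T o ≠ 0 := fun h0 => ho (hinj (by rw [h0, map_zero]))
    exact (mul_eq_zero.mp hx).resolve_left hne
  -- the constant matrices over `T′⟦z⟧`
  set cm : G → Matrix (Fin 2) (Fin 2) (MvPowerSeries σ T') :=
    fun x => (ρm x).map (C : T' →+* MvPowerSeries σ T') with hcm
  have hcm_mul : ∀ x y, cm x * cm y = cm (x * y) := fun x y => by
    simp only [hcm]
    rw [map_mul, Matrix.map_mul]
  have hcm_pow : ∀ x k, cm x ^ k = cm (x ^ k) := fun x k => by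
    simp only [hcm]
    rw [map_pow, s59i_map_pow']
  have hcm_tr : ∀ x, (cm x).trace = C (ρm x).trace := fun x => s59i_mapC_trace _
  have hcm_det : ∀ x, (cm x).det = C (ρm x).det := fun x => s59i_mapC_det _
  have hFm : ∀ t x, s59i_Fm ρm U U' t x = U' t * cm x * U t := fun t x => rfl
  have htB : ∀ j, cm (φB j) * cm (σB j) = cm (σB j) ^ qB j * cm (φB j) := fun j => by
    rw [hcm_pow, hcm_mul, hcm_mul]
    simp only [hcm]
    rw [map_mul, map_mul, map_pow, htameB j]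
  have htE : ∀ l, cm (φE l) * cm (σE l) = cm (σE l) ^ qE l * cm (φE l) := fun l => by
    rw [hcm_pow, hcm_mul, hcm_mul]
    simp only [hcm]
    rw [map_mul, map_mul, map_pow, htameE l]
  -- the mapped framed matrices
  set Sg : Fin m → Matrix (Fin 2) (Fin 2) T :=
    fun j => (s59i_Fm ρm U U' (Sum.inl j) (σB j)).map Ψ with hSg
  set Ph : Fin m → Matrix (Fin 2) (Fin 2) T :=
    fun j => (s59i_Fm ρm U U' (Sum.inl j) (φB j)).map Ψ with hPh
  set SgE : Fin e → Matrix (Fin 2) (Fin 2) T :=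
    fun l => (s59i_Fm ρm U U' (Sum.inr l) (σE l)).map Ψ with hSgE
  set PhE : Fin e → Matrix (Fin 2) (Fin 2) T :=
    fun l => (s59i_Fm ρm U U' (Sum.inr l) (φE l)).map Ψ with hPhE
  have hSgtr : ∀ j, (Sg j).trace = algebraMap 𝒪 T (ζ j + ζ' j) := by
    intro j
    show ((s59i_Fm ρm U U' (Sum.inl j) (σB j)).map (Ψ : MvPowerSeries σ T' →+* T)).trace = _
    rw [s59i_map_trace', hFm, s59i_conj_trace _ _ (hU _), hcm_tr]
    exact htr j
  have hSgdet : ∀ j, (Sg j).det = 1 := by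
    intro j
    show ((s59i_Fm ρm U U' (Sum.inl j) (σB j)).map (Ψ : MvPowerSeries σ T' →+* T)).det = _
    rw [s59i_map_det', hFm, s59i_conj_det _ _ (hU _), hcm_det]
    exact hdet j
  have hcomm : ∀ j, Ph j * Sg j = Sg j * Ph j := by
    intro j
    have htr' : (Sg j).trace = algebraMap 𝒪 T (ζ j) + algebraMap 𝒪 T (ζ' j) := by
      rw [hSgtr, map_add]
    refine s59i_tame_chi _ _ (algebraMap 𝒪 T (ζ j)) (algebraMap 𝒪 T (ζ' j)) ?_ (qB j) ?_ ?_ htr'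
      (hSgdet j) ?_
    · rw [← map_mul, hζ, map_one]
    · rw [← map_pow, hζq]
    · intro x hx
      rw [← map_sub, mul_comm] at hx
      exact hreg _ (sub_ne_zero.mpr (hζne j)) x hx
    · show (s59i_Fm ρm U U' (Sum.inl j) (φB j)).map (Ψ : MvPowerSeries σ T' →+* T) *
          (s59i_Fm ρm U U' (Sum.inl j) (σB j)).map (Ψ : MvPowerSeries σ T' →+* T) =
        (s59i_Fm ρm U U' (Sum.inl j) (σB j)).map (Ψ : MvPowerSeries σ T' →+* T) ^ qB j *
          (s59i_Fm ρm U U' (Sum.inl j) (φB j)).map (Ψ : MvPowerSeries σ T' →+* T)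
      rw [← Matrix.map_mul, ← s59i_map_pow', ← Matrix.map_mul, hFm, hFm,
        s59i_conj_mul _ _ (hU _), htB, s59i_conj_pow _ _ (hU _), s59i_conj_mul _ _ (hU _)]
  -- the type-1 identities at the spectator primes
  have hidE : ∀ l, (SgE l - 1) * (SgE l - 1) = 0 ∧ (SgE l).trace = 2 ∧
      PhE l * (SgE l - 1) = ((qE l : ℕ) : T) • ((SgE l - 1) * PhE l) ∧
      (PhE l).det = ((qE l : ℕ) : T) := by
    intro l
    have htr' : (cm (σE l)).trace = 2 := by rw [hcm_tr, (hunipE l).1, map_ofNat]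
    have hdet' : (cm (σE l)).det = 1 := by rw [hcm_det, (hunipE l).2, map_one]
    obtain ⟨h1, h2, h3⟩ := s59i_conj_type1 (U (Sum.inr l)) (U' (Sum.inr l)) (hU _) (cm (σE l))
      (cm (φE l)) (qE l) htr' hdet' (htE l)
    have h4 : (s59i_Fm ρm U U' (Sum.inr l) (φE l)).det = ((qE l : ℕ) : MvPowerSeries σ T') := by
      rw [hFm, s59i_conj_det _ _ (hU _), hcm_det, hdetE, map_natCast]
    have := s59f_type1_map (Ψ : MvPowerSeries σ T' →+* T)
      (s59i_Fm ρm U U' (Sum.inr l) (σE l)) (s59i_Fm ρm U U' (Sum.inr l) (φE l)) _ h1 h2 h3 h4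
    rw [hΨn] at this
    exact this
  have hqE : ∀ l, algebraMap 𝒪 T ((L l).u) = ((qE l : ℕ) : T) := fun l => by
    rw [hLu, map_natCast]
  refine ⟨?_, hinj, ?_, fun j => ?_, fun j k k' => ?_, fun j x hx => ?_, fun l => ?_⟩
  · -- loc
    intro t ht
    rw [← hΨ𝒪]
    refine hΨ _ ?_
    rw [MvPowerSeries.algebraMap_apply]
    exact s59i_C_mem_maximalIdeal _ (hloc𝒪 t ht)
  · -- mem
    intro s
    rw [AlgHom.comp_apply]
    refine hΨ _ ?_
    refine s59i_surj_mem (γ' : s59r_Flat 𝒪 m e g →+* MvPowerSeries σ T') hγ' _ ?_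
    rw [s59i_mem_maximalIdeal_iff_constantCoeff, MvPowerSeries.constantCoeff_X]
    exact Ideal.zero_mem _
  · -- quad
    have hV : ∀ k, (Ψ.comp γ') (s59r_VB j k) = s59i_tl (algebraMap 𝒪 T i2) (Sg j) k := by
      intro k
      rw [AlgHom.comp_apply, hB.1 j k, ← hΨ𝒪]
      exact (s59i_tl_map (Ψ : MvPowerSeries σ T' →+* T) _ _ k).symm
    rw [hV, hV, hV, s59i_quad_of_charpoly _ hi2T (Sg j) _ (hSgtr j) (hSgdet j), ← map_mul,
      ← map_pow, ← map_one (algebraMap 𝒪 T), ← map_sub, ← map_pow]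
    congr 1
    linear_combination (4 * i2 ^ 2) * hζ j + (2 * i2 + 1) * hi2
  · -- minor
    have hV : ∀ k, (Ψ.comp γ') (s59r_VB j k) = s59i_tl (algebraMap 𝒪 T i2) (Sg j) k := by
      intro k
      rw [AlgHom.comp_apply, hB.1 j k, ← hΨ𝒪]
      exact (s59i_tl_map (Ψ : MvPowerSeries σ T' →+* T) _ _ k).symm
    have hW : ∀ k, (Ψ.comp γ') (s59r_WB j k) = s59i_tl (algebraMap 𝒪 T i2) (Ph j) k := by
      intro k
      rw [AlgHom.comp_apply, hB.2.1 j k, ← hΨ𝒪]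
      exact (s59i_tl_map (Ψ : MvPowerSeries σ T' →+* T) _ _ k).symm
    rw [hW, hV, hW, hV]
    exact s59i_minor_of_comm _ hi2T (Sg j) (Ph j) (hcomm j) k k'
  · -- tf
    refine hreg _ ?_ x hx
    refine mul_ne_zero ?_ (sub_ne_zero.mpr (hζne j))
    intro h0
    rw [h0, mul_zero] at hi2
    exact zero_ne_one hi2
  · -- the smooth models
    have hfun : (fun k => (Ψ.comp γ') (s59r_U l k)) =
        s59f_coordG (algebraMap 𝒪 T i2) (fun i => algebraMap 𝒪 T ((L l).lam i))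
          (fun k => algebraMap 𝒪 T ((L l).sh k)) (SgE l) (PhE l) := by
      funext k
      rw [AlgHom.comp_apply, hB.2.2 l k]
      exact s59f_coordG_map Ψ i2 _ _ _ _ k
    show (L l).Λ.rel T (fun k => (Ψ.comp γ') (s59r_U l k))
    rw [hfun]
    refine (L l).relOf T (SgE l) (PhE l) (hidE l).1 (hidE l).2.1 ?_ ?_ ?_
    · rw [hqE]
      exact (hidE l).2.2.1
    · rw [hqE]
      exact (hidE l).2.2.2
    · intro i j
      have h := hΨ _ (hresE l i j)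
      rw [map_sub, hΨ𝒪] at h
      exact h

end RelAtPoint

section Kill

variable {𝒪 : Type} [CommRing 𝒪] [IsLocalRing 𝒪] [IsNoetherianRing 𝒪] [IsDomain 𝒪]
  [IsAdicComplete (maximalIdeal 𝒪) 𝒪] [Finite (ResidueField 𝒪)]
variable {m e : ℕ} (Λ : Fin e → s59r_Model 𝒪)

/-- **(K-kill) over `𝒫^Λ` for a jointly injective family of complete local domain quotients.** -/
theorem s59u_ic_kill_family {ι : Type} [Fintype ι] (θ : ι → Fin m → 𝒪)
    (hθ : ∀ i j, s59l_Hyp (θ i j)) (g : ℕ) {Cr : Type} [CommRing Cr] [Algebra 𝒪 Cr]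
    (φ : s59r_Flat 𝒪 m e g →ₐ[𝒪] Cr) {κ : Type} (Dk : κ → Type) [∀ k, CommRing (Dk k)]
    [∀ k, IsLocalRing (Dk k)] [∀ k, IsDomain (Dk k)]
    [∀ k, IsAdicComplete (maximalIdeal (Dk k)) (Dk k)] [∀ k, Algebra 𝒪 (Dk k)]
    (q : ∀ k, Cr →ₐ[𝒪] Dk k) (hq : ∀ x : Cr, (∀ k, q k x = 0) → x = 0)
    (h : ∀ k, ∃ i, s59r_Rel Λ (θ i) ((q k).comp φ)) :
    (Finset.univ.inf fun p : ι × s59r_Ch Λ => s59r_KK Λ (θ p.1) (hθ p.1) g p.2) ≤
      RingHom.ker φ := by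
  classical
  intro F hF
  rw [RingHom.mem_ker]
  refine hq _ fun k => ?_
  obtain ⟨i, hi⟩ := h k
  obtain ⟨ch, hch⟩ := s59r_KK_kill Λ (θ i) (hθ i) g _ hi
  have h1 : F ∈ s59r_KK Λ (θ i) (hθ i) g ch :=
    (Finset.inf_le (f := fun p : ι × s59r_Ch Λ => s59r_KK Λ (θ p.1) (hθ p.1) g p.2)
      (Finset.mem_univ (i, ch))) hF
  have h2 := hch h1
  rw [RingHom.mem_ker, AlgHom.comp_apply] at h2
  exact h2

end Kill

section HKer

variable {𝒪 : Type} [CommRing 𝒪] [IsLocalRing 𝒪] [IsNoetherianRing 𝒪] [IsDomain 𝒪]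
  [IsAdicComplete (maximalIdeal 𝒪) 𝒪] [Finite (ResidueField 𝒪)]
variable {i2 : 𝒪} {m e g : ℕ} (L : Fin e → s59f_LocBr 𝒪 i2) {σ : Type} [Finite σ]
variable {T' : Type} [CommRing T'] [IsLocalRing T'] [IsNoetherianRing T']
  [IsAdicComplete (maximalIdeal T') T'] [Algebra 𝒪 T']
variable {G : Type} [Monoid G] (ρm : G →* Matrix (Fin 2) (Fin 2) T')
  (U U' : Fin m ⊕ Fin e → Matrix (Fin 2) (Fin 2) (MvPowerSeries σ T'))
  (hU : ∀ t, U' t * U t = 1)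
  (γ' : s59r_Flat 𝒪 m e g →ₐ[𝒪] MvPowerSeries σ T') (hγ' : Function.Surjective γ')
  (σB φB : Fin m → G) (σE φE : Fin e → G)
  (hB : s59u_ic_BridgeEqs L ρm U U' γ' σB φB σE φE)

include hU hγ' hB in
/-- **the kill property from the relations at the minimal primes over `I′`.** -/
theorem s59u_ic_fa_hker (hi2 : 2 * i2 = 1)
    (hloc𝒪 : ∀ t ∈ maximalIdeal 𝒪, algebraMap 𝒪 T' t ∈ maximalIdeal T')
    (qB : Fin m → ℕ) (qE : Fin e → ℕ) (hLu : ∀ l, (L l).u = ((qE l : ℕ) : 𝒪))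
    (htameB : ∀ j, ρm (φB j) * ρm (σB j) = ρm (σB j) ^ qB j * ρm (φB j))
    (htameE : ∀ l, ρm (φE l) * ρm (σE l) = ρm (σE l) ^ qE l * ρm (φE l))
    (hdetE : ∀ l, (ρm (φE l)).det = ((qE l : ℕ) : T'))
    (hunipE : ∀ l, (ρm (σE l)).trace = 2 ∧ (ρm (σE l)).det = 1)
    (hresE : ∀ l i j, s59i_Fm ρm U U' (Sum.inr l) (φE l) i j -
      algebraMap 𝒪 (MvPowerSeries σ T') ((L l).M0 i j) ∈ maximalIdeal (MvPowerSeries σ T'))
    {ι : Type} [Fintype ι] (ζ ζ' : ι → Fin m → 𝒪) (hζ : ∀ i j, ζ i j * ζ' i j = 1)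
    (hζq : ∀ i j, ζ i j ^ qB j = ζ i j) (hζne : ∀ i j, ζ i j ≠ ζ' i j)
    (hθ : ∀ i j, s59l_Hyp (i2 * (ζ i j - ζ' i j)))
    (I' : Ideal T') (hrad : I'.IsRadical)
    (h : ∀ 𝔮 ∈ I'.minimalPrimes, (∀ o : 𝒪, o ≠ 0 → algebraMap 𝒪 T' o ∉ 𝔮) ∧
      ∃ i, ∀ j, (ρm (σB j)).trace - algebraMap 𝒪 T' (ζ i j + ζ' i j) ∈ 𝔮 ∧
        (ρm (σB j)).det - 1 ∈ 𝔮) :
    (Finset.univ.inf fun p : ι × s59r_Ch (fun l => (L l).Λ) =>
        s59r_KK (fun l => (L l).Λ) (fun j => i2 * (ζ p.1 j - ζ' p.1 j)) (hθ p.1) g p.2) ≤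
      RingHom.ker ((MvPowerSeries.mapAlgHom (σ := σ) (Ideal.Quotient.mkₐ 𝒪 I')).comp γ') := by
  classical
  haveI hloc : ∀ k : {𝔮 : Ideal T' // 𝔮 ∈ I'.minimalPrimes}, IsLocalRing (T' ⧸ k.1) := fun k =>
    s59l_quot_isLocalRing k.1 k.2.1.1.ne_top
  haveI hcomp : ∀ k : {𝔮 : Ideal T' // 𝔮 ∈ I'.minimalPrimes},
      IsAdicComplete (maximalIdeal (T' ⧸ k.1)) (T' ⧸ k.1) := fun k => s59l_quot_complete k.1
  haveI hdom : ∀ k : {𝔮 : Ideal T' // 𝔮 ∈ I'.minimalPrimes}, IsDomain (T' ⧸ k.1) := fun k =>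
    haveI := k.2.1.1
    Ideal.Quotient.isDomain k.1
  haveI hdom' : ∀ k : {𝔮 : Ideal T' // 𝔮 ∈ I'.minimalPrimes},
      IsDomain (MvPowerSeries σ (T' ⧸ k.1)) := fun k => NoZeroDivisors.to_isDomain _
  refine s59u_ic_kill_family (fun l => (L l).Λ) (fun i j => i2 * (ζ i j - ζ' i j)) hθ g
    ((MvPowerSeries.mapAlgHom (σ := σ) (Ideal.Quotient.mkₐ 𝒪 I')).comp γ')
    (κ := {𝔮 : Ideal T' // 𝔮 ∈ I'.minimalPrimes})
    (fun k => MvPowerSeries σ (T' ⧸ k.1))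
    (fun k => MvPowerSeries.mapAlgHom (σ := σ) (Ideal.Quotient.factorₐ 𝒪 (k.2.1.2 : I' ≤ k.1)))
    ?_ ?_
  · -- joint injectivity
    intro x hx
    ext d
    rw [map_zero]
    obtain ⟨c, hc⟩ := Ideal.Quotient.mk_surjective (coeff d x)
    rw [← hc, Ideal.Quotient.eq_zero_iff_mem, ← hrad.radical, ← Ideal.sInf_minimalPrimes,
      Submodule.mem_sInf]
    intro 𝔮 h𝔮
    have h1 := congrArg (coeff d) (hx ⟨𝔮, h𝔮⟩)
    rw [map_zero] at h1
    have h2 : coeff d (MvPowerSeries.mapAlgHom (σ := σ)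
        (Ideal.Quotient.factorₐ 𝒪 (h𝔮.1.2 : I' ≤ 𝔮)) x) =
        Ideal.Quotient.factor (h𝔮.1.2 : I' ≤ 𝔮) (coeff d x) := by
      show coeff d (MvPowerSeries.map _ x) = _
      rw [coeff_map]
      rfl
    rw [h2, ← hc, Ideal.Quotient.factor_mk, Ideal.Quotient.eq_zero_iff_mem] at h1
    exact h1
  · -- the relations
    rintro ⟨𝔮, h𝔮⟩
    obtain ⟨hchar, i, hi⟩ := h 𝔮 h𝔮
    refine ⟨i, ?_⟩
    haveI := h𝔮.1.1
    haveI : IsLocalRing (T' ⧸ 𝔮) := hloc ⟨𝔮, h𝔮⟩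
    haveI : IsDomain (T' ⧸ 𝔮) := Ideal.Quotient.isDomain 𝔮
    haveI : IsDomain (MvPowerSeries σ (T' ⧸ 𝔮)) := NoZeroDivisors.to_isDomain _
    set Ψ : MvPowerSeries σ T' →ₐ[𝒪] MvPowerSeries σ (T' ⧸ 𝔮) :=
      MvPowerSeries.mapAlgHom (σ := σ) (Ideal.Quotient.mkₐ 𝒪 𝔮) with hΨdef
    have hΨC : ∀ x : T', Ψ (C x) = C (Ideal.Quotient.mk 𝔮 x) := fun x => by
      show MvPowerSeries.map _ (C x) = _
      rw [MvPowerSeries.map_C]
      rfl
    have key := s59u_ic_G_rel L ρm U U' hU γ' hγ' σB φB σE φE hB hi2 hloc𝒪 qB qE hLu htameB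
      htameE hdetE hunipE hresE Ψ ?_ ?_ (ζ i) (ζ' i) (hζ i) (hζq i) (hζne i) ?_ ?_
    · have e : (MvPowerSeries.mapAlgHom (σ := σ)
          (Ideal.Quotient.factorₐ 𝒪 (h𝔮.1.2 : I' ≤ 𝔮))).comp
          ((MvPowerSeries.mapAlgHom (σ := σ) (Ideal.Quotient.mkₐ 𝒪 I')).comp γ') = Ψ.comp γ' := by
        apply AlgHom.ext
        intro x
        ext d
        simp only [AlgHom.comp_apply]
        show coeff d (MvPowerSeries.map _ (MvPowerSeries.map _ (γ' x))) =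
          coeff d (MvPowerSeries.map _ (γ' x))
        rw [coeff_map, coeff_map, coeff_map]
        exact Ideal.Quotient.factor_mk (h𝔮.1.2 : I' ≤ 𝔮) _
      rw [e]
      exact key
    · -- locality of `Ψ`
      intro a ha
      exact s59i_map_mem_maximalIdeal (Ideal.Quotient.mk 𝔮)
        (fun x hx => s59i_surj_mem _ Ideal.Quotient.mk_surjective x hx) _ ha
    · -- injectivity of `𝒪 → (T′/𝔮)⟦z⟧`
      rw [injective_iff_map_eq_zero]
      intro o ho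
      by_contra hne
      have h1 := congrArg (constantCoeff (σ := σ) (R := T' ⧸ 𝔮)) ho
      rw [MvPowerSeries.algebraMap_apply, constantCoeff_C, map_zero] at h1
      have h2 : algebraMap 𝒪 T' o ∈ 𝔮 := by
        rw [← Ideal.Quotient.eq_zero_iff_mem]
        exact h1
      exact hchar o hne h2
    · intro j
      rw [hΨC, MvPowerSeries.algebraMap_apply]
      congr 1
      have h0 := (hi j).1
      rw [← Ideal.Quotient.eq_zero_iff_mem, map_sub, sub_eq_zero] at h0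
      rw [h0]
      rfl
    · intro j
      rw [hΨC]
      have h0 := (hi j).2
      rw [← Ideal.Quotient.eq_zero_iff_mem, map_sub, sub_eq_zero, map_one] at h0
      rw [h0, map_one]

end HKer

end Fermat.Agent.Lib.S59
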