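/-
[IA-c] part F (helper3, prefix `s59u_ic_`): **THE `R`-SIDE ADAPTER OVER `𝒫^Λ`** (twin of helper4's
`s59i_bridgeEqs_of_inst`, LFinA5, and of his `s59f_bridge_reindex`/`s59f_bridgeEqsG_inst`, FAsmG6, for
`m` primes of type `χ`/`1` instead of `0 + m` primes of type (iv)).

The conclusion of helper4's `s59f_inst_flatG` (a surjection `γ₀ : 𝒪⟦GIdx m e g⟧ ↠ T⟦z⟧` with the four
families of equations in the framed matrices `s59q_Fm`, the Frobenius coordinates at the last `e`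
primes being `s59f_tlG lam Φ − sh`) is, after re-indexing the variables, `s59u_ic_BridgeEqs` for
`ρm := g ↦ θ(matOf DQ.ρ bR g)`, `U t := s59q_frameU T (P t) t`, `U′ t := s59q_frameU' T (P′ t) t`.
-/
import Mathlib
import Fermat.Agent.Lib.S59.UIcE
import Fermat.Agent.Lib.S59.LFinA5

set_option autoImplicit false
set_option linter.unusedSectionVars false
set_option linter.unusedVariables false
set_option linter.style.haveILetI false
set_option maxHeartbeats 1600000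

noncomputable section

namespace Fermat.Agent.Lib.S59

open IsLocalRing MvPowerSeries
open Fermat.Agent.Lib.S53 (matOf matOfRes NormData)
open Fermat.Agent.Lib.Deform

local notation "Γℚ" => (AlgebraicClosure ℚ ≃ₐ[ℚ] AlgebraicClosure ℚ)

section Reindex

variable {𝒪 : Type} [CommRing 𝒪] [IsLocalRing 𝒪] [IsNoetherianRing 𝒪]
  [IsAdicComplete (maximalIdeal 𝒪) 𝒪]
variable {m e g : ℕ}

/-- the re-indexing of the variables. -/
def s59u_ic_reIdx (m e g : ℕ) : s59r_Idx m e g → s59q_GIdx m e g :=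
  Sum.elim (fun a => Sum.inl a)
    (Sum.elim (fun a => Sum.inr (Sum.inl a))
      (Sum.elim (fun a => (![Sum.inr (Sum.inr (Sum.inl (a.1, 0))),
          Sum.inr (Sum.inr (Sum.inl (a.1, 1))), Sum.inr (Sum.inr (Sum.inl (a.1, 2))),
          Sum.inr (Sum.inr (Sum.inr (Sum.inl (a.1, 0)))),
          Sum.inr (Sum.inr (Sum.inr (Sum.inl (a.1, 1)))),
          Sum.inr (Sum.inr (Sum.inr (Sum.inl (a.1, 2))))] : Fin 6 → s59q_GIdx m e g) a.2)
        (fun i => Sum.inr (Sum.inr (Sum.inr (Sum.inr i))))))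

/-- its inverse. -/
def s59u_ic_reIdx' (m e g : ℕ) : s59q_GIdx m e g → s59r_Idx m e g :=
  Sum.elim (fun a => Sum.inl a)
    (Sum.elim (fun a => Sum.inr (Sum.inl a))
      (Sum.elim (fun a => Sum.inr (Sum.inr (Sum.inl (a.1, Fin.castAdd 3 a.2))))
        (Sum.elim (fun a => Sum.inr (Sum.inr (Sum.inl (a.1, Fin.natAdd 3 a.2))))
          (fun i => Sum.inr (Sum.inr (Sum.inr i))))))

theorem s59u_ic_reIdx_reIdx' (s : s59q_GIdx m e g) :
    s59u_ic_reIdx m e g (s59u_ic_reIdx' m e g s) = s := by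
  rcases s with ⟨j, k⟩ | ⟨j, k⟩ | ⟨l, k⟩ | ⟨l, k⟩ | i
  · rfl
  · rfl
  · fin_cases k <;> rfl
  · fin_cases k <;> rfl
  · rfl

variable {C : Type} [CommRing C] [IsLocalRing C] [IsAdicComplete (maximalIdeal C) C] [Algebra 𝒪 C]

/-- **the re-indexed bridge.** -/
theorem s59u_ic_bridge_reindex (γ₀ : MvPowerSeries (s59q_GIdx m e g) 𝒪 →ₐ[𝒪] C)
    (hγ₀ : Function.Surjective γ₀) :
    ∃ γ : s59r_Flat 𝒪 m e g →ₐ[𝒪] C, Function.Surjective γ ∧
      ∀ s, γ (X s) = γ₀ (X (s59u_ic_reIdx m e g s)) := by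
  have hmem : ∀ s', γ₀ (X s') ∈ maximalIdeal C := by
    intro s'
    refine s59i_surj_mem (γ₀ : MvPowerSeries (s59q_GIdx m e g) 𝒪 →+* C) hγ₀ _ ?_
    exact X_mem_maximalIdeal _
  set γ : s59r_Flat 𝒪 m e g →ₐ[𝒪] C :=
    evalHom (maximalIdeal C) (fun s => γ₀ (X (s59u_ic_reIdx m e g s))) (fun s => hmem _)
    with hγdef
  have hγX : ∀ s, γ (X s) = γ₀ (X (s59u_ic_reIdx m e g s)) := fun s => evalHom_X _ _ _ s
  set ren : MvPowerSeries (s59q_GIdx m e g) 𝒪 →ₐ[𝒪] s59r_Flat 𝒪 m e g :=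
    evalHom (maximalIdeal (s59r_Flat 𝒪 m e g)) (fun s' => X (s59u_ic_reIdx' m e g s'))
      (fun s' => X_mem_maximalIdeal _) with hren
  have hcomp : γ.comp ren = γ₀ := by
    refine algHom_ext_of_X (maximalIdeal C) (fun s' => ?_) (fun s' => ?_)
    · rw [AlgHom.comp_apply, hren, evalHom_X, hγX]
      exact hmem _
    · rw [AlgHom.comp_apply, hren, evalHom_X, hγX, s59u_ic_reIdx_reIdx']
  refine ⟨γ, ?_, hγX⟩
  intro y
  obtain ⟨x, hx⟩ := hγ₀ y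
  refine ⟨ren x, ?_⟩
  rw [← hx, ← hcomp, AlgHom.comp_apply]

end Reindex

section BridgeInst

variable {𝒪 : Type} [CommRing 𝒪] [IsDomain 𝒪] [IsDiscreteValuationRing 𝒪]
  [IsAdicComplete (maximalIdeal 𝒪) 𝒪] [Finite (ResidueField 𝒪)]
  {ρbar : ResidualGaloisRep (ResidueField 𝒪)}
  {𝒟s : ∀ ⦃A : Type⦄ [CommRing A] [IsLocalRing A] [Algebra 𝒪 A], GaloisRepAdic A → Prop}
  (DQs : GaloisRep.DeformationRingData 𝒪 ρbar 𝒟s)
  (bR : Module.Basis (Fin 2) DQs.R DQs.ρ.V)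
  {T : Type} [CommRing T] [IsLocalRing T] [IsAdicComplete (maximalIdeal T) T] [Algebra 𝒪 T]
  (θ : DQs.R →ₐ[𝒪] T)
  {m e g : ℕ} (σq φq : Fin m ⊕ Fin e → Γℚ)
  {i2 : 𝒪} (L : Fin e → s59f_LocBr 𝒪 i2)
  (P P' : Fin m ⊕ Fin e → Matrix (Fin 2) (Fin 2) 𝒪)

/-- **the bridge equations over `𝒫^Λ` from the conclusion of `s59f_inst_flatG/_ordG`.** -/
theorem s59u_ic_bridgeEqs_inst
    (γ₀ : MvPowerSeries (s59q_GIdx m e g) 𝒪 →ₐ[𝒪] MvPowerSeries (s59q_ZIdx m e) T)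
    (hγ₀ : Function.Surjective γ₀)
    (h1 : ∀ j k, γ₀ (MvPowerSeries.X (Sum.inl (j, k))) =
      s59q_tl (algebraMap 𝒪 _ i2) (s59q_Fm DQs bR θ P P' (Sum.inl j) (σq (Sum.inl j))) k)
    (h2 : ∀ j k, γ₀ (MvPowerSeries.X (Sum.inr (Sum.inl (j, k)))) =
      s59q_tl (algebraMap 𝒪 _ i2) (s59q_Fm DQs bR θ P P' (Sum.inl j) (φq (Sum.inl j))) k)
    (h3 : ∀ l k, γ₀ (MvPowerSeries.X (Sum.inr (Sum.inr (Sum.inl (l, k))))) =
      s59q_tl (algebraMap 𝒪 _ i2) (s59q_Fm DQs bR θ P P' (Sum.inr l) (σq (Sum.inr l))) k)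
    (h4 : ∀ l k, γ₀ (MvPowerSeries.X (Sum.inr (Sum.inr (Sum.inr (Sum.inl (l, k)))))) =
      s59f_tlG (fun i => algebraMap 𝒪 _ ((L l).lam i))
          (s59q_Fm DQs bR θ P P' (Sum.inr l) (φq (Sum.inr l))) k -
        algebraMap 𝒪 _ ((L l).sh k)) :
    ∃ γ : s59r_Flat 𝒪 m e g →ₐ[𝒪] MvPowerSeries (s59q_ZIdx m e) T,
      Function.Surjective γ ∧
      s59u_ic_BridgeEqs L (s59i_rhoM DQs bR θ) (fun t => s59q_frameU T (P t) t)
        (fun t => s59q_frameU' T (P' t) t) γ (fun j => σq (Sum.inl j)) (fun j => φq (Sum.inl j))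
        (fun l => σq (Sum.inr l)) (fun l => φq (Sum.inr l)) := by
  obtain ⟨γ, hγ, hγX⟩ := s59u_ic_bridge_reindex γ₀ hγ₀
  refine ⟨γ, hγ, fun j k => ?_, fun j k => ?_, fun l k => ?_⟩
  · rw [s59i_Fm_eq_inst]
    show γ (X _) = _
    rw [hγX]
    exact h1 j k
  · rw [s59i_Fm_eq_inst]
    show γ (X _) = _
    rw [hγX]
    exact h2 j k
  · rw [s59i_Fm_eq_inst, s59i_Fm_eq_inst]
    show γ (X _) = _
    rw [hγX]
    fin_cases k
    · exact h3 l 0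
    · exact h3 l 1
    · exact h3 l 2
    · exact h4 l 0
    · exact h4 l 1
    · exact h4 l 2

end BridgeInst

end Fermat.Agent.Lib.S59
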