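/-
[IA-c] part G (helper3, prefix `s59u_ic_`): **FIN-A3 over `𝒫^Λ`** = helper4's `s59i_FINA3` (LFinB3)
over `s59u_ic_FINA2`: the `R`-side is the conclusion of helper4's `s59f_inst_flatG` (general residual
Frobenius at the spectator primes) for local bridge data `L : Fin e → s59f_LocBr 𝒪 i2`; NEW input
`hunipE`: the push-forward of the universal representation to the trace ring is unipotent on inertia
at the spectator primes (generated from the original).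
-/
import Mathlib
import Fermat.Agent.Lib.S59.UIcF
import Fermat.Agent.Lib.S59.LFinB3
import Fermat.Agent.Lib.S59.FAsmG6

set_option autoImplicit false
set_option linter.unusedSectionVars false
set_option linter.unusedVariables false
set_option linter.style.haveILetI false
set_option maxHeartbeats 3200000

noncomputable section

namespace Fermat.Agent.Lib.S59

open IsLocalRing MvPowerSeries CuspForm
open Fermat.Agent.Lib.S53 (matOf matOfRes NormData matOf_apply matOfRes_apply)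
open Fermat.Agent.Lib.Deform (IsTestAlgebra)

local notation "Γℚ" => (AlgebraicClosure ℚ ≃ₐ[ℚ] AlgebraicClosure ℚ)

/-- **FIN-A (abstract final form).** -/
theorem s59u_ic_FINA3
    (p : ℕ) [hp : Fact p.Prime] (N : ℕ) [NeZero N] (B : Finset ℕ) (a : ℕ → ℤ)
    {𝒪 : Type} [CommRing 𝒪] [IsDomain 𝒪] [IsDiscreteValuationRing 𝒪]
    [IsAdicComplete (maximalIdeal 𝒪) 𝒪] [Finite (ResidueField 𝒪)]
    [Algebra ℤ_[p] 𝒪] [Module.Finite ℤ_[p] 𝒪] (hp𝒪 : ((p : ℕ) : 𝒪) ∈ maximalIdeal 𝒪)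
    (ρbar : ResidualGaloisRep (ResidueField 𝒪)) (Nd : NormData ρbar)
    (hspanbar : ∀ Y : Matrix (Fin 2) (Fin 2) (ResidueField 𝒪), Y ∈
      Submodule.span (ResidueField 𝒪) (Set.range fun g : Γℚ => matOfRes ρbar Nd.b g))
    (m e r : ℕ) {i2 : 𝒪} (hi2 : 2 * i2 = 1) (L : Fin e → s59f_LocBr 𝒪 i2)
    (pr : Fin m ⊕ Fin e → ℕ) (σq φq : Fin m ⊕ Fin e → Γℚ)
    (P P' : Fin m ⊕ Fin e → Matrix (Fin 2) (Fin 2) 𝒪) (hPP' : ∀ t, P t * P' t = 1)
    (hP'P : ∀ t, P' t * P t = 1)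
    (hLu : ∀ l, (L l).u = ((pr (Sum.inr l) : ℕ) : 𝒪))
    (hqB : ∀ j, ((pr (Sum.inl j) : ℕ) : 𝒪) - 1 ∈ maximalIdeal 𝒪)
    (εB : Fin m → 𝒪) (hεB : ∀ j, εB j ^ 2 = 1)
    -- the residual shapes in the normalised basis
    (hMB : ∀ j, i2 * (Nd.Mtil (φq (Sum.inl j))).trace - εB j ∈ maximalIdeal 𝒪)
    (hMres : ∀ l, (P' (Sum.inr l)).map (residue 𝒪) * matOfRes ρbar Nd.b (φq (Sum.inr l)) *
      (P (Sum.inr l)).map (residue 𝒪) = ((L l).M0).map (residue 𝒪))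
    -- the deformation rings
    (𝒟 : ℕ → ∀ ⦃A : Type⦄ [CommRing A] [IsLocalRing A] [Algebra 𝒪 A], GaloisRepAdic A → Prop)
    (DQ : ∀ n, GaloisRep.DeformationRingData 𝒪 ρbar (𝒟 n))
    (bR : ∀ n, Module.Basis (Fin 2) (DQ n).R (DQ n).ρ.V)
    (hbR : ∀ n σ i j, matOf (DQ n).ρ (bR n) σ i j - algebraMap 𝒪 (DQ n).R (Nd.Mtil σ i j) ∈
      maximalIdeal (DQ n).R)
    (htame : ∀ n t, matOf (DQ n).ρ (bR n) (φq t) * matOf (DQ n).ρ (bR n) (σq t) =
      matOf (DQ n).ρ (bR n) (σq t) ^ pr t * matOf (DQ n).ρ (bR n) (φq t))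
    (hdetφ : ∀ n t, (matOf (DQ n).ρ (bR n) (φq t)).det = ((pr t : ℕ) : (DQ n).R))
    (hbridge : ∀ n {T : Type} [CommRing T] [IsLocalRing T] [IsNoetherianRing T]
      [IsAdicComplete (maximalIdeal T) T] [Algebra 𝒪 T] (_ : IsTestAlgebra 𝒪 T)
      (θ : (DQ n).R →ₐ[𝒪] T) (_ : Function.Surjective θ),
      ∃ γ : MvPowerSeries (s59q_GIdx m e (r + m + e)) 𝒪 →ₐ[𝒪] MvPowerSeries (s59q_ZIdx m e) T,
        Function.Surjective γ ∧
        (∀ j k, γ (MvPowerSeries.X (Sum.inl (j, k))) =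
          s59q_tl (algebraMap 𝒪 _ i2)
            (s59q_Fm (DQ n) (bR n) θ P P' (Sum.inl j) (σq (Sum.inl j))) k) ∧
        (∀ j k, γ (MvPowerSeries.X (Sum.inr (Sum.inl (j, k)))) =
          s59q_tl (algebraMap 𝒪 _ i2)
            (s59q_Fm (DQ n) (bR n) θ P P' (Sum.inl j) (φq (Sum.inl j))) k) ∧
        (∀ l k, γ (MvPowerSeries.X (Sum.inr (Sum.inr (Sum.inl (l, k))))) =
          s59q_tl (algebraMap 𝒪 _ i2)
            (s59q_Fm (DQ n) (bR n) θ P P' (Sum.inr l) (σq (Sum.inr l))) k) ∧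
        (∀ l k, γ (MvPowerSeries.X (Sum.inr (Sum.inr (Sum.inr (Sum.inl (l, k)))))) =
          s59f_tlG (fun i => algebraMap 𝒪 _ ((L l).lam i))
              (s59q_Fm (DQ n) (bR n) θ P P' (Sum.inr l) (φq (Sum.inr l))) k -
            algebraMap 𝒪 _ ((L l).sh k)))
    -- the `T`-side
    (Bs : s59i_TBase 𝒪 N B a m r (s59q_ZIdx m e) ρbar (fun j => pr (Sum.inl j)))
    (TL : ∀ n, s59i_TLevel Bs (fun j => σq (Sum.inl j)) (DQ n) n)
    -- unipotence at the spectator primes (from the deformation type)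
    (hunipE : ∀ n l, (TL n).θ (s59i_cpTr (DQ n).ρ (σq (Sum.inr l))) = 2 ∧
      (TL n).θ (s59i_cpDt (DQ n).ρ (σq (Sum.inr l))) = 1)
    -- the prime to be removed
    (j₀ : Fin m) (hq : (pr (Sum.inl j₀)).Prime) (hqp : pr (Sum.inl j₀) ≠ p)
    (Pq : ValuationSubring (AlgebraicClosure ℚ)) (hPq : Pq.LiesOverPrime (pr (Sum.inl j₀)))
    (hσq : s59q_IsTameGen (pr (Sum.inl j₀)) Pq (σq (Sum.inl j₀)))
    (hunrbar : ρbar.IsUnramifiedAt (pr (Sum.inl j₀))) :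
    s59i_UnrPt p N B a (pr (Sum.inl j₀)) := by
  classical
  -- the `ℤ_p`-structure of `R`
  letI : Algebra ℤ_[p] Bs.R := ((algebraMap 𝒪 Bs.R).comp (algebraMap ℤ_[p] 𝒪)).toAlgebra
  haveI : IsScalarTower ℤ_[p] 𝒪 Bs.R := IsScalarTower.of_algebraMap_eq (fun x => rfl)
  haveI : Module.Finite ℤ_[p] Bs.R := Module.Finite.trans 𝒪 Bs.R
  haveI := Bs.h𝔞
  have hloc𝒪R : ∀ t ∈ maximalIdeal 𝒪, algebraMap 𝒪 Bs.R t ∈ maximalIdeal Bs.R := fun t ht =>
    map_nonunit (algebraMap 𝒪 Bs.R) t ht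
  have hpR : ((p : ℕ) : Bs.R) ∈ maximalIdeal Bs.R := by
    have := hloc𝒪R _ hp𝒪
    rwa [map_natCast] at this
  -- the normalised basis of `ρR`
  obtain ⟨bRR, hbRR⟩ := @Fermat.Agent.Lib.S53.exists_basis_res 𝒪 _ _ ρbar Nd Bs.R _ _ _
    (ResidueField.map (algebraMap 𝒪 Bs.R)).toAlgebra
    Fermat.Agent.Lib.S53.residueField_map_compat Bs.ρR Bs.hresR
  have hMt : (fun g : Γℚ => (Nd.Mtil g).map (residue 𝒪)) = fun g => matOfRes ρbar Nd.b g := by
    funext g; exact Nd.hMtil g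
  have hspanbar' : ∀ Y : Matrix (Fin 2) (Fin 2) (ResidueField 𝒪), Y ∈
      Submodule.span (ResidueField 𝒪) (Set.range fun g : Γℚ => (Nd.Mtil g).map (residue 𝒪)) := by
    rw [hMt]; exact hspanbar
  have hspanR : ∀ Y : Matrix (Fin 2) (Fin 2) Bs.R, Y ∈ Submodule.span Bs.R
      (Set.range fun g : Γℚ => matOf Bs.ρR bRR g) := fun Y =>
    s59i_span_of_cong Nd.Mtil hspanbar' (algebraMap 𝒪 Bs.R) (fun g => matOf Bs.ρR bRR g)
      (fun g a b => hbRR g a b) Y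
  have hi2R : 2 * algebraMap 𝒪 Bs.R i2 = 1 := by
    rw [← map_ofNat (algebraMap 𝒪 Bs.R) 2, ← map_mul, hi2, map_one]
  -- locality
  have hloc𝒪 : ∀ n, ∀ t ∈ maximalIdeal 𝒪, algebraMap 𝒪 (TL n).T' t ∈ maximalIdeal (TL n).T' := by
    intro n t ht
    haveI := (TL n).hT'.isLocalHom
    exact map_nonunit (algebraMap 𝒪 (TL n).T') t ht
  have hθl : ∀ n, ∀ x ∈ maximalIdeal (DQ n).R, (TL n).θ x ∈ maximalIdeal (TL n).T' := by
    intro n x hx
    haveI : IsLocalHom ((TL n).θ : (DQ n).R →+* (TL n).T') :=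
      IsLocalHom.of_surjective _ (TL n).hθ
    exact map_nonunit ((TL n).θ : (DQ n).R →+* (TL n).T') x hx
  -- the bridge
  choose γ₀ hγ₀ h1 h2 h3 h4 using fun n => hbridge n (TL n).hT' (TL n).θ (TL n).hθ
  choose γ hγ hBr using fun n => s59u_ic_bridgeEqs_inst (DQ n) (bR n) (TL n).θ σq φq L P P'
    (γ₀ n) (hγ₀ n) (h1 n) (h2 n) (h3 n) (h4 n)
  have hcount : 3 * m + ((r + m + e) + e * 3) ≤ r + Fintype.card (s59q_ZIdx m e) := by
    rw [s59i_card_ZIdx]; omega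
  -- the map `T′ n → R`
  have hfloc : ∀ n, ∀ x ∈ maximalIdeal (TL n).T',
      (TL n).L0.ψ (C (algebraMap (TL n).T' (TL n).T x)) ∈ maximalIdeal Bs.R := by
    intro n x hx
    have h1 := (TL n).hlocT x hx
    have h2 : (C (algebraMap (TL n).T' (TL n).T x) : MvPowerSeries (s59q_ZIdx m e) (TL n).T) ∈
        maximalIdeal (MvPowerSeries (s59q_ZIdx m e) (TL n).T) := by
      rw [s59i_mem_maximalIdeal_iff_constantCoeff, MvPowerSeries.constantCoeff_C]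
      exact h1
    haveI : IsLocalHom (TL n).L0.ψ := IsLocalHom.of_surjective _ (TL n).L0.ψ_surjective
    exact map_nonunit (TL n).L0.ψ _ h2
  refine s59u_ic_FINA2 p N B a Bs.ϖ Bs.hϖ m e r hi2 L hcount Bs.R hpR Bs.R' Bs.M Bs.M' Bs.𝔞 Bs.h𝔞0 Bs.J
    Bs.hJ Bs.πR Bs.ρR Bs.hπa Bs.hfrob bRR hspanR (algebraMap 𝒪 Bs.R i2) hi2R
    (fun n => (TL n).T') (fun n => (TL n).T) hloc𝒪 (fun n => (TL n).hlocT)
    (fun n => (TL n).L0) (fun n => (TL n).L0') Bs.d Bs.d' (fun n => (TL n).hd)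
    (fun n => (TL n).hd') (fun n => (TL n).std) (fun n => (TL n).hstd) (fun n => (TL n).hstd')
    (fun n => (TL n).hW0) (fun n => (TL n).uu) (fun n => (TL n).huu) (fun n => (TL n).hgen)
    (fun n => (TL n).hstdX) (fun n => (TL n).hstdz)
    γ hγ (fun n => s59i_rhoM (DQ n) (bR n) (TL n).θ)
    (fun n t => s59q_frameU (TL n).T' (P t) t) (fun n t => s59q_frameU' (TL n).T' (P' t) t)
    (fun n t => s59q_frameU'_mul (P t) (P' t) (hP'P t) t)
    (fun j => σq (Sum.inl j)) (fun j => φq (Sum.inl j)) (fun l => σq (Sum.inr l))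
    (fun l => φq (Sum.inr l))
    hBr
    (fun j => pr (Sum.inl j)) hqB (fun l => pr (Sum.inr l)) hLu εB hεB
    ?_ ?_ ?_ ?_ ?_ ?_ ?_
    (fun n => (TL n).I1) (fun n => (TL n).hI1) (fun n => (TL n).hann1) ?_ ?_
    (fun n => (TL n).Iχ) (fun n => (TL n).hIχ) (fun n => (TL n).hannχ)
    Bs.ζ Bs.ζ' Bs.hζ Bs.hζq Bs.hζne Bs.hζm (fun n => (TL n).hrad) ?_ (fun n => (TL n).hC8)
    ?_ ?_ Bs.κ (fun n => (TL n).hκ) j₀ hq hqp Pq hPq ?_ hσq ?_
  · -- htameB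
    intro n j
    have h := congrArg ((((TL n).θ : (DQ n).R →+* (TL n).T').mapMatrix :
      Matrix (Fin 2) (Fin 2) (DQ n).R →+* Matrix (Fin 2) (Fin 2) (TL n).T')) (htame n (Sum.inl j))
    rw [map_mul, map_mul, map_pow] at h
    exact h
  · -- htameE
    intro n l
    have h := congrArg ((((TL n).θ : (DQ n).R →+* (TL n).T').mapMatrix :
      Matrix (Fin 2) (Fin 2) (DQ n).R →+* Matrix (Fin 2) (Fin 2) (TL n).T')) (htame n (Sum.inr l))
    rw [map_mul, map_mul, map_pow] at h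
    exact h
  · -- hdetB
    intro n j
    rw [s59i_rhoM_det, s59i_cpDt_eq_det (DQ n).ρ (bR n), hdetφ n (Sum.inl j), map_natCast]
  · -- hdetE
    intro n l
    rw [s59i_rhoM_det, s59i_cpDt_eq_det (DQ n).ρ (bR n), hdetφ n (Sum.inr l), map_natCast]
  · -- hresB
    intro n j
    exact s59i_res_halftrace (hloc𝒪 n) _ (Nd.Mtil (φq (Sum.inl j)))
      (s59i_rhoM_cong (DQ n) Nd (bR n) (hbR n) (TL n).θ (hθl n) (φq (Sum.inl j))) i2 (εB j)
      (hMB j)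
  · -- hunipE
    intro n l
    rw [s59i_rhoM_trace, s59i_rhoM_det]
    exact hunipE n l
  · -- hresE
    intro n l i j
    rw [s59i_Fm_eq_inst]
    exact s59f_Fm_entry_sub_mem (DQ n) Nd (bR n) (hbR n) (TL n).hT' (TL n).θ P P' hPP' hP'P
      (Sum.inr l) (φq (Sum.inr l)) (L l).M0 (hMres l) i j
  · -- h1tr
    intro n j
    rw [s59i_rhoM_trace]
    exact (TL n).h1tr j
  · -- h1det
    intro n j
    rw [s59i_rhoM_det]
    exact (TL n).h1det j
  · -- hχ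
    intro n 𝔮 h𝔮
    obtain ⟨h0, i, hi⟩ := (TL n).hχ 𝔮 h𝔮
    refine ⟨h0, i, fun j => ?_⟩
    rw [s59i_rhoM_trace, s59i_rhoM_det]
    exact hi j
  · -- hτ
    intro n g
    rw [Matrix.trace_fin_two, Matrix.map_apply, Matrix.map_apply, ← map_add, ← map_add, ← map_add,
      ← Matrix.trace_fin_two, s59i_rhoM_trace, (TL n).hτ g, s59i_cpTr_eq_trace Bs.ρR bRR]
  · -- hspan
    intro n Y
    refine s59i_span_of_cong Nd.Mtil hspanbar'
      ((((TL n).L0.ψ).comp ((C : (TL n).T →+* MvPowerSeries (s59q_ZIdx m e) (TL n).T).comp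
        (algebraMap (TL n).T' (TL n).T))).comp (algebraMap 𝒪 (TL n).T'))
      (fun g => (s59i_rhoM (DQ n) (bR n) (TL n).θ g).map fun x =>
        (TL n).L0.ψ (C (algebraMap (TL n).T' (TL n).T x))) ?_ Y
    intro g a b
    have h := hfloc n _ (s59i_rhoM_cong (DQ n) Nd (bR n) (hbR n) (TL n).θ (hθl n) g a b)
    rw [map_sub, map_sub, map_sub] at h
    exact h
  · -- hresq
    exact s59i_hresq_of_unram Nd hloc𝒪R Bs.ρR bRR hbRR _ hunrbar Pq hPq
  · -- htrq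
    exact s59i_trace_two_of_unip Bs.ρR bRR _ (Bs.hunipR j₀) Pq hPq _ hσq.1

end Fermat.Agent.Lib.S59
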