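/-
[IA-c] part H (helper3, prefix `s59u_ic_`): **the two-ring transfer of the `T`-side contract.**
`DQs` a deformation ring of helper6's type (no condition at the spectator primes), `DQ'` a deformation
ring of the type with UNIPOTENT inertia at the spectator primes, `κ : DQs.R ↠ DQ'.R` the canonical map
(helper4's `s59f_kappa_exists/_surjective/_trace`):

* `s59u_ic_kappa_det`       : `κ (cpDt DQs.ρ g) = cpDt DQ'.ρ g` (twin of `s59f_kappa_trace`);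
* `s59u_ic_TLevel_transfer` : `s59i_TLevel Bs σB DQ' n → s59i_TLevel Bs σB DQs n` (`θ := θ' ∘ κ`);
* `s59u_ic_unip_of_type`    : the traces/determinants of the inertia generators of the spectator primes
                              in the trace ring, from the type of `DQ'`.
-/
import Mathlib
import Fermat.Agent.Lib.S59.UIcG
import Fermat.Agent.Lib.S59.FLiftK

set_option autoImplicit false
set_option linter.unusedSectionVars false
set_option linter.unusedVariables false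
set_option linter.style.haveILetI false
set_option maxHeartbeats 1600000

noncomputable section

namespace Fermat.Agent.Lib.S59

open IsLocalRing MvPowerSeries CuspForm
open Fermat.Agent.Lib.S53 (matOf matOfRes NormData matOf_apply matOfRes_apply)
open Fermat.Agent.Lib.Deform (IsTestAlgebra)
open Fermat.Agent.Lib.S56

local notation "Γℚ" => (AlgebraicClosure ℚ ≃ₐ[ℚ] AlgebraicClosure ℚ)

section Kappa

variable {𝒪 : Type} [CommRing 𝒪] [IsDomain 𝒪] [IsDiscreteValuationRing 𝒪]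
  [IsAdicComplete (maximalIdeal 𝒪) 𝒪]
  {ρbar : ResidualGaloisRep (ResidueField 𝒪)}
  {𝒟s 𝒟' : ∀ ⦃A : Type⦄ [CommRing A] [IsLocalRing A] [Algebra 𝒪 A], GaloisRepAdic A → Prop}
  (DQ' : GaloisRep.DeformationRingData 𝒪 ρbar 𝒟') (DQs : GaloisRep.DeformationRingData 𝒪 ρbar 𝒟s)

theorem s59u_ic_kappa_det (κ : DQs.R →ₐ[𝒪] DQ'.R) (hκ : IsLocalHom (κ : DQs.R →+* DQ'.R))
    (e : (DQs.ρ.baseChangeAlong (κ : DQs.R →+* DQ'.R) hκ).IsEquiv DQ'.ρ) (g : Γℚ) :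
    κ (s59i_cpDt DQs.ρ g) = s59i_cpDt DQ'.ρ g := by
  have h1 := s59e_cpDt_map (κ : DQs.R →+* DQ'.R) hκ DQs.ρ g
  rw [← RingHom.coe_coe, ← h1]
  obtain ⟨e'⟩ := e
  unfold s59i_cpDt
  rw [Fermat.Agent.S54.charpoly_eq_of_equiv e']

end Kappa

section Transfer

variable {𝒪 : Type} [CommRing 𝒪] [IsDomain 𝒪] [IsDiscreteValuationRing 𝒪]
  [IsAdicComplete (maximalIdeal 𝒪) 𝒪]
  {N : ℕ} [NeZero N] {B : Finset ℕ} {a : ℕ → ℤ} {m r : ℕ} {σ : Type}
  {ρbar : ResidualGaloisRep (ResidueField 𝒪)} {qB : Fin m → ℕ}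
  (Bs : s59i_TBase 𝒪 N B a m r σ ρbar qB) (σB : Fin m → Γℚ)
  {𝒟s 𝒟' : ∀ ⦃A : Type⦄ [CommRing A] [IsLocalRing A] [Algebra 𝒪 A], GaloisRepAdic A → Prop}
  (DQ' : GaloisRep.DeformationRingData 𝒪 ρbar 𝒟') (DQs : GaloisRep.DeformationRingData 𝒪 ρbar 𝒟s)
  (κ : DQs.R →ₐ[𝒪] DQ'.R) (hκs : Function.Surjective κ)
  (htr : ∀ g, κ (s59i_cpTr DQs.ρ g) = s59i_cpTr DQ'.ρ g)
  (hdt : ∀ g, κ (s59i_cpDt DQs.ρ g) = s59i_cpDt DQ'.ρ g)

/-- **the transfer of the `T`-side contract along `κ : DQs.R ↠ DQ'.R`.** -/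
def s59u_ic_TLevel_transfer {n : ℕ} (TL : s59i_TLevel Bs σB DQ' n) : s59i_TLevel Bs σB DQs n where
  T' := TL.T'
  iT'1 := TL.iT'1
  iT'2 := TL.iT'2
  iT'3 := TL.iT'3
  iT'4 := TL.iT'4
  iT'5 := TL.iT'5
  hT' := TL.hT'
  T := TL.T
  iT1 := TL.iT1
  iT2 := TL.iT2
  iT4 := TL.iT4
  iT5 := TL.iT5
  iT6 := TL.iT6
  iT7 := TL.iT7
  iT8 := TL.iT8
  hlocT := TL.hlocT
  θ := TL.θ.comp κ
  hθ := TL.hθ.comp hκs
  L0 := TL.L0
  L0' := TL.L0'
  hd := TL.hd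
  hd' := TL.hd'
  std := TL.std
  hstd := TL.hstd
  hstd' := TL.hstd'
  hW0 := TL.hW0
  uu := TL.uu
  huu := TL.huu
  hgen := TL.hgen
  hstdX := TL.hstdX
  hstdz := TL.hstdz
  I1 := TL.I1
  hI1 := TL.hI1
  hann1 := TL.hann1
  h1tr := fun j => by
    rw [AlgHom.comp_apply, htr]; exact TL.h1tr j
  h1det := fun j => by
    rw [AlgHom.comp_apply, hdt]; exact TL.h1det j
  Iχ := TL.Iχ
  hIχ := TL.hIχ
  hannχ := TL.hannχ
  hrad := TL.hrad
  hχ := fun 𝔮 h𝔮 => by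
    obtain ⟨h0, i, hi⟩ := TL.hχ 𝔮 h𝔮
    refine ⟨h0, i, fun j => ?_⟩
    rw [AlgHom.comp_apply, AlgHom.comp_apply, htr, hdt]
    exact hi j
  hC8 := TL.hC8
  hτ := fun g => by
    rw [AlgHom.comp_apply, htr]; exact TL.hτ g
  hκ := TL.hκ

theorem s59u_ic_TLevel_transfer_theta {n : ℕ} (TL : s59i_TLevel Bs σB DQ' n) (x : DQs.R) :
    (s59u_ic_TLevel_transfer Bs σB DQ' DQs κ hκs htr hdt TL).θ x = TL.θ (κ x) := rfl

end Transfer

end Fermat.Agent.Lib.S59
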