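/-
[IA-c] part I (helper3, prefix `s59u_ic_`): **`s59u_ic_FINA4`** = helper4's `s59i_FINA4` (LFinB5) for
spectator primes with GENERIC smooth local models `L : Fin e → s59f_LocBr 𝒪 i2`:
the `R`-side is helper4's `s59f_inst_flatG` (general residual Frobenius at the spectator primes) on the
rings `DQs` of helper6's type; the `T`-side contract is asked for the rings `DQ'` of the type with
UNIPOTENT inertia at the spectator primes `Ed` (NOT at the primes of `Bd`), and transferred along the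
canonical surjections `κs : DQs.R ↠ DQ'.R` (two-ring trick of helper4's `s59f_FLR_R`).
-/
import Mathlib
import Fermat.Agent.Lib.S59.UIcH
import Fermat.Agent.Lib.S59.LFinB5
import Fermat.Agent.Lib.S59.QExistDQ
import Fermat.Agent.Lib.S56.AStable

set_option autoImplicit false
set_option linter.unusedSectionVars false
set_option linter.unusedVariables false
set_option linter.style.haveILetI false
set_option maxHeartbeats 3200000

noncomputable section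

namespace Fermat.Agent.Lib.S59

open IsLocalRing CuspForm Polynomial ExtCitation
open Fermat.Agent.Lib.S53 (matOf matOfRes NormData matOf_apply matOfRes_apply)
open Fermat.Agent.Lib.Deform (IsTestAlgebra)
open Fermat.Agent.Lib.S56

local notation "Γℚ" => (AlgebraicClosure ℚ ≃ₐ[ℚ] AlgebraicClosure ℚ)

/-- **FIN-A with spectator primes of generic smooth local type, the `R`-side discharged.** -/
theorem s59u_ic_FINA4
    (p : ℕ) [hp : Fact p.Prime] (hp2 : p ≠ 2) (N : ℕ) [NeZero N] (B : Finset ℕ) (a : ℕ → ℤ)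
    {𝒪 : Type} [CommRing 𝒪] [IsDomain 𝒪] [IsDiscreteValuationRing 𝒪]
    [IsAdicComplete (maximalIdeal 𝒪) 𝒪] [Finite (ResidueField 𝒪)]
    [Algebra ℤ_[p] 𝒪] [Module.Finite ℤ_[p] 𝒪] (hp𝒪 : ((p : ℕ) : 𝒪) ∈ maximalIdeal 𝒪)
    -- the binders of `s59f_inst_flatG`
    (ρbar : ResidualGaloisRep (ResidueField 𝒪))
    (habs : ρbar.IsAbsolutelyIrreducible)
    (hdet : (GaloisRepAdic.ofResidualGaloisRep ρbar).DetIsCyclotomic p)
    (hsplit : ∀ σ : Γℚ, ∃ α β : ResidueField 𝒪,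
      LinearMap.charpoly (ρbar.ρ σ) = (X - C α) * (X - C β))
    (hTW : ∀ (K : Type) [Field K] [Algebra (ResidueField 𝒪) K] (G : Subgroup Γℚ), G.index = 2 →
      ∀ V : Submodule K (ρbar.baseChange K).V,
        (∀ σ ∈ G, ∀ x ∈ V, (ρbar.baseChange K).ρ σ x ∈ V) → V = ⊥ ∨ V = ⊤)
    (S Smin Bd Ed : Finset ℕ) (hpSmin : p ∈ Smin) (hSmin : Smin ⊆ S) (hBS : Bd ⊆ S) (hES : Ed ⊆ S)
    (hBprime : ∀ q ∈ Bd, q.Prime) (hEprime : ∀ q ∈ Ed, q.Prime)
    (hmin : ∀ q : ℕ, q.Prime → q ≠ p → (q ∈ Smin ↔ ¬ ρbar.IsUnramifiedAt q))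
    (hBunr : ∀ q ∈ Bd, q ≠ p ∧ ρbar.IsUnramifiedAt q)
    (hEunr : ∀ q ∈ Ed, q ≠ p ∧ ρbar.IsUnramifiedAt q)
    (hBE : Disjoint Bd Ed)
    (hcen : ∀ q : Nat.Primes, (q : ℕ) ∈ Bd → s59q_CentralAt ρbar q)
    (Nd : NormData ρbar) (m e : ℕ) (pr : Fin m ⊕ Fin e → Nat.Primes)
    (hprB : Finset.univ.image (fun j : Fin m => (pr (Sum.inl j) : ℕ)) = Bd)
    (hprE : Finset.univ.image (fun l : Fin e => (pr (Sum.inr l) : ℕ)) = Ed)
    (hBinj : Function.Injective fun j : Fin m => (pr (Sum.inl j) : ℕ))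
    (hEinj : Function.Injective fun l : Fin e => (pr (Sum.inr l) : ℕ))
    (σq φq : Fin m ⊕ Fin e → Γℚ)
    (hσq : ∀ t, s59q_IsTameGen (pr t) (primeLocalPlace (pr t)) (σq t))
    (hφq : ∀ t, (primeLocalPlace (pr t)).IsFrobeniusAt (φq t) (pr t))
    (i2 : 𝒪) (hi2 : 2 * i2 = 1)
    (P P' : Fin m ⊕ Fin e → Matrix (Fin 2) (Fin 2) 𝒪) (hPP' : ∀ t, P t * P' t = 1)
    (hP'P : ∀ t, P' t * P t = 1)
    -- the local models at the spectator primes
    (L : Fin e → s59f_LocBr 𝒪 i2)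
    (hMres : ∀ l, (P' (Sum.inr l)).map (residue 𝒪) * matOfRes ρbar Nd.b (φq (Sum.inr l)) *
      (P (Sum.inr l)).map (residue 𝒪) = ((L l).M0).map (residue 𝒪))
    (hLu : ∀ l, (L l).u = (((pr (Sum.inr l) : ℕ) : ℕ) : 𝒪))
    (hqB : ∀ j, (((pr (Sum.inl j) : ℕ) : ℕ) : 𝒪) - 1 ∈ maximalIdeal 𝒪)
    -- the `T`-side
    (HT : ∀ r : ℕ, 3 * m + e ≤ r →
      (∀ qv : Fin r → ℕ, Nonempty (GaloisRep.DeformationRingData 𝒪 ρbar (fun _A _ _ _ ρ =>
        GaloisRep.flatCondition 𝒪 p (Smin ∪ (Bd ∪ Ed) ∪ Finset.univ.image qv) ρ ∧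
          ∀ q ∈ Smin ∪ Ed, q.Prime → q ≠ p → ρ.IsUnipotentOnInertiaAt q))) ∧
      ∃ Bs : s59i_TBase 𝒪 N B a m r (s59q_ZIdx m e) ρbar (fun j => (pr (Sum.inl j) : ℕ)),
        ∀ (n : ℕ) (qv : Fin r → ℕ), Function.Injective qv →
          (∀ i, (qv i).Prime ∧ qv i ∉ S ∧ p ^ (n + 1) ∣ qv i - 1) →
          (∀ i, ∀ A : ValuationSubring (AlgebraicClosure ℚ), A.LiesOverPrime (qv i) →
            ∀ φ : Γℚ, A.IsFrobeniusAt φ (qv i) →
              ∃ α β : ResidueField 𝒪, α ≠ β ∧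
                LinearMap.charpoly (ρbar.ρ φ) = (X - C α) * (X - C β)) →
          ∀ DQ : GaloisRep.DeformationRingData 𝒪 ρbar (fun _A _ _ _ ρ =>
            GaloisRep.flatCondition 𝒪 p (Smin ∪ (Bd ∪ Ed) ∪ Finset.univ.image qv) ρ ∧
              ∀ q ∈ Smin ∪ Ed, q.Prime → q ≠ p → ρ.IsUnipotentOnInertiaAt q),
            Nonempty (s59i_TLevel Bs (fun j => σq (Sum.inl j)) DQ n))
    (j₀ : Fin m) :
    s59i_UnrPt p N B a (pr (Sum.inl j₀) : ℕ) := by
  classical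
  obtain ⟨-, -, hmemB, hmemE, -⟩ := s59q_enum_facts Bd Ed pr hprB hprE hBinj hEinj
  obtain ⟨r, hr, H⟩ := s59f_inst_flatG p hp2 hp𝒪 ρbar habs hdet hsplit hTW S Smin Bd Ed hpSmin
    hSmin hBS hES hBprime hEprime hmin hBunr hEunr hBE hcen Nd m e pr hprB hprE hBinj hEinj σq φq
    hσq hφq i2 hi2 P P' hPP' hP'P (fun l => (L l).lam) (fun l => (L l).sh)
    (fun l => ((L l).M0).map (residue 𝒪)) (fun l => (L l).fp) hMres (fun l => (L l).hlam)
    (fun l k => (L l).hsh k) (fun l => (L l).hfp)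
  obtain ⟨hDQ, Bs, HL⟩ := HT r hr
  choose qv hqv1 hqv2 hqv3 hqv4 using H
  -- unramifiedness at the framed primes
  have hunr : ∀ t, ((pr t : ℕ) ≠ p) ∧ ρbar.IsUnramifiedAt (pr t) := by
    rintro (j | l)
    · exact hBunr _ (hmemB j)
    · exact hEunr _ (hmemE l)
  -- the deformation types
  let 𝒟s : ℕ → ∀ ⦃A : Type⦄ [CommRing A] [IsLocalRing A] [Algebra 𝒪 A], GaloisRepAdic A → Prop :=
    fun n _A _ _ _ ρ =>
      GaloisRep.flatCondition 𝒪 p (Smin ∪ (Bd ∪ Ed) ∪ Finset.univ.image (qv n)) ρ ∧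
        ∀ q ∈ Smin, q.Prime → q ≠ p → ρ.IsUnipotentOnInertiaAt q
  let 𝒟' : ℕ → ∀ ⦃A : Type⦄ [CommRing A] [IsLocalRing A] [Algebra 𝒪 A], GaloisRepAdic A → Prop :=
    fun n _A _ _ _ ρ =>
      GaloisRep.flatCondition 𝒪 p (Smin ∪ (Bd ∪ Ed) ∪ Finset.univ.image (qv n)) ρ ∧
        ∀ q ∈ Smin ∪ Ed, q.Prime → q ≠ p → ρ.IsUnipotentOnInertiaAt q
  let DQ' : ∀ n, GaloisRep.DeformationRingData 𝒪 ρbar (𝒟' n) := fun n => (hDQ (qv n)).some
  have hunrbar : ∀ n (q : ℕ), q.Prime →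
      q ∉ Smin ∪ (Bd ∪ Ed) ∪ Finset.univ.image (qv n) → ρbar.IsUnramifiedAt q := by
    intro n q hq hqS
    have hqSmin : q ∉ Smin := fun h =>
      hqS (Finset.mem_union_left _ (Finset.mem_union_left _ h))
    have hne : q ≠ p := fun h => hqSmin (h ▸ hpSmin)
    by_contra hram
    exact hqSmin ((hmin q hq hne).2 hram)
  have h𝒟s : ∀ n, 𝒟s n (DQ' n).ρ := fun n =>
    ⟨(DQ' n).isOfType.1, fun q hq => (DQ' n).isOfType.2 q (Finset.mem_union_left _ hq)⟩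
  have hDQs : ∀ n, Nonempty (GaloisRep.DeformationRingData 𝒪 ρbar (𝒟s n)) := fun n =>
    s59q_exists_DQ_flat p hp2 hp𝒪 ρbar habs _ _ Smin (Finset.Subset.refl _)
      (Finset.mem_union_left _ (Finset.mem_union_left _ hpSmin)) (hunrbar n) inferInstance
      (DQ' n).residue_surjective (DQ' n).ρ (h𝒟s n) (DQ' n).residual_isEquiv
  let DQs : ∀ n, GaloisRep.DeformationRingData 𝒪 ρbar (𝒟s n) := fun n => (hDQs n).some
  -- the canonical maps
  choose κs hκs eκs using fun n => s59f_kappa_exists (DQ' n) (DQs n) (h𝒟s n)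
  have hκs_surj : ∀ n, Function.Surjective (κs n) := fun n =>
    s59f_kappa_surjective (DQ' n) (DQs n) Nd p (s56a_tangentStable_flat 𝒪 p _ _) (κs n) (hκs n)
      (eκs n)
  choose bR hbR using fun n => s56a_exists_basisR (DQs n) Nd
  choose b' hb' using fun n => s56a_exists_basisR (DQ' n) Nd
  have hTD : ∀ n t, matOf (DQs n).ρ (bR n) (φq t) * matOf (DQs n).ρ (bR n) (σq t) =
      matOf (DQs n).ρ (bR n) (σq t) ^ (pr t : ℕ) * matOf (DQs n).ρ (bR n) (φq t) ∧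
      (matOf (DQs n).ρ (bR n) (φq t)).det = (((pr t : ℕ) : ℕ) : (DQs n).R) := fun n t =>
    s59i_DQ_tame_det (DQs n) (DQs n).isOfType.1.1 (bR n) (pr t) (pr t).prop (hunr t).1 (hunr t).2
      (primeLocalPlace (pr t)) (s56z_place_liesOver (pr t)) (σq t) (φq t) (hσq t).1 (hφq t)
  -- the residual shapes
  have hdet1 : ∀ j, LinearMap.det (ρbar.ρ (φq (Sum.inl j))) = 1 := by
    intro j
    have h1 := s59e_det_frob (GaloisRepAdic.ofResidualGaloisRep ρbar) hdet (pr (Sum.inl j)).prop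
      (hunr (Sum.inl j)).1 (primeLocalPlace (pr (Sum.inl j))) (s56z_place_liesOver _)
      (φq (Sum.inl j)) (hφq (Sum.inl j))
    have h2 : (((pr (Sum.inl j) : ℕ) : ℕ) : ResidueField 𝒪) = 1 := by
      have := hqB j
      rw [← residue_eq_zero_iff, map_sub, map_natCast, map_one, sub_eq_zero] at this
      exact this
    rw [← h2]
    exact h1
  choose εB hεB hMB using fun j => s59i_hMB_of_hscal Nd i2 hi2 (φq (Sum.inl j))
    (s59q_scalar_of_central ρbar (pr (Sum.inl j)) (hcen _ (hmemB j)) Nd.b _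
      (hφq (Sum.inl j)).mem_decompositionSubgroup) (hdet1 j)
  have hspanbar : ∀ Y : Matrix (Fin 2) (Fin 2) (ResidueField 𝒪), Y ∈
      Submodule.span (ResidueField 𝒪) (Set.range fun g : Γℚ => matOfRes ρbar Nd.b g) :=
    fun Y => s59u_span_matOfRes ρbar habs Nd.b Y
  let TL' : ∀ n, s59i_TLevel Bs (fun j => σq (Sum.inl j)) (DQ' n) n := fun n =>
    (HL n (qv n) (hqv1 n) (hqv2 n) (hqv3 n) (DQ' n)).some
  let TL : ∀ n, s59i_TLevel Bs (fun j => σq (Sum.inl j)) (DQs n) n := fun n =>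
    s59u_ic_TLevel_transfer Bs (fun j => σq (Sum.inl j)) (DQ' n) (DQs n) (κs n) (hκs_surj n)
      (fun g => s59f_kappa_trace (DQ' n) (DQs n) (κs n) (hκs n) (eκs n) g)
      (fun g => s59u_ic_kappa_det (DQ' n) (DQs n) (κs n) (hκs n) (eκs n) g) (TL' n)
  have hunipE : ∀ n l, (TL n).θ (s59i_cpTr (DQs n).ρ (σq (Sum.inr l))) = 2 ∧
      (TL n).θ (s59i_cpDt (DQs n).ρ (σq (Sum.inr l))) = 1 := by
    intro n l
    have hmemSu : (pr (Sum.inr l) : ℕ) ∈ Smin ∪ Ed := Finset.mem_union_right _ (hmemE l)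
    have hun : (DQ' n).ρ.IsUnipotentOnInertiaAt (pr (Sum.inr l)) :=
      (DQ' n).isOfType.2 _ hmemSu (pr (Sum.inr l)).prop (hunr (Sum.inr l)).1
    constructor
    · show (TL' n).θ (κs n (s59i_cpTr (DQs n).ρ (σq (Sum.inr l)))) = 2
      rw [s59f_kappa_trace (DQ' n) (DQs n) (κs n) (hκs n) (eκs n), s59i_cpTr_eq_trace _ (b' n),
        s59i_trace_two_of_unip (DQ' n).ρ (b' n) _ hun (primeLocalPlace (pr (Sum.inr l)))
          (s56z_place_liesOver _) (σq (Sum.inr l)) (hσq (Sum.inr l)).1, map_ofNat]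
    · show (TL' n).θ (κs n (s59i_cpDt (DQs n).ρ (σq (Sum.inr l)))) = 1
      rw [s59u_ic_kappa_det (DQ' n) (DQs n) (κs n) (hκs n) (eκs n), s59i_cpDt_eq_det _ (b' n),
        matOf_apply, LinearMap.det_toMatrix,
        s59e_det_inertia (DQ' n).ρ (DQ' n).isOfType.1.1 (pr (Sum.inr l)).prop (hunr (Sum.inr l)).1
          (primeLocalPlace (pr (Sum.inr l))) (s56z_place_liesOver _) (σq (Sum.inr l))
          (hσq (Sum.inr l)).1, map_one]
  exact s59u_ic_FINA3 p N B a hp𝒪 ρbar Nd hspanbar m e r hi2 L (fun t => (pr t : ℕ)) σq φq P P'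
    hPP' hP'P hLu hqB εB hεB hMB hMres 𝒟s DQs bR hbR (fun n t => (hTD n t).1)
    (fun n t => (hTD n t).2)
    (fun n {T} _ _ _ _ _ hT θ hθ => hqv4 n (DQs n) (bR n) (hbR n) hT θ hθ)
    Bs TL hunipE j₀ (pr (Sum.inl j₀)).prop (hunr (Sum.inl j₀)).1 (primeLocalPlace (pr (Sum.inl j₀)))
    (s56z_place_liesOver _) (hσq (Sum.inl j₀)) (hunr (Sum.inl j₀)).2

end Fermat.Agent.Lib.S59
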