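/-
[IA-c], STRICT twin, part M (helper6, prefix `s59q_is_`): **[IA′-core]_W, STRICT (`p ∥ N`, tres ramifie), EVEN LEVEL, WITH SPECTATOR
PRIMES OF LEVEL-RAISING TYPE `q ≡ −1 (p)`** (case (c) of Graph v3.8 at `(p, q) = (3, 2)`, strict half).

* `s59q_is_IAcoreW_pt`   : the pointwise assembly (twin of helper3's `s59u_ic_IAcoreW_pt`) for the data `s59u_ic_RData`
                           (FIN-A = `s59q_is_FINA4`, strict-ordinary type, unipotent at `Smin ∪ Ed`);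
* `s59q_is_RPkgW`        : the `R`-side package (`s59u_ic_WR`) at the level `N` with `p ∣ N`, spectator set `Ed`;
* `s59q_is_IAcoreW_even` : `R`-side, `T`-side (`s59q_is_TPkgW`), FIN-B (`s59q_FinBSE`).
Scripted copy of UIcM.lean.
-/
import Mathlib
import Fermat.Agent.Lib.S59.E3IAflatE
import Fermat.Agent.Lib.S59.UIcM
import Fermat.Agent.Lib.S59.QIsI
import Fermat.Agent.Lib.S59.QIsL
import Fermat.Agent.Lib.S59.Q3SCore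

set_option autoImplicit false
set_option linter.unusedSectionVars false
set_option linter.unusedVariables false
set_option linter.style.haveILetI false
set_option maxHeartbeats 1600000

noncomputable section

namespace Fermat.Agent.Lib.S59

open IsLocalRing CuspForm Polynomial ExtCitation
open WeierstrassCurve WeierstrassCurve.Affine WeierstrassCurve.Affine.Point
open Fermat.Agent.Lib.S53 (matOf matOfRes NormData)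
open Fermat.Agent.Lib.S44

local notation "Γℚ" => (AlgebraicClosure ℚ ≃ₐ[ℚ] AlgebraicClosure ℚ)

/-- **[IA′-core] for `W` at ONE tuple, for the data `s59u_ic_RData`** (`R`-side datum at the level `N'`,
`T`-side at the level `N`). -/
theorem s59q_is_IAcoreW_pt (p : ℕ) [Fact p.Prime] (hp2 : p ≠ 2) (W : WeierstrassCurve ℤ) (hΔ : W.Δ ≠ 0)
    (N N' : ℕ) [NeZero N] (Bd B : Finset ℕ) (H : s59q_IAHypSE W p N Bd B)
    (HR : ∀ (𝒪 : Type) [CommRing 𝒪] [IsDomain 𝒪] [IsDiscreteValuationRing 𝒪]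
      [IsAdicComplete (maximalIdeal 𝒪) 𝒪] [Finite (ResidueField 𝒪)] [CharZero 𝒪]
      [Algebra ℤ_[p] 𝒪] [Module.Finite ℤ_[p] 𝒪]
      (hp𝒪 : ((p : ℕ) : 𝒪) ∈ maximalIdeal 𝒪)
      (_ : ∀ a b : ℤ, ∃ α β : ResidueField 𝒪,
        α + β = (a : ResidueField 𝒪) ∧ α * β = (b : ResidueField 𝒪)),
      Nonempty (s59u_ic_RData p N' (s59i_rhobarW W p hΔ 𝒪 hp𝒪) B Bd))
    (HT : ∀ (𝒪 : Type) [CommRing 𝒪] [IsDomain 𝒪] [IsDiscreteValuationRing 𝒪]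
      [IsAdicComplete (maximalIdeal 𝒪) 𝒪] [Finite (ResidueField 𝒪)] [CharZero 𝒪]
      [Algebra ℤ_[p] 𝒪] [Module.Finite ℤ_[p] 𝒪]
      (hp𝒪 : ((p : ℕ) : 𝒪) ∈ maximalIdeal 𝒪)
      (_ : ∀ a b : ℤ, ∃ α β : ResidueField 𝒪,
        α + β = (a : ResidueField 𝒪) ∧ α * β = (b : ResidueField 𝒪))
      (v : ℕ) (_ : ∀ q ∈ Bd, ¬ p ^ (v + 1) ∣ q - 1) (_ : ∃ ζ : 𝒪, IsPrimitiveRoot ζ (p ^ v))
      (Rd : s59u_ic_RData p N' (s59i_rhobarW W p hΔ 𝒪 hp𝒪) B Bd),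
      ∀ r : ℕ, 3 * Rd.m + Rd.e ≤ r →
        (∀ qv : Fin r → ℕ, Nonempty (GaloisRep.DeformationRingData 𝒪 (s59i_rhobarW W p hΔ 𝒪 hp𝒪)
          (fun _A _ _ _ ρ =>
            GaloisRep.strictOrdinaryCondition 𝒪 p (Rd.Smin ∪ (Bd ∪ Rd.Ed) ∪ Finset.univ.image qv) ρ ∧
              ∀ q ∈ Rd.Smin ∪ Rd.Ed, q.Prime → q ≠ p → ρ.IsUnipotentOnInertiaAt q))) ∧
        ∃ Bs : s59i_TBase 𝒪 N B (fun ℓ => W.apOfModel ℓ) Rd.m r (s59q_ZIdx Rd.m Rd.e)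
            (s59i_rhobarW W p hΔ 𝒪 hp𝒪) (fun j => (Rd.pr (Sum.inl j) : ℕ)),
          ∀ (n : ℕ) (qv : Fin r → ℕ), Function.Injective qv →
            (∀ i, (qv i).Prime ∧ qv i ∉ B ∧ p ^ (n + 1) ∣ qv i - 1) →
            (∀ i, ∀ A : ValuationSubring (AlgebraicClosure ℚ), A.LiesOverPrime (qv i) →
              ∀ φ : Γℚ, A.IsFrobeniusAt φ (qv i) →
                ∃ α β : ResidueField 𝒪, α ≠ β ∧
                  LinearMap.charpoly ((s59i_rhobarW W p hΔ 𝒪 hp𝒪).ρ φ) = (X - C α) * (X - C β)) →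
            ∀ DQ : GaloisRep.DeformationRingData 𝒪 (s59i_rhobarW W p hΔ 𝒪 hp𝒪) (fun _A _ _ _ ρ =>
              GaloisRep.strictOrdinaryCondition 𝒪 p (Rd.Smin ∪ (Bd ∪ Rd.Ed) ∪ Finset.univ.image qv) ρ ∧
                ∀ q ∈ Rd.Smin ∪ Rd.Ed, q.Prime → q ≠ p → ρ.IsUnipotentOnInertiaAt q),
              Nonempty (s59i_TLevel Bs (fun j => Rd.σq (Sum.inl j)) DQ n))
    (HB : (∃ q ∈ Bd, s59i_UnrPt p N B (fun ℓ => W.apOfModel ℓ) q) →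
      ∃ q ∈ Bd, s44i_LevelOcc (N / q) p (fun ℓ => W.apOfModel ℓ) B) :
    ∃ q ∈ Bd, s44i_LevelOcc (N / q) p (fun ℓ => W.apOfModel ℓ) B := by
  classical
  have hpp : p.Prime := (inferInstance : Fact p.Prime).out
  -- the exponent of the roots of unity
  set v : ℕ := Bd.sup id with hv
  have hvq : ∀ q ∈ Bd, ¬ p ^ (v + 1) ∣ q - 1 := by
    intro q hq hd
    have hqv : q ≤ v := Finset.le_sup (f := id) hq
    have hq2 := (H.hBd q hq).1.two_le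
    have h1 : p ^ (v + 1) ≤ q - 1 := Nat.le_of_dvd (by omega) hd
    have h2 : v + 1 < p ^ (v + 1) := Nat.lt_pow_self hpp.one_lt
    omega
  -- the coefficient ring
  obtain ⟨𝒪, i1, i2, i3, i4, i5, i6, i7, i8, i9, hp𝒪, hζ, hsplit⟩ :=
    s59q_exists_coeffRing_padic p (p ^ v) (pow_pos hpp.pos v)
  -- the two packages
  obtain ⟨Rd⟩ := HR 𝒪 hp𝒪 hsplit
  have HT' := HT 𝒪 hp𝒪 hsplit v hvq hζ Rd
  -- an index in `Bd`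
  have hm : 0 < Rd.m := by
    obtain ⟨q, hq⟩ := H.hne
    have hq' : q ∈ Finset.univ.image (fun j : Fin Rd.m => (Rd.pr (Sum.inl j) : ℕ)) :=
      (Finset.ext_iff.mp Rd.hprB _).mpr hq
    rw [Finset.mem_image] at hq'
    obtain ⟨j, -, -⟩ := hq'
    exact j.pos
  have hU := s59q_is_FINA4 p hp2 N B (fun ℓ => W.apOfModel ℓ) hp𝒪
    (s59i_rhobarW W p hΔ 𝒪 hp𝒪) Rd.habs Rd.hdet Rd.hsplit Rd.hTW B Rd.Smin Bd Rd.Ed Rd.hpSmin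
    Rd.hSmin Rd.hBS Rd.hES Rd.hBprime Rd.hEprime Rd.hmin Rd.hBunr Rd.hEunr Rd.hBE Rd.hcen Rd.Nd
    Rd.m Rd.e Rd.pr Rd.hprB Rd.hprE Rd.hBinj Rd.hEinj Rd.σq Rd.φq Rd.hσq Rd.hφq Rd.i2 Rd.hi2
    Rd.P Rd.P' Rd.hPP' Rd.hP'P Rd.L Rd.hMres Rd.hLu Rd.hqB HT' ⟨0, hm⟩
  have hmem : ((Rd.pr (Sum.inl ⟨0, hm⟩) : ℕ)) ∈ Bd := by
    have h1 : ((Rd.pr (Sum.inl ⟨0, hm⟩) : ℕ)) ∈
        Finset.univ.image (fun j : Fin Rd.m => (Rd.pr (Sum.inl j) : ℕ)) :=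
      Finset.mem_image_of_mem (fun j : Fin Rd.m => (Rd.pr (Sum.inl j) : ℕ))
        (Finset.mem_univ (⟨0, hm⟩ : Fin Rd.m))
    exact (Finset.ext_iff.mp Rd.hprB _).mp h1
  exact HB ⟨_, hmem, hU⟩

section RPkg

variable (W : WeierstrassCurve ℤ) {p : ℕ} [hpP : Fact p.Prime] (hΔ : W.Δ ≠ 0)
  {𝒪 : Type} [CommRing 𝒪] [IsDomain 𝒪] [IsDiscreteValuationRing 𝒪]
  [IsAdicComplete (maximalIdeal 𝒪) 𝒪] [Finite (ResidueField 𝒪)] [CharZero 𝒪] [Algebra ℤ_[p] 𝒪]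
  (hp𝒪 : ((p : ℕ) : 𝒪) ∈ maximalIdeal 𝒪)

/-- **the `R`-side package at the level `N`, spectator set `Ed`** (every other prime `≠ p` of `N` outside
`Bd` is ramified). -/
theorem s59q_is_RPkgW (hp35 : p = 3 ∨ p = 5) (N : ℕ) (Bd B : Finset ℕ)
    (H : s59q_IAHypSE W p N Bd B) (Ed : Finset ℕ)
    (hEd : ∀ q ∈ Ed, q.Prime ∧ q ≠ p ∧ q ∉ Bd ∧ q ∣ N ∧ s59_Unr W p q ∧ ¬ p ∣ q - 1 ∧ p ∣ q + 1)
    (hE1 : ∀ q : Nat.Primes, (q : ℕ) ∈ Ed → ∃ φ : Γℚ, (primeLocalPlace q).IsFrobeniusAt φ q ∧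
      ∃ ε : 𝒪, (ε = 1 ∨ ε = -1) ∧ LinearMap.charpoly ((s59q_WRhobar W hΔ hp𝒪).ρ φ) =
        (X - C (residue 𝒪 (ε * ((q : ℕ) : 𝒪)))) * (X - C (residue 𝒪 ε)))
    (hram : ∀ ℓ : ℕ, ℓ.Prime → ℓ ≠ p → ℓ ∣ N → ℓ ∉ Bd → ℓ ∉ Ed → ¬ s59_Unr W p ℓ)
    (hsplitℤ : ∀ a b : ℤ, ∃ α β : ResidueField 𝒪,
      α + β = (a : ResidueField 𝒪) ∧ α * β = (b : ResidueField 𝒪)) :
    Nonempty (s59u_ic_RData p N (s59i_rhobarW W p hΔ 𝒪 hp𝒪) B Bd) := by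
  classical
  have hp2 : p ≠ 2 := s59q_W_p_ne_two hp35
  have hpB : p ∈ B := H.hB1 p hpP.out (Dvd.intro_left N rfl)
  have hB2 : ∀ r : ℕ, r.Prime → (r : ℤ) ∣ W.Δ → r ∈ B := fun r hr hd =>
    H.hB2 r hr (fun hg => hg hd)
  refine s59u_ic_WR W hΔ hp𝒪 hp35 H.hss H.hirr hsplitℤ N Bd B hpB hB2 ?_ Ed ?_ hE1 ?_
  · intro q hq
    obtain ⟨h1, h2, h3, h4, h5, h6⟩ := H.hBd q hq
    exact ⟨h1, h2, H.hB1 q h1 (Dvd.dvd.mul_right h3 _), h4, h5, h6⟩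
  · intro q hq
    obtain ⟨h1, h2, h3, h4, h5, h6, h7⟩ := hEd q hq
    exact ⟨h1, h2, h3, H.hB1 q h1 (Dvd.dvd.mul_right h4 _),
      (s59q_W_unram_iff W hΔ hp𝒪 q).mpr h5, h6, h7⟩
  · intro q hq hqN
    by_cases hqp : q = p
    · subst hqp
      exact Or.inl (Finset.mem_union_left _ (s59q_WSmin_p_mem W hΔ hp𝒪))
    by_cases hqBd : q ∈ Bd
    · exact Or.inl (Finset.mem_union_right _ (Finset.mem_union_left _ hqBd))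
    by_cases hqEd : q ∈ Ed
    · exact Or.inl (Finset.mem_union_right _ (Finset.mem_union_right _ hqEd))
    have hnunr : ¬ (s59q_WRhobar W hΔ hp𝒪).IsUnramifiedAt q := fun hu =>
      hram q hq hqp hqN hqBd hqEd ((s59q_W_unram_iff W hΔ hp𝒪 q).mp hu)
    exact Or.inl (Finset.mem_union_left _ ((s59q_WSmin_hmin W hΔ hp𝒪 hp2 q hq hqp).mpr hnunr))

end RPkg

/-- **[IA′-core] for a general semistable `W`, even level, `p ∈ {3, 5}`, with a set `Ed` of spectator primes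
`≡ −1 (p)` of level-raising type** (`ρ̄` unramified, Frobenius polynomial `(X − εq)(X − ε)` over every
coefficient ring); every other prime `≠ p` of the level outside `Bd` is ramified. -/
theorem s59q_is_IAcoreW_even (p : ℕ) [Fact p.Prime] (hp35 : p = 3 ∨ p = 5)
    (W : WeierstrassCurve ℤ) (hΔ : W.Δ ≠ 0) (N : ℕ) [NeZero N] (Bd B : Finset ℕ)
    (H : s59q_IAHypSE W p N Bd B) (h2N : 2 ∣ N) (Ed : Finset ℕ)
    (hEd : ∀ q ∈ Ed, q.Prime ∧ q ≠ p ∧ q ∉ Bd ∧ q ∣ N ∧ s59_Unr W p q ∧ ¬ p ∣ q - 1 ∧ p ∣ q + 1)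
    (hE1 : ∀ (𝒪 : Type) [CommRing 𝒪] [IsDomain 𝒪] [IsDiscreteValuationRing 𝒪]
      [IsAdicComplete (maximalIdeal 𝒪) 𝒪] [Algebra ℤ_[p] 𝒪]
      (hp𝒪 : ((p : ℕ) : 𝒪) ∈ maximalIdeal 𝒪),
      ∀ q : Nat.Primes, (q : ℕ) ∈ Ed → ∃ φ : Γℚ, (primeLocalPlace q).IsFrobeniusAt φ q ∧
        ∃ ε : 𝒪, (ε = 1 ∨ ε = -1) ∧ LinearMap.charpoly ((s59q_WRhobar W hΔ hp𝒪).ρ φ) =
          (X - C (residue 𝒪 (ε * ((q : ℕ) : 𝒪)))) * (X - C (residue 𝒪 ε)))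
    (hram : ∀ ℓ : ℕ, ℓ.Prime → ℓ ≠ p → ℓ ∣ N → ℓ ∉ Bd → ℓ ∉ Ed → ¬ s59_Unr W p ℓ) :
    ∃ q ∈ Bd, s44i_LevelOcc (N / q) p (fun ℓ => W.apOfModel ℓ) B := by
  have hp2 : p ≠ 2 := by omega
  exact s59q_is_IAcoreW_pt p hp2 W hΔ N N Bd B H
    (fun 𝒪 _ _ _ _ _ _ _ _ hp𝒪 hs =>
      s59q_is_RPkgW W hΔ hp𝒪 hp35 N Bd B H Ed hEd (hE1 𝒪 hp𝒪) hram hs)
    (fun 𝒪 _ _ _ _ _ _ _ _ hp𝒪 hs v hv hζ Rd =>
      s59q_is_TPkgW p hp2 W hΔ N Bd B H h2N 𝒪 hp𝒪 hs v hv hζ N Rd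
        (fun q _ hqN => Or.inl hqN))
    (s59q_FinBSE W hΔ p hp2 N Bd B H h2N)

end Fermat.Agent.Lib.S59
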