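/-
[IA-c], STRICT twin, part N (helper6, prefix `s59q_is_`): **THE NODE `s59g_IAstrictThreeC`** ([IA′-core]_W at `p = 3`, STRICT
(`3 ∣ M`, tres ramifie), even level, `2` of type (c): `ρ̄` unramified at `2`) — field `iaStrictC` of helper1's `s59g_NodesThreeX`
(Graph3X.lean).  Twin of helper3's `s59u_ic_IAflatThreeC_ok` (UIcN.lean); the dichotomy lemmas `s59u_ic_E1_of_trace_mem`,
`s59u_ic_E2Alt_of_trace_unit` of UIcN.lean are reused.

* `t₀ = tr ρ_W(Frob_2) ∈ 3ℤ_3` ⟹ `2` is a spectator prime of level-raising type `≡ −1 (3)` ⟹ `s59q_is_IAcoreW_even` (QIsM.lean);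
* `t₀ ∈ ℤ_3ˣ` ⟹ `2` is of type (E2′) for `ρ̄` over every coefficient ring ⟹ the strict chain `s59q_IAcoreS_pt_E` (Q3SCore.lean)
  with the `R`-side at the level `M / 2`.
Scripted copy of UIcN.lean.
-/
import Mathlib
import Fermat.Agent.Lib.S59.UIcN
import Fermat.Agent.Lib.S59.QIsM
import Fermat.Agent.Lib.S59.Graph3X

set_option autoImplicit false
set_option linter.unusedSectionVars false
set_option linter.unusedVariables false
set_option linter.style.haveILetI false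
set_option maxHeartbeats 1600000

noncomputable section

namespace Fermat.Agent.Lib.S59

open IsLocalRing CuspForm Polynomial ExtCitation
open WeierstrassCurve WeierstrassCurve.Affine WeierstrassCurve.Affine.Point
open Fermat.Agent.Lib.S44 Fermat.Agent.Lib.S56

local notation "Γℚ" => (AlgebraicClosure ℚ ≃ₐ[ℚ] AlgebraicClosure ℚ)

/-- **the strict [IA′-core] with the (E2′)-alternative in `ρ̄`-form** (`s59q_IAcoreS_even_E` of Q3SCore.lean with the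
hypothesis `hEW` replaced by its consequence `hE`). -/
theorem s59q_is_IAcoreW_even_E2 (p : ℕ) [Fact p.Prime] (hp35 : p = 3 ∨ p = 5)
    (W : WeierstrassCurve ℤ) (hΔ : W.Δ ≠ 0) (N N' : ℕ) [NeZero N] (Bd B : Finset ℕ)
    (H : s59q_IAHypSE W p N Bd B) (h2N : 2 ∣ N) (hN'N : N' ∣ N)
    (hram : ∀ ℓ : ℕ, ℓ.Prime → ℓ ≠ p → ℓ ∣ N' → ℓ ∉ Bd → ¬ s59_Unr W p ℓ ∨ ¬ p ∣ ℓ ^ 2 - 1)
    (hE : ∀ (𝒪 : Type) [CommRing 𝒪] [IsDomain 𝒪] [IsDiscreteValuationRing 𝒪]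
      [IsAdicComplete (maximalIdeal 𝒪) 𝒪] [Algebra ℤ_[p] 𝒪]
      (hp𝒪 : ((p : ℕ) : 𝒪) ∈ maximalIdeal 𝒪),
      ∀ q : ℕ, q.Prime → q ∣ N → q ∣ N' ∨ s59e3q_E2Alt p (s59i_rhobarW W p hΔ 𝒪 hp𝒪) q) :
    ∃ q ∈ Bd, s44i_LevelOcc (N / q) p (fun ℓ => W.apOfModel ℓ) B := by
  have hp2 : p ≠ 2 := by omega
  exact s59q_IAcoreS_pt_E p hp2 W hΔ N N' Bd B H
    (fun 𝒪 _ _ _ _ _ _ _ _ hp𝒪 hs => s59q_RPkgSE W hΔ hp𝒪 hp35 N N' Bd B H hN'N hram hs)
    (fun 𝒪 _ _ _ _ _ _ _ _ hp𝒪 hs v hv hζ Rd =>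
      s59q_TPkgSE p hp2 W hΔ N Bd B H h2N 𝒪 hp𝒪 hs v hv hζ N' Rd (hE 𝒪 hp𝒪))
    (s59q_FinBSE W hΔ p hp2 N Bd B H h2N)

open Classical in
/-- **[IA′-core]_W at `p = 3`, STRICT, even level, `2` of type (c)**: the field `iaStrictC` of `s59g_NodesThreeX`. -/
theorem s59q_is_IAstrictThreeC_ok : s59g_IAstrictThreeC := by
  intro W hΔ hW hirr M hM0 hMsq h3M hpeu h2M hunr2 _hE2 _h2old Bd hne hB hram hres
  haveI : Fact (Nat.Prime 3) := ⟨Nat.prime_three⟩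
  have hp2 : (3 : ℕ) ≠ 2 := by norm_num
  haveI : NeZero M := ⟨hM0.ne'⟩
  have hB1 : ∀ r : ℕ, r.Prime → r ∣ M * 3 →
      r ∈ (M * 3).primeFactors ∪ W.Δ.natAbs.primeFactors := fun r hr hd =>
    Finset.mem_union_left _ (Nat.mem_primeFactors.mpr
      ⟨hr, hd, Nat.mul_ne_zero hM0.ne' (by norm_num)⟩)
  have hB2 : ∀ r : ℕ, r.Prime → ¬ W.IsGoodPrimeFor r →
      r ∈ (M * 3).primeFactors ∪ W.Δ.natAbs.primeFactors := by
    intro r hr hbad
    have hd : (r : ℤ) ∣ W.Δ := by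
      by_contra h
      exact hbad h
    exact Finset.mem_union_right _ (Nat.mem_primeFactors.mpr
      ⟨hr, Int.natCast_dvd.mp hd, Int.natAbs_ne_zero.mpr hΔ⟩)
  have hocc : s44i_LevelOcc M 3 (fun ℓ => W.apOfModel ℓ)
      ((M * 3).primeFactors ∪ W.Δ.natAbs.primeFactors) := by
    obtain ⟨f, 𝔪, hf, hmax, hpm, hcong⟩ := hres
    refine ⟨f, 𝔪, hf, hmax, hpm, fun ℓ hℓ hℓB => ?_⟩
    have hgood : W.IsGoodPrimeFor ℓ := by
      by_contra hbad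
      exact hℓB (hB2 ℓ hℓ hbad)
    have hℓM : ¬ ℓ ∣ M := fun hd => hℓB (hB1 ℓ hℓ (hd.mul_right 3))
    have hℓp : ℓ ≠ 3 := by
      rintro rfl
      exact hℓB (hB1 3 hℓ (dvd_mul_left 3 M))
    exact hcong ℓ hℓ hgood hℓM hℓp
  have hBd' : ∀ q ∈ Bd, q.Prime ∧ q ≠ 3 ∧ q ∣ M ∧ s59_Unr W 3 q ∧ 3 ∣ q - 1 ∧
      s59_FrobScalar W 3 q := by
    intro q hq
    obtain ⟨h1, h2, h3, h4, h5, h6⟩ := hB q hq
    exact ⟨h1, h2, h3, h4, h5, h6⟩
  have H : s59q_IAHypSE W 3 M Bd ((M * 3).primeFactors ∪ W.Δ.natAbs.primeFactors) :=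
    { hss := hW
      hirr := hirr
      hN0 := hM0
      hNsq := hMsq
      hpN := h3M
      hpeu := hpeu
      hne := hne
      hBd := hBd'
      hB1 := hB1
      hB2 := hB2
      hocc := hocc }
  have h2Bd : (2 : ℕ) ∉ Bd := by
    intro h
    have h5 := (hBd' 2 h).2.2.2.2.1
    omega
  -- the Frobenius at `2`
  obtain ⟨q2, hq2v⟩ : ∃ q2 : Nat.Primes, (q2 : ℕ) = 2 := ⟨⟨2, Nat.prime_two⟩, rfl⟩
  obtain ⟨φ₀, hφ₀⟩ := s56z_exists_frob q2
  have hconcl : ∃ q ∈ Bd, s44i_LevelOcc (M / q) 3 (fun ℓ => W.apOfModel ℓ)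
      ((M * 3).primeFactors ∪ W.Δ.natAbs.primeFactors) := by
    by_cases ht : LinearMap.trace ℤ_[3] _ ((s59b_rhoW W 3 hΔ).ρ φ₀) ∈ maximalIdeal ℤ_[3]
    · -- `2` is a spectator prime of level-raising type
      refine s59q_is_IAcoreW_even 3 (Or.inl rfl) W hΔ M Bd _ H h2M {2} ?_ ?_ ?_
      · intro q hq
        rw [Finset.mem_singleton] at hq
        subst hq
        exact ⟨Nat.prime_two, by norm_num, h2Bd, h2M, hunr2, by norm_num, by norm_num⟩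
      · intro 𝒪 _ _ _ _ _ hp𝒪 q hq
        rw [Finset.mem_singleton] at hq
        have hq' : q = q2 := Subtype.ext (hq.trans hq2v.symm)
        subst hq'
        exact ⟨φ₀, hφ₀, s59u_ic_E1_of_trace_mem W hΔ hp𝒪 hp2 hirr q (by omega)
          (by omega) φ₀ hφ₀ ht⟩
      · intro ℓ hℓ hℓ3 hℓM hℓBd hℓE
        exact hram ℓ hℓ hℓ3 (fun h => hℓE (Finset.mem_singleton.mpr h)) hℓM hℓBd
    · -- `2` is of type (E2′)
      have hM2 : M / 2 ∣ M := Nat.div_dvd_of_dvd h2M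
      have hnot2 : ¬ 2 ∣ M / 2 := by
        intro h
        have h4 : 2 * 2 ∣ M := by
          obtain ⟨c, hc⟩ := h
          exact ⟨c, by rw [← Nat.div_mul_cancel h2M, hc]; ring⟩
        exact Nat.prime_two.not_isUnit (hMsq 2 h4)
      refine s59q_is_IAcoreW_even_E2 3 (Or.inl rfl) W hΔ M (M / 2) Bd _ H h2M hM2 ?_ ?_
      · intro ℓ hℓ hℓ3 hℓM hℓBd
        have hℓ2 : ℓ ≠ 2 := by
          rintro rfl
          exact hnot2 hℓM
        exact Or.inl (hram ℓ hℓ hℓ3 hℓ2 (hℓM.trans hM2) hℓBd)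
      · intro 𝒪 _ _ _ _ _ hp𝒪 q hq hqM
        by_cases hq2 : q = 2
        · subst hq2
          have hE2 := s59u_ic_E2Alt_of_trace_unit W hΔ hp𝒪 hp2 hirr q2 (by omega)
            (by omega) (by omega) (by rw [hq2v]; exact hunr2) φ₀ hφ₀ ht
          rw [hq2v] at hE2
          exact Or.inr hE2
        · left
          have h1 : q ∣ 2 * (M / 2) := by rwa [Nat.mul_div_cancel' h2M]
          rcases (Nat.Prime.dvd_mul hq).mp h1 with h | h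
          · exact absurd ((Nat.prime_dvd_prime_iff_eq hq Nat.prime_two).mp h) hq2
          · exact h
  obtain ⟨q, hqBd, hoccq⟩ := hconcl
  obtain ⟨hq, -, hqM, -, -⟩ := hB q hqBd
  have hdvd : M / q ∣ M := Nat.div_dvd_of_dvd hqM
  haveI : NeZero (M / q) := ⟨(Nat.pos_of_dvd_of_pos hdvd hM0).ne'⟩
  exact ⟨q, hqBd, s59u_cong_all W hΔ 3 hp2 hirr (M / q) _ hoccq⟩

end Fermat.Agent.Lib.S59
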