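/-
PROGRAMME (R2) = S59 / [S35±] (sign of Frobenius at `r ∥ level` = `U_r`), part 0 (helper1, prefix `s59sw_`):
**THE CONTRACT between the geometric half (helper2) and the algebra/plumbing half (helper1).**

`s59sw_NWSigned M q hq hqM m σ` : **signed NEW-WEIGHT on `J₀(M q)[m]`** — every `z` killed by `m`, `α_*`, `β_*`
satisfies `(σ + q w_q)(σ + w_q) z = 0`, i.e. `σ² z + (q + 1) w_q σ z + q z = 0`.
(True for every Frobenius lift `σ` at a place over `q` and every `m` prime to `q`: `(σ + w_q) z` is TORIC and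
`σ = − q w_q` on toric points.)

* `s59sw_NWSigned_of_frob` : it follows from TORIC-FROB for the point `x = σ z + w_q z` in the shape of helper7's
  `s59n_toric_geo_n` (`σ • x = (−q) • w_q x`).
-/
import Mathlib
import Fermat.Agent.Lib.S59.MSoft

set_option autoImplicit false
set_option linter.unusedSectionVars false
set_option linter.style.haveILetI false

namespace Fermat.Agent.Lib.S59

open ModularCurve AlgebraicCurve Fermat.Agent.Lib.S37 Fermat.Agent.Lib.S35 Fermat.Agent.Lib.S29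

noncomputable section

local notation "Kb" => AlgebraicClosure ℚ
local notation "Γℚ" => (AlgebraicClosure ℚ ≃ₐ[ℚ] AlgebraicClosure ℚ)

variable (M q : ℕ) [NeZero M] [NeZero q] (hq : q.Prime) (hqM : ¬ q ∣ M)

/-- **Signed NEW-WEIGHT on `J₀(M q)[m]`** for `σ ∈ G_ℚ`: `α_* z = 0 = β_* z ⟹ (σ + q w_q)(σ + w_q) z = 0`. -/
def s59sw_NWSigned (m : ℕ) (σ : Γℚ) : Prop :=
  ∀ z : JZero (M * q), m • z = 0 →
    s35c_alphaPush M q hq hqM z = 0 → s35c_betaPush M q hq hqM z = 0 →
      σ • σ • z + (q + 1) • s59m_wq M q hq hqM (σ • z) + q • z = 0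

variable {M q}

/-- the relation of `s59sw_NWSigned` from TORIC-FROB at the point `x = σ z + w_q z`. -/
theorem s59sw_rel_of_frob (σ : Γℚ) (z : JZero (M * q))
    (h : σ • (σ • z + s59m_wq M q hq hqM z) =
      (-(q : ℤ)) • s59m_wq M q hq hqM (σ • z + s59m_wq M q hq hqM z)) :
    σ • σ • z + (q + 1) • s59m_wq M q hq hqM (σ • z) + q • z = 0 := by
  rw [smul_add, map_add, s59m_wq_wq, ← s59m_wq_smul, neg_smul, natCast_zsmul] at h
  have h2 : σ • σ • z + s59m_wq M q hq hqM (σ • z) +
      (q • s59m_wq M q hq hqM (σ • z) + q • z) = 0 := by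
    rw [← nsmul_add, h]
    exact neg_add_cancel _
  rw [add_nsmul, one_nsmul, ← h2]
  abel

/-- **the contract from TORIC-FROB**: if for every new `z ∈ J₀(M q)[m]` the point `x = σ z + w_q z` satisfies
`σ • x = (−q) • w_q x`, then signed NEW-WEIGHT holds. -/
theorem s59sw_NWSigned_of_frob (m : ℕ) (σ : Γℚ)
    (h : ∀ z : JZero (M * q), m • z = 0 →
      s35c_alphaPush M q hq hqM z = 0 → s35c_betaPush M q hq hqM z = 0 →
      σ • (σ • z + s59m_wq M q hq hqM z) =
        (-(q : ℤ)) • s59m_wq M q hq hqM (σ • z + s59m_wq M q hq hqM z)) :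
    s59sw_NWSigned M q hq hqM m σ :=
  fun z hz h1 h2 => s59sw_rel_of_frob hq hqM σ z (h z hz h1 h2)

end

end Fermat.Agent.Lib.S59
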