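/-
PROGRAMME (R2) = S59 / [S35±] (sign of Frobenius at `r ∥ level` = `U_r`), part 1 (helper1, prefix `s59sw_`):
**[EQ-w] — the Kummer maps are equivariant for the Atkin–Lehner involution.**

`r ∤ M` prime.  `w_r` acts on `J₀(M r)(ℚ̄)` (`s59m_wq`, the action of the automorphism `s37w_al` of the
function field), on `Hom(Γ₀(M r), A)` (`s41l_w = (s41l_famW).op`, `ψ ↦ ψ ∘ c_W`).

* `s59sw_kappaC_w` : `κ (ct z') = w^H (κ (ct z))` whenever `z' = w_r z` (abstract bridge; same-level twin of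
  helper2's `s59b_kappaC_push`, with helper2's `s59b_mdata_al` as function-level input);
* `s59sw_kappa_w`  : the same for the canonical `s59b_kappa (M r) n` (every modulus `n ≠ 0`);
* `s59sw_wT`       : `w_T` on the Tate module `T_p J₀(M r)`;  `s59sw_wT_rho` : it commutes with `G_ℚ`;
* `s59sw_kinf_wT`  : `κ_∞ (w_T t) = w^H (κ_∞ t)`;
* `s59sw_wT_iota`  : `w_T (ι φ) = ι (w^H φ)` on the integral lattice.
-/
import Mathlib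
import Fermat.Agent.Lib.S59.BKappa
import Fermat.Agent.Lib.S59.BNKinf
import Fermat.Agent.Lib.S59.MSoft

set_option autoImplicit false
set_option linter.unusedSectionVars false
set_option linter.style.haveILetI false

namespace Fermat.Agent.Lib.S59

open UpperHalfPlane hiding I
open Complex AlgebraicCurve ModularCurve IntermediateField CongruenceSubgroup Module
open Fermat.Agent.Lib.FF Fermat.Agent.Lib.S18 Fermat.Agent.Lib.S29 Fermat.Agent.Lib.S30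
  Fermat.Agent.Lib.S33 Fermat.Agent.Lib.S44 Fermat.Agent.Lib.S35 Fermat.Agent.Lib.S41
  Fermat.Agent.Lib.S37
open scoped Real Manifold MatrixGroups

noncomputable section

local notation "Kb" => AlgebraicClosure ℚ

attribute [local instance] s29a_algebraC

section Abstract

variable (ι : Kb →+* ℂ) (M ℓ : ℕ) [NeZero M] [NeZero ℓ] [hℓ : Fact ℓ.Prime] (hℓM : ¬ ℓ ∣ M)
  {p : ℕ} [NeZero p]
  {K₁ : Type*} [Field K₁] {F₁ : Type*} [Field F₁] [Algebra K₁ F₁] {φ₁ : F₁ →+* ffm_E (M * ℓ)}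
  (hB₁ : s29m_BridgeHyp K₁ (M * ℓ) p φ₁)
  (j₁ : ffi_F (M * ℓ) →+* F₁) (hjφ₁ : ∀ f : ffi_F (M * ℓ), φ₁ (j₁ f) = s29bp_phi ι (M * ℓ) f)

/-- `w_ℓ` on Kummer generators: the class `w_ℓ [D]` has the Kummer generator `w_ℓ f`. -/
theorem s59sw_push_w (D : Divisor.degZero (K := Kb) (F := ffi_F (M * ℓ)))
    (f : ffi_F (M * ℓ)) (hf : f ≠ 0)
    (hDf : ∀ v : Place Kb (ffi_F (M * ℓ)),
      v.ord f = (p : ℤ) * (D : Divisor Kb (ffi_F (M * ℓ))) v) :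
    s37w_al M ℓ hℓ.out hℓM f ≠ 0 ∧ ∃ D₀ : Divisor.degZero (K := Kb) (F := ffi_F (M * ℓ)),
      s59m_wq M ℓ hℓ.out hℓM (Pic0.mk D) = Pic0.mk D₀ ∧
      ∀ v : Place Kb (ffi_F (M * ℓ)),
        v.ord (s37w_al M ℓ hℓ.out hℓM f) = (p : ℤ) * (D₀ : Divisor Kb (ffi_F (M * ℓ))) v := by
  set g : SemilinearAut Kb (ffi_F (M * ℓ)) := SemilinearAut.ofAlgAut (s37w_al M ℓ hℓ.out hℓM)
    with hg
  have hgf : g • f = s37w_al M ℓ hℓ.out hℓM f := rfl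
  refine ⟨(map_ne_zero _).mpr hf, SemilinearAut.degZeroSMulHom g D, ?_, fun v => ?_⟩
  · rw [s59m_wq_apply, SemilinearAut.pic0_smul_mk]
  · rw [SemilinearAut.coe_degZeroSMulHom, SemilinearAut.divisor_smul_apply, ← hDf (g⁻¹ • v), ← hgf]
    have h := SemilinearAut.ord_smul g (g⁻¹ • v) f
    rw [smul_inv_smul] at h
    exact h

include hjφ₁ in
/-- **[EQ-w], abstract form**: `κ (ct z') = w^H (κ (ct z))` whenever `z' = w_ℓ z`. -/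
theorem s59sw_kappaC_w
    (c₁ : JZero (M * ℓ) →+ Pic0 K₁ F₁)
    (hc₁ : ∀ (D : Divisor.degZero (K := Kb) (F := ffi_F (M * ℓ))) (f : ffi_F (M * ℓ)), f ≠ 0 →
      (∀ v : Place Kb (ffi_F (M * ℓ)), v.ord f = (p : ℤ) * (D : Divisor Kb (ffi_F (M * ℓ))) v) →
      ∃ D' : Divisor.degZero (K := K₁) (F := F₁), c₁ (Pic0.mk D) = Pic0.mk D' ∧
        ∀ w : Place K₁ F₁, w.ord (j₁ f) = (p : ℤ) * (D' : Divisor K₁ F₁) w)
    (ct₁ : s29k_Jp (M * ℓ) p → Pic0.torsion K₁ F₁ p)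
    (hct₁ : ∀ x : s29k_Jp (M * ℓ) p, (ct₁ x : Pic0 K₁ F₁) = c₁ (x : JZero (M * ℓ)))
    (z z' : s29k_Jp (M * ℓ) p)
    (hz' : (z' : JZero (M * ℓ)) = s59m_wq M ℓ hℓ.out hℓM (z : JZero (M * ℓ))) :
    s29m_kappaC hB₁ (ct₁ z') = s41l_w M ℓ hℓM (ZMod p) (s29m_kappaC hB₁ (ct₁ z)) := by
  obtain ⟨D, f, hf, hD, hDf⟩ := s59b_exists_kumGen z
  obtain ⟨D₁', hcD₁, hD₁'⟩ := hc₁ D f hf hDf
  obtain ⟨ψ, hψ⟩ := s29q_exists_funData ι hB₁ j₁ hjφ₁ f hf D₁' hD₁'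
  have hψM := s59b_mdata_of_funData hψ
  have hκz : s29m_kappaC hB₁ (ct₁ z) = ψ :=
    s59b_kappaC_eq_of_mdata ι hB₁ j₁ hjφ₁ f hf D₁' hD₁' (ct₁ z) (by rw [hct₁, ← hD, hcD₁]) hψM
  have hψ' := s59b_mdata_al ι M ℓ hℓM hψM
  obtain ⟨hNf, D₀, hpD, hD₀⟩ := s59sw_push_w M ℓ hℓM D f hf hDf
  obtain ⟨D₀', hcD₀, hD₀'⟩ := hc₁ D₀ _ hNf hD₀
  rw [hκz]
  exact s59b_kappaC_eq_of_mdata ι hB₁ j₁ hjφ₁ _ hNf D₀' hD₀' (ct₁ z')
    (by rw [hct₁, hz', ← hD, hpD, hcD₀]) hψ'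

end Abstract

section Concrete

variable (M ℓ : ℕ) [NeZero M] [NeZero ℓ] [hℓ : Fact ℓ.Prime] (hℓM : ¬ ℓ ∣ M)

/-- **[EQ-w]**: `κ_{M ℓ} (w_ℓ z) = w^H (κ_{M ℓ} z)`, every modulus `n ≠ 0`. -/
theorem s59sw_kappa_w (n : ℕ) [NeZero n] (z z' : s29k_Jp (M * ℓ) n)
    (hz' : (z' : JZero (M * ℓ)) = s59m_wq M ℓ hℓ.out hℓM (z : JZero (M * ℓ))) :
    s59b_kappa (M * ℓ) n z' = s41l_w M ℓ hℓM (ZMod n) (s59b_kappa (M * ℓ) n z) := by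
  haveI : FFGen Kb (s29bp_jK Kb (M * ℓ)) := s29bp_ffGen (algebraMap Kb ℂ) (M * ℓ)
  haveI : FFGen ℂ (s29bp_jK ℂ (M * ℓ)) := s29bp_ffGen (RingHom.id ℂ) (M * ℓ)
  exact s59sw_kappaC_w s59b_iota M ℓ hℓM (s59b_hB (M * ℓ) n)
    (s29a_j (K1 := ℂ) (M * ℓ)) (s29a_phi_j (RingHom.id ℂ) (M * ℓ))
    (s29a_c (K1 := ℂ) (M * ℓ)) (s29a_hc (M * ℓ) n) (fun x => s59b_ct (M * ℓ) n x) (fun x => rfl)
    z z' hz'

variable (p : ℕ) [Fact p.Prime]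

/-- **`w_T`** on the Tate module `T_p J₀(M ℓ)`. -/
def s59sw_wT : s30a_TJ (M * ℓ) p →ₗ[ℤ_[p]] s30a_TJ (M * ℓ) p :=
  s35c_TpMap (s59m_wq M ℓ hℓ.out hℓM)

@[simp] theorem s59sw_wT_apply (x : s30a_TJ (M * ℓ) p) (k : ℕ) :
    ((s59sw_wT M ℓ hℓM p x : s30a_TJ (M * ℓ) p) : ℕ → JZero (M * ℓ)) k =
      s59m_wq M ℓ hℓ.out hℓM ((x : ℕ → JZero (M * ℓ)) k) := rfl

/-- `w_T` is an involution. -/
theorem s59sw_wT_wT (x : s30a_TJ (M * ℓ) p) : s59sw_wT M ℓ hℓM p (s59sw_wT M ℓ hℓM p x) = x := by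
  refine s30a_ext fun k => ?_
  rw [s59sw_wT_apply, s59sw_wT_apply, s59m_wq_wq]

/-- `w_T` commutes with the Galois action. -/
theorem s59sw_wT_rho (σ : s29k_G) (x : s30a_TJ (M * ℓ) p) :
    s59sw_wT M ℓ hℓM p (s30a_rho (M * ℓ) p σ x) = s30a_rho (M * ℓ) p σ (s59sw_wT M ℓ hℓM p x) := by
  refine s30a_ext fun k => ?_
  rw [s59sw_wT_apply, s30a_rho_apply, s30a_rho_apply, s59sw_wT_apply, s59m_wq_smul]

/-- **`κ_∞ (w_T t) = w^H (κ_∞ t)`.** -/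
theorem s59sw_kinf_wT (t : s30a_TJ (M * ℓ) p) :
    s30u_kinf (M * ℓ) p (s59sw_wT M ℓ hℓM p t) =
      (s41l_famW M ℓ hℓM).op ℤ_[p] (s30u_kinf (M * ℓ) p t) := by
  refine AddMonoidHom.ext fun γ => ?_
  obtain ⟨γ, rfl⟩ := Additive.ofMul.surjective γ
  apply PadicInt.ext_of_toZModPow.mp
  intro k
  haveI : NeZero (p ^ k) := ⟨pow_ne_zero k (Fact.out : p.Prime).ne_zero⟩
  have hpush : s30k_kappa (M * ℓ) (p ^ k)
      ⟨((s59sw_wT M ℓ hℓM p t : s30a_TJ (M * ℓ) p) : ℕ → JZero (M * ℓ)) k,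
        s30i_mem_Jp (M * ℓ) p _ k⟩ =
      (s41l_famW M ℓ hℓM).op (ZMod (p ^ k)) (s30k_kappa (M * ℓ) (p ^ k)
        ⟨(t : ℕ → JZero (M * ℓ)) k, s30i_mem_Jp (M * ℓ) p t k⟩) :=
    s59sw_kappa_w M ℓ hℓM (p ^ k) _ _ rfl
  rw [s30u_kinf_spec, hpush, s41l_Fam.op_apply, s41l_Fam.op_apply, map_sum]
  refine Finset.sum_congr rfl fun i _ => ?_
  rw [s30u_kinf_spec]

theorem s59sw_famW_det (i : Unit) : ((s41l_famW M ℓ hℓM).g i).det ≠ 0 := by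
  show (s41l_W M ℓ hℓM).det ≠ 0
  rw [s41l_W_det]
  exact s41l_l_ne_zero ℓ

/-- `w^H` on the integral lattice. -/
def s59sw_wL : ↥(s29s_M (M * ℓ)) →ₗ[ℤ] ↥(s29s_M (M * ℓ)) :=
  s59b_opL (s41l_famW M ℓ hℓM) (s59sw_famW_det M ℓ hℓM)

theorem s59sw_wL_coe (φ : ↥(s29s_M (M * ℓ))) :
    ((s59sw_wL M ℓ hℓM φ : ↥(s29s_M (M * ℓ))) : Additive (Gamma0 (M * ℓ)) →+ ℤ) =
      s41l_w M ℓ hℓM ℤ (φ : Additive (Gamma0 (M * ℓ)) →+ ℤ) := rfl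

/-- **`w_T (ι φ) = ι (w^H φ)`.** -/
theorem s59sw_wT_iota (φ : ↥(s29s_M (M * ℓ))) :
    s59sw_wT M ℓ hℓM p (s30i_iota (M * ℓ) p φ) = s30i_iota (M * ℓ) p (s59sw_wL M ℓ hℓM φ) := by
  apply s30u_kinf_injective (M * ℓ) p
  rw [s59sw_kinf_wT, s30u_kinf_iota, s30u_kinf_iota, s59b_op_cast]
  rfl

end Concrete

end

end Fermat.Agent.Lib.S59
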