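/-
PROGRAMME (R2) = S59 / [S35±] (sign of Frobenius at `r ∥ level` = `U_r`), part 2 (helper1, prefix `s59sw_`):
**signed `hnew` at an auxiliary prime `r ∤ M`.**

Twin of helper4's `s59f_hnewR` (FNewPt1.lean) with ONE more clause: if in addition `w^H Φ = a • Φ` (`s41l_w`), then
the eigenvector `v ∈ 𝒪 ⊗ T_p J₀(M r)` satisfies `(1 ⊗ w_T) v = a • v` (`s59sw_wT`, GSwKappa.lean).

* `s59sw_baseChange_eq_smul` : the eigen-relation for `A.baseChange` on the vector with coefficients `c`, for an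
  operator `A` on the Tate module intertwined by `ι` with a same-level coset-family operator;
* `s59sw_hnewR` : the signed `hnew`.
-/
import Mathlib
import Fermat.Agent.Lib.S59.FNewPt1
import Fermat.Agent.Lib.S59.GSwKappa

set_option autoImplicit false
set_option linter.unusedSectionVars false
set_option linter.style.haveILetI false

open AlgebraicCurve ModularCurve CongruenceSubgroup ModularCurve.Period
open scoped TensorProduct MatrixGroups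

namespace Fermat.Agent.Lib.S59

open Fermat.Agent.Lib.S29 Fermat.Agent.Lib.S30 Fermat.Agent.Lib.S35 Fermat.Agent.Lib.S36
  Fermat.Agent.Lib.S41
open Matrix

noncomputable section

section Eig

variable (N : ℕ) [NeZero N] (p : ℕ) [Fact p.Prime]

/-- a class which is an eigenvector of a same-level coset-family operator: its coefficient vector is an
eigenvector of the integer matrix. -/
theorem s59sw_mulVec_of_op_eq_smul {I : Type*} [Fintype I] [DecidableEq I]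
    (b₁ : Module.Basis I ℤ ↥(s29s_M N))
    {ι' : Type*} [Fintype ι'] (F : s41l_Fam (s41l_i N) (s41l_i N) ι')
    (hdet : ∀ i, (F.g i).det ≠ 0)
    (R : Type*) [CommRing R] [IsDomain R] [CharZero R] (c : I → R) (a : R)
    (h : F.op R (∑ j, c j • s29s_castB b₁ R j) = a • ∑ j, c j • s29s_castB b₁ R j) :
    (s59b_opMat b₁ b₁ F hdet).map (Int.cast : ℤ → R) *ᵥ c = a • c := by
  rw [s59b_op_sum_castB b₁ b₁ F hdet, Finset.smul_sum] at h
  simp_rw [smul_smul] at h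
  have hli := s30e_castB_linearIndependent b₁ R
  rw [Fintype.linearIndependent_iff] at hli
  funext k
  have h2 : ∑ k, (((s59b_opMat b₁ b₁ F hdet).map (Int.cast : ℤ → R) *ᵥ c) k - a * c k) •
      s29s_castB b₁ R k = 0 := by
    simp_rw [sub_smul]
    rw [Finset.sum_sub_distrib, h, sub_self]
  have h3 := hli _ h2 k
  rw [Pi.smul_apply, smul_eq_mul]
  exact sub_eq_zero.mp h3

/-- the eigen-relation for `A.baseChange` on the vector with coefficients `c`. -/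
theorem s59sw_baseChange_eq_smul {I : Type*} [Fintype I] [DecidableEq I]
    (b₁ : Module.Basis I ℤ ↥(s29s_M N))
    {ι' : Type*} [Fintype ι'] (F : s41l_Fam (s41l_i N) (s41l_i N) ι')
    (hdet : ∀ i, (F.g i).det ≠ 0)
    (A : s30a_TJ N p →ₗ[ℤ_[p]] s30a_TJ N p)
    (hA : ∀ φ : ↥(s29s_M N), A (s30i_iota N p φ) = s30i_iota N p (s59b_opL F hdet φ))
    (𝒪 : Type*) [CommRing 𝒪] [IsDomain 𝒪] [CharZero 𝒪] [Algebra ℤ_[p] 𝒪] (c : I → 𝒪) (a : 𝒪)
    (h : F.op 𝒪 (∑ j, c j • s29s_castB b₁ 𝒪 j) = a • ∑ j, c j • s29s_castB b₁ 𝒪 j) :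
    A.baseChange 𝒪 (∑ j, c j ⊗ₜ[ℤ_[p]] s30i_iota N p (b₁ j)) =
      a • ∑ j, c j ⊗ₜ[ℤ_[p]] s30i_iota N p (b₁ j) := by
  have hT : ∀ j, A (s30i_iota N p (b₁ j)) =
      ∑ k, ((s59b_opMat b₁ b₁ F hdet).map (Int.cast : ℤ → ℤ_[p])) k j • s30i_iota N p (b₁ k) := by
    intro j
    rw [hA (b₁ j)]
    have h1 : (s59b_opL F hdet (b₁ j) : ↥(s29s_M N)) =
        ∑ k, s59b_opMat b₁ b₁ F hdet k j • b₁ k := by
      have h := b₁.sum_repr (s59b_opL F hdet (b₁ j))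
      rw [← h]
      refine Finset.sum_congr rfl fun k _ => ?_
      rw [s59b_opMat, LinearMap.toMatrix_apply]
    rw [h1, map_sum]
    refine Finset.sum_congr rfl fun k _ => ?_
    rw [map_zsmul, Matrix.map_apply]
    exact (Int.cast_smul_eq_zsmul ℤ_[p] _ _).symm
  rw [s59b_baseChange_sum2 A (fun j => s30i_iota N p (b₁ j))
    (fun k => s30i_iota N p (b₁ k)) _ hT c]
  have hmat : ((s59b_opMat b₁ b₁ F hdet).map (Int.cast : ℤ → ℤ_[p])).map (algebraMap ℤ_[p] 𝒪) =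
      (s59b_opMat b₁ b₁ F hdet).map (Int.cast : ℤ → 𝒪) := by
    ext i j
    simp
  rw [hmat, s59sw_mulVec_of_op_eq_smul N b₁ F hdet 𝒪 c a h, Finset.smul_sum]
  refine Finset.sum_congr rfl fun k _ => ?_
  rw [Pi.smul_apply, smul_eq_mul]
  exact (TensorProduct.smul_tmul' a (c k) (s30i_iota N p (b₁ k))).symm

end Eig

section NewR

variable (M r : ℕ) [NeZero M] [NeZero r] [hr : Fact r.Prime] (hrM : ¬ r ∣ M) (p : ℕ) [Fact p.Prime]

/-- **signed `hnew` at `r ∤ M`**: a kernel-new eigenclass in `H_par(Γ₀(M r), 𝒪)` with `w^H Φ = a • Φ` gives an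
eigenvector in `𝒪 ⊗ T_p J₀(M r)` killed by both push-forwards to level `M`, with `(1 ⊗ w_T) v = a • v`. -/
theorem s59sw_hnewR (S : Set ℕ) (𝒪 : Type*) [CommRing 𝒪] [IsDomain 𝒪] [CharZero 𝒪] [Algebra ℤ_[p] 𝒪]
    (Φ : Additive (Gamma0 (M * r)) →+ 𝒪) (hΦ : IsParabolicHom (Gamma0 (M * r)) Φ) (hΦ0 : Φ ≠ 0)
    (y : ℕ → 𝒪)
    (hT : ∀ (ℓ : ℕ) [Fact ℓ.Prime], ¬ ℓ ∣ M * r → ℓ ∉ S →
      s29h_heckeHom (M * r) ℓ 𝒪 Φ = y ℓ • Φ)
    (hcA : s41l_corA M r hrM 𝒪 Φ = 0) (hcB : s41l_corB M r hrM 𝒪 Φ = 0)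
    (a : 𝒪) (hw : s41l_w M r hrM 𝒪 Φ = a • Φ) :
    ∃ v : 𝒪 ⊗[ℤ_[p]] s30a_TJ (M * r) p, v ≠ 0 ∧
      (∀ (ℓ : ℕ) (hℓ : ℓ.Prime), ¬ ℓ ∣ M * r → ℓ ∉ S →
        (s30a_Tz (M * r) p ⟨ℓ, hℓ⟩).baseChange 𝒪 v = y ℓ • v) ∧
      (s35c_alphaT M r hr.out hrM p).baseChange 𝒪 v = 0 ∧
      (s35c_betaT M r hr.out hrM p).baseChange 𝒪 v = 0 ∧
      (s59sw_wT M r hrM p).baseChange 𝒪 v = a • v := by
  classical
  haveI : Module.Flat ℤ_[p] 𝒪 := s30e_flat_padicInt p 𝒪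
  haveI : IsAddTorsionFree 𝒪 := inferInstance
  let b₁ := Module.finBasis ℤ ↥(s29s_M (M * r))
  let b₀ := Module.finBasis ℤ ↥(s29s_M M)
  have hΦH : Φ ∈ s29h_Hpar 𝒪 (M * r) 𝒪 := s29h_mem_Hpar_of_parabolic hΦ
  obtain ⟨c, hc⟩ := s59b_exists_coeffs0 b₁ 𝒪 Φ hΦH
  have hc0 : c ≠ 0 := by
    rintro rfl
    apply hΦ0
    rw [hc]
    simp
  have hli : LinearIndependent ℤ_[p] (fun i => s30i_iota (M * r) p (b₁ i)) :=
    s30e_iota_linearIndependent (M * r) p (s30u_kinf (M * r) p)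
      (fun x k γ => s30u_kinf_spec (M * r) p x k γ) b₁
  refine ⟨∑ i, c i ⊗ₜ[ℤ_[p]] s30i_iota (M * r) p (b₁ i),
    s30e_tensor_sum_ne_zero _ hli c hc0, ?_, ?_, ?_, ?_⟩
  · intro ℓ hℓ hℓN hℓS
    haveI : Fact ℓ.Prime := ⟨hℓ⟩
    have hTz : ∀ j, s30a_Tz (M * r) p ⟨ℓ, hℓ⟩ (s30i_iota (M * r) p (b₁ j)) =
        ∑ i, ((s29s_heckeMat b₁ ℓ).map (Int.cast : ℤ → ℤ_[p])) i j •
          s30i_iota (M * r) p (b₁ i) := by
      intro j
      rw [← s30e_iota_hecke_Tz (M * r) p ℓ hℓ hℓN (b₁ j)]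
      have h1 : s29h_heckeHpar (M * r) ℓ ℤ ℤ (b₁ j) = ∑ i, s29s_heckeMat b₁ ℓ i j • b₁ i := by
        have h := b₁.sum_repr (s29h_heckeHpar (M * r) ℓ ℤ ℤ (b₁ j))
        rw [← h]
        refine Finset.sum_congr rfl fun i _ => ?_
        rw [s29s_heckeMat, LinearMap.toMatrix_apply]
      rw [h1, map_sum]
      refine Finset.sum_congr rfl fun i _ => ?_
      rw [map_zsmul, Matrix.map_apply]
      exact (Int.cast_smul_eq_zsmul ℤ_[p] _ _).symm
    rw [s30e_baseChange_sum (s30a_Tz (M * r) p ⟨ℓ, hℓ⟩) (fun i => s30i_iota (M * r) p (b₁ i)) _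
      hTz c]
    have hmat : ((s29s_heckeMat b₁ ℓ).map (Int.cast : ℤ → ℤ_[p])).map (algebraMap ℤ_[p] 𝒪) =
        (s29s_heckeMat b₁ ℓ).map (Int.cast : ℤ → 𝒪) := by
      ext i j
      simp
    have hev := hT ℓ hℓN hℓS
    rw [hc] at hev
    rw [hmat, s59b_mulVec_of_eigen0 b₁ 𝒪 ℓ c (y ℓ) hev, Finset.smul_sum]
    refine Finset.sum_congr rfl fun i _ => ?_
    exact (TensorProduct.smul_tmul' (y ℓ) (c i) (s30i_iota (M * r) p (b₁ i))).symm
  · refine s59b_baseChange_eq_zero M r p b₁ b₀ (s41l_famCorA M r hrM)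
      (s59f_famCorA_det M r hrM) (s35c_alphaT M r hr.out hrM p)
      (fun φ => s59b_push_iota M r p (s41l_famCorA M r hrM) (s59f_famCorA_det M r hrM)
        (s35c_alphaT M r hr.out hrM p) (fun t => s59f_kinf_alphaT M r hrM p t) φ) 𝒪 c ?_
    rw [← hc]
    exact hcA
  · refine s59b_baseChange_eq_zero M r p b₁ b₀ (s41l_famCorB M r hrM)
      (s59f_famCorB_det M r hrM) (s35c_betaT M r hr.out hrM p)
      (fun φ => s59b_push_iota M r p (s41l_famCorB M r hrM) (s59f_famCorB_det M r hrM)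
        (s35c_betaT M r hr.out hrM p) (fun t => s59f_kinf_betaT M r hrM p t) φ) 𝒪 c ?_
    rw [← hc]
    exact hcB
  · refine s59sw_baseChange_eq_smul (M * r) p b₁ (s41l_famW M r hrM) (s59sw_famW_det M r hrM)
      (s59sw_wT M r hrM p) (fun φ => s59sw_wT_iota M r hrM p φ) 𝒪 c a ?_
    rw [← hc]
    exact hw

end NewR

end

end Fermat.Agent.Lib.S59
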