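/-
PROGRAMME (R2) = S59 / [S35±] (sign of Frobenius at `r ∥ level` = `U_r`), part 3 (helper1, prefix `s59sw_`):
**[NEW-q₀±] — the SIGNED local statement at a prime `r ∥ level` for a kernel-new eigenclass on `Γ₀(M r)`.**

Signed twin of helper4's `s59f_NEW0` (FNewPt2.lean).  `r ∤ M` prime, `r ≠ p`; `𝒪'` a complete discrete valuation
ring of characteristic zero, finite residue field, `p ∈ 𝔪`; `Φ ≠ 0` a parabolic class in `Hom(Γ₀(M r), 𝒪')` with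
`T_ℓ Φ = y_ℓ Φ` (`ℓ ∉ S`), `cor_A Φ = 0 = cor_B Φ` and **`w^H Φ = −e Φ`** (`e = ±1`; equivalently `U_r Φ = e Φ`);
`ρ` ANY `GaloisRepAdic 𝒪'` with the Frobenius polynomials `X² − y_ℓ X + ℓ` (`ℓ ∉ S`).  Then for every Frobenius
element `σ` at a place over `r`:

      `charpoly ρ(σ) = X² − e (r + 1) X + r`,

GIVEN the geometric input `hNW : ∀ n, s59sw_NWSigned M r _ _ (p ^ n) σ` (signed NEW-WEIGHT on `J₀(M r)[pⁿ]`,
GSwDefs.lean; helper2's half).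

Chain: `s59sw_hnewR` (a kernel-new eigenvector `v` of `𝒪' ⊗ T_p J₀(M r)` with `(1 ⊗ w_T) v = −e v`) → signed
NEW-WEIGHT on `ker α_T ⊓ ker β_T` (`s59sw_NW_tate`) → flat base change (`s35k_…`) → `σ² v − e(r+1) σ v + r v = 0`
→ helper4's `s59f_core2` → helper1's `s59k_charpoly_unique'`.

* `s59sw_NEW0`   : the statement with `w^H Φ = −e Φ`;
* `s59sw_NEW0_U` : the statement with `U_r Φ = e Φ` (`res_A ∘ cor_B = U_r + w`, S41's `s41l_resA_corB`).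
-/
import Mathlib
import Fermat.Agent.Lib.S59.GSwDefs
import Fermat.Agent.Lib.S59.GSwNew
import Fermat.Agent.Lib.S59.FNewPt3

set_option autoImplicit false
set_option linter.unusedSectionVars false
set_option linter.unusedVariables false
set_option linter.style.haveILetI false

open Polynomial IsLocalRing
open AlgebraicCurve ModularCurve CongruenceSubgroup ModularCurve.Period
open scoped TensorProduct MatrixGroups

namespace Fermat.Agent.Lib.S59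

open Fermat.Agent.Lib.S29 Fermat.Agent.Lib.S30 Fermat.Agent.Lib.S35
  Fermat.Agent.Lib.S36 Fermat.Agent.Lib.S41

noncomputable section

local notation "Qbar" => AlgebraicClosure ℚ
local notation "GQ" => (AlgebraicClosure ℚ ≃ₐ[ℚ] AlgebraicClosure ℚ)

section Tate

variable (M q : ℕ) [NeZero M] [NeZero q] [hq : Fact q.Prime] (hqM : ¬ q ∣ M)
  (lam : ℕ) [Fact lam.Prime]

/-- **signed NEW-WEIGHT on the Tate module** `T_λ J₀(M q)`: the common kernel of `α_T` and `β_T` is killed by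
`σ² + (q + 1) w_T σ + q`. -/
theorem s59sw_NW_tate (σ : s29k_G)
    (h : ∀ n : ℕ, s59sw_NWSigned M q hq.out hqM (lam ^ n) σ)
    (x : s30a_TJ (M * q) lam)
    (hα : s35c_alphaT M q hq.out hqM lam x = 0) (hβ : s35c_betaT M q hq.out hqM lam x = 0) :
    (s30a_rho (M * q) lam σ * s30a_rho (M * q) lam σ +
        (((q + 1 : ℕ) : ℤ_[lam])) • (s59sw_wT M q hqM lam * s30a_rho (M * q) lam σ) +
        ((q : ℕ) : ℤ_[lam]) • (1 : Module.End ℤ_[lam] (s30a_TJ (M * q) lam))) x = 0 := by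
  refine s30a_ext fun n => ?_
  have key := h n ((x : ℕ → JZero (M * q)) n) (s30a_pow_smul x n)
    ((s35c_TpMap_eq_zero_iff _ x).mp hα n) ((s35c_TpMap_eq_zero_iff _ x).mp hβ n)
  simp only [Module.End.mul_apply, LinearMap.add_apply, LinearMap.smul_apply,
    Module.End.one_apply, s30a_add_apply, s30a_rho_apply, s30a_natCast_smul_apply,
    s30a_zero_apply, s59sw_wT_apply]
  exact key

end Tate

section NewPt

variable (p : ℕ) [Fact p.Prime]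

/-- **[NEW-q₀±]**: the SIGNED Frobenius polynomial at `r ∥ M r` of a kernel-new eigenclass on `Γ₀(M r)` with
`w^H Φ = −e Φ`. -/
theorem s59sw_NEW0 (M r : ℕ) [NeZero M] [NeZero r] [hr : Fact r.Prime] (hrp : r ≠ p)
    (hrM : ¬ r ∣ M)
    (S : Finset ℕ) (hpS : p ∈ S) (hNS : ∀ q : ℕ, q.Prime → q ∣ M * r → q ∈ S)
    (𝒪' : Type) [CommRing 𝒪'] [IsDomain 𝒪'] [IsDiscreteValuationRing 𝒪']
    [IsAdicComplete (maximalIdeal 𝒪') 𝒪'] [Finite (ResidueField 𝒪')]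
    [CharZero 𝒪'] [Algebra ℤ_[p] 𝒪'] (hp𝒪' : (p : 𝒪') ∈ maximalIdeal 𝒪')
    (y : ℕ → 𝒪')
    (Φ : Additive (Gamma0 (M * r)) →+ 𝒪') (hΦ : IsParabolicHom (Gamma0 (M * r)) Φ) (hΦ0 : Φ ≠ 0)
    (hT : ∀ (ℓ : ℕ) [Fact ℓ.Prime], ¬ ℓ ∣ M * r → ℓ ∉ S →
      s29h_heckeHom (M * r) ℓ 𝒪' Φ = y ℓ • Φ)
    (hcA : s41l_corA M r hrM 𝒪' Φ = 0) (hcB : s41l_corB M r hrM 𝒪' Φ = 0)
    (e : 𝒪') (hw : s41l_w M r hrM 𝒪' Φ = (-e) • Φ)
    (ρ : GaloisRepAdic 𝒪')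
    (hρ : ∀ ℓ : ℕ, ℓ.Prime → ℓ ∉ S → ∀ P : ValuationSubring Qbar, P.LiesOverPrime ℓ →
      ∀ σ : GQ, P.IsFrobeniusAt σ ℓ →
        LinearMap.charpoly (ρ.ρ σ) = X ^ 2 - C (y ℓ) * X + C ((ℓ : 𝒪')))
    (A : ValuationSubring Qbar) (hA : A.LiesOverPrime r) (σ : GQ) (hσ : A.IsFrobeniusAt σ r)
    (hNW : ∀ n : ℕ, s59sw_NWSigned M r hr.out hrM (p ^ n) σ) :
    LinearMap.charpoly (ρ.ρ σ) = X ^ 2 - C (e * ((r : 𝒪') + 1)) * X + C ((r : 𝒪')) := by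
  classical
  have hrpr : r.Prime := hr.out
  have hDens := s30d_densContract
  have hTwo := s30t2_twoC_of s30w_wilContract s30l_lattContract
  set Cy := s30y_cycDatum p with hCy
  have hconj := s30y_conj_datum p
  set f : ℤ_[p] →+* 𝒪' := algebraMap ℤ_[p] 𝒪' with hf
  have hfnat : ∀ m : ℕ, algebraMap ℤ_[p] 𝒪' (m : ℤ_[p]) = (m : 𝒪') := fun m => map_natCast _ m
  -- the base-changed Tate module
  set ρT : s29k_G →* Module.End 𝒪' (𝒪' ⊗[ℤ_[p]] s30a_TJ (M * r) p) :=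
    s30f_baseChange 𝒪' (s30a_rho (M * r) p) with hρT
  have hcont : GaloisActionIsAdicContinuous 𝒪' ρT :=
    s30f_continuous_baseChange p hp𝒪' (s30a_rho (M * r) p) (s30a_cont (M * r) p)
  -- the cyclotomic character
  set d : s29k_G →* 𝒪'ˣ := (Units.map (f : ℤ_[p] →* 𝒪')).comp Cy.ε with hd
  have hdval : ∀ τ : s29k_G, ((d τ : 𝒪'ˣ) : 𝒪') = f ((Cy.ε τ : ℤ_[p]ˣ) : ℤ_[p]) := fun τ => rfl
  have hdcont : s30_CharContinuous d := by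
    intro n
    obtain ⟨L, hL, -, h1⟩ := Cy.cont n
    refine ⟨L, hL, fun τ hτ => ?_⟩
    obtain ⟨w, hw⟩ := h1 τ hτ
    have : ((d τ : 𝒪'ˣ) : 𝒪') - 1 = (p : 𝒪') ^ n * f w := by
      rw [hdval, ← map_one f, ← map_sub, hw, map_mul, map_pow, map_natCast]
    rw [this]
    exact Ideal.mul_mem_right _ _ (Ideal.pow_mem_pow hp𝒪' n)
  have hdcc : d complexConjugation = -1 := by
    apply Units.ext
    rw [hdval, hconj]
    simp
  -- the eigen-system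
  let ι : Type := {ℓ : ℕ // ℓ.Prime ∧ ¬ ℓ ∣ (M * r) ∧ ℓ ∉ (↑S : Set ℕ)}
  let T₀ : ι → Module.End ℤ_[p] (s30a_TJ (M * r) p) := fun i => s30a_Tz (M * r) p ⟨i.1, i.2.1⟩
  let T : ι → Module.End 𝒪' (𝒪' ⊗[ℤ_[p]] s30a_TJ (M * r) p) := fun i => (T₀ i).baseChange 𝒪'
  let c : ι → 𝒪' := fun i => y i.1
  have hcomm₀ : ∀ (τ : s29k_G) (i : ι), Commute (s30a_rho (M * r) p τ) (T₀ i) := fun τ i =>
    s30a_Tz_comm (M * r) p ⟨i.1, i.2.1⟩ τ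
  have hcomm : ∀ (τ : s29k_G) (i : ι), Commute (ρT τ) (T i) := fun τ i =>
    s30f_baseChange_commute 𝒪' (hcomm₀ τ i)
  -- the kernel-new eigenvector, with its sign
  obtain ⟨v, hv0, hv, hvα, hvβ, hvw⟩ := s59sw_hnewR M r hrM p (↑S : Set ℕ) 𝒪' Φ hΦ hΦ0 y
    (fun ℓ _ hℓN hℓS => hT ℓ hℓN (fun h => hℓS (Finset.mem_coe.mpr h))) hcA hcB (-e) hw
  have hvE : v ∈ s30f_eigen T c := fun i => hv i.1 i.2.1 i.2.2.1 i.2.2.2
  -- signed NEW-WEIGHT on `v`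
  haveI : Module.Flat ℤ_[p] 𝒪' := s35k_padic_flat p 𝒪'
  set s : Module.End ℤ_[p] (s30a_TJ (M * r) p) := s30a_rho (M * r) p σ with hs
  set W : Module.End ℤ_[p] (s30a_TJ (M * r) p) := s59sw_wT M r hrM p with hW
  have hWs : W * s = s * W := by
    apply LinearMap.ext
    intro x
    exact s59sw_wT_rho M r hrM p σ x
  have hP : (s * s + (((r + 1 : ℕ) : ℤ_[p])) • (W * s) +
      ((r : ℕ) : ℤ_[p]) • (1 : Module.End ℤ_[p] (s30a_TJ (M * r) p))).baseChange 𝒪' v = 0 :=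
    s35k_baseChange_eq_zero_of_mem_range 𝒪' _
      (LinearMap.ker (s35c_alphaT M r hrpr hrM p) ⊓ LinearMap.ker (s35c_betaT M r hrpr hrM p))
      (fun x hx => s59sw_NW_tate M r hrM p σ hNW x (LinearMap.mem_ker.mp hx.1)
        (LinearMap.mem_ker.mp hx.2)) v
      (s35k_mem_range_of_ker 𝒪' _ _ v hvα hvβ)
  have hrel : ρT σ (ρT σ v) - (e * ((r : 𝒪') + 1)) • ρT σ v + (r : 𝒪') • v = 0 := by
    have h1 := hP
    rw [hWs] at h1
    simp only [LinearMap.baseChange_add, LinearMap.baseChange_mul, LinearMap.baseChange_smul,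
      LinearMap.baseChange_one, LinearMap.add_apply, Module.End.mul_apply, LinearMap.smul_apply,
      Module.End.one_apply] at h1
    rw [hvw, map_smul] at h1
    have hsm1 : ∀ x : 𝒪' ⊗[ℤ_[p]] s30a_TJ (M * r) p,
        (((r + 1 : ℕ) : ℤ_[p])) • x = ((r : 𝒪') + 1) • x := fun x => by
      rw [algebra_compatible_smul 𝒪' (((r + 1 : ℕ) : ℤ_[p])) x, hfnat]
      push_cast
      rfl
    have hsm2 : ∀ x : 𝒪' ⊗[ℤ_[p]] s30a_TJ (M * r) p,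
        (((r : ℕ) : ℤ_[p])) • x = (r : 𝒪') • x := fun x => by
      rw [algebra_compatible_smul 𝒪' (((r : ℕ) : ℤ_[p])) x, hfnat]
    rw [hsm1, hsm2, smul_smul] at h1
    rw [s30f_baseChange_apply]
    rw [← h1]
    have : ((r : 𝒪') + 1) * -e = -(e * ((r : 𝒪') + 1)) := by ring
    rw [this, neg_smul]
    abel
  -- the Frobenius data
  have hgood : ∀ ℓ : ℕ, ℓ.Prime → ℓ ∉ S → ¬ ℓ ∣ (M * r) ∧ ℓ ≠ p := by
    intro ℓ hℓ hℓS
    exact ⟨fun h => hℓS (hNS ℓ hℓ h), fun h => hℓS (h ▸ hpS)⟩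
  have hndvd : ∀ ℓ : ℕ, ℓ.Prime → ¬ ℓ ∣ (M * r) → ℓ ≠ p → ¬ ℓ ∣ (M * r) * p := by
    intro ℓ hℓ h1 h2 h3
    rcases (Nat.Prime.dvd_mul hℓ).mp h3 with h | h
    · exact h1 h
    · exact h2 ((Nat.prime_dvd_prime_iff_eq hℓ (Fact.out : p.Prime)).mp h)
  have hfrob : ∀ ℓ : ℕ, ℓ.Prime → ℓ ∉ S →
      ∀ P : ValuationSubring (AlgebraicClosure ℚ), P.LiesOverPrime ℓ →
        ∀ τ : s29k_G, P.IsFrobeniusAt τ ℓ →
          (∀ w ∈ s30f_eigen T c, ρT τ (ρT τ w) - y ℓ • ρT τ w + (ℓ : 𝒪') • w = 0) ∧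
            ((d τ : 𝒪'ˣ) : 𝒪') = (ℓ : 𝒪') := by
    intro ℓ hℓ hℓS P hP τ hτ
    obtain ⟨hℓN, hℓp⟩ := hgood ℓ hℓ hℓS
    have hℓS' : ℓ ∉ (↑S : Set ℕ) := fun h => hℓS (Finset.mem_coe.mp h)
    refine ⟨fun w hw => ?_, ?_⟩
    · have hq := s30a_Tz_frobQuad (M * r) p ⟨ℓ, hℓ⟩ (hndvd ℓ hℓ hℓN hℓp) P hP τ hτ
      have hq' := congrArg (fun g : Module.End ℤ_[p] (s30a_TJ (M * r) p) => g.baseChange 𝒪' w) hq
      simp only [LinearMap.baseChange_add, LinearMap.baseChange_sub, LinearMap.baseChange_mul,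
        LinearMap.baseChange_smul, LinearMap.baseChange_one, LinearMap.baseChange_zero,
        LinearMap.add_apply, LinearMap.sub_apply, Module.End.mul_apply, LinearMap.smul_apply,
        Module.End.one_apply, LinearMap.zero_apply] at hq'
      have hTw : (s30a_Tz (M * r) p ⟨ℓ, hℓ⟩).baseChange 𝒪' (ρT τ w) = y ℓ • ρT τ w :=
        s30f_map_mem_eigen (fun i => hcomm τ i) hw ⟨ℓ, hℓ, hℓN, hℓS'⟩
      have hsm : (((ℓ : ℕ) : ℤ_[p])) • w = (ℓ : 𝒪') • w := by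
        rw [algebra_compatible_smul 𝒪' ((ℓ : ℕ) : ℤ_[p]) w, hfnat]
      rw [s30f_baseChange_apply] at hTw ⊢
      rw [hTw, hsm] at hq'
      exact hq'
    · rw [hdval, Cy.frob ℓ hℓ hℓp P hP τ hτ, map_natCast]
  obtain ⟨ρ'', hchar, hloc⟩ :=
    s59f_core2 hDens hTwo p hp𝒪' ρT hcont d hdcont complexConjugation complexConjugation_mul_self
      hdcc T c hcomm v hv0 hvE S y hfrob
  -- the local statement for `ρ''`
  have hdr : ((d σ : 𝒪'ˣ) : 𝒪') = (r : 𝒪') := by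
    rw [hdval, Cy.frob r hrpr hrp A hA σ hσ, map_natCast]
  have hloc' := hloc σ (r : 𝒪') (e * ((r : 𝒪') + 1)) hdr ⟨v, hvE, hv0, hrel⟩
  -- transfer to `ρ`
  have huniq : LinearMap.charpoly (ρ''.ρ σ) = LinearMap.charpoly (ρ.ρ σ) := by
    refine s59k_charpoly_unique' ρ'' ρ S ?_ σ
    intro ℓ hℓ hℓS P hP τ hτ
    rw [hchar ℓ hℓ hℓS P hP τ hτ, hρ ℓ hℓ hℓS P hP τ hτ]
  rw [← huniq]
  exact hloc'

/-- **[NEW-q₀±], `U_r`-form**: the same with `U_r Φ = e Φ` instead of `w^H Φ = −e Φ`. -/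
theorem s59sw_NEW0_U (M r : ℕ) [NeZero M] [NeZero r] [hr : Fact r.Prime] (hrp : r ≠ p)
    (hrM : ¬ r ∣ M)
    (S : Finset ℕ) (hpS : p ∈ S) (hNS : ∀ q : ℕ, q.Prime → q ∣ M * r → q ∈ S)
    (𝒪' : Type) [CommRing 𝒪'] [IsDomain 𝒪'] [IsDiscreteValuationRing 𝒪']
    [IsAdicComplete (maximalIdeal 𝒪') 𝒪'] [Finite (ResidueField 𝒪')]
    [CharZero 𝒪'] [Algebra ℤ_[p] 𝒪'] (hp𝒪' : (p : 𝒪') ∈ maximalIdeal 𝒪')
    (y : ℕ → 𝒪')
    (Φ : Additive (Gamma0 (M * r)) →+ 𝒪') (hΦ : IsParabolicHom (Gamma0 (M * r)) Φ) (hΦ0 : Φ ≠ 0)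
    (hT : ∀ (ℓ : ℕ) [Fact ℓ.Prime], ¬ ℓ ∣ M * r → ℓ ∉ S →
      s29h_heckeHom (M * r) ℓ 𝒪' Φ = y ℓ • Φ)
    (hcA : s41l_corA M r hrM 𝒪' Φ = 0) (hcB : s41l_corB M r hrM 𝒪' Φ = 0)
    (e : 𝒪') (hU : s41l_U M r 𝒪' Φ = e • Φ)
    (ρ : GaloisRepAdic 𝒪')
    (hρ : ∀ ℓ : ℕ, ℓ.Prime → ℓ ∉ S → ∀ P : ValuationSubring Qbar, P.LiesOverPrime ℓ →
      ∀ σ : GQ, P.IsFrobeniusAt σ ℓ →
        LinearMap.charpoly (ρ.ρ σ) = X ^ 2 - C (y ℓ) * X + C ((ℓ : 𝒪')))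
    (A : ValuationSubring Qbar) (hA : A.LiesOverPrime r) (σ : GQ) (hσ : A.IsFrobeniusAt σ r)
    (hNW : ∀ n : ℕ, s59sw_NWSigned M r hr.out hrM (p ^ n) σ) :
    LinearMap.charpoly (ρ.ρ σ) = X ^ 2 - C (e * ((r : 𝒪') + 1)) * X + C ((r : 𝒪')) := by
  have h1 := s41l_resA_corB M r hrM Φ
  rw [hcB, map_zero, hU] at h1
  have hw : s41l_w M r hrM 𝒪' Φ = (-e) • Φ := by
    rw [neg_smul]
    exact (eq_neg_of_add_eq_zero_right h1.symm)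
  exact s59sw_NEW0 p M r hrp hrM S hpS hNS 𝒪' hp𝒪' y Φ hΦ hΦ0 hT hcA hcB e hw ρ hρ A hA σ hσ hNW

end NewPt

end

end Fermat.Agent.Lib.S59
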