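/-
PROGRAMME (R2) = S59 / [S35±] (sign of Frobenius at `r ∥ level` = `U_r`), part 4 (helper1, prefix `s59sw_`):
**the twist chain carries the `w_r`-EIGENVALUE** (signed twin of helper4's FTwNew1–3).

helper4's state `s59f_IsStN` (kernel-new at `r`) + ONE more clause `w φ = c • φ` (`s59f_wH`).
* `s59sw_wH_tw` : `w (tw χ⁻¹ φ) = χ(r) • tw χ⁻¹ (w φ)`  (from helper4's `s59f_wH_cZ : w (c_v φ) = c_{r v} (w φ)`);
* `s59sw_IsStS`, `s59sw_isStS_res` (`c` unchanged), `s59sw_isStS_tw` (`c ↦ χ(r) c`);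
* `s59sw_StS` : existential form; `s59sw_StS_congr`, `s59sw_StS_step_res`, `s59sw_StS_step_tw`;
* `s59sw_TwistNew_aux` : the induction; after the twists by `χ_q`, `q ∈ S`: `c ↦ (∏_{q ∈ S} χ_q(r)) c`.
-/
import Mathlib
import Fermat.Agent.Lib.S59.FTwNew3

set_option autoImplicit false
set_option linter.unusedSectionVars false
set_option linter.unusedVariables false
set_option linter.style.haveILetI false
set_option linter.unnecessarySeqFocus false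

noncomputable section

namespace Fermat.Agent.Lib.S59

open CongruenceSubgroup ModularCurve.Period
open Fermat.Agent.Lib.ES Fermat.Agent.Lib.S29 Fermat.Agent.Lib.S41 Fermat.Agent.Lib.S48
open scoped MatrixGroups OnePoint

local notation "Mat2" => Matrix (Fin 2) (Fin 2) ℤ

/-! ### `w` and the twist -/

section WTw

variable {L₁ q r D : ℕ} [NeZero L₁] [hq : Fact q.Prime] [hr : Fact r.Prime]
  [NeZero (L₁ * q * q)] [NeZero (L₁ * r)] [NeZero (L₁ * r * q * q)]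
  (hrL : ¬ r ∣ L₁ * q * q) (hD : D ∣ L₁ * q) (hD' : D ∣ L₁ * r * q) (hqD : q ∣ D)
  {F : Type*} [Field F]

include hrL in
theorem s59sw_r_ne_zero : ((r : ℕ) : ZMod q) ≠ 0 := by
  rw [Ne, ZMod.natCast_eq_zero_iff]
  intro h
  have h1 : q = r := (Nat.prime_dvd_prime_iff_eq hq.out hr.out).mp h
  exact hrL (h1 ▸ dvd_mul_left q (L₁ * q))

/-- **`w (tw χ⁻¹ φ) = χ(r) • tw χ⁻¹ (w φ)`.** -/
theorem s59sw_wH_tw (χ : MulChar (ZMod q) F)
    (φ : Additive (s59u_G (L₁ * r * q * q) D (hD'.mul_right q)) →+ F) :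
    s59f_wH hrL (s59f_isG'_K' hrL hD hD') F (s59u_tw (s59u_twSetting hD' hqD) χ⁻¹ φ) =
      χ ((r : ℕ) : ZMod q) • s59u_tw (s59u_twSetting hD' hqD) χ⁻¹
        (s59f_wH hrL (s59f_isG'_K' hrL hD hD') F φ) := by
  haveI : NeZero q := ⟨hq.out.ne_zero⟩
  set hK := s59u_twSetting hD' hqD with hhK
  have hk0 : ∀ u : ℤ, s59f_k0 hrL u ∈ s59u_G (L₁ * r * q * q) D (hD'.mul_right q) :=
    fun u => s59f_k0_mem hrL s59f_lev_eq hD (hD'.mul_right q) u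
  have hr0 : ((r : ℕ) : ZMod q) ≠ 0 := s59sw_r_ne_zero hrL
  have hwsmul : ∀ (a : F) (ψ : Additive (s59u_G (L₁ * r * q * q) D (hD'.mul_right q)) →+ F),
      s59f_wH hrL (s59f_isG'_K' hrL hD hD') F (a • ψ) =
        a • s59f_wH hrL (s59f_isG'_K' hrL hD hD') F ψ := fun a ψ => by
    rw [s59f_wH, s48h_MatDatum.heckeHom_smul]
  have key : ∀ u : ZMod q, s59f_wH hrL (s59f_isG'_K' hrL hD hD') F (s59u_c hK F u φ) =
      s59u_c hK F (((r : ℕ) : ZMod q) * u) (s59f_wH hrL (s59f_isG'_K' hrL hD hD') F φ) := by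
    intro u
    rw [s59u_c, s59f_wH_cZ hrL hK (s59f_isG'_K' hrL hD hD') hk0, ← s59u_c_intCast]
    congr 2
    simp
  rw [s59u_tw, map_sum, s59u_tw, Finset.smul_sum]
  rw [← Fintype.sum_equiv (Equiv.mulLeft₀ _ hr0)
    (fun u => s59f_wH hrL (s59f_isG'_K' hrL hD hD') F (χ⁻¹ u • s59u_c hK F u φ))
    (fun u' => χ ((r : ℕ) : ZMod q) • (χ⁻¹ u' • s59u_c hK F u'
      (s59f_wH hrL (s59f_isG'_K' hrL hD hD') F φ)))]
  intro u
  rw [Equiv.mulLeft₀_apply]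
  beta_reduce
  rw [hwsmul, key, smul_smul]
  congr 1
  have hχr : χ ((r : ℕ) : ZMod q) * χ⁻¹ ((r : ℕ) : ZMod q) = 1 := by
    rw [MulChar.inv_apply_eq_inv']
    exact mul_inv_cancel₀ (IsUnit.map χ (IsUnit.mk0 _ hr0)).ne_zero
  rw [map_mul, ← mul_assoc, hχr, one_mul]

end WTw

/-! ### The signed state, explicit form -/

section Def

variable {D : ℕ} {F : Type*} [Field F] {r : ℕ} [hr : Fact r.Prime] {Lev₁ Lev : ℕ} [NeZero Lev₁]
  [NeZero Lev]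

/-- **the state with kernel-newness at `r` and `w`-eigenvalue `c`**, explicit form. -/
def s59sw_IsStS (hrL : ¬ r ∣ Lev₁) (hLev : Lev = Lev₁ * r) (hD₁ : D ∣ Lev₁) (hD : D ∣ Lev)
    (ψ : ℤ → F) (x : ℕ → F) (c : F) (φ : Additive (s59u_G Lev D hD) →+ F) : Prop :=
  s59f_IsStN hrL hLev hD₁ hD ψ x φ ∧
    s59f_wH hrL (s59f_isG'_uG hrL hLev hD₁ hD) F φ = c • φ

end Def

section Steps

variable {L₁ q r D : ℕ} [NeZero L₁] [hq : Fact q.Prime] [hr : Fact r.Prime]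
  (hrL₀ : ¬ r ∣ L₁ * q) (hrL : ¬ r ∣ L₁ * q * q) (hD : D ∣ L₁ * q) (hD' : D ∣ L₁ * r * q)
  {F : Type*} [Field F] [CharZero F]

/-- `w (res φ) = c • res φ`. -/
theorem s59sw_wH_res (c : F) (φ : Additive (s59u_G (L₁ * r * q) D hD') →+ F)
    (hw : s59f_wH hrL₀ (s59f_isG'_uG hrL₀ s59f_lev_eq₀ hD hD') F φ = c • φ) :
    s59f_wH hrL (s59f_isG'_K' hrL hD hD') F (s59u_res (s59u_K_le_G hD') F φ) =
      c • s59u_res (s59u_K_le_G hD') F φ := by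
  have hL : L₁ * q ∣ L₁ * q * q := dvd_mul_right _ _
  have hG₀' := s59f_isG'_uG hrL₀ s59f_lev_eq₀ hD hD'
  have hG' := s59f_isG'_K' hrL hD hD'
  have hle' : s59u_G (L₁ * r * q * q) D (hD'.mul_right q) ≤ s59u_G (L₁ * r * q) D hD' :=
    s59u_K_le_G hD'
  have h2 := s59f_wH_resX hrL₀ hrL hL hG₀' hG' hle' φ
  have h3 : s59f_wH hrL hG' F (s59t_resG hle' F φ) = c • s59t_resG hle' F φ := by
    rw [h2, hw]
    rfl
  exact h3

/-- **the restriction step** (`c` unchanged). -/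
theorem s59sw_isStS_res (ψ : ℤ → F) (x : ℕ → F) (c : F)
    (φ : Additive (s59u_G (L₁ * r * q) D hD') →+ F)
    (h : s59sw_IsStS hrL₀ s59f_lev_eq₀ hD hD' ψ x c φ) :
    s59sw_IsStS hrL s59f_lev_eq (hD.mul_right q) (hD'.mul_right q) ψ x c
      (s59u_res (s59u_K_le_G hD') F φ) :=
  ⟨s59f_isStN_res hrL₀ hrL hD hD' ψ x φ h.1, s59sw_wH_res hrL₀ hrL hD hD' c φ h.2⟩

/-- **the twist step** (`c ↦ χ(r) c`). -/
theorem s59sw_isStS_tw (hqD : q ∣ D) (χ : MulChar (ZMod q) F) (hχ : χ ≠ 1) (ψ : ℤ → F)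
    (x : ℕ → F) (c : F) (hψper : ∀ a b : ℤ, ((L₁ * r * q : ℕ) : ℤ) ∣ a - b → ψ a = ψ b)
    (hψ : ∃ d : ℤ, ((L₁ * r : ℕ) : ℤ) ∣ d - 1 ∧ IsCoprime d (q : ℤ) ∧ ψ d ≠ 1)
    (φ : Additive (s59u_G (L₁ * r * q) D hD') →+ F)
    (h : s59sw_IsStS hrL₀ s59f_lev_eq₀ hD hD' ψ x c φ) :
    s59sw_IsStS hrL s59f_lev_eq (hD.mul_right q) (hD'.mul_right q)
      (fun d => ψ d * χ ((d : ℤ) : ZMod q) ^ 2) (fun ℓ => χ (ℓ : ZMod q) * x ℓ)
      (χ ((r : ℕ) : ZMod q) * c)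
      (s59u_tw (s59u_twSetting hD' hqD) χ⁻¹ (s59u_res (s59u_K_le_G hD') F φ)) := by
  haveI : NeZero (L₁ * q * q) :=
    ⟨mul_ne_zero (mul_ne_zero (NeZero.ne L₁) hq.out.ne_zero) hq.out.ne_zero⟩
  haveI : NeZero (L₁ * r) := ⟨mul_ne_zero (NeZero.ne L₁) hr.out.ne_zero⟩
  haveI : NeZero (L₁ * r * q * q) :=
    ⟨mul_ne_zero (mul_ne_zero (NeZero.ne (L₁ * r)) hq.out.ne_zero) hq.out.ne_zero⟩
  refine ⟨s59f_isStN_tw hrL₀ hrL hD hD' hqD χ hχ ψ x hψper hψ φ h.1, ?_⟩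
  rw [s59sw_wH_tw hrL hD hD' hqD χ, s59sw_wH_res hrL₀ hrL hD hD' c φ h.2, s59u_tw_smul, smul_smul]

end Steps

/-! ### The existential signed state -/

section Ex

variable {D : ℕ} {F : Type*} [Field F] {r : ℕ} [hr : Fact r.Prime]

/-- **the signed state** at the level `Lev` (which contains `r` exactly once). -/
def s59sw_StS (D : ℕ) (F : Type*) [Field F] (r : ℕ) [Fact r.Prime] (Lev : ℕ) (ψ : ℤ → F)
    (x : ℕ → F) (c : F) : Prop :=
  ∃ (Lev₁ : ℕ) (_ : NeZero Lev₁) (_ : NeZero Lev) (hrL : ¬ r ∣ Lev₁) (hLev : Lev = Lev₁ * r)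
    (hD₁ : D ∣ Lev₁) (hD : D ∣ Lev) (φ : Additive (s59u_G Lev D hD) →+ F),
    s59sw_IsStS hrL hLev hD₁ hD ψ x c φ

theorem s59sw_StS_congr {Lev : ℕ} {ψ ψ' : ℤ → F} {x x' : ℕ → F} {c c' : F}
    (hψ : ∀ d : ℤ, IsCoprime d (Lev : ℤ) → ψ d = ψ' d)
    (hx : ∀ ℓ : ℕ, ℓ.Prime → ¬ ℓ ∣ Lev → x ℓ = x' ℓ) (hc : c = c')
    (h : s59sw_StS D F r Lev ψ x c) : s59sw_StS D F r Lev ψ' x' c' := by
  subst hc
  obtain ⟨Lev₁, i1, i2, hrL, hLev, hD₁, hD, φ, ⟨h0, hpar, hdiam, heig, hA, hB⟩, hw⟩ := h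
  refine ⟨Lev₁, i1, i2, hrL, hLev, hD₁, hD, φ, ⟨h0, hpar, fun σ hσ => ?_,
    fun ℓ _ hℓ σ hσ hσ11 => ?_, hA, hB⟩, hw⟩
  · rw [hdiam σ hσ, hψ _ (s59u_coprime_lowerRight hσ)]
  · rw [heig ℓ hℓ σ hσ hσ11, hx ℓ Fact.out hℓ]

variable [CharZero F]

/-- **the restriction step**, existential form. -/
theorem s59sw_StS_step_res {L₀ q : ℕ} [hq : Fact q.Prime] (hrL₀ : r ∣ L₀) (ψ : ℤ → F)
    (x : ℕ → F) (c : F) (h : s59sw_StS D F r (L₀ * q) ψ x c) :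
    s59sw_StS D F r (L₀ * q * q) ψ x c := by
  obtain ⟨Lev₁, i1, i2, hrL, hLev, hD₁, hD, φ, h⟩ := h
  obtain ⟨L₁, rfl, rfl⟩ := s59f_lev_shape hrL₀ hLev
  haveI : NeZero L₁ := ⟨fun h0 => i1.out (by rw [h0, zero_mul])⟩
  exact ⟨L₁ * q * q, inferInstance, inferInstance, s59f_not_dvd_qq hrL, s59f_lev_eq,
    hD₁.mul_right q, hD.mul_right q, _,
    s59sw_isStS_res hrL (s59f_not_dvd_qq hrL) hD₁ hD ψ x c φ h⟩

/-- **the twist step**, existential form. -/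
theorem s59sw_StS_step_tw {L₀ q : ℕ} [hq : Fact q.Prime] (hrL₀ : r ∣ L₀) (hqD : q ∣ D)
    (χ : MulChar (ZMod q) F) (hχ : χ ≠ 1) (ψ : ℤ → F) (x : ℕ → F) (c : F)
    (hψper : ∀ a b : ℤ, ((L₀ * q : ℕ) : ℤ) ∣ a - b → ψ a = ψ b)
    (hψ : ∃ d : ℤ, (L₀ : ℤ) ∣ d - 1 ∧ IsCoprime d (q : ℤ) ∧ ψ d ≠ 1)
    (h : s59sw_StS D F r (L₀ * q) ψ x c) :
    s59sw_StS D F r (L₀ * q * q) (fun d => ψ d * χ ((d : ℤ) : ZMod q) ^ 2)
      (fun ℓ => χ (ℓ : ZMod q) * x ℓ) (χ ((r : ℕ) : ZMod q) * c) := by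
  obtain ⟨Lev₁, i1, i2, hrL, hLev, hD₁, hD, φ, h⟩ := h
  obtain ⟨L₁, rfl, rfl⟩ := s59f_lev_shape hrL₀ hLev
  haveI : NeZero L₁ := ⟨fun h0 => i1.out (by rw [h0, zero_mul])⟩
  exact ⟨L₁ * q * q, inferInstance, inferInstance, s59f_not_dvd_qq hrL, s59f_lev_eq,
    hD₁.mul_right q, hD.mul_right q, _,
    s59sw_isStS_tw hrL (s59f_not_dvd_qq hrL) hD₁ hD hqD χ hχ ψ x c hψper hψ φ h⟩

end Ex

/-! ### The induction -/

section Ind

variable (N : ℕ) [NeZero N] (Q : Finset ℕ) {F : Type*} [Field F] [CharZero F]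
  (r : ℕ) [hr : Fact r.Prime]

/-- **the induction of the twist chain for the signed state.** -/
theorem s59sw_TwistNew_aux (hrN : r ∣ N) (hQ : ∀ q ∈ Q, q.Prime ∧ ¬ q ∣ N)
    (χ : ∀ q : ℕ, MulChar (ZMod q) F) (hχ : ∀ q ∈ Q, χ q = 1 ∨ (χ q) ^ 2 ≠ 1)
    (ψ : ℤ → F) (hψper : ∀ a b : ℤ, ((N * ∏ q ∈ Q, q : ℕ) : ℤ) ∣ a - b → ψ a = ψ b)
    (hψχ : ∀ d : ℤ, IsCoprime d ((N * ∏ q ∈ Q, q : ℕ) : ℤ) →
      ψ d * ∏ q ∈ Q, (χ q ((d : ℤ) : ZMod q)) ^ 2 = 1)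
    (x : ℕ → F) (c : F) (h0 : s59sw_StS (∏ q ∈ Q, q) F r (N * ∏ q ∈ Q, q) ψ x c) :
    ∀ S : Finset ℕ, S ⊆ Q → s59sw_StS (∏ q ∈ Q, q) F r (N * (∏ q ∈ Q, q) * ∏ q ∈ S, q)
      (fun d => ψ d * ∏ q ∈ S, (χ q ((d : ℤ) : ZMod q)) ^ 2)
      (fun ℓ => (∏ q ∈ S, χ q (ℓ : ZMod q)) * x ℓ)
      ((∏ q ∈ S, χ q ((r : ℕ) : ZMod q)) * c) := by
  classical
  intro S
  induction S using Finset.induction_on with
  | empty =>
    intro _
    simpa using h0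
  | insert q S hqS ih =>
    intro hsub
    have hqQ : q ∈ Q := hsub (Finset.mem_insert_self q S)
    have hSQ : S ⊆ Q := fun a ha => hsub (Finset.mem_insert_of_mem ha)
    have ih' := ih hSQ
    haveI : Fact q.Prime := ⟨(hQ q hqQ).1⟩
    set L₀ : ℕ := N * (∏ q' ∈ Q.erase q, q') * ∏ q' ∈ S, q' with hL₀
    haveI : NeZero L₀ := ⟨mul_ne_zero (mul_ne_zero (NeZero.ne N)
      (s59u_prod_ne_zero N Q hQ _ (Finset.erase_subset _ _))) (s59u_prod_ne_zero N Q hQ S hSQ)⟩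
    have hrL₀ : r ∣ L₀ := (hrN.mul_right _).mul_right _
    have hQq : q * ∏ q' ∈ Q.erase q, q' = ∏ q' ∈ Q, q' := Finset.mul_prod_erase Q (fun q' => q') hqQ
    have hLev : N * (∏ q ∈ Q, q) * ∏ q ∈ S, q = L₀ * q := by rw [hL₀, ← hQq]; ring
    have hLev' : N * (∏ q ∈ Q, q) * ∏ q ∈ insert q S, q = L₀ * q * q := by
      rw [Finset.prod_insert hqS, ← hLev]; ring
    have hqD : q ∣ ∏ q' ∈ Q, q' := Finset.dvd_prod_of_mem (fun q' => q') hqQ
    have hcop : Nat.Coprime L₀ q := s59u_coprime_L0 N Q hQ S hSQ hqQ hqS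
    rw [hLev] at ih'
    rw [hLev']
    -- values at units
    have hunit : ∀ d : ℤ, IsCoprime d ((L₀ * q * q : ℕ) : ℤ) → IsUnit ((d : ℤ) : ZMod q) :=
      fun d hd => s59u_isUnit_cast_of_isCoprime (dvd_mul_left q (L₀ * q)) hd
    have hunitℓ : ∀ ℓ : ℕ, ℓ.Prime → ¬ ℓ ∣ L₀ * q * q → IsUnit ((ℓ : ℕ) : ZMod q) := by
      intro ℓ hℓ hℓL
      rw [ZMod.isUnit_iff_coprime]
      refine (Nat.coprime_primes hℓ (hQ q hqQ).1).mpr ?_
      rintro rfl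
      exact hℓL (dvd_mul_left _ _)
    have hunitr : IsUnit ((r : ℕ) : ZMod q) := by
      rw [ZMod.isUnit_iff_coprime]
      refine (Nat.coprime_primes hr.out (hQ q hqQ).1).mpr ?_
      rintro rfl
      exact (hQ r hqQ).2 hrN
    rcases hχ q hqQ with h1 | h2
    · -- restriction step
      refine s59sw_StS_congr (fun d hd => ?_) (fun ℓ hℓ hℓL => ?_) ?_
        (s59sw_StS_step_res hrL₀ _ _ _ ih')
      · show ψ d * _ = ψ d * _
        rw [Finset.prod_insert hqS, h1, MulChar.one_apply (hunit d hd), one_pow, one_mul]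
      · show _ * x ℓ = _ * x ℓ
        rw [Finset.prod_insert hqS, h1, MulChar.one_apply (hunitℓ ℓ hℓ hℓL), one_mul]
      · rw [Finset.prod_insert hqS, h1, MulChar.one_apply hunitr, one_mul]
    · -- twist step
      have hχ1 : χ q ≠ 1 := by
        rintro h
        rw [h, one_pow] at h2
        exact h2 rfl
      obtain ⟨a, ha⟩ := MulChar.ne_one_iff.mp h2
      rw [MulChar.pow_apply_coe] at ha
      obtain ⟨d, hd1, hda⟩ := s59u_exists_d L₀ q hcop (a : ZMod q)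
      have hMdvd : N * (∏ q' ∈ Q, q') ∣ L₀ * q := ⟨∏ q' ∈ S, q', hLev.symm⟩
      have hper : ∀ a b : ℤ, ((L₀ * q : ℕ) : ℤ) ∣ a - b →
          (fun d => ψ d * ∏ q' ∈ S, (χ q' ((d : ℤ) : ZMod q')) ^ 2) a
            = (fun d => ψ d * ∏ q' ∈ S, (χ q' ((d : ℤ) : ZMod q')) ^ 2) b := by
        intro a b hab
        show ψ a * _ = ψ b * _
        rw [hψper a b ((Int.natCast_dvd_natCast.mpr hMdvd).trans hab)]
        congr 1
        refine Finset.prod_congr rfl fun q' hq' => ?_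
        have hq'L : q' ∣ L₀ * q :=
          (Finset.dvd_prod_of_mem (fun q' => q') hq').trans ⟨N * ∏ q' ∈ Q, q', by rw [← hLev]; ring⟩
        have : ((a : ℤ) : ZMod q') = ((b : ℤ) : ZMod q') := by
          have h3 : (((a - b : ℤ)) : ZMod q') = 0 :=
            (ZMod.intCast_zmod_eq_zero_iff_dvd _ _).mpr
              ((Int.natCast_dvd_natCast.mpr hq'L).trans hab)
          push_cast at h3
          exact sub_eq_zero.mp h3
        rw [this]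
      have hψd : ∃ d : ℤ, (L₀ : ℤ) ∣ d - 1 ∧ IsCoprime d (q : ℤ) ∧
          (fun d => ψ d * ∏ q' ∈ S, (χ q' ((d : ℤ) : ZMod q')) ^ 2) d ≠ 1 := by
        refine ⟨d, hd1, ?_, ?_⟩
        · have hu : IsUnit ((d : ℤ) : ZMod q) := hda ▸ a.isUnit
          exact ((ZMod.coe_int_isUnit_iff_isCoprime d q).mp hu).symm
        · show ψ d * _ ≠ 1
          have hS1 : ∏ q' ∈ S, (χ q' ((d : ℤ) : ZMod q')) ^ 2 = 1 := by
            refine Finset.prod_eq_one fun q' hq' => ?_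
            rw [s59u_cast_eq_one_of_dvd ((Finset.dvd_prod_of_mem (fun q' => q') hq').trans
              (dvd_mul_left _ _)) hd1, map_one, one_pow]
          rw [hS1, mul_one]
          -- `ψ d * χ_q(a)² = 1`
          have hcopM : IsCoprime d ((N * ∏ q' ∈ Q, q' : ℕ) : ℤ) := by
            have h3 : IsCoprime d ((N * ∏ q' ∈ Q.erase q, q' : ℕ) : ℤ) :=
              s59u_isCoprime_of_dvd_sub_one
                ((Int.natCast_dvd_natCast.mpr (dvd_mul_right _ _)).trans hd1)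
            have h4 : IsCoprime d (q : ℤ) := by
              have hu : IsUnit ((d : ℤ) : ZMod q) := hda ▸ a.isUnit
              exact ((ZMod.coe_int_isUnit_iff_isCoprime d q).mp hu).symm
            have h5 : ((N * ∏ q' ∈ Q, q' : ℕ) : ℤ)
                = ((N * ∏ q' ∈ Q.erase q, q' : ℕ) : ℤ) * (q : ℤ) := by
              rw [← hQq]; push_cast; ring
            rw [h5]
            exact h3.mul_right h4
          have h6 := hψχ d hcopM
          rw [← Finset.mul_prod_erase Q _ hqQ] at h6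
          have hE1 : ∏ q' ∈ Q.erase q, (χ q' ((d : ℤ) : ZMod q')) ^ 2 = 1 := by
            refine Finset.prod_eq_one fun q' hq' => ?_
            rw [s59u_cast_eq_one_of_dvd (((Finset.dvd_prod_of_mem (fun q' => q') hq').trans
              (dvd_mul_left _ N)).trans (dvd_mul_right _ _)) hd1, map_one, one_pow]
          rw [hE1, mul_one, hda] at h6
          intro h7
          rw [h7, one_mul] at h6
          exact ha h6
      refine s59sw_StS_congr (fun d _ => ?_) (fun ℓ _ _ => ?_) ?_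
        (s59sw_StS_step_tw hrL₀ hqD (χ q) hχ1 _ _ _ hper hψd ih')
      · show ψ d * _ * _ = ψ d * _
        rw [Finset.prod_insert hqS]
        ring
      · show _ * (_ * x ℓ) = _ * x ℓ
        rw [Finset.prod_insert hqS]
        ring
      · rw [Finset.prod_insert hqS]
        ring

end Ind

end Fermat.Agent.Lib.S59
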