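/-
PROGRAMME (R2) = S59 / [S35±] (sign of Frobenius at `r ∥ level` = `U_r`), part 5 (helper1, prefix `s59sw_`):
**the twist chain carries the `w_r`-EIGENVALUE** (signed twin of helper4's FTwNew5): the initial state, the final
step and THE SIGNED CONTRACT `s59sw_TwistKerNewF` / `s59sw_TwistKerNew_int`:

a kernel-new eigenclass `φ` on `Γ_{H'}(L r)` with `w φ = c • φ` gives a kernel-new eigenclass `Φ` on `Γ₀(M' r)`,
`M' = N₁ ∏ q²`, with `T_ℓ Φ = (∏ χ_q(ℓ)) x_ℓ Φ` and **`w Φ = (∏ χ_q(r)) c • Φ`** (`s41l_w`).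
-/
import Mathlib
import Fermat.Agent.Lib.S59.FTwNew5
import Fermat.Agent.Lib.S59.GSwTw1

set_option autoImplicit false
set_option linter.unusedSectionVars false
set_option linter.unusedVariables false
set_option linter.style.haveILetI false
set_option linter.unnecessarySeqFocus false

noncomputable section

namespace Fermat.Agent.Lib.S59

open CongruenceSubgroup ModularCurve.Period
open Fermat.Agent.Lib.ES Fermat.Agent.Lib.S29 Fermat.Agent.Lib.S41 Fermat.Agent.Lib.S48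
open scoped MatrixGroups OnePoint

local notation "Mat2" => Matrix (Fin 2) (Fin 2) ℤ

section Init

variable {F : Type*} [Field F] [CharZero F] {r : ℕ} [hr : Fact r.Prime]

/-- **the initial signed state.** -/
theorem s59sw_StS_init {L D : ℕ} [NeZero L] (hrL : ¬ r ∣ L) (hD₁ : D ∣ L)
    (H : Subgroup (ZMod L)ˣ) (hH : s59u_ker L D hD₁ ≤ H)
    (H' : Subgroup (ZMod (L * r))ˣ)
    (hH' : ∀ u : (ZMod (L * r))ˣ, u ∈ H' ↔ ZMod.unitsMap (dvd_mul_right L r) u ∈ H)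
    {Lev : ℕ} (hLev : Lev = L * r) (ψ : ℤ → F) (x : ℕ → F) (c : F)
    (φ : Additive (s48h_GammaH (L * r) H') →+ F) (h0 : φ ≠ 0)
    (hpar : IsParabolicHom (s48h_GammaH (L * r) H') φ)
    (hdiam : ∀ (σ : SL(2, ℤ)) (hσ : σ ∈ Gamma0 (L * r)),
      s48h_diamondH H' σ hσ F φ = ψ (σ 1 1) • φ)
    (heig : ∀ (ℓ : ℕ) [Fact ℓ.Prime] (hℓ : ¬ ℓ ∣ L * r) (σ : SL(2, ℤ)) (hσ : σ ∈ Gamma0 (L * r))
      (hσ11 : ((σ 1 1 : ℤ) : ZMod (L * r)) = (ℓ : ZMod (L * r))),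
      s48h_TpH H' hℓ σ hσ hσ11 F φ = x ℓ • φ)
    (hA : s59f_corH hrL (s59f_isG_GammaH L H)
      (s59f_isG'_GammaH hrL rfl (dvd_mul_right L r) hH') F φ = 0)
    (hB : s59f_corH hrL (s59f_isG_GammaH L H)
      (s59f_isG'_GammaH hrL rfl (dvd_mul_right L r) hH') F
      (s59f_wH hrL (s59f_isG'_GammaH hrL rfl (dvd_mul_right L r) hH') F φ) = 0)
    (hw : s59f_wH hrL (s59f_isG'_GammaH hrL rfl (dvd_mul_right L r) hH') F φ = c • φ) :
    s59sw_StS D F r Lev ψ x c := by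
  subst hLev
  have hD : D ∣ L * r := hD₁.mul_right r
  have hH'' : s59u_ker (L * r) D hD ≤ H' := by
    intro u hu
    rw [hH']
    apply hH
    show ZMod.unitsMap hD₁ (ZMod.unitsMap (dvd_mul_right L r) u) = 1
    rw [← MonoidHom.comp_apply, ZMod.unitsMap_comp]
    exact hu
  have hKG : s59u_G (L * r) D hD ≤ s48h_GammaH (L * r) H' := s59u_GammaH_mono hH''
  have hle : s59u_G L D hD₁ ≤ s48h_GammaH L H := s59u_GammaH_mono hH
  have hG₀ := s59f_isG_GammaH L H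
  have hG₀' := s59f_isG'_GammaH hrL rfl (dvd_mul_right L r) hH'
  have hG := s59f_isG_uG (Lev := L) hD₁
  have hG' := s59f_isG'_uG hrL rfl hD₁ hD
  refine ⟨L, inferInstance, inferInstance, hrL, rfl, hD₁, hD, s59u_res hKG F φ, ⟨?_,
    s59u_res_isParabolic hKG hpar, fun σ hσ => ?_, fun ℓ _ hℓ σ hσ hσ11 => ?_, ?_, ?_⟩, ?_⟩
  · intro h
    exact h0 (s59u_res_injective (A := F) hKG s59u_G_index_ne_zero (by rw [h, map_zero]))
  · have h1 := s59u_res_heckeHom hKG (s48h_diamondDatum H' σ hσ)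
      (s59u_conjDatum (s59u_G (L * r) D hD) (σ : Mat2) (s59u_coe_det_ne σ) (s59u_gamma0_normG hσ))
      (fun _ => rfl) (fun _ _ => rfl) φ
    have h2 : (s48h_diamondDatum H' σ hσ).heckeHom F φ = ψ (σ 1 1) • φ := hdiam σ hσ
    rw [h2, s59u_res_smul] at h1
    exact h1.symm
  · have h1 := s59u_res_heckeHom hKG (s48h_TpDatum H' hℓ σ hσ hσ11)
      (s48h_TpDatum (s59u_ker (L * r) D hD) hℓ σ hσ hσ11) (fun _ => rfl) (fun _ _ => rfl) φ
    have h2 : (s48h_TpDatum H' hℓ σ hσ hσ11).heckeHom F φ = x ℓ • φ := heig ℓ hℓ σ hσ hσ11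
    rw [h2, s59u_res_smul] at h1
    exact h1.symm
  · have h1 := s59f_corH_resX hrL hrL (dvd_refl L) hG₀ hG₀' hG hG' hle hKG φ
    have : s59f_corH hrL hG hG' F (s59t_resG hKG F φ) = 0 := by rw [← h1, hA, map_zero]
    exact this
  · have h2 := s59f_wH_resX hrL hrL (dvd_refl L) hG₀' hG' hKG φ
    have h3 := s59f_corH_resX hrL hrL (dvd_refl L) hG₀ hG₀' hG hG' hle hKG (s59f_wH hrL hG₀' F φ)
    have : s59f_corH hrL hG hG' F (s59f_wH hrL hG' F (s59t_resG hKG F φ)) = 0 := by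
      rw [h2, ← h3, hB, map_zero]
    exact this
  · have h2 := s59f_wH_resX hrL hrL (dvd_refl L) hG₀' hG' hKG φ
    have : s59f_wH hrL hG' F (s59t_resG hKG F φ) = c • s59t_resG hKG F φ := by
      rw [h2, hw]
      rfl
    exact this

/-- **the final step**: a signed state with trivial diamond character gives a kernel-new eigenclass on
`Γ₀(M' r)` with `w Φ = c • Φ`. -/
theorem s59sw_StS_final {M' D : ℕ} [NeZero M'] (ψ : ℤ → F) (x : ℕ → F) (c : F)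
    (hψ1 : ∀ d : ℤ, IsCoprime d ((M' * r : ℕ) : ℤ) → ψ d = 1)
    (h : s59sw_StS D F r (M' * r) ψ x c) :
    ∃ (hrM : ¬ r ∣ M') (Φ : Additive (Gamma0 (M' * r)) →+ F), Φ ≠ 0 ∧
      IsParabolicHom (Gamma0 (M' * r)) Φ ∧
      (∀ (ℓ : ℕ) [Fact ℓ.Prime], ¬ ℓ ∣ M' * r → s29h_heckeHom (M' * r) ℓ F Φ = x ℓ • Φ) ∧
      s41l_corA M' r hrM F Φ = 0 ∧ s41l_corB M' r hrM F Φ = 0 ∧
      s41l_w M' r hrM F Φ = c • Φ := by
  obtain ⟨Lev₁, i1, i2, hrL, hLev, hD₁, hD, φ, ⟨h0, hpar, hdiam, heig, hA, hB⟩, hw⟩ := h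
  obtain rfl : Lev₁ = M' := (Nat.eq_of_mul_eq_mul_right hr.out.pos hLev).symm
  obtain ⟨Φ, hΦ⟩ := s59u_ext φ (fun σ hσ => by
    rw [hdiam σ hσ, hψ1 _ (s59u_coprime_lowerRight hσ), one_smul])
  have hle' : s59u_G (Lev₁ * r) D hD ≤ Gamma0 (Lev₁ * r) := s59u_G_le_gamma0
  have hle : s59u_G Lev₁ D hD₁ ≤ Gamma0 Lev₁ := s59u_G_le_gamma0
  have hinj' := s59u_res_injective (A := F) hle' s59u_G_index_ne_zero
  have hinj := s59u_res_injective (A := F) hle s59u_G_index_ne_zero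
  have hG₀ := s59f_isG_Gamma0 (M := Lev₁)
  have hG₀' := s59f_isG'_Gamma0 hrL
  have hG := s59f_isG_uG (Lev := Lev₁) hD₁
  have hG' := s59f_isG'_uG hrL hLev hD₁ hD
  have hΦ' : s59t_resG hle' F Φ = φ := hΦ
  have hA0 : s59f_corH hrL hG₀ hG₀' F Φ = 0 := by
    apply hinj
    have h1 := s59f_corH_resX hrL hrL (dvd_refl Lev₁) hG₀ hG₀' hG hG' hle hle' Φ
    rw [map_zero]
    refine Eq.trans h1 ?_
    rw [hΦ']
    exact hA
  have hB0 : s59f_corH hrL hG₀ hG₀' F (s59f_wH hrL hG₀' F Φ) = 0 := by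
    apply hinj
    have h2 := s59f_wH_resX hrL hrL (dvd_refl Lev₁) hG₀' hG' hle' Φ
    have h3 := s59f_corH_resX hrL hrL (dvd_refl Lev₁) hG₀ hG₀' hG hG' hle hle'
      (s59f_wH hrL hG₀' F Φ)
    rw [map_zero]
    refine Eq.trans h3 ?_
    rw [← h2, hΦ']
    exact hB
  have hW0 : s41l_w Lev₁ r hrL F Φ = c • Φ := by
    rw [← s59f_wH_Gamma0 hrL Φ]
    apply hinj'
    have h2 := s59f_wH_resX hrL hrL (dvd_refl Lev₁) hG₀' hG' hle' Φ
    have h4 : s59t_resG hle' F (s59f_wH hrL hG₀' F Φ) = c • s59t_resG hle' F Φ := by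
      rw [← h2, hΦ']
      exact hw
    exact h4
  obtain ⟨hcA, hcB⟩ := s59f_ker_Gamma0 hrL Φ hA0 hB0
  refine ⟨hrL, Φ, ?_, ?_, ?_, hcA, hcB, hW0⟩
  · rintro rfl
    rw [map_zero] at hΦ
    exact h0 hΦ.symm
  · exact s59u_parabolic_of_res hle' s59u_G_index_ne_zero Φ (by rw [hΦ]; exact hpar)
  · intro ℓ _ hℓ
    obtain ⟨σ, hσ, hσ11⟩ := s48h_exists_sigma_p (M := Lev₁ * r) hℓ
    apply hinj'
    have h1 := s59u_res_s29h (s59u_ker (Lev₁ * r) D hD) hℓ σ hσ hσ11 Φ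
    have h2 : s59u_res (s48h_GammaH_le_Gamma0 (H := s59u_ker (Lev₁ * r) D hD)) F Φ = φ := hΦ
    rw [h2, heig ℓ hℓ σ hσ hσ11] at h1
    rw [s59u_res_smul, hΦ]
    exact h1

end Init

/-! ### The signed contract, field form -/

section Main

variable (N₁ : ℕ) [NeZero N₁] (r : ℕ) [hr : Fact r.Prime] (Q : Finset ℕ) {F : Type*} [Field F]
  [CharZero F]

/-- **THE SIGNED TWIST CONTRACT over a field of characteristic zero.** -/
theorem s59sw_TwistKerNewF (hQ : ∀ q ∈ Q, q.Prime ∧ ¬ q ∣ N₁ * r)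
    {L : ℕ} [NeZero L] (hL : L = N₁ * ∏ q ∈ Q, q) (hrL : ¬ r ∣ L)
    (H : Subgroup (ZMod L)ˣ) (hD₁ : (∏ q ∈ Q, q) ∣ L)
    (hHker : s59u_ker L (∏ q ∈ Q, q) hD₁ ≤ H)
    (H' : Subgroup (ZMod (L * r))ˣ)
    (hH' : ∀ u : (ZMod (L * r))ˣ, u ∈ H' ↔ ZMod.unitsMap (dvd_mul_right L r) u ∈ H)
    (χ : ∀ q : ℕ, MulChar (ZMod q) F) (hχ : ∀ q ∈ Q, χ q = 1 ∨ (χ q) ^ 2 ≠ 1)
    (ψ : ℤ → F) (hψper : ∀ a b : ℤ, ((L * r : ℕ) : ℤ) ∣ a - b → ψ a = ψ b)
    (hψχ : ∀ d : ℤ, IsCoprime d ((L * r : ℕ) : ℤ) →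
      ψ d * ∏ q ∈ Q, (χ q ((d : ℤ) : ZMod q)) ^ 2 = 1)
    (x : ℕ → F) (c : F) (φ : Additive (s48h_GammaH (L * r) H') →+ F) (hφ0 : φ ≠ 0)
    (hpar : IsParabolicHom (s48h_GammaH (L * r) H') φ)
    (hdiam : ∀ (σ : SL(2, ℤ)) (hσ : σ ∈ Gamma0 (L * r)),
      s48h_diamondH H' σ hσ F φ = ψ (σ 1 1) • φ)
    (heig : ∀ (ℓ : ℕ) [Fact ℓ.Prime] (hℓ : ¬ ℓ ∣ L * r) (σ : SL(2, ℤ)) (hσ : σ ∈ Gamma0 (L * r))
      (hσ11 : ((σ 1 1 : ℤ) : ZMod (L * r)) = (ℓ : ZMod (L * r))),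
      s48h_TpH H' hℓ σ hσ hσ11 F φ = x ℓ • φ)
    (hA : s59f_corH hrL (s59f_isG_GammaH L H)
      (s59f_isG'_GammaH hrL rfl (dvd_mul_right L r) hH') F φ = 0)
    (hB : s59f_corH hrL (s59f_isG_GammaH L H)
      (s59f_isG'_GammaH hrL rfl (dvd_mul_right L r) hH') F
      (s59f_wH hrL (s59f_isG'_GammaH hrL rfl (dvd_mul_right L r) hH') F φ) = 0)
    (hw : s59f_wH hrL (s59f_isG'_GammaH hrL rfl (dvd_mul_right L r) hH') F φ = c • φ)
    (M' : ℕ) [NeZero M'] (hM' : M' = N₁ * (∏ q ∈ Q, q) * ∏ q ∈ Q, q) :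
    ∃ (hrM : ¬ r ∣ M') (Φ : Additive (Gamma0 (M' * r)) →+ F), Φ ≠ 0 ∧
      IsParabolicHom (Gamma0 (M' * r)) Φ ∧
      (∀ (ℓ : ℕ) [Fact ℓ.Prime], ¬ ℓ ∣ M' * r →
        s29h_heckeHom (M' * r) ℓ F Φ = ((∏ q ∈ Q, χ q (ℓ : ZMod q)) * x ℓ) • Φ) ∧
      s41l_corA M' r hrM F Φ = 0 ∧ s41l_corB M' r hrM F Φ = 0 ∧
      s41l_w M' r hrM F Φ = ((∏ q ∈ Q, χ q ((r : ℕ) : ZMod q)) * c) • Φ := by
  classical
  haveI : NeZero (N₁ * r) := ⟨mul_ne_zero (NeZero.ne N₁) hr.out.ne_zero⟩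
  have hlev0 : N₁ * r * ∏ q ∈ Q, q = L * r := by rw [hL]; ring
  have h0 : s59sw_StS (∏ q ∈ Q, q) F r (N₁ * r * ∏ q ∈ Q, q) ψ x c :=
    s59sw_StS_init hrL hD₁ H hHker H' hH' hlev0 ψ x c φ hφ0 hpar hdiam heig hA hB hw
  have h1 := s59sw_TwistNew_aux (N₁ * r) Q r (dvd_mul_left r N₁) hQ χ hχ ψ
    (by rw [hlev0]; exact hψper) (by rw [hlev0]; exact hψχ) x c h0 Q (Finset.Subset.refl Q)
  have hlev : N₁ * r * (∏ q ∈ Q, q) * ∏ q ∈ Q, q = M' * r := by rw [hM']; ring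
  rw [hlev] at h1
  have hdvd : L * r ∣ M' * r := by
    rw [hM', hL]
    exact Nat.mul_dvd_mul_right (dvd_mul_right _ _) r
  exact s59sw_StS_final _ _ _ (fun d hd => hψχ d (hd.of_isCoprime_of_dvd_right
    (Int.natCast_dvd_natCast.mpr hdvd))) h1

end Main

/-! ### Clearing denominators -/

section Descend

variable (M r : ℕ) [NeZero M] [hr : Fact r.Prime] (hrM : ¬ r ∣ M)
  (R : Type*) [CommRing R] [IsDomain R] {F : Type*} [Field F] [Algebra R F] [IsFractionRing R F]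

/-- **descent of a signed kernel-new eigenclass from `Frac R` to `R`.** -/
theorem s59sw_new_descend (y : ℕ → R) (c : R)
    (Φ : Additive (Gamma0 (M * r)) →+ F) (hΦ0 : Φ ≠ 0)
    (hpar : IsParabolicHom (Gamma0 (M * r)) Φ)
    (hT : ∀ (ℓ : ℕ) [Fact ℓ.Prime], ¬ ℓ ∣ M * r →
      s29h_heckeHom (M * r) ℓ F Φ = algebraMap R F (y ℓ) • Φ)
    (hA : s41l_corA M r hrM F Φ = 0) (hB : s41l_corB M r hrM F Φ = 0)
    (hW : s41l_w M r hrM F Φ = algebraMap R F c • Φ) :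
    ∃ Φ' : Additive (Gamma0 (M * r)) →+ R, Φ' ≠ 0 ∧ IsParabolicHom (Gamma0 (M * r)) Φ' ∧
      (∀ (ℓ : ℕ) [Fact ℓ.Prime], ¬ ℓ ∣ M * r → s29h_heckeHom (M * r) ℓ R Φ' = y ℓ • Φ') ∧
      s41l_corA M r hrM R Φ' = 0 ∧ s41l_corB M r hrM R Φ' = 0 ∧
      s41l_w M r hrM R Φ' = c • Φ' := by
  classical
  haveI : NeZero (M * r) := ⟨mul_ne_zero (NeZero.ne M) hr.out.ne_zero⟩
  haveI : Group.FG (Gamma0 (M * r)) := Fermat.Agent.Lib.ES.groupFG_Gamma0 (M * r)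
  obtain ⟨d, Φ', hd0, hdF, hΦ'⟩ := s59u_exists_integral (G := Gamma0 (M * r)) R Φ
  have hinj : Function.Injective (algebraMap R F) := IsFractionRing.injective R F
  let ι : R →+ F := (algebraMap R F).toAddMonoidHom
  have hιinj : Function.Injective ι := hinj
  have hcomp : ι.comp Φ' = algebraMap R F d • Φ := by
    refine AddMonoidHom.ext fun γ => ?_
    rw [AddMonoidHom.comp_apply, AddMonoidHom.smul_apply, smul_eq_mul]
    exact hΦ' γ
  have hpost : ∀ {Γ : Subgroup SL(2, ℤ)} (a b : Additive Γ →+ R), ι.comp a = ι.comp b → a = b := by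
    intro Γ a b h
    refine AddMonoidHom.ext fun γ => hιinj ?_
    have := DFunLike.congr_fun h γ
    simpa using this
  refine ⟨Φ', ?_, ?_, ?_, ?_, ?_, ?_⟩
  · rintro rfl
    apply hΦ0
    refine AddMonoidHom.ext fun γ => ?_
    have h := hΦ' γ
    rw [AddMonoidHom.zero_apply, map_zero] at h
    rcases mul_eq_zero.mp h.symm with h | h
    · exact absurd h hdF
    · rw [h, AddMonoidHom.zero_apply]
  · intro γ hγ
    apply hinj
    rw [hΦ' (Additive.ofMul γ), hpar γ hγ, mul_zero, map_zero]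
  · intro ℓ _ hℓ
    apply hpost
    rw [← s29h_heckeHom_comp, hcomp, s29h_heckeHom_smul, hT ℓ hℓ]
    refine AddMonoidHom.ext fun γ => ?_
    simp only [AddMonoidHom.comp_apply, AddMonoidHom.smul_apply, smul_eq_mul]
    have h1 : ι (y ℓ * Φ' γ) = algebraMap R F (y ℓ) * ι (Φ' γ) := map_mul (algebraMap R F) _ _
    have h2 : ι (Φ' γ) = algebraMap R F d * Φ γ := hΦ' γ
    rw [h1, h2]
    ring
  · apply hpost
    have h := (s41l_famCorA M r hrM).op_natural ι Φ'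
    change s41l_corA M r hrM F (ι.comp Φ') = ι.comp (s41l_corA M r hrM R Φ') at h
    rw [← h, hcomp]
    have hs : s41l_corA M r hrM F (algebraMap R F d • Φ) =
        algebraMap R F d • s41l_corA M r hrM F Φ := by
      refine AddMonoidHom.ext fun γ => ?_
      obtain ⟨γ, rfl⟩ := Additive.ofMul.surjective γ
      rw [AddMonoidHom.smul_apply]
      change (s41l_famCorA M r hrM).op F _ _ = _ • (s41l_famCorA M r hrM).op F _ _
      rw [s41l_Fam.op_apply, s41l_Fam.op_apply, Finset.smul_sum]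
      rfl
    rw [hs, hA, smul_zero, AddMonoidHom.comp_zero]
  · apply hpost
    have h := (s41l_famCorB M r hrM).op_natural ι Φ'
    change s41l_corB M r hrM F (ι.comp Φ') = ι.comp (s41l_corB M r hrM R Φ') at h
    rw [← h, hcomp]
    have hs : s41l_corB M r hrM F (algebraMap R F d • Φ) =
        algebraMap R F d • s41l_corB M r hrM F Φ := by
      refine AddMonoidHom.ext fun γ => ?_
      obtain ⟨γ, rfl⟩ := Additive.ofMul.surjective γ
      rw [AddMonoidHom.smul_apply]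
      change (s41l_famCorB M r hrM).op F _ _ = _ • (s41l_famCorB M r hrM).op F _ _
      rw [s41l_Fam.op_apply, s41l_Fam.op_apply, Finset.smul_sum]
      rfl
    rw [hs, hB, smul_zero, AddMonoidHom.comp_zero]
  · apply hpost
    have h := (s41l_famW M r hrM).op_natural ι Φ'
    change s41l_w M r hrM F (ι.comp Φ') = ι.comp (s41l_w M r hrM R Φ') at h
    rw [← h, hcomp]
    have hs : s41l_w M r hrM F (algebraMap R F d • Φ) =
        algebraMap R F d • s41l_w M r hrM F Φ := by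
      refine AddMonoidHom.ext fun γ => ?_
      obtain ⟨γ, rfl⟩ := Additive.ofMul.surjective γ
      rw [AddMonoidHom.smul_apply, s41l_w_apply, s41l_w_apply, AddMonoidHom.smul_apply]
    rw [hs, hW]
    refine AddMonoidHom.ext fun γ => ?_
    simp only [AddMonoidHom.comp_apply, AddMonoidHom.smul_apply, smul_eq_mul]
    have h1 : ι (c * Φ' γ) = algebraMap R F c * ι (Φ' γ) := map_mul (algebraMap R F) _ _
    have h2 : ι (Φ' γ) = algebraMap R F d * Φ γ := hΦ' γ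
    rw [h1, h2]
    ring

end Descend

/-! ### The signed contract, integral form -/

section MainInt

variable (N₁ : ℕ) [NeZero N₁] (r : ℕ) [hr : Fact r.Prime] (Q : Finset ℕ)
  (R : Type*) [CommRing R] [IsDomain R] [CharZero R]

/-- **THE SIGNED TWIST CONTRACT over a domain `R` of characteristic zero.** -/
theorem s59sw_TwistKerNew_int (hQ : ∀ q ∈ Q, q.Prime ∧ ¬ q ∣ N₁ * r)
    {L : ℕ} [NeZero L] (hL : L = N₁ * ∏ q ∈ Q, q) (hrL : ¬ r ∣ L)
    (H : Subgroup (ZMod L)ˣ) (hD₁ : (∏ q ∈ Q, q) ∣ L)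
    (hHker : s59u_ker L (∏ q ∈ Q, q) hD₁ ≤ H)
    (H' : Subgroup (ZMod (L * r))ˣ)
    (hH' : ∀ u : (ZMod (L * r))ˣ, u ∈ H' ↔ ZMod.unitsMap (dvd_mul_right L r) u ∈ H)
    (χ : ∀ q : ℕ, MulChar (ZMod q) R) (hχ : ∀ q ∈ Q, χ q = 1 ∨ (χ q) ^ 2 ≠ 1)
    (ψ : ℤ → R) (hψper : ∀ a b : ℤ, ((L * r : ℕ) : ℤ) ∣ a - b → ψ a = ψ b)
    (hψχ : ∀ d : ℤ, IsCoprime d ((L * r : ℕ) : ℤ) →
      ψ d * ∏ q ∈ Q, (χ q ((d : ℤ) : ZMod q)) ^ 2 = 1)
    (x : ℕ → R) (c : R) (φ : Additive (s48h_GammaH (L * r) H') →+ R) (hφ0 : φ ≠ 0)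
    (hpar : IsParabolicHom (s48h_GammaH (L * r) H') φ)
    (hdiam : ∀ (σ : SL(2, ℤ)) (hσ : σ ∈ Gamma0 (L * r)),
      s48h_diamondH H' σ hσ R φ = ψ (σ 1 1) • φ)
    (heig : ∀ (ℓ : ℕ) [Fact ℓ.Prime] (hℓ : ¬ ℓ ∣ L * r) (σ : SL(2, ℤ)) (hσ : σ ∈ Gamma0 (L * r))
      (hσ11 : ((σ 1 1 : ℤ) : ZMod (L * r)) = (ℓ : ZMod (L * r))),
      s48h_TpH H' hℓ σ hσ hσ11 R φ = x ℓ • φ)
    (hA : s59f_corH hrL (s59f_isG_GammaH L H)
      (s59f_isG'_GammaH hrL rfl (dvd_mul_right L r) hH') R φ = 0)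
    (hB : s59f_corH hrL (s59f_isG_GammaH L H)
      (s59f_isG'_GammaH hrL rfl (dvd_mul_right L r) hH') R
      (s59f_wH hrL (s59f_isG'_GammaH hrL rfl (dvd_mul_right L r) hH') R φ) = 0)
    (hw : s59f_wH hrL (s59f_isG'_GammaH hrL rfl (dvd_mul_right L r) hH') R φ = c • φ)
    (M' : ℕ) [NeZero M'] (hM' : M' = N₁ * (∏ q ∈ Q, q) * ∏ q ∈ Q, q) :
    ∃ (hrM : ¬ r ∣ M') (Φ : Additive (Gamma0 (M' * r)) →+ R), Φ ≠ 0 ∧
      IsParabolicHom (Gamma0 (M' * r)) Φ ∧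
      (∀ (ℓ : ℕ) [Fact ℓ.Prime], ¬ ℓ ∣ M' * r →
        s29h_heckeHom (M' * r) ℓ R Φ = ((∏ q ∈ Q, χ q (ℓ : ZMod q)) * x ℓ) • Φ) ∧
      s41l_corA M' r hrM R Φ = 0 ∧ s41l_corB M' r hrM R Φ = 0 ∧
      s41l_w M' r hrM R Φ = ((∏ q ∈ Q, χ q ((r : ℕ) : ZMod q)) * c) • Φ := by
  classical
  let F := FractionRing R
  have hinj : Function.Injective (algebraMap R F) := IsFractionRing.injective R F
  haveI : CharZero F := charZero_of_injective_algebraMap hinj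
  let ι : R →+ F := (algebraMap R F).toAddMonoidHom
  have hιinj : Function.Injective ι := hinj
  have hιsmul : ∀ {Γ : Subgroup SL(2, ℤ)} (c : R) (a : Additive Γ →+ R),
      ι.comp (c • a) = algebraMap R F c • ι.comp a := by
    intro Γ c a
    refine AddMonoidHom.ext fun γ => ?_
    simp only [AddMonoidHom.comp_apply, AddMonoidHom.smul_apply, smul_eq_mul]
    exact map_mul (algebraMap R F) _ _
  have hG := s59f_isG_GammaH L H
  have hG' := s59f_isG'_GammaH hrL rfl (dvd_mul_right L r) hH'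
  have hcorι : ∀ a : Additive (s48h_GammaH (L * r) H') →+ R,
      s59f_corH hrL hG hG' F (ι.comp a) = ι.comp (s59f_corH hrL hG hG' R a) := fun a =>
    (s59f_famCorA hrL hG hG').op_natural ι a
  have hwι : ∀ a : Additive (s48h_GammaH (L * r) H') →+ R,
      s59f_wH hrL hG' F (ι.comp a) = ι.comp (s59f_wH hrL hG' R a) := fun a =>
    s48h_MatDatum.heckeHom_comp _ ι a
  obtain ⟨hrM, Φ, hΦ0, hΦpar, hΦeig, hcA, hcB, hcW⟩ := s59sw_TwistKerNewF N₁ r Q (F := F) hQ hL hrL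
    H hD₁ hHker H' hH'
    (fun q => (χ q).ringHomComp (algebraMap R F))
    (fun q hq => by
      rcases hχ q hq with h | h
      · left
        show (χ q).ringHomComp (algebraMap R F) = 1
        rw [h, MulChar.ringHomComp_one]
      · right
        show ((χ q).ringHomComp (algebraMap R F)) ^ 2 ≠ 1
        rw [MulChar.ringHomComp_pow]
        exact (MulChar.ringHomComp_ne_one_iff hinj).mpr h)
    (fun d => algebraMap R F (ψ d))
    (fun a b hab => by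
      show algebraMap R F (ψ a) = algebraMap R F (ψ b)
      rw [hψper a b hab])
    (fun d hd => by
      show algebraMap R F (ψ d) * ∏ q ∈ Q,
        ((χ q).ringHomComp (algebraMap R F) ((d : ℤ) : ZMod q)) ^ 2 = 1
      simp only [MulChar.ringHomComp_apply]
      rw [← map_one (algebraMap R F), ← hψχ d hd, map_mul, map_prod]
      congr 1
      refine Finset.prod_congr rfl fun q _ => ?_
      rw [map_pow])
    (fun ℓ => algebraMap R F (x ℓ)) (algebraMap R F c) (ι.comp φ)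
    (fun h => hφ0 (by
      refine AddMonoidHom.ext fun γ => hιinj ?_
      have := DFunLike.congr_fun h γ
      simpa using this))
    (fun γ hγ => by
      rw [AddMonoidHom.comp_apply, hpar γ hγ, map_zero])
    (fun σ hσ => by
      show (s48h_diamondDatum H' σ hσ).heckeHom F (ι.comp φ) = _
      rw [s48h_MatDatum.heckeHom_comp]
      have h := hdiam σ hσ
      change (s48h_diamondDatum H' σ hσ).heckeHom R φ = _ at h
      rw [h]
      exact hιsmul _ _)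
    (fun ℓ _ hℓ σ hσ hσ11 => by
      show (s48h_TpDatum H' hℓ σ hσ hσ11).heckeHom F (ι.comp φ) = _
      rw [s48h_MatDatum.heckeHom_comp]
      have h := heig ℓ hℓ σ hσ hσ11
      change (s48h_TpDatum H' hℓ σ hσ hσ11).heckeHom R φ = _ at h
      rw [h]
      exact hιsmul _ _)
    (by rw [hcorι, hA, AddMonoidHom.comp_zero])
    (by rw [hwι, hcorι, hB, AddMonoidHom.comp_zero])
    (by rw [hwι, hw]; exact hιsmul _ _)
    M' hM'
  obtain ⟨Φ', h0, hp, hT', hA', hB', hW'⟩ := s59sw_new_descend M' r hrM R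
    (fun ℓ => (∏ q ∈ Q, χ q (ℓ : ZMod q)) * x ℓ) ((∏ q ∈ Q, χ q ((r : ℕ) : ZMod q)) * c)
    Φ hΦ0 hΦpar
    (fun ℓ _ hℓ => by
      rw [hΦeig ℓ hℓ]
      congr 1
      rw [map_mul, map_prod]
      rfl) hcA hcB
    (by
      rw [hcW]
      congr 1
      rw [map_mul, map_prod]
      rfl)
  exact ⟨hrM, Φ', h0, hp, hT', hA', hB', hW'⟩

end MainInt

end Fermat.Agent.Lib.S59
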