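/-
PROGRAMME (R2) = S59 / [S35±] (sign of Frobenius at `r ∥ level` = `U_r`), part 6 (helper1, prefix `s59sw_`):
**[NEW-q±], pointwise, at `Γ_{H'}`-level** — signed twin of helper4's `s59f_NEWpt` (FNewPt6.lean).

An eigenclass `(θ, a, φ)` over `𝒪` at level `Γ_{H'}(L r)`, `L = N₁ ∏ Q`, `r ∤ L`, kernel-new at `r`, with
**`w φ = c • φ`** (`s59f_wH`), and any `ρ` with Frobenius polynomials `X² − θ(ℓ)⁻¹ a_ℓ X + ℓ` (`ℓ ∉ S`):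

      `charpoly ρ(Frob_r) = X² − e (r + 1) X + r`,   `e = − θ(r_u)⁻¹ c`,

`r_u ∈ (ℤ/L r)ˣ` ANY unit with `r_u ≡ r mod L`; GIVEN signed NEW-WEIGHT `hNW` at the `Γ₀`-levels `M' r` (GSwDefs).

Chain: `θ` factors through `(ℤ/L)ˣ` → `s59u_exists_chi_theta` → `s59sw_TwistKerNew_int` (GSwTw2: a kernel-new
eigenclass `Φ` on `Γ₀(N₁ ∏ q² · r)` with `w Φ = (∏ χ_q(r)) c Φ = θ(r_u)⁻¹ c Φ`) → `s59sw_NEW0` (GSwTop).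
-/
import Mathlib
import Fermat.Agent.Lib.S59.FNewPt6
import Fermat.Agent.Lib.S59.GSwTw2
import Fermat.Agent.Lib.S59.GSwTop

set_option autoImplicit false
set_option linter.unusedSectionVars false
set_option linter.unusedVariables false
set_option linter.style.haveILetI false

noncomputable section

namespace Fermat.Agent.Lib.S59

open Polynomial IsLocalRing
open Fermat.Agent.Lib.S48 Fermat.Agent.Lib.ES Fermat.Agent.Lib.S29 Fermat.Agent.Lib.S30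
  Fermat.Agent.Lib.S35 Fermat.Agent.Lib.S36 Fermat.Agent.Lib.S41
  CongruenceSubgroup ModularCurve.Period
open scoped MatrixGroups TensorProduct

local notation "Qbar" => AlgebraicClosure ℚ
local notation "GQ" => (AlgebraicClosure ℚ ≃ₐ[ℚ] AlgebraicClosure ℚ)

section NewPt

variable (p : ℕ) [Fact p.Prime] (N₁ : ℕ) [NeZero N₁] (r : ℕ) [NeZero r] [hr : Fact r.Prime]
  (Q : Finset ℕ)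

/-- **[NEW-q±], pointwise, at `Γ_{H'}(L r)`**, signed NEW-WEIGHT needed ONLY at the `Γ₀`-level
`M' r`, `M' = N₁ (∏ Q)²`. -/
theorem s59sw_NEWpt' (hrp : r ≠ p) (hQ : ∀ q ∈ Q, q.Prime ∧ ¬ q ∣ N₁ * r)
    {L : ℕ} [NeZero L] (hL : L = N₁ * ∏ q ∈ Q, q) (hrL : ¬ r ∣ L)
    (H : Subgroup (ZMod L)ˣ) (hD₁ : (∏ q ∈ Q, q) ∣ L)
    (hHker : s59u_ker L (∏ q ∈ Q, q) hD₁ ≤ H)
    (H' : Subgroup (ZMod (L * r))ˣ)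
    (hH' : ∀ u : (ZMod (L * r))ˣ, u ∈ H' ↔ ZMod.unitsMap (dvd_mul_right L r) u ∈ H)
    (𝒪 : Type) [CommRing 𝒪] [IsDomain 𝒪] [IsDiscreteValuationRing 𝒪]
    [IsAdicComplete (maximalIdeal 𝒪) 𝒪] [Finite (ResidueField 𝒪)] [CharZero 𝒪] [Algebra ℤ_[p] 𝒪]
    (hp𝒪 : (p : 𝒪) ∈ maximalIdeal 𝒪)
    (θ : (ZMod (L * r))ˣ →* 𝒪ˣ) (hθH : ∀ d ∈ H', θ d = 1)
    (μ : Subgroup 𝒪ˣ) (hμ : ∀ x ∈ μ, x ^ 2 = 1 → x = 1)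
    (hθμ : ∀ d : (ZMod (L * r))ˣ, θ d ∈ μ)
    (a : ℕ → 𝒪)
    (φ : Additive (s48h_GammaH (L * r) H') →+ 𝒪) (hφ0 : φ ≠ 0)
    (hpar : IsParabolicHom (s48h_GammaH (L * r) H') φ)
    (hdiam : ∀ (σ : SL(2, ℤ)) (hσ : σ ∈ Gamma0 (L * r)) (du : (ZMod (L * r))ˣ),
      ((du : (ZMod (L * r))ˣ) : ZMod (L * r)) = ((σ 1 1 : ℤ) : ZMod (L * r)) →
      s48h_diamondH H' σ hσ 𝒪 φ = (((θ du : 𝒪ˣ) : 𝒪) ^ 2) • φ)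
    (heig : ∀ (ℓ : ℕ) [Fact ℓ.Prime] (hℓ : ¬ ℓ ∣ L * r) (σ : SL(2, ℤ)) (hσ : σ ∈ Gamma0 (L * r))
      (hσ11 : ((σ 1 1 : ℤ) : ZMod (L * r)) = (ℓ : ZMod (L * r))),
      s48h_TpH H' hℓ σ hσ hσ11 𝒪 φ = a ℓ • φ)
    (hcA : s59f_corH hrL (s59f_isG_GammaH L H)
      (s59f_isG'_GammaH hrL rfl (dvd_mul_right L r) hH') 𝒪 φ = 0)
    (hcB : s59f_corH hrL (s59f_isG_GammaH L H)
      (s59f_isG'_GammaH hrL rfl (dvd_mul_right L r) hH') 𝒪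
      (s59f_wH hrL (s59f_isG'_GammaH hrL rfl (dvd_mul_right L r) hH') 𝒪 φ) = 0)
    (c : 𝒪)
    (hwφ : s59f_wH hrL (s59f_isG'_GammaH hrL rfl (dvd_mul_right L r) hH') 𝒪 φ = c • φ)
    (ru : (ZMod (L * r))ˣ)
    (hru : ((ZMod.unitsMap (dvd_mul_right L r) ru : (ZMod L)ˣ) : ZMod L) = ((r : ℕ) : ZMod L))
    (S : Finset ℕ) (hpS : p ∈ S) (hMS : ∀ q : ℕ, q.Prime → q ∣ L * r → q ∈ S)
    (ρ : GaloisRepAdic 𝒪)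
    (hρ : ∀ ℓ : ℕ, ℓ.Prime → ℓ ∉ S → ∀ ℓu : (ZMod (L * r))ˣ,
        ((ℓu : (ZMod (L * r))ˣ) : ZMod (L * r)) = (ℓ : ZMod (L * r)) →
        ∀ P : ValuationSubring Qbar, P.LiesOverPrime ℓ → ∀ σ : GQ, P.IsFrobeniusAt σ ℓ →
          (ρ.ρ σ).charpoly = X ^ 2 - C ((((θ ℓu)⁻¹ : 𝒪ˣ) : 𝒪) * a ℓ) * X + C (ℓ : 𝒪))
    (A : ValuationSubring Qbar) (hA : A.LiesOverPrime r) (σ : GQ) (hσ : A.IsFrobeniusAt σ r)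
    (hNW : ∀ (M' : ℕ) [NeZero M'] (hrM : ¬ r ∣ M'), M' = N₁ * (∏ q ∈ Q, q) * ∏ q ∈ Q, q →
      ∀ n : ℕ, s59sw_NWSigned M' r hr.out hrM (p ^ n) σ) :
    (ρ.ρ σ).charpoly =
      X ^ 2 - C (-((((θ ru)⁻¹ : 𝒪ˣ) : 𝒪) * c) * ((r : 𝒪) + 1)) * X + C (r : 𝒪) := by
  classical
  subst hL
  haveI : NeZero ((N₁ * ∏ q ∈ Q, q) * r) := ⟨mul_ne_zero (NeZero.ne _) (NeZero.ne r)⟩
  have hQ' : ∀ q ∈ Q, q.Prime ∧ ¬ q ∣ N₁ := fun q hq =>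
    ⟨(hQ q hq).1, fun h => (hQ q hq).2 (Dvd.dvd.mul_right h r)⟩
  -- `θ` factors through `(ℤ/L)ˣ`
  obtain ⟨θ₀, hθ₀⟩ := s59f_exists_factor (dvd_mul_right (N₁ * ∏ q ∈ Q, q) r) θ (fun u hu =>
    hθH u ((hH' u).mpr (by rw [hu]; exact one_mem H)))
  have hsurj := ZMod.unitsMap_surjective (dvd_mul_right (N₁ * ∏ q ∈ Q, q) r)
  have hθ₀H : ∀ d ∈ H, θ₀ d = 1 := by
    intro d hd
    obtain ⟨u, rfl⟩ := hsurj d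
    rw [hθ₀]
    exact hθH u ((hH' u).mpr hd)
  have hθ₀μ : ∀ d, θ₀ d ∈ μ := by
    intro d
    obtain ⟨u, rfl⟩ := hsurj d
    rw [hθ₀]
    exact hθμ u
  have hkerH : s59u_ker (N₁ * ∏ q ∈ Q, q) (∏ q ∈ Q, q) (dvd_mul_left _ _) ≤ H := hHker
  obtain ⟨χ, hχ1, hχ2⟩ := s59u_exists_chi_theta N₁ Q hQ' θ₀ (fun d hd => hθ₀H d (hkerH hd))
  have hdich : ∀ q ∈ Q, χ q = 1 ∨ (χ q) ^ 2 ≠ 1 := fun q hq =>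
    s59u_chi_dichotomy μ hμ (χ q) (fun b => by
      obtain ⟨d, hd⟩ := hχ1 q hq b
      exact ⟨θ₀ d, hθ₀μ d, hd⟩)
  -- the product formula at level `L r`
  have hχ3 : ∀ (d : ℤ) (du : (ZMod ((N₁ * ∏ q ∈ Q, q) * r))ˣ),
      ((du : (ZMod ((N₁ * ∏ q ∈ Q, q) * r))ˣ) : ZMod ((N₁ * ∏ q ∈ Q, q) * r))
        = ((d : ℤ) : ZMod ((N₁ * ∏ q ∈ Q, q) * r)) →
      (∏ q ∈ Q, χ q ((d : ℤ) : ZMod q)) * ((θ du : 𝒪ˣ) : 𝒪) = 1 := by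
    intro d du hdu
    rw [← hθ₀]
    refine hχ2 d _ ?_
    rw [ZMod.unitsMap_def, Units.coe_map, MonoidHom.coe_coe, hdu, map_intCast]
  -- the product formula at `r`
  have hχr : (∏ q ∈ Q, χ q ((r : ℕ) : ZMod q)) = (((θ ru)⁻¹ : 𝒪ˣ) : 𝒪) := by
    have h1 := hχ2 ((r : ℕ) : ℤ) (ZMod.unitsMap (dvd_mul_right (N₁ * ∏ q ∈ Q, q) r) ru)
      (by rw [hru, Int.cast_natCast])
    rw [hθ₀] at h1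
    simp only [Int.cast_natCast] at h1
    calc (∏ q ∈ Q, χ q ((r : ℕ) : ZMod q))
        = (∏ q ∈ Q, χ q ((r : ℕ) : ZMod q)) * (((θ ru : 𝒪ˣ) : 𝒪) * (((θ ru)⁻¹ : 𝒪ˣ) : 𝒪)) := by
          rw [Units.mul_inv, mul_one]
      _ = (((θ ru)⁻¹ : 𝒪ˣ) : 𝒪) := by rw [← mul_assoc, h1, one_mul]
  have hψχ : ∀ d : ℤ, IsCoprime d (((N₁ * ∏ q ∈ Q, q) * r : ℕ) : ℤ) →
      s59f_psiZ θ d * ∏ q ∈ Q, (χ q ((d : ℤ) : ZMod q)) ^ 2 = 1 := by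
    intro d hd
    have h1 := hχ3 d (s59u_intUnit _ d hd) (s59u_intUnit_coe _ d hd)
    rw [s59f_psiZ_eq θ d _ (s59u_intUnit_coe _ d hd), Finset.prod_pow, ← mul_pow, mul_comm, h1,
      one_pow]
  have hdiamZ : ∀ (σ : SL(2, ℤ)) (hσ : σ ∈ Gamma0 ((N₁ * ∏ q ∈ Q, q) * r)),
      s48h_diamondH H' σ hσ 𝒪 φ = s59f_psiZ θ (σ 1 1) • φ := by
    intro σ hσ
    have hcσ : IsCoprime (σ 1 1) (((N₁ * ∏ q ∈ Q, q) * r : ℕ) : ℤ) := s59u_coprime_lowerRight hσ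
    rw [s59f_psiZ_eq θ (σ 1 1) (s59u_intUnit _ _ hcσ) (s59u_intUnit_coe _ _ hcσ)]
    exact hdiam σ hσ _ (s59u_intUnit_coe _ _ hcσ)
  -- the level `N₁ ∏ q² · r`
  obtain ⟨M', hM'⟩ : ∃ M' : ℕ, M' = N₁ * (∏ q ∈ Q, q) * ∏ q ∈ Q, q := ⟨_, rfl⟩
  have hprod0 : (∏ q ∈ Q, q) ≠ 0 :=
    Finset.prod_ne_zero_iff.mpr fun q hq => (hQ q hq).1.ne_zero
  haveI : NeZero M' := ⟨by
    rw [hM']; exact mul_ne_zero (mul_ne_zero (NeZero.ne N₁) hprod0) hprod0⟩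
  obtain ⟨hrM, Φ, hΦ0, hΦpar, hΦeig, hA0, hB0, hW0⟩ := s59sw_TwistKerNew_int N₁ r Q 𝒪 hQ rfl hrL
    H hD₁ hHker H' hH' χ hdich (s59f_psiZ θ) (s59f_psiZ_per θ) hψχ a c φ hφ0 hpar hdiamZ heig hcA
    hcB hwφ M' hM'
  have hdvdM' : ∀ ℓ : ℕ, ℓ.Prime → ℓ ∣ M' * r → ℓ ∣ (N₁ * ∏ q ∈ Q, q) * r := by
    intro ℓ hℓ h
    rcases (hℓ.dvd_mul).mp h with h' | h'
    · rw [hM'] at h'
      rcases (hℓ.dvd_mul).mp h' with h'' | h''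
      · exact Dvd.dvd.mul_right h'' r
      · exact Dvd.dvd.mul_right (Dvd.dvd.mul_left h'' N₁) r
    · exact Dvd.dvd.mul_left h' _
  have hNS : ∀ ℓ : ℕ, ℓ.Prime → ℓ ∣ M' * r → ℓ ∈ S := fun ℓ hℓ h => hMS ℓ hℓ (hdvdM' ℓ hℓ h)
  -- the eigenvalues
  obtain ⟨y, hy⟩ : ∃ y : ℕ → 𝒪, y = fun ℓ => (∏ q ∈ Q, χ q (ℓ : ZMod q)) * a ℓ := ⟨_, rfl⟩
  have hyθ : ∀ (ℓ : ℕ) (ℓu : (ZMod ((N₁ * ∏ q ∈ Q, q) * r))ˣ),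
      ((ℓu : (ZMod ((N₁ * ∏ q ∈ Q, q) * r))ˣ) : ZMod ((N₁ * ∏ q ∈ Q, q) * r))
        = (ℓ : ZMod ((N₁ * ∏ q ∈ Q, q) * r)) →
      y ℓ = (((θ ℓu)⁻¹ : 𝒪ˣ) : 𝒪) * a ℓ := by
    intro ℓ ℓu hℓu
    have h1 := hχ3 (ℓ : ℤ) ℓu (by rw [hℓu, Int.cast_natCast])
    simp only [Int.cast_natCast] at h1
    have h2 : (∏ q ∈ Q, χ q (ℓ : ZMod q)) = (((θ ℓu)⁻¹ : 𝒪ˣ) : 𝒪) := by
      calc (∏ q ∈ Q, χ q (ℓ : ZMod q))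
          = (∏ q ∈ Q, χ q (ℓ : ZMod q)) * (((θ ℓu : 𝒪ˣ) : 𝒪) * (((θ ℓu)⁻¹ : 𝒪ˣ) : 𝒪)) := by
            rw [Units.mul_inv, mul_one]
        _ = (((θ ℓu)⁻¹ : 𝒪ˣ) : 𝒪) := by rw [← mul_assoc, h1, one_mul]
    rw [hy]
    show (∏ q ∈ Q, χ q (ℓ : ZMod q)) * a ℓ = _
    rw [h2]
  have hunit : ∀ ℓ : ℕ, ℓ.Prime → ℓ ∉ S → ∃ ℓu : (ZMod ((N₁ * ∏ q ∈ Q, q) * r))ˣ,
      ((ℓu : (ZMod ((N₁ * ∏ q ∈ Q, q) * r))ˣ) : ZMod ((N₁ * ∏ q ∈ Q, q) * r))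
        = (ℓ : ZMod ((N₁ * ∏ q ∈ Q, q) * r)) := by
    intro ℓ hℓ hℓS
    have hℓM : ¬ ℓ ∣ (N₁ * ∏ q ∈ Q, q) * r := fun h => hℓS (hMS ℓ hℓ h)
    have hcopℓ : Nat.Coprime ℓ ((N₁ * ∏ q ∈ Q, q) * r) :=
      (Nat.Prime.coprime_iff_not_dvd hℓ).mpr hℓM
    exact ⟨ZMod.unitOfCoprime ℓ hcopℓ, ZMod.coe_unitOfCoprime ℓ hcopℓ⟩
  have hW1 : s41l_w M' r hrM 𝒪 Φ = (-(-((((θ ru)⁻¹ : 𝒪ˣ) : 𝒪) * c))) • Φ := by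
    rw [hW0, hχr, neg_neg]
  exact s59sw_NEW0 p M' r hrp hrM S hpS hNS 𝒪 hp𝒪 y Φ hΦpar hΦ0
    (fun ℓ _ hℓN _ => by rw [hy]; exact hΦeig ℓ hℓN) hA0 hB0
    (-((((θ ru)⁻¹ : 𝒪ˣ) : 𝒪) * c)) hW1 ρ
    (fun ℓ hℓ hℓS P hP τ hτ => by
      obtain ⟨ℓu, hℓu⟩ := hunit ℓ hℓ hℓS
      rw [hρ ℓ hℓ hℓS ℓu hℓu P hP τ hτ, hyθ ℓ ℓu hℓu])
    A hA σ hσ (fun n => hNW M' hrM hM' n)

/-- **[NEW-q±], pointwise, at `Γ_{H'}(L r)`**, with signed NEW-WEIGHT at all `Γ₀`-levels. -/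
theorem s59sw_NEWpt (hrp : r ≠ p) (hQ : ∀ q ∈ Q, q.Prime ∧ ¬ q ∣ N₁ * r)
    {L : ℕ} [NeZero L] (hL : L = N₁ * ∏ q ∈ Q, q) (hrL : ¬ r ∣ L)
    (H : Subgroup (ZMod L)ˣ) (hD₁ : (∏ q ∈ Q, q) ∣ L)
    (hHker : s59u_ker L (∏ q ∈ Q, q) hD₁ ≤ H)
    (H' : Subgroup (ZMod (L * r))ˣ)
    (hH' : ∀ u : (ZMod (L * r))ˣ, u ∈ H' ↔ ZMod.unitsMap (dvd_mul_right L r) u ∈ H)
    (𝒪 : Type) [CommRing 𝒪] [IsDomain 𝒪] [IsDiscreteValuationRing 𝒪]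
    [IsAdicComplete (maximalIdeal 𝒪) 𝒪] [Finite (ResidueField 𝒪)] [CharZero 𝒪] [Algebra ℤ_[p] 𝒪]
    (hp𝒪 : (p : 𝒪) ∈ maximalIdeal 𝒪)
    (θ : (ZMod (L * r))ˣ →* 𝒪ˣ) (hθH : ∀ d ∈ H', θ d = 1)
    (μ : Subgroup 𝒪ˣ) (hμ : ∀ x ∈ μ, x ^ 2 = 1 → x = 1)
    (hθμ : ∀ d : (ZMod (L * r))ˣ, θ d ∈ μ)
    (a : ℕ → 𝒪)
    (φ : Additive (s48h_GammaH (L * r) H') →+ 𝒪) (hφ0 : φ ≠ 0)
    (hpar : IsParabolicHom (s48h_GammaH (L * r) H') φ)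
    (hdiam : ∀ (σ : SL(2, ℤ)) (hσ : σ ∈ Gamma0 (L * r)) (du : (ZMod (L * r))ˣ),
      ((du : (ZMod (L * r))ˣ) : ZMod (L * r)) = ((σ 1 1 : ℤ) : ZMod (L * r)) →
      s48h_diamondH H' σ hσ 𝒪 φ = (((θ du : 𝒪ˣ) : 𝒪) ^ 2) • φ)
    (heig : ∀ (ℓ : ℕ) [Fact ℓ.Prime] (hℓ : ¬ ℓ ∣ L * r) (σ : SL(2, ℤ)) (hσ : σ ∈ Gamma0 (L * r))
      (hσ11 : ((σ 1 1 : ℤ) : ZMod (L * r)) = (ℓ : ZMod (L * r))),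
      s48h_TpH H' hℓ σ hσ hσ11 𝒪 φ = a ℓ • φ)
    (hcA : s59f_corH hrL (s59f_isG_GammaH L H)
      (s59f_isG'_GammaH hrL rfl (dvd_mul_right L r) hH') 𝒪 φ = 0)
    (hcB : s59f_corH hrL (s59f_isG_GammaH L H)
      (s59f_isG'_GammaH hrL rfl (dvd_mul_right L r) hH') 𝒪
      (s59f_wH hrL (s59f_isG'_GammaH hrL rfl (dvd_mul_right L r) hH') 𝒪 φ) = 0)
    (c : 𝒪)
    (hwφ : s59f_wH hrL (s59f_isG'_GammaH hrL rfl (dvd_mul_right L r) hH') 𝒪 φ = c • φ)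
    (ru : (ZMod (L * r))ˣ)
    (hru : ((ZMod.unitsMap (dvd_mul_right L r) ru : (ZMod L)ˣ) : ZMod L) = ((r : ℕ) : ZMod L))
    (S : Finset ℕ) (hpS : p ∈ S) (hMS : ∀ q : ℕ, q.Prime → q ∣ L * r → q ∈ S)
    (ρ : GaloisRepAdic 𝒪)
    (hρ : ∀ ℓ : ℕ, ℓ.Prime → ℓ ∉ S → ∀ ℓu : (ZMod (L * r))ˣ,
        ((ℓu : (ZMod (L * r))ˣ) : ZMod (L * r)) = (ℓ : ZMod (L * r)) →
        ∀ P : ValuationSubring Qbar, P.LiesOverPrime ℓ → ∀ σ : GQ, P.IsFrobeniusAt σ ℓ →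
          (ρ.ρ σ).charpoly = X ^ 2 - C ((((θ ℓu)⁻¹ : 𝒪ˣ) : 𝒪) * a ℓ) * X + C (ℓ : 𝒪))
    (A : ValuationSubring Qbar) (hA : A.LiesOverPrime r) (σ : GQ) (hσ : A.IsFrobeniusAt σ r)
    (hNW : ∀ (M' : ℕ) [NeZero M'] (hrM : ¬ r ∣ M') (n : ℕ),
      s59sw_NWSigned M' r hr.out hrM (p ^ n) σ) :
    (ρ.ρ σ).charpoly =
      X ^ 2 - C (-((((θ ru)⁻¹ : 𝒪ˣ) : 𝒪) * c) * ((r : 𝒪) + 1)) * X + C (r : 𝒪) :=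
  s59sw_NEWpt' p N₁ r Q hrp hQ hL hrL H hD₁ hHker H' hH' 𝒪 hp𝒪 θ hθH μ hμ hθμ a φ hφ0 hpar hdiam
    heig hcA hcB c hwφ ru hru S hpS hMS ρ hρ A hA σ hσ (fun M' _ hrM _ n => hNW M' hrM n)

end NewPt

end Fermat.Agent.Lib.S59
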