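/-
PROGRAMME (R2) = S59 / [S35±] (sign of Frobenius at `r ∥ level` = `U_r`), part 7 (helper1, prefix `s59sw_`):
**[S35±] AT `r = 2` IS A THEOREM, ALL LEVELS** — helper2's geometric half `s59b_NW_signed` (B8Level.lean: signed
NEW-WEIGHT on `J₀(M · 2)[m]`, `M` odd, `m` odd) plugged into the algebra half.

* `s59sw_NWSigned_two` : the contract `s59sw_NWSigned M 2 _ _ m σ`;
* `s59sw_NEW0_two`     : `Γ₀(M · 2)`, `w^H Φ = −e Φ` ⟹ `charpoly ρ(Frob₂) = X² − e (2 + 1) X + 2`;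
* `s59sw_NEW0_U_two`   : the same with `U₂ Φ = e Φ`;
* `s59sw_NEWpt_two`    : `Γ_{H'}(L · 2)`, `L = N₁ ∏ Q`, `w φ = c φ` ⟹
                           `charpoly ρ(Frob₂) = X² − (−θ(2_u)⁻¹ c)(2 + 1) X + 2`.
-/
import Mathlib
import Fermat.Agent.Lib.S59.B8Level
import Fermat.Agent.Lib.S59.GSwPt

set_option autoImplicit false
set_option linter.unusedSectionVars false
set_option linter.unusedVariables false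
set_option linter.style.haveILetI false

noncomputable section

namespace Fermat.Agent.Lib.S59

open Polynomial IsLocalRing
open Fermat.Agent.Lib.S48 Fermat.Agent.Lib.ES Fermat.Agent.Lib.S29 Fermat.Agent.Lib.S30
  Fermat.Agent.Lib.S35 Fermat.Agent.Lib.S36 Fermat.Agent.Lib.S41
  CongruenceSubgroup ModularCurve.Period
open scoped MatrixGroups TensorProduct

local notation "Qbar" => AlgebraicClosure ℚ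
local notation "GQ" => (AlgebraicClosure ℚ ≃ₐ[ℚ] AlgebraicClosure ℚ)

/-- **signed NEW-WEIGHT at `q = 2`, all levels** (helper2). -/
theorem s59sw_NWSigned_two (M : ℕ) [NeZero M] (hM2 : ¬ 2 ∣ M) (m : ℕ) (hm : ¬ 2 ∣ m)
    (A : ValuationSubring Qbar) (hA : A.LiesOverPrime 2) (σ : GQ) (hσ : A.IsFrobeniusAt σ 2) :
    s59sw_NWSigned M 2 Nat.prime_two hM2 m σ :=
  fun z hz h1 h2 => s59b_NW_signed M 2 Nat.prime_two hM2 rfl m hm A hA σ hσ z hz h1 h2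

theorem s59sw_not_two_dvd_pow {p : ℕ} (hp : p.Prime) (hp2 : p ≠ 2) (n : ℕ) : ¬ 2 ∣ p ^ n := by
  intro h
  have h1 := Nat.prime_two.dvd_of_dvd_pow h
  exact hp2 ((Nat.prime_dvd_prime_iff_eq Nat.prime_two hp).mp h1).symm

section NewPt

variable (p : ℕ) [hpp : Fact p.Prime]

/-- **[NEW-q₀±] at `r = 2`**: no open hypothesis. -/
theorem s59sw_NEW0_two (M : ℕ) [NeZero M] (hp2 : p ≠ 2) (hrM : ¬ 2 ∣ M)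
    (S : Finset ℕ) (hpS : p ∈ S) (hNS : ∀ q : ℕ, q.Prime → q ∣ M * 2 → q ∈ S)
    (𝒪' : Type) [CommRing 𝒪'] [IsDomain 𝒪'] [IsDiscreteValuationRing 𝒪']
    [IsAdicComplete (maximalIdeal 𝒪') 𝒪'] [Finite (ResidueField 𝒪')]
    [CharZero 𝒪'] [Algebra ℤ_[p] 𝒪'] (hp𝒪' : (p : 𝒪') ∈ maximalIdeal 𝒪')
    (y : ℕ → 𝒪')
    (Φ : Additive (Gamma0 (M * 2)) →+ 𝒪') (hΦ : IsParabolicHom (Gamma0 (M * 2)) Φ) (hΦ0 : Φ ≠ 0)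
    (hT : ∀ (ℓ : ℕ) [Fact ℓ.Prime], ¬ ℓ ∣ M * 2 → ℓ ∉ S →
      s29h_heckeHom (M * 2) ℓ 𝒪' Φ = y ℓ • Φ)
    (hcA : s41l_corA M 2 hrM 𝒪' Φ = 0) (hcB : s41l_corB M 2 hrM 𝒪' Φ = 0)
    (e : 𝒪') (hw : s41l_w M 2 hrM 𝒪' Φ = (-e) • Φ)
    (ρ : GaloisRepAdic 𝒪')
    (hρ : ∀ ℓ : ℕ, ℓ.Prime → ℓ ∉ S → ∀ P : ValuationSubring Qbar, P.LiesOverPrime ℓ →
      ∀ σ : GQ, P.IsFrobeniusAt σ ℓ →
        LinearMap.charpoly (ρ.ρ σ) = X ^ 2 - C (y ℓ) * X + C ((ℓ : 𝒪')))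
    (A : ValuationSubring Qbar) (hA : A.LiesOverPrime 2) (σ : GQ) (hσ : A.IsFrobeniusAt σ 2) :
    LinearMap.charpoly (ρ.ρ σ) = X ^ 2 - C (e * (((2 : ℕ) : 𝒪') + 1)) * X + C (((2 : ℕ) : 𝒪')) :=
  s59sw_NEW0 p M 2 (fun h => hp2 h.symm) hrM S hpS hNS 𝒪' hp𝒪' y Φ hΦ hΦ0 hT hcA hcB e hw ρ hρ
    A hA σ hσ
    (fun n => s59sw_NWSigned_two M hrM (p ^ n) (s59sw_not_two_dvd_pow hpp.out hp2 n) A hA σ hσ)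

/-- **[NEW-q₀±] at `r = 2`, `U₂`-form.** -/
theorem s59sw_NEW0_U_two (M : ℕ) [NeZero M] (hp2 : p ≠ 2) (hrM : ¬ 2 ∣ M)
    (S : Finset ℕ) (hpS : p ∈ S) (hNS : ∀ q : ℕ, q.Prime → q ∣ M * 2 → q ∈ S)
    (𝒪' : Type) [CommRing 𝒪'] [IsDomain 𝒪'] [IsDiscreteValuationRing 𝒪']
    [IsAdicComplete (maximalIdeal 𝒪') 𝒪'] [Finite (ResidueField 𝒪')]
    [CharZero 𝒪'] [Algebra ℤ_[p] 𝒪'] (hp𝒪' : (p : 𝒪') ∈ maximalIdeal 𝒪')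
    (y : ℕ → 𝒪')
    (Φ : Additive (Gamma0 (M * 2)) →+ 𝒪') (hΦ : IsParabolicHom (Gamma0 (M * 2)) Φ) (hΦ0 : Φ ≠ 0)
    (hT : ∀ (ℓ : ℕ) [Fact ℓ.Prime], ¬ ℓ ∣ M * 2 → ℓ ∉ S →
      s29h_heckeHom (M * 2) ℓ 𝒪' Φ = y ℓ • Φ)
    (hcA : s41l_corA M 2 hrM 𝒪' Φ = 0) (hcB : s41l_corB M 2 hrM 𝒪' Φ = 0)
    (e : 𝒪') (hU : s41l_U M 2 𝒪' Φ = e • Φ)
    (ρ : GaloisRepAdic 𝒪')
    (hρ : ∀ ℓ : ℕ, ℓ.Prime → ℓ ∉ S → ∀ P : ValuationSubring Qbar, P.LiesOverPrime ℓ →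
      ∀ σ : GQ, P.IsFrobeniusAt σ ℓ →
        LinearMap.charpoly (ρ.ρ σ) = X ^ 2 - C (y ℓ) * X + C ((ℓ : 𝒪')))
    (A : ValuationSubring Qbar) (hA : A.LiesOverPrime 2) (σ : GQ) (hσ : A.IsFrobeniusAt σ 2) :
    LinearMap.charpoly (ρ.ρ σ) = X ^ 2 - C (e * (((2 : ℕ) : 𝒪') + 1)) * X + C (((2 : ℕ) : 𝒪')) :=
  s59sw_NEW0_U p M 2 (fun h => hp2 h.symm) hrM S hpS hNS 𝒪' hp𝒪' y Φ hΦ hΦ0 hT hcA hcB e hU ρ hρ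
    A hA σ hσ
    (fun n => s59sw_NWSigned_two M hrM (p ^ n) (s59sw_not_two_dvd_pow hpp.out hp2 n) A hA σ hσ)

variable (N₁ : ℕ) [NeZero N₁] (Q : Finset ℕ)

/-- **[NEW-q±] at `r = 2`, pointwise at `Γ_{H'}(L · 2)`, `L = N₁ ∏ Q`**: no open hypothesis. -/
theorem s59sw_NEWpt_two (hp2 : p ≠ 2) (hQ : ∀ q ∈ Q, q.Prime ∧ ¬ q ∣ N₁ * 2)
    {L : ℕ} [NeZero L] (hL : L = N₁ * ∏ q ∈ Q, q) (hrL : ¬ 2 ∣ L)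
    (H : Subgroup (ZMod L)ˣ) (hD₁ : (∏ q ∈ Q, q) ∣ L)
    (hHker : s59u_ker L (∏ q ∈ Q, q) hD₁ ≤ H)
    (H' : Subgroup (ZMod (L * 2))ˣ)
    (hH' : ∀ u : (ZMod (L * 2))ˣ, u ∈ H' ↔ ZMod.unitsMap (dvd_mul_right L 2) u ∈ H)
    (𝒪 : Type) [CommRing 𝒪] [IsDomain 𝒪] [IsDiscreteValuationRing 𝒪]
    [IsAdicComplete (maximalIdeal 𝒪) 𝒪] [Finite (ResidueField 𝒪)] [CharZero 𝒪] [Algebra ℤ_[p] 𝒪]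
    (hp𝒪 : (p : 𝒪) ∈ maximalIdeal 𝒪)
    (θ : (ZMod (L * 2))ˣ →* 𝒪ˣ) (hθH : ∀ d ∈ H', θ d = 1)
    (μ : Subgroup 𝒪ˣ) (hμ : ∀ x ∈ μ, x ^ 2 = 1 → x = 1)
    (hθμ : ∀ d : (ZMod (L * 2))ˣ, θ d ∈ μ)
    (a : ℕ → 𝒪)
    (φ : Additive (s48h_GammaH (L * 2) H') →+ 𝒪) (hφ0 : φ ≠ 0)
    (hpar : IsParabolicHom (s48h_GammaH (L * 2) H') φ)
    (hdiam : ∀ (σ : SL(2, ℤ)) (hσ : σ ∈ Gamma0 (L * 2)) (du : (ZMod (L * 2))ˣ),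
      ((du : (ZMod (L * 2))ˣ) : ZMod (L * 2)) = ((σ 1 1 : ℤ) : ZMod (L * 2)) →
      s48h_diamondH H' σ hσ 𝒪 φ = (((θ du : 𝒪ˣ) : 𝒪) ^ 2) • φ)
    (heig : ∀ (ℓ : ℕ) [Fact ℓ.Prime] (hℓ : ¬ ℓ ∣ L * 2) (σ : SL(2, ℤ)) (hσ : σ ∈ Gamma0 (L * 2))
      (hσ11 : ((σ 1 1 : ℤ) : ZMod (L * 2)) = (ℓ : ZMod (L * 2))),
      s48h_TpH H' hℓ σ hσ hσ11 𝒪 φ = a ℓ • φ)
    (hcA : s59f_corH hrL (s59f_isG_GammaH L H)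
      (s59f_isG'_GammaH hrL rfl (dvd_mul_right L 2) hH') 𝒪 φ = 0)
    (hcB : s59f_corH hrL (s59f_isG_GammaH L H)
      (s59f_isG'_GammaH hrL rfl (dvd_mul_right L 2) hH') 𝒪
      (s59f_wH hrL (s59f_isG'_GammaH hrL rfl (dvd_mul_right L 2) hH') 𝒪 φ) = 0)
    (c : 𝒪)
    (hwφ : s59f_wH hrL (s59f_isG'_GammaH hrL rfl (dvd_mul_right L 2) hH') 𝒪 φ = c • φ)
    (ru : (ZMod (L * 2))ˣ)
    (hru : ((ZMod.unitsMap (dvd_mul_right L 2) ru : (ZMod L)ˣ) : ZMod L) = ((2 : ℕ) : ZMod L))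
    (S : Finset ℕ) (hpS : p ∈ S) (hMS : ∀ q : ℕ, q.Prime → q ∣ L * 2 → q ∈ S)
    (ρ : GaloisRepAdic 𝒪)
    (hρ : ∀ ℓ : ℕ, ℓ.Prime → ℓ ∉ S → ∀ ℓu : (ZMod (L * 2))ˣ,
        ((ℓu : (ZMod (L * 2))ˣ) : ZMod (L * 2)) = (ℓ : ZMod (L * 2)) →
        ∀ P : ValuationSubring Qbar, P.LiesOverPrime ℓ → ∀ σ : GQ, P.IsFrobeniusAt σ ℓ →
          (ρ.ρ σ).charpoly = X ^ 2 - C ((((θ ℓu)⁻¹ : 𝒪ˣ) : 𝒪) * a ℓ) * X + C (ℓ : 𝒪))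
    (A : ValuationSubring Qbar) (hA : A.LiesOverPrime 2) (σ : GQ) (hσ : A.IsFrobeniusAt σ 2) :
    (ρ.ρ σ).charpoly =
      X ^ 2 - C (-((((θ ru)⁻¹ : 𝒪ˣ) : 𝒪) * c) * (((2 : ℕ) : 𝒪) + 1)) * X + C (((2 : ℕ) : 𝒪)) :=
  s59sw_NEWpt p N₁ 2 Q (fun h => hp2 h.symm) hQ hL hrL H hD₁ hHker H' hH' 𝒪 hp𝒪 θ hθH μ hμ hθμ a
    φ hφ0 hpar hdiam heig hcA hcB c hwφ ru hru S hpS hMS ρ hρ A hA σ hσ
    (fun M' _ hrM n => s59sw_NWSigned_two M' hrM (p ^ n)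
      (s59sw_not_two_dvd_pow hpp.out hp2 n) A hA σ hσ)

end NewPt

end Fermat.Agent.Lib.S59
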