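/-
[E] FINAL ASSEMBLY (helper4, prefix `s59i_`), part C3: **THE `R`-SIDE PACKAGE `s59i_RPkg` IS PROVED.**
* `s59i_rhobarF_eq`        : `s59i_rhobarF P hΔ 𝒪 hp𝒪 = s59q_freyRhobar P hp𝒪` (proof irrelevance);
* `s59i_RData_of_freyRData`: helper6's `s59q_FreyRData` (QFreyRC) ⇒ `s59i_RData` (`hNSg` from `hcover` + `hE2`);
* **`s59i_RPkg_proved : s59i_RPkg`**.
-/
import Mathlib
import Fermat.Agent.Lib.S59.LFinC1
import Fermat.Agent.Lib.S59.QFreyRC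

set_option autoImplicit false
set_option linter.unusedSectionVars false
set_option linter.unusedVariables false
set_option linter.style.haveILetI false
set_option maxHeartbeats 1600000

noncomputable section

namespace Fermat.Agent.Lib.S59

open IsLocalRing CuspForm Polynomial ExtCitation FreyPackage
open WeierstrassCurve WeierstrassCurve.Affine WeierstrassCurve.Affine.Point
open Fermat.Agent.Lib.S53 (matOf matOfRes NormData)
open Fermat.Agent.Lib.S44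

local notation "Γℚ" => (AlgebraicClosure ℚ ≃ₐ[ℚ] AlgebraicClosure ℚ)

/-- the two names of the reference residual representation agree (proof irrelevance). -/
theorem s59i_rhobarF_eq (P : FreyPackage) [Fact P.p.Prime] (hΔ : P.freyCurveInt.Δ ≠ 0)
    (𝒪 : Type) [CommRing 𝒪] [IsLocalRing 𝒪] [Algebra ℤ_[P.p] 𝒪]
    (hp𝒪 : ((P.p : ℕ) : 𝒪) ∈ maximalIdeal 𝒪) :
    s59i_rhobarF P hΔ 𝒪 hp𝒪 = s59q_freyRhobar P hp𝒪 := rfl

section Adapter

variable (P : FreyPackage) [Fact P.p.Prime]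
  {𝒪 : Type} [CommRing 𝒪] [IsDomain 𝒪] [IsDiscreteValuationRing 𝒪]
  [IsAdicComplete (maximalIdeal 𝒪) 𝒪] [Algebra ℤ_[P.p] 𝒪]
  (hp𝒪 : ((P.p : ℕ) : 𝒪) ∈ maximalIdeal 𝒪)

/-- helper6's `R`-side data at the Frey curve give the `R`-side data of the contract. -/
def s59i_RData_of_freyRData
    (hirr : GaloisRepIsIrreducible (K := AlgebraicClosure ℚ) ℚ P.freyCurve P.p)
    (hsplitℤ : ∀ a b : ℤ, ∃ α β : ResidueField 𝒪,
      α + β = (a : ResidueField 𝒪) ∧ α * β = (b : ResidueField 𝒪))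
    {N : ℕ} {Bd B : Finset ℕ}
    (hBd : ∀ q ∈ Bd, q.Prime ∧ q ≠ P.p ∧ q ∣ N ∧ P.GaloisRepUnramifiedAt q ∧ P.p ∣ q - 1 ∧
      s59v_FreyFrobScalar P q)
    (hB1 : ∀ r : ℕ, r.Prime → r ∣ N * P.p → r ∈ B)
    (hB2 : ∀ r : ℕ, r.Prime → (r : ℤ) ∣ P.a * P.b * P.c → r ∈ B)
    (R : s59q_FreyRData P hp𝒪 N Bd B) :
    s59i_RData P.p N (s59q_freyRhobar P hp𝒪) B Bd where
  Smin := s59q_freySmin P hp𝒪
  Ed := R.Ed
  Nd := R.Nd
  m := Bd.card
  e := R.e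
  pr := R.pr
  σq := R.σq
  φq := R.φq
  D := R.D
  P := R.Pm
  P' := R.P'm
  αE := R.αE
  βE := R.βE
  habs := s59q_frey_habs P hp𝒪 hirr
  hdet := s59q_frey_hdet P hp𝒪 hirr
  hsplit := s59q_frey_hsplit P hp𝒪 hirr hsplitℤ
  hTW := s59q_frey_hTW P hp𝒪 hirr
  hpSmin := s59q_freySmin_p_mem P hp𝒪
  hSmin := s59q_freySmin_subset P hp𝒪 B
    (hB1 P.p (Fact.out : P.p.Prime) (Dvd.intro_left N rfl)) hB2
  hBS := s59q_frey_hBS P hBd hB1
  hES := R.hES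
  hBprime := s59q_frey_hBprime P hBd
  hEprime := R.hEprime
  hmin := s59q_freySmin_hmin P hp𝒪
  hBunr := s59q_frey_hBunr P hp𝒪 hBd
  hEunr := R.hEunr
  hBE := R.hBE
  hcen := s59q_frey_hcen P hp𝒪 hBd
  hprB := R.hprB
  hprE := R.hprE
  hBinj := R.hBinj
  hEinj := R.hEinj
  hσq := R.hσq
  hφq := R.hφq
  hPP' := R.hPP'
  hP'P := R.hP'P
  hαβ := R.hαβ
  hαβ' := R.hαβ'
  hdiag := R.hdiag
  hαE := R.hαE
  hβE := R.hβE
  hDu := R.hDu
  hqB := s59q_frey_hqB P hp𝒪 hBd R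
  hNSg := fun q hq hqN => by
    rcases R.hcover q hq hqN with h | ⟨rfl, h3Ed, h3unr⟩
    · exact Or.inl h
    · right
      obtain ⟨φ, hφ, hne⟩ := R.hE2 hqN h3Ed h3unr
      have hp5 := P.hp5
      refine ⟨by omega, h3unr, ?_, primeLocalPlace ⟨3, Nat.prime_three⟩, φ,
        Fermat.Agent.Lib.S56.s56z_place_liesOver _, hφ, hne⟩
      haveI : CharP (ResidueField 𝒪) P.p := s59e_charP_residue P.p hp𝒪
      have h8 : (((3 : ℕ) : ResidueField 𝒪)) ^ 2 - 1 = ((8 : ℕ) : ResidueField 𝒪) := by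
        push_cast
        norm_num
      rw [h8]
      intro h0
      have hdvd : P.p ∣ 8 := (CharP.cast_eq_zero_iff (ResidueField 𝒪) P.p 8).mp h0
      have hpp : P.p.Prime := Fact.out
      have h2 : P.p ∣ 2 := hpp.dvd_of_dvd_pow (show P.p ∣ 2 ^ 3 by norm_num; exact hdvd)
      have hle : P.p ≤ 2 := Nat.le_of_dvd (by norm_num) h2
      omega

end Adapter

/-- **the `R`-side package at the Frey curve is proved.** -/
theorem s59i_RPkg_proved : s59i_RPkg := by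
  intro P _ hΔ N hcond hpN hirr Bd hBdne hBd hram B hB1 hB2 hocc 𝒪 _ _ _ _ _ _ _ _ hp𝒪 hsplitℤ
  rw [s59i_rhobarF_eq]
  obtain ⟨R⟩ := s59q_freyR P hp𝒪 hirr N Bd hBd hram B hB1
  exact ⟨s59i_RData_of_freyRData P hp𝒪 hirr hsplitℤ hBd hB1 hB2 R⟩

end Fermat.Agent.Lib.S59
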