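/-
[E] FINAL ASSEMBLY (helper4, prefix `s59i_`): **`s59i_IAcoreSsp` from the two packages at the Frey curve.**
`s59i_RPkg` (helper6's `QFreyR`) + `s59i_TPkg` (helper5's `s59e_TSide`) ⇒ `s59i_IAcoreSsp`, via the coefficient ring
(`s59q_exists_coeffRing_padic`), `s59i_FINA4` and helper2's `s59b_FINB`.
-/
import Mathlib
import Fermat.Agent.Lib.S59.LFinC1
import Fermat.Agent.Lib.S59.BFinB
import Fermat.Agent.Lib.S59.QOExtFin
import Fermat.Agent.Lib.S59.QSsModel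

set_option autoImplicit false
set_option linter.unusedSectionVars false
set_option linter.unusedVariables false
set_option linter.style.haveILetI false
set_option maxHeartbeats 1600000

noncomputable section

namespace Fermat.Agent.Lib.S59

open IsLocalRing CuspForm Polynomial ExtCitation FreyPackage
open WeierstrassCurve WeierstrassCurve.Affine WeierstrassCurve.Affine.Point
open Fermat.Agent.Lib.S44

/-- **[IA′-core] for the semistable Frey model at levels prime to `p`, from the two packages.** -/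
theorem s59i_IAcoreSsp_of_pkgs (HR : s59i_RPkg) (HT : s59i_TPkg) : s59i_IAcoreSsp := by
  intro P N hcond hpN hirr Bd hne hBd hram B hB1 hB2 hocc
  classical
  haveI hpF : Fact P.p.Prime := ⟨P.pp⟩
  haveI hN0 : NeZero N := ⟨hcond.pos.ne'⟩
  obtain ⟨hW, hss, hΔ, hbad⟩ := s59q_frey_ssModel P
  have hp5 := P.hp5
  have hp2 : P.p ≠ 2 := by omega
  -- the exponent of the roots of unity
  set v : ℕ := Bd.sup id with hv
  have hvq : ∀ q ∈ Bd, ¬ P.p ^ (v + 1) ∣ q - 1 := by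
    intro q hq hd
    have hqv : q ≤ v := Finset.le_sup (f := id) hq
    have hq2 := (hBd q hq).1.two_le
    have h1 : P.p ^ (v + 1) ≤ q - 1 := Nat.le_of_dvd (by omega) hd
    have h2 : v + 1 < P.p ^ (v + 1) := Nat.lt_pow_self (by omega)
    omega
  -- the coefficient ring
  obtain ⟨𝒪, i1, i2, i3, i4, i5, i6, i7, i8, i9, hp𝒪, hζ, hsplit⟩ :=
    s59q_exists_coeffRing_padic P.p (P.p ^ v) (pow_pos P.pp.pos v)
  -- the two packages
  obtain ⟨Rd⟩ := HR P hΔ N hcond hpN hirr Bd hne hBd hram B hB1 hB2 hocc 𝒪 hp𝒪 hsplit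
  have HT' := HT P hΔ N hcond hpN hirr Bd hne hBd hram B hB1 hB2 hocc 𝒪 hp𝒪 hsplit v hvq hζ Rd
  -- an index in `Bd`
  have hm : 0 < Rd.m := by
    obtain ⟨q, hq⟩ := hne
    have hq' : q ∈ Finset.univ.image (fun j : Fin Rd.m => (Rd.pr (Sum.inl j) : ℕ)) :=
      (Finset.ext_iff.mp Rd.hprB _).mpr hq
    rw [Finset.mem_image] at hq'
    obtain ⟨j, -, -⟩ := hq'
    exact j.pos
  have hU := s59i_FINA4 P.p hp2 N B (fun ℓ => P.freyCurveInt.apOfModel ℓ) hp𝒪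
    (s59i_rhobarF P hΔ 𝒪 hp𝒪) Rd.habs Rd.hdet Rd.hsplit Rd.hTW B Rd.Smin Bd Rd.Ed Rd.hpSmin
    Rd.hSmin Rd.hBS Rd.hES Rd.hBprime Rd.hEprime Rd.hmin Rd.hBunr Rd.hEunr Rd.hBE Rd.hcen Rd.Nd
    Rd.m Rd.e Rd.pr Rd.hprB Rd.hprE Rd.hBinj Rd.hEinj Rd.σq Rd.φq Rd.hσq Rd.hφq Rd.D Rd.P Rd.P'
    Rd.hPP' Rd.hP'P Rd.αE Rd.βE Rd.hαβ Rd.hαβ' Rd.hdiag Rd.hαE Rd.hβE Rd.hDu Rd.hqB HT' ⟨0, hm⟩
  have hmem : ((Rd.pr (Sum.inl ⟨0, hm⟩) : ℕ)) ∈ Bd := by
    have h1 : ((Rd.pr (Sum.inl ⟨0, hm⟩) : ℕ)) ∈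
        Finset.univ.image (fun j : Fin Rd.m => (Rd.pr (Sum.inl j) : ℕ)) :=
      Finset.mem_image_of_mem (fun j : Fin Rd.m => (Rd.pr (Sum.inl j) : ℕ))
        (Finset.mem_univ (⟨0, hm⟩ : Fin Rd.m))
    exact (Finset.ext_iff.mp Rd.hprB _).mp h1
  have hB2' : ∀ r : ℕ, r.Prime → ¬ P.freyCurveInt.IsGoodPrimeFor r → r ∈ B := fun r hr hbad' =>
    hB2 r hr ((hbad r hr).1 hbad')
  exact s59b_FINB P P.freyCurveInt hW N hcond hirr Bd hBd B hB1 hB2' ⟨_, hmem, hU⟩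

end Fermat.Agent.Lib.S59
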