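/-
[E] FINAL ASSEMBLY (helper4, prefix `s59i_`): **`s59i_IAcoreSsp` from the `T`-side package alone** (the `R`-side package is
`s59i_RPkg_proved`, `LFinC3`).
-/
import Mathlib
import Fermat.Agent.Lib.S59.LFinal
import Fermat.Agent.Lib.S59.LFinC3

set_option autoImplicit false

namespace Fermat.Agent.Lib.S59

/-- **[IA]-core (semistable, `p`-form) from the `T`-side package.** -/
theorem s59i_IAcoreSsp_of_TPkg (HT : s59i_TPkg) : s59i_IAcoreSsp :=
  s59i_IAcoreSsp_of_pkgs s59i_RPkg_proved HT

end Fermat.Agent.Lib.S59
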