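/-
Programme (R2) / node **[CAR]**, the ports to `q ∈ {2, 3}` — W5 over a CHART (helper9, prefix `s59m_`, suffix `W`):
**THE W-TWINS OF helper7's LEAVES [L2-3] (NF₃) AND [L2-5 (a)] (CENTRE)** over a chart `C` with `s59m_BaseFullW C`
(`NWTripleFin.lean`, `NWTripleNF.lean`, `NWCentreU.lean`; helper7's generic statements `s59nt_finite_multi_of_baseFull`,
`s59nt_geoReg_w`, `s59nt_centre_dvd` are used as they are).

* `s59m_goodLevel_of_baseFull` : `s36g_BaseFull` (+ `ν₂ = ν₃ = 0`) gives `s36g_GoodLevel q M`;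
* `s59m_nt_finite_multi_W` : the triple points of the chart `s59m_S2W C` are finite in number;
* **`s59m_nt_nf3_W`**, **`s59m_nt_nf3_W'`** : [L2-3] — a unit `h` of the three rings with `p ∣ div h` is `g ^ p` along `D.N₃W C`
  up to a unit `g` of the three rings;
* **`s59m_nt_rb1_dvd_W`** : [L2-5 (a)] — `p ∣ ord_v (D.rbW 1 h)` at every place `v` of `Fb / κ₀`.
-/
import Fermat.Agent.Lib.S59.MCarL2GW
import Fermat.Agent.Lib.S59.NWTripleNF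
import Fermat.Agent.Lib.S59.NWCentreU

set_option autoImplicit false
set_option linter.style.haveILetI false
set_option linter.unusedSectionVars false
set_option linter.unusedVariables false
set_option synthInstance.maxHeartbeats 400000

noncomputable section

namespace Fermat.Agent.Lib.S59

open ModularCurve HahnSeries AlgebraicCurve Fermat.Agent.Lib.FF Fermat.Agent.Lib.S18
  Fermat.Agent.Lib.S28 Fermat.Agent.Lib.S29 Fermat.Agent.Lib.S37 Fermat.Agent.Lib.S34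
  Fermat.Agent.Lib.S35 Fermat.Agent.Lib.S33 Fermat.Agent.Lib.S44 Fermat.Agent.Lib.S36

local notation "Kb" => AlgebraicClosure ℚ

/-- `s36g_BaseFull` (+ `ν₂ = ν₃ = 0`) gives the good level. -/
theorem s59m_goodLevel_of_baseFull {K₀ : Type} [Field K₀] [Algebra ℚ K₀] {κ : Type} [Field κ]
    (G : s18g_GaussData K₀ κ) (φ : K₀ →+* Kb) (M q : ℕ) [NeZero M] [NeZero q] (hq : q.Prime)
    (hqM : ¬ q ∣ M) (h2 : nuTwo M = 0) (h3 : nuThree M = 0) (x : s34m_F K₀ M)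
    (hx : x ∈ s34m_Vinf G M) (hBF : s36g_BaseFull G φ M q hq hqM x hx) : s36g_GoodLevel q M := by
  refine ⟨hqM, h2, h3, ?_⟩
  rcases hBF.2.2.2.2.2.1 with h1 | h1 | h1
  · exact Or.inl h1.1
  · exact Or.inr (Or.inl ⟨h1.1, h1.2.1⟩)
  · exact Or.inr (Or.inr ⟨h1.1, h1.2.1⟩)

section U

variable (M q : ℕ) [NeZero M] [hq : Fact q.Prime] (hqM : ¬ q ∣ M)
  (P : ValuationSubring Kb) (hP : P.LiesOverPrime q)
  (L₀ : IntermediateField ℚ Kb) [FiniteDimensional ℚ ↥L₀]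
  (hunr : ∀ τ ∈ P.inertiaSubgroupIn ℚ, ∀ a ∈ L₀, τ a = a)

set_option maxHeartbeats 800000 in
/-- **the triple points of the chart `s59m_S2W C` of level `M q²` are finite in number.** -/
theorem s59m_nt_finite_multi_W [CharP (IsLocalRing.ResidueField ↥(s18q_A0 P L₀)) q]
    [PerfectField (IsLocalRing.ResidueField ↥(s18q_A0 P L₀))]
    (C : s59b_ChartU M q hqM P hP L₀ hunr) (hBF : s59m_BaseFullW C)
    (D : s59m_L2Data M q hqM P hP L₀ hunr) (h2 : nuTwo M = 0) (h3 : nuThree M = 0) :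
    Finite {𝔫 : Ideal (s34x_ring (L₀ := ↥L₀) (s34x_infRing D.V) (s59m_S2W C)) //
      s59m_IsMulti D.V (s59m_S2W C) 𝔫} := by
  classical
  haveI : NeZero q := ⟨hq.out.ne_zero⟩
  haveI : NumberField ↥L₀ := ⟨⟩
  haveI hdvr : IsDiscreteValuationRing ↥(s18q_A0 P L₀) := s18q_A0_dvr P L₀ hP
  haveI : IsDiscreteValuationRing ↥(s59m_GU q P hP L₀ hunr).A := hdvr
  have hπ : Function.Surjective (s59m_GU q P hP L₀ hunr).π := IsLocalRing.residue_surjective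
  have hgood : s36g_GoodLevel q M :=
    s59m_goodLevel_of_baseFull (s59m_GU q P hP L₀ hunr) (algebraMap ↥L₀ Kb) M q hq.out hqM h2 h3 _ _ hBF
  have hϖ : (((s59m_GU q P hP L₀ hunr).ϖ : (s59m_GU q P hP L₀ hunr).A) : ↥L₀) = (q : ↥L₀) := rfl
  haveI hfinι : Finite (s33s_Node (s34m_VV (s59m_GU q P hP L₀ hunr) (algebraMap ↥L₀ Kb) M q hq.out hqM)
      (s34m_unif (s59m_GU q P hP L₀ hunr) (M * q))
      (s18_chart1 (L₀ := ↥L₀) C.wN)) := s59b_finite_nodeUW M q hqM P hP L₀ hunr C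
  exact s59nt_finite_multi_of_baseFull M q hq.out hqM hgood ↥L₀ (algebraMap ↥L₀ Kb)
    (IsLocalRing.ResidueField ↥(s18q_A0 P L₀)) (s59m_GU q P hP L₀ hunr) hπ hϖ D.V D.pkg _ C.hwV hBF
    C.wN C.hwN.symm

set_option maxHeartbeats 1600000 in
/-- **[L2-3] NF₃ over the chart `C`.** -/
theorem s59m_nt_nf3_W [CharP (IsLocalRing.ResidueField ↥(s18q_A0 P L₀)) q]
    [PerfectField (IsLocalRing.ResidueField ↥(s18q_A0 P L₀))]
    (C : s59b_ChartU M q hqM P hP L₀ hunr) (hBF : s59m_BaseFullW C)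
    (D : s59m_L2Data M q hqM P hP L₀ hunr) (h2 : nuTwo M = 0) (h3 : nuThree M = 0)
    (p : ℕ) [hp : Fact p.Prime] (hpq : p ≠ q)
    (h : s34m_F ↥L₀ (M * q * q)) (h0 : h ≠ 0)
    (hdiv : ∀ Q : Place ↥L₀ (s34m_F ↥L₀ (M * q * q)), (p : ℤ) ∣ Q.ord h)
    (hu : ∀ j, h ∈ D.V j ∧ h⁻¹ ∈ D.V j) :
    ∃ g : s34m_F ↥L₀ (M * q * q), g ≠ 0 ∧ (∀ j, g ∈ D.V j ∧ g⁻¹ ∈ D.V j) ∧
      ∀ Q ∈ D.N₃W C, Q.ord h = (p : ℤ) * Q.ord g := by
  classical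
  haveI : NeZero q := ⟨hq.out.ne_zero⟩
  haveI : NumberField ↥L₀ := ⟨⟩
  haveI hdvr : IsDiscreteValuationRing ↥(s18q_A0 P L₀) := s18q_A0_dvr P L₀ hP
  haveI : IsDiscreteValuationRing ↥(s59m_GU q P hP L₀ hunr).A := hdvr
  have hπ : Function.Surjective (s59m_GU q P hP L₀ hunr).π := IsLocalRing.residue_surjective
  have hgood : s36g_GoodLevel q M :=
    s59m_goodLevel_of_baseFull (s59m_GU q P hP L₀ hunr) (algebraMap ↥L₀ Kb) M q hq.out hqM h2 h3 _ _ hBF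
  have hqp : ¬ q ∣ p := fun hd => hpq ((Nat.prime_dvd_prime_iff_eq hq.out hp.out).mp hd).symm
  have hpA : ((p : ↥L₀))⁻¹ ∈ (s59m_GU q P hP L₀ hunr).A :=
    s34f_natCast_inv_mem (s18q_A0 P L₀) hq.out (s37rl_nonunit P hP L₀) p hqp
  have hϖ : (((s59m_GU q P hP L₀ hunr).ϖ : (s59m_GU q P hP L₀ hunr).A) : ↥L₀) = (q : ↥L₀) := rfl
  obtain ⟨hReg1, -⟩ := s59nt_geoReg_w M q hq.out hqM hgood ↥L₀ (algebraMap ↥L₀ Kb)
    (IsLocalRing.ResidueField ↥(s18q_A0 P L₀)) (s59m_GU q P hP L₀ hunr) hπ hϖ D.V D.pkg _ C.hwV hBF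
    C.wN C.hwN.symm p hp.out.ne_zero hpA
  have hB : s35g_BaseData (s59m_GU q P hP L₀ hunr) (algebraMap ↥L₀ Kb) M q hq.out hqM C.wN :=
    s59m_hB_W hBF
  have hPk := D.pkg
  obtain ⟨hC, hU, -, hCompl, hI, -, -⟩ := hPk
  have hB₂ := s36b_baseData₂_of_base (s59m_GU q P hP L₀ hunr) (algebraMap ↥L₀ Kb) M q hq.out hqM
    hC hCompl hI _ hB
  haveI := s59m_nt_finite_multi_W M q hqM P hP L₀ hunr C hBF D h2 h3
  haveI : Fintype {𝔫 : Ideal (s34x_ring (L₀ := ↥L₀) (s34x_infRing D.V) (s59m_S2W C)) //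
      s59m_IsMulti D.V (s59m_S2W C) 𝔫} := Fintype.ofFinite _
  obtain ⟨g, hg0, hgu, hg⟩ := s59m_exists_nf3 D.V (s59m_S2W C)
    (s36b_arch (s59m_GU q P hP L₀ hunr) M q hq.out hU)
    (s36b_dict₁ (s59m_GU q P hP L₀ hunr) (algebraMap ↥L₀ Kb) M q hq.out hqM hC hU _ hB₂).2.2.2
    (fun s : {𝔫 : Ideal (s34x_ring (L₀ := ↥L₀) (s34x_infRing D.V) (s59m_S2W C)) //
      s59m_IsMulti D.V (s59m_S2W C) 𝔫} => s.1) (fun s => s.2) Subtype.val_injective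
    h h0 p hp.out.ne_zero (fun s Q _ _ => hdiv Q) hu
    (fun s => hReg1 s.1 s.2.1
      (s59nt_multi_unif_mem (s59m_GU q P hP L₀ hunr) (algebraMap ↥L₀ Kb) M q hq.out hqM D.pkg
        C.wN s.1 s.2))
  refine ⟨g, hg0, hgu, ?_⟩
  rintro Q ⟨hQS, 𝔫, h𝔫, hth⟩
  exact hg ⟨𝔫, h𝔫⟩ Q hQS hth

/-- **[L2-3]**, quotient form: `h * (g ^ p)⁻¹` is a unit of the three rings and has order `0` along `D.N₃W C`. -/
theorem s59m_nt_nf3_W' [CharP (IsLocalRing.ResidueField ↥(s18q_A0 P L₀)) q]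
    [PerfectField (IsLocalRing.ResidueField ↥(s18q_A0 P L₀))]
    (C : s59b_ChartU M q hqM P hP L₀ hunr) (hBF : s59m_BaseFullW C)
    (D : s59m_L2Data M q hqM P hP L₀ hunr) (h2 : nuTwo M = 0) (h3 : nuThree M = 0)
    (p : ℕ) [hp : Fact p.Prime] (hpq : p ≠ q)
    (h : s34m_F ↥L₀ (M * q * q)) (h0 : h ≠ 0)
    (hdiv : ∀ Q : Place ↥L₀ (s34m_F ↥L₀ (M * q * q)), (p : ℤ) ∣ Q.ord h)
    (hu : ∀ j, h ∈ D.V j ∧ h⁻¹ ∈ D.V j) :
    ∃ g : s34m_F ↥L₀ (M * q * q), g ≠ 0 ∧ (∀ j, g ∈ D.V j ∧ g⁻¹ ∈ D.V j) ∧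
      h * (g ^ p)⁻¹ ≠ 0 ∧ (∀ j, h * (g ^ p)⁻¹ ∈ D.V j ∧ (h * (g ^ p)⁻¹)⁻¹ ∈ D.V j) ∧
      ∀ Q ∈ D.N₃W C, Q.ord (h * (g ^ p)⁻¹) = 0 := by
  obtain ⟨g, hg0, hgu, hg⟩ := s59m_nt_nf3_W M q hqM P hP L₀ hunr C hBF D h2 h3 p hpq h h0 hdiv hu
  have hgp0 : g ^ p ≠ 0 := pow_ne_zero p hg0
  refine ⟨g, hg0, hgu, mul_ne_zero h0 (inv_ne_zero hgp0), fun j => ⟨?_, ?_⟩, fun Q hQ => ?_⟩
  · rw [← inv_pow]
    exact (D.V j).mul_mem _ _ (hu j).1 (pow_mem (hgu j).2 p)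
  · rw [mul_inv, inv_inv]
    exact (D.V j).mul_mem _ _ (hu j).2 (pow_mem (hgu j).1 p)
  · rw [Q.ord_mul h0 (inv_ne_zero hgp0), Q.ord_inv, ← zpow_natCast, Q.ord_zpow, hg Q hQ]
    ring

set_option maxHeartbeats 1600000 in
/-- **[L2-5 (a)] over the chart `C`**: the divisor of the residue on the middle component is divisible by `p`. -/
theorem s59m_nt_rb1_dvd_W [CharP (IsLocalRing.ResidueField ↥(s18q_A0 P L₀)) q]
    [PerfectField (IsLocalRing.ResidueField ↥(s18q_A0 P L₀))]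
    (C : s59b_ChartU M q hqM P hP L₀ hunr) (hBF : s59m_BaseFullW C)
    (D : s59m_L2Data M q hqM P hP L₀ hunr) (h2 : nuTwo M = 0) (h3 : nuThree M = 0)
    (p : ℕ) [hp : Fact p.Prime] (hpq : p ≠ q)
    (h : s34m_F ↥L₀ (M * q * q)) (h0 : h ≠ 0)
    (hdiv : ∀ Q : Place ↥L₀ (s34m_F ↥L₀ (M * q * q)), (p : ℤ) ∣ Q.ord h)
    (hu : ∀ j, h ∈ D.V j ∧ h⁻¹ ∈ D.V j)
    (v : Place (IsLocalRing.ResidueField ↥(s18q_A0 P L₀))
      ↥(modularFunctionFieldFullC (IsLocalRing.ResidueField ↥(s18q_A0 P L₀)) M)) :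
    (p : ℤ) ∣ v.ord (D.rbW 1 ⟨h, (hu 1).1⟩) := by
  classical
  haveI : NeZero q := ⟨hq.out.ne_zero⟩
  haveI : NumberField ↥L₀ := ⟨⟩
  haveI hdvr : IsDiscreteValuationRing ↥(s18q_A0 P L₀) := s18q_A0_dvr P L₀ hP
  haveI : IsDiscreteValuationRing ↥(s59m_GU q P hP L₀ hunr).A := hdvr
  have hπ : Function.Surjective (s59m_GU q P hP L₀ hunr).π := IsLocalRing.residue_surjective
  have hgood : s36g_GoodLevel q M :=
    s59m_goodLevel_of_baseFull (s59m_GU q P hP L₀ hunr) (algebraMap ↥L₀ Kb) M q hq.out hqM h2 h3 _ _ hBF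
  have hqp : ¬ q ∣ p := fun hd => hpq ((Nat.prime_dvd_prime_iff_eq hq.out hp.out).mp hd).symm
  have hpA : ((p : ↥L₀))⁻¹ ∈ (s59m_GU q P hP L₀ hunr).A :=
    s34f_natCast_inv_mem (s18q_A0 P L₀) hq.out (s37rl_nonunit P hP L₀) p hqp
  have hϖ : (((s59m_GU q P hP L₀ hunr).ϖ : (s59m_GU q P hP L₀ hunr).A) : ↥L₀) = (q : ↥L₀) := rfl
  -- the coordinate
  have hwV : heckeAlphaBar ↥L₀ M q C.w ∈ s34m_Vinf (s59m_GU q P hP L₀ hunr) (M * q) :=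
    s34m_alpha_mem_Vinf (s59m_GU q P hP L₀ hunr) M q C.hwV
  have hw' : s36g_alpha M q (heckeAlphaBar ↥L₀ M q C.w) ∈ D.V 1 :=
    ((s36b_alpha_mem_iff (s59m_GU q P hP L₀ hunr) (algebraMap ↥L₀ Kb) M q hq.out hqM D.pkg.1
      _).2.1).mpr hwV
  have hRw : D.rbW 1 ⟨s36g_alpha M q (heckeAlphaBar ↥L₀ M q C.w), hw'⟩ =
      s18g_redF (s59m_GU q P hP L₀ hunr) M (fun f hf => s18g_baseChange_mem_Frac _ M hf)
        (s59m_hT_U M q P L₀ hqM)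
        (fun n b hb hn => s18g_exists_relation M (algebraMap ↥L₀ Kb) hn b hb) ⟨C.w, C.hwV⟩ := by
    apply Subtype.ext
    show D.r 1 ⟨_, hw'⟩ = _
    rw [D.r1α ⟨_, hwV⟩ hw']
    exact s34m_redInf_alpha (s59m_GU q P hP L₀ hunr) M q ⟨C.w, C.hwV⟩
  exact s59nt_centre_dvd M q hq.out hqM hgood ↥L₀ (algebraMap ↥L₀ Kb)
    (IsLocalRing.ResidueField ↥(s18q_A0 P L₀)) (s59m_GU q P hP L₀ hunr) hπ hϖ D.V D.pkg
    C.w C.hwV hBF (D.rbW 1) (fun y hy => (D.rbW_eq_zero_iff 1 y).mpr hy)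
    (fun a => D.rbW_const C 1 a) hw' _ C.hcoord hRw p hp.out.ne_zero hpA h h0 hdiv hu v

end U

end Fermat.Agent.Lib.S59
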