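/-
Programme (R2) / node **[CAR]**, the ports to `q ∈ {2, 3}` — W5 over a CHART (helper9, prefix `s59m_`, suffix `W`):
**THE WIRING OF `hlvl2` OVER A CHART `C`** — the twin of `MCarL2C.lean`.

* `s59m_exists_gen3W` : [L2-1] + [L2-2] + [L2-3] over `C` (`s44e_qdiv`, `D.exists_u3`, `s59m_nt_nf3_W'`);
* **`s59m_lvl2CW`** : `s59u_Lvl2 M q p P (s59b_kumFrameUW … C hOK.geo (p ^ K) …) HF` for Hecke frames `HF` with `H.T = τ_ℓ`, from
  `hOK : s59m_ChartOK C`, `D : s59m_L2Data`, [L2-6] `hglue : s59m_Glue3CW C D`, [L2-8] `hinj : s59m_Inj3CW C p D`, [L2-7] Hecke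
  frames `HF3` of level `M q²` over `s59m_kumFrame3CW`, and [L2-5] `s59m_LeftLeafW` (a theorem: `s59m_nt_leftLeaf_W`).
The abstract lemmas `s59m_HeckeFrame3.res_rel`, `s59m_gen_mul_const_pow`, `s59m_gen_dvd_ord` of `MCarL2C.lean` are reused.
-/
import Fermat.Agent.Lib.S59.MCarL2C
import Fermat.Agent.Lib.S59.MCarL2KW
import Fermat.Agent.Lib.S59.MCarL2RW
import Fermat.Agent.Lib.S59.MCarL2GW
import Fermat.Agent.Lib.S59.MCarL2LeftW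
import Fermat.Agent.Lib.S59.MCarNTW1

set_option autoImplicit false
set_option linter.style.haveILetI false
set_option linter.unusedSectionVars false
set_option linter.unusedVariables false
set_option synthInstance.maxHeartbeats 400000

noncomputable section

namespace Fermat.Agent.Lib.S59

open ModularCurve HahnSeries AlgebraicCurve Fermat.Agent.Lib.FF Fermat.Agent.Lib.S18
  Fermat.Agent.Lib.S28 Fermat.Agent.Lib.S29 Fermat.Agent.Lib.S37 Fermat.Agent.Lib.S34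
  Fermat.Agent.Lib.S35 Fermat.Agent.Lib.S33 Fermat.Agent.Lib.S44 Fermat.Agent.Lib.S36

local notation "Kb" => AlgebraicClosure ℚ
local notation "Γℚ" => (AlgebraicClosure ℚ ≃ₐ[ℚ] AlgebraicClosure ℚ)

section ConcW

variable (M q p : ℕ) [NeZero M] [hq : Fact q.Prime] [hp : Fact p.Prime] (hqM : ¬ q ∣ M)
  (hpq : p ≠ q)

include hpq in
set_option maxHeartbeats 1600000 in
/-- **[L2-1] + [L2-2] + [L2-3]**: an `L₀`-rational `p`-torsion point of `J₀(M q²)` which is a non-Eisenstein eigen-vector of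
one `T_ℓ` (`ℓ ∤ M q`) has a Kummer generator over `L₀` which is a unit of the three rings and avoids the triple points. -/
theorem s59m_exists_gen3W (h2 : nuTwo M = 0) (h3 : nuThree M = 0)
    (P : ValuationSubring Kb) (hP : P.LiesOverPrime q)
    (L₀ : IntermediateField ℚ Kb) [FiniteDimensional ℚ ↥L₀]
    [CharP (IsLocalRing.ResidueField ↥(s18q_A0 P L₀)) q]
    [PerfectField (IsLocalRing.ResidueField ↥(s18q_A0 P L₀))]
    (hunr : ∀ τ ∈ P.inertiaSubgroupIn ℚ, ∀ a ∈ L₀, τ a = a)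
    (C : s59b_ChartU M q hqM P hP L₀ hunr) (hBF : s59m_BaseFullW C)
    (D : s59m_L2Data M q hqM P hP L₀ hunr)
    (l : ℕ) [hl : Fact l.Prime] (hl2 : ¬ l ∣ M * q * q) (a : ℤ) (hna : ¬ (p : ℤ) ∣ a - (l + 1))
    (x : JZero (M * q * q)) (hpx : p • x = 0)
    (hrat : ∀ σ : Γℚ, (∀ b ∈ L₀, σ b = b) → σ • x = x)
    (hx : heckeOperatorBar (M * q * q) ⟨l, hl.out⟩ x = a • x) :
    ∃ h : s34m_F ↥L₀ (M * q * q), s33d_IsKumGen p x (s18q_incl (M * q * q) L₀ h) ∧ h ≠ 0 ∧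
      (∀ j, h ∈ D.V j ∧ h⁻¹ ∈ D.V j) ∧ ∀ Q ∈ D.N₃W C, Q.ord h = 0 := by
  haveI : NeZero q := ⟨hq.out.ne_zero⟩
  haveI : NeZero p := ⟨hp.out.ne_zero⟩
  -- [L2-1] the generator over `L₀`
  obtain ⟨h₀, hgen₀⟩ := s44e_qdiv (M * q * q) p L₀ x hpx hrat
  -- [L2-2] unit at the three rings
  have hql : q ≠ l := by
    rintro rfl
    exact hl2 (dvd_mul_left q (M * q))
  obtain ⟨u, g₁, hg₁, hu₁⟩ := D.exists_u3 p l hl2 hql a hna hgen₀ hx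
  have hq0 : ((q : ℕ) : ↥L₀) ^ u ≠ 0 := zpow_ne_zero _ (Nat.cast_ne_zero.mpr hq.out.ne_zero)
  have hgen₁ : s33d_IsKumGen p x (s18q_incl (M * q * q) L₀
      (h₀ * algebraMap ↥L₀ (s34m_F ↥L₀ (M * q * q)) ((q : ℕ) : ↥L₀) ^ u * (g₁ ^ p)⁻¹)) := by
    have := s59m_gen_mul_const_pow (M * q * q) p L₀ hgen₀ hq0 (inv_ne_zero hg₁)
    have e : algebraMap ↥L₀ (s34m_F ↥L₀ (M * q * q)) (((q : ℕ) : ↥L₀) ^ u) * g₁⁻¹ ^ p * h₀ =
        h₀ * algebraMap ↥L₀ (s34m_F ↥L₀ (M * q * q)) ((q : ℕ) : ↥L₀) ^ u * (g₁ ^ p)⁻¹ := by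
      rw [map_zpow₀, inv_pow]; ring
    rwa [e] at this
  obtain ⟨h₁, hh₁⟩ : ∃ h₁ : s34m_F ↥L₀ (M * q * q), h₁ =
    h₀ * algebraMap ↥L₀ (s34m_F ↥L₀ (M * q * q)) ((q : ℕ) : ↥L₀) ^ u * (g₁ ^ p)⁻¹ := ⟨_, rfl⟩
  rw [← hh₁] at hgen₁ hu₁
  have hh₁0 : h₁ ≠ 0 := by
    intro h
    apply hgen₁.1
    rw [h, map_zero]
  -- [L2-3] avoid the triple points
  obtain ⟨g₂, hg₂, hg₂u, hh₂0, hu₂, hnf₂⟩ := s59m_nt_nf3_W' M q hqM P hP L₀ hunr C hBF D h2 h3 p hpq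
    h₁ hh₁0 (s59m_gen_dvd_ord (M * q * q) p L₀ hgen₁) hu₁
  have hgen₂ : s33d_IsKumGen p x (s18q_incl (M * q * q) L₀ (h₁ * (g₂ ^ p)⁻¹)) := by
    have := s59m_gen_mul_const_pow (M * q * q) p L₀ hgen₁ (one_ne_zero (α := ↥L₀)) (inv_ne_zero hg₂)
    have e : algebraMap ↥L₀ (s34m_F ↥L₀ (M * q * q)) (1 : ↥L₀) * g₂⁻¹ ^ p * h₁ = h₁ * (g₂ ^ p)⁻¹ := by
      rw [map_one, one_mul, inv_pow, mul_comm h₁]
    rwa [e] at this
  exact ⟨h₁ * (g₂ ^ p)⁻¹, hgen₂, hh₂0, hu₂, hnf₂⟩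

include hpq in
set_option maxHeartbeats 12800000 in
/-- **THE LEAF `hlvl2`** from the W5 leaves (see the header). -/
theorem s59m_lvl2CW (h2 : nuTwo M = 0) (h3 : nuThree M = 0)
    (P : ValuationSubring Kb) (hP : P.LiesOverPrime q) (K : ℕ)
    (L₀ : IntermediateField ℚ Kb) [FiniteDimensional ℚ ↥L₀]
    [CharP (IsLocalRing.ResidueField ↥(s18q_A0 P L₀)) q]
    [PerfectField (IsLocalRing.ResidueField ↥(s18q_A0 P L₀))]
    (hB : haveI : NeZero q := ⟨hq.out.ne_zero⟩; s59m_Base M q p K P L₀)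
    (C : s59b_ChartU M q hqM P hP L₀ hB.unr) (hOK : s59m_ChartOK C)
    (HF : ∀ ℓ : Nat.Primes, ¬ (ℓ : ℕ) ∣ M * q * p →
      s59m_HeckeFrame (s59b_kumFrameUW M q hqM P hP L₀ hB.unr C hOK.geo (p ^ K) (s59m_pK_ne p K)
        (s59m_q_ndvd_pK q p hpq K)) ℓ)
    (hHFT : ∀ (ℓ : ℕ) [hℓ : Fact ℓ.Prime] (hℓ' : ¬ ℓ ∣ M * q * p), ∃ hℓN : ¬ ℓ ∣ M * q,
      (HF ⟨ℓ, hℓ.out⟩ hℓ').H.T = s59u_tauD (M * q) ℓ hℓN L₀)
    (D : s59m_L2Data M q hqM P hP L₀ hB.unr) (hglue : s59m_Glue3CW C D)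
    (hinj : s59m_Inj3CW C p D)
    (HF3 : ∀ (ℓ : Nat.Primes) (hℓ : ¬ (ℓ : ℕ) ∣ M * q * p),
      s59m_HeckeFrame3 (s59m_kumFrame3CW C p D hglue hinj) (HF ℓ hℓ).H ℓ)
    (hleft : s59m_LeftLeafW M q p hqM hpq) :
    haveI : NeZero q := ⟨hq.out.ne_zero⟩
    s59u_Lvl2 M q p P (s59b_kumFrameUW M q hqM P hP L₀ hB.unr C hOK.geo (p ^ K) (s59m_pK_ne p K)
      (s59m_q_ndvd_pK q p hpq K)) HF := by
  haveI : NeZero q := ⟨hq.out.ne_zero⟩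
  haveI : NeZero p := ⟨hp.out.ne_zero⟩
  intro a B hB' hne L _ _ x hx0 hEig hratL hin hα hβ
  obtain ⟨⟨l, hl⟩, hℓ₀B, hℓ₀⟩ := hne
  obtain ⟨hpx, heig⟩ := hEig
  haveI : Fact l.Prime := ⟨hl⟩
  have hlMqp : ¬ l ∣ M * q * p := fun hd => hℓ₀B (hB' l hl hd)
  have hl2 : ¬ l ∣ M * q * q := by
    intro hd
    apply hlMqp
    rcases (Nat.Prime.dvd_mul hl).mp hd with h | h
    · exact h.trans (dvd_mul_right _ _)
    · exact (h.trans (dvd_mul_left q M)).trans (dvd_mul_right _ _)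
  obtain ⟨h₂, hgen₂, hh₂0, hu₂, hnf₂⟩ := s59m_exists_gen3W M q p hqM hpq h2 h3 P hP L₀ hB.unr C hOK.full D l hl2
    (a l) hℓ₀ x hpx (hB.rat2 x hpx hin) (heig ⟨l, hl⟩ hℓ₀B)
  -- [L2-4] the residues
  have hqp : Nat.Coprime q p := (Nat.coprime_primes hq.out hp.out).mpr hpq.symm
  obtain ⟨c, b, hc, hb, e0, e1, e2⟩ := D.red3W C p hp.out.ne_zero hqp hgen₂ hα hβ hu₂
  have hU : (s59m_frame3CW C D hglue).U3 h₂ := ⟨hh₂0, hu₂⟩
  have hNF : (s59m_frame3CW C D hglue).NF3 h₂ := ⟨hh₂0, hnf₂⟩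
  by_cases hcase : ∃ (c' : IsLocalRing.ResidueField ↥(s18q_A0 P L₀))
      (w : ↥(modularFunctionFieldFullC (IsLocalRing.ResidueField ↥(s18q_A0 P L₀)) M)),
      c' ≠ 0 ∧ w ≠ 0 ∧ D.rbW 1 ⟨h₂, (hu₂ 1).1⟩ =
        algebraMap (IsLocalRing.ResidueField ↥(s18q_A0 P L₀))
          ↥(modularFunctionFieldFullC (IsLocalRing.ResidueField ↥(s18q_A0 P L₀)) M) c' * w ^ p
  · -- the toric alternative
    right
    obtain ⟨c', w, hc', hw, ew⟩ := hcase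
    have R : s59m_Res3 (s59m_frame3CW C D hglue) p h₂ :=
      { hu := hU
        hnf := hNF
        c := ![c 0, c', c 2]
        α := ![b 0, w, b 2]
        c_ne := by
          intro j
          fin_cases j
          · exact hc 0
          · exact hc'
          · exact hc 2
        e := by
          intro j
          fin_cases j
          · exact e0
          · exact ew
          · exact e2 }
    have hrc : s59m_RootConst (IsLocalRing.ResidueField ↥(s18q_A0 P L₀))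
        ↥(modularFunctionFieldFullC (IsLocalRing.ResidueField ↥(s18q_A0 P L₀)) M) p := by
      refine s59u_rootConst _ p ?_
      rw [Ne, CharP.cast_eq_zero_iff (IsLocalRing.ResidueField ↥(s18q_A0 P L₀)) q]
      exact fun hd => hpq ((Nat.prime_dvd_prime_iff_eq hq.out hp.out).mp hd).symm
    exact s59m_lvl2_abs_add hp.out.ne_zero hrc
      (s59b_kumFrameUW M q hqM P hP L₀ hB.unr C hOK.geo (p ^ K) (s59m_pK_ne p K) (s59m_q_ndvd_pK q p hpq K))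
      (s59m_kumFrame3CW C p D hglue hinj) (M * q * p) HF HF3 a B hx0 heig hgen₂ R
  · -- the eigen-point of level `M`
    left
    refine hleft P hP L₀ hB.unr C a B hB' (D.rbW 1 ⟨h₂, (hu₂ 1).1⟩)
      ((s59m_frame3CW C D hglue).r_ne_zero hU 1)
      (fun v => s59m_nt_rb1_dvd_W M q hqM P hP L₀ hB.unr C hOK.full D h2 h3 p hpq h₂ hh₂0
        (s59m_gen_dvd_ord (M * q * q) p L₀ hgen₂) hu₂ v) hcase ?_
    intro ℓ hℓ hℓB
    have hℓ' : ¬ ℓ ∣ M * q * p := fun hd => hℓB (hB' ℓ hℓ.out hd)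
    obtain ⟨hℓN, hT⟩ := hHFT ℓ hℓ'
    have E := HF3 ⟨ℓ, hℓ.out⟩ hℓ'
    have hg : (s59m_kumFrame3CW C p D hglue hinj).gen x h₂ := hgen₂
    have hxe : heckeOperatorBar (M * q * q) ⟨ℓ, hℓ.out⟩ x = a ℓ • x := heig ⟨ℓ, hℓ.out⟩ hℓB
    have key := s59m_HeckeFrame3.res_rel E hg hU (a ℓ) hxe 1
    obtain ⟨c₁, γ₁, hc₁, hγ₁, e₁⟩ := key
    exact ⟨hℓN, (HF ⟨ℓ, hℓ.out⟩ hℓ').H, hT, c₁, γ₁, hc₁, hγ₁, e₁⟩

end ConcW

end Fermat.Agent.Lib.S59
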