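/-
Programme (R2) / node **[CAR]**, the ports to `q ∈ {2, 3}` — W5 over a CHART (helper9, prefix `s59m_`, suffix `W`): the TYPED
CONTRACT of leaf **[L2-5 LEFT] OVER CHARTS** — the twin of `MCarL2Left.lean` (`s59m_ZU … h5 …` replaced by the Σ-datum
`s59b_ZUW … C` of an arbitrary chart `C : s59b_ChartU M q hqM P hP L₀ hunr`; only the `∞`-component `Z.Ci` of the datum, which
does not depend on the chart, enters the proof).

**`s59m_LeftLeafW M q p hqM hpq`** (`p ≠ q` primes) : let `ρ ∈ Fbˣ` with `p ∣ ord_v ρ` at every place `v` of `Fb / κ₀`,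
`ρ ∉ κ₀ˣ · Fbˣᵖ`, and for every prime `ℓ ∉ B` SOME Hecke correspondence `H : s59m_HeckeOn (s59b_ZUW … C)` with `H.T = τ_ℓ`
and `H.Ti ρ = c · γ ^ p · ρ ^ (a ℓ)`, `c ∈ κ₀ˣ`, `γ ∈ Fbˣ`.  Then there is a non-zero eigen-point `y ∈ J₀(M)[p]` with the
eigenvalues `a ℓ` (`ℓ ∉ B`).
-/
import Fermat.Agent.Lib.S59.B4Top
import Fermat.Agent.Lib.S59.UCarTauD
import Fermat.Agent.Lib.S44.Iface

set_option autoImplicit false
set_option linter.style.haveILetI false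
set_option linter.unusedSectionVars false
set_option linter.unusedVariables false
set_option synthInstance.maxHeartbeats 400000

noncomputable section

namespace Fermat.Agent.Lib.S59

open ModularCurve HahnSeries AlgebraicCurve Fermat.Agent.Lib.FF Fermat.Agent.Lib.S18
  Fermat.Agent.Lib.S28 Fermat.Agent.Lib.S29 Fermat.Agent.Lib.S37 Fermat.Agent.Lib.S34
  Fermat.Agent.Lib.S35 Fermat.Agent.Lib.S33 Fermat.Agent.Lib.S44

local notation "Kb" => AlgebraicClosure ℚ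

/-- **The typed contract of leaf [L2-5 LEFT] over charts** (see the header). -/
def s59m_LeftLeafW (M q p : ℕ) [NeZero M] [hq : Fact q.Prime] [hp : Fact p.Prime] (hqM : ¬ q ∣ M)
    (hpq : p ≠ q) : Prop :=
  ∀ (P : ValuationSubring Kb) (hP : P.LiesOverPrime q) (L₀ : IntermediateField ℚ Kb)
    [FiniteDimensional ℚ ↥L₀] [CharP (IsLocalRing.ResidueField ↥(s18q_A0 P L₀)) q]
    [PerfectField (IsLocalRing.ResidueField ↥(s18q_A0 P L₀))]
    (hunr : ∀ τ ∈ P.inertiaSubgroupIn ℚ, ∀ a ∈ L₀, τ a = a)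
    (C : s59b_ChartU M q hqM P hP L₀ hunr)
    (a : ℕ → ℤ) (B : Finset ℕ), (∀ r : ℕ, r.Prime → r ∣ M * q * p → r ∈ B) →
    ∀ ρ : ↥(modularFunctionFieldFullC (IsLocalRing.ResidueField ↥(s18q_A0 P L₀)) M), ρ ≠ 0 →
      (∀ v : Place (IsLocalRing.ResidueField ↥(s18q_A0 P L₀))
        ↥(modularFunctionFieldFullC (IsLocalRing.ResidueField ↥(s18q_A0 P L₀)) M), (p : ℤ) ∣ v.ord ρ) →
      (¬ ∃ (c : IsLocalRing.ResidueField ↥(s18q_A0 P L₀))
          (w : ↥(modularFunctionFieldFullC (IsLocalRing.ResidueField ↥(s18q_A0 P L₀)) M)),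
          c ≠ 0 ∧ w ≠ 0 ∧ ρ = algebraMap (IsLocalRing.ResidueField ↥(s18q_A0 P L₀))
            ↥(modularFunctionFieldFullC (IsLocalRing.ResidueField ↥(s18q_A0 P L₀)) M) c * w ^ p) →
      (∀ (ℓ : ℕ) [hℓ : Fact ℓ.Prime], ℓ ∉ B → ∃ (hℓN : ¬ ℓ ∣ M * q)
        (H : s59m_HeckeOn (s59b_ZUW M q hqM P hP L₀ hunr C)),
        H.T = s59u_tauD (M * q) ℓ hℓN L₀ ∧
        ∃ (c : IsLocalRing.ResidueField ↥(s18q_A0 P L₀))
          (γ : ↥(modularFunctionFieldFullC (IsLocalRing.ResidueField ↥(s18q_A0 P L₀)) M)),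
          c ≠ 0 ∧ γ ≠ 0 ∧ H.Ti ρ = algebraMap (IsLocalRing.ResidueField ↥(s18q_A0 P L₀))
            ↥(modularFunctionFieldFullC (IsLocalRing.ResidueField ↥(s18q_A0 P L₀)) M) c * γ ^ p *
              ρ ^ (a ℓ)) →
      ∃ y : JZero M, y ≠ 0 ∧ s44i_Eig M p a B y

end Fermat.Agent.Lib.S59
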