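/-
Programme (R2) / node **[CAR]**, route R-DS′, W5 = the level `M q²` leaf (helper9, prefix `s59m_`): leaf **[L2-2 U3]**, abstract part:
**A KUMMER GENERATOR OF A NON-EISENSTEIN EIGEN-POINT IS A UNIT AT THE VERTICAL COMPONENTS, UP TO A CONSTANT AND A `p`-TH POWER.**

No modular curve in this file.  `K` a field over `L₀`; `V : ι → ValuationSubring K` finitely many pairwise different rank-one
valuation rings with uniformisers `π j` (decomposition form `s59m_IsUnif`); the uniformiser `ϖ` of the base valuation ring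
`A₀ ⊂ L₀` is `unit · π j ^ e j` at `V j` (`e j ≠ 0`).

* `s59m_IsUnif V π`, `h.ord : K → ℤ` : the normalised order function of a valuation ring with a uniformiser (`ord_mul`,
  `ord_zpow`, `ord_eq_zero_iff`, …);
* `s59m_exists_vals` : STRONG APPROXIMATION — for non-zero targets `g j` there is `x` with `x / g j ∈ 1 + 𝔪 (V j)` for all `j`;
* `s59m_ord_tau` : **[T-VAL]** a multiplicative `τ : K →* K` preserving the units of `V j` with `τ c = c ^ (ℓ + 1)` on the constants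
  satisfies `ord_j (τ y) = (ℓ + 1) · ord_j y`;
* **`s59m_exists_u3`** : if `τ h = c' · g' ^ p · h ^ a` with `p ∤ a - (ℓ + 1)` then `h · ϖ ^ u · g ^ (-p)` is a unit of every `V j`
  for suitable `u : ℤ`, `g ∈ Kˣ` (the Eisenstein argument of Mazur / Ribet).
-/
import Fermat.Agent.Lib.S59.MCarHecke
import Fermat.Agent.Lib.S36.GApprox
import Fermat.Agent.Lib.S36.XLocRad

set_option autoImplicit false
set_option linter.unusedSectionVars false
set_option linter.unusedVariables false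
set_option linter.style.haveILetI false

noncomputable section

namespace Fermat.Agent.Lib.S59

open Fermat.Agent.Lib.S36

variable {K : Type*} [Field K]

/-- `π` is a uniformiser of the valuation ring `V` (decomposition form). -/
structure s59m_IsUnif (V : ValuationSubring K) (π : K) : Prop where
  ne : π ≠ 0
  nonunit : π ∈ V.nonunits
  dec : ∀ U : K, U ≠ 0 → ∃ (n : ℤ) (v : K), v ∈ V ∧ v⁻¹ ∈ V ∧ U = π ^ n * v

namespace s59m_IsUnif

variable {V : ValuationSubring K} {π : K} (h : s59m_IsUnif V π)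

include h in
theorem mem : π ∈ V := V.nonunits_le h.nonunit

include h in
theorem inv_not_mem : π⁻¹ ∉ V := by
  have := h.nonunit
  rw [ValuationSubring.mem_nonunits_iff_or] at this
  rcases this with h0 | h0
  · exact absurd h0 h.ne
  · exact h0

include h in
/-- a positive power of `π` is not a unit. -/
theorem pow_inv_not_mem {n : ℕ} (hn : n ≠ 0) : (π ^ n)⁻¹ ∉ V := by
  intro hc
  obtain ⟨k, rfl⟩ := Nat.exists_eq_succ_of_ne_zero hn
  apply h.inv_not_mem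
  have : π⁻¹ = π ^ k * (π ^ (k + 1))⁻¹ := by
    have := h.ne
    field_simp
    ring
  rw [this]
  exact V.mul_mem _ _ (pow_mem h.mem k) hc

include h in
/-- `π ^ n` is a unit only for `n = 0`. -/
theorem zpow_unit {n : ℤ} (h1 : π ^ n ∈ V) (h2 : (π ^ n)⁻¹ ∈ V) : n = 0 := by
  by_contra hn
  rcases lt_or_gt_of_ne hn with hlt | hgt
  · -- `n < 0`: `π ^ n = (π ^ k)⁻¹`, `k > 0`
    obtain ⟨k, hk⟩ := Int.exists_eq_neg_ofNat hlt.le
    have hk0 : k ≠ 0 := by
      rintro rfl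
      rw [hk] at hn
      exact hn (by simp)
    rw [hk, zpow_neg, zpow_natCast] at h1
    exact h.pow_inv_not_mem hk0 h1
  · obtain ⟨k, hk⟩ := Int.eq_ofNat_of_zero_le hgt.le
    have hk0 : k ≠ 0 := by
      rintro rfl
      rw [hk] at hn
      exact hn (by simp)
    rw [hk, zpow_natCast] at h2
    exact h.pow_inv_not_mem hk0 h2

open Classical in
/-- **the normalised order function** (`0 ↦ 0`). -/
def ord (y : K) : ℤ := if hy : y = 0 then 0 else Classical.choose (h.dec y hy)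

theorem ord_spec {y : K} (hy : y ≠ 0) : ∃ v : K, v ∈ V ∧ v⁻¹ ∈ V ∧ y = π ^ h.ord y * v := by
  have := Classical.choose_spec (h.dec y hy)
  rw [ord, dif_neg hy]
  exact this

theorem ord_eq {y : K} {n : ℤ} {v : K} (hv : v ∈ V) (hv' : v⁻¹ ∈ V) (hv0 : v ≠ 0)
    (e : y = π ^ n * v) : h.ord y = n := by
  have hy : y ≠ 0 := by
    rw [e]
    exact mul_ne_zero (zpow_ne_zero _ h.ne) hv0
  obtain ⟨w, hw, hw', e'⟩ := h.ord_spec hy
  have hw0 : w ≠ 0 := by
    rintro rfl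
    rw [mul_zero] at e'
    exact hy e'
  have key : π ^ (h.ord y - n) = v * w⁻¹ := by
    rw [zpow_sub₀ h.ne]
    have h1 := zpow_ne_zero n h.ne
    rw [div_eq_iff h1]
    have : π ^ h.ord y = y * w⁻¹ := by
      rw [eq_mul_inv_iff_mul_eq₀ hw0]
      exact e'.symm
    rw [this, e]
    ring
  have h0 := h.zpow_unit (n := h.ord y - n) (by rw [key]; exact V.mul_mem _ _ hv hw')
    (by rw [key, mul_inv, inv_inv]; exact V.mul_mem _ _ hv' hw)
  omega

theorem ord_unit {v : K} (hv : v ∈ V) (hv' : v⁻¹ ∈ V) (hv0 : v ≠ 0) : h.ord v = 0 :=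
  h.ord_eq hv hv' hv0 (by rw [zpow_zero, one_mul])

theorem ord_self : h.ord π = 1 :=
  h.ord_eq V.one_mem (by rw [inv_one]; exact V.one_mem) one_ne_zero (by rw [zpow_one, mul_one])

theorem ord_mul {x y : K} (hx : x ≠ 0) (hy : y ≠ 0) : h.ord (x * y) = h.ord x + h.ord y := by
  obtain ⟨v, hv, hv', ex⟩ := h.ord_spec hx
  obtain ⟨w, hw, hw', ey⟩ := h.ord_spec hy
  have hv0 : v ≠ 0 := by
    rintro rfl
    rw [mul_zero] at ex
    exact hx ex
  have hw0 : w ≠ 0 := by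
    rintro rfl
    rw [mul_zero] at ey
    exact hy ey
  refine h.ord_eq (V.mul_mem _ _ hv hw) (by rw [mul_inv]; exact V.mul_mem _ _ hv' hw')
    (mul_ne_zero hv0 hw0) ?_
  rw [zpow_add₀ h.ne]
  calc x * y = (π ^ h.ord x * v) * (π ^ h.ord y * w) := by rw [← ex, ← ey]
    _ = π ^ h.ord x * π ^ h.ord y * (v * w) := by ring

theorem ord_inv {x : K} (hx : x ≠ 0) : h.ord x⁻¹ = - h.ord x := by
  obtain ⟨v, hv, hv', ex⟩ := h.ord_spec hx
  have hv0 : v ≠ 0 := by
    rintro rfl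
    rw [mul_zero] at ex
    exact hx ex
  refine h.ord_eq hv' (by rw [inv_inv]; exact hv) (inv_ne_zero hv0) ?_
  rw [zpow_neg, ← mul_inv, ← ex]

theorem ord_pow {x : K} (hx : x ≠ 0) (n : ℕ) : h.ord (x ^ n) = n * h.ord x := by
  induction n with
  | zero =>
    rw [pow_zero, Nat.cast_zero, zero_mul]
    exact h.ord_unit V.one_mem (by rw [inv_one]; exact V.one_mem) one_ne_zero
  | succ n ih =>
    rw [pow_succ, h.ord_mul (pow_ne_zero _ hx) hx, ih]
    push_cast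
    ring

theorem ord_zpow {x : K} (hx : x ≠ 0) (n : ℤ) : h.ord (x ^ n) = n * h.ord x := by
  cases n with
  | ofNat k => rw [Int.ofNat_eq_natCast, zpow_natCast, h.ord_pow hx]
  | negSucc k =>
    rw [zpow_negSucc, h.ord_inv (pow_ne_zero _ hx), h.ord_pow hx, Int.negSucc_eq]
    push_cast
    ring

/-- order `0` ⇒ unit. -/
theorem unit_of_ord {x : K} (hx : x ≠ 0) (h0 : h.ord x = 0) : x ∈ V ∧ x⁻¹ ∈ V := by
  obtain ⟨v, hv, hv', ex⟩ := h.ord_spec hx
  rw [h0, zpow_zero, one_mul] at ex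
  rw [ex]
  exact ⟨hv, hv'⟩

end s59m_IsUnif

/-! ### Strong approximation -/

section Approx

variable {ι : Type*} [Fintype ι] [DecidableEq ι] (V : ι → ValuationSubring K)

/-- an element of `1 + 𝔪` is a unit. -/
theorem s59m_unit_of_sub_one (W : ValuationSubring K) {x : K} (hx : x - 1 ∈ W.nonunits) :
    x ≠ 0 ∧ x ∈ W ∧ x⁻¹ ∈ W := by
  have h1 : W.valuation x = 1 := s36y_val_eq_one W hx
  have hx0 : x ≠ 0 := by
    rintro rfl
    rw [map_zero] at h1
    exact zero_ne_one h1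
  exact ⟨hx0, s36y_mem_of_val_eq_one W h1⟩

/-- **Strong approximation** for finitely many pairwise different rank-one valuation rings: non-zero targets `g j` are
approximated multiplicatively, `x / g j ∈ 1 + 𝔪 (V j)`. -/
theorem s59m_exists_vals
    (hA : ∀ i, ∀ b ∈ (V i).nonunits, b ≠ 0 → ∀ y : K, ∃ k : ℕ, b ^ k * y ∈ V i)
    (hnt : ∀ i, ∃ b ∈ (V i).nonunits, b ≠ 0) (hne : ∀ i j, i ≠ j → V i ≠ V j)
    (g : ι → K) (hg : ∀ j, g j ≠ 0) :
    ∃ x : K, ∀ j, x * (g j)⁻¹ - 1 ∈ (V j).nonunits := by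
  classical
  -- the "idempotents"
  have hE : ∀ j, ∃ e : K, e - 1 ∈ (V j).nonunits ∧ ∀ i, i ≠ j → e ∈ (V i).nonunits := by
    intro j
    obtain ⟨e, he⟩ := s36g_approx_fintype V hA hnt hne (fun i => if i = j then 1 else 0)
      (fun i => by
        by_cases hij : i = j
        · simp only [hij, if_true]; exact (V j).one_mem
        · simp only [hij, if_false]; exact (V i).zero_mem)
    refine ⟨e, ?_, fun i hij => ?_⟩
    · have := he j
      simpa using this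
    · have := he i
      simpa [hij] using this
  choose e he1 he2 using hE
  have he0 : ∀ j, e j ≠ 0 := fun j => (s59m_unit_of_sub_one (V j) (he1 j)).1
  -- high powers kill the other components
  have hk : ∀ i j, i ≠ j → ∃ k : ℕ, ∀ k' ≥ k, e j ^ k' * (g j * (g i)⁻¹) ∈ (V i).nonunits := by
    intro i j hij
    obtain ⟨k, hk⟩ := hA i (e j) (he2 j i hij) (he0 j) (g j * (g i)⁻¹)
    refine ⟨k + 1, fun k' hk' => ?_⟩
    obtain ⟨d, rfl⟩ := Nat.exists_eq_add_of_le hk'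
    have : e j ^ (k + 1 + d) * (g j * (g i)⁻¹) = e j ^ (d + 1) * (e j ^ k * (g j * (g i)⁻¹)) := by ring
    rw [this]
    refine s36y_mul_mem_nonunits' _ ?_ hk
    rw [pow_succ]
    have hm : e j ∈ V i := (V i).nonunits_le (he2 j i hij)
    exact s36y_mul_mem_nonunits _ (pow_mem hm d) (he2 j i hij)
  choose! kk hkk using hk
  set N : ℕ := Finset.univ.sup (fun i => Finset.univ.sup (fun j => kk i j)) with hN
  have hNle : ∀ i j, kk i j ≤ N := fun i j =>
    le_trans (Finset.le_sup (f := fun j => kk i j) (Finset.mem_univ j))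
      (Finset.le_sup (f := fun i => Finset.univ.sup (fun j => kk i j)) (Finset.mem_univ i))
  refine ⟨∑ j, e j ^ N * g j, fun i => ?_⟩
  have e1 : (∑ j, e j ^ N * g j) * (g i)⁻¹ - 1 =
      (e i ^ N - 1) + ∑ j ∈ Finset.univ.erase i, e j ^ N * (g j * (g i)⁻¹) := by
    rw [Finset.sum_mul, ← Finset.add_sum_erase Finset.univ _ (Finset.mem_univ i)]
    have : e i ^ N * g i * (g i)⁻¹ = e i ^ N := by
      rw [mul_assoc, mul_inv_cancel₀ (hg i), mul_one]
    rw [this]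
    have h2 : ∑ x ∈ Finset.univ.erase i, e x ^ N * g x * (g i)⁻¹ =
        ∑ j ∈ Finset.univ.erase i, e j ^ N * (g j * (g i)⁻¹) :=
      Finset.sum_congr rfl (fun j _ => by ring)
    rw [h2]
    ring
  rw [e1]
  refine (V i).nonunits.add_mem ?_ (sum_mem fun j hj => ?_)
  · -- `e i ^ N ≡ 1`
    have h1 : (V i).valuation (e i) = 1 := s36y_val_eq_one (V i) (he1 i)
    have hm := s36y_mem_of_val_eq_one (V i) h1
    have := s36y_pow_sub_pow_mem (V i) hm.1 (V i).one_mem (he1 i) N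
    rwa [one_pow] at this
  · exact hkk i j (Finset.ne_of_mem_erase hj).symm N (hNle i j)

end Approx

/-! ### [T-VAL] and the Eisenstein argument -/

section U3

variable {L₀ : Type*} [Field L₀] [Algebra L₀ K]
variable {ι : Type*} [Fintype ι] [DecidableEq ι] (V : ι → ValuationSubring K) (π : ι → K)
  (hπ : ∀ j, s59m_IsUnif (V j) (π j))
  (ϖ : L₀) (e : ι → ℕ) (he : ∀ j, e j ≠ 0)
  (hϖ : ∀ j, ∃ u : K, u ≠ 0 ∧ u ∈ V j ∧ u⁻¹ ∈ V j ∧ algebraMap L₀ K ϖ = u * π j ^ e j)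
  (τ : K →* K) (hτu : ∀ j (v : K), v ∈ V j → v⁻¹ ∈ V j → τ v ∈ V j)
  (ℓ : ℕ) (hτc : ∀ c : L₀, τ (algebraMap L₀ K c) = algebraMap L₀ K (c ^ (ℓ + 1)))

include he hϖ hτu hτc in
/-- **[T-VAL]**: `ord_j (τ y) = (ℓ + 1) · ord_j y`. -/
theorem s59m_ord_tau (j : ι) {y : K} (hy : y ≠ 0) :
    (hπ j).ord (τ y) = (ℓ + 1 : ℤ) * (hπ j).ord y := by
  have hunit : ∀ v : K, v ≠ 0 → v ∈ V j → v⁻¹ ∈ V j → (hπ j).ord (τ v) = 0 := by
    intro v hv0 hv hv'
    refine (hπ j).ord_unit (hτu j v hv hv') ?_ (s59m_mh_ne_zero τ hv0)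
    rw [← s59m_mh_inv τ hv0]
    exact hτu j v⁻¹ hv' (by rw [inv_inv]; exact hv)
  -- the order of `τ π`
  obtain ⟨u, hu0, hu, hu', eϖ⟩ := hϖ j
  have hπ0 := (hπ j).ne
  have hτπ0 : τ (π j) ≠ 0 := s59m_mh_ne_zero τ hπ0
  have hϖ0 : algebraMap L₀ K ϖ ≠ 0 := by
    rw [eϖ]
    exact mul_ne_zero hu0 (pow_ne_zero _ hπ0)
  have hordϖ : (hπ j).ord (algebraMap L₀ K ϖ) = e j := by
    refine (hπ j).ord_eq hu hu' hu0 ?_
    rw [zpow_natCast, eϖ, mul_comm]
  have h1 : (hπ j).ord (τ (algebraMap L₀ K ϖ)) = (ℓ + 1 : ℤ) * e j := by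
    rw [hτc ϖ, map_pow, (hπ j).ord_pow hϖ0, hordϖ]
    push_cast
    ring
  have h2 : (hπ j).ord (τ (algebraMap L₀ K ϖ)) = (e j : ℤ) * (hπ j).ord (τ (π j)) := by
    rw [eϖ, map_mul, map_pow, (hπ j).ord_mul (s59m_mh_ne_zero τ hu0) (pow_ne_zero _ hτπ0),
      hunit u hu0 hu hu', zero_add, (hπ j).ord_pow hτπ0]
  have hτπ : (hπ j).ord (τ (π j)) = ℓ + 1 := by
    have hej : (e j : ℤ) ≠ 0 := by exact_mod_cast he j
    have := h1.symm.trans h2
    have h3 : (e j : ℤ) * ((ℓ : ℤ) + 1) = (e j : ℤ) * (hπ j).ord (τ (π j)) := by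
      rw [← this]; ring
    exact (mul_left_cancel₀ hej h3).symm
  obtain ⟨v, hv, hv', ey⟩ := (hπ j).ord_spec hy
  have hv0 : v ≠ 0 := by
    rintro rfl
    rw [mul_zero] at ey
    exact hy ey
  have : τ y = τ (π j) ^ (hπ j).ord y * τ v := by
    conv_lhs => rw [ey]
    rw [map_mul, s59m_mh_zpow τ hπ0]
  rw [this, (hπ j).ord_mul (zpow_ne_zero _ hτπ0) (s59m_mh_ne_zero τ hv0), hunit v hv0 hv hv',
    add_zero, (hπ j).ord_zpow hτπ0, hτπ]
  ring

include hπ he hϖ hτu hτc in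
/-- **[L2-2 U3], abstract** (see the header). -/
theorem s59m_exists_u3
    (hA : ∀ i, ∀ b ∈ (V i).nonunits, b ≠ 0 → ∀ y : K, ∃ k : ℕ, b ^ k * y ∈ V i)
    (hne : ∀ i j, i ≠ j → V i ≠ V j)
    (A₀ : ValuationSubring L₀) (hϖA : s59m_IsUnif A₀ ϖ)
    (hconst : ∀ j, ∀ c ∈ A₀, algebraMap L₀ K c ∈ V j)
    (p : ℕ) (hp : p.Prime) (a : ℤ) (hna : ¬ (p : ℤ) ∣ a - (ℓ + 1))
    (h : K) (hh : h ≠ 0) (c' : L₀) (g' : K) (hc' : c' ≠ 0) (hg' : g' ≠ 0)
    (rel : τ h = algebraMap L₀ K c' * g' ^ p * h ^ a) :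
    ∃ (u : ℤ) (g : K), g ≠ 0 ∧
      ∀ j, h * algebraMap L₀ K ϖ ^ u * (g ^ p)⁻¹ ∈ V j ∧
        (h * algebraMap L₀ K ϖ ^ u * (g ^ p)⁻¹)⁻¹ ∈ V j := by
  classical
  by_cases hι : Nonempty ι
  swap
  · exact ⟨0, 1, one_ne_zero, fun j => (hι ⟨j⟩).elim⟩
  have hpZ : Prime (p : ℤ) := Nat.prime_iff_prime_int.mp hp
  -- the constant `c' = ϖ ^ k · unit`
  obtain ⟨w, hw, hw', ec'⟩ := hϖA.ord_spec hc'
  set k : ℤ := hϖA.ord c' with hk
  have hw0 : w ≠ 0 := by
    rintro rfl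
    rw [mul_zero] at ec'
    exact hc' ec'
  have hϖK0 : algebraMap L₀ K ϖ ≠ 0 := by
    rw [Ne, map_eq_zero]
    exact hϖA.ne
  have hordϖ : ∀ j, (hπ j).ord (algebraMap L₀ K ϖ) = e j := by
    intro j
    obtain ⟨u, hu0, hu, hu', eϖ⟩ := hϖ j
    refine (hπ j).ord_eq hu hu' hu0 ?_
    rw [zpow_natCast, eϖ, mul_comm]
  have hordc' : ∀ j, (hπ j).ord (algebraMap L₀ K c') = k * e j := by
    intro j
    have hwK0 : algebraMap L₀ K w ≠ 0 := by rwa [Ne, map_eq_zero]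
    have : algebraMap L₀ K c' = algebraMap L₀ K ϖ ^ k * algebraMap L₀ K w := by
      conv_lhs => rw [ec']
      rw [map_mul, map_zpow₀]
    rw [this, (hπ j).ord_mul (zpow_ne_zero _ hϖK0) hwK0, (hπ j).ord_zpow hϖK0, hordϖ j,
      (hπ j).ord_unit (hconst j w hw) (by rw [← map_inv₀]; exact hconst j _ hw') hwK0, add_zero]
  -- the order relation
  have hc'K0 : algebraMap L₀ K c' ≠ 0 := by rwa [Ne, map_eq_zero]
  have hrel : ∀ j, ((ℓ : ℤ) + 1 - a) * (hπ j).ord h = k * e j + p * (hπ j).ord g' := by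
    intro j
    have h1 := s59m_ord_tau V π hπ ϖ e he hϖ τ hτu ℓ hτc j hh
    rw [rel, (hπ j).ord_mul (mul_ne_zero hc'K0 (pow_ne_zero _ hg')) (zpow_ne_zero _ hh),
      (hπ j).ord_mul hc'K0 (pow_ne_zero _ hg'), hordc' j, (hπ j).ord_pow hg',
      (hπ j).ord_zpow hh] at h1
    linear_combination -h1
  -- `d · u ≡ k mod p`
  set d : ℤ := (ℓ : ℤ) + 1 - a with hd
  have hdp : IsCoprime d (p : ℤ) := by
    rw [isCoprime_comm]
    refine (Prime.coprime_iff_not_dvd hpZ).mpr ?_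
    intro hdvd
    apply hna
    have : a - ((ℓ : ℤ) + 1) = -d := by rw [hd]; ring
    rw [this]
    exact (dvd_neg).mpr hdvd
  obtain ⟨x, y, hxy⟩ := hdp
  -- `x d + y p = 1`; take `u = x k`
  set u : ℤ := x * k with hu
  have hdiv : ∀ j, (p : ℤ) ∣ (hπ j).ord h - u * e j := by
    intro j
    have h1 : d * ((hπ j).ord h - u * e j) = p * ((hπ j).ord g' + y * k * e j) := by
      have := hrel j
      have hx : x * d = 1 - y * p := by linear_combination hxy
      calc d * ((hπ j).ord h - u * e j) = d * (hπ j).ord h - (x * d) * k * e j := by rw [hu]; ring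
        _ = (k * e j + p * (hπ j).ord g') - (1 - y * p) * k * e j := by rw [this, hx]
        _ = p * ((hπ j).ord g' + y * k * e j) := by ring
    have h2 : (p : ℤ) ∣ d * ((hπ j).ord h - u * e j) := ⟨_, h1⟩
    rcases hpZ.dvd_or_dvd h2 with h3 | h3
    · exfalso
      have hunit : IsUnit (p : ℤ) := by
        have : IsCoprime d (p : ℤ) := ⟨x, y, hxy⟩
        exact this.symm.isUnit_of_dvd' dvd_rfl h3
      exact hpZ.not_isUnit hunit
    · exact h3
  -- the targets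
  set h' : K := h * algebraMap L₀ K ϖ ^ (-u) with hh'
  have hh'0 : h' ≠ 0 := mul_ne_zero hh (zpow_ne_zero _ hϖK0)
  have hordh' : ∀ j, (hπ j).ord h' = (hπ j).ord h - u * e j := by
    intro j
    rw [hh', (hπ j).ord_mul hh (zpow_ne_zero _ hϖK0), (hπ j).ord_zpow hϖK0, hordϖ j]
    ring
  choose n hn using hdiv
  have hnt : ∀ i, ∃ b ∈ (V i).nonunits, b ≠ 0 := fun i => ⟨π i, (hπ i).nonunit, (hπ i).ne⟩
  obtain ⟨X, hX⟩ := s59m_exists_vals V hA hnt hne (fun j => π j ^ n j)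
    (fun j => zpow_ne_zero _ (hπ j).ne)
  have hXu : ∀ j, X * (π j ^ n j)⁻¹ ≠ 0 ∧ X * (π j ^ n j)⁻¹ ∈ V j ∧ (X * (π j ^ n j)⁻¹)⁻¹ ∈ V j :=
    fun j => s59m_unit_of_sub_one (V j) (hX j)
  have hX0 : X ≠ 0 := by
    rintro rfl
    obtain ⟨j⟩ := hι
    exact (hXu j).1 (by rw [zero_mul])
  have hordX : ∀ j, (hπ j).ord X = n j := by
    intro j
    have : X = π j ^ n j * (X * (π j ^ n j)⁻¹) := by
      have := zpow_ne_zero (n j) (hπ j).ne
      field_simp
    exact (hπ j).ord_eq (hXu j).2.1 (hXu j).2.2 (hXu j).1 this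
  refine ⟨-u, X, hX0, fun j => ?_⟩
  have hz : h * algebraMap L₀ K ϖ ^ (-u) * (X ^ p)⁻¹ ≠ 0 :=
    mul_ne_zero hh'0 (inv_ne_zero (pow_ne_zero _ hX0))
  refine (hπ j).unit_of_ord hz ?_
  rw [(hπ j).ord_mul hh'0 (inv_ne_zero (pow_ne_zero _ hX0)), (hπ j).ord_inv (pow_ne_zero _ hX0),
    (hπ j).ord_pow hX0, hordX j, hordh' j, hn j]
  ring

end U3

end Fermat.Agent.Lib.S59
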