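/-
Programme (R2), node **[CAR]**, route R-DS′, leaf **[L-c]** (Hecke frame), part 2 (helper3, prefix `s59u_`):
`τ_ℓ = s59u_tauD` (over an arbitrary `L₀`, `UCarTauD.lean`) ON KUMMER GENERATORS — the `gen_hecke` field of
`s59m_HeckeFrame` for any Kummer frame whose `gen x h` is built on `s33d_IsKumGen m x (incl h)`.

* `s59u_isKumGen_tauD` : `incl f₀` Kummer generator (exponent `n`) of `z` ⇒ `incl (τ f₀)` Kummer generator of `T_ℓ z`;
* `s59u_hecke_rel`     : `T_ℓ z = a₀ • z` ⇒ `τ f₀ = c₀ · g ^ p · f₀ ^ a₀` over `L₀` (no root of unity in `L₀`).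
-/
import Fermat.Agent.Lib.S59.UCarTauD
import Fermat.Agent.Lib.S44.CoreHRel

set_option autoImplicit false
set_option linter.style.haveILetI false
set_option linter.unusedSectionVars false
set_option linter.unusedVariables false
set_option synthInstance.maxHeartbeats 400000

noncomputable section

namespace Fermat.Agent.Lib.S59

open ModularCurve HahnSeries AlgebraicCurve Fermat.Agent.Lib.FF Fermat.Agent.Lib.S18
  Fermat.Agent.Lib.S28 Fermat.Agent.Lib.S29 Fermat.Agent.Lib.S37 Fermat.Agent.Lib.S34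
  Fermat.Agent.Lib.S33 Fermat.Agent.Lib.S44

local notation "Kb" => AlgebraicClosure ℚ

variable (N : ℕ) [NeZero N] (ℓ : ℕ) [hℓ : Fact ℓ.Prime] (hℓN : ¬ ℓ ∣ N)
variable (L₀ : IntermediateField ℚ Kb)

/-- `incl (τ f₀)` is a Kummer generator (exponent `n`) of `T_ℓ z`. -/
theorem s59u_isKumGen_tauD (n : ℕ) {z : JZero N} {f₀ : s34m_F ↥L₀ N}
    (h : s33d_IsKumGen n z (s18q_incl N L₀ f₀)) :
    s33d_IsKumGen n (heckeOperatorBar N ⟨ℓ, hℓ.out⟩ z)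
      (s18q_incl N L₀ (s59u_tauD N ℓ hℓN L₀ f₀)) := by
  rw [s59u_incl_tauD]
  exact s44c_isKumGen_hecke N ℓ hℓN n z _ h

/-- **THE HECKE RELATION over an arbitrary `L₀`.** -/
theorem s59u_hecke_rel (p : ℕ) [hp : Fact p.Prime] {z : JZero N} {f₀ : s34m_F ↥L₀ N}
    (h : s33d_IsKumGen p z (s18q_incl N L₀ f₀)) (a₀ : ℤ)
    (hz : heckeOperatorBar N ⟨ℓ, hℓ.out⟩ z = a₀ • z) :
    ∃ (c₀ : ↥L₀) (g : s34m_F ↥L₀ N), c₀ ≠ 0 ∧ g ≠ 0 ∧
      s59u_tauD N ℓ hℓN L₀ f₀ = algebraMap ↥L₀ (s34m_F ↥L₀ N) c₀ * g ^ p * f₀ ^ a₀ := by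
  have h1 : s33d_IsKumGen p (a₀ • z) (s18q_incl N L₀ (f₀ ^ a₀)) := by
    rw [map_zpow₀]
    exact s44c_isKumGen_zpow N p h a₀
  have h2 : s33d_IsKumGen p (a₀ • z) (s18q_incl N L₀ (s59u_tauD N ℓ hℓN L₀ f₀)) := by
    rw [← hz]
    exact s59u_isKumGen_tauD N ℓ hℓN L₀ p h
  exact s33d_kum0_of_same_class N p L₀ h1 h2

end Fermat.Agent.Lib.S59
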