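/-
Programme (R2) / node **[CAR]**, route R-DS′, W5 = the level `M q²` leaf (helper9, prefix `s59m_`): leaf **[L2-2 U3]**, concrete:
**THE KUMMER GENERATOR OF A NON-EISENSTEIN EIGEN-POINT OF LEVEL `M q²` IS A UNIT AT THE THREE GAUSS VALUATIONS, UP TO A POWER OF `q`
AND A `p`-TH POWER.**

Over the concrete data `D : s59m_L2Data M q hqM P hP L₀ hunr` (`MCarL2F.lean`):
* `D.π j`, `D.e j` : the uniformisers `q, t = j_{q²} - j, q` of `V 0, V 1, V 2` and the ramification indices `1, q - 1, 1`;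
  `D.isUnif j : s59m_IsUnif (D.V j) (D.π j)`, `D.q_eq j : q = unit · π j ^ e j`;
* `s59m_isUnif_A0` : `q` is a uniformiser of `A₀ = s18q_A0 P L₀` (decomposition form);
* **`D.exists_u3`** : `x ∈ J₀(M q²)[p]` with `T_ℓ x = a • x`, `p ∤ a - (ℓ + 1)`, `ℓ ∤ M q`, `ℓ ≠ q`, and a Kummer generator `h` over `L₀`
  ⇒ `h · q ^ u · g ^ (-p)` is a unit of the three rings for suitable `u : ℤ`, `g ≠ 0` (abstract part `s59m_exists_u3`,
  `MCarU3.lean`; `τ_ℓ (V j) ⊆ V j` is helper3's `s59u_tauD_mem_V3`, the Hecke relation his `s59u_hecke_rel`).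
-/
import Fermat.Agent.Lib.S59.MCarL2F
import Fermat.Agent.Lib.S59.MCarU3
import Fermat.Agent.Lib.S59.UCarCorr3
import Fermat.Agent.Lib.S59.UCarTauGen
import Fermat.Agent.Lib.S36.GGalUnit
import Fermat.Agent.Lib.S36.XBaseLoc

set_option autoImplicit false
set_option linter.style.haveILetI false
set_option linter.unusedSectionVars false
set_option linter.unusedVariables false
set_option synthInstance.maxHeartbeats 400000

noncomputable section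

namespace Fermat.Agent.Lib.S59

open ModularCurve HahnSeries AlgebraicCurve Fermat.Agent.Lib.FF Fermat.Agent.Lib.S18
  Fermat.Agent.Lib.S28 Fermat.Agent.Lib.S29 Fermat.Agent.Lib.S37 Fermat.Agent.Lib.S34
  Fermat.Agent.Lib.S35 Fermat.Agent.Lib.S33 Fermat.Agent.Lib.S44 Fermat.Agent.Lib.S36

local notation "Kb" => AlgebraicClosure ℚ

/-- a discrete valuation ring of a field with an irreducible element: decomposition form. -/
theorem s59m_isUnif_of_dvr {L : Type*} [Field L] (A : ValuationSubring L) [IsDiscreteValuationRing ↥A]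
    (ϖ : ↥A) (hϖ : Irreducible ϖ) : s59m_IsUnif A (ϖ : L) := by
  have hϖ0 : (ϖ : L) ≠ 0 := fun h => hϖ.ne_zero (Subtype.ext h)
  have hdec : ∀ x : L, x ≠ 0 → x ∈ A →
      ∃ (n : ℤ) (v : L), v ∈ A ∧ v⁻¹ ∈ A ∧ x = (ϖ : L) ^ n * v := by
    intro x hx0 hxA
    have hx0' : (⟨x, hxA⟩ : ↥A) ≠ 0 := fun h => hx0 (congrArg Subtype.val h)
    obtain ⟨n, u, hu⟩ := IsDiscreteValuationRing.eq_unit_mul_pow_irreducible hx0' hϖ
    refine ⟨n, ((u : ↥A) : L), (u : ↥A).2, ?_, ?_⟩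
    · have h1 : ((u : ↥A) : L) * (((u⁻¹ : (↥A)ˣ) : ↥A) : L) = 1 := by
        have h2 : ((u : ↥A) * ((u⁻¹ : (↥A)ˣ) : ↥A) : ↥A) = 1 := Units.mul_inv u
        have h3 := congrArg (Subtype.val : ↥A → L) h2
        rw [MulMemClass.coe_mul] at h3
        exact h3
      rw [← eq_inv_of_mul_eq_one_right h1]
      exact ((u⁻¹ : (↥A)ˣ) : ↥A).2
    · have h3 := congrArg (Subtype.val : ↥A → L) hu
      rw [MulMemClass.coe_mul, SubmonoidClass.coe_pow] at h3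
      rw [zpow_natCast, mul_comm]
      exact h3
  refine ⟨hϖ0, ?_, ?_⟩
  · rw [ValuationSubring.mem_nonunits_iff_exists_mem_maximalIdeal]
    exact ⟨ϖ.2, hϖ.not_isUnit⟩
  · intro x hx0
    rcases A.mem_or_inv_mem x with hx | hx
    · exact hdec x hx0 hx
    · obtain ⟨n, v, hv, hv', e⟩ := hdec x⁻¹ (inv_ne_zero hx0) hx
      refine ⟨-n, v⁻¹, hv', by rw [inv_inv]; exact hv, ?_⟩
      rw [zpow_neg, ← mul_inv, ← e, inv_inv]

variable {M q : ℕ} [NeZero M] [hq : Fact q.Prime] {hqM : ¬ q ∣ M}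
  {P : ValuationSubring Kb} {hP : P.LiesOverPrime q}
  {L₀ : IntermediateField ℚ Kb} [FiniteDimensional ℚ ↥L₀]
  {hunr : ∀ τ ∈ P.inertiaSubgroupIn ℚ, ∀ a ∈ L₀, τ a = a}

variable (q P hP L₀ hunr) in
/-- `q` is a uniformiser of `A₀`. -/
theorem s59m_isUnif_A0 : s59m_IsUnif (s59m_GU q P hP L₀ hunr).A (((q : ℕ) : ↥L₀)) := by
  haveI : IsDiscreteValuationRing ↥(s18q_A0 P L₀) := s18q_A0_dvr P L₀ hP
  exact s59m_isUnif_of_dvr (s18q_A0 P L₀) ((q : ℕ) : ↥(s18q_A0 P L₀))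
    (s59m_q_irreducible q P hP L₀ hunr)

namespace s59m_L2Data

variable (D : s59m_L2Data M q hqM P hP L₀ hunr)

/-- the uniformisers of the three rings. -/
def π (_D : s59m_L2Data M q hqM P hP L₀ hunr) (j : Fin 3) : s34m_F ↥L₀ (M * q * q) :=
  if j = 1 then s36m_t M q else s34m_unif (s59m_GU q P hP L₀ hunr) (M * q * q)

/-- the ramification indices. -/
def e (_D : s59m_L2Data M q hqM P hP L₀ hunr) (j : Fin 3) : ℕ := if j = 1 then q - 1 else 1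

theorem e_ne (j : Fin 3) : D.e j ≠ 0 := by
  unfold e
  have := hq.out.two_le
  split_ifs <;> omega

/-- a valuation ring with a generator of the non-units, archimedean with respect to it. -/
theorem _root_.Fermat.Agent.Lib.S59.s59m_isUnif_of_gen {F : Type*} [Field F] (V : ValuationSubring F)
    (ϖ : F) (h0 : ϖ ≠ 0) (hnu : ϖ ∈ V.nonunits) (hgen : ∀ y ∈ V.nonunits, ∃ z ∈ V, y = ϖ * z)
    (harch : ∀ y : F, ∃ k : ℕ, ϖ ^ k * y ∈ V) : s59m_IsUnif V ϖ := by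
  refine ⟨h0, hnu, fun U hU => ?_⟩
  obtain ⟨n, u, hu, e⟩ := s36g_unif_decomp V ϖ hgen harch U hU
  obtain ⟨h1, h2, -⟩ := (s36g_val_eq_one_iff V).mp hu
  exact ⟨n, u, h1, h2, e⟩

theorem isUnif (j : Fin 3) : s59m_IsUnif (D.V j) (D.π j) := by
  obtain ⟨-, hU, -⟩ := D.pkg
  obtain ⟨h1, h2, h3, h4, h5, ⟨u, hu, hu', hut⟩, h7⟩ := hU
  have hϖ0 : s34m_unif (s59m_GU q P hP L₀ hunr) (M * q * q) ≠ 0 := s34m_unif_ne_zero _ _
  fin_cases j
  · exact s59m_isUnif_of_gen (D.V 0) _ hϖ0 (h1 0) h2 (h7 0)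
  · have ht0 : s36m_t (K₀ := ↥L₀) M q ≠ 0 := by
      intro h0
      rw [h0, zero_pow (Nat.sub_ne_zero_of_lt hq.out.one_lt), mul_zero] at hut
      exact hϖ0 hut
    have hu0 : u ≠ 0 := by
      rintro rfl
      rw [zero_mul] at hut
      exact hϖ0 hut
    refine s59m_isUnif_of_gen (D.V 1) _ ht0 h4 h5 (fun y => ?_)
    obtain ⟨k, hk⟩ := h7 1 y
    refine ⟨(q - 1) * k, ?_⟩
    have : s36m_t (K₀ := ↥L₀) M q ^ ((q - 1) * k) * y =
        u⁻¹ ^ k * (s34m_unif (s59m_GU q P hP L₀ hunr) (M * q * q) ^ k * y) := by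
      rw [hut, mul_pow, pow_mul, inv_pow]
      have := pow_ne_zero k hu0
      field_simp
    show s36m_t (K₀ := ↥L₀) M q ^ ((q - 1) * k) * y ∈ D.V 1
    rw [this]
    exact (D.V 1).mul_mem _ _ (pow_mem hu' k) hk
  · exact s59m_isUnif_of_gen (D.V 2) _ hϖ0 (h1 2) h3 (h7 2)

/-- `q = unit · π j ^ e j`. -/
theorem q_eq (j : Fin 3) : ∃ u : s34m_F ↥L₀ (M * q * q), u ≠ 0 ∧ u ∈ D.V j ∧ u⁻¹ ∈ D.V j ∧
    algebraMap ↥L₀ (s34m_F ↥L₀ (M * q * q)) ((q : ℕ) : ↥L₀) = u * D.π j ^ D.e j := by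
  obtain ⟨-, hU, -⟩ := D.pkg
  obtain ⟨-, -, -, -, -, ⟨u, hu, hu', hut⟩, -⟩ := hU
  have hϖ0 : s34m_unif (s59m_GU q P hP L₀ hunr) (M * q * q) ≠ 0 := s34m_unif_ne_zero _ _
  have h1 : (1 : s34m_F ↥L₀ (M * q * q)) ∈ D.V j := (D.V j).one_mem
  fin_cases j
  · exact ⟨1, one_ne_zero, h1, by rw [inv_one]; exact h1, by
      show _ = 1 * (s34m_unif (s59m_GU q P hP L₀ hunr) (M * q * q)) ^ 1
      rw [one_mul, pow_one]; rfl⟩
  · have hu0 : u ≠ 0 := by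
      rintro rfl
      rw [zero_mul] at hut
      exact hϖ0 hut
    exact ⟨u, hu0, hu, hu', hut⟩
  · exact ⟨1, one_ne_zero, h1, by rw [inv_one]; exact h1, by
      show _ = 1 * (s34m_unif (s59m_GU q P hP L₀ hunr) (M * q * q)) ^ 1
      rw [one_mul, pow_one]; rfl⟩

/-- the three rings are pairwise different. -/
theorem V_ne (i j : Fin 3) (hij : i ≠ j) : D.V i ≠ D.V j := by
  obtain ⟨-, -, -, -, ⟨h01, h02, h12⟩, -⟩ := D.pkg
  fin_cases i <;> fin_cases j <;> first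
    | exact absurd rfl hij
    | exact h01
    | exact h02
    | exact h12
    | exact fun h => h01 h.symm
    | exact fun h => h02 h.symm
    | exact fun h => h12 h.symm

/-- rank one (copy of `D.arch` of `MCarL2G.lean`, to keep the imports light). -/
theorem arch' : s36q_Arch D.V := by
  haveI : IsDiscreteValuationRing ↥(s59m_GU q P hP L₀ hunr).A := s18q_A0_dvr P L₀ hP
  exact s36b_arch (s59m_GU q P hP L₀ hunr) M q hq.out D.pkg.2.1

/-- **[L2-2 U3], concrete** (see the header). -/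
theorem exists_u3 [CharP (IsLocalRing.ResidueField ↥(s18q_A0 P L₀)) q]
    [PerfectField (IsLocalRing.ResidueField ↥(s18q_A0 P L₀))]
    (p : ℕ) [hp : Fact p.Prime] (ℓ : ℕ) [hℓ : Fact ℓ.Prime]
    (hℓ2 : ¬ ℓ ∣ M * q * q) (hqℓ : q ≠ ℓ)
    (a : ℤ) (hna : ¬ (p : ℤ) ∣ a - (ℓ + 1))
    {x : JZero (M * q * q)} {h : s34m_F ↥L₀ (M * q * q)}
    (hgen : s33d_IsKumGen p x (s18q_incl (M * q * q) L₀ h))
    (hx : heckeOperatorBar (M * q * q) ⟨ℓ, hℓ.out⟩ x = a • x) :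
    ∃ (u : ℤ) (g : s34m_F ↥L₀ (M * q * q)), g ≠ 0 ∧
      ∀ j, h * algebraMap ↥L₀ (s34m_F ↥L₀ (M * q * q)) ((q : ℕ) : ↥L₀) ^ u * (g ^ p)⁻¹ ∈ D.V j ∧
        (h * algebraMap ↥L₀ (s34m_F ↥L₀ (M * q * q)) ((q : ℕ) : ↥L₀) ^ u * (g ^ p)⁻¹)⁻¹ ∈ D.V j := by
  haveI : IsDiscreteValuationRing ↥(s59m_GU q P hP L₀ hunr).A := s18q_A0_dvr P L₀ hP
  obtain ⟨hC, -, -, hK, hI, -, -⟩ := D.pkg
  have hh0 : h ≠ 0 := by
    intro h0
    apply hgen.1
    rw [h0, map_zero]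
  obtain ⟨c', g', hc', hg', rel⟩ := s59u_hecke_rel (M * q * q) ℓ hℓ2 L₀ p hgen a hx
  exact s59m_exists_u3 D.V D.π D.isUnif ((q : ℕ) : ↥L₀) D.e D.e_ne D.q_eq
    (s59u_tauD (M * q * q) ℓ hℓ2 L₀)
    (fun j v hv _ => s59u_tauD_mem_V3 M q hq.out hqM L₀ (s59m_GU q P hP L₀ hunr) ℓ hℓ2 hqℓ D.V
      hC hK hI j hv)
    ℓ (fun c => s59u_tauD_algebraMap (M * q * q) ℓ hℓ2 L₀ c) D.arch' D.V_ne
    (s59m_GU q P hP L₀ hunr).A (s59m_isUnif_A0 q P hP L₀ hunr)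
    (fun j c hc => D.const_mem j c hc) p hp.out a hna h hh0 c' g' hc' hg' rel

end s59m_L2Data

end Fermat.Agent.Lib.S59
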