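/-
Programme (R2) / node **[CAR]**, the ports to `q ∈ {2, 3}` (helper9, prefix `s59m_`, suffix `W`): **THE W-TWINS OF helper7's
`s59nt_Ti_eq_N` (`NWTi.lean`) AND `s59nt_leftLeaf` (`NWLeft.lean`)** — leaf **[L2-5 LEFT] OVER CHARTS: the contract
`s59m_LeftLeafW` (`MCarL2LeftW.lean`) IS A THEOREM** at the good levels.

* `s59m_nt_Ti_eq_N_W` : for a Hecke correspondence `H` on the Σ-datum `s59b_ZcW … C` of ANY chart `C` with `H.T = τ_ℓ`: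
  `(H.Ti φ) ⊗ κ̄ = N̄_ℓ (φ ⊗ κ̄)` (only the `∞`-component `Z.Ci`, which does not depend on the chart, is used);
* **`s59m_nt_leftLeaf_W M q p hqM hg hpq : s59m_LeftLeafW M q p hqM hpq`**, `hg : 5 ≤ q ∨ (q = 3 ∧ 2 ∣ M) ∨ (q = 2 ∧ 3 ∣ M)`.
Proofs verbatim from helper7's files.
-/
import Fermat.Agent.Lib.S59.MCarL2LeftW
import Fermat.Agent.Lib.S59.MCarNTW2
import Fermat.Agent.Lib.S59.NWTi
import Fermat.Agent.Lib.S59.NWLeft

set_option autoImplicit false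
set_option linter.style.haveILetI false
set_option linter.unusedSectionVars false
set_option linter.unusedVariables false
set_option synthInstance.maxHeartbeats 400000

noncomputable section

namespace Fermat.Agent.Lib.S59

open ModularCurve HahnSeries AlgebraicCurve Fermat.Agent.Lib.FF Fermat.Agent.Lib.S18
  Fermat.Agent.Lib.S28 Fermat.Agent.Lib.S29 Fermat.Agent.Lib.S37 Fermat.Agent.Lib.S34
  Fermat.Agent.Lib.S35 Fermat.Agent.Lib.S33 Fermat.Agent.Lib.S44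

local notation "Kb" => AlgebraicClosure ℚ

section Ti

variable (M q : ℕ) [NeZero M] [hq : Fact q.Prime] (hqM : ¬ q ∣ M)
  (P : ValuationSubring Kb) (hP : P.LiesOverPrime q)
  (L₀ : IntermediateField ℚ Kb) [FiniteDimensional ℚ ↥L₀] [IsDiscreteValuationRing ↥(s18q_A0 P L₀)]
  (ϖ : ↥(s18q_A0 P L₀)) (hϖ : Irreducible ϖ)
  [NumberField ↥L₀] [CharP (IsLocalRing.ResidueField ↥(s18q_A0 P L₀)) q]
  [PerfectField (IsLocalRing.ResidueField ↥(s18q_A0 P L₀))]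
  [IsDiscreteValuationRing ↥(s37r_G P L₀ ϖ hϖ).A]
  (hdeg : s34m_HDeg ↥L₀ M q) (hT : s18g_HT (IsLocalRing.ResidueField ↥(s18q_A0 P L₀)) M)
  (hdegM : s18g_HDeg ↥L₀ M) (hπ : Function.Surjective (s37r_G P L₀ ϖ hϖ).π)
  (e : ℕ) (ε : ↥L₀) (he : 0 < e) (hε : ε ∈ (s37r_G P L₀ ϖ hϖ).A)
  (hεinv : ε⁻¹ ∈ (s37r_G P L₀ ϖ hϖ).A) (hε0 : ε ≠ 0)
  (hqe : (q : ↥L₀) = ε * (((s37r_G P L₀ ϖ hϖ).ϖ : (s37r_G P L₀ ϖ hϖ).A) : ↥L₀) ^ e)
  (hperf : ∀ c : IsLocalRing.ResidueField ↥(s18q_A0 P L₀), ∃ d, d ^ q = c)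
  (C : s59b_Chart (s37r_G P L₀ ϖ hϖ) (algebraMap ↥L₀ Kb) M q hqM hT hdegM)
  (ℓ : ℕ) [hℓ : Fact ℓ.Prime] (hℓN : ¬ ℓ ∣ M * q) (hℓq : ℓ ≠ q)

set_option quotPrecheck false

local notation "ZZ" => s59b_ZcW M q hqM P L₀ ϖ hϖ hdeg hT hdegM hπ e ε he hε hεinv hε0 hqe hperf C

include hP hℓq in
set_option maxHeartbeats 800000 in
/-- **`(H.Ti φ) ⊗ κ̄ = N̄_ℓ (φ ⊗ κ̄)`.** -/
theorem s59m_nt_Ti_eq_N_W
    (H : s59m_HeckeOn (s59b_ZcW M q hqM P L₀ ϖ hϖ hdeg hT hdegM hπ e ε he hε hεinv hε0 hqe hperf C))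
    (hHT : H.T = s59u_tauD (M * q) ℓ hℓN L₀) (ζ : Kbˣ) (hζ : IsPrimitiveRoot (ζ : Kb) ℓ)
    (φ : ↥(modularFunctionFieldFullC (IsLocalRing.ResidueField ↥(s18q_A0 P L₀)) M)) (hφ : φ ≠ 0) :
    haveI : NeZero ℓ := ⟨hℓ.out.ne_zero⟩
    coeffMap (s37r_resMap P L₀)
        ((H.Ti φ : ↥(modularFunctionFieldFullC (IsLocalRing.ResidueField ↥(s18q_A0 P L₀)) M)) :
          LaurentSeries (IsLocalRing.ResidueField ↥(s18q_A0 P L₀))) =
      s33t_N ℓ (s44h_zetaTK P (IsLocalRing.residue ↥P) ℓ ζ hζ)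
        (coeffMap (s37r_resMap P L₀)
          (φ : LaurentSeries (IsLocalRing.ResidueField ↥(s18q_A0 P L₀)))) := by
  haveI : NeZero ℓ := ⟨hℓ.out.ne_zero⟩
  obtain ⟨⟨h, hh⟩, rfl⟩ := (ZZ).Ci.red_surjective φ
  have hinv : h⁻¹ ∈ (ZZ).Ci.O := s59m_inv_mem_of_red_ne_zero (ZZ).Ci hh hφ
  have h1 := H.red_i h hh hinv
  rw [← h1]
  have key : ∀ (T : s34m_F ↥L₀ (M * q) →* s34m_F ↥L₀ (M * q)) (hTe : T = s59u_tauD (M * q) ℓ hℓN L₀)
      (hm : T h ∈ (ZZ).Ci.O),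
      coeffMap (s37r_resMap P L₀)
        (((ZZ).Ci.red ⟨T h, hm⟩ :
            ↥(modularFunctionFieldFullC (IsLocalRing.ResidueField ↥(s18q_A0 P L₀)) M)) :
          LaurentSeries (IsLocalRing.ResidueField ↥(s18q_A0 P L₀))) =
      s33t_N ℓ (s44h_zetaTK P (IsLocalRing.residue ↥P) ℓ ζ hζ)
        (coeffMap (s37r_resMap P L₀)
          (((ZZ).Ci.red ⟨h, hh⟩ :
            ↥(modularFunctionFieldFullC (IsLocalRing.ResidueField ↥(s18q_A0 P L₀)) M)) :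
            LaurentSeries (IsLocalRing.ResidueField ↥(s18q_A0 P L₀)))) := by
    intro T hTe
    subst hTe
    intro hm
    have hy : h ∈ s34m_Vinf (s37r_G P L₀ ϖ hϖ) (M * q) := hh
    exact s59nt_redInf_tauD (M * q) ℓ hℓN hℓq P hP L₀ ϖ hϖ ζ hζ hy
  exact key H.T hHT (H.mem_i h hh)

end Ti

set_option maxHeartbeats 1600000 in
/-- **[L2-5 LEFT].** -/
theorem s59m_nt_leftLeaf_W (M q p : ℕ) [NeZero M] [hq : Fact q.Prime] [hp : Fact p.Prime] (hqM : ¬ q ∣ M)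
    (hg : 5 ≤ q ∨ (q = 3 ∧ 2 ∣ M) ∨ (q = 2 ∧ 3 ∣ M)) (hpq : p ≠ q) : s59m_LeftLeafW M q p hqM hpq := by
  intro P hP L₀ _ _ _ hunr C a B hB ρ hρ0 hdiv hnot hH
  haveI hdvr : IsDiscreteValuationRing ↥(s18q_A0 P L₀) := s18q_A0_dvr P L₀ hP
  haveI : NumberField ↥L₀ := ⟨⟩
  have hN : ∀ ℓ : Nat.Primes, (ℓ : ℕ) ∉ B →
      haveI : NeZero (ℓ : ℕ) := ⟨ℓ.2.ne_zero⟩
      ∃ (ζ : Kbˣ) (hζ : IsPrimitiveRoot (ζ : Kb) (ℓ : ℕ)) (cb : IsLocalRing.ResidueField ↥P)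
        (U : ↥(modularFunctionFieldFullC (IsLocalRing.ResidueField ↥P) M)), cb ≠ 0 ∧ U ≠ 0 ∧
        s33t_N (ℓ : ℕ) (s44h_zetaTK P (IsLocalRing.residue ↥P) (ℓ : ℕ) ζ hζ)
            (coeffMap (s37r_resMap P L₀)
              (ρ : LaurentSeries (IsLocalRing.ResidueField ↥(s18q_A0 P L₀)))) =
          HahnSeries.C cb * (coeffMap (s37r_resMap P L₀)
              (ρ : LaurentSeries (IsLocalRing.ResidueField ↥(s18q_A0 P L₀)))) ^ (a ℓ) *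
            (U : LaurentSeries (IsLocalRing.ResidueField ↥P)) ^ p := by
    intro ℓ hℓB
    haveI hℓF : Fact (ℓ : ℕ).Prime := ⟨ℓ.2⟩
    haveI : NeZero (ℓ : ℕ) := ⟨ℓ.2.ne_zero⟩
    obtain ⟨hℓN, H, hHT, c, γ, hc, hγ, e⟩ := hH (ℓ : ℕ) hℓB
    have hℓq : (ℓ : ℕ) ≠ q := by
      intro h0
      exact hℓN (h0 ▸ dvd_mul_left _ _)
    obtain ⟨ζ, hζ⟩ := s37e_exists_zeta (ℓ : ℕ)
    have hγs : (γ : LaurentSeries (IsLocalRing.ResidueField ↥(s18q_A0 P L₀))) ≠ 0 :=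
      fun h0 => hγ (Subtype.ext h0)
    have hinj : Function.Injective (coeffMap (s37r_resMap P L₀)) := by
      intro x y hxy
      ext n
      have := congrArg (fun z : LaurentSeries (IsLocalRing.ResidueField ↥P) => z.coeff n) hxy
      simp only [coeffMap_coeff] at this
      exact (s37r_resMap P L₀).injective this
    refine ⟨ζ, hζ, s37r_resMap P L₀ c,
      ⟨coeffMap (s37r_resMap P L₀)
        (γ : LaurentSeries (IsLocalRing.ResidueField ↥(s18q_A0 P L₀))),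
        s37e_coeffMap_mem_fullC M (s37r_resMap P L₀) γ.2⟩,
      (_root_.map_ne_zero _).mpr hc, ?_, ?_⟩
    · intro h0
      apply hγs
      apply hinj
      rw [map_zero]
      exact congrArg Subtype.val h0
    · have key := @s59m_nt_Ti_eq_N_W M q _ hq hqM P hP L₀ _ (s18q_A0_dvr P L₀ hP)
        ((q : ℕ) : ↥(s18q_A0 P L₀)) (s59m_q_irreducible q P hP L₀ hunr) ⟨⟩ _ _
        (s18q_A0_dvr P L₀ hP) (s59m_hdeg_U M q hqM L₀) (s59m_hT_U M q P L₀ hqM)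
        (fun n b hb hn => s18g_exists_relation M (algebraMap ↥L₀ Kb) hn b hb)
        IsLocalRing.residue_surjective 1 1 one_pos (one_mem _) (by rw [inv_one]; exact one_mem _)
        one_ne_zero (by rw [one_mul, pow_one]; rfl) (s59m_hperf_U q P L₀) C
        (ℓ : ℕ) hℓF hℓN hℓq H hHT ζ hζ ρ hρ0
      rw [← key, e]
      have hzp : ((ρ ^ (a ℓ) : ↥(modularFunctionFieldFullC
          (IsLocalRing.ResidueField ↥(s18q_A0 P L₀)) M)) :
          LaurentSeries (IsLocalRing.ResidueField ↥(s18q_A0 P L₀))) =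
          (ρ : LaurentSeries (IsLocalRing.ResidueField ↥(s18q_A0 P L₀))) ^ (a ℓ) :=
        map_zpow₀ (modularFunctionFieldFullC (IsLocalRing.ResidueField ↥(s18q_A0 P L₀)) M).val ρ (a ℓ)
      simp only [MulMemClass.coe_mul, SubmonoidClass.coe_pow, s59m_coe_algebraMap_fullC, hzp,
        map_mul, map_pow, map_zpow₀]
      have hC : coeffMap (s37r_resMap P L₀) (HahnSeries.C c) =
          HahnSeries.C (s37r_resMap P L₀ c) := by
        rw [HahnSeries.C_apply, coeffMap_single, HahnSeries.C_apply]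
      rw [hC]
      ring

  rcases s59m_nt_lift_eig_level_W M q hqM hg p hpq P hP a B hB L₀ ρ hρ0 hdiv hN with
    hy | ⟨c, a₀, hc, ha₀0, ha₀, e⟩
  · exact hy
  · exfalso
    apply hnot
    refine ⟨c, ⟨a₀, ha₀⟩, hc, fun h0 => ha₀0 (congrArg Subtype.val h0), ?_⟩
    apply Subtype.ext
    rw [e]
    simp only [MulMemClass.coe_mul, SubmonoidClass.coe_pow, s59m_coe_algebraMap_fullC]

end Fermat.Agent.Lib.S59
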