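/-
Programme (R2) / node **[CAR]**, the ports to `q ∈ {2, 3}` — W5 over a CHART (helper9, prefix `s59m_`, suffix `W`):
**THE TOP ASSEMBLY OVER CHARTS, SECOND FORM** — the twin of `MCarTop2.lean` over helper2's chart package: `s59m_CarPkgEAt p M q`
for the charts with `q`-expansion `τ` (`t₃` for `q = 2`, `t₂` for `q = 3`) FROM

* `h5` = the rationality wall `s59b_Q4nZ M q hqM τ`, `hchart` = existence of charts (helper2: `s59b_q4nZ_t3/_t2`,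
  `s59b_exists_chartAt_t3/_t2`), `hOK` = every chart of `τ` has `s59m_ChartOK` (`MCarL2GW.lean`);
* `hrat`, `hcount` (helper8, in the shape of helper2's `s59b_pkgEAt_of_leavesW`);
* `hglue` = **[L2-6 GLUE₃]**, local form `s59m_Glue3LocW C D`; `hinj` = **[L2-8 Σ-INJ₃]** `s59m_Inj3CW C p D` from it;
  `hHF3` = **[L2-7 HECKE₃]** over `s59m_kumFrame3CW`.

Everything else is plugged in: helper2's CONCRETE Hecke frames `s59b_heckeFrameUW` of level `M q` (`H.T = τ_ℓ`: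
`s59m_heckeFrameUW_T`), [L2-5] `s59m_nt_leftLeaf_W`, the admissible base fields `s59b_exists_base_q4W`, the valuation data
`s59m_exists_L2Data`, and the wiring `s59m_lvl2CW` (`MCarL2CW.lean`).
-/
import Fermat.Agent.Lib.S59.MCarL2CW
import Fermat.Agent.Lib.S59.MCarNTW3
import Fermat.Agent.Lib.S59.B4Hecke

set_option autoImplicit false
set_option linter.style.haveILetI false
set_option linter.unusedSectionVars false
set_option linter.unusedVariables false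
set_option synthInstance.maxHeartbeats 400000

noncomputable section

namespace Fermat.Agent.Lib.S59

open ModularCurve HahnSeries AlgebraicCurve Fermat.Agent.Lib.FF Fermat.Agent.Lib.S18
  Fermat.Agent.Lib.S28 Fermat.Agent.Lib.S29 Fermat.Agent.Lib.S37 Fermat.Agent.Lib.S34
  Fermat.Agent.Lib.S35 Fermat.Agent.Lib.S33 Fermat.Agent.Lib.S44 Fermat.Agent.Lib.S36

local notation "Kb" => AlgebraicClosure ℚ
local notation "Γℚ" => (AlgebraicClosure ℚ ≃ₐ[ℚ] AlgebraicClosure ℚ)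

variable (M q p : ℕ) [NeZero M] [hq : Fact q.Prime] [hp : Fact p.Prime] (hqM : ¬ q ∣ M)
  (hpq : p ≠ q)

/-- `H.T = τ_ℓ` for helper2's concrete Hecke frames of level `M q` over a chart. -/
theorem s59m_heckeFrameUW_T (P : ValuationSubring Kb) (hP : P.LiesOverPrime q)
    (L₀ : IntermediateField ℚ Kb)
    [FiniteDimensional ℚ ↥L₀] [CharP (IsLocalRing.ResidueField ↥(s18q_A0 P L₀)) q]
    [PerfectField (IsLocalRing.ResidueField ↥(s18q_A0 P L₀))]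
    (hunr : ∀ τ ∈ P.inertiaSubgroupIn ℚ, ∀ a ∈ L₀, τ a = a)
    (C : s59b_ChartU M q hqM P hP L₀ hunr) (hOK : s59m_ChartOK C)
    (m : ℕ) (hm0 : m ≠ 0) (hqm : ¬ q ∣ m)
    (ℓ : ℕ) [hℓ : Fact ℓ.Prime] (hℓN : ¬ ℓ ∣ M * q) (hℓq : ℓ ≠ q) :
    (s59b_heckeFrameUW M q hqM P hP L₀ hunr C hOK.geo hOK.np m hm0 hqm ℓ hℓN hℓq).H.T =
      s59u_tauD (M * q) ℓ hℓN L₀ := by
  haveI : IsDiscreteValuationRing ↥(s18q_A0 P L₀) := s18q_A0_dvr P L₀ hP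
  haveI : NumberField ↥L₀ := ⟨⟩
  haveI : IsDiscreteValuationRing ↥(s37r_G P L₀ ((q : ℕ) : ↥(s18q_A0 P L₀))
      (s59m_q_irreducible q P hP L₀ hunr)).A := s18q_A0_dvr P L₀ hP
  exact s59b_heckeFrameCW_T M q hqM m hm0 hqm P hP L₀ ((q : ℕ) : ↥(s18q_A0 P L₀))
    (s59m_q_irreducible q P hP L₀ hunr) (s59m_hdeg_U M q hqM L₀) (s59m_hT_U M q P L₀ hqM)
    (fun n b hb hn => s18g_exists_relation M (algebraMap ↥L₀ Kb) hn b hb)
    IsLocalRing.residue_surjective 1 1 one_pos (one_mem _) (by rw [inv_one]; exact one_mem _)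
    one_ne_zero (by rw [one_mul, pow_one]; rfl) (s59m_hperf_U q P L₀) C ℓ hℓN hℓq hOK.geo _

variable (τ : ∀ (K : Type) [Field K], LaurentSeries K)

include hpq in
set_option maxHeartbeats 3200000 in
/-- **THE TOP ASSEMBLY OVER CHARTS, SECOND FORM**: `s59m_CarPkgEAt p M q` from the chart inputs, helper8's `hrat`, `hcount`
and the three W5 leaves [L2-6], [L2-8], [L2-7] over charts. -/
theorem s59m_pkgEAt_of_W5W (h2 : nuTwo M = 0) (h3 : nuThree M = 0)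
    (hg : 5 ≤ q ∨ (q = 3 ∧ 2 ∣ M) ∨ (q = 2 ∧ 3 ∣ M))
    (h5 : s59b_Q4nZ M q hqM τ)
    (hchart : ∀ (P : ValuationSubring Kb) (hP : P.LiesOverPrime q) (L₀ : IntermediateField ℚ Kb)
      [FiniteDimensional ℚ ↥L₀] [CharP (IsLocalRing.ResidueField ↥(s18q_A0 P L₀)) q]
      [PerfectField (IsLocalRing.ResidueField ↥(s18q_A0 P L₀))]
      (hunr : ∀ σ ∈ P.inertiaSubgroupIn ℚ, ∀ a ∈ L₀, σ a = a),
      ∃ C : s59b_ChartU M q hqM P hP L₀ hunr, s59b_ChartAt M q hqM P hP L₀ hunr C τ)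
    (hOK : ∀ (P : ValuationSubring Kb) (hP : P.LiesOverPrime q) (L₀ : IntermediateField ℚ Kb)
      [FiniteDimensional ℚ ↥L₀] [CharP (IsLocalRing.ResidueField ↥(s18q_A0 P L₀)) q]
      [PerfectField (IsLocalRing.ResidueField ↥(s18q_A0 P L₀))]
      (hunr : ∀ σ ∈ P.inertiaSubgroupIn ℚ, ∀ a ∈ L₀, σ a = a)
      (C : s59b_ChartU M q hqM P hP L₀ hunr), s59b_ChartAt M q hqM P hP L₀ hunr C τ → s59m_ChartOK C)
    (hrat : ∀ (P : ValuationSubring Kb) (hP : P.LiesOverPrime q) (L₀ : IntermediateField ℚ Kb)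
      [FiniteDimensional ℚ ↥L₀] [CharP (IsLocalRing.ResidueField ↥(s18q_A0 P L₀)) q]
      [PerfectField (IsLocalRing.ResidueField ↥(s18q_A0 P L₀))]
      (hunr : ∀ σ ∈ P.inertiaSubgroupIn ℚ, ∀ a ∈ L₀, σ a = a)
      (C : s59b_ChartU M q hqM P hP L₀ hunr) (hC : s59b_ChartAt M q hqM P hP L₀ hunr C τ),
      (∃ ζ : Kb, ζ ∈ L₀ ∧ IsPrimitiveRoot ζ (q ^ 2 - 1)) →
      ∀ s : s59b_NodeUW M q hqM P hP L₀ hunr C,
        Function.Bijective (algebraMap (IsLocalRing.ResidueField ↥(s18q_A0 P L₀))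
          (s33s_kG (@s37r_G P L₀ (s18q_A0_dvr P L₀ hP) ((q : ℕ) : ↥(s18q_A0 P L₀))
            (s59m_q_irreducible q P hP L₀ hunr)) (algebraMap ↥L₀ Kb) M q hqM
            (s18_chart1 (L₀ := ↥L₀) C.wN) IsLocalRing.residue_surjective s)))
    (hcount : ∀ (P : ValuationSubring Kb) (hP : P.LiesOverPrime q), ∃ C₀ : ℕ, ∀ (K : ℕ)
      (L₀ : IntermediateField ℚ Kb) [FiniteDimensional ℚ ↥L₀]
      [CharP (IsLocalRing.ResidueField ↥(s18q_A0 P L₀)) q]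
      [PerfectField (IsLocalRing.ResidueField ↥(s18q_A0 P L₀))]
      (hB : haveI : NeZero q := ⟨hq.out.ne_zero⟩; s59m_Base M q p K P L₀)
      (hQ : s59b_BaseQ4W M q p K hqM P L₀ τ)
      (C : s59b_ChartU M q hqM P hP L₀ hB.unr) (hC : s59b_ChartAt M q hqM P hP L₀ hB.unr C τ),
      haveI : NeZero q := ⟨hq.out.ne_zero⟩
      Nonempty (s59m_CountData M q p K C₀ (Nat.card (s59b_NodeUW M q hqM P hP L₀ hB.unr C))
        (s59b_kumFrameUW M q hqM P hP L₀ hB.unr C hC.geo (p ^ K) (s59m_pK_ne p K)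
          (s59m_q_ndvd_pK q p hpq K)).Tor))
    (hglue : ∀ (P : ValuationSubring Kb) (hP : P.LiesOverPrime q) (L₀ : IntermediateField ℚ Kb)
      [FiniteDimensional ℚ ↥L₀] [CharP (IsLocalRing.ResidueField ↥(s18q_A0 P L₀)) q]
      [PerfectField (IsLocalRing.ResidueField ↥(s18q_A0 P L₀))]
      (hunr : ∀ τ ∈ P.inertiaSubgroupIn ℚ, ∀ a ∈ L₀, τ a = a)
      (C : s59b_ChartU M q hqM P hP L₀ hunr), s59m_ChartOK C →
      ∀ D : s59m_L2Data M q hqM P hP L₀ hunr, s59m_Glue3LocW C D)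
    (hinj : ∀ (P : ValuationSubring Kb) (hP : P.LiesOverPrime q) (L₀ : IntermediateField ℚ Kb)
      [FiniteDimensional ℚ ↥L₀] [CharP (IsLocalRing.ResidueField ↥(s18q_A0 P L₀)) q]
      [PerfectField (IsLocalRing.ResidueField ↥(s18q_A0 P L₀))]
      (hunr : ∀ τ ∈ P.inertiaSubgroupIn ℚ, ∀ a ∈ L₀, τ a = a)
      (C : s59b_ChartU M q hqM P hP L₀ hunr), s59m_ChartOK C →
      ∀ D : s59m_L2Data M q hqM P hP L₀ hunr, s59m_Glue3LocW C D → s59m_Inj3CW C p D)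
    (hHF3 : ∀ (P : ValuationSubring Kb) (hP : P.LiesOverPrime q) (L₀ : IntermediateField ℚ Kb)
      [FiniteDimensional ℚ ↥L₀] [CharP (IsLocalRing.ResidueField ↥(s18q_A0 P L₀)) q]
      [PerfectField (IsLocalRing.ResidueField ↥(s18q_A0 P L₀))]
      (hunr : ∀ τ ∈ P.inertiaSubgroupIn ℚ, ∀ a ∈ L₀, τ a = a)
      (C : s59b_ChartU M q hqM P hP L₀ hunr), s59m_ChartOK C →
      ∀ (D : s59m_L2Data M q hqM P hP L₀ hunr) (hgl : s59m_Glue3CW C D) (hin : s59m_Inj3CW C p D)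
      (ℓ : ℕ) [hℓ : Fact ℓ.Prime] (hℓN : ¬ ℓ ∣ M * q) (hℓq : ℓ ≠ q)
      (H : s59m_HeckeOn (s59b_ZUW M q hqM P hP L₀ hunr C)), H.T = s59u_tauD (M * q) ℓ hℓN L₀ →
      Nonempty (s59m_HeckeFrame3 (s59m_kumFrame3CW C p D hgl hin) H ⟨ℓ, hℓ.out⟩)) :
    haveI : NeZero q := ⟨hq.out.ne_zero⟩
    s59m_CarPkgEAt p M q := by
  haveI : NeZero q := ⟨hq.out.ne_zero⟩
  refine s59u_pkgEAt_of ?_
  intro A hA
  obtain ⟨C₀, hC₀⟩ := hcount A hA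
  refine ⟨C₀, fun K => ?_⟩
  obtain ⟨L₀, hfd, hB, hQ⟩ := s59b_exists_base_q4W M q p K hqM τ h5 hpq A hA
  haveI := hfd
  haveI : NumberField ↥L₀ := ⟨⟩
  haveI hdvr : IsDiscreteValuationRing ↥(s18q_A0 A L₀) := s18q_A0_dvr A L₀ hA
  haveI hchar : CharP (IsLocalRing.ResidueField ↥(s18q_A0 A L₀)) q := s37rl_charP A hA L₀
  haveI hperf : PerfectField (IsLocalRing.ResidueField ↥(s18q_A0 A L₀)) :=
    s37rl_perfectField A hA L₀
  haveI hfinκ : Finite (IsLocalRing.ResidueField ↥(s18q_A0 A L₀)) := s59m_residue_finite q A hA L₀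
  obtain ⟨C, hC⟩ := hchart A hA L₀ hB.unr
  have hok : s59m_ChartOK C := hOK A hA L₀ hB.unr C hC
  haveI hfinι : Finite (s59b_NodeUW M q hqM A hA L₀ hB.unr C) :=
    s59b_finite_nodeUW M q hqM A hA L₀ hB.unr C
  -- the concrete Hecke frames of level `M q`
  have hℓN : ∀ ℓ : ℕ, ¬ ℓ ∣ M * q * p → ¬ ℓ ∣ M * q :=
    fun ℓ h hd => h (hd.trans (dvd_mul_right _ _))
  have hℓq : ∀ ℓ : ℕ, ¬ ℓ ∣ M * q * p → ℓ ≠ q :=
    fun ℓ h e => hℓN ℓ h (e ▸ dvd_mul_left ℓ M)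
  let HF : ∀ ℓ : Nat.Primes, ¬ (ℓ : ℕ) ∣ M * q * p →
      s59m_HeckeFrame (s59b_kumFrameUW M q hqM A hA L₀ hB.unr C hok.geo (p ^ K) (s59m_pK_ne p K)
        (s59m_q_ndvd_pK q p hpq K)) ℓ := fun ℓ hℓ =>
    @s59b_heckeFrameUW M q _ hq hqM A hA L₀ _ _ _ hB.unr C hok.geo hok.np (p ^ K) (s59m_pK_ne p K)
      (s59m_q_ndvd_pK q p hpq K) (ℓ : ℕ) ⟨ℓ.2⟩ (hℓN ℓ hℓ) (hℓq ℓ hℓ)
  have hHFT : ∀ (ℓ : ℕ) [hℓ : Fact ℓ.Prime] (hℓ' : ¬ ℓ ∣ M * q * p), ∃ hℓN' : ¬ ℓ ∣ M * q,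
      (HF ⟨ℓ, hℓ.out⟩ hℓ').H.T = s59u_tauD (M * q) ℓ hℓN' L₀ := fun ℓ hℓ hℓ' =>
    ⟨hℓN ℓ hℓ', s59m_heckeFrameUW_T M q hqM A hA L₀ hB.unr C hok (p ^ K) (s59m_pK_ne p K)
      (s59m_q_ndvd_pK q p hpq K) ℓ (hℓN ℓ hℓ') (hℓq ℓ hℓ')⟩
  -- the level `M q²`
  obtain ⟨D⟩ := s59m_exists_L2Data M q hqM A hA L₀ hB.unr
  have hloc := hglue A hA L₀ hB.unr C hok D
  have hgl : s59m_Glue3CW C D := s59m_glue3CW_of_loc C hok.full D hloc
  have hin : s59m_Inj3CW C p D := hinj A hA L₀ hB.unr C hok D hloc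
  have HF3 : ∀ (ℓ : Nat.Primes) (hℓ : ¬ (ℓ : ℕ) ∣ M * q * p),
      s59m_HeckeFrame3 (s59m_kumFrame3CW C p D hgl hin) (HF ℓ hℓ).H ℓ := fun ℓ hℓ =>
    (@hHF3 A hA L₀ _ _ _ hB.unr C hok D hgl hin (ℓ : ℕ) ⟨ℓ.2⟩ (hℓN ℓ hℓ) (hℓq ℓ hℓ) (HF ℓ hℓ).H
      (@s59m_heckeFrameUW_T M q _ hq hqM A hA L₀ _ _ _ hB.unr C hok (p ^ K) (s59m_pK_ne p K)
        (s59m_q_ndvd_pK q p hpq K) (ℓ : ℕ) ⟨ℓ.2⟩ (hℓN ℓ hℓ) (hℓq ℓ hℓ))).some
  have hlvl2 := s59m_lvl2CW M q p hqM hpq h2 h3 A hA K L₀ hB C hok HF hHFT D hgl hin HF3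
    (s59m_nt_leftLeaf_W M q p hqM hg hpq)
  have hK : p ^ K ∣ Nat.card (IsLocalRing.ResidueField ↥(s18q_A0 A L₀))ˣ := by
    obtain ⟨ζ, hζL, hζ⟩ := hB.zeta
    exact s59m_dvd_card_units q A hA L₀ (s59m_pK_ne p K)
      (Nat.Coprime.pow_left K ((Nat.coprime_primes hp.out hq.out).mpr hpq)) hζL hζ
  have hrc : s59m_RootConst (IsLocalRing.ResidueField ↥(s18q_A0 A L₀))
      ↥(modularFunctionFieldFullC (IsLocalRing.ResidueField ↥(s18q_A0 A L₀)) M) (p ^ K) := by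
    refine s59u_rootConst _ (p ^ K) ?_
    rw [Ne, CharP.cast_eq_zero_iff (IsLocalRing.ResidueField ↥(s18q_A0 A L₀)) q]
    exact s59m_q_ndvd_pK q p hpq K
  exact ⟨_, _, _, _, _, _, _, _, _, _, _, _, _, _, _, _, _, _, hfinι, hfinκ,
    s59b_ZUW M q hqM A hA L₀ hB.unr C,
    s59b_kumFrameUW M q hqM A hA L₀ hB.unr C hok.geo (p ^ K) (s59m_pK_ne p K)
      (s59m_q_ndvd_pK q p hpq K), HF,
    hrat A hA L₀ hB.unr C hC hB.zeta2, hK, hrc, hC₀ K L₀ hB hQ C hC, hlvl2⟩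

end Fermat.Agent.Lib.S59
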