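/-
S59 project, case (P), item [P5] (helper9): **Ihara's lemma at the raising prime `q = p`**, file 1.

(H1) of the S41 [K] chain (`s41ke_kills_trace_two`) uses `p ≠ q` to divide by a power of `q`.  When
`q • A = 0` the statement is still true, by a different argument that does not even use parabolicity:
a trace-`2` element `u = 1 + n` of `Γ₀(N)[1/q]` (`n = [[a, b], [c, -a]]`, `a² + b c = 0`) is normalised by
an element `h` of the upper triangular torus of `Γ₀(N)[1/q]` which scales the fixed vector `(a, c)` of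
`u` by `λ = q ^ e` (`e ≥ 1`), so `h u h⁻¹ = u ^ (λ²)` and `φ u = λ² • φ u = 0`.

* `s59m_int_dvd_pow` : every integer `m ≠ 0` divides some `q ^ j * (q ^ e - 1)`, `e ≥ 1`;
* `s59m_R_dvd_pow`   : every `c ≠ 0` of `ℤ[1/q]` divides some `q ^ e - 1`, `e ≥ 1`, in `ℤ[1/q]`;
* `s59m_scale_trace_two` : the normalising element;
* `s59m_kills_trace_two_self` : (H1) for `q • A = 0`;
* `s59m_kills_trace_two` : (H1) for every prime `p` with `p • A = 0` (no hypothesis `p ≠ q`).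
-/
import Mathlib
import Fermat.Prelude.Def_ModularCurve_PeriodMap
import Fermat.Agent.Lib.S41.KDefs
import Fermat.Agent.Lib.S41.KUnip

set_option autoImplicit false
set_option linter.unusedSimpArgs false

open Matrix MatrixGroups CongruenceSubgroup

namespace Fermat.Agent.Lib.S59

open Fermat.Agent.Lib.S41 ModularCurve.Period

/-- every non-zero integer divides `q ^ j * (q ^ e - 1)` for some `j` and some `e ≥ 1`. -/
theorem s59m_int_dvd_pow {q : ℕ} (hq : q.Prime) {m : ℤ} (hm : m ≠ 0) :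
    ∃ e j : ℕ, 0 < e ∧ m ∣ (q : ℤ) ^ j * ((q : ℤ) ^ e - 1) := by
  obtain ⟨j, n', hn', hmn⟩ :=
    Nat.exists_eq_pow_mul_and_not_dvd (Int.natAbs_ne_zero.mpr hm) q hq.ne_one
  have hn0 : n' ≠ 0 := by
    rintro rfl
    rw [Nat.mul_zero] at hmn
    exact Int.natAbs_ne_zero.mpr hm hmn
  have hcop : Nat.Coprime q n' := (Nat.Prime.coprime_iff_not_dvd hq).mpr hn'
  have hmod := (Nat.ModEq.pow_totient hcop).symm
  have hdvd : (n' : ℤ) ∣ (q : ℤ) ^ (Nat.totient n') - 1 := by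
    have := (Nat.modEq_iff_dvd.mp hmod)
    push_cast at this
    exact this
  refine ⟨Nat.totient n', j, Nat.totient_pos.mpr (Nat.pos_of_ne_zero hn0), ?_⟩
  rw [← Int.natAbs_dvd, hmn]
  push_cast
  exact mul_dvd_mul_left _ hdvd

/-- every non-zero element of `ℤ[1/q]` divides `q ^ e - 1` in `ℤ[1/q]` for some `e ≥ 1`. -/
theorem s59m_R_dvd_pow {q : ℕ} (hq : q.Prime) {c : ℚ} (hc : c ∈ s41e_R q) (hc0 : c ≠ 0) :
    ∃ e : ℕ, 0 < e ∧ ∃ t ∈ s41e_R q, (q : ℚ) ^ e - 1 = c * t := by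
  have hq0 : (q : ℚ) ≠ 0 := by exact_mod_cast hq.ne_zero
  obtain ⟨k, m, hkm⟩ := hc
  have hm0 : m ≠ 0 := by
    rintro rfl
    rw [Int.cast_zero] at hkm
    exact hc0 ((mul_eq_zero.mp hkm).resolve_right (pow_ne_zero _ hq0))
  obtain ⟨e, j, he, s, hs⟩ := s59m_int_dvd_pow hq hm0
  have hsQ : (q : ℚ) ^ j * ((q : ℚ) ^ e - 1) = (m : ℚ) * (s : ℚ) := by exact_mod_cast hs
  refine ⟨e, he, (s : ℚ) * (q : ℚ) ^ k * ((q : ℚ)⁻¹) ^ j, ?_, ?_⟩
  · exact (s41e_R q).mul_mem ((s41e_R q).mul_mem (s41e_int_mem_R q s)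
      ((s41e_R q).pow_mem (s41e_nat_mem_R q q) k)) ((s41e_R q).pow_mem (s41e_inv_mem_R hq.ne_zero) j)
  · have hqj : (q : ℚ) ^ j ≠ 0 := pow_ne_zero _ hq0
    rw [inv_pow]
    field_simp
    linear_combination hsQ - (s : ℚ) * hkm

/-- the scaling identity, `c ≠ 0` shape: `h = [[L⁻¹, x], [0, L]]`, `x = (u₀₀ - 1) (L + 1) t / L`, where
`L - 1 = u₁₀ t`, satisfies `h u = u ^ (L²) h`. -/
theorem s59m_scale_SL (u : SL(2, ℚ)) (htr : u.1 0 0 + u.1 1 1 = 2) (L Li t : ℚ) (hL : L * Li = 1)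
    (ht : L - 1 = u.1 1 0 * t) (M : ℕ) (hM : (M : ℚ) = L ^ 2)
    (hd : Li * L - (u.1 0 0 - 1) * (L + 1) * t * Li * 0 = 1) :
    s41d_mk Li ((u.1 0 0 - 1) * (L + 1) * t * Li) 0 L hd * u =
      u ^ M * s41d_mk Li ((u.1 0 0 - 1) * (L + 1) * t * Li) 0 L hd := by
  have hdet := s41d_det u
  obtain ⟨p00, p01, p10, p11⟩ := s41ke_pow_of_trace_two u htr M
  rw [hM] at p00 p01 p10 p11
  refine s41d_ext ?_ ?_ ?_ ?_
  · rw [s41d_mul_00, s41d_mul_00, p00, p01]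
    simp only [s41d_mk_00, s41d_mk_01, s41d_mk_10, s41d_mk_11]
    linear_combination (-Li * (u.1 0 0 - 1) * (L + 1)) * ht
  · rw [s41d_mul_01, s41d_mul_01, p00, p01]
    simp only [s41d_mk_00, s41d_mk_01, s41d_mk_10, s41d_mk_11]
    linear_combination ((u.1 0 0 - 1) * (L + 1) * t * Li -
        u.1 0 0 * (L + 1) * t * Li * (1 + L ^ 2)) * htr +
      ((L + 1) * t * Li * (1 + L ^ 2)) * hdet + (u.1 0 1 * L ^ 3) * hL -
      (u.1 0 1 * (L + 1) * Li * (1 + L ^ 2)) * ht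
  · rw [s41d_mul_10, s41d_mul_10, p10, p11]
    simp only [s41d_mk_00, s41d_mk_01, s41d_mk_10, s41d_mk_11]
    linear_combination (-L * u.1 1 0) * hL
  · rw [s41d_mul_11, s41d_mul_11, p10, p11]
    simp only [s41d_mk_00, s41d_mk_01, s41d_mk_10, s41d_mk_11]
    linear_combination (L * (1 - L ^ 2)) * htr +
      ((u.1 0 0 - 1) * (L + 1) * (-L * (L - 1))) * hL +
      ((u.1 0 0 - 1) * (L + 1) * L ^ 2 * Li) * ht

/-- the scaling identity, `c = 0` shape: `h = [[q, 0], [0, q⁻¹]]` satisfies `h u = u ^ (q²) h`. -/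
theorem s59m_scale_SL_zero (u : SL(2, ℚ)) (htr : u.1 0 0 + u.1 1 1 = 2) (hc : u.1 1 0 = 0)
    (L Li : ℚ) (hL : L * Li = 1) (M : ℕ) (hM : (M : ℚ) = L ^ 2) (hd : L * Li - 0 * 0 = 1) :
    s41d_mk L 0 0 Li hd * u = u ^ M * s41d_mk L 0 0 Li hd := by
  have hdet := s41d_det u
  rw [hc, mul_zero, sub_zero] at hdet
  have hA : u.1 0 0 = 1 := by
    have h2 : (u.1 0 0 - 1) ^ 2 = 0 := by linear_combination (u.1 0 0) * htr - hdet
    have := pow_eq_zero_iff (two_ne_zero) |>.mp h2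
    linarith
  have hD : u.1 1 1 = 1 := by linarith
  obtain ⟨p00, p01, p10, p11⟩ := s41ke_pow_of_trace_two u htr M
  rw [hM] at p00 p01 p10 p11
  refine s41d_ext ?_ ?_ ?_ ?_
  · rw [s41d_mul_00, s41d_mul_00, p00, p01]
    simp only [s41d_mk_00, s41d_mk_01, s41d_mk_10, s41d_mk_11]
    rw [hA]; ring
  · rw [s41d_mul_01, s41d_mul_01, p00, p01]
    simp only [s41d_mk_00, s41d_mk_01, s41d_mk_10, s41d_mk_11]
    rw [hA]
    linear_combination (-L * u.1 0 1) * hL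
  · rw [s41d_mul_10, s41d_mul_10, p10, p11]
    simp only [s41d_mk_00, s41d_mk_01, s41d_mk_10, s41d_mk_11]
    rw [hc]; ring
  · rw [s41d_mul_11, s41d_mul_11, p10, p11]
    simp only [s41d_mk_00, s41d_mk_01, s41d_mk_10, s41d_mk_11]
    rw [hD, hc]; ring

/-- **the normalising element**: a trace-`2` element `u` of `Γ₀(N)[1/q]` is conjugated to `u ^ M`, with
`q ∣ M`, by an (upper triangular) element of `Γ₀(N)[1/q]`. -/
theorem s59m_scale_trace_two {N q : ℕ} (hq : q.Prime) (u : ↥(s41e_G N q))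
    (htr : u.1.1 0 0 + u.1.1 1 1 = 2) :
    ∃ (h : ↥(s41e_G N q)) (M : ℕ), q ∣ M ∧ h * u = u ^ M * h := by
  have hq0 : (q : ℚ) ≠ 0 := by exact_mod_cast hq.ne_zero
  obtain ⟨hent, r, hr, hur⟩ := u.2
  by_cases hc0 : u.1.1 1 0 = 0
  · have hd : (q : ℚ) * (q : ℚ)⁻¹ - 0 * 0 = 1 := by rw [mul_inv_cancel₀ hq0]; ring
    refine ⟨⟨s41d_mk (q : ℚ) 0 0 (q : ℚ)⁻¹ hd, s41d_mk_mem hd (s41e_nat_mem_R q q)
      (s41e_R q).zero_mem (s41e_inv_mem_R hq.ne_zero) (r := 0) (s41e_R q).zero_mem (by simp)⟩,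
      q ^ 2, dvd_pow_self q two_ne_zero, ?_⟩
    apply Subtype.ext
    rw [Subgroup.coe_mul, Subgroup.coe_mul, SubgroupClass.coe_pow]
    exact s59m_scale_SL_zero u.1 htr hc0 (q : ℚ) (q : ℚ)⁻¹ (mul_inv_cancel₀ hq0) (q ^ 2)
      (by push_cast; ring) hd
  · obtain ⟨e, he, t, ht, hte⟩ := s59m_R_dvd_pow hq (hent 1 0) hc0
    have hL : (q : ℚ) ^ e * ((q : ℚ)⁻¹) ^ e = 1 := by
      rw [← mul_pow, mul_inv_cancel₀ hq0, one_pow]
    have hd : ((q : ℚ)⁻¹) ^ e * (q : ℚ) ^ e -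
        (u.1.1 0 0 - 1) * ((q : ℚ) ^ e + 1) * t * ((q : ℚ)⁻¹) ^ e * 0 = 1 := by
      rw [mul_zero, sub_zero, mul_comm]; exact hL
    have hLR : (q : ℚ) ^ e ∈ s41e_R q := (s41e_R q).pow_mem (s41e_nat_mem_R q q) e
    have hLiR : ((q : ℚ)⁻¹) ^ e ∈ s41e_R q := (s41e_R q).pow_mem (s41e_inv_mem_R hq.ne_zero) e
    have hxR : (u.1.1 0 0 - 1) * ((q : ℚ) ^ e + 1) * t * ((q : ℚ)⁻¹) ^ e ∈ s41e_R q :=
      (s41e_R q).mul_mem ((s41e_R q).mul_mem ((s41e_R q).mul_mem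
        ((s41e_R q).sub_mem (hent 0 0) (s41e_R q).one_mem)
        ((s41e_R q).add_mem hLR (s41e_R q).one_mem)) ht) hLiR
    refine ⟨⟨s41d_mk (((q : ℚ)⁻¹) ^ e) ((u.1.1 0 0 - 1) * ((q : ℚ) ^ e + 1) * t * ((q : ℚ)⁻¹) ^ e)
        0 ((q : ℚ) ^ e) hd, s41d_mk_mem hd hLiR hxR hLR (r := 0) (s41e_R q).zero_mem (by simp)⟩,
      (q ^ e) ^ 2, (dvd_pow_self q he.ne').trans (dvd_pow_self (q ^ e) two_ne_zero), ?_⟩
    apply Subtype.ext
    rw [Subgroup.coe_mul, Subgroup.coe_mul, SubgroupClass.coe_pow]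
    exact s59m_scale_SL u.1 htr ((q : ℚ) ^ e) (((q : ℚ)⁻¹) ^ e) t hL hte ((q ^ e) ^ 2)
      (by push_cast; ring) hd

section

variable {N q : ℕ} {A : Type*} [AddCommGroup A]

/-- **(H1) at `p = q`**: a homomorphism `φ : Γ₀(N)[1/q] → A` into a group killed by `q` kills every
element of trace `2` (no parabolicity hypothesis needed). -/
theorem s59m_kills_trace_two_self (hq : q.Prime) (hA : ∀ a : A, q • a = 0)
    (φ : Additive ↥(s41e_G N q) →+ A) (u : ↥(s41e_G N q))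
    (htr : u.1.1 0 0 + u.1.1 1 1 = 2) : φ (Additive.ofMul u) = 0 := by
  obtain ⟨h, M, ⟨M', rfl⟩, hM⟩ := s59m_scale_trace_two hq u htr
  have h1 : φ (Additive.ofMul (h * u)) = φ (Additive.ofMul (u ^ (q * M') * h)) := by rw [hM]
  rw [ofMul_mul, ofMul_mul, map_add, map_add, s41ke_phi_pow, mul_comm q M', mul_smul,
    hA, smul_zero, zero_add] at h1
  exact add_left_cancel (a := φ (Additive.ofMul h)) (by rw [h1, add_zero])

/-- **(H1) for every prime `p`** with `p • A = 0` (the case `p ≠ q` is `s41ke_kills_trace_two`). -/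
theorem s59m_kills_trace_two (hq : q.Prime) {p : ℕ} (hp : p.Prime)
    (hA : ∀ a : A, p • a = 0) (φ : Additive ↥(s41e_G N q) →+ A)
    (φ₁ : Additive (Gamma0 N) →+ A)
    (h1 : ∀ γ : Gamma0 N, φ (Additive.ofMul
      (⟨s41e_iota γ, s41e_iota_mem_G q γ.2⟩ : ↥(s41e_G N q))) = φ₁ (Additive.ofMul γ))
    (hpar : IsParabolicHom (Gamma0 N) φ₁) (u : ↥(s41e_G N q))
    (htr : u.1.1 0 0 + u.1.1 1 1 = 2) : φ (Additive.ofMul u) = 0 := by
  by_cases hpq : p = q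
  · subst hpq
    exact s59m_kills_trace_two_self hq hA φ u htr
  · exact s41ke_kills_trace_two hq hp hpq hA φ φ₁ h1 hpar u htr

end

end Fermat.Agent.Lib.S59
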