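/-
S59 project, case (P), item [P5] (helper9): **Ihara's lemma at the raising prime `q = p`**, file 2.

The S41 [K] chain re-run with (H1) replaced by `s59m_kills_trace_two` (valid for EVERY prime `p` with
`p • A = 0`, including `p = q`): every other step of the chain only passes `p ≠ q` along.

* `s59m_adm_ext`, `s59m_adm_ext_conj`, `s59m_adm_ext_conj2` : admissibility of the three germs;
* `s59m_KMainAll`, `s59m_kmain`   : **K-MAIN without `p ≠ q`**;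
* `s59m_Ihara2All`, `s59m_ihara2` : **the weak Ihara lemma without `q' ≠ p`**.
-/
import Mathlib
import Fermat.Agent.Lib.S41.KFinal
import Fermat.Agent.Lib.S59.MIharaP1

set_option autoImplicit false
set_option linter.unusedSectionVars false
set_option linter.style.haveILetI false

open Matrix MatrixGroups CongruenceSubgroup

namespace Fermat.Agent.Lib.S59

open Fermat.Agent.Lib.S29 Fermat.Agent.Lib.S41 Fermat.Agent.Lib.ES ModularCurve.Period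

section

variable {N q : ℕ} {A : Type*} [AddCommGroup A]

/-- `s41k_ext φ` is admissible of every level divisible by `N` (no `p ≠ q`). -/
theorem s59m_adm_ext (hq : q.Prime) {p : ℕ} (hp : p.Prime)
    (hA : ∀ a : A, p • a = 0) (φ : Additive ↥(s41e_G N q) →+ A)
    (φ₁ : Additive (Gamma0 N) →+ A)
    (h1 : ∀ γ : Gamma0 N, φ (Additive.ofMul
      (⟨s41e_iota γ, s41e_iota_mem_G q γ.2⟩ : ↥(s41e_G N q))) = φ₁ (Additive.ofMul γ))
    (hpar : IsParabolicHom (Gamma0 N) φ₁) {L : ℕ} (hNL : N ∣ L) :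
    s41k_Adm q L (s41k_ext φ) := by
  refine ⟨fun g hg h hh => s41k_ext_mul φ (s41k_Gam_le_G hNL hg) (s41k_Gam_le_G hNL hh),
    fun u hu htr => ?_⟩
  rw [s41k_ext_of_mem φ (s41k_Gam_le_G hNL hu)]
  exact s59m_kills_trace_two hq hp hA φ φ₁ h1 hpar ⟨u, s41k_Gam_le_G hNL hu⟩ htr

/-- `s41k_ext φ ∘ κ_r` is admissible of level `L₁` when `N ∣ L` and `r L ∣ L₁`. -/
theorem s59m_adm_ext_conj (hq : q.Prime) {p : ℕ} (hp : p.Prime)
    (hA : ∀ a : A, p • a = 0) (φ : Additive ↥(s41e_G N q) →+ A)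
    (φ₁ : Additive (Gamma0 N) →+ A)
    (h1 : ∀ γ : Gamma0 N, φ (Additive.ofMul
      (⟨s41e_iota γ, s41e_iota_mem_G q γ.2⟩ : ↥(s41e_G N q))) = φ₁ (Additive.ofMul γ))
    (hpar : IsParabolicHom (Gamma0 N) φ₁) {L L₁ r : ℕ} (hNL : N ∣ L) (hr : r ≠ 0)
    (hL₁ : r * L ∣ L₁) :
    s41k_Adm q L₁ (fun g => s41k_ext φ (s41e_conj r hr g)) :=
  s41k_Adm_conj hr hL₁ (s59m_adm_ext hq hp hA φ φ₁ h1 hpar hNL)

/-- `s41k_ext φ ∘ κ_r ∘ κ_r` is admissible of level `L₂` when `N ∣ L`, `r L ∣ L₁`, `r L₁ ∣ L₂`. -/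
theorem s59m_adm_ext_conj2 (hq : q.Prime) {p : ℕ} (hp : p.Prime)
    (hA : ∀ a : A, p • a = 0) (φ : Additive ↥(s41e_G N q) →+ A)
    (φ₁ : Additive (Gamma0 N) →+ A)
    (h1 : ∀ γ : Gamma0 N, φ (Additive.ofMul
      (⟨s41e_iota γ, s41e_iota_mem_G q γ.2⟩ : ↥(s41e_G N q))) = φ₁ (Additive.ofMul γ))
    (hpar : IsParabolicHom (Gamma0 N) φ₁) {L L₁ L₂ r : ℕ} (hNL : N ∣ L) (hr : r ≠ 0)
    (hL₁ : r * L ∣ L₁) (hL₂ : r * L₁ ∣ L₂) :
    s41k_Adm q L₂ (fun g => s41k_ext φ (s41e_conj r hr (s41e_conj r hr g))) :=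
  s41k_Adm_conj hr hL₂ (s59m_adm_ext_conj hq hp hA φ φ₁ h1 hpar hNL hr hL₁)

end

/-- **K-MAIN for every prime `p`** (`s41ki_KMain` without the hypothesis `p ≠ q`). -/
def s59m_KMainAll : Prop :=
  ∀ (N q : ℕ) [NeZero N], q.Prime → Nat.Coprime N q → ∀ (p : ℕ), p.Prime →
    ∀ (A : Type) [AddCommGroup A], (∀ a : A, p • a = 0) →
    ∀ (φ : Additive ↥(s41e_G N q) →+ A) (φ₁ : Additive (Gamma0 N) →+ A),
      (∀ γ : Gamma0 N, φ (Additive.ofMul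
        (⟨s41e_iota γ, s41e_iota_mem_G q γ.2⟩ : ↥(s41e_G N q))) = φ₁ (Additive.ofMul γ)) →
      IsParabolicHom (Gamma0 N) φ₁ →
      ∀ (ℓ r : ℕ) [Fact ℓ.Prime] [Fact r.Prime], ¬ ℓ ∣ N → ¬ r ∣ N → r ≠ q →
        s29h_heckeHom N ℓ A
            (s29h_heckeHom N r A (s29h_heckeHom N r A φ₁) - (r + 1) • (r + 1) • φ₁) =
          (ℓ + 1) • (s29h_heckeHom N r A (s29h_heckeHom N r A φ₁) - (r + 1) • (r + 1) • φ₁)

/-- **K-MAIN for every prime `p`**, from Theorem C and the description of the coset family. -/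
theorem s59m_kmain_of (hC : s41k_Central)
    (hF : ∀ (N r : ℕ) [Fact r.Prime] (hrN : ¬ r ∣ N) (hr0 : r ≠ 0), s41kg_FamHyp N r hrN hr0) :
    s59m_KMainAll := by
  intro N q _ hq hNq p hp A _ hA φ φ₁ h1 hpar ℓ r _ hrF hℓN hrN hrq
  have hr : r.Prime := hrF.out
  have hr0 : r ≠ 0 := hr.ne_zero
  have hN0 : N ≠ 0 := NeZero.ne N
  have hrq' : Nat.Coprime r q := (Nat.coprime_primes hr hq).mpr hrq
  obtain ⟨L, hL, hNrL⟩ := s41ka_good_exists hq (Nat.mul_ne_zero hN0 hr0)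
    (Nat.Coprime.mul_left hNq hrq')
  have hLq : Nat.Coprime L q := s41ka_good_coprime hL
  have hL0 : L ≠ 0 := s41ka_good_ne_zero hq hL
  obtain ⟨L₁, hL₁, h1L⟩ := s41ka_good_exists hq (Nat.mul_ne_zero hr0 hL0)
    (Nat.Coprime.mul_left hrq' hLq)
  have hL₁q : Nat.Coprime L₁ q := s41ka_good_coprime hL₁
  have hL₁0 : L₁ ≠ 0 := s41ka_good_ne_zero hq hL₁
  obtain ⟨L₂, hL₂, h2L⟩ := s41ka_good_exists hq (Nat.mul_ne_zero hr0 hL₁0)
    (Nat.Coprime.mul_left hrq' hL₁q)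
  have hL₂0 : L₂ ≠ 0 := s41ka_good_ne_zero hq hL₂
  have hNL : N ∣ L := (Dvd.intro _ rfl).trans hNrL
  have hI0 : s41kg_Inv q L (s41k_ext φ) :=
    hC q L A _ hq hL (s59m_adm_ext hq hp hA φ φ₁ h1 hpar hNL)
  have hI1 : s41kg_Inv q L₁ (fun g => s41k_ext φ (s41e_conj r hr0 g)) :=
    hC q L₁ A _ hq hL₁ (s59m_adm_ext_conj hq hp hA φ φ₁ h1 hpar hNL hr0 h1L)
  have hI2 : s41kg_Inv q L₂ (fun g => s41k_ext φ (s41e_conj r hr0 (s41e_conj r hr0 g))) :=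
    hC q L₂ A _ hq hL₂ (s59m_adm_ext_conj2 hq hp hA φ φ₁ h1 hpar hNL hr0 h1L h2L)
  have hφ : ∀ γ : Gamma0 N, s41k_ext φ (s41e_iota (γ : SL(2, ℤ))) = φ₁ (Additive.ofMul γ) := by
    intro γ
    rw [s41k_ext_of_mem φ (s41e_iota_mem_G q γ.2), h1]
  set χ : Additive (Gamma0 N) →+ A :=
    s29h_heckeHom N r A (s29h_heckeHom N r A φ₁) - (r + 1) • (r + 1) • φ₁ with hχ
  have hkill : ∀ γ : Gamma0 N, (γ : SL(2, ℤ)) ∈ Gamma L₂ → χ (Additive.ofMul γ) = 0 := fun γ hγ =>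
    s41kg_kills_deep (hF N r hrN hr0) (s41k_ext φ) φ₁ hφ h1L h2L hL₁q hI0 hI1 hI2 γ hγ
  have hχpar : IsParabolicHom (Gamma0 N) χ :=
    s41ki_parabolic_sub (s29h_heckeHom_isParabolic (s29h_heckeHom_isParabolic hpar))
      (s41ki_parabolic_smul (s41ki_parabolic_smul hpar _) _)
  exact s41d_hecke_eisenstein hℓN χ (s41kh_cong χ hχpar hL₂0 hkill)

/-- **K-MAIN for every prime `p`**, unconditionally. -/
theorem s59m_kmain : s59m_KMainAll :=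
  s59m_kmain_of s41kc_central (fun N r _ hrN hr0 => s41kf_famHyp N r hrN hr0)

/-- **the weak Ihara lemma for every raising prime `q'`** (`s41_Ihara2` without `q' ≠ p`). -/
def s59m_Ihara2All : Prop :=
  ∀ (N : ℕ) [NeZero N] (q' : ℕ) [Fact q'.Prime] (hq'N : ¬ q' ∣ N) (p : ℕ) [Fact p.Prime],
    p ≠ 2 →
    ∀ (ℓ₀ : ℕ) [Fact ℓ₀.Prime], ¬ ℓ₀ ∣ N * q' * p →
    ∀ x ∈ s29h_Hp N p, ∀ y ∈ s29h_Hp N p,
      s41l_resA N q' (ZMod p) x + s41l_resB N q' hq'N (ZMod p) y = 0 →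
      s29h_heckeHom N ℓ₀ (ZMod p) (s29h_heckeHom N ℓ₀ (ZMod p)
          (s29h_heckeHom N ℓ₀ (ZMod p) (s29h_heckeHom N ℓ₀ (ZMod p) x))) -
        (2 * ((ℓ₀ : ZMod p) + 1) ^ 2) • s29h_heckeHom N ℓ₀ (ZMod p) (s29h_heckeHom N ℓ₀ (ZMod p) x) +
        (((ℓ₀ : ZMod p) + 1) ^ 4) • x = 0

/-- **[K] + [E] ⇒ the weak Ihara lemma, every raising prime.** -/
theorem s59m_ihara2_of_kmain (hK : s59m_KMainAll) : s59m_Ihara2All := by
  intro N _ q' hq'F hq'N p hpF hp2 ℓ₀ hℓ₀F hℓ₀ x hx y hy hxy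
  have hq' : q'.Prime := hq'F.out
  have hp : p.Prime := hpF.out
  obtain ⟨φ', hφ'⟩ := s41ki_glue_x N q' hq'N x y hxy
  have hxpar : IsParabolicHom (Gamma0 N) x := hx.1
  have hℓN : ¬ ℓ₀ ∣ N := fun h => hℓ₀ (Dvd.dvd.mul_right (Dvd.dvd.mul_right h q') p)
  have hℓq : ℓ₀ ≠ q' := fun h => hℓ₀ (Dvd.dvd.mul_right (h ▸ Dvd.intro_left N rfl) p)
  have hA : ∀ a : ZMod p, p • a = 0 := by
    intro a
    rw [nsmul_eq_mul, ZMod.natCast_self, zero_mul]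
  have hNq : Nat.Coprime N q' := ((Nat.Prime.coprime_iff_not_dvd hq').mpr hq'N).symm
  have key := hK N q' hq' hNq p hp (ZMod p) hA φ' x hφ' hxpar ℓ₀ ℓ₀ hℓN hℓN hℓq
  have sq := s41ki_square (s29h_heckeHom N ℓ₀ (ZMod p)) (ℓ₀ + 1) x key
  have e1 : (2 * ((ℓ₀ : ZMod p) + 1) ^ 2) •
      s29h_heckeHom N ℓ₀ (ZMod p) (s29h_heckeHom N ℓ₀ (ZMod p) x) =
      (2 * (ℓ₀ + 1) ^ 2 : ℕ) • s29h_heckeHom N ℓ₀ (ZMod p) (s29h_heckeHom N ℓ₀ (ZMod p) x) := by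
    ext γ
    simp [nsmul_eq_mul]
  have e2 : (((ℓ₀ : ZMod p) + 1) ^ 4) • x = ((ℓ₀ + 1) ^ 4 : ℕ) • x := by
    ext γ
    simp [nsmul_eq_mul]
  rw [e1, e2]
  exact sq

/-- **the weak Ihara lemma, every raising prime**, unconditionally. -/
theorem s59m_ihara2 : s59m_Ihara2All := s59m_ihara2_of_kmain s59m_kmain

end Fermat.Agent.Lib.S59
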