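/-
S59 project, case (P), item [P5] (helper9): **Ihara's lemma at the raising prime `q = p`**, file 3.

helper4's leaves (T4)/(T5) of [FLR] (`FIharaO.lean`, `FIharaPart.lean`) WITHOUT the hypotheses
`p ≠ q` / `q ≠ p`: the raising prime `q ∤ N` may be the residue characteristic.  The proofs are
helper4's, with main's K-MAIN `s41ki_kmain` replaced by `s59m_kmain` and `s41_ihara2` by `s59m_ihara2`
(`MIharaP2.lean`); all auxiliary definitions (`s59f_redHom`, `s59f_PTop`, `s59f_hitSub`, ...) are helper4's.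

* `s59m_ihara_O`, `s59m_ihara_O_op` : (T4) over `𝒪`, full modules;
* `s59m_dual_int`, `s59m_dual_O`    : (T5) over `𝒪`, full modules;
* `s59m_ihara_part`, `s59m_dual_part` : (T4)/(T5) modulo `𝔪` on the `ε`-parts — same statements as
  `s59f_ihara_part`, `s59f_dual_part` minus the hypothesis on `(p, q)`.
-/
import Mathlib
import Fermat.Agent.Lib.S59.FIharaO
import Fermat.Agent.Lib.S59.FIharaPart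
import Fermat.Agent.Lib.S59.MIharaP2

set_option autoImplicit false
set_option linter.unusedSectionVars false
set_option linter.unusedVariables false
set_option linter.style.haveILetI false

noncomputable section

namespace Fermat.Agent.Lib.S59

open CongruenceSubgroup IsLocalRing
open Fermat.Agent.Lib.S29 Fermat.Agent.Lib.S41 Fermat.Agent.Lib.S48 ModularCurve.Period
open scoped MatrixGroups

section T4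

variable (𝒪 : Type) [CommRing 𝒪] [IsDomain 𝒪] [IsDiscreteValuationRing 𝒪]
  (p : ℕ) [hp : Fact p.Prime] [CharP (ResidueField 𝒪) p]
  (N q : ℕ) [NeZero N] [hq : Fact q.Prime] (hqN : ¬ q ∣ N)

include p in
/-- **(T4) over `𝒪`.** -/
theorem s59m_ihara_O (ℓ r : ℕ) [Fact ℓ.Prime] [Fact r.Prime] (hℓ : ¬ ℓ ∣ N)
    (hr : ¬ r ∣ N) (hrq : r ≠ q) (x y : s29h_Hpar 𝒪 N 𝒪)
    (h : (s59t_oldData N q hqN 𝒪 𝒪).resA x + (s59t_oldData N q hqN 𝒪 𝒪).resB y ∈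
      (maximalIdeal 𝒪 • ⊤ : Submodule 𝒪 (s29h_Hpar 𝒪 (N * q) 𝒪))) :
    s29h_heckeHpar N ℓ 𝒪 𝒪
        (s29h_heckeHpar N r 𝒪 𝒪 (s29h_heckeHpar N r 𝒪 𝒪 x) - (r + 1) • (r + 1) • x) -
      (ℓ + 1) • (s29h_heckeHpar N r 𝒪 𝒪 (s29h_heckeHpar N r 𝒪 𝒪 x) - (r + 1) • (r + 1) • x) ∈
      (maximalIdeal 𝒪 • ⊤ : Submodule 𝒪 (s29h_Hpar 𝒪 N 𝒪)) := by
  set k := ResidueField 𝒪 with hk
  set f : 𝒪 →+ k := (residue 𝒪).toAddMonoidHom with hf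
  -- the reductions
  set xb : Additive (Gamma0 N) →+ k := f.comp x.1 with hxb
  set yb : Additive (Gamma0 N) →+ k := f.comp y.1 with hyb
  have hxy : s41l_resA N q k xb + s41l_resB N q hqN k yb = 0 := by
    have h1 := (s59f_mem_smul_top_iff_red 𝒪 _).mp h
    have h2 : s59f_redHom 𝒪 (s41l_resA N q 𝒪 x.1 + s41l_resB N q hqN 𝒪 y.1) = 0 := h1
    rw [s59f_redHom, AddMonoidHom.comp_add] at h2
    rw [hxb, hyb]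
    rw [show s41l_resA N q k (f.comp x.1) = f.comp (s41l_resA N q 𝒪 x.1) from
      (s41l_famResA N q).op_natural f x.1,
      show s41l_resB N q hqN k (f.comp y.1) = f.comp (s41l_resB N q hqN 𝒪 y.1) from
      (s41l_famResB N q hqN).op_natural f y.1]
    exact h2
  obtain ⟨φ', hφ'⟩ := s41ki_glue_x N q hqN xb yb hxy
  have hxpar : IsParabolicHom (Gamma0 N) xb := by
    intro γ hγ
    show f (x.1 (Additive.ofMul γ)) = 0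
    rw [x.2.1 γ hγ, map_zero]
  have hA : ∀ a : k, p • a = 0 := by
    intro a
    rw [nsmul_eq_mul, CharP.cast_eq_zero, zero_mul]
  have hNq : Nat.Coprime N q := ((Nat.Prime.coprime_iff_not_dvd hq.out).mpr hqN).symm
  have key := s59m_kmain N q hq.out hNq p hp.out k hA φ' xb hφ' hxpar ℓ r hℓ hr hrq
  rw [s59f_mem_smul_top_iff_red]
  -- the class over `𝒪`
  set χ : Additive (Gamma0 N) →+ 𝒪 :=
    s29h_heckeHom N r 𝒪 (s29h_heckeHom N r 𝒪 x.1) - (r + 1) • (r + 1) • x.1 with hχ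
  have hχb : f.comp χ =
      s29h_heckeHom N r k (s29h_heckeHom N r k xb) - (r + 1) • (r + 1) • xb := by
    rw [hχ, AddMonoidHom.comp_sub, ← s29h_heckeHom_comp, ← s29h_heckeHom_comp]
    congr 1
  have hgoal : s59f_redHom 𝒪 (s29h_heckeHom N ℓ 𝒪 χ - (ℓ + 1) • χ) = 0 := by
    rw [s59f_redHom, AddMonoidHom.comp_sub, ← s29h_heckeHom_comp]
    have e : f.comp ((ℓ + 1) • χ) = (ℓ + 1) • f.comp χ := by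
      refine AddMonoidHom.ext fun γ => ?_
      simp only [AddMonoidHom.comp_apply, AddMonoidHom.smul_apply, map_nsmul]
    rw [← hf, e, hχb, key, sub_self]
  exact hgoal


include p in
/-- **(T4) over `𝒪`, operator form, for both components.** -/
theorem s59m_ihara_O_op (ℓ r : ℕ) [Fact ℓ.Prime] [Fact r.Prime] (hℓ : ¬ ℓ ∣ N)
    (hr : ¬ r ∣ N) (hrq : r ≠ q) (x y : s29h_Hpar 𝒪 N 𝒪)
    (h : (s59t_oldData N q hqN 𝒪 𝒪).resA x + (s59t_oldData N q hqN 𝒪 𝒪).resB y ∈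
      (maximalIdeal 𝒪 • ⊤ : Submodule 𝒪 (s29h_Hpar 𝒪 (N * q) 𝒪))) :
    (s29h_heckeHpar N ℓ 𝒪 𝒪 - ((ℓ : 𝒪) + 1) • (1 : Module.End 𝒪 (s29h_Hpar 𝒪 N 𝒪)))
        ((s29h_heckeHpar N r 𝒪 𝒪 - ((r : 𝒪) + 1) • (1 : Module.End 𝒪 (s29h_Hpar 𝒪 N 𝒪)))
          ((s29h_heckeHpar N r 𝒪 𝒪 + ((r : 𝒪) + 1) • (1 : Module.End 𝒪 (s29h_Hpar 𝒪 N 𝒪))) x)) ∈
        (maximalIdeal 𝒪 • ⊤ : Submodule 𝒪 (s29h_Hpar 𝒪 N 𝒪)) ∧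
    (s29h_heckeHpar N ℓ 𝒪 𝒪 - ((ℓ : 𝒪) + 1) • (1 : Module.End 𝒪 (s29h_Hpar 𝒪 N 𝒪)))
        ((s29h_heckeHpar N r 𝒪 𝒪 - ((r : 𝒪) + 1) • (1 : Module.End 𝒪 (s29h_Hpar 𝒪 N 𝒪)))
          ((s29h_heckeHpar N r 𝒪 𝒪 + ((r : 𝒪) + 1) • (1 : Module.End 𝒪 (s29h_Hpar 𝒪 N 𝒪))) y)) ∈
        (maximalIdeal 𝒪 • ⊤ : Submodule 𝒪 (s29h_Hpar 𝒪 N 𝒪)) := by
  set D := s59t_oldData N q hqN 𝒪 𝒪 with hD
  have conv : ∀ v : s29h_Hpar 𝒪 N 𝒪,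
      (s29h_heckeHpar N ℓ 𝒪 𝒪 - ((ℓ : 𝒪) + 1) • (1 : Module.End 𝒪 (s29h_Hpar 𝒪 N 𝒪)))
        ((s29h_heckeHpar N r 𝒪 𝒪 - ((r : 𝒪) + 1) • (1 : Module.End 𝒪 (s29h_Hpar 𝒪 N 𝒪)))
          ((s29h_heckeHpar N r 𝒪 𝒪 + ((r : 𝒪) + 1) • (1 : Module.End 𝒪 (s29h_Hpar 𝒪 N 𝒪))) v)) =
      s29h_heckeHpar N ℓ 𝒪 𝒪
        (s29h_heckeHpar N r 𝒪 𝒪 (s29h_heckeHpar N r 𝒪 𝒪 v) - (r + 1) • (r + 1) • v) -
      (ℓ + 1) • (s29h_heckeHpar N r 𝒪 𝒪 (s29h_heckeHpar N r 𝒪 𝒪 v) - (r + 1) • (r + 1) • v) := by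
    intro v
    have e1 : ∀ (n : ℕ) (u : s29h_Hpar 𝒪 N 𝒪), (n + 1) • u = ((n : 𝒪) + 1) • u := by
      intro n u
      rw [← Nat.cast_smul_eq_nsmul 𝒪 (n + 1) u]
      push_cast
      rfl
    rw [e1 r, e1 r, e1 ℓ]
    simp only [LinearMap.sub_apply, LinearMap.add_apply, LinearMap.smul_apply,
      Module.End.one_apply, map_sub, map_add, map_smul]
    module
  have hw : D.resA y + D.resB x ∈
      (maximalIdeal 𝒪 • ⊤ : Submodule 𝒪 (s29h_Hpar 𝒪 (N * q) 𝒪)) := by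
    have h1 := s59f_end_smul_top (maximalIdeal 𝒪) D.w h
    rw [map_add, ← D.resB_eq, D.resB_eq y, D.w_w, add_comm] at h1
    exact h1
  refine ⟨?_, ?_⟩
  · rw [conv x]
    exact s59m_ihara_O 𝒪 p N q hqN ℓ r hℓ hr hrq x y h
  · rw [conv y]
    exact s59m_ihara_O 𝒪 p N q hqN ℓ r hℓ hr hrq y x hw

end T4

section T5main

variable (𝒪 : Type) [CommRing 𝒪] [IsDomain 𝒪] [IsDiscreteValuationRing 𝒪]
  [Finite (ResidueField 𝒪)] (p : ℕ) [hp : Fact p.Prime] [CharP (ResidueField 𝒪) p]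
  (N q : ℕ) [NeZero N] [hq : Fact q.Prime] (hqN : ¬ q ∣ N) (ℓ₀ : ℕ) [Fact ℓ₀.Prime]

/-- the integral classes are hit modulo `𝔪` (from `s41g_theta2`). -/
theorem s59m_dual_int (hp2 : p ≠ 2) (hℓ₀ : ¬ ℓ₀ ∣ N * q * p)
    (χ : Additive (Gamma0 N) →+ ℤ) (hχ : χ ∈ s29h_Hpar ℤ N ℤ) :
    (⟨s29s_cast 𝒪 χ, s29s_cast_mem_Hpar 𝒪 𝒪 hχ⟩ : s29h_Hpar 𝒪 N 𝒪) ∈
        s59f_hitSub (s59f_PTop 𝒪 N ℓ₀) (s59t_oldData N q hqN 𝒪 𝒪).corA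
          (s59t_oldData N q hqN 𝒪 𝒪).corB
          (maximalIdeal 𝒪 • ⊤ : Submodule 𝒪 (s29h_Hpar 𝒪 N 𝒪)) ∧
    (⟨s29s_cast 𝒪 χ, s29s_cast_mem_Hpar 𝒪 𝒪 hχ⟩ : s29h_Hpar 𝒪 N 𝒪) ∈
        s59f_hitSub (s59f_PTop 𝒪 N ℓ₀) (s59t_oldData N q hqN 𝒪 𝒪).corB
          (s59t_oldData N q hqN 𝒪 𝒪).corA
          (maximalIdeal 𝒪 • ⊤ : Submodule 𝒪 (s29h_Hpar 𝒪 N 𝒪)) := by
  have hI2 := s59m_ihara2 N q hqN p hp2 ℓ₀ hℓ₀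
  have hℓ₀N : ¬ ℓ₀ ∣ N := fun h => hℓ₀ (Dvd.dvd.mul_right (Dvd.dvd.mul_right h q) p)
  have hpm : ∀ u : s29h_Hpar 𝒪 N 𝒪, ((p : ℕ) : 𝒪) • u ∈
      (maximalIdeal 𝒪 • ⊤ : Submodule 𝒪 (s29h_Hpar 𝒪 N 𝒪)) := fun u =>
    Submodule.smul_mem_smul (s59f_p_mem 𝒪 p) Submodule.mem_top
  set c : ℤ →+ 𝒪 := Int.castAddHom 𝒪 with hc
  -- transport of an integral identity
  have tr : ∀ (cor : ∀ A : Type, [AddCommGroup A] →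
        (Additive (Gamma0 (N * q)) →+ A) →+ (Additive (Gamma0 N) →+ A))
      (hnat : ∀ ψ : Additive (Gamma0 (N * q)) →+ ℤ, cor 𝒪 (c.comp ψ) = c.comp (cor ℤ ψ))
      (u : Additive (Gamma0 N) →+ ℤ) (z y' : _),
      s59f_Praw N ℓ₀ ℤ u = cor ℤ z + ((p : ℕ) : ℤ) • y' →
      s59f_Praw N ℓ₀ 𝒪 (c.comp u) - cor 𝒪 (c.comp z) = ((p : ℕ) : 𝒪) • c.comp y' := by
    intro cor hnat u z y' e
    rw [s59f_Praw_comp, e, AddMonoidHom.comp_add, hnat, s59f_cast_p_smul, add_sub_cancel_left]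
  have natA : ∀ ψ : Additive (Gamma0 (N * q)) →+ ℤ,
      s41l_corA N q hqN 𝒪 (c.comp ψ) = c.comp (s41l_corA N q hqN ℤ ψ) := fun ψ =>
    (s41l_famCorA N q hqN).op_natural c ψ
  have natB : ∀ ψ : Additive (Gamma0 (N * q)) →+ ℤ,
      s41l_corB N q hqN 𝒪 (c.comp ψ) = c.comp (s41l_corB N q hqN ℤ ψ) := fun ψ =>
    (s41l_famCorB N q hqN).op_natural c ψ
  constructor
  · obtain ⟨z, hz, y₁', hy₁', y₂', hy₂', e1, e2⟩ :=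
      s41g_theta2 N q p ℓ₀ hqN hℓ₀N hp2 hI2 χ hχ 0 (zero_mem _)
    rw [← s59f_Praw_int] at e1 e2
    have t1 := tr (fun A _ => s41l_corA N q hqN A) natA χ z y₁' e1
    have t2 := tr (fun A _ => s41l_corB N q hqN A) natB 0 z y₂' e2
    refine ⟨⟨s29s_cast 𝒪 z, s29s_cast_mem_Hpar 𝒪 𝒪 hz⟩, ?_, ?_⟩
    · have e : s59f_PTop 𝒪 N ℓ₀ ⟨s29s_cast 𝒪 χ, s29s_cast_mem_Hpar 𝒪 𝒪 hχ⟩ -
          (s59t_oldData N q hqN 𝒪 𝒪).corA ⟨s29s_cast 𝒪 z, s29s_cast_mem_Hpar 𝒪 𝒪 hz⟩ =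
          ((p : ℕ) : 𝒪) • (⟨s29s_cast 𝒪 y₁', s29s_cast_mem_Hpar 𝒪 𝒪 hy₁'⟩ : s29h_Hpar 𝒪 N 𝒪) := by
        apply Subtype.ext
        rw [Submodule.coe_sub, s59f_PTop_coe]
        exact t1
      rw [e]
      exact hpm _
    · have e : (s59t_oldData N q hqN 𝒪 𝒪).corB ⟨s29s_cast 𝒪 z, s29s_cast_mem_Hpar 𝒪 𝒪 hz⟩ =
          -(((p : ℕ) : 𝒪) • (⟨s29s_cast 𝒪 y₂', s29s_cast_mem_Hpar 𝒪 𝒪 hy₂'⟩ :
            s29h_Hpar 𝒪 N 𝒪)) := by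
        apply Subtype.ext
        have t3 : (0 : Additive (Gamma0 N) →+ 𝒪) - s41l_corB N q hqN 𝒪 (c.comp z) =
            ((p : ℕ) : 𝒪) • c.comp y₂' := by
          have h0 : s59f_Praw N ℓ₀ 𝒪 (c.comp (0 : Additive (Gamma0 N) →+ ℤ)) = 0 := by
            rw [AddMonoidHom.comp_zero, s59f_Praw_zero]
          rw [← h0]
          exact t2
        rw [zero_sub] at t3
        rw [Submodule.coe_neg]
        exact neg_eq_iff_eq_neg.mp t3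
      rw [e]
      exact Submodule.neg_mem _ (hpm _)
  · obtain ⟨z, hz, y₁', hy₁', y₂', hy₂', e1, e2⟩ :=
      s41g_theta2 N q p ℓ₀ hqN hℓ₀N hp2 hI2 0 (zero_mem _) χ hχ
    rw [← s59f_Praw_int] at e1 e2
    have t1 := tr (fun A _ => s41l_corA N q hqN A) natA 0 z y₁' e1
    have t2 := tr (fun A _ => s41l_corB N q hqN A) natB χ z y₂' e2
    refine ⟨⟨s29s_cast 𝒪 z, s29s_cast_mem_Hpar 𝒪 𝒪 hz⟩, ?_, ?_⟩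
    · have e : s59f_PTop 𝒪 N ℓ₀ ⟨s29s_cast 𝒪 χ, s29s_cast_mem_Hpar 𝒪 𝒪 hχ⟩ -
          (s59t_oldData N q hqN 𝒪 𝒪).corB ⟨s29s_cast 𝒪 z, s29s_cast_mem_Hpar 𝒪 𝒪 hz⟩ =
          ((p : ℕ) : 𝒪) • (⟨s29s_cast 𝒪 y₂', s29s_cast_mem_Hpar 𝒪 𝒪 hy₂'⟩ : s29h_Hpar 𝒪 N 𝒪) := by
        apply Subtype.ext
        rw [Submodule.coe_sub, s59f_PTop_coe]
        exact t2
      rw [e]
      exact hpm _
    · have e : (s59t_oldData N q hqN 𝒪 𝒪).corA ⟨s29s_cast 𝒪 z, s29s_cast_mem_Hpar 𝒪 𝒪 hz⟩ =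
          -(((p : ℕ) : 𝒪) • (⟨s29s_cast 𝒪 y₁', s29s_cast_mem_Hpar 𝒪 𝒪 hy₁'⟩ :
            s29h_Hpar 𝒪 N 𝒪)) := by
        apply Subtype.ext
        have t3 : (0 : Additive (Gamma0 N) →+ 𝒪) - s41l_corA N q hqN 𝒪 (c.comp z) =
            ((p : ℕ) : 𝒪) • c.comp y₁' := by
          have h0 : s59f_Praw N ℓ₀ 𝒪 (c.comp (0 : Additive (Gamma0 N) →+ ℤ)) = 0 := by
            rw [AddMonoidHom.comp_zero, s59f_Praw_zero]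
          rw [← h0]
          exact t1
        rw [zero_sub] at t3
        rw [Submodule.coe_neg]
        exact neg_eq_iff_eq_neg.mp t3
      rw [e]
      exact Submodule.neg_mem _ (hpm _)

/-- **(T5) over `𝒪`**: `(cor_A, cor_B)` hits `(P y₁, P y₂)` modulo `𝔪`. -/
theorem s59m_dual_O (hp2 : p ≠ 2) (hℓ₀ : ¬ ℓ₀ ∣ N * q * p)
    (y₁ y₂ : s29h_Hpar 𝒪 N 𝒪) :
    ∃ z : s29h_Hpar 𝒪 (N * q) 𝒪,
      s59f_PTop 𝒪 N ℓ₀ y₁ - (s59t_oldData N q hqN 𝒪 𝒪).corA z ∈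
        (maximalIdeal 𝒪 • ⊤ : Submodule 𝒪 (s29h_Hpar 𝒪 N 𝒪)) ∧
      s59f_PTop 𝒪 N ℓ₀ y₂ - (s59t_oldData N q hqN 𝒪 𝒪).corB z ∈
        (maximalIdeal 𝒪 • ⊤ : Submodule 𝒪 (s29h_Hpar 𝒪 N 𝒪)) := by
  set D := s59t_oldData N q hqN 𝒪 𝒪 with hD
  set K : Submodule 𝒪 (s29h_Hpar 𝒪 N 𝒪) := maximalIdeal 𝒪 • ⊤ with hK
  have h1 : s59f_hitSub (s59f_PTop 𝒪 N ℓ₀) D.corA D.corB K = ⊤ :=
    s59f_top_of_int 𝒪 p N _ fun χ hχ => (s59m_dual_int 𝒪 p N q hqN ℓ₀ hp2 hℓ₀ χ hχ).1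
  have h2 : s59f_hitSub (s59f_PTop 𝒪 N ℓ₀) D.corB D.corA K = ⊤ :=
    s59f_top_of_int 𝒪 p N _ fun χ hχ => (s59m_dual_int 𝒪 p N q hqN ℓ₀ hp2 hℓ₀ χ hχ).2
  have m1 : y₁ ∈ s59f_hitSub (s59f_PTop 𝒪 N ℓ₀) D.corA D.corB K := by
    rw [h1]; exact Submodule.mem_top
  have m2 : y₂ ∈ s59f_hitSub (s59f_PTop 𝒪 N ℓ₀) D.corB D.corA K := by
    rw [h2]; exact Submodule.mem_top
  obtain ⟨z₁, ha1, hb1⟩ := m1
  obtain ⟨z₂, hb2, ha2⟩ := m2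
  refine ⟨z₁ + z₂, ?_, ?_⟩
  · have e : s59f_PTop 𝒪 N ℓ₀ y₁ - D.corA (z₁ + z₂) =
        (s59f_PTop 𝒪 N ℓ₀ y₁ - D.corA z₁) - D.corA z₂ := by
      rw [map_add]; abel
    rw [e]
    exact K.sub_mem ha1 ha2
  · have e : s59f_PTop 𝒪 N ℓ₀ y₂ - D.corB (z₁ + z₂) =
        (s59f_PTop 𝒪 N ℓ₀ y₂ - D.corB z₂) - D.corB z₁ := by
      rw [map_add]; abel
    rw [e]
    exact K.sub_mem hb2 hb1

end T5main

section Concrete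

variable (𝒪 : Type) [CommRing 𝒪] [IsDomain 𝒪] [IsDiscreteValuationRing 𝒪]
  (p : ℕ) [hp : Fact p.Prime] [CharP (ResidueField 𝒪) p]
  (N q : ℕ) [NeZero N] [hq : Fact q.Prime] (hqN : ¬ q ∣ N) (ℓ₀ : ℕ) [Fact ℓ₀.Prime]
  {ε : Module.End 𝒪 (s29h_Hpar 𝒪 N 𝒪)} {ε' : Module.End 𝒪 (s29h_Hpar 𝒪 (N * q) 𝒪)}
  (hc : (s59t_oldData N q hqN 𝒪 𝒪).Compat ε ε')

include p in
/-- **(T4) base-level Ihara modulo `𝔪` on the `ε`-parts**: `(ε Y / 𝔪)² → ε' Z / 𝔪`,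
`(x, y) ↦ res_A x + res_B y`, is injective. -/
theorem s59m_ihara_part (hℓ₀N : ¬ ℓ₀ ∣ N) (hℓ₀q : ℓ₀ ≠ q) (hε : ε * ε = ε)
    (hεT : ∀ y, ε (s29h_heckeHpar N ℓ₀ 𝒪 𝒪 y) = s29h_heckeHpar N ℓ₀ 𝒪 𝒪 (ε y))
    (a : 𝒪) (hu : IsUnit (a ^ 2 - ((ℓ₀ : 𝒪) + 1) ^ 2))
    (hnil : ∃ k : ℕ, ∀ y, ((s29h_heckeHpar N ℓ₀ 𝒪 𝒪 -
      a • (1 : Module.End 𝒪 (s29h_Hpar 𝒪 N 𝒪))) ^ k) (ε y) ∈
        (maximalIdeal 𝒪 • ⊤ : Submodule 𝒪 (s29h_Hpar 𝒪 N 𝒪)))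
    (x y : s59t_part ε)
    (h : ((s59t_oldData N q hqN 𝒪 𝒪).restrict hc).resA x +
        ((s59t_oldData N q hqN 𝒪 𝒪).restrict hc).resB y ∈
      (maximalIdeal 𝒪 • ⊤ : Submodule 𝒪 (s59t_part ε'))) :
    x ∈ (maximalIdeal 𝒪 • ⊤ : Submodule 𝒪 (s59t_part ε)) ∧
      y ∈ (maximalIdeal 𝒪 • ⊤ : Submodule 𝒪 (s59t_part ε)) := by
  obtain ⟨k, hk⟩ := hnil
  obtain ⟨hu1, hu2⟩ := s59f_units_of_sq 𝒪 hu
  exact s59f_ihara_part_abs (s59t_oldData N q hqN 𝒪 𝒪) hc (maximalIdeal 𝒪) hε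
    (s29h_heckeHpar N ℓ₀ 𝒪 𝒪) (s29h_heckeHpar N ℓ₀ 𝒪 𝒪) hεT hεT a ((ℓ₀ : 𝒪) + 1) a
    ((ℓ₀ : 𝒪) + 1) hu1 hu1 hu2 k k hk hk
    (fun x y hxy => s59m_ihara_O_op 𝒪 p N q hqN ℓ₀ ℓ₀ hℓ₀N hℓ₀N hℓ₀q x y hxy) x y h

/-- **(T5) the dual of base-level Ihara modulo `𝔪` on the `ε`-parts**:
`ε' Z → (ε Y / 𝔪)²`, `z ↦ (cor_A z, cor_B z)`, is onto. -/
theorem s59m_dual_part [Finite (ResidueField 𝒪)] (hp2 : p ≠ 2)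
    (hℓ₀ : ¬ ℓ₀ ∣ N * q * p) (hε : ε * ε = ε)
    (hεT : ∀ y, ε (s29h_heckeHpar N ℓ₀ 𝒪 𝒪 y) = s29h_heckeHpar N ℓ₀ 𝒪 𝒪 (ε y))
    (a : 𝒪) (hu : IsUnit (a ^ 2 - ((ℓ₀ : 𝒪) + 1) ^ 2))
    (hnil : ∃ k : ℕ, ∀ y, ((s29h_heckeHpar N ℓ₀ 𝒪 𝒪 -
      a • (1 : Module.End 𝒪 (s29h_Hpar 𝒪 N 𝒪))) ^ k) (ε y) ∈
        (maximalIdeal 𝒪 • ⊤ : Submodule 𝒪 (s29h_Hpar 𝒪 N 𝒪)))
    (y₁ y₂ : s59t_part ε) :
    ∃ z : s59t_part ε',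
      ((s59t_oldData N q hqN 𝒪 𝒪).restrict hc).corA z - y₁ ∈
        (maximalIdeal 𝒪 • ⊤ : Submodule 𝒪 (s59t_part ε)) ∧
      ((s59t_oldData N q hqN 𝒪 𝒪).restrict hc).corB z - y₂ ∈
        (maximalIdeal 𝒪 • ⊤ : Submodule 𝒪 (s59t_part ε)) := by
  obtain ⟨k, hk⟩ := hnil
  obtain ⟨hu1, hu2⟩ := s59f_units_of_sq 𝒪 hu
  exact s59f_dual_part_abs (s59t_oldData N q hqN 𝒪 𝒪) hc (maximalIdeal 𝒪) hε
    (s29h_heckeHpar N ℓ₀ 𝒪 𝒪) hεT a ((ℓ₀ : 𝒪) + 1) hu1 hu2 k hk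
    (fun y₁ y₂ => s59m_dual_O 𝒪 p N q hqN ℓ₀ hp2 hℓ₀ y₁ y₂) y₁ y₂

end Concrete

end Fermat.Agent.Lib.S59
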