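/-
S59 project, case (P), item [P5] (helper9): **Ihara's lemma at the raising prime `q = p`**, file 4.

helper4's (Z3) leaves (`FZ3.lean`: (T4)/(T5) at the `Γ_⊤` base of the Taylor–Wiles chain, i.e. for the package
`s59f_oldN hqN hN' hG' 𝒪 𝒪 e he' hee`) WITHOUT the hypotheses `p ≠ q` / `q ≠ p`.  The proofs are helper4's with
`s59f_ihara_O_op`, `s59f_dual_O` replaced by `s59m_ihara_O_op`, `s59m_dual_O` (`MIharaP3.lean`).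

* `s59m_ihara_top_op`, `s59m_dual_top` : operator forms at `Γ_⊤`-level;
* `s59m_ihara_part_top`, `s59m_dual_part_top` : the two leaves on the `ε`-parts = `s59f_ihara_part_top`,
  `s59f_dual_part_top` minus the hypothesis on `(p, q)`.
-/
import Mathlib
import Fermat.Agent.Lib.S59.FZ3
import Fermat.Agent.Lib.S59.MIharaP3

set_option autoImplicit false
set_option linter.unusedSectionVars false
set_option linter.unusedVariables false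
set_option linter.style.haveILetI false

noncomputable section

namespace Fermat.Agent.Lib.S59

open CongruenceSubgroup IsLocalRing
open Fermat.Agent.Lib.S29 Fermat.Agent.Lib.S41 Fermat.Agent.Lib.S48 ModularCurve.Period
open scoped MatrixGroups

section Main

variable (𝒪 : Type) [CommRing 𝒪] [IsDomain 𝒪] [IsDiscreteValuationRing 𝒪]
  (p : ℕ) [hp : Fact p.Prime] [CharP (ResidueField 𝒪) p]
  {N q : ℕ} [NeZero N] [hq : Fact q.Prime] (hqN : ¬ q ∣ N) [NeZero (N * q)]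
  (hG' : s59f_IsG' N q (⊤ : Subgroup (ZMod N)ˣ)
    (s48h_GammaH (N * q) (⊤ : Subgroup (ZMod (N * q))ˣ)))
  (e : SL(2, ℤ)) (he' : e ∈ Gamma0 (N * q))
  (hee : s59f_gW hqN * e * e ∈ s48h_GammaH (N * q) (⊤ : Subgroup (ZMod (N * q))ˣ))

include p in
/-- **(T4) at `Γ_⊤`-level, operator form.** -/
theorem s59m_ihara_top_op (i r : s59w_TIdx N) (hrq : r.ell ≠ q)
    (x y : s48h_Hpar 𝒪 (s48h_GammaH N (⊤ : Subgroup (ZMod N)ˣ)) 𝒪)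
    (h : (s59f_oldN hqN rfl hG' 𝒪 𝒪 e he' hee).resA x +
        (s59f_oldN hqN rfl hG' 𝒪 𝒪 e he' hee).resB y ∈
      (maximalIdeal 𝒪 • ⊤ :
        Submodule 𝒪 (s48h_Hpar 𝒪 (s48h_GammaH (N * q) (⊤ : Subgroup (ZMod (N * q))ˣ)) 𝒪))) :
    (s59w_op (⊤ : Subgroup (ZMod N)ˣ) 𝒪 (Sum.inl i) - ((i.ell : 𝒪) + 1) • 1)
        ((s59w_op (⊤ : Subgroup (ZMod N)ˣ) 𝒪 (Sum.inl r) - ((r.ell : 𝒪) + 1) • 1)
          ((s59w_op (⊤ : Subgroup (ZMod N)ˣ) 𝒪 (Sum.inl r) + ((r.ell : 𝒪) + 1) • 1) x)) ∈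
        (maximalIdeal 𝒪 • ⊤ :
          Submodule 𝒪 (s48h_Hpar 𝒪 (s48h_GammaH N (⊤ : Subgroup (ZMod N)ˣ)) 𝒪)) ∧
    (s59w_op (⊤ : Subgroup (ZMod N)ˣ) 𝒪 (Sum.inl i) - ((i.ell : 𝒪) + 1) • 1)
        ((s59w_op (⊤ : Subgroup (ZMod N)ˣ) 𝒪 (Sum.inl r) - ((r.ell : 𝒪) + 1) • 1)
          ((s59w_op (⊤ : Subgroup (ZMod N)ˣ) 𝒪 (Sum.inl r) + ((r.ell : 𝒪) + 1) • 1) y)) ∈
        (maximalIdeal 𝒪 • ⊤ :
          Submodule 𝒪 (s48h_Hpar 𝒪 (s48h_GammaH N (⊤ : Subgroup (ZMod N)ˣ)) 𝒪)) := by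
  haveI : Fact i.ell.Prime := ⟨i.prime⟩
  haveI : Fact r.ell.Prime := ⟨r.prime⟩
  have hom := s59f_oldTop_hom hqN 𝒪 𝒪 hG' e he' hee
  set E := s59f_topEquiv N 𝒪 𝒪 with hE
  set E' := s59f_topEquiv (N * q) 𝒪 𝒪 with hE'
  obtain ⟨x₀, rfl⟩ := E.surjective x
  obtain ⟨y₀, rfl⟩ := E.surjective y
  have h₀ : (s59t_oldData N q hqN 𝒪 𝒪).resA x₀ + (s59t_oldData N q hqN 𝒪 𝒪).resB y₀ ∈
      (maximalIdeal 𝒪 • ⊤ : Submodule 𝒪 (s29h_Hpar 𝒪 (N * q) 𝒪)) := by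
    rw [← s59f_equiv_mem_smul_top E', map_add]
    have e1 := hom.resA x₀
    have e2 := hom.resB y₀
    rw [← s59f_topEquiv_apply, ← s59f_topEquiv_apply] at e1 e2
    rw [e1, e2]
    exact h
  obtain ⟨k1, k2⟩ := s59m_ihara_O_op 𝒪 p N q hqN i.ell r.ell i.ndvd r.ndvd hrq x₀ y₀ h₀
  have tr : ∀ v : s29h_Hpar 𝒪 N 𝒪,
      E ((s29h_heckeHpar N i.ell 𝒪 𝒪 - ((i.ell : 𝒪) + 1) • (1 : Module.End 𝒪 (s29h_Hpar 𝒪 N 𝒪)))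
        ((s29h_heckeHpar N r.ell 𝒪 𝒪 - ((r.ell : 𝒪) + 1) • (1 : Module.End 𝒪 (s29h_Hpar 𝒪 N 𝒪)))
          ((s29h_heckeHpar N r.ell 𝒪 𝒪 +
            ((r.ell : 𝒪) + 1) • (1 : Module.End 𝒪 (s29h_Hpar 𝒪 N 𝒪))) v))) =
      (s59w_op (⊤ : Subgroup (ZMod N)ˣ) 𝒪 (Sum.inl i) - ((i.ell : 𝒪) + 1) • 1)
        ((s59w_op (⊤ : Subgroup (ZMod N)ˣ) 𝒪 (Sum.inl r) - ((r.ell : 𝒪) + 1) • 1)
          ((s59w_op (⊤ : Subgroup (ZMod N)ˣ) 𝒪 (Sum.inl r) + ((r.ell : 𝒪) + 1) • 1) (E v))) := by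
    intro v
    rw [s59f_topEquiv_apply, s59f_topEquiv_apply, s59f_res_top_Ts, s59f_res_top_Ts,
      s59f_res_top_Tp]
  refine ⟨?_, ?_⟩
  · rw [← tr]
    exact (s59f_equiv_mem_smul_top E _ _).mpr k1
  · rw [← tr]
    exact (s59f_equiv_mem_smul_top E _ _).mpr k2


/-- **(T5) at `Γ_⊤`-level, operator form.** -/
theorem s59m_dual_top [Finite (ResidueField 𝒪)] (hp2 : p ≠ 2) (i : s59w_TIdx N)
    (hi : ¬ i.ell ∣ N * q * p)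
    (y₁ y₂ : s48h_Hpar 𝒪 (s48h_GammaH N (⊤ : Subgroup (ZMod N)ˣ)) 𝒪) :
    ∃ z : s48h_Hpar 𝒪 (s48h_GammaH (N * q) (⊤ : Subgroup (ZMod (N * q))ˣ)) 𝒪,
      (s59w_op (⊤ : Subgroup (ZMod N)ˣ) 𝒪 (Sum.inl i) - ((i.ell : 𝒪) + 1) • 1)
        ((s59w_op (⊤ : Subgroup (ZMod N)ˣ) 𝒪 (Sum.inl i) - ((i.ell : 𝒪) + 1) • 1)
          ((s59w_op (⊤ : Subgroup (ZMod N)ˣ) 𝒪 (Sum.inl i) + ((i.ell : 𝒪) + 1) • 1)
            ((s59w_op (⊤ : Subgroup (ZMod N)ˣ) 𝒪 (Sum.inl i) + ((i.ell : 𝒪) + 1) • 1) y₁))) -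
          (s59f_oldN hqN rfl hG' 𝒪 𝒪 e he' hee).corA z ∈
        (maximalIdeal 𝒪 • ⊤ :
          Submodule 𝒪 (s48h_Hpar 𝒪 (s48h_GammaH N (⊤ : Subgroup (ZMod N)ˣ)) 𝒪)) ∧
      (s59w_op (⊤ : Subgroup (ZMod N)ˣ) 𝒪 (Sum.inl i) - ((i.ell : 𝒪) + 1) • 1)
        ((s59w_op (⊤ : Subgroup (ZMod N)ˣ) 𝒪 (Sum.inl i) - ((i.ell : 𝒪) + 1) • 1)
          ((s59w_op (⊤ : Subgroup (ZMod N)ˣ) 𝒪 (Sum.inl i) + ((i.ell : 𝒪) + 1) • 1)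
            ((s59w_op (⊤ : Subgroup (ZMod N)ˣ) 𝒪 (Sum.inl i) + ((i.ell : 𝒪) + 1) • 1) y₂))) -
          (s59f_oldN hqN rfl hG' 𝒪 𝒪 e he' hee).corB z ∈
        (maximalIdeal 𝒪 • ⊤ :
          Submodule 𝒪 (s48h_Hpar 𝒪 (s48h_GammaH N (⊤ : Subgroup (ZMod N)ˣ)) 𝒪)) := by
  haveI : Fact i.ell.Prime := ⟨i.prime⟩
  have hom := s59f_oldTop_hom hqN 𝒪 𝒪 hG' e he' hee
  set E := s59f_topEquiv N 𝒪 𝒪 with hE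
  set E' := s59f_topEquiv (N * q) 𝒪 𝒪 with hE'
  obtain ⟨x₁, rfl⟩ := E.surjective y₁
  obtain ⟨x₂, rfl⟩ := E.surjective y₂
  obtain ⟨z₀, k1, k2⟩ := s59m_dual_O 𝒪 p N q hqN i.ell hp2 hi x₁ x₂
  have tr : ∀ v : s29h_Hpar 𝒪 N 𝒪,
      E (s59f_PTop 𝒪 N i.ell v) =
      (s59w_op (⊤ : Subgroup (ZMod N)ˣ) 𝒪 (Sum.inl i) - ((i.ell : 𝒪) + 1) • 1)
        ((s59w_op (⊤ : Subgroup (ZMod N)ˣ) 𝒪 (Sum.inl i) - ((i.ell : 𝒪) + 1) • 1)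
          ((s59w_op (⊤ : Subgroup (ZMod N)ˣ) 𝒪 (Sum.inl i) + ((i.ell : 𝒪) + 1) • 1)
            ((s59w_op (⊤ : Subgroup (ZMod N)ˣ) 𝒪 (Sum.inl i) + ((i.ell : 𝒪) + 1) • 1)
              (E v)))) := by
    intro v
    unfold s59f_PTop
    rw [Module.End.mul_apply, Module.End.mul_apply, Module.End.mul_apply, s59f_topEquiv_apply,
      s59f_topEquiv_apply, s59f_res_top_Ts, s59f_res_top_Ts, s59f_res_top_Tp, s59f_res_top_Tp]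
  refine ⟨E' z₀, ?_, ?_⟩
  · have e1 := hom.corA z₀
    rw [← s59f_topEquiv_apply, ← s59f_topEquiv_apply] at e1
    rw [← tr, ← e1, ← map_sub]
    exact (s59f_equiv_mem_smul_top E _ _).mpr k1
  · have e1 := hom.corB z₀
    rw [← s59f_topEquiv_apply, ← s59f_topEquiv_apply] at e1
    rw [← tr, ← e1, ← map_sub]
    exact (s59f_equiv_mem_smul_top E _ _).mpr k2

end Main

section Parts

variable (𝒪 : Type) [CommRing 𝒪] [IsDomain 𝒪] [IsDiscreteValuationRing 𝒪]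
  (p : ℕ) [hp : Fact p.Prime] [CharP (ResidueField 𝒪) p]
  {N q N' : ℕ} [NeZero N] [hq : Fact q.Prime] (hqN : ¬ q ∣ N) [NeZero N'] (hN' : N' = N * q)
  (hG' : s59f_IsG' N q (⊤ : Subgroup (ZMod N)ˣ)
    (s48h_GammaH N' (⊤ : Subgroup (ZMod N')ˣ)))
  (e : SL(2, ℤ)) (he' : e ∈ Gamma0 N')
  (hee : s59f_gW hqN * e * e ∈ s48h_GammaH N' (⊤ : Subgroup (ZMod N')ˣ))
  {ε : Module.End 𝒪 (s48h_Hpar 𝒪 (s48h_GammaH N (⊤ : Subgroup (ZMod N)ˣ)) 𝒪)}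
  {ε' : Module.End 𝒪 (s48h_Hpar 𝒪 (s48h_GammaH N' (⊤ : Subgroup (ZMod N')ˣ)) 𝒪)}
  (hc : (s59f_oldN hqN hN' hG' 𝒪 𝒪 e he' hee).Compat ε ε')

include p in
/-- **(T4) at the base of the Taylor–Wiles chain**: Ihara modulo `𝔪` on the `ε`-parts of
`H_par(Γ_⊤(N), 𝒪) → H_par(Γ_⊤(N q), 𝒪)`. -/
theorem s59m_ihara_part_top (i : s59w_TIdx N) (hiq : i.ell ≠ q) (hε : ε * ε = ε)
    (hεT : ∀ y, ε (s59w_op (⊤ : Subgroup (ZMod N)ˣ) 𝒪 (Sum.inl i) y) =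
      s59w_op (⊤ : Subgroup (ZMod N)ˣ) 𝒪 (Sum.inl i) (ε y))
    (a : 𝒪) (hu : IsUnit (a ^ 2 - ((i.ell : 𝒪) + 1) ^ 2))
    (hnil : ∃ k : ℕ, ∀ y, ((s59w_op (⊤ : Subgroup (ZMod N)ˣ) 𝒪 (Sum.inl i) -
      a • (1 : Module.End 𝒪 (s48h_Hpar 𝒪 (s48h_GammaH N (⊤ : Subgroup (ZMod N)ˣ)) 𝒪))) ^ k)
        (ε y) ∈ (maximalIdeal 𝒪 • ⊤ :
          Submodule 𝒪 (s48h_Hpar 𝒪 (s48h_GammaH N (⊤ : Subgroup (ZMod N)ˣ)) 𝒪)))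
    (x y : s59t_part ε)
    (h : ((s59f_oldN hqN hN' hG' 𝒪 𝒪 e he' hee).restrict hc).resA x +
        ((s59f_oldN hqN hN' hG' 𝒪 𝒪 e he' hee).restrict hc).resB y ∈
      (maximalIdeal 𝒪 • ⊤ : Submodule 𝒪 (s59t_part ε'))) :
    x ∈ (maximalIdeal 𝒪 • ⊤ : Submodule 𝒪 (s59t_part ε)) ∧
      y ∈ (maximalIdeal 𝒪 • ⊤ : Submodule 𝒪 (s59t_part ε)) := by
  subst hN'
  obtain ⟨k, hk⟩ := hnil
  obtain ⟨hu1, hu2⟩ := s59f_units_of_sq 𝒪 hu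
  exact s59f_ihara_part_abs (s59f_oldN hqN rfl hG' 𝒪 𝒪 e he' hee) hc (maximalIdeal 𝒪) hε
    (s59w_op (⊤ : Subgroup (ZMod N)ˣ) 𝒪 (Sum.inl i))
    (s59w_op (⊤ : Subgroup (ZMod N)ˣ) 𝒪 (Sum.inl i)) hεT hεT a ((i.ell : 𝒪) + 1) a
    ((i.ell : 𝒪) + 1) hu1 hu1 hu2 k k hk hk
    (fun x y hxy => s59m_ihara_top_op 𝒪 p hqN hG' e he' hee i i hiq x y hxy) x y h

/-- **(T5) at the base of the Taylor–Wiles chain**: the dual of Ihara modulo `𝔪` on the `ε`-parts. -/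
theorem s59m_dual_part_top [Finite (ResidueField 𝒪)] (hp2 : p ≠ 2)
    (i : s59w_TIdx N) (hi : ¬ i.ell ∣ N * q * p) (hε : ε * ε = ε)
    (hεT : ∀ y, ε (s59w_op (⊤ : Subgroup (ZMod N)ˣ) 𝒪 (Sum.inl i) y) =
      s59w_op (⊤ : Subgroup (ZMod N)ˣ) 𝒪 (Sum.inl i) (ε y))
    (a : 𝒪) (hu : IsUnit (a ^ 2 - ((i.ell : 𝒪) + 1) ^ 2))
    (hnil : ∃ k : ℕ, ∀ y, ((s59w_op (⊤ : Subgroup (ZMod N)ˣ) 𝒪 (Sum.inl i) -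
      a • (1 : Module.End 𝒪 (s48h_Hpar 𝒪 (s48h_GammaH N (⊤ : Subgroup (ZMod N)ˣ)) 𝒪))) ^ k)
        (ε y) ∈ (maximalIdeal 𝒪 • ⊤ :
          Submodule 𝒪 (s48h_Hpar 𝒪 (s48h_GammaH N (⊤ : Subgroup (ZMod N)ˣ)) 𝒪)))
    (y₁ y₂ : s59t_part ε) :
    ∃ z : s59t_part ε',
      ((s59f_oldN hqN hN' hG' 𝒪 𝒪 e he' hee).restrict hc).corA z - y₁ ∈
        (maximalIdeal 𝒪 • ⊤ : Submodule 𝒪 (s59t_part ε)) ∧
      ((s59f_oldN hqN hN' hG' 𝒪 𝒪 e he' hee).restrict hc).corB z - y₂ ∈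
        (maximalIdeal 𝒪 • ⊤ : Submodule 𝒪 (s59t_part ε)) := by
  subst hN'
  obtain ⟨k, hk⟩ := hnil
  obtain ⟨hu1, hu2⟩ := s59f_units_of_sq 𝒪 hu
  exact s59f_dual_part_abs (s59f_oldN hqN rfl hG' 𝒪 𝒪 e he' hee) hc (maximalIdeal 𝒪) hε
    (s59w_op (⊤ : Subgroup (ZMod N)ˣ) 𝒪 (Sum.inl i)) hεT a ((i.ell : 𝒪) + 1) hu1 hu2 k hk
    (fun y₁ y₂ => s59m_dual_top 𝒪 p hqN hG' e he' hee hp2 i hi y₁ y₂) y₁ y₂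

end Parts

end Fermat.Agent.Lib.S59
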