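/-
Programme (R), helper9 (prefix `s59m_`): **FROZEN S43 ⇐ S43 RESTRICTED TO `q ≥ 5`.**

For the Frey package the case `q = 3` of level lowering is FREE: strip all primes `≥ 5` from the level
(`q ≠ p` by S43 for `q ≥ 5`, whose hypothesis "unramified at `q`" is S05; `q = p` by S44), keeping a modular
conductor level `L ∣ N`.  If `3 ∤ L` at some stage we are done; otherwise we end at `L ∈ {3, 6}`, and
`S₂(Γ₀(3)) = S₂(Γ₀(6)) = 0` (S20 + the genus formula) contradicts the existence of a normalised eigenform.

* `s59m_S43Five`     : frozen S43 with the extra hypothesis `5 ≤ q`;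
* `s59m_S43_of_five` : `s59m_S43Five →` the statement of frozen S43.
-/
import Fermat.Agent.S05
import Fermat.Agent.S44
import Fermat.Agent.Lib.S16.FSmall

set_option autoImplicit false
set_option linter.unusedSectionVars false

open WeierstrassCurve WeierstrassCurve.Affine WeierstrassCurve.Affine.Point
open CuspForm ModularFormClass UpperHalfPlane ModularCurve FreyPackage

namespace Fermat.Agent.Lib.S59

/-- **frozen S43 restricted to `5 ≤ q`.** -/
def s59m_S43Five : Prop :=
  ∀ (P : FreyPackage) {N q : ℕ}, P.IsConductorLevel N → q.Prime → 5 ≤ q → q ≠ P.p → q ∣ N →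
    GaloisRepIsIrreducible (K := AlgebraicClosure ℚ) ℚ P.freyCurve P.p →
    P.ModularRepOfLevel N → P.GaloisRepUnramifiedAt q →
    ∃ M : ℕ, M ∣ N ∧ ¬ q ∣ M ∧ P.ModularRepOfLevel M

theorem s59m_genus_six : genusFormula 6 = 0 := by
  have h1 : dedekindPsi 6 = 12 := by
    unfold dedekindPsi
    have hd : Nat.divisors 6 = {1, 2, 3, 6} := by decide
    have hf : (Finset.filter (fun d : ℕ => Squarefree d) ({1, 2, 3, 6} : Finset ℕ)) =
        {1, 2, 3, 6} := by
      refine Finset.filter_true_of_mem fun d hd => ?_
      simp only [Finset.mem_insert, Finset.mem_singleton] at hd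
      rcases hd with rfl | rfl | rfl | rfl
      · exact squarefree_one
      · exact Nat.prime_two.squarefree
      · exact Nat.prime_three.squarefree
      · have h6 : (6 : ℕ) = 2 * 3 := by norm_num
        rw [h6, Nat.squarefree_mul_iff]
        exact ⟨by norm_num, Nat.prime_two.squarefree, Nat.prime_three.squarefree⟩
    rw [hd, hf]
    decide
  have h2 : nuTwo 6 = 0 := by
    unfold nuTwo
    rw [Nat.card_eq_fintype_card]
    decide
  have h3 : nuThree 6 = 0 := by
    unfold nuThree
    rw [Nat.card_eq_fintype_card]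
    decide
  have h4 : cuspCount 6 = 4 := by decide
  rw [genusFormula, h1, h2, h3, h4]
  norm_num

/-- no level `3` or `6` for the Frey representation. -/
theorem s59m_no_level_three_six (P : FreyPackage) {L : ℕ} (hL : L = 3 ∨ L = 6)
    (hmod : P.ModularRepOfLevel L) : False := by
  obtain ⟨f, -, -, hf, -⟩ := hmod
  rcases hL with rfl | rfl
  · have := Fermat.Agent.Lib.S16.s16f_subsingleton_cuspForm 3 Fermat.Agent.Lib.S16.s16f_genus_three
    exact hf.ne_zero (Subsingleton.elim _ _)
  · have := Fermat.Agent.Lib.S16.s16f_subsingleton_cuspForm 6 s59m_genus_six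
    exact hf.ne_zero (Subsingleton.elim _ _)

/-- **the stripping induction**: from a modular conductor level `L` divisible by `3` one reaches a modular level
`M ∣ L` prime to `3`. -/
theorem s59m_strip (h5 : s59m_S43Five) (P : FreyPackage)
    (hirr : GaloisRepIsIrreducible (K := AlgebraicClosure ℚ) ℚ P.freyCurve P.p) :
    ∀ L : ℕ, P.IsConductorLevel L → P.ModularRepOfLevel L →
      ∃ M : ℕ, M ∣ L ∧ ¬ 3 ∣ M ∧ P.ModularRepOfLevel M := by
  intro L
  induction L using Nat.strong_induction_on with
  | _ L ih =>
    intro hcond hmod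
    by_cases h3 : 3 ∣ L
    swap
    · exact ⟨L, dvd_rfl, h3, hmod⟩
    -- one step down along a prime `q ≥ 5`
    have step : ∀ M : ℕ, M ∣ L → M ≠ L → P.ModularRepOfLevel M →
        ∃ M' : ℕ, M' ∣ L ∧ ¬ 3 ∣ M' ∧ P.ModularRepOfLevel M' := by
      intro M hML hne hM
      have hMpos : 0 < M := Nat.pos_of_dvd_of_pos hML hcond.pos
      have hlt : M < L := lt_of_le_of_ne (Nat.le_of_dvd hcond.pos hML) hne
      obtain ⟨M', h1, h2, h3'⟩ := ih M hlt (hcond.of_dvd hML hMpos) hM
      exact ⟨M', h1.trans hML, h2, h3'⟩
    by_cases hex : ∃ q : ℕ, q.Prime ∧ 5 ≤ q ∧ q ∣ L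
    · obtain ⟨q, hq, hq5, hqL⟩ := hex
      by_cases hqp : q = P.p
      · subst hqp
        obtain ⟨M, hML, hpM, hM⟩ := Fermat.Agent.S44.result P hcond hqL hirr hmod
        exact step M hML (fun h => hpM (h ▸ hqL)) hM
      · obtain ⟨M, hML, hqM, hM⟩ := h5 P hcond hq hq5 hqp hqL hirr hmod
          (Fermat.Agent.S05.result P hq (by omega) hqp)
        exact step M hML (fun h => hqM (h ▸ hqL)) hM
    · -- no prime `≥ 5` divides `L`: `L ∈ {3, 6}`
      exfalso
      have hsq := hcond.squarefree
      have hL6 : L ∣ 6 := by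
        have h6 : (6 : ℕ) = 2 * 3 := by norm_num
        rw [h6]
        -- every prime factor of `L` is `2` or `3`
        have hpf : ∀ r : ℕ, r.Prime → r ∣ L → r = 2 ∨ r = 3 := by
          intro r hr hrL
          by_contra hne
          rw [not_or] at hne
          have h5r : 5 ≤ r := by
            have h2 := hr.two_le
            have h4 : r ≠ 4 := by
              rintro rfl
              exact absurd hr (by norm_num)
            omega
          exact hex ⟨r, hr, h5r, hrL⟩
        have hLeq : L = ∏ r ∈ L.primeFactors, r := (Nat.prod_primeFactors_of_squarefree hsq).symm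
        have hsub : L.primeFactors ⊆ ({2, 3} : Finset ℕ) := by
          intro r hr
          have := hpf r (Nat.prime_of_mem_primeFactors hr) (Nat.dvd_of_mem_primeFactors hr)
          simp only [Finset.mem_insert, Finset.mem_singleton]
          exact this
        rw [hLeq]
        have : ∏ r ∈ ({2, 3} : Finset ℕ), r = 2 * 3 := by decide
        rw [← this]
        exact Finset.prod_dvd_prod_of_subset _ _ _ hsub
      have hL36 : L = 3 ∨ L = 6 := by
        have hle : L ≤ 6 := Nat.le_of_dvd (by norm_num) hL6
        have hpos := hcond.pos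
        interval_cases L <;> simp_all
      exact s59m_no_level_three_six P hL36 hmod

/-- **frozen S43 from its restriction to `q ≥ 5`.** -/
theorem s59m_S43_of_five (h5 : s59m_S43Five) (P : FreyPackage) {N q : ℕ}
    (hcond : P.IsConductorLevel N) (hq : q.Prime) (hq2 : q ≠ 2) (hqp : q ≠ P.p) (hqN : q ∣ N)
    (hirr : GaloisRepIsIrreducible (K := AlgebraicClosure ℚ) ℚ P.freyCurve P.p)
    (hmod : P.ModularRepOfLevel N) (hunr : P.GaloisRepUnramifiedAt q) :
    ∃ M : ℕ, M ∣ N ∧ ¬ q ∣ M ∧ P.ModularRepOfLevel M := by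
  by_cases h5q : 5 ≤ q
  · exact h5 P hcond hq h5q hqp hqN hirr hmod hunr
  · have hq3 : q = 3 := by
      have h2 := hq.two_le
      have h4 : q ≠ 4 := by
        rintro rfl
        exact absurd hq (by norm_num)
      omega
    subst hq3
    exact s59m_strip h5 P hirr N hcond hmod

end Fermat.Agent.Lib.S59
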