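/-
Programme (R)/(T), glue (helper9, prefix `s59m_`): **the Taylor–Wiles bridge.**

`ρ_W = s59b_rhoW W p hΔ` (helper2), `φ : ℤ_p → 𝒪` local, `ρ̄ = (ρ_W.baseChangeAlong φ hφ).residual`.

* `s59m_rhobar_charpoly_frob` : at a good prime `ℓ ≠ p` the Frobenius polynomial of `ρ̄` is
  `X² − a_ℓ(W) X + ℓ` (coefficients reduced into the residue field `k` of `𝒪`);
* `s59m_TW_bridge` : if `q ≡ 1 (p)` is a good prime and `ρ̄(Frob_q)` has two DISTINCT eigenvalues in `k`, then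
  `¬ p ∣ a_q(W)² − 4` (the integral form used by `s59n_C8_final_TW` / `s59m_G2_up_ell_TW`);
* `s59m_TW_bridge_all` : the same from the `∀ A φ`-form of the hypothesis (shape of the Taylor–Wiles datum of
  `s59i_TPkg`).
-/
import Fermat.Agent.Lib.S59.BDet
import Fermat.Agent.Lib.S59.BHres
import Fermat.Agent.Lib.S59.ETWRes
import Fermat.Agent.Lib.Frobenius.Exists

set_option autoImplicit false
set_option linter.style.haveILetI false
set_option linter.unusedSectionVars false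

noncomputable section

namespace Fermat.Agent.Lib.S59

open Fermat.Agent.Lib.S30 Fermat.Agent.Lib.S58
open WeierstrassCurve WeierstrassCurve.Affine IsLocalRing TensorProduct Polynomial

local notation "Kb" => AlgebraicClosure ℚ
local notation "GQ" => (AlgebraicClosure ℚ ≃ₐ[ℚ] AlgebraicClosure ℚ)

variable {W : WeierstrassCurve ℤ} {p : ℕ} [hp : Fact p.Prime]
  {𝒪 : Type} [CommRing 𝒪] [IsLocalRing 𝒪]

/-- **the Frobenius polynomial of `ρ̄` at a good prime `ℓ ≠ p`.** -/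
theorem s59m_rhobar_charpoly_frob (hΔ : W.Δ ≠ 0) (hp2 : p ≠ 2) (hirr : W.ModRepIsIrreducible p)
    (φ : ℤ_[p] →+* 𝒪) (hφ : IsLocalHom φ)
    (ℓ : ℕ) (hℓ : ℓ.Prime) (hgood : W.IsGoodPrimeFor ℓ) (hℓp : ℓ ≠ p)
    (A : ValuationSubring Kb) (hA : A.LiesOverPrime ℓ) (σ : GQ) (hσ : A.IsFrobeniusAt σ ℓ) :
    LinearMap.charpoly (((s59b_rhoW W p hΔ).baseChangeAlong φ hφ).residual.ρ σ) =
      X ^ 2 - C (((W.apOfModel ℓ : ℤ) : ResidueField 𝒪)) * X + C ((ℓ : ℕ) : ResidueField 𝒪) := by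
  rw [s59b_residual_charpoly, s59e_bc_charpoly,
    s59b_rhoW_charpoly hΔ hp2 hirr ℓ hℓ hgood hℓp A hA σ hσ, Polynomial.map_map]
  simp only [Polynomial.map_add, Polynomial.map_sub, Polynomial.map_mul, Polynomial.map_pow,
    Polynomial.map_X, map_intCast, map_natCast, Polynomial.map_intCast, Polynomial.map_natCast]

/-- **Taylor–Wiles bridge**: distinct eigenvalues of `ρ̄(Frob_q)` at a good prime `q ≡ 1 (p)` give
`¬ p ∣ a_q(W)² − 4`. -/
theorem s59m_TW_bridge (hΔ : W.Δ ≠ 0) (hp2 : p ≠ 2) (hirr : W.ModRepIsIrreducible p)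
    (φ : ℤ_[p] →+* 𝒪) (hφ : IsLocalHom φ)
    (q : ℕ) (hq : q.Prime) (hgood : ¬ (q : ℤ) ∣ W.Δ) (hqp : q ≠ p)
    (hq1 : (p : ℤ) ∣ (q : ℤ) - 1)
    (A : ValuationSubring Kb) (hA : A.LiesOverPrime q) (σ : GQ) (hσ : A.IsFrobeniusAt σ q)
    (α β : ResidueField 𝒪) (hαβ : α ≠ β)
    (hcp : LinearMap.charpoly (((s59b_rhoW W p hΔ).baseChangeAlong φ hφ).residual.ρ σ) =
      (X - C α) * (X - C β)) :
    ¬ (p : ℤ) ∣ W.apOfModel q ^ 2 - 4 := by
  intro hdvd
  have hp𝒪 : (p : 𝒪) ∈ maximalIdeal 𝒪 := s59e_bc_p_mem φ hφ p (s59b_p_mem p)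
  have hpk : ((p : ℕ) : ResidueField 𝒪) = 0 := by
    rw [← map_natCast (residue 𝒪), residue_eq_zero_iff]
    exact hp𝒪
  have hpk' : ((p : ℤ) : ResidueField 𝒪) = 0 := by
    rw [Int.cast_natCast]; exact hpk
  -- `q = 1` and `a_q² = 4` in `k`
  have hq1k : ((q : ℕ) : ResidueField 𝒪) = 1 := by
    obtain ⟨c, hc⟩ := hq1
    have := congrArg (fun z : ℤ => (z : ResidueField 𝒪)) hc
    simp only [Int.cast_sub, Int.cast_natCast, Int.cast_one, Int.cast_mul] at this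
    rw [hpk, zero_mul] at this
    exact sub_eq_zero.mp this
  have ha4 : ((W.apOfModel q : ℤ) : ResidueField 𝒪) ^ 2 = 4 := by
    obtain ⟨c, hc⟩ := hdvd
    have := congrArg (fun z : ℤ => (z : ResidueField 𝒪)) hc
    simp only [Int.cast_sub, Int.cast_pow, Int.cast_mul, Int.cast_ofNat] at this
    rw [hpk', zero_mul] at this
    exact sub_eq_zero.mp this
  have h1 := s59m_rhobar_charpoly_frob hΔ hp2 hirr φ hφ q hq hgood hqp A hA σ hσ
  rw [hcp, hq1k] at h1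
  -- compare coefficients
  have hc0 := congrArg (fun f : (ResidueField 𝒪)[X] => f.coeff 0) h1
  have hc1 := congrArg (fun f : (ResidueField 𝒪)[X] => f.coeff 1) h1
  simp only [mul_coeff_zero, coeff_sub, coeff_X_zero, coeff_C_zero, zero_sub, coeff_add,
    coeff_X_pow, mul_zero, sub_zero, neg_mul_neg] at hc0
  have hsum : α + β = ((W.apOfModel q : ℤ) : ResidueField 𝒪) := by
    have e1 : ((X - C α) * (X - C β) : (ResidueField 𝒪)[X]) =
        X ^ 2 - C (α + β) * X + C (α * β) := by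
      rw [C_add, C_mul]; ring
    rw [e1] at hc1
    simp only [coeff_add, coeff_sub, coeff_X_pow, coeff_C_mul, coeff_X_one, coeff_C_succ,
      mul_one] at hc1
    norm_num at hc1
    linear_combination -hc1
  have hprod : α * β = 1 := by
    norm_num at hc0
    exact hc0
  have hsq : (α - β) ^ 2 = 0 := by
    have : (α - β) ^ 2 = (α + β) ^ 2 - 4 * (α * β) := by ring
    rw [this, hsum, hprod, ha4]; ring
  exact hαβ (sub_eq_zero.mp ((pow_eq_zero_iff (two_ne_zero)).mp hsq))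

/-- the bridge from the `∀ A φ`-form of the hypothesis. -/
theorem s59m_TW_bridge_all (hΔ : W.Δ ≠ 0) (hp2 : p ≠ 2) (hirr : W.ModRepIsIrreducible p)
    (φ : ℤ_[p] →+* 𝒪) (hφ : IsLocalHom φ)
    (q : ℕ) (hq : q.Prime) (hgood : ¬ (q : ℤ) ∣ W.Δ) (hqp : q ≠ p)
    (hq1 : (p : ℤ) ∣ (q : ℤ) - 1)
    (h : ∀ A : ValuationSubring Kb, A.LiesOverPrime q → ∀ σ : GQ, A.IsFrobeniusAt σ q →
      ∃ α β : ResidueField 𝒪, α ≠ β ∧
        LinearMap.charpoly (((s59b_rhoW W p hΔ).baseChangeAlong φ hφ).residual.ρ σ) =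
          (X - C α) * (X - C β)) :
    ¬ (p : ℤ) ∣ W.apOfModel q ^ 2 - 4 := by
  obtain ⟨A, hA⟩ := Fermat.Agent.Lib.Frobenius.exists_liesOverPrime q hq
  obtain ⟨σ, hσ⟩ := Fermat.Agent.Lib.Frobenius.exists_isFrobeniusAt_of_liesOverPrime A q hq hA
  obtain ⟨α, β, hαβ, hcp⟩ := h A hA σ hσ
  exact s59m_TW_bridge hΔ hp2 hirr φ hφ q hq hgood hqp hq1 A hA σ hσ α β hαβ hcp

end Fermat.Agent.Lib.S59
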