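/-
Programme (R) / node [MP], leaf [C] = TORIC-FROB, family N (helper7, prefix `s59n_`):
**THE CHART `{j regular}` OF `X_0(M q)` IS STABLE UNDER `w_q` AND UNDER THE COEFFICIENTWISE GALOIS ACTION.**

* `s59n_beta_reg_iff_bar` : over `ℚ̄`, `j` is regular at a place iff `j_q = β j` is (helper's cusp types `s36u_cusp_type`,
  `Lib/S36/RCusp.lean`, and the `w_q`-translate of a place `s36e_exists_al_place`);
* `s59n_beta_reg_iff`     : the same over any `K₀ ⊆ ℚ̄` (restriction of places `s18r_exists_restrict`);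
* `s59n_chart_al_stable`  : `Q ∈ chart1 j ↔ (w_q ∘ σ₀) • Q ∈ chart1 j`.
-/
import Fermat.Agent.Lib.S36.RCusp
import Fermat.Agent.Lib.S36.REisTheta
import Fermat.Agent.Lib.S18.RWave2
import Fermat.Agent.Lib.S34.MValAL
import Fermat.Agent.Lib.S34.FAssembly
import Fermat.Agent.Lib.S34.FWire
import Fermat.Agent.Lib.S34.MValAlpha

set_option autoImplicit false
set_option linter.style.haveILetI false
set_option linter.unusedSectionVars false

noncomputable section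

namespace Fermat.Agent.Lib.S59

open AlgebraicCurve ModularCurve HahnSeries Fermat.Agent.Lib.FF Fermat.Agent.Lib.S18
  Fermat.Agent.Lib.S37 Fermat.Agent.Lib.S36 Fermat.Agent.Lib.S34

local notation "Kb" => AlgebraicClosure ℚ

section Bar

variable (M q : ℕ) [NeZero M] [NeZero q] (hq : q.Prime) (hqM : ¬ q ∣ M)

include hq hqM in
/-- over `ℚ̄`: a pole of `j` is a pole of `β j` and conversely. -/
theorem s59n_beta_pole_iff_bar (v : Place Kb (ffi_F (M * q))) :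
    v.ord (ffd_jBar (M * q)) < 0 ↔ v.ord (heckeBetaBar Kb M q (ffd_jBar M)) < 0 := by
  have hqpos : (0 : ℤ) < q := by exact_mod_cast hq.pos
  have key : ∀ v : Place Kb (ffi_F (M * q)), v.ord (ffd_jBar (M * q)) < 0 →
      v.ord (heckeBetaBar Kb M q (ffd_jBar M)) < 0 := by
    intro v hv
    have h4 := (s36u_cusp_type M q hq hqM v hv).2
    nlinarith
  refine ⟨key v, fun hB => ?_⟩
  obtain ⟨v₁, hv₁⟩ := s36e_exists_al_place M q hq hqM v
  have hwA : s37w_al M q hq hqM (ffd_jBar (M * q)) = heckeBetaBar Kb M q (ffd_jBar M) := by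
    rw [← s36u_cusp_alpha_jBar M q, s37w_al_alpha]
  have hwB : s37w_al M q hq hqM (heckeBetaBar Kb M q (ffd_jBar M)) = ffd_jBar (M * q) := by
    rw [s37w_al_beta, s36u_cusp_alpha_jBar]
  have h1 : v₁.ord (ffd_jBar (M * q)) < 0 := by rw [← hv₁, hwA]; exact hB
  have h2 := key v₁ h1
  rw [← hv₁, hwB] at h2
  exact h2

end Bar

section Field

variable {K₀ : Type*} [Field K₀] [Algebra ℚ K₀] (φ : K₀ →+* Kb) (M q : ℕ) [NeZero M] [NeZero q]
  (hq : q.Prime) (hqM : ¬ q ∣ M)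

include φ hq hqM in
/-- over `K₀`: a pole of `j` is a pole of `β j` and conversely. -/
theorem s59n_beta_pole_iff (Q : Place K₀ (s34m_F K₀ (M * q))) :
    Q.ord (s18g_jF (K := K₀) (M * q)) < 0 ↔
      Q.ord (heckeBetaBar K₀ M q (s18g_jF (K := K₀) M)) < 0 := by
  obtain ⟨ρ, hsurj, hord⟩ := s18r_exists_restrict φ (M * q)
  obtain ⟨P, rfl⟩ := hsurj Q
  have hιA : s34m_iota φ (M * q) (s18g_jF (K := K₀) (M * q)) = ffd_jBar (M * q) :=
    s18r_map_jF φ (M * q)
  have hιB : s34m_iota φ (M * q) (heckeBetaBar K₀ M q (s18g_jF (K := K₀) M)) =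
      heckeBetaBar Kb M q (ffd_jBar M) := by
    rw [s34m_iota_beta]
    congr 1
    exact s18r_map_jF φ M
  have h := s59n_beta_pole_iff_bar M q hq hqM P
  rw [← hιA, ← hιB] at h
  have e1 := hord P (s18g_jF (K := K₀) (M * q))
  have e2 := hord P (heckeBetaBar K₀ M q (s18g_jF (K := K₀) M))
  change P.ord (s34m_iota φ (M * q) _) = _ at e1
  change P.ord (s34m_iota φ (M * q) _) = _ at e2
  rw [e1, e2] at h
  exact h

include φ hq hqM in
/-- **`j` is regular at `Q` iff `β j` is.** -/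
theorem s59n_beta_reg_iff (Q : Place K₀ (s34m_F K₀ (M * q))) :
    s18g_jF (K := K₀) (M * q) ∈ Q.toValuationSubring ↔
      heckeBetaBar K₀ M q (s18g_jF (K := K₀) M) ∈ Q.toValuationSubring := by
  have hA0 : s18g_jF (K := K₀) (M * q) ≠ 0 := s18g_jF_ne_zero (M * q)
  have hB0 : heckeBetaBar K₀ M q (s18g_jF (K := K₀) M) ≠ 0 :=
    (map_ne_zero _).mpr (s18g_jF_ne_zero M)
  rw [ff_mem_iff_ord_nonneg Q hA0, ff_mem_iff_ord_nonneg Q hB0, ← not_lt, ← not_lt,
    s59n_beta_pole_iff φ M q hq hqM Q]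

/-- the semilinear automorphism `w_q ∘ σ₀` of `𝓕_{K₀}(M q)`. -/
def s59n_gPsi (σ₀ : K₀ ≃ₐ[ℚ] K₀) : SemilinearAut K₀ (s34m_F K₀ (M * q)) :=
  SemilinearAut.ofAlgAut (s34m_al φ M q hq hqM) *
    arithmeticGalois (modularFunctionFieldFull (M * q)) σ₀

theorem s59n_gPsi_smul (σ₀ : K₀ ≃ₐ[ℚ] K₀) (y : s34m_F K₀ (M * q)) :
    s59n_gPsi φ M q hq hqM σ₀ • y =
      s34m_al φ M q hq hqM (arithmeticRingAut (modularFunctionFieldFull (M * q)) σ₀ y) := by
  rw [s59n_gPsi, mul_smul, SemilinearAut.ofAlgAut_smul]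
  rfl

/-- the chart `{j regular}` is `w_q`-stable. -/
theorem s59n_chart_al (Q : Place K₀ (s34m_F K₀ (M * q))) :
    Q ∈ s18_chart1 (L₀ := K₀) (s18g_jF (K := K₀) (M * q)) ↔
      SemilinearAut.ofAlgAut (s34m_al φ M q hq hqM) • Q ∈
        s18_chart1 (L₀ := K₀) (s18g_jF (K := K₀) (M * q)) := by
  show s18g_jF (K := K₀) (M * q) ∈ Q.toValuationSubring ↔
    s18g_jF (K := K₀) (M * q) ∈ (SemilinearAut.ofAlgAut (s34m_al φ M q hq hqM) • Q).toValuationSubring
  have h := s34f_smul_mem_iff (SemilinearAut.ofAlgAut (s34m_al φ M q hq hqM))⁻¹ Q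
    (s18g_jF (K := K₀) (M * q))
  rw [inv_inv] at h
  rw [← h, s59n_beta_reg_iff φ M q hq hqM Q]
  have e : (SemilinearAut.ofAlgAut (s34m_al φ M q hq hqM))⁻¹ • s18g_jF (K := K₀) (M * q) =
      heckeBetaBar K₀ M q (s18g_jF (K := K₀) M) := by
    rw [SemilinearAut.inv_smul_def, SemilinearAut.toRingAut_ofAlgAut]
    show (s34m_al φ M q hq hqM).symm (s18g_jF (K := K₀) (M * q)) = _
    rw [s34m_al_symm, ← s34m_alpha_jF M q, s34m_al_alpha]
  rw [e]

/-- **the chart `{j regular}` is stable under `w_q ∘ σ₀`.** -/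
theorem s59n_chart_al_stable (σ₀ : K₀ ≃ₐ[ℚ] K₀) (Q : Place K₀ (s34m_F K₀ (M * q))) :
    Q ∈ s18_chart1 (L₀ := K₀) (s18g_jF (K := K₀) (M * q)) ↔
      s59n_gPsi φ M q hq hqM σ₀ • Q ∈ s18_chart1 (L₀ := K₀) (s18g_jF (K := K₀) (M * q)) := by
  rw [s59n_gPsi, mul_smul, ← s59n_chart_al φ M q hq hqM]
  exact s34f_chart_stable_of_fixed _ _ (s34f_galois_jF (M * q) σ₀) Q

end Field

end Fermat.Agent.Lib.S59
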