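/-
Programme (R) / node [IA′] (C7 = (G2), D = extraction), family N (helper7, prefix `s59n_`):
**THE ONE-SIDED KUMMER KERNELS AT LEVEL `Γ₀(M q)` AND "FINITE + BOTH KERNELS ⇒ TORIC".**

Level `M * q` (`q ≥ 5` prime, `q ∤ M`), `P ∣ q`, exponent `p` (any natural number `≠ 0`).

* `s59n_KerInf M q p hqM P x`  : over every sufficiently large finite normal `L₀` the class `x` has a Kummer generator
  (exponent `p`) which is a unit of `V_∞` whose reduction is a constant times a `p`-th power in `F̄_M(κ₀)`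
  (`x` lies in the kernel of the Kummer-reduction map at `V_∞`; e.g. a generator `≡ 1 mod 𝔪_{V_∞}`);
* `s59n_KerZero M q p hqM P x` : the same at `V_0`;
* `s59n_red_transfer`          : the abstract transfer: two Gauss-unit Kummer generators `h = c g ^ p u` of the same class
  have reductions in the same class modulo constants and `p`-th powers;
* **`s59n_toric_of_fin_ker`**  : `s59n_Finite` + `s59n_KerInf` + `s59n_KerZero` ⇒ `s59m_Toric` (the finite generator `h`,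
  a unit of `V_∞` AND of `V_0`, node-avoiding, inherits both reductions);
* `s59n_kerInf_of_toric`, `s59n_kerZero_of_toric`, `s59n_finite_of_toric` : the converse.
-/
import Fermat.Agent.Lib.S59.NGeoN
import Fermat.Agent.Lib.S59.NStarFieldN

set_option autoImplicit false
set_option linter.style.haveILetI false
set_option linter.unusedSectionVars false
set_option synthInstance.maxHeartbeats 400000

noncomputable section

namespace Fermat.Agent.Lib.S59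

open ModularCurve AlgebraicCurve HahnSeries Fermat.Agent.Lib.FF Fermat.Agent.Lib.S18
  Fermat.Agent.Lib.S34 Fermat.Agent.Lib.S37 Fermat.Agent.Lib.S33 Fermat.Agent.Lib.S35
  Fermat.Agent.Lib.S44

local notation "Kb" => AlgebraicClosure ℚ
local notation "Γℚ" => (AlgebraicClosure ℚ ≃ₐ[ℚ] AlgebraicClosure ℚ)

/-! ### The abstract transfer -/

section Abstract

variable {L₀ 𝓕 κ Fb : Type*} [Field L₀] [Field 𝓕] [Algebra L₀ 𝓕] [Field κ] [Field Fb] [Algebra κ Fb]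

/-- **transfer of the reduction class**: `h = c · g ^ p · u`, `h` and `u` units of the Gauss valuation ring, and
`red u = c_u · a_u ^ p` ⇒ `red h = c' · a' ^ p`. -/
theorem s59n_red_transfer (D : s33f_Datum L₀ 𝓕 κ Fb) {p : ℕ} {h u g : 𝓕} {c : L₀}
    (hh : h ∈ D.O) (hh' : h⁻¹ ∈ D.O) (hh0 : h ≠ 0) (hu : u ∈ D.O) (hu' : u⁻¹ ∈ D.O) (hu0 : u ≠ 0)
    (hg : g ≠ 0) (e : h = algebraMap L₀ 𝓕 c * g ^ p * u) {cu : κ} {au : Fb} (hcu : cu ≠ 0)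
    (eu : D.red ⟨u, hu⟩ = algebraMap κ Fb cu * au ^ p) :
    ∃ (c' : κ) (a' : Fb), c' ≠ 0 ∧ D.red ⟨h, hh⟩ = algebraMap κ Fb c' * a' ^ p := by
  obtain ⟨m, g', hg'0, hg'O, hg'O', eg⟩ := s44c_exists_val (D := D) hg
  have hπ0 : s33f_pi D ≠ 0 := s33f_pi_ne_zero D
  have hc0 : c ≠ 0 := by
    rintro rfl
    rw [map_zero, zero_mul, zero_mul] at e
    exact hh0 e
  -- the constant `c₁ = c ϖ ^ (p m)`
  obtain ⟨c₁, hc₁⟩ : ∃ c₁ : L₀, c₁ = c * D.ϖ ^ ((p : ℤ) * m) := ⟨_, rfl⟩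
  have hc₁0 : c₁ ≠ 0 := by
    rw [hc₁]
    exact mul_ne_zero hc0 (zpow_ne_zero _ D.ϖ_ne_zero)
  have e1 : algebraMap L₀ 𝓕 c₁ = algebraMap L₀ 𝓕 c * s33f_pi D ^ ((p : ℤ) * m) := by
    rw [hc₁, map_mul, map_zpow₀]
    rfl
  have e2 : h = algebraMap L₀ 𝓕 c₁ * g' ^ p * u := by
    rw [e, eg, e1, mul_pow, ← zpow_natCast (s33f_pi D ^ m) p, ← zpow_mul, mul_comm m (p : ℤ)]
    ring
  have hc₁' : algebraMap L₀ 𝓕 c₁ ≠ 0 := (map_ne_zero_iff _ (algebraMap L₀ 𝓕).injective).mpr hc₁0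
  have e3 : algebraMap L₀ 𝓕 c₁ = h * u⁻¹ * (g'⁻¹) ^ p := by
    rw [e2, inv_pow, mul_assoc (algebraMap L₀ 𝓕 c₁ * g' ^ p), mul_inv_cancel₀ hu0, mul_one, mul_assoc,
      mul_inv_cancel₀ (pow_ne_zero p hg'0), mul_one]
  have e4 : algebraMap L₀ 𝓕 c₁⁻¹ = h⁻¹ * u * g' ^ p := by
    rw [map_inv₀, e3, mul_inv, mul_inv, inv_inv, ← inv_pow, inv_inv]
  have hc₁O : algebraMap L₀ 𝓕 c₁ ∈ D.O := by
    rw [e3]
    exact D.O.mul_mem _ _ (D.O.mul_mem _ _ hh hu') (pow_mem hg'O' p)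
  have hc₁O' : algebraMap L₀ 𝓕 c₁⁻¹ ∈ D.O := by
    rw [e4]
    exact D.O.mul_mem _ _ (D.O.mul_mem _ _ hh' hu) (pow_mem hg'O p)
  have hc₁A : c₁ ∈ D.A₀ := (D.const_mem_iff c₁).mp hc₁O
  have hc₁A' : c₁⁻¹ ∈ D.A₀ := (D.const_mem_iff c₁⁻¹).mp hc₁O'
  have hres : D.resA ⟨c₁, hc₁A⟩ ≠ 0 := by
    intro h0
    have h1 : (⟨c₁, hc₁A⟩ : D.A₀) * ⟨c₁⁻¹, hc₁A'⟩ = 1 := Subtype.ext (mul_inv_cancel₀ hc₁0)
    have h2 := congrArg D.resA h1
    rw [map_mul, h0, zero_mul, map_one] at h2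
    exact zero_ne_one h2
  refine ⟨D.resA ⟨c₁, hc₁A⟩ * cu, D.red ⟨g', hg'O⟩ * au, mul_ne_zero hres hcu, ?_⟩
  have h5 : (⟨h, hh⟩ : D.O) = ⟨algebraMap L₀ 𝓕 c₁, hc₁O⟩ * ⟨g', hg'O⟩ ^ p * ⟨u, hu⟩ :=
    Subtype.ext e2
  have h6 : D.red ⟨algebraMap L₀ 𝓕 c₁, hc₁O⟩ = algebraMap κ Fb (D.resA ⟨c₁, hc₁A⟩) :=
    D.red_const ⟨c₁, hc₁A⟩
  have h7 : D.red ⟨h, hh⟩ =
      D.red ⟨algebraMap L₀ 𝓕 c₁, hc₁O⟩ * D.red ⟨g', hg'O⟩ ^ p * D.red ⟨u, hu⟩ := by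
    rw [h5, map_mul, map_mul, map_pow]
  rw [h7, h6, eu, map_mul (algebraMap κ Fb), mul_pow]
  ring

end Abstract

/-! ### The one-sided Kummer kernels at level `Γ₀(M q)` -/

section Defs

/-- **`x` lies in the Kummer kernel at `V_∞`** (level `M * q`, exponent `p`): over every sufficiently large finite normal
`L₀` it has a Kummer generator which is a unit of `V_∞` with reduction a constant times a `p`-th power. -/
def s59n_KerInf (M q p : ℕ) [NeZero M] [hq : Fact q.Prime] (_hqM : ¬ q ∣ M) (P : ValuationSubring Kb)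
    (x : JZero (M * q)) : Prop :=
  ∃ Lx : IntermediateField ℚ Kb, FiniteDimensional ℚ ↥Lx ∧
    ∀ (L₀ : IntermediateField ℚ Kb) [FiniteDimensional ℚ ↥L₀] [Normal ℚ ↥L₀]
      [IsDiscreteValuationRing ↥(s18q_A0 P L₀)] (ϖ : ↥(s18q_A0 P L₀)) (hϖ : Irreducible ϖ),
      Lx ≤ L₀ →
      ∃ u : s34m_F ↥L₀ (M * q),
        s33d_IsKumGen p x (s18q_incl (M * q) L₀ u) ∧
        ∃ (hI : u ∈ s34m_Vinf (s37r_G P L₀ ϖ hϖ) (M * q)),
          u⁻¹ ∈ s34m_Vinf (s37r_G P L₀ ϖ hϖ) (M * q) ∧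
          ∃ (c : IsLocalRing.ResidueField ↥(s18q_A0 P L₀))
            (a₀ : LaurentSeries (IsLocalRing.ResidueField ↥(s18q_A0 P L₀))), c ≠ 0 ∧
            a₀ ∈ modularFunctionFieldFullC (IsLocalRing.ResidueField ↥(s18q_A0 P L₀)) M ∧
            s34m_redInf (s37r_G P L₀ ϖ hϖ) (M * q) ⟨u, hI⟩ = HahnSeries.C c * a₀ ^ p

/-- **`x` lies in the Kummer kernel at `V_0`** (level `M * q`, exponent `p`). -/
def s59n_KerZero (M q p : ℕ) [NeZero M] [hq : Fact q.Prime] (hqM : ¬ q ∣ M) (P : ValuationSubring Kb)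
    (x : JZero (M * q)) : Prop :=
  ∃ Lx : IntermediateField ℚ Kb, FiniteDimensional ℚ ↥Lx ∧
    ∀ (L₀ : IntermediateField ℚ Kb) [FiniteDimensional ℚ ↥L₀] [Normal ℚ ↥L₀]
      [IsDiscreteValuationRing ↥(s18q_A0 P L₀)] (ϖ : ↥(s18q_A0 P L₀)) (hϖ : Irreducible ϖ),
      Lx ≤ L₀ →
      ∃ u : s34m_F ↥L₀ (M * q),
        s33d_IsKumGen p x (s18q_incl (M * q) L₀ u) ∧
        ∃ (hZ : u ∈ s34m_Vzero (s37r_G P L₀ ϖ hϖ) (algebraMap ↥L₀ Kb) M q hq.out hqM),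
          u⁻¹ ∈ s34m_Vzero (s37r_G P L₀ ϖ hϖ) (algebraMap ↥L₀ Kb) M q hq.out hqM ∧
          ∃ (c : IsLocalRing.ResidueField ↥(s18q_A0 P L₀))
            (a₀ : LaurentSeries (IsLocalRing.ResidueField ↥(s18q_A0 P L₀))), c ≠ 0 ∧
            a₀ ∈ modularFunctionFieldFullC (IsLocalRing.ResidueField ↥(s18q_A0 P L₀)) M ∧
            s34m_redZero (s37r_G P L₀ ϖ hϖ) (algebraMap ↥L₀ Kb) M q hq.out hqM ⟨u, hZ⟩ =
              HahnSeries.C c * a₀ ^ p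

variable {M q p : ℕ} [NeZero M] [hq : Fact q.Prime] {hqM : ¬ q ∣ M} {P : ValuationSubring Kb}

theorem s59n_finite_of_toric {x : JZero (M * q)} (hx : s59m_Toric M q p hqM P x) :
    s59n_Finite M q p hqM P x := by
  obtain ⟨Lx, hfd, H⟩ := hx
  refine ⟨Lx, hfd, ?_⟩
  intro L₀ _ _ _ ϖ hϖ hL
  obtain ⟨h, hK, hI, hZ, hI', hZ', hnode, -, -⟩ := H L₀ ϖ hϖ hL
  exact ⟨h, hK, hI, hI', hZ, hZ', hnode⟩

theorem s59n_kerInf_of_toric {x : JZero (M * q)} (hx : s59m_Toric M q p hqM P x) :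
    s59n_KerInf M q p hqM P x := by
  obtain ⟨Lx, hfd, H⟩ := hx
  refine ⟨Lx, hfd, ?_⟩
  intro L₀ _ _ _ ϖ hϖ hL
  obtain ⟨h, hK, hI, hZ, hI', hZ', hnode, hri, -⟩ := H L₀ ϖ hϖ hL
  exact ⟨h, hK, hI, hI', hri⟩

theorem s59n_kerZero_of_toric {x : JZero (M * q)} (hx : s59m_Toric M q p hqM P x) :
    s59n_KerZero M q p hqM P x := by
  obtain ⟨Lx, hfd, H⟩ := hx
  refine ⟨Lx, hfd, ?_⟩
  intro L₀ _ _ _ ϖ hϖ hL
  obtain ⟨h, hK, hI, hZ, hI', hZ', hnode, -, hrz⟩ := H L₀ ϖ hϖ hL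
  exact ⟨h, hK, hZ, hZ', hrz⟩

end Defs

/-! ### Finite + both kernels ⇒ toric -/

section Inst

variable (M q : ℕ) [NeZero M] [hq : Fact q.Prime] (hqM : ¬ q ∣ M) (h5 : 5 ≤ q)
  (p : ℕ) (hp0 : p ≠ 0)
  (P : ValuationSubring Kb) (hP : P.LiesOverPrime q)
  (L₀ : IntermediateField ℚ Kb) [FiniteDimensional ℚ ↥L₀] [Normal ℚ ↥L₀]
  [IsDiscreteValuationRing ↥(s18q_A0 P L₀)] (ϖ : ↥(s18q_A0 P L₀)) (hϖ : Irreducible ϖ)

include h5 hp0 hP in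
set_option maxHeartbeats 3200000 in
/-- the transfer over a fixed finite normal level `L₀`. -/
theorem s59n_toric_of_fin_ker_inst {x : JZero (M * q)} {h u w : s34m_F ↥L₀ (M * q)}
    (hK : s33d_IsKumGen p x (s18q_incl (M * q) L₀ h))
    (hI : h ∈ s34m_Vinf (s37r_G P L₀ ϖ hϖ) (M * q))
    (hZ : h ∈ s34m_Vzero (s37r_G P L₀ ϖ hϖ) (algebraMap ↥L₀ Kb) M q hq.out hqM)
    (hI' : h⁻¹ ∈ s34m_Vinf (s37r_G P L₀ ϖ hϖ) (M * q))
    (hZ' : h⁻¹ ∈ s34m_Vzero (s37r_G P L₀ ϖ hϖ) (algebraMap ↥L₀ Kb) M q hq.out hqM)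
    (hKu : s33d_IsKumGen p x (s18q_incl (M * q) L₀ u))
    (hIu : u ∈ s34m_Vinf (s37r_G P L₀ ϖ hϖ) (M * q))
    (hIu' : u⁻¹ ∈ s34m_Vinf (s37r_G P L₀ ϖ hϖ) (M * q))
    (hKw : s33d_IsKumGen p x (s18q_incl (M * q) L₀ w))
    (hZw : w ∈ s34m_Vzero (s37r_G P L₀ ϖ hϖ) (algebraMap ↥L₀ Kb) M q hq.out hqM)
    (hZw' : w⁻¹ ∈ s34m_Vzero (s37r_G P L₀ ϖ hϖ) (algebraMap ↥L₀ Kb) M q hq.out hqM)
    {ci cz : IsLocalRing.ResidueField ↥(s18q_A0 P L₀)}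
    {ai az : LaurentSeries (IsLocalRing.ResidueField ↥(s18q_A0 P L₀))}
    (hci : ci ≠ 0) (hcz : cz ≠ 0)
    (hai : ai ∈ modularFunctionFieldFullC (IsLocalRing.ResidueField ↥(s18q_A0 P L₀)) M)
    (haz : az ∈ modularFunctionFieldFullC (IsLocalRing.ResidueField ↥(s18q_A0 P L₀)) M)
    (ei : s34m_redInf (s37r_G P L₀ ϖ hϖ) (M * q) ⟨u, hIu⟩ = HahnSeries.C ci * ai ^ p)
    (ez : s34m_redZero (s37r_G P L₀ ϖ hϖ) (algebraMap ↥L₀ Kb) M q hq.out hqM ⟨w, hZw⟩ =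
      HahnSeries.C cz * az ^ p) :
    (∃ (c : IsLocalRing.ResidueField ↥(s18q_A0 P L₀))
      (a₀ : LaurentSeries (IsLocalRing.ResidueField ↥(s18q_A0 P L₀))), c ≠ 0 ∧
      a₀ ∈ modularFunctionFieldFullC (IsLocalRing.ResidueField ↥(s18q_A0 P L₀)) M ∧
      s34m_redInf (s37r_G P L₀ ϖ hϖ) (M * q) ⟨h, hI⟩ = HahnSeries.C c * a₀ ^ p) ∧
    (∃ (c : IsLocalRing.ResidueField ↥(s18q_A0 P L₀))
      (a₀ : LaurentSeries (IsLocalRing.ResidueField ↥(s18q_A0 P L₀))), c ≠ 0 ∧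
      a₀ ∈ modularFunctionFieldFullC (IsLocalRing.ResidueField ↥(s18q_A0 P L₀)) M ∧
      s34m_redZero (s37r_G P L₀ ϖ hϖ) (algebraMap ↥L₀ Kb) M q hq.out hqM ⟨h, hZ⟩ =
        HahnSeries.C c * a₀ ^ p) := by
  classical
  haveI : NeZero q := ⟨hq.out.ne_zero⟩
  haveI : NeZero p := ⟨hp0⟩
  haveI : NumberField ↥L₀ := ⟨⟩
  haveI hchar₀ : CharP (IsLocalRing.ResidueField ↥(s18q_A0 P L₀)) q := s37rl_charP P hP L₀
  haveI hperf₀ : PerfectField (IsLocalRing.ResidueField ↥(s18q_A0 P L₀)) :=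
    s37rl_perfectField P hP L₀
  haveI : PerfectRing (IsLocalRing.ResidueField ↥(s18q_A0 P L₀)) q := PerfectField.toPerfectRing q
  haveI : IsDiscreteValuationRing ↥(s37r_G P L₀ ϖ hϖ).A :=
    (inferInstance : IsDiscreteValuationRing ↥(s18q_A0 P L₀))
  have hT : s18g_HT (IsLocalRing.ResidueField ↥(s18q_A0 P L₀)) M := s18t_indep_j q M hqM _
  have hdegM : s18g_HDeg ↥L₀ M := fun n b hb hn =>
    s18g_exists_relation M (algebraMap ↥L₀ Kb) hn b hb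
  have hdeg : s34m_HDeg ↥L₀ M q := s34r_deg_HDeg (algebraMap ↥L₀ Kb) M q hq.out hqM
  have hπ : Function.Surjective (s37r_G P L₀ ϖ hϖ).π := IsLocalRing.residue_surjective
  have hperf : ∀ c : IsLocalRing.ResidueField ↥(s18q_A0 P L₀), ∃ d, d ^ q = c :=
    fun c => surjective_frobenius _ q c
  obtain ⟨e, ε, he, hε, hεinv, hε0, hqe⟩ := s33t_exists_e P L₀ hq.out hP ϖ hϖ
  have hh0 : h ≠ 0 := (s59n_kum_of_gen_n' (M * q) p L₀ hK).1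
  have hu0 : u ≠ 0 := (s59n_kum_of_gen_n' (M * q) p L₀ hKu).1
  have hw0 : w ≠ 0 := (s59n_kum_of_gen_n' (M * q) p L₀ hKw).1
  obtain ⟨c₁, g₁, -, hg₁, e1⟩ := s59n_kum0_of_same_class_n (M * q) p L₀ hKu hK
  obtain ⟨c₂, g₂, -, hg₂, e2⟩ := s59n_kum0_of_same_class_n (M * q) p L₀ hKw hK
  -- the reductions in the datum's vocabulary
  have ei' : (s33s_datum_five M q hqM h5 ↥L₀ (algebraMap ↥L₀ Kb)
      (IsLocalRing.ResidueField ↥(s18q_A0 P L₀)) (s37r_G P L₀ ϖ hϖ) hdeg hT hdegM hπ e ε he hε hεinv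
      hε0 hqe hperf).Di.red ⟨u, hIu⟩ =
      algebraMap (IsLocalRing.ResidueField ↥(s18q_A0 P L₀))
        ↥(modularFunctionFieldFullC (IsLocalRing.ResidueField ↥(s18q_A0 P L₀)) M) ci *
        (⟨ai, hai⟩ : ↥(modularFunctionFieldFullC (IsLocalRing.ResidueField ↥(s18q_A0 P L₀)) M)) ^ p := by
    apply Subtype.ext
    refine ei.trans ?_
    rw [MulMemClass.coe_mul, SubmonoidClass.coe_pow, ← s59n_C_eq_coe]
  have ez' : (s33s_datum_five M q hqM h5 ↥L₀ (algebraMap ↥L₀ Kb)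
      (IsLocalRing.ResidueField ↥(s18q_A0 P L₀)) (s37r_G P L₀ ϖ hϖ) hdeg hT hdegM hπ e ε he hε hεinv
      hε0 hqe hperf).Dz.red ⟨w, hZw⟩ =
      algebraMap (IsLocalRing.ResidueField ↥(s18q_A0 P L₀))
        ↥(modularFunctionFieldFullC (IsLocalRing.ResidueField ↥(s18q_A0 P L₀)) M) cz *
        (⟨az, haz⟩ : ↥(modularFunctionFieldFullC (IsLocalRing.ResidueField ↥(s18q_A0 P L₀)) M)) ^ p := by
    apply Subtype.ext
    refine ez.trans ?_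
    rw [MulMemClass.coe_mul, SubmonoidClass.coe_pow, ← s59n_C_eq_coe]
  obtain ⟨ci', ai', hci', eri⟩ := s59n_red_transfer
    (s33s_datum_five M q hqM h5 ↥L₀ (algebraMap ↥L₀ Kb)
      (IsLocalRing.ResidueField ↥(s18q_A0 P L₀)) (s37r_G P L₀ ϖ hϖ) hdeg hT hdegM hπ e ε he hε hεinv
      hε0 hqe hperf).Di (h := h) (u := u) hI hI' hh0 hIu hIu' hu0 hg₁ e1 hci ei'
  obtain ⟨cz', az', hcz', erz⟩ := s59n_red_transfer
    (s33s_datum_five M q hqM h5 ↥L₀ (algebraMap ↥L₀ Kb)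
      (IsLocalRing.ResidueField ↥(s18q_A0 P L₀)) (s37r_G P L₀ ϖ hϖ) hdeg hT hdegM hπ e ε he hε hεinv
      hε0 hqe hperf).Dz (h := h) (u := w) hZ hZ' hh0 hZw hZw' hw0 hg₂ e2 hcz ez'
  refine ⟨⟨ci', (ai' : LaurentSeries (IsLocalRing.ResidueField ↥(s18q_A0 P L₀))), hci', ai'.2, ?_⟩,
    ⟨cz', (az' : LaurentSeries (IsLocalRing.ResidueField ↥(s18q_A0 P L₀))), hcz', az'.2, ?_⟩⟩
  · have := congrArg (fun t : ↥(modularFunctionFieldFullC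
        (IsLocalRing.ResidueField ↥(s18q_A0 P L₀)) M) => (t : LaurentSeries (IsLocalRing.ResidueField ↥(s18q_A0 P L₀)))) eri
    refine Eq.trans ?_ (this.trans ?_)
    · rfl
    · show ((_ * _ : ↥(modularFunctionFieldFullC (IsLocalRing.ResidueField ↥(s18q_A0 P L₀)) M)) :
        LaurentSeries (IsLocalRing.ResidueField ↥(s18q_A0 P L₀))) = _
      rw [MulMemClass.coe_mul, SubmonoidClass.coe_pow, ← s59n_C_eq_coe]
  · have := congrArg (fun t : ↥(modularFunctionFieldFullC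
        (IsLocalRing.ResidueField ↥(s18q_A0 P L₀)) M) => (t : LaurentSeries (IsLocalRing.ResidueField ↥(s18q_A0 P L₀)))) erz
    refine Eq.trans ?_ (this.trans ?_)
    · rfl
    · show ((_ * _ : ↥(modularFunctionFieldFullC (IsLocalRing.ResidueField ↥(s18q_A0 P L₀)) M)) :
        LaurentSeries (IsLocalRing.ResidueField ↥(s18q_A0 P L₀))) = _
      rw [MulMemClass.coe_mul, SubmonoidClass.coe_pow, ← s59n_C_eq_coe]

end Inst

section Main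

variable (M q : ℕ) [NeZero M] [hq : Fact q.Prime] (hqM : ¬ q ∣ M) (h5 : 5 ≤ q)
  (p : ℕ) (hp0 : p ≠ 0)
  (P : ValuationSubring Kb) (hP : P.LiesOverPrime q)

include h5 hp0 hP in
/-- **FINITE + BOTH KUMMER KERNELS ⇒ TORIC.** -/
theorem s59n_toric_of_fin_ker {x : JZero (M * q)} (hF : s59n_Finite M q p hqM P x)
    (hKi : s59n_KerInf M q p hqM P x) (hKz : s59n_KerZero M q p hqM P x) :
    s59m_Toric M q p hqM P x := by
  obtain ⟨L1, hfd1, H1⟩ := hF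
  obtain ⟨L2, hfd2, H2⟩ := hKi
  obtain ⟨L3, hfd3, H3⟩ := hKz
  haveI := hfd1
  haveI := hfd2
  haveI := hfd3
  haveI : FiniteDimensional ℚ ↥(L1 ⊔ L2) := IntermediateField.finiteDimensional_sup _ _
  refine ⟨L1 ⊔ L2 ⊔ L3, IntermediateField.finiteDimensional_sup _ _, ?_⟩
  intro L₀ _ _ _ ϖ hϖ hL
  obtain ⟨h, hK, hI, hI', hZ, hZ', hnode⟩ := H1 L₀ ϖ hϖ ((le_sup_left.trans le_sup_left).trans hL)
  obtain ⟨u, hKu, hIu, hIu', ci, ai, hci, hai, ei⟩ :=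
    H2 L₀ ϖ hϖ ((le_sup_right.trans le_sup_left).trans hL)
  obtain ⟨w, hKw, hZw, hZw', cz, az, hcz, haz, ez⟩ := H3 L₀ ϖ hϖ (le_sup_right.trans hL)
  obtain ⟨hri, hrz⟩ := s59n_toric_of_fin_ker_inst M q hqM h5 p hp0 P hP L₀ ϖ hϖ hK hI hZ hI' hZ' hKu
    hIu hIu' hKw hZw hZw' hci hcz hai haz ei ez
  exact ⟨h, hK, hI, hZ, hI', hZ', hnode, hri, hrz⟩

end Main

end Fermat.Agent.Lib.S59
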