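/-
Programme (R) / node [IA′], C7 = (G2) (helper1 #3316/#3327), family N (helper7, prefix `s59n_`):
**(G2), THE PART AT LEVEL `Γ₀(M q)`: NO TORIC PART IN A NON-EISENSTEIN SPACE OF TAYLOR–WILES TYPE.**

Level `M * q` (`q ≥ 5` prime, `q ∤ M`, `M` ARBITRARY), `P ∣ q`, exponent `p ≠ 0` prime to `6 q` (application: `p ≥ 5` prime,
`p ∣ q - 1`).  `W ⊆ J₀(M q)[p]` a subgroup, fixed POINTWISE by the inertia group `I_P` (no `G_ℚ`-stability, no field).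

* `s59n_toric_of_ker_I`   : `W` as above, `T_ℓ₀ - (ℓ₀ + 1)` surjective on `W` for ONE prime `ℓ₀ ∤ M q` (non-Eisenstein), every
  point of `W` in both one-sided Kummer kernels (`s59n_KerInf`, `s59n_KerZero`) ⇒ every point of `W` is TORIC
  ([A]ₙ `s59n_fin_surj_I` + `s59n_toric_of_fin_ker`);
* `s59n_frob_of_ker_I`    : … ⇒ `σ • w = (-q) • w_q w` for every Frobenius element `σ` at `P` ([C]ₙ `s59n_toric_geo_n`);
* `s59n_frob_sq_of_ker_I` : … and `W` stable under `σ` ⇒ `σ • σ • w = q² • w`;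
* **`s59n_G2_down`**      : … and `((σ - α)(σ - β)) ^ N w = 0` with `α² - q²`, `β² - q²` prime to `p` ⇒ `W = 0`.
-/
import Fermat.Agent.Lib.S59.NKer
import Fermat.Agent.Lib.S59.NFinI

set_option autoImplicit false
set_option linter.style.haveILetI false
set_option linter.unusedSectionVars false
set_option synthInstance.maxHeartbeats 400000

noncomputable section

namespace Fermat.Agent.Lib.S59

open ModularCurve HahnSeries AlgebraicCurve Fermat.Agent.Lib.S18 Fermat.Agent.Lib.S28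
  Fermat.Agent.Lib.S29 Fermat.Agent.Lib.S37 Fermat.Agent.Lib.FF Fermat.Agent.Lib.S34
  Fermat.Agent.Lib.S35 Fermat.Agent.Lib.S33 Fermat.Agent.Lib.Frey Fermat.Agent.Lib.S44

local notation "Kb" => AlgebraicClosure ℚ
local notation "Γℚ" => (AlgebraicClosure ℚ ≃ₐ[ℚ] AlgebraicClosure ℚ)

section Main

variable (M q : ℕ) [NeZero M] [hq : Fact q.Prime] (hqM : ¬ q ∣ M) (h5 : 5 ≤ q)
  (p : ℕ) (hp0 : p ≠ 0) (hp6 : p.Coprime 6) (hqp : ¬ q ∣ p)
  (P : ValuationSubring Kb) (hP : P.LiesOverPrime q)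
  (ℓ₀ : Nat.Primes) (hℓ₀ : ¬ (ℓ₀ : ℕ) ∣ M * q)
  (W : AddSubgroup (JZero (M * q))) (hWp : ∀ w ∈ W, p • w = 0)
  (hWI : ∀ w ∈ W, ∀ τ ∈ P.inertiaSubgroupIn ℚ, τ • w = w)
  (hsurj : ∀ w ∈ W, ∃ w' ∈ W,
    heckeOperatorBar (M * q) ℓ₀ w' - (((ℓ₀ : ℕ) + 1 : ℕ) : ℤ) • w' = w)
  (hKi : ∀ w ∈ W, s59n_KerInf M q p hqM P w) (hKz : ∀ w ∈ W, s59n_KerZero M q p hqM P w)

include h5 hp0 hp6 hP hℓ₀ hWp hWI hsurj hKi hKz in
/-- every point of `W` is toric. -/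
theorem s59n_toric_of_ker_I : ∀ w ∈ W, s59m_Toric M q p hqM P w := by
  intro w hw
  have hF := s59n_fin_surj_I M q hqM h5 p hp0 hp6 P hP ℓ₀ hℓ₀ (W : Set (JZero (M * q))) hWp hWI
    hsurj w hw
  exact s59n_toric_of_fin_ker M q hqM h5 p hp0 P hP hF (hKi w hw) (hKz w hw)

include h5 hp0 hp6 hqp hP hℓ₀ hWp hWI hsurj hKi hKz in
/-- every Frobenius element at `P` acts as `- q · w_q` on `W`. -/
theorem s59n_frob_of_ker_I {σ : Γℚ} (hσ : P.IsFrobeniusAt σ q) :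
    haveI : NeZero q := ⟨hq.out.ne_zero⟩
    ∀ w ∈ W, σ • w = (-(q : ℤ)) • s59m_wq M q hq.out hqM w := by
  intro w hw
  exact s59n_toric_geo_n M q hqM h5 p hp0 hqp P hP
    (s59n_toric_of_ker_I M q hqM h5 p hp0 hp6 P hP ℓ₀ hℓ₀ W hWp hWI hsurj hKi hKz w hw) hσ

include h5 hp0 hp6 hqp hP hℓ₀ hWp hWI hsurj hKi hKz in
/-- on a `σ`-stable `W` the square of a Frobenius element is `q²`. -/
theorem s59n_frob_sq_of_ker_I {σ : Γℚ} (hσ : P.IsFrobeniusAt σ q) (hWσ : ∀ w ∈ W, σ • w ∈ W) :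
    ∀ w ∈ W, σ • σ • w = ((q : ℤ) ^ 2) • w := by
  haveI : NeZero q := ⟨hq.out.ne_zero⟩
  intro w hw
  have h1 := s59n_frob_of_ker_I M q hqM h5 p hp0 hp6 hqp P hP ℓ₀ hℓ₀ W hWp hWI hsurj hKi hKz hσ
  rw [h1 (σ • w) (hWσ w hw), h1 w hw, map_zsmul, s59m_wq_wq, ← mul_smul]
  congr 1
  ring

include h5 hp0 hp6 hqp hP hℓ₀ hWp hWI hsurj hKi hKz in
/-- **(G2) at level `Γ₀(M q)`**: a `σ`-stable `W` on which `(σ - α)(σ - β)` is nilpotent, `α² ≢ q²`, `β² ≢ q²`, is zero. -/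
theorem s59n_G2_down {σ : Γℚ} (hσ : P.IsFrobeniusAt σ q) (hWσ : ∀ w ∈ W, σ • w ∈ W)
    (α β : ℤ) (hα : IsCoprime (α ^ 2 - (q : ℤ) ^ 2) (p : ℤ))
    (hβ : IsCoprime (β ^ 2 - (q : ℤ) ^ 2) (p : ℤ))
    (hnil : ∀ w ∈ W, ∃ N : ℕ,
      (fun z : JZero (M * q) => σ • σ • z - (α + β) • σ • z + (α * β) • z)^[N] w = 0) :
    ∀ w ∈ W, w = 0 := by
  haveI : NeZero q := ⟨hq.out.ne_zero⟩
  have hsq := s59n_frob_sq_of_ker_I M q hqM h5 p hp0 hp6 hqp P hP ℓ₀ hℓ₀ W hWp hWI hsurj hKi hKz hσ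
    hWσ
  have hcomm : ∀ (n : ℤ) (z : JZero (M * q)), σ • (n • z) = n • (σ • z) := fun n z =>
    map_zsmul (DistribSMul.toAddMonoidHom (JZero (M * q)) σ) n z
  -- `σ - γ` is injective on `W` for `γ² ≢ q²`
  have hinj : ∀ γ : ℤ, IsCoprime (γ ^ 2 - (q : ℤ) ^ 2) (p : ℤ) → ∀ w ∈ W,
      σ • w - γ • w = 0 → w = 0 := by
    intro γ hγ w hw h0
    have h1 : σ • w = γ • w := sub_eq_zero.mp h0
    have h2 : σ • σ • w = (γ ^ 2) • w := by
      rw [h1, hcomm, h1, ← mul_zsmul]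
      congr 1
      ring
    rw [hsq w hw] at h2
    have h3 : (γ ^ 2 - (q : ℤ) ^ 2) • w = 0 := by
      rw [sub_smul, h2, sub_self]
    obtain ⟨u, v, huv⟩ := hγ
    have h4 : ((p : ℤ)) • w = 0 := by rw [natCast_zsmul]; exact hWp w hw
    calc w = (1 : ℤ) • w := (one_smul ℤ w).symm
      _ = (u * (γ ^ 2 - (q : ℤ) ^ 2) + v * (p : ℤ)) • w := by rw [huv]
      _ = u • ((γ ^ 2 - (q : ℤ) ^ 2) • w) + v • ((p : ℤ) • w) := by
          rw [add_zsmul, mul_zsmul, mul_zsmul]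
      _ = 0 := by rw [h3, h4, smul_zero, smul_zero, add_zero]
  -- the quadratic operator is injective on `W` and preserves `W`
  have hfact : ∀ z : JZero (M * q), σ • σ • z - (α + β) • σ • z + (α * β) • z =
      σ • (σ • z - β • z) - α • (σ • z - β • z) := by
    intro z
    rw [smul_sub, zsmul_sub, hcomm β z, add_zsmul, mul_zsmul]
    abel
  have hstab : ∀ w ∈ W, σ • σ • w - (α + β) • σ • w + (α * β) • w ∈ W := by
    intro w hw
    exact W.add_mem (W.sub_mem (hWσ _ (hWσ w hw)) (W.zsmul_mem (hWσ w hw) _)) (W.zsmul_mem hw _)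
  have hinj2 : ∀ w ∈ W, σ • σ • w - (α + β) • σ • w + (α * β) • w = 0 → w = 0 := by
    intro w hw h0
    rw [hfact] at h0
    have hy : σ • w - β • w ∈ W := W.sub_mem (hWσ w hw) (W.zsmul_mem hw _)
    exact hinj β hβ w hw (hinj α hα _ hy h0)
  intro w hw
  obtain ⟨N, hN⟩ := hnil w hw
  induction N generalizing w with
  | zero => exact hN
  | succ N ih =>
    rw [Function.iterate_succ_apply] at hN
    exact hinj2 w hw (ih _ (hstab w hw) hN)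

end Main

end Fermat.Agent.Lib.S59
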