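/-
Programme (R) / node [IA′], C7 = (G2), family N (helper7, prefix `s59n_`): **(G2) at level `Γ₀(M q)`, FINITE-PART FORM.**

The same as `NG2.s59n_G2_down`, with the hypothesis "`I_P`-fixed + `T_ℓ₀ - (ℓ₀ + 1)` onto `W`" replaced by its only consequence
"every point of `W` is finite" (`s59n_Finite`).  This is the form used at the top of the tower, where the subgroup `W` (cut out by
the two Kummer kernels) is not known to be stable under `T_ℓ₀`, so that the preimages under `T_ℓ₀ - (ℓ₀ + 1)` are only known to lie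
in the bigger subgroup of `I_P`-fixed generalised eigenvectors (`NFinI.s59n_fin_elt_I` is applied to those).

* `s59n_frob_of_ker_fin`, `s59n_frob_sq_of_ker_fin`, **`s59n_G2_down_fin`**.
-/
import Fermat.Agent.Lib.S59.NG2

set_option autoImplicit false
set_option linter.style.haveILetI false
set_option linter.unusedSectionVars false
set_option synthInstance.maxHeartbeats 400000

noncomputable section

namespace Fermat.Agent.Lib.S59

open ModularCurve HahnSeries AlgebraicCurve Fermat.Agent.Lib.S18 Fermat.Agent.Lib.S28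
  Fermat.Agent.Lib.S29 Fermat.Agent.Lib.S37 Fermat.Agent.Lib.FF Fermat.Agent.Lib.S34
  Fermat.Agent.Lib.S35 Fermat.Agent.Lib.S33 Fermat.Agent.Lib.Frey Fermat.Agent.Lib.S44

local notation "Kb" => AlgebraicClosure ℚ
local notation "Γℚ" => (AlgebraicClosure ℚ ≃ₐ[ℚ] AlgebraicClosure ℚ)

section MainFin

variable (M q : ℕ) [NeZero M] [hq : Fact q.Prime] (hqM : ¬ q ∣ M) (h5 : 5 ≤ q)
  (p : ℕ) (hp0 : p ≠ 0) (hqp : ¬ q ∣ p)
  (P : ValuationSubring Kb) (hP : P.LiesOverPrime q)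
  (W : AddSubgroup (JZero (M * q))) (hWp : ∀ w ∈ W, p • w = 0)
  (hfin : ∀ w ∈ W, s59n_Finite M q p hqM P w)
  (hKi : ∀ w ∈ W, s59n_KerInf M q p hqM P w) (hKz : ∀ w ∈ W, s59n_KerZero M q p hqM P w)

include h5 hp0 hqp hP hfin hKi hKz in
/-- every Frobenius element at `P` acts as `- q · w_q` on `W`. -/
theorem s59n_frob_of_ker_fin {σ : Γℚ} (hσ : P.IsFrobeniusAt σ q) :
    haveI : NeZero q := ⟨hq.out.ne_zero⟩
    ∀ w ∈ W, σ • w = (-(q : ℤ)) • s59m_wq M q hq.out hqM w := by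
  intro w hw
  exact s59n_toric_geo_n M q hqM h5 p hp0 hqp P hP
    (s59n_toric_of_fin_ker M q hqM h5 p hp0 P hP (hfin w hw) (hKi w hw) (hKz w hw)) hσ

include h5 hp0 hqp hP hfin hKi hKz in
/-- on a `σ`-stable `W` the square of a Frobenius element is `q²`. -/
theorem s59n_frob_sq_of_ker_fin {σ : Γℚ} (hσ : P.IsFrobeniusAt σ q) (hWσ : ∀ w ∈ W, σ • w ∈ W) :
    ∀ w ∈ W, σ • σ • w = ((q : ℤ) ^ 2) • w := by
  haveI : NeZero q := ⟨hq.out.ne_zero⟩
  intro w hw
  have h1 := s59n_frob_of_ker_fin M q hqM h5 p hp0 hqp P hP W hfin hKi hKz hσ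
  rw [h1 (σ • w) (hWσ w hw), h1 w hw, map_zsmul, s59m_wq_wq, ← mul_smul]
  congr 1
  ring

include h5 hp0 hqp hP hWp hfin hKi hKz in
/-- **(G2) at level `Γ₀(M q)`, finite-part form**, for the quadratic operator `σ² - t σ + d` (no roots needed):
`((q² + d)² - t² q²)` prime to `p` (`= (q² - α²)(q² - β²)` when `X² - t X + d = (X - α)(X - β)`). -/
theorem s59n_G2_down_fin {σ : Γℚ} (hσ : P.IsFrobeniusAt σ q) (hWσ : ∀ w ∈ W, σ • w ∈ W)
    (tr dt : ℤ) (hcop : IsCoprime (((q : ℤ) ^ 2 + dt) ^ 2 - tr ^ 2 * (q : ℤ) ^ 2) (p : ℤ))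
    (hnil : ∀ w ∈ W, ∃ N : ℕ,
      (fun z : JZero (M * q) => σ • σ • z - tr • σ • z + dt • z)^[N] w = 0) :
    ∀ w ∈ W, w = 0 := by
  haveI : NeZero q := ⟨hq.out.ne_zero⟩
  have hsq := s59n_frob_sq_of_ker_fin M q hqM h5 p hp0 hqp P hP W hfin hKi hKz hσ hWσ
  have hcomm : ∀ (n : ℤ) (z : JZero (M * q)), σ • (n • z) = n • (σ • z) := fun n z =>
    map_zsmul (DistribSMul.toAddMonoidHom (JZero (M * q)) σ) n z
  have hstab : ∀ w ∈ W, σ • σ • w - tr • σ • w + dt • w ∈ W := by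
    intro w hw
    exact W.add_mem (W.sub_mem (hWσ _ (hWσ w hw)) (W.zsmul_mem (hWσ w hw) _)) (W.zsmul_mem hw _)
  have hinj2 : ∀ w ∈ W, σ • σ • w - tr • σ • w + dt • w = 0 → w = 0 := by
    intro w hw h0
    rw [hsq w hw] at h0
    -- `t σ w = (q² + d) w`
    have e1 : tr • σ • w = ((q : ℤ) ^ 2 + dt) • w := by
      rw [sub_add_eq_add_sub, sub_eq_zero] at h0
      rw [add_zsmul]
      exact h0.symm
    -- apply `σ`
    have e2 : tr • (((q : ℤ) ^ 2) • w) = ((q : ℤ) ^ 2 + dt) • σ • w := by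
      have := congrArg (fun z => σ • z) e1
      simp only [hcomm] at this
      rw [hsq w hw] at this
      exact this
    have h3 : (((q : ℤ) ^ 2 + dt) ^ 2 - tr ^ 2 * (q : ℤ) ^ 2) • w = 0 := by
      have a1 : (((q : ℤ) ^ 2 + dt) ^ 2) • w = ((q : ℤ) ^ 2 + dt) • (tr • σ • w) := by
        rw [e1, ← mul_zsmul', pow_two]
      have a2 : (tr ^ 2 * (q : ℤ) ^ 2) • w = tr • (((q : ℤ) ^ 2 + dt) • σ • w) := by
        rw [← e2, ← mul_smul, ← mul_smul]
        congr 1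
        ring
      rw [sub_smul, a1, a2, smul_comm, sub_self]
    obtain ⟨u, v, huv⟩ := hcop
    have h4 : ((p : ℤ)) • w = 0 := by rw [natCast_zsmul]; exact hWp w hw
    calc w = (1 : ℤ) • w := (one_smul ℤ w).symm
      _ = (u * (((q : ℤ) ^ 2 + dt) ^ 2 - tr ^ 2 * (q : ℤ) ^ 2) + v * (p : ℤ)) • w := by rw [huv]
      _ = u • ((((q : ℤ) ^ 2 + dt) ^ 2 - tr ^ 2 * (q : ℤ) ^ 2) • w) + v • ((p : ℤ) • w) := by
          rw [add_zsmul, mul_zsmul, mul_zsmul]
      _ = 0 := by rw [h3, h4, smul_zero, smul_zero, add_zero]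
  intro w hw
  obtain ⟨N, hN⟩ := hnil w hw
  induction N generalizing w with
  | zero => exact hN
  | succ N ih =>
    rw [Function.iterate_succ_apply] at hN
    exact hinj2 w hw (ih _ (hstab w hw) hN)

end MainFin

end Fermat.Agent.Lib.S59
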