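/-
Programme (R) / node [IA′], C7 = (G2), the descent `Γ_H → Γ₀`, family N (helper7, prefix `s59n_`):
**RESIDUE DESCENT [N3]: THE OPERATOR `φ - q` KILLS THE KUMMER KERNEL OF A RESIDUE EXTENSION.**  Mathlib only.

`B / A` with a finite group `G` acting on `B`, `B ^ G = A` (`Algebra.IsInvariant A B G`); `Q ∣ P` maximal ideals (application:
`A` = valuation ring of `V ∈ {V_∞, V_0}` in the function field of `X₀(M)` over a number field, `B` = its integral closure in the
function field of `X_H`, `G = Δ` a `p`-group, residue characteristic `q ≠ p`).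

* `s59n_exists_crt`     : CRT for the conjugates of a maximal ideal;
* `s59n_fixed_residue`  : `(B ⧸ Q) ^ {D_Q} = A ⧸ P` when `|D_Q|` is invertible modulo `P` (trace argument);
* **`s59n_res_descent`** : `φ` a ring automorphism of `B` commuting with `G`, `φ Q = Q`, `φ ω ≡ ω ^ q` on `p`-th roots of unity
  modulo `Q` (a Frobenius, `q ≡ 1 mod p` or not).  If `f, c ∈ A`, `f ≡ c · b ^ p mod Q` with `b ∈ B ∖ Q`, `c ∉ P`
  (`f` becomes "constant times a `p`-th power" in the residue field UPSTAIRS) then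
  `φ f · c ^ q ≡ φ c · f ^ q · a ^ p mod P` with `a ∈ A ∖ P`: `φ(f) / f ^ q` is "constant times a `p`-th power" DOWNSTAIRS.
  No information on the residue extension `(B ⧸ Q) / (A ⧸ P)` is needed.
-/
import Mathlib

set_option autoImplicit false
set_option linter.style.haveILetI false
set_option linter.unusedSectionVars false

namespace Fermat.Agent.Lib.S59

open scoped Pointwise

section

variable {A B : Type*} [CommRing A] [CommRing B] [Algebra A B]
  (G : Type*) [Group G] [Finite G] [MulSemiringAction G B] [SMulCommClass G A B]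

omit [Finite G] in
theorem s59n_smul_algebraMap (g : G) (a : A) : g • algebraMap A B a = algebraMap A B a := by
  rw [Algebra.algebraMap_eq_smul_one, smul_comm, smul_one]

omit [Algebra A B] [SMulCommClass G A B] in
/-- a conjugate of an ideal contained in it equals it. -/
theorem s59n_smul_le_imp_eq (Q : Ideal B) (g : G) (h : g • Q ≤ Q) : g • Q = Q := by
  classical
  apply le_antisymm h
  have hchain : ∀ n : ℕ, g ^ (n + 1) • Q ≤ g • Q := by
    intro n
    induction n with
    | zero => rw [zero_add, pow_one]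
    | succ n ih =>
      rw [pow_succ', mul_smul]
      calc g • g ^ (n + 1) • Q ≤ g • g • Q := Ideal.pointwise_smul_le_pointwise_smul_iff.mpr ih
        _ ≤ g • Q := Ideal.pointwise_smul_le_pointwise_smul_iff.mpr h
  have hfin : IsOfFinOrder g := isOfFinOrder_of_finite g
  obtain ⟨n, hn, hgn⟩ := hfin.exists_pow_eq_one
  have := hchain (n - 1)
  rwa [Nat.sub_add_cancel hn, hgn, one_smul] at this

omit [Algebra A B] [SMulCommClass G A B] in
/-- **CRT for the conjugates of a maximal ideal**: `y ≡ x mod Q`, `y ∈ g • Q` for every conjugate `g • Q ≠ Q`. -/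
theorem s59n_exists_crt (Q : Ideal B) [hQ : Q.IsMaximal] (x : B) :
    ∃ y : B, y - x ∈ Q ∧ ∀ g : G, g • Q ≠ Q → y ∈ g • Q := by
  classical
  haveI : Fintype G := Fintype.ofFinite G
  set S : Finset (Ideal B) := (Finset.univ.image (fun g : G => g • Q)).erase Q with hS
  have hnot : ¬ S.inf id ≤ Q := by
    intro hle
    obtain ⟨Q', hQ'S, hQ'Q⟩ := (Ideal.IsPrime.inf_le' hQ.isPrime).mp hle
    rw [hS, Finset.mem_erase, Finset.mem_image] at hQ'S
    obtain ⟨hne, g, -, rfl⟩ := hQ'S
    exact hne (s59n_smul_le_imp_eq G Q g hQ'Q)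
  have htop : Q ⊔ S.inf id = ⊤ := by
    by_contra hne
    have hle : Q ≤ Q ⊔ S.inf id := le_sup_left
    have := hQ.eq_of_le hne hle
    exact hnot (this ▸ le_sup_right)
  have h1 : (1 : B) ∈ Q ⊔ S.inf id := htop ▸ Submodule.mem_top
  obtain ⟨s, hs, i, hi, hsi⟩ := Submodule.mem_sup.mp h1
  refine ⟨x * i, ?_, fun g hg => ?_⟩
  · have : x * i - x = -(x * s) := by
      have : i = 1 - s := by rw [← hsi]; ring
      rw [this]; ring
    rw [this]
    exact Q.neg_mem (Q.mul_mem_left x hs)
  · have hmem : g • Q ∈ S := by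
      rw [hS, Finset.mem_erase, Finset.mem_image]
      exact ⟨hg, g, Finset.mem_univ g, rfl⟩
    have hile : S.inf id ≤ g • Q := Finset.inf_le (f := id) hmem
    exact (g • Q).mul_mem_left x (hile hi)

variable [Algebra.IsInvariant A B G]

/-- **the fixed points of the decomposition group in the residue field**: an element of `B` fixed modulo `Q` by the stabiliser of
`Q` is congruent modulo `Q` to an element of `A`, if the order of the stabiliser is invertible modulo `P`. -/
theorem s59n_fixed_residue (P : Ideal A) (Q : Ideal B) [hQ : Q.IsMaximal] [hQP : Q.LiesOver P]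
    (hD : ∃ u : A, u * (Nat.card (MulAction.stabilizer G Q) : A) - 1 ∈ P)
    (x : B) (hx : ∀ g : G, g • Q = Q → g • x - x ∈ Q) : ∃ a : A, algebraMap A B a - x ∈ Q := by
  classical
  haveI : Fintype G := Fintype.ofFinite G
  obtain ⟨y, hyx, hy⟩ := s59n_exists_crt G Q x
  -- the trace
  have hinv : ∀ h : G, h • (∑ g : G, g • y) = ∑ g : G, g • y := by
    intro h
    rw [Finset.smul_sum]
    simp_rw [← mul_smul]
    exact Fintype.sum_bijective (fun g => h * g) (Group.mulLeft_bijective h) _ _ (fun _ => rfl)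
  obtain ⟨a₀, ha₀⟩ := Algebra.IsInvariant.isInvariant (A := A) (G := G) _ hinv
  -- the trace modulo `Q`
  have hterm : ∀ g : G, g • y - (if g • Q = Q then x else 0) ∈ Q := by
    intro g
    by_cases hg : g • Q = Q
    · rw [if_pos hg]
      have h1 : g • y - g • x ∈ Q := by
        rw [← smul_sub]
        have : g • (y - x) ∈ g • Q := Ideal.smul_mem_pointwise_smul g _ Q hyx
        rwa [hg] at this
      have h2 := hx g hg
      have : g • y - x = (g • y - g • x) + (g • x - x) := by ring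
      rw [this]
      exact Q.add_mem h1 h2
    · rw [if_neg hg, sub_zero]
      have hg' : g⁻¹ • Q ≠ Q := by
        intro h
        apply hg
        calc g • Q = g • (g⁻¹ • Q) := by rw [h]
          _ = Q := smul_inv_smul g Q
      have := hy g⁻¹ hg'
      rwa [Ideal.mem_inv_pointwise_smul_iff] at this
  have hsum : (∑ g : G, g • y) - (∑ g : G, if g • Q = Q then x else 0) ∈ Q := by
    rw [← Finset.sum_sub_distrib]
    exact Q.sum_mem fun g _ => hterm g
  have hcount : (∑ g : G, if g • Q = Q then x else 0) =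
      (Nat.card (MulAction.stabilizer G Q) : B) * x := by
    rw [← Finset.sum_filter, Finset.sum_const, nsmul_eq_mul]
    congr 2
    rw [Nat.card_eq_fintype_card, Fintype.card_subtype]
    congr 1
  rw [hcount, ← ha₀] at hsum
  obtain ⟨u, hu⟩ := hD
  refine ⟨u * a₀, ?_⟩
  have hPQ : ∀ a : A, a ∈ P → algebraMap A B a ∈ Q := by
    intro a ha
    have := hQP.over
    rw [this] at ha
    exact ha
  have hu' := hPQ _ hu
  rw [map_sub, map_mul, map_natCast, map_one] at hu'
  have : algebraMap A B (u * a₀) - x = algebraMap A B u *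
      (algebraMap A B a₀ - (Nat.card (MulAction.stabilizer G Q) : B) * x) +
      (algebraMap A B u * (Nat.card (MulAction.stabilizer G Q) : B) - 1) * x := by
    rw [map_mul]; ring
  rw [this]
  exact Q.add_mem (Q.mul_mem_left _ hsum) (Q.mul_mem_right _ hu')

/-- **RESIDUE DESCENT [N3].**  `A = B ^ G`, `Q ∣ P` maximal ideals, the order of the stabiliser of `Q` invertible modulo `P`;
`φ` a ring automorphism of `B` commuting with `G`, preserving `Q`, acting on the `p`-th roots of unity of `B ⧸ Q` as `ω ↦ ω ^ q`.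
If `f ≡ c · b ^ p mod Q` with `f, c ∈ A`, `c ∉ P`, `b ∉ Q`, then `φ f · c ^ q ≡ φ c · f ^ q · a ^ p mod P` for some `a ∈ A ∖ P`:
the class of `φ(f) / f ^ q` in `(A ⧸ P)ˣ` modulo `p`-th powers and the "constant" `φ(c) / c ^ q` is trivial. -/
theorem s59n_res_descent (P : Ideal A) (Q : Ideal B) [hQ : Q.IsMaximal] [hQP : Q.LiesOver P]
    (hD : ∃ u : A, u * (Nat.card (MulAction.stabilizer G Q) : A) - 1 ∈ P)
    (φ : B ≃+* B) (hφG : ∀ (g : G) (y : B), φ (g • y) = g • φ y) (hφQ : ∀ y : B, φ y ∈ Q ↔ y ∈ Q)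
    (p q : ℕ) (hroot : ∀ ω : B, ω ^ p - 1 ∈ Q → φ ω - ω ^ q ∈ Q)
    (f c φf φc : A) (hφf : φ (algebraMap A B f) = algebraMap A B φf)
    (hφc : φ (algebraMap A B c) = algebraMap A B φc) (hc : c ∉ P)
    (b : B) (hb : b ∉ Q) (hf : algebraMap A B f - algebraMap A B c * b ^ p ∈ Q) :
    ∃ a : A, a ∉ P ∧ φf * c ^ q - φc * f ^ q * a ^ p ∈ P := by
  classical
  letI := Ideal.Quotient.field Q
  have hPQ : ∀ a : A, algebraMap A B a ∈ Q ↔ a ∈ P := by
    intro a
    have := hQP.over
    rw [this]
    exact Iff.rfl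
  set mk : B →+* B ⧸ Q := Ideal.Quotient.mk Q with hmk
  have hmk0 : ∀ y : B, mk y = 0 ↔ y ∈ Q := fun y => Ideal.Quotient.eq_zero_iff_mem
  have hmkeq : ∀ y y' : B, mk y = mk y' ↔ y - y' ∈ Q := fun y y' => Ideal.Quotient.eq
  -- `φ` and the stabiliser act on the residue field
  have hφmk : ∀ y y' : B, mk y = mk y' → mk (φ y) = mk (φ y') := by
    intro y y' h
    rw [hmkeq] at h ⊢
    rw [← map_sub]
    exact (hφQ _).mpr h
  have hgmk : ∀ g : G, g • Q = Q → ∀ y y' : B, mk y = mk y' → mk (g • y) = mk (g • y') := by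
    intro g hg y y' h
    rw [hmkeq] at h ⊢
    rw [← smul_sub]
    have : g • (y - y') ∈ g • Q := Ideal.smul_mem_pointwise_smul g _ Q h
    rwa [hg] at this
  have hb0 : mk b ≠ 0 := fun h => hb ((hmk0 b).mp h)
  have hc0 : mk (algebraMap A B c) ≠ 0 := fun h => hc ((hPQ c).mp ((hmk0 _).mp h))
  have hφb0 : mk (φ b) ≠ 0 := fun h => hb ((hφQ b).mp ((hmk0 _).mp h))
  have hfb : mk (algebraMap A B f) = mk (algebraMap A B c) * mk b ^ p := by
    rw [← map_pow, ← map_mul, hmkeq]; exact hf
  -- an inverse of `b` modulo `Q`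
  obtain ⟨b₁, hb₁⟩ : ∃ b₁ : B, mk b₁ = (mk b)⁻¹ := Ideal.Quotient.mk_surjective _
  have hbb₁ : mk b * mk b₁ = 1 := by rw [hb₁, mul_inv_cancel₀ hb0]
  -- the element `b' = φ(b) / b ^ q`
  set x : B := φ b * b₁ ^ q with hx
  have hmkx : mk x = mk (φ b) * ((mk b)⁻¹) ^ q := by rw [hx, map_mul, map_pow, hb₁]
  have hfix : ∀ g : G, g • Q = Q → g • x - x ∈ Q := by
    intro g hg
    rw [← hmkeq]
    -- `ω = g b / b`
    set ω : B := g • b * b₁ with hω
    have hgb : mk (g • b) = mk ω * mk b := by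
      rw [hω, map_mul, mul_assoc, mul_comm (mk b₁), hbb₁, mul_one]
    have hgb0 : mk (g • b) ≠ 0 := by
      intro h
      apply hb
      have h1 : g • b ∈ Q := (hmk0 _).mp h
      have h2 : g • b ∈ g • Q := by rwa [hg]
      exact Ideal.smul_mem_pointwise_smul_iff.mp h2
    have hω0 : mk ω ≠ 0 := by
      intro h
      rw [h, zero_mul] at hgb
      exact hgb0 hgb
    have hωp : ω ^ p - 1 ∈ Q := by
      have h1 : mk (g • algebraMap A B f) = mk (g • (algebraMap A B c * b ^ p)) :=
        hgmk g hg _ _ (by rw [map_mul, map_pow]; exact hfb)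
      rw [s59n_smul_algebraMap, smul_mul', s59n_smul_algebraMap, smul_pow', map_mul, map_pow,
        hfb] at h1
      have h2 : mk b ^ p = mk (g • b) ^ p := mul_left_cancel₀ hc0 h1
      rw [← hmkeq, map_pow, map_one]
      rw [hgb, mul_pow] at h2
      have h3 : mk b ^ p ≠ 0 := pow_ne_zero _ hb0
      have : (1 : B ⧸ Q) * mk b ^ p = mk ω ^ p * mk b ^ p := by rw [one_mul]; exact h2
      exact (mul_right_cancel₀ h3 this).symm
    have hφω : mk (φ ω) = mk ω ^ q := by
      rw [← map_pow, hmkeq]; exact hroot ω hωp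
    have hgb₁ : mk (g • b₁) = (mk (g • b))⁻¹ := by
      have h1 : mk (g • (b * b₁)) = mk (g • (1 : B)) :=
        hgmk g hg _ _ (by rw [map_mul, hbb₁, map_one])
      rw [smul_mul', smul_one, map_mul, map_one] at h1
      exact eq_inv_of_mul_eq_one_right h1
    have hφgb : mk (φ (g • b)) = mk ω ^ q * mk (φ b) := by
      have : mk (φ (g • b)) = mk (φ (ω * b)) := hφmk _ _ (by rw [map_mul]; exact hgb)
      rw [this, map_mul, map_mul, hφω]
    rw [hmkx, hx, smul_mul', smul_pow', ← hφG, map_mul, map_pow, hgb₁, hφgb, hgb, mul_inv, mul_pow,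
      inv_pow, inv_pow]
    field_simp
  obtain ⟨a, ha⟩ := s59n_fixed_residue G P Q hD x hfix
  have hmka : mk (algebraMap A B a) = mk x := by rw [hmkeq]; exact ha
  have hx0 : mk x ≠ 0 := by
    rw [hmkx]
    exact mul_ne_zero hφb0 (pow_ne_zero _ (inv_ne_zero hb0))
  refine ⟨a, ?_, ?_⟩
  · intro haP
    apply hx0
    rw [← hmka, hmk0, hPQ]
    exact haP
  · rw [← hPQ, ← hmk0]
    have hφfb : mk (algebraMap A B φf) = mk (algebraMap A B φc) * mk (φ b) ^ p := by
      rw [← hφf, ← hφc]
      have : mk (φ (algebraMap A B f)) = mk (φ (algebraMap A B c * b ^ p)) :=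
        hφmk _ _ (by rw [map_mul, map_pow]; exact hfb)
      rw [this, map_mul, map_pow, map_mul, map_pow]
    simp only [map_sub, map_mul, map_pow]
    rw [hφfb, hfb, hmka, hmkx]
    have hcancel : (mk b ^ p) ^ q * ((mk b)⁻¹ ^ q) ^ p = 1 := by
      rw [← pow_mul, ← pow_mul, mul_comm q p, ← mul_pow, mul_inv_cancel₀ hb0, one_pow]
    have : (mk (algebraMap A B c) * mk b ^ p) ^ q * (mk (φ b) * (mk b)⁻¹ ^ q) ^ p =
        mk (algebraMap A B c) ^ q * mk (φ b) ^ p * ((mk b ^ p) ^ q * ((mk b)⁻¹ ^ q) ^ p) := by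
      rw [mul_pow, mul_pow]; ring
    rw [mul_assoc (mk (algebraMap A B φc)) ((mk (algebraMap A B c) * mk b ^ p) ^ q), this, hcancel,
      mul_one]
    ring

end

end Fermat.Agent.Lib.S59
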