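/-
Programme (R) / node [IA′], C7 = (G2), the descent `Γ_H → Γ₀`, family N (helper7, prefix `s59n_`):
**RESIDUE DESCENT [N3] FOR VALUATION SUBRINGS.**  Mathlib + `NResDesc`.

`F / F₀` fields, `G` a finite group of automorphisms of `F` with `F ^ G = F₀` (`Algebra.IsInvariant F₀ F G`), `W` a valuation
subring of `F` (NOT assumed discrete).  `B := ⋂_g g W` (`s59n_interRing`), `A := W ∩ F₀` (`W.comap (algebraMap F₀ F)`),
`Q := 𝔪_W ∩ B` (`s59n_interIdeal`).

* `s59n_exists_denominator` : `x ∈ W` algebraic over `F₀` ⇒ there is a unit `s` of `W` with `s, s x` in EVERY valuation subring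
  of `F` containing `W ∩ F₀` (the classical polynomial trick; no integrality needed);
* `s59n_interIdeal_isMaximal`, `s59n_interIdeal_liesOver` : `Q` is maximal over `𝔪_A`;
* `s59n_inter_approx` : `B → W / 𝔪_W` is onto (`W` is the localisation of `B` at `Q`);
* **`s59n_val_descent`** : `Φ` an automorphism of `F` over `Φ₀` of `F₀`, commuting with `G`, `Φ W = W`, `Φ ω ≡ ω ^ q` on the
  `p`-th roots of unity of `W / 𝔪_W`, every divisor of `|G|` a unit of `W`.  If `f, c ∈ F₀`, `b ∈ F` are units of `W` and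
  `f ≡ c b ^ p mod 𝔪_W` then `Φ₀ f · c ^ q ≡ Φ₀ c · f ^ q · a ^ p mod 𝔪_W` with `a ∈ F₀` a unit of `W`.
-/
import Mathlib
import Fermat.Agent.Lib.S59.NResDesc

set_option autoImplicit false
set_option linter.style.haveILetI false
set_option linter.unusedSectionVars false

namespace Fermat.Agent.Lib.S59

open scoped Pointwise

section LemmaA

variable {F₀ F : Type*} [Field F₀] [Field F] [Algebra F₀ F]

/-- **denominators in the intersection of the conjugates.**  `x ∈ W` algebraic over `F₀`: there is `s`, a unit of `W`,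
such that `s` and `s x` lie in every valuation subring of `F` containing the image of `W ∩ F₀`. -/
theorem s59n_exists_denominator (W : ValuationSubring F) (x : F) (hx : x ∈ W)
    (halg : IsAlgebraic F₀ x) :
    ∃ s : F, W.valuation s = 1 ∧ ∀ W' : ValuationSubring F,
      (∀ a : F₀, algebraMap F₀ F a ∈ W → algebraMap F₀ F a ∈ W') → s ∈ W' ∧ s * x ∈ W' := by
  classical
  obtain ⟨P, hP0, hPx⟩ := halg
  set n := P.natDegree with hn
  -- the coefficient of maximal valuation
  have hsupp : P.support.Nonempty := Polynomial.support_nonempty.mpr hP0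
  obtain ⟨i₀, hi₀, hmax⟩ := Finset.exists_max_image P.support
    (fun i => W.valuation (algebraMap F₀ F (P.coeff i))) hsupp
  have ha0 : P.coeff i₀ ≠ 0 := Polynomial.mem_support_iff.mp hi₀
  have hi₀n : i₀ ≤ n := Polynomial.le_natDegree_of_ne_zero ha0
  have hv0 : W.valuation (algebraMap F₀ F (P.coeff i₀)) ≠ 0 :=
    (Valuation.ne_zero_iff _).mpr ((map_ne_zero _).mpr ha0)
  -- normalised coefficients
  set c : ℕ → F := fun i => algebraMap F₀ F (P.coeff i / P.coeff i₀) with hc
  have hcle : ∀ i, W.valuation (c i) ≤ 1 := by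
    intro i
    rw [hc]
    simp only [map_div₀]
    by_cases hi : i ∈ P.support
    · exact div_le_one_of_le₀ (hmax i hi) zero_le
    · rw [Polynomial.notMem_support_iff.mp hi, map_zero, map_zero, zero_div]
      exact zero_le
  have hcW : ∀ i, c i ∈ W := fun i => (W.valuation_le_one_iff _).mp (hcle i)
  have hci₀ : c i₀ = 1 := by rw [hc]; simp only; rw [div_self ha0, map_one]
  have hsum : ∑ i ∈ Finset.range (n + 1), c i * x ^ i = 0 := by
    have h1 : Polynomial.aeval x P = ∑ i ∈ Finset.range (n + 1), algebraMap F₀ F (P.coeff i) * x ^ i := by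
      rw [Polynomial.aeval_eq_sum_range]
      simp only [Algebra.smul_def]
      rfl
    have h2 : ∑ i ∈ Finset.range (n + 1), c i * x ^ i =
        (algebraMap F₀ F (P.coeff i₀))⁻¹ *
          ∑ i ∈ Finset.range (n + 1), algebraMap F₀ F (P.coeff i) * x ^ i := by
      rw [Finset.mul_sum]
      refine Finset.sum_congr rfl fun i _ => ?_
      rw [hc]
      simp only [map_div₀]
      ring
    rw [h2, ← h1, hPx, mul_zero]
  -- the largest index with a unit coefficient
  set S : Finset ℕ := (Finset.range (n + 1)).filter (fun i => W.valuation (c i) = 1) with hS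
  have hSne : S.Nonempty := ⟨i₀, by
    rw [hS, Finset.mem_filter, Finset.mem_range]
    exact ⟨Nat.lt_succ_of_le hi₀n, by rw [hci₀, map_one]⟩⟩
  set r := S.max' hSne with hr
  have hrS : r ∈ S := Finset.max'_mem S hSne
  have hrn : r ≤ n := by
    have := (Finset.mem_filter.mp hrS).1
    exact Nat.lt_succ_iff.mp (Finset.mem_range.mp this)
  have hcr : W.valuation (c r) = 1 := (Finset.mem_filter.mp hrS).2
  have hlt : ∀ i, r < i → i ≤ n → W.valuation (c i) < 1 := by
    intro i hri hin
    rcases lt_or_eq_of_le (hcle i) with h | h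
    · exact h
    · exfalso
      have : i ∈ S := by
        rw [hS, Finset.mem_filter, Finset.mem_range]
        exact ⟨Nat.lt_succ_of_le hin, h⟩
      exact absurd (Finset.le_max' S i this) (not_le.mpr hri)
  -- the two halves
  set s : F := ∑ j ∈ Finset.range (n - r + 1), c (r + j) * x ^ j with hs
  set t : F := ∑ i ∈ Finset.range r, c i * x ^ i with ht
  have hts : t + x ^ r * s = 0 := by
    have hsplit : n + 1 = r + (n - r + 1) := by omega
    rw [hsplit, Finset.sum_range_add] at hsum
    rw [← hsum, ht, hs, Finset.mul_sum]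
    congr 1
    refine Finset.sum_congr rfl fun j _ => ?_
    rw [pow_add]
    ring
  refine ⟨s, ?_, ?_⟩
  · -- `s ≡ c r`
    have hsplit : s = c r + ∑ j ∈ Finset.range (n - r), c (r + (j + 1)) * x ^ (j + 1) := by
      rw [hs, Finset.sum_range_succ' ]
      simp only [Nat.add_zero, pow_zero, mul_one]
      rw [add_comm]
    have hsmall : W.valuation (∑ j ∈ Finset.range (n - r), c (r + (j + 1)) * x ^ (j + 1)) < 1 := by
      refine Valuation.map_sum_lt _ one_ne_zero fun j hj => ?_
      rw [map_mul, map_pow]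
      have h1 : W.valuation (c (r + (j + 1))) < 1 :=
        hlt _ (by omega) (by have := Finset.mem_range.mp hj; omega)
      have h2 : W.valuation x ^ (j + 1) ≤ 1 :=
        pow_le_one₀ zero_le ((W.valuation_le_one_iff x).mpr hx)
      calc W.valuation (c (r + (j + 1))) * W.valuation x ^ (j + 1)
          ≤ W.valuation (c (r + (j + 1))) * 1 := mul_le_mul' le_rfl h2
        _ < 1 := by rw [mul_one]; exact h1
    rw [hsplit, Valuation.map_add_eq_of_lt_left]
    · exact hcr
    · rw [hcr]; exact hsmall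
  · intro W' hW'
    have hcW' : ∀ i, c i ∈ W' := fun i => hW' _ (hcW i)
    rcases W'.mem_or_inv_mem x with hxW' | hxW'
    · have hsW' : s ∈ W' := by
        rw [hs]
        exact Subring.sum_mem W'.toSubring fun j _ => W'.mul_mem _ _ (hcW' _) (pow_mem hxW' j)
      exact ⟨hsW', W'.mul_mem _ _ hsW' hxW'⟩
    · by_cases hx0 : x = 0
      · have hsW' : s ∈ W' := by
          rw [hs]
          exact Subring.sum_mem W'.toSubring fun j _ => W'.mul_mem _ _ (hcW' _)
            (pow_mem (hx0 ▸ W'.zero_mem) j)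
        exact ⟨hsW', by rw [hx0, mul_zero]; exact W'.zero_mem⟩
      set y : F := x⁻¹ with hy
      have hxy : x * y = 1 := mul_inv_cancel₀ hx0
      have hpow : ∀ i, i ≤ r → x ^ i * y ^ r = y ^ (r - i) := by
        intro i hi
        have : y ^ r = y ^ i * y ^ (r - i) := by rw [← pow_add]; congr 1; omega
        rw [this, ← mul_assoc, ← mul_pow, hxy, one_pow, one_mul]
      have hs' : s = -(t * y ^ r) := by
        have h1 : y ^ r * (t + x ^ r * s) = 0 := by rw [hts, mul_zero]
        have h2 : y ^ r * x ^ r = 1 := by rw [← mul_pow, mul_comm, hxy, one_pow]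
        have h3 : y ^ r * (t + x ^ r * s) = t * y ^ r + (y ^ r * x ^ r) * s := by ring
        rw [h3, h2, one_mul] at h1
        exact eq_neg_of_add_eq_zero_right h1
      have hty : t * y ^ r = ∑ i ∈ Finset.range r, c i * y ^ (r - i) := by
        rw [ht, Finset.sum_mul]
        refine Finset.sum_congr rfl fun i hi => ?_
        rw [mul_assoc, hpow i (Finset.mem_range.mp hi).le]
      have htyx : t * y ^ r * x = ∑ i ∈ Finset.range r, c i * y ^ (r - (i + 1)) := by
        rw [ht, Finset.sum_mul, Finset.sum_mul]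
        refine Finset.sum_congr rfl fun i hi => ?_
        have : c i * x ^ i * y ^ r * x = c i * (x ^ (i + 1) * y ^ r) := by ring
        rw [this, hpow (i + 1) (Finset.mem_range.mp hi)]
      refine ⟨?_, ?_⟩
      · rw [hs', hty]
        exact W'.neg_mem _ (Subring.sum_mem W'.toSubring fun i _ =>
          W'.mul_mem _ _ (hcW' _) (pow_mem hxW' _))
      · rw [hs', neg_mul, htyx]
        exact W'.neg_mem _ (Subring.sum_mem W'.toSubring fun i _ =>
          W'.mul_mem _ _ (hcW' _) (pow_mem hxW' _))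

end LemmaA

section Inter

variable {F₀ F : Type*} [Field F₀] [Field F] [Algebra F₀ F]
  (G : Type*) [Group G] [MulSemiringAction G F]

/-- the intersection of the conjugates of a valuation subring under a group of automorphisms. -/
def s59n_interRing (W : ValuationSubring F) : Subring F where
  carrier := {x | ∀ g : G, g • x ∈ W}
  mul_mem' := fun {a b} ha hb g => by rw [smul_mul']; exact W.mul_mem _ _ (ha g) (hb g)
  one_mem' := fun g => by rw [smul_one]; exact W.one_mem
  add_mem' := fun {a b} ha hb g => by rw [smul_add]; exact W.add_mem _ _ (ha g) (hb g)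
  zero_mem' := fun g => by rw [smul_zero]; exact W.zero_mem
  neg_mem' := fun {a} ha g => by rw [smul_neg]; exact W.neg_mem _ (ha g)

theorem s59n_mem_interRing {W : ValuationSubring F} {x : F} :
    x ∈ s59n_interRing G W ↔ ∀ g : G, g • x ∈ W := Iff.rfl

theorem s59n_interRing_le (W : ValuationSubring F) {x : F} (hx : x ∈ s59n_interRing G W) : x ∈ W := by
  have := hx 1
  rwa [one_smul] at this

noncomputable instance s59n_interRing_action (W : ValuationSubring F) :
    MulSemiringAction G ↥(s59n_interRing G W) where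
  smul g b := ⟨g • (b : F), fun h => by rw [← mul_smul]; exact b.2 _⟩
  one_smul b := Subtype.ext (one_smul G (b : F))
  mul_smul g h b := Subtype.ext (mul_smul g h (b : F))
  smul_zero g := Subtype.ext (smul_zero g)
  smul_add g a b := Subtype.ext (smul_add g (a : F) (b : F))
  smul_one g := Subtype.ext (smul_one g)
  smul_mul g a b := Subtype.ext (smul_mul' g (a : F) (b : F))

theorem s59n_interRing_coe_smul (W : ValuationSubring F) (g : G) (b : ↥(s59n_interRing G W)) :
    ((g • b : ↥(s59n_interRing G W)) : F) = g • (b : F) := rfl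

variable [SMulCommClass G F₀ F]

/-- the structure map `W ∩ F₀ → ⋂ g W`. -/
def s59n_interHom (W : ValuationSubring F) :
    ↥(W.comap (algebraMap F₀ F)) →+* ↥(s59n_interRing G W) where
  toFun a := ⟨algebraMap F₀ F a, fun g => by rw [smul_algebraMap]; exact a.2⟩
  map_one' := Subtype.ext (map_one (algebraMap F₀ F))
  map_mul' a b := Subtype.ext (map_mul (algebraMap F₀ F) (a : F₀) (b : F₀))
  map_zero' := Subtype.ext (map_zero (algebraMap F₀ F))
  map_add' a b := Subtype.ext (map_add (algebraMap F₀ F) (a : F₀) (b : F₀))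

noncomputable instance s59n_interRing_algebra (W : ValuationSubring F) :
    Algebra ↥(W.comap (algebraMap F₀ F)) ↥(s59n_interRing G W) :=
  (s59n_interHom G W).toAlgebra

theorem s59n_interRing_coe_algebraMap (W : ValuationSubring F) (a : ↥(W.comap (algebraMap F₀ F))) :
    ((algebraMap ↥(W.comap (algebraMap F₀ F)) ↥(s59n_interRing G W) a : ↥(s59n_interRing G W)) : F) =
      algebraMap F₀ F a := rfl

instance s59n_interRing_smulComm (W : ValuationSubring F) :
    SMulCommClass G ↥(W.comap (algebraMap F₀ F)) ↥(s59n_interRing G W) where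
  smul_comm g a b := by
    refine Subtype.ext ?_
    show g • (algebraMap F₀ F (a : F₀) * (b : F)) = algebraMap F₀ F (a : F₀) * g • (b : F)
    rw [smul_mul', smul_algebraMap]

instance s59n_interRing_isInvariant [Algebra.IsInvariant F₀ F G] (W : ValuationSubring F) :
    Algebra.IsInvariant ↥(W.comap (algebraMap F₀ F)) ↥(s59n_interRing G W) G where
  isInvariant b hb := by
    obtain ⟨a, ha⟩ := Algebra.IsInvariant.isInvariant (A := F₀) (B := F) (G := G) (b : F)
      (fun g => congrArg Subtype.val (hb g))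
    have haV : a ∈ W.comap (algebraMap F₀ F) := by
      rw [ValuationSubring.mem_comap, ha]
      exact s59n_interRing_le G W b.2
    exact ⟨⟨a, haV⟩, Subtype.ext ha⟩

/-- the ideal of `⋂ g W` cut out by the maximal ideal of `W`. -/
def s59n_interIdeal (W : ValuationSubring F) : Ideal ↥(s59n_interRing G W) where
  carrier := {b | W.valuation (b : F) < 1}
  add_mem' := fun {a b} ha hb => by
    show W.valuation ((a + b : ↥(s59n_interRing G W)) : F) < 1
    rw [Subring.coe_add]
    exact lt_of_le_of_lt (Valuation.map_add _ _ _) (max_lt ha hb)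
  zero_mem' := by
    show W.valuation ((0 : ↥(s59n_interRing G W)) : F) < 1
    rw [ZeroMemClass.coe_zero, map_zero]
    exact zero_lt_one
  smul_mem' := fun c b hb => by
    show W.valuation ((c * b : ↥(s59n_interRing G W)) : F) < 1
    rw [Subring.coe_mul, map_mul]
    have hc : W.valuation (c : F) ≤ 1 :=
      (W.valuation_le_one_iff _).mpr (s59n_interRing_le G W c.2)
    calc W.valuation (c : F) * W.valuation (b : F) ≤ 1 * W.valuation (b : F) :=
          mul_le_mul' hc le_rfl
      _ < 1 := by rw [one_mul]; exact hb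

theorem s59n_mem_interIdeal {W : ValuationSubring F} {b : ↥(s59n_interRing G W)} :
    b ∈ s59n_interIdeal G W ↔ W.valuation (b : F) < 1 := ⟨fun h => h, fun h => h⟩

instance s59n_interIdeal_isPrime (W : ValuationSubring F) : (s59n_interIdeal G W).IsPrime where
  ne_top' := by
    intro h
    have h1 : (1 : ↥(s59n_interRing G W)) ∈ s59n_interIdeal G W := by rw [h]; trivial
    rw [s59n_mem_interIdeal, OneMemClass.coe_one, map_one] at h1
    exact lt_irrefl _ h1
  mem_or_mem' := by
    intro a b hab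
    rw [s59n_mem_interIdeal, Subring.coe_mul, map_mul] at hab
    by_contra hcon
    push Not at hcon
    rw [s59n_mem_interIdeal, s59n_mem_interIdeal] at hcon
    have ha : W.valuation (a : F) = 1 :=
      le_antisymm ((W.valuation_le_one_iff _).mpr (s59n_interRing_le G W a.2)) (not_lt.mp hcon.1)
    have hb : W.valuation (b : F) = 1 :=
      le_antisymm ((W.valuation_le_one_iff _).mpr (s59n_interRing_le G W b.2)) (not_lt.mp hcon.2)
    rw [ha, hb, one_mul] at hab
    exact lt_irrefl _ hab

/-- the maximal ideal of `W ∩ F₀`. -/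
theorem s59n_comap_maximalIdeal (W : ValuationSubring F) (a : ↥(W.comap (algebraMap F₀ F))) :
    a ∈ IsLocalRing.maximalIdeal ↥(W.comap (algebraMap F₀ F)) ↔
      W.valuation (algebraMap F₀ F a) < 1 := by
  rw [ValuationSubring.valuation_lt_one_iff, ← ValuationSubring.mem_nonunits_iff,
    ← ValuationSubring.mem_nonunits_iff, ValuationSubring.mem_nonunits_iff_or,
    ValuationSubring.mem_nonunits_iff_or, ValuationSubring.mem_comap, map_inv₀,
    map_eq_zero]

theorem s59n_interIdeal_comap (W : ValuationSubring F) :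
    (s59n_interIdeal G W).comap (algebraMap ↥(W.comap (algebraMap F₀ F)) ↥(s59n_interRing G W)) =
      IsLocalRing.maximalIdeal ↥(W.comap (algebraMap F₀ F)) := by
  ext a
  rw [Ideal.mem_comap, s59n_mem_interIdeal, s59n_comap_maximalIdeal]
  rfl

variable [Finite G] [Algebra.IsInvariant F₀ F G]

theorem s59n_interIdeal_isMaximal (F₀ : Type*) [Field F₀] [Algebra F₀ F] [SMulCommClass G F₀ F]
    [Algebra.IsInvariant F₀ F G] (W : ValuationSubring F) : (s59n_interIdeal G W).IsMaximal := by
  haveI : Algebra.IsIntegral ↥(W.comap (algebraMap F₀ F)) ↥(s59n_interRing G W) :=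
    Algebra.IsInvariant.isIntegral _ _ G
  refine Ideal.isMaximal_of_isIntegral_of_isMaximal_comap
    (R := ↥(W.comap (algebraMap F₀ F))) (s59n_interIdeal G W) ?_
  rw [s59n_interIdeal_comap]
  exact IsLocalRing.maximalIdeal.isMaximal _

theorem s59n_interIdeal_liesOver (W : ValuationSubring F) :
    (s59n_interIdeal G W).LiesOver (IsLocalRing.maximalIdeal ↥(W.comap (algebraMap F₀ F))) :=
  ⟨(s59n_interIdeal_comap G W).symm⟩

/-- **`⋂ g W → W / 𝔪_W` is onto.** -/
theorem s59n_inter_approx (F₀ : Type*) [Field F₀] [Algebra F₀ F] [SMulCommClass G F₀ F]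
    [Algebra.IsInvariant F₀ F G] (W : ValuationSubring F) (x : F) (hx : x ∈ W) :
    ∃ y : ↥(s59n_interRing G W), W.valuation ((y : F) - x) < 1 := by
  have hmax := s59n_interIdeal_isMaximal G F₀ W
  haveI : Algebra.IsIntegral F₀ F := Algebra.IsInvariant.isIntegral F₀ F G
  have halg : IsAlgebraic F₀ x := (Algebra.IsIntegral.isIntegral x).isAlgebraic
  obtain ⟨s, hs1, hs⟩ := s59n_exists_denominator W x hx halg
  have hsg : ∀ g : G, g • s ∈ W ∧ g • (s * x) ∈ W := by
    intro g
    have h := hs (g⁻¹ • W) (fun a ha => by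
      rw [ValuationSubring.mem_pointwise_smul_iff_inv_smul_mem, inv_inv, smul_algebraMap]
      exact ha)
    rw [ValuationSubring.mem_pointwise_smul_iff_inv_smul_mem,
      ValuationSubring.mem_pointwise_smul_iff_inv_smul_mem, inv_inv] at h
    exact h
  set sB : ↥(s59n_interRing G W) := ⟨s, fun g => (hsg g).1⟩ with hsB
  set sxB : ↥(s59n_interRing G W) := ⟨s * x, fun g => (hsg g).2⟩ with hsxB
  have hsQ : sB ∉ s59n_interIdeal G W := by
    rw [s59n_mem_interIdeal, hsB]
    show ¬ W.valuation s < 1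
    rw [hs1]
    exact lt_irrefl _
  obtain ⟨y, i, hi, hyi⟩ := hmax.exists_inv hsQ
  refine ⟨y * sxB, ?_⟩
  have h1 : ((y * sxB : ↥(s59n_interRing G W)) : F) - x = -((i : F) * x) := by
    have h2 : (y : F) * s + (i : F) = 1 := by
      have := congrArg (Subtype.val) hyi
      simpa [hsB] using this
    show (y : F) * (s * x) - x = -((i : F) * x)
    linear_combination x * h2
  rw [h1, Valuation.map_neg, map_mul]
  have hxv : W.valuation x ≤ 1 := (W.valuation_le_one_iff x).mpr hx
  calc W.valuation (i : F) * W.valuation x ≤ W.valuation (i : F) * 1 := mul_le_mul' le_rfl hxv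
    _ < 1 := by rw [mul_one]; exact hi

/-- an automorphism commuting with `G` and preserving `W` acts on `⋂ g W`. -/
def s59n_interEquiv (W : ValuationSubring F) (Φ : F ≃+* F) (hΦG : ∀ (g : G) (y : F), Φ (g • y) = g • Φ y)
    (hΦW : ∀ y : F, Φ y ∈ W ↔ y ∈ W) : ↥(s59n_interRing G W) ≃+* ↥(s59n_interRing G W) where
  toFun b := ⟨Φ b, fun g => by rw [← hΦG]; exact (hΦW _).mpr (b.2 g)⟩
  invFun b := ⟨Φ.symm b, fun g => by rw [← hΦW, hΦG, Φ.apply_symm_apply]; exact b.2 g⟩
  left_inv b := Subtype.ext (Φ.symm_apply_apply b)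
  right_inv b := Subtype.ext (Φ.apply_symm_apply b)
  map_mul' a b := Subtype.ext (map_mul Φ (a : F) (b : F))
  map_add' a b := Subtype.ext (map_add Φ (a : F) (b : F))

/-- an automorphism preserving `W` preserves its maximal ideal. -/
theorem s59n_val_lt_one_of_equiv (W : ValuationSubring F) (Φ : F ≃+* F) (hΦW : ∀ y : F, Φ y ∈ W ↔ y ∈ W)
    (y : F) : W.valuation (Φ y) < 1 ↔ W.valuation y < 1 := by
  rw [← ValuationSubring.mem_nonunits_iff, ← ValuationSubring.mem_nonunits_iff,
    ValuationSubring.mem_nonunits_iff_or, ValuationSubring.mem_nonunits_iff_or, ← map_inv₀, hΦW,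
    map_eq_zero_iff Φ Φ.injective]

/-- **RESIDUE DESCENT FOR VALUATION SUBRINGS.**  `F / F₀` with a finite group `G` of automorphisms, `F ^ G = F₀`; `W` a valuation
subring of `F` in which every divisor of `|G|` is a unit; `Φ` an automorphism of `F` over `Φ₀` of `F₀`, commuting with `G`,
preserving `W`, acting on the `p`-th roots of unity of the residue field of `W` as `ω ↦ ω ^ q`.  If `f, c ∈ F₀` and `b ∈ F` are
units of `W` with `f ≡ c b ^ p` modulo `𝔪_W`, then `Φ₀ f · c ^ q ≡ Φ₀ c · f ^ q · a ^ p` modulo `𝔪_W` with `a ∈ F₀` a unit of `W`. -/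
theorem s59n_val_descent (F₀ : Type*) [Field F₀] [Algebra F₀ F] [SMulCommClass G F₀ F]
    [Algebra.IsInvariant F₀ F G] (W : ValuationSubring F)
    (hcard : ∀ m : ℕ, m ∣ Nat.card G → W.valuation ((m : ℕ) : F) = 1)
    (Φ : F ≃+* F) (Φ₀ : F₀ ≃+* F₀) (hΦ₀ : ∀ a : F₀, Φ (algebraMap F₀ F a) = algebraMap F₀ F (Φ₀ a))
    (hΦG : ∀ (g : G) (y : F), Φ (g • y) = g • Φ y) (hΦW : ∀ y : F, Φ y ∈ W ↔ y ∈ W)
    (p q : ℕ)
    (hroot : ∀ ω : F, ω ∈ W → W.valuation (ω ^ p - 1) < 1 → W.valuation (Φ ω - ω ^ q) < 1)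
    (f c : F₀) (hfW : W.valuation (algebraMap F₀ F f) = 1) (hcW : W.valuation (algebraMap F₀ F c) = 1)
    (b : F) (hbW : W.valuation b = 1)
    (hfb : W.valuation (algebraMap F₀ F f - algebraMap F₀ F c * b ^ p) < 1) :
    ∃ a : F₀, W.valuation (algebraMap F₀ F a) = 1 ∧
      W.valuation (algebraMap F₀ F (Φ₀ f * c ^ q - Φ₀ c * f ^ q * a ^ p)) < 1 := by
  classical
  haveI hmax := s59n_interIdeal_isMaximal G F₀ W
  haveI hlies := s59n_interIdeal_liesOver (F₀ := F₀) G W
  have hmemV : ∀ a : F₀, W.valuation (algebraMap F₀ F a) ≤ 1 → a ∈ W.comap (algebraMap F₀ F) :=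
    fun a ha => ValuationSubring.mem_comap.mpr ((W.valuation_le_one_iff _).mp ha)
  have hΦ₀W : ∀ a : F₀, W.valuation (algebraMap F₀ F (Φ₀ a)) = 1 ↔ W.valuation (algebraMap F₀ F a) = 1 := by
    intro a
    rw [← hΦ₀]
    have h1 := s59n_val_lt_one_of_equiv W Φ hΦW (algebraMap F₀ F a)
    have h2 : W.valuation (Φ (algebraMap F₀ F a)) ≤ 1 ↔ W.valuation (algebraMap F₀ F a) ≤ 1 := by
      rw [W.valuation_le_one_iff, W.valuation_le_one_iff, hΦW]
    constructor
    · intro h
      exact le_antisymm (h2.mp h.le) (not_lt.mp fun hlt => absurd (h1.mpr hlt) (by rw [h]; exact lt_irrefl _))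
    · intro h
      exact le_antisymm (h2.mpr h.le) (not_lt.mp fun hlt => absurd (h1.mp hlt) (by rw [h]; exact lt_irrefl _))
  -- the data in `A = W ∩ F₀`, `B = ⋂ g W`
  set fA : ↥(W.comap (algebraMap F₀ F)) := ⟨f, hmemV f hfW.le⟩ with hfA
  set cA : ↥(W.comap (algebraMap F₀ F)) := ⟨c, hmemV c hcW.le⟩ with hcA
  set φfA : ↥(W.comap (algebraMap F₀ F)) := ⟨Φ₀ f, hmemV _ ((hΦ₀W f).mpr hfW).le⟩ with hφfA
  set φcA : ↥(W.comap (algebraMap F₀ F)) := ⟨Φ₀ c, hmemV _ ((hΦ₀W c).mpr hcW).le⟩ with hφcA
  obtain ⟨bB, hbB⟩ := s59n_inter_approx G F₀ W b ((W.valuation_le_one_iff b).mp hbW.le)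
  have hbBv : W.valuation (bB : F) = 1 := by
    have : (bB : F) = b + ((bB : F) - b) := by ring
    rw [this, Valuation.map_add_eq_of_lt_left]
    · exact hbW
    · rw [hbW]; exact hbB
  -- the order of the stabiliser is invertible
  have hD : ∃ u : ↥(W.comap (algebraMap F₀ F)),
      u * (Nat.card (MulAction.stabilizer G (s59n_interIdeal G W)) : ↥(W.comap (algebraMap F₀ F))) - 1 ∈
        IsLocalRing.maximalIdeal ↥(W.comap (algebraMap F₀ F)) := by
    set N := Nat.card (MulAction.stabilizer G (s59n_interIdeal G W)) with hN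
    have hNdvd : N ∣ Nat.card G := Subgroup.card_subgroup_dvd_card _
    have hNv : W.valuation ((N : ℕ) : F) = 1 := hcard N hNdvd
    have hNF : algebraMap F₀ F ((N : ℕ) : F₀) = ((N : ℕ) : F) := map_natCast _ N
    have hN0 : ((N : ℕ) : F₀) ≠ 0 := by
      intro h0
      rw [h0, map_zero] at hNF
      rw [← hNF, map_zero] at hNv
      exact zero_ne_one hNv
    have hinv : ((N : ℕ) : F₀)⁻¹ ∈ W.comap (algebraMap F₀ F) := by
      apply hmemV
      rw [map_inv₀, map_inv₀, hNF, hNv, inv_one]
    refine ⟨⟨_, hinv⟩, ?_⟩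
    have : (⟨_, hinv⟩ : ↥(W.comap (algebraMap F₀ F))) * ((N : ℕ) : ↥(W.comap (algebraMap F₀ F))) - 1 = 0 := by
      refine Subtype.ext ?_
      show ((N : ℕ) : F₀)⁻¹ * (((N : ℕ) : ↥(W.comap (algebraMap F₀ F))) : F₀) - 1 = 0
      rw [SubringClass.coe_natCast, inv_mul_cancel₀ hN0, sub_self]
    rw [this]
    exact Ideal.zero_mem _
  set φ := s59n_interEquiv G W Φ hΦG hΦW with hφ
  have hφcoe : ∀ y : ↥(s59n_interRing G W), ((φ y : ↥(s59n_interRing G W)) : F) = Φ (y : F) := fun y => rfl
  obtain ⟨a, haP, ha⟩ := s59n_res_descent G (IsLocalRing.maximalIdeal ↥(W.comap (algebraMap F₀ F)))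
    (s59n_interIdeal G W) hD φ (fun g y => Subtype.ext (hΦG g (y : F)))
    (fun y => by
      rw [s59n_mem_interIdeal, s59n_mem_interIdeal, hφcoe]
      exact s59n_val_lt_one_of_equiv W Φ hΦW (y : F))
    p q
    (fun ω hω => by
      rw [s59n_mem_interIdeal] at hω ⊢
      exact hroot (ω : F) (s59n_interRing_le G W ω.2) hω)
    fA cA φfA φcA (Subtype.ext (hΦ₀ f)) (Subtype.ext (hΦ₀ c))
    (by
      rw [s59n_comap_maximalIdeal]
      show ¬ W.valuation (algebraMap F₀ F c) < 1
      rw [hcW]; exact lt_irrefl _)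
    bB (by rw [s59n_mem_interIdeal, hbBv]; exact lt_irrefl _)
    (by
      rw [s59n_mem_interIdeal]
      show W.valuation (algebraMap F₀ F f - algebraMap F₀ F c * (bB : F) ^ p) < 1
      have hbW' : b ∈ W := (W.valuation_le_one_iff b).mp hbW.le
      have hbBW : (bB : F) ∈ W := s59n_interRing_le G W bB.2
      have hgeom : W.valuation (b ^ p - (bB : F) ^ p) < 1 := by
        rw [← geom_sum₂_mul, map_mul]
        have h1 : W.valuation (∑ i ∈ Finset.range p, b ^ i * (bB : F) ^ (p - 1 - i)) ≤ 1 :=
          (W.valuation_le_one_iff _).mpr (Subring.sum_mem W.toSubring fun i _ =>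
            W.mul_mem _ _ (pow_mem hbW' i) (pow_mem hbBW _))
        have h2 : W.valuation (b - (bB : F)) < 1 := by
          rw [← Valuation.map_neg, neg_sub]; exact hbB
        calc _ ≤ 1 * W.valuation (b - (bB : F)) := mul_le_mul' h1 le_rfl
          _ < 1 := by rw [one_mul]; exact h2
      have e : algebraMap F₀ F f - algebraMap F₀ F c * (bB : F) ^ p =
          (algebraMap F₀ F f - algebraMap F₀ F c * b ^ p) +
            algebraMap F₀ F c * (b ^ p - (bB : F) ^ p) := by ring
      rw [e]
      refine lt_of_le_of_lt (Valuation.map_add _ _ _) (max_lt hfb ?_)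
      rw [map_mul, hcW, one_mul]
      exact hgeom)
  refine ⟨(a : F₀), ?_, ?_⟩
  · have h1 : W.valuation (algebraMap F₀ F (a : F₀)) ≤ 1 :=
      (W.valuation_le_one_iff _).mpr (ValuationSubring.mem_comap.mp a.2)
    rw [s59n_comap_maximalIdeal] at haP
    exact le_antisymm h1 (not_lt.mp haP)
  · rw [s59n_comap_maximalIdeal] at ha
    exact ha

end Inter

end Fermat.Agent.Lib.S59
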