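/-
Programme (R) / node [IA′], C7 = (G2), the descent `Γ_H → Γ₀`, family N (helper7, prefix `s59n_`):
**THE FROBENIUS-TWISTED DESCENT OF THE KUMMER KERNELS** (generic; helper1's `s59k_KumKer` vocabulary of `KVal.lean`).

`ι : F₀ → F` a finite cyclic extension of function fields over an algebraically closed `K` (generator `γ`), `W` a valuation
subring of `F` (an arithmetic one: Gauss valuation at a place of `K = ℚ̄`), `V := W ∩ F₀ = W.comap ι`.

* `s59n_root_cong`             : an element of `W` with `ω ^ p ∈ 1 + 𝔪_W` is congruent to a `p`-th root of unity of `K`;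
* `s59n_kumTriv_frob_descend`  : function level: `f₀ ∈ F₀`, `ι f₀ ∈ Kˣ · Fˣᵖ · (1 + 𝔪_W)` ⇒ `Φ₀ f₀ / f₀ ^ q ∈ Kˣ · F₀ˣᵖ · (1 + 𝔪_V)`
  (`NValDesc.s59n_val_descent` + normalisation by constants, hypothesis `hnormW` = helper1's (scale));
* **`s59n_kumKer_frob_descend`** : class level: `w ∈ Pic⁰(F₀)[p]`, `π^* w ∈ KumKer(W, p)` ⇒ `Φ₀ w - q w ∈ KumKer(V, p)`.
  Hypotheses: `Φ` semilinear over `Φ₀` (`IntertwinesAlong`), commuting with `γ`, `Φ W = W`, `Φ₀ ζ_p = ζ_p ^ q`, every divisor of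
  `[F : F₀]` a unit of `W` (e.g. `[F : F₀] = p ^ n` and `p` a unit of `W`).  NO information on the residue extension is used.
-/
import Mathlib
import Fermat.Agent.Lib.S59.NValDesc
import Fermat.Agent.Lib.S59.KVal
import Fermat.Agent.Lib.S59.NUp

set_option autoImplicit false
set_option linter.style.haveILetI false
set_option linter.unusedSectionVars false

noncomputable section

namespace Fermat.Agent.Lib.S59

open AlgebraicCurve Fermat.Agent.Lib.S33 Fermat.Agent.Lib.S37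
open scoped Pointwise

section Fun

variable {K F₀ F : Type*} [Field K] [Field F₀] [Field F] [Algebra K F₀] [Algebra K F]
  [Algebra F₀ F] [IsScalarTower K F₀ F]

/-- the valuation of the restriction of a valuation subring. -/
theorem s59n_comap_val_lt_one (W : ValuationSubring F) (x : F₀) :
    (W.comap (algebraMap F₀ F)).valuation x < 1 ↔ W.valuation (algebraMap F₀ F x) < 1 := by
  rw [← ValuationSubring.mem_nonunits_iff, ← ValuationSubring.mem_nonunits_iff,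
    ValuationSubring.mem_nonunits_iff_or, ValuationSubring.mem_nonunits_iff_or,
    ValuationSubring.mem_comap, map_inv₀, map_eq_zero]

open Polynomial in
/-- an element of `W` whose `p`-th power is a one-unit is congruent to a `p`-th root of unity of `K`. -/
theorem s59n_root_cong (W : ValuationSubring F) (p : ℕ) (hp : 0 < p) (ζ : K)
    (hζ : IsPrimitiveRoot ζ p) (ω : F) (hω : W.valuation (ω ^ p - 1) < 1) :
    ∃ i : ℕ, W.valuation (ω - algebraMap K F (ζ ^ i)) < 1 := by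
  classical
  haveI : NeZero p := ⟨hp.ne'⟩
  have hprod := X_pow_sub_one_eq_prod hp hζ
  have hev := congrArg (fun P : K[X] => Polynomial.aeval ω P) hprod
  simp only [map_sub, map_pow, aeval_X, map_one, map_prod, aeval_C] at hev
  have hlt : W.valuation (∏ ξ ∈ nthRootsFinset p (1 : K), (ω - algebraMap K F ξ)) < 1 := by
    rw [← hev]; exact hω
  have hex : ∃ ξ ∈ nthRootsFinset p (1 : K), W.valuation (ω - algebraMap K F ξ) < 1 := by
    by_contra hcon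
    push Not at hcon
    have : (1 : W.ValueGroup) ≤ W.valuation (∏ ξ ∈ nthRootsFinset p (1 : K),
        (ω - algebraMap K F ξ)) := by
      rw [map_prod]
      exact Finset.one_le_prod' hcon
    exact absurd hlt (not_lt.mpr this)
  obtain ⟨ξ, hξm, hξ⟩ := hex
  have hξp : ξ ^ p = 1 := (mem_nthRootsFinset hp (1 : K)).mp hξm
  obtain ⟨i, -, rfl⟩ := hζ.eq_pow_of_pow_eq_one hξp
  exact ⟨i, hξ⟩

/-- an automorphism preserving `W` preserves its units. -/
theorem s59n_val_eq_one_of_equiv (W : ValuationSubring F) (Φ : F ≃+* F) (hΦW : ∀ y : F, Φ y ∈ W ↔ y ∈ W)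
    (y : F) : W.valuation (Φ y) = 1 ↔ W.valuation y = 1 := by
  have h1 := s59n_val_lt_one_of_equiv W Φ hΦW y
  have h2 : W.valuation (Φ y) ≤ 1 ↔ W.valuation y ≤ 1 := by
    rw [W.valuation_le_one_iff, W.valuation_le_one_iff, hΦW]
  constructor
  · intro h
    exact le_antisymm (h2.mp h.le)
      (not_lt.mp fun hlt => absurd (h1.mpr hlt) (by rw [h]; exact lt_irrefl _))
  · intro h
    exact le_antisymm (h2.mpr h.le)
      (not_lt.mp fun hlt => absurd (h1.mp hlt) (by rw [h]; exact lt_irrefl _))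

/-- **THE FROBENIUS-TWISTED DESCENT OF KUMMER-TRIVIALITY** (function level).  If `f₀ ∈ F₀` becomes Kummer-trivial along `W` in `F`
(`f₀ ∈ Kˣ · Fˣᵖ · (1 + 𝔪_W)`), then `Φ₀ f₀ / f₀ ^ q` is Kummer-trivial along `W ∩ F₀` in `F₀`. -/
theorem s59n_kumTriv_frob_descend (G : Type*) [Group G] [Finite G] [MulSemiringAction G F]
    [SMulCommClass G F₀ F] [Algebra.IsInvariant F₀ F G] (W : ValuationSubring F)
    (hcard : ∀ m : ℕ, m ∣ Nat.card G → W.valuation ((m : ℕ) : F) = 1)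
    (Φ : F ≃+* F) (Φ₀ : F₀ ≃+* F₀) (τ : K ≃+* K)
    (hΦ₀ : ∀ a : F₀, Φ (algebraMap F₀ F a) = algebraMap F₀ F (Φ₀ a))
    (hΦ₀K : ∀ c : K, Φ₀ (algebraMap K F₀ c) = algebraMap K F₀ (τ c))
    (hΦG : ∀ (g : G) (y : F), Φ (g • y) = g • Φ y) (hΦW : ∀ y : F, Φ y ∈ W ↔ y ∈ W)
    (p q : ℕ) (hp : 0 < p) (ζ : K) (hζ : IsPrimitiveRoot ζ p) (hτζ : τ ζ = ζ ^ q)
    (hnormW : ∀ f : F, f ≠ 0 → ∃ c : K, c ≠ 0 ∧ W.valuation (f * (algebraMap K F c)⁻¹) = 1)
    (f₀ : F₀) (hf₀ : f₀ ≠ 0) (htriv : s59k_KumTriv (K := K) W p (algebraMap F₀ F f₀)) :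
    s59k_KumTriv (K := K) (W.comap (algebraMap F₀ F)) p (Φ₀ f₀ * (f₀ ^ q)⁻¹) := by
  obtain ⟨c₁, b₁, g, hc₁, hb₁, hg, hfe⟩ := htriv
  have hιf₀ : algebraMap F₀ F f₀ ≠ 0 := (map_ne_zero _).mpr hf₀
  obtain ⟨c₂, hc₂, hv₂⟩ := hnormW _ hιf₀
  obtain ⟨c₃, hc₃, hv₃⟩ := hnormW b₁ hb₁
  have hKF : ∀ c : K, algebraMap F₀ F (algebraMap K F₀ c) = algebraMap K F c := fun c =>
    (IsScalarTower.algebraMap_apply K F₀ F c).symm
  have hΦK : ∀ c : K, Φ (algebraMap K F c) = algebraMap K F (τ c) := by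
    intro c
    rw [← hKF, hΦ₀, hΦ₀K, hKF]
  have hc₂F : algebraMap K F c₂ ≠ 0 := (map_ne_zero _).mpr hc₂
  have hc₃F : algebraMap K F c₃ ≠ 0 := (map_ne_zero _).mpr hc₃
  have hc₂F₀ : algebraMap K F₀ c₂ ≠ 0 := (map_ne_zero _).mpr hc₂
  -- the normalised data
  obtain ⟨f, hf⟩ : ∃ f : F₀, f = f₀ * (algebraMap K F₀ c₂)⁻¹ := ⟨_, rfl⟩
  obtain ⟨b, hb⟩ : ∃ b : F, b = b₁ * (algebraMap K F c₃)⁻¹ := ⟨_, rfl⟩
  obtain ⟨c₄, hc₄⟩ : ∃ c₄ : K, c₄ = c₁ * c₃ ^ p * c₂⁻¹ := ⟨_, rfl⟩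
  have hc₄0 : c₄ ≠ 0 := by
    rw [hc₄]; exact mul_ne_zero (mul_ne_zero hc₁ (pow_ne_zero p hc₃)) (inv_ne_zero hc₂)
  have hιf : algebraMap F₀ F f = algebraMap F₀ F f₀ * (algebraMap K F c₂)⁻¹ := by
    rw [hf, map_mul, map_inv₀, hKF]
  have hfW : W.valuation (algebraMap F₀ F f) = 1 := by rw [hιf]; exact hv₂
  have hbW : W.valuation b = 1 := by rw [hb]; exact hv₃
  have hgv : W.valuation g = 1 := hg.val_eq_one
  have hfeq : algebraMap F₀ F f = algebraMap K F c₄ * b ^ p * g := by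
    rw [hιf, hfe, hb, hc₄, map_mul, map_mul, map_inv₀, map_pow, mul_pow, inv_pow]
    field_simp
  have hc₄W : W.valuation (algebraMap K F c₄) = 1 := by
    have h1 := hfW
    rw [hfeq, map_mul, map_mul, map_pow, hbW, one_pow, mul_one, hgv, mul_one] at h1
    exact h1
  have hcW : W.valuation (algebraMap F₀ F (algebraMap K F₀ c₄)) = 1 := by rw [hKF]; exact hc₄W
  have hfb : W.valuation (algebraMap F₀ F f - algebraMap F₀ F (algebraMap K F₀ c₄) * b ^ p) < 1 := by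
    have e : algebraMap F₀ F f - algebraMap F₀ F (algebraMap K F₀ c₄) * b ^ p =
        algebraMap K F c₄ * b ^ p * (g - 1) := by
      rw [hfeq, hKF]; ring
    rw [e, map_mul, map_mul, map_pow, hbW, one_pow, mul_one, hc₄W, one_mul]
    exact hg
  -- the roots of unity
  have hroot : ∀ ω : F, ω ∈ W → W.valuation (ω ^ p - 1) < 1 → W.valuation (Φ ω - ω ^ q) < 1 := by
    intro ω hωW hω
    obtain ⟨i, hi⟩ := s59n_root_cong W p hp ζ hζ ω hω
    set ξ : F := algebraMap K F (ζ ^ i) with hξ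
    have hΦξ : Φ ξ = ξ ^ q := by
      rw [hξ, hΦK, map_pow, hτζ, ← map_pow, ← pow_mul, ← pow_mul, mul_comm]
    have hmW : ω - ξ ∈ W := (W.valuation_le_one_iff _).mp hi.le
    have hξW : ξ ∈ W := by
      have : ξ = ω - (ω - ξ) := by ring
      rw [this]; exact sub_mem hωW hmW
    have e : Φ ω - ω ^ q = Φ (ω - ξ) - (ω ^ q - ξ ^ q) := by
      rw [map_sub, hΦξ]; ring
    rw [e]
    refine lt_of_le_of_lt (Valuation.map_sub _ _ _) (max_lt ?_ ?_)
    · exact (s59n_val_lt_one_of_equiv W Φ hΦW _).mpr hi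
    · rw [← geom_sum₂_mul, map_mul]
      have h1 : W.valuation (∑ j ∈ Finset.range q, ω ^ j * ξ ^ (q - 1 - j)) ≤ 1 :=
        (W.valuation_le_one_iff _).mpr (Subring.sum_mem W.toSubring fun j _ =>
          W.mul_mem _ _ (pow_mem hωW j) (pow_mem hξW _))
      calc _ ≤ 1 * W.valuation (ω - ξ) := mul_le_mul' h1 le_rfl
        _ < 1 := by rw [one_mul]; exact hi
  obtain ⟨a, haW, ha⟩ := s59n_val_descent G F₀ W hcard Φ Φ₀ hΦ₀ hΦG hΦW p q hroot f
    (algebraMap K F₀ c₄) hfW hcW b hbW hfb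
  -- the conclusion
  have ha0 : a ≠ 0 := by
    rintro rfl
    rw [map_zero, map_zero] at haW
    exact zero_ne_one haW
  have hf0 : f ≠ 0 := by rw [hf]; exact mul_ne_zero hf₀ (inv_ne_zero hc₂F₀)
  have hΦf0 : Φ₀ f ≠ 0 := (map_ne_zero _).mpr hf0
  have hc₄F₀ : algebraMap K F₀ c₄ ≠ 0 := (map_ne_zero _).mpr hc₄0
  have hτc₄ : algebraMap K F₀ (τ c₄) ≠ 0 := (map_ne_zero _).mpr ((map_ne_zero τ).mpr hc₄0)
  have hτc₂ : algebraMap K F₀ (τ c₂) ≠ 0 := (map_ne_zero _).mpr ((map_ne_zero τ).mpr hc₂)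
  obtain ⟨den, hden⟩ : ∃ den : F₀, den = algebraMap K F₀ (τ c₄) * f ^ q * a ^ p := ⟨_, rfl⟩
  have hden0 : den ≠ 0 := by
    rw [hden]; exact mul_ne_zero (mul_ne_zero hτc₄ (pow_ne_zero q hf0)) (pow_ne_zero p ha0)
  have hdenW : W.valuation (algebraMap F₀ F den) = 1 := by
    rw [hden, map_mul, map_mul, map_pow, map_pow, map_mul, map_mul, map_pow, map_pow, hfW, haW,
      one_pow, one_pow, mul_one, mul_one, ← hΦ₀K, ← hΦ₀]
    exact (s59n_val_eq_one_of_equiv W Φ hΦW _).mpr hcW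
  obtain ⟨g', hg'⟩ : ∃ g' : F₀, g' = Φ₀ f * algebraMap K F₀ c₄ ^ q * den⁻¹ := ⟨_, rfl⟩
  have hg'1 : s59k_OneUnit (W.comap (algebraMap F₀ F)) g' := by
    unfold s59k_OneUnit
    rw [s59n_comap_val_lt_one]
    have e : g' - 1 = (Φ₀ f * algebraMap K F₀ c₄ ^ q -
        Φ₀ (algebraMap K F₀ c₄) * f ^ q * a ^ p) * den⁻¹ := by
      rw [hg', hΦ₀K, ← hden]
      field_simp
    rw [e, map_mul, map_mul, map_inv₀, map_inv₀, hdenW, inv_one, mul_one]
    exact ha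
  refine ⟨τ c₂ * (c₂ ^ q)⁻¹ * (τ c₄ * (c₄ ^ q)⁻¹), a, g',
    mul_ne_zero (mul_ne_zero ((map_ne_zero τ).mpr hc₂) (inv_ne_zero (pow_ne_zero q hc₂)))
      (mul_ne_zero ((map_ne_zero τ).mpr hc₄0) (inv_ne_zero (pow_ne_zero q hc₄0))),
    ha0, hg'1, ?_⟩
  have hf₀e : f₀ = f * algebraMap K F₀ c₂ := by rw [hf]; field_simp
  have hΦf₀ : Φ₀ f₀ = Φ₀ f * algebraMap K F₀ (τ c₂) := by
    conv_lhs => rw [hf₀e]
    rw [map_mul, hΦ₀K]
  rw [hΦf₀]
  conv_lhs => rw [hf₀e]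
  rw [hg', hden, map_mul, map_mul, map_mul, map_inv₀, map_inv₀, map_pow, map_pow]
  have hc₂q : algebraMap K F₀ c₂ ^ q ≠ 0 := pow_ne_zero q hc₂F₀
  have hc₄q : algebraMap K F₀ c₄ ^ q ≠ 0 := pow_ne_zero q hc₄F₀
  have hfq : f ^ q ≠ 0 := pow_ne_zero q hf0
  have hap : a ^ p ≠ 0 := pow_ne_zero p ha0
  rw [mul_pow]
  field_simp

end Fun

section Class

variable {K F₀ F : Type} [Field K] [IsAlgClosed K] [Field F₀] [Field F] [Algebra K F₀] [Algebra K F]
  [HasPrincipalDivisors K F₀] [HasPrincipalDivisors K F]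
  (ι : F₀ →ₐ[K] F) (hι : ι.toRingHom.IsIntegral) (hFI : FundamentalIdentityAlong K ι hι)

/-- a Kummer generator in helper1's sense. -/
theorem s59n_mem_kumKer_of_kumGen {K F : Type*} [Field K] [Field F] [Algebra K F] {W : ValuationSubring F}
    {p : ℕ} {z : Pic0 K F} {f : F} (h : s33d_IsKumGen p z f) (ht : s59k_KumTriv (K := K) W p f) :
    z ∈ s59k_KumKer (K := K) W p := by
  obtain ⟨hf, D, hD, hord⟩ := h
  exact ⟨D, f, hf, hD, fun v => (hord v).symm, ht⟩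

/-- **THE FROBENIUS-TWISTED DESCENT OF THE KUMMER KERNELS.**  `F / ι F₀` cyclic with generator `γ`, `Φ` over `Φ₀` commuting with
`γ` and preserving the valuation subring `W` of `F`, every divisor of `[F : F₀]` a unit of `W`, `Φ₀ ζ_p = ζ_p ^ q`:
`π^* w ∈ KumKer(W, p)` ⇒ `Φ₀ w - q w ∈ KumKer(W ∩ F₀, p)`. -/
theorem s59n_kumKer_frob_descend (hconst : s33d_ConstOfOrdZero K F)
    (hfin : FiniteAlong K ι) (γ : F ≃ₐ[K] F) (hγι : ∀ x, γ (ι x) = ι x)
    (hγfix : ∀ y, γ y = y → ∃ x, ι x = y)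
    (Φ : SemilinearAut K F) (Φ₀ : SemilinearAut K F₀)
    (hΦ : SemilinearAut.IntertwinesAlong (ι : F₀ →+* F) Φ₀ Φ)
    (hΦγ : ∀ y, Φ • (γ y) = γ (Φ • y))
    {p : ℕ} (hp : p ≠ 0) (q : ℕ) (ζp : K) (hζp : IsPrimitiveRoot ζp p)
    (hΦζ : SemilinearAut.baseAut Φ₀ ζp = ζp ^ q)
    (W : ValuationSubring F) (hΦW : ∀ y, Φ • y ∈ W ↔ y ∈ W)
    (hcard : ∀ m : ℕ, m ∣ finrankAlong K ι → W.valuation ((m : ℕ) : F) = 1)
    (hnormW : ∀ f : F, f ≠ 0 → ∃ c : K, c ≠ 0 ∧ W.valuation (f * (algebraMap K F c)⁻¹) = 1)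
    (w : Pic0 K F₀) (hw : p • w = 0)
    (hpull : s37l_pic0Pullback ι hι hFI w ∈ s59k_KumKer (K := K) W p) :
    Φ₀ • w - q • w ∈ s59k_KumKer (K := K) (W.comap (ι : F₀ →+* F)) p := by
  obtain ⟨f₀, hf₀⟩ := s33d_exists_kumGen p w hw
  have hpullgen := s33l_kumGen_pull ι hι hFI hf₀
  -- `ι f₀` is Kummer-trivial along `W`
  have htriv : s59k_KumTriv (K := K) W p (ι f₀) := by
    obtain ⟨D, f, hf, hD, hord, ht⟩ := hpull
    have hgen : s33d_IsKumGen p (s37l_pic0Pullback ι hι hFI w) f := ⟨hf, D, hD, fun v => (hord v).symm⟩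
    obtain ⟨c, u, hc, hu, he⟩ := s33d_kumGen_unique hconst hgen hpullgen
    rw [he]
    exact (s59k_KumTriv.mul ⟨c, u, 1, hc, hu, s59k_oneUnit_one W, by rw [mul_one]⟩ ht)
  -- the function-level descent
  have hdesc : s59k_KumTriv (K := K) (W.comap (ι : F₀ →+* F)) p (Φ₀ • f₀ * (f₀ ^ q)⁻¹) := by
    letI := algebraAlong ι
    haveI := isScalarTower_along ι
    haveI : FiniteDimensional F₀ F := hfin
    let γ' : F ≃ₐ[F₀] F := { γ with commutes' := hγι }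
    obtain ⟨hgal, hgen, -⟩ := s59n_cyclic_of_fixed γ' (fun y hy => hγfix y hy)
    haveI := hgal
    haveI : Algebra.IsInvariant F₀ F (F ≃ₐ[F₀] F) :=
      ⟨fun b hb => (IsGalois.mem_range_algebraMap_iff_fixed b).mpr hb⟩
    have hcardG : Nat.card (F ≃ₐ[F₀] F) = finrankAlong K ι := IsGalois.card_aut_eq_finrank F₀ F
    have hΦG : ∀ (g : F ≃ₐ[F₀] F) (y : F),
        SemilinearAut.toRingAut Φ (g • y) = g • SemilinearAut.toRingAut Φ y := by
      intro g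
      have hg := hgen g
      obtain ⟨k, rfl⟩ := Subgroup.mem_zpowers_iff.mp hg
      have hpos : ∀ (n : ℕ) (y : F), SemilinearAut.toRingAut Φ ((γ' ^ n) y) =
          (γ' ^ n) (SemilinearAut.toRingAut Φ y) := by
        intro n
        induction n with
        | zero => intro y; rfl
        | succ n ih =>
          intro y
          rw [pow_succ, AlgEquiv.mul_apply, ih, AlgEquiv.mul_apply]
          congr 1
          exact hΦγ y
      intro y
      show SemilinearAut.toRingAut Φ ((γ' ^ k) y) = (γ' ^ k) (SemilinearAut.toRingAut Φ y)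
      cases k with
      | ofNat n => exact hpos n y
      | negSucc n =>
        rw [zpow_negSucc]
        apply ((γ' ^ (n + 1)).injective)
        rw [← hpos (n + 1), ← AlgEquiv.mul_apply, mul_inv_cancel, ← AlgEquiv.mul_apply (γ' ^ (n+1)),
          mul_inv_cancel]
        rfl
    exact s59n_kumTriv_frob_descend (K := K) (F ≃ₐ[F₀] F) W (fun m hm => hcard m (hcardG ▸ hm))
      (SemilinearAut.toRingAut Φ) (SemilinearAut.toRingAut Φ₀) (SemilinearAut.baseAut Φ₀)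
      (fun a => hΦ a) (fun c => SemilinearAut.smul_algebraMap Φ₀ c) hΦG hΦW p q
      (Nat.pos_of_ne_zero hp) ζp hζp hΦζ hnormW f₀ hf₀.1 htriv
  -- the class
  have h1 : s33d_IsKumGen p (Φ₀ • w - q • w) (Φ₀ • f₀ * (f₀ ^ q)⁻¹) := by
    rw [sub_eq_add_neg]
    exact s59n_kumGen_prod (s33d_kumGen_smul Φ₀ hf₀) (s59n_kumGen_inv (s33l_kumGen_pow hf₀ q))
  exact s59n_mem_kumKer_of_kumGen h1 hdesc

end Class

end Fermat.Agent.Lib.S59
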