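/-
Programme (R) / node [IA′], C7 = (G2), family N (helper7, prefix `s59n_`): **the Frobenius-twisted descent for GENERAL `q`**
(`Φ ζ = ζ ^ q` on the `[F : F₀]`-th roots of unity; no congruence `q ≡ 1 (p)`, no hypothesis `[F : F₀] ∣ q - 1`).  Needed for the
tower: the layers have degrees `p ^ k` with `p ^ k ∤ q₁ - 1` in general (primes of `Bd`).

* `s59n_kum_descent_frobQ` (function level), **`s59n_descent_classQ`** (class level): every `γ`-invariant `z ∈ Pic⁰(F)[p]` has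
  `Φ z - q z = π^* w`, `w ∈ Pic⁰(F₀)[p]`.
-/
import Fermat.Agent.Lib.S59.NUp

set_option autoImplicit false
set_option linter.style.haveILetI false
set_option linter.unusedSectionVars false

noncomputable section

namespace Fermat.Agent.Lib.S59

open AlgebraicCurve Fermat.Agent.Lib.S33 Fermat.Agent.Lib.S37

/-- **the Frobenius-twisted cyclic Kummer descent, general `q`** (function level): `Φ ζ = ζ ^ q` on the `d`-th roots of unity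
(`d = [F : F₀]`), no congruence on `q`.  If the class of `u` in `Fˣ / Kˣ F^{×p}` is `γ`-invariant then
`Φ(u) / u ^ q ∈ F₀ˣ · F^{×p}`. -/
theorem s59n_kum_descent_frobQ {K F₀ F : Type} [Field K] [IsAlgClosed K] [Field F₀] [Field F]
    [Algebra K F₀] [Algebra K F] [Algebra F₀ F] [IsScalarTower K F₀ F]
    [FiniteDimensional F₀ F] [IsGalois F₀ F] [IsCyclic (F ≃ₐ[F₀] F)]
    (γ : F ≃ₐ[F₀] F) (hγ : ∀ g, g ∈ Subgroup.zpowers γ)
    {p : ℕ} (hp : p ≠ 0) {d : ℕ} (hdfin : Module.finrank F₀ F = d) (hγd : γ ^ d = 1)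
    (ζ : K) (hζ : IsPrimitiveRoot ζ d)
    (Φ : F ≃+* F) (Φ₀ : F₀ ≃+* F₀) (hΦ₀ : ∀ x, Φ (algebraMap F₀ F x) = algebraMap F₀ F (Φ₀ x))
    (hΦγ : ∀ y, Φ (γ y) = γ (Φ y)) (q : ℕ) (hΦζ : Φ (algebraMap K F ζ) = algebraMap K F ζ ^ q)
    (u g : F) (c : K) (hu : u ≠ 0) (h : γ u = algebraMap K F c * g ^ p * u) :
    ∃ (f₁ : F₀) (b₁ : F), f₁ ≠ 0 ∧ b₁ ≠ 0 ∧ Φ u * (u ^ q)⁻¹ = algebraMap F₀ F f₁ * b₁ ^ p := by
  have hd0 : 0 < d := by rw [← hdfin]; exact Module.finrank_pos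
  obtain ⟨t, ht0, ht⟩ := s59n_exists_kummer_elt γ hγ hdfin ζ hζ.pow_eq_one
  have hζinv : IsPrimitiveRoot ζ⁻¹ d := hζ.inv
  obtain ⟨b, hb0, j, -, f₀, hf₀, hub⟩ := s59n_kummer_descent_full γ hγ hp hd0 hγd ζ⁻¹ hζinv t ht0 ht
    u g c hu h
  have hΦt0 : Φ t ≠ 0 := (map_ne_zero _).mpr ht0
  have hζF : algebraMap K F ζ ≠ 0 := (map_ne_zero _).mpr (hζ.ne_zero hd0.ne')
  have hΦζinv : Φ (algebraMap K F ζ⁻¹) = (algebraMap K F ζ⁻¹) ^ q := by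
    rw [map_inv₀, map_inv₀, hΦζ, inv_pow]
  have htq0 : t ^ q ≠ 0 := pow_ne_zero q ht0
  have hfix : γ (Φ t / t ^ q) = Φ t / t ^ q := by
    rw [map_div₀, ← hΦγ, ht, map_mul, hΦζinv, map_pow, ht, mul_pow]
    have : algebraMap K F ζ⁻¹ ^ q ≠ 0 := pow_ne_zero q ((map_ne_zero _).mpr (inv_ne_zero (hζ.ne_zero hd0.ne')))
    rw [mul_div_mul_left _ _ this]
  obtain ⟨s, hs⟩ := s59n_mem_range_of_fixed_gen γ hγ _ hfix
  have hs0 : s ≠ 0 := by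
    rintro rfl
    rw [map_zero] at hs
    exact (div_ne_zero hΦt0 htq0) hs.symm
  have hΦf₀ : Φ₀ f₀ ≠ 0 := (map_ne_zero _).mpr hf₀
  have hΦb0 : Φ b ≠ 0 := (map_ne_zero _).mpr hb0
  refine ⟨Φ₀ f₀ * (f₀ ^ q)⁻¹ * s ^ j, (Φ b)⁻¹ * b ^ q, ?_, ?_, ?_⟩
  · exact mul_ne_zero (mul_ne_zero hΦf₀ (inv_ne_zero (pow_ne_zero _ hf₀))) (pow_ne_zero _ hs0)
  · exact mul_ne_zero (inv_ne_zero hΦb0) (pow_ne_zero _ hb0)
  · have hf₀F : algebraMap F₀ F f₀ ≠ 0 := (map_ne_zero _).mpr hf₀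
    have hΦt : Φ t = algebraMap F₀ F s * t ^ q := by rw [hs]; field_simp
    have h1 : Φ u * Φ b ^ p = algebraMap F₀ F (Φ₀ f₀) * (algebraMap F₀ F s * t ^ q) ^ j := by
      rw [← hΦt, ← hΦ₀, ← map_pow, ← map_pow, ← map_mul, ← map_mul, hub]
    have h2q : u ^ q * (b ^ p) ^ q = algebraMap F₀ F f₀ ^ q * (t ^ j) ^ q := by
      rw [← mul_pow, ← mul_pow, hub]
    have key : Φ u * (algebraMap F₀ F f₀ ^ q * Φ b ^ p) =
        (algebraMap F₀ F (Φ₀ f₀) * algebraMap F₀ F s ^ j * (b ^ q) ^ p) * u ^ q := by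
      have e1 : (t ^ q) ^ j = (t ^ j) ^ q := by rw [← pow_mul, ← pow_mul, mul_comm]
      have e2 : (b ^ q) ^ p = (b ^ p) ^ q := by rw [← pow_mul, ← pow_mul, mul_comm]
      rw [mul_pow, e1] at h1
      rw [e2]
      have htjq : (t ^ j) ^ q ≠ 0 := pow_ne_zero _ (pow_ne_zero _ ht0)
      apply mul_right_cancel₀ htjq
      linear_combination (algebraMap F₀ F f₀ ^ q * (t ^ j) ^ q) * h1 -
        (algebraMap F₀ F (Φ₀ f₀) * algebraMap F₀ F s ^ j * (t ^ j) ^ q) * h2q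
    have huq : u ^ q ≠ 0 := pow_ne_zero _ hu
    have hΦbp : Φ b ^ p ≠ 0 := pow_ne_zero _ hΦb0
    have hAq : algebraMap F₀ F f₀ ^ q ≠ 0 := pow_ne_zero _ hf₀F
    rw [mul_inv_eq_iff_eq_mul₀ huq, map_mul, map_mul, map_inv₀, map_pow, map_pow, mul_pow,
      inv_pow]
    field_simp
    linear_combination key

section Class

variable {K F₀ F : Type} [Field K] [IsAlgClosed K] [Field F₀] [Field F] [Algebra K F₀] [Algebra K F]
  [HasPrincipalDivisors K F₀] [HasPrincipalDivisors K F]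
  (ι : F₀ →ₐ[K] F) (hι : ι.toRingHom.IsIntegral) (hFI : FundamentalIdentityAlong K ι hι)

/-- **THE FROBENIUS-TWISTED DESCENT, general `q`.**  As `s59n_descent_class`, with `Φ ζ = ζ ^ q` instead of `Φ ζ = ζ`, `q ≡ 1 (p)`. -/
theorem s59n_descent_classQ (hconst : s33d_ConstOfOrdZero K F)
    (hunr : ∀ w : Place K F, Place.ramificationIndexAlong ι w = 1)
    (hsurjPl : ∀ v : Place K F₀, ∃ w : Place K F, w.restrictAlong ι hι = v)
    (hfin : FiniteAlong K ι) (γ : F ≃ₐ[K] F) (hγι : ∀ x, γ (ι x) = ι x)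
    (hγfix : ∀ y, γ y = y → ∃ x, ι x = y)
    (ζ : K) (hζ : IsPrimitiveRoot ζ (finrankAlong K ι))
    (Φ : SemilinearAut K F) (Φ₀ : SemilinearAut K F₀)
    (hΦ : SemilinearAut.IntertwinesAlong (ι : F₀ →+* F) Φ₀ Φ)
    (hΦγ : ∀ y, Φ • (γ y) = γ (Φ • y)) (q : ℕ) (hΦζ : SemilinearAut.baseAut Φ ζ = ζ ^ q)
    {p : ℕ} (hp : p ≠ 0)
    (z : Pic0 K F) (hz : p • z = 0) (hγz : SemilinearAut.ofAlgAut γ • z = z) :
    ∃ w : Pic0 K F₀, p • w = 0 ∧ s37l_pic0Pullback ι hι hFI w = Φ • z - q • z := by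
  obtain ⟨u, hu⟩ := s33d_exists_kumGen p z hz
  obtain ⟨c, g, -, -, hγu⟩ := s33d_kumGen_fixed hconst (SemilinearAut.ofAlgAut γ) hu hγz
  rw [SemilinearAut.ofAlgAut_smul] at hγu
  obtain ⟨f₁, b₁, hf₁, hb₁, hfb⟩ : ∃ (f₁ : F₀) (b₁ : F), f₁ ≠ 0 ∧ b₁ ≠ 0 ∧
      Φ • u * (u ^ q)⁻¹ = ι f₁ * b₁ ^ p := by
    letI := algebraAlong ι
    haveI := isScalarTower_along ι
    haveI : FiniteDimensional F₀ F := hfin
    let γ' : F ≃ₐ[F₀] F := { γ with commutes' := hγι }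
    obtain ⟨hgal, hgen, hord⟩ := s59n_cyclic_of_fixed γ' (fun y hy => hγfix y hy)
    haveI := hgal
    haveI : IsCyclic (F ≃ₐ[F₀] F) := ⟨⟨γ', hgen⟩⟩
    exact s59n_kum_descent_frobQ γ' hgen hp rfl hord ζ hζ (SemilinearAut.toRingAut Φ)
      (SemilinearAut.toRingAut Φ₀) (fun x => hΦ x) hΦγ q
      (by
        show Φ • algebraMap K F ζ = algebraMap K F ζ ^ q
        rw [SemilinearAut.smul_algebraMap, hΦζ, map_pow])
      u g c hu.1 hγu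
  have h1 : s33d_IsKumGen p (Φ • z - q • z) (Φ • u * (u ^ q)⁻¹) := by
    rw [sub_eq_add_neg]
    exact s59n_kumGen_prod (s33d_kumGen_smul Φ hu) (s59n_kumGen_inv (s33l_kumGen_pow hu q))
  have h2 : s33d_IsKumGen p (Φ • z - q • z) (ι f₁) := by
    have h3 := s33d_kumGen_mul h1 (c := (1 : K)) one_ne_zero (inv_ne_zero hb₁)
    rw [hfb, map_one, one_mul, inv_pow] at h3
    have hb₁p : b₁ ^ p ≠ 0 := pow_ne_zero _ hb₁
    have : (b₁ ^ p)⁻¹ * (ι f₁ * b₁ ^ p) = ι f₁ := by field_simp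
    rwa [this] at h3
  have hdvd : ∀ v : Place K F₀, (p : ℤ) ∣ v.ord f₁ := by
    intro v
    obtain ⟨w, rfl⟩ := hsurjPl v
    obtain ⟨-, D, -, hD⟩ := h2
    have h4 := Place.ord_restrictAlong ι hι w f₁
    rw [hunr w, Nat.cast_one, one_mul] at h4
    rw [← h4, hD w]
    exact Dvd.intro _ rfl
  obtain ⟨w, hw⟩ := s59n_exists_class_of_dvd hp f₁ hf₁ hdvd
  refine ⟨w, s59n_kumGen_tors hw, ?_⟩
  exact s33l_kumGen_class_unique hp (s33l_kumGen_pull ι hι hFI hw) h2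

end Class

end Fermat.Agent.Lib.S59
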