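/-
Programme (R) / node [IA′], C7 = (G2), family N (helper7, prefix `s59n_`): **THE LAYER STEP FOR FUNCTION FIELDS** — the abstract
`NLayer.s59n_layer_step` instantiated with `Pic⁰` of two function fields `ι : F'' → F'` over an algebraically closed `K` of
characteristic zero, the inputs (D), (Σ), (N∞), (N0) being discharged by `NUpQ.s59n_descent_classQ`, `NUp.s59n_ker_pull_galois`
and `NKumDesc.s59n_kumKer_frob_descend`.  What remains as hypotheses is exactly the geometry of the layer: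
finite / unramified / places lift / constants (`hfin hunr hsurjPl hconst`), the diamonds `δ', δ''` (compatible with `ι`, commuting,
`γ = δ' d₀` with fixed field `ι F''`), the Frobenius `Φ'` over `Φ''` (commuting with the diamonds, `ζ ↦ ζ ^ q` on `p`-power roots of
unity), the degree a power of `p`, the Hecke operators (`hπT` from `NLayer.s59n_piT_of_frobQuad`), and the two valuation subrings
`W_∞, W_0` of `F'` (scale, `p` a unit, `Φ' W_∞ = W_∞`, `⟨δ_φ⟩⁻¹ Φ' W_0 = W_0`).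
-/
import Fermat.Agent.Lib.S59.NLayer
import Fermat.Agent.Lib.S59.NUpQ
import Fermat.Agent.Lib.S59.NKumDesc

set_option autoImplicit false
set_option linter.style.haveILetI false
set_option linter.unusedSectionVars false

noncomputable section

namespace Fermat.Agent.Lib.S59

open AlgebraicCurve Fermat.Agent.Lib.S33 Fermat.Agent.Lib.S37
open scoped Pointwise

section Gen

variable {K F : Type*} [Field K] [Field F] [Algebra K F]

/-- semilinear automorphisms as endomorphisms of `Pic⁰`. -/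
abbrev s59n_saE (g : SemilinearAut K F) : AddMonoid.End (Pic0 K F) :=
  DistribMulAction.toAddMonoidEnd (SemilinearAut K F) (Pic0 K F) g

theorem s59n_saE_apply (g : SemilinearAut K F) (z : Pic0 K F) : s59n_saE g z = g • z := rfl

/-- a semilinear automorphism commuting with a `K`-automorphism on functions commutes with it in the group. -/
theorem s59n_sa_comm_of_fun (Φ : SemilinearAut K F) (e : F ≃ₐ[K] F)
    (h : ∀ y, Φ • (e y) = e (Φ • y)) :
    Φ * SemilinearAut.ofAlgAut e = SemilinearAut.ofAlgAut e * Φ := by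
  refine Subtype.ext (Prod.ext (RingEquiv.ext fun y => ?_) ?_)
  · exact h y
  · show SemilinearAut.baseAut (Φ * SemilinearAut.ofAlgAut e) =
      SemilinearAut.baseAut (SemilinearAut.ofAlgAut e * Φ)
    rw [SemilinearAut.baseAut_mul, SemilinearAut.baseAut_mul, SemilinearAut.baseAut_ofAlgAut,
      mul_one, one_mul]

/-- a semilinear automorphism preserving `W` elementwise fixes `W`. -/
theorem s59n_smul_vs_eq (Φ : SemilinearAut K F) (W : ValuationSubring F)
    (h : ∀ y, Φ • y ∈ W ↔ y ∈ W) : Φ • W = W := by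
  ext y
  rw [ValuationSubring.mem_pointwise_smul_iff_inv_smul_mem]
  have := h (Φ⁻¹ • y)
  rw [smul_inv_smul] at this
  exact this.symm

/-- the Kummer kernel of a `Φ`-stable valuation subring is `Φ`-stable. -/
theorem s59n_kumKer_stable (Φ : SemilinearAut K F) (W : ValuationSubring F)
    (h : ∀ y, Φ • y ∈ W ↔ y ∈ W) (p : ℕ) {z : Pic0 K F} (hz : z ∈ s59k_KumKer (K := K) W p) :
    Φ • z ∈ s59k_KumKer (K := K) W p := by
  have := s59k_smul_mem_kumKer hz Φ
  rwa [s59n_smul_vs_eq Φ W h] at this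

end Gen

section LayerFF

variable {K F'' F' : Type} [Field K] [IsAlgClosed K] [CharZero K] [Field F''] [Field F'] [Algebra K F'']
  [Algebra K F'] [HasPrincipalDivisors K F''] [HasPrincipalDivisors K F']
  (ι : F'' →ₐ[K] F') (hι : ι.toRingHom.IsIntegral) (hFI : FundamentalIdentityAlong K ι hι)

/-- the base automorphisms of intertwined semilinear automorphisms agree. -/
theorem s59n_baseAut_eq_of_intertwines (Φ' : SemilinearAut K F') (Φ'' : SemilinearAut K F'')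
    (hΦ : SemilinearAut.IntertwinesAlong (ι : F'' →+* F') Φ'' Φ') (c : K) :
    SemilinearAut.baseAut Φ'' c = SemilinearAut.baseAut Φ' c := by
  have h := hΦ (algebraMap K F'' c)
  have e1 : (ι : F'' →+* F') (algebraMap K F'' c) = algebraMap K F' c := ι.commutes c
  rw [e1, SemilinearAut.smul_algebraMap, SemilinearAut.smul_algebraMap] at h
  have e2 : (ι : F'' →+* F') (algebraMap K F'' (SemilinearAut.baseAut Φ'' c)) =
      algebraMap K F' (SemilinearAut.baseAut Φ'' c) := ι.commutes _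
  rw [e2] at h
  exact ((algebraMap K F').injective h).symm

variable {I κ : Type*}

/-- **THE LAYER STEP FOR FUNCTION FIELDS** (generic `Pic⁰`; all geometric inputs are named hypotheses). -/
theorem s59n_layer_ff
    (hconst'' : s33d_ConstOfOrdZero K F'') (hconst' : s33d_ConstOfOrdZero K F')
    (hunr : ∀ w : Place K F', Place.ramificationIndexAlong ι w = 1)
    (hsurjPl : ∀ v : Place K F'', ∃ w : Place K F', w.restrictAlong ι hι = v)
    (hfin : FiniteAlong K ι)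
    (δ' : I → F' ≃ₐ[K] F') (δ'' : I → F'' ≃ₐ[K] F'')
    (hδι : ∀ d x, δ' d (ι x) = ι (δ'' d x))
    (hδ'comm : ∀ d d' y, δ' d (δ' d' y) = δ' d' (δ' d y))
    (d₀ : I) (hγι : ∀ x, δ' d₀ (ι x) = ι x) (hγfix : ∀ y, δ' d₀ y = y → ∃ x, ι x = y)
    (Φ' : SemilinearAut K F') (Φ'' : SemilinearAut K F'')
    (hΦ : SemilinearAut.IntertwinesAlong (ι : F'' →+* F') Φ'' Φ')
    (hΦδ' : ∀ d y, Φ' • (δ' d y) = δ' d (Φ' • y)) (hΦδ'' : ∀ d x, Φ'' • (δ'' d x) = δ'' d (Φ'' • x))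
    {p : ℕ} (hpr : p.Prime) (q : ℕ)
    (hdeg : finrankAlong K ι ∣ p)
    (hroots : ∀ ζ : K, ζ ^ p = 1 → SemilinearAut.baseAut Φ' ζ = ζ ^ q)
    (T' : κ → AddMonoid.End (Pic0 K F')) (T'' : κ → AddMonoid.End (Pic0 K F'')) (a : κ → ℤ)
    (hT'Φ : ∀ k z, T' k (Φ' • z) = Φ' • (T' k z)) (hT''Φ : ∀ k w, T'' k (Φ'' • w) = Φ'' • (T'' k w))
    (hT'D' : ∀ k d z, p • z = 0 → SemilinearAut.ofAlgAut (δ' d) • (T' k z) =
      T' k (SemilinearAut.ofAlgAut (δ' d) • z))
    (hπT : ∀ (k : κ) (w : Pic0 K F''), p • w = 0 →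
      (∀ d, SemilinearAut.ofAlgAut (δ' d) • (s37l_pic0Pullback ι hι hFI w) = s37l_pic0Pullback ι hι hFI w) →
      s37l_pic0Pullback ι hι hFI (T'' k w) = T' k (s37l_pic0Pullback ι hι hFI w))
    (α β : ℤ) (hαβ : IsCoprime ((q : ℤ) ^ 2 - α * (q : ℤ) + β) (p : ℤ))
    (Winf Wzero : ValuationSubring F')
    (hnorminf : ∀ f : F', f ≠ 0 → ∃ c : K, c ≠ 0 ∧ Winf.valuation (f * (algebraMap K F' c)⁻¹) = 1)
    (hnormzero : ∀ f : F', f ≠ 0 → ∃ c : K, c ≠ 0 ∧ Wzero.valuation (f * (algebraMap K F' c)⁻¹) = 1)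
    (hpinf : Winf.valuation ((p : ℕ) : F') = 1) (hpzero : Wzero.valuation ((p : ℕ) : F') = 1)
    (hΦWinf : ∀ y, Φ' • y ∈ Winf ↔ y ∈ Winf) (δφ : I)
    (hΦWzero : ∀ y, ((SemilinearAut.ofAlgAut (δ' δφ))⁻¹ * Φ') • y ∈ Wzero ↔ y ∈ Wzero)
    (hbot : ∀ w : Pic0 K F'', s59n_Y (s59n_saE Φ'') (fun d => s59n_saE (SemilinearAut.ofAlgAut (δ'' d))) T'' a
      p α β (s59k_KumKer (K := K) (Winf.comap (ι : F'' →+* F')) p)
      (s59k_KumKer (K := K) (Wzero.comap (ι : F'' →+* F')) p) w → w = 0) :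
    ∀ z : Pic0 K F', s59n_Y (s59n_saE Φ') (fun d => s59n_saE (SemilinearAut.ofAlgAut (δ' d))) T' a
      p α β (s59k_KumKer (K := K) Winf p) (s59k_KumKer (K := K) Wzero p) z → z = 0 := by
  classical
  have hp : p ≠ 0 := hpr.ne_zero
  -- group-level commutations
  have hcomm' : ∀ d, Φ' * SemilinearAut.ofAlgAut (δ' d) = SemilinearAut.ofAlgAut (δ' d) * Φ' :=
    fun d => s59n_sa_comm_of_fun Φ' (δ' d) (hΦδ' d)
  have hcomm'' : ∀ d, Φ'' * SemilinearAut.ofAlgAut (δ'' d) = SemilinearAut.ofAlgAut (δ'' d) * Φ'' :=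
    fun d => s59n_sa_comm_of_fun Φ'' (δ'' d) (hΦδ'' d)
  have hD'Φ : ∀ d (z : Pic0 K F'), SemilinearAut.ofAlgAut (δ' d) • (Φ' • z) =
      Φ' • (SemilinearAut.ofAlgAut (δ' d) • z) := by
    intro d z
    rw [← mul_smul, ← mul_smul, hcomm']
  have hD''Φ : ∀ d (w : Pic0 K F''), SemilinearAut.ofAlgAut (δ'' d) • (Φ'' • w) =
      Φ'' • (SemilinearAut.ofAlgAut (δ'' d) • w) := by
    intro d w
    rw [← mul_smul, ← mul_smul, hcomm'']
  -- intertwining of the diamonds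
  have hδint : ∀ d, SemilinearAut.IntertwinesAlong (ι : F'' →+* F')
      (SemilinearAut.ofAlgAut (δ'' d)) (SemilinearAut.ofAlgAut (δ' d)) := by
    intro d x
    rw [SemilinearAut.ofAlgAut_smul, SemilinearAut.ofAlgAut_smul]
    exact hδι d x
  have hbase : ∀ c : K, SemilinearAut.baseAut Φ'' c = SemilinearAut.baseAut Φ' c :=
    s59n_baseAut_eq_of_intertwines ι Φ' Φ'' hΦ
  -- roots of unity
  have hp0 : ((p : ℕ) : K) ≠ 0 := Nat.cast_ne_zero.mpr hp
  obtain ⟨ζp, hζp⟩ : ∃ ζp : K, IsPrimitiveRoot ζp p := by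
    haveI : NeZero ((p : ℕ) : K) := ⟨hp0⟩
    exact HasEnoughRootsOfUnity.exists_primitiveRoot K p
  have hΦζp : SemilinearAut.baseAut Φ' ζp = ζp ^ q := hroots ζp hζp.pow_eq_one
  have hdeg0 : finrankAlong K ι ≠ 0 := fun h0 => hp (Nat.eq_zero_of_zero_dvd (h0 ▸ hdeg))
  obtain ⟨ζd, hζd⟩ : ∃ ζd : K, IsPrimitiveRoot ζd (finrankAlong K ι) := by
    haveI : NeZero ((finrankAlong K ι : ℕ) : K) := ⟨Nat.cast_ne_zero.mpr hdeg0⟩
    exact HasEnoughRootsOfUnity.exists_primitiveRoot K (finrankAlong K ι)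
  have hΦζd : SemilinearAut.baseAut Φ' ζd = ζd ^ q := by
    obtain ⟨e, he⟩ := hdeg
    refine hroots ζd ?_
    rw [he, pow_mul, hζd.pow_eq_one, one_pow]
  -- the stability of the valuation subrings downstairs
  have hΦWinf'' : ∀ x, Φ'' • x ∈ Winf.comap (ι : F'' →+* F') ↔ x ∈ Winf.comap (ι : F'' →+* F') := by
    intro x
    rw [ValuationSubring.mem_comap, ValuationSubring.mem_comap, ← hΦ x]
    exact hΦWinf _
  have hνint : SemilinearAut.IntertwinesAlong (ι : F'' →+* F')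
      ((SemilinearAut.ofAlgAut (δ'' δφ))⁻¹ * Φ'') ((SemilinearAut.ofAlgAut (δ' δφ))⁻¹ * Φ') :=
    (hδint δφ).inv.mul hΦ
  have hΦWzero'' : ∀ x, ((SemilinearAut.ofAlgAut (δ'' δφ))⁻¹ * Φ'') • x ∈ Wzero.comap (ι : F'' →+* F') ↔
      x ∈ Wzero.comap (ι : F'' →+* F') := by
    intro x
    rw [ValuationSubring.mem_comap, ValuationSubring.mem_comap, ← hνint x]
    exact hΦWzero _
  -- `ν z = Φ z` on invariants
  have hν' : ∀ z : Pic0 K F', (∀ d, SemilinearAut.ofAlgAut (δ' d) • z = z) →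
      ((SemilinearAut.ofAlgAut (δ' δφ))⁻¹ * Φ') • z = Φ' • z := by
    intro z hz
    rw [mul_smul, inv_smul_eq_iff, hD'Φ, hz]
  have hν'' : ∀ w : Pic0 K F'', (∀ d, SemilinearAut.ofAlgAut (δ'' d) • w = w) →
      ((SemilinearAut.ofAlgAut (δ'' δφ))⁻¹ * Φ'') • w = Φ'' • w := by
    intro w hw
    rw [mul_smul, inv_smul_eq_iff, hD''Φ, hw]
  have hcard : ∀ (W : ValuationSubring F'), W.valuation ((p : ℕ) : F') = 1 →
      ∀ m : ℕ, m ∣ finrankAlong K ι → W.valuation ((m : ℕ) : F') = 1 := by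
    intro W hW m hm
    rcases (Nat.dvd_prime hpr).mp (hm.trans hdeg) with rfl | rfl
    · rw [Nat.cast_one, map_one]
    · exact hW
  -- `ν` commutes with `γ`
  have hνγ : ∀ y, ((SemilinearAut.ofAlgAut (δ' δφ))⁻¹ * Φ') • (δ' d₀ y) =
      δ' d₀ (((SemilinearAut.ofAlgAut (δ' δφ))⁻¹ * Φ') • y) := by
    intro y
    rw [mul_smul, mul_smul, hΦδ', SemilinearAut.inv_smul_def, SemilinearAut.inv_smul_def,
      SemilinearAut.toRingAut_ofAlgAut]
    show (δ' δφ).symm (δ' d₀ (Φ' • y)) = δ' d₀ ((δ' δφ).symm (Φ' • y))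
    apply (δ' δφ).injective
    rw [AlgEquiv.apply_symm_apply, hδ'comm, AlgEquiv.apply_symm_apply]
  refine s59n_layer_step (s37l_pic0Pullback ι hι hFI) (s59n_saE Φ') (s59n_saE Φ'')
    (fun w => s37l_pic0Pullback_smul ι hι hFI Φ'' Φ' hΦ w)
    (fun d => s59n_saE (SemilinearAut.ofAlgAut (δ' d))) (fun d => s59n_saE (SemilinearAut.ofAlgAut (δ'' d)))
    (fun d w => s37l_pic0Pullback_smul ι hι hFI _ _ (hδint d) w)
    hD'Φ hD''Φ T' T'' a hT'Φ hT''Φ p q α β hαβ hT'D'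
    (s59k_KumKer (K := K) Winf p) (s59k_KumKer (K := K) Wzero p)
    (s59k_KumKer (K := K) (Winf.comap (ι : F'' →+* F')) p)
    (s59k_KumKer (K := K) (Wzero.comap (ι : F'' →+* F')) p)
    (fun z hz => s59n_kumKer_stable Φ' Winf hΦWinf p hz)
    (fun z hz hD => by
      have := s59n_kumKer_stable _ Wzero hΦWzero p hz
      rwa [hν' z hD] at this)
    (fun w hw => s59n_kumKer_stable Φ'' _ hΦWinf'' p hw)
    (fun w hw hD => by
      have := s59n_kumKer_stable _ _ hΦWzero'' p hw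
      rwa [hν'' w hD] at this)
    d₀
    (fun z hz hγz => s59n_descent_classQ ι hι hFI hconst' hunr hsurjPl hfin (δ' d₀) hγι hγfix ζd hζd
      Φ' Φ'' hΦ (hΦδ' d₀) q hΦζd hp z hz hγz)
    (fun w hw hπw => s59n_ker_pull_galois ι hι hFI hconst'' hconst' hfin (δ' d₀) hγι hγfix hp ζp hζp
      Φ' Φ'' hΦ (hΦδ' d₀) q hΦζp w hw hπw)
    (fun w hw hπw => s59n_kumKer_frob_descend ι hι hFI hconst' hfin (δ' d₀) hγι hγfix Φ' Φ'' hΦ
      (hΦδ' d₀) hp q ζp hζp (by rw [hbase]; exact hΦζp) Winf hΦWinf (hcard Winf hpinf) hnorminf w hw hπw)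
    (fun w hw hD hπw => by
      have h := s59n_kumKer_frob_descend ι hι hFI hconst' hfin (δ' d₀) hγι hγfix
        ((SemilinearAut.ofAlgAut (δ' δφ))⁻¹ * Φ') ((SemilinearAut.ofAlgAut (δ'' δφ))⁻¹ * Φ'') hνint hνγ hp q
        ζp hζp (by
          show SemilinearAut.baseAut Φ'' ζp = ζp ^ q
          rw [hbase]
          exact hΦζp)
        Wzero hΦWzero (hcard Wzero hpzero) hnormzero w hw hπw
      rwa [hν'' w hD] at h)
    hπT hbot

end LayerFF

end Fermat.Agent.Lib.S59
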