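import Fermat.Agent.Lib.S59.NTopBr
import Fermat.Agent.Lib.S59.NG2c
import Fermat.Agent.Lib.S59.NStart
import Fermat.Agent.Lib.S59.MUpFix

/-
NTop (helper7): (G2) at the top of the tower, level M q over the algebraic closure.  s59n_inertia_conj, s59n_inertia_le,
s59n_stab_inf, s59n_stab_zero (the two Gauss valuation subrings are stable under the decomposition group) and
s59n_top_core: a p-torsion class, generalised eigenvector of a Galois-equivariant family containing a non-Eisenstein Hecke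
operator, lying in both Kummer kernels, vanishes (inertia-fixed classes via s59m_Ifix, the bridge NTopBr, and NG2c).
-/

set_option autoImplicit false
set_option linter.style.haveILetI false
set_option linter.unusedSectionVars false
set_option synthInstance.maxHeartbeats 400000

noncomputable section

namespace Fermat.Agent.Lib.S59

open ModularCurve AlgebraicCurve HahnSeries Fermat.Agent.Lib.FF Fermat.Agent.Lib.S18
  Fermat.Agent.Lib.S34 Fermat.Agent.Lib.S37 Fermat.Agent.Lib.S33 Fermat.Agent.Lib.S35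
  Fermat.Agent.Lib.S44 Fermat.Agent.Lib.Frey Fermat.Agent.Lib.S30 Fermat.Agent.Lib.S29
open scoped Pointwise

local notation "Kb" => AlgebraicClosure ℚ
local notation "Γℚ" => (AlgebraicClosure ℚ ≃ₐ[ℚ] AlgebraicClosure ℚ)

/-! ### Decomposition and inertia -/

theorem s59n_inertia_conj (A : ValuationSubring Kb) {g τ : Γℚ}
    (hg : g ∈ A.decompositionSubgroup ℚ) (hτ : τ ∈ A.inertiaSubgroupIn ℚ) :
    g * τ * g⁻¹ ∈ A.inertiaSubgroupIn ℚ := by
  obtain ⟨t, ht, rfl⟩ := Subgroup.mem_map.mp hτ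
  refine Subgroup.mem_map.mpr ⟨⟨g, hg⟩ * t * ⟨g, hg⟩⁻¹, ?_, rfl⟩
  have hn : (A.inertiaSubgroup ℚ).Normal := by
    unfold ValuationSubring.inertiaSubgroup
    infer_instance
  exact hn.conj_mem t ht ⟨g, hg⟩

theorem s59n_inertia_conj' (A : ValuationSubring Kb) {g τ : Γℚ}
    (hg : g ∈ A.decompositionSubgroup ℚ) (hτ : τ ∈ A.inertiaSubgroupIn ℚ) :
    g⁻¹ * τ * g ∈ A.inertiaSubgroupIn ℚ := by
  have := s59n_inertia_conj A ((A.decompositionSubgroup ℚ).inv_mem hg) hτ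
  rwa [inv_inv] at this

theorem s59n_inertia_le (A : ValuationSubring Kb) :
    A.inertiaSubgroupIn ℚ ≤ A.decompositionSubgroup ℚ := by
  intro σ hσ
  obtain ⟨g, -, rfl⟩ := Subgroup.mem_map.mp hσ
  exact g.2

/-! ### Stability of the two valuation subrings under the decomposition group -/

section Stab

variable (N : ℕ) [NeZero N] (P : ValuationSubring Kb)

/-- the Gauss ring at `∞` is stable under the decomposition group. -/
theorem s59n_stab_inf (Winf : ValuationSubring (ffi_F N))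
    (hWinf : ∀ f : ffi_F N, f ∈ Winf ↔ (f : LaurentSeries Kb) ∈ s37r_O P (IsLocalRing.residue ↥P))
    {τ : Γℚ} (hτ : τ ∈ P.decompositionSubgroup ℚ) (y : ffi_F N) :
    arithmeticGalois (modularFunctionFieldFull N) τ • y ∈ Winf ↔ y ∈ Winf := by
  have key : ∀ (τ : Γℚ), τ ∈ P.decompositionSubgroup ℚ → ∀ y : ffi_F N, y ∈ Winf →
      arithmeticGalois (modularFunctionFieldFull N) τ • y ∈ Winf := by
    intro τ hτ y hy
    rw [hWinf] at hy ⊢
    rw [coe_arithmeticGalois_smul]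
    exact s59n_coeffMap_mem_O P τ.toRingEquiv (fun a ha => ford_decomposition_mem P τ hτ a ha) hy
  constructor
  · intro h
    have := key τ⁻¹ ((P.decompositionSubgroup ℚ).inv_mem hτ) _ h
    rwa [map_inv, inv_smul_smul] at this
  · exact key τ hτ y

end Stab

section StabZero

variable (M q : ℕ) [NeZero M] [hq : Fact q.Prime] (hqM : ¬ q ∣ M) (P : ValuationSubring Kb)

/-- the Gauss ring at `0` is stable under the decomposition group. -/
theorem s59n_stab_zero (Wzero : ValuationSubring (ffi_F (M * q)))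
    (hWzero : ∀ f : ffi_F (M * q), f ∈ Wzero ↔
      ((s37w_al M q hq.out hqM f : ffi_F (M * q)) : LaurentSeries Kb) ∈
        s37r_O P (IsLocalRing.residue ↥P))
    {τ : Γℚ} (hτ : τ ∈ P.decompositionSubgroup ℚ) (y : ffi_F (M * q)) :
    arithmeticGalois (modularFunctionFieldFull (M * q)) τ • y ∈ Wzero ↔ y ∈ Wzero := by
  haveI : NeZero q := ⟨hq.out.ne_zero⟩
  have key : ∀ (τ : Γℚ), τ ∈ P.decompositionSubgroup ℚ → ∀ y : ffi_F (M * q), y ∈ Wzero →
      arithmeticGalois (modularFunctionFieldFull (M * q)) τ • y ∈ Wzero := by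
    intro τ hτ y hy
    rw [hWzero] at hy ⊢
    rw [← s59m_gal_al M q hq.out hqM τ y, coe_arithmeticGalois_smul]
    exact s59n_coeffMap_mem_O P τ.toRingEquiv (fun a ha => ford_decomposition_mem P τ hτ a ha) hy
  constructor
  · intro h
    have := key τ⁻¹ ((P.decompositionSubgroup ℚ).inv_mem hτ) _ h
    rwa [map_inv, inv_smul_smul] at this
  · exact key τ hτ y

end StabZero

/-! ### The top of the tower: level `Γ₀(M q)` -/

section Core

variable (M q : ℕ) [NeZero M] [hq : Fact q.Prime] (hqM : ¬ q ∣ M) (h5 : 5 ≤ q)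
  {p : ℕ} (hp : p.Prime) (hp5 : 5 ≤ p) (hpq : p ≠ q)
  (P : ValuationSubring Kb) (hP : P.LiesOverPrime q)
  (ℓ₀ : Nat.Primes) (hℓ₀ : ¬ (ℓ₀ : ℕ) ∣ M * q)
  {κ : Type*} (T : κ → AddMonoid.End (JZero (M * q))) (a : κ → ℤ) (k₀ : κ)
  (hTG : ∀ (k : κ) (σ : Γℚ) (w : JZero (M * q)), T k (σ • w) = σ • T k w)
  (hT₀ : ∀ w : JZero (M * q), p • w = 0 → T k₀ w = heckeOperatorBar (M * q) ℓ₀ w)
  (ha₀ : IsCoprime ((((ℓ₀ : ℕ) + 1 : ℕ) : ℤ) - a k₀) (p : ℤ))
  (Winf Wzero : ValuationSubring (ffi_F (M * q)))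
  (hWinf : ∀ f : ffi_F (M * q), f ∈ Winf ↔
    (f : LaurentSeries Kb) ∈ s37r_O P (IsLocalRing.residue ↥P))
  (hWzero : ∀ f : ffi_F (M * q), f ∈ Wzero ↔
    ((s37w_al M q hq.out hqM f : ffi_F (M * q)) : LaurentSeries Kb) ∈
      s37r_O P (IsLocalRing.residue ↥P))

include h5 hp hp5 hpq hP hℓ₀ hTG hT₀ ha₀ hWinf hWzero in
/-- **(G2) AT THE TOP OF THE TOWER**: a `p`-torsion class of `J₀(M q)`, generalised eigenvector of a Galois-equivariant family
containing a non-Eisenstein `T_ℓ₀`, lying in the Kummer kernels of the two Gauss valuation subrings, vanishes, provided the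
quadratic Frobenius operator is nilpotent on all such classes. -/
theorem s59n_top_core {σ : Γℚ} (hσ : P.IsFrobeniusAt σ q) (tr dt : ℤ)
    (hcop : IsCoprime (((q : ℤ) ^ 2 + dt) ^ 2 - tr ^ 2 * (q : ℤ) ^ 2) (p : ℤ))
    (hnil : ∀ w : JZero (M * q), p • w = 0 →
      (∀ k : κ, ∃ N : ℕ, ((T k - (a k : AddMonoid.End (JZero (M * q)))) ^ N) w = 0) →
      ∃ N : ℕ, (fun z : JZero (M * q) => σ • σ • z - tr • σ • z + dt • z)^[N] w = 0)
    (z : JZero (M * q)) (hz : p • z = 0)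
    (hzT : ∀ k : κ, ∃ N : ℕ, ((T k - (a k : AddMonoid.End (JZero (M * q)))) ^ N) z = 0)
    (hzi : z ∈ s59k_KumKer (K := Kb) Winf p) (hzz : z ∈ s59k_KumKer (K := Kb) Wzero p) : z = 0 := by
  classical
  haveI : NeZero q := ⟨hq.out.ne_zero⟩
  by_contra hne
  have hp0 : p ≠ 0 := hp.ne_zero
  have hp2 : p ≠ 2 := by omega
  have hp6 : p.Coprime 6 := by
    have h2 : p.Coprime 2 := (Nat.coprime_primes hp Nat.prime_two).mpr (by omega)
    have h3 : p.Coprime 3 := (Nat.coprime_primes hp Nat.prime_three).mpr (by omega)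
    exact Nat.Coprime.mul_right h2 h3
  have hqp : ¬ q ∣ p := fun h => hpq ((Nat.prime_dvd_prime_iff_eq hq.out hp).mp h).symm
  have hsw : ∀ (g : Γℚ) (x : JZero (M * q)), p • (g • x) = g • (p • x) :=
    fun g x => (map_nsmul (DistribSMul.toAddMonoidHom (JZero (M * q)) g) p x).symm
  have hs0 : ∀ g : Γℚ, g • (0 : JZero (M * q)) = 0 := fun g =>
    map_zero (DistribSMul.toAddMonoidHom (JZero (M * q)) g)
  have hsadd : ∀ (g : Γℚ) (x y : JZero (M * q)), g • (x + y) = g • x + g • y := fun g x y =>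
    map_add (DistribSMul.toAddMonoidHom (JZero (M * q)) g) x y
  have hsneg : ∀ (g : Γℚ) (x : JZero (M * q)), g • (-x) = -(g • x) := fun g x =>
    map_neg (DistribSMul.toAddMonoidHom (JZero (M * q)) g) x
  -- the subgroup `V`
  set V : AddSubgroup (JZero (M * q)) :=
    s59n_tors (JZero (M * q)) p ⊓
      (⨅ k : κ, s59n_genKer (T k - (a k : AddMonoid.End (JZero (M * q))))) ⊓
      s59k_KumKer (K := Kb) Winf p ⊓ s59k_KumKer (K := Kb) Wzero p with hV
  have hVmem : ∀ w : JZero (M * q), w ∈ V ↔ p • w = 0 ∧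
      (∀ k : κ, ∃ N : ℕ, ((T k - (a k : AddMonoid.End (JZero (M * q)))) ^ N) w = 0) ∧
      w ∈ s59k_KumKer (K := Kb) Winf p ∧ w ∈ s59k_KumKer (K := Kb) Wzero p := by
    intro w
    constructor
    · rintro ⟨⟨⟨h1, h2⟩, h3⟩, h4⟩
      exact ⟨h1, fun k => (AddSubgroup.mem_iInf.mp h2) k, h3, h4⟩
    · rintro ⟨h1, h2, h3, h4⟩
      exact ⟨⟨⟨h1, AddSubgroup.mem_iInf.mpr h2⟩, h3⟩, h4⟩
  -- stability under the decomposition group
  have hVD : ∀ τ ∈ P.decompositionSubgroup ℚ, ∀ w ∈ V, τ • w ∈ V := by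
    intro τ hτ w hw
    rw [hVmem] at hw ⊢
    obtain ⟨h1, h2, h3, h4⟩ := hw
    refine ⟨by rw [hsw, h1]; exact hs0 τ, fun k => ?_, ?_, ?_⟩
    · exact s59n_genKer_stable (DistribMulAction.toAddMonoidEnd Γℚ (JZero (M * q)) τ) (T k) (a k) p
        (fun x _ => (hTG k τ x).symm) h1 (h2 k)
    · rw [galois_smul_pic0_def]
      exact s59n_kumKer_stable _ Winf (fun y => s59n_stab_inf (M * q) P Winf hWinf hτ y) p h3
    · rw [galois_smul_pic0_def]
      exact s59n_kumKer_stable _ Wzero (fun y => s59n_stab_zero M q hqM P Wzero hWzero hτ y) p h4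
  have hVp : ∀ w ∈ V, p • w = 0 := fun w hw => ((hVmem w).mp hw).1
  -- a non-zero inertia-fixed class
  have hq2 : ¬ q ^ 2 ∣ M * q := by
    intro h
    rw [pow_two] at h
    exact hqM (Nat.dvd_of_mul_dvd_mul_right hq.out.pos h)
  obtain ⟨w₀, hw₀V, hw₀ne, hw₀I⟩ := s59m_Ifix (M * q) hq.out (dvd_mul_left q M) hq2 P hP hp hp2 hpq V hVp
    (fun w hw τ hτ => hVD τ (s59n_inertia_le P hτ) w hw) ⟨z, (hVmem z).mpr ⟨hz, hzT, hzi, hzz⟩, hne⟩
  -- the inertia-fixed part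
  let W : AddSubgroup (JZero (M * q)) :=
    { carrier := {w | w ∈ V ∧ ∀ τ ∈ P.inertiaSubgroupIn ℚ, τ • w = w}
      zero_mem' := ⟨V.zero_mem, fun τ _ => hs0 τ⟩
      add_mem' := fun {x y} hx hy => ⟨V.add_mem hx.1 hy.1, fun τ hτ => by
        rw [hsadd, hx.2 τ hτ, hy.2 τ hτ]⟩
      neg_mem' := fun {x} hx => ⟨V.neg_mem hx.1, fun τ hτ => by rw [hsneg, hx.2 τ hτ]⟩ }
  have hWmem : ∀ w, w ∈ W ↔ w ∈ V ∧ ∀ τ ∈ P.inertiaSubgroupIn ℚ, τ • w = w := fun w => Iff.rfl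
  -- the bigger `T_{k₀}`-stable subgroup
  let W' : AddSubgroup (JZero (M * q)) :=
    { carrier := {w | p • w = 0 ∧ w ∈ s59n_genKer (T k₀ - (a k₀ : AddMonoid.End (JZero (M * q)))) ∧
        ∀ τ ∈ P.inertiaSubgroupIn ℚ, τ • w = w}
      zero_mem' := ⟨(s59n_tors (JZero (M * q)) p).zero_mem, AddSubgroup.zero_mem _, fun τ _ => hs0 τ⟩
      add_mem' := fun {x y} hx hy => ⟨(s59n_tors (JZero (M * q)) p).add_mem hx.1 hy.1,
        AddSubgroup.add_mem _ hx.2.1 hy.2.1, fun τ hτ => by rw [hsadd, hx.2.2 τ hτ, hy.2.2 τ hτ]⟩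
      neg_mem' := fun {x} hx => ⟨(s59n_tors (JZero (M * q)) p).neg_mem hx.1, AddSubgroup.neg_mem _ hx.2.1,
        fun τ hτ => by rw [hsneg, hx.2.2 τ hτ]⟩ }
  have hW'T : ∀ s ∈ W', T k₀ s ∈ W' := by
    rintro s ⟨h1, ⟨N, hN⟩, h3⟩
    refine ⟨by rw [← map_nsmul, h1, map_zero], ⟨N, ?_⟩, fun τ hτ => by rw [← hTG, h3 τ hτ]⟩
    have hc : ∀ y, (T k₀ - (a k₀ : AddMonoid.End (JZero (M * q)))) (T k₀ y) =
        T k₀ ((T k₀ - (a k₀ : AddMonoid.End (JZero (M * q)))) y) := by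
      intro y
      rw [s59n_end_sub_apply, s59n_end_sub_apply, s59n_intCast_end_apply, s59n_intCast_end_apply,
        map_sub, map_zsmul]
    rw [s59n_pow_comm_apply _ _ hc, hN, map_zero]
  have hfin : ∀ w ∈ W, s59n_Finite M q p hqM P w := by
    intro w hw
    obtain ⟨hwV, hwI⟩ := hw
    obtain ⟨h1, h2, -, -⟩ := (hVmem w).mp hwV
    obtain ⟨N, hN⟩ := h2 k₀
    obtain ⟨w', hw', e, -⟩ := s59n_surj_of_genEig (T k₀) (a k₀) ((((ℓ₀ : ℕ) + 1 : ℕ) : ℤ)) p ha₀ W'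
      (fun s hs => hs.1) hW'T N w ⟨h1, ⟨N, hN⟩, hwI⟩ hN
    rw [hT₀ w' hw'.1] at e
    rw [← e]
    exact s59n_fin_elt_I M q hqM h5 p hp0 hp6 P hP ℓ₀ hℓ₀ w' hw'.1 hw'.2.2
  have hσD : σ ∈ P.decompositionSubgroup ℚ := hσ.mem_decompositionSubgroup
  have hWσ : ∀ w ∈ W, σ • w ∈ W := by
    intro w hw
    refine ⟨hVD σ hσD w hw.1, fun τ hτ => ?_⟩
    have h1 := hw.2 (σ⁻¹ * τ * σ) (s59n_inertia_conj' P hσD hτ)
    rw [mul_smul, mul_smul] at h1
    have h2 := congrArg (fun x => σ • x) h1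
    simp only [smul_inv_smul] at h2
    exact h2
  have key := s59n_G2_down_fin M q hqM h5 p hp0 hqp P hP W (fun w hw => hVp w hw.1) hfin
    (fun w hw => s59n_kerInf_of_kumKer M q p hqM P Winf hWinf ((hVmem w).mp hw.1).2.2.1)
    (fun w hw => s59n_kerZero_of_kumKer M q p hqM P Wzero hWzero ((hVmem w).mp hw.1).2.2.2)
    hσ hWσ tr dt hcop
    (fun w hw => hnil w (hVp w hw.1) ((hVmem w).mp hw.1).2.1)
  exact hw₀ne (key w₀ ⟨hw₀V, hw₀I⟩)

end Core

end Fermat.Agent.Lib.S59
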