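import Fermat.Agent.Lib.S59.NKer
import Fermat.Agent.Lib.S59.KGauss
import Fermat.Agent.Lib.S59.MSoft
import Fermat.Agent.Lib.S37.RTop

/-
NTopBr (helper7): the bridge, at the top of the tower, from the Kummer kernels of the two Gauss valuation subrings of
the function field of level M q over the algebraic closure (cut out by the top-level Gauss ring s37r_O, at the cusp infinity and,
after the Atkin-Lehner involution, at the cusp zero) to the finite-level kernels s59n_KerInf and s59n_KerZero.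
s59n_coeffMap_mem_O, s59n_inv_mem_O, s59n_oneUnit_theta, s59n_level_unit, s59n_exists_oneUnit_gen,
s59n_kerInf_of_kumKer, s59n_kerZero_of_kumKer.
-/

set_option autoImplicit false
set_option linter.style.haveILetI false
set_option linter.unusedSectionVars false
set_option synthInstance.maxHeartbeats 400000

noncomputable section

namespace Fermat.Agent.Lib.S59

open ModularCurve AlgebraicCurve HahnSeries Fermat.Agent.Lib.FF Fermat.Agent.Lib.S18
  Fermat.Agent.Lib.S34 Fermat.Agent.Lib.S37 Fermat.Agent.Lib.S33 Fermat.Agent.Lib.S35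
  Fermat.Agent.Lib.S44 Fermat.Agent.Lib.Frey

local notation "Kb" => AlgebraicClosure ℚ
local notation "Γℚ" => (AlgebraicClosure ℚ ≃ₐ[ℚ] AlgebraicClosure ℚ)

/-! ### The Gauss ring and the decomposition group -/

section Gauss

variable {L : Type*} [Field L] (A : ValuationSubring L)

/-- the coefficientwise action of an automorphism preserving `A` preserves the Gauss ring. -/
theorem s59n_coeffMap_mem_O (τ : L ≃+* L) (hτA : ∀ a ∈ A, τ a ∈ A) {y : LaurentSeries L}
    (hy : y ∈ s37r_O A (IsLocalRing.residue ↥A)) :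
    coeffMap (τ : L →+* L) y ∈ s37r_O A (IsLocalRing.residue ↥A) := by
  obtain ⟨P, Q, hQ, h⟩ := hy
  refine ⟨coeffMap (s59k_tauA τ hτA) P, coeffMap (s59k_tauA τ hτA) Q, ?_, ?_⟩
  · intro h0
    apply hQ
    ext n
    have h1 := congrArg (fun z : LaurentSeries _ => z.coeff n) h0
    simp only [coeffMap_coeff, HahnSeries.coeff_zero] at h1 ⊢
    -- `residue (τ_A (Q_n)) = 0 → residue (Q_n) = 0`
    by_contra hne
    have hu : IsUnit (Q.coeff n) := by
      by_contra hnu
      exact hne ((IsLocalRing.residue_eq_zero_iff _).mpr hnu)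
    have hu' : IsUnit (s59k_tauA τ hτA (Q.coeff n)) := hu.map _
    exact ((IsLocalRing.residue_eq_zero_iff _).mp h1) hu'
  · rw [s59k_subtype_tauA, s59k_subtype_tauA, ← map_mul, h]

/-- an element of the Gauss ring with non-zero reduction is a unit. -/
theorem s59n_inv_mem_O {y : LaurentSeries L} (hy : y ∈ s37r_O A (IsLocalRing.residue ↥A))
    (hred : s37r_red A (IsLocalRing.residue ↥A) ⟨y, hy⟩ ≠ 0) :
    y⁻¹ ∈ s37r_O A (IsLocalRing.residue ↥A) := by
  obtain ⟨P, Q, hQ, h⟩ := id hy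
  rw [s37r_red_eq A _ ⟨y, hy⟩ P Q hQ h] at hred
  have hP : coeffMap (IsLocalRing.residue ↥A) P ≠ 0 := fun h0 => hred (by rw [h0, zero_div])
  have hy0 : y ≠ 0 := by
    intro h0
    rw [h0, mul_zero] at h
    apply hP
    have : P = 0 := s37r_iota_injective A (by rw [← h, map_zero])
    rw [this, map_zero]
  refine ⟨Q, P, hP, ?_⟩
  rw [← h]
  field_simp

/-- **one-units of a Gauss valuation subring**: `W` cut out by `θ : F → L((q))` and the Gauss ring; a one-unit of `W` has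
Gauss-integral image, as has its inverse, and the reduction of the image is `1`. -/
theorem s59n_oneUnit_theta {F : Type*} [Field F] (W : ValuationSubring F) (θ : F →+* LaurentSeries L)
    (hW : ∀ f : F, f ∈ W ↔ θ f ∈ s37r_O A (IsLocalRing.residue ↥A)) {g : F} (hg : s59k_OneUnit W g) :
    ∃ hO : θ g ∈ s37r_O A (IsLocalRing.residue ↥A), θ g⁻¹ ∈ s37r_O A (IsLocalRing.residue ↥A) ∧
      s37r_red A (IsLocalRing.residue ↥A) ⟨θ g, hO⟩ = 1 := by
  have h1 : g - 1 ∈ W := (ValuationSubring.valuation_le_one_iff W _).mp (le_of_lt hg)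
  have hgW : g ∈ W := by
    have : g = (g - 1) + 1 := by ring
    rw [this]
    exact W.add_mem _ _ h1 W.one_mem
  have hginv : g⁻¹ ∈ W := by
    apply (ValuationSubring.valuation_le_one_iff W _).mp
    rw [map_inv₀, hg.val_eq_one, inv_one]
  have hO1 : θ (g - 1) ∈ s37r_O A (IsLocalRing.residue ↥A) := (hW _).mp h1
  have hred0 : s37r_red A (IsLocalRing.residue ↥A) ⟨θ (g - 1), hO1⟩ = 0 := by
    by_contra hne
    have hinv := s59n_inv_mem_O A hO1 hne
    rw [← map_inv₀] at hinv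
    have h2 : (g - 1)⁻¹ ∈ W := (hW _).mpr hinv
    have h3 : W.valuation (g - 1)⁻¹ ≤ 1 := (ValuationSubring.valuation_le_one_iff W _).mpr h2
    have hne0 : g - 1 ≠ 0 := by
      intro h0
      apply hne
      have : (⟨θ (g - 1), hO1⟩ : s37r_O A (IsLocalRing.residue ↥A)) = 0 := by
        apply Subtype.ext
        show θ (g - 1) = 0
        rw [h0, map_zero]
      rw [this, map_zero]
    rw [map_inv₀] at h3
    have hv0 : W.valuation (g - 1) ≠ 0 := (Valuation.ne_zero_iff _).mpr hne0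
    have h4 : (1 : W.ValueGroup) ≤ W.valuation (g - 1) := (inv_le_one₀ (zero_lt_iff.mpr hv0)).mp h3
    exact absurd hg (not_lt.mpr h4)
  refine ⟨(hW _).mp hgW, (hW _).mp hginv, ?_⟩
  have e : (⟨θ g, (hW _).mp hgW⟩ : s37r_O A (IsLocalRing.residue ↥A)) = ⟨θ (g - 1), hO1⟩ + 1 := by
    apply Subtype.ext
    show θ g = θ (g - 1) + 1
    rw [map_sub, map_one]
    ring
  rw [e, map_add, hred0, map_one, zero_add]

end Gauss

/-! ### From the top-level Gauss ring to the number-field levels -/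

section Level

variable (P : ValuationSubring Kb) (L₀ : IntermediateField ℚ Kb)
  [IsDiscreteValuationRing ↥(s18q_A0 P L₀)] (ϖ : ↥(s18q_A0 P L₀)) (hϖ : Irreducible ϖ)
  (N : ℕ) [NeZero N]

/-- a function of the level `L₀` whose image at the top level is a Gauss unit of reduction `1` is a unit of `V_∞` of
reduction `1`. -/
theorem s59n_level_unit (u : s34m_F ↥L₀ N)
    (hO : ((s18q_incl N L₀ u : ffi_F N) : LaurentSeries Kb) ∈ s37r_O P (IsLocalRing.residue ↥P))
    (hO' : ((s18q_incl N L₀ u⁻¹ : ffi_F N) : LaurentSeries Kb) ∈ s37r_O P (IsLocalRing.residue ↥P))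
    (hred : s37r_red P (IsLocalRing.residue ↥P) ⟨_, hO⟩ = 1) :
    ∃ hI : u ∈ s34m_Vinf (s37r_G P L₀ ϖ hϖ) N, u⁻¹ ∈ s34m_Vinf (s37r_G P L₀ ϖ hϖ) N ∧
      s34m_redInf (s37r_G P L₀ ϖ hϖ) N ⟨u, hI⟩ = 1 := by
  have hI : u ∈ s34m_Vinf (s37r_G P L₀ ϖ hϖ) N :=
    s37r_level_mem_V_of_mem_O P L₀ ϖ hϖ N u (by rw [← s18q_incl_coe]; exact hO)
  have hI' : u⁻¹ ∈ s34m_Vinf (s37r_G P L₀ ϖ hϖ) N :=
    s37r_level_mem_V_of_mem_O P L₀ ϖ hϖ N u⁻¹ (by rw [← s18q_incl_coe]; exact hO')
  refine ⟨hI, hI', ?_⟩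
  rw [s34m_redInf_apply]
  apply s37r_coeffMap_resMap_injective P L₀
  rw [map_one, ← s37r_level_red P L₀ ϖ hϖ ⟨((u : s34m_F ↥L₀ N) : LaurentSeries ↥L₀), hI⟩
    (by rw [← s18q_incl_coe]; exact hO)]
  rw [← hred]
  congr 1

end Level

/-! ### One-unit Kummer generators -/

/-- a class of the Kummer kernel has a Kummer generator which is a one-unit. -/
theorem s59n_exists_oneUnit_gen {K F : Type*} [Field K] [Field F] [Algebra K F] [HasPrincipalDivisors K F]
    {W : ValuationSubring F} {p : ℕ} {z : Pic0 K F} (hz : z ∈ s59k_KumKer (K := K) W p) :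
    ∃ g : F, s33d_IsKumGen p z g ∧ s59k_OneUnit W g := by
  obtain ⟨D, f, hf, rfl, hd, c, w, g, hc, hw, hg, rfl⟩ := hz
  refine ⟨g, ?_, hg⟩
  have h1 : s33d_IsKumGen p (Pic0.mk D) (algebraMap K F c * w ^ p * g) :=
    ⟨hf, D, rfl, fun v => (hd v).symm⟩
  have h2 := s33d_kumGen_mul h1 (inv_ne_zero hc) (inv_ne_zero hw)
  have hc' : algebraMap K F c ≠ 0 := (map_ne_zero _).mpr hc
  have e : algebraMap K F c⁻¹ * w⁻¹ ^ p * (algebraMap K F c * w ^ p * g) = g := by
    rw [map_inv₀, inv_pow]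
    field_simp
  rwa [e] at h2

/-! ### The bridge to the finite levels -/

section Bridge

variable (M q p : ℕ) [NeZero M] [hq : Fact q.Prime] (hqM : ¬ q ∣ M) (P : ValuationSubring Kb)

/-- **the bridge at `∞`**: the Kummer kernel of a valuation subring of `F̄₀(M q)` cut out by the Gauss ring (`q`-expansion at
`∞`) lies in the finite-level kernel `s59n_KerInf`. -/
theorem s59n_kerInf_of_kumKer (Winf : ValuationSubring (ffi_F (M * q)))
    (hWinf : ∀ f : ffi_F (M * q), f ∈ Winf ↔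
      (f : LaurentSeries Kb) ∈ s37r_O P (IsLocalRing.residue ↥P))
    {x : JZero (M * q)} (hx : x ∈ s59k_KumKer (K := Kb) Winf p) : s59n_KerInf M q p hqM P x := by
  obtain ⟨g, hgen, hone⟩ := s59n_exists_oneUnit_gen hx
  obtain ⟨hO, hO', hred⟩ := s59n_oneUnit_theta P Winf
    ((modularFunctionFieldBar (M * q)).val : ffi_F (M * q) →+* LaurentSeries Kb) hWinf hone
  obtain ⟨Lx, hfin, hLx⟩ := s18q_exists_field (M * q) {g}
  refine ⟨Lx, hfin, fun L₀ _ _ _ ϖ hϖ hle => ?_⟩
  obtain ⟨u, hu⟩ := s18q_incl_range_mono (M * q) hle (hLx g (Finset.mem_singleton_self g))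
  subst hu
  obtain ⟨hI, hI', hr⟩ := s59n_level_unit P L₀ ϖ hϖ (M * q) u hO
    (by rw [map_inv₀]; exact hO') hred
  exact ⟨u, hgen, hI, hI', 1, 1, one_ne_zero, one_mem _, by rw [hr, map_one, one_pow, mul_one]⟩

/-- **the bridge at `0`**: the same for a valuation subring cut out by the Gauss ring after the Atkin–Lehner involution. -/
theorem s59n_kerZero_of_kumKer (Wzero : ValuationSubring (ffi_F (M * q)))
    (hWzero : ∀ f : ffi_F (M * q), f ∈ Wzero ↔
      ((s37w_al M q hq.out hqM f : ffi_F (M * q)) : LaurentSeries Kb) ∈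
        s37r_O P (IsLocalRing.residue ↥P))
    {x : JZero (M * q)} (hx : x ∈ s59k_KumKer (K := Kb) Wzero p) : s59n_KerZero M q p hqM P x := by
  haveI : NeZero q := ⟨hq.out.ne_zero⟩
  obtain ⟨g, hgen, hone⟩ := s59n_exists_oneUnit_gen hx
  obtain ⟨hO, hO', hred⟩ := s59n_oneUnit_theta P Wzero
    (((modularFunctionFieldBar (M * q)).val : ffi_F (M * q) →+* LaurentSeries Kb).comp
      ((s37w_al M q hq.out hqM : ffi_F (M * q) ≃ₐ[Kb] ffi_F (M * q)) : ffi_F (M * q) →+* ffi_F (M * q)))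
    hWzero hone
  obtain ⟨Lx, hfin, hLx⟩ := s18q_exists_field (M * q) {g}
  refine ⟨Lx, hfin, fun L₀ _ _ _ ϖ hϖ hle => ?_⟩
  obtain ⟨u, hu⟩ := s18q_incl_range_mono (M * q) hle (hLx g (Finset.mem_singleton_self g))
  subst hu
  have e1 : s18q_incl (M * q) L₀ (s34m_al (algebraMap ↥L₀ Kb) M q hq.out hqM u) =
      s37w_al M q hq.out hqM (s18q_incl (M * q) L₀ u) :=
    s34m_iota_al (algebraMap ↥L₀ Kb) M q hq.out hqM u
  have e2 : s18q_incl (M * q) L₀ (s34m_al (algebraMap ↥L₀ Kb) M q hq.out hqM u)⁻¹ =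
      s37w_al M q hq.out hqM (s18q_incl (M * q) L₀ u)⁻¹ := by
    rw [map_inv₀, e1, map_inv₀]
  obtain ⟨hI, hI', hr⟩ := s59n_level_unit P L₀ ϖ hϖ (M * q)
    (s34m_al (algebraMap ↥L₀ Kb) M q hq.out hqM u) (by rw [e1]; exact hO) (by rw [e2]; exact hO')
    (by
      rw [← hred]
      congr 1
      apply Subtype.ext
      show ((s18q_incl (M * q) L₀ (s34m_al (algebraMap ↥L₀ Kb) M q hq.out hqM u) : ffi_F (M * q)) :
        LaurentSeries Kb) = ((s37w_al M q hq.out hqM (s18q_incl (M * q) L₀ u) : ffi_F (M * q)) :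
          LaurentSeries Kb)
      rw [e1])
  refine ⟨u, hgen, hI, ?_, 1, 1, one_ne_zero, one_mem _, ?_⟩
  · show s34m_al (algebraMap ↥L₀ Kb) M q hq.out hqM u⁻¹ ∈ s34m_Vinf (s37r_G P L₀ ϖ hϖ) (M * q)
    rw [map_inv₀]
    exact hI'
  · rw [s34m_redZero_apply, map_one, one_pow, mul_one]
    exact hr

end Bridge

end Fermat.Agent.Lib.S59
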