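/-
Programme (R2) / node [CAR], W5 = the level `M q²` leaf, leaf **[CENTRE]** (helper7, prefix `s59nt_`), abstract part:
**EVERY PLACE OF THE RESIDUE FUNCTION FIELD OF A COMPONENT IS CENTRED AT A CLOSED POINT OF THE CHART.**

Setting (S34 `XFin.lean`): a Gauss datum `G` over `K` (`A = G.A` a discrete valuation ring, `π : A → κ`), a function field
`𝓕 ⊆ K((q))` with a generator `w`, a family `O : ι → ValuationSubring 𝓕` of vertical valuations containing `A[w]`, the chart
`{w regular}` with chart ring `B = s34x_ring (⨅ O) (s18_chart1 w)`, and (α): `B` is integral over `A[w]`.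
One component `i₀` with a reduction `R : O i₀ →+* Fb` (kernel ⊇ the non-units, `π` on constants), `wb = R w`, such that
`D = integralClosure κ[X] Fb` (`X ↦ wb`) is a Dedekind domain with fraction field `Fb`.

`s59nt_centre_abs` : for every place `v` of `Fb / κ` with `wb ∈ O_v` there is a MAXIMAL ideal `𝔫` of `B` such that
* `b ∈ 𝔫` as soon as `R b = 0` or `(R b)⁻¹ ∉ O_v`,
* the component `i₀` passes through `𝔫`,
* `R (ι z) ∈ O_v` for every `z` of the local ring `B_𝔫` (the hypothesis `hW` of helper9's `s59m_res_gen`).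

Mathlib + S18/S34/S36 vocabulary + `s44q_centre` only; no modular curve.
-/
import Fermat.Agent.Lib.S34.XFin
import Fermat.Agent.Lib.S36.QMem
import Fermat.Agent.Lib.S44.QDivGen

set_option autoImplicit false
set_option linter.style.haveILetI false
set_option linter.unusedSectionVars false
set_option linter.unusedVariables false
set_option synthInstance.maxHeartbeats 400000

noncomputable section

namespace Fermat.Agent.Lib.S59

open Polynomial AlgebraicCurve Fermat.Agent.Lib.FF Fermat.Agent.Lib.S18 Fermat.Agent.Lib.S34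
  Fermat.Agent.Lib.S36 Fermat.Agent.Lib.S44 ModularCurve

section Abs

variable {K : Type*} [Field K] [CharZero K] {κ : Type*} [Field κ] (G : s18g_GaussData K κ)
  [IsDiscreteValuationRing G.A]
variable (𝓕 : IntermediateField K (LaurentSeries K)) (w : 𝓕) [FFGen K w]
variable {ι : Type*} (O : ι → ValuationSubring 𝓕)

set_option maxHeartbeats 1600000 in
/-- **[CENTRE], abstract form.** -/
theorem s59nt_centre_abs (hπ : Function.Surjective G.π)
    (hAO : ∀ i, ∀ a : G.A, algebraMap K 𝓕 (a : K) ∈ O i) (hwO : ∀ i, w ∈ O i)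
    (hα : ∀ y ∈ s34x_infRing O, ∃ s : G.A[X], s.map G.π ≠ 0 ∧
      (s18b_ev G 𝓕 w).IsIntegralElem (s18b_ev G 𝓕 w s * y))
    {Fb : Type*} [Field Fb] [Algebra κ Fb] [Algebra κ[X] Fb]
    [IsDedekindDomain ↥(integralClosure κ[X] Fb)] [IsFractionRing ↥(integralClosure κ[X] Fb) Fb]
    (i₀ : ι) (R : O i₀ →+* Fb)
    (hRker : ∀ y : O i₀, (y : 𝓕) ∈ (O i₀).nonunits → R y = 0)
    (hRc : ∀ a : G.A, R ⟨algebraMap K 𝓕 (a : K), hAO i₀ a⟩ = algebraMap κ Fb (G.π a))
    (hA : ∀ P : κ[X], algebraMap κ[X] Fb P = Polynomial.aeval (R ⟨w, hwO i₀⟩) P)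
    (v : Place κ Fb) (hwv : R ⟨w, hwO i₀⟩ ∈ v.toValuationSubring) :
    ∃ (𝔫 : Ideal (s34x_ring (L₀ := K) (s34x_infRing O) (s18_chart1 w))) (h𝔫 : 𝔫.IsMaximal),
      (∀ (b : s34x_ring (L₀ := K) (s34x_infRing O) (s18_chart1 w)) (hb : (b : 𝓕) ∈ O i₀),
        (R ⟨(b : 𝓕), hb⟩ = 0 ∨ (R ⟨(b : 𝓕), hb⟩)⁻¹ ∉ v.toValuationSubring) → b ∈ 𝔫) ∧
      s36q_compThrough O (s18_chart1 (L₀ := K) w) 𝔫 i₀ ∧
      (haveI := h𝔫.isPrime
       ∀ (z : Localization.AtPrime 𝔫)
        (hz : s34f_iota (s34x_infRing O) (s18_chart1 (L₀ := K) w) 𝔫 z ∈ O i₀),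
        R ⟨s34f_iota (s34x_infRing O) (s18_chart1 (L₀ := K) w) 𝔫 z, hz⟩ ∈
          v.toValuationSubring) := by
  classical
  set S : Set (Place K 𝓕) := s18_chart1 (L₀ := K) w with hS
  have hBO : ∀ b : s34x_ring (L₀ := K) (s34x_infRing O) S, (b : 𝓕) ∈ O i₀ := fun b =>
    (s34x_mem_infRing O _).mp b.2.1 i₀
  -- the reduction of the chart ring
  set incl : s34x_ring (L₀ := K) (s34x_infRing O) S →+* O i₀ :=
    ((s34x_ring (L₀ := K) (s34x_infRing O) S).subtype).codRestrict (O i₀) hBO with hincl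
  set ρ : s34x_ring (L₀ := K) (s34x_infRing O) S →+* Fb := R.comp incl with hρ
  have hρapp : ∀ (b : s34x_ring (L₀ := K) (s34x_infRing O) S) (hb : (b : 𝓕) ∈ O i₀),
      R ⟨(b : 𝓕), hb⟩ = ρ b := fun b hb => rfl
  set wb : Fb := R ⟨w, hwO i₀⟩ with hwb
  -- `w`, the constants, and `A[w] → B`
  have hwB : (w : 𝓕) ∈ s34x_ring (L₀ := K) (s34x_infRing O) S :=
    ⟨(s34x_mem_infRing O w).mpr hwO, fun Q hQ => hQ⟩
  have hcB : ∀ a : G.A, algebraMap K 𝓕 (a : K) ∈ s34x_ring (L₀ := K) (s34x_infRing O) S := fun a =>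
    ⟨(s34x_mem_infRing O _).mpr fun i => hAO i a, fun Q _ => Q.algebraMap_mem' _⟩
  let c : G.A →+* s34x_ring (L₀ := K) (s34x_infRing O) S :=
    ((algebraMap K 𝓕).comp (algebraMap G.A K)).codRestrict
      (s34x_ring (L₀ := K) (s34x_infRing O) S) (fun a => hcB a)
  let wB : s34x_ring (L₀ := K) (s34x_infRing O) S := ⟨w, hwB⟩
  let evB : G.A[X] →+* s34x_ring (L₀ := K) (s34x_infRing O) S := Polynomial.eval₂RingHom c wB
  have hcomp : ((s34x_ring (L₀ := K) (s34x_infRing O) S).subtype).comp evB = s18b_ev G 𝓕 w := by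
    refine Polynomial.ringHom_ext (fun a => ?_) ?_
    · show ((Polynomial.eval₂ c wB (Polynomial.C a) :
        s34x_ring (L₀ := K) (s34x_infRing O) S) : 𝓕) = _
      rw [Polynomial.eval₂_C, s18b_evA_C]
      rfl
    · show ((Polynomial.eval₂ c wB Polynomial.X :
        s34x_ring (L₀ := K) (s34x_infRing O) S) : 𝓕) = _
      rw [Polynomial.eval₂_X, s18b_evA_X]
  have hint : ∀ b : s34x_ring (L₀ := K) (s34x_infRing O) S,
      ∃ P : (G.A[X])[X], P.Monic ∧ Polynomial.eval₂ evB b P = 0 := by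
    intro b
    obtain ⟨P, hPm, hP⟩ := s34x_isIntegralElem_of_mem_ring G 𝓕 w O hα (b : 𝓕) b.2
    refine ⟨P, hPm, ?_⟩
    apply Subtype.ext
    have h := Polynomial.hom_eval₂ P evB ((s34x_ring (L₀ := K) (s34x_infRing O) S).subtype) b
    rw [hcomp] at h
    show ((s34x_ring (L₀ := K) (s34x_infRing O) S).subtype) (Polynomial.eval₂ evB b P) = 0
    rw [h]
    exact hP
  -- `ρ ∘ evB = (κ[X] → Fb) ∘ (A[X] → κ[X])`
  have hψ : ρ.comp evB = (algebraMap κ[X] Fb).comp (Polynomial.mapRingHom G.π) := by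
    refine Polynomial.ringHom_ext (fun a => ?_) ?_
    · show ρ (Polynomial.eval₂ c wB (Polynomial.C a)) =
        algebraMap κ[X] Fb ((Polynomial.C a).map G.π)
      rw [Polynomial.eval₂_C, Polynomial.map_C, hA, Polynomial.aeval_C]
      exact hRc a
    · show ρ (Polynomial.eval₂ c wB Polynomial.X) =
        algebraMap κ[X] Fb ((Polynomial.X : G.A[X]).map G.π)
      rw [Polynomial.eval₂_X, Polynomial.map_X, hA, Polynomial.aeval_X]
      rfl
  have hρint : ∀ b : s34x_ring (L₀ := K) (s34x_infRing O) S, IsIntegral κ[X] (ρ b) := by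
    intro b
    obtain ⟨P, hPm, hP⟩ := hint b
    have h1 : Polynomial.eval₂ (ρ.comp evB) (ρ b) P = 0 := by
      rw [← Polynomial.hom_eval₂, hP, map_zero]
    refine ⟨P.map (Polynomial.mapRingHom G.π), hPm.map _, ?_⟩
    rw [Polynomial.eval₂_map, ← hψ]
    exact h1
  -- `D ⊆ O_v`
  have hκv : ∀ P : κ[X], algebraMap κ[X] Fb P ∈ v.toValuationSubring := by
    intro P
    rw [hA]
    induction P using Polynomial.induction_on' with
    | add p q hp hq => rw [map_add]; exact v.toValuationSubring.add_mem _ _ hp hq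
    | monomial n a =>
      rw [← Polynomial.C_mul_X_pow_eq_monomial, map_mul, map_pow, Polynomial.aeval_C,
        Polynomial.aeval_X]
      exact v.toValuationSubring.mul_mem _ _ (v.algebraMap_mem' a)
        (v.toValuationSubring.pow_mem hwv n)
  have hDv : ∀ d : ↥(integralClosure κ[X] Fb),
      algebraMap ↥(integralClosure κ[X] Fb) Fb d ∈ v.toValuationSubring := by
    intro d
    obtain ⟨P, hPm, hP⟩ := d.2
    let ψ : κ[X] →+* ↥v.toValuationSubring :=
      (algebraMap κ[X] Fb).codRestrict v.toValuationSubring hκv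
    have hintv : IsIntegral ↥v.toValuationSubring ((d : ↥(integralClosure κ[X] Fb)) : Fb) := by
      refine ⟨P.map ψ, hPm.map _, ?_⟩
      rw [Polynomial.eval₂_map]
      exact hP
    obtain ⟨y, hy⟩ := IsIntegrallyClosed.isIntegral_iff.mp hintv
    show ((d : ↥(integralClosure κ[X] Fb)) : Fb) ∈ v.toValuationSubring
    rw [← hy]
    exact y.2
  obtain ⟨𝔮, h𝔮max, h𝔮⟩ := s44q_centre v hDv
  haveI := h𝔮max
  -- the reduction into `D`
  set ρD : s34x_ring (L₀ := K) (s34x_infRing O) S →+* ↥(integralClosure κ[X] Fb) :=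
    ρ.codRestrict (integralClosure κ[X] Fb) hρint with hρD
  have hρDapp : ∀ b, algebraMap ↥(integralClosure κ[X] Fb) Fb (ρD b) = ρ b := fun b => rfl
  set 𝔫 : Ideal (s34x_ring (L₀ := K) (s34x_infRing O) S) := Ideal.comap ρD 𝔮 with h𝔫
  haveI h𝔫prime : 𝔫.IsPrime := Ideal.comap_isPrime ρD 𝔮
  -- maximality
  have h𝔫max : 𝔫.IsMaximal := by
    letI algB : Algebra G.A[X] (s34x_ring (L₀ := K) (s34x_infRing O) S) := evB.toAlgebra
    haveI : Algebra.IsIntegral G.A[X] (s34x_ring (L₀ := K) (s34x_infRing O) S) :=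
      ⟨fun b => hint b⟩
    refine Ideal.isMaximal_of_isIntegral_of_isMaximal_comap (R := G.A[X]) 𝔫 ?_
    have e1 : ρD.comp evB = (algebraMap κ[X] ↥(integralClosure κ[X] Fb)).comp
        (Polynomial.mapRingHom G.π) := by
      apply RingHom.ext
      intro P
      apply Subtype.ext
      have := congrArg (fun f : G.A[X] →+* Fb => f P) hψ
      exact this
    have e2 : Ideal.comap (algebraMap G.A[X] (s34x_ring (L₀ := K) (s34x_infRing O) S)) 𝔫 =
        Ideal.comap (Polynomial.mapRingHom G.π)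
          (Ideal.comap (algebraMap κ[X] ↥(integralClosure κ[X] Fb)) 𝔮) := by
      show Ideal.comap evB (Ideal.comap ρD 𝔮) = _
      rw [Ideal.comap_comap, Ideal.comap_comap, e1]
    rw [e2]
    haveI : (Ideal.comap (algebraMap κ[X] ↥(integralClosure κ[X] Fb)) 𝔮).IsMaximal :=
      Ideal.isMaximal_comap_of_isIntegral_of_isMaximal 𝔮
    exact Ideal.comap_isMaximal_of_surjective _ (Polynomial.map_surjective G.π hπ)
  refine ⟨𝔫, h𝔫max, ?_, ?_, ?_⟩
  · -- the characterisation
    intro b hb hcase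
    rw [hρapp b hb] at hcase
    show ρD b ∈ 𝔮
    by_contra hnot
    rcases hcase with h0 | hinv
    · apply hnot
      have : ρD b = 0 := Subtype.ext h0
      rw [this]
      exact 𝔮.zero_mem
    · exact hinv (h𝔮 _ hnot)
  · -- the component passes through `𝔫`
    intro b hb
    show ρD b ∈ 𝔮
    have h0 : ρ b = 0 := hRker ⟨(b : 𝓕), hBO b⟩ hb
    have : ρD b = 0 := Subtype.ext h0
    rw [this]
    exact 𝔮.zero_mem
  · -- the local ring maps into `O_v`
    intro z hz
    obtain ⟨a, s, hs, e⟩ := s34f_exists_frac (s34x_infRing O) S 𝔫 z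
    have e2 := congrArg (s34f_iota (s34x_infRing O) S 𝔫) e
    rw [map_mul, s34f_iota_algebraMap, s34f_iota_algebraMap] at e2
    have e3 : (⟨s34f_iota (s34x_infRing O) S 𝔫 z, hz⟩ : O i₀) * incl s = incl a :=
      Subtype.ext e2
    have e4 : R ⟨s34f_iota (s34x_infRing O) S 𝔫 z, hz⟩ * ρ s = ρ a := by
      have := congrArg R e3
      rwa [map_mul] at this
    have hsq : ρD s ∉ 𝔮 := hs
    have hsinv := h𝔮 _ hsq
    rw [hρDapp] at hsinv
    have hs0 : ρ s ≠ 0 := by
      intro h0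
      apply hsq
      have : ρD s = 0 := Subtype.ext h0
      rw [this]
      exact 𝔮.zero_mem
    have e5 : R ⟨s34f_iota (s34x_infRing O) S 𝔫 z, hz⟩ = ρ a * (ρ s)⁻¹ := by
      rw [← e4, mul_assoc, mul_inv_cancel₀ hs0, mul_one]
    rw [e5]
    exact v.toValuationSubring.mul_mem _ _ (hDv (ρD a)) hsinv

end Abs

end Fermat.Agent.Lib.S59
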