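/-
Programme (R2) = S59, case (P) (owner helper7, prefix `s59x_`), leaf **[P1c], part 2: ROOT-CLOSEDNESS AT A CLOSED
POINT OF A TWO-COMPONENT FIBRE** (semi-abstract: the vocabulary of helper8's `Lib/S33/SSModel.lean`).

Setting: `O : Bool → ValuationSubring 𝓕` the two vertical valuation rings, `π` their common uniformiser,
`B = s34x_ring (O true ⊓ O false) S` a chart ring, `red i : O true ⊓ O false →+* Fb` the reductions,
`ρ i : B →+* D` (`D` Dedekind, `Fb = Frac D`) with `algebraMap D Fb ∘ ρ i = red i` on `B`, `ρ i` surjective.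

For a maximal ideal `𝔫` of `B` on the component `i` (`ker ρ i ≤ 𝔫`) the BRANCH `W_i = s33s_W (ρ i) … 𝔫` is a
valuation ring of `Fb`, hence root-closed.  Consequences, in the language of congruences modulo `π (O i)`:

* `s59x_comp_root` : (one component) `ρ₀ ^ m ≡ u mod π (O i)`, `u` regular at the places through `𝔫` ⇒
  `c ρ₀ ≡ b mod π (O i)` for some `c ∈ B ∖ 𝔫`, `b ∈ B` (an auxiliary `t ∈ B ∖ 𝔫` moves `u`, `ρ₀` into
  `O true ⊓ O false`; at a smooth point `t` is a power of an element of the other component prime);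
* `s59x_node_root` : (node) the same on both components simultaneously, with ONE pair `(s, β)`: the values at the
  node glue because `m`-th roots are unique in the residue field `B ⧸ 𝔫` (`hroot`; `m = p ^ k` in characteristic `p`)
  — this uses the Kronecker lifts `hα`, `hβ` through helper8's `s33s_local_lift`.
-/
import Fermat.Agent.Lib.S33.SSModel
import Fermat.Agent.Lib.S33.UnipGen

set_option autoImplicit false

noncomputable section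

namespace Fermat.Agent.Lib.S59

open AlgebraicCurve Fermat.Agent.Lib.FF Fermat.Agent.Lib.S18 Fermat.Agent.Lib.S34
  Fermat.Agent.Lib.S33

/-- A valuation subring is root-closed. -/
theorem s59x_mem_of_pow_mem {F : Type*} [Field F] (W : ValuationSubring F) (x : F) (m : ℕ)
    (hm : m ≠ 0) (h : x ^ m ∈ W) : x ∈ W := by
  rw [← W.valuation_le_one_iff] at h ⊢
  rw [map_pow] at h
  exact (pow_le_one_iff hm).mp h

section Model

variable {L₀ 𝓕 : Type*} [Field L₀] [Field 𝓕] [Algebra L₀ 𝓕]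
  {D Fb : Type*} [CommRing D] [IsDedekindDomain D] [Field Fb] [Algebra D Fb] [IsFractionRing D Fb]

variable (O : Bool → ValuationSubring 𝓕) (π : 𝓕) (S : Set (Place L₀ 𝓕))
  (red : Bool → (s34x_infRing O →+* Fb))
  (ρ : Bool → (s34x_ring (s34x_infRing O) S →+* D))
  (hfin : ∀ y : 𝓕, y ≠ 0 → {Q : Place L₀ 𝓕 | Q ∈ S ∧ Q.ord y ≠ 0}.Finite)
  (hred0 : ∀ i (y : s34x_infRing O), red i y = 0 ↔ ∃ z ∈ O i, (y : 𝓕) = π * z)
  (hρ : ∀ i b, algebraMap D Fb (ρ i b) = red i ⟨(b : 𝓕), b.2.1⟩)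
  (hρs : ∀ i, Function.Surjective (ρ i)) (hD : ¬ IsField D)

include hfin hρ in
/-- An element of `O true ⊓ O false` regular at the places through `𝔫` reduces into the branch `W_i`. -/
theorem s59x_red_mem_W_of_reg (𝔫 : Ideal (s34x_ring (s34x_infRing O) S)) [h𝔫 : 𝔫.IsMaximal]
    (i : Bool) (hk : RingHom.ker (ρ i) ≤ 𝔫) (x : 𝓕) (hx : x ∈ s34x_infRing O)
    (hreg : ∀ Q ∈ S, s34f_through (s34x_infRing O) S 𝔫 Q → x ∈ Q.toValuationSubring) :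
    red i ⟨x, hx⟩ ∈ s33s_W (Fb := Fb) (ρ i) (hρs i) hD 𝔫 hk := by
  haveI : 𝔫.IsPrime := h𝔫.isPrime
  have hfin' : {Q : Place L₀ 𝓕 | Q ∈ S ∧ Q.ord x < 0}.Finite := by
    by_cases hx0 : x = 0
    · have : {Q : Place L₀ 𝓕 | Q ∈ S ∧ Q.ord x < 0} = ∅ := by
        ext Q
        simp [hx0]
      rw [this]
      exact Set.finite_empty
    · exact (hfin x hx0).subset (fun Q hQ => ⟨hQ.1, ne_of_lt hQ.2⟩)
  obtain ⟨s, hs, hsx⟩ := s33s_frac_of_reg (s34x_infRing O) S 𝔫 x hx hfin' hreg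
  rw [s33s_mem_W_iff]
  refine ⟨s, ⟨(s : 𝓕) * x, hsx⟩, hs, ?_⟩
  rw [s33s_r_eq_red O S red ρ hρ, s33s_r_eq_red O S red ρ hρ, ← map_mul]
  rfl

include hred0 hρ in
/-- An element of `O true ⊓ O false` whose reduction lies in the branch `W_i` is congruent modulo `π (O i)` to a
fraction with denominator outside `𝔫`. -/
theorem s59x_cong_of_mem_W (𝔫 : Ideal (s34x_ring (s34x_infRing O) S)) [h𝔫 : 𝔫.IsMaximal]
    (i : Bool) (hk : RingHom.ker (ρ i) ≤ 𝔫) (x : 𝓕) (hx : x ∈ s34x_infRing O)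
    (h : red i ⟨x, hx⟩ ∈ s33s_W (Fb := Fb) (ρ i) (hρs i) hD 𝔫 hk) :
    ∃ c b : s34x_ring (s34x_infRing O) S, c ∉ 𝔫 ∧ ∃ z ∈ O i, (c : 𝓕) * x - (b : 𝓕) = π * z := by
  obtain ⟨c, b, hc, e⟩ := (s33s_mem_W_iff (ρ i) (hρs i) hD 𝔫 hk _).mp h
  refine ⟨c, b, hc, ?_⟩
  rw [s33s_r_eq_red O S red ρ hρ, s33s_r_eq_red O S red ρ hρ, ← map_mul, ← sub_eq_zero,
    ← map_sub] at e
  exact (hred0 i _).mp e

include hfin hred0 hρ hρs hD in
/-- **Root-closedness on one component.** -/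
theorem s59x_comp_root (𝔫 : Ideal (s34x_ring (s34x_infRing O) S)) [h𝔫 : 𝔫.IsMaximal]
    (i : Bool) (hk : RingHom.ker (ρ i) ≤ 𝔫)
    (t : s34x_ring (s34x_infRing O) S) (ht : t ∉ 𝔫) (u ρ₀ : 𝓕)
    (htu : (t : 𝓕) * u ∈ s34x_infRing O) (htρ : (t : 𝓕) * ρ₀ ∈ s34x_infRing O)
    (hreg : ∀ Q ∈ S, s34f_through (s34x_infRing O) S 𝔫 Q → u ∈ Q.toValuationSubring)
    (m : ℕ) (hm : m ≠ 0) (hcong : ∃ z ∈ O i, ρ₀ ^ m - u = π * z) :
    ∃ c b : s34x_ring (s34x_infRing O) S, c ∉ 𝔫 ∧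
      ∃ z ∈ O i, (c : 𝓕) * ρ₀ - (b : 𝓕) = π * z := by
  haveI : 𝔫.IsPrime := h𝔫.isPrime
  obtain ⟨m', rfl⟩ : ∃ m', m = m' + 1 := ⟨m - 1, by omega⟩
  have htO : (t : 𝓕) ∈ s34x_infRing O := t.2.1
  have htOi : (t : 𝓕) ∈ O i := (s34x_mem_infRing O _).mp htO i
  -- `x = t u` reduces into the branch
  have h1 : red i ⟨(t : 𝓕) * u, htu⟩ ∈ s33s_W (Fb := Fb) (ρ i) (hρs i) hD 𝔫 hk :=
    s59x_red_mem_W_of_reg O S red ρ hfin hρ hρs hD 𝔫 i hk _ htu (fun Q hQ hth =>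
      Q.toValuationSubring.mul_mem _ _ (t.2.2 Q hQ) (hreg Q hQ hth))
  -- `t` reduces into the branch
  have h2 : red i ⟨(t : 𝓕), htO⟩ ∈ s33s_W (Fb := Fb) (ρ i) (hρs i) hD 𝔫 hk := by
    rw [s33s_mem_W_iff]
    refine ⟨1, t, fun h => h𝔫.ne_top ((Ideal.eq_top_iff_one _).mpr h), ?_⟩
    rw [map_one, one_mul, s33s_r_eq_red O S red ρ hρ]
  -- the `m`-th power of the reduction of `t ρ₀`
  have h3 : red i ⟨(t : 𝓕) * ρ₀, htρ⟩ ^ (m' + 1) =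
      red i ⟨(t : 𝓕), htO⟩ ^ m' * red i ⟨(t : 𝓕) * u, htu⟩ := by
    rw [← map_pow, ← map_pow, ← map_mul, ← sub_eq_zero, ← map_sub, hred0]
    obtain ⟨z, hz, e⟩ := hcong
    refine ⟨(t : 𝓕) ^ (m' + 1) * z, (O i).mul_mem _ _ (pow_mem htOi _) hz, ?_⟩
    show ((t : 𝓕) * ρ₀) ^ (m' + 1) - (t : 𝓕) ^ m' * ((t : 𝓕) * u) = π * ((t : 𝓕) ^ (m' + 1) * z)
    have : ((t : 𝓕) * ρ₀) ^ (m' + 1) - (t : 𝓕) ^ m' * ((t : 𝓕) * u) =
        (t : 𝓕) ^ (m' + 1) * (ρ₀ ^ (m' + 1) - u) := by ring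
    rw [this, e]
    ring
  have h4 : red i ⟨(t : 𝓕) * ρ₀, htρ⟩ ∈ s33s_W (Fb := Fb) (ρ i) (hρs i) hD 𝔫 hk := by
    refine s59x_mem_of_pow_mem _ _ (m' + 1) hm ?_
    rw [h3]
    exact mul_mem (pow_mem h2 _) h1
  obtain ⟨c, b, hc, z, hz, e⟩ := s59x_cong_of_mem_W O π S red ρ hred0 hρ hρs hD 𝔫 i hk _ htρ h4
  refine ⟨c * t, b, fun h => (‹𝔫.IsPrime›.mem_or_mem h).elim hc ht, z, hz, ?_⟩
  rw [← e]
  push_cast
  ring

include hfin hred0 hρ hρs hD in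
/-- **Root-closedness at a node**: one pair `(s, β)` for both components. -/
theorem s59x_node_root (q : ℕ) (hq : 2 ≤ q)
    (hα : ∀ d : D, ∃ g b, ρ true g = d ∧ ρ false g = ρ false b ^ q)
    (hβ : ∀ d : D, ∃ g b, ρ false g = d ∧ ρ true g = ρ true b ^ q)
    (𝔫 : Ideal (s34x_ring (s34x_infRing O) S)) [h𝔫 : 𝔫.IsMaximal]
    (hk₁ : RingHom.ker (ρ true) ≤ 𝔫) (hk₂ : RingHom.ker (ρ false) ≤ 𝔫)
    (u ρ₀ : 𝓕) (hu : u ∈ s34x_infRing O) (hρ₀ : ρ₀ ∈ s34x_infRing O)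
    (hreg : ∀ Q ∈ S, s34f_through (s34x_infRing O) S 𝔫 Q → u ∈ Q.toValuationSubring)
    (m : ℕ) (hm : m ≠ 0) (hcong : ∀ i, ∃ z ∈ O i, ρ₀ ^ m - u = π * z)
    (hroot : ∀ x y : s34x_ring (s34x_infRing O) S ⧸ 𝔫, x ^ m = y ^ m → x = y) :
    ∃ s β : s34x_ring (s34x_infRing O) S, s ∉ 𝔫 ∧
      ∀ i, ∃ z ∈ O i, (s : 𝓕) * ρ₀ - (β : 𝓕) = π * z := by
  haveI : 𝔫.IsPrime := h𝔫.isPrime
  letI : Field (s34x_ring (s34x_infRing O) S ⧸ 𝔫) := Ideal.Quotient.field 𝔫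
  set χ : s34x_ring (s34x_infRing O) S →+* s34x_ring (s34x_infRing O) S ⧸ 𝔫 :=
    Ideal.Quotient.mk 𝔫 with hχdef
  have hχ : ∀ c, χ c = 0 ↔ c ∈ 𝔫 := fun c => Ideal.Quotient.eq_zero_iff_mem
  -- the reductions of `u` lie in the branches
  have hu₁ := s59x_red_mem_W_of_reg O S red ρ hfin hρ hρs hD 𝔫 true hk₁ u hu hreg
  have hu₂ := s59x_red_mem_W_of_reg O S red ρ hfin hρ hρs hD 𝔫 false hk₂ u hu hreg
  -- and are glued at `𝔫`
  have hglu : s33s_GluedAt (ρ true) (ρ false) 𝔫 (red true ⟨u, hu⟩) (red false ⟨u, hu⟩) := by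
    have hfin' : {Q : Place L₀ 𝓕 | Q ∈ S ∧ Q.ord u < 0}.Finite := by
      by_cases hu0 : u = 0
      · have : {Q : Place L₀ 𝓕 | Q ∈ S ∧ Q.ord u < 0} = ∅ := by
          ext Q
          simp [hu0]
        rw [this]
        exact Set.finite_empty
      · exact (hfin u hu0).subset (fun Q hQ => ⟨hQ.1, ne_of_lt hQ.2⟩)
    obtain ⟨s, hs, hsy⟩ := s33s_frac_of_reg (s34x_infRing O) S 𝔫 u hu hfin' hreg
    refine s33s_gluedAt_of_frac (ρ true) (ρ false) 𝔫 (s := s) (β := ⟨(s : 𝓕) * u, hsy⟩) hs ?_ ?_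
    · rw [s33s_r_eq_red O S red ρ hρ, s33s_r_eq_red O S red ρ hρ, ← map_mul]
      rfl
    · rw [s33s_r_eq_red O S red ρ hρ, s33s_r_eq_red O S red ρ hρ, ← map_mul]
      rfl
  obtain ⟨h1, h2, hev⟩ := (s33s_gluedAt_iff (ρ true) (ρ false) (hρs true) (hρs false) hD 𝔫 hk₁ hk₂
    χ hχ _ _).mp hglu
  -- the `m`-th powers of the reductions of `ρ₀`
  have hpow : ∀ i, red i ⟨ρ₀, hρ₀⟩ ^ m = red i ⟨u, hu⟩ := by
    intro i
    rw [← map_pow, ← sub_eq_zero, ← map_sub, hred0]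
    exact hcong i
  have hr₁ : red true ⟨ρ₀, hρ₀⟩ ∈ s33s_W (Fb := Fb) (ρ true) (hρs true) hD 𝔫 hk₁ :=
    s59x_mem_of_pow_mem _ _ m hm (by rw [hpow]; exact h1)
  have hr₂ : red false ⟨ρ₀, hρ₀⟩ ∈ s33s_W (Fb := Fb) (ρ false) (hρs false) hD 𝔫 hk₂ :=
    s59x_mem_of_pow_mem _ _ m hm (by rw [hpow]; exact h2)
  -- the values glue
  have hev' : s33s_evN (ρ true) (hρs true) hD 𝔫 hk₁ χ hχ ⟨_, hr₁⟩ =
      s33s_evN (ρ false) (hρs false) hD 𝔫 hk₂ χ hχ ⟨_, hr₂⟩ := by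
    apply hroot
    rw [← map_pow, ← map_pow]
    have e₁ : (⟨_, hr₁⟩ : s33s_W (Fb := Fb) (ρ true) (hρs true) hD 𝔫 hk₁) ^ m = ⟨_, h1⟩ :=
      Subtype.ext (hpow true)
    have e₂ : (⟨_, hr₂⟩ : s33s_W (Fb := Fb) (ρ false) (hρs false) hD 𝔫 hk₂) ^ m = ⟨_, h2⟩ :=
      Subtype.ext (hpow false)
    rw [e₁, e₂]
    exact hev
  have hglu' : s33s_GluedAt (ρ true) (ρ false) 𝔫 (red true ⟨ρ₀, hρ₀⟩) (red false ⟨ρ₀, hρ₀⟩) :=
    (s33s_gluedAt_iff (ρ true) (ρ false) (hρs true) (hρs false) hD 𝔫 hk₁ hk₂ χ hχ _ _).mpr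
      ⟨hr₁, hr₂, hev'⟩
  obtain ⟨s, β, hs, e₁, e₂⟩ := s33s_local_lift (ρ true) (ρ false) q hq hα hβ 𝔫 hk₁ hk₂ hglu'
  refine ⟨s, β, hs, fun i => ?_⟩
  cases i
  · rw [s33s_r_eq_red O S red ρ hρ, s33s_r_eq_red O S red ρ hρ, ← map_mul, ← sub_eq_zero,
      ← map_sub] at e₂
    exact (hred0 false _).mp e₂
  · rw [s33s_r_eq_red O S red ρ hρ, s33s_r_eq_red O S red ρ hρ, ← map_mul, ← sub_eq_zero,
      ← map_sub] at e₁
    exact (hred0 true _).mp e₁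

end Model

end Fermat.Agent.Lib.S59
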