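/-
S59, case (P) (helper7, prefix `s59x_`): FROM A LINE WITH `D′` TRIVIAL ON THE QUOTIENT TO THE STRICT CLAUSE.

`V` free of rank two over `T` with basis `b`, `L = T ∙ b 0` stable under a subgroup `D`, a subgroup `D′ ⊇ {σ² | σ ∈ D}`
acting trivially on `V / L`, and `det ρ(σ) = d σ`.  Then every `σ ∈ D` acts on `L` by a scalar `x` and on `V / L` by a
scalar `z` with `z² = 1` and `x = d σ · z`; hence `x - a z = (d σ - a) z`.
This is the last clause of the frozen `GaloisRepAdic.IsStrictOrdinaryAt`.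
-/
import Mathlib
import Fermat.Prelude.Def_GaloisRep_StrictOrdinary

set_option autoImplicit false
set_option linter.style.haveILetI false

noncomputable section

namespace Fermat.Agent.Lib.S59

open Module

local notation "Γℚ" => (AlgebraicClosure ℚ ≃ₐ[ℚ] AlgebraicClosure ℚ)

section Alg

variable {T : Type*} [CommRing T] {V : Type*} [AddCommGroup V] [Module T V]

/-- an element of `T ∙ b 0` has vanishing second coordinate. -/
theorem s59x_repr_one_of_mem (b : Basis (Fin 2) T V) {v : V} (hv : v ∈ T ∙ b 0) :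
    b.repr v 1 = 0 := by
  obtain ⟨c, rfl⟩ := Submodule.mem_span_singleton.mp hv
  rw [map_smul, Basis.repr_self, Finsupp.smul_apply, Finsupp.single_eq_of_ne (by decide),
    smul_zero]

/-- decomposition of a vector in a basis indexed by `Fin 2`. -/
theorem s59x_eq_repr (b : Basis (Fin 2) T V) (v : V) :
    v = b.repr v 0 • b 0 + b.repr v 1 • b 1 := by
  conv_lhs => rw [← b.sum_repr v]
  rw [Fin.sum_univ_two]

/-- an endomorphism which is upper triangular in the basis `b`. -/
theorem s59x_upper_aux (b : Basis (Fin 2) T V) (f : Module.End T V) (x y z : T)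
    (e0 : f (b 0) = x • b 0) (e1 : f (b 1) = y • b 0 + z • b 1) :
    (∀ w ∈ T ∙ b 0, f w = x • w) ∧ (∀ v : V, f v - z • v ∈ T ∙ b 0) ∧
    LinearMap.det f = x * z := by
  classical
  refine ⟨?_, ?_, ?_⟩
  · intro w hw
    obtain ⟨c, rfl⟩ := Submodule.mem_span_singleton.mp hw
    rw [map_smul, e0, smul_comm]
  · intro v
    have hv := s59x_eq_repr b v
    have e : f v - z • v = (b.repr v 0 * x + b.repr v 1 * y - z * b.repr v 0) • b 0 := by
      conv_lhs => rw [hv]
      rw [map_add, map_smul, map_smul, e0, e1]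
      simp only [smul_add, smul_smul, sub_smul, add_smul]
      rw [mul_comm z (b.repr v 1)]
      abel
    rw [e]
    exact Submodule.smul_mem _ _ (Submodule.mem_span_singleton_self _)
  · have r00 : b.repr (f (b 0)) 0 = x := by
      rw [e0, map_smul, Basis.repr_self, Finsupp.smul_apply, Finsupp.single_eq_same, smul_eq_mul,
        mul_one]
    have r01 : b.repr (f (b 0)) 1 = 0 := by
      rw [e0, map_smul, Basis.repr_self, Finsupp.smul_apply,
        Finsupp.single_eq_of_ne (by decide), smul_zero]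
    have r11 : b.repr (f (b 1)) 1 = z := by
      rw [e1, map_add, map_smul, map_smul, Basis.repr_self, Basis.repr_self, Finsupp.add_apply,
        Finsupp.smul_apply, Finsupp.smul_apply, Finsupp.single_eq_of_ne (by decide),
        Finsupp.single_eq_same, smul_zero, zero_add, smul_eq_mul, mul_one]
    rw [← LinearMap.det_toMatrix b, Matrix.det_fin_two, LinearMap.toMatrix_apply,
      LinearMap.toMatrix_apply, LinearMap.toMatrix_apply, LinearMap.toMatrix_apply, r00, r01,
      r11, mul_zero, sub_zero]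

/-- **the scalars of an endomorphism stabilising the line `T ∙ b 0`.** -/
theorem s59x_upper (b : Basis (Fin 2) T V) (f : Module.End T V)
    (hf : ∀ v ∈ T ∙ b 0, f v ∈ T ∙ b 0) :
    (∀ w ∈ T ∙ b 0, f w = b.repr (f (b 0)) 0 • w) ∧
    (∀ v : V, f v - b.repr (f (b 1)) 1 • v ∈ T ∙ b 0) ∧
    LinearMap.det f = b.repr (f (b 0)) 0 * b.repr (f (b 1)) 1 := by
  have h0 : b.repr (f (b 0)) 1 = 0 :=
    s59x_repr_one_of_mem b (hf _ (Submodule.mem_span_singleton_self _))
  have e0 : f (b 0) = b.repr (f (b 0)) 0 • b 0 := by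
    have := s59x_eq_repr b (f (b 0))
    rwa [h0, zero_smul, add_zero] at this
  exact s59x_upper_aux b f _ _ _ e0 (s59x_eq_repr b _)

end Alg

section Strict

variable {T : Type} [CommRing T] [IsLocalRing T]

/-- **the strict clause from a `D`-stable line on whose quotient `D′ ⊇ {σ²}` acts trivially.** -/
theorem s59x_strict_of_line (rT : GaloisRepAdic T) (p : ℕ) (D D' : Subgroup Γℚ)
    (hsq : ∀ σ ∈ D, σ * σ ∈ D') (dT : Γℚ → T)
    (hdet : ∀ g : Γℚ, dT g = LinearMap.det (rT.ρ g))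
    (hcyc : ∀ (σ : Γℚ) (n a : ℕ), (∀ μ : AlgebraicClosure ℚ, μ ^ p ^ n = 1 → σ μ = μ ^ a) →
      dT σ - (a : T) ∈ Ideal.span {((p ^ n : ℕ) : T)})
    (L : Submodule T rT.V) (b : Basis (Fin 2) T rT.V) (hL : L = T ∙ b 0)
    (hD : ∀ σ ∈ D, ∀ v ∈ L, rT.ρ σ v ∈ L) (hD' : ∀ σ ∈ D', ∀ v : rT.V, rT.ρ σ v - v ∈ L)
    (σ : Γℚ) (hσ : σ ∈ D) :
    ∃ x z : T, (∀ w ∈ L, rT.ρ σ w = x • w) ∧ (∀ v : rT.V, rT.ρ σ v - z • v ∈ L) ∧
      ∀ (n a : ℕ), (∀ μ : AlgebraicClosure ℚ, μ ^ p ^ n = 1 → σ μ = μ ^ a) →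
        x - (a : T) * z ∈ Ideal.span {((p ^ n : ℕ) : T)} := by
  subst hL
  obtain ⟨h1, h2, h3⟩ := s59x_upper b (rT.ρ σ) (hD σ hσ)
  set x := b.repr (rT.ρ σ (b 0)) 0 with hx
  set z := b.repr (rT.ρ σ (b 1)) 1 with hz
  refine ⟨x, z, h1, h2, fun n a ha => ?_⟩
  -- `z ^ 2 = 1`
  have hz2 : z * z = 1 := by
    have h4 := hD' (σ * σ) (hsq σ hσ) (b 1)
    have h5 := s59x_repr_one_of_mem b h4
    rw [map_sub, Finsupp.sub_apply, Basis.repr_self, Finsupp.single_eq_same, sub_eq_zero] at h5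
    rw [← h5, map_mul, Module.End.mul_apply]
    -- second coordinate of `ρ σ (ρ σ (b 1))`
    have h6 := h2 (rT.ρ σ (b 1))
    have h7 := s59x_repr_one_of_mem b h6
    rw [map_sub, Finsupp.sub_apply, map_smul, Finsupp.smul_apply, sub_eq_zero, smul_eq_mul]
      at h7
    rw [h7]
  -- `x = d σ z`
  have hxz : x * z = dT σ := by rw [hdet, h3]
  have hx' : x = dT σ * z := by
    calc x = x * (z * z) := by rw [hz2, mul_one]
      _ = (x * z) * z := by ring
      _ = dT σ * z := by rw [hxz]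
  have e : x - (a : T) * z = (dT σ - (a : T)) * z := by rw [hx']; ring
  rw [e]
  exact Ideal.mul_mem_right _ _ (hcyc σ n a ha)

end Strict

end Fermat.Agent.Lib.S59
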