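/-
PROGRAMME (R2) = S59, case (P), NON-MINIMAL half, item [WALL] = helper2's (T5w) (helper7, prefix `s59x_`), file 1:
**THE `T`-SIDE CORE OF THE WEAK DUAL IHARA CLAUSE ON THE `p`-KERNEL PAIRS.**

`B = ε H(N_t p Q_n)`, `C = ε H(N_{t+1} Q_n)` (FLAT world), `D = ε H(N_{t+1} p Q_n)`; `cor_p : D → C × C`, `cor_q : D → B × B`;
`Z′ = ker cor_p ⊆ D` (the `p`-kernel at the level `t + 1`).  If `a` is a Hecke element acting compatibly on `B`, `D` (`aB`, `aD`) whose action on
`C` is ZERO (`cor_p ∘ aD = 0`), and `cor_q` is ONTO on the full space (the full-space (T5) at `q`), then `aB • (B × B) ⊆ cor_q (Z′)`; in particular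
`aB • (Z × Z) ⊆ cor_q (Z′)` for `Z = ker cor_p ⊆ B`: the cokernel of `cor_q : Z′ → Z × Z` is killed by every Hecke element which kills the flat module
`C`.  No snake lemma, no Ihara on `p`-new parts.
-/
import Mathlib

set_option autoImplicit false

namespace Fermat.Agent.Lib.S59

/-- **(T5w), `T`-side core.** -/
theorem s59x_wall_core {R : Type*} [CommRing R] {B C D : Type*} [AddCommGroup B] [Module R B]
    [AddCommGroup C] [Module R C] [AddCommGroup D] [Module R D]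
    (corpA corpB : D →ₗ[R] C) (corqA corqB : D →ₗ[R] B)
    (hq : ∀ b₁ b₂ : B, ∃ d : D, corqA d = b₁ ∧ corqB d = b₂)
    (aB : Module.End R B) (aD : Module.End R D)
    (hqA : ∀ d, corqA (aD d) = aB (corqA d)) (hqB : ∀ d, corqB (aD d) = aB (corqB d))
    (hpA : ∀ d, corpA (aD d) = 0) (hpB : ∀ d, corpB (aD d) = 0) (b₁ b₂ : B) :
    ∃ z' : D, corpA z' = 0 ∧ corpB z' = 0 ∧ corqA z' = aB b₁ ∧ corqB z' = aB b₂ := by
  obtain ⟨d, h1, h2⟩ := hq b₁ b₂
  exact ⟨aD d, hpA d, hpB d, by rw [hqA, h1], by rw [hqB, h2]⟩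

/-- the same with the action of `a` on `C` as a datum: `aC = 0` and `cor_p` is `a`-equivariant. -/
theorem s59x_wall_core' {R : Type*} [CommRing R] {B C D : Type*} [AddCommGroup B] [Module R B]
    [AddCommGroup C] [Module R C] [AddCommGroup D] [Module R D]
    (corpA corpB : D →ₗ[R] C) (corqA corqB : D →ₗ[R] B)
    (hq : ∀ b₁ b₂ : B, ∃ d : D, corqA d = b₁ ∧ corqB d = b₂)
    (aB : Module.End R B) (aC : Module.End R C) (aD : Module.End R D)
    (hqA : ∀ d, corqA (aD d) = aB (corqA d)) (hqB : ∀ d, corqB (aD d) = aB (corqB d))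
    (hpA : ∀ d, corpA (aD d) = aC (corpA d)) (hpB : ∀ d, corpB (aD d) = aC (corpB d))
    (haC : aC = 0) (b₁ b₂ : B) :
    ∃ z' : D, corpA z' = 0 ∧ corpB z' = 0 ∧ corqA z' = aB b₁ ∧ corqB z' = aB b₂ :=
  s59x_wall_core corpA corpB corqA corqB hq aB aD hqA hqB
    (fun d => by rw [hpA, haC, LinearMap.zero_apply])
    (fun d => by rw [hpB, haC, LinearMap.zero_apply]) b₁ b₂

end Fermat.Agent.Lib.S59
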