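/-
PROGRAMME (R2) = S59, case (P), NON-MINIMAL half, item [WALL] = helper2's (T5w) (helper7, prefix `s59x_`), file 2:
**THE RING HALF.**

`Ds` universal for the type `𝒟s` (strict), `Dfs` universal for the type `𝒟fs` (strict AND flat), `κ : Ds.R → Dfs.R` the canonical map.  `E` a complete
noetherian local `𝒪`-algebra (in the application `E = T_Z ⊗_T T_C`, the ring over which the strict kernel pair `Z` and the flat module `C` share their
Hecke operators), `φs : Ds.R → E` (through `T_Z`), `ρf` a representation over `E` (the base change of `ρ_{T_C}`) with the trace function of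
`Ds.ρ ⊗_{φs} E`.  If a representation over `E` of type `𝒟s` equivalent to `ρf` is of type `𝒟fs` (`ρf` flat; flat is stable under isomorphism), then
`ker κ ≤ ker φs`: **`J = ker (R^{str} → R^{str ∧ flat})` dies in `E`.**  Proof: Carayol + the two universal properties.
-/
import Mathlib
import Fermat.Agent.Lib.S59.FLiftK
import Fermat.Agent.Lib.S59.XDefCond

set_option autoImplicit false
set_option linter.unusedSectionVars false
set_option linter.unusedVariables false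
set_option linter.style.haveILetI false

noncomputable section

namespace Fermat.Agent.Lib.S59

open IsLocalRing
open Fermat.Agent.Lib.Deform (IsTestAlgebra isLocalHom_of_isTestAlgebra)
open Fermat.Agent.Lib.S53 (matOf)

local notation "Γℚ" => (AlgebraicClosure ℚ ≃ₐ[ℚ] AlgebraicClosure ℚ)

variable {𝒪 : Type} [CommRing 𝒪] [IsDomain 𝒪] [IsDiscreteValuationRing 𝒪]
  [IsAdicComplete (maximalIdeal 𝒪) 𝒪]
  {ρbar : ResidualGaloisRep (ResidueField 𝒪)}

/-- **the residual representation of a base change**: `ρ` over `A` residually `ρ̄`, `φ : A → B` a local `𝒪`-algebra homomorphism ⇒ `ρ ⊗_φ B` is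
residually `ρ̄`. -/
theorem s59x_bc_residual (habs : ρbar.IsAbsolutelyIrreducible)
    {A B : Type} [CommRing A] [IsLocalRing A] [Algebra 𝒪 A] [IsLocalHom (algebraMap 𝒪 A)]
    [CommRing B] [IsLocalRing B] [Algebra 𝒪 B] [IsLocalHom (algebraMap 𝒪 B)]
    (φ : A →ₐ[𝒪] B) (hφ : IsLocalHom (φ : A →+* B)) (ρ : GaloisRepAdic A)
    (h : ρ.residual.IsEquiv (ρbar.baseChangeAlong (ResidueField.map (algebraMap 𝒪 A)))) :
    (ρ.baseChangeAlong (φ : A →+* B) hφ).residual.IsEquiv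
      (ρbar.baseChangeAlong (ResidueField.map (algebraMap 𝒪 B))) := by
  obtain ⟨N⟩ := Fermat.Agent.Lib.S53.exists_normData ρbar habs
  obtain ⟨b, hb⟩ := @Fermat.Agent.Lib.S53.exists_basis_res 𝒪 _ _ ρbar N A _ _ _
    (ResidueField.map (algebraMap 𝒪 A)).toAlgebra Fermat.Agent.Lib.S53.residueField_map_compat ρ h
  obtain ⟨b', hb'⟩ := Fermat.Agent.Lib.S53.exists_basis_baseChangeAlong ρ b (φ : A →+* B) hφ
  have hc := Fermat.Agent.Lib.S53.matContinuous_matOf (ρ.baseChangeAlong (φ : A →+* B) hφ) b'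
  obtain ⟨e⟩ := Fermat.Agent.Lib.S53.isEquiv_toRep_matOf (ρ.baseChangeAlong (φ : A →+* B) hφ) b'
    (matOf (ρ.baseChangeAlong (φ : A →+* B) hφ) b') hc (fun σ => rfl)
  obtain ⟨e'⟩ := @Fermat.Agent.Lib.S53.residual_isEquiv_of_res 𝒪 _ _ ρbar N B _ _ _
    (ResidueField.map (algebraMap 𝒪 B)).toAlgebra Fermat.Agent.Lib.S53.residueField_map_compat
    (matOf (ρ.baseChangeAlong (φ : A →+* B) hφ) b') hc (fun σ i j => by
      rw [hb']
      simp only [Matrix.map_apply]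
      have h1 := hb σ i j
      have h2 : (φ : A →+* B) (matOf ρ b σ i j) - algebraMap 𝒪 B (N.Mtil σ i j) =
          (φ : A →+* B) (matOf ρ b σ i j - algebraMap 𝒪 A (N.Mtil σ i j)) := by
        rw [map_sub]
        congr 1
        exact (φ.commutes _).symm
      rw [h2]
      haveI := hφ
      exact map_nonunit (φ : A →+* B) _ h1)
  exact ⟨e.symm.residual.trans e'⟩

/-- **(T5w), ring half, abstract form.** -/
theorem s59x_wall_ring
    {𝒟s 𝒟fs : ∀ ⦃A : Type⦄ [CommRing A] [IsLocalRing A] [Algebra 𝒪 A], GaloisRepAdic A → Prop}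
    (Ds : GaloisRep.DeformationRingData 𝒪 ρbar 𝒟s) (Dfs : GaloisRep.DeformationRingData 𝒪 ρbar 𝒟fs)
    (κ : Ds.R →ₐ[𝒪] Dfs.R) (hκtr : ∀ g, κ (s59i_cpTr Ds.ρ g) = s59i_cpTr Dfs.ρ g)
    {E : Type} [CommRing E] [IsLocalRing E] [IsNoetherianRing E]
    [IsAdicComplete (maximalIdeal E) E] [Algebra 𝒪 E] [IsLocalHom (algebraMap 𝒪 E)]
    (hE : Function.Surjective (residue E ∘ algebraMap 𝒪 E))
    (φs : Ds.R →ₐ[𝒪] E) (hφs : IsLocalHom (φs : Ds.R →+* E))
    (hs : 𝒟s (Ds.ρ.baseChangeAlong (φs : Ds.R →+* E) hφs))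
    (ρf : GaloisRepAdic E) (hρf : ρf.residual.IsAbsolutelyIrreducible)
    (htr : ∀ g, φs (s59i_cpTr Ds.ρ g) = s59i_cpTr ρf g)
    (hfs : ∀ ρ' : GaloisRepAdic E, ρ'.IsEquiv ρf → 𝒟s ρ' → 𝒟fs ρ') :
    RingHom.ker (κ : Ds.R →+* Dfs.R) ≤ RingHom.ker (φs : Ds.R →+* E) := by
  have hres : (Ds.ρ.baseChangeAlong (φs : Ds.R →+* E) hφs).residual.IsEquiv
      (ρbar.baseChangeAlong (ResidueField.map (algebraMap 𝒪 E))) :=
    s59x_bc_residual Ds.absIrr φs hφs Ds.ρ Ds.residual_isEquiv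
  set ρE : GaloisRepAdic E := Ds.ρ.baseChangeAlong (φs : Ds.R →+* E) hφs with hρE
  have habsE : ρE.residual.IsAbsolutelyIrreducible :=
    s59e_bc_absIrr _ hφs Ds.ρ (s59b_DQ_residual_absIrr Ds)
  have hcar : ρE.IsEquiv ρf :=
    s59f_carayol _ _ habsE hρf (fun g => by rw [hρE, s59e_cpTr_map]; exact htr g)
  have h𝒟fs : 𝒟fs ρE := hfs ρE hcar hs
  obtain ⟨f, ⟨hf, ef⟩, -⟩ := Dfs.universal E hE ρE h𝒟fs hres
  have hfκ : (f.comp κ) = φs := by
    refine s59f_univ_ext Ds hE ρE hs hres (f.comp κ) φs (fun g => ?_) (fun g => ?_)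
    · rw [AlgHom.comp_apply, hκtr]
      rw [← RingHom.coe_coe, ← s59e_cpTr_map (f : Dfs.R →+* E) hf Dfs.ρ g]
      obtain ⟨e'⟩ := ef
      unfold s59i_cpTr
      rw [Fermat.Agent.S54.charpoly_eq_of_equiv e']
    · rw [hρE, s59e_cpTr_map]
      rfl
  intro x hx
  rw [RingHom.mem_ker] at hx ⊢
  have h1 : φs x = f (κ x) := by rw [← hfκ]; rfl
  show φs x = 0
  rw [h1]
  have hx' : κ x = 0 := hx
  rw [hx', map_zero]

/-- **(T5w), ring half, for the Taylor–Wiles types** `s59x_TWType` with local conditions `Ls` (strict), `Lf` (flat) at `p`: the type of `Dfs` is the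
one of `Ls ∧ Lf`. -/
theorem s59x_wall_ring_tw [Finite (ResidueField 𝒪)] (p : ℕ) [Fact p.Prime]
    {Ls Lf : ∀ ⦃A : Type⦄ [CommRing A] [IsLocalRing A], GaloisRepAdic A → Prop}
    (hLs : s59x_LocCond Ls) (hLf : s59x_LocCond Lf) (Sg Smin : Finset ℕ)
    (Ds : GaloisRep.DeformationRingData 𝒪 ρbar (s59x_TWType 𝒪 p Ls Sg Smin))
    (Dfs : GaloisRep.DeformationRingData 𝒪 ρbar
      (s59x_TWType 𝒪 p (fun _A _ _ ρ => Ls ρ ∧ Lf ρ) Sg Smin))
    (κ : Ds.R →ₐ[𝒪] Dfs.R) (hκtr : ∀ g, κ (s59i_cpTr Ds.ρ g) = s59i_cpTr Dfs.ρ g)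
    {E : Type} [CommRing E] [IsLocalRing E] [IsNoetherianRing E]
    [IsAdicComplete (maximalIdeal E) E] [Algebra 𝒪 E] [IsLocalHom (algebraMap 𝒪 E)]
    (hE : Function.Surjective (residue E ∘ algebraMap 𝒪 E))
    (φs : Ds.R →ₐ[𝒪] E) (hφs : IsLocalHom (φs : Ds.R →+* E))
    (ρf : GaloisRepAdic E) (hρf : ρf.residual.IsAbsolutelyIrreducible) (hLρf : Lf ρf)
    (htr : ∀ g, φs (s59i_cpTr Ds.ρ g) = s59i_cpTr ρf g) :
    RingHom.ker (κ : Ds.R →+* Dfs.R) ≤ RingHom.ker (φs : Ds.R →+* E) := by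
  have hEt : IsTestAlgebra 𝒪 E := ⟨inferInstance, hE⟩
  have hfin : Finite (ResidueField E) :=
    Fermat.Agent.Lib.S53.finite_residueField_of_surjective hEt.isLocalHom hEt.residue_surjective
  refine s59x_wall_ring Ds Dfs κ hκtr hE φs hφs
    (s59x_twType_baseChange hLs Sg Smin _ hφs hfin Ds.ρ Ds.isOfType) ρf hρf htr ?_
  intro ρ' he h
  exact ⟨⟨h.1.1, ⟨h.1.2.1, hLf.of_isEquiv (Fermat.Agent.Lib.S53.isEquiv_symm he) hLρf⟩, h.1.2.2⟩,
    h.2⟩

end Fermat.Agent.Lib.S59
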