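/-
PROGRAMME (R2) = S59, case (P), NON-MINIMAL half, item [WALL] = helper2's (T5w) (helper7, prefix `s59x_`), file 3:
**THE HECKE GLUE.**

`T` a finite local `𝒪`-algebra (the ring generated by the Hecke operators on ALL the modules of one step: `B`, `C`, `D`), `rZ : T ↠ T_Z` its image on
the strict kernel pair `Z`, `rC : T ↠ T_C` its image on the flat module `C`; `θZ : R^{str} → T_Z` with Frobenius traces `rZ (t ℓ)`, `ρC` a flat
representation over `T_C` with Frobenius traces `rC (t ℓ)`.  Then for every `x ∈ J = ker (κ : R^{str} → R^{str ∧ flat})` there is `τ ∈ T` with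
`τ|_Z = θZ x` and `τ|_C = 0`: **the elements of `J` act on `Z` as Hecke elements killing the flat module.**  (`E = T ⧸ (ker rZ ⊔ ker rC) = T_Z ⊗_T T_C`,
`s59x_wall_ring_tw` over `E`.)  Together with `s59x_wall_core` (file 1) this is the level-`n` clause `J • (Z_t × Z_t) ⊆ cor_q (Z_{t+1})`.
-/
import Mathlib
import Fermat.Agent.Lib.S59.NXWall1
import Fermat.Agent.Lib.S59.NXWall2
import Fermat.Agent.Lib.S59.KChar

set_option autoImplicit false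
set_option linter.unusedSectionVars false
set_option linter.unusedVariables false
set_option linter.style.haveILetI false
set_option maxHeartbeats 1600000

noncomputable section

namespace Fermat.Agent.Lib.S59

open IsLocalRing Polynomial
open Fermat.Agent.Lib.Deform (IsTestAlgebra isLocalHom_of_isTestAlgebra)

local notation "Qbar" => AlgebraicClosure ℚ
local notation "GQ" => (AlgebraicClosure ℚ ≃ₐ[ℚ] AlgebraicClosure ℚ)

variable {𝒪 : Type} [CommRing 𝒪] [IsDomain 𝒪] [IsDiscreteValuationRing 𝒪]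
  [IsAdicComplete (maximalIdeal 𝒪) 𝒪]
  {ρbar : ResidualGaloisRep (ResidueField 𝒪)}

/-- **(T5w), the Hecke glue.** -/
theorem s59x_wall_glue [Finite (ResidueField 𝒪)] (p : ℕ) [Fact p.Prime]
    {Ls Lf : ∀ ⦃A : Type⦄ [CommRing A] [IsLocalRing A], GaloisRepAdic A → Prop}
    (hLs : s59x_LocCond Ls) (hLf : s59x_LocCond Lf) (Sg Smin : Finset ℕ)
    (Ds : GaloisRep.DeformationRingData 𝒪 ρbar (s59x_TWType 𝒪 p Ls Sg Smin))
    (Dfs : GaloisRep.DeformationRingData 𝒪 ρbar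
      (s59x_TWType 𝒪 p (fun _A _ _ ρ => Ls ρ ∧ Lf ρ) Sg Smin))
    (κ : Ds.R →ₐ[𝒪] Dfs.R) (hκtr : ∀ g, κ (s59i_cpTr Ds.ρ g) = s59i_cpTr Dfs.ρ g)
    {T TZ TC : Type} [CommRing T] [IsLocalRing T] [Algebra 𝒪 T] [Module.Finite 𝒪 T]
    [IsLocalHom (algebraMap 𝒪 T)]
    (hT : Function.Surjective (residue T ∘ algebraMap 𝒪 T))
    [CommRing TZ] [IsLocalRing TZ] [Algebra 𝒪 TZ]
    [CommRing TC] [IsLocalRing TC] [Algebra 𝒪 TC]
    (rZ : T →ₐ[𝒪] TZ) (hrZ : Function.Surjective rZ)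
    (rC : T →ₐ[𝒪] TC) (hrC : Function.Surjective rC)
    (θZ : Ds.R →ₐ[𝒪] TZ) (hθZ : IsLocalHom (θZ : Ds.R →+* TZ))
    (ρC : GaloisRepAdic TC) (hρC : Lf ρC) (habsC : ρC.residual.IsAbsolutelyIrreducible)
    (S : Finset ℕ) (t : ℕ → T)
    (hfrobZ : ∀ ℓ : ℕ, ℓ.Prime → ℓ ∉ S → ∀ P : ValuationSubring Qbar, P.LiesOverPrime ℓ →
      ∀ σ : GQ, P.IsFrobeniusAt σ ℓ →
        LinearMap.charpoly ((Ds.ρ.baseChangeAlong (θZ : Ds.R →+* TZ) hθZ).ρ σ) =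
          X ^ 2 - C (rZ (t ℓ)) * X + C ((ℓ : TZ)))
    (hfrobC : ∀ ℓ : ℕ, ℓ.Prime → ℓ ∉ S → ∀ P : ValuationSubring Qbar, P.LiesOverPrime ℓ →
      ∀ σ : GQ, P.IsFrobeniusAt σ ℓ →
        LinearMap.charpoly (ρC.ρ σ) = X ^ 2 - C (rC (t ℓ)) * X + C ((ℓ : TC))) :
    ∀ x ∈ RingHom.ker (κ : Ds.R →+* Dfs.R), ∃ τ : T, rZ τ = θZ x ∧ rC τ = 0 := by
  classical
  set I : Ideal T := RingHom.ker (rZ : T →+* TZ) ⊔ RingHom.ker (rC : T →+* TC) with hI
  have hIZ : RingHom.ker (rZ : T →+* TZ) ≤ maximalIdeal T :=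
    IsLocalRing.le_maximalIdeal (RingHom.ker_ne_top _)
  have hIC : RingHom.ker (rC : T →+* TC) ≤ maximalIdeal T :=
    IsLocalRing.le_maximalIdeal (RingHom.ker_ne_top _)
  have hIm : I ≤ maximalIdeal T := sup_le hIZ hIC
  have hItop : I ≠ ⊤ := fun h => (Ideal.IsPrime.ne_top inferInstance :
    maximalIdeal T ≠ ⊤) (top_le_iff.mp (h ▸ hIm))
  haveI : Nontrivial (T ⧸ I) := Ideal.Quotient.nontrivial_iff.mpr hItop
  haveI : IsLocalRing (T ⧸ I) :=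
    IsLocalRing.of_surjective' (Ideal.Quotient.mk I) Ideal.Quotient.mk_surjective
  haveI hmkl : IsLocalHom (Ideal.Quotient.mk I) :=
    IsLocalHom.of_surjective _ Ideal.Quotient.mk_surjective
  haveI : Module.Finite 𝒪 (T ⧸ I) :=
    Module.Finite.of_surjective (Ideal.Quotient.mkₐ 𝒪 I).toLinearMap
      (Ideal.Quotient.mkₐ_surjective 𝒪 I)
  haveI : IsNoetherianRing (T ⧸ I) := IsNoetherianRing.of_finite 𝒪 _
  haveI hEl : IsLocalHom (algebraMap 𝒪 (T ⧸ I)) := by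
    have h1 : algebraMap 𝒪 (T ⧸ I) = (Ideal.Quotient.mk I).comp (algebraMap 𝒪 T) := rfl
    rw [h1]
    exact RingHom.isLocalHom_comp _ _
  haveI : IsAdicComplete (maximalIdeal (T ⧸ I)) (T ⧸ I) :=
    IsLocalRing.isAdicComplete_of_module_finite (𝒪 := 𝒪) (T := T ⧸ I)
  have hE : Function.Surjective (residue (T ⧸ I) ∘ algebraMap 𝒪 (T ⧸ I)) := by
    intro y
    obtain ⟨e, rfl⟩ := IsLocalRing.residue_surjective y
    obtain ⟨τ, rfl⟩ := Ideal.Quotient.mk_surjective e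
    obtain ⟨c, hc⟩ := hT (residue T τ)
    refine ⟨c, ?_⟩
    have h1 : residue T (algebraMap 𝒪 T c - τ) = 0 := by
      rw [map_sub, ← hc]
      exact sub_self _
    rw [IsLocalRing.residue_eq_zero_iff] at h1
    have h2 : Ideal.Quotient.mk I (algebraMap 𝒪 T c - τ) ∈ maximalIdeal (T ⧸ I) :=
      map_nonunit (Ideal.Quotient.mk I) _ h1
    rw [← IsLocalRing.residue_eq_zero_iff, map_sub, map_sub, sub_eq_zero] at h2
    exact h2
  -- the two maps to `E`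
  set qZ : TZ →ₐ[𝒪] T ⧸ I := AlgHom.liftOfSurjective rZ hrZ (Ideal.Quotient.mkₐ 𝒪 I) (by
    intro τ hτ
    rw [RingHom.mem_ker]
    show Ideal.Quotient.mk I τ = 0
    rw [Ideal.Quotient.eq_zero_iff_mem]
    exact Ideal.mem_sup_left hτ) with hqZ
  set qC : TC →ₐ[𝒪] T ⧸ I := AlgHom.liftOfSurjective rC hrC (Ideal.Quotient.mkₐ 𝒪 I) (by
    intro τ hτ
    rw [RingHom.mem_ker]
    show Ideal.Quotient.mk I τ = 0
    rw [Ideal.Quotient.eq_zero_iff_mem]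
    exact Ideal.mem_sup_right hτ) with hqC
  have hqZr : ∀ τ, qZ (rZ τ) = Ideal.Quotient.mk I τ := fun τ =>
    AlgHom.liftOfSurjective_apply rZ hrZ _ _ τ
  have hqCr : ∀ τ, qC (rC τ) = Ideal.Quotient.mk I τ := fun τ =>
    AlgHom.liftOfSurjective_apply rC hrC _ _ τ
  have hqZs : Function.Surjective qZ := fun e => by
    obtain ⟨τ, rfl⟩ := Ideal.Quotient.mk_surjective e
    exact ⟨rZ τ, hqZr τ⟩
  have hqCs : Function.Surjective qC := fun e => by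
    obtain ⟨τ, rfl⟩ := Ideal.Quotient.mk_surjective e
    exact ⟨rC τ, hqCr τ⟩
  have hqZl : IsLocalHom (qZ : TZ →+* T ⧸ I) := IsLocalHom.of_surjective _ hqZs
  have hqCl : IsLocalHom (qC : TC →+* T ⧸ I) := IsLocalHom.of_surjective _ hqCs
  set φs : Ds.R →ₐ[𝒪] T ⧸ I := qZ.comp θZ with hφs
  have hφsl : IsLocalHom (φs : Ds.R →+* T ⧸ I) := by
    have h1 : (φs : Ds.R →+* T ⧸ I) = (qZ : TZ →+* T ⧸ I).comp (θZ : Ds.R →+* TZ) := rfl
    rw [h1]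
    haveI := hqZl
    haveI := hθZ
    exact RingHom.isLocalHom_comp _ _
  have hEt : IsTestAlgebra 𝒪 (T ⧸ I) := ⟨inferInstance, hE⟩
  have hfin : Finite (ResidueField (T ⧸ I)) :=
    Fermat.Agent.Lib.S53.finite_residueField_of_surjective hEt.isLocalHom hEt.residue_surjective
  set ρf : GaloisRepAdic (T ⧸ I) := ρC.baseChangeAlong (qC : TC →+* T ⧸ I) hqCl with hρf
  -- the traces
  have hcp : ∀ g : GQ, LinearMap.charpoly
      ((Ds.ρ.baseChangeAlong (φs : Ds.R →+* T ⧸ I) hφsl).ρ g) = LinearMap.charpoly (ρf.ρ g) := by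
    refine s59k_charpoly_unique' _ _ S fun ℓ hℓ hℓS P hP σ hσ => ?_
    have h1 := hfrobZ ℓ hℓ hℓS P hP σ hσ
    rw [s59e_bc_charpoly] at h1
    have h2 := hfrobC ℓ hℓ hℓS P hP σ hσ
    rw [hρf, s59e_bc_charpoly, s59e_bc_charpoly, h2]
    have h3 : (LinearMap.charpoly (Ds.ρ.ρ σ)).map (φs : Ds.R →+* T ⧸ I) =
        ((LinearMap.charpoly (Ds.ρ.ρ σ)).map (θZ : Ds.R →+* TZ)).map (qZ : TZ →+* T ⧸ I) := by
      rw [Polynomial.map_map]
      rfl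
    rw [h3, h1]
    simp only [Polynomial.map_add, Polynomial.map_sub, Polynomial.map_mul, Polynomial.map_pow,
      Polynomial.map_X, Polynomial.map_C, map_natCast, Polynomial.map_natCast, RingHom.coe_coe,
      hqZr, hqCr]
  have htr : ∀ g, φs (s59i_cpTr Ds.ρ g) = s59i_cpTr ρf g := by
    intro g
    have h1 := s59e_cpTr_map (φs : Ds.R →+* T ⧸ I) hφsl Ds.ρ g
    rw [RingHom.coe_coe] at h1
    rw [← h1]
    unfold s59i_cpTr
    rw [hcp g]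
  have hker := s59x_wall_ring_tw p hLs hLf Sg Smin Ds Dfs κ hκtr hE φs hφsl ρf
    (s59e_bc_absIrr _ hqCl ρC habsC) (hLf.baseChange _ hqCl hfin ρC hρC) htr
  intro x hx
  have h0 : φs x = 0 := hker hx
  obtain ⟨τ₀, hτ₀⟩ := hrZ (θZ x)
  have h1 : Ideal.Quotient.mk I τ₀ = 0 := by
    rw [← hqZr, hτ₀]
    exact h0
  rw [Ideal.Quotient.eq_zero_iff_mem, hI, Submodule.mem_sup] at h1
  obtain ⟨u, hu, v, hv, huv⟩ := h1
  rw [RingHom.mem_ker] at hu hv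
  refine ⟨v, ?_, hv⟩
  have h2 : rZ τ₀ = rZ u + rZ v := by rw [← map_add, huv]
  have hu' : rZ u = 0 := hu
  rw [← hτ₀, h2, hu', zero_add]

/-- **(T5w) at one level**: glue + core.  `B`, `C`, `D` modules over the common Hecke ring `T` (`T` acts on `C` through `T_C`), `cor_p : D → C × C`,
`cor_q : D → B × B` `T`-linear, `cor_q` jointly ONTO (the full-space (T5) at `q`).  For every `x ∈ ker κ` there is a Hecke element `τ ∈ T` acting as
`θZ x` on the strict kernel pair (`rZ τ = θZ x`) with `τ • (B × B) ⊆ cor_q (ker cor_p)`. -/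
theorem s59x_wall_level [Finite (ResidueField 𝒪)] (p : ℕ) [Fact p.Prime]
    {Ls Lf : ∀ ⦃A : Type⦄ [CommRing A] [IsLocalRing A], GaloisRepAdic A → Prop}
    (hLs : s59x_LocCond Ls) (hLf : s59x_LocCond Lf) (Sg Smin : Finset ℕ)
    (Ds : GaloisRep.DeformationRingData 𝒪 ρbar (s59x_TWType 𝒪 p Ls Sg Smin))
    (Dfs : GaloisRep.DeformationRingData 𝒪 ρbar
      (s59x_TWType 𝒪 p (fun _A _ _ ρ => Ls ρ ∧ Lf ρ) Sg Smin))
    (κ : Ds.R →ₐ[𝒪] Dfs.R) (hκtr : ∀ g, κ (s59i_cpTr Ds.ρ g) = s59i_cpTr Dfs.ρ g)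
    {T TZ TC : Type} [CommRing T] [IsLocalRing T] [Algebra 𝒪 T] [Module.Finite 𝒪 T]
    [IsLocalHom (algebraMap 𝒪 T)]
    (hT : Function.Surjective (residue T ∘ algebraMap 𝒪 T))
    [CommRing TZ] [IsLocalRing TZ] [Algebra 𝒪 TZ]
    [CommRing TC] [IsLocalRing TC] [Algebra 𝒪 TC]
    (rZ : T →ₐ[𝒪] TZ) (hrZ : Function.Surjective rZ)
    (rC : T →ₐ[𝒪] TC) (hrC : Function.Surjective rC)
    (θZ : Ds.R →ₐ[𝒪] TZ) (hθZ : IsLocalHom (θZ : Ds.R →+* TZ))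
    (ρC : GaloisRepAdic TC) (hρC : Lf ρC) (habsC : ρC.residual.IsAbsolutelyIrreducible)
    (S : Finset ℕ) (t : ℕ → T)
    (hfrobZ : ∀ ℓ : ℕ, ℓ.Prime → ℓ ∉ S → ∀ P : ValuationSubring Qbar, P.LiesOverPrime ℓ →
      ∀ σ : GQ, P.IsFrobeniusAt σ ℓ →
        LinearMap.charpoly ((Ds.ρ.baseChangeAlong (θZ : Ds.R →+* TZ) hθZ).ρ σ) =
          X ^ 2 - C (rZ (t ℓ)) * X + C ((ℓ : TZ)))
    (hfrobC : ∀ ℓ : ℕ, ℓ.Prime → ℓ ∉ S → ∀ P : ValuationSubring Qbar, P.LiesOverPrime ℓ →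
      ∀ σ : GQ, P.IsFrobeniusAt σ ℓ →
        LinearMap.charpoly (ρC.ρ σ) = X ^ 2 - C (rC (t ℓ)) * X + C ((ℓ : TC)))
    {B C D : Type} [AddCommGroup B] [Module T B] [AddCommGroup C] [Module T C]
    [AddCommGroup D] [Module T D]
    (corpA corpB : D →ₗ[T] C) (corqA corqB : D →ₗ[T] B)
    (hq : ∀ b₁ b₂ : B, ∃ d : D, corqA d = b₁ ∧ corqB d = b₂)
    (hC : ∀ τ : T, rC τ = 0 → ∀ c : C, τ • c = 0) :
    ∀ x ∈ RingHom.ker (κ : Ds.R →+* Dfs.R), ∃ τ : T, rZ τ = θZ x ∧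
      ∀ b₁ b₂ : B, ∃ z' : D, corpA z' = 0 ∧ corpB z' = 0 ∧
        corqA z' = τ • b₁ ∧ corqB z' = τ • b₂ := by
  intro x hx
  obtain ⟨τ, hτZ, hτC⟩ := s59x_wall_glue p hLs hLf Sg Smin Ds Dfs κ hκtr hT rZ hrZ rC hrC θZ hθZ
    ρC hρC habsC S t hfrobZ hfrobC x hx
  refine ⟨τ, hτZ, fun b₁ b₂ => ?_⟩
  exact s59x_wall_core corpA corpB corqA corqB hq
    (LinearMap.lsmul T B τ) (LinearMap.lsmul T D τ)
    (fun d => by simp only [LinearMap.lsmul_apply, map_smul])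
    (fun d => by simp only [LinearMap.lsmul_apply, map_smul])
    (fun d => by rw [LinearMap.lsmul_apply, map_smul]; exact hC τ hτC _)
    (fun d => by rw [LinearMap.lsmul_apply, map_smul]; exact hC τ hτC _) b₁ b₂

end Fermat.Agent.Lib.S59
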