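/-
PROGRAMME (R2) = S59, case (P), NON-MINIMAL half, item [WALL] = helper2's (T5w), leaf (K4) of [W4c] (helper7, prefix `s59x_`), file 6:
**(T5w) ON THE KERNEL PAIRS FROM THE HECKE GLUE, MODULE FORM.**

One step `t → t+1` of the chain at a Taylor–Wiles level: `YB` = the part of level `N_t p`, `YD` = the part of level `N_{t+1} p`, `YC` = the (flat) part of
level `N_{t+1}`; `Dq : s59t_Old 𝒪 YB YD` the package at the raising prime `q`, `Dp : s59t_Old 𝒪 YC YD` the package at `p` (upper level);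
`ZB ≤ YB`, `ZD ≤ YD` the kernel pairs (`ZD ⊇ ker (Dp.corA) ⊓ ker (Dp.corB)`), stable under `Dq`; `eB ≤ YB`, `eD ≤ YD` the eigen-parts.
`T` a finite local `𝒪`-algebra acting on `YD` (`iD`), every element of which has compatible partners on `YB` (under `Dq`) and on `YC` (under `Dp`);
`TZ` acting faithfully on `ZB`, `TC` acting faithfully on `YC`, `rZ : T ↠ TZ`, `rC : T ↠ TC` the transfers along `resA`.
With the hypotheses of the Hecke glue `s59x_wall_glue` (NXWall3.lean) and the full-space trace clause `hq` ((K3): `(cor_q A, cor_q B)` is onto the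
eigen-parts) the conclusion is the hypothesis `hT5w` of `s59x_efl_step_joint_w` (NXWallStepB.lean) for the package `s59x_oldSub Dq hst` on the kernel
pairs: **for every `x ∈ ker κ` and `u v ∈ ZB ∩ eB` there is `z ∈ ZD ∩ eD` with `cor_q A z = θZ(x) u`, `cor_q B z = θZ(x) v`.**

Also: `s59x_sigInj`, the transfer of subalgebras of `End` along an injective equivariant map (the maps `rZ`, `rC` of the application).
-/
import Mathlib
import Fermat.Agent.Lib.S59.NXWall3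
import Fermat.Agent.Lib.S59.NXOldSub

set_option autoImplicit false
set_option linter.unusedSectionVars false
set_option linter.unusedVariables false
set_option linter.style.haveILetI false
set_option maxHeartbeats 1600000

noncomputable section

namespace Fermat.Agent.Lib.S59

open IsLocalRing Polynomial

local notation "Qbar" => AlgebraicClosure ℚ
local notation "GQ" => (AlgebraicClosure ℚ ≃ₐ[ℚ] AlgebraicClosure ℚ)

/-! ### Transfer along an injective equivariant map -/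

section SigInj

variable {𝒪 : Type*} [CommRing 𝒪] {M₁ M₂ : Type*} [AddCommGroup M₁] [Module 𝒪 M₁]
  [AddCommGroup M₂] [Module 𝒪 M₂] (f : M₁ →ₗ[𝒪] M₂) (hf : Function.Injective f)
  (T₁ : Subalgebra 𝒪 (Module.End 𝒪 M₁)) (T₂ : Subalgebra 𝒪 (Module.End 𝒪 M₂))

/-- the elements of `End M₂` which restrict along `f` to an element of `T₁`. -/
def s59x_liftableInj : Subalgebra 𝒪 (Module.End 𝒪 M₂) where
  carrier := {x | ∃ x' ∈ T₁, ∀ m, f (x' m) = x (f m)}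
  mul_mem' := by
    rintro a b ⟨a', ha', ha⟩ ⟨b', hb', hb⟩
    refine ⟨a' * b', T₁.mul_mem ha' hb', fun m => ?_⟩
    rw [Module.End.mul_apply, Module.End.mul_apply, ha, hb]
  add_mem' := by
    rintro a b ⟨a', ha', ha⟩ ⟨b', hb', hb⟩
    refine ⟨a' + b', T₁.add_mem ha' hb', fun m => ?_⟩
    rw [LinearMap.add_apply, LinearMap.add_apply, map_add, ha, hb]
  algebraMap_mem' c := by
    refine ⟨algebraMap 𝒪 _ c, T₁.algebraMap_mem c, fun m => ?_⟩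
    rw [Module.algebraMap_end_apply, Module.algebraMap_end_apply, map_smul]

theorem s59x_mem_liftableInj (x : Module.End 𝒪 M₂) :
    x ∈ s59x_liftableInj f T₁ ↔ ∃ x' ∈ T₁, ∀ m, f (x' m) = x (f m) := Iff.rfl

/-- it is enough to restrict a generating set. -/
theorem s59x_exists_restr_adjoin (G₂ : Set (Module.End 𝒪 M₂)) (hG₂ : T₂ ≤ Algebra.adjoin 𝒪 G₂)
    (hG : ∀ x ∈ G₂, ∃ x' ∈ T₁, ∀ m, f (x' m) = x (f m)) :
    ∀ x ∈ T₂, ∃ x' ∈ T₁, ∀ m, f (x' m) = x (f m) := by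
  intro x hx
  rw [← s59x_mem_liftableInj]
  exact (Algebra.adjoin_le (fun y hy => (s59x_mem_liftableInj f T₁ y).mpr (hG y hy))) (hG₂ hx)

variable (h₂ : ∀ x ∈ T₂, ∃ x' ∈ T₁, ∀ m, f (x' m) = x (f m))

/-- the transfer, as a function. -/
def s59x_sigInjFun (x : T₂) : T₁ := ⟨(h₂ x.1 x.2).choose, (h₂ x.1 x.2).choose_spec.1⟩

theorem s59x_sigInjFun_spec (x : T₂) (m : M₁) :
    f ((s59x_sigInjFun f T₁ T₂ h₂ x : Module.End 𝒪 M₁) m) = (x : Module.End 𝒪 M₂) (f m) :=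
  (h₂ x.1 x.2).choose_spec.2 m

include hf in
theorem s59x_sigInjFun_eq (x : T₂) (x' : Module.End 𝒪 M₁)
    (h : ∀ m, f (x' m) = (x : Module.End 𝒪 M₂) (f m)) :
    (s59x_sigInjFun f T₁ T₂ h₂ x : Module.End 𝒪 M₁) = x' := by
  refine LinearMap.ext fun m => hf ?_
  rw [s59x_sigInjFun_spec, h]

/-- **the transfer** `T₂ → T₁` along an injective equivariant map `f : M₁ → M₂`. -/
def s59x_sigInj : T₂ →ₐ[𝒪] T₁ where
  toFun := s59x_sigInjFun f T₁ T₂ h₂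
  map_one' := Subtype.ext (s59x_sigInjFun_eq f hf T₁ T₂ h₂ 1 1 (fun m => rfl))
  map_mul' x y := Subtype.ext (s59x_sigInjFun_eq f hf T₁ T₂ h₂ (x * y) _ (fun m => by
    show f ((s59x_sigInjFun f T₁ T₂ h₂ x : Module.End 𝒪 M₁)
      ((s59x_sigInjFun f T₁ T₂ h₂ y : Module.End 𝒪 M₁) m)) =
        (x : Module.End 𝒪 M₂) ((y : Module.End 𝒪 M₂) (f m))
    rw [s59x_sigInjFun_spec, s59x_sigInjFun_spec]))
  map_zero' := Subtype.ext (s59x_sigInjFun_eq f hf T₁ T₂ h₂ 0 0 (fun m => by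
    show f 0 = 0
    exact map_zero f))
  map_add' x y := Subtype.ext (s59x_sigInjFun_eq f hf T₁ T₂ h₂ (x + y) _ (fun m => by
    show f ((s59x_sigInjFun f T₁ T₂ h₂ x : Module.End 𝒪 M₁) m +
      (s59x_sigInjFun f T₁ T₂ h₂ y : Module.End 𝒪 M₁) m) =
        (x : Module.End 𝒪 M₂) (f m) + (y : Module.End 𝒪 M₂) (f m)
    rw [map_add, s59x_sigInjFun_spec, s59x_sigInjFun_spec]))
  commutes' c := Subtype.ext (s59x_sigInjFun_eq f hf T₁ T₂ h₂ (algebraMap 𝒪 T₂ c) _ (fun m => by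
    show f (algebraMap 𝒪 (Module.End 𝒪 M₁) c m) = algebraMap 𝒪 (Module.End 𝒪 M₂) c (f m)
    rw [Module.algebraMap_end_apply, Module.algebraMap_end_apply, map_smul]))

theorem s59x_sigInj_spec (x : T₂) (m : M₁) :
    f ((s59x_sigInj f hf T₁ T₂ h₂ x : Module.End 𝒪 M₁) m) = (x : Module.End 𝒪 M₂) (f m) :=
  s59x_sigInjFun_spec f T₁ T₂ h₂ x m

theorem s59x_sigInj_eq (x : T₂) (x' : Module.End 𝒪 M₁)
    (h : ∀ m, f (x' m) = (x : Module.End 𝒪 M₂) (f m)) :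
    (s59x_sigInj f hf T₁ T₂ h₂ x : Module.End 𝒪 M₁) = x' :=
  s59x_sigInjFun_eq f hf T₁ T₂ h₂ x x' h

/-- the transfer is onto as soon as every element of `T₁` extends to an element of `T₂`. -/
theorem s59x_sigInj_surjective (h₁ : ∀ x' ∈ T₁, ∃ x ∈ T₂, ∀ m, f (x' m) = x (f m)) :
    Function.Surjective (s59x_sigInj f hf T₁ T₂ h₂) := by
  intro x'
  obtain ⟨x, hx, hc⟩ := h₁ x'.1 x'.2
  exact ⟨⟨x, hx⟩, Subtype.ext (s59x_sigInj_eq f hf T₁ T₂ h₂ ⟨x, hx⟩ x'.1 hc)⟩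

/-- the elements of `End M₁` which extend along `f` to an element of `T₂`. -/
def s59x_extendableInj : Subalgebra 𝒪 (Module.End 𝒪 M₁) where
  carrier := {x' | ∃ x ∈ T₂, ∀ m, f (x' m) = x (f m)}
  mul_mem' := by
    rintro a' b' ⟨a, ha', ha⟩ ⟨b, hb', hb⟩
    refine ⟨a * b, T₂.mul_mem ha' hb', fun m => ?_⟩
    rw [Module.End.mul_apply, Module.End.mul_apply, ha, hb]
  add_mem' := by
    rintro a' b' ⟨a, ha', ha⟩ ⟨b, hb', hb⟩
    refine ⟨a + b, T₂.add_mem ha' hb', fun m => ?_⟩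
    rw [LinearMap.add_apply, LinearMap.add_apply, map_add, ha, hb]
  algebraMap_mem' c := by
    refine ⟨algebraMap 𝒪 _ c, T₂.algebraMap_mem c, fun m => ?_⟩
    rw [Module.algebraMap_end_apply, Module.algebraMap_end_apply, map_smul]

/-- it is enough to extend a generating set. -/
theorem s59x_exists_ext_adjoin (G₁ : Set (Module.End 𝒪 M₁)) (hG₁ : T₁ ≤ Algebra.adjoin 𝒪 G₁)
    (hG : ∀ x' ∈ G₁, ∃ x ∈ T₂, ∀ m, f (x' m) = x (f m)) :
    ∀ x' ∈ T₁, ∃ x ∈ T₂, ∀ m, f (x' m) = x (f m) := by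
  intro x' hx'
  have h : x' ∈ s59x_extendableInj f T₂ :=
    (Algebra.adjoin_le (fun y hy => (show y ∈ s59x_extendableInj f T₂ from hG y hy))) (hG₁ hx')
  exact h

end SigInj

/-! ### (T5w) on the kernel pairs -/

section K4

variable {𝒪 : Type} [CommRing 𝒪] [IsDomain 𝒪] [IsDiscreteValuationRing 𝒪]
  [IsAdicComplete (maximalIdeal 𝒪) 𝒪]
  {ρbar : ResidualGaloisRep (ResidueField 𝒪)}

/-- **(T5w) on the kernel pairs from the Hecke glue.** -/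
theorem s59x_wall_K4 [Finite (ResidueField 𝒪)] (p : ℕ) [Fact p.Prime]
    {Ls Lf : ∀ ⦃A : Type⦄ [CommRing A] [IsLocalRing A], GaloisRepAdic A → Prop}
    (hLs : s59x_LocCond Ls) (hLf : s59x_LocCond Lf) (Sg Smin : Finset ℕ)
    (Ds : GaloisRep.DeformationRingData 𝒪 ρbar (s59x_TWType 𝒪 p Ls Sg Smin))
    (Dfs : GaloisRep.DeformationRingData 𝒪 ρbar
      (s59x_TWType 𝒪 p (fun _A _ _ ρ => Ls ρ ∧ Lf ρ) Sg Smin))
    (κ : Ds.R →ₐ[𝒪] Dfs.R) (hκtr : ∀ g, κ (s59i_cpTr Ds.ρ g) = s59i_cpTr Dfs.ρ g)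
    -- the modules and the packages
    {YB YC YD : Type} [AddCommGroup YB] [Module 𝒪 YB] [AddCommGroup YC] [Module 𝒪 YC]
    [AddCommGroup YD] [Module 𝒪 YD]
    (Dq : s59t_Old 𝒪 YB YD) (Dp : s59t_Old 𝒪 YC YD)
    (hinjq : Function.Injective Dq.resA) (hinjp : Function.Injective Dp.resA)
    {ZB : Submodule 𝒪 YB} {ZD : Submodule 𝒪 YD} (hst : s59x_OldStable Dq ZB ZD)
    (hZD : ∀ z : YD, Dp.corA z = 0 → Dp.corB z = 0 → z ∈ ZD)
    (eB : Submodule 𝒪 YB) (eD : Submodule 𝒪 YD)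
    (hq : ∀ u ∈ eB, ∀ v ∈ eB, ∃ d ∈ eD, Dq.corA d = u ∧ Dq.corB d = v)
    -- the Hecke rings
    {T TZ TC : Type} [CommRing T] [IsLocalRing T] [Algebra 𝒪 T] [Module.Finite 𝒪 T]
    [IsLocalHom (algebraMap 𝒪 T)]
    (hT : Function.Surjective (residue T ∘ algebraMap 𝒪 T))
    [CommRing TZ] [IsLocalRing TZ] [Algebra 𝒪 TZ]
    [CommRing TC] [IsLocalRing TC] [Algebra 𝒪 TC]
    (iD : T →ₐ[𝒪] Module.End 𝒪 YD) (iZ : TZ →ₐ[𝒪] Module.End 𝒪 ZB)
    (iC : TC →ₐ[𝒪] Module.End 𝒪 YC)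
    (hiDe : ∀ (τ : T), ∀ d ∈ eD, iD τ d ∈ eD)
    (hpB : ∀ τ : T, ∃ τB : Module.End 𝒪 YB, Dq.Compat τB (iD τ))
    (hpC : ∀ τ : T, ∃ τC : Module.End 𝒪 YC, Dp.Compat τC (iD τ))
    (rZ : T →ₐ[𝒪] TZ) (hrZ : Function.Surjective rZ)
    (hrZs : ∀ (τ : T) (u : ZB), Dq.resA ((iZ (rZ τ) u : ZB) : YB) = iD τ (Dq.resA (u : YB)))
    (rC : T →ₐ[𝒪] TC) (hrC : Function.Surjective rC)
    (hrCs : ∀ (τ : T) (c : YC), Dp.resA (iC (rC τ) c) = iD τ (Dp.resA c))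
    -- the Galois side
    (θZ : Ds.R →ₐ[𝒪] TZ) (hθZ : IsLocalHom (θZ : Ds.R →+* TZ))
    (ρC : GaloisRepAdic TC) (hρC : Lf ρC) (habsC : ρC.residual.IsAbsolutelyIrreducible)
    (S : Finset ℕ) (t : ℕ → T)
    (hfrobZ : ∀ ℓ : ℕ, ℓ.Prime → ℓ ∉ S → ∀ P : ValuationSubring Qbar, P.LiesOverPrime ℓ →
      ∀ σ : GQ, P.IsFrobeniusAt σ ℓ →
        LinearMap.charpoly ((Ds.ρ.baseChangeAlong (θZ : Ds.R →+* TZ) hθZ).ρ σ) =
          X ^ 2 - C (rZ (t ℓ)) * X + C ((ℓ : TZ)))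
    (hfrobC : ∀ ℓ : ℕ, ℓ.Prime → ℓ ∉ S → ∀ P : ValuationSubring Qbar, P.LiesOverPrime ℓ →
      ∀ σ : GQ, P.IsFrobeniusAt σ ℓ →
        LinearMap.charpoly (ρC.ρ σ) = X ^ 2 - C (rC (t ℓ)) * X + C ((ℓ : TC))) :
    ∀ x ∈ RingHom.ker (κ : Ds.R →+* Dfs.R), ∀ u v : ZB, (u : YB) ∈ eB → (v : YB) ∈ eB →
      ∃ z : ZD, (z : YD) ∈ eD ∧ (s59x_oldSub Dq hst).corA z = iZ (θZ x) u ∧
        (s59x_oldSub Dq hst).corB z = iZ (θZ x) v := by
  intro x hx u v hu hv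
  obtain ⟨τ, hτZ, hτC⟩ := s59x_wall_glue p hLs hLf Sg Smin Ds Dfs κ hκtr hT rZ hrZ rC hrC θZ hθZ
    ρC hρC habsC S t hfrobZ hfrobC x hx
  obtain ⟨τB, hτB⟩ := hpB τ
  obtain ⟨τC, hτCc⟩ := hpC τ
  -- the partner on the flat module vanishes
  have hτC0 : ∀ c : YC, τC c = 0 := by
    intro c
    apply hinjp
    rw [← hτCc.resA, ← hrCs, hτC, map_zero, LinearMap.zero_apply]
  -- the partner on `YB` restricts to `θZ x` on the kernel pair
  have hτBZ : ∀ w : ZB, τB (w : YB) = ((iZ (θZ x) w : ZB) : YB) := by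
    intro w
    apply hinjq
    rw [← hτB.resA, ← hτZ, hrZs]
  obtain ⟨d, hd, hdA, hdB⟩ := hq _ hu _ hv
  have hzD : iD τ d ∈ ZD := by
    refine hZD _ ?_ ?_
    · rw [← hτCc.corA, hτC0]
    · rw [← hτCc.corB, hτC0]
  refine ⟨⟨iD τ d, hzD⟩, hiDe τ d hd, Subtype.ext ?_, Subtype.ext ?_⟩
  · rw [s59x_oldSub_corA_coe]
    show Dq.corA (iD τ d) = _
    rw [← hτB.corA, hdA, hτBZ]
  · rw [s59x_oldSub_corB_coe]
    show Dq.corB (iD τ d) = _
    rw [← hτB.corB, hdB, hτBZ]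

end K4

end Fermat.Agent.Lib.S59

end
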