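/-
PROGRAMME (R2) = S59, case (P), NON-MINIMAL half, item [WALL] = helper2's (T5w), leaf (K4) of [W4c] (helper7, prefix `s59x_`), file 7:
**(T5w) ON THE KERNEL PAIRS FROM THE HECKE GLUE, FOR THE RINGS `𝒪[a(𝕋)]`.**  Instantiation of `s59x_wall_K4` (NXWallK4.lean) with
`T = s59e_adj 𝒪 aD` (the Hecke ring of the part of level `N_{t+1} p`), `TZ = s59e_adj 𝒪 aZ` (the Hecke ring of the kernel pair of level `N_t p`),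
`TC = s59e_adj 𝒪 aC` (the Hecke ring of the flat part of level `N_{t+1}`): the transfers `rZ`, `rC` are built by `s59x_sigInj` along
`resA_q : ZB → YD` and `resA_p : YC → YD` from compatibilities ON GENERATORS, and the compatible partners of the elements of `T` by
helper5's `s59ej_liftable`.
-/
import Mathlib
import Fermat.Agent.Lib.S59.NXWallK4
import Fermat.Agent.Lib.S59.EJointL

set_option autoImplicit false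
set_option linter.unusedSectionVars false
set_option linter.unusedVariables false
set_option linter.style.haveILetI false
set_option maxHeartbeats 1600000

noncomputable section

namespace Fermat.Agent.Lib.S59

open IsLocalRing Polynomial

local notation "Qbar" => AlgebraicClosure ℚ
local notation "GQ" => (AlgebraicClosure ℚ ≃ₐ[ℚ] AlgebraicClosure ℚ)

variable {𝒪 : Type} [CommRing 𝒪] [IsDomain 𝒪] [IsDiscreteValuationRing 𝒪]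
  [IsAdicComplete (maximalIdeal 𝒪) 𝒪]
  {ρbar : ResidualGaloisRep (ResidueField 𝒪)}

/-- **(T5w) on the kernel pairs from the Hecke glue, for the rings `𝒪[a(𝕋)]`.** -/
theorem s59x_wall_K4_adj [Finite (ResidueField 𝒪)] (p : ℕ) [Fact p.Prime]
    {Ls Lf : ∀ ⦃A : Type⦄ [CommRing A] [IsLocalRing A], GaloisRepAdic A → Prop}
    (hLs : s59x_LocCond Ls) (hLf : s59x_LocCond Lf) (Sg Smin : Finset ℕ)
    (Ds : GaloisRep.DeformationRingData 𝒪 ρbar (s59x_TWType 𝒪 p Ls Sg Smin))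
    (Dfs : GaloisRep.DeformationRingData 𝒪 ρbar
      (s59x_TWType 𝒪 p (fun _A _ _ ρ => Ls ρ ∧ Lf ρ) Sg Smin))
    (κ : Ds.R →ₐ[𝒪] Dfs.R) (hκtr : ∀ g, κ (s59i_cpTr Ds.ρ g) = s59i_cpTr Dfs.ρ g)
    -- the modules and the packages
    {YB YC YD : Type} [AddCommGroup YB] [Module 𝒪 YB] [AddCommGroup YC] [Module 𝒪 YC]
    [AddCommGroup YD] [Module 𝒪 YD]
    (Dq : s59t_Old 𝒪 YB YD) (Dp : s59t_Old 𝒪 YC YD)
    (hinjq : Function.Injective Dq.resA) (hinjp : Function.Injective Dp.resA)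
    {ZB : Submodule 𝒪 YB} {ZD : Submodule 𝒪 YD} (hst : s59x_OldStable Dq ZB ZD)
    (hZD : ∀ z : YD, Dp.corA z = 0 → Dp.corB z = 0 → z ∈ ZD)
    (eB : Submodule 𝒪 YB) (eD : Submodule 𝒪 YD)
    (hq : ∀ u ∈ eB, ∀ v ∈ eB, ∃ d ∈ eD, Dq.corA d = u ∧ Dq.corB d = v)
    -- the Hecke rings
    {AC AD AZ : Type} [CommRing AC] [CommRing AD] [CommRing AZ]
    (aC : AC →+* Module.End 𝒪 YC) (aD : AD →+* Module.End 𝒪 YD) (aZ : AZ →+* Module.End 𝒪 ZB)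
    [IsLocalRing (s59e_adj 𝒪 aD)] [Module.Finite 𝒪 (s59e_adj 𝒪 aD)]
    [IsLocalHom (algebraMap 𝒪 (s59e_adj 𝒪 aD))]
    (hT : Function.Surjective (residue (s59e_adj 𝒪 aD) ∘ algebraMap 𝒪 (s59e_adj 𝒪 aD)))
    [IsLocalRing (s59e_adj 𝒪 aZ)] [IsLocalRing (s59e_adj 𝒪 aC)]
    (hDe : ∀ τ ∈ s59e_adj 𝒪 aD, ∀ d ∈ eD, τ d ∈ eD)
    -- the generators and their compatibilities
    (GD : Set (Module.End 𝒪 YD)) (hGD : s59e_adj 𝒪 aD ≤ Algebra.adjoin 𝒪 GD)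
    (hGDq : ∀ x ∈ GD, ∃ xB : Module.End 𝒪 YB, Dq.Compat xB x ∧
      ∃ xZ ∈ s59e_adj 𝒪 aZ, ∀ u : ZB, ((xZ u : ZB) : YB) = xB (u : YB))
    (hGDp : ∀ x ∈ GD, ∃ xC ∈ s59e_adj 𝒪 aC, Dp.Compat xC x)
    (GZ : Set (Module.End 𝒪 ZB)) (hGZ : s59e_adj 𝒪 aZ ≤ Algebra.adjoin 𝒪 GZ)
    (hGZD : ∀ xZ ∈ GZ, ∃ x ∈ s59e_adj 𝒪 aD, ∀ u : ZB,
      Dq.resA ((xZ u : ZB) : YB) = x (Dq.resA (u : YB)))
    (GC : Set (Module.End 𝒪 YC)) (hGC : s59e_adj 𝒪 aC ≤ Algebra.adjoin 𝒪 GC)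
    (hGCD : ∀ xC ∈ GC, ∃ x ∈ s59e_adj 𝒪 aD, ∀ c : YC, Dp.resA (xC c) = x (Dp.resA c))
    -- the Galois side
    (θZ : Ds.R →ₐ[𝒪] s59e_adj 𝒪 aZ) (hθZ : IsLocalHom (θZ : Ds.R →+* s59e_adj 𝒪 aZ))
    (ρC : GaloisRepAdic (s59e_adj 𝒪 aC)) (hρC : Lf ρC)
    (habsC : ρC.residual.IsAbsolutelyIrreducible)
    (S : Finset ℕ) (tD : ℕ → s59e_adj 𝒪 aD) (tZ : ℕ → s59e_adj 𝒪 aZ) (tC : ℕ → s59e_adj 𝒪 aC)
    (htZ : ∀ ℓ : ℕ, ℓ.Prime → ℓ ∉ S → ∀ u : ZB,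
      Dq.resA ((((tZ ℓ : s59e_adj 𝒪 aZ) : Module.End 𝒪 ZB) u : ZB) : YB) =
        ((tD ℓ : s59e_adj 𝒪 aD) : Module.End 𝒪 YD) (Dq.resA (u : YB)))
    (htC : ∀ ℓ : ℕ, ℓ.Prime → ℓ ∉ S → ∀ c : YC,
      Dp.resA (((tC ℓ : s59e_adj 𝒪 aC) : Module.End 𝒪 YC) c) =
        ((tD ℓ : s59e_adj 𝒪 aD) : Module.End 𝒪 YD) (Dp.resA c))
    (hfrobZ : ∀ ℓ : ℕ, ℓ.Prime → ℓ ∉ S → ∀ P : ValuationSubring Qbar, P.LiesOverPrime ℓ →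
      ∀ σ : GQ, P.IsFrobeniusAt σ ℓ →
        LinearMap.charpoly ((Ds.ρ.baseChangeAlong (θZ : Ds.R →+* s59e_adj 𝒪 aZ) hθZ).ρ σ) =
          X ^ 2 - C (tZ ℓ) * X + C ((ℓ : s59e_adj 𝒪 aZ)))
    (hfrobC : ∀ ℓ : ℕ, ℓ.Prime → ℓ ∉ S → ∀ P : ValuationSubring Qbar, P.LiesOverPrime ℓ →
      ∀ σ : GQ, P.IsFrobeniusAt σ ℓ →
        LinearMap.charpoly (ρC.ρ σ) = X ^ 2 - C (tC ℓ) * X + C ((ℓ : s59e_adj 𝒪 aC))) :
    ∀ x ∈ RingHom.ker (κ : Ds.R →+* Dfs.R), ∀ u v : ZB, (u : YB) ∈ eB → (v : YB) ∈ eB →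
      ∃ z : ZD, (z : YD) ∈ eD ∧
        (s59x_oldSub Dq hst).corA z = ((θZ x : s59e_adj 𝒪 aZ) : Module.End 𝒪 ZB) u ∧
        (s59x_oldSub Dq hst).corB z = ((θZ x : s59e_adj 𝒪 aZ) : Module.End 𝒪 ZB) v := by
  classical
  -- the two injective equivariant maps
  set fZ : ZB →ₗ[𝒪] YD := Dq.resA ∘ₗ ZB.subtype with hfZ
  have hfZi : Function.Injective fZ := hinjq.comp Subtype.val_injective
  -- partners under `Dq`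
  have hpB : ∀ τ : s59e_adj 𝒪 aD, ∃ τB : Module.End 𝒪 YB,
      Dq.Compat τB ((s59e_adj 𝒪 aD).val τ) := by
    intro τ
    have h1 : (τ : Module.End 𝒪 YD) ∈ s59ej_liftable Dq (⊤ : Subalgebra 𝒪 (Module.End 𝒪 YB)) := by
      refine (Algebra.adjoin_le ?_) (hGD τ.2)
      intro y hy
      obtain ⟨xB, hxB, -⟩ := hGDq y hy
      exact (s59ej_mem_liftable Dq _ y).mpr ⟨xB, Algebra.mem_top, hxB⟩
    obtain ⟨τB, -, h⟩ := (s59ej_mem_liftable Dq _ _).mp h1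
    exact ⟨τB, h⟩
  -- partners under `Dp`
  have hpC : ∀ τ : s59e_adj 𝒪 aD, ∃ τC : Module.End 𝒪 YC,
      Dp.Compat τC ((s59e_adj 𝒪 aD).val τ) := by
    intro τ
    have h1 : (τ : Module.End 𝒪 YD) ∈ s59ej_liftable Dp (⊤ : Subalgebra 𝒪 (Module.End 𝒪 YC)) := by
      refine (Algebra.adjoin_le ?_) (hGD τ.2)
      intro y hy
      obtain ⟨xC, -, hxC⟩ := hGDp y hy
      exact (s59ej_mem_liftable Dp _ y).mpr ⟨xC, Algebra.mem_top, hxC⟩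
    obtain ⟨τC, -, h⟩ := (s59ej_mem_liftable Dp _ _).mp h1
    exact ⟨τC, h⟩
  -- the transfer to the kernel pair
  have h₂Z : ∀ x ∈ s59e_adj 𝒪 aD, ∃ x' ∈ s59e_adj 𝒪 aZ, ∀ m, fZ (x' m) = x (fZ m) := by
    refine s59x_exists_restr_adjoin fZ (s59e_adj 𝒪 aZ) (s59e_adj 𝒪 aD) GD hGD ?_
    intro x hx
    obtain ⟨xB, hxB, xZ, hxZ, hxZB⟩ := hGDq x hx
    refine ⟨xZ, hxZ, fun m => ?_⟩
    show Dq.resA ((xZ m : ZB) : YB) = x (Dq.resA (m : YB))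
    rw [hxZB, hxB.resA]
  have h₁Z : ∀ x' ∈ s59e_adj 𝒪 aZ, ∃ x ∈ s59e_adj 𝒪 aD, ∀ m, fZ (x' m) = x (fZ m) :=
    s59x_exists_ext_adjoin fZ (s59e_adj 𝒪 aZ) (s59e_adj 𝒪 aD) GZ hGZ hGZD
  set rZ := s59x_sigInj fZ hfZi (s59e_adj 𝒪 aZ) (s59e_adj 𝒪 aD) h₂Z with hrZdef
  have hrZ : Function.Surjective rZ := s59x_sigInj_surjective fZ hfZi _ _ h₂Z h₁Z
  -- the transfer to the flat module
  have h₂C : ∀ x ∈ s59e_adj 𝒪 aD, ∃ x' ∈ s59e_adj 𝒪 aC, ∀ m, Dp.resA (x' m) = x (Dp.resA m) := by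
    refine s59x_exists_restr_adjoin Dp.resA (s59e_adj 𝒪 aC) (s59e_adj 𝒪 aD) GD hGD ?_
    intro x hx
    obtain ⟨xC, hxC, hc⟩ := hGDp x hx
    exact ⟨xC, hxC, fun m => (hc.resA m).symm⟩
  have h₁C : ∀ x' ∈ s59e_adj 𝒪 aC, ∃ x ∈ s59e_adj 𝒪 aD, ∀ m, Dp.resA (x' m) = x (Dp.resA m) :=
    s59x_exists_ext_adjoin Dp.resA (s59e_adj 𝒪 aC) (s59e_adj 𝒪 aD) GC hGC hGCD
  set rC := s59x_sigInj Dp.resA hinjp (s59e_adj 𝒪 aC) (s59e_adj 𝒪 aD) h₂C with hrCdef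
  have hrC : Function.Surjective rC := s59x_sigInj_surjective Dp.resA hinjp _ _ h₂C h₁C
  -- the Frobenius traces
  have hrZt : ∀ ℓ : ℕ, ℓ.Prime → ℓ ∉ S → rZ (tD ℓ) = tZ ℓ := fun ℓ hℓ hℓS =>
    Subtype.ext (s59x_sigInj_eq fZ hfZi _ _ h₂Z (tD ℓ) _ (htZ ℓ hℓ hℓS))
  have hrCt : ∀ ℓ : ℕ, ℓ.Prime → ℓ ∉ S → rC (tD ℓ) = tC ℓ := fun ℓ hℓ hℓS =>
    Subtype.ext (s59x_sigInj_eq Dp.resA hinjp _ _ h₂C (tD ℓ) _ (htC ℓ hℓ hℓS))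
  exact s59x_wall_K4 p hLs hLf Sg Smin Ds Dfs κ hκtr Dq Dp hinjq hinjp hst hZD eB eD hq hT
    (s59e_adj 𝒪 aD).val (s59e_adj 𝒪 aZ).val (s59e_adj 𝒪 aC).val
    (fun τ d hd => hDe τ.1 τ.2 d hd) hpB hpC rZ hrZ
    (fun τ u => s59x_sigInj_spec fZ hfZi _ _ h₂Z τ u) rC hrC
    (fun τ c => s59x_sigInj_spec Dp.resA hinjp _ _ h₂C τ c)
    θZ hθZ ρC hρC habsC S tD
    (fun ℓ hℓ hℓS P hP σ hσ => by rw [hrZt ℓ hℓ hℓS]; exact hfrobZ ℓ hℓ hℓS P hP σ hσ)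
    (fun ℓ hℓ hℓS P hP σ hσ => by rw [hrCt ℓ hℓ hℓS]; exact hfrobC ℓ hℓ hℓS P hP σ hσ)

end Fermat.Agent.Lib.S59

end
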