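/-
PROGRAMME (R2) = S59, case (P), NON-MINIMAL half, item [WALL] = helper2's (T5w), leaf (K4) of [W4c] (helper7, prefix `s59x_`), file 8:
**(T5w) ON THE KERNEL PAIRS FROM THE HECKE GLUE, INDEXED FORM.**  `s59x_wall_K4_adj` (NXWallK4b.lean) with the generator sets and their
compatibilities given in the form in which the CONCRETE file (NXConcT5.lean) has them: the three families of trace elements `tD`, `tZ`, `tC`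
generate the three Hecke rings (`s59b_adjoin_tOf`), an index type `I` (the Hecke indices of the upper level) with `ell : I → ℕ` hitting every
good prime, the twisted operators `xB i` on `YB` and the three compatibilities `hcq`, `hcp`, `hZB` per index.  All the `rintro`/`obtain`/`rw`
bookkeeping is done HERE, over abstract modules (in the concrete file every such tactic costs minutes).
-/
import Mathlib
import Fermat.Agent.Lib.S59.NXWallK4b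
import Fermat.Agent.Lib.S59.EFlrCompat
import Fermat.Agent.Lib.S59.ETWRes

set_option autoImplicit false
set_option linter.unusedSectionVars false
set_option linter.unusedVariables false
set_option linter.style.haveILetI false
set_option maxHeartbeats 1600000

noncomputable section

namespace Fermat.Agent.Lib.S59

open IsLocalRing Polynomial

local notation "Qbar" => AlgebraicClosure ℚ
local notation "GQ" => (AlgebraicClosure ℚ ≃ₐ[ℚ] AlgebraicClosure ℚ)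

variable {𝒪 : Type} [CommRing 𝒪] [IsDomain 𝒪] [IsDiscreteValuationRing 𝒪]
  [IsAdicComplete (maximalIdeal 𝒪) 𝒪]
  {ρbar : ResidualGaloisRep (ResidueField 𝒪)}

/-- **(T5w) on the kernel pairs from the Hecke glue, indexed form.** -/
theorem s59x_wall_K4_idx [Finite (ResidueField 𝒪)] (p : ℕ) [Fact p.Prime]
    {Ls Lf : ∀ ⦃A : Type⦄ [CommRing A] [IsLocalRing A], GaloisRepAdic A → Prop}
    (hLs : s59x_LocCond Ls) (hLf : s59x_LocCond Lf) (Sg Smin : Finset ℕ)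
    (Ds : GaloisRep.DeformationRingData 𝒪 ρbar (s59x_TWType 𝒪 p Ls Sg Smin))
    (Dfs : GaloisRep.DeformationRingData 𝒪 ρbar
      (s59x_TWType 𝒪 p (fun _A _ _ ρ => Ls ρ ∧ Lf ρ) Sg Smin))
    (κ : Ds.R →ₐ[𝒪] Dfs.R) (hκtr : ∀ g, κ (s59i_cpTr Ds.ρ g) = s59i_cpTr Dfs.ρ g)
    -- the modules and the packages
    {YB YC YD : Type} [AddCommGroup YB] [Module 𝒪 YB] [AddCommGroup YC] [Module 𝒪 YC]
    [AddCommGroup YD] [Module 𝒪 YD]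
    (Dq : s59t_Old 𝒪 YB YD) (Dp : s59t_Old 𝒪 YC YD)
    (hinjq : Function.Injective Dq.resA) (hinjp : Function.Injective Dp.resA)
    {ZB : Submodule 𝒪 YB} {ZD : Submodule 𝒪 YD} (hst : s59x_OldStable Dq ZB ZD)
    (hZD : ∀ z : YD, Dp.corA z = 0 → Dp.corB z = 0 → z ∈ ZD)
    (eB : Submodule 𝒪 YB) (eD : Submodule 𝒪 YD)
    (hq : ∀ u ∈ eB, ∀ v ∈ eB, ∃ d ∈ eD, Dq.corA d = u ∧ Dq.corB d = v)
    -- the Hecke rings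
    {AC AD AZ : Type} [CommRing AC] [CommRing AD] [CommRing AZ]
    (aC : AC →+* Module.End 𝒪 YC) (aD : AD →+* Module.End 𝒪 YD) (aZ : AZ →+* Module.End 𝒪 ZB)
    [IsLocalRing (s59e_adj 𝒪 aD)] [Module.Finite 𝒪 (s59e_adj 𝒪 aD)]
    [IsLocalHom (algebraMap 𝒪 (s59e_adj 𝒪 aD))]
    (hT : Function.Surjective (residue (s59e_adj 𝒪 aD) ∘ algebraMap 𝒪 (s59e_adj 𝒪 aD)))
    [IsLocalRing (s59e_adj 𝒪 aZ)] [IsLocalRing (s59e_adj 𝒪 aC)]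
    (hDe : ∀ τ ∈ s59e_adj 𝒪 aD, ∀ d ∈ eD, τ d ∈ eD)
    -- the trace elements generate the three Hecke rings
    (S : Finset ℕ) (ND NZ NC : ℕ)
    (tD : ℕ → s59e_adj 𝒪 aD) (tZ : ℕ → s59e_adj 𝒪 aZ) (tC : ℕ → s59e_adj 𝒪 aC)
    (hgD : Algebra.adjoin 𝒪 {x : s59e_adj 𝒪 aD | ∃ ℓ : ℕ, ℓ.Prime ∧ ¬ ℓ ∣ ND ∧
      ℓ ∉ (↑S : Set ℕ) ∧ x = tD ℓ} = ⊤)
    (hgZ : Algebra.adjoin 𝒪 {x : s59e_adj 𝒪 aZ | ∃ ℓ : ℕ, ℓ.Prime ∧ ¬ ℓ ∣ NZ ∧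
      ℓ ∉ (↑S : Set ℕ) ∧ x = tZ ℓ} = ⊤)
    (hgC : Algebra.adjoin 𝒪 {x : s59e_adj 𝒪 aC | ∃ ℓ : ℕ, ℓ.Prime ∧ ¬ ℓ ∣ NC ∧
      ℓ ∉ (↑S : Set ℕ) ∧ x = tC ℓ} = ⊤)
    -- the indices and the compatibilities per index
    {I : Type} (ell : I → ℕ) (hidx : ∀ ℓ : ℕ, ℓ.Prime → ℓ ∉ S → ∃ i : I, ell i = ℓ)
    (xB : I → Module.End 𝒪 YB)
    (hcq : ∀ i : I, ell i ∉ S →
      Dq.Compat (xB i) ((tD (ell i) : s59e_adj 𝒪 aD) : Module.End 𝒪 YD))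
    (hcp : ∀ i : I, ell i ∉ S →
      Dp.Compat ((tC (ell i) : s59e_adj 𝒪 aC) : Module.End 𝒪 YC)
        ((tD (ell i) : s59e_adj 𝒪 aD) : Module.End 𝒪 YD))
    (hZB : ∀ i : I, ell i ∉ S → ∀ w : ZB,
      ((((tZ (ell i) : s59e_adj 𝒪 aZ) : Module.End 𝒪 ZB) w : ZB) : YB) = xB i (w : YB))
    -- the Galois side
    (θZ : Ds.R →ₐ[𝒪] s59e_adj 𝒪 aZ) (hθZ : IsLocalHom (θZ : Ds.R →+* s59e_adj 𝒪 aZ))
    (ρC : GaloisRepAdic (s59e_adj 𝒪 aC)) (hρC : Lf ρC)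
    (habsC : ρC.residual.IsAbsolutelyIrreducible)
    (hfrobT : ∀ ℓ : ℕ, ℓ.Prime → ℓ ∉ S → ∀ P : ValuationSubring Qbar, P.LiesOverPrime ℓ →
      ∀ σ : GQ, P.IsFrobeniusAt σ ℓ →
        (LinearMap.charpoly (Ds.ρ.ρ σ)).map (θZ : Ds.R →+* s59e_adj 𝒪 aZ) =
          X ^ 2 - C (tZ ℓ) * X + C ((ℓ : s59e_adj 𝒪 aZ)))
    (hfrobC : ∀ ℓ : ℕ, ℓ.Prime → ℓ ∉ S → ∀ P : ValuationSubring Qbar, P.LiesOverPrime ℓ →
      ∀ σ : GQ, P.IsFrobeniusAt σ ℓ →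
        LinearMap.charpoly (ρC.ρ σ) = X ^ 2 - C (tC ℓ) * X + C ((ℓ : s59e_adj 𝒪 aC))) :
    ∀ x ∈ RingHom.ker (κ : Ds.R →+* Dfs.R), ∀ u v : ZB, (u : YB) ∈ eB → (v : YB) ∈ eB →
      ∃ z : ZD, (z : YD) ∈ eD ∧
        (s59x_oldSub Dq hst).corA z = ((θZ x : s59e_adj 𝒪 aZ) : Module.End 𝒪 ZB) u ∧
        (s59x_oldSub Dq hst).corB z = ((θZ x : s59e_adj 𝒪 aZ) : Module.End 𝒪 ZB) v := by
  classical
  have hcS : ∀ ℓ : ℕ, ℓ ∉ (↑S : Set ℕ) → ℓ ∉ S := fun ℓ h h' => h (Finset.mem_coe.mpr h')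
  refine s59x_wall_K4_adj p hLs hLf Sg Smin Ds Dfs κ hκtr Dq Dp hinjq hinjp hst hZD eB eD hq
    aC aD aZ hT hDe
    _ (s59efl_adj_le_of_adjoin_top aD _ hgD) ?_ ?_
    _ (s59efl_adj_le_of_adjoin_top aZ _ hgZ) ?_
    _ (s59efl_adj_le_of_adjoin_top aC _ hgC) ?_
    θZ hθZ ρC hρC habsC S tD tZ tC ?_ ?_ ?_ hfrobC
  · rintro _ ⟨x, ⟨ℓ, hℓ, -, hℓS, rfl⟩, rfl⟩
    obtain ⟨i, rfl⟩ := hidx ℓ hℓ (hcS _ hℓS)
    exact ⟨xB i, hcq i (hcS _ hℓS), _, (tZ (ell i)).2, fun w => hZB i (hcS _ hℓS) w⟩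
  · rintro _ ⟨x, ⟨ℓ, hℓ, -, hℓS, rfl⟩, rfl⟩
    obtain ⟨i, rfl⟩ := hidx ℓ hℓ (hcS _ hℓS)
    exact ⟨_, (tC (ell i)).2, hcp i (hcS _ hℓS)⟩
  · rintro _ ⟨x, ⟨ℓ, hℓ, -, hℓS, rfl⟩, rfl⟩
    obtain ⟨i, rfl⟩ := hidx ℓ hℓ (hcS _ hℓS)
    refine ⟨_, (tD (ell i)).2, fun w => ?_⟩
    rw [hZB i (hcS _ hℓS) w]
    exact ((hcq i (hcS _ hℓS)).resA _).symm
  · rintro _ ⟨x, ⟨ℓ, hℓ, -, hℓS, rfl⟩, rfl⟩
    obtain ⟨i, rfl⟩ := hidx ℓ hℓ (hcS _ hℓS)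
    exact ⟨_, (tD (ell i)).2, fun c => ((hcp i (hcS _ hℓS)).resA c).symm⟩
  · intro ℓ hℓ hℓS w
    obtain ⟨i, rfl⟩ := hidx ℓ hℓ hℓS
    rw [hZB i hℓS w]
    exact ((hcq i hℓS).resA _).symm
  · intro ℓ hℓ hℓS c
    obtain ⟨i, rfl⟩ := hidx ℓ hℓ hℓS
    exact ((hcp i hℓS).resA c).symm
  · intro ℓ hℓ hℓS P hP σ hσ
    rw [s59e_bc_charpoly]
    exact hfrobT ℓ hℓ hℓS P hP σ hσ

end Fermat.Agent.Lib.S59

end
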