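/-
PROGRAMME (R), bridge (iii) (helper6, prefix `s59q_`): **from the FRAMED Selmer count to generators of a universal
deformation ring modulo the local "frame entries".**

`s59q_gens_of_framedSelmer`: `D` a deformation ring of a tangent-stable type `𝒟`, `Bq` a set of primes, `E ⊆ D.R` a set
such that every `f : D.R → k[ε]` killing `E` has a first-order matrix family with no `ε`-part on the decomposition
groups at `Bq`.  If the classes of first-order lifts of type `𝒟` whose cocycle vanishes on these decomposition groups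
lie in a set of at most `|k|^s` elements, then `𝔪_R ≤ (E) + (x₁,…,x_s) + 𝔪_𝒪 R`.
(The proof is the count of main's `s56a_of_selmer`, run on the tangent vectors killing `E`.)
-/
import Fermat.Agent.Lib.S59.QBrAlg
import Fermat.Agent.Lib.S56.AMain
import Fermat.Agent.Lib.S56.GUnr

set_option autoImplicit false
set_option linter.style.haveILetI false
set_option linter.unusedSectionVars false

noncomputable section

namespace Fermat.Agent.Lib.S59

open IsLocalRing groupCohomology Module ExtCitation Fermat.Agent.Lib.S56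
open Fermat.Agent.Lib.S53 (matOf matOfRes NormData)
open Fermat.Agent.Lib.Deform (dualNumberAlgebra)

attribute [local instance] Fermat.Agent.Lib.Deform.dualNumberAlgebra

local notation "Γℚ" => (AlgebraicClosure ℚ ≃ₐ[ℚ] AlgebraicClosure ℚ)

section Abs

variable {𝒪 : Type} [CommRing 𝒪] [IsDomain 𝒪] [IsDiscreteValuationRing 𝒪]
  [IsAdicComplete (maximalIdeal 𝒪) 𝒪]
  {ρbar : ResidualGaloisRep (ResidueField 𝒪)}
  {𝒟 : ∀ ⦃A : Type⦄ [CommRing A] [IsLocalRing A] [Algebra 𝒪 A], GaloisRepAdic A → Prop}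

/-- the cocycle of `f` vanishes where the matrix family of `f` has no `ε`-part. -/
theorem s59q_cocPhi_eq_zero (D : GaloisRep.DeformationRingData 𝒪 ρbar 𝒟) (N : NormData ρbar)
    (bR : Basis (Fin 2) D.R D.ρ.V)
    (hbR : ∀ σ i j, matOf D.ρ bR σ i j - algebraMap 𝒪 D.R (N.Mtil σ i j) ∈ maximalIdeal D.R)
    (p : ℕ) [Fact p.Prime] (h𝒟 : s56a_TangentStable 𝒪 𝒟 p)
    (f : D.R →ₐ[𝒪] DualNumber (ResidueField 𝒪)) (hf : Function.Surjective f) (σ : Γℚ)
    (h0 : s56a_sndM (s56a_famOf D bR f σ) = 0) :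
    (s56a_cocPhi D N bR hbR p h𝒟 f hf).1 σ = 0 := by
  apply Subtype.ext
  show Matrix.toLinAlgEquiv N.b (s56a_cocM (matOfRes ρbar N.b) (s56a_famOf D bR f) σ) = 0
  rw [s56a_cocM, h0, zero_mul, map_zero]

/-- **the abstract bridge.** -/
theorem s59q_gens_of_framedSelmer [Finite (ResidueField 𝒪)] (p : ℕ) [Fact p.Prime] (hp2 : p ≠ 2)
    (hdet : (GaloisRepAdic.ofResidualGaloisRep ρbar).DetIsCyclotomic p)
    (h𝒟 : s56a_TangentStable 𝒪 𝒟 p) (s : ℕ) (Bq : Set Nat.Primes)
    (hsel : ∃ T : Finset (H1 (s56a_ad0 ρbar)),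
      {x | ∃ (c : cocycles₁ (s56a_ad0 ρbar)) (hc : s56a_IsLevel c.1),
        (H1π (s56a_ad0 ρbar)).hom c = x ∧ 𝒟 (s56a_liftRep ρbar c hc) ∧
        ∀ q ∈ Bq, ∀ τ : primeLocalGaloisGroup q, c.1 (primeLocalToGlobal q τ) = 0} ⊆ ↑T ∧
      T.card ≤ Nat.card (ResidueField 𝒪) ^ s)
    (D : GaloisRep.DeformationRingData 𝒪 ρbar 𝒟) (N : NormData ρbar)
    (bR : Basis (Fin 2) D.R D.ρ.V)
    (hbR : ∀ σ i j, matOf D.ρ bR σ i j - algebraMap 𝒪 D.R (N.Mtil σ i j) ∈ maximalIdeal D.R)
    (E : Set D.R)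
    (hE : ∀ f : D.R →ₐ[𝒪] DualNumber (ResidueField 𝒪), (∀ e ∈ E, f e = 0) →
      ∀ q ∈ Bq, ∀ τ : primeLocalGaloisGroup q,
        s56a_sndM (s56a_famOf D bR f (primeLocalToGlobal q τ)) = 0) :
    ∃ x : Fin s → D.R, (∀ i, x i ∈ maximalIdeal D.R) ∧
      maximalIdeal D.R ≤
        Ideal.span (E ∪ Set.range x) ⊔ (maximalIdeal 𝒪).map (algebraMap 𝒪 D.R) := by
  classical
  obtain ⟨T, hT, hcard⟩ := hsel
  refine s59q_exists_gens_mod (s56a_isTestAlgebra_R D) E s ?_
  rintro ⟨F, hF⟩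
  have hpk : ((p : ℕ) : ResidueField 𝒪) = 0 := by
    have h1 := hdet.1
    have hbot : maximalIdeal (ResidueField 𝒪) = ⊥ :=
      (Ideal.eq_bot_or_top _).resolve_right (Ideal.IsMaximal.ne_top inferInstance)
    rw [hbot, Ideal.mem_bot] at h1
    exact h1
  have h3 := s56a_three_le_card (ResidueField 𝒪) p hp2 hpk
  let g : (Fin (s + 1) → ResidueField 𝒪) → Option {x // x ∈ T} := fun a =>
    if hs : Function.Surjective (F a).1 then
      some ⟨(H1π (s56a_ad0 ρbar)).hom (s56a_cocPhi D N bR hbR p h𝒟 (F a).1 hs),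
        hT ⟨s56a_cocPhi D N bR hbR p h𝒟 (F a).1 hs, s56a_isLevel_cocPhi D N bR hbR p h𝒟 (F a).1 hs, rfl,
          h𝒟.of_isEquiv (Fermat.Agent.Lib.S53.isEquiv_symm
            (s56a_liftRep_cocPhi_isEquiv D N bR hbR p h𝒟 (F a).1 hs))
            (s56a_isOfType_baseChange D p h𝒟 (F a).1 hs),
          fun q hq τ => s59q_cocPhi_eq_zero D N bR hbR p h𝒟 (F a).1 hs _
            (hE (F a).1 (F a).2 q hq τ)⟩⟩
    else none
  have hg : Function.Injective g := by
    intro a a' haa
    by_cases hx : Function.Surjective (F a).1 <;> by_cases hy : Function.Surjective (F a').1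
    · simp only [g, dif_pos hx, dif_pos hy, Option.some.injEq, Subtype.mk.injEq] at haa
      exact hF (Subtype.ext (s56a_eq_of_class_eq D N bR hbR p h𝒟 _ _ hx hy haa))
    · simp only [g, dif_pos hx, dif_neg hy] at haa
      exact absurd haa (Option.some_ne_none _)
    · simp only [g, dif_neg hx, dif_pos hy] at haa
      exact absurd haa.symm (Option.some_ne_none _)
    · exact hF (Subtype.ext (s56a_eq_of_not_surjective D _ _ hx hy))
  have h1 : Nat.card (Fin (s + 1) → ResidueField 𝒪) ≤ Nat.card (Option {x // x ∈ T}) :=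
    Nat.card_le_card_of_injective g hg
  rw [Nat.card_eq_fintype_card (α := Option {x // x ∈ T}), Fintype.card_option,
    Fintype.card_coe, Nat.card_fun, Nat.card_eq_fintype_card (α := Fin (s + 1)),
    Fintype.card_fin, pow_succ] at h1
  have h4 : 1 ≤ Nat.card (ResidueField 𝒪) ^ s := Nat.one_le_pow _ _ (by omega)
  nlinarith

end Abs

end Fermat.Agent.Lib.S59
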