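/-
PROGRAMME (R), bridge (iii) (helper6, prefix `s59q_`): **the local analysis at a prime of `B`.**

A first-order matrix family `F : G_ℚ → GL₂(k[ε])` (level-constant, `ε`-free determinant, `2 ≠ 0` in `k`) whose values
at a Frobenius lift `φ` at `P` and at an element `σ` generating the image of `I_P` are SCALAR matrices has no
`ε`-part on the whole decomposition group `D_P` (`s59q_sndM_eq_zero_of_scalar`).
-/
import Fermat.Agent.Lib.S56.ADualMat
import Fermat.Agent.Lib.S56.GDecomp

set_option autoImplicit false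

noncomputable section

namespace Fermat.Agent.Lib.S59

open Fermat.Agent.Lib.S56

local notation "Γℚ" => (AlgebraicClosure ℚ ≃ₐ[ℚ] AlgebraicClosure ℚ)

section Scalar

variable {A : Type*} [CommRing A]

/-- the three "off-scalar" entries of a `2 × 2` matrix: the ideal they span is the ideal of the entries of its
trace-free part when `2` is invertible, and is invariant under conjugation. -/
def s59q_offEntries (M : Matrix (Fin 2) (Fin 2) A) : Set A := {M 0 1, M 1 0, M 0 0 - M 1 1}

theorem s59q_eq_scalar_of_offEntries {B : Type*} [CommRing B] (f : A →+* B)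
    (M : Matrix (Fin 2) (Fin 2) A) (h : ∀ e ∈ s59q_offEntries M, f e = 0) :
    M.map f = Matrix.scalar (Fin 2) (f (M 0 0)) := by
  have h01 : f (M 0 1) = 0 := h _ (by simp [s59q_offEntries])
  have h10 : f (M 1 0) = 0 := h _ (by simp [s59q_offEntries])
  have h00 : f (M 0 0) = f (M 1 1) := by
    have := h (M 0 0 - M 1 1) (by simp [s59q_offEntries])
    rwa [map_sub, sub_eq_zero] at this
  ext i j
  fin_cases i <;> fin_cases j <;> simp [h01, h10, h00]

end Scalar

section Local

variable {k : Type} [Field k]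

/-- a scalar matrix over `k[ε]` which is invertible with `ε`-free determinant has no `ε`-part (`2 ≠ 0`). -/
theorem s59q_sndM_scalar_eq_zero (h2 : (2 : k) ≠ 0) (y : DualNumber k)
    (M M' : Matrix (Fin 2) (Fin 2) (DualNumber k)) (hM : M = Matrix.scalar (Fin 2) y)
    (hinv : M * M' = 1) (hdet : M.det.snd = 0) : s56a_sndM M = 0 := by
  have hy : y.fst ≠ 0 := by
    intro h0
    have h1 := congrArg Matrix.det hinv
    rw [Matrix.det_mul, Matrix.det_one, hM, Matrix.det_fin_two] at h1
    have h3 := congrArg TrivSqZeroExt.fst h1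
    simp [h0] at h3
  have hs : y.snd = 0 := by
    rw [hM, Matrix.det_fin_two] at hdet
    simp only [Matrix.scalar_apply, Matrix.diagonal_apply_eq, ne_eq, zero_ne_one, not_false_eq_true,
      Matrix.diagonal_apply_ne, one_ne_zero, mul_zero, sub_zero, TrivSqZeroExt.snd_mul, smul_eq_mul,
      MulOpposite.smul_eq_mul_unop, MulOpposite.unop_op] at hdet
    have h4 : 2 * (y.fst * y.snd) = 0 := by rw [← hdet]; ring
    rcases mul_eq_zero.1 h4 with h | h
    · exact absurd h h2
    · exact (mul_eq_zero.1 h).resolve_left hy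
  rw [hM]
  ext i j
  fin_cases i <;> fin_cases j <;> simp [hs]

variable (F : Γℚ →* Matrix (Fin 2) (Fin 2) (DualNumber k))

/-- **the local analysis.** -/
theorem s59q_sndM_eq_zero_of_scalar (h2 : (2 : k) ≠ 0)
    (hlev : ∃ L : IntermediateField ℚ (AlgebraicClosure ℚ), FiniteDimensional ℚ L ∧
      ∀ s ∈ L.fixingSubgroup, F s = 1)
    (hdet : ∀ g, (F g).det.snd = 0)
    (q : ℕ) (hq : q.Prime) (P : ValuationSubring (AlgebraicClosure ℚ)) (hP : P.LiesOverPrime q)
    (φ : Γℚ) (hφ : P.IsFrobeniusAt φ q) (σ : Γℚ)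
    (hσ : ∀ ι ∈ P.inertiaSubgroupIn ℚ, ∃ a : ℕ, F ((σ ^ a)⁻¹ * ι) = 1)
    (yσ yφ : DualNumber k) (hFσ : F σ = Matrix.scalar (Fin 2) yσ)
    (hFφ : F φ = Matrix.scalar (Fin 2) yφ)
    (g : Γℚ) (hg : g ∈ P.decompositionSubgroup ℚ) : s56a_sndM (F g) = 0 := by
  obtain ⟨L, hL, hFL⟩ := hlev
  obtain ⟨j, ι, hι, hs⟩ := s56g_ifaceFrobGen q hq P hP φ hφ L hL g hg
  obtain ⟨a, ha⟩ := hσ ι hι
  have h1 : F g = F φ ^ j * F σ ^ a := by
    have e1 : g = (φ ^ j * ι) * ((φ ^ j * ι)⁻¹ * g) := by group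
    have e2 : ι = σ ^ a * ((σ ^ a)⁻¹ * ι) := by group
    rw [e1, map_mul, hFL _ hs, mul_one, map_mul, map_pow]
    conv_lhs => rw [e2, map_mul, ha, mul_one, map_pow]
  have h3 : F g = Matrix.scalar (Fin 2) (yφ ^ j * yσ ^ a) := by
    rw [h1, hFσ, hFφ, ← map_pow, ← map_pow, ← map_mul]
  have hinv : F g * F g⁻¹ = 1 := by rw [← map_mul, mul_inv_cancel, map_one]
  exact s59q_sndM_scalar_eq_zero h2 _ _ _ h3 hinv (hdet g)

end Local

end Fermat.Agent.Lib.S59
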