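/-
PROGRAMME (R), bridge (iii) with a general framed set (helper6, prefix `s59q_`): **the local analysis with frames.**

Over `k[ε]`: `F : G_ℚ → GL₂(k[ε])` a first-order family, `V` an invertible matrix (the value of the frame).
* `s59q_sndM_eq_zero_of_entries`: a matrix whose off-diagonal entries and difference of diagonal entries are `ε`-free,
  with `ε`-free determinant and residual trace `≠ 0`, is `ε`-free;
* `s59q_framed_sndM_eq_zero`: if the framed family `V⁻¹ F V` is `ε`-free at a Frobenius lift `φ` and at a generator `σ`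
  of the image of inertia, it is `ε`-free on the whole decomposition group;
* `s59q_sndM_of_framed`: then `ε-part (F g) = Y·F̄ g − F̄ g·Y`, `Y = (ε-part V)·V̄⁻¹`;
* `s59q_cocOf_cob_of_framed`: hence the cocycle of `F` is the coboundary of ONE element of `ad⁰ρ̄` at all such `g`;
* `s59q_comm_of_framed`: two frames with the same residual value making the same `F` `ε`-free at `g` differ by a
  matrix commuting with `F̄ g`; `s59q_diag_of_comm`: a matrix commuting with `diag(α, β)`, `α ≠ β`, is diagonal.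
-/
import Fermat.Agent.Lib.S59.QBrLoc
import Fermat.Agent.Lib.S56.ACocycle

set_option autoImplicit false

noncomputable section

namespace Fermat.Agent.Lib.S59

open groupCohomology Module Fermat.Agent.Lib.S56
open Fermat.Agent.Lib.S53 (matOf matOfRes)

local notation "Γℚ" => (AlgebraicClosure ℚ ≃ₐ[ℚ] AlgebraicClosure ℚ)

section Mat

variable {k : Type} [Field k]

/-- off-diagonal entries and difference of the diagonal entries `ε`-free, determinant `ε`-free, residual trace `≠ 0`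
⇒ the matrix is `ε`-free. -/
theorem s59q_sndM_eq_zero_of_entries (A : Matrix (Fin 2) (Fin 2) (DualNumber k))
    (h01 : (A 0 1).snd = 0) (h10 : (A 1 0).snd = 0) (hd : (A 0 0).snd = (A 1 1).snd)
    (hdet : A.det.snd = 0) (htr : (A 0 0).fst + (A 1 1).fst ≠ 0) : s56a_sndM A = 0 := by
  have hs : (A 0 0).snd = 0 := by
    rw [Matrix.det_fin_two] at hdet
    simp only [TrivSqZeroExt.snd_sub, TrivSqZeroExt.snd_mul, smul_eq_mul, MulOpposite.smul_eq_mul_unop,
      MulOpposite.unop_op, h01, h10, mul_zero, zero_mul, add_zero, sub_zero, ← hd] at hdet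
    have h4 : (A 0 0).snd * ((A 0 0).fst + (A 1 1).fst) = 0 := by rw [← hdet]; ring
    exact (mul_eq_zero.1 h4).resolve_right htr
  ext i j
  fin_cases i <;> fin_cases j
  · exact hs
  · exact h01
  · exact h10
  · show (A 1 1).snd = 0
    rw [← hd]
    exact hs

theorem s59q_sndM_mul_eq_zero {A B : Matrix (Fin 2) (Fin 2) (DualNumber k)} (hA : s56a_sndM A = 0)
    (hB : s56a_sndM B = 0) : s56a_sndM (A * B) = 0 := by
  rw [s56a_sndM_mul, hA, hB, mul_zero, zero_mul, add_zero]

theorem s59q_sndM_pow_eq_zero {A : Matrix (Fin 2) (Fin 2) (DualNumber k)} (hA : s56a_sndM A = 0)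
    (n : ℕ) : s56a_sndM (A ^ n) = 0 := by
  induction n with
  | zero => rw [pow_zero, s56a_sndM_one]
  | succ n ih => rw [pow_succ]; exact s59q_sndM_mul_eq_zero ih hA

/-- the `ε`-part of `A` when the framed matrix `V' A V` is `ε`-free. -/
theorem s59q_sndM_of_framed (A V V' : Matrix (Fin 2) (Fin 2) (DualNumber k)) (hVV' : V * V' = 1)
    (h : s56a_sndM (V' * A * V) = 0) :
    s56a_sndM A = s56a_sndM V * s56a_fstM V' * s56a_fstM A -
      s56a_fstM A * (s56a_sndM V * s56a_fstM V') := by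
  have e1 : s56a_fstM V * s56a_fstM V' = 1 := by rw [← s56a_fstM_mul, hVV', s56a_fstM_one]
  have e3 : s56a_fstM V * s56a_sndM V' + s56a_sndM V * s56a_fstM V' = 0 := by
    rw [← s56a_sndM_mul, hVV', s56a_sndM_one]
  have e4 : s56a_fstM V * s56a_sndM V' = -(s56a_sndM V * s56a_fstM V') := eq_neg_of_add_eq_zero_left e3
  have hA : A = V * (V' * A * V) * V' := by
    calc A = (V * V') * A * (V * V') := by rw [hVV', one_mul, mul_one]
      _ = V * (V' * A * V) * V' := by simp only [mul_assoc]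
  have hB : s56a_fstM (V' * A * V) = s56a_fstM V' * s56a_fstM A * s56a_fstM V := by
    rw [s56a_fstM_mul, s56a_fstM_mul]
  conv_lhs => rw [hA]
  rw [s56a_sndM_mul, s56a_sndM_mul, h, s56a_fstM_mul, hB, mul_zero, zero_add]
  have t1 : s56a_fstM V * (s56a_fstM V' * s56a_fstM A * s56a_fstM V) * s56a_sndM V' =
      -(s56a_fstM A * (s56a_sndM V * s56a_fstM V')) := by
    calc _ = (s56a_fstM V * s56a_fstM V') * s56a_fstM A * (s56a_fstM V * s56a_sndM V') := by
          simp only [mul_assoc]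
      _ = _ := by rw [e1, one_mul, e4, mul_neg]
  have t2 : s56a_sndM V * (s56a_fstM V' * s56a_fstM A * s56a_fstM V) * s56a_fstM V' =
      s56a_sndM V * s56a_fstM V' * s56a_fstM A := by
    calc _ = s56a_sndM V * s56a_fstM V' * s56a_fstM A * (s56a_fstM V * s56a_fstM V') := by
          simp only [mul_assoc]
      _ = _ := by rw [e1, mul_one]
  rw [t1, t2]
  abel

/-- two frames with the same residual value making `A` `ε`-free differ by a matrix commuting with `Ā`. -/
theorem s59q_comm_of_framed (A V V' W W' : Matrix (Fin 2) (Fin 2) (DualNumber k))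
    (hVV' : V * V' = 1) (hWW' : W * W' = 1) (hV'V : V' * V = 1) (hVW : s56a_fstM V = s56a_fstM W)
    (hV : s56a_sndM (V' * A * V) = 0) (hW : s56a_sndM (W' * A * W) = 0) :
    (s56a_sndM W - s56a_sndM V) * s56a_fstM V' * s56a_fstM A =
      s56a_fstM A * ((s56a_sndM W - s56a_sndM V) * s56a_fstM V') := by
  have e1 : s56a_fstM W * s56a_fstM W' = 1 := by rw [← s56a_fstM_mul, hWW', s56a_fstM_one]
  have e2 : s56a_fstM V' * s56a_fstM V = 1 := by rw [← s56a_fstM_mul, hV'V, s56a_fstM_one]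
  have hW' : s56a_fstM W' = s56a_fstM V' := by
    calc s56a_fstM W' = (s56a_fstM V' * s56a_fstM V) * s56a_fstM W' := by rw [e2, one_mul]
      _ = s56a_fstM V' * (s56a_fstM W * s56a_fstM W') := by rw [hVW, mul_assoc]
      _ = s56a_fstM V' := by rw [e1, mul_one]
  have h1 := s59q_sndM_of_framed A V V' hVV' hV
  have h2 := s59q_sndM_of_framed A W W' hWW' hW
  rw [hW'] at h2
  have h3 : s56a_sndM W * s56a_fstM V' * s56a_fstM A - s56a_fstM A * (s56a_sndM W * s56a_fstM V') =
      s56a_sndM V * s56a_fstM V' * s56a_fstM A - s56a_fstM A * (s56a_sndM V * s56a_fstM V') := by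
    rw [← h1, ← h2]
  rw [sub_mul, sub_mul, mul_sub]
  have h4 : (s56a_sndM W * s56a_fstM V' * s56a_fstM A - s56a_sndM V * s56a_fstM V' * s56a_fstM A) -
      (s56a_fstM A * (s56a_sndM W * s56a_fstM V') - s56a_fstM A * (s56a_sndM V * s56a_fstM V')) =
      (s56a_sndM W * s56a_fstM V' * s56a_fstM A - s56a_fstM A * (s56a_sndM W * s56a_fstM V')) -
      (s56a_sndM V * s56a_fstM V' * s56a_fstM A - s56a_fstM A * (s56a_sndM V * s56a_fstM V')) := by
    abel
  rw [h3, sub_self] at h4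
  exact sub_eq_zero.1 h4

/-- a matrix commuting with `diag(α, β)`, `α ≠ β`, is diagonal. -/
theorem s59q_diag_of_comm (D : Matrix (Fin 2) (Fin 2) k) (α β : k) (hαβ : α ≠ β)
    (h : D * Matrix.diagonal ![α, β] = Matrix.diagonal ![α, β] * D) : D 0 1 = 0 ∧ D 1 0 = 0 := by
  have h01 := congrFun (congrFun h 0) 1
  have h10 := congrFun (congrFun h 1) 0
  simp only [Matrix.mul_diagonal, Matrix.diagonal_mul, Matrix.cons_val_one, Matrix.cons_val_zero,
    Matrix.cons_val_fin_one] at h01 h10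
  constructor
  · have : D 0 1 * (β - α) = 0 := by rw [mul_sub, h01]; ring
    exact (mul_eq_zero.1 this).resolve_right (sub_ne_zero.2 hαβ.symm)
  · have : D 1 0 * (α - β) = 0 := by rw [mul_sub, h10]; ring
    exact (mul_eq_zero.1 this).resolve_right (sub_ne_zero.2 hαβ)

end Mat

section Framed

variable {k : Type} [Field k] (F : Γℚ →* Matrix (Fin 2) (Fin 2) (DualNumber k))

/-- **the framed local analysis**: `ε`-free at `φ` and `σ` ⇒ `ε`-free on the decomposition group. -/
theorem s59q_framed_sndM_eq_zero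
    (hlev : ∃ L : IntermediateField ℚ (AlgebraicClosure ℚ), FiniteDimensional ℚ L ∧
      ∀ s ∈ L.fixingSubgroup, F s = 1)
    (q : ℕ) (hq : q.Prime) (P : ValuationSubring (AlgebraicClosure ℚ)) (hP : P.LiesOverPrime q)
    (φ : Γℚ) (hφ : P.IsFrobeniusAt φ q) (σ : Γℚ)
    (hσ : ∀ ι ∈ P.inertiaSubgroupIn ℚ, ∃ a : ℕ, F ((σ ^ a)⁻¹ * ι) = 1)
    (V V' : Matrix (Fin 2) (Fin 2) (DualNumber k)) (hVV' : V * V' = 1) (hV'V : V' * V = 1)
    (hFσ : s56a_sndM (V' * F σ * V) = 0) (hFφ : s56a_sndM (V' * F φ * V) = 0)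
    (g : Γℚ) (hg : g ∈ P.decompositionSubgroup ℚ) : s56a_sndM (V' * F g * V) = 0 := by
  obtain ⟨L, hL, hFL⟩ := hlev
  obtain ⟨j, ι, hι, hs⟩ := s56g_ifaceFrobGen q hq P hP φ hφ L hL g hg
  obtain ⟨a, ha⟩ := hσ ι hι
  have h1 : F g = F φ ^ j * F σ ^ a := by
    have e1 : g = (φ ^ j * ι) * ((φ ^ j * ι)⁻¹ * g) := by group
    have e2 : ι = σ ^ a * ((σ ^ a)⁻¹ * ι) := by group
    rw [e1, map_mul, hFL _ hs, mul_one, map_mul, map_pow]
    conv_lhs => rw [e2, map_mul, ha, mul_one, map_pow]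
  have hconj : ∀ (A : Matrix (Fin 2) (Fin 2) (DualNumber k)) (n : ℕ),
      V' * A ^ n * V = (V' * A * V) ^ n := by
    intro A n
    induction n with
    | zero => rw [pow_zero, pow_zero, mul_one, hV'V]
    | succ n ih =>
      rw [pow_succ, pow_succ, ← ih]
      calc V' * (A ^ n * A) * V = V' * A ^ n * (V * V') * A * V := by
            rw [hVV', mul_one]; simp only [mul_assoc]
        _ = V' * A ^ n * V * (V' * A * V) := by simp only [mul_assoc]
  have h2 : V' * F g * V = (V' * F φ * V) ^ j * (V' * F σ * V) ^ a := by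
    rw [h1, ← hconj, ← hconj]
    calc V' * (F φ ^ j * F σ ^ a) * V = V' * F φ ^ j * (V * V') * F σ ^ a * V := by
          rw [hVV', mul_one]; simp only [mul_assoc]
      _ = _ := by simp only [mul_assoc]
  rw [h2]
  exact s59q_sndM_mul_eq_zero (s59q_sndM_pow_eq_zero hFφ j) (s59q_sndM_pow_eq_zero hFσ a)

end Framed

section Cob

variable {k : Type} [Field k] (ρbar : ResidualGaloisRep k) (b : Basis (Fin 2) k ρbar.V)
  (F : Γℚ →* Matrix (Fin 2) (Fin 2) (DualNumber k))

/-- **the cocycle of `F` is a coboundary wherever a framed family `V⁻¹ F V` is `ε`-free.** -/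
theorem s59q_cocOf_cob_of_framed (h2 : (2 : k) ≠ 0)
    (hM : ∀ σ, s56a_fstM (F σ) = matOfRes ρbar b σ) (hdet : ∀ σ, (F σ).det.snd = 0)
    (V V' : Matrix (Fin 2) (Fin 2) (DualNumber k)) (hVV' : V * V' = 1) :
    ∃ X : s56a_ad0 ρbar, ∀ g : Γℚ, s56a_sndM (V' * F g * V) = 0 →
      (s56a_cocOf ρbar b F hM hdet).1 g = (s56a_ad0 ρbar).ρ g X - X := by
  obtain ⟨Y, hY⟩ : ∃ Y : Matrix (Fin 2) (Fin 2) k, Y = s56a_sndM V * s56a_fstM V' := ⟨_, rfl⟩
  obtain ⟨LY, hLY⟩ : ∃ LY : Module.End k ρbar.V, LY = Matrix.toLinAlgEquiv b Y := ⟨_, rfl⟩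
  obtain ⟨t, ht⟩ : ∃ t : k, t = LinearMap.trace k ρbar.V LY / 2 := ⟨_, rfl⟩
  have htr : LinearMap.trace k ρbar.V (t • (1 : Module.End k ρbar.V) - LY) = 0 := by
    rw [map_sub, map_smul, LinearMap.trace_one, ρbar.finrank_eq, ht, smul_eq_mul]
    push_cast
    field_simp
    ring
  refine ⟨(⟨t • (1 : Module.End k ρbar.V) - LY, (s56a_mem_sl ρbar _).2 htr⟩ : ↥(s56a_sl ρbar)),
    fun g hg => ?_⟩
  apply Subtype.ext
  show Matrix.toLinAlgEquiv b (s56a_cocM (matOfRes ρbar b) F g) =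
    ρbar.ρ g * (t • (1 : Module.End k ρbar.V) - LY) * ρbar.ρ g⁻¹ - (t • (1 : Module.End k ρbar.V) - LY)
  have h1 := s59q_sndM_of_framed (F g) V V' hVV' hg
  rw [hM g, ← hY] at h1
  have h3 : s56a_cocM (matOfRes ρbar b) F g = Y - matOfRes ρbar b g * Y * matOfRes ρbar b g⁻¹ := by
    rw [s56a_cocM, h1, sub_mul, mul_assoc Y, s56a_Mb_mul_inv, mul_one]
  have h4 : Matrix.toLinAlgEquiv b (Y - matOfRes ρbar b g * Y * matOfRes ρbar b g⁻¹) =
      LY - ρbar.ρ g * LY * ρbar.ρ g⁻¹ := by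
    rw [map_sub, map_mul, map_mul, s56a_toLin_matOfRes, s56a_toLin_matOfRes, hLY]
  rw [h3, h4, mul_sub, sub_mul, mul_smul_comm, mul_one, smul_mul_assoc, s56a_rho_mul_inv]
  abel

end Cob

end Fermat.Agent.Lib.S59
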