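/-
PROGRAMME (R), bridge (iii) with a general framed set (helper6, prefix `s59q_`): **the bridge with frames, UNCONDITIONAL.**

Framed set `F = Bd ∪ Ed` (`Bd`: `ρ̄|G_q` central; `Ed`: `ρ̄` unramified).  There is `r ≥ 3|Bd| + |Ed|` such that for every
`n` there are Taylor–Wiles primes `qv : Fin r → ℕ` such that for EVERY universal deformation ring `DQ` of type "flat
(resp. strict-ordinary) at `p`, unramified outside `Smin ∪ F ∪ Q`, unipotent at `Smin ∖ {p}`", every noetherian local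
test `𝒪`-algebra `C` with `ψ : DQ.R →ₐ[𝒪] C`, every `E ⊆ C` and `Λ : Hom(C, k[ε]) → k^w` with (1) (2) of `QBrEAbs.lean`:
`𝔪_C ≤ (E) + (x₁,…,x_g) + 𝔪_𝒪 C`, `g = (r - 3|Bd| - |Ed|) + w`       (`s59q_bridge_flat_w`, `s59q_bridge_ord_w`).
Tools for (1), (2) when `E` = entries of framed matrices: `s59q_hE1_of_framed`, `s59q_frame_diff_comm`.
-/
import Fermat.Agent.Lib.S59.QBrEAbs
import Fermat.Agent.Lib.S59.QBrELoc
import Fermat.Agent.Lib.S59.QSelWWire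

set_option autoImplicit false
set_option linter.style.haveILetI false
set_option linter.unusedSectionVars false

noncomputable section

namespace Fermat.Agent.Lib.S59

open IsLocalRing groupCohomology Module ExtCitation Polynomial Fermat.Agent.Lib.S56
open Fermat.Agent.Lib.S53 (matOf matOfRes NormData)
open Fermat.Agent.Lib.Deform (dualNumberAlgebra IsTestAlgebra isTestAlgebra_dualNumber resk resk_comp)

attribute [local instance] Fermat.Agent.Lib.Deform.dualNumberAlgebra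

local notation "Γℚ" => (AlgebraicClosure ℚ ≃ₐ[ℚ] AlgebraicClosure ℚ)

section Tools

variable {𝒪 : Type} [CommRing 𝒪] [IsDomain 𝒪] [IsDiscreteValuationRing 𝒪]
  [IsAdicComplete (maximalIdeal 𝒪) 𝒪]
  {ρbar : ResidualGaloisRep (ResidueField 𝒪)}
  {𝒟 : ∀ ⦃A : Type⦄ [CommRing A] [IsLocalRing A] [Algebra 𝒪 A], GaloisRepAdic A → Prop}
  (D : GaloisRep.DeformationRingData 𝒪 ρbar 𝒟) (N : NormData ρbar)
  (bR : Basis (Fin 2) D.R D.ρ.V)
  (hbR : ∀ σ i j, matOf D.ρ bR σ i j - algebraMap 𝒪 D.R (N.Mtil σ i j) ∈ maximalIdeal D.R)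
  {C : Type} [CommRing C] [Algebra 𝒪 C] (ψ : D.R →ₐ[𝒪] C)

/-- the family of `f ∘ ψ`, framed by `f(U)`, is the image under `f` of the framed matrix over `C`. -/
theorem s59q_famOf_framed (f : C →ₐ[𝒪] DualNumber (ResidueField 𝒪))
    (U U' : Matrix (Fin 2) (Fin 2) C) (g : Γℚ) :
    U'.map f * s56a_famOf D bR (f.comp ψ) g * U.map f =
      (U' * (matOf D.ρ bR g).map ψ * U).map f := by
  have h1 : s56a_famOf D bR (f.comp ψ) g = ((matOf D.ρ bR g).map ψ).map f := by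
    rw [s56a_famOf_apply, Matrix.map_map]
    rfl
  rw [h1, Matrix.map_mul, Matrix.map_mul]

/-- **(1) from framed entries**: if the framed matrices at a Frobenius lift `φ` and at a generator `σ` of the image of
inertia are `ε`-free after `f`, the cocycle of `f ∘ ψ` is a coboundary on the decomposition group at `q`. -/
theorem s59q_hE1_of_framed (p : ℕ) [Fact p.Prime] (h𝒟 : s56a_TangentStable 𝒪 𝒟 p)
    (h2 : (2 : ResidueField 𝒪) ≠ 0)
    (f : C →ₐ[𝒪] DualNumber (ResidueField 𝒪)) (hs : Function.Surjective (f.comp ψ))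
    (q : Nat.Primes) (σ φ : Γℚ) (hφ : (primeLocalPlace q).IsFrobeniusAt φ q)
    (hσ : ∀ ι ∈ (primeLocalPlace q).inertiaSubgroupIn ℚ, ∃ a : ℕ,
      ∀ f' : D.R →ₐ[𝒪] DualNumber (ResidueField 𝒪), s56a_famOf D bR f' ((σ ^ a)⁻¹ * ι) = 1)
    (U U' : Matrix (Fin 2) (Fin 2) C) (hUU' : U * U' = 1) (hU'U : U' * U = 1)
    (h1 : s56a_sndM ((U' * (matOf D.ρ bR σ).map ψ * U).map f) = 0)
    (h1' : s56a_sndM ((U' * (matOf D.ρ bR φ).map ψ * U).map f) = 0) :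
    ∃ X : s56a_ad0 ρbar, ∀ τ : primeLocalGaloisGroup q,
      (s56a_cocPhi D N bR hbR p h𝒟 (f.comp ψ) hs).1 (primeLocalToGlobal q τ) =
        (s56a_ad0 ρbar).ρ (primeLocalToGlobal q τ) X - X := by
  have hVV' : U.map f * U'.map f = 1 := by
    rw [← Matrix.map_mul, hUU', Matrix.map_one _ (map_zero f) (map_one f)]
  have hV'V : U'.map f * U.map f = 1 := by
    rw [← Matrix.map_mul, hU'U, Matrix.map_one _ (map_zero f) (map_one f)]
  obtain ⟨L, hL, hLF⟩ := s56a_hcont_of_matContinuous _ (s56a_matContinuous_famOf D bR (f.comp ψ))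
  obtain ⟨X, hX⟩ := s59q_cocOf_cob_of_framed ρbar N.b (s56a_famOf D bR (f.comp ψ)) h2
    (s56a_fst_famOf D N bR hbR (f.comp ψ)) (s56a_det_famOf D bR p h𝒟 (f.comp ψ) hs)
    (U.map f) (U'.map f) hVV'
  refine ⟨X, fun τ => hX _ ?_⟩
  refine s59q_framed_sndM_eq_zero (s56a_famOf D bR (f.comp ψ))
    ⟨L, hL, fun s hs' => hLF s fun x hx => (IntermediateField.mem_fixingSubgroup_iff L s).1 hs' x hx⟩
    q q.2 (primeLocalPlace q) (s56g_place_liesOver q) φ hφ σ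
    (fun ι hι => by
      obtain ⟨a, ha⟩ := hσ ι hι
      exact ⟨a, ha _⟩)
    (U.map f) (U'.map f) hVV' hV'V ?_ ?_ _ (s56g_loc_mem_decomp q τ)
  · rw [s59q_famOf_framed]; exact h1
  · rw [s59q_famOf_framed]; exact h1'

variable [IsLocalRing C]

/-- the constant part of a tangent vector is the residue map. -/
theorem s59q_fst_tangent (hC : IsTestAlgebra 𝒪 C) (f : C →ₐ[𝒪] DualNumber (ResidueField 𝒪)) (x : C) :
    (f x).fst = resk hC x := by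
  rw [← s56a_resk_dual, resk_comp hC (isTestAlgebra_dualNumber 𝒪) f x]

include hbR in
/-- **tool for (2)**: two tangent vectors with the same restriction to `D.R` for which the same framed matrix at `g` is
`ε`-free: the difference of the `ε`-parts of the frames commutes with `ρ̄(g)` (in the basis `N.b`). -/
theorem s59q_frame_diff_comm (hC : IsTestAlgebra 𝒪 C)
    (f f' : C →ₐ[𝒪] DualNumber (ResidueField 𝒪)) (hff' : f.comp ψ = f'.comp ψ)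
    (U U' : Matrix (Fin 2) (Fin 2) C) (hUU' : U * U' = 1) (hU'U : U' * U = 1) (g : Γℚ)
    (h : s56a_sndM ((U' * (matOf D.ρ bR g).map ψ * U).map f) = 0)
    (h' : s56a_sndM ((U' * (matOf D.ρ bR g).map ψ * U).map f') = 0) :
    (s56a_sndM (U.map f') - s56a_sndM (U.map f)) * s56a_fstM (U'.map f) * matOfRes ρbar N.b g =
      matOfRes ρbar N.b g * ((s56a_sndM (U.map f') - s56a_sndM (U.map f)) * s56a_fstM (U'.map f)) := by
  have hVV' : U.map f * U'.map f = 1 := by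
    rw [← Matrix.map_mul, hUU', Matrix.map_one _ (map_zero f) (map_one f)]
  have hV'V : U'.map f * U.map f = 1 := by
    rw [← Matrix.map_mul, hU'U, Matrix.map_one _ (map_zero f) (map_one f)]
  have hWW' : U.map f' * U'.map f' = 1 := by
    rw [← Matrix.map_mul, hUU', Matrix.map_one _ (map_zero f') (map_one f')]
  have hVW : s56a_fstM (U.map f) = s56a_fstM (U.map f') := by
    ext i j
    rw [s56a_fstM_apply, s56a_fstM_apply, Matrix.map_apply, Matrix.map_apply, s59q_fst_tangent hC,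
      s59q_fst_tangent hC]
  have hA := s56a_fst_famOf D N bR hbR (f.comp ψ) g
  have k1 : s56a_sndM (U'.map f * s56a_famOf D bR (f.comp ψ) g * U.map f) = 0 := by
    rw [s59q_famOf_framed]; exact h
  have k2 : s56a_sndM (U'.map f' * s56a_famOf D bR (f.comp ψ) g * U.map f') = 0 := by
    rw [hff', s59q_famOf_framed]; exact h'
  have := s59q_comm_of_framed (s56a_famOf D bR (f.comp ψ) g) (U.map f) (U'.map f) (U.map f')
    (U'.map f') hVV' hWW' hV'V hVW k1 k2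
  rw [hA] at this
  exact this

end Tools

section Final

variable {𝒪 : Type} [CommRing 𝒪] [IsDomain 𝒪] [IsDiscreteValuationRing 𝒪]
  [IsAdicComplete (maximalIdeal 𝒪) 𝒪] [Finite (ResidueField 𝒪)]

/-- **bridge (iii) with frames, flat condition at `p`.** -/
theorem s59q_bridge_flat_w (p : ℕ) [Fact p.Prime] (hp2 : p ≠ 2) (hp𝒪 : (p : 𝒪) ∈ maximalIdeal 𝒪)
    (ρbar : ResidualGaloisRep (ResidueField 𝒪))
    (habs : ρbar.IsAbsolutelyIrreducible)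
    (hdet : (GaloisRepAdic.ofResidualGaloisRep ρbar).DetIsCyclotomic p)
    (hsplit : ∀ σ : Γℚ, ∃ α β : ResidueField 𝒪,
      LinearMap.charpoly (ρbar.ρ σ) = (X - C α) * (X - C β))
    (hTW : ∀ (K : Type) [Field K] [Algebra (ResidueField 𝒪) K] (G : Subgroup Γℚ), G.index = 2 →
      ∀ V : Submodule K (ρbar.baseChange K).V,
        (∀ σ ∈ G, ∀ x ∈ V, (ρbar.baseChange K).ρ σ x ∈ V) → V = ⊥ ∨ V = ⊤)
    (S Smin Bd Ed : Finset ℕ) (hpSmin : p ∈ Smin) (hSmin : Smin ⊆ S) (hBS : Bd ⊆ S) (hES : Ed ⊆ S)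
    (hBprime : ∀ q ∈ Bd, q.Prime) (hEprime : ∀ q ∈ Ed, q.Prime)
    (hmin : ∀ q : ℕ, q.Prime → q ≠ p → (q ∈ Smin ↔ ¬ ρbar.IsUnramifiedAt q))
    (hBunr : ∀ q ∈ Bd, q ≠ p ∧ ρbar.IsUnramifiedAt q)
    (hEunr : ∀ q ∈ Ed, q ≠ p ∧ ρbar.IsUnramifiedAt q)
    (hBE : Disjoint Bd Ed)
    (hcen : ∀ q : Nat.Primes, (q : ℕ) ∈ Bd → s59q_CentralAt ρbar q) :
    ∃ r : ℕ, 3 * Bd.card + Ed.card ≤ r ∧ ∀ n : ℕ, ∃ qv : Fin r → ℕ, Function.Injective qv ∧
      (∀ i, (qv i).Prime ∧ qv i ∉ S ∧ p ^ (n + 1) ∣ qv i - 1) ∧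
      (∀ i, ∀ P : ValuationSubring (AlgebraicClosure ℚ), P.LiesOverPrime (qv i) →
        ∀ φ : Γℚ, P.IsFrobeniusAt φ (qv i) →
          ∃ α β : ResidueField 𝒪, α ≠ β ∧ LinearMap.charpoly (ρbar.ρ φ) = (X - C α) * (X - C β)) ∧
      ∀ (DQ : GaloisRep.DeformationRingData 𝒪 ρbar (fun _A _ _ _ ρ =>
          GaloisRep.flatCondition 𝒪 p (Smin ∪ (Bd ∪ Ed) ∪ Finset.univ.image qv) ρ ∧
            ∀ q ∈ Smin, q.Prime → q ≠ p → ρ.IsUnipotentOnInertiaAt q))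
        (N : NormData ρbar) (bR : Basis (Fin 2) DQ.R DQ.ρ.V)
        (hbR : ∀ σ i j, matOf DQ.ρ bR σ i j - algebraMap 𝒪 DQ.R (N.Mtil σ i j) ∈ maximalIdeal DQ.R)
        {Cr : Type} [CommRing Cr] [IsLocalRing Cr] [IsNoetherianRing Cr] [Algebra 𝒪 Cr]
        (_ : IsTestAlgebra 𝒪 Cr) (ψ : DQ.R →ₐ[𝒪] Cr) (E : Set Cr) (w : ℕ)
        (Λ : (Cr →ₐ[𝒪] DualNumber (ResidueField 𝒪)) → (Fin w → ResidueField 𝒪))
        (_ : ∀ (f : Cr →ₐ[𝒪] DualNumber (ResidueField 𝒪)), (∀ e ∈ E, f e = 0) →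
          ∀ hs : Function.Surjective (f.comp ψ), ∀ q : Nat.Primes, (q : ℕ) ∈ Bd ∪ Ed →
            ∃ Y : s56a_ad0 ρbar, ∀ τ : primeLocalGaloisGroup q,
              (s56a_cocPhi DQ N bR hbR p (s56a_tangentStable_flat 𝒪 p _ Smin) (f.comp ψ) hs).1
                  (primeLocalToGlobal q τ) =
                (s56a_ad0 ρbar).ρ (primeLocalToGlobal q τ) Y - Y)
        (_ : ∀ f f' : Cr →ₐ[𝒪] DualNumber (ResidueField 𝒪), (∀ e ∈ E, f e = 0) →
          (∀ e ∈ E, f' e = 0) → f.comp ψ = f'.comp ψ → Λ f = Λ f' → f = f'),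
        ∃ x : Fin ((r - (3 * Bd.card + Ed.card)) + w) → Cr, (∀ i, x i ∈ maximalIdeal Cr) ∧
          maximalIdeal Cr ≤
            Ideal.span (E ∪ Set.range x) ⊔ (maximalIdeal 𝒪).map (algebraMap 𝒪 Cr) := by
  haveI : CharP (ResidueField 𝒪) p := s56z_charP p hp𝒪
  letI : Algebra (ZMod p) (ResidueField 𝒪) := ZMod.algebra _ p
  obtain ⟨r, hr, H⟩ := s59q_selmer_flat_w p ρbar hp2 habs hdet hsplit hTW S Smin Bd Ed hpSmin hSmin
    hBS hES hBprime hEprime hmin hBunr hEunr hBE hcen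
  refine ⟨r, hr, fun n => ?_⟩
  obtain ⟨qv, h1, h2, h3, T, hT, hcard⟩ := H n
  refine ⟨qv, h1, h2, h3, fun DQ N bR hbR Cr _ _ _ _ hC ψ E w Λ hE1 hE2 => ?_⟩
  refine s59q_gens_of_framedSelmer_w p hp2 hdet (s56a_tangentStable_flat 𝒪 p _ Smin) _ w
    {q : Nat.Primes | (q : ℕ) ∈ Bd ∪ Ed} ⟨T, ?_, hcard⟩ DQ N bR hbR hC ψ E Λ hE1 hE2
  rintro x ⟨c, hc, rfl, ⟨⟨hd, hfl, hunr⟩, hunip⟩, hvan⟩
  exact hT ⟨c, hc, rfl, ⟨hd, hfl⟩, hunr, hunip, fun q hq => hvan q hq⟩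

/-- **bridge (iii) with frames, strict-ordinary condition at `p`.** -/
theorem s59q_bridge_ord_w (p : ℕ) [Fact p.Prime] (hp2 : p ≠ 2) (hp𝒪 : (p : 𝒪) ∈ maximalIdeal 𝒪)
    (ρbar : ResidualGaloisRep (ResidueField 𝒪))
    (habs : ρbar.IsAbsolutelyIrreducible)
    (hdet : (GaloisRepAdic.ofResidualGaloisRep ρbar).DetIsCyclotomic p)
    (hsplit : ∀ σ : Γℚ, ∃ α β : ResidueField 𝒪,
      LinearMap.charpoly (ρbar.ρ σ) = (X - C α) * (X - C β))
    (hTW : ∀ (K : Type) [Field K] [Algebra (ResidueField 𝒪) K] (G : Subgroup Γℚ), G.index = 2 →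
      ∀ V : Submodule K (ρbar.baseChange K).V,
        (∀ σ ∈ G, ∀ x ∈ V, (ρbar.baseChange K).ρ σ x ∈ V) → V = ⊥ ∨ V = ⊤)
    (S Smin Bd Ed : Finset ℕ) (hpSmin : p ∈ Smin) (hSmin : Smin ⊆ S) (hBS : Bd ⊆ S) (hES : Ed ⊆ S)
    (hBprime : ∀ q ∈ Bd, q.Prime) (hEprime : ∀ q ∈ Ed, q.Prime)
    (hmin : ∀ q : ℕ, q.Prime → q ≠ p → (q ∈ Smin ↔ ¬ ρbar.IsUnramifiedAt q))
    (hBunr : ∀ q ∈ Bd, q ≠ p ∧ ρbar.IsUnramifiedAt q)
    (hEunr : ∀ q ∈ Ed, q ≠ p ∧ ρbar.IsUnramifiedAt q)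
    (hBE : Disjoint Bd Ed)
    (hcen : ∀ q : Nat.Primes, (q : ℕ) ∈ Bd → s59q_CentralAt ρbar q) :
    ∃ r : ℕ, 3 * Bd.card + Ed.card ≤ r ∧ ∀ n : ℕ, ∃ qv : Fin r → ℕ, Function.Injective qv ∧
      (∀ i, (qv i).Prime ∧ qv i ∉ S ∧ p ^ (n + 1) ∣ qv i - 1) ∧
      (∀ i, ∀ P : ValuationSubring (AlgebraicClosure ℚ), P.LiesOverPrime (qv i) →
        ∀ φ : Γℚ, P.IsFrobeniusAt φ (qv i) →
          ∃ α β : ResidueField 𝒪, α ≠ β ∧ LinearMap.charpoly (ρbar.ρ φ) = (X - C α) * (X - C β)) ∧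
      ∀ (DQ : GaloisRep.DeformationRingData 𝒪 ρbar (fun _A _ _ _ ρ =>
          GaloisRep.strictOrdinaryCondition 𝒪 p (Smin ∪ (Bd ∪ Ed) ∪ Finset.univ.image qv) ρ ∧
            ∀ q ∈ Smin, q.Prime → q ≠ p → ρ.IsUnipotentOnInertiaAt q))
        (N : NormData ρbar) (bR : Basis (Fin 2) DQ.R DQ.ρ.V)
        (hbR : ∀ σ i j, matOf DQ.ρ bR σ i j - algebraMap 𝒪 DQ.R (N.Mtil σ i j) ∈ maximalIdeal DQ.R)
        {Cr : Type} [CommRing Cr] [IsLocalRing Cr] [IsNoetherianRing Cr] [Algebra 𝒪 Cr]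
        (_ : IsTestAlgebra 𝒪 Cr) (ψ : DQ.R →ₐ[𝒪] Cr) (E : Set Cr) (w : ℕ)
        (Λ : (Cr →ₐ[𝒪] DualNumber (ResidueField 𝒪)) → (Fin w → ResidueField 𝒪))
        (_ : ∀ (f : Cr →ₐ[𝒪] DualNumber (ResidueField 𝒪)), (∀ e ∈ E, f e = 0) →
          ∀ hs : Function.Surjective (f.comp ψ), ∀ q : Nat.Primes, (q : ℕ) ∈ Bd ∪ Ed →
            ∃ Y : s56a_ad0 ρbar, ∀ τ : primeLocalGaloisGroup q,
              (s56a_cocPhi DQ N bR hbR p (s56a_tangentStable_ord 𝒪 p _ Smin) (f.comp ψ) hs).1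
                  (primeLocalToGlobal q τ) =
                (s56a_ad0 ρbar).ρ (primeLocalToGlobal q τ) Y - Y)
        (_ : ∀ f f' : Cr →ₐ[𝒪] DualNumber (ResidueField 𝒪), (∀ e ∈ E, f e = 0) →
          (∀ e ∈ E, f' e = 0) → f.comp ψ = f'.comp ψ → Λ f = Λ f' → f = f'),
        ∃ x : Fin ((r - (3 * Bd.card + Ed.card)) + w) → Cr, (∀ i, x i ∈ maximalIdeal Cr) ∧
          maximalIdeal Cr ≤
            Ideal.span (E ∪ Set.range x) ⊔ (maximalIdeal 𝒪).map (algebraMap 𝒪 Cr) := by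
  haveI : CharP (ResidueField 𝒪) p := s56z_charP p hp𝒪
  letI : Algebra (ZMod p) (ResidueField 𝒪) := ZMod.algebra _ p
  obtain ⟨r, hr, H⟩ := s59q_selmer_ord_w p ρbar hp2 habs hdet hsplit hTW S Smin Bd Ed hpSmin hSmin
    hBS hES hBprime hEprime hmin hBunr hEunr hBE hcen
  refine ⟨r, hr, fun n => ?_⟩
  obtain ⟨qv, h1, h2, h3, T, hT, hcard⟩ := H n
  refine ⟨qv, h1, h2, h3, fun DQ N bR hbR Cr _ _ _ _ hC ψ E w Λ hE1 hE2 => ?_⟩
  refine s59q_gens_of_framedSelmer_w p hp2 hdet (s56a_tangentStable_ord 𝒪 p _ Smin) _ w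
    {q : Nat.Primes | (q : ℕ) ∈ Bd ∪ Ed} ⟨T, ?_, hcard⟩ DQ N bR hbR hC ψ E Λ hE1 hE2
  rintro x ⟨c, hc, rfl, ⟨⟨hd, hfl, hunr⟩, hunip⟩, hvan⟩
  exact hT ⟨c, hc, rfl, ⟨hd, hfl⟩, hunr, hunip, fun q hq => hvan q hq⟩

end Final

end Fermat.Agent.Lib.S59
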