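/-
PROGRAMME (R), bridge (iii), concrete instance (helper6, prefix `s59q_`), part A: **generalities on `T⟦z⟧`.**
* `s59q_isTestAlgebra_ps`: `T⟦z⟧` is a test algebra when `T` is;
* `s59q_cT`: the constants `T →ₐ[𝒪] T⟦z⟧`;
* `s59q_algHom_ext_ps`: tangent vectors of `T⟦z⟧` are determined by their values on the constants and on the variables;
* `s59q_det_famOf_snd`: the determinant of every first-order family (surjective or not) is `ε`-free;
* `s59q_surjective_evalHom`: `𝒪⟦X_s⟧ → R`, `X_s ↦ v_s`, is onto as soon as the `v_s` and `𝔪_𝒪` generate `𝔪_R`.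
-/
import Fermat.Agent.Lib.S59.QBrEWire
import Fermat.Agent.Lib.Deform.PowerSeries

set_option autoImplicit false
set_option linter.style.haveILetI false
set_option linter.unusedSectionVars false

noncomputable section

namespace Fermat.Agent.Lib.S59

open IsLocalRing Module ExtCitation Fermat.Agent.Lib.S56
open Fermat.Agent.Lib.S53 (matOf matOfRes NormData)
open Fermat.Agent.Lib.Deform

attribute [local instance] Fermat.Agent.Lib.Deform.dualNumberAlgebra

local notation "Γℚ" => (AlgebraicClosure ℚ ≃ₐ[ℚ] AlgebraicClosure ℚ)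

section PS

variable {𝒪 : Type} [CommRing 𝒪] [IsLocalRing 𝒪]
  {T : Type} [CommRing T] [IsLocalRing T] [Algebra 𝒪 T] {ι : Type}

/-- `T⟦z⟧` is a test algebra when `T` is. -/
theorem s59q_isTestAlgebra_ps (hT : IsTestAlgebra 𝒪 T) : IsTestAlgebra 𝒪 (MvPowerSeries ι T) := by
  refine ⟨⟨fun a ha => ?_⟩, fun x => ?_⟩
  · rw [MvPowerSeries.algebraMap_apply, MvPowerSeries.isUnit_iff_constantCoeff,
      MvPowerSeries.constantCoeff_C] at ha
    have := hT.isLocalHom
    exact isUnit_of_map_unit (algebraMap 𝒪 T) a ha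
  · obtain ⟨f, rfl⟩ := residue_surjective x
    obtain ⟨a, ha⟩ := hT.exists_sub_mem (MvPowerSeries.constantCoeff f)
    refine ⟨a, ?_⟩
    rw [Function.comp_apply]
    symm
    rw [← sub_eq_zero, ← map_sub, residue_eq_zero_iff, mem_maximalIdeal, mem_nonunits_iff,
      MvPowerSeries.isUnit_iff_constantCoeff, map_sub, MvPowerSeries.algebraMap_apply,
      MvPowerSeries.constantCoeff_C]
    exact ha

/-- the constants. -/
def s59q_cT (𝒪 : Type) [CommRing 𝒪] (T : Type) [CommRing T] [Algebra 𝒪 T] (ι : Type) :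
    T →ₐ[𝒪] MvPowerSeries ι T :=
  { (MvPowerSeries.C : T →+* MvPowerSeries ι T) with
    commutes' := fun r => by
      show MvPowerSeries.C (algebraMap 𝒪 T r) = _
      rw [MvPowerSeries.algebraMap_apply] }

@[simp] theorem s59q_cT_apply (x : T) : s59q_cT 𝒪 T ι x = MvPowerSeries.C x := rfl

end PS

section PSExt

variable {𝒪 : Type} [CommRing 𝒪] [IsDomain 𝒪] [IsDiscreteValuationRing 𝒪]
  [IsAdicComplete (maximalIdeal 𝒪) 𝒪]
  {T : Type} [CommRing T] [IsLocalRing T] [Algebra 𝒪 T] {ι : Type} [Finite ι]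

/-- a tangent vector of `T⟦z⟧` is determined by its values on the constants and on the variables. -/
theorem s59q_algHom_ext_ps (hC : IsTestAlgebra 𝒪 (MvPowerSeries ι T))
    (f f' : MvPowerSeries ι T →ₐ[𝒪] DualNumber (ResidueField 𝒪))
    (hc : ∀ t : T, f (MvPowerSeries.C t) = f' (MvPowerSeries.C t))
    (hX : ∀ s : ι, f (MvPowerSeries.X s) = f' (MvPowerSeries.X s)) : f = f' := by
  refine AlgHom.ext fun x => ?_
  have hx : x - MvPowerSeries.C (MvPowerSeries.constantCoeff x) ∈
      Ideal.span (Set.range (MvPowerSeries.X : ι → MvPowerSeries ι T)) := by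
    have h1 := mem_span_X_pow_of_coeff_eq_zero (σ := ι) (R := T) (n := 1)
      (g := x - MvPowerSeries.C (MvPowerSeries.constantCoeff x)) (fun d hd => by
        have hd0 : d = 0 := by
          have : Finsupp.degree d = 0 := by omega
          exact (Finsupp.degree_eq_zero_iff d).mp this
        subst hd0
        rw [map_sub, MvPowerSeries.coeff_zero_eq_constantCoeff_apply,
          MvPowerSeries.coeff_zero_eq_constantCoeff_apply, MvPowerSeries.constantCoeff_C, sub_self])
    rwa [pow_one] at h1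
  have hle : Ideal.span (Set.range (MvPowerSeries.X : ι → MvPowerSeries ι T)) ≤
      maximalIdeal (MvPowerSeries ι T) := by
    rw [Ideal.span_le]
    rintro _ ⟨s, rfl⟩
    exact X_mem_maximalIdeal s
  have key : ∀ y ∈ Ideal.span (Set.range (MvPowerSeries.X : ι → MvPowerSeries ι T)), f y = f' y := by
    intro y hy
    refine Submodule.span_induction ?_ ?_ ?_ ?_ hy
    · rintro _ ⟨s, rfl⟩; exact hX s
    · rw [map_zero, map_zero]
    · intro a b _ _ ha hb; rw [map_add, map_add, ha, hb]
    · intro a b hbm hb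
      rw [smul_eq_mul, map_mul, map_mul, hb]
      -- `f' b` has constant part zero, so only the constant part of `f a` matters
      have hb0 : (f' b).fst = 0 := by
        rw [s59q_fst_tangent hC, resk_eq_zero_iff]
        exact hle hbm
      apply TrivSqZeroExt.ext
      · rw [TrivSqZeroExt.fst_mul, TrivSqZeroExt.fst_mul, hb0, mul_zero, mul_zero]
      · rw [TrivSqZeroExt.snd_mul, TrivSqZeroExt.snd_mul, hb0, s59q_fst_tangent hC f a,
          s59q_fst_tangent hC f' a, MulOpposite.op_zero, zero_smul, zero_smul]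
  have e : x = MvPowerSeries.C (MvPowerSeries.constantCoeff x) +
      (x - MvPowerSeries.C (MvPowerSeries.constantCoeff x)) := by ring
  rw [e, map_add, map_add, hc, key _ hx]

end PSExt


section Det

variable {𝒪 : Type} [CommRing 𝒪] [IsDomain 𝒪] [IsDiscreteValuationRing 𝒪]
  [IsAdicComplete (maximalIdeal 𝒪) 𝒪]
  {ρbar : ResidualGaloisRep (ResidueField 𝒪)}
  {𝒟 : ∀ ⦃A : Type⦄ [CommRing A] [IsLocalRing A] [Algebra 𝒪 A], GaloisRepAdic A → Prop}
  (D : GaloisRep.DeformationRingData 𝒪 ρbar 𝒟) (bR : Basis (Fin 2) D.R D.ρ.V)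

/-- the determinant of every first-order family is `ε`-free. -/
theorem s59q_det_famOf_snd (p : ℕ) [Fact p.Prime] (h𝒟 : s56a_TangentStable 𝒪 𝒟 p)
    (φ : D.R →ₐ[𝒪] DualNumber (ResidueField 𝒪)) (σ : Γℚ) : (s56a_famOf D bR φ σ).det.snd = 0 := by
  by_cases hs : Function.Surjective φ
  · exact s56a_det_famOf D bR p h𝒟 φ hs σ
  · have h0 : ∀ i j, (s56a_famOf D bR φ σ i j).snd = 0 := fun i j => by
      rw [s56a_famOf_apply, Matrix.map_apply]
      exact s56a_snd_eq_zero_of_not_surjective D φ hs _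
    rw [Matrix.det_fin_two]
    simp only [TrivSqZeroExt.snd_sub, TrivSqZeroExt.snd_mul, h0, smul_zero, add_zero, sub_zero]

end Det

section Surj

variable {𝒪 : Type} [CommRing 𝒪] [IsLocalRing 𝒪] [IsAdicComplete (maximalIdeal 𝒪) 𝒪]
variable {R : Type} [CommRing R] [IsLocalRing R] [Algebra 𝒪 R] (hR : IsTestAlgebra 𝒪 R)
variable [IsAdicComplete (maximalIdeal R) R]

include hR in
/-- `𝒪⟦X_s⟧ → R`, `X_s ↦ v_s`, is onto as soon as the `v_s` and `𝔪_𝒪` generate the maximal ideal. -/
theorem s59q_surjective_evalHom {σ : Type} [Finite σ] (v : σ → R) (hv : ∀ s, v s ∈ maximalIdeal R)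
    (hgen : maximalIdeal R ≤
      Ideal.span (Set.range v) ⊔ (maximalIdeal 𝒪).map (algebraMap 𝒪 R)) :
    Function.Surjective (evalHom (R := 𝒪) (maximalIdeal R) v hv) := by
  set γ : MvPowerSeries σ 𝒪 →ₐ[𝒪] R := evalHom (maximalIdeal R) v hv with hγ
  have hγX : ∀ i, γ (MvPowerSeries.X i) = v i := fun i => evalHom_X _ _ _ i
  have hγC : ∀ t : 𝒪, γ (MvPowerSeries.C t) = algebraMap 𝒪 R t := by
    intro t
    have : (MvPowerSeries.C t : MvPowerSeries σ 𝒪) =
        algebraMap 𝒪 (MvPowerSeries σ 𝒪) t := by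
      rw [MvPowerSeries.algebraMap_apply, Algebra.algebraMap_self, RingHom.id_apply]
    rw [this, γ.commutes]
  have hle : maximalIdeal R ≤ (maximalIdeal (MvPowerSeries σ 𝒪)).map (γ : _ →+* R) := by
    refine hgen.trans (sup_le ?_ ?_)
    · rw [Ideal.span_le]
      rintro _ ⟨i, rfl⟩
      rw [← hγX i]
      exact Ideal.mem_map_of_mem _ (X_mem_maximalIdeal i)
    · rw [Ideal.map_le_iff_le_comap]
      intro t ht
      rw [Ideal.mem_comap, ← hγC t]
      exact Ideal.mem_map_of_mem _ (s56a_C_mem_maximalIdeal ht)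
  have hge : (maximalIdeal (MvPowerSeries σ 𝒪)).map (γ : _ →+* R) ≤ maximalIdeal R := by
    rw [Ideal.map_le_iff_le_comap]
    intro f hf
    rw [Ideal.mem_comap]
    have hc : MvPowerSeries.constantCoeff f ∈ maximalIdeal 𝒪 := by
      rw [mem_maximalIdeal, mem_nonunits_iff, MvPowerSeries.isUnit_iff_constantCoeff] at hf
      exact hf
    have hsplit : f = MvPowerSeries.C (MvPowerSeries.constantCoeff f) +
        (f - MvPowerSeries.C (MvPowerSeries.constantCoeff f)) := by ring
    have h1 : γ (MvPowerSeries.C (MvPowerSeries.constantCoeff f)) ∈ maximalIdeal R := by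
      rw [hγC]; exact hR.algebraMap_mem hc
    have h2 : γ (f - MvPowerSeries.C (MvPowerSeries.constantCoeff f)) ∈ maximalIdeal R ^ 1 := by
      refine algHom_mem_pow_of_coeff_eq_zero (maximalIdeal R) γ (fun i => by rw [hγX]; exact hv i)
        (fun d hd => ?_)
      have hd0 : d = 0 := by
        have : Finsupp.degree d = 0 := by omega
        exact (Finsupp.degree_eq_zero_iff d).mp this
      subst hd0
      rw [map_sub, MvPowerSeries.coeff_zero_eq_constantCoeff_apply,
        MvPowerSeries.coeff_zero_eq_constantCoeff_apply, MvPowerSeries.constantCoeff_C, sub_self]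
    rw [pow_one] at h2
    show γ f ∈ maximalIdeal R
    rw [hsplit, map_add]
    exact Ideal.add_mem _ h1 h2
  have heq : (maximalIdeal (MvPowerSeries σ 𝒪)).map (γ : _ →+* R) = maximalIdeal R :=
    le_antisymm hge hle
  haveI : IsHausdorff ((maximalIdeal (MvPowerSeries σ 𝒪)).map (γ : _ →+* R)) R := by
    rw [heq]; infer_instance
  refine surjective_of_mk_map_comp_surjective (I := maximalIdeal (MvPowerSeries σ 𝒪))
    (γ : MvPowerSeries σ 𝒪 →+* R) ?_
  intro q
  obtain ⟨a, rfl⟩ := Ideal.Quotient.mk_surjective q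
  obtain ⟨t, ht⟩ := hR.exists_sub_mem a
  refine ⟨MvPowerSeries.C t, ?_⟩
  rw [RingHom.comp_apply, Ideal.Quotient.eq, heq]
  have : (γ : MvPowerSeries σ 𝒪 →+* R) (MvPowerSeries.C t) = algebraMap 𝒪 R t := hγC t
  rw [this, ← neg_sub]
  exact neg_mem ht

end Surj

end Fermat.Agent.Lib.S59
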