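/-
PROGRAMME (R), joint bridge (helper6, prefix `s59q_`): **the cotangent lemma with one generator in a prescribed ideal.**

`R` a noetherian local test `𝒪`-algebra, `J ⊆ 𝔪_R`.  If the relative cotangent space of `R` has dimension `≤ s + 1`
and `k^(s+1)` does not embed into `{f : R →ₐ[𝒪] k[ε] | f(J) = 0}` (i.e. the relative cotangent space of `R ⧸ (J)` has
dimension `≤ s`), then `𝔪_R = (x₀,…,x_s) + 𝔪_𝒪 R` with `x_s ∈ (J)`               (`s59q_exists_gens_J`).
Version relative to a set `E` of known elements: `s59q_exists_gens_mod_J`.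
-/
import Fermat.Agent.Lib.S59.QBrAlg

set_option autoImplicit false
set_option linter.style.haveILetI false

noncomputable section

namespace Fermat.Agent.Lib.S59

open IsLocalRing Fermat.Agent.Lib.Deform Fermat.Agent.Lib.S56

section Lin

variable {K V : Type} [Field K] [AddCommGroup V] [Module K V]

/-- a submodule containing `U` whose image in `V ⧸ U` is everything is everything. -/
theorem s59q_eq_top_of_map_mkQ (U S : Submodule K V) (hUS : U ≤ S) (h : S.map U.mkQ = ⊤) : S = ⊤ := by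
  rw [Submodule.map_mkQ_eq_top] at h
  rwa [sup_eq_right.2 hUS] at h

end Lin

section GensJ

variable {𝒪 : Type} [CommRing 𝒪] [IsLocalRing 𝒪]
variable {R : Type} [CommRing R] [IsLocalRing R] [Algebra 𝒪 R]

/-- a tangent vector attached to a functional on the relative cotangent space kills the elements of `𝔪_R` whose class
in the relative cotangent space vanishes. -/
theorem s59q_tangentOf_eq_zero (hR : IsTestAlgebra 𝒪 R)
    (l : s56a_RelCot hR →ₗ[ResidueField R] ResidueField R) (m : R) (hm : m ∈ maximalIdeal R)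
    (h0 : (s56a_cotU hR).mkQ ((maximalIdeal R).toCotangent ⟨m, hm⟩) = 0) :
    letI := dualNumberAlgebra 𝒪
    s56a_tangentOf hR l m = 0 := by
  letI := dualNumberAlgebra 𝒪
  simp only [s56a_tangentOf]
  rw [tangentHom_apply_of_mem hR _ _ m hm]
  have : s56a_lamOf hR l ((maximalIdeal R).toCotangent ⟨m, hm⟩) = 0 := by
    rw [s56a_lamOf, LinearMap.comp_apply, h0, map_zero]
  rw [this, map_zero, TrivSqZeroExt.inr_zero]

variable [IsNoetherianRing R]

/-- **the cotangent lemma with one generator in `(J)`.** -/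
theorem s59q_exists_gens_J (hR : IsTestAlgebra 𝒪 R) (s : ℕ) (J : Set R)
    (hJm : ∀ j ∈ J, j ∈ maximalIdeal R)
    (h : Module.finrank (ResidueField R) (s56a_RelCot hR) ≤ s + 1)
    (hJ : letI := dualNumberAlgebra 𝒪
      ¬ ∃ F : (Fin (s + 1) → ResidueField 𝒪) →
          {f : R →ₐ[𝒪] DualNumber (ResidueField 𝒪) // ∀ j ∈ J, f j = 0}, Function.Injective F) :
    ∃ x : Fin (s + 1) → R, (∀ i, x i ∈ maximalIdeal R) ∧
      maximalIdeal R ≤ Ideal.span (Set.range x) ⊔ (maximalIdeal 𝒪).map (algebraMap 𝒪 R) ∧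
      x (Fin.last s) ∈ Ideal.span J := by
  letI := dualNumberAlgebra 𝒪
  classical
  by_cases hd : Module.finrank (ResidueField R) (s56a_RelCot hR) ≤ s
  · obtain ⟨x', hx', hgen⟩ := s56a_exists_gens hR s hd
    refine ⟨Fin.snoc x' 0, fun i => ?_, ?_, ?_⟩
    · refine Fin.lastCases ?_ (fun i => ?_) i
      · rw [Fin.snoc_last]; exact zero_mem _
      · rw [Fin.snoc_castSucc]; exact hx' i
    · refine hgen.trans (sup_le_sup_right (Ideal.span_mono ?_) _)
      rintro _ ⟨i, rfl⟩
      exact ⟨Fin.castSucc i, by rw [Fin.snoc_castSucc]⟩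
    · rw [Fin.snoc_last]; exact zero_mem _
  have hd1 : Module.finrank (ResidueField R) (s56a_RelCot hR) = s + 1 := by omega
  -- some element of `J` has a nonzero class
  have hex : ∃ j, ∃ hj : j ∈ J,
      (s56a_cotU hR).mkQ ((maximalIdeal R).toCotangent ⟨j, hJm j hj⟩) ≠ 0 := by
    by_contra hno
    have hall : ∀ j, ∀ hj : j ∈ J,
        (s56a_cotU hR).mkQ ((maximalIdeal R).toCotangent ⟨j, hJm j hj⟩) = 0 := by
      intro j hj
      by_contra hne
      exact hno ⟨j, hj, hne⟩
    set d := Module.finrank (ResidueField R) (s56a_RelCot hR) with hdd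
    let b : Module.Basis (Fin d) (ResidueField R) (s56a_RelCot hR) :=
      Module.finBasis (ResidueField R) (s56a_RelCot hR)
    let g : (Fin (s + 1) → ResidueField 𝒪) → (Fin d → ResidueField R) := fun a i =>
      if hi : i.1 < s + 1 then (residueEquiv hR).symm (a ⟨i.1, hi⟩) else 0
    have hg : Function.Injective g := by
      intro a a' haa
      funext i
      have hi : i.1 < d := lt_of_lt_of_le i.2 hd1.ge
      have := congrFun haa ⟨i.1, hi⟩
      simp only [g, dif_pos i.2] at this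
      exact (residueEquiv hR).symm.injective this
    refine hJ ⟨fun a => ⟨s56a_tangentOf hR (b.constr (ResidueField R) (g a)), fun j hj =>
      s59q_tangentOf_eq_zero hR _ j (hJm j hj) (hall j hj)⟩, ?_⟩
    intro a a' haa
    have h1 : s56a_tangentOf hR (b.constr (ResidueField R) (g a)) =
        s56a_tangentOf hR (b.constr (ResidueField R) (g a')) := congrArg Subtype.val haa
    exact hg ((b.constr (ResidueField R)).injective (s56a_tangentOf_injective hR h1))
  obtain ⟨j, hj, hv⟩ := hex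
  set v : s56a_RelCot hR := (s56a_cotU hR).mkQ ((maximalIdeal R).toCotangent ⟨j, hJm j hj⟩) with hvdef
  set U : Submodule (ResidueField R) (s56a_RelCot hR) := Submodule.span (ResidueField R) {v} with hU
  have hU1 : Module.finrank (ResidueField R) ↥U = 1 := finrank_span_singleton hv
  have hquot : Module.finrank (ResidueField R) (s56a_RelCot hR ⧸ U) ≤ s := by
    have := Submodule.finrank_quotient_add_finrank U
    omega
  set d := Module.finrank (ResidueField R) (s56a_RelCot hR ⧸ U) with hdd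
  let b : Module.Basis (Fin d) (ResidueField R) (s56a_RelCot hR ⧸ U) :=
    Module.finBasis (ResidueField R) (s56a_RelCot hR ⧸ U)
  have hy : ∀ i : Fin d, ∃ y : maximalIdeal R,
      U.mkQ ((s56a_cotU hR).mkQ ((maximalIdeal R).toCotangent y)) = b i := by
    intro i
    obtain ⟨c1, hc1⟩ := Submodule.Quotient.mk_surjective _ (b i)
    obtain ⟨c, hc⟩ := Submodule.Quotient.mk_surjective _ c1
    obtain ⟨y, rfl⟩ := (maximalIdeal R).toCotangent_surjective c
    refine ⟨y, ?_⟩
    rw [Submodule.mkQ_apply, Submodule.mkQ_apply, hc, hc1]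
  choose y hy using hy
  let x' : Fin s → maximalIdeal R := fun i => if hi : i.1 < d then y ⟨i.1, hi⟩ else 0
  let jm : maximalIdeal R := ⟨j, hJm j hj⟩
  let sset : Set (maximalIdeal R) := (Set.range x' ∪ {jm}) ∪ Set.range (s56a_baseElt hR)
  have hS : Submodule.span (ResidueField R) ((maximalIdeal R).toCotangent '' sset) = ⊤ := by
    set S := Submodule.span (ResidueField R) ((maximalIdeal R).toCotangent '' sset) with hSdef
    have hUc : s56a_cotU hR ≤ S := by
      rw [s56a_cotU, Submodule.span_le]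
      rintro _ ⟨t, rfl⟩
      exact Submodule.subset_span ⟨s56a_baseElt hR t, Or.inr ⟨t, rfl⟩, rfl⟩
    refine s59q_eq_top_of_map_mkQ (s56a_cotU hR) S hUc ?_
    have hUS : U ≤ S.map (s56a_cotU hR).mkQ := by
      rw [hU, Submodule.span_le]
      rintro _ rfl
      refine ⟨(maximalIdeal R).toCotangent jm, ?_, rfl⟩
      exact Submodule.subset_span ⟨jm, Or.inl (Or.inr rfl), rfl⟩
    refine s59q_eq_top_of_map_mkQ U _ hUS ?_
    rw [eq_top_iff, ← b.span_eq, Submodule.span_le]
    rintro _ ⟨i, rfl⟩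
    have hi : i.1 < s := lt_of_lt_of_le i.2 hquot
    refine ⟨(s56a_cotU hR).mkQ ((maximalIdeal R).toCotangent (y i)), ?_, hy i⟩
    refine ⟨(maximalIdeal R).toCotangent (y i), ?_, rfl⟩
    refine Submodule.subset_span ⟨y i, Or.inl (Or.inl ⟨⟨i.1, hi⟩, ?_⟩), rfl⟩
    simp only [x', dif_pos i.2]
  rw [CotangentSpace.span_image_eq_top_iff] at hS
  refine ⟨Fin.snoc (fun i => (x' i : R)) j, fun i => ?_, fun z hz => ?_, ?_⟩
  · refine Fin.lastCases ?_ (fun i => ?_) i
    · rw [Fin.snoc_last]; exact hJm j hj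
    · rw [Fin.snoc_castSucc]; exact (x' i).2
  · have hz' : (⟨z, hz⟩ : maximalIdeal R) ∈ Submodule.span R sset := by rw [hS]; exact Submodule.mem_top
    have hmapz : z ∈ (Submodule.span R sset).map (maximalIdeal R).subtype := ⟨⟨z, hz⟩, hz', rfl⟩
    rw [Submodule.map_span] at hmapz
    refine (Submodule.span_le (p := Ideal.span (Set.range (Fin.snoc (fun i => (x' i : R)) j : Fin (s + 1) → R)) ⊔
      (maximalIdeal 𝒪).map (algebraMap 𝒪 R))).mpr ?_ hmapz
    rintro _ ⟨w, (hw | hw) | hw, rfl⟩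
    · obtain ⟨i, rfl⟩ := hw
      refine Ideal.mem_sup_left (Ideal.subset_span ⟨Fin.castSucc i, ?_⟩)
      rw [Fin.snoc_castSucc]
      rfl
    · rw [Set.mem_singleton_iff] at hw
      subst hw
      refine Ideal.mem_sup_left (Ideal.subset_span ⟨Fin.last s, ?_⟩)
      rw [Fin.snoc_last]
      rfl
    · obtain ⟨t, rfl⟩ := hw
      exact Ideal.mem_sup_right (Ideal.mem_map_of_mem _ t.2)
  · rw [Fin.snoc_last]
    exact Ideal.subset_span hj

/-- **the cotangent lemma with one generator in `(J)`, modulo a set `E` of known elements.** -/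
theorem s59q_exists_gens_mod_J (hR : IsTestAlgebra 𝒪 R) (E J : Set R)
    (hJm : ∀ j ∈ J, j ∈ maximalIdeal R) (s : ℕ)
    (h : letI := dualNumberAlgebra 𝒪
      ¬ ∃ F : (Fin (s + 2) → ResidueField 𝒪) →
          {f : R →ₐ[𝒪] DualNumber (ResidueField 𝒪) // ∀ e ∈ E, f e = 0}, Function.Injective F)
    (hJ : letI := dualNumberAlgebra 𝒪
      ¬ ∃ F : (Fin (s + 1) → ResidueField 𝒪) →
          {f : R →ₐ[𝒪] DualNumber (ResidueField 𝒪) // (∀ e ∈ E, f e = 0) ∧ ∀ j ∈ J, f j = 0},
        Function.Injective F) :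
    ∃ x : Fin (s + 1) → R, (∀ i, x i ∈ maximalIdeal R) ∧
      maximalIdeal R ≤ Ideal.span (E ∪ Set.range x) ⊔ (maximalIdeal 𝒪).map (algebraMap 𝒪 R) ∧
      x (Fin.last s) ∈ Ideal.span J := by
  letI := dualNumberAlgebra 𝒪
  by_cases htop : Ideal.span E = ⊤
  · refine ⟨fun _ => 0, fun _ => zero_mem _, ?_, zero_mem _⟩
    have h1 : Ideal.span (E ∪ Set.range fun _ : Fin (s + 1) => (0 : R)) = ⊤ :=
      top_le_iff.1 (htop ▸ Ideal.span_mono Set.subset_union_left)
    rw [h1]
    exact le_sup_of_le_left le_top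
  set I : Ideal R := Ideal.span E with hI
  haveI : Nontrivial (R ⧸ I) := Ideal.Quotient.nontrivial_iff.2 htop
  haveI : IsLocalRing (R ⧸ I) :=
    IsLocalRing.of_surjective' (Ideal.Quotient.mk I) Ideal.Quotient.mk_surjective
  haveI : IsLocalHom (Ideal.Quotient.mk I) :=
    IsLocalHom.of_surjective (Ideal.Quotient.mk I) Ideal.Quotient.mk_surjective
  have hR' : IsTestAlgebra 𝒪 (R ⧸ I) := s59q_isTestAlgebra_quotient hR I
  have hkillE : ∀ (f : (R ⧸ I) →ₐ[𝒪] DualNumber (ResidueField 𝒪)), ∀ e ∈ E,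
      (f.comp (Ideal.Quotient.mkₐ 𝒪 I)) e = 0 := by
    intro f e he
    have : Ideal.Quotient.mkₐ 𝒪 I e = 0 := by
      rw [Ideal.Quotient.mkₐ_eq_mk]
      exact Ideal.Quotient.eq_zero_iff_mem.2 (Ideal.subset_span he)
    rw [AlgHom.comp_apply, this, map_zero]
  have hcompinj : ∀ f f' : (R ⧸ I) →ₐ[𝒪] DualNumber (ResidueField 𝒪),
      f.comp (Ideal.Quotient.mkₐ 𝒪 I) = f'.comp (Ideal.Quotient.mkₐ 𝒪 I) → f = f' := by
    intro f f' h1
    refine AlgHom.ext fun y => ?_
    obtain ⟨z, rfl⟩ := Ideal.Quotient.mk_surjective y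
    exact congrArg (fun ψ : R →ₐ[𝒪] DualNumber (ResidueField 𝒪) => ψ z) h1
  have hd : Module.finrank (ResidueField (R ⧸ I)) (s56a_RelCot hR') ≤ s + 1 := by
    by_contra hlt
    obtain ⟨F, hF⟩ := s56a_exists_injective_of_lt hR' (s + 1) (by omega)
    refine h ⟨fun a => ⟨(F a).comp (Ideal.Quotient.mkₐ 𝒪 I), hkillE (F a)⟩, ?_⟩
    intro a a' haa
    exact hF (hcompinj _ _ (congrArg Subtype.val haa))
  have hJm' : ∀ j ∈ (Ideal.Quotient.mk I) '' J, j ∈ maximalIdeal (R ⧸ I) := by
    rintro _ ⟨j, hj, rfl⟩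
    exact map_nonunit _ _ (hJm j hj)
  have hJ' : ¬ ∃ F : (Fin (s + 1) → ResidueField 𝒪) →
      {f : (R ⧸ I) →ₐ[𝒪] DualNumber (ResidueField 𝒪) // ∀ j ∈ (Ideal.Quotient.mk I) '' J, f j = 0},
      Function.Injective F := by
    rintro ⟨F, hF⟩
    refine hJ ⟨fun a => ⟨(F a).1.comp (Ideal.Quotient.mkₐ 𝒪 I), hkillE (F a).1, fun j hj => ?_⟩, ?_⟩
    · rw [AlgHom.comp_apply, Ideal.Quotient.mkₐ_eq_mk]
      exact (F a).2 _ ⟨j, hj, rfl⟩
    · intro a a' haa
      exact hF (Subtype.ext (hcompinj _ _ (congrArg Subtype.val haa)))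
  obtain ⟨x', hx', hgen, hlast⟩ := s59q_exists_gens_J hR' s _ hJm' hd hJ'
  have hlift : ∀ i, ∃ y : R, Ideal.Quotient.mk I y = x' i ∧ (i = Fin.last s → y ∈ Ideal.span J) := by
    intro i
    by_cases hi : i = Fin.last s
    · subst hi
      rw [← Ideal.map_span, Ideal.mem_map_iff_of_surjective _ Ideal.Quotient.mk_surjective] at hlast
      obtain ⟨y, hy, hyx⟩ := hlast
      exact ⟨y, hyx, fun _ => hy⟩
    · obtain ⟨y, hy⟩ := Ideal.Quotient.mk_surjective (x' i)
      exact ⟨y, hy, fun h' => absurd h' hi⟩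
  choose x hx hxl using hlift
  have hxm : ∀ i, x i ∈ maximalIdeal R := by
    intro i
    by_contra hu
    rw [mem_maximalIdeal, mem_nonunits_iff, not_not] at hu
    have h1 := (hu.map (Ideal.Quotient.mk I))
    rw [hx i] at h1
    exact (mem_maximalIdeal _).1 (hx' i) h1
  refine ⟨x, hxm, fun z hz => ?_, hxl _ rfl⟩
  have hz' : Ideal.Quotient.mk I z ∈ maximalIdeal (R ⧸ I) := map_nonunit _ _ hz
  have h2 := hgen hz'
  set K : Ideal R := Ideal.span (E ∪ Set.range x) ⊔ (maximalIdeal 𝒪).map (algebraMap 𝒪 R) with hK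
  have hIK : I ≤ K := le_sup_of_le_left (Ideal.span_mono Set.subset_union_left)
  have hle : Ideal.span (Set.range x') ⊔ (maximalIdeal 𝒪).map (algebraMap 𝒪 (R ⧸ I)) ≤
      K.map (Ideal.Quotient.mk I) := by
    refine sup_le ?_ ?_
    · rw [Ideal.span_le]
      rintro _ ⟨i, rfl⟩
      rw [← hx i]
      exact Ideal.mem_map_of_mem _ (Ideal.mem_sup_left (Ideal.subset_span (Or.inr ⟨i, rfl⟩)))
    · rw [Ideal.map_le_iff_le_comap]
      intro t ht
      rw [Ideal.mem_comap]
      have : algebraMap 𝒪 (R ⧸ I) t = Ideal.Quotient.mk I (algebraMap 𝒪 R t) := rfl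
      rw [this]
      exact Ideal.mem_map_of_mem _ (Ideal.mem_sup_right (Ideal.mem_map_of_mem _ ht))
  have h3 := hle h2
  rw [Ideal.mem_map_iff_of_surjective _ Ideal.Quotient.mk_surjective] at h3
  obtain ⟨w, hw, hwz⟩ := h3
  have h4 : z - w ∈ I := by
    rw [← Ideal.Quotient.eq_zero_iff_mem, map_sub, hwz, sub_self]
  have : z = (z - w) + w := by ring
  rw [this]
  exact K.add_mem (hIK h4) hw

end GensJ

end Fermat.Agent.Lib.S59
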