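/-
PROGRAMME (R), joint bridge (helper6, prefix `s59q_`): **the abstract bridge with frames and ONE GENERATOR IN A PRESCRIBED
IDEAL.**

Setting of `QBrEAbs.lean` (`C` a noetherian local test `𝒪`-algebra with `ψ : D.R →ₐ[𝒪] C`, `E ⊆ C`, free frame coordinates
`Λ`, hypotheses (1), (2)), plus a set `J ⊆ 𝔪_C` and a property `Pj` of first-order lifts such that
 (3) for `f` killing `E` and `J` the first-order lift attached to `f ∘ ψ` has the property `Pj`.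
If the classes of framed first-order lifts of type `𝒟` lie in a set of at most `|k|^(s+1)` elements and those which
moreover have the property `Pj` in a set of at most `|k|^s` elements, then
`𝔪_C ≤ (E) + (x₀,…,x_{s+w}) + 𝔪_𝒪 C` with `x_{s+w} ∈ (J)`                    (`s59q_gens_of_framedSelmer_J`).
-/
import Fermat.Agent.Lib.S59.QBrEAbs
import Fermat.Agent.Lib.S59.QBrJAlg

set_option autoImplicit false
set_option linter.style.haveILetI false
set_option linter.unusedSectionVars false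

noncomputable section

namespace Fermat.Agent.Lib.S59

open IsLocalRing groupCohomology Module ExtCitation Fermat.Agent.Lib.S56
open Fermat.Agent.Lib.S53 (matOf matOfRes NormData)
open Fermat.Agent.Lib.Deform (dualNumberAlgebra IsTestAlgebra)

attribute [local instance] Fermat.Agent.Lib.Deform.dualNumberAlgebra

local notation "Γℚ" => (AlgebraicClosure ℚ ≃ₐ[ℚ] AlgebraicClosure ℚ)

section Abs

variable {𝒪 : Type} [CommRing 𝒪] [IsDomain 𝒪] [IsDiscreteValuationRing 𝒪]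
  [IsAdicComplete (maximalIdeal 𝒪) 𝒪]
  {ρbar : ResidualGaloisRep (ResidueField 𝒪)}
  {𝒟 : ∀ ⦃A : Type⦄ [CommRing A] [IsLocalRing A] [Algebra 𝒪 A], GaloisRepAdic A → Prop}

/-- **the count of tangent vectors**: `k^m`, `m ≥ s + w + 1`, does not embed into the tangent vectors killing `E`. -/
theorem s59q_no_inj_of_framedSelmer [Finite (ResidueField 𝒪)] (p : ℕ) [Fact p.Prime] (hp2 : p ≠ 2)
    (hdet : (GaloisRepAdic.ofResidualGaloisRep ρbar).DetIsCyclotomic p)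
    (h𝒟 : s56a_TangentStable 𝒪 𝒟 p) (s w m : ℕ) (hm : s + w + 1 ≤ m) (Fq : Set Nat.Primes)
    (Pj : GaloisRepAdic (DualNumber (ResidueField 𝒪)) → Prop)
    (hsel : ∃ T : Finset (H1 (s56a_ad0 ρbar)),
      {x | ∃ (c : cocycles₁ (s56a_ad0 ρbar)) (hc : s56a_IsLevel c.1),
        (H1π (s56a_ad0 ρbar)).hom c = x ∧ 𝒟 (s56a_liftRep ρbar c hc) ∧ Pj (s56a_liftRep ρbar c hc) ∧
        ∀ q ∈ Fq, ∃ X : s56a_ad0 ρbar, ∀ τ : primeLocalGaloisGroup q,
          c.1 (primeLocalToGlobal q τ) = (s56a_ad0 ρbar).ρ (primeLocalToGlobal q τ) X - X} ⊆ ↑T ∧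
      T.card ≤ Nat.card (ResidueField 𝒪) ^ s)
    (D : GaloisRep.DeformationRingData 𝒪 ρbar 𝒟) (N : NormData ρbar)
    (bR : Basis (Fin 2) D.R D.ρ.V)
    (hbR : ∀ σ i j, matOf D.ρ bR σ i j - algebraMap 𝒪 D.R (N.Mtil σ i j) ∈ maximalIdeal D.R)
    {C : Type} [CommRing C] [Algebra 𝒪 C] (ψ : D.R →ₐ[𝒪] C) (E : Set C)
    (Λ : (C →ₐ[𝒪] DualNumber (ResidueField 𝒪)) → (Fin w → ResidueField 𝒪))
    (hE1 : ∀ (f : C →ₐ[𝒪] DualNumber (ResidueField 𝒪)), (∀ e ∈ E, f e = 0) →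
      ∀ hs : Function.Surjective (f.comp ψ), ∀ q ∈ Fq, ∃ X : s56a_ad0 ρbar,
        ∀ τ : primeLocalGaloisGroup q,
          (s56a_cocPhi D N bR hbR p h𝒟 (f.comp ψ) hs).1 (primeLocalToGlobal q τ) =
            (s56a_ad0 ρbar).ρ (primeLocalToGlobal q τ) X - X)
    (hPj : ∀ (f : C →ₐ[𝒪] DualNumber (ResidueField 𝒪)), (∀ e ∈ E, f e = 0) →
      ∀ hs : Function.Surjective (f.comp ψ),
        Pj (s56a_liftRep ρbar (s56a_cocPhi D N bR hbR p h𝒟 (f.comp ψ) hs)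
          (s56a_isLevel_cocPhi D N bR hbR p h𝒟 (f.comp ψ) hs)))
    (hE2 : ∀ f f' : C →ₐ[𝒪] DualNumber (ResidueField 𝒪), (∀ e ∈ E, f e = 0) → (∀ e ∈ E, f' e = 0) →
      f.comp ψ = f'.comp ψ → Λ f = Λ f' → f = f') :
    ¬ ∃ F : (Fin m → ResidueField 𝒪) →
      {f : C →ₐ[𝒪] DualNumber (ResidueField 𝒪) // ∀ e ∈ E, f e = 0}, Function.Injective F := by
  classical
  obtain ⟨T, hT, hcard⟩ := hsel
  rintro ⟨F, hF⟩
  have hpk : ((p : ℕ) : ResidueField 𝒪) = 0 := by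
    have h1 := hdet.1
    have hbot : maximalIdeal (ResidueField 𝒪) = ⊥ :=
      (Ideal.eq_bot_or_top _).resolve_right (Ideal.IsMaximal.ne_top inferInstance)
    rw [hbot, Ideal.mem_bot] at h1
    exact h1
  have h3 := s56a_three_le_card (ResidueField 𝒪) p hp2 hpk
  let g : (Fin m → ResidueField 𝒪) →
      Option {x // x ∈ T} × (Fin w → ResidueField 𝒪) := fun a =>
    (if hs : Function.Surjective ((F a).1.comp ψ) then
      some ⟨(H1π (s56a_ad0 ρbar)).hom (s56a_cocPhi D N bR hbR p h𝒟 ((F a).1.comp ψ) hs),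
        hT ⟨s56a_cocPhi D N bR hbR p h𝒟 ((F a).1.comp ψ) hs,
          s56a_isLevel_cocPhi D N bR hbR p h𝒟 ((F a).1.comp ψ) hs, rfl,
          h𝒟.of_isEquiv (Fermat.Agent.Lib.S53.isEquiv_symm
            (s56a_liftRep_cocPhi_isEquiv D N bR hbR p h𝒟 ((F a).1.comp ψ) hs))
            (s56a_isOfType_baseChange D p h𝒟 ((F a).1.comp ψ) hs),
          hPj (F a).1 (F a).2 hs,
          fun q hq => hE1 (F a).1 (F a).2 hs q hq⟩⟩
    else none, Λ (F a).1)
  have hg : Function.Injective g := by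
    intro a a' haa
    have h1 : (g a).1 = (g a').1 := congrArg Prod.fst haa
    have h2 : Λ (F a).1 = Λ (F a').1 := congrArg Prod.snd haa
    have hcomp : (F a).1.comp ψ = (F a').1.comp ψ := by
      by_cases hx : Function.Surjective ((F a).1.comp ψ) <;>
        by_cases hy : Function.Surjective ((F a').1.comp ψ)
      · simp only [g, dif_pos hx, dif_pos hy, Option.some.injEq, Subtype.mk.injEq] at h1
        exact s56a_eq_of_class_eq D N bR hbR p h𝒟 _ _ hx hy h1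
      · simp only [g, dif_pos hx, dif_neg hy] at h1
        exact absurd h1 (Option.some_ne_none _)
      · simp only [g, dif_neg hx, dif_pos hy] at h1
        exact absurd h1.symm (Option.some_ne_none _)
      · exact s56a_eq_of_not_surjective D _ _ hx hy
    exact hF (Subtype.ext (hE2 _ _ (F a).2 (F a').2 hcomp h2))
  have h1 : Nat.card (Fin m → ResidueField 𝒪) ≤
      Nat.card (Option {x // x ∈ T} × (Fin w → ResidueField 𝒪)) :=
    Nat.card_le_card_of_injective g hg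
  rw [Nat.card_prod, Nat.card_eq_fintype_card (α := Option {x // x ∈ T}), Fintype.card_option,
    Fintype.card_coe, Nat.card_fun, Nat.card_fun, Nat.card_eq_fintype_card (α := Fin m),
    Nat.card_eq_fintype_card (α := Fin w), Fintype.card_fin, Fintype.card_fin] at h1
  have hk1 : 1 ≤ Nat.card (ResidueField 𝒪) := by omega
  have h0 : Nat.card (ResidueField 𝒪) ^ (s + w + 1) ≤ Nat.card (ResidueField 𝒪) ^ m :=
    Nat.pow_le_pow_right hk1 hm
  rw [pow_succ, pow_add] at h0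
  have h4 : 1 ≤ Nat.card (ResidueField 𝒪) ^ s := Nat.one_le_pow _ _ (by omega)
  have h5 : 1 ≤ Nat.card (ResidueField 𝒪) ^ w := Nat.one_le_pow _ _ (by omega)
  have h6 : Nat.card (ResidueField 𝒪) ^ s * Nat.card (ResidueField 𝒪) ^ w * Nat.card (ResidueField 𝒪) ≤
      (Nat.card (ResidueField 𝒪) ^ s + 1) * Nat.card (ResidueField 𝒪) ^ w :=
    le_trans (le_trans h0 h1) (Nat.mul_le_mul_right _ (Nat.add_le_add_right hcard 1))
  rw [add_mul, one_mul] at h6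
  have h7 : Nat.card (ResidueField 𝒪) ^ s * Nat.card (ResidueField 𝒪) ^ w * 3 ≤
      Nat.card (ResidueField 𝒪) ^ s * Nat.card (ResidueField 𝒪) ^ w * Nat.card (ResidueField 𝒪) :=
    Nat.mul_le_mul_left _ h3
  have h8 : Nat.card (ResidueField 𝒪) ^ w ≤
      Nat.card (ResidueField 𝒪) ^ s * Nat.card (ResidueField 𝒪) ^ w :=
    Nat.le_mul_of_pos_left _ h4
  generalize Nat.card (ResidueField 𝒪) ^ s * Nat.card (ResidueField 𝒪) ^ w *
    Nat.card (ResidueField 𝒪) = Y at h6 h7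
  generalize Nat.card (ResidueField 𝒪) ^ s * Nat.card (ResidueField 𝒪) ^ w = Z at h6 h7 h8
  omega

/-- **the abstract bridge with frames and one generator in `(J)`.** -/
theorem s59q_gens_of_framedSelmer_J [Finite (ResidueField 𝒪)] (p : ℕ) [Fact p.Prime] (hp2 : p ≠ 2)
    (hdet : (GaloisRepAdic.ofResidualGaloisRep ρbar).DetIsCyclotomic p)
    (h𝒟 : s56a_TangentStable 𝒪 𝒟 p) (s w : ℕ) (Fq : Set Nat.Primes)
    (Pj : GaloisRepAdic (DualNumber (ResidueField 𝒪)) → Prop)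
    (hsel : ∃ T : Finset (H1 (s56a_ad0 ρbar)),
      {x | ∃ (c : cocycles₁ (s56a_ad0 ρbar)) (hc : s56a_IsLevel c.1),
        (H1π (s56a_ad0 ρbar)).hom c = x ∧ 𝒟 (s56a_liftRep ρbar c hc) ∧
        ∀ q ∈ Fq, ∃ X : s56a_ad0 ρbar, ∀ τ : primeLocalGaloisGroup q,
          c.1 (primeLocalToGlobal q τ) = (s56a_ad0 ρbar).ρ (primeLocalToGlobal q τ) X - X} ⊆ ↑T ∧
      T.card ≤ Nat.card (ResidueField 𝒪) ^ (s + 1))
    (hselJ : ∃ T : Finset (H1 (s56a_ad0 ρbar)),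
      {x | ∃ (c : cocycles₁ (s56a_ad0 ρbar)) (hc : s56a_IsLevel c.1),
        (H1π (s56a_ad0 ρbar)).hom c = x ∧ 𝒟 (s56a_liftRep ρbar c hc) ∧ Pj (s56a_liftRep ρbar c hc) ∧
        ∀ q ∈ Fq, ∃ X : s56a_ad0 ρbar, ∀ τ : primeLocalGaloisGroup q,
          c.1 (primeLocalToGlobal q τ) = (s56a_ad0 ρbar).ρ (primeLocalToGlobal q τ) X - X} ⊆ ↑T ∧
      T.card ≤ Nat.card (ResidueField 𝒪) ^ s)
    (D : GaloisRep.DeformationRingData 𝒪 ρbar 𝒟) (N : NormData ρbar)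
    (bR : Basis (Fin 2) D.R D.ρ.V)
    (hbR : ∀ σ i j, matOf D.ρ bR σ i j - algebraMap 𝒪 D.R (N.Mtil σ i j) ∈ maximalIdeal D.R)
    {C : Type} [CommRing C] [IsLocalRing C] [IsNoetherianRing C] [Algebra 𝒪 C]
    (hC : IsTestAlgebra 𝒪 C) (ψ : D.R →ₐ[𝒪] C) (E : Set C)
    (Λ : (C →ₐ[𝒪] DualNumber (ResidueField 𝒪)) → (Fin w → ResidueField 𝒪))
    (hE1 : ∀ (f : C →ₐ[𝒪] DualNumber (ResidueField 𝒪)), (∀ e ∈ E, f e = 0) →
      ∀ hs : Function.Surjective (f.comp ψ), ∀ q ∈ Fq, ∃ X : s56a_ad0 ρbar,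
        ∀ τ : primeLocalGaloisGroup q,
          (s56a_cocPhi D N bR hbR p h𝒟 (f.comp ψ) hs).1 (primeLocalToGlobal q τ) =
            (s56a_ad0 ρbar).ρ (primeLocalToGlobal q τ) X - X)
    (hE2 : ∀ f f' : C →ₐ[𝒪] DualNumber (ResidueField 𝒪), (∀ e ∈ E, f e = 0) → (∀ e ∈ E, f' e = 0) →
      f.comp ψ = f'.comp ψ → Λ f = Λ f' → f = f')
    (J : Set C) (hJm : ∀ j ∈ J, j ∈ maximalIdeal C)
    (hPj : ∀ (f : C →ₐ[𝒪] DualNumber (ResidueField 𝒪)), (∀ e ∈ E, f e = 0) → (∀ j ∈ J, f j = 0) →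
      ∀ hs : Function.Surjective (f.comp ψ),
        Pj (s56a_liftRep ρbar (s56a_cocPhi D N bR hbR p h𝒟 (f.comp ψ) hs)
          (s56a_isLevel_cocPhi D N bR hbR p h𝒟 (f.comp ψ) hs))) :
    ∃ x : Fin (s + w + 1) → C, (∀ i, x i ∈ maximalIdeal C) ∧
      maximalIdeal C ≤ Ideal.span (E ∪ Set.range x) ⊔ (maximalIdeal 𝒪).map (algebraMap 𝒪 C) ∧
      x (Fin.last (s + w)) ∈ Ideal.span J := by
  classical
  refine s59q_exists_gens_mod_J hC E J hJm (s + w) ?_ ?_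
  · obtain ⟨T, hT, hcard⟩ := hsel
    refine s59q_no_inj_of_framedSelmer p hp2 hdet h𝒟 (s + 1) w (s + w + 2) (by omega) Fq (fun _ => True)
      ⟨T, ?_, hcard⟩ D N bR hbR ψ E Λ hE1 (fun _ _ _ => trivial) hE2
    rintro x ⟨c, hc, hx, hD, -, hv⟩
    exact hT ⟨c, hc, hx, hD, hv⟩
  · rintro ⟨F, hF⟩
    have hEJ : ∀ a, ∀ e ∈ E ∪ J, (F a).1 e = 0 := fun a e he =>
      he.elim ((F a).2.1 e) ((F a).2.2 e)
    refine s59q_no_inj_of_framedSelmer p hp2 hdet h𝒟 s w (s + w + 1) le_rfl Fq Pj hselJ D N bR hbR ψ (E ∪ J) Λ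
      (fun f hf => hE1 f (fun e he => hf e (Or.inl he)))
      (fun f hf => hPj f (fun e he => hf e (Or.inl he)) (fun j hj => hf j (Or.inr hj)))
      (fun f f' hf hf' => hE2 f f' (fun e he => hf e (Or.inl he)) (fun e he => hf' e (Or.inl he)))
      ⟨fun a => ⟨(F a).1, hEJ a⟩, fun a a' haa => hF (Subtype.ext (Subtype.mk.inj haa))⟩

end Abs

end Fermat.Agent.Lib.S59
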