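/-
PROGRAMME (R), framed count, JOINT form for two local conditions at `p` (helper6, prefix `s59q_`):
**the weighted Taylor-Wiles count with a defect `e` at `p`.**
Same as `QSelWCount.lean`, but the bound at `p` is `dim L_p + e ≤ h⁰(G_p, M) + [k:𝔽_p]`
(`e = 0`: the usual bound (T2); `e = [k:𝔽_p]`: the bound "`dim L_p ≤ h⁰`" of the condition "strict AND flat"):
`dim_{𝔽_p} H¹_L(G_Σ, M) + [k:𝔽_p]·Σ_{q ∈ F} w_q + e ≤ [k:𝔽_p]·r`.
-/
import Fermat.Agent.Lib.S59.QSelWCount

set_option autoImplicit false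
set_option linter.unusedSectionVars false

noncomputable section

namespace Fermat.Agent.Lib.S59

open groupCohomology ExtCitation CategoryTheory Module Polynomial IsLocalRing Fermat.Agent.Lib.S56

local notation "GQ" => (AlgebraicClosure ℚ ≃ₐ[ℚ] AlgebraicClosure ℚ)

section Count

variable (p : ℕ) [Fact p.Prime] {k : Type} [Field k] [Algebra (ZMod p) k] [Finite k]
  (ρbar : ResidualGaloisRep k)

theorem s59q_arith_e (a b s0 arch dsel inv sL d r tB e : ℕ) (h1 : a + b + s0 + arch ≤ dsel + inv + sL)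
    (h2 : dsel = 0) (h3 : inv = 0) (h4 : d ≤ arch) (h5 : sL + tB + e ≤ s0 + (d + d * r)) :
    a + tB + e ≤ d * r := by
  omega

theorem s59q_count_e
    (Smin Bd : Finset ℕ) (hpSmin : p ∈ Smin) (hdisj : ∀ q ∈ Bd, q ∉ Smin)
    (hunr : ∀ q : ℕ, q.Prime → q ∉ Smin → ρbar.IsUnramifiedAt q)
    (w : ℕ → ℕ)
    (hinv : ∀ q : Nat.Primes, (q : ℕ) ∈ Bd → finrank (ZMod p) k * w q ≤
      finrank (ZMod p) ↥(Rep.res (primeLocalToGlobal q) (s56z_M p ρbar)).ρ.invariants)
    (Pp : GaloisRepAdic (DualNumber k) → Prop)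
    (hT1 : s56z_GWleStmt p ρbar)
    (e : ℕ) (hT2 : finrank (ZMod p) ↥(s56z_Lp p ρbar Pp (pPrime p)) + e ≤
      finrank (ZMod p) ↥(Rep.res (primeLocalToGlobal (pPrime p)) (s56z_M p ρbar)).ρ.invariants +
        finrank (ZMod p) k) (hT3 : s56z_UnrBound) (hT4 : s56z_TWBound p ρbar)
    (hT5 : s56z_GlobInv p ρbar)
    (hT8 : s56z_LocZeroInertia p) (hDet : s56g_IfaceDetect)
    (r n : ℕ) (qv : Fin r → ℕ)
    (hqv : ∀ i, (qv i).Prime ∧ qv i ∉ Smin ∧ qv i ∉ Bd ∧ p ^ (n + 1) ∣ qv i - 1)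
    (heig : ∀ i, ∀ P : ValuationSubring (AlgebraicClosure ℚ), P.LiesOverPrime (qv i) →
        ∀ φ : GQ, P.IsFrobeniusAt φ (qv i) →
          ∃ α β : k, α ≠ β ∧ LinearMap.charpoly (ρbar.ρ φ) = (X - C α) * (X - C β))
    (hkill : ∀ y ∈ continuousH1S (s56z_prm (Smin ∪ Bd)) (s56z_Md p ρbar),
      (∀ i, s56z_LocTrivAt p (s56z_Md p ρbar) (qv i) y) → y = 0) :
    finrank (ZMod p) ↥(s59q_Sel p ρbar Pp (s56z_prm Smin) (s56z_prm Bd)
        (s56z_prm (Smin ∪ Bd ∪ Finset.univ.image qv))) +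
        finrank (ZMod p) k * ∑ q ∈ s56z_prm Bd, w q + e ≤
      finrank (ZMod p) k * r := by
  classical
  have hpp : p.Prime := Fact.out
  set Sg : Finset Nat.Primes := s56z_prm (Smin ∪ Bd ∪ Finset.univ.image qv) with hSg
  have hpSg : pPrime p ∈ Sg :=
    (s56z_mem_prm _ _).2 (Finset.mem_union_left _ (Finset.mem_union_left _ hpSmin))
  have hqvS : ∀ i, (qv i).Prime ∧ qv i ∉ Smin ∧ qv i ∉ Bd := fun i =>
    ⟨(hqv i).1, (hqv i).2.1, (hqv i).2.2.1⟩
  have hunrSg : ∀ q : Nat.Primes, q ∉ Sg → ρbar.IsUnramifiedAt q := fun q hq =>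
    hunr q q.2 (fun h => hq ((s56z_mem_prm _ _).2
      (Finset.mem_union_left _ (Finset.mem_union_left _ h))))
  obtain ⟨B, hB, hGW⟩ := hT1 Sg hpSg (s56z_unr_M p ρbar Sg hunrSg)
  have hD0 : finrank (ZMod p) ↥(s56b_selmer (s56b_loc Sg (s56b_dual (s56z_M p ρbar)))
      fun q => s56b_orth (B q) (s59q_L p ρbar Pp (s56z_prm Smin) (s56z_prm Bd) Sg q)) = 0 := by
    have := s59q_dsel_eq_bot p ρbar hT8 hDet Smin Bd hpSmin hunr r qv hqvS hkill Pp B hB
    exact (congrArg (fun W : Submodule (ZMod p) (s56b_H1 Sg (s56z_Md p ρbar)) => finrank (ZMod p) ↥W)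
      this).trans (finrank_bot _ _)
  have hgw := hGW (s59q_L p ρbar Pp (s56z_prm Smin) (s56z_prm Bd) Sg)
  have hpB : pPrime p ∉ s56z_prm Bd := fun h => hdisj p ((s56z_mem_prm _ _).1 h) hpSmin
  -- the local bounds
  have hloc : ∀ q : ↥Sg,
      finrank (ZMod p) ↥(s59q_L p ρbar Pp (s56z_prm Smin) (s56z_prm Bd) Sg q) +
        (if q.1 ∈ s56z_prm Bd then finrank (ZMod p) k * w q.1 else 0) +
        (if q.1 = pPrime p then e else 0) ≤
      finrank (ZMod p) ↥(s56b_Mq Sg (s56z_M p ρbar) q).ρ.invariants +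
        ((if q.1 = pPrime p then finrank (ZMod p) k else 0) +
          (if q.1 ∉ s56z_prm Smin ∧ q.1 ∉ s56z_prm Bd then finrank (ZMod p) k else 0)) := by
    intro q
    by_cases h1 : q.1 = pPrime p
    · have hL := s59q_L_p p ρbar Pp (s56z_prm Smin) (s56z_prm Bd) Sg q h1
      have hqB : q.1 ∉ s56z_prm Bd := by rw [h1]; exact hpB
      rw [hL]
      simp only [if_pos h1, if_neg hqB, add_zero]
      obtain ⟨q1, hq1⟩ := q
      dsimp only at h1 ⊢
      subst h1
      exact le_trans hT2 (Nat.add_le_add_left (Nat.le_add_right _ _) _)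
    · by_cases h2 : q.1 ∈ s56z_prm Smin
      · have hL := s59q_L_ur p ρbar Pp (s56z_prm Smin) (s56z_prm Bd) Sg q h1 h2
        have hqB : q.1 ∉ s56z_prm Bd := fun h =>
          hdisj _ ((s56z_mem_prm _ _).1 h) ((s56z_mem_prm _ _).1 h2)
        rw [hL]
        simp only [if_neg h1, if_neg hqB, add_zero]
        exact le_trans (s56z_bound_ur p ρbar hT3 q.1) (Nat.le_add_right _ _)
      · by_cases h3 : q.1 ∈ s56z_prm Bd
        · have hL := s59q_L_bad p ρbar Pp (s56z_prm Smin) (s56z_prm Bd) Sg q h1 h2 h3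
          rw [hL, finrank_bot, zero_add]
          simp only [if_pos h3, if_neg h1, add_zero]
          exact le_trans (hinv q.1 ((s56z_mem_prm _ _).1 h3)) (Nat.le_add_right _ _)
        · have hL := s59q_L_tw p ρbar Pp (s56z_prm Smin) (s56z_prm Bd) Sg q h1 h2 h3
          rw [hL, finrank_top]
          simp only [if_neg h1, if_neg h3, add_zero, if_pos (show q.1 ∉ s56z_prm Smin ∧ q.1 ∉ s56z_prm Bd from ⟨h2, h3⟩), zero_add]
          -- `q` is a Taylor–Wiles prime
          have hq' := (s56z_mem_prm _ _).1 q.2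
          have hq0 : (q.1 : ℕ) ∉ Smin := fun h => h2 ((s56z_mem_prm _ _).2 h)
          have hqB : (q.1 : ℕ) ∉ Bd := fun h => h3 ((s56z_mem_prm _ _).2 h)
          rcases Finset.mem_union.1 hq' with h | h
          · rcases Finset.mem_union.1 h with h | h
            · exact absurd h hq0
            · exact absurd h hqB
          · obtain ⟨i, -, hi⟩ := Finset.mem_image.1 h
            obtain ⟨φ, hφ⟩ := s56z_exists_frob q.1
            refine hT4 q.1 ?_ ?_ ⟨φ, hφ, ?_⟩
            · rw [← hi]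
              exact dvd_trans (dvd_pow_self p (Nat.succ_ne_zero n)) (hqv i).2.2.2
            · exact fun P hP σ hσ => hunr q.1 q.1.2 hq0 P hP σ hσ
            · have := heig i (primeLocalPlace q.1) (by rw [hi]; exact s56z_place_liesOver q.1) φ
                (by rw [hi]; exact hφ)
              exact this
  have he1 : ∑ q : ↥Sg, (if q.1 = pPrime p then finrank (ZMod p) k else 0) = finrank (ZMod p) k := by
    rw [Finset.sum_eq_single (⟨pPrime p, hpSg⟩ : ↥Sg)]
    · rw [if_pos rfl]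
    · intro q _ hq
      rw [if_neg]
      intro h'
      exact hq (Subtype.ext h')
    · intro h'
      exact absurd (Finset.mem_univ _) h'
  have he1e : ∑ q : ↥Sg, (if q.1 = pPrime p then e else 0) = e := by
    rw [Finset.sum_eq_single (⟨pPrime p, hpSg⟩ : ↥Sg)]
    · rw [if_pos rfl]
    · intro q _ hq
      rw [if_neg]
      intro h'
      exact hq (Subtype.ext h')
    · intro h'
      exact absurd (Finset.mem_univ _) h'
  have he2 : ∑ q : ↥Sg, (if q.1 ∉ s56z_prm Smin ∧ q.1 ∉ s56z_prm Bd then finrank (ZMod p) k else 0) ≤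
      finrank (ZMod p) k * r := by
    rw [← Finset.sum_filter, Finset.sum_const, smul_eq_mul, mul_comm]
    apply Nat.mul_le_mul_left
    calc (Finset.univ.filter fun q : ↥Sg => q.1 ∉ s56z_prm Smin ∧ q.1 ∉ s56z_prm Bd).card
        ≤ (Finset.univ.image qv).card := by
          refine Finset.card_le_card_of_injOn (fun q : ↥Sg => ((q.1 : Nat.Primes) : ℕ)) ?_ ?_
          · intro q hq
            have hq2 := (Finset.mem_filter.1 hq).2
            have hq' := (s56z_mem_prm _ _).1 q.2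
            rcases Finset.mem_union.1 hq' with h | h
            · rcases Finset.mem_union.1 h with h | h
              · exact absurd ((s56z_mem_prm _ _).2 h) hq2.1
              · exact absurd ((s56z_mem_prm _ _).2 h) hq2.2
            · exact h
          · intro q _ q' _ h
            exact Subtype.ext (Subtype.ext h)
      _ ≤ (Finset.univ : Finset (Fin r)).card := Finset.card_image_le
      _ = r := by rw [Finset.card_univ, Fintype.card_fin]
  have he3 : ∑ q : ↥Sg, (if q.1 ∈ s56z_prm Bd then finrank (ZMod p) k * w q.1 else 0) =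
      finrank (ZMod p) k * ∑ q ∈ s56z_prm Bd, w q := by
    rw [Finset.sum_coe_sort Sg (fun q => if q ∈ s56z_prm Bd then finrank (ZMod p) k * w q else 0),
      ← Finset.sum_filter, Finset.mul_sum]
    refine Finset.sum_congr ?_ fun _ _ => rfl
    ext q
    rw [Finset.mem_filter]
    refine ⟨fun h => h.2, fun h => ⟨?_, h⟩⟩
    exact (s56z_mem_prm _ _).2
      (Finset.mem_union_left _ (Finset.mem_union_right _ ((s56z_mem_prm _ _).1 h)))
  have hsum : ∑ q : ↥Sg, finrank (ZMod p) ↥(s59q_L p ρbar Pp (s56z_prm Smin) (s56z_prm Bd) Sg q) +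
        finrank (ZMod p) k * ∑ q ∈ s56z_prm Bd, w q + e ≤
      ∑ q : ↥Sg, finrank (ZMod p) ↥(s56b_Mq Sg (s56z_M p ρbar) q).ρ.invariants +
        (finrank (ZMod p) k + finrank (ZMod p) k * r) := by
    rw [← he3, ← Finset.sum_add_distrib]
    conv_lhs => rw [← he1e]
    rw [← Finset.sum_add_distrib]
    refine le_trans (Finset.sum_le_sum fun q _ => hloc q) ?_
    rw [Finset.sum_add_distrib, Finset.sum_add_distrib, he1]
    exact Nat.add_le_add_left (Nat.add_le_add_left he2 _) _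
  exact s59q_arith_e _ _ _ _ _ _ _ _ _ _ _ hgw hD0 hT5.1 hT5.2 hsum

end Count

end Fermat.Agent.Lib.S59
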