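/-
PROGRAMME (R), framed (G1)(b) (helper6, prefix `s59q_`): **membership and the core statement.**
A first-order lift of local type `Pp`, unramified outside `Σ`, unipotent on inertia at `Σ₀ ∖ {p}`, whose cocycle
VANISHES on the decomposition groups at `B`, defines a class of `s59q_Sel`; with the count of `QSelCount.lean`:
there are `r` Taylor–Wiles primes (for every `n`) such that these classes lie in a set of at most
`|k|^(r - 3·#B)` elements, and `3·#B ≤ r`.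
-/
import Fermat.Agent.Lib.S59.QSelCount

set_option autoImplicit false
set_option linter.unusedSectionVars false

noncomputable section

namespace Fermat.Agent.Lib.S59

open groupCohomology ExtCitation CategoryTheory Module Polynomial IsLocalRing Fermat.Agent.Lib.S56

local notation "GQ" => (AlgebraicClosure ℚ ≃ₐ[ℚ] AlgebraicClosure ℚ)

section Generic

/-- a global cocycle which vanishes on the decomposition group at `q` localises to zero. -/
theorem s59q_loc_eq_zero {F : Type} [CommRing F] (q : Nat.Primes) (N : Rep.{0} F GQ)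
    (c : cocycles₁ N) (h : ∀ τ : primeLocalGaloisGroup q, c.1 (primeLocalToGlobal q τ) = 0) :
    (s56g_loc q N).hom ((H1π N).hom c) = 0 := by
  have h0 : mapCocycles₁ (primeLocalToGlobal q) (𝟙 (Rep.res (primeLocalToGlobal q) N)) c = 0 := by
    apply Subtype.ext
    funext τ
    show c.1 (primeLocalToGlobal q τ) = 0
    exact h τ
  have h1 := H1π_comp_map_apply (primeLocalToGlobal q) (𝟙 (Rep.res (primeLocalToGlobal q) N)) c
  rw [h0, map_zero] at h1
  exact h1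

end Generic

section Member

variable (p : ℕ) [Fact p.Prime] {k : Type} [Field k] [Algebra (ZMod p) k]
  (ρbar : ResidualGaloisRep k)

/-- **membership** in the Selmer group with `L_q = ⊥` at `B`. -/
theorem s59q_cls_mem_sel (Smin Bd Sfull : Finset ℕ)
    (hmin : ∀ q : ℕ, q.Prime → q ≠ p → (q ∈ Smin ↔ ¬ ρbar.IsUnramifiedAt q))
    (Pp : GaloisRepAdic (DualNumber k) → Prop) (hT7 : s56z_UnipCob p ρbar)
    (c : cocycles₁ (s56a_ad0 ρbar)) (hc : s56a_IsLevel c.1)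
    (hcS : IsLevelConstantS₁ (s56z_prm Sfull) c.1)
    (hPp : Pp (s56a_liftRep ρbar c hc))
    (hunip : ∀ q ∈ Smin, q.Prime → q ≠ p → (s56a_liftRep ρbar c hc).IsUnipotentOnInertiaAt q)
    (hzero : ∀ q : Nat.Primes, (q : ℕ) ∈ Bd → ∀ τ : primeLocalGaloisGroup q,
      c.1 (primeLocalToGlobal q τ) = 0) :
    s56z_cls p ρbar (s56z_prm Sfull) c hcS ∈
      s59q_Sel p ρbar Pp (s56z_prm Smin) (s56z_prm Bd) (s56z_prm Sfull) := by
  classical
  unfold s59q_Sel s56b_selmer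
  rw [Submodule.mem_comap, Submodule.mem_pi]
  intro q _
  by_cases h1 : q.1 = pPrime p
  · rw [s59q_L_p p ρbar Pp _ _ _ q h1]
    exact Submodule.subset_span ⟨c, hc, hPp, rfl⟩
  · by_cases h2 : q.1 ∈ s56z_prm Smin
    · rw [s59q_L_ur p ρbar Pp _ _ _ q h1 h2]
      have hqS : (q.1 : ℕ) ∈ Smin := (s56z_mem_prm _ _).1 h2
      have hne : (q.1 : ℕ) ≠ p := fun h => h1 (Subtype.ext h)
      obtain ⟨m, hm⟩ := hT7 q.1 hne ((hmin q.1 q.1.2 hne).1 hqS) c hc (hunip q.1 hqS q.1.2 hne)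
      show ((s56b_loc (s56z_prm Sfull) (s56z_M p ρbar) (s56z_cls p ρbar (s56z_prm Sfull) c hcS) q :
        s56b_H1q (s56z_prm Sfull) (s56z_M p ρbar) q) : H1 _) ∈ s56g_H1ur q.1 (s56z_M p ρbar)
      exact s56z_loc_mem_H1ur q.1 (s56z_M p ρbar) (s56z_smooth_M p ρbar) (s56z_coc p ρbar c)
        hcS.isLevelConstant₁ m hm
    · by_cases h3 : q.1 ∈ s56z_prm Bd
      · rw [s59q_L_bad p ρbar Pp _ _ _ q h1 h2 h3, Submodule.mem_bot]
        apply Subtype.ext
        show ((s56b_loc (s56z_prm Sfull) (s56z_M p ρbar) (s56z_cls p ρbar (s56z_prm Sfull) c hcS) q :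
          s56b_H1q (s56z_prm Sfull) (s56z_M p ρbar) q) :
            H1 (Rep.res (primeLocalToGlobal q.1) (s56z_M p ρbar))) = 0
        exact s59q_loc_eq_zero q.1 (s56z_M p ρbar) (s56z_coc p ρbar c)
          (fun τ => hzero q.1 ((s56z_mem_prm _ _).1 h3) τ)
      · rw [s59q_L_tw p ρbar Pp _ _ _ q h1 h2 h3]
        exact Submodule.mem_top

end Member

section Core

variable (p : ℕ) [Fact p.Prime] {k : Type} [Field k] [Algebra (ZMod p) k] [Finite k]
  (ρbar : ResidualGaloisRep k)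

/-- **THE FRAMED COUNT, generic form**: `Bd` a set of primes disjoint from `Σ₀ = Smin`, contained in `S`, at which
`ρ̄|G_q` is central. There is `r ≥ 3·#B` such that for every `n` there are `r` Taylor–Wiles primes `qv` (outside `S`,
`≡ 1 mod p^(n+1)`, distinct Frobenius eigenvalues) for which the classes of the first-order lifts of type
(`Pp` at `p`; unramified outside `Σ₀ ∪ B ∪ Q`; unipotent on inertia at `Σ₀ ∖ {p}`; cocycle `= 0` on `G_q`, `q ∈ B`)
lie in a set of at most `|k|^(r - 3·#B)` elements. -/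
theorem s59q_selmer_core (hp2 : p ≠ 2) (h2k : (2 : k) ≠ 0)
    (S Smin Bd : Finset ℕ) (hpSmin : p ∈ Smin) (hSmin : Smin ⊆ S) (hBS : Bd ⊆ S)
    (hBprime : ∀ q ∈ Bd, q.Prime)
    (hmin : ∀ q : ℕ, q.Prime → q ≠ p → (q ∈ Smin ↔ ¬ ρbar.IsUnramifiedAt q))
    (hBunr : ∀ q ∈ Bd, q ≠ p ∧ ρbar.IsUnramifiedAt q)
    (hcen : ∀ q : Nat.Primes, (q : ℕ) ∈ Bd → s59q_CentralAt ρbar q)
    (Pp : GaloisRepAdic (DualNumber k) → Prop)
    (hT1 : s56z_GWleStmt p ρbar) (hT10 : s56z_FinStmt)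
    (hT2 : s56z_LpBound p ρbar Pp) (hT3 : s56z_UnrBound) (hT4 : s56z_TWBound p ρbar)
    (hT5 : s56z_GlobInv p ρbar) (hT6 : s56z_LevelOfUnr ρbar) (hT7 : s56z_UnipCob p ρbar)
    (hT8 : s56z_LocZeroInertia p) (hDet : s56g_IfaceDetect) (hT9 : s56z_PrimesStmt p ρbar S) :
    ∃ r : ℕ, 3 * Bd.card ≤ r ∧ ∀ n : ℕ, ∃ qv : Fin r → ℕ, Function.Injective qv ∧
      (∀ i, (qv i).Prime ∧ qv i ∉ S ∧ p ^ (n + 1) ∣ qv i - 1) ∧
      (∀ i, ∀ P : ValuationSubring (AlgebraicClosure ℚ), P.LiesOverPrime (qv i) →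
        ∀ φ : GQ, P.IsFrobeniusAt φ (qv i) →
          ∃ α β : k, α ≠ β ∧ LinearMap.charpoly (ρbar.ρ φ) = (X - C α) * (X - C β)) ∧
      ∃ T : Finset (H1 (s56a_ad0 ρbar)),
        {x | ∃ (c : cocycles₁ (s56a_ad0 ρbar)) (hc : s56a_IsLevel c.1),
          (H1π (s56a_ad0 ρbar)).hom c = x ∧ Pp (s56a_liftRep ρbar c hc) ∧
          (∀ q : ℕ, q.Prime → q ∉ Smin ∪ Bd ∪ Finset.univ.image qv →
            (s56a_liftRep ρbar c hc).IsUnramifiedAt q) ∧
          (∀ q ∈ Smin, q.Prime → q ≠ p →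
            (s56a_liftRep ρbar c hc).IsUnipotentOnInertiaAt q) ∧
          (∀ q : Nat.Primes, (q : ℕ) ∈ Bd → ∀ τ : primeLocalGaloisGroup q,
            c.1 (primeLocalToGlobal q τ) = 0)} ⊆ ↑T ∧
        T.card ≤ Nat.card k ^ (r - 3 * Bd.card) := by
  classical
  have hpp : p.Prime := Fact.out
  have hdisj : ∀ q ∈ Bd, q ∉ Smin := fun q hq hqS =>
    ((hmin q (hBprime q hq) (hBunr q hq).1).1 hqS) (hBunr q hq).2
  have hunr : ∀ q : ℕ, q.Prime → q ∉ Smin → ρbar.IsUnramifiedAt q := fun q hq hqS => by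
    have hne : q ≠ p := fun h => hqS (h ▸ hpSmin)
    by_contra hram
    exact hqS ((hmin q hq hne).2 hram)
  have hp0 : pPrime p ∈ s56z_prm (Smin ∪ Bd) :=
    (s56z_mem_prm _ _).2 (Finset.mem_union_left _ hpSmin)
  have hunr0 : ∀ q : Nat.Primes, q ∉ s56z_prm (Smin ∪ Bd) → ρbar.IsUnramifiedAt q := fun q hq =>
    hunr q q.2 (fun h => hq ((s56z_mem_prm _ _).2 (Finset.mem_union_left _ h)))
  have hfinD : Module.Finite (ZMod p) ↥(continuousH1S (s56z_prm (Smin ∪ Bd)) (s56z_Md p ρbar)) :=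
    hT10 p hp2 (s56z_prm (Smin ∪ Bd)) hp0 (s56z_Md p ρbar) (s56z_smooth_Md p ρbar)
      (s56z_unr_Md p ρbar (s56z_prm (Smin ∪ Bd)) hp0 hunr0)
  have hcardB : (s56z_prm Bd).card = Bd.card :=
    (Finset.card_subtype Nat.Prime Bd).trans (by rw [Finset.filter_true_of_mem hBprime])
  have hd : 0 < finrank (ZMod p) k := by
    have : Module.Finite (ZMod p) k := Module.Finite.of_finite
    exact finrank_pos
  set r := finrank (ZMod p) ↥(continuousH1S (s56z_prm (Smin ∪ Bd)) (s56z_Md p ρbar)) with hr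
  -- the Taylor–Wiles primes, once, to get `3 #B ≤ r`
  have hmain : ∀ n : ℕ, ∃ qv : Fin r → ℕ, Function.Injective qv ∧
      (∀ i, (qv i).Prime ∧ qv i ∉ S ∧ p ^ (n + 1) ∣ qv i - 1) ∧
      (∀ i, ∀ P : ValuationSubring (AlgebraicClosure ℚ), P.LiesOverPrime (qv i) →
        ∀ φ : GQ, P.IsFrobeniusAt φ (qv i) →
          ∃ α β : k, α ≠ β ∧ LinearMap.charpoly (ρbar.ρ φ) = (X - C α) * (X - C β)) ∧
      finrank (ZMod p) ↥(s59q_Sel p ρbar Pp (s56z_prm Smin) (s56z_prm Bd)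
        (s56z_prm (Smin ∪ Bd ∪ Finset.univ.image qv))) +
        (finrank (ZMod p) k * 3) * Bd.card ≤ finrank (ZMod p) k * r := by
    intro n
    obtain ⟨qv, hinj, hqv, heig, hkill⟩ := hT9 n (continuousH1S (s56z_prm (Smin ∪ Bd)) (s56z_Md p ρbar))
      (continuousH1S_le_continuousH1 _ _) hfinD
    refine ⟨qv, hinj, hqv, heig, ?_⟩
    have hqv' : ∀ i, (qv i).Prime ∧ qv i ∉ Smin ∧ qv i ∉ Bd ∧ p ^ (n + 1) ∣ qv i - 1 := fun i =>
      ⟨(hqv i).1, fun h => (hqv i).2.1 (hSmin h), fun h => (hqv i).2.1 (hBS h), (hqv i).2.2⟩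
    have hcount := s59q_count p ρbar h2k Smin Bd hpSmin hdisj hunr hcen Pp hT1 hT2 hT3 hT4 hT5 hT8 hDet
      _ n qv hqv' heig hkill
    rwa [hcardB] at hcount
  have h3B : 3 * Bd.card ≤ r := by
    obtain ⟨qv, -, -, -, hc⟩ := hmain 0
    have h1 : (finrank (ZMod p) k * 3) * Bd.card ≤ finrank (ZMod p) k * r :=
      le_trans (Nat.le_add_left _ _) hc
    rw [mul_assoc] at h1
    exact Nat.le_of_mul_le_mul_left h1 hd
  refine ⟨r, h3B, fun n => ?_⟩
  obtain ⟨qv, hinj, hqv, heig, hcount⟩ := hmain n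
  refine ⟨qv, hinj, hqv, heig, ?_⟩
  have hpSg : pPrime p ∈ s56z_prm (Smin ∪ Bd ∪ Finset.univ.image qv) :=
    (s56z_mem_prm _ _).2 (Finset.mem_union_left _ (Finset.mem_union_left _ hpSmin))
  have hunrSg : ∀ q : Nat.Primes, q ∉ s56z_prm (Smin ∪ Bd ∪ Finset.univ.image qv) →
      ρbar.IsUnramifiedAt q :=
    fun q hq => hunr q q.2 (fun h => hq ((s56z_mem_prm _ _).2
      (Finset.mem_union_left _ (Finset.mem_union_left _ h))))
  have hfinH : Module.Finite (ZMod p)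
      ↥(continuousH1S (s56z_prm (Smin ∪ Bd ∪ Finset.univ.image qv)) (s56z_M p ρbar)) :=
    hT10 p hp2 _ hpSg (s56z_M p ρbar) (s56z_smooth_M p ρbar) (s56z_unr_M p ρbar _ hunrSg)
  -- the image of the Selmer group in `H¹(G_ℚ, M)`
  set W : Submodule (ZMod p) (H1 (s56z_M p ρbar)) :=
    (s59q_Sel p ρbar Pp (s56z_prm Smin) (s56z_prm Bd)
        (s56z_prm (Smin ∪ Bd ∪ Finset.univ.image qv))).map
      (continuousH1S (s56z_prm (Smin ∪ Bd ∪ Finset.univ.image qv)) (s56z_M p ρbar)).subtype with hW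
  have hWfin : Module.Finite (ZMod p) ↥W := by rw [hW]; infer_instance
  have hWle : finrank (ZMod p) ↥W ≤ finrank (ZMod p) k * (r - 3 * Bd.card) := by
    have h1 : finrank (ZMod p) ↥W ≤ finrank (ZMod p) ↥(s59q_Sel p ρbar Pp (s56z_prm Smin) (s56z_prm Bd)
        (s56z_prm (Smin ∪ Bd ∪ Finset.univ.image qv))) := Submodule.finrank_map_le _ _
    rw [Nat.mul_sub, ← mul_assoc]
    omega
  refine s56z_closing (s56a_ad0 ρbar) _ W hWfin ?_ _ hWle
  rintro x ⟨c, hc, rfl, hPp, hur, hunip, hzero⟩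
  have hcS : IsLevelConstantS₁ (s56z_prm (Smin ∪ Bd ∪ Finset.univ.image qv)) c.1 := hT6 c hc _ hur
  have hmem : (H1π (s56z_M p ρbar)).hom (s56z_coc p ρbar c) ∈ W :=
    Submodule.mem_map.2 ⟨s56z_cls p ρbar _ c hcS,
      s59q_cls_mem_sel p ρbar Smin Bd _ hmin Pp hT7 c hc hcS hPp hunip hzero, rfl⟩
  rw [s56a_H1Res_π]
  exact hmem

end Core

end Fermat.Agent.Lib.S59
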