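/-
PROGRAMME (R), framed count with a general framed set (helper6, prefix `s59q_`): **membership and the core statement,
WEIGHTED form.**  At a framed prime `q ∈ F` the condition on a first-order lift is "the cocycle is a COBOUNDARY on the
decomposition group `G_q`" (`c|G_q = ∂X_q`); the classes of such lifts lie in a set of at most `|k|^(r - Σ_{q∈F} w_q)`
elements, where `[k:𝔽_p]·w_q ≤ dim_{𝔽_p} H⁰(G_q, ad⁰ρ̄)`, and `Σ w_q ≤ r`.
-/
import Fermat.Agent.Lib.S59.QSelWCount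
import Fermat.Agent.Lib.S59.QSelCore

set_option autoImplicit false
set_option linter.unusedSectionVars false

noncomputable section

namespace Fermat.Agent.Lib.S59

open groupCohomology ExtCitation CategoryTheory Module Polynomial IsLocalRing Fermat.Agent.Lib.S56

local notation "GQ" => (AlgebraicClosure ℚ ≃ₐ[ℚ] AlgebraicClosure ℚ)

section Generic

/-- a global cocycle which is a coboundary on the decomposition group at `q` localises to zero. -/
theorem s59q_loc_eq_zero_of_cob {F : Type} [CommRing F] (q : Nat.Primes) (N : Rep.{0} F GQ)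
    (c : cocycles₁ N) (X : N)
    (h : ∀ τ : primeLocalGaloisGroup q,
      c.1 (primeLocalToGlobal q τ) = N.ρ (primeLocalToGlobal q τ) X - X) :
    (s56g_loc q N).hom ((H1π N).hom c) = 0 := by
  have h1 := H1π_comp_map_apply (primeLocalToGlobal q) (𝟙 (Rep.res (primeLocalToGlobal q) N)) c
  have h0 : (H1π (Rep.res (primeLocalToGlobal q) N)).hom
      (mapCocycles₁ (primeLocalToGlobal q) (𝟙 (Rep.res (primeLocalToGlobal q) N)) c) = 0 := by
    refine (H1π_eq_zero_iff _).2 ⟨(show (Rep.res (primeLocalToGlobal q) N) from X), ?_⟩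
    funext τ
    rw [d₀₁_hom_apply]
    exact (h τ).symm
  rw [h0] at h1
  exact h1

end Generic

section Member

variable (p : ℕ) [Fact p.Prime] {k : Type} [Field k] [Algebra (ZMod p) k]
  (ρbar : ResidualGaloisRep k)

/-- **membership** in the Selmer group with `L_q = ⊥` at the framed primes, coboundary form. -/
theorem s59q_cls_mem_sel_w (Smin Bd Sfull : Finset ℕ)
    (hmin : ∀ q : ℕ, q.Prime → q ≠ p → (q ∈ Smin ↔ ¬ ρbar.IsUnramifiedAt q))
    (Pp : GaloisRepAdic (DualNumber k) → Prop) (hT7 : s56z_UnipCob p ρbar)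
    (c : cocycles₁ (s56a_ad0 ρbar)) (hc : s56a_IsLevel c.1)
    (hcS : IsLevelConstantS₁ (s56z_prm Sfull) c.1)
    (hPp : Pp (s56a_liftRep ρbar c hc))
    (hunip : ∀ q ∈ Smin, q.Prime → q ≠ p → (s56a_liftRep ρbar c hc).IsUnipotentOnInertiaAt q)
    (hzero : ∀ q : Nat.Primes, (q : ℕ) ∈ Bd → ∃ X : s56a_ad0 ρbar,
      ∀ τ : primeLocalGaloisGroup q,
        c.1 (primeLocalToGlobal q τ) = (s56a_ad0 ρbar).ρ (primeLocalToGlobal q τ) X - X) :
    s56z_cls p ρbar (s56z_prm Sfull) c hcS ∈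
      s59q_Sel p ρbar Pp (s56z_prm Smin) (s56z_prm Bd) (s56z_prm Sfull) := by
  classical
  unfold s59q_Sel s56b_selmer
  rw [Submodule.mem_comap, Submodule.mem_pi]
  intro q _
  by_cases h1 : q.1 = pPrime p
  · rw [s59q_L_p p ρbar Pp _ _ _ q h1]
    exact Submodule.subset_span ⟨c, hc, hPp, rfl⟩
  · by_cases h2 : q.1 ∈ s56z_prm Smin
    · rw [s59q_L_ur p ρbar Pp _ _ _ q h1 h2]
      have hqS : (q.1 : ℕ) ∈ Smin := (s56z_mem_prm _ _).1 h2
      have hne : (q.1 : ℕ) ≠ p := fun h => h1 (Subtype.ext h)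
      obtain ⟨m, hm⟩ := hT7 q.1 hne ((hmin q.1 q.1.2 hne).1 hqS) c hc (hunip q.1 hqS q.1.2 hne)
      show ((s56b_loc (s56z_prm Sfull) (s56z_M p ρbar) (s56z_cls p ρbar (s56z_prm Sfull) c hcS) q :
        s56b_H1q (s56z_prm Sfull) (s56z_M p ρbar) q) : H1 _) ∈ s56g_H1ur q.1 (s56z_M p ρbar)
      exact s56z_loc_mem_H1ur q.1 (s56z_M p ρbar) (s56z_smooth_M p ρbar) (s56z_coc p ρbar c)
        hcS.isLevelConstant₁ m hm
    · by_cases h3 : q.1 ∈ s56z_prm Bd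
      · rw [s59q_L_bad p ρbar Pp _ _ _ q h1 h2 h3, Submodule.mem_bot]
        apply Subtype.ext
        show ((s56b_loc (s56z_prm Sfull) (s56z_M p ρbar) (s56z_cls p ρbar (s56z_prm Sfull) c hcS) q :
          s56b_H1q (s56z_prm Sfull) (s56z_M p ρbar) q) :
            H1 (Rep.res (primeLocalToGlobal q.1) (s56z_M p ρbar))) = 0
        obtain ⟨X, hX⟩ := hzero q.1 ((s56z_mem_prm _ _).1 h3)
        exact s59q_loc_eq_zero_of_cob q.1 (s56z_M p ρbar) (s56z_coc p ρbar c)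
          (show (s56z_M p ρbar) from X) (fun τ => hX τ)
      · rw [s59q_L_tw p ρbar Pp _ _ _ q h1 h2 h3]
        exact Submodule.mem_top

end Member

section Core

variable (p : ℕ) [Fact p.Prime] {k : Type} [Field k] [Algebra (ZMod p) k] [Finite k]
  (ρbar : ResidualGaloisRep k)

/-- **THE FRAMED COUNT, weighted generic form.** -/
theorem s59q_selmer_core_w (hp2 : p ≠ 2)
    (S Smin Bd : Finset ℕ) (hpSmin : p ∈ Smin) (hSmin : Smin ⊆ S) (hBS : Bd ⊆ S)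
    (hBprime : ∀ q ∈ Bd, q.Prime)
    (hmin : ∀ q : ℕ, q.Prime → q ≠ p → (q ∈ Smin ↔ ¬ ρbar.IsUnramifiedAt q))
    (hBunr : ∀ q ∈ Bd, q ≠ p ∧ ρbar.IsUnramifiedAt q)
    (w : ℕ → ℕ)
    (hinv : ∀ q : Nat.Primes, (q : ℕ) ∈ Bd → finrank (ZMod p) k * w q ≤
      finrank (ZMod p) ↥(Rep.res (primeLocalToGlobal q) (s56z_M p ρbar)).ρ.invariants)
    (Pp : GaloisRepAdic (DualNumber k) → Prop)
    (hT1 : s56z_GWleStmt p ρbar) (hT10 : s56z_FinStmt)
    (hT2 : s56z_LpBound p ρbar Pp) (hT3 : s56z_UnrBound) (hT4 : s56z_TWBound p ρbar)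
    (hT5 : s56z_GlobInv p ρbar) (hT6 : s56z_LevelOfUnr ρbar) (hT7 : s56z_UnipCob p ρbar)
    (hT8 : s56z_LocZeroInertia p) (hDet : s56g_IfaceDetect) (hT9 : s56z_PrimesStmt p ρbar S) :
    ∃ r : ℕ, ∑ q ∈ Bd, w q ≤ r ∧ ∀ n : ℕ, ∃ qv : Fin r → ℕ, Function.Injective qv ∧
      (∀ i, (qv i).Prime ∧ qv i ∉ S ∧ p ^ (n + 1) ∣ qv i - 1) ∧
      (∀ i, ∀ P : ValuationSubring (AlgebraicClosure ℚ), P.LiesOverPrime (qv i) →
        ∀ φ : GQ, P.IsFrobeniusAt φ (qv i) →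
          ∃ α β : k, α ≠ β ∧ LinearMap.charpoly (ρbar.ρ φ) = (X - C α) * (X - C β)) ∧
      ∃ T : Finset (H1 (s56a_ad0 ρbar)),
        {x | ∃ (c : cocycles₁ (s56a_ad0 ρbar)) (hc : s56a_IsLevel c.1),
          (H1π (s56a_ad0 ρbar)).hom c = x ∧ Pp (s56a_liftRep ρbar c hc) ∧
          (∀ q : ℕ, q.Prime → q ∉ Smin ∪ Bd ∪ Finset.univ.image qv →
            (s56a_liftRep ρbar c hc).IsUnramifiedAt q) ∧
          (∀ q ∈ Smin, q.Prime → q ≠ p →
            (s56a_liftRep ρbar c hc).IsUnipotentOnInertiaAt q) ∧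
          (∀ q : Nat.Primes, (q : ℕ) ∈ Bd → ∃ X : s56a_ad0 ρbar,
            ∀ τ : primeLocalGaloisGroup q,
              c.1 (primeLocalToGlobal q τ) = (s56a_ad0 ρbar).ρ (primeLocalToGlobal q τ) X - X)} ⊆ ↑T ∧
        T.card ≤ Nat.card k ^ (r - ∑ q ∈ Bd, w q) := by
  classical
  have hpp : p.Prime := Fact.out
  have hdisj : ∀ q ∈ Bd, q ∉ Smin := fun q hq hqS =>
    ((hmin q (hBprime q hq) (hBunr q hq).1).1 hqS) (hBunr q hq).2
  have hunr : ∀ q : ℕ, q.Prime → q ∉ Smin → ρbar.IsUnramifiedAt q := fun q hq hqS => by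
    have hne : q ≠ p := fun h => hqS (h ▸ hpSmin)
    by_contra hram
    exact hqS ((hmin q hq hne).2 hram)
  have hp0 : pPrime p ∈ s56z_prm (Smin ∪ Bd) :=
    (s56z_mem_prm _ _).2 (Finset.mem_union_left _ hpSmin)
  have hunr0 : ∀ q : Nat.Primes, q ∉ s56z_prm (Smin ∪ Bd) → ρbar.IsUnramifiedAt q := fun q hq =>
    hunr q q.2 (fun h => hq ((s56z_mem_prm _ _).2 (Finset.mem_union_left _ h)))
  have hfinD : Module.Finite (ZMod p) ↥(continuousH1S (s56z_prm (Smin ∪ Bd)) (s56z_Md p ρbar)) :=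
    hT10 p hp2 (s56z_prm (Smin ∪ Bd)) hp0 (s56z_Md p ρbar) (s56z_smooth_Md p ρbar)
      (s56z_unr_Md p ρbar (s56z_prm (Smin ∪ Bd)) hp0 hunr0)
  have hsumB : ∑ q ∈ s56z_prm Bd, w q = ∑ q ∈ Bd, w q := by
    have h := Finset.sum_subtype_eq_sum_filter (s := Bd) (p := Nat.Prime) (f := w)
    rw [Finset.filter_true_of_mem hBprime] at h
    exact h
  have hd : 0 < finrank (ZMod p) k := by
    have : Module.Finite (ZMod p) k := Module.Finite.of_finite
    exact finrank_pos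
  set r := finrank (ZMod p) ↥(continuousH1S (s56z_prm (Smin ∪ Bd)) (s56z_Md p ρbar)) with hr
  have hmain : ∀ n : ℕ, ∃ qv : Fin r → ℕ, Function.Injective qv ∧
      (∀ i, (qv i).Prime ∧ qv i ∉ S ∧ p ^ (n + 1) ∣ qv i - 1) ∧
      (∀ i, ∀ P : ValuationSubring (AlgebraicClosure ℚ), P.LiesOverPrime (qv i) →
        ∀ φ : GQ, P.IsFrobeniusAt φ (qv i) →
          ∃ α β : k, α ≠ β ∧ LinearMap.charpoly (ρbar.ρ φ) = (X - C α) * (X - C β)) ∧
      finrank (ZMod p) ↥(s59q_Sel p ρbar Pp (s56z_prm Smin) (s56z_prm Bd)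
        (s56z_prm (Smin ∪ Bd ∪ Finset.univ.image qv))) +
        finrank (ZMod p) k * ∑ q ∈ Bd, w q ≤ finrank (ZMod p) k * r := by
    intro n
    obtain ⟨qv, hinj, hqv, heig, hkill⟩ := hT9 n (continuousH1S (s56z_prm (Smin ∪ Bd)) (s56z_Md p ρbar))
      (continuousH1S_le_continuousH1 _ _) hfinD
    refine ⟨qv, hinj, hqv, heig, ?_⟩
    have hqv' : ∀ i, (qv i).Prime ∧ qv i ∉ Smin ∧ qv i ∉ Bd ∧ p ^ (n + 1) ∣ qv i - 1 := fun i =>
      ⟨(hqv i).1, fun h => (hqv i).2.1 (hSmin h), fun h => (hqv i).2.1 (hBS h), (hqv i).2.2⟩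
    have hcount := s59q_count_w p ρbar Smin Bd hpSmin hdisj hunr w hinv Pp hT1 hT2 hT3 hT4 hT5 hT8 hDet
      _ n qv hqv' heig hkill
    rwa [hsumB] at hcount
  have h3B : ∑ q ∈ Bd, w q ≤ r := by
    obtain ⟨qv, -, -, -, hc⟩ := hmain 0
    have h1 : finrank (ZMod p) k * ∑ q ∈ Bd, w q ≤ finrank (ZMod p) k * r :=
      le_trans (Nat.le_add_left _ _) hc
    exact Nat.le_of_mul_le_mul_left h1 hd
  refine ⟨r, h3B, fun n => ?_⟩
  obtain ⟨qv, hinj, hqv, heig, hcount⟩ := hmain n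
  refine ⟨qv, hinj, hqv, heig, ?_⟩
  have hpSg : pPrime p ∈ s56z_prm (Smin ∪ Bd ∪ Finset.univ.image qv) :=
    (s56z_mem_prm _ _).2 (Finset.mem_union_left _ (Finset.mem_union_left _ hpSmin))
  have hunrSg : ∀ q : Nat.Primes, q ∉ s56z_prm (Smin ∪ Bd ∪ Finset.univ.image qv) →
      ρbar.IsUnramifiedAt q :=
    fun q hq => hunr q q.2 (fun h => hq ((s56z_mem_prm _ _).2
      (Finset.mem_union_left _ (Finset.mem_union_left _ h))))
  have hfinH : Module.Finite (ZMod p)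
      ↥(continuousH1S (s56z_prm (Smin ∪ Bd ∪ Finset.univ.image qv)) (s56z_M p ρbar)) :=
    hT10 p hp2 _ hpSg (s56z_M p ρbar) (s56z_smooth_M p ρbar) (s56z_unr_M p ρbar _ hunrSg)
  set W : Submodule (ZMod p) (H1 (s56z_M p ρbar)) :=
    (s59q_Sel p ρbar Pp (s56z_prm Smin) (s56z_prm Bd)
        (s56z_prm (Smin ∪ Bd ∪ Finset.univ.image qv))).map
      (continuousH1S (s56z_prm (Smin ∪ Bd ∪ Finset.univ.image qv)) (s56z_M p ρbar)).subtype with hW
  have hWfin : Module.Finite (ZMod p) ↥W := by rw [hW]; infer_instance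
  have hWle : finrank (ZMod p) ↥W ≤ finrank (ZMod p) k * (r - ∑ q ∈ Bd, w q) := by
    have h1 : finrank (ZMod p) ↥W ≤ finrank (ZMod p) ↥(s59q_Sel p ρbar Pp (s56z_prm Smin) (s56z_prm Bd)
        (s56z_prm (Smin ∪ Bd ∪ Finset.univ.image qv))) := Submodule.finrank_map_le _ _
    rw [Nat.mul_sub]
    omega
  refine s56z_closing (s56a_ad0 ρbar) _ W hWfin ?_ _ hWle
  rintro x ⟨c, hc, rfl, hPp, hur, hunip, hzero⟩
  have hcS : IsLevelConstantS₁ (s56z_prm (Smin ∪ Bd ∪ Finset.univ.image qv)) c.1 := hT6 c hc _ hur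
  have hmem : (H1π (s56z_M p ρbar)).hom (s56z_coc p ρbar c) ∈ W :=
    Submodule.mem_map.2 ⟨s56z_cls p ρbar _ c hcS,
      s59q_cls_mem_sel_w p ρbar Smin Bd _ hmin Pp hT7 c hc hcS hPp hunip hzero, rfl⟩
  rw [s56a_H1Res_π]
  exact hmem

end Core

end Fermat.Agent.Lib.S59
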