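/-
PROGRAMME (R), framed count, JOINT form for two local conditions at `p` (helper6, prefix `s59q_`):
**the core statement for a FIXED Taylor-Wiles family, and the joint core statement.**
`s59q_selmer_core_fix`: for a fixed family `qv : Fin r → ℕ` of Taylor-Wiles primes killing `H¹(G_{Σ₀ ∪ F}, M')`, a local
condition `Pp` at `p` with `dim L_p + [k:𝔽_p]·c ≤ h⁰(G_p, M) + [k:𝔽_p]`: the classes of framed first-order lifts of type
`Pp` lie in a set of at most `|k|^(r - Σ_{q∈F} w_q - c)` elements, and `Σ w_q + c ≤ r`.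
`s59q_selmer_core_J`: the SAME `r` and the SAME families `qv` serve a whole family of conditions `(Pp i, c i)`.
-/
import Fermat.Agent.Lib.S59.QSelJCount
import Fermat.Agent.Lib.S59.QSelWCore

set_option autoImplicit false
set_option linter.unusedSectionVars false

noncomputable section

namespace Fermat.Agent.Lib.S59

open groupCohomology ExtCitation CategoryTheory Module Polynomial IsLocalRing Fermat.Agent.Lib.S56

local notation "GQ" => (AlgebraicClosure ℚ ≃ₐ[ℚ] AlgebraicClosure ℚ)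

section Core

variable (p : ℕ) [Fact p.Prime] {k : Type} [Field k] [Algebra (ZMod p) k] [Finite k]
  (ρbar : ResidualGaloisRep k)

/-- **the framed count for a fixed Taylor-Wiles family**, defect `c` at `p`. -/
theorem s59q_selmer_core_fix (hp2 : p ≠ 2)
    (S Smin Bd : Finset ℕ) (hpSmin : p ∈ Smin) (hSmin : Smin ⊆ S) (hBS : Bd ⊆ S)
    (hBprime : ∀ q ∈ Bd, q.Prime)
    (hmin : ∀ q : ℕ, q.Prime → q ≠ p → (q ∈ Smin ↔ ¬ ρbar.IsUnramifiedAt q))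
    (hBunr : ∀ q ∈ Bd, q ≠ p ∧ ρbar.IsUnramifiedAt q)
    (w : ℕ → ℕ)
    (hinv : ∀ q : Nat.Primes, (q : ℕ) ∈ Bd → finrank (ZMod p) k * w q ≤
      finrank (ZMod p) ↥(Rep.res (primeLocalToGlobal q) (s56z_M p ρbar)).ρ.invariants)
    (Pp : GaloisRepAdic (DualNumber k) → Prop) (c : ℕ)
    (hT1 : s56z_GWleStmt p ρbar) (hT10 : s56z_FinStmt)
    (hT2 : finrank (ZMod p) ↥(s56z_Lp p ρbar Pp (pPrime p)) + finrank (ZMod p) k * c ≤
      finrank (ZMod p) ↥(Rep.res (primeLocalToGlobal (pPrime p)) (s56z_M p ρbar)).ρ.invariants +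
        finrank (ZMod p) k)
    (hT3 : s56z_UnrBound) (hT4 : s56z_TWBound p ρbar)
    (hT5 : s56z_GlobInv p ρbar) (hT6 : s56z_LevelOfUnr ρbar) (hT7 : s56z_UnipCob p ρbar)
    (hT8 : s56z_LocZeroInertia p) (hDet : s56g_IfaceDetect)
    (r n : ℕ) (qv : Fin r → ℕ)
    (hqv : ∀ i, (qv i).Prime ∧ qv i ∉ S ∧ p ^ (n + 1) ∣ qv i - 1)
    (heig : ∀ i, ∀ P : ValuationSubring (AlgebraicClosure ℚ), P.LiesOverPrime (qv i) →
        ∀ φ : GQ, P.IsFrobeniusAt φ (qv i) →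
          ∃ α β : k, α ≠ β ∧ LinearMap.charpoly (ρbar.ρ φ) = (X - C α) * (X - C β))
    (hkill : ∀ y ∈ continuousH1S (s56z_prm (Smin ∪ Bd)) (s56z_Md p ρbar),
      (∀ i, s56z_LocTrivAt p (s56z_Md p ρbar) (qv i) y) → y = 0) :
    ∑ q ∈ Bd, w q + c ≤ r ∧
      ∃ T : Finset (H1 (s56a_ad0 ρbar)),
        {x | ∃ (c : cocycles₁ (s56a_ad0 ρbar)) (hc : s56a_IsLevel c.1),
          (H1π (s56a_ad0 ρbar)).hom c = x ∧ Pp (s56a_liftRep ρbar c hc) ∧
          (∀ q : ℕ, q.Prime → q ∉ Smin ∪ Bd ∪ Finset.univ.image qv →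
            (s56a_liftRep ρbar c hc).IsUnramifiedAt q) ∧
          (∀ q ∈ Smin, q.Prime → q ≠ p →
            (s56a_liftRep ρbar c hc).IsUnipotentOnInertiaAt q) ∧
          (∀ q : Nat.Primes, (q : ℕ) ∈ Bd → ∃ X : s56a_ad0 ρbar,
            ∀ τ : primeLocalGaloisGroup q,
              c.1 (primeLocalToGlobal q τ) = (s56a_ad0 ρbar).ρ (primeLocalToGlobal q τ) X - X)} ⊆ ↑T ∧
        T.card ≤ Nat.card k ^ (r - ∑ q ∈ Bd, w q - c) := by
  classical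
  have hpp : p.Prime := Fact.out
  have hdisj : ∀ q ∈ Bd, q ∉ Smin := fun q hq hqS =>
    ((hmin q (hBprime q hq) (hBunr q hq).1).1 hqS) (hBunr q hq).2
  have hunr : ∀ q : ℕ, q.Prime → q ∉ Smin → ρbar.IsUnramifiedAt q := fun q hq hqS => by
    have hne : q ≠ p := fun h => hqS (h ▸ hpSmin)
    by_contra hram
    exact hqS ((hmin q hq hne).2 hram)
  have hsumB : ∑ q ∈ s56z_prm Bd, w q = ∑ q ∈ Bd, w q := by
    have h := Finset.sum_subtype_eq_sum_filter (s := Bd) (p := Nat.Prime) (f := w)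
    rw [Finset.filter_true_of_mem hBprime] at h
    exact h
  have hd : 0 < finrank (ZMod p) k := by
    have : Module.Finite (ZMod p) k := Module.Finite.of_finite
    exact finrank_pos
  have hqv' : ∀ i, (qv i).Prime ∧ qv i ∉ Smin ∧ qv i ∉ Bd ∧ p ^ (n + 1) ∣ qv i - 1 := fun i =>
    ⟨(hqv i).1, fun h => (hqv i).2.1 (hSmin h), fun h => (hqv i).2.1 (hBS h), (hqv i).2.2⟩
  have hcount := s59q_count_e p ρbar Smin Bd hpSmin hdisj hunr w hinv Pp hT1 _ hT2 hT3 hT4 hT5 hT8 hDet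
    _ n qv hqv' heig hkill
  rw [hsumB] at hcount
  have h3B : ∑ q ∈ Bd, w q + c ≤ r := by
    have h1 : finrank (ZMod p) k * (∑ q ∈ Bd, w q + c) ≤ finrank (ZMod p) k * r := by
      rw [Nat.mul_add]
      omega
    exact Nat.le_of_mul_le_mul_left h1 hd
  refine ⟨h3B, ?_⟩
  have hpSg : pPrime p ∈ s56z_prm (Smin ∪ Bd ∪ Finset.univ.image qv) :=
    (s56z_mem_prm _ _).2 (Finset.mem_union_left _ (Finset.mem_union_left _ hpSmin))
  have hunrSg : ∀ q : Nat.Primes, q ∉ s56z_prm (Smin ∪ Bd ∪ Finset.univ.image qv) →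
      ρbar.IsUnramifiedAt q :=
    fun q hq => hunr q q.2 (fun h => hq ((s56z_mem_prm _ _).2
      (Finset.mem_union_left _ (Finset.mem_union_left _ h))))
  have hfinH : Module.Finite (ZMod p)
      ↥(continuousH1S (s56z_prm (Smin ∪ Bd ∪ Finset.univ.image qv)) (s56z_M p ρbar)) :=
    hT10 p hp2 _ hpSg (s56z_M p ρbar) (s56z_smooth_M p ρbar) (s56z_unr_M p ρbar _ hunrSg)
  set W : Submodule (ZMod p) (H1 (s56z_M p ρbar)) :=
    (s59q_Sel p ρbar Pp (s56z_prm Smin) (s56z_prm Bd)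
        (s56z_prm (Smin ∪ Bd ∪ Finset.univ.image qv))).map
      (continuousH1S (s56z_prm (Smin ∪ Bd ∪ Finset.univ.image qv)) (s56z_M p ρbar)).subtype with hW
  have hWfin : Module.Finite (ZMod p) ↥W := by rw [hW]; infer_instance
  have hWle : finrank (ZMod p) ↥W ≤ finrank (ZMod p) k * (r - ∑ q ∈ Bd, w q - c) := by
    have h1 : finrank (ZMod p) ↥W ≤ finrank (ZMod p) ↥(s59q_Sel p ρbar Pp (s56z_prm Smin) (s56z_prm Bd)
        (s56z_prm (Smin ∪ Bd ∪ Finset.univ.image qv))) := Submodule.finrank_map_le _ _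
    rw [Nat.mul_sub, Nat.mul_sub]
    omega
  refine s56z_closing (s56a_ad0 ρbar) _ W hWfin ?_ _ hWle
  rintro x ⟨c, hc, rfl, hPp, hur, hunip, hzero⟩
  have hcS : IsLevelConstantS₁ (s56z_prm (Smin ∪ Bd ∪ Finset.univ.image qv)) c.1 := hT6 c hc _ hur
  have hmem : (H1π (s56z_M p ρbar)).hom (s56z_coc p ρbar c) ∈ W :=
    Submodule.mem_map.2 ⟨s56z_cls p ρbar _ c hcS,
      s59q_cls_mem_sel_w p ρbar Smin Bd _ hmin Pp hT7 c hc hcS hPp hunip hzero, rfl⟩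
  rw [s56a_H1Res_π]
  exact hmem

/-- **THE JOINT FRAMED COUNT**: the same `r` and the same Taylor-Wiles families serve a whole family of local conditions
`Pp i` at `p` with `dim L_p(Pp i) + [k:𝔽_p]·c i ≤ h⁰(G_p, M) + [k:𝔽_p]`. -/
theorem s59q_selmer_core_J (hp2 : p ≠ 2)
    (S Smin Bd : Finset ℕ) (hpSmin : p ∈ Smin) (hSmin : Smin ⊆ S) (hBS : Bd ⊆ S)
    (hBprime : ∀ q ∈ Bd, q.Prime)
    (hmin : ∀ q : ℕ, q.Prime → q ≠ p → (q ∈ Smin ↔ ¬ ρbar.IsUnramifiedAt q))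
    (hBunr : ∀ q ∈ Bd, q ≠ p ∧ ρbar.IsUnramifiedAt q)
    (w : ℕ → ℕ)
    (hinv : ∀ q : Nat.Primes, (q : ℕ) ∈ Bd → finrank (ZMod p) k * w q ≤
      finrank (ZMod p) ↥(Rep.res (primeLocalToGlobal q) (s56z_M p ρbar)).ρ.invariants)
    {ι : Type} (Pp : ι → GaloisRepAdic (DualNumber k) → Prop) (c : ι → ℕ)
    (hT1 : s56z_GWleStmt p ρbar) (hT10 : s56z_FinStmt)
    (hT2 : ∀ i, finrank (ZMod p) ↥(s56z_Lp p ρbar (Pp i) (pPrime p)) + finrank (ZMod p) k * c i ≤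
      finrank (ZMod p) ↥(Rep.res (primeLocalToGlobal (pPrime p)) (s56z_M p ρbar)).ρ.invariants +
        finrank (ZMod p) k)
    (hT3 : s56z_UnrBound) (hT4 : s56z_TWBound p ρbar)
    (hT5 : s56z_GlobInv p ρbar) (hT6 : s56z_LevelOfUnr ρbar) (hT7 : s56z_UnipCob p ρbar)
    (hT8 : s56z_LocZeroInertia p) (hDet : s56g_IfaceDetect) (hT9 : s56z_PrimesStmt p ρbar S) :
    ∃ r : ℕ, (∀ i, ∑ q ∈ Bd, w q + c i ≤ r) ∧ ∀ n : ℕ, ∃ qv : Fin r → ℕ, Function.Injective qv ∧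
      (∀ i, (qv i).Prime ∧ qv i ∉ S ∧ p ^ (n + 1) ∣ qv i - 1) ∧
      (∀ i, ∀ P : ValuationSubring (AlgebraicClosure ℚ), P.LiesOverPrime (qv i) →
        ∀ φ : GQ, P.IsFrobeniusAt φ (qv i) →
          ∃ α β : k, α ≠ β ∧ LinearMap.charpoly (ρbar.ρ φ) = (X - C α) * (X - C β)) ∧
      ∀ i, ∃ T : Finset (H1 (s56a_ad0 ρbar)),
        {x | ∃ (c : cocycles₁ (s56a_ad0 ρbar)) (hc : s56a_IsLevel c.1),
          (H1π (s56a_ad0 ρbar)).hom c = x ∧ Pp i (s56a_liftRep ρbar c hc) ∧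
          (∀ q : ℕ, q.Prime → q ∉ Smin ∪ Bd ∪ Finset.univ.image qv →
            (s56a_liftRep ρbar c hc).IsUnramifiedAt q) ∧
          (∀ q ∈ Smin, q.Prime → q ≠ p →
            (s56a_liftRep ρbar c hc).IsUnipotentOnInertiaAt q) ∧
          (∀ q : Nat.Primes, (q : ℕ) ∈ Bd → ∃ X : s56a_ad0 ρbar,
            ∀ τ : primeLocalGaloisGroup q,
              c.1 (primeLocalToGlobal q τ) = (s56a_ad0 ρbar).ρ (primeLocalToGlobal q τ) X - X)} ⊆ ↑T ∧
        T.card ≤ Nat.card k ^ (r - ∑ q ∈ Bd, w q - c i) := by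
  classical
  have hdisj : ∀ q ∈ Bd, q ∉ Smin := fun q hq hqS =>
    ((hmin q (hBprime q hq) (hBunr q hq).1).1 hqS) (hBunr q hq).2
  have hunr : ∀ q : ℕ, q.Prime → q ∉ Smin → ρbar.IsUnramifiedAt q := fun q hq hqS => by
    have hne : q ≠ p := fun h => hqS (h ▸ hpSmin)
    by_contra hram
    exact hqS ((hmin q hq hne).2 hram)
  have hp0 : pPrime p ∈ s56z_prm (Smin ∪ Bd) :=
    (s56z_mem_prm _ _).2 (Finset.mem_union_left _ hpSmin)
  have hunr0 : ∀ q : Nat.Primes, q ∉ s56z_prm (Smin ∪ Bd) → ρbar.IsUnramifiedAt q := fun q hq =>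
    hunr q q.2 (fun h => hq ((s56z_mem_prm _ _).2 (Finset.mem_union_left _ h)))
  have hfinD : Module.Finite (ZMod p) ↥(continuousH1S (s56z_prm (Smin ∪ Bd)) (s56z_Md p ρbar)) :=
    hT10 p hp2 (s56z_prm (Smin ∪ Bd)) hp0 (s56z_Md p ρbar) (s56z_smooth_Md p ρbar)
      (s56z_unr_Md p ρbar (s56z_prm (Smin ∪ Bd)) hp0 hunr0)
  have hmain : ∀ n : ℕ, ∃ qv : Fin (finrank (ZMod p)
      ↥(continuousH1S (s56z_prm (Smin ∪ Bd)) (s56z_Md p ρbar))) → ℕ, Function.Injective qv ∧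
      (∀ i, (qv i).Prime ∧ qv i ∉ S ∧ p ^ (n + 1) ∣ qv i - 1) ∧
      (∀ i, ∀ P : ValuationSubring (AlgebraicClosure ℚ), P.LiesOverPrime (qv i) →
        ∀ φ : GQ, P.IsFrobeniusAt φ (qv i) →
          ∃ α β : k, α ≠ β ∧ LinearMap.charpoly (ρbar.ρ φ) = (X - C α) * (X - C β)) ∧
      ∀ y ∈ continuousH1S (s56z_prm (Smin ∪ Bd)) (s56z_Md p ρbar),
        (∀ i, s56z_LocTrivAt p (s56z_Md p ρbar) (qv i) y) → y = 0 := fun n =>
    hT9 n (continuousH1S (s56z_prm (Smin ∪ Bd)) (s56z_Md p ρbar))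
      (continuousH1S_le_continuousH1 _ _) hfinD
  refine ⟨finrank (ZMod p) ↥(continuousH1S (s56z_prm (Smin ∪ Bd)) (s56z_Md p ρbar)), fun i => ?_,
    fun n => ?_⟩
  · obtain ⟨qv, -, hqv, heig, hkill⟩ := hmain 0
    exact (s59q_selmer_core_fix p ρbar hp2 S Smin Bd hpSmin hSmin hBS hBprime hmin hBunr w hinv (Pp i) (c i)
      hT1 hT10 (hT2 i) hT3 hT4 hT5 hT6 hT7 hT8 hDet _ 0 qv hqv heig hkill).1
  · obtain ⟨qv, hinj, hqv, heig, hkill⟩ := hmain n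
    exact ⟨qv, hinj, hqv, heig, fun i =>
      (s59q_selmer_core_fix p ρbar hp2 S Smin Bd hpSmin hSmin hBS hBprime hmin hBunr w hinv (Pp i) (c i)
        hT1 hT10 (hT2 i) hT3 hT4 hT5 hT6 hT7 hT8 hDet _ n qv hqv heig hkill).2⟩

end Core

end Fermat.Agent.Lib.S59
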