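/-
PROGRAMME (R), framed (G1)(b) (helper6, prefix `s59q_`): **the framed Taylor–Wiles count, UNCONDITIONAL.**
All the contracts (T1′)–(T10) of `Lib/S56/IfaceTop.lean` are theorems on main; plugging them into
`s59q_selmer_core` gives the count under the hypotheses of frozen S56 plus the data of the bad primes `B`
(`ρ̄` unramified at `q ∈ B` with a central Frobenius), for the strict-ordinary and for the flat condition at `p`.
-/
import Fermat.Agent.Lib.S59.QSelCore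
import Fermat.Agent.Lib.S56.ZWire
import Fermat.Agent.Lib.S56.TailWireZ
import Fermat.Agent.Lib.S56.LFlatWire

set_option autoImplicit false
set_option linter.unusedSectionVars false

noncomputable section

namespace Fermat.Agent.Lib.S59

open groupCohomology ExtCitation CategoryTheory Module Polynomial IsLocalRing Fermat.Agent.Lib.S56

local notation "GQ" => (AlgebraicClosure ℚ ≃ₐ[ℚ] AlgebraicClosure ℚ)

section Central

variable {k : Type} [Field k] (ρbar : ResidualGaloisRep k)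

/-- `ρ̄` unramified at `q` with a central Frobenius at `P ∣ q`: `ρ̄` is central on the whole decomposition group. -/
theorem s59q_central_of_frob (q : ℕ) (hq : q.Prime) (P : ValuationSubring (AlgebraicClosure ℚ))
    (hP : P.LiesOverPrime q) (hunr : ρbar.IsUnramifiedAt q) (φ : GQ) (hφ : P.IsFrobeniusAt φ q)
    (hc : ∀ X : Module.End k ρbar.V, ρbar.ρ φ * X = X * ρbar.ρ φ)
    (σ : GQ) (hσ : σ ∈ P.decompositionSubgroup ℚ) (X : Module.End k ρbar.V) :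
    ρbar.ρ σ * X = X * ρbar.ρ σ := by
  obtain ⟨L, hL, hρL⟩ := ρbar.factorsThroughFiniteLevel
  obtain ⟨j, ι, hι, hs⟩ := s56g_ifaceFrobGen q hq P hP φ hφ L hL σ hσ
  have h1 : ρbar.ρ ((φ ^ j * ι)⁻¹ * σ) = 1 :=
    hρL _ fun x hx => (IntermediateField.mem_fixingSubgroup_iff L _).1 hs x hx
  have h2 : ρbar.ρ ι = 1 := hunr P hP ι hι
  have h3 : ρbar.ρ σ = ρbar.ρ φ ^ j := by
    have e : σ = (φ ^ j * ι) * ((φ ^ j * ι)⁻¹ * σ) := by group
    rw [e, map_mul, h1, mul_one, map_mul, h2, mul_one, map_pow]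
  rw [h3]
  have hcomm : Commute (ρbar.ρ φ) X := hc X
  exact (hcomm.pow_left j)

/-- the hypothesis `s59q_CentralAt` from "unramified + central Frobenius at the `q`-adic place". -/
theorem s59q_centralAt_of_frob (q : Nat.Primes) (hunr : ρbar.IsUnramifiedAt q) (φ : GQ)
    (hφ : (primeLocalPlace q).IsFrobeniusAt φ q)
    (hc : ∀ X : Module.End k ρbar.V, ρbar.ρ φ * X = X * ρbar.ρ φ) : s59q_CentralAt ρbar q :=
  fun τ X => s59q_central_of_frob ρbar q q.2 (primeLocalPlace q) (s56z_place_liesOver q) hunr φ hφ hc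
    _ (s56g_loc_mem_decomp q τ) X

end Central

section Final

variable (p : ℕ) [Fact p.Prime] {k : Type} [Field k] [Algebra (ZMod p) k] [Finite k]
  (ρbar : ResidualGaloisRep k)

/-- **the framed count from (T2) alone** (every other contract is on main). -/
theorem s59q_selmer_of_lpBound (hp2 : p ≠ 2)
    (habs : ρbar.IsAbsolutelyIrreducible)
    (hdet : (GaloisRepAdic.ofResidualGaloisRep ρbar).DetIsCyclotomic p)
    (hsplit : ∀ σ : GQ, ∃ α β : k, LinearMap.charpoly (ρbar.ρ σ) = (X - C α) * (X - C β))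
    (hTW : ∀ (K : Type) [Field K] [Algebra k K] (G : Subgroup GQ), G.index = 2 →
      ∀ V : Submodule K (ρbar.baseChange K).V,
        (∀ σ ∈ G, ∀ x ∈ V, (ρbar.baseChange K).ρ σ x ∈ V) → V = ⊥ ∨ V = ⊤)
    (S Smin Bd : Finset ℕ) (hpSmin : p ∈ Smin) (hSmin : Smin ⊆ S) (hBS : Bd ⊆ S)
    (hBprime : ∀ q ∈ Bd, q.Prime)
    (hmin : ∀ q : ℕ, q.Prime → q ≠ p → (q ∈ Smin ↔ ¬ ρbar.IsUnramifiedAt q))
    (hBunr : ∀ q ∈ Bd, q ≠ p ∧ ρbar.IsUnramifiedAt q)
    (hcen : ∀ q : Nat.Primes, (q : ℕ) ∈ Bd → s59q_CentralAt ρbar q)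
    (Pp : GaloisRepAdic (DualNumber k) → Prop) (hT2 : s56z_LpBound p ρbar Pp) :
    ∃ r : ℕ, 3 * Bd.card ≤ r ∧ ∀ n : ℕ, ∃ qv : Fin r → ℕ, Function.Injective qv ∧
      (∀ i, (qv i).Prime ∧ qv i ∉ S ∧ p ^ (n + 1) ∣ qv i - 1) ∧
      (∀ i, ∀ P : ValuationSubring (AlgebraicClosure ℚ), P.LiesOverPrime (qv i) →
        ∀ φ : GQ, P.IsFrobeniusAt φ (qv i) →
          ∃ α β : k, α ≠ β ∧ LinearMap.charpoly (ρbar.ρ φ) = (X - C α) * (X - C β)) ∧
      ∃ T : Finset (H1 (s56a_ad0 ρbar)),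
        {x | ∃ (c : cocycles₁ (s56a_ad0 ρbar)) (hc : s56a_IsLevel c.1),
          (H1π (s56a_ad0 ρbar)).hom c = x ∧ Pp (s56a_liftRep ρbar c hc) ∧
          (∀ q : ℕ, q.Prime → q ∉ Smin ∪ Bd ∪ Finset.univ.image qv →
            (s56a_liftRep ρbar c hc).IsUnramifiedAt q) ∧
          (∀ q ∈ Smin, q.Prime → q ≠ p →
            (s56a_liftRep ρbar c hc).IsUnipotentOnInertiaAt q) ∧
          (∀ q : Nat.Primes, (q : ℕ) ∈ Bd → ∀ τ : primeLocalGaloisGroup q,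
            c.1 (primeLocalToGlobal q τ) = 0)} ⊆ ↑T ∧
        T.card ≤ Nat.card k ^ (r - 3 * Bd.card) := by
  have : Module.Finite (ZMod p) k := Module.Finite.of_finite
  have : CharP k p := charP_of_injective_algebraMap (algebraMap (ZMod p) k).injective p
  have h2k : (2 : k) ≠ 0 :=
    s56a_two_ne_zero p hp2 (s56a_natCast_eq_zero_of_detIsCyclotomic ρbar p hdet)
  have hT1 := s56z_gwleStmt p ρbar hp2 (s56t_eulerStmt p hp2 ρbar)
  have hT10 := s56z_finStmt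
  have hT3 : s56z_UnrBound := s56g_ifaceUnrLe
  have hT4 := s56g_twBound p ρbar hp2
  have hT5 := s56a_globInv p ρbar hp2 habs hdet
  have hT6 := s56a_levelOfUnr ρbar
  have hT7 := s56g_unipCob p ρbar hp2
  have hT8 := s56g_locZeroInertia_top p
  have hDet := s56g_ifaceDetect
  have hT9 := s56h_primesStmt p ρbar s56e_GroupLemma_holds hp2 habs hdet hsplit hTW S
  exact s59q_selmer_core p ρbar hp2 h2k S Smin Bd hpSmin hSmin hBS hBprime hmin hBunr hcen Pp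
    hT1 hT10 hT2 hT3 hT4 hT5 hT6 hT7 hT8 hDet hT9

/-- **the framed count, strict-ordinary condition at `p`**. -/
theorem s59q_selmer_ord (hp2 : p ≠ 2)
    (habs : ρbar.IsAbsolutelyIrreducible)
    (hdet : (GaloisRepAdic.ofResidualGaloisRep ρbar).DetIsCyclotomic p)
    (hsplit : ∀ σ : GQ, ∃ α β : k, LinearMap.charpoly (ρbar.ρ σ) = (X - C α) * (X - C β))
    (hTW : ∀ (K : Type) [Field K] [Algebra k K] (G : Subgroup GQ), G.index = 2 →
      ∀ V : Submodule K (ρbar.baseChange K).V,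
        (∀ σ ∈ G, ∀ x ∈ V, (ρbar.baseChange K).ρ σ x ∈ V) → V = ⊥ ∨ V = ⊤)
    (S Smin Bd : Finset ℕ) (hpSmin : p ∈ Smin) (hSmin : Smin ⊆ S) (hBS : Bd ⊆ S)
    (hBprime : ∀ q ∈ Bd, q.Prime)
    (hmin : ∀ q : ℕ, q.Prime → q ≠ p → (q ∈ Smin ↔ ¬ ρbar.IsUnramifiedAt q))
    (hBunr : ∀ q ∈ Bd, q ≠ p ∧ ρbar.IsUnramifiedAt q)
    (hcen : ∀ q : Nat.Primes, (q : ℕ) ∈ Bd → s59q_CentralAt ρbar q) :
    ∃ r : ℕ, 3 * Bd.card ≤ r ∧ ∀ n : ℕ, ∃ qv : Fin r → ℕ, Function.Injective qv ∧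
      (∀ i, (qv i).Prime ∧ qv i ∉ S ∧ p ^ (n + 1) ∣ qv i - 1) ∧
      (∀ i, ∀ P : ValuationSubring (AlgebraicClosure ℚ), P.LiesOverPrime (qv i) →
        ∀ φ : GQ, P.IsFrobeniusAt φ (qv i) →
          ∃ α β : k, α ≠ β ∧ LinearMap.charpoly (ρbar.ρ φ) = (X - C α) * (X - C β)) ∧
      ∃ T : Finset (H1 (s56a_ad0 ρbar)),
        {x | ∃ (c : cocycles₁ (s56a_ad0 ρbar)) (hc : s56a_IsLevel c.1),
          (H1π (s56a_ad0 ρbar)).hom c = x ∧
          ((s56a_liftRep ρbar c hc).DetIsCyclotomic p ∧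
            (s56a_liftRep ρbar c hc).IsStrictOrdinaryAt p) ∧
          (∀ q : ℕ, q.Prime → q ∉ Smin ∪ Bd ∪ Finset.univ.image qv →
            (s56a_liftRep ρbar c hc).IsUnramifiedAt q) ∧
          (∀ q ∈ Smin, q.Prime → q ≠ p →
            (s56a_liftRep ρbar c hc).IsUnipotentOnInertiaAt q) ∧
          (∀ q : Nat.Primes, (q : ℕ) ∈ Bd → ∀ τ : primeLocalGaloisGroup q,
            c.1 (primeLocalToGlobal q τ) = 0)} ⊆ ↑T ∧
        T.card ≤ Nat.card k ^ (r - 3 * Bd.card) :=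
  s59q_selmer_of_lpBound p ρbar hp2 habs hdet hsplit hTW S Smin Bd hpSmin hSmin hBS hBprime hmin hBunr
    hcen _ (s56z_lpBound_ord p ρbar hp2)

/-- **the framed count, flat condition at `p`**. -/
theorem s59q_selmer_flat (hp2 : p ≠ 2)
    (habs : ρbar.IsAbsolutelyIrreducible)
    (hdet : (GaloisRepAdic.ofResidualGaloisRep ρbar).DetIsCyclotomic p)
    (hsplit : ∀ σ : GQ, ∃ α β : k, LinearMap.charpoly (ρbar.ρ σ) = (X - C α) * (X - C β))
    (hTW : ∀ (K : Type) [Field K] [Algebra k K] (G : Subgroup GQ), G.index = 2 →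
      ∀ V : Submodule K (ρbar.baseChange K).V,
        (∀ σ ∈ G, ∀ x ∈ V, (ρbar.baseChange K).ρ σ x ∈ V) → V = ⊥ ∨ V = ⊤)
    (S Smin Bd : Finset ℕ) (hpSmin : p ∈ Smin) (hSmin : Smin ⊆ S) (hBS : Bd ⊆ S)
    (hBprime : ∀ q ∈ Bd, q.Prime)
    (hmin : ∀ q : ℕ, q.Prime → q ≠ p → (q ∈ Smin ↔ ¬ ρbar.IsUnramifiedAt q))
    (hBunr : ∀ q ∈ Bd, q ≠ p ∧ ρbar.IsUnramifiedAt q)
    (hcen : ∀ q : Nat.Primes, (q : ℕ) ∈ Bd → s59q_CentralAt ρbar q) :
    ∃ r : ℕ, 3 * Bd.card ≤ r ∧ ∀ n : ℕ, ∃ qv : Fin r → ℕ, Function.Injective qv ∧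
      (∀ i, (qv i).Prime ∧ qv i ∉ S ∧ p ^ (n + 1) ∣ qv i - 1) ∧
      (∀ i, ∀ P : ValuationSubring (AlgebraicClosure ℚ), P.LiesOverPrime (qv i) →
        ∀ φ : GQ, P.IsFrobeniusAt φ (qv i) →
          ∃ α β : k, α ≠ β ∧ LinearMap.charpoly (ρbar.ρ φ) = (X - C α) * (X - C β)) ∧
      ∃ T : Finset (H1 (s56a_ad0 ρbar)),
        {x | ∃ (c : cocycles₁ (s56a_ad0 ρbar)) (hc : s56a_IsLevel c.1),
          (H1π (s56a_ad0 ρbar)).hom c = x ∧
          ((s56a_liftRep ρbar c hc).DetIsCyclotomic p ∧ (s56a_liftRep ρbar c hc).IsFlatAt p) ∧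
          (∀ q : ℕ, q.Prime → q ∉ Smin ∪ Bd ∪ Finset.univ.image qv →
            (s56a_liftRep ρbar c hc).IsUnramifiedAt q) ∧
          (∀ q ∈ Smin, q.Prime → q ≠ p →
            (s56a_liftRep ρbar c hc).IsUnipotentOnInertiaAt q) ∧
          (∀ q : Nat.Primes, (q : ℕ) ∈ Bd → ∀ τ : primeLocalGaloisGroup q,
            c.1 (primeLocalToGlobal q τ) = 0)} ⊆ ↑T ∧
        T.card ≤ Nat.card k ^ (r - 3 * Bd.card) := by
  have : Module.Finite (ZMod p) k := Module.Finite.of_finite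
  exact s59q_selmer_of_lpBound p ρbar hp2 habs hdet hsplit hTW S Smin Bd hpSmin hSmin hBS hBprime hmin
    hBunr hcen _ (s56l_lpBound_flat_closed p ρbar hp2 hsplit hdet)

end Final

end Fermat.Agent.Lib.S59
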