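/-
PROGRAMME (R), framed count with a general framed set (helper6, prefix `s59q_`): **the weighted framed count,
UNCONDITIONAL.**  Framed set `F = Bd ∪ Ed`: at `q ∈ Bd` the decomposition group acts centrally (`w_q = 3`), at `q ∈ Ed`
`ρ̄` is only assumed unramified (`w_q = 1`: `H⁰(G_q, ad⁰ρ̄) ≠ 0`).  The classes of the first-order lifts (condition at
`p`, unramified outside `Smin ∪ F ∪ Q`, unipotent at `Smin ∖ {p}`) whose cocycle is a COBOUNDARY on every `G_q`, `q ∈ F`,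
lie in a set of at most `|k|^(r - 3|Bd| - |Ed|)` elements.
-/
import Fermat.Agent.Lib.S59.QSelWCore
import Fermat.Agent.Lib.S59.QSelWire

set_option autoImplicit false
set_option linter.unusedSectionVars false

noncomputable section

namespace Fermat.Agent.Lib.S59

open groupCohomology ExtCitation CategoryTheory Module Polynomial IsLocalRing Fermat.Agent.Lib.S56

local notation "GQ" => (AlgebraicClosure ℚ ≃ₐ[ℚ] AlgebraicClosure ℚ)

section Weights

variable (p : ℕ) [Fact p.Prime] {k : Type} [Field k] [Algebra (ZMod p) k] [Finite k]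
  (ρbar : ResidualGaloisRep k)

/-- weight `3` at a prime where `ρ̄|G_q` is central. -/
theorem s59q_inv_of_central (h2k : (2 : k) ≠ 0) (q : Nat.Primes) (h : s59q_CentralAt ρbar q) :
    finrank (ZMod p) k * 3 ≤
      finrank (ZMod p) ↥(Rep.res (primeLocalToGlobal q) (s56z_M p ρbar)).ρ.invariants := by
  rw [s59q_finrank_invariants_of_central p q h]
  exact le_of_eq (s56a_finrank_ad0_res ρbar (ZMod p) h2k).symm

/-- on the decomposition group at an unramified prime, `ρ̄` takes its values in the powers of a Frobenius. -/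
theorem s59q_rho_eq_pow_of_unr (q : Nat.Primes) (hunr : ρbar.IsUnramifiedAt q) (φ : GQ)
    (hφ : (primeLocalPlace q).IsFrobeniusAt φ q) (τ : primeLocalGaloisGroup q) :
    ∃ j : ℕ, ρbar.ρ (primeLocalToGlobal q τ) = ρbar.ρ φ ^ j := by
  obtain ⟨L, hL, hρL⟩ := ρbar.factorsThroughFiniteLevel
  obtain ⟨j, ι, hι, hs⟩ := s56g_ifaceFrobGen q q.2 (primeLocalPlace q) (s56z_place_liesOver q) φ hφ L hL
    _ (s56g_loc_mem_decomp q τ)
  refine ⟨j, ?_⟩
  set σ := primeLocalToGlobal q τ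
  have h1 : ρbar.ρ ((φ ^ j * ι)⁻¹ * σ) = 1 :=
    hρL _ fun x hx => (IntermediateField.mem_fixingSubgroup_iff L _).1 hs x hx
  have h2 : ρbar.ρ ι = 1 := hunr (primeLocalPlace q) (s56z_place_liesOver q) ι hι
  have e : σ = (φ ^ j * ι) * ((φ ^ j * ι)⁻¹ * σ) := by group
  rw [e, map_mul, h1, mul_one, map_mul, h2, mul_one, map_pow]

/-- weight `1` at a prime where `ρ̄` is unramified: `H⁰(G_q, ad⁰ρ̄) ≠ 0`. -/
theorem s59q_inv_of_unr (h2k : (2 : k) ≠ 0) (q : Nat.Primes) (hunr : ρbar.IsUnramifiedAt q) :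
    finrank (ZMod p) k * 1 ≤
      finrank (ZMod p) ↥(Rep.res (primeLocalToGlobal q) (s56z_M p ρbar)).ρ.invariants := by
  classical
  obtain ⟨φ, hφ⟩ := s56z_exists_frob q
  by_cases hcen : ∀ X : Module.End k ρbar.V, ρbar.ρ φ * X = X * ρbar.ρ φ
  · refine le_trans ?_ (s59q_inv_of_central p ρbar h2k q (s59q_centralAt_of_frob ρbar q hunr φ hφ hcen))
    omega
  · -- the trace-free part of the Frobenius is a non-zero invariant
    set A : Module.End k ρbar.V := ρbar.ρ φ with hA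
    set t : k := LinearMap.trace k ρbar.V A / 2 with ht
    set Y : Module.End k ρbar.V := A - t • 1 with hY
    have htrY : LinearMap.trace k ρbar.V Y = 0 := by
      rw [hY, map_sub, map_smul, LinearMap.trace_one, ρbar.finrank_eq, ht, smul_eq_mul]
      push_cast
      field_simp
      ring
    have hY0 : Y ≠ 0 := by
      intro h0
      apply hcen
      intro X
      have hAt : A = t • 1 := sub_eq_zero.1 h0
      rw [hAt, smul_mul_assoc, one_mul, mul_smul_comm, mul_one]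
    have hcomm : ∀ j : ℕ, A ^ j * Y = Y * A ^ j := by
      intro j
      have h1 : Commute A Y := by
        rw [hY]
        exact (Commute.refl A).sub_right ((Commute.one_right A).smul_right t)
      exact (h1.pow_left j).eq
    let g : k →ₗ[ZMod p] (s56z_M p ρbar) :=
      { toFun := fun a => s56h_ofEnd p ρbar (a • Y) (by rw [map_smul, htrY, smul_zero])
        map_add' := fun a b => by
          apply s56h_toEnd_injective
          rw [s56h_toEnd_add, s56h_toEnd_ofEnd, s56h_toEnd_ofEnd, s56h_toEnd_ofEnd, add_smul]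
        map_smul' := fun z a => by
          apply s56h_toEnd_injective
          have hza : z • a = algebraMap (ZMod p) k z * a := Algebra.smul_def z a
          rw [RingHom.id_apply, s56h_toEnd_smul, s56h_toEnd_ofEnd, s56h_toEnd_ofEnd, hza, mul_smul] }
    have hginj : Function.Injective g := by
      intro a b hab
      have h1 : a • Y = b • Y := congrArg (s56h_toEnd p ρbar) hab
      have h2 : (a - b) • Y = 0 := by rw [sub_smul, h1, sub_self]
      rcases smul_eq_zero.1 h2 with h | h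
      · exact sub_eq_zero.1 h
      · exact absurd h hY0
    have hrange : LinearMap.range g ≤ (Rep.res (primeLocalToGlobal q) (s56z_M p ρbar)).ρ.invariants := by
      rintro _ ⟨a, rfl⟩
      rw [Representation.mem_invariants]
      intro τ
      show (s56z_M p ρbar).ρ (primeLocalToGlobal q τ) (g a) = g a
      apply s56h_toEnd_injective
      rw [s56h_toEnd_rho]
      show ρbar.ρ (primeLocalToGlobal q τ) * (a • Y) * ρbar.ρ (primeLocalToGlobal q τ)⁻¹ = a • Y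
      obtain ⟨j, hj⟩ := s59q_rho_eq_pow_of_unr ρbar q hunr φ hφ τ
      have h1 : ρbar.ρ (primeLocalToGlobal q τ) * (a • Y) = (a • Y) * ρbar.ρ (primeLocalToGlobal q τ) := by
        rw [hj, mul_smul_comm, smul_mul_assoc, hcomm j]
      rw [h1, mul_assoc, s56a_rho_mul_inv, mul_one]
    have : Module.Finite (ZMod p) k := Module.Finite.of_finite
    calc finrank (ZMod p) k * 1 = finrank (ZMod p) ↥(LinearMap.range g) := by
          rw [mul_one, LinearMap.finrank_range_of_inj hginj]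
      _ ≤ _ := Submodule.finrank_mono hrange

end Weights

section Final

variable (p : ℕ) [Fact p.Prime] {k : Type} [Field k] [Algebra (ZMod p) k] [Finite k]
  (ρbar : ResidualGaloisRep k)

theorem s59q_sum_weights (Bd Ed : Finset ℕ) (hBE : Disjoint Bd Ed) :
    ∑ q ∈ Bd ∪ Ed, (if q ∈ Bd then 3 else 1) = 3 * Bd.card + Ed.card := by
  classical
  rw [Finset.sum_union hBE]
  have h1 : ∑ q ∈ Bd, (if q ∈ Bd then 3 else 1) = 3 * Bd.card := by
    rw [Finset.sum_congr rfl (fun q hq => if_pos hq), Finset.sum_const, smul_eq_mul, mul_comm]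
  have h2 : ∑ q ∈ Ed, (if q ∈ Bd then 3 else 1) = Ed.card := by
    rw [Finset.sum_congr rfl (fun q hq => if_neg (Finset.disjoint_right.1 hBE hq)), Finset.sum_const,
      smul_eq_mul, mul_one]
  rw [h1, h2]

/-- **the weighted framed count from (T2) alone.** -/
theorem s59q_selmer_of_lpBound_w (hp2 : p ≠ 2)
    (habs : ρbar.IsAbsolutelyIrreducible)
    (hdet : (GaloisRepAdic.ofResidualGaloisRep ρbar).DetIsCyclotomic p)
    (hsplit : ∀ σ : GQ, ∃ α β : k, LinearMap.charpoly (ρbar.ρ σ) = (X - C α) * (X - C β))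
    (hTW : ∀ (K : Type) [Field K] [Algebra k K] (G : Subgroup GQ), G.index = 2 →
      ∀ V : Submodule K (ρbar.baseChange K).V,
        (∀ σ ∈ G, ∀ x ∈ V, (ρbar.baseChange K).ρ σ x ∈ V) → V = ⊥ ∨ V = ⊤)
    (S Smin Bd Ed : Finset ℕ) (hpSmin : p ∈ Smin) (hSmin : Smin ⊆ S) (hBS : Bd ⊆ S) (hES : Ed ⊆ S)
    (hBprime : ∀ q ∈ Bd, q.Prime) (hEprime : ∀ q ∈ Ed, q.Prime)
    (hmin : ∀ q : ℕ, q.Prime → q ≠ p → (q ∈ Smin ↔ ¬ ρbar.IsUnramifiedAt q))
    (hBunr : ∀ q ∈ Bd, q ≠ p ∧ ρbar.IsUnramifiedAt q)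
    (hEunr : ∀ q ∈ Ed, q ≠ p ∧ ρbar.IsUnramifiedAt q)
    (hBE : Disjoint Bd Ed)
    (hcen : ∀ q : Nat.Primes, (q : ℕ) ∈ Bd → s59q_CentralAt ρbar q)
    (Pp : GaloisRepAdic (DualNumber k) → Prop) (hT2 : s56z_LpBound p ρbar Pp) :
    ∃ r : ℕ, 3 * Bd.card + Ed.card ≤ r ∧ ∀ n : ℕ, ∃ qv : Fin r → ℕ, Function.Injective qv ∧
      (∀ i, (qv i).Prime ∧ qv i ∉ S ∧ p ^ (n + 1) ∣ qv i - 1) ∧
      (∀ i, ∀ P : ValuationSubring (AlgebraicClosure ℚ), P.LiesOverPrime (qv i) →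
        ∀ φ : GQ, P.IsFrobeniusAt φ (qv i) →
          ∃ α β : k, α ≠ β ∧ LinearMap.charpoly (ρbar.ρ φ) = (X - C α) * (X - C β)) ∧
      ∃ T : Finset (H1 (s56a_ad0 ρbar)),
        {x | ∃ (c : cocycles₁ (s56a_ad0 ρbar)) (hc : s56a_IsLevel c.1),
          (H1π (s56a_ad0 ρbar)).hom c = x ∧ Pp (s56a_liftRep ρbar c hc) ∧
          (∀ q : ℕ, q.Prime → q ∉ Smin ∪ (Bd ∪ Ed) ∪ Finset.univ.image qv →
            (s56a_liftRep ρbar c hc).IsUnramifiedAt q) ∧
          (∀ q ∈ Smin, q.Prime → q ≠ p →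
            (s56a_liftRep ρbar c hc).IsUnipotentOnInertiaAt q) ∧
          (∀ q : Nat.Primes, (q : ℕ) ∈ Bd ∪ Ed → ∃ X : s56a_ad0 ρbar,
            ∀ τ : primeLocalGaloisGroup q,
              c.1 (primeLocalToGlobal q τ) = (s56a_ad0 ρbar).ρ (primeLocalToGlobal q τ) X - X)} ⊆ ↑T ∧
        T.card ≤ Nat.card k ^ (r - (3 * Bd.card + Ed.card)) := by
  classical
  have : Module.Finite (ZMod p) k := Module.Finite.of_finite
  have : CharP k p := charP_of_injective_algebraMap (algebraMap (ZMod p) k).injective p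
  have h2k : (2 : k) ≠ 0 :=
    s56a_two_ne_zero p hp2 (s56a_natCast_eq_zero_of_detIsCyclotomic ρbar p hdet)
  have hT1 := s56z_gwleStmt p ρbar hp2 (s56t_eulerStmt p hp2 ρbar)
  have hT10 := s56z_finStmt
  have hT3 : s56z_UnrBound := s56g_ifaceUnrLe
  have hT4 := s56g_twBound p ρbar hp2
  have hT5 := s56a_globInv p ρbar hp2 habs hdet
  have hT6 := s56a_levelOfUnr ρbar
  have hT7 := s56g_unipCob p ρbar hp2
  have hT8 := s56g_locZeroInertia_top p
  have hDet := s56g_ifaceDetect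
  have hT9 := s56h_primesStmt p ρbar s56e_GroupLemma_holds hp2 habs hdet hsplit hTW S
  have hFS : Bd ∪ Ed ⊆ S := Finset.union_subset hBS hES
  have hFprime : ∀ q ∈ Bd ∪ Ed, q.Prime := fun q hq =>
    (Finset.mem_union.1 hq).elim (hBprime q) (hEprime q)
  have hFunr : ∀ q ∈ Bd ∪ Ed, q ≠ p ∧ ρbar.IsUnramifiedAt q := fun q hq =>
    (Finset.mem_union.1 hq).elim (hBunr q) (hEunr q)
  have hinv : ∀ q : Nat.Primes, (q : ℕ) ∈ Bd ∪ Ed →
      finrank (ZMod p) k * (if (q : ℕ) ∈ Bd then 3 else 1) ≤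
        finrank (ZMod p) ↥(Rep.res (primeLocalToGlobal q) (s56z_M p ρbar)).ρ.invariants := by
    intro q hq
    by_cases hqB : (q : ℕ) ∈ Bd
    · rw [if_pos hqB]
      exact s59q_inv_of_central p ρbar h2k q (hcen q hqB)
    · rw [if_neg hqB]
      exact s59q_inv_of_unr p ρbar h2k q (hFunr q hq).2
  have H := s59q_selmer_core_w p ρbar hp2 S Smin (Bd ∪ Ed) hpSmin hSmin hFS hFprime hmin hFunr
    (fun q => if q ∈ Bd then 3 else 1) hinv Pp hT1 hT10 hT2 hT3 hT4 hT5 hT6 hT7 hT8 hDet hT9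
  rw [s59q_sum_weights Bd Ed hBE] at H
  exact H

/-- **the weighted framed count, strict-ordinary condition at `p`**. -/
theorem s59q_selmer_ord_w (hp2 : p ≠ 2)
    (habs : ρbar.IsAbsolutelyIrreducible)
    (hdet : (GaloisRepAdic.ofResidualGaloisRep ρbar).DetIsCyclotomic p)
    (hsplit : ∀ σ : GQ, ∃ α β : k, LinearMap.charpoly (ρbar.ρ σ) = (X - C α) * (X - C β))
    (hTW : ∀ (K : Type) [Field K] [Algebra k K] (G : Subgroup GQ), G.index = 2 →
      ∀ V : Submodule K (ρbar.baseChange K).V,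
        (∀ σ ∈ G, ∀ x ∈ V, (ρbar.baseChange K).ρ σ x ∈ V) → V = ⊥ ∨ V = ⊤)
    (S Smin Bd Ed : Finset ℕ) (hpSmin : p ∈ Smin) (hSmin : Smin ⊆ S) (hBS : Bd ⊆ S) (hES : Ed ⊆ S)
    (hBprime : ∀ q ∈ Bd, q.Prime) (hEprime : ∀ q ∈ Ed, q.Prime)
    (hmin : ∀ q : ℕ, q.Prime → q ≠ p → (q ∈ Smin ↔ ¬ ρbar.IsUnramifiedAt q))
    (hBunr : ∀ q ∈ Bd, q ≠ p ∧ ρbar.IsUnramifiedAt q)
    (hEunr : ∀ q ∈ Ed, q ≠ p ∧ ρbar.IsUnramifiedAt q)
    (hBE : Disjoint Bd Ed)
    (hcen : ∀ q : Nat.Primes, (q : ℕ) ∈ Bd → s59q_CentralAt ρbar q) :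
    ∃ r : ℕ, 3 * Bd.card + Ed.card ≤ r ∧ ∀ n : ℕ, ∃ qv : Fin r → ℕ, Function.Injective qv ∧
      (∀ i, (qv i).Prime ∧ qv i ∉ S ∧ p ^ (n + 1) ∣ qv i - 1) ∧
      (∀ i, ∀ P : ValuationSubring (AlgebraicClosure ℚ), P.LiesOverPrime (qv i) →
        ∀ φ : GQ, P.IsFrobeniusAt φ (qv i) →
          ∃ α β : k, α ≠ β ∧ LinearMap.charpoly (ρbar.ρ φ) = (X - C α) * (X - C β)) ∧
      ∃ T : Finset (H1 (s56a_ad0 ρbar)),
        {x | ∃ (c : cocycles₁ (s56a_ad0 ρbar)) (hc : s56a_IsLevel c.1),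
          (H1π (s56a_ad0 ρbar)).hom c = x ∧
          ((s56a_liftRep ρbar c hc).DetIsCyclotomic p ∧
            (s56a_liftRep ρbar c hc).IsStrictOrdinaryAt p) ∧
          (∀ q : ℕ, q.Prime → q ∉ Smin ∪ (Bd ∪ Ed) ∪ Finset.univ.image qv →
            (s56a_liftRep ρbar c hc).IsUnramifiedAt q) ∧
          (∀ q ∈ Smin, q.Prime → q ≠ p →
            (s56a_liftRep ρbar c hc).IsUnipotentOnInertiaAt q) ∧
          (∀ q : Nat.Primes, (q : ℕ) ∈ Bd ∪ Ed → ∃ X : s56a_ad0 ρbar,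
            ∀ τ : primeLocalGaloisGroup q,
              c.1 (primeLocalToGlobal q τ) = (s56a_ad0 ρbar).ρ (primeLocalToGlobal q τ) X - X)} ⊆ ↑T ∧
        T.card ≤ Nat.card k ^ (r - (3 * Bd.card + Ed.card)) :=
  s59q_selmer_of_lpBound_w p ρbar hp2 habs hdet hsplit hTW S Smin Bd Ed hpSmin hSmin hBS hES hBprime
    hEprime hmin hBunr hEunr hBE hcen _ (s56z_lpBound_ord p ρbar hp2)

/-- **the weighted framed count, flat condition at `p`**. -/
theorem s59q_selmer_flat_w (hp2 : p ≠ 2)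
    (habs : ρbar.IsAbsolutelyIrreducible)
    (hdet : (GaloisRepAdic.ofResidualGaloisRep ρbar).DetIsCyclotomic p)
    (hsplit : ∀ σ : GQ, ∃ α β : k, LinearMap.charpoly (ρbar.ρ σ) = (X - C α) * (X - C β))
    (hTW : ∀ (K : Type) [Field K] [Algebra k K] (G : Subgroup GQ), G.index = 2 →
      ∀ V : Submodule K (ρbar.baseChange K).V,
        (∀ σ ∈ G, ∀ x ∈ V, (ρbar.baseChange K).ρ σ x ∈ V) → V = ⊥ ∨ V = ⊤)
    (S Smin Bd Ed : Finset ℕ) (hpSmin : p ∈ Smin) (hSmin : Smin ⊆ S) (hBS : Bd ⊆ S) (hES : Ed ⊆ S)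
    (hBprime : ∀ q ∈ Bd, q.Prime) (hEprime : ∀ q ∈ Ed, q.Prime)
    (hmin : ∀ q : ℕ, q.Prime → q ≠ p → (q ∈ Smin ↔ ¬ ρbar.IsUnramifiedAt q))
    (hBunr : ∀ q ∈ Bd, q ≠ p ∧ ρbar.IsUnramifiedAt q)
    (hEunr : ∀ q ∈ Ed, q ≠ p ∧ ρbar.IsUnramifiedAt q)
    (hBE : Disjoint Bd Ed)
    (hcen : ∀ q : Nat.Primes, (q : ℕ) ∈ Bd → s59q_CentralAt ρbar q) :
    ∃ r : ℕ, 3 * Bd.card + Ed.card ≤ r ∧ ∀ n : ℕ, ∃ qv : Fin r → ℕ, Function.Injective qv ∧
      (∀ i, (qv i).Prime ∧ qv i ∉ S ∧ p ^ (n + 1) ∣ qv i - 1) ∧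
      (∀ i, ∀ P : ValuationSubring (AlgebraicClosure ℚ), P.LiesOverPrime (qv i) →
        ∀ φ : GQ, P.IsFrobeniusAt φ (qv i) →
          ∃ α β : k, α ≠ β ∧ LinearMap.charpoly (ρbar.ρ φ) = (X - C α) * (X - C β)) ∧
      ∃ T : Finset (H1 (s56a_ad0 ρbar)),
        {x | ∃ (c : cocycles₁ (s56a_ad0 ρbar)) (hc : s56a_IsLevel c.1),
          (H1π (s56a_ad0 ρbar)).hom c = x ∧
          ((s56a_liftRep ρbar c hc).DetIsCyclotomic p ∧ (s56a_liftRep ρbar c hc).IsFlatAt p) ∧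
          (∀ q : ℕ, q.Prime → q ∉ Smin ∪ (Bd ∪ Ed) ∪ Finset.univ.image qv →
            (s56a_liftRep ρbar c hc).IsUnramifiedAt q) ∧
          (∀ q ∈ Smin, q.Prime → q ≠ p →
            (s56a_liftRep ρbar c hc).IsUnipotentOnInertiaAt q) ∧
          (∀ q : Nat.Primes, (q : ℕ) ∈ Bd ∪ Ed → ∃ X : s56a_ad0 ρbar,
            ∀ τ : primeLocalGaloisGroup q,
              c.1 (primeLocalToGlobal q τ) = (s56a_ad0 ρbar).ρ (primeLocalToGlobal q τ) X - X)} ⊆ ↑T ∧
        T.card ≤ Nat.card k ^ (r - (3 * Bd.card + Ed.card)) := by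
  have : Module.Finite (ZMod p) k := Module.Finite.of_finite
  exact s59q_selmer_of_lpBound_w p ρbar hp2 habs hdet hsplit hTW S Smin Bd Ed hpSmin hSmin hBS hES
    hBprime hEprime hmin hBunr hEunr hBE hcen _ (s56l_lpBound_flat_closed p ρbar hp2 hsplit hdet)

end Final

end Fermat.Agent.Lib.S59
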