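/-
PROGRAMME (R), framed count, JOINT form (helper6, prefix `s59q_`): **the joint weighted framed count, wired.**
`s59q_selmer_of_lpBound_J`: framed set `F = Bd ∪ Ed` (`Bd`: `ρ̄|G_q` central, weight 3; `Ed`: `ρ̄` unramified, weight 1); a
family of local conditions `Pp i` at `p` with `dim L_p(Pp i) + [k:𝔽_p]·c i ≤ h⁰(G_p, M) + [k:𝔽_p]`.  There is ONE `r` and
for every `n` ONE family of Taylor-Wiles primes `qv : Fin r → ℕ` such that for every `i` the classes of framed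
first-order lifts of type `Pp i` lie in a set of at most `|k|^(r - (3|Bd| + |Ed|) - c i)` elements.
`s59q_selmer_sfJ`: the three conditions strict (`c = 0`), flat (`c = 0`), strict AND flat (`c = 1`; its local bound
`dim L_p ≤ h⁰(G_p, M)` is a hypothesis here).
-/
import Fermat.Agent.Lib.S59.QSelJCore
import Fermat.Agent.Lib.S59.QSelWWire

set_option autoImplicit false
set_option linter.unusedSectionVars false

noncomputable section

namespace Fermat.Agent.Lib.S59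

open groupCohomology ExtCitation CategoryTheory Module Polynomial IsLocalRing Fermat.Agent.Lib.S56

local notation "GQ" => (AlgebraicClosure ℚ ≃ₐ[ℚ] AlgebraicClosure ℚ)

section Mono

variable (p : ℕ) [Fact p.Prime] {k : Type} [Field k] [Algebra (ZMod p) k]
  (ρbar : ResidualGaloisRep k)

/-- the local condition at `p` is monotone in the property. -/
theorem s59q_Lp_mono (Pp Pp' : GaloisRepAdic (DualNumber k) → Prop) (h : ∀ ρ, Pp ρ → Pp' ρ)
    (q : Nat.Primes) : s56z_Lp p ρbar Pp q ≤ s56z_Lp p ρbar Pp' q := by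
  unfold s56z_Lp
  refine Submodule.span_mono ?_
  rintro x ⟨c, hc, hP, hx⟩
  exact ⟨c, hc, h _ hP, hx⟩

end Mono

section Final

variable (p : ℕ) [Fact p.Prime] {k : Type} [Field k] [Algebra (ZMod p) k] [Finite k]
  (ρbar : ResidualGaloisRep k)

/-- **the joint weighted framed count from the local bounds at `p` alone.** -/
theorem s59q_selmer_of_lpBound_J (hp2 : p ≠ 2)
    (habs : ρbar.IsAbsolutelyIrreducible)
    (hdet : (GaloisRepAdic.ofResidualGaloisRep ρbar).DetIsCyclotomic p)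
    (hsplit : ∀ σ : GQ, ∃ α β : k, LinearMap.charpoly (ρbar.ρ σ) = (X - C α) * (X - C β))
    (hTW : ∀ (K : Type) [Field K] [Algebra k K] (G : Subgroup GQ), G.index = 2 →
      ∀ V : Submodule K (ρbar.baseChange K).V,
        (∀ σ ∈ G, ∀ x ∈ V, (ρbar.baseChange K).ρ σ x ∈ V) → V = ⊥ ∨ V = ⊤)
    (S Smin Bd Ed : Finset ℕ) (hpSmin : p ∈ Smin) (hSmin : Smin ⊆ S) (hBS : Bd ⊆ S) (hES : Ed ⊆ S)
    (hBprime : ∀ q ∈ Bd, q.Prime) (hEprime : ∀ q ∈ Ed, q.Prime)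
    (hmin : ∀ q : ℕ, q.Prime → q ≠ p → (q ∈ Smin ↔ ¬ ρbar.IsUnramifiedAt q))
    (hBunr : ∀ q ∈ Bd, q ≠ p ∧ ρbar.IsUnramifiedAt q)
    (hEunr : ∀ q ∈ Ed, q ≠ p ∧ ρbar.IsUnramifiedAt q)
    (hBE : Disjoint Bd Ed)
    (hcen : ∀ q : Nat.Primes, (q : ℕ) ∈ Bd → s59q_CentralAt ρbar q)
    {ι : Type} (Pp : ι → GaloisRepAdic (DualNumber k) → Prop) (c : ι → ℕ)
    (hT2 : ∀ i, finrank (ZMod p) ↥(s56z_Lp p ρbar (Pp i) (pPrime p)) + finrank (ZMod p) k * c i ≤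
      finrank (ZMod p) ↥(Rep.res (primeLocalToGlobal (pPrime p)) (s56z_M p ρbar)).ρ.invariants +
        finrank (ZMod p) k) :
    ∃ r : ℕ, (∀ i, 3 * Bd.card + Ed.card + c i ≤ r) ∧ ∀ n : ℕ, ∃ qv : Fin r → ℕ, Function.Injective qv ∧
      (∀ i, (qv i).Prime ∧ qv i ∉ S ∧ p ^ (n + 1) ∣ qv i - 1) ∧
      (∀ i, ∀ P : ValuationSubring (AlgebraicClosure ℚ), P.LiesOverPrime (qv i) →
        ∀ φ : GQ, P.IsFrobeniusAt φ (qv i) →
          ∃ α β : k, α ≠ β ∧ LinearMap.charpoly (ρbar.ρ φ) = (X - C α) * (X - C β)) ∧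
      ∀ i, ∃ T : Finset (H1 (s56a_ad0 ρbar)),
        {x | ∃ (c : cocycles₁ (s56a_ad0 ρbar)) (hc : s56a_IsLevel c.1),
          (H1π (s56a_ad0 ρbar)).hom c = x ∧ Pp i (s56a_liftRep ρbar c hc) ∧
          (∀ q : ℕ, q.Prime → q ∉ Smin ∪ (Bd ∪ Ed) ∪ Finset.univ.image qv →
            (s56a_liftRep ρbar c hc).IsUnramifiedAt q) ∧
          (∀ q ∈ Smin, q.Prime → q ≠ p →
            (s56a_liftRep ρbar c hc).IsUnipotentOnInertiaAt q) ∧
          (∀ q : Nat.Primes, (q : ℕ) ∈ Bd ∪ Ed → ∃ X : s56a_ad0 ρbar,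
            ∀ τ : primeLocalGaloisGroup q,
              c.1 (primeLocalToGlobal q τ) = (s56a_ad0 ρbar).ρ (primeLocalToGlobal q τ) X - X)} ⊆ ↑T ∧
        T.card ≤ Nat.card k ^ (r - (3 * Bd.card + Ed.card) - c i) := by
  classical
  have : Module.Finite (ZMod p) k := Module.Finite.of_finite
  have : CharP k p := charP_of_injective_algebraMap (algebraMap (ZMod p) k).injective p
  have h2k : (2 : k) ≠ 0 :=
    s56a_two_ne_zero p hp2 (s56a_natCast_eq_zero_of_detIsCyclotomic ρbar p hdet)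
  have hT1 := s56z_gwleStmt p ρbar hp2 (s56t_eulerStmt p hp2 ρbar)
  have hT10 := s56z_finStmt
  have hT3 : s56z_UnrBound := s56g_ifaceUnrLe
  have hT4 := s56g_twBound p ρbar hp2
  have hT5 := s56a_globInv p ρbar hp2 habs hdet
  have hT6 := s56a_levelOfUnr ρbar
  have hT7 := s56g_unipCob p ρbar hp2
  have hT8 := s56g_locZeroInertia_top p
  have hDet := s56g_ifaceDetect
  have hT9 := s56h_primesStmt p ρbar s56e_GroupLemma_holds hp2 habs hdet hsplit hTW S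
  have hFS : Bd ∪ Ed ⊆ S := Finset.union_subset hBS hES
  have hFprime : ∀ q ∈ Bd ∪ Ed, q.Prime := fun q hq =>
    (Finset.mem_union.1 hq).elim (hBprime q) (hEprime q)
  have hFunr : ∀ q ∈ Bd ∪ Ed, q ≠ p ∧ ρbar.IsUnramifiedAt q := fun q hq =>
    (Finset.mem_union.1 hq).elim (hBunr q) (hEunr q)
  have hinv : ∀ q : Nat.Primes, (q : ℕ) ∈ Bd ∪ Ed →
      finrank (ZMod p) k * (if (q : ℕ) ∈ Bd then 3 else 1) ≤
        finrank (ZMod p) ↥(Rep.res (primeLocalToGlobal q) (s56z_M p ρbar)).ρ.invariants := by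
    intro q hq
    by_cases hqB : (q : ℕ) ∈ Bd
    · rw [if_pos hqB]
      exact s59q_inv_of_central p ρbar h2k q (hcen q hqB)
    · rw [if_neg hqB]
      exact s59q_inv_of_unr p ρbar h2k q (hFunr q hq).2
  have H := s59q_selmer_core_J p ρbar hp2 S Smin (Bd ∪ Ed) hpSmin hSmin hFS hFprime hmin hFunr
    (fun q => if q ∈ Bd then 3 else 1) hinv Pp c hT1 hT10 hT2 hT3 hT4 hT5 hT6 hT7 hT8 hDet hT9
  rw [s59q_sum_weights Bd Ed hBE] at H
  exact H

/-- **the joint weighted framed count for strict / flat / strict AND flat**, the local bound of the last condition as a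
hypothesis. -/
theorem s59q_selmer_sfJ (hp2 : p ≠ 2)
    (habs : ρbar.IsAbsolutelyIrreducible)
    (hdet : (GaloisRepAdic.ofResidualGaloisRep ρbar).DetIsCyclotomic p)
    (hsplit : ∀ σ : GQ, ∃ α β : k, LinearMap.charpoly (ρbar.ρ σ) = (X - C α) * (X - C β))
    (hTW : ∀ (K : Type) [Field K] [Algebra k K] (G : Subgroup GQ), G.index = 2 →
      ∀ V : Submodule K (ρbar.baseChange K).V,
        (∀ σ ∈ G, ∀ x ∈ V, (ρbar.baseChange K).ρ σ x ∈ V) → V = ⊥ ∨ V = ⊤)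
    (S Smin Bd Ed : Finset ℕ) (hpSmin : p ∈ Smin) (hSmin : Smin ⊆ S) (hBS : Bd ⊆ S) (hES : Ed ⊆ S)
    (hBprime : ∀ q ∈ Bd, q.Prime) (hEprime : ∀ q ∈ Ed, q.Prime)
    (hmin : ∀ q : ℕ, q.Prime → q ≠ p → (q ∈ Smin ↔ ¬ ρbar.IsUnramifiedAt q))
    (hBunr : ∀ q ∈ Bd, q ≠ p ∧ ρbar.IsUnramifiedAt q)
    (hEunr : ∀ q ∈ Ed, q ≠ p ∧ ρbar.IsUnramifiedAt q)
    (hBE : Disjoint Bd Ed)
    (hcen : ∀ q : Nat.Primes, (q : ℕ) ∈ Bd → s59q_CentralAt ρbar q)
    (hW1 : finrank (ZMod p) ↥(s56z_Lp p ρbar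
        (fun ρ => (ρ.DetIsCyclotomic p ∧ ρ.IsStrictOrdinaryAt p) ∧ ρ.IsFlatAt p) (pPrime p)) ≤
      finrank (ZMod p) ↥(Rep.res (primeLocalToGlobal (pPrime p)) (s56z_M p ρbar)).ρ.invariants) :
    ∃ r : ℕ, 3 * Bd.card + Ed.card + 1 ≤ r ∧ ∀ n : ℕ, ∃ qv : Fin r → ℕ, Function.Injective qv ∧
      (∀ i, (qv i).Prime ∧ qv i ∉ S ∧ p ^ (n + 1) ∣ qv i - 1) ∧
      (∀ i, ∀ P : ValuationSubring (AlgebraicClosure ℚ), P.LiesOverPrime (qv i) →
        ∀ φ : GQ, P.IsFrobeniusAt φ (qv i) →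
          ∃ α β : k, α ≠ β ∧ LinearMap.charpoly (ρbar.ρ φ) = (X - C α) * (X - C β)) ∧
      (∃ T : Finset (H1 (s56a_ad0 ρbar)),
        {x | ∃ (c : cocycles₁ (s56a_ad0 ρbar)) (hc : s56a_IsLevel c.1),
          (H1π (s56a_ad0 ρbar)).hom c = x ∧
          ((s56a_liftRep ρbar c hc).DetIsCyclotomic p ∧
            (s56a_liftRep ρbar c hc).IsStrictOrdinaryAt p) ∧
          (∀ q : ℕ, q.Prime → q ∉ Smin ∪ (Bd ∪ Ed) ∪ Finset.univ.image qv →
            (s56a_liftRep ρbar c hc).IsUnramifiedAt q) ∧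
          (∀ q ∈ Smin, q.Prime → q ≠ p →
            (s56a_liftRep ρbar c hc).IsUnipotentOnInertiaAt q) ∧
          (∀ q : Nat.Primes, (q : ℕ) ∈ Bd ∪ Ed → ∃ X : s56a_ad0 ρbar,
            ∀ τ : primeLocalGaloisGroup q,
              c.1 (primeLocalToGlobal q τ) = (s56a_ad0 ρbar).ρ (primeLocalToGlobal q τ) X - X)} ⊆ ↑T ∧
        T.card ≤ Nat.card k ^ (r - (3 * Bd.card + Ed.card))) ∧
      (∃ T : Finset (H1 (s56a_ad0 ρbar)),
        {x | ∃ (c : cocycles₁ (s56a_ad0 ρbar)) (hc : s56a_IsLevel c.1),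
          (H1π (s56a_ad0 ρbar)).hom c = x ∧
          ((s56a_liftRep ρbar c hc).DetIsCyclotomic p ∧ (s56a_liftRep ρbar c hc).IsFlatAt p) ∧
          (∀ q : ℕ, q.Prime → q ∉ Smin ∪ (Bd ∪ Ed) ∪ Finset.univ.image qv →
            (s56a_liftRep ρbar c hc).IsUnramifiedAt q) ∧
          (∀ q ∈ Smin, q.Prime → q ≠ p →
            (s56a_liftRep ρbar c hc).IsUnipotentOnInertiaAt q) ∧
          (∀ q : Nat.Primes, (q : ℕ) ∈ Bd ∪ Ed → ∃ X : s56a_ad0 ρbar,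
            ∀ τ : primeLocalGaloisGroup q,
              c.1 (primeLocalToGlobal q τ) = (s56a_ad0 ρbar).ρ (primeLocalToGlobal q τ) X - X)} ⊆ ↑T ∧
        T.card ≤ Nat.card k ^ (r - (3 * Bd.card + Ed.card))) ∧
      (∃ T : Finset (H1 (s56a_ad0 ρbar)),
        {x | ∃ (c : cocycles₁ (s56a_ad0 ρbar)) (hc : s56a_IsLevel c.1),
          (H1π (s56a_ad0 ρbar)).hom c = x ∧
          (((s56a_liftRep ρbar c hc).DetIsCyclotomic p ∧
            (s56a_liftRep ρbar c hc).IsStrictOrdinaryAt p) ∧ (s56a_liftRep ρbar c hc).IsFlatAt p) ∧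
          (∀ q : ℕ, q.Prime → q ∉ Smin ∪ (Bd ∪ Ed) ∪ Finset.univ.image qv →
            (s56a_liftRep ρbar c hc).IsUnramifiedAt q) ∧
          (∀ q ∈ Smin, q.Prime → q ≠ p →
            (s56a_liftRep ρbar c hc).IsUnipotentOnInertiaAt q) ∧
          (∀ q : Nat.Primes, (q : ℕ) ∈ Bd ∪ Ed → ∃ X : s56a_ad0 ρbar,
            ∀ τ : primeLocalGaloisGroup q,
              c.1 (primeLocalToGlobal q τ) = (s56a_ad0 ρbar).ρ (primeLocalToGlobal q τ) X - X)} ⊆ ↑T ∧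
        T.card ≤ Nat.card k ^ (r - (3 * Bd.card + Ed.card) - 1)) := by
  have : Module.Finite (ZMod p) k := Module.Finite.of_finite
  have h0 := s56z_lpBound_ord p ρbar hp2
  have h1 := s56l_lpBound_flat_closed p ρbar hp2 hsplit hdet
  unfold s56z_LpBound at h0 h1
  let Pp : Fin 3 → GaloisRepAdic (DualNumber k) → Prop := fun i =>
    if i = 0 then (fun ρ => ρ.DetIsCyclotomic p ∧ ρ.IsStrictOrdinaryAt p)
    else if i = 1 then (fun ρ => ρ.DetIsCyclotomic p ∧ ρ.IsFlatAt p)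
    else (fun ρ => (ρ.DetIsCyclotomic p ∧ ρ.IsStrictOrdinaryAt p) ∧ ρ.IsFlatAt p)
  let c : Fin 3 → ℕ := fun i => if i = 2 then 1 else 0
  have hT2 : ∀ i, finrank (ZMod p) ↥(s56z_Lp p ρbar (Pp i) (pPrime p)) + finrank (ZMod p) k * c i ≤
      finrank (ZMod p) ↥(Rep.res (primeLocalToGlobal (pPrime p)) (s56z_M p ρbar)).ρ.invariants +
        finrank (ZMod p) k := by
    intro i
    fin_cases i
    · show finrank (ZMod p) ↥(s56z_Lp p ρbar
        (fun ρ => ρ.DetIsCyclotomic p ∧ ρ.IsStrictOrdinaryAt p) (pPrime p)) + finrank (ZMod p) k * 0 ≤ _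
      rw [Nat.mul_zero, Nat.add_zero]
      exact h0
    · show finrank (ZMod p) ↥(s56z_Lp p ρbar
        (fun ρ => ρ.DetIsCyclotomic p ∧ ρ.IsFlatAt p) (pPrime p)) + finrank (ZMod p) k * 0 ≤ _
      rw [Nat.mul_zero, Nat.add_zero]
      exact h1
    · show finrank (ZMod p) ↥(s56z_Lp p ρbar
        (fun ρ => (ρ.DetIsCyclotomic p ∧ ρ.IsStrictOrdinaryAt p) ∧ ρ.IsFlatAt p) (pPrime p)) +
          finrank (ZMod p) k * 1 ≤ _
      rw [Nat.mul_one]
      exact Nat.add_le_add_right hW1 _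
  obtain ⟨r, hr, H⟩ := s59q_selmer_of_lpBound_J p ρbar hp2 habs hdet hsplit hTW S Smin Bd Ed hpSmin hSmin
    hBS hES hBprime hEprime hmin hBunr hEunr hBE hcen Pp c hT2
  refine ⟨r, hr 2, fun n => ?_⟩
  obtain ⟨qv, h1', h2', h3', HT⟩ := H n
  exact ⟨qv, h1', h2', h3', HT 0, HT 1, HT 2⟩

end Final

end Fermat.Agent.Lib.S59
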