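/-
PROGRAMME (R), joint bridge (helper6, prefix `s59q_`): **the JOINT bridge with frames: strict, flat, and "strict with one
generator in the kernel to strict AND flat".**  (W2 of helper2's route for the non-minimal case (P).)

Framed set `F = Bd ∪ Ed`.  Given the local bound `dim L_p(strict AND flat) ≤ h⁰(G_p, ad⁰ρ̄)` (`hW1`), there is ONE
`r ≥ 3|Bd| + |Ed| + 1` and for every `n` ONE family of Taylor-Wiles primes `qv : Fin r → ℕ` such that, with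
`g = (r - 3|Bd| - |Ed|) + w`:
 (A) for every universal ring `DQ` of type "strict at `p`" and framed test algebra `(Cr, ψ, E, Λ)`:
     `𝔪_Cr ≤ (E) + (x₁,…,x_g) + 𝔪_𝒪 Cr`                                   (= `s59q_bridge_ord_w`);
 (B) the same for type "flat at `p`"                                          (= `s59q_bridge_flat_w`);
 (C) for `DQ` of type "strict at `p`", `(Cr, ψ, E, Λ)` as in (A) and a set `J ⊆ 𝔪_Cr` such that every tangent vector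
     `f : Cr → k[ε]` killing `E` and `J` induces a first-order lift which is FLAT at `p`:
     `𝔪_Cr ≤ (E) + (x₀,…,x_{g-1}) + 𝔪_𝒪 Cr` with `x_{g-1} ∈ (J)`.
-/
import Fermat.Agent.Lib.S59.QBrJAbs
import Fermat.Agent.Lib.S59.QBrEWire
import Fermat.Agent.Lib.S59.QSelJWire

set_option autoImplicit false
set_option linter.style.haveILetI false
set_option linter.unusedSectionVars false

noncomputable section

namespace Fermat.Agent.Lib.S59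

open IsLocalRing groupCohomology Module ExtCitation Polynomial Fermat.Agent.Lib.S56
open Fermat.Agent.Lib.S53 (matOf matOfRes NormData)
open Fermat.Agent.Lib.Deform (dualNumberAlgebra IsTestAlgebra isTestAlgebra_dualNumber resk resk_comp)

attribute [local instance] Fermat.Agent.Lib.Deform.dualNumberAlgebra

local notation "Γℚ" => (AlgebraicClosure ℚ ≃ₐ[ℚ] AlgebraicClosure ℚ)

section Final

variable {𝒪 : Type} [CommRing 𝒪] [IsDomain 𝒪] [IsDiscreteValuationRing 𝒪]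
  [IsAdicComplete (maximalIdeal 𝒪) 𝒪] [Finite (ResidueField 𝒪)]

/-- **THE JOINT BRIDGE with frames** (strict / flat / strict with one generator in `(J)`). -/
theorem s59q_bridge_sfJ (p : ℕ) [Fact p.Prime] (hp2 : p ≠ 2) (hp𝒪 : (p : 𝒪) ∈ maximalIdeal 𝒪)
    (ρbar : ResidualGaloisRep (ResidueField 𝒪))
    (habs : ρbar.IsAbsolutelyIrreducible)
    (hdet : (GaloisRepAdic.ofResidualGaloisRep ρbar).DetIsCyclotomic p)
    (hsplit : ∀ σ : Γℚ, ∃ α β : ResidueField 𝒪,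
      LinearMap.charpoly (ρbar.ρ σ) = (X - C α) * (X - C β))
    (hTW : ∀ (K : Type) [Field K] [Algebra (ResidueField 𝒪) K] (G : Subgroup Γℚ), G.index = 2 →
      ∀ V : Submodule K (ρbar.baseChange K).V,
        (∀ σ ∈ G, ∀ x ∈ V, (ρbar.baseChange K).ρ σ x ∈ V) → V = ⊥ ∨ V = ⊤)
    (S Smin Bd Ed : Finset ℕ) (hpSmin : p ∈ Smin) (hSmin : Smin ⊆ S) (hBS : Bd ⊆ S) (hES : Ed ⊆ S)
    (hBprime : ∀ q ∈ Bd, q.Prime) (hEprime : ∀ q ∈ Ed, q.Prime)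
    (hmin : ∀ q : ℕ, q.Prime → q ≠ p → (q ∈ Smin ↔ ¬ ρbar.IsUnramifiedAt q))
    (hBunr : ∀ q ∈ Bd, q ≠ p ∧ ρbar.IsUnramifiedAt q)
    (hEunr : ∀ q ∈ Ed, q ≠ p ∧ ρbar.IsUnramifiedAt q)
    (hBE : Disjoint Bd Ed)
    (hcen : ∀ q : Nat.Primes, (q : ℕ) ∈ Bd → s59q_CentralAt ρbar q)
    (hW1 : ∀ [Algebra (ZMod p) (ResidueField 𝒪)],
      finrank (ZMod p) ↥(s56z_Lp p ρbar
        (fun ρ => (ρ.DetIsCyclotomic p ∧ ρ.IsStrictOrdinaryAt p) ∧ ρ.IsFlatAt p) (pPrime p)) ≤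
      finrank (ZMod p) ↥(Rep.res (primeLocalToGlobal (pPrime p)) (s56z_M p ρbar)).ρ.invariants) :
    ∃ r : ℕ, 3 * Bd.card + Ed.card + 1 ≤ r ∧ ∀ n : ℕ, ∃ qv : Fin r → ℕ, Function.Injective qv ∧
      (∀ i, (qv i).Prime ∧ qv i ∉ S ∧ p ^ (n + 1) ∣ qv i - 1) ∧
      (∀ i, ∀ P : ValuationSubring (AlgebraicClosure ℚ), P.LiesOverPrime (qv i) →
        ∀ φ : Γℚ, P.IsFrobeniusAt φ (qv i) →
          ∃ α β : ResidueField 𝒪, α ≠ β ∧ LinearMap.charpoly (ρbar.ρ φ) = (X - C α) * (X - C β)) ∧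
      (∀ (DQ : GaloisRep.DeformationRingData 𝒪 ρbar (fun _A _ _ _ ρ =>
          GaloisRep.strictOrdinaryCondition 𝒪 p (Smin ∪ (Bd ∪ Ed) ∪ Finset.univ.image qv) ρ ∧
            ∀ q ∈ Smin, q.Prime → q ≠ p → ρ.IsUnipotentOnInertiaAt q))
        (N : NormData ρbar) (bR : Basis (Fin 2) DQ.R DQ.ρ.V)
        (hbR : ∀ σ i j, matOf DQ.ρ bR σ i j - algebraMap 𝒪 DQ.R (N.Mtil σ i j) ∈ maximalIdeal DQ.R)
        {Cr : Type} [CommRing Cr] [IsLocalRing Cr] [IsNoetherianRing Cr] [Algebra 𝒪 Cr]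
        (_ : IsTestAlgebra 𝒪 Cr) (ψ : DQ.R →ₐ[𝒪] Cr) (E : Set Cr) (w : ℕ)
        (Λ : (Cr →ₐ[𝒪] DualNumber (ResidueField 𝒪)) → (Fin w → ResidueField 𝒪))
        (_ : ∀ (f : Cr →ₐ[𝒪] DualNumber (ResidueField 𝒪)), (∀ e ∈ E, f e = 0) →
          ∀ hs : Function.Surjective (f.comp ψ), ∀ q : Nat.Primes, (q : ℕ) ∈ Bd ∪ Ed →
            ∃ Y : s56a_ad0 ρbar, ∀ τ : primeLocalGaloisGroup q,
              (s56a_cocPhi DQ N bR hbR p (s56a_tangentStable_ord 𝒪 p _ Smin) (f.comp ψ) hs).1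
                  (primeLocalToGlobal q τ) =
                (s56a_ad0 ρbar).ρ (primeLocalToGlobal q τ) Y - Y)
        (_ : ∀ f f' : Cr →ₐ[𝒪] DualNumber (ResidueField 𝒪), (∀ e ∈ E, f e = 0) →
          (∀ e ∈ E, f' e = 0) → f.comp ψ = f'.comp ψ → Λ f = Λ f' → f = f'),
        ∃ x : Fin ((r - (3 * Bd.card + Ed.card)) + w) → Cr, (∀ i, x i ∈ maximalIdeal Cr) ∧
          maximalIdeal Cr ≤
            Ideal.span (E ∪ Set.range x) ⊔ (maximalIdeal 𝒪).map (algebraMap 𝒪 Cr)) ∧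
      (∀ (DQ : GaloisRep.DeformationRingData 𝒪 ρbar (fun _A _ _ _ ρ =>
          GaloisRep.flatCondition 𝒪 p (Smin ∪ (Bd ∪ Ed) ∪ Finset.univ.image qv) ρ ∧
            ∀ q ∈ Smin, q.Prime → q ≠ p → ρ.IsUnipotentOnInertiaAt q))
        (N : NormData ρbar) (bR : Basis (Fin 2) DQ.R DQ.ρ.V)
        (hbR : ∀ σ i j, matOf DQ.ρ bR σ i j - algebraMap 𝒪 DQ.R (N.Mtil σ i j) ∈ maximalIdeal DQ.R)
        {Cr : Type} [CommRing Cr] [IsLocalRing Cr] [IsNoetherianRing Cr] [Algebra 𝒪 Cr]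
        (_ : IsTestAlgebra 𝒪 Cr) (ψ : DQ.R →ₐ[𝒪] Cr) (E : Set Cr) (w : ℕ)
        (Λ : (Cr →ₐ[𝒪] DualNumber (ResidueField 𝒪)) → (Fin w → ResidueField 𝒪))
        (_ : ∀ (f : Cr →ₐ[𝒪] DualNumber (ResidueField 𝒪)), (∀ e ∈ E, f e = 0) →
          ∀ hs : Function.Surjective (f.comp ψ), ∀ q : Nat.Primes, (q : ℕ) ∈ Bd ∪ Ed →
            ∃ Y : s56a_ad0 ρbar, ∀ τ : primeLocalGaloisGroup q,
              (s56a_cocPhi DQ N bR hbR p (s56a_tangentStable_flat 𝒪 p _ Smin) (f.comp ψ) hs).1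
                  (primeLocalToGlobal q τ) =
                (s56a_ad0 ρbar).ρ (primeLocalToGlobal q τ) Y - Y)
        (_ : ∀ f f' : Cr →ₐ[𝒪] DualNumber (ResidueField 𝒪), (∀ e ∈ E, f e = 0) →
          (∀ e ∈ E, f' e = 0) → f.comp ψ = f'.comp ψ → Λ f = Λ f' → f = f'),
        ∃ x : Fin ((r - (3 * Bd.card + Ed.card)) + w) → Cr, (∀ i, x i ∈ maximalIdeal Cr) ∧
          maximalIdeal Cr ≤
            Ideal.span (E ∪ Set.range x) ⊔ (maximalIdeal 𝒪).map (algebraMap 𝒪 Cr)) ∧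
      (∀ (DQ : GaloisRep.DeformationRingData 𝒪 ρbar (fun _A _ _ _ ρ =>
          GaloisRep.strictOrdinaryCondition 𝒪 p (Smin ∪ (Bd ∪ Ed) ∪ Finset.univ.image qv) ρ ∧
            ∀ q ∈ Smin, q.Prime → q ≠ p → ρ.IsUnipotentOnInertiaAt q))
        (N : NormData ρbar) (bR : Basis (Fin 2) DQ.R DQ.ρ.V)
        (hbR : ∀ σ i j, matOf DQ.ρ bR σ i j - algebraMap 𝒪 DQ.R (N.Mtil σ i j) ∈ maximalIdeal DQ.R)
        {Cr : Type} [CommRing Cr] [IsLocalRing Cr] [IsNoetherianRing Cr] [Algebra 𝒪 Cr]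
        (_ : IsTestAlgebra 𝒪 Cr) (ψ : DQ.R →ₐ[𝒪] Cr) (E : Set Cr) (w : ℕ)
        (Λ : (Cr →ₐ[𝒪] DualNumber (ResidueField 𝒪)) → (Fin w → ResidueField 𝒪))
        (_ : ∀ (f : Cr →ₐ[𝒪] DualNumber (ResidueField 𝒪)), (∀ e ∈ E, f e = 0) →
          ∀ hs : Function.Surjective (f.comp ψ), ∀ q : Nat.Primes, (q : ℕ) ∈ Bd ∪ Ed →
            ∃ Y : s56a_ad0 ρbar, ∀ τ : primeLocalGaloisGroup q,
              (s56a_cocPhi DQ N bR hbR p (s56a_tangentStable_ord 𝒪 p _ Smin) (f.comp ψ) hs).1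
                  (primeLocalToGlobal q τ) =
                (s56a_ad0 ρbar).ρ (primeLocalToGlobal q τ) Y - Y)
        (_ : ∀ f f' : Cr →ₐ[𝒪] DualNumber (ResidueField 𝒪), (∀ e ∈ E, f e = 0) →
          (∀ e ∈ E, f' e = 0) → f.comp ψ = f'.comp ψ → Λ f = Λ f' → f = f')
        (J : Set Cr) (_ : ∀ j ∈ J, j ∈ maximalIdeal Cr)
        (_ : ∀ (f : Cr →ₐ[𝒪] DualNumber (ResidueField 𝒪)), (∀ e ∈ E, f e = 0) → (∀ j ∈ J, f j = 0) →
          ∀ hs : Function.Surjective (f.comp ψ),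
            (s56a_liftRep ρbar (s56a_cocPhi DQ N bR hbR p (s56a_tangentStable_ord 𝒪 p _ Smin) (f.comp ψ) hs)
              (s56a_isLevel_cocPhi DQ N bR hbR p (s56a_tangentStable_ord 𝒪 p _ Smin)
                (f.comp ψ) hs)).IsFlatAt p),
        ∃ x : Fin ((r - (3 * Bd.card + Ed.card) - 1) + w + 1) → Cr, (∀ i, x i ∈ maximalIdeal Cr) ∧
          maximalIdeal Cr ≤
            Ideal.span (E ∪ Set.range x) ⊔ (maximalIdeal 𝒪).map (algebraMap 𝒪 Cr) ∧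
          x (Fin.last ((r - (3 * Bd.card + Ed.card) - 1) + w)) ∈ Ideal.span J) := by
  haveI : CharP (ResidueField 𝒪) p := s56z_charP p hp𝒪
  letI : Algebra (ZMod p) (ResidueField 𝒪) := ZMod.algebra _ p
  obtain ⟨r, hr, H⟩ := s59q_selmer_sfJ p ρbar hp2 habs hdet hsplit hTW S Smin Bd Ed hpSmin hSmin
    hBS hES hBprime hEprime hmin hBunr hEunr hBE hcen hW1
  refine ⟨r, hr, fun n => ?_⟩
  obtain ⟨qv, h1, h2, h3, ⟨T, hT, hcard⟩, ⟨Tf, hTf, hcardf⟩, ⟨Tj, hTj, hcardj⟩⟩ := H n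
  refine ⟨qv, h1, h2, h3, ?_, ?_, ?_⟩
  · intro DQ N bR hbR Cr _ _ _ _ hC ψ E w Λ hE1 hE2
    refine s59q_gens_of_framedSelmer_w p hp2 hdet (s56a_tangentStable_ord 𝒪 p _ Smin) _ w
      {q : Nat.Primes | (q : ℕ) ∈ Bd ∪ Ed} ⟨T, ?_, hcard⟩ DQ N bR hbR hC ψ E Λ hE1 hE2
    rintro x ⟨c, hc, rfl, ⟨⟨hd, hfl, hunr⟩, hunip⟩, hvan⟩
    exact hT ⟨c, hc, rfl, ⟨hd, hfl⟩, hunr, hunip, fun q hq => hvan q hq⟩
  · intro DQ N bR hbR Cr _ _ _ _ hC ψ E w Λ hE1 hE2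
    refine s59q_gens_of_framedSelmer_w p hp2 hdet (s56a_tangentStable_flat 𝒪 p _ Smin) _ w
      {q : Nat.Primes | (q : ℕ) ∈ Bd ∪ Ed} ⟨Tf, ?_, hcardf⟩ DQ N bR hbR hC ψ E Λ hE1 hE2
    rintro x ⟨c, hc, rfl, ⟨⟨hd, hfl, hunr⟩, hunip⟩, hvan⟩
    exact hTf ⟨c, hc, rfl, ⟨hd, hfl⟩, hunr, hunip, fun q hq => hvan q hq⟩
  · intro DQ N bR hbR Cr _ _ _ _ hC ψ E w Λ hE1 hE2 J hJm hJfl
    have hrw : r - (3 * Bd.card + Ed.card) - 1 + 1 = r - (3 * Bd.card + Ed.card) := by omega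
    refine s59q_gens_of_framedSelmer_J p hp2 hdet (s56a_tangentStable_ord 𝒪 p _ Smin)
      (r - (3 * Bd.card + Ed.card) - 1) w {q : Nat.Primes | (q : ℕ) ∈ Bd ∪ Ed}
      (fun ρ => ρ.IsFlatAt p) ⟨T, ?_, by rw [hrw]; exact hcard⟩ ⟨Tj, ?_, hcardj⟩
      DQ N bR hbR hC ψ E Λ hE1 hE2 J hJm hJfl
    · rintro x ⟨c, hc, rfl, ⟨⟨hd, hfl, hunr⟩, hunip⟩, hvan⟩
      exact hT ⟨c, hc, rfl, ⟨hd, hfl⟩, hunr, hunip, fun q hq => hvan q hq⟩
    · rintro x ⟨c, hc, rfl, ⟨⟨hd, hst, hunr⟩, hunip⟩, hfl, hvan⟩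
      exact hTj ⟨c, hc, rfl, ⟨⟨hd, hst⟩, hfl⟩, hunr, hunip, fun q hq => hvan q hq⟩

end Final

end Fermat.Agent.Lib.S59
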