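/-
[LOC+s] part 13 (helper3, prefix `s59u_r2_`): **from matrix identities to `s59u_r2_Rel`** (twin of
helper4's `s59i_RelE_of_matrices`, `LInstM.lean`, for the family `s59u_r2_kappa θ ϑ b`).

A point `φ` of `𝒫^Λ = s59r_Flat 𝒪 (m₀ + r₄) r g` with values in a local DOMAIN `T`, flat over `𝒪`,
whose coordinates at the first `m₀` tower indices are the traceless coordinates of matrices
`Σ_j, Φ_j` of type `χ` (`tr Σ = t`, `det Σ = 1`, `Φ Σ = Σ Φ`, `θ² = (t/2)² − 1`), whose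
coordinates at the last `r₄` indices are those of matrices of UNIPOTENT type at a prime of type
(iv) (`(Σ − 1)² = 0`, `tr Σ = 2`, `Φ (Σ − 1) = u (Σ − 1) Φ`, `det Φ = u`, `½ tr Φ ≡ ε(u+1)/2`), and
which satisfies the local relations of the models `Λ l`, satisfies `s59u_r2_Rel Λ (κ_b)` for SOME
`b : Fin r₄ → Bool` (`b i = true` iff `Σ_i ≠ 1`), with `ϑ i = ε i (u i − 1)/2`.
-/
import Mathlib
import Fermat.Agent.Lib.S59.R2Ring
import Fermat.Agent.Lib.S59.UStJ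

set_option autoImplicit false
set_option linter.unusedSectionVars false
set_option linter.unusedVariables false
set_option linter.style.haveILetI false

noncomputable section

namespace Fermat.Agent.Lib.S59

open IsLocalRing MvPowerSeries Fermat.Agent.Lib.Deform

section Mat

variable {𝒪 : Type} [CommRing 𝒪] [IsLocalRing 𝒪] [IsNoetherianRing 𝒪] [IsDomain 𝒪]
  [IsAdicComplete (maximalIdeal 𝒪) 𝒪] [Finite (ResidueField 𝒪)]

variable {m₀ r r4 g : ℕ} (Λ : Fin r → s59r_Model 𝒪)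

/-- the parameter `ϑ = ε(u−1)/2` of the Steinberg cone at a prime of type (iv). -/
def s59u_r2_theta4 (i2 : 𝒪) (ε u : Fin r4 → 𝒪) : Fin r4 → 𝒪 := fun i => ε i * (u i - 1) * i2

/-- **the kind-wise relations from matrix identities.** -/
theorem s59u_r2_rel_of_matrices (i2 : 𝒪) (hi2 : 2 * i2 = 1) (θ : Fin m₀ → 𝒪)
    (hθ : ∀ j, s59l_Hyp (θ j)) (ε u : Fin r4 → 𝒪) (hε : ∀ i, ε i ^ 2 = 1)
    (hϑ : ∀ i, s59l_Hyp (s59u_r2_theta4 i2 ε u i))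
    {T : Type} [CommRing T] [IsLocalRing T] [IsDomain T] [Algebra 𝒪 T]
    (φ : s59r_Flat 𝒪 (m₀ + r4) r g →ₐ[𝒪] T)
    (hloc : ∀ t ∈ maximalIdeal 𝒪, algebraMap 𝒪 T t ∈ maximalIdeal T)
    (hinj : Function.Injective (algebraMap 𝒪 T)) (hmem : ∀ s, φ (X s) ∈ maximalIdeal T)
    (Sg Ph : Fin m₀ → Matrix (Fin 2) (Fin 2) T) (Sg4 Ph4 : Fin r4 → Matrix (Fin 2) (Fin 2) T)
    (hV : ∀ j k, φ (s59r_VB (Fin.castAdd r4 j) k) = s59i_tl (algebraMap 𝒪 T i2) (Sg j) k)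
    (hW : ∀ j k, φ (s59r_WB (Fin.castAdd r4 j) k) = s59i_tl (algebraMap 𝒪 T i2) (Ph j) k)
    (hV4 : ∀ i k, φ (s59r_VB (Fin.natAdd m₀ i) k) = s59i_tl (algebraMap 𝒪 T i2) (Sg4 i) k)
    (hW4 : ∀ i k, φ (s59r_WB (Fin.natAdd m₀ i) k) = s59i_tl (algebraMap 𝒪 T i2) (Ph4 i) k)
    (t : Fin m₀ → 𝒪) (htθ : ∀ j, (i2 * t j) ^ 2 - 1 = θ j ^ 2)
    (htr : ∀ j, (Sg j).trace = algebraMap 𝒪 T (t j)) (hdet : ∀ j, (Sg j).det = 1)
    (hcomm : ∀ j, Ph j * Sg j = Sg j * Ph j)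
    (h41 : ∀ i, (Sg4 i - 1) * (Sg4 i - 1) = 0) (h4tr : ∀ i, (Sg4 i).trace = 2)
    (h4t : ∀ i, Ph4 i * (Sg4 i - 1) = algebraMap 𝒪 T (u i) • ((Sg4 i - 1) * Ph4 i))
    (h4det : ∀ i, (Ph4 i).det = algebraMap 𝒪 T (u i))
    (h4res : ∀ i, s59i_ht (algebraMap 𝒪 T i2) (Ph4 i) -
      algebraMap 𝒪 T (ε i * (u i + 1) * i2) ∈ maximalIdeal T)
    (hu0 : ∀ i, u i ≠ 0) (hu1 : ∀ i, 1 - u i ≠ 0) (hu2 : ∀ i, IsUnit (1 + u i))
    (hm : ∀ l, (Λ l).rel T (fun k => φ (s59r_U l k))) :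
    ∃ b : Fin r4 → Bool, s59u_r2_Rel Λ (s59u_r2_kappa θ (s59u_r2_theta4 i2 ε u) b) φ := by
  classical
  have hi2' : (2 : T) * algebraMap 𝒪 T i2 = 1 := by
    rw [← map_ofNat (algebraMap 𝒪 T) 2, ← map_mul, hi2, map_one]
  -- the dichotomy at the primes of type (iv)
  have hdich : ∀ i, (s59u_st_Kind.unr : s59u_st_Kind 𝒪).Rel (algebraMap 𝒪 T)
      (fun k => φ (s59r_VB (Fin.natAdd m₀ i) k)) (fun k => φ (s59r_WB (Fin.natAdd m₀ i) k)) ∨
      (s59u_st_Kind.st (s59u_r2_theta4 i2 ε u i)).Rel (algebraMap 𝒪 T)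
      (fun k => φ (s59r_VB (Fin.natAdd m₀ i) k)) (fun k => φ (s59r_WB (Fin.natAdd m₀ i) k)) := by
    intro i
    have e1 : (fun k => φ (s59r_VB (Fin.natAdd m₀ i) k)) =
        s59i_tl (algebraMap 𝒪 T i2) (Sg4 i) := funext (hV4 i)
    have e2 : (fun k => φ (s59r_WB (Fin.natAdd m₀ i) k)) =
        s59i_tl (algebraMap 𝒪 T i2) (Ph4 i) := funext (hW4 i)
    rw [e1, e2]
    refine s59u_st_kind_of_matrices (algebraMap 𝒪 T) (u i) (ε i) i2 hi2 (hε i) ?_ ?_ ?_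
      (Sg4 i) (Ph4 i) (h41 i) (h4tr i) (h4t i) (h4det i) (h4res i)
    · intro h
      exact hu0 i (hinj (by rw [h, map_zero]))
    · intro h
      refine hu1 i (hinj ?_)
      rw [map_sub, map_one, h, map_zero]
    · have := (hu2 i).map (algebraMap 𝒪 T)
      rwa [map_add, map_one] at this
  refine ⟨fun i => decide (¬ (s59u_st_Kind.unr : s59u_st_Kind 𝒪).Rel (algebraMap 𝒪 T)
      (fun k => φ (s59r_VB (Fin.natAdd m₀ i) k))
      (fun k => φ (s59r_WB (Fin.natAdd m₀ i) k))), ?_⟩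
  refine s59u_r2_rel_append Λ θ (s59u_r2_theta4 i2 ε u) hθ hϑ _ φ hloc hinj hmem
    (fun j => ?_) (fun i => ?_) hm
  · -- type `χ`
    refine ⟨?_, fun k k' => ?_⟩
    · show φ (s59r_VB (Fin.castAdd r4 j) 0) ^ 2 +
        φ (s59r_VB (Fin.castAdd r4 j) 1) * φ (s59r_VB (Fin.castAdd r4 j) 2) = _
      rw [hV, hV, hV, s59i_quad_of_charpoly _ hi2' (Sg j) _ (htr j) (hdet j), ← map_mul,
        ← map_pow, ← map_one (algebraMap 𝒪 T), ← map_sub, htθ, map_pow]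
    · show φ (s59r_WB (Fin.castAdd r4 j) k) * φ (s59r_VB (Fin.castAdd r4 j) k') =
        φ (s59r_WB (Fin.castAdd r4 j) k') * φ (s59r_VB (Fin.castAdd r4 j) k)
      rw [hW, hV, hW, hV]
      exact s59i_minor_of_comm _ hi2' (Sg j) (Ph j) (hcomm j) k k'
  · -- type (iv)
    by_cases h : (s59u_st_Kind.unr : s59u_st_Kind 𝒪).Rel (algebraMap 𝒪 T)
        (fun k => φ (s59r_VB (Fin.natAdd m₀ i) k)) (fun k => φ (s59r_WB (Fin.natAdd m₀ i) k))
    · rw [if_neg (by simpa using h)]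
      exact h
    · rw [if_pos (by simpa using h)]
      exact (hdich i).resolve_left h

end Mat

end Fermat.Agent.Lib.S59
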