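/-
Programme (R) = S59, node (H2) (helper8), file 7: **[LIFT]** and **nondegeneracy** for a GENERAL
`Γ ≤ SL(2, ℤ)` of finite index with `-1 ∈ Γ` (port of `Lib/S41/BLift.lean`, `BNondeg.lean` from
`Γ₀(N)`; the Manin model `s41b_finrank_H_le/_eq` is already general, the lattice is helper3's
`s48h_M Γ`).

* `s59t_finrank_zmod` : `dim_{𝔽_p} H(Γ, 𝔽_p) = rank_ℤ H(Γ, ℤ)`;
* `s59t_count_zmod` : the Manin count over `𝔽_p` is an equality;
* `s59t_lift` : every class of `H(Γ, 𝔽_p)` is the reduction of a class of `H(Γ, ℤ)`;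
* `s59t_nondeg` : the pairing `s41c_pairing Γ` is nondegenerate on `H(Γ, 𝔽_p)`, `p` odd.
-/
import Mathlib
import Fermat.Agent.Lib.S41.BNondeg
import Fermat.Agent.Lib.S48.HLat

set_option autoImplicit false
set_option linter.unusedSectionVars false
set_option linter.style.haveILetI false

open Matrix MatrixGroups OnePoint ModularCurve.Period Module

namespace Fermat.Agent.Lib.S59

open Fermat.Agent.Lib.S29 Fermat.Agent.Lib.S41 Fermat.Agent.Lib.S48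

section Lift

variable (Γ : Subgroup SL(2, ℤ)) [Fintype (SL(2, ℤ) ⧸ Γ)]

theorem s59t_H_eq_Hpar (F : Type*) [Field F] : s41b_H Γ F = s48h_Hpar F Γ F := by
  ext φ
  exact Iff.rfl

variable {Γ}
variable [Group.FG Γ] {ι : Type*} [Fintype ι] [DecidableEq ι] (b : Module.Basis ι ℤ (s48h_M Γ))
include b

/-- `dim_ℂ H(Γ, ℂ) = rank H(Γ, ℤ)`. -/
theorem s59t_finrank_complex : finrank ℂ (s48h_Hpar ℂ Γ ℂ) = Fintype.card ι := by
  let c : ι → s48h_Hpar ℂ Γ ℂ := fun i =>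
    ⟨s48h_castB b ℂ i, s48h_cast_mem_Hpar ℂ ℂ (b i).2⟩
  have hli : LinearIndependent ℂ c := by
    refine LinearIndependent.of_comp (s48h_Hpar ℂ Γ ℂ).subtype ?_
    exact s48h_castB_linearIndependent_complex b
  have hspan : ⊤ ≤ Submodule.span ℂ (Set.range c) := by
    rintro ⟨ψ, hψ⟩ -
    obtain ⟨m, hm⟩ := s48h_exists_coeffs b ψ hψ
    have : (⟨ψ, hψ⟩ : s48h_Hpar ℂ Γ ℂ) = ∑ i, m i • c i := by
      apply Subtype.ext
      rw [Submodule.coe_sum]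
      simp only [Submodule.coe_smul]
      exact hm
    rw [this]
    exact Submodule.sum_mem _ fun i _ => Submodule.smul_mem _ _ (Submodule.subset_span ⟨i, rfl⟩)
  exact finrank_eq_card_basis (Basis.mk hli hspan)

variable (p : ℕ) [Fact p.Prime]

/-- **(DIM)**, numerical form, and the Manin count over `𝔽_p`. -/
theorem s59t_finrank_zmod (hΓ : (-1 : SL(2, ℤ)) ∈ Γ) :
    FiniteDimensional (ZMod p) (s48h_Hpar (ZMod p) Γ (ZMod p)) ∧
      finrank (ZMod p) (s48h_Hpar (ZMod p) Γ (ZMod p)) = Fintype.card ι ∧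
      finrank (ZMod p) (s41b_H Γ (ZMod p)) + s41b_q (s41b_sigma Γ) + s41b_q (s41b_tau Γ) +
        s41b_q (s41b_tau Γ * (s41b_sigma Γ)⁻¹) = Fintype.card (SL(2, ℤ) ⧸ Γ) + 2 := by
  obtain ⟨hfd, hle⟩ := s41b_finrank_H_le Γ (ZMod p)
  have hC := s41b_finrank_H_eq Γ ℂ hΓ
  rw [s59t_H_eq_Hpar] at hfd hle hC
  haveI := hfd
  rw [s59t_finrank_complex b] at hC
  let c : ι → s48h_Hpar (ZMod p) Γ (ZMod p) := fun i =>
    ⟨s48h_castB b (ZMod p) i, s48h_cast_mem_Hpar (ZMod p) (ZMod p) (b i).2⟩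
  have hli : LinearIndependent (ZMod p) c := by
    refine LinearIndependent.of_comp (s48h_Hpar (ZMod p) Γ (ZMod p)).subtype ?_
    exact s48h_castB_linearIndependent_zmod b p
  have hge : Fintype.card ι ≤ finrank (ZMod p) (s48h_Hpar (ZMod p) Γ (ZMod p)) :=
    hli.fintype_card_le_finrank
  refine ⟨hfd, by omega, ?_⟩
  rw [s59t_H_eq_Hpar]
  omega

/-- **[LIFT]**: every class mod `p` lifts to the lattice. -/
theorem s59t_lift (hΓ : (-1 : SL(2, ℤ)) ∈ Γ) (x : Additive Γ →+ ZMod p)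
    (hx : x ∈ s48h_Hpar (ZMod p) Γ (ZMod p)) :
    ∃ χ ∈ s48h_M Γ, s48h_cast (ZMod p) χ = x := by
  obtain ⟨hfd, hrank, -⟩ := s59t_finrank_zmod b p hΓ
  haveI := hfd
  let c : ι → s48h_Hpar (ZMod p) Γ (ZMod p) := fun i =>
    ⟨s48h_castB b (ZMod p) i, s48h_cast_mem_Hpar (ZMod p) (ZMod p) (b i).2⟩
  have hli : LinearIndependent (ZMod p) c := by
    refine LinearIndependent.of_comp (s48h_Hpar (ZMod p) Γ (ZMod p)).subtype ?_
    exact s48h_castB_linearIndependent_zmod b p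
  let B := basisOfLinearIndependentOfCardEqFinrank' c hli hrank.symm
  have hB : ∀ i, B i = c i := fun i => by
    simp only [B, coe_basisOfLinearIndependentOfCardEqFinrank']
  have hsum := B.sum_repr ⟨x, hx⟩
  have hlift : ∀ i, ∃ z : ℤ, (z : ZMod p) = B.repr ⟨x, hx⟩ i := fun i =>
    ZMod.intCast_surjective _
  choose z hz using hlift
  refine ⟨∑ i, z i • (b i : Additive Γ →+ ℤ), ?_, ?_⟩
  · exact Submodule.sum_mem _ fun i _ => Submodule.smul_mem _ _ (b i).2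
  · rw [map_sum]
    have h2 := congrArg (fun y : s48h_Hpar (ZMod p) Γ (ZMod p) => (y : Additive Γ →+ ZMod p)) hsum
    simp only [Submodule.coe_sum, Submodule.coe_smul, hB] at h2
    rw [← h2]
    refine Finset.sum_congr rfl fun i _ => ?_
    rw [s48h_cast_zsmul, hz]
    rfl

end Lift

section Nondeg

variable {Γ : Subgroup SL(2, ℤ)} [Fintype (SL(2, ℤ) ⧸ Γ)] (p : ℕ) [Fact p.Prime]

/-- **nondegeneracy** of the Poincaré pairing on `H(Γ, 𝔽_p)`, `p` odd, given the count equality. -/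
theorem s59t_nondeg_of_count (hΓ : (-1 : SL(2, ℤ)) ∈ Γ) (hp2 : p ≠ 2)
    (hcount : finrank (ZMod p) (s41b_H Γ (ZMod p)) + s41b_q (s41b_sigma Γ) +
      s41b_q (s41b_tau Γ) + s41b_q (s41b_tau Γ * (s41b_sigma Γ)⁻¹) =
        Fintype.card (SL(2, ℤ) ⧸ Γ) + 2)
    (φ : Additive Γ →+ ZMod p) (hφ : φ ∈ s48h_Hpar (ZMod p) Γ (ZMod p))
    (h : ∀ ψ ∈ s48h_Hpar (ZMod p) Γ (ZMod p), s41c_pairing Γ φ ψ = 0) : φ = 0 := by
  classical
  have h2reg := s41b_two_regular p hp2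
  have hP : s41b_IsPot Γ φ (s41c_potential Γ φ) := s41c_potential_spec hφ.1
  obtain ⟨PE, hPE⟩ := s41b_exists_potE hφ.2
  obtain ⟨PF, hPF⟩ := s41b_exists_potF hφ.2
  set P := s41c_potential Γ φ with hPdef
  have hva := s41b_triple_a hP hPE
  have hvb := s41b_triple_b hP hPF
  have key : ∀ a' b' : SL(2, ℤ) ⧸ Γ → ZMod p,
      a' - a' ∘ s41b_sigma Γ = b' - b' ∘ s41b_tau Γ →
      (s41b_diff Γ P s41c_o0 P s41c_o1) ⬝ᵥ (b' - a') = 0 := by
    intro a' b' hab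
    have hv' : a' - a' ∘ s41b_sigma Γ ∈
        s41b_Vc (ZMod p) (s41b_sigma Γ) (s41b_tau Γ) :=
      (s41b_mem_Vc (ZMod p)).mpr ⟨a', b', rfl, hab⟩
    obtain ⟨pp, hpp, hrad⟩ := s41b_surj_mod_Rad Γ (ZMod p) hcount _ hv'
    obtain ⟨Q, hQ, hQw⟩ := hpp
    obtain ⟨hh, hhv, hhh⟩ := (s41b_mem_Rad (ZMod p)).mp hrad
    have hψ : (pp.1 : Additive Γ →+ ZMod p) ∈ s48h_Hpar (ZMod p) Γ (ZMod p) := pp.1.2
    obtain ⟨QE, hQE⟩ := s41b_exists_potE hψ.2
    obtain ⟨QF, hQF⟩ := s41b_exists_potF hψ.2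
    have hwa := s41b_triple_a hQ hQE
    have hwb := s41b_triple_b hQ hQF
    rw [hQw] at hwa hwb
    have hs1 : a' - a' ∘ s41b_sigma Γ =
        (s41b_diff Γ Q s41c_o0 QE s41b_e0 + hh) -
          (s41b_diff Γ Q s41c_o0 QE s41b_e0 + hh) ∘ s41b_sigma Γ := by
      have e : a' - a' ∘ s41b_sigma Γ = pp.2 + (hh - hh ∘ s41b_sigma Γ) := by
        rw [← hhv]; abel
      rw [e]
      conv_lhs => rw [hwa]
      funext x
      simp only [Pi.add_apply, Pi.sub_apply, Function.comp_apply]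
      ring
    have hs2 : a' - a' ∘ s41b_sigma Γ =
        (s41b_diff Γ Q s41c_o0 QF s41b_f0 + hh) -
          (s41b_diff Γ Q s41c_o0 QF s41b_f0 + hh) ∘ s41b_tau Γ := by
      have e : a' - a' ∘ s41b_sigma Γ = pp.2 + (hh - hh ∘ s41b_tau Γ) := by
        rw [← hhh, ← hhv]; abel
      rw [e]
      conv_lhs => rw [hwb]
      funext x
      simp only [Pi.add_apply, Pi.sub_apply, Function.comp_apply]
      ring
    have hind := s41b_pair_indep (s41b_sigma Γ) (s41b_tau Γ) hva hvb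
      (rfl : a' - a' ∘ s41b_sigma Γ = a' - a' ∘ s41b_sigma Γ) hab hs1 hs2
    rw [hind]
    have hd : (s41b_diff Γ Q s41c_o0 QF s41b_f0 + hh) -
        (s41b_diff Γ Q s41c_o0 QE s41b_e0 + hh) =
        s41b_diff Γ QE s41b_e0 QF s41b_f0 := by
      rw [s41b_d_eq Q QE QF]; abel
    rw [hd]
    have h2 := s41b_pairP_two hΓ hP hPE hPF hQ hQE hQF
    have h3 := s41k_pairing_eq hΓ h2reg hP hQ hφ.1 hψ.1 hφ.2 hψ.2
    have h4 := h _ hψ
    rw [h3, h2] at h4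
    exact h2reg _ h4
  obtain ⟨hh, hv, hhh⟩ := s41b_radical (s41b_sigma Γ) (s41b_tau Γ) key
  exact s41b_inj hP hhh hv

/-- **nondegeneracy** for finitely generated `Γ ∋ -1` of finite index. -/
theorem s59t_nondeg [Group.FG Γ] (hΓ : (-1 : SL(2, ℤ)) ∈ Γ) (hp2 : p ≠ 2)
    (φ : Additive Γ →+ ZMod p) (hφ : φ ∈ s48h_Hpar (ZMod p) Γ (ZMod p))
    (h : ∀ ψ ∈ s48h_Hpar (ZMod p) Γ (ZMod p), s41c_pairing Γ φ ψ = 0) : φ = 0 := by
  classical
  let b := Module.Free.chooseBasis ℤ (s48h_M Γ)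
  exact s59t_nondeg_of_count p hΓ hp2 (s59t_finrank_zmod b p hΓ).2.2 φ hφ h

end Nondeg

end Fermat.Agent.Lib.S59
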