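/-
S59, plan [C2P] (helper3, prefix `s59u_c2_`), leaf **[r-EXISTS]**: the torsion-killer spectator of the field `liftC2p`.

By Chebotarev (`s56h_cheb`) applied to `ρ̄_W` and complex conjugation there is, outside any finite set `B ∋ p` containing the bad
primes of `W`, a prime `r` all of whose Frobenius elements have residual characteristic polynomial `X² − 1`.  Consequently
`r ≡ −1 (mod p)` (so `r % 3 = 2` when `p = 3`), `p ∣ a_r(W)`, and `charpoly ρ̄_W(Frob_r) = (X − ε r)(X − ε)` for both signs `ε`: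
`r` is a spectator of type (c1) (`W` good at `r`, level-raising congruence at `r`).

* `s59u_c2_charpoly_two`   : `charpoly f = X² − tr f · X + det f` in rank two;
* `s59u_c2_charpoly_invol` : `f * f = 1`, `det f = −1`, `2 ≠ 0` ⟹ `charpoly f = X² − 1`;
* `s59u_c2_rhobarW_conj`   : `charpoly ρ̄_W(c) = X² − 1`;
* `s59u_c2_exists_r`       : [r-EXISTS];
* `s59u_c2_exists_r_three` : the case `p = 3`, with `r % 3 = 2`, `r ≠ 2`-free statement and the `hscp`-shape of `s59u_w_sp_TFinPt`.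
-/
import Mathlib
import Fermat.Agent.Lib.S59.EWRho
import Fermat.Agent.Lib.S59.ETWTop
import Fermat.Agent.Lib.S56.HPrimes

set_option autoImplicit false
set_option linter.unusedSectionVars false
set_option linter.unusedVariables false
set_option linter.style.haveILetI false

noncomputable section

namespace Fermat.Agent.Lib.S59

open Fermat.Agent.Lib.S30 Fermat.Agent.Lib.S58 Fermat.Agent.Lib.S56 ExtCitation
open WeierstrassCurve WeierstrassCurve.Affine IsLocalRing TensorProduct Polynomial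

local notation "Γℚ" => (AlgebraicClosure ℚ ≃ₐ[ℚ] AlgebraicClosure ℚ)

/-- the characteristic polynomial in rank two. -/
theorem s59u_c2_charpoly_two {k V : Type*} [Field k] [AddCommGroup V] [Module k V]
    [Module.Finite k V] (h : Module.finrank k V = 2) (f : Module.End k V) :
    LinearMap.charpoly f = X ^ 2 - C (LinearMap.trace k V f) * X + C (LinearMap.det f) := by
  have bs : Module.Basis (Fin 2) k V := Module.finBasisOfFinrankEq k V h
  rw [← LinearMap.charpoly_toMatrix f bs, Matrix.charpoly_fin_two,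
    LinearMap.trace_eq_matrix_trace k bs, ← LinearMap.det_toMatrix bs]

/-- an involution of determinant `−1` in rank two has characteristic polynomial `X² − 1`. -/
theorem s59u_c2_charpoly_invol {k V : Type*} [Field k] [AddCommGroup V] [Module k V]
    [Module.Finite k V] (h : Module.finrank k V = 2) (f : Module.End k V) (hff : f * f = 1)
    (hdet : LinearMap.det f = -1) : LinearMap.charpoly f = (X ^ 2 - 1 : k[X]) := by
  have hcp := s59u_c2_charpoly_two h f
  have hCH := LinearMap.aeval_self_charpoly f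
  rw [hcp, hdet] at hCH
  simp only [map_add, map_sub, map_mul, map_pow, aeval_X, aeval_C, map_neg, map_one] at hCH
  rw [pow_two, hff] at hCH
  -- `tr f • f = 0`
  have h1 : algebraMap k (Module.End k V) (LinearMap.trace k V f) * f = 0 := by
    have : (1 : Module.End k V) - algebraMap k (Module.End k V) (LinearMap.trace k V f) * f +
        -1 = 0 := hCH
    have h2 : -(algebraMap k (Module.End k V) (LinearMap.trace k V f) * f) = 0 := by
      rw [← this]; abel
    exact neg_eq_zero.mp h2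
  have h3 : algebraMap k (Module.End k V) (LinearMap.trace k V f) = 0 := by
    have := congrArg (fun g => g * f) h1
    simp only [zero_mul, mul_assoc, hff, mul_one] at this
    exact this
  have htr : LinearMap.trace k V f = 0 := by
    have hinj : Function.Injective (algebraMap k (Module.End k V)) := by
      haveI : Nontrivial V := Module.nontrivial_of_finrank_pos (R := k) (by rw [h]; norm_num)
      exact FaithfulSMul.algebraMap_injective k (Module.End k V)
    exact hinj (by rw [h3, map_zero])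
  rw [hcp, htr, hdet]
  simp [sub_eq_add_neg]

variable {W : WeierstrassCurve ℤ} {p : ℕ} [hp : Fact p.Prime]

/-- **the residual characteristic polynomial of complex conjugation is `X² − 1`.** -/
theorem s59u_c2_rhobarW_conj (hΔ : W.Δ ≠ 0) (hp2 : p ≠ 2) (hirr : W.ModRepIsIrreducible p)
    {𝒪 : Type} [CommRing 𝒪] [IsLocalRing 𝒪] [Algebra ℤ_[p] 𝒪]
    (hp𝒪 : ((p : ℕ) : 𝒪) ∈ maximalIdeal 𝒪) :
    LinearMap.charpoly ((s59i_rhobarW W p hΔ 𝒪 hp𝒪).ρ complexConjugation) = X ^ 2 - 1 := by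
  have hpp : p.Prime := hp.out
  set ρ₀ := s59b_rhoW W p hΔ with hρ₀
  have hdet₀ : ρ₀.DetIsCyclotomic p := s59b_rhoW_detCyc hΔ hp2 hirr
  set ρ := ρ₀.baseChangeAlong (algebraMap ℤ_[p] 𝒪) (s59b_isLocalHom_padic p _ hp𝒪) with hρ
  have hdet : ρ.DetIsCyclotomic p :=
    s59e_bc_detCyc (algebraMap ℤ_[p] 𝒪) (s59b_isLocalHom_padic p _ hp𝒪) ρ₀ p hdet₀
  haveI : CharP (ResidueField 𝒪) p := s59e_charP_residue p hdet.1
  have hdetc : LinearMap.det (ρ.residual.ρ complexConjugation) = -1 := by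
    rw [s59e_residual_det p ρ hdet complexConjugation (p - 1)
      (fun μ hμ => s30y_conj_root p hpp.ne_zero μ hμ),
      Nat.cast_sub hpp.one_le, CharP.cast_eq_zero, Nat.cast_one, zero_sub]
  have hff : ρ.residual.ρ complexConjugation * ρ.residual.ρ complexConjugation = 1 := by
    rw [← map_mul, complexConjugation_mul_self, map_one]
  exact s59u_c2_charpoly_invol ρ.residual.finrank_eq _ hff hdetc

/-- **[r-EXISTS]**: outside any finite set `B ∋ p` containing the bad primes of `W` there is a prime `r` whose Frobenius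
elements all have residual characteristic polynomial `X² − 1`; then `r = −1` in the residue field and `p ∣ a_r(W)` residually. -/
theorem s59u_c2_exists_r (hΔ : W.Δ ≠ 0) (hp2 : p ≠ 2) (hirr : W.ModRepIsIrreducible p)
    {𝒪 : Type} [CommRing 𝒪] [IsLocalRing 𝒪] [Algebra ℤ_[p] 𝒪] [Finite (ResidueField 𝒪)]
    (hp𝒪 : ((p : ℕ) : 𝒪) ∈ maximalIdeal 𝒪) (B : Finset ℕ) (hpB : p ∈ B)
    (hB2 : ∀ r : ℕ, r.Prime → ¬ W.IsGoodPrimeFor r → r ∈ B) :
    ∃ r : ℕ, r.Prime ∧ r ∉ B ∧
      (∀ A : ValuationSubring (AlgebraicClosure ℚ), A.LiesOverPrime r → ∀ φ : Γℚ,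
        A.IsFrobeniusAt φ r →
          LinearMap.charpoly ((s59i_rhobarW W p hΔ 𝒪 hp𝒪).ρ φ) = X ^ 2 - 1) ∧
      ((r : ℕ) : ResidueField 𝒪) = -1 ∧
      residue 𝒪 ((W.apOfModel r : ℤ) : 𝒪) = 0 := by
  classical
  set ρbar := s59i_rhobarW W p hΔ 𝒪 hp𝒪 with hρbar
  have ht : GaloisFactorsThroughFiniteLevel ρbar.ρ.toHomUnits := by
    obtain ⟨L, hL, h⟩ := ρbar.factorsThroughFiniteLevel
    exact ⟨L, hL, fun σ hσ => Units.ext (h σ hσ)⟩
  obtain ⟨r, hr, hrB, hfr⟩ := s56h_cheb ρbar.ρ.toHomUnits ht B complexConjugation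
  have hcp : ∀ A : ValuationSubring (AlgebraicClosure ℚ), A.LiesOverPrime r → ∀ φ : Γℚ,
      A.IsFrobeniusAt φ r → LinearMap.charpoly (ρbar.ρ φ) = X ^ 2 - 1 := by
    intro A hA φ hφ
    obtain ⟨g, hg⟩ := hfr A hA φ hφ
    have hg' : ρbar.ρ φ = ρbar.ρ (g * complexConjugation * g⁻¹) := congrArg Units.val hg
    rw [s56h_charpoly_conj ρbar φ g complexConjugation hg']
    exact s59u_c2_rhobarW_conj hΔ hp2 hirr hp𝒪
  refine ⟨r, hr, hrB, hcp, ?_⟩
  obtain ⟨A, φ, hA, hφ⟩ := Fermat.Agent.Lib.Frobenius.exists_isFrobeniusAt r hr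
  have h1 := s59e_rhobarW_charpoly_frob hΔ hp2 hirr hp𝒪 B hpB hB2 r hr hrB A hA φ hφ
  rw [hcp A hA φ hφ] at h1
  have hc0 := congrArg (fun P => Polynomial.coeff P 0) h1
  have hc1 := congrArg (fun P => Polynomial.coeff P 1) h1
  simp only [coeff_sub, coeff_add, coeff_X_pow, coeff_one, coeff_C_mul, coeff_X, coeff_C] at hc0 hc1
  norm_num at hc0 hc1
  exact ⟨hc0.symm, by simpa using hc1⟩

/-- the `hscp`-shape of the spectator: `X² − 1 = (X − ε r)(X − ε)` as soon as `r = −1` in the residue field. -/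
theorem s59u_c2_hscp {𝒪 : Type} [CommRing 𝒪] [IsLocalRing 𝒪] (r : ℕ)
    (hr : ((r : ℕ) : ResidueField 𝒪) = -1) (εs : 𝒪) (hεs : εs = 1 ∨ εs = -1) :
    (X ^ 2 - 1 : (ResidueField 𝒪)[X]) =
      (X - C (residue 𝒪 (εs * ((r : ℕ) : 𝒪)))) * (X - C (residue 𝒪 εs)) := by
  have h1 : residue 𝒪 ((r : ℕ) : 𝒪) = -1 := by rw [map_natCast]; exact hr
  rcases hεs with rfl | rfl
  · rw [one_mul, h1, map_one]
    simp only [map_neg, map_one]
    ring
  · rw [neg_one_mul, map_neg, h1]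
    simp only [map_neg, map_one, neg_neg]
    ring

/-- `r = −1` in a residue field of characteristic `p` means `p ∣ r + 1`. -/
theorem s59u_c2_dvd_succ {𝒪 : Type} [CommRing 𝒪] [IsLocalRing 𝒪] (q : ℕ) [Fact q.Prime]
    (hq𝒪 : ((q : ℕ) : 𝒪) ∈ maximalIdeal 𝒪) (r : ℕ) (hr : ((r : ℕ) : ResidueField 𝒪) = -1) :
    q ∣ r + 1 := by
  haveI : CharP (ResidueField 𝒪) q := s59e_charP_residue q hq𝒪
  rw [← CharP.cast_eq_zero_iff (ResidueField 𝒪) q, Nat.cast_add, Nat.cast_one, hr]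
  ring

/-- **[r-EXISTS] at `p = 3`**, in the shape consumed by the spectator chain `s59u_w_sp_*` (`s := r`, `k₀ := 0`). -/
theorem s59u_c2_exists_r_three {W : WeierstrassCurve ℤ} (hΔ : W.Δ ≠ 0)
    (hirr : W.ModRepIsIrreducible 3)
    {𝒪 : Type} [CommRing 𝒪] [IsLocalRing 𝒪] [Algebra ℤ_[3] 𝒪] [Finite (ResidueField 𝒪)]
    (hp𝒪 : ((3 : ℕ) : 𝒪) ∈ maximalIdeal 𝒪) (B : Finset ℕ) (hpB : 3 ∈ B)
    (hB2 : ∀ r : ℕ, r.Prime → ¬ W.IsGoodPrimeFor r → r ∈ B) :
    ∃ r : ℕ, r.Prime ∧ r ∉ B ∧ r % 3 = 2 ∧ W.IsGoodPrimeFor r ∧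
      (∀ (εs : 𝒪), εs = 1 ∨ εs = -1 → ∀ A : ValuationSubring (AlgebraicClosure ℚ),
        A.LiesOverPrime r → ∀ φ : Γℚ, A.IsFrobeniusAt φ r →
          LinearMap.charpoly ((s59i_rhobarW W 3 hΔ 𝒪 hp𝒪).ρ φ) =
            (X - C (residue 𝒪 (εs * ((r : ℕ) : 𝒪)))) * (X - C (residue 𝒪 εs))) ∧
      residue 𝒪 ((W.apOfModel r : ℤ) : 𝒪) = 0 := by
  obtain ⟨r, hr, hrB, hcp, hr1, ha⟩ :=
    s59u_c2_exists_r (p := 3) hΔ (by norm_num) hirr hp𝒪 B hpB hB2
  have h3 : 3 ∣ r + 1 := s59u_c2_dvd_succ 3 hp𝒪 r hr1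
  refine ⟨r, hr, hrB, by omega, ?_, fun εs hεs A hA φ hφ => ?_, ha⟩
  · by_contra hbad
    exact hrB (hB2 r hr hbad)
  · rw [hcp A hA φ hφ]
    exact s59u_c2_hscp r hr1 εs hεs

end Fermat.Agent.Lib.S59

end
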