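/-
Programme (R2), node **[CAR]**, leaf W5/**[L2-7 HECKE₃]** (helper3, prefix `s59u_`), final form: **THE HECKE FRAME OF LEVEL `M q²`.**

For helper9's concrete Kummer frame `s59m_kumFrame3C h5 p D hglue hinj` of level `M q²` (`MCarL2K.lean`) over the concrete frame
`s59m_frame3C h5 D hglue` (`MCarL2F.lean`), every Hecke correspondence `H : s59m_HeckeOn (s59m_ZU …)` of level `M q` with
`H.T = τ_ℓ = s59u_tauD (M q) ℓ _ L₀` (`ℓ ∤ M q`, `ℓ ≠ q`; `ν₂(M) = ν₃(M) = 0`) lifts to a Hecke frame of level `M q²`: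

  **`s59u_heckeFrame3C : s59m_HeckeFrame3 (s59m_kumFrame3C h5 p D hglue hinj) H ⟨ℓ, _⟩`**,  `T = s59u_tauD (M q²) ℓ _ L₀`.

Fields: `mem`, `red`, `nf` from `UCarHecke3.lean`, `gen_hecke` = `s59u_isKumGen_tauD`.
-/
import Fermat.Agent.Lib.S59.MCarL2K
import Fermat.Agent.Lib.S59.UCarHecke3

set_option autoImplicit false
set_option linter.style.haveILetI false
set_option linter.unusedSectionVars false
set_option linter.unusedVariables false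
set_option synthInstance.maxHeartbeats 400000

noncomputable section

namespace Fermat.Agent.Lib.S59

open ModularCurve HahnSeries AlgebraicCurve Fermat.Agent.Lib.FF Fermat.Agent.Lib.S18
  Fermat.Agent.Lib.S28 Fermat.Agent.Lib.S29 Fermat.Agent.Lib.S37 Fermat.Agent.Lib.S34
  Fermat.Agent.Lib.S35 Fermat.Agent.Lib.S33 Fermat.Agent.Lib.S44 Fermat.Agent.Lib.S36

local notation "Kb" => AlgebraicClosure ℚ

variable (M q : ℕ) [NeZero M] [hq : Fact q.Prime] (hqM : ¬ q ∣ M) (h5 : 5 ≤ q)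
  (P : ValuationSubring Kb) (hP : P.LiesOverPrime q)
  (L₀ : IntermediateField ℚ Kb) [FiniteDimensional ℚ ↥L₀]
  (hunr : ∀ τ ∈ P.inertiaSubgroupIn ℚ, ∀ a ∈ L₀, τ a = a)
  [CharP (IsLocalRing.ResidueField ↥(s18q_A0 P L₀)) q]
  [PerfectField (IsLocalRing.ResidueField ↥(s18q_A0 P L₀))]
  (p : ℕ) [hp : Fact p.Prime]
  (D : s59m_L2Data M q hqM P hP L₀ hunr) (hglue : s59m_Glue3C h5 D) (hinj : s59m_Inj3C h5 p D)
  (ℓ : ℕ) [hℓ : Fact ℓ.Prime] (hℓ1 : ¬ ℓ ∣ M * q) (hℓ2 : ¬ ℓ ∣ M * q * q) (hqℓ : q ≠ ℓ)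

set_option maxHeartbeats 1600000 in
/-- **[L2-7 HECKE₃]: THE HECKE FRAME OF LEVEL `M q²`** at `ℓ` over a Hecke correspondence of level `M q` with `H.T = τ_ℓ`. -/
def s59u_heckeFrame3C (h2 : nuTwo M = 0) (h3 : nuThree M = 0)
    (H : s59m_HeckeOn (s59m_ZU M q hqM h5 P hP L₀ hunr))
    (hHT : H.T = s59u_tauD (M * q) ℓ hℓ1 L₀) :
    s59m_HeckeFrame3 (s59m_kumFrame3C h5 p D hglue hinj) H ⟨ℓ, hℓ.out⟩ where
  T := s59u_tauD (M * q * q) ℓ hℓ2 L₀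
  mem := fun j h hh => s59u_hecke3_mem M q hqM P hP L₀ hunr D ℓ hℓ2 hqℓ j h hh
  red := fun j h hh hh' =>
    s59u_hecke3_red M q hqM h5 P hP L₀ hunr D ℓ hℓ1 hℓ2 hqℓ H hHT j h hh hh' _
  nf := fun h hnf =>
    s59u_hecke3_nf M q hqM h5 P hP L₀ hunr D ℓ hℓ1 hℓ2 h2 h3 h hnf.1 hnf.2
  gen_hecke := fun hx => s59u_isKumGen_tauD (M * q * q) ℓ hℓ2 L₀ p hx

set_option maxHeartbeats 1600000 in
@[simp] theorem s59u_heckeFrame3C_T (h2 : nuTwo M = 0) (h3 : nuThree M = 0)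
    (H : s59m_HeckeOn (s59m_ZU M q hqM h5 P hP L₀ hunr))
    (hHT : H.T = s59u_tauD (M * q) ℓ hℓ1 L₀) :
    (s59u_heckeFrame3C M q hqM h5 P hP L₀ hunr p D hglue hinj ℓ hℓ1 hℓ2 hqℓ h2 h3 H hHT).T =
      s59u_tauD (M * q * q) ℓ hℓ2 L₀ := rfl

end Fermat.Agent.Lib.S59
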