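/-
PROGRAMME R2 = S59, case (P), the field `liftABp` (`s59g_LIFTThreeP`), node [W5]-top (helper3, prefix `s59u_p_`), file 2
(SCRIPTED from helper6's Q3SFlrW6.lean): **THE ADAPTER IN CASE (P), NO SPECTATOR: THE MASTER FINAL STRICT `T`-SIDE STATEMENT
`s59u_p_TFinX p W hΔ` (UP3A.lean) ⟹ helper6's WEAK STRICT CONTRACT `s59q_pw_TPkgFLR p W hΔ N₀` (QSFlrW4w.lean)** at an EVEN base level
`N₀` with `p ∣ N₀` (in case (P): `N₀ = M p`), `ρ̄` modular of the levels `N₀` and `N₀ / p`; the primes `≠ p` of `N₀` are ramified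
primes of `ρ̄` or of type (E2′).

* **`s59u_p_TPkgFLR_of_TFinX`**.
-/
import Mathlib
import Fermat.Agent.Lib.S59.UP3A
import Fermat.Agent.Lib.S59.QSFlrW4w
import Fermat.Agent.Lib.S59.E3E2c

set_option autoImplicit false
set_option linter.unusedSectionVars false
set_option linter.unusedVariables false
set_option linter.style.haveILetI false
set_option synthInstance.maxHeartbeats 400000
set_option maxHeartbeats 3200000

noncomputable section

namespace Fermat.Agent.Lib.S59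

open IsLocalRing Polynomial CuspForm ExtCitation
open Fermat.Agent.Lib.S53 (NormData exists_normData)
open Fermat.Agent.Lib.S56 Fermat.Agent.Lib.S44

local notation "Γℚ" => (AlgebraicClosure ℚ ≃ₐ[ℚ] AlgebraicClosure ℚ)

/-- **the adapter, case (P): the master final strict `T`-side statement ⟹ helper6's WEAK strict contract at the base level `N₀`**
(`p ∣ N₀`, `ρ̄` modular of the levels `N₀` and `N₀ / p`; twin of helper6's `s59q_sf3_TPkgFLR_of_TFin`). -/
theorem s59u_p_TPkgFLR_of_TFinX (p : ℕ) [hpF : Fact p.Prime] (hp35 : p = 3 ∨ p = 5)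
    (W : WeierstrassCurve ℤ) (hΔ : W.Δ ≠ 0) (hss : W.IsSemistableModel)
    (hirr : W.ModRepIsIrreducible p)
    (hmult : ¬ W.IsGoodPrimeFor p)
    (hpeu : (W.map (Int.castRingHom ℚ)).IsPeuRamifieeAt p p)
    (N₀ : ℕ) (hsq : Squarefree N₀) (hpN₀ : p ∣ N₀) (h23 : 2 ∣ N₀)
    (hres : W.IsResiduallyModularOfLevel p N₀)
    (hresM : W.IsResiduallyModularOfLevel p (N₀ / p))
    (hNtype : ∀ q : ℕ, q.Prime → q ≠ p → q ∣ N₀ → ¬ s59_Unr W p q ∨
      (W.IsGoodPrimeFor q ∧ ¬ p ∣ q - 1 ∧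
        ¬ (p : ℤ) ∣ (W.apOfModel q : ℤ) ^ 2 - ((q : ℤ) + 1) ^ 2))
    (HF : s59u_p_TFinX p W hΔ) : s59q_pw_TPkgFLR p W hΔ N₀ := by
  intro 𝒪 _ _ _ _ _ _ _ _ hp𝒪 hsplitℤ m e pr σq φq step k N _ B hinj hprops hσq hφq hsigns hstep
    hcover hN hNsq hpN hB hunrW hDm D0
  classical
  have hpP : p.Prime := hpF.out
  have hp2 : p ≠ 2 := by rcases hp35 with rfl | rfl <;> norm_num
  have hbadp : (p : ℤ) ∣ W.Δ := by
    by_contra hgood
    exact hmult hgood
  have hc4p : ¬ (p : ℤ) ∣ W.c₄ := hss p hpP hbadp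
  obtain ⟨Dm⟩ := hDm
  have habs := s59q_W_habs W hΔ hp𝒪 hp35 hss hirr
  obtain ⟨Nd⟩ := exists_normData (s59q_WRhobar W hΔ hp𝒪) habs
  have hN0 : N ≠ 0 := NeZero.ne N
  -- the levels
  have hprodk : ∏ l ∈ Finset.range k, ((pr (Sum.swap (step l)) : ℕ)) = ∏ t, (pr t : ℕ) := by
    rw [s59f_prod_step step k hstep hcover (fun s => (pr (Sum.swap s) : ℕ))]
    exact Fintype.prod_equiv (Equiv.sumComm _ _) _ _ (fun s => rfl)
  have hNk : N₀ * ∏ l ∈ Finset.range (min k k), ((pr (Sum.swap (step l)) : ℕ)) = N := by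
    rw [hN, min_self, hprodk]
  have hNfdvd : ∀ t, N₀ * ∏ l ∈ Finset.range (min t k), ((pr (Sum.swap (step l)) : ℕ)) ∣ N := by
    intro t
    rw [hN, ← hprodk]
    exact Nat.mul_dvd_mul_left _ (Finset.prod_dvd_prod_of_subset _ _ _
      (Finset.range_subset_range.mpr (min_le_right t k)))
  have hN₀dvd : ∀ t, N₀ ∣ N₀ * ∏ l ∈ Finset.range (min t k), ((pr (Sum.swap (step l)) : ℕ)) :=
    fun t => Dvd.intro _ rfl
  have hB1 : ∀ t, ∀ r : ℕ, r.Prime →
      r ∣ (N₀ * ∏ l ∈ Finset.range (min t k), ((pr (Sum.swap (step l)) : ℕ))) * p → r ∈ B := by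
    intro t r hr hd
    rw [hB]
    exact Finset.mem_union_left _ (Nat.mem_primeFactors.mpr
      ⟨hr, hd.trans (Nat.mul_dvd_mul_right (hNfdvd t) p), Nat.mul_ne_zero hN0 hpP.ne_zero⟩)
  have hB2Δ : ∀ r : ℕ, r.Prime → (r : ℤ) ∣ W.Δ → r ∈ B := by
    intro r hr hd
    rw [hB]
    exact Finset.mem_union_right _ (Nat.mem_primeFactors.mpr
      ⟨hr, Int.natCast_dvd.mp hd, Int.natAbs_ne_zero.mpr hΔ⟩)
  have hB2 : ∀ r : ℕ, r.Prime → ¬ W.IsGoodPrimeFor r → r ∈ B := by
    intro r hr hbad'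
    refine hB2Δ r hr ?_
    by_contra h
    exact hbad' h
  have hpB : p ∈ B := by
    have := hB1 k p hpP (Dvd.intro_left _ rfl)
    exact this
  have hsqf : ∀ t, Squarefree (N₀ * ∏ l ∈ Finset.range (min t k),
      ((pr (Sum.swap (step l)) : ℕ))) := fun t => hNsq.squarefree_of_dvd (hNfdvd t)
  -- membership of the raising primes
  have hprmem : ∀ t, (pr t : ℕ) ∈
      Finset.univ.image (fun j : Fin m => (pr (Sum.inl j) : ℕ)) ∪
        Finset.univ.image (fun l : Fin e => (pr (Sum.inr l) : ℕ)) := by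
    rintro (j | l)
    · exact Finset.mem_union_left _ (Finset.mem_image_of_mem _ (Finset.mem_univ j))
    · exact Finset.mem_union_right _ (Finset.mem_image_of_mem _ (Finset.mem_univ l))
  have hE2 : ∀ q : ℕ, q.Prime → q ∣ N₀ →
      q ∈ s59q_WSmin W hΔ hp𝒪 ∨ s59e3q_E2Alt p (s59i_rhobarW W p hΔ 𝒪 hp𝒪) q := by
    intro q hq hqN
    by_cases hqp : q = p
    · subst hqp
      exact Or.inl (s59q_WSmin_p_mem W hΔ hp𝒪)
    rcases hNtype q hq hqp hqN with h | ⟨hg, h1, h2⟩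
    · exact Or.inl ((s59q_WSmin_hmin W hΔ hp𝒪 hp2 q hq hqp).mpr fun hunr =>
        h ((s59q_W_unram_iff W hΔ hp𝒪 q).mp hunr))
    · exact Or.inr (s59e3q_E2Alt_of_good W hΔ hp𝒪 hp2 hirr q hq hqp hg h1 h2)
  have hN00 : N₀ * ∏ l ∈ Finset.range (min 0 k), ((pr (Sum.swap (step l)) : ℕ)) = N₀ := by
    rw [Nat.zero_min, Finset.range_zero, Finset.prod_empty, mul_one]
  have H := HF hp2 B hp35 hss hirr hbadp hc4p hpeu hB2 𝒪 hp𝒪 hsplitℤ habs Nd k
    (fun t => N₀ * ∏ l ∈ Finset.range (min t k), ((pr (Sum.swap (step l)) : ℕ)))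
    (fun t => (pr (Sum.swap (step t)) : ℕ))
    (fun t => ⟨fun h0 => hN0 (Nat.eq_zero_of_zero_dvd (h0 ▸ hNfdvd t))⟩)
    (fun t _ => (pr (Sum.swap (step t))).2)
    (fun t ht => by
      show N₀ * ∏ l ∈ Finset.range (min (t + 1) k), ((pr (Sum.swap (step l)) : ℕ)) =
        (N₀ * ∏ l ∈ Finset.range (min t k), ((pr (Sum.swap (step l)) : ℕ))) *
          (pr (Sum.swap (step t)) : ℕ)
      rw [min_eq_left (Nat.succ_le_of_lt ht), min_eq_left ht.le, Finset.prod_range_succ, mul_assoc])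
    (fun t ht => by
      show N₀ * ∏ l ∈ Finset.range (min t k), ((pr (Sum.swap (step l)) : ℕ)) =
        N₀ * ∏ l ∈ Finset.range (min k k), ((pr (Sum.swap (step l)) : ℕ))
      rw [min_eq_right ht, min_self])
    hsqf (fun t => hpN₀.trans (hN₀dvd t)) hB1
    (fun t => s59e_Lmin_levelOcc W p _ B (hB1 t) hB2
      (s59v_resMod_mono (hN₀dvd t) (hsqf t) hres))
    (fun t => h23.trans (hN₀dvd t))
    (by
      show W.IsResiduallyModularOfLevel p
        (N₀ * ∏ l ∈ Finset.range (min 0 k), ((pr (Sum.swap (step l)) : ℕ)))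
      rw [hN00]
      exact hres)
    (by
      show W.IsResiduallyModularOfLevel p
        ((N₀ * ∏ l ∈ Finset.range (min 0 k), ((pr (Sum.swap (step l)) : ℕ))) / p)
      rw [hN00]
      exact hresM)
    (fun t => φq (Sum.swap (step t))) (fun t => σq (Sum.swap (step t)))
    (fun t _ => ⟨primeLocalPlace (pr (Sum.swap (step t))), s56z_place_liesOver _, hφq _⟩)
    (fun t _ => ⟨primeLocalPlace (pr (Sum.swap (step t))), s56z_place_liesOver _, (hσq _).1⟩)
    (fun t ht => by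
      obtain ⟨h1, h2', h3, h4, h5⟩ := hprops (Sum.swap (step t))
      refine ⟨h1, ?_, h3, h4, h5⟩
      show ¬ (pr (Sum.swap (step t)) : ℕ) ∣
        N₀ * ∏ l ∈ Finset.range (min 0 k), ((pr (Sum.swap (step l)) : ℕ))
      rw [hN00]
      exact h2')
    (s59q_WSmin W hΔ hp𝒪 ∪
      (Finset.univ.image (fun j : Fin m => (pr (Sum.inl j) : ℕ)) ∪
        Finset.univ.image (fun l : Fin e => (pr (Sum.inr l) : ℕ))))
    (s59q_WSmin W hΔ hp𝒪 ∪
      (Finset.univ.image (fun j : Fin m => (pr (Sum.inl j) : ℕ)) ∪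
        Finset.univ.image (fun l : Fin e => (pr (Sum.inr l) : ℕ))))
    (s59q_WSmin W hΔ hp𝒪) (s59q_WSmin W hΔ hp𝒪)
    (s59q_WSmin_p_mem W hΔ hp𝒪) Finset.subset_union_left (Finset.Subset.refl _)
    (s59q_WSmin_hmin W hΔ hp𝒪 hp2)
    (by
      intro q hq
      rcases Finset.mem_union.mp hq with h | h
      · exact s59q_WSmin_subset W hΔ hp𝒪 B hpB hB2Δ h
      · have : ∃ t, (pr t : ℕ) = q := by
          rcases Finset.mem_union.mp h with h' | h'
          · obtain ⟨j, -, hj⟩ := Finset.mem_image.mp h'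
            exact ⟨Sum.inl j, hj⟩
          · obtain ⟨l, -, hl⟩ := Finset.mem_image.mp h'
            exact ⟨Sum.inr l, hl⟩
        obtain ⟨t, rfl⟩ := this
        exact hB2 _ (pr t).2 (hprops t).2.2.1)
    (by
      intro t q hq hqN
      rcases (Nat.Prime.dvd_mul hq).mp hqN with h | h
      · exact (hE2 q hq h).imp (fun h' => Finset.mem_union_left _ h') id
      · obtain ⟨l, -, hd⟩ := (Prime.dvd_finsetProd_iff hq.prime _).mp h
        have hql : q = (pr (Sum.swap (step l)) : ℕ) :=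
          (Nat.prime_dvd_prime_iff_eq hq (pr (Sum.swap (step l))).2).mp hd
        rw [hql]
        exact Or.inl (Finset.mem_union_right _ (hprmem _)))
    (by
      intro q hq hqN
      have hqN' : q ∣ N₀ := by
        have h0 : N₀ * ∏ l ∈ Finset.range (min 0 k), ((pr (Sum.swap (step l)) : ℕ)) = N₀ := by
          rw [Nat.zero_min, Finset.range_zero, Finset.prod_empty, mul_one]
        rw [← h0]
        exact hqN
      exact hE2 q hq hqN')
    (by
      intro t _ hmem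
      exact ((s59q_WSmin_hmin W hΔ hp𝒪 hp2 _ (pr (Sum.swap (step t))).2
        (hprops _).1).mp hmem) (hprops _).2.2.2.1)
    (by
      intro q hq
      rcases Finset.mem_union.mp hq with h | h
      · exact Or.inl h
      · have : ∃ t, (pr t : ℕ) = q := by
          rcases Finset.mem_union.mp h with h' | h'
          · obtain ⟨j, -, hj⟩ := Finset.mem_image.mp h'
            exact ⟨Sum.inl j, hj⟩
          · obtain ⟨l, -, hl⟩ := Finset.mem_image.mp h'
            exact ⟨Sum.inr l, hl⟩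
        obtain ⟨t, rfl⟩ := this
        obtain ⟨t', h1, h3⟩ := hcover (Sum.swap t)
        refine Or.inr ⟨t', h1, ?_⟩
        show (pr t : ℕ) = (pr (Sum.swap (step t')) : ℕ)
        rw [h3, Sum.swap_swap])
    (fun t _ => Finset.mem_union_right _ (hprmem _))
    Finset.subset_union_left
    D0 Dm (s59q_ZIdx m e)
  obtain ⟨Bs, hHk, -, -, HL⟩ := H
  refine ⟨Bs, ?_, fun r _ n qv h1 h2 h3 DQ Dsf κsf hκ hκtr =>
    HL r n qv h1 h2 h3 DQ Dsf κsf hκ hκtr⟩
  haveI hNZk : NeZero (N₀ * ∏ l ∈ Finset.range (min k k), ((pr (Sum.swap (step l)) : ℕ))) :=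
    ⟨fun h0 => hN0 (Nat.eq_zero_of_zero_dvd (h0 ▸ hNfdvd k))⟩
  exact s59f_HkFrobP_congr hNk (↑B : Set ℕ) (Bs.R k) (Bs.ρR k) hHk

end Fermat.Agent.Lib.S59

end
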