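/-
[LOC+s] part 12 (helper3, prefix `s59u_st_`): **the dichotomy at a prime of type (iv)** (`u ≡ 1`,
scalar residual Frobenius): in a local DOMAIN in which `u ≠ 0`, `1 − u ≠ 0`, `1 + u` is a unit, a
unipotent point (helper4's relations `s59l_r0 = s59l_r2 = s59l_r3 = s59l_r4 = 0`, `a² = u + Q(W)`,
`a ≡ ε(u+1)/2`) is either unramified (`N = 0`) or satisfies the five Steinberg relations
`Q(W) = ϑ²`, `(W − ϑ) N = 0` with `ϑ = ε(u−1)/2` — i.e. `Kind.Rel` of kind `unr` or `st ϑ`.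
Also in the matrix form of `LInstM.lean` (`s59i_tl`, `s59i_ht`).
-/
import Mathlib
import Fermat.Agent.Lib.S59.UStF
import Fermat.Agent.Lib.S59.LUnip
import Fermat.Agent.Lib.S59.LInstM

set_option autoImplicit false
set_option linter.unusedSectionVars false
set_option linter.unusedVariables false
set_option linter.style.haveILetI false

noncomputable section

namespace Fermat.Agent.Lib.S59

open IsLocalRing

section Dich

variable {T : Type*} [CommRing T] [IsDomain T] [IsLocalRing T]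

/-- **the dichotomy at `u ≡ 1` with scalar residual Frobenius**: a unipotent point with values in
a local domain is unramified or Steinberg with `ϑ = ε(u−1)/2`. -/
theorem s59u_st_dichotomy (e b c f β γ a u ε i2 : T) (hi2 : 2 * i2 = 1) (hε : ε ^ 2 = 1)
    (hu0 : u ≠ 0) (hu1 : 1 - u ≠ 0) (hu2 : IsUnit (1 + u))
    (ha : a ^ 2 = u + (f ^ 2 + β * γ)) (ha0 : a - ε * (u + 1) * i2 ∈ maximalIdeal T)
    (h0 : s59l_r0 e b c = 0) (h2 : s59l_r2 e b f β a u = 0) (h3 : s59l_r3 e c f γ a u = 0)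
    (h4 : s59l_r4 e b c f β γ u = 0) :
    (e = 0 ∧ b = 0 ∧ c = 0) ∨
      (f ^ 2 + β * γ = (ε * (u - 1) * i2) ^ 2 ∧
        (f - ε * (u - 1) * i2) * e + β * c = 0 ∧ (f - ε * (u - 1) * i2) * b - β * e = 0 ∧
        γ * e - (f + ε * (u - 1) * i2) * c = 0 ∧ γ * b + (f + ε * (u - 1) * i2) * e = 0) := by
  simp only [s59l_r0] at h0
  simp only [s59l_r2] at h2
  simp only [s59l_r3] at h3
  have h4' : 2 * e * f + b * γ + c * β = 0 := by
    simp only [s59l_r4] at h4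
    rcases mul_eq_zero.mp h4 with h | h
    · exact absurd h hu1
    · exact h
  have h4i : (4 : T) * i2 ^ 2 = 1 := by linear_combination (2 * i2 + 1) * hi2
  have h2u : IsUnit (2 : T) := s59l_isUnit_two hi2
  -- the `(1,1)` entry of `a(1−u) N + (1+u) W N`
  have h1 : a * (1 - u) * e + (1 + u) * (f * e + β * c) = 0 := by
    have key : e * (a * (1 - u) * e + (1 + u) * (f * e + β * c)) = 0 := by
      linear_combination (a * (1 - u) + (1 + u) * f) * h0 - c * h2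
    rcases mul_eq_zero.mp key with he | h
    · -- `e = 0`
      have hbc : b * c = 0 := by rw [he] at h0; linear_combination h0
      rcases mul_eq_zero.mp hbc with hb | hc
      · -- `b = 0`
        have hcβ : c * β = 0 := by rw [he, hb] at h4'; linear_combination h4'
        rw [he]
        linear_combination (1 + u) * hcβ
      · rw [he, hc]; ring
    · exact h
  have h22 : -(a * (1 - u) * e) + (1 + u) * (γ * b + f * e) = 0 := by
    linear_combination (-1 : T) * h1 + (1 + u) * h4'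
  by_cases hN : e = 0 ∧ b = 0 ∧ c = 0
  · exact Or.inl hN
  right
  -- `(1+u)² Q = a² (1−u)²`
  have hQ : (1 + u) ^ 2 * (f ^ 2 + β * γ) = (a * (1 - u)) ^ 2 := by
    have he' : ((1 + u) ^ 2 * (f ^ 2 + β * γ) - (a * (1 - u)) ^ 2) * e = 0 := by
      linear_combination ((1 + u) * f - a * (1 - u)) * h1 + ((1 + u) * β) * h3
    have hc' : ((1 + u) ^ 2 * (f ^ 2 + β * γ) - (a * (1 - u)) ^ 2) * c = 0 := by
      linear_combination ((1 + u) * γ) * h1 - ((1 + u) * f + a * (1 - u)) * h3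
    have hb' : ((1 + u) ^ 2 * (f ^ 2 + β * γ) - (a * (1 - u)) ^ 2) * b = 0 := by
      linear_combination ((1 + u) * f - a * (1 - u)) * h2 + ((1 + u) * β) * h22
    by_contra hne
    have hne' : (1 + u) ^ 2 * (f ^ 2 + β * γ) - (a * (1 - u)) ^ 2 ≠ 0 := sub_ne_zero.mpr hne
    refine hN ⟨?_, ?_, ?_⟩
    · exact (mul_eq_zero.mp he').resolve_left hne'
    · exact (mul_eq_zero.mp hb').resolve_left hne'
    · exact (mul_eq_zero.mp hc').resolve_left hne'
  -- `4 Q = (1−u)²`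
  have hQ4 : 4 * (f ^ 2 + β * γ) = (1 - u) ^ 2 := by
    have : u * (4 * (f ^ 2 + β * γ) - (1 - u) ^ 2) = 0 := by
      linear_combination hQ + (1 - u) ^ 2 * ha
    rcases mul_eq_zero.mp this with h | h
    · exact absurd h hu0
    · linear_combination h
  -- `2a = ε(1+u)`
  have h2a : 2 * a = ε * (1 + u) := by
    have hprod : (2 * a - ε * (1 + u)) * (2 * a + ε * (1 + u)) = 0 := by
      linear_combination 4 * ha + hQ4 - (1 + u) ^ 2 * hε
    have hunit : IsUnit (2 * a + ε * (1 + u)) := by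
      refine s59l_isUnit_of_sub_mem (y := 2 * (ε * (1 + u)))
        (h2u.mul ((s59l_isUnit_eps hε).mul hu2)) ?_
      have e1 : 2 * a + ε * (1 + u) - 2 * (ε * (1 + u)) =
          2 * (a - ε * (u + 1) * i2) + (ε * (1 + u)) * (2 * i2 - 1) := by ring
      rw [e1, hi2, sub_self, mul_zero, add_zero]
      exact Ideal.mul_mem_left _ _ ha0
    rcases mul_eq_zero.mp hprod with h | h
    · linear_combination h
    · exact absurd h hunit.ne_zero
  -- `a(1−u) = −(1+u) ϑ`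
  have hlam : a * (1 - u) = -((1 + u) * (ε * (u - 1) * i2)) := by
    linear_combination ((1 - u) * i2) * h2a - (a * (1 - u)) * hi2
  have hμ : (1 + u) ≠ 0 := hu2.ne_zero
  refine ⟨?_, ?_, ?_, ?_, ?_⟩
  · linear_combination (i2 ^ 2) * hQ4 - (f ^ 2 + β * γ) * h4i - ((u - 1) ^ 2 * i2 ^ 2) * hε
  · have : (1 + u) * ((f - ε * (u - 1) * i2) * e + β * c) = 0 := by
      linear_combination h1 - e * hlam
    exact (mul_eq_zero.mp this).resolve_left hμ
  · have : (1 + u) * ((f - ε * (u - 1) * i2) * b - β * e) = 0 := by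
      linear_combination h2 - b * hlam
    exact (mul_eq_zero.mp this).resolve_left hμ
  · have : (1 + u) * (γ * e - (f + ε * (u - 1) * i2) * c) = 0 := by
      linear_combination h3 - c * hlam
    exact (mul_eq_zero.mp this).resolve_left hμ
  · have : (1 + u) * (γ * b + (f + ε * (u - 1) * i2) * e) = 0 := by
      linear_combination h22 + e * hlam
    exact (mul_eq_zero.mp this).resolve_left hμ

end Dich

section Kind

variable {𝒪 : Type} [CommRing 𝒪]

/-- **the dichotomy, as kinds**: over `ι : 𝒪 → T` (`T` a local domain), a unipotent point at a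
prime of type (iv) is of kind `unr` or of kind `st ϑ`, `ϑ = ε(u−1)/2`. -/
theorem s59u_st_kind_dichotomy {T : Type*} [CommRing T] [IsDomain T] [IsLocalRing T]
    (ι : 𝒪 →+* T) (u ε i2 : 𝒪) (hi2 : 2 * i2 = 1) (hε : ε ^ 2 = 1)
    (hu0 : ι u ≠ 0) (hu1 : 1 - ι u ≠ 0) (hu2 : IsUnit (1 + ι u)) (v w : Fin 3 → T) (a : T)
    (ha : a ^ 2 = ι u + (w 0 ^ 2 + w 1 * w 2)) (ha0 : a - ι (ε * (u + 1) * i2) ∈ maximalIdeal T)
    (h0 : s59l_r0 (v 0) (v 1) (v 2) = 0) (h2 : s59l_r2 (v 0) (v 1) (w 0) (w 1) a (ι u) = 0)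
    (h3 : s59l_r3 (v 0) (v 2) (w 0) (w 2) a (ι u) = 0)
    (h4 : s59l_r4 (v 0) (v 1) (v 2) (w 0) (w 1) (w 2) (ι u) = 0) :
    (s59u_st_Kind.unr : s59u_st_Kind 𝒪).Rel ι v w ∨
      (s59u_st_Kind.st (ε * (u - 1) * i2)).Rel ι v w := by
  have hi2' : (2 : T) * ι i2 = 1 := by rw [← map_ofNat ι 2, ← map_mul, hi2, map_one]
  have hε' : ι ε ^ 2 = 1 := by rw [← map_pow, hε, map_one]
  have ha0' : a - ι ε * (ι u + 1) * ι i2 ∈ maximalIdeal T := by
    rw [map_mul, map_mul, map_add, map_one] at ha0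
    exact ha0
  have hϑ : ι (ε * (u - 1) * i2) = ι ε * (ι u - 1) * ι i2 := by
    rw [map_mul, map_mul, map_sub, map_one]
  rcases s59u_st_dichotomy (v 0) (v 1) (v 2) (w 0) (w 1) (w 2) a (ι u) (ι ε) (ι i2) hi2' hε'
    hu0 hu1 hu2 ha ha0' h0 h2 h3 h4 with ⟨he, hb, hc⟩ | ⟨hq, ha', hb', hc', hd'⟩
  · left
    intro i
    fin_cases i
    · exact he
    · exact hb
    · exact hc
  · right
    show w 0 ^ 2 + w 1 * w 2 = ι (ε * (u - 1) * i2) ^ 2 ∧ _
    rw [hϑ]
    exact ⟨hq, ha', hb', hc', hd'⟩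

/-- **the dichotomy, matrix form** (the vocabulary of `LInstM.lean`): `Σ = ρ(σ_q)`, `Φ = ρ(φ_q)`
with `(Σ − 1)² = 0`, `tr Σ = 2`, `Φ (Σ − 1) = u (Σ − 1) Φ`, `det Φ = u`, `½ tr Φ ≡ ε(u+1)/2`. -/
theorem s59u_st_kind_of_matrices {T : Type*} [CommRing T] [IsDomain T] [IsLocalRing T]
    (ι : 𝒪 →+* T) (u ε i2 : 𝒪) (hi2 : 2 * i2 = 1) (hε : ε ^ 2 = 1)
    (hu0 : ι u ≠ 0) (hu1 : 1 - ι u ≠ 0) (hu2 : IsUnit (1 + ι u))
    (Sg Ph : Matrix (Fin 2) (Fin 2) T)
    (h1 : (Sg - 1) * (Sg - 1) = 0) (htr : Sg.trace = 2)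
    (ht : Ph * (Sg - 1) = ι u • ((Sg - 1) * Ph)) (hdet : Ph.det = ι u)
    (hres : s59i_ht (ι i2) Ph - ι (ε * (u + 1) * i2) ∈ maximalIdeal T) :
    (s59u_st_Kind.unr : s59u_st_Kind 𝒪).Rel ι (s59i_tl (ι i2) Sg) (s59i_tl (ι i2) Ph) ∨
      (s59u_st_Kind.st (ε * (u - 1) * i2)).Rel ι (s59i_tl (ι i2) Sg) (s59i_tl (ι i2) Ph) := by
  have hi2' : (2 : T) * ι i2 = 1 := by rw [← map_ofNat ι 2, ← map_mul, hi2, map_one]
  obtain ⟨h2, h3, h4⟩ := s59i_r234_of_tame _ (ι u) hi2' Sg Ph htr ht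
  exact s59u_st_kind_dichotomy ι u ε i2 hi2 hε hu0 hu1 hu2 _ _ (s59i_ht (ι i2) Ph)
    (s59i_sq_of_det _ _ hi2' Ph hdet) hres (s59i_r0_of_unip _ hi2' Sg h1 htr) h2 h3 h4

end Kind

end Fermat.Agent.Lib.S59
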