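/-
CORNER₅ way (A) (helper3, prefix `s59u_`): **level transfer `M → M d` for the `Γ_H`-layer, part 1: characters.**
`d` a natural number, `H' = s59u_w_Hup H d` the preimage of `H` in `(ℤ/M d)ˣ`, `χ' = s59u_w_infl d χ` the inflation of a
Dirichlet character `χ` modulo `M` to the modulus `M d`.
* `s59u_w_infl_mem_XH`, `s59u_w_exists_infl` : `χ ↦ χ'` maps `X_H` ONTO `X_{H'}`;
* `s59u_w_tq_div_mem` : `t_χ / t_{χ'} ∈ F̄₀(M d)` (helper5's invariance criterion `s48wg_mem_bar_of_invariant`).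
-/
import Mathlib
import Fermat.Agent.Lib.S48.WGF
import Fermat.Agent.Lib.S48.WGE

set_option autoImplicit false
set_option linter.unusedSectionVars false

namespace Fermat.Agent.Lib.S59

open ModularCurve CongruenceSubgroup IntermediateField AlgebraicCurve
open Fermat.Agent.Lib.FF Fermat.Agent.Lib.S29 Fermat.Agent.Lib.S37 Fermat.Agent.Lib.S18
open Fermat.Agent.Lib.S48
open scoped MatrixGroups

noncomputable section

local notation "Kb" => AlgebraicClosure ℚ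

variable {M : ℕ} [NeZero M] (H : Subgroup (ZMod M)ˣ) (d : ℕ) [NeZero d]

/-- The preimage of `H` in `(ℤ/M d)ˣ`. -/
def s59u_w_Hup : Subgroup (ZMod (M * d))ˣ := H.comap (ZMod.unitsMap (dvd_mul_right M d))

theorem s59u_w_mem_Hup {u : (ZMod (M * d))ˣ} :
    u ∈ s59u_w_Hup H d ↔ ZMod.unitsMap (dvd_mul_right M d) u ∈ H := Iff.rfl

theorem s59u_w_unitsMap_val (u : (ZMod (M * d))ˣ) :
    ((ZMod.unitsMap (dvd_mul_right M d) u : (ZMod M)ˣ) : ZMod M) =
      ZMod.castHom (dvd_mul_right M d) (ZMod M) (u : ZMod (M * d)) := rfl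

theorem s59u_w_neg_one_mem_Hup (hneg : (-1 : (ZMod M)ˣ) ∈ H) :
    (-1 : (ZMod (M * d))ˣ) ∈ s59u_w_Hup H d := by
  rw [s59u_w_mem_Hup]
  have : ZMod.unitsMap (dvd_mul_right M d) (-1 : (ZMod (M * d))ˣ) = -1 := by
    apply Units.ext
    rw [s59u_w_unitsMap_val]
    simp
  rw [this]
  exact hneg

/-- if `(u : ℤ/M d) = x` then `(unitsMap u : ℤ/M) = x`. -/
theorem s59u_w_unitsMap_intCast (u : (ZMod (M * d))ˣ) (x : ℤ)
    (hu : ((u : (ZMod (M * d))ˣ) : ZMod (M * d)) = ((x : ℤ) : ZMod (M * d))) :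
    ((ZMod.unitsMap (dvd_mul_right M d) u : (ZMod M)ˣ) : ZMod M) = ((x : ℤ) : ZMod M) := by
  rw [s59u_w_unitsMap_val, hu, map_intCast]

/-- The inflation of a character to the modulus `M d`. -/
def s59u_w_infl (χ : DirichletCharacter Kb M) : DirichletCharacter Kb (M * d) :=
  DirichletCharacter.changeLevel (dvd_mul_right M d) χ

theorem s59u_w_infl_unit (χ : DirichletCharacter Kb M) (u : (ZMod (M * d))ˣ) :
    s59u_w_infl d χ ((u : (ZMod (M * d))ˣ) : ZMod (M * d)) =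
      χ ((ZMod.unitsMap (dvd_mul_right M d) u : (ZMod M)ˣ) : ZMod M) := by
  rw [s59u_w_infl, DirichletCharacter.changeLevel_eq_cast_of_dvd, s59u_w_unitsMap_val]
  rfl

/-- on integers prime to `M d` the inflation agrees with the character. -/
theorem s59u_w_infl_intCast (χ : DirichletCharacter Kb M) (x : ℤ)
    (hx : IsUnit ((x : ℤ) : ZMod (M * d))) :
    s59u_w_infl d χ ((x : ℤ) : ZMod (M * d)) = χ ((x : ℤ) : ZMod M) := by
  obtain ⟨u, hu⟩ := hx
  rw [← hu, s59u_w_infl_unit, s59u_w_unitsMap_intCast d u x hu]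

theorem s59u_w_infl_mem_XH {χ : DirichletCharacter Kb M} (hχ : χ ∈ s48wg_XH H) :
    s59u_w_infl d χ ∈ s48wg_XH (s59u_w_Hup H d) := by
  rw [s48wg_mem_XH]
  intro h hh
  rw [s59u_w_infl_unit]
  exact (s48wg_mem_XH H).mp hχ _ ((s59u_w_mem_Hup H d).mp hh)

/-- every character trivial on `H'` is inflated from a character trivial on `H`. -/
theorem s59u_w_exists_infl {ψ : DirichletCharacter Kb (M * d)}
    (hψ : ψ ∈ s48wg_XH (s59u_w_Hup H d)) : ∃ χ ∈ s48wg_XH H, s59u_w_infl d χ = ψ := by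
  haveI : NeZero (M * d) := ⟨Nat.mul_ne_zero (NeZero.ne M) (NeZero.ne d)⟩
  have hψ' := (s48wg_mem_XH (s59u_w_Hup H d)).mp hψ
  have hfac : ψ.FactorsThrough M := by
    rw [DirichletCharacter.factorsThrough_iff_ker_unitsMap (dvd_mul_right M d)]
    intro u hu
    rw [MonoidHom.mem_ker] at hu ⊢
    have huH : u ∈ s59u_w_Hup H d := by
      rw [s59u_w_mem_Hup, hu]
      exact H.one_mem
    apply Units.ext
    rw [MulChar.coe_toUnitHom, hψ' u huH]
    rfl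
  obtain ⟨hdvd, χ, hχ⟩ := hfac
  refine ⟨χ, ?_, hχ.symm⟩
  rw [s48wg_mem_XH]
  intro h hh
  obtain ⟨u, rfl⟩ := ZMod.unitsMap_surjective (dvd_mul_right M d) h
  have h1 := hψ' u ((s59u_w_mem_Hup H d).mpr hh)
  have h2 : ψ ((u : (ZMod (M * d))ˣ) : ZMod (M * d)) =
      χ ((ZMod.unitsMap (dvd_mul_right M d) u : (ZMod M)ˣ) : ZMod M) := by
    rw [hχ]
    exact s59u_w_infl_unit d χ u
  rw [← h2, h1]

theorem s59u_w_infl_even {χ : DirichletCharacter Kb M} (hχ : χ.Even) : (s59u_w_infl d χ).Even := by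
  show s59u_w_infl d χ (-1) = 1
  have h := s59u_w_infl_unit d χ (-1)
  have e : ZMod.unitsMap (dvd_mul_right M d) (-1 : (ZMod (M * d))ˣ) = -1 := by
    apply Units.ext
    rw [s59u_w_unitsMap_val]
    simp
  rw [e] at h
  simp only [Units.val_neg, Units.val_one] at h
  rw [h]
  exact hχ

/-- **`t_χ / t_{χ'} ∈ F̄₀(M d)`.** -/
theorem s59u_w_tq_div_mem (hM : 1 < M) (χ : DirichletCharacter Kb M) (hχ : χ.Even) :
    s48wf_tq χ / s48wf_tq (s59u_w_infl d χ) ∈ modularFunctionFieldBar (M * d) := by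
  haveI : NeZero (M * d) := ⟨Nat.mul_ne_zero (NeZero.ne M) (NeZero.ne d)⟩
  have hN : 1 < M * d := lt_of_lt_of_le hM (Nat.le_mul_of_pos_right M (NeZero.pos d))
  have hMN : M ∣ M * d := dvd_mul_right M d
  have hψ := s48wf_psi_even χ hχ
  have hψ' := s48wf_psi_even (s59u_w_infl d χ) (s59u_w_infl_even d hχ)
  refine s48wg_mem_bar_of_invariant (M * d) _
    (s48wg_TN (s48wf_psi χ) hM hψ hMN)
    (s48wg_TN (s48wf_psi (s59u_w_infl d χ)) hN hψ' dvd_rfl)
    (s48wf_tC (s48wf_psi χ)) (s48wf_tC (s48wf_psi (s59u_w_infl d χ)))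
    (s48wg_TN_isLaurent _ hM hψ hMN) (s48wg_TN_isLaurent _ hN hψ' dvd_rfl)
    (s48wf_tC_ne_zero _) ?_ ?_
  · rw [map_div₀, s48wf_coeffMap_tq, s48wf_coeffMap_tq, div_mul_cancel₀ _ (s48wf_tC_ne_zero _)]
  · intro γ hγ
    have hγ' : γ⁻¹ ∈ Gamma0 (M * d) := inv_mem hγ
    have hγM : γ⁻¹ ∈ Gamma0 M := s48wf_Gamma0_le hMN hγ'
    have hu := s48wf_isUnit_lowerRight hγM
    have hu' := s48wf_isUnit_lowerRight hγ'
    refine s48wg_smul_div_of_semi γ _ _
      (s48wf_psi χ (((γ⁻¹ : SL(2, ℤ)) 1 1 : ℤ) : ZMod M)) (hu.map _).ne_zero ?_ ?_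
    · exact s48wg_smul_TN _ hM hψ hMN hγ
    · rw [s48wg_smul_TN _ hN hψ' dvd_rfl hγ, s48wf_psi_apply, s48wf_psi_apply,
        s59u_w_infl_intCast d χ _ hu']

end

end Fermat.Agent.Lib.S59
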