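/-
CORNER₅ way (A) (helper3): twin of helper2's `BKDivL.lean` over the weak level structure WITHOUT goodness `s59u_LvlW`
(UW37Lvl); proofs unchanged, names `s59b_h_foo ↦ s59u_w_foo`.
-/
import Mathlib
import Fermat.Agent.Lib.S48.HKDiv
import Fermat.Agent.Lib.S48.HKEll
import Fermat.Agent.Lib.S48.KIfaceH
import Fermat.Agent.Lib.S48.HKDivL
import Fermat.Agent.Lib.S59.UW37Lvl

set_option autoImplicit false
set_option linter.unusedSectionVars false

namespace Fermat.Agent.Lib.S59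

open Fermat.Agent.Lib.S48

open UpperHalfPlane hiding I
open Filter Matrix.SpecialLinearGroup Function CongruenceSubgroup ModularGroup AlgebraicCurve
open Fermat.Agent.Lib.FF Fermat.Agent.Lib.S29
open scoped MatrixGroups Manifold Topology WithZero Real

noncomputable section

variable {M : ℕ} [NeZero M] {H : Subgroup (ZMod M)ˣ}

/-- A character trivial on `H ∋ -1` is even. -/
theorem s59u_w_level_even (hL : s59u_LvlW M H) (χ : DirichletCharacter ℂ M)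
    (hχH : ∀ u ∈ H, χ (u : ZMod M) = 1) : χ.Even := by
  have := hχH (-1) hL.neg_one
  simpa [DirichletCharacter.Even] using this

theorem s59u_w_level_one_lt (hL : s59u_LvlW M H) : 1 < M := hL.one_lt

/-- `χ(γ₁₁) = 1` on finite-order elements of `Γ ≤ Γ₀(M)`. -/
theorem s59u_w_level_hfin (hL : s59u_LvlW M H) (χ : DirichletCharacter ℂ M)
    (hχH : ∀ u ∈ H, χ (u : ZMod M) = 1) {Γ : Subgroup SL(2, ℤ)} (hΓ : Γ ≤ Gamma0 M) :
    ∀ γ ∈ Γ, IsOfFinOrder γ → χ ((γ 1 1 : ℤ) : ZMod M) = 1 := by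
  intro γ hγ hfin
  have hG0 := hΓ hγ
  have hunit : IsUnit (((γ 1 1 : ℤ)) : ZMod M) := by
    have := s48c_diag_mul_eq_one (dvd_refl M) hG0
    exact IsUnit.of_mul_eq_one_right _ this
  obtain ⟨u, hu⟩ := hunit
  have huH : u ∈ H := hL.finOrd γ hG0 hfin u hu
  rw [← hu]
  exact hχH u huH

/-- `χ(γ₁₁) = 1` on parabolic elements of `Γ ≤ Γ₀(M)`. -/
theorem s59u_w_level_hpar (hL : s59u_LvlW M H) (χ : DirichletCharacter ℂ M)
    (hχH : ∀ u ∈ H, χ (u : ZMod M) = 1) {Γ : Subgroup SL(2, ℤ)} (hΓ : Γ ≤ Gamma0 M) :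
    ∀ (σ : SL(2, ℤ)) (k : ℕ), σ⁻¹ * T ^ k * σ ∈ Γ →
      χ (((σ⁻¹ * T ^ k * σ) 1 1 : ℤ) : ZMod M) = 1 := by
  intro σ k hmem
  have hG0 := hΓ hmem
  set γ : SL(2, ℤ) := σ⁻¹ * T ^ k * σ with hγ
  have hunit : IsUnit (((γ 1 1 : ℤ)) : ZMod M) := by
    have := s48c_diag_mul_eq_one (dvd_refl M) hG0
    exact IsUnit.of_mul_eq_one_right _ this
  obtain ⟨u, hu⟩ := hunit
  have huH : u ∈ H := hL.par σ k hG0 u hu
  rw [← hu]
  exact hχH u huH

variable {K F : Type*} [Field K] [Field F] [Algebra K F]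
  {Γ : Subgroup SL(2, ℤ)} {φ : F →+* ffm_E M}

/-- **(K-Div)** at the levels `s59u_LvlW`: if `φ h = T_χ ^ n` (`χ` trivial on `H`) then every order
of `h` is divisible by `n`. -/
theorem s59u_w_kdiv_level (hL : s59u_LvlW M H) (χ : DirichletCharacter ℂ M)
    (hχH : ∀ u ∈ H, χ (u : ZMod M) = 1) (hpl : s48h_PlacesHyp K M Γ φ) (hΓ : Γ ≤ Gamma0 M)
    (n : ℕ) [NeZero n] (h : F) (hh : h ≠ 0)
    (hφ : φ h = algebraMap (ffm_R M) (ffm_E M)
      ⟨fun z => s48k_T χ z ^ n,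
        s48h_T_pow_isWH χ (s59u_w_level_one_lt hL) (s59u_w_level_even hL χ hχH) n⟩)
    (v : Place K F) : (n : ℤ) ∣ v.ord h :=
  s48h_kdiv χ (s59u_w_level_one_lt hL) (s59u_w_level_even hL χ hχH) hpl hΓ
    (s59u_w_level_hfin hL χ hχH hΓ) (s59u_w_level_hpar hL χ hχH hΓ) n h hh hφ v

end

end Fermat.Agent.Lib.S59

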