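/-
CORNER₅ way (A) (helper3): twin of helper2's `BKDivQ.lean` over the weak level structure WITHOUT goodness `s59u_LvlW`
(UW37Lvl); proofs unchanged, names `s59b_h_foo ↦ s59u_w_foo`.
-/
import Mathlib
import Fermat.Agent.Lib.S48.HKDivL
import Fermat.Agent.Lib.S29.DCLaurent
import Fermat.Agent.Lib.S18.QPlace
import Fermat.Agent.Lib.S48.HKDivQ
import Fermat.Agent.Lib.S59.UW37Lvl
import Fermat.Agent.Lib.S59.UW37DivL

set_option autoImplicit false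
set_option linter.unusedSectionVars false

namespace Fermat.Agent.Lib.S59

open Fermat.Agent.Lib.S48

open AlgebraicCurve ModularCurve CongruenceSubgroup
open Fermat.Agent.Lib.FF Fermat.Agent.Lib.S18 Fermat.Agent.Lib.S29
open scoped MatrixGroups

noncomputable section

section Generic

variable (F₀ : IntermediateField ℚ (LaurentSeries ℚ))

end Generic

section Level

variable {M : ℕ} [NeZero M] {H : Subgroup (ZMod M)ˣ}
  (F₀ : IntermediateField ℚ (LaurentSeries ℚ))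
  {K0 : Type*} [Field K0] [Algebra ℚ K0] [Algebra K0 ℂ] [IsAlgClosed K0]
  {Γ : Subgroup SL(2, ℤ)} {φ : ↥(laurentBaseChange ℂ F₀) →+* ffm_E M}

/-- **(K-Div) over `ℚ̄`** (any algebraically closed `K0 ⊆ ℂ`). -/
theorem s59u_w_kdivQ_level (hL : s59u_LvlW M H) (χ : DirichletCharacter ℂ M)
    (hχH : ∀ u ∈ H, χ (u : ZMod M) = 1) (hpl : s48h_PlacesHyp ℂ M Γ φ) (hΓ : Γ ≤ Gamma0 M)
    (x0 : ↥(laurentBaseChange K0 F₀)) [FFGen K0 x0]
    (n : ℕ) [NeZero n] (h : ↥(laurentBaseChange K0 F₀)) (hh : h ≠ 0)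
    (hφ : φ (s18q_map (algebraMap K0 ℂ) F₀ h) = algebraMap (ffm_R M) (ffm_E M)
      ⟨fun z => s48k_T χ z ^ n,
        s48h_T_pow_isWH χ (s59u_w_level_one_lt hL) (s59u_w_level_even hL χ hχH) n⟩)
    (P : Place K0 ↥(laurentBaseChange K0 F₀)) : (n : ℤ) ∣ P.ord h :=
  s48h_dvd_ord_descend (K1 := ℂ) F₀ x0 n h
    (s59u_w_kdiv_level hL χ hχH hpl hΓ n _ ((map_ne_zero _).mpr hh) hφ) P

/-- **(K-Div) over the subfields `L₀ ⊆ ℚ̄`** (`K0/L₀` algebraic). -/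
theorem s59u_w_kdivL_level (hL : s59u_LvlW M H) (χ : DirichletCharacter ℂ M)
    (hχH : ∀ u ∈ H, χ (u : ZMod M) = 1) (hpl : s48h_PlacesHyp ℂ M Γ φ) (hΓ : Γ ≤ Gamma0 M)
    (x0 : ↥(laurentBaseChange K0 F₀)) [FFGen K0 x0]
    (L₀ : Type*) [Field L₀] [Algebra ℚ L₀] [Algebra L₀ K0] [Algebra.IsAlgebraic L₀ K0]
    (n : ℕ) [NeZero n] (h : ↥(laurentBaseChange L₀ F₀)) (hh : h ≠ 0)
    (hφ : φ (s18q_map (algebraMap K0 ℂ) F₀ (s18q_map (algebraMap L₀ K0) F₀ h)) =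
      algebraMap (ffm_R M) (ffm_E M)
      ⟨fun z => s48k_T χ z ^ n,
        s48h_T_pow_isWH χ (s59u_w_level_one_lt hL) (s59u_w_level_even hL χ hχH) n⟩)
    (P : Place L₀ ↥(laurentBaseChange L₀ F₀)) : (n : ℤ) ∣ P.ord h :=
  s48h_dvd_ord_restrict F₀ L₀ (K := K0) n h
    (s59u_w_kdivQ_level F₀ hL χ hχH hpl hΓ x0 n _ ((map_ne_zero _).mpr hh) hφ) P

end Level

end

end Fermat.Agent.Lib.S59

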