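/-
CORNER₅ way (A) (helper3): twin of helper2's `BKDivT.lean` over the weak level structure WITHOUT goodness `s59u_LvlW`
(UW37Lvl); proofs unchanged, names `s59b_h_foo ↦ s59u_w_foo`.
-/
import Mathlib
import Fermat.Agent.Lib.S48.HKF8
import Fermat.Agent.Lib.S48.HKDivQ
import Fermat.Agent.Lib.S48.HKDivT
import Fermat.Agent.Lib.S59.UW37Lvl
import Fermat.Agent.Lib.S59.UW37DivL
import Fermat.Agent.Lib.S59.UW37DivQ

set_option autoImplicit false
set_option linter.unusedSectionVars false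
set_option linter.style.haveILetI false

namespace Fermat.Agent.Lib.S59

open Fermat.Agent.Lib.S48

open UpperHalfPlane hiding I
open AlgebraicCurve ModularCurve IntermediateField Matrix.SpecialLinearGroup CongruenceSubgroup
open Fermat.Agent.Lib.FF Fermat.Agent.Lib.S18 Fermat.Agent.Lib.S29 Fermat.Agent.Lib.S37
open scoped MatrixGroups Manifold

noncomputable section

local notation "Qbar" => AlgebraicClosure ℚ

attribute [local instance] s29a_algebraC

variable {M : ℕ} [NeZero M] {H : Subgroup (ZMod M)ˣ}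

/-- **(K-Div), layer form, over `ℚ̄`.** -/
theorem s59u_w_kdiv_layer (hL : s59u_LvlW M H) {H' : Subgroup (ZMod M)ˣ} (hHH' : H ≤ H')
    (χ : DirichletCharacter Qbar M) (hχH : ∀ u ∈ H, χ (u : ZMod M) = 1)
    (r : ℕ) [NeZero r] (h : ↥(s48k_FH M H'))
    (hh : (h : LaurentSeries Qbar) =
      (HahnSeries.ofPowerSeries ℤ Qbar (s48k_tPS (fun c : ℕ => χ (c : ZMod M)))) ^ r)
    (P : Place Qbar ↥(s48k_FH M H')) : (r : ℤ) ∣ P.ord h := by
  have hM := s59u_w_level_one_lt hL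
  have hneg' : (-1 : (ZMod M)ˣ) ∈ H' := hHH' hL.neg_one
  set ψ : DirichletCharacter ℂ M := χ.ringHomComp (algebraMap Qbar ℂ) with hψ
  have hψH : ∀ u ∈ H, ψ (u : ZMod M) = 1 := by
    intro u hu
    show algebraMap Qbar ℂ (χ (u : ZMod M)) = 1
    rw [hχH u hu, map_one]
  have hpl : s48h_PlacesHyp ℂ M (s48h_GammaH M H') (s48h_phiH (RingHom.id ℂ) H' hM hneg') :=
    s48desc_placesHyp_of_gplaces (s48h_phiH_gbridge (RingHom.id ℂ) hM hneg')
      (s48h_phiH_gdegHyp (RingHom.id ℂ) hM hneg')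
  haveI : FFGen Qbar (s48h_j0 H') := s48h_ffGen_jK (algebraMap Qbar ℂ) hM hneg'
  have h0 : h ≠ 0 := by
    intro h0
    have h1 : (h : LaurentSeries Qbar) = 0 := by rw [h0]; rfl
    rw [hh] at h1
    have h2 := pow_eq_zero_iff (NeZero.ne r) |>.mp h1
    have h3 : s48k_tPS (fun c : ℕ => χ (c : ZMod M)) = 0 :=
      (map_eq_zero_iff _ HahnSeries.ofPowerSeries_injective).mp h2
    have h4 := s48k_constantCoeff_tPS (fun c : ℕ => χ (c : ZMod M))
    rw [h3, map_zero] at h4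
    simp at h4
  refine s59u_w_kdivQ_level (s48k_FHQ M H') hL ψ hψH hpl s48h_GammaH_le_Gamma0 (s48h_j0 H') r h h0
    ?_ P
  refine s48h_phiH_of_isLaurent (RingHom.id ℂ) hM hneg' ?_
  rw [coeffMap_id, s18q_map_coe, hh, map_pow, ffb_coeffMap_ofPowerSeries, s48k_tPS_map]
  exact s48h_isLaurent_pow (s48k_T_isLaurent ψ hM (s59u_w_level_even hL ψ hψH)) r

/-- **(K-Div), layer form, over the subfields `L₀ ⊆ ℚ̄`.** -/
theorem s59u_w_kdiv_layer_L (hL : s59u_LvlW M H) {H' : Subgroup (ZMod M)ˣ} (hHH' : H ≤ H')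
    (χ : DirichletCharacter Qbar M) (hχH : ∀ u ∈ H, χ (u : ZMod M) = 1)
    (L₀ : Type*) [Field L₀] [Algebra ℚ L₀] [Algebra L₀ Qbar] [Algebra.IsAlgebraic L₀ Qbar]
    (r : ℕ) [NeZero r] (h : ↥(laurentBaseChange L₀ (s48k_FHQ M H')))
    (hh : coeffMap (algebraMap L₀ Qbar) (h : LaurentSeries L₀) =
      (HahnSeries.ofPowerSeries ℤ Qbar (s48k_tPS (fun c : ℕ => χ (c : ZMod M)))) ^ r)
    (P : Place L₀ ↥(laurentBaseChange L₀ (s48k_FHQ M H'))) : (r : ℤ) ∣ P.ord h :=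
  s48h_dvd_ord_restrict (s48k_FHQ M H') L₀ (K := Qbar) r h
    (s59u_w_kdiv_layer hL hHH' χ hχH r _ hh) P

end

end Fermat.Agent.Lib.S59

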