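/-
CORNER₅ way (A) (helper3, prefix `s59u_`): **level transfer `M → M d` for the `Γ_H`-layer, part 2: the function fields.**
`H' = s59u_w_Hup H d`.  As subfields of `ℚ̄((q))`:
* `s59u_w_FH_le_up` : `F_H(M) ⊆ F_{H'}(M d)`;
* `s59u_w_up_eq`    : `F_{H'}(M d) = F'_d(M, H)` (the target `laurentBaseChange ℚ̄ (s48k_FHQp M H d)` of the degeneracy maps at `d`);
* `s59u_w_pi`       : the inclusion `π : F_H(M) → F_{H'}(M d)`, `s59u_w_finrankAlong_pi : [F_{H'}(M d) : π F_H(M)] = d + 1` for a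
  prime `d ∤ M`, `s59u_w_finiteAlong_pi`.
-/
import Mathlib
import Fermat.Agent.Lib.S59.UW37Char

set_option autoImplicit false
set_option linter.unusedSectionVars false
set_option linter.style.haveILetI false

namespace Fermat.Agent.Lib.S59

open ModularCurve CongruenceSubgroup IntermediateField AlgebraicCurve
open Fermat.Agent.Lib.FF Fermat.Agent.Lib.S29 Fermat.Agent.Lib.S37 Fermat.Agent.Lib.S18
open Fermat.Agent.Lib.S48
open scoped MatrixGroups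

noncomputable section

local notation "Kb" => AlgebraicClosure ℚ

/-! ### Generic: degrees along a composite with an isomorphism -/

theorem s59u_w_finrankAlong_equiv_comp {K F F₁ F₂ : Type*} [Field K] [Field F] [Field F₁]
    [Field F₂] [Algebra K F] [Algebra K F₁] [Algebra K F₂] (φ : F →ₐ[K] F₁) (e : F₁ ≃ₐ[K] F₂) :
    finrankAlong K ((e : F₁ →ₐ[K] F₂).comp φ) = finrankAlong K φ := by
  letI a1 : Algebra F F₁ := algebraAlong φ
  letI a2 : Algebra F F₂ := algebraAlong ((e : F₁ →ₐ[K] F₂).comp φ)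
  let l : F₁ ≃ₗ[F] F₂ :=
    { toFun := e
      invFun := e.symm
      map_add' := map_add e
      map_smul' := fun c x => by
        show e (φ c * x) = e (φ c) * e x
        exact map_mul e _ _
      left_inv := e.left_inv
      right_inv := e.right_inv }
  exact l.finrank_eq.symm

variable {M : ℕ} [NeZero M] (H : Subgroup (ZMod M)ˣ) (d : ℕ) [NeZero d]

theorem s59u_w_bar_le_up :
    modularFunctionFieldBar M ≤ s48k_FH (M * d) (s59u_w_Hup H d) := by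
  haveI : NeZero (M * d) := ⟨Nat.mul_ne_zero (NeZero.ne M) (NeZero.ne d)⟩
  exact (s18l_bar_mono (dvd_mul_right M d)).trans (s48wg_bar_le_FH _)

theorem s59u_w_tq_mem_up (hM : 1 < M) (hneg : (-1 : (ZMod M)ˣ) ∈ H)
    (χ : DirichletCharacter Kb M) (hχ : χ ∈ s48wg_XH H) :
    s48wf_tq χ ∈ s48k_FH (M * d) (s59u_w_Hup H d) := by
  haveI : NeZero (M * d) := ⟨Nat.mul_ne_zero (NeZero.ne M) (NeZero.ne d)⟩
  have h1 := s59u_w_tq_div_mem d hM χ ((s48wg_charSet_XH H hneg).even χ hχ)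
  have h2 := s48wg_tq_mem_FH (s59u_w_Hup H d) (s59u_w_infl d χ) (s59u_w_infl_mem_XH H d hχ)
  have e : s48wf_tq χ = s48wf_tq χ / s48wf_tq (s59u_w_infl d χ) * s48wf_tq (s59u_w_infl d χ) :=
    (div_mul_cancel₀ _ (s48wf_tq_ne_zero _)).symm
  rw [e]
  exact mul_mem (s48wg_bar_le_FH _ h1) h2

/-- **`F_H(M) ⊆ F_{H'}(M d)`.** -/
theorem s59u_w_FH_le_up (hM : 1 < M) (hneg : (-1 : (ZMod M)ˣ) ∈ H) :
    s48k_FH M H ≤ s48k_FH (M * d) (s59u_w_Hup H d) :=
  s48wg_FH_le_of H _ (s59u_w_bar_le_up H d) (fun χ hχ => s59u_w_tq_mem_up H d hM hneg χ hχ)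

/-- `F'_d(M, H) ⊆ F_{H'}(M d)`. -/
theorem s59u_w_FHp_le_up (hM : 1 < M) (hneg : (-1 : (ZMod M)ˣ) ∈ H) :
    laurentBaseChange Kb (s48k_FHQp M H d) ≤ s48k_FH (M * d) (s59u_w_Hup H d) := by
  haveI : NeZero (M * d) := ⟨Nat.mul_ne_zero (NeZero.ne M) (NeZero.ne d)⟩
  intro x hx
  have hx' := (s48wg_mem_RN_iff_FHp H d hM hneg x).mpr hx
  have hle : s48wg_RN (M * d) (s48wg_XH H) ≤
      IntermediateField.extendScalars (s48wg_bar_le_FH (s59u_w_Hup H d)) := by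
    rw [s48wg_RN, IntermediateField.adjoin_le_iff]
    rintro _ ⟨χ, rfl⟩
    exact s59u_w_tq_mem_up H d hM hneg _ χ.2
  exact hle hx'

/-- `F_{H'}(M d) ⊆ F'_d(M, H)`. -/
theorem s59u_w_up_le_FHp (hM : 1 < M) (hneg : (-1 : (ZMod M)ˣ) ∈ H) :
    s48k_FH (M * d) (s59u_w_Hup H d) ≤ laurentBaseChange Kb (s48k_FHQp M H d) := by
  haveI : NeZero (M * d) := ⟨Nat.mul_ne_zero (NeZero.ne M) (NeZero.ne d)⟩
  refine s48wg_FH_le_of (s59u_w_Hup H d) _ (s48wg_bar_le_FHp H d) ?_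
  intro ψ hψ
  obtain ⟨χ, hχ, rfl⟩ := s59u_w_exists_infl H d hψ
  have h1 := s59u_w_tq_div_mem d hM χ ((s48wg_charSet_XH H hneg).even χ hχ)
  have h2 : s48wf_tq χ ∈ laurentBaseChange Kb (s48k_FHQp M H d) :=
    s48wg_FH_le_FHp H d (s48wg_tq_mem_FH H χ hχ)
  have e : s48wf_tq (s59u_w_infl d χ) =
      s48wf_tq χ / (s48wf_tq χ / s48wf_tq (s59u_w_infl d χ)) := by
    rw [div_div_cancel₀ (s48wf_tq_ne_zero χ)]
  rw [e]
  exact div_mem h2 (s48wg_bar_le_FHp H d h1)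

/-- **`F_{H'}(M d) = F'_d(M, H)`.** -/
theorem s59u_w_up_eq (hM : 1 < M) (hneg : (-1 : (ZMod M)ˣ) ∈ H) :
    laurentBaseChange Kb (s48k_FHQp M H d) = s48k_FH (M * d) (s59u_w_Hup H d) :=
  le_antisymm (s59u_w_FHp_le_up H d hM hneg) (s59u_w_up_le_FHp H d hM hneg)

/-- **The inclusion `π : F_H(M) → F_{H'}(M d)`.** -/
def s59u_w_pi (hM : 1 < M) (hneg : (-1 : (ZMod M)ˣ) ∈ H) :
    ↥(s48k_FH M H) →ₐ[Kb] ↥(s48k_FH (M * d) (s59u_w_Hup H d)) :=
  IntermediateField.inclusion (s59u_w_FH_le_up H d hM hneg)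

@[simp] theorem s59u_w_coe_pi (hM : 1 < M) (hneg : (-1 : (ZMod M)ˣ) ∈ H) (x : ↥(s48k_FH M H)) :
    ((s59u_w_pi H d hM hneg x : ↥(s48k_FH (M * d) (s59u_w_Hup H d))) : LaurentSeries Kb) =
      (x : LaurentSeries Kb) :=
  IntermediateField.coe_inclusion _ x

theorem s59u_w_pi_eq (hM : 1 < M) (hneg : (-1 : (ZMod M)ˣ) ∈ H) :
    s59u_w_pi H d hM hneg =
      ((IntermediateField.equivOfEq (s59u_w_up_eq H d hM hneg) :
        ↥(laurentBaseChange Kb (s48k_FHQp M H d)) →ₐ[Kb]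
          ↥(s48k_FH (M * d) (s59u_w_Hup H d)))).comp (s48k_heckeAlphaH M H d) := by
  apply AlgHom.ext
  intro x
  apply Subtype.ext
  rw [s59u_w_coe_pi, AlgHom.comp_apply]
  show (x : LaurentSeries Kb) = ((IntermediateField.equivOfEq (s59u_w_up_eq H d hM hneg)
    (s48k_heckeAlphaH M H d x) : ↥(s48k_FH (M * d) (s59u_w_Hup H d))) : LaurentSeries Kb)
  rw [IntermediateField.equivOfEq_apply]
  exact (s48k_coe_heckeAlphaH M H d x).symm

/-- **`[F_{H'}(M d) : π F_H(M)] = d + 1`.** -/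
theorem s59u_w_finrankAlong_pi (hM : 1 < M) (hneg : (-1 : (ZMod M)ˣ) ∈ H) (hd : d.Prime)
    (hdM : ¬ d ∣ M) : finrankAlong Kb (s59u_w_pi H d hM hneg) = d + 1 := by
  rw [s59u_w_pi_eq, s59u_w_finrankAlong_equiv_comp]
  exact s48wg_finrankAlong_alpha H d hM hneg hd hdM

theorem s59u_w_finiteAlong_pi (hM : 1 < M) (hneg : (-1 : (ZMod M)ˣ) ∈ H) (hd : d.Prime)
    (hdM : ¬ d ∣ M) : FiniteAlong Kb (s59u_w_pi H d hM hneg) := by
  letI := algebraAlong (s59u_w_pi H d hM hneg)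
  show Module.Finite ↥(s48k_FH M H) ↥(s48k_FH (M * d) (s59u_w_Hup H d))
  refine Module.finite_of_finrank_pos ?_
  have := s59u_w_finrankAlong_pi H d hM hneg hd hdM
  rw [finrankAlong] at this
  rw [this]
  omega

end

end Fermat.Agent.Lib.S59
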