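/-
PROGRAMME R2 = S59, case (P) non-minimal, [W3] (helper3, prefix `s59u_w_`), file 7: **[PATCH-FLR], ABSTRACT FORM, WEAK
TRACE CLAUSE, BASE CASE BY A MODULAR POINT** — the twin of `s59u_sp_FLR_absL_pt` (USpA.lean; spectator chain): as
`s59u_w_FLR_absL` (UWAbsMainL.lean) with the base hypothesis `h0` replaced by a modular point of the base level lying on
the component `c 0` only.  Calls `s59u_w_FLR_points_sq_pt` (UWSqMain.lean).
* `s59u_w_FLR_absL_pt` : the theorem.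
-/
import Mathlib
import Fermat.Agent.Lib.S59.USpA
import Fermat.Agent.Lib.S59.UWSqMain
import Fermat.Agent.Lib.S59.UWAbsStep

set_option autoImplicit false
set_option linter.unusedSectionVars false
set_option linter.unusedVariables false
set_option linter.style.haveILetI false
set_option maxHeartbeats 3200000

noncomputable section

namespace Fermat.Agent.Lib.S59

open IsLocalRing MvPowerSeries
open Fermat.Agent.Lib.S53 (matOf NormData)
open Fermat.Agent.Lib.S56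

local notation "Γℚ" => (AlgebraicClosure ℚ ≃ₐ[ℚ] AlgebraicClosure ℚ)

variable {𝒪 : Type} [CommRing 𝒪] [IsDomain 𝒪] [IsDiscreteValuationRing 𝒪]
  [IsAdicComplete (maximalIdeal 𝒪) 𝒪] [Finite (ResidueField 𝒪)]
  {ρbar : ResidualGaloisRep (ResidueField 𝒪)}

/-- **[PATCH-FLR], abstract form, base case by a modular point.** -/
theorem s59u_w_FLR_absL_pt
    (i2 : 𝒪) (hi2 : 2 * i2 = 1)
    {𝒟₀ : ∀ ⦃A : Type⦄ [CommRing A] [IsLocalRing A] [Algebra 𝒪 A], GaloisRepAdic A → Prop}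
    {𝒟Q : ℕ → ∀ ⦃A : Type⦄ [CommRing A] [IsLocalRing A] [Algebra 𝒪 A], GaloisRepAdic A → Prop}
    (D0 : GaloisRep.DeformationRingData 𝒪 ρbar 𝒟₀)
    (DQ : ∀ n, GaloisRep.DeformationRingData 𝒪 ρbar (𝒟Q n))
    (κ : ∀ n, (DQ n).R →ₐ[𝒪] D0.R) (hκs : ∀ n, Function.Surjective (κ n))
    (hκtr : ∀ n g, κ n (s59i_cpTr (DQ n).ρ g) = s59i_cpTr D0.ρ g)
    -- the rings `S` and `P`
    {σ : Type} [Fintype σ] [DecidableEq σ] (r : ℕ)
    (P : Type) [CommRing P] [IsLocalRing P] [IsNoetherianRing P]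
    [IsAdicComplete (maximalIdeal P) P] [Finite (ResidueField P)] [Algebra 𝒪 P]
    [IsNoetherianRing (MvPowerSeries (Fin r) P)]
    (γ : ∀ n, P →ₐ[𝒪] MvPowerSeries σ (DQ n).R) (hγ : ∀ n, Function.Surjective (γ n))
    -- the chain and the ring contract
    (k : ℕ) {ι : Type*} (s : Finset ι) (𝒦 : ι → Ideal P) (c : ℕ → ι) (δ : ℕ → P)
    (𝔫 : ℕ → Ideal P)
    (bP : ℕ → P)
    (hring : s59b_RingDataW (MvPowerSeries σ (MvPowerSeries (Fin r) 𝒪)) P s 𝒦 k c δ 𝔫 bP)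
    (g11 g12 g21 g22 : ℕ → P) (hδ : ∀ t < k, g11 t * g22 t - g12 t * g21 t = δ t)
    -- the base levels
    (R : ℕ → Type) [∀ t, CommRing (R t)] [∀ t, IsLocalRing (R t)] [∀ t, IsNoetherianRing (R t)]
    [∀ t, IsAdicComplete (maximalIdeal (R t)) (R t)] [∀ t, Algebra 𝒪 (R t)]
    [∀ t, IsLocalHom (algebraMap 𝒪 (R t))]
    (hRres : ∀ t, Function.Surjective (residue (R t) ∘ algebraMap 𝒪 (R t)))
    (M : ℕ → Type) [∀ t, AddCommGroup (M t)] [∀ t, Module (R t) (M t)]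
    [∀ t, Module.Finite (R t) (M t)]
    (MQ : ℕ → Type) [∀ t, AddCommGroup (MQ t)] [∀ t, Module (R (t + 1)) (MQ t)]
    (ρ : ∀ t, M (t + 1) →ₗ[R (t + 1)] MQ t) (hρ : ∀ t, Function.Surjective (ρ t))
    (hρinj : ∀ t, k ≤ t → Function.Injective (ρ t))
    (ρR : ∀ t, GaloisRepAdic (R t)) (hρRQ : ∀ t n, 𝒟Q n (ρR t))
    (hresR : ∀ t, (ρR t).residual.IsEquiv
      (ρbar.baseChangeAlong (ResidueField.map (algebraMap 𝒪 (R t)))))
    (ν : ∀ t, D0.R →ₐ[𝒪] R t) (hν : ∀ t g, ν t (s59i_cpTr D0.ρ g) = s59i_cpTr (ρR t) g)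
    (hνs : ∀ t, Function.Surjective (ν t))
    (𝔞 : Ideal (MvPowerSeries σ (MvPowerSeries (Fin r) 𝒪)))
    (h𝔞X : ∀ i, (C (X i) : MvPowerSeries σ (MvPowerSeries (Fin r) 𝒪)) ∈ 𝔞)
    (h𝔞z : ∀ j, (X j : MvPowerSeries σ (MvPowerSeries (Fin r) 𝒪)) ∈ 𝔞)
    (h𝔞le : 𝔞 ≤ Ideal.span (Set.range (fun i : Fin r =>
      (C (X i) : MvPowerSeries σ (MvPowerSeries (Fin r) 𝒪))) ∪ Set.range (fun j : σ =>
      (X j : MvPowerSeries σ (MvPowerSeries (Fin r) 𝒪)))))
    (J : ℕ → Ideal (MvPowerSeries σ (MvPowerSeries (Fin r) 𝒪)))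
    (hJ : ∀ n, J n ≤ maximalIdeal (MvPowerSeries σ (MvPowerSeries (Fin r) 𝒪)) ^ n)
    -- the rings at the Taylor–Wiles level `n` (top level `N_k Q_n`)
    (T' T : ℕ → Type) [∀ n, CommRing (T' n)] [∀ n, IsLocalRing (T' n)]
    [∀ n, IsNoetherianRing (T' n)] [∀ n, IsAdicComplete (maximalIdeal (T' n)) (T' n)]
    [∀ n, Algebra 𝒪 (T' n)]
    [∀ n, CommRing (T n)] [∀ n, IsLocalRing (T n)]
    [∀ n, IsAdicComplete (maximalIdeal (T n)) (T n)]
    [∀ n, Algebra 𝒪 (T n)] [∀ n, Algebra (T' n) (T n)] [∀ n, IsScalarTower 𝒪 (T' n) (T n)]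
    [∀ n, Module.Finite (T' n) (T n)]
    (θ : ∀ n, (DQ n).R →ₐ[𝒪] T' n) (hθ : ∀ n, Function.Surjective (θ n))
    -- the module half: the levels `N_t Q_n`, `t ≤ k`
    (L0 : ∀ t n, s59p_Level (MvPowerSeries σ (MvPowerSeries (Fin r) 𝒪)) (MvPowerSeries σ (T n))
      (R t) (M t) 𝔞 (J n))
    (d : ℕ → ℕ) (hd : ∀ t n, (L0 t n).d = d t)
    (std : ∀ n, MvPowerSeries σ (MvPowerSeries (Fin r) 𝒪) →ₐ[𝒪] MvPowerSeries σ (T n))
    (hstd : ∀ t n x, (L0 t n).φ x = std n x)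
    (hψ𝒪 : ∀ t n (o : 𝒪), (L0 t n).ψ (algebraMap 𝒪 (MvPowerSeries σ (T n)) o) =
      algebraMap 𝒪 (R t) o)
    -- the units
    (uu : ∀ n, Fin r → (T n)ˣ) (huu : ∀ n i, ((uu n i : (T n)ˣ) : T n) - 1 ∈ maximalIdeal (T n))
    (hgen : ∀ n, Algebra.adjoin (T' n) (Set.range (fun i => ((uu n i : (T n)ˣ) : T n)) ∪
      Set.range (fun i => (((uu n i)⁻¹ : (T n)ˣ) : T n))) = ⊤)
    (hstdX : ∀ n i, std n (C (X i)) =
      C (((uu n i : (T n)ˣ) : T n) - (((uu n i)⁻¹ : (T n)ˣ) : T n)))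
    (hstdz : ∀ n j, std n (X j) = X j)
    -- [C8] and the Taylor–Wiles primes
    (σQ : ℕ → ℕ → Fin r → Γℚ)
    (hC8 : ∀ t ≤ k, ∀ n i,
      (C ((((uu n i : (T n)ˣ) : T n) - (((uu n i)⁻¹ : (T n)ˣ) : T n)) ^ 2 -
        algebraMap (T' n) (T n) (θ n (s59i_cpTr (DQ n).ρ (σQ t n i) ^ 2 - 4))) :
          MvPowerSeries σ (T n)) ∈ Module.annihilator (MvPowerSeries σ (T n)) (L0 t n).N)
    (hunrQ : ∀ t n i, s59i_cpTr D0.ρ (σQ t n i) = 2)
    -- the common trace function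
    (hτ : ∀ t n g, (L0 t n).ψ (C (algebraMap (T' n) (T n) (θ n (s59i_cpTr (DQ n).ρ g)))) =
      s59i_cpTr (ρR t) g)
    -- the `T`-side steps
    (𝔫U : ∀ t n, Ideal (MvPowerSeries σ (T n)))
    (h𝔫U : ∀ t < k, ∀ n, ∀ x ∈ 𝔫 t,
      s59f_gammaT (T := T n) (γ n : P →+* MvPowerSeries σ (DQ n).R)
        (θ n : (DQ n).R →+* T' n) x ∈ 𝔫U t n)
    (hT : ∀ t < k, ∀ n, s59b_TStepW (L0 t n) (L0 (t + 1) n)
      (s59f_gammaT (T := T n) (γ n : P →+* MvPowerSeries σ (DQ n).R) (θ n : (DQ n).R →+* T' n)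
        (g11 t))
      (s59f_gammaT (T := T n) (γ n : P →+* MvPowerSeries σ (DQ n).R) (θ n : (DQ n).R →+* T' n)
        (g12 t))
      (s59f_gammaT (T := T n) (γ n : P →+* MvPowerSeries σ (DQ n).R) (θ n : (DQ n).R →+* T' n)
        (g21 t))
      (s59f_gammaT (T := T n) (γ n : P →+* MvPowerSeries σ (DQ n).R) (θ n : (DQ n).R →+* T' n)
        (g22 t))
      (s59f_gammaT (T := T n) (γ n : P →+* MvPowerSeries σ (DQ n).R) (θ n : (DQ n).R →+* T' n)
        (bP t))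
      (ρ t) (𝔫U t n))
    -- kill and the base case
    (hkill : ∀ t ≤ k, ∀ n, ∀ F ∈ s.inf 𝒦,
      s59f_gammaT (T := T n) (γ n : P →+* MvPowerSeries σ (DQ n).R)
        (θ n : (DQ n).R →+* T' n) F ∈ Module.annihilator (MvPowerSeries σ (T n)) (L0 t n).N)
    -- the base point
    (I : ι → Ideal D0.R)
    (hI : ∀ i ∈ s, ∀ n, I i ≤ (𝒦 i).map ((κ n : (DQ n).R →+* D0.R).comp
      ((constantCoeff (σ := σ) (R := (DQ n).R)).comp (γ n : P →+* MvPowerSeries σ (DQ n).R))))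
    (𝔭₀ : Ideal D0.R) [h𝔭₀p : 𝔭₀.IsPrime]
    (hM₀ : ∀ a : D0.R, (∀ m : M 0, ν 0 a • m = 0) → a ∈ 𝔭₀)
    (h𝔭₀ : ∀ i ∈ s, I i ≤ 𝔭₀ → i = c 0)
    -- the point
    (𝒪' : Type) [CommRing 𝒪'] [IsDomain 𝒪'] [IsLocalRing 𝒪'] [IsNoetherianRing 𝒪']
    (x : D0.R →+* 𝒪') (hx : ∀ a ∈ maximalIdeal D0.R, x a ∈ maximalIdeal 𝒪')
    (hxK : ∀ g ∈ 𝒦 (c k), ∀ n, x (κ n (constantCoeff (γ n g))) = 0) :
    RingHom.ker (ν k : D0.R →+* R k) ≤ RingHom.ker x := by
  classical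
  haveI : IsDomain (MvPowerSeries σ (MvPowerSeries (Fin r) 𝒪)) := NoZeroDivisors.to_isDomain _
  -- the two maps `(DQ n).R → R t` agree
  set f₂r : ∀ t n, (DQ n).R →+* R t := fun t n =>
    ((L0 t n).ψ).comp ((C (σ := σ) (R := T n)).comp
      ((algebraMap (T' n) (T n)).comp (θ n : (DQ n).R →+* T' n))) with hf₂r
  have hf₂c : ∀ t n (o : 𝒪), f₂r t n (algebraMap 𝒪 (DQ n).R o) = algebraMap 𝒪 (R t) o := by
    intro t n o
    show (L0 t n).ψ (C (algebraMap (T' n) (T n) (θ n (algebraMap 𝒪 (DQ n).R o)))) = _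
    rw [(θ n).commutes, ← IsScalarTower.algebraMap_apply 𝒪 (T' n) (T n), ← hψ𝒪 t n o,
      MvPowerSeries.algebraMap_apply]
  set f₂ : ∀ t n, (DQ n).R →ₐ[𝒪] R t := fun t n => { f₂r t n with commutes' := hf₂c t n }
    with hf₂
  have hf12 : ∀ t n, (ν t).comp (κ n) = f₂ t n := by
    intro t n
    refine s59f_univ_ext (DQ n) (hRres t) (ρR t) (hρRQ t n) (hresR t) _ _ (fun g => ?_)
      (fun g => ?_)
    · rw [AlgHom.comp_apply, hκtr, hν]
    · exact hτ t n g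
  have hf12' : ∀ t n (b : (DQ n).R), ν t (κ n b) =
      (L0 t n).ψ (C (algebraMap (T' n) (T n) (θ n b))) := by
    intro t n b
    have := congrArg (fun F : (DQ n).R →ₐ[𝒪] R t => F b) (hf12 t n)
    exact this
  -- `ψ` kills the variables
  have hψz : ∀ t n j, (L0 t n).ψ (X j) = 0 := by
    intro t n j
    rw [← hstdz n j, ← hstd t]
    exact (L0 t n).ψ_φ _ (h𝔞z j)
  have hψs : ∀ t n i, (L0 t n).ψ (C (((uu n i : (T n)ˣ) : T n) -
      (((uu n i)⁻¹ : (T n)ˣ) : T n))) = 0 := by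
    intro t n i
    rw [← hstdX n i, ← hstd t]
    exact (L0 t n).ψ_φ _ (h𝔞X i)
  -- the maps over `T' n`, `T n`
  set Γ : ∀ n, MvPowerSeries σ (T' n) →ₐ[𝒪] MvPowerSeries σ (T n) := fun n =>
    MvPowerSeries.mapAlgHom (σ := σ) (IsScalarTower.toAlgHom 𝒪 (T' n) (T n)) with hΓ
  have hΓmap : ∀ n y, Γ n y = MvPowerSeries.map (algebraMap (T' n) (T n)) y := fun n y => rfl
  set γ' : ∀ n, P →ₐ[𝒪] MvPowerSeries σ (T' n) := fun n =>
    (MvPowerSeries.mapAlgHom (σ := σ) (θ n)).comp (γ n) with hγ'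
  have hγ'map : ∀ n a, γ' n a = MvPowerSeries.map (θ n : (DQ n).R →+* T' n) (γ n a) :=
    fun n a => rfl
  have hγ's : ∀ n, Function.Surjective (γ' n) := by
    intro n y
    have h1 : Function.Surjective (MvPowerSeries.map (σ := σ) (θ n : (DQ n).R →+* T' n)) := by
      intro y
      refine ⟨fun d => Function.surjInv (hθ n) (coeff d y), ?_⟩
      ext d
      rw [coeff_map]
      exact Function.surjInv_eq (hθ n) _
    obtain ⟨y', rfl⟩ := h1 y
    obtain ⟨a, rfl⟩ := hγ n y'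
    exact ⟨a, rfl⟩
  set γT : ∀ n, P →ₐ[𝒪] MvPowerSeries σ (T n) := fun n => (Γ n).comp (γ' n) with hγT
  have hγTg : ∀ n a, γT n a = s59f_gammaT (T := T n) (γ n : P →+* MvPowerSeries σ (DQ n).R)
      (θ n : (DQ n).R →+* T' n) a := fun n a => rfl
  set sv : ∀ n, Fin r → MvPowerSeries σ (T n) := fun n i =>
    C (((uu n i : (T n)ˣ) : T n) - (((uu n i)⁻¹ : (T n)ˣ) : T n)) with hsv
  have h2T : ∀ n, IsUnit (2 : T n) := fun n => by
    have : (2 : T n) * algebraMap 𝒪 (T n) i2 = 1 := by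
      rw [← map_ofNat (algebraMap 𝒪 (T n)) 2, ← map_mul, hi2, map_one]
    exact IsUnit.of_mul_eq_one _ this
  have hsm0 : ∀ n i, ((uu n i : (T n)ˣ) : T n) - (((uu n i)⁻¹ : (T n)ˣ) : T n) ∈
      maximalIdeal (T n) := by
    intro n i
    have e : ((uu n i : (T n)ˣ) : T n) - (((uu n i)⁻¹ : (T n)ˣ) : T n) =
        (((uu n i : (T n)ˣ) : T n) - 1) +
          (((uu n i)⁻¹ : (T n)ˣ) : T n) * (((uu n i : (T n)ˣ) : T n) - 1) := by
      rw [mul_sub, Units.inv_mul, mul_one]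
      ring
    rw [e]
    exact Ideal.add_mem _ (huu n i) (Ideal.mul_mem_left _ _ (huu n i))
  have hsm : ∀ n i, sv n i ∈ maximalIdeal (MvPowerSeries σ (T n)) := fun n i =>
    s59i_C_mem_maximalIdeal _ (hsm0 n i)
  have hstdm : ∀ n j, std n (X j) ∈ maximalIdeal (MvPowerSeries σ (T n)) := by
    intro n j
    rw [hstdz, s59i_mem_maximalIdeal_iff_constantCoeff, MvPowerSeries.constantCoeff_X]
    exact Ideal.zero_mem _
  -- lifts of the framing variables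
  have hz : ∀ n j, ∃ z ∈ maximalIdeal P, γ n z = X j := by
    intro n j
    obtain ⟨z, hz⟩ := hγ n (X j)
    refine ⟨z, ?_, hz⟩
    rw [mem_maximalIdeal, mem_nonunits_iff]
    intro hu
    have h1 : IsUnit (X j : MvPowerSeries σ (DQ n).R) := hz ▸ hu.map (γ n)
    rw [MvPowerSeries.isUnit_iff_constantCoeff, MvPowerSeries.constantCoeff_X] at h1
    exact not_isUnit_zero h1
  choose z hzm hzγ using hz
  have hzγT : ∀ n j, γT n (z n j) = std n (X j) := by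
    intro n j
    rw [hstdz]
    show Γ n (γ' n (z n j)) = X j
    rw [hγ'map, hzγ, MvPowerSeries.map_X, hΓmap, MvPowerSeries.map_X]
  -- `Θ n`, `φ n`
  set Θ : ∀ n, MvPowerSeries (Fin r) P →+* MvPowerSeries σ (T n) := fun n =>
    s59i_Theta (γT n : P →+* MvPowerSeries σ (T n)) (sv n) (hsm n) with hΘdef
  have hΘC : ∀ n a, Θ n (C a) = γT n a := fun n a => s59i_Theta_C _ (sv n) (hsm n) a
  have hΘX : ∀ n i, Θ n (X i) = sv n i := fun n i => s59i_Theta_X _ (sv n) (hsm n) i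
  have hΘs : ∀ n, Function.Surjective (Θ n) := fun n =>
    s59i_Theta_surjective_of_units (γ' n : P →+* MvPowerSeries σ (T' n)) (hγ's n) (uu n) (huu n)
      (h2T n) (hgen n) (hsm n)
  choose φ hφΘ hφ1 hφ2 using fun n => s59i_phi_exists (γT n) (sv n) (hsm n) (std n) (hstdX n)
    (hstdm n) (z n) (hzm n) (hzγT n)
  have hφ0 : ∀ t n x', Θ n (φ n x') = (L0 t n).φ x' := fun t n x' =>
    (hφΘ n x').trans (hstd t n x').symm
  have hψsurj : ∀ t n, Function.Surjective ((L0 t n).ψ.comp (Θ n)) := fun t n =>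
    (L0 t n).ψ_surjective.comp (hΘs n)
  -- the maps to `D0.R`
  set ψP : ∀ n, P →+* D0.R := fun n =>
    (κ n : (DQ n).R →+* D0.R).comp ((constantCoeff (σ := σ) (R := (DQ n).R)).comp
      (γ n : P →+* MvPowerSeries σ (DQ n).R)) with hψP
  have hψPs : ∀ n, Function.Surjective (ψP n) := by
    intro n y
    obtain ⟨b, rfl⟩ := hκs n y
    obtain ⟨a, ha⟩ := hγ n (C b)
    refine ⟨a, ?_⟩
    show κ n (constantCoeff (γ n a)) = κ n b
    rw [ha, constantCoeff_C]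
  have h0m : ∀ i : Fin r, (fun _ : Fin r => (0 : D0.R)) i ∈ maximalIdeal D0.R :=
    fun _ => Ideal.zero_mem _
  set ψ₀ : ∀ n, MvPowerSeries (Fin r) P →+* D0.R := fun n =>
    s59i_Theta (ψP n) (fun _ => 0) h0m with hψ₀
  have hψ₀C : ∀ n a, ψ₀ n (C a) = ψP n a := fun n a => s59i_Theta_C _ _ h0m a
  have hψ₀X : ∀ n i, ψ₀ n (X i) = 0 := fun n i => s59i_Theta_X _ _ h0m i
  have hψ₀s : ∀ n, Function.Surjective (ψ₀ n) := fun n =>
    s59i_Theta_surjective _ _ h0m (hψPs n)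
  -- compatibility on `(DQ n).R⟦z⟧`
  have hcompat1 : ∀ t n (y : MvPowerSeries σ (DQ n).R),
      ν t (κ n (constantCoeff y)) =
        (L0 t n).ψ (MvPowerSeries.map (algebraMap (T' n) (T n))
          (MvPowerSeries.map (θ n : (DQ n).R →+* T' n) y)) := by
    intro t n
    have h1 : ((ν t : D0.R →+* R t).comp ((κ n : (DQ n).R →+* D0.R).comp
        (constantCoeff (σ := σ) (R := (DQ n).R)))) =
        ((L0 t n).ψ).comp ((MvPowerSeries.map (σ := σ) (algebraMap (T' n) (T n))).comp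
          (MvPowerSeries.map (σ := σ) (θ n : (DQ n).R →+* T' n))) := by
      refine s59i_ringHom_ext _ _ (fun b => ?_) (fun j => ?_) (fun j => ?_)
      · simp only [RingHom.comp_apply, constantCoeff_C, MvPowerSeries.map_C, RingHom.coe_coe]
        exact hf12' t n b
      · simp only [RingHom.comp_apply, constantCoeff_X, map_zero]
        exact Ideal.zero_mem _
      · simp only [RingHom.comp_apply, constantCoeff_X, map_zero, MvPowerSeries.map_X]
        exact (hψz t n j).symm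
    intro y
    exact congrArg (fun F : MvPowerSeries σ (DQ n).R →+* R t => F y) h1
  have hcompat : ∀ t n a, ν t (ψ₀ n a) = (L0 t n).ψ (Θ n a) := by
    intro t n
    have h1 : (ν t : D0.R →+* R t).comp (ψ₀ n) = ((L0 t n).ψ).comp (Θ n) := by
      refine s59i_ringHom_ext _ _ (fun a => ?_) (fun i => ?_) (fun i => ?_)
      · rw [RingHom.comp_apply, RingHom.comp_apply, hψ₀C, hΘC]
        exact hcompat1 t n (γ n a)
      · rw [RingHom.comp_apply, hψ₀X, map_zero]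
        exact Ideal.zero_mem _
      · rw [RingHom.comp_apply, RingHom.comp_apply, hψ₀X, map_zero, hΘX]
        exact (hψs t n i).symm
    intro a
    exact congrArg (fun F : MvPowerSeries (Fin r) P →+* R t => F a) h1
  -- `ψ₀ ∘ φ` kills `𝔞`
  have h𝔞0 : ∀ n, ∀ x' ∈ 𝔞, ψ₀ n (φ n x') = 0 := by
    intro n x' hx'
    have hx'' := h𝔞le hx'
    have : Ideal.span (Set.range (fun i : Fin r =>
        (C (X i) : MvPowerSeries σ (MvPowerSeries (Fin r) 𝒪))) ∪ Set.range (fun j : σ =>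
        (X j : MvPowerSeries σ (MvPowerSeries (Fin r) 𝒪)))) ≤
        RingHom.ker ((ψ₀ n).comp (φ n)) := by
      rw [Ideal.span_le]
      rintro _ (⟨i, rfl⟩ | ⟨j, rfl⟩)
      · show (ψ₀ n).comp (φ n) _ = 0
        rw [RingHom.comp_apply, hφ1, hψ₀X]
      · show (ψ₀ n).comp (φ n) _ = 0
        rw [RingHom.comp_apply, hφ2, hψ₀C]
        show κ n (constantCoeff (γ n (z n j))) = 0
        rw [hzγ, constantCoeff_X, map_zero]
    exact this hx''
  -- `𝔞 ≤ 𝔪_S`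
  have h𝔞m : 𝔞 ≤ maximalIdeal (MvPowerSeries σ (MvPowerSeries (Fin r) 𝒪)) := by
    refine h𝔞le.trans ?_
    rw [Ideal.span_le]
    rintro _ (⟨i, rfl⟩ | ⟨j, rfl⟩)
    · show _ ∈ maximalIdeal _
      rw [s59i_mem_maximalIdeal_iff_constantCoeff, constantCoeff_C,
        s59i_mem_maximalIdeal_iff_constantCoeff, constantCoeff_X]
      exact Ideal.zero_mem _
    · show _ ∈ maximalIdeal _
      rw [s59i_mem_maximalIdeal_iff_constantCoeff, constantCoeff_X]
      exact Ideal.zero_mem _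
  -- the module structures over `D0.R`
  letI instM0 : ∀ t, Module D0.R (M t) := fun t => Module.compHom (M t) (ν t : D0.R →+* R t)
  letI instMQ0 : ∀ t, Module D0.R (MQ t) := fun t =>
    Module.compHom (MQ t) (ν (t + 1) : D0.R →+* R (t + 1))
  -- the levels over `D0.R`
  set L : ∀ t n, s59p_Level (MvPowerSeries σ (MvPowerSeries (Fin r) 𝒪))
      (MvPowerSeries (Fin r) P) D0.R (M t) 𝔞 (J n) := fun t n =>
    s59f_retarget (s59i_restrict (L0 t n) (Θ n) (φ n) (hφ0 t n) (hψsurj t n))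
      (ν t : D0.R →+* R t) (ψ₀ n) (hψ₀s n) (hcompat t n) (h𝔞0 n) with hL
  -- the elements `tt n i`
  have ht0 : ∀ t₀ n i, ∃ t ∈ maximalIdeal P,
      γ n t = C (s59i_cpTr (DQ n).ρ (σQ t₀ n i) ^ 2 - 4) := by
    intro t₀ n i
    obtain ⟨t, ht⟩ := hγ n (C (s59i_cpTr (DQ n).ρ (σQ t₀ n i) ^ 2 - 4))
    refine ⟨t, ?_, ht⟩
    rw [mem_maximalIdeal, mem_nonunits_iff]
    intro hu
    have h1 : IsUnit (C (s59i_cpTr (DQ n).ρ (σQ t₀ n i) ^ 2 - 4) : MvPowerSeries σ (DQ n).R) :=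
      ht ▸ hu.map (γ n)
    rw [MvPowerSeries.isUnit_iff_constantCoeff, constantCoeff_C] at h1
    have h2 := h1.map (κ n : (DQ n).R →+* D0.R)
    have h3 : (κ n : (DQ n).R →+* D0.R) (s59i_cpTr (DQ n).ρ (σQ t₀ n i) ^ 2 - 4) = 0 := by
      show κ n _ = 0
      rw [map_sub, map_pow, hκtr, hunrQ, map_ofNat]
      norm_num
    rw [h3] at h2
    exact not_isUnit_zero h2
  choose tt httm httγ using ht0
  haveI : ∀ t, Module.Finite D0.R (M t) := by
    intro t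
    letI : Algebra D0.R (R t) := (ν t : D0.R →+* R t).toAlgebra
    haveI : IsScalarTower D0.R (R t) (M t) := ⟨fun a b m => by
      show (ν t a * b) • m = ν t a • (b • m)
      rw [mul_smul]⟩
    haveI : Module.Finite D0.R (R t) :=
      Module.Finite.of_surjective (Algebra.linearMap D0.R (R t)) (hνs t)
    exact Module.Finite.trans (R t) (M t)
  -- the annihilator transfer
  have hann : ∀ t n (a : MvPowerSeries (Fin r) P),
      Θ n a ∈ Module.annihilator (MvPowerSeries σ (T n)) (L0 t n).N →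
      a ∈ Module.annihilator (MvPowerSeries (Fin r) P) (L t n).N := fun t n a h =>
    s59i_restrict_ann (L0 t n) (Θ n) (φ n) (hφ0 t n) (hψsurj t n) a h
  have hmain := s59u_w_FLR_points_sq_pt (MvPowerSeries σ (MvPowerSeries (Fin r) 𝒪)) P r 𝔞 h𝔞m
    (fun n => J (n + 1)) (fun n => hJ (n + 1)) k (fun _ => D0.R) M MQ
    (fun t => s59f_linRetarget (ν (t + 1) : D0.R →+* R (t + 1)) (ρ t)) (fun t => hρ t)
    (fun t ht => hρinj t ht) (fun t n => L t (n + 1)) d (fun t n => hd t (n + 1))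
    (fun t => C (g11 t)) (fun t => C (g12 t)) (fun t => C (g21 t)) (fun t => C (g22 t)) δ bP ?_ 𝔫
    ?_
    s 𝒦 c hring ?_ (fun t n i => tt t (n + 1) i) (fun t n i => httm t (n + 1) i) ?_ I ?_ 𝔭₀ ?_
    h𝔭₀ 𝒪' x hx ?_ ?_ ?_
  · intro a ha
    refine hmain ?_
    rw [Module.mem_annihilator]
    intro m
    show (ν k a) • m = 0
    rw [RingHom.mem_ker] at ha
    have : ν k a = 0 := ha
    rw [this, zero_smul]
  · -- the Gram determinant
    intro t ht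
    show (C (g11 t) : MvPowerSeries (Fin r) P) * C (g22 t) - C (g12 t) * C (g21 t) = C (δ t)
    rw [← map_mul, ← map_mul, ← map_sub, hδ t ht]
  · -- the steps
    intro t ht n
    have h1 : s59b_TStepW (L0 t (n + 1)) (L0 (t + 1) (n + 1)) (Θ (n + 1) (C (g11 t)))
        (Θ (n + 1) (C (g12 t))) (Θ (n + 1) (C (g21 t))) (Θ (n + 1) (C (g22 t)))
        (Θ (n + 1) (C (bP t))) (ρ t) (𝔫U t (n + 1)) := by
      rw [hΘC, hΘC, hΘC, hΘC, hΘC]
      exact hT t ht (n + 1)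
    have h2 := s59u_w_TStepW_restrict (L0 t (n + 1)) (L0 (t + 1) (n + 1)) (Θ (n + 1)) (φ (n + 1))
      (hφ0 t (n + 1)) (hφ0 (t + 1) (n + 1)) (hψsurj t (n + 1)) (hψsurj (t + 1) (n + 1))
      (C (g11 t)) (C (g12 t)) (C (g21 t)) (C (g22 t)) (C (bP t)) (ρ t) (𝔫U t (n + 1))
      ((𝔫 t).map (C (σ := Fin r) (R := P))) ?_ h1
    · exact s59u_w_TStepW_retarget
        (s59i_restrict (L0 t (n + 1)) (Θ (n + 1)) (φ (n + 1)) (hφ0 t (n + 1)) (hψsurj t (n + 1)))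
        (s59i_restrict (L0 (t + 1) (n + 1)) (Θ (n + 1)) (φ (n + 1)) (hφ0 (t + 1) (n + 1))
          (hψsurj (t + 1) (n + 1)))
        (ν t : D0.R →+* R t) (ν (t + 1) : D0.R →+* R (t + 1))
        (hνs t) (hνs (t + 1)) (ψ₀ (n + 1)) (hψ₀s (n + 1)) (hcompat t (n + 1))
        (hcompat (t + 1) (n + 1)) (h𝔞0 (n + 1)) (h𝔞0 (n + 1)) (C (g11 t)) (C (g12 t)) (C (g21 t))
        (C (g22 t)) (C (bP t)) (ρ t) ((𝔫 t).map (C (σ := Fin r) (R := P))) h2
    · have h3 : (𝔫 t).map (C (σ := Fin r) (R := P)) ≤ Ideal.comap (Θ (n + 1)) (𝔫U t (n + 1)) := by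
        rw [Ideal.map_le_iff_le_comap]
        intro y hy
        rw [Ideal.mem_comap, Ideal.mem_comap, hΘC]
        exact h𝔫U t ht (n + 1) y hy
      intro a ha
      exact h3 ha
  · -- kill
    intro t ht n F hF
    refine hann t (n + 1) _ ?_
    rw [hΘC]
    exact hkill t ht (n + 1) F hF
  · -- the relations `s_i² = t_i`
    intro t ht n i
    have h1 : Θ (n + 1) (X i ^ 2 - C (tt t (n + 1) i)) =
        C ((((uu (n + 1) i : (T (n + 1))ˣ) : T (n + 1)) -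
            (((uu (n + 1) i)⁻¹ : (T (n + 1))ˣ) : T (n + 1))) ^ 2 -
          algebraMap (T' (n + 1)) (T (n + 1))
            (θ (n + 1) (s59i_cpTr (DQ (n + 1)).ρ (σQ t (n + 1) i) ^ 2 - 4))) := by
      rw [map_sub, map_pow, hΘX, hΘC]
      show sv (n + 1) i ^ 2 - Γ (n + 1) (γ' (n + 1) (tt t (n + 1) i)) = _
      rw [hγ'map, httγ, MvPowerSeries.map_C, hΓmap, MvPowerSeries.map_C, hsv, ← map_pow,
        ← map_sub]
      rfl
    refine hann t (n + 1) _ ?_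
    rw [h1]
    exact hC8 t ht (n + 1) i
  · -- the base point: the ideals `I i`
    intro i hi n
    have e : ((L 0 (n + 1)).ψ.comp (C (σ := Fin r) (R := P))) = ψP (n + 1) := by
      refine RingHom.ext fun a => ?_
      show ψ₀ (n + 1) (C a) = ψP (n + 1) a
      exact hψ₀C (n + 1) a
    show I i ≤ Ideal.map ((L 0 (n + 1)).ψ.comp (C (σ := Fin r) (R := P))) (𝒦 i)
    rw [e]
    exact hI i hi (n + 1)
  · -- the base point: the annihilator
    intro a ha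
    refine hM₀ a fun m => ?_
    exact Module.mem_annihilator.mp ha m
  · -- the point: the component
    intro g hg n
    show x (ψ₀ (n + 1) (C g)) = 0
    rw [hψ₀C]
    exact hxK g hg (n + 1)
  · -- the point: the variables
    intro i n
    show x (ψ₀ (n + 1) (X i)) = 0
    rw [hψ₀X, map_zero]
  · -- the point: the `t_i`
    intro i n
    show x (ψ₀ (n + 1) (C (tt k (n + 1) i))) = 0
    rw [hψ₀C]
    show x (κ (n + 1) (constantCoeff (γ (n + 1) (tt k (n + 1) i)))) = 0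
    rw [httγ, constantCoeff_C, map_sub, map_pow, hκtr, hunrQ, map_ofNat]
    norm_num

end Fermat.Agent.Lib.S59
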